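import Mathlib

/-!
# S55-KUMMER: Hilbert 90 and Kummer theory in level form (helper6119)

`Ω/K` is an arbitrary (possibly infinite) Galois extension, `G = Ω ≃ₐ[K] Ω`.

* `hilbert90_level` : a 1-cocycle `c : G → Ωˣ` that is right-invariant under the fixing subgroup of
  a finite subextension is a coboundary.
* `exists_kummer_generator` : if `K` contains a primitive `p`-th root of unity `ζ`, every
  homomorphism `χ : G →* Multiplicative (ZMod p)` that is trivial on the fixing subgroup of a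
  finite subextension is a Kummer character: there is `α : Ωˣ` with `α ^ p ∈ K` and
  `g α = ζ ^ (χ g) * α`.
-/

set_option autoImplicit false

namespace Fermat.Agent.S55.helper6119

open IntermediateField

section Hilbert90

variable {K Ω : Type*} [Field K] [Field Ω] [Algebra K Ω] [IsGalois K Ω]

omit [IsGalois K Ω] in
/-- A 1-cocycle takes the value `1` at `1`. -/
theorem cocycle_one (c : (Ω ≃ₐ[K] Ω) → Ωˣ)
    (hc : ∀ g h, c (g * h) = c g * Units.map (g : Ω →* Ω) (c h)) : c 1 = 1 := by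
  have h := hc 1 1
  have h1 : Units.map ((1 : Ω ≃ₐ[K] Ω) : Ω →* Ω) (c 1) = c 1 := by
    ext; simp
  rw [mul_one, h1] at h
  exact (mul_eq_left.mp h.symm)

/-- **Hilbert 90, level form.** A 1-cocycle `c : Gal(Ω/K) → Ωˣ` which is right-invariant under
the fixing subgroup of a finite subextension `L/K` is a coboundary. -/
theorem hilbert90_level (c : (Ω ≃ₐ[K] Ω) → Ωˣ)
    (hc : ∀ g h, c (g * h) = c g * Units.map (g : Ω →* Ω) (c h))
    (L : IntermediateField K Ω) [FiniteDimensional K L]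
    (hL : ∀ g, ∀ u ∈ L.fixingSubgroup, c (g * u) = c g) :
    ∃ b : Ωˣ, ∀ g : Ω ≃ₐ[K] Ω, c g = Units.map (g : Ω →* Ω) b / b := by
  classical
  -- pass to the normal closure
  let N : IntermediateField K Ω := normalClosure K L Ω
  have : FiniteDimensional K N := normalClosure.is_finiteDimensional K L Ω
  have : Normal K N := normalClosure.normal K L Ω
  have : IsGalois K N := ⟨⟩
  have hLN : L ≤ N := IntermediateField.le_normalClosure L
  have hUL : N.fixingSubgroup ≤ L.fixingSubgroup := IntermediateField.fixingSubgroup_le hLN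
  have hN : ∀ g, ∀ u ∈ N.fixingSubgroup, c (g * u) = c g := fun g u hu => hL g u (hUL hu)
  have hker : (AlgEquiv.restrictNormalHom N : (Ω ≃ₐ[K] Ω) →* (N ≃ₐ[K] N)).ker = N.fixingSubgroup :=
    IntermediateField.restrictNormalHom_ker N
  have hc1 : c 1 = 1 := cocycle_one c hc
  -- `c` is trivial on `U = N.fixingSubgroup`
  have hcU : ∀ u ∈ N.fixingSubgroup, c u = 1 := fun u hu => by
    have := hN 1 u hu
    rwa [one_mul, hc1] at this
  -- values of `c` are fixed by `U`, hence lie in `N`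
  have hfix : ∀ g, ∀ u ∈ N.fixingSubgroup, u (c g : Ω) = (c g : Ω) := by
    intro g u hu
    have hnorm : g⁻¹ * u * g ∈ N.fixingSubgroup := by
      rw [← hker] at hu ⊢
      have : (AlgEquiv.restrictNormalHom N : (Ω ≃ₐ[K] Ω) →* (N ≃ₐ[K] N)).ker.Normal :=
        MonoidHom.normal_ker _
      simpa [mul_assoc] using this.conj_mem u hu g⁻¹
    have h1 : c (u * g) = c g := by
      have : u * g = g * (g⁻¹ * u * g) := by group
      rw [this]; exact hN g _ hnorm
    have h2 : c (u * g) = c u * Units.map (u : Ω →* Ω) (c g) := hc u g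
    rw [hcU u hu, one_mul] at h2
    have h3 : Units.map (u : Ω →* Ω) (c g) = c g := h2.symm.trans h1
    have := congrArg Units.val h3
    simpa using this
  have hmem : ∀ g, (c g : Ω) ∈ N := by
    intro g
    have : (c g : Ω) ∈ IntermediateField.fixedField N.fixingSubgroup := by
      rw [IntermediateField.mem_fixedField_iff]
      intro u hu
      exact hfix g u hu
    rwa [InfiniteGalois.fixedField_fixingSubgroup] at this
  -- descend to `Gal(N/K)`
  have hsurj : Function.Surjective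
      (AlgEquiv.restrictNormalHom N : (Ω ≃ₐ[K] Ω) →* (N ≃ₐ[K] N)) :=
    AlgEquiv.restrictNormalHom_surjective Ω
  let s : (N ≃ₐ[K] N) → (Ω ≃ₐ[K] Ω) := fun σ => Classical.choose (hsurj σ)
  have hs : ∀ σ, AlgEquiv.restrictNormalHom N (s σ) = σ := fun σ => Classical.choose_spec (hsurj σ)
  -- independence of the lift
  have hlift : ∀ g g' : Ω ≃ₐ[K] Ω, AlgEquiv.restrictNormalHom N g = AlgEquiv.restrictNormalHom N g' →
      c g = c g' := by
    intro g g' h
    have hu : g'⁻¹ * g ∈ N.fixingSubgroup := by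
      rw [← hker, MonoidHom.mem_ker, map_mul, map_inv, h, inv_mul_cancel]
    have : g = g' * (g'⁻¹ * g) := by group
    rw [this]; exact hN g' _ hu
  -- the descended cocycle with values in `Nˣ`
  let cN : (N ≃ₐ[K] N) → Nˣ := fun σ =>
    Units.mk0 ⟨(c (s σ) : Ω), hmem (s σ)⟩ (by
      intro h
      have := congrArg Subtype.val h
      exact (c (s σ)).ne_zero this)
  have hcN_val : ∀ σ, ((cN σ : N) : Ω) = (c (s σ) : Ω) := fun σ => rfl
  have hres : ∀ (g : Ω ≃ₐ[K] Ω) (x : N),
      ((AlgEquiv.restrictNormalHom N g x : N) : Ω) = g (x : Ω) :=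
    fun g x => AlgEquiv.restrictNormalHom_apply N g x
  have hcoc : groupCohomology.IsMulCocycle₁ cN := by
    intro σ τ
    rw [AlgEquiv.smul_units_def]
    apply Units.ext
    apply Subtype.ext
    have e1 : c (s (σ * τ)) = c (s σ * s τ) := hlift _ _ (by rw [hs, map_mul, hs, hs])
    have e2 := congrArg Units.val (hc (s σ) (s τ))
    rw [Units.val_mul, Units.coe_map, MonoidHom.coe_coe] at e2
    have e4 : ((σ (cN τ : N) : N) : Ω) = (s σ) (c (s τ) : Ω) := by
      have := hres (s σ) (cN τ : N)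
      rw [hs] at this
      exact this
    show ((cN (σ * τ) : N) : Ω) = ((σ (cN τ : N) * (cN σ : N) : N) : Ω)
    rw [MulMemClass.coe_mul, e4, hcN_val, hcN_val, e1, e2, mul_comm]
  obtain ⟨β, hβ⟩ := groupCohomology.isMulCoboundary₁_of_isMulCocycle₁_of_aut_to_units cN hcoc
  -- transport back
  refine ⟨Units.map (algebraMap N Ω : N →* Ω) β, fun g => ?_⟩
  have hg : c g = c (s (AlgEquiv.restrictNormalHom N g)) := hlift _ _ (by rw [hs])
  have hβg := hβ (AlgEquiv.restrictNormalHom N g)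
  rw [AlgEquiv.smul_units_def, div_eq_iff_eq_mul] at hβg
  have h5 : ((AlgEquiv.restrictNormalHom N g (β : N) : N) : Ω) =
      ((cN (AlgEquiv.restrictNormalHom N g) : N) : Ω) * ((β : N) : Ω) := by
    have := congrArg (fun x : Nˣ => ((x : N) : Ω)) hβg
    exact this
  rw [hres g (β : N), hcN_val, ← hg] at h5
  rw [eq_div_iff_mul_eq']
  apply Units.ext
  rw [Units.val_mul, Units.coe_map, Units.coe_map]
  exact h5.symm

end Hilbert90

section Kummer

variable {K Ω : Type*} [Field K] [Field Ω] [Algebra K Ω]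
variable {p : ℕ} [Fact p.Prime]

/-- `ζ ^ (a + b).val = ζ ^ a.val * ζ ^ b.val` when `ζ ^ p = 1`. -/
theorem pow_val_add {R : Type*} [Monoid R] {ζ : R} (hζ : ζ ^ p = 1) (a b : ZMod p) :
    ζ ^ (a + b).val = ζ ^ a.val * ζ ^ b.val := by
  rw [ZMod.val_add, ← pow_add]
  conv_rhs => rw [← Nat.mod_add_div (a.val + b.val) p]
  rw [pow_add, pow_mul, hζ, one_pow, mul_one]

/-- For `α` with `α ^ p ∈ K` and `g ∈ Gal(Ω/K)` there is a unique exponent `k : ZMod p` with
`g α = ζ ^ k * α`. -/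
theorem existsUnique_kummer_exponent {ζ : K} (hζ : IsPrimitiveRoot ζ p) (α : Ωˣ)
    (hα : (α : Ω) ^ p ∈ Set.range (algebraMap K Ω)) (g : Ω ≃ₐ[K] Ω) :
    ∃! k : ZMod p, g (α : Ω) = algebraMap K Ω (ζ ^ k.val) * α := by
  have hp : p ≠ 0 := (Fact.out : p.Prime).ne_zero
  have : NeZero p := ⟨hp⟩
  have hζΩ : IsPrimitiveRoot (algebraMap K Ω ζ) p :=
    hζ.map_of_injective (algebraMap K Ω).injective
  obtain ⟨a, ha⟩ := hα
  have hgp : (g (α : Ω) / α) ^ p = 1 := by
    rw [div_pow, ← map_pow, ← ha, AlgEquiv.commutes]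
    exact div_self (by rw [ha]; exact pow_ne_zero _ α.ne_zero)
  obtain ⟨i, hi, hξ⟩ := hζΩ.eq_pow_of_pow_eq_one hgp
  refine ⟨(i : ZMod p), ?_, ?_⟩
  · show g (α : Ω) = algebraMap K Ω (ζ ^ ((i : ZMod p)).val) * α
    rw [ZMod.val_natCast_of_lt hi, map_pow, hξ, div_mul_cancel₀ _ α.ne_zero]
  · intro k hk
    have h1 : algebraMap K Ω ζ ^ k.val = algebraMap K Ω ζ ^ i := by
      rw [hξ, hk, map_pow, mul_div_assoc, div_self α.ne_zero, mul_one]
    have h2 : k.val = i := hζΩ.pow_inj (ZMod.val_lt k) hi h1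
    rw [← h2, ZMod.natCast_zmod_val]

/-- The **Kummer character** of a `p`-th root `α` of an element of `K`:
`g α = ζ ^ (kummerChar hζ α hα g) * α`. -/
noncomputable def kummerChar {ζ : K} (hζ : IsPrimitiveRoot ζ p) (α : Ωˣ)
    (hα : (α : Ω) ^ p ∈ Set.range (algebraMap K Ω)) : (Ω ≃ₐ[K] Ω) →* Multiplicative (ZMod p) where
  toFun g := Multiplicative.ofAdd (existsUnique_kummer_exponent hζ α hα g).exists.choose
  map_one' := by
    have h := (existsUnique_kummer_exponent hζ α hα (1 : Ω ≃ₐ[K] Ω)).unique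
      (existsUnique_kummer_exponent hζ α hα (1 : Ω ≃ₐ[K] Ω)).exists.choose_spec
      (y₂ := 0) (by simp)
    rw [h]; rfl
  map_mul' g h := by
    have hg := (existsUnique_kummer_exponent hζ α hα g).exists.choose_spec
    have hh := (existsUnique_kummer_exponent hζ α hα h).exists.choose_spec
    set kg := (existsUnique_kummer_exponent hζ α hα g).exists.choose
    set kh := (existsUnique_kummer_exponent hζ α hα h).exists.choose
    have hgh := (existsUnique_kummer_exponent hζ α hα (g * h)).unique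
      (existsUnique_kummer_exponent hζ α hα (g * h)).exists.choose_spec
      (y₂ := kg + kh) (by
        rw [AlgEquiv.mul_apply, hh, map_mul, AlgEquiv.commutes, hg, pow_val_add hζ.pow_eq_one,
          map_mul]
        ring)
    rw [hgh]; rfl

theorem kummerChar_spec {ζ : K} (hζ : IsPrimitiveRoot ζ p) (α : Ωˣ)
    (hα : (α : Ω) ^ p ∈ Set.range (algebraMap K Ω)) (g : Ω ≃ₐ[K] Ω) :
    g (α : Ω) = algebraMap K Ω (ζ ^ (Multiplicative.toAdd (kummerChar hζ α hα g)).val) * α :=
  (existsUnique_kummer_exponent hζ α hα g).exists.choose_spec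

/-- Characterisation of the Kummer character by its defining property. -/
theorem kummerChar_eq_of_spec {ζ : K} (hζ : IsPrimitiveRoot ζ p) (α : Ωˣ)
    (hα : (α : Ω) ^ p ∈ Set.range (algebraMap K Ω)) (g : Ω ≃ₐ[K] Ω) (k : ZMod p)
    (hk : g (α : Ω) = algebraMap K Ω (ζ ^ k.val) * α) :
    kummerChar hζ α hα g = Multiplicative.ofAdd k :=
  congrArg Multiplicative.ofAdd
    ((existsUnique_kummer_exponent hζ α hα g).unique (kummerChar_spec hζ α hα g) hk)

theorem kummerChar_apply_eq_one_iff {ζ : K} (hζ : IsPrimitiveRoot ζ p) (α : Ωˣ)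
    (hα : (α : Ω) ^ p ∈ Set.range (algebraMap K Ω)) (g : Ω ≃ₐ[K] Ω) :
    kummerChar hζ α hα g = 1 ↔ g (α : Ω) = α := by
  constructor
  · intro h
    have := kummerChar_spec hζ α hα g
    rw [h] at this
    simpa using this
  · intro h
    exact kummerChar_eq_of_spec hζ α hα g 0 (by simp [h])

/-- The Kummer character is trivial on the fixing subgroup of `K(α)`. -/
theorem fixingSubgroup_adjoin_le_ker_kummerChar {ζ : K} (hζ : IsPrimitiveRoot ζ p) (α : Ωˣ)
    (hα : (α : Ω) ^ p ∈ Set.range (algebraMap K Ω)) :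
    (K⟮(α : Ω)⟯).fixingSubgroup ≤ (kummerChar hζ α hα).ker := by
  intro g hg
  rw [MonoidHom.mem_ker, kummerChar_apply_eq_one_iff]
  exact (IntermediateField.mem_fixingSubgroup_iff _ g).mp hg _
    (IntermediateField.mem_adjoin_simple_self K (α : Ω))

/-- `K(α)` is finite over `K` when `α ^ p ∈ K`. -/
theorem finiteDimensional_adjoin_root (α : Ωˣ)
    (hα : (α : Ω) ^ p ∈ Set.range (algebraMap K Ω)) : FiniteDimensional K K⟮(α : Ω)⟯ := by
  apply IntermediateField.adjoin.finiteDimensional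
  obtain ⟨a, ha⟩ := hα
  have hp : 0 < p := (Fact.out : p.Prime).pos
  refine ⟨Polynomial.X ^ p - Polynomial.C a, Polynomial.monic_X_pow_sub_C a hp.ne', ?_⟩
  simp [ha]

/-- The Kummer character is multiplicative in `α`. -/
theorem kummerChar_mul {ζ : K} (hζ : IsPrimitiveRoot ζ p) (α β : Ωˣ)
    (hα : (α : Ω) ^ p ∈ Set.range (algebraMap K Ω))
    (hβ : (β : Ω) ^ p ∈ Set.range (algebraMap K Ω))
    (hαβ : ((α * β : Ωˣ) : Ω) ^ p ∈ Set.range (algebraMap K Ω)) :
    kummerChar hζ (α * β) hαβ = kummerChar hζ α hα * kummerChar hζ β hβ := by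
  ext g
  refine kummerChar_eq_of_spec hζ (α * β) hαβ g
    (Multiplicative.toAdd (kummerChar hζ α hα g) + Multiplicative.toAdd (kummerChar hζ β hβ g)) ?_
  rw [Units.val_mul, map_mul, kummerChar_spec hζ α hα g, kummerChar_spec hζ β hβ g,
    pow_val_add hζ.pow_eq_one, map_mul]
  ring

omit [Fact p.Prime] in
/-- The product of two elements with `p`-th power in `K` has `p`-th power in `K`. -/
theorem mul_pow_mem_range (α β : Ωˣ)
    (hα : (α : Ω) ^ p ∈ Set.range (algebraMap K Ω))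
    (hβ : (β : Ω) ^ p ∈ Set.range (algebraMap K Ω)) :
    ((α * β : Ωˣ) : Ω) ^ p ∈ Set.range (algebraMap K Ω) := by
  obtain ⟨a, ha⟩ := hα
  obtain ⟨b, hb⟩ := hβ
  exact ⟨a * b, by rw [map_mul, ha, hb, Units.val_mul, mul_pow]⟩

/-- The Kummer character only depends on `α ^ p`. -/
theorem kummerChar_congr {ζ : K} (hζ : IsPrimitiveRoot ζ p) (α β : Ωˣ)
    (hα : (α : Ω) ^ p ∈ Set.range (algebraMap K Ω))
    (hβ : (β : Ω) ^ p ∈ Set.range (algebraMap K Ω))
    (h : (α : Ω) ^ p = (β : Ω) ^ p) :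
    kummerChar hζ α hα = kummerChar hζ β hβ := by
  have hp : p ≠ 0 := (Fact.out : p.Prime).ne_zero
  have : NeZero p := ⟨hp⟩
  have hζΩ : IsPrimitiveRoot (algebraMap K Ω ζ) p :=
    hζ.map_of_injective (algebraMap K Ω).injective
  have h1 : ((α : Ω) / β) ^ p = 1 := by
    rw [div_pow, h]; exact div_self (pow_ne_zero _ β.ne_zero)
  obtain ⟨i, -, hi⟩ := hζΩ.eq_pow_of_pow_eq_one h1
  have hαβ : (α : Ω) = algebraMap K Ω (ζ ^ i) * β := by
    rw [map_pow, hi, div_mul_cancel₀ _ β.ne_zero]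
  ext g
  exact kummerChar_eq_of_spec hζ α hα g (Multiplicative.toAdd (kummerChar hζ β hβ g)) (by
    rw [hαβ, map_mul, AlgEquiv.commutes, kummerChar_spec hζ β hβ g]
    ring)

variable [IsGalois K Ω]

/-- The Kummer character of `α` is trivial iff `α ∈ K`. -/
theorem kummerChar_eq_one_iff {ζ : K} (hζ : IsPrimitiveRoot ζ p) (α : Ωˣ)
    (hα : (α : Ω) ^ p ∈ Set.range (algebraMap K Ω)) :
    kummerChar hζ α hα = 1 ↔ (α : Ω) ∈ Set.range (algebraMap K Ω) := by
  rw [InfiniteGalois.mem_range_algebraMap_iff_fixed]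
  constructor
  · intro h g
    rw [← kummerChar_apply_eq_one_iff hζ α hα g, h]; rfl
  · intro h
    ext g
    rw [(kummerChar_apply_eq_one_iff hζ α hα g).mpr (h g)]; rfl

/-- **Kummer surjectivity, level form.** If `K` contains a primitive `p`-th root of unity, every
character `χ : Gal(Ω/K) →* ZMod p` which is trivial on the fixing subgroup of a finite
subextension is the Kummer character of some `α ∈ Ωˣ` with `α ^ p ∈ K`. -/
theorem exists_kummer_generator {ζ : K} (hζ : IsPrimitiveRoot ζ p)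
    (χ : (Ω ≃ₐ[K] Ω) →* Multiplicative (ZMod p))
    (L : IntermediateField K Ω) [FiniteDimensional K L] (hL : L.fixingSubgroup ≤ χ.ker) :
    ∃ (α : Ωˣ) (hα : (α : Ω) ^ p ∈ Set.range (algebraMap K Ω)), kummerChar hζ α hα = χ := by
  have hp : p ≠ 0 := (Fact.out : p.Prime).ne_zero
  have hζ0 : ζ ≠ 0 := hζ.ne_zero hp
  -- the cocycle `g ↦ ζ ^ χ(g)`
  let c : (Ω ≃ₐ[K] Ω) → Ωˣ := fun g =>
    Units.mk0 (algebraMap K Ω (ζ ^ (Multiplicative.toAdd (χ g)).val))
      (by rw [Ne, map_eq_zero]; exact pow_ne_zero _ hζ0)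
  have hc : ∀ g h, c (g * h) = c g * Units.map (g : Ω →* Ω) (c h) := by
    intro g h
    apply Units.ext
    simp only [c, Units.val_mul, Units.val_mk0, Units.coe_map, MonoidHom.coe_coe,
      AlgEquiv.commutes, map_mul, toAdd_mul, pow_val_add hζ.pow_eq_one]
  have hcL : ∀ g, ∀ u ∈ L.fixingSubgroup, c (g * u) = c g := by
    intro g u hu
    have : χ u = 1 := hL hu
    simp only [c, map_mul, this, mul_one]
  obtain ⟨b, hb⟩ := hilbert90_level c hc L hcL
  have hgb : ∀ g : Ω ≃ₐ[K] Ω,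
      g (b : Ω) = algebraMap K Ω (ζ ^ (Multiplicative.toAdd (χ g)).val) * b := by
    intro g
    have := congrArg Units.val (hb g)
    rw [Units.val_div_eq_div_val, Units.coe_map, MonoidHom.coe_coe] at this
    rw [eq_div_iff b.ne_zero] at this
    exact this.symm
  have hbp : (b : Ω) ^ p ∈ Set.range (algebraMap K Ω) := by
    rw [InfiniteGalois.mem_range_algebraMap_iff_fixed]
    intro g
    rw [map_pow, hgb g, mul_pow, ← map_pow, ← pow_mul,
      mul_comm (Multiplicative.toAdd (χ g)).val p, pow_mul, hζ.pow_eq_one, one_pow,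
      map_one, one_mul]
  refine ⟨b, hbp, ?_⟩
  ext g
  exact kummerChar_eq_of_spec hζ b hbp g _ (hgb g)

end Kummer

section KummerHom

variable (K Ω : Type*) [Field K] [Field Ω] [Algebra K Ω]
variable (p : ℕ) [Fact p.Prime]

/-- The subgroup of `Kˣ` of elements having a `p`-th root in `Ω`. -/
def kummerSubgroup : Subgroup Kˣ where
  carrier := {a | ∃ α : Ωˣ, (α : Ω) ^ p = algebraMap K Ω a}
  one_mem' := ⟨1, by simp⟩
  mul_mem' := by
    rintro a b ⟨α, hα⟩ ⟨β, hβ⟩
    exact ⟨α * β, by rw [Units.val_mul, mul_pow, hα, hβ, Units.val_mul, map_mul]⟩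
  inv_mem' := by
    rintro a ⟨α, hα⟩
    exact ⟨α⁻¹, by rw [Units.val_inv_eq_inv_val, inv_pow, hα, Units.val_inv_eq_inv_val, map_inv₀]⟩

/-- The subgroup of characters `Gal(Ω/K) →* ZMod p` which are trivial on the fixing subgroup of
some finite subextension ("level-constant characters"). -/
def levelCharSubgroup : Subgroup ((Ω ≃ₐ[K] Ω) →* Multiplicative (ZMod p)) where
  carrier := {χ | ∃ L : IntermediateField K Ω, FiniteDimensional K L ∧ L.fixingSubgroup ≤ χ.ker}
  one_mem' := ⟨⊥, inferInstance, fun g _ => by simp⟩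
  mul_mem' := by
    rintro χ ψ ⟨L, hL, hχ⟩ ⟨M, hM, hψ⟩
    refine ⟨L ⊔ M, inferInstance, fun g hg => ?_⟩
    have h1 : g ∈ χ.ker := hχ (IntermediateField.fixingSubgroup_le le_sup_left hg)
    have h2 : g ∈ ψ.ker := hψ (IntermediateField.fixingSubgroup_le le_sup_right hg)
    rw [MonoidHom.mem_ker] at h1 h2 ⊢
    rw [MonoidHom.mul_apply, h1, h2, one_mul]
  inv_mem' := by
    rintro χ ⟨L, hL, hχ⟩
    refine ⟨L, hL, fun g hg => ?_⟩
    have h1 : g ∈ χ.ker := hχ hg
    rw [MonoidHom.mem_ker] at h1 ⊢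
    rw [MonoidHom.inv_apply, h1, inv_one]

variable {K Ω p}

omit [Fact p.Prime] in
theorem mem_kummerSubgroup_iff (a : Kˣ) :
    a ∈ kummerSubgroup K Ω p ↔ ∃ α : Ωˣ, (α : Ω) ^ p = algebraMap K Ω a := Iff.rfl

theorem mem_levelCharSubgroup_iff (χ : (Ω ≃ₐ[K] Ω) →* Multiplicative (ZMod p)) :
    χ ∈ levelCharSubgroup K Ω p ↔
      ∃ L : IntermediateField K Ω, FiniteDimensional K L ∧ L.fixingSubgroup ≤ χ.ker := Iff.rfl

/-- If every element of `K` has a `p`-th root in `Ω`, the Kummer subgroup is everything. -/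
theorem kummerSubgroup_eq_top (hroot : ∀ a : K, ∃ α : Ω, α ^ p = algebraMap K Ω a) :
    kummerSubgroup K Ω p = ⊤ := by
  have hp : p ≠ 0 := (Fact.out : p.Prime).ne_zero
  rw [eq_top_iff]
  intro a _
  obtain ⟨α, hα⟩ := hroot (a : K)
  have hα0 : α ≠ 0 := by
    rintro rfl
    rw [zero_pow hp] at hα
    exact a.ne_zero ((algebraMap K Ω).injective (by rw [← hα, map_zero]))
  exact (mem_kummerSubgroup_iff a).mpr ⟨Units.mk0 α hα0, hα⟩

/-- A chosen `p`-th root in `Ω` of an element of the Kummer subgroup. -/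
noncomputable def kummerRoot (a : kummerSubgroup K Ω p) : Ωˣ :=
  ((mem_kummerSubgroup_iff (a : Kˣ)).mp a.2).choose

omit [Fact p.Prime] in
theorem kummerRoot_pow (a : kummerSubgroup K Ω p) :
    ((kummerRoot a : Ωˣ) : Ω) ^ p = algebraMap K Ω ((a : Kˣ) : K) :=
  ((mem_kummerSubgroup_iff (a : Kˣ)).mp a.2).choose_spec

omit [Fact p.Prime] in
theorem kummerRoot_pow_mem (a : kummerSubgroup K Ω p) :
    ((kummerRoot a : Ωˣ) : Ω) ^ p ∈ Set.range (algebraMap K Ω) :=
  Set.mem_range.mpr ⟨_, (kummerRoot_pow a).symm⟩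

/-- The **Kummer homomorphism** `a ↦ χ_a` on the elements of `Kˣ` with a `p`-th root in `Ω`. -/
noncomputable def kummerHom {ζ : K} (hζ : IsPrimitiveRoot ζ p) :
    kummerSubgroup K Ω p →* ((Ω ≃ₐ[K] Ω) →* Multiplicative (ZMod p)) where
  toFun a := kummerChar hζ (kummerRoot a) (kummerRoot_pow_mem a)
  map_one' := by
    have h1 : ((1 : Ωˣ) : Ω) ^ p ∈ Set.range (algebraMap K Ω) :=
      Set.mem_range.mpr ⟨1, by simp⟩
    refine (kummerChar_congr hζ (kummerRoot 1) 1 (kummerRoot_pow_mem 1) h1 ?_).trans ?_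
    · rw [kummerRoot_pow]; simp
    · ext g
      exact kummerChar_eq_of_spec hζ 1 h1 g 0 (by simp)
  map_mul' a b := by
    refine (kummerChar_congr hζ (kummerRoot (a * b)) (kummerRoot a * kummerRoot b)
      (kummerRoot_pow_mem (a * b))
      (mul_pow_mem_range _ _ (kummerRoot_pow_mem a) (kummerRoot_pow_mem b)) ?_).trans
      (kummerChar_mul hζ _ _ _ _ _)
    rw [kummerRoot_pow, Units.val_mul, mul_pow, kummerRoot_pow, kummerRoot_pow]
    simp

theorem kummerHom_apply {ζ : K} (hζ : IsPrimitiveRoot ζ p) (a : kummerSubgroup K Ω p) (α : Ωˣ)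
    (hα : (α : Ω) ^ p = algebraMap K Ω ((a : Kˣ) : K)) :
    kummerHom hζ a = kummerChar hζ α (Set.mem_range.mpr ⟨((a : Kˣ) : K), hα.symm⟩) :=
  kummerChar_congr hζ (kummerRoot a) α (kummerRoot_pow_mem a) _ (by rw [kummerRoot_pow, hα])

/-- Defining property of the Kummer homomorphism. -/
theorem kummerHom_spec {ζ : K} (hζ : IsPrimitiveRoot ζ p) (a : kummerSubgroup K Ω p) (α : Ωˣ)
    (hα : (α : Ω) ^ p = algebraMap K Ω ((a : Kˣ) : K)) (g : Ω ≃ₐ[K] Ω) :
    g (α : Ω) = algebraMap K Ω (ζ ^ (Multiplicative.toAdd (kummerHom hζ a g)).val) * α := by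
  rw [kummerHom_apply hζ a α hα]
  exact kummerChar_spec hζ α _ g

/-- The Kummer character of `a` is trivial on the fixing subgroup of the finite extension
`K(α)`, `α ^ p = a`. -/
theorem kummerHom_mem_levelCharSubgroup {ζ : K} (hζ : IsPrimitiveRoot ζ p)
    (a : kummerSubgroup K Ω p) : kummerHom hζ a ∈ levelCharSubgroup K Ω p := by
  obtain ⟨α, hα⟩ := (mem_kummerSubgroup_iff (a : Kˣ)).mp a.2
  rw [kummerHom_apply hζ a α hα]
  exact (mem_levelCharSubgroup_iff _).mpr
    ⟨K⟮(α : Ω)⟯, finiteDimensional_adjoin_root α (Set.mem_range.mpr ⟨_, hα.symm⟩),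
      fixingSubgroup_adjoin_le_ker_kummerChar hζ α _⟩

variable [IsGalois K Ω]

/-- The kernel of the Kummer homomorphism consists of the `p`-th powers of `Kˣ`. -/
theorem kummerHom_eq_one_iff {ζ : K} (hζ : IsPrimitiveRoot ζ p) (a : kummerSubgroup K Ω p) :
    kummerHom hζ a = 1 ↔ ∃ b : Kˣ, b ^ p = (a : Kˣ) := by
  obtain ⟨α, hα⟩ := (mem_kummerSubgroup_iff (a : Kˣ)).mp a.2
  rw [kummerHom_apply hζ a α hα, kummerChar_eq_one_iff, Set.mem_range]
  constructor
  · rintro ⟨b, hb⟩
    have hb0 : b ≠ 0 := by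
      rintro rfl
      rw [map_zero] at hb
      exact α.ne_zero hb.symm
    refine ⟨Units.mk0 b hb0, Units.ext ?_⟩
    apply (algebraMap K Ω).injective
    rw [Units.val_pow_eq_pow_val, Units.val_mk0, map_pow, hb, hα]
  · rintro ⟨b, hb⟩
    -- `algebraMap b` is another `p`-th root, so `α = ζ^i * b ∈ K`
    have hp : p ≠ 0 := (Fact.out : p.Prime).ne_zero
    have : NeZero p := ⟨hp⟩
    have hζΩ : IsPrimitiveRoot (algebraMap K Ω ζ) p :=
      hζ.map_of_injective (algebraMap K Ω).injective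
    have hbΩ : algebraMap K Ω (b : K) ≠ 0 := by
      rw [Ne, map_eq_zero]; exact b.ne_zero
    have h1 : ((α : Ω) / algebraMap K Ω (b : K)) ^ p = 1 := by
      rw [div_pow, hα, ← hb, Units.val_pow_eq_pow_val, map_pow]
      exact div_self (pow_ne_zero _ hbΩ)
    obtain ⟨i, -, hi⟩ := hζΩ.eq_pow_of_pow_eq_one h1
    refine ⟨ζ ^ i * b, ?_⟩
    rw [map_mul, map_pow, hi, div_mul_cancel₀ _ hbΩ]

theorem kummerHom_ker {ζ : K} (hζ : IsPrimitiveRoot ζ p) :
    (kummerHom (Ω := Ω) hζ).ker =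
      ((powMonoidHom p : Kˣ →* Kˣ).range).subgroupOf (kummerSubgroup K Ω p) := by
  ext a
  rw [MonoidHom.mem_ker, kummerHom_eq_one_iff, Subgroup.mem_subgroupOf, MonoidHom.mem_range]
  rfl

/-- **Kummer theory, level form**: the image of the Kummer homomorphism is exactly the group of
level-constant characters. -/
theorem kummerHom_range {ζ : K} (hζ : IsPrimitiveRoot ζ p) :
    (kummerHom (Ω := Ω) hζ).range = levelCharSubgroup K Ω p := by
  ext χ
  constructor
  · rintro ⟨a, rfl⟩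
    exact kummerHom_mem_levelCharSubgroup hζ a
  · intro hχ
    obtain ⟨L, hL, hχ⟩ := (mem_levelCharSubgroup_iff χ).mp hχ
    obtain ⟨α, hα, rfl⟩ := exists_kummer_generator hζ χ L hχ
    obtain ⟨a, ha⟩ := Set.mem_range.mp hα
    have ha0 : a ≠ 0 := by
      rintro rfl
      rw [map_zero] at ha
      exact pow_ne_zero _ α.ne_zero ha.symm
    exact ⟨⟨Units.mk0 a ha0, (mem_kummerSubgroup_iff _).mpr ⟨α, ha.symm⟩⟩,
      kummerHom_apply hζ _ α ha.symm⟩

/-- **Kummer isomorphism** `(Kˣ ∩ Ωˣᵖ)/Kˣᵖ ≃ {level-constant characters of Gal(Ω/K)}`. -/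
noncomputable def kummerEquiv {ζ : K} (hζ : IsPrimitiveRoot ζ p) :
    (kummerSubgroup K Ω p ⧸
        ((powMonoidHom p : Kˣ →* Kˣ).range).subgroupOf (kummerSubgroup K Ω p)) ≃*
      levelCharSubgroup K Ω p :=
  (QuotientGroup.quotientMulEquivOfEq (kummerHom_ker hζ).symm).trans
    ((QuotientGroup.quotientKerEquivRange (kummerHom (Ω := Ω) hζ)).trans
      (MulEquiv.subgroupCongr (kummerHom_range hζ)))

/-- If every element of `K` has a `p`-th root in `Ω` (e.g. `Ω` separably closed), the number of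
level-constant characters `Gal(Ω/K) →* ZMod p` equals the index of the `p`-th powers in `Kˣ`. -/
theorem card_levelCharSubgroup_eq {ζ : K} (hζ : IsPrimitiveRoot ζ p)
    (hroot : ∀ a : K, ∃ α : Ω, α ^ p = algebraMap K Ω a) :
    Nat.card (levelCharSubgroup K Ω p) =
      Nat.card (Kˣ ⧸ (powMonoidHom p : Kˣ →* Kˣ).range) := by
  rw [← Nat.card_congr (kummerEquiv (Ω := Ω) hζ).toEquiv]
  have htop := kummerSubgroup_eq_top (K := K) (Ω := Ω) (p := p) hroot
  rw [← Subgroup.index_eq_card, ← Subgroup.index_eq_card, Subgroup.index, Subgroup.index]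
  show ((powMonoidHom p : Kˣ →* Kˣ).range).relIndex (kummerSubgroup K Ω p) = _
  rw [htop, Subgroup.relIndex_top_right]
  rfl

end KummerHom

end Fermat.Agent.S55.helper6119
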