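import Fermat.Agent.Lib.helper954_QbarPlaces
import Fermat.Agent.Lib.helper54_LocalSplit2
import Fermat.Prelude.Def_GaloisRep_CompletionBridge
import Fermat.Prelude.Def_ExtEndgame_ProductionDatum

/-!
# Places of a number field `F ≤ ℚ̄` over a prime `q` = double cosets (helper4727, S55-PLACES)

`F : IntermediateField ℚ ℚ̄` finite over `ℚ` (no Galois hypothesis), `q` a prime,
`A₀ := padicPlace q`, `D_q := A₀.decompositionSubgroup ℚ`, `H := F.fixingSubgroup`.

* `exists_mem_fixingSubgroup_smul_eq`: `H` acts transitively on the valuation subrings of `ℚ̄`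
  cutting out a given prime of `𝓞 F`.
* `placeOf q F g : HeightOneSpectrum (𝓞 F)`: the prime of `𝓞 F` cut out by `g • padicPlace q`,
  i.e. `{a | ‖padicEmbedding q (g⁻¹ a)‖ < 1}`.
* `placeOf_eq_iff`: `placeOf q F g = placeOf q F g' ↔ g' ∈ H g D_q`.
* `placeOf_surjective`: every prime of `𝓞 F` containing `q` is a `placeOf q F g`.
* `placesEquiv`: `H \ G_ℚ / D_q ≃ {v : HeightOneSpectrum (𝓞 F) // (q : 𝓞 F) ∈ v.asIdeal}`.
* `placeOf_valuation_le_one_iff` (and `<`, `=`): valuation dictionary at every place.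
-/

set_option autoImplicit false

namespace Fermat.Agent.S55.helper4727

open scoped Pointwise NumberField NNReal
open Fermat.Agent.Lib.helper54 Fermat.Agent.Lib.helper954
open IsDedekindDomain

attribute [local instance] isAlgebraic_Qbar isAlgClosure_Qbar isGalois_Qbar isIntegral_Qbar
attribute [local instance] numberField_intermediate

local notation "Qb" => AlgebraicClosure ℚ
local notation "GQ" => (AlgebraicClosure ℚ ≃ₐ[ℚ] AlgebraicClosure ℚ)
local notation "Zb" => integralClosure ℤ (AlgebraicClosure ℚ)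

/-! ### Transitivity of `Gal(ℚ̄/F)` on the places of `ℚ̄` over a prime of `𝓞 F` -/

section General

variable (F : IntermediateField ℚ Qb) [FiniteDimensional ℚ F]

attribute [local instance] algebraOLZbar

/-- Elements of the fixing subgroup of `F` fix the image of `𝓞 F` in `ℤ̄`. -/
theorem smul_oLToZbar_of_mem_fixingSubgroup (h : GQ) (hh : h ∈ F.fixingSubgroup) (a : 𝓞 F) :
    h • oLToZbar F a = oLToZbar F a := by
  apply Subtype.ext
  exact (IntermediateField.mem_fixingSubgroup_iff F h).1 hh _ (a : F).2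

/-- An element of `ℤ̄` fixed by the fixing subgroup of `F` comes from `𝓞 F`. -/
theorem exists_oLToZbar_eq_of_fixed (b : Zb)
    (hb : ∀ h : GQ, h ∈ F.fixingSubgroup → h • b = b) : ∃ a : 𝓞 F, oLToZbar F a = b := by
  have h1 : (b : Qb) ∈ IntermediateField.fixedField F.fixingSubgroup := by
    rw [IntermediateField.mem_fixedField_iff]
    intro h hh
    exact congrArg Subtype.val (hb h hh)
  rw [InfiniteGalois.fixedField_fixingSubgroup] at h1
  have h2 : IsIntegral ℤ (⟨(b : Qb), h1⟩ : F) := by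
    have h3 : IsIntegral ℤ (algebraMap F Qb ⟨(b : Qb), h1⟩) := b.2
    exact (isIntegral_algHom_iff (IsScalarTower.toAlgHom ℤ F Qb) (algebraMap F Qb).injective).mp h3
  exact ⟨⟨⟨(b : Qb), h1⟩, h2⟩, Subtype.ext rfl⟩

/-- `Gal(ℚ̄/F)` acts transitively on the primes of `ℤ̄` over a given prime of `𝓞 F`. -/
theorem exists_mem_fixingSubgroup_smul_prime_eq (A A' : ValuationSubring Qb)
    (h : primeOL F A = primeOL F A') :
    ∃ g : GQ, g ∈ F.fixingSubgroup ∧
      primeOfValuationSubring A' = g • primeOfValuationSubring A := by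
  classical
  let : TopologicalSpace Zb := ⊥
  have : DiscreteTopology Zb := ⟨rfl⟩
  have : ContinuousSMul GQ Zb := continuousSMul_zbar
  have : CompactSpace F.fixingSubgroup :=
    isCompact_iff_compactSpace.mp (IntermediateField.fixingSubgroup_isClosed F).isCompact
  have : SMulCommClass F.fixingSubgroup (𝓞 F) Zb := by
    refine ⟨fun h a b => ?_⟩
    rw [Algebra.smul_def, Algebra.smul_def, Subgroup.smul_def, Subgroup.smul_def, smul_mul',
      algebraMap_oL_zbar, smul_oLToZbar_of_mem_fixingSubgroup F h.1 h.2]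
  have : Algebra.IsInvariant (𝓞 F) Zb F.fixingSubgroup := by
    refine ⟨fun b hb => ?_⟩
    exact exists_oLToZbar_eq_of_fixed F b (fun h hh => hb ⟨h, hh⟩)
  have hunder : (primeOfValuationSubring A).under (𝓞 F) =
      (primeOfValuationSubring A').under (𝓞 F) := h
  obtain ⟨g, hg⟩ := Algebra.IsInvariant.exists_smul_of_under_eq_of_profinite
    (A := 𝓞 F) (B := Zb) (G := F.fixingSubgroup) (primeOfValuationSubring A)
    (primeOfValuationSubring A') hunder
  exact ⟨g.1, g.2, hg⟩

/-- **Transitivity**: two valuation subrings of `ℚ̄` over `ℓ` cutting out the same prime of `𝓞 F`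
are conjugate under `Gal(ℚ̄/F)`. -/
theorem exists_mem_fixingSubgroup_smul_eq {ℓ : ℕ} (hℓ : ℓ.Prime) (A A' : ValuationSubring Qb)
    (hA : A.LiesOverPrime ℓ) (hA' : A'.LiesOverPrime ℓ) (h : primeOL F A = primeOL F A') :
    ∃ g : GQ, g ∈ F.fixingSubgroup ∧ g • A = A' := by
  obtain ⟨τ, hτF, hτ⟩ := exists_mem_fixingSubgroup_smul_prime_eq F A A' h
  have hτ' : primeOfValuationSubring A = τ⁻¹ • primeOfValuationSubring A' := by
    rw [hτ, inv_smul_smul]
  refine ⟨τ, hτF, le_antisymm ?_ ?_⟩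
  · intro y hy
    rw [ValuationSubring.mem_pointwise_smul_iff_inv_smul_mem] at hy
    have := map_mem_of_smul_prime_eq' hℓ A A' hA τ hτ _ hy
    simpa using this
  · intro y hy
    rw [ValuationSubring.mem_pointwise_smul_iff_inv_smul_mem]
    exact map_mem_of_smul_prime_eq' hℓ A' A hA' τ⁻¹ hτ' y hy

/-- Membership in the nonunits of a translated valuation subring. -/
theorem mem_nonunits_smul_iff (g : GQ) (A : ValuationSubring Qb) (x : Qb) :
    x ∈ (g • A).nonunits ↔ g⁻¹ x ∈ A.nonunits := by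
  rw [ValuationSubring.mem_nonunits_iff_or, ValuationSubring.mem_nonunits_iff_or,
    ValuationSubring.mem_pointwise_smul_iff_inv_smul_mem]
  have h1 : g⁻¹ • x⁻¹ = (g⁻¹ x)⁻¹ := map_inv₀ (g⁻¹ : GQ) x
  rw [h1]
  have h2 : g⁻¹ x = 0 ↔ x = 0 := map_eq_zero_iff (g⁻¹ : GQ) (g⁻¹ : GQ).injective
  rw [h2]

/-- Translating a place by an element of `Gal(ℚ̄/F)` does not change the prime of `𝓞 F`. -/
theorem primeOL_smul_of_mem_fixingSubgroup (h : GQ) (hh : h ∈ F.fixingSubgroup)
    (A : ValuationSubring Qb) : primeOL F (h • A) = primeOL F A := by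
  ext a
  rw [mem_primeOL, mem_primeOL, mem_nonunits_smul_iff]
  have hfix : h⁻¹ (algebraMap F Qb (a : F)) = algebraMap F Qb (a : F) :=
    (IntermediateField.mem_fixingSubgroup_iff F h⁻¹).1 (F.fixingSubgroup.inv_mem hh) _ (a : F).2
  rw [hfix]

/-- Translates of a place over `ℓ` lie over `ℓ`. -/
theorem liesOverPrime_smul (g : GQ) {ℓ : ℕ} (A : ValuationSubring Qb) (hA : A.LiesOverPrime ℓ) :
    (g • A).LiesOverPrime ℓ := by
  change ((ℓ : ℕ) : Qb) ∈ (g • A).nonunits
  rw [mem_nonunits_smul_iff]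
  have : g⁻¹ ((ℓ : ℕ) : Qb) = ((ℓ : ℕ) : Qb) := map_natCast (g⁻¹ : GQ) ℓ
  rw [this]
  exact hA

/-- The primes of `𝓞 F` cut out by two places over `ℓ` agree iff the places are conjugate under
`Gal(ℚ̄/F)`. -/
theorem primeOL_eq_iff {ℓ : ℕ} (hℓ : ℓ.Prime) (A A' : ValuationSubring Qb)
    (hA : A.LiesOverPrime ℓ) (hA' : A'.LiesOverPrime ℓ) :
    primeOL F A = primeOL F A' ↔ ∃ g : GQ, g ∈ F.fixingSubgroup ∧ g • A = A' := by
  constructor
  · exact exists_mem_fixingSubgroup_smul_eq F hℓ A A' hA hA'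
  · rintro ⟨g, hg, rfl⟩
    exact (primeOL_smul_of_mem_fixingSubgroup F g hg A).symm

end General

/-! ### The places cut out by the translates of `padicPlace q` -/

section Padic

variable (q : ℕ) [Fact q.Prime]

/-- `padicPlace q` lies over `q`. -/
theorem padicPlace_liesOverPrime : (padicPlace q).LiesOverPrime q := by
  change ((q : ℕ) : Qb) ∈ (padicPlace q).nonunits
  rw [ValuationSubring.mem_nonunits_iff_or]
  right
  rw [mem_padicPlace_iff, map_inv₀, map_natCast, nnnorm_inv, not_le]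
  have h1 : ‖((q : ℕ) : PadicAlgCl q)‖₊ < 1 := by
    have h2 : ((q : ℕ) : PadicAlgCl q) = algebraMap ℚ_[q] (PadicAlgCl q) ((q : ℕ) : ℚ_[q]) := by
      simp
    rw [h2]
    have h3 : ‖algebraMap ℚ_[q] (PadicAlgCl q) ((q : ℕ) : ℚ_[q])‖ = ‖((q : ℕ) : ℚ_[q])‖ :=
      norm_algebraMap' (PadicAlgCl q) ((q : ℕ) : ℚ_[q])
    rw [← NNReal.coe_lt_coe, coe_nnnorm, h3, Padic.norm_p]
    have hq : (1 : ℝ) < (q : ℝ) := by exact_mod_cast (Fact.out : q.Prime).one_lt
    simpa using inv_lt_one_of_one_lt₀ hq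
  have h0 : ‖((q : ℕ) : PadicAlgCl q)‖₊ ≠ 0 := by
    rw [Ne, nnnorm_eq_zero]
    exact Nat.cast_ne_zero.mpr (Fact.out : q.Prime).ne_zero
  exact one_lt_inv₀ (pos_iff_ne_zero.mpr h0) |>.mpr h1

variable (F : IntermediateField ℚ Qb) [FiniteDimensional ℚ F]

/-- The place of `F` over `q` attached to `g ∈ Gal(ℚ̄/ℚ)`: the prime of `𝓞 F` cut out by the
valuation subring `g • padicPlace q = {x | ‖padicEmbedding q (g⁻¹ x)‖ ≤ 1}`. -/
noncomputable def placeOf (g : GQ) : HeightOneSpectrum (𝓞 F) :=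
  heightOneOL F (Fact.out : q.Prime) (g • padicPlace q)
    (liesOverPrime_smul g (padicPlace q) (padicPlace_liesOverPrime q))

theorem placeOf_asIdeal (g : GQ) : (placeOf q F g).asIdeal = primeOL F (g • padicPlace q) := rfl

/-- Explicit description of the place attached to `g`. -/
theorem mem_placeOf_asIdeal (g : GQ) (a : 𝓞 F) :
    a ∈ (placeOf q F g).asIdeal ↔ ‖padicEmbedding q (g⁻¹ (algebraMap F Qb (a : F)))‖₊ < 1 := by
  rw [placeOf_asIdeal, mem_primeOL, mem_nonunits_smul_iff]
  set x : Qb := g⁻¹ (algebraMap F Qb (a : F)) with hx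
  have hxint : x ∈ padicPlace q := by
    apply mem_valuationSubring_of_isIntegral
    have h1 : IsIntegral ℤ (algebraMap F Qb (a : F)) :=
      (NumberField.RingOfIntegers.isIntegral_coe a).map (IsScalarTower.toAlgHom ℤ F Qb)
    exact h1.map ((g⁻¹ : GQ) : Qb →ₐ[ℚ] Qb).toRingHom.toIntAlgHom
  rw [ValuationSubring.mem_nonunits_iff_or]
  by_cases hx0 : x = 0
  · simp [hx0]
  · rw [mem_padicPlace_iff, map_inv₀, nnnorm_inv, not_le]
    have h0 : ‖padicEmbedding q x‖₊ ≠ 0 := by
      rw [Ne, nnnorm_eq_zero]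
      exact fun h => hx0 ((padicEmbedding q).injective (h.trans (map_zero _).symm))
    constructor
    · rintro (h | h)
      · exact absurd h hx0
      · exact (one_lt_inv₀ (pos_iff_ne_zero.mpr h0)).mp h
    · intro h
      exact Or.inr ((one_lt_inv₀ (pos_iff_ne_zero.mpr h0)).mpr h)

/-- The prime `q` lies in every `placeOf q F g`. -/
theorem natCast_mem_placeOf (g : GQ) : ((q : ℕ) : 𝓞 F) ∈ (placeOf q F g).asIdeal :=
  natCast_mem_primeOL F _ (liesOverPrime_smul g (padicPlace q) (padicPlace_liesOverPrime q))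

/-- Left translation by `Gal(ℚ̄/F)` does not change the place. -/
theorem placeOf_mul_left (h : GQ) (hh : h ∈ F.fixingSubgroup) (g : GQ) :
    placeOf q F (h * g) = placeOf q F g := by
  apply HeightOneSpectrum.ext
  rw [placeOf_asIdeal, placeOf_asIdeal, mul_smul]
  exact primeOL_smul_of_mem_fixingSubgroup F h hh _

/-- Right translation by the decomposition group of `padicPlace q` does not change the place. -/
theorem placeOf_mul_right (g : GQ) (d : GQ) (hd : d ∈ (padicPlace q).decompositionSubgroup ℚ) :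
    placeOf q F (g * d) = placeOf q F g := by
  apply HeightOneSpectrum.ext
  have hd' : d • padicPlace q = padicPlace q := hd
  rw [placeOf_asIdeal, placeOf_asIdeal, mul_smul, hd']

/-- Right translation by the image of the local Galois group does not change the place. -/
theorem placeOf_mul_localGaloisToGlobal (g : GQ) (τ : PadicAlgCl q ≃ₐ[ℚ_[q]] PadicAlgCl q) :
    placeOf q F (g * localGaloisToGlobal q τ) = placeOf q F g :=
  placeOf_mul_right q F g _ (localGaloisToGlobal_mem_decompositionSubgroup q τ)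

/-- **Injectivity on double cosets**: two elements of `Gal(ℚ̄/ℚ)` define the same place of `F`
over `q` iff they lie in the same double coset `Gal(ℚ̄/F) \ Gal(ℚ̄/ℚ) / D_q`. -/
theorem placeOf_eq_iff (g g' : GQ) :
    placeOf q F g = placeOf q F g' ↔
      ∃ h ∈ F.fixingSubgroup, ∃ d ∈ (padicPlace q).decompositionSubgroup ℚ, g' = h * g * d := by
  constructor
  · intro hgg
    have h1 : primeOL F (g • padicPlace q) = primeOL F (g' • padicPlace q) := by
      rw [← placeOf_asIdeal, ← placeOf_asIdeal, hgg]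
    obtain ⟨h, hh, hh2⟩ := exists_mem_fixingSubgroup_smul_eq F (Fact.out : q.Prime)
      (g • padicPlace q) (g' • padicPlace q)
      (liesOverPrime_smul g (padicPlace q) (padicPlace_liesOverPrime q))
      (liesOverPrime_smul g' (padicPlace q) (padicPlace_liesOverPrime q)) h1
    refine ⟨h, hh, (h * g)⁻¹ * g', ?_, by group⟩
    change ((h * g)⁻¹ * g') • padicPlace q = padicPlace q
    rw [mul_smul, ← hh2, ← mul_smul h g, inv_smul_smul]
  · rintro ⟨h, hh, d, hd, rfl⟩
    rw [placeOf_mul_right q F _ d hd, placeOf_mul_left q F h hh]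

/-- **Surjectivity**: every prime of `𝓞 F` containing `q` is the place attached to some `g`. -/
theorem placeOf_surjective (v : HeightOneSpectrum (𝓞 F)) (hv : ((q : ℕ) : 𝓞 F) ∈ v.asIdeal) :
    ∃ g : GQ, placeOf q F g = v := by
  have := v.isPrime
  obtain ⟨A, hA, hAv⟩ := exists_valuationSubring_primeOL_eq_of_mem F (Fact.out : q.Prime)
    v.asIdeal hv
  obtain ⟨τ, hτ⟩ := exists_smul_eq (Fact.out : q.Prime) (padicPlace q) A
    (padicPlace_liesOverPrime q) hA
  refine ⟨τ, HeightOneSpectrum.ext ?_⟩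
  rw [placeOf_asIdeal, hτ, hAv]

/-- The primes of `𝓞 F` containing the rational prime `q` are finitely many. -/
theorem finite_primesOver :
    Finite {v : HeightOneSpectrum (𝓞 F) // ((q : ℕ) : 𝓞 F) ∈ v.asIdeal} := by
  have hq0 : ((q : ℕ) : 𝓞 F) ≠ 0 := Nat.cast_ne_zero.mpr (Fact.out : q.Prime).ne_zero
  have hI : Ideal.span {((q : ℕ) : 𝓞 F)} ≠ 0 := by
    rw [Ne, Ideal.zero_eq_bot, Ideal.span_singleton_eq_bot]
    exact hq0
  have hfin := Ideal.finite_factors hI
  have hset : {v : HeightOneSpectrum (𝓞 F) | v.asIdeal ∣ Ideal.span {((q : ℕ) : 𝓞 F)}} =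
      {v : HeightOneSpectrum (𝓞 F) | ((q : ℕ) : 𝓞 F) ∈ v.asIdeal} := by
    ext v
    simp only [Set.mem_ofPred_eq, Ideal.dvd_span_singleton]
  rw [hset] at hfin
  exact hfin.to_subtype

/-- **The places of `F` over `q` are the double cosets `Gal(ℚ̄/F) \ Gal(ℚ̄/ℚ) / D_q`**, with
`D_q` the decomposition group of `padicPlace q`. -/
noncomputable def placesEquiv :
    DoubleCoset.Quotient (F.fixingSubgroup : Set GQ)
        ((padicPlace q).decompositionSubgroup ℚ : Set GQ) ≃
      {v : HeightOneSpectrum (𝓞 F) // ((q : ℕ) : 𝓞 F) ∈ v.asIdeal} :=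
  Equiv.ofBijective
    (Quotient.lift
      (fun g => (⟨placeOf q F g, natCast_mem_placeOf q F g⟩ :
        {v : HeightOneSpectrum (𝓞 F) // ((q : ℕ) : 𝓞 F) ∈ v.asIdeal}))
      (fun g g' hgg => Subtype.ext ((placeOf_eq_iff q F g g').2 (DoubleCoset.rel_iff.1 hgg))))
    (by
      constructor
      · intro x y
        induction x using Quotient.inductionOn with
        | _ g =>
          induction y using Quotient.inductionOn with
          | _ g' =>
            intro hxy
            apply Quotient.sound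
            exact DoubleCoset.rel_iff.2 ((placeOf_eq_iff q F g g').1 (congrArg Subtype.val hxy))
      · rintro ⟨v, hv⟩
        obtain ⟨g, hg⟩ := placeOf_surjective q F v hv
        exact ⟨Quotient.mk _ g, Subtype.ext hg⟩)

@[simp]
theorem placesEquiv_mk (g : GQ) :
    (placesEquiv q F (DoubleCoset.mk F.fixingSubgroup ((padicPlace q).decompositionSubgroup ℚ) g) :
      HeightOneSpectrum (𝓞 F)) = placeOf q F g := rfl

/-- The double coset space `Gal(ℚ̄/F) \ Gal(ℚ̄/ℚ) / D_q` is finite. -/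
theorem finite_doubleCoset :
    Finite (DoubleCoset.Quotient (F.fixingSubgroup : Set GQ)
      ((padicPlace q).decompositionSubgroup ℚ : Set GQ)) :=
  haveI := finite_primesOver q F
  Finite.of_equiv _ (placesEquiv q F).symm

/-- **Counting form**: the number of double cosets equals the number of primes of `𝓞 F`
over `q`. -/
theorem card_doubleCoset :
    Nat.card (DoubleCoset.Quotient (F.fixingSubgroup : Set GQ)
        ((padicPlace q).decompositionSubgroup ℚ : Set GQ)) =
      Nat.card {v : HeightOneSpectrum (𝓞 F) // ((q : ℕ) : 𝓞 F) ∈ v.asIdeal} :=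
  Nat.card_congr (placesEquiv q F)

/-- **Representative-system form** (the shape of a Mackey decomposition): if `rep : ι → G_ℚ` is
a system of representatives of the double cosets `Gal(ℚ̄/F) \ G_ℚ / r(D)`, where `r : D →* G_ℚ`
has range the decomposition group of `padicPlace q`, then `i ↦ placeOf q F (rep i)` is a bijection
from `ι` onto the primes of `𝓞 F` over `q`. -/
theorem bijective_placeOf_rep {D : Type*} [Group D] (r : D →* GQ)
    (hr : r.range = (padicPlace q).decompositionSubgroup ℚ) {ι : Type*} (rep : ι → GQ)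
    (hrep : ∀ x : GQ, ∃! i, ∃ h ∈ F.fixingSubgroup, ∃ d : D, x = h * rep i * r d) :
    Function.Bijective (fun i => (⟨placeOf q F (rep i), natCast_mem_placeOf q F (rep i)⟩ :
      {v : HeightOneSpectrum (𝓞 F) // ((q : ℕ) : 𝓞 F) ∈ v.asIdeal})) := by
  constructor
  · intro i j hij
    have h1 : placeOf q F (rep i) = placeOf q F (rep j) := congrArg Subtype.val hij
    obtain ⟨h, hh, d, hd, hj⟩ := (placeOf_eq_iff q F _ _).1 h1
    rw [← hr] at hd
    obtain ⟨d', rfl⟩ := hd
    obtain ⟨k, -, hk⟩ := hrep (rep j)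
    have e1 : i = k := hk i ⟨h, hh, d', hj⟩
    have e2 : j = k := hk j ⟨1, F.fixingSubgroup.one_mem, 1, by simp⟩
    rw [e1, e2]
  · rintro ⟨v, hv⟩
    obtain ⟨g, rfl⟩ := placeOf_surjective q F v hv
    obtain ⟨i, ⟨h, hh, d, hg⟩, -⟩ := hrep g
    refine ⟨i, Subtype.ext ?_⟩
    change placeOf q F (rep i) = placeOf q F g
    rw [hg, placeOf_mul_right q F _ (r d) (hr ▸ ⟨d, rfl⟩), placeOf_mul_left q F h hh]

/-- Counting corollary of `bijective_placeOf_rep`. -/
theorem card_rep_eq {D : Type*} [Group D] (r : D →* GQ)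
    (hr : r.range = (padicPlace q).decompositionSubgroup ℚ) {ι : Type*} (rep : ι → GQ)
    (hrep : ∀ x : GQ, ∃! i, ∃ h ∈ F.fixingSubgroup, ∃ d : D, x = h * rep i * r d) :
    Nat.card ι = Nat.card {v : HeightOneSpectrum (𝓞 F) // ((q : ℕ) : 𝓞 F) ∈ v.asIdeal} :=
  Nat.card_congr (Equiv.ofBijective _ (bijective_placeOf_rep q F r hr rep hrep))

/-- The version for the frozen local group: it needs only the inclusion
`D_q ≤ range (localGaloisToGlobal q)` (the reverse inclusion is in the Prelude). -/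
theorem card_rep_eq_local
    (hD : (padicPlace q).decompositionSubgroup ℚ ≤ (localGaloisToGlobal q).range)
    {ι : Type*} (rep : ι → GQ)
    (hrep : ∀ x : GQ, ∃! i, ∃ h ∈ F.fixingSubgroup,
      ∃ d : PadicAlgCl q ≃ₐ[ℚ_[q]] PadicAlgCl q, x = h * rep i * localGaloisToGlobal q d) :
    Nat.card ι = Nat.card {v : HeightOneSpectrum (𝓞 F) // ((q : ℕ) : 𝓞 F) ∈ v.asIdeal} := by
  refine card_rep_eq q F (localGaloisToGlobal q) (le_antisymm ?_ hD) rep hrep
  rintro _ ⟨τ, rfl⟩
  exact localGaloisToGlobal_mem_decompositionSubgroup q τ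

/-! ### Valuation dictionary at every place -/

/-- An element of `F` is integral at the place attached to `g` iff its `g⁻¹`-conjugate has
`q`-adic norm at most one. -/
theorem placeOf_valuation_le_one_iff (g : GQ) (x : F) :
    (placeOf q F g).valuation F x ≤ 1 ↔
      ‖padicEmbedding q (g⁻¹ (algebraMap F Qb x))‖₊ ≤ 1 := by
  rw [placeOf, heightOneOL_valuation_le_one_iff, ValuationSubring.valuation_le_one_iff,
    ValuationSubring.mem_pointwise_smul_iff_inv_smul_mem, mem_padicPlace_iff]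
  rfl

theorem placeOf_valuation_lt_one_iff (g : GQ) (x : F) :
    (placeOf q F g).valuation F x < 1 ↔
      ‖padicEmbedding q (g⁻¹ (algebraMap F Qb x))‖₊ < 1 := by
  by_cases hx0 : x = 0
  · subst hx0
    simp
  have h := placeOf_valuation_le_one_iff q F g x⁻¹
  rw [map_inv₀, map_inv₀, map_inv₀, map_inv₀, nnnorm_inv] at h
  have hv0 : (placeOf q F g).valuation F x ≠ 0 := by
    rw [Ne, map_eq_zero]
    exact hx0
  have hn0 : ‖padicEmbedding q (g⁻¹ (algebraMap F Qb x))‖₊ ≠ 0 := by
    rw [Ne, nnnorm_eq_zero]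
    intro h0
    apply hx0
    have h1 : g⁻¹ (algebraMap F Qb x) = 0 :=
      (padicEmbedding q).injective (h0.trans (map_zero _).symm)
    have h2 : algebraMap F Qb x = 0 := (g⁻¹ : GQ).injective (h1.trans (map_zero _).symm)
    exact (algebraMap F Qb).injective (h2.trans (map_zero _).symm)
  rw [← not_le, ← not_le, not_iff_not]
  rw [inv_le_one₀ (zero_lt_iff.mpr hv0), inv_le_one₀ (pos_iff_ne_zero.mpr hn0)] at h
  exact h

theorem placeOf_valuation_eq_one_iff (g : GQ) (x : F) :
    (placeOf q F g).valuation F x = 1 ↔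
      ‖padicEmbedding q (g⁻¹ (algebraMap F Qb x))‖₊ = 1 := by
  have h1 := placeOf_valuation_le_one_iff q F g x
  have h2 := placeOf_valuation_lt_one_iff q F g x
  constructor
  · intro h
    exact le_antisymm (h1.mp h.le) (not_lt.mp (fun h3 => absurd (h2.mpr h3) (not_lt.mpr h.ge)))
  · intro h
    exact le_antisymm (h1.mpr h.le) (not_lt.mp (fun h3 => absurd (h2.mp h3) (not_lt.mpr h.ge)))

/-- **Quantitative dictionary**: if `π` is a uniformizer at the place attached to `g` and `x` has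
order `n` there, then the `q`-adic norm of the conjugate of `x` is the `n`-th power of that
of `π`. -/
theorem nnnorm_eq_zpow_of_valuation_eq (g : GQ) (π x : F) (n : ℤ)
    (hπ : (placeOf q F g).valuation F π = WithZero.exp (-1 : ℤ))
    (hx : (placeOf q F g).valuation F x = WithZero.exp (-n)) :
    ‖padicEmbedding q (g⁻¹ (algebraMap F Qb x))‖₊ =
      ‖padicEmbedding q (g⁻¹ (algebraMap F Qb π))‖₊ ^ n := by
  have hπ0 : π ≠ 0 := by
    rintro rfl
    rw [map_zero] at hπ
    exact WithZero.exp_ne_zero hπ.symm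
  have hy : (placeOf q F g).valuation F (x * (π ^ n)⁻¹) = 1 := by
    rw [map_mul, map_inv₀, map_zpow₀, hπ, hx, ← WithZero.exp_zsmul]
    simp
  have h1 := (placeOf_valuation_eq_one_iff q F g (x * (π ^ n)⁻¹)).1 hy
  rw [map_mul, map_mul, map_mul, map_inv₀, map_inv₀, map_inv₀, map_zpow₀, map_zpow₀, map_zpow₀,
    nnnorm_mul, nnnorm_inv, nnnorm_zpow] at h1
  have hn0 : ‖padicEmbedding q (g⁻¹ (algebraMap F Qb π))‖₊ ^ n ≠ 0 := by
    apply zpow_ne_zero
    rw [Ne, nnnorm_eq_zero]
    intro h0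
    apply hπ0
    have h2 : g⁻¹ (algebraMap F Qb π) = 0 :=
      (padicEmbedding q).injective (h0.trans (map_zero _).symm)
    have h3 : algebraMap F Qb π = 0 := (g⁻¹ : GQ).injective (h2.trans (map_zero _).symm)
    exact (algebraMap F Qb).injective (h3.trans (map_zero _).symm)
  exact (mul_inv_eq_one₀ hn0).mp h1

end Padic

/-! ### The places over a finite set of primes -/

section SVersion

variable (F : IntermediateField ℚ Qb) [FiniteDimensional ℚ F]

/-- A prime of `𝓞 F` contains at most one rational prime. -/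
theorem prime_unique_of_mem (v : HeightOneSpectrum (𝓞 F)) {p p' : ℕ} (hp : p.Prime)
    (hp' : p'.Prime) (h : ((p : ℕ) : 𝓞 F) ∈ v.asIdeal) (h' : ((p' : ℕ) : 𝓞 F) ∈ v.asIdeal) :
    p = p' := by
  by_contra hne
  have hcop : IsCoprime (p : ℤ) (p' : ℤ) :=
    Nat.isCoprime_iff_coprime.mpr ((Nat.coprime_primes hp hp').mpr hne)
  obtain ⟨s, t, hst⟩ := hcop
  have h1 : (1 : 𝓞 F) ∈ v.asIdeal := by
    have h2 := v.asIdeal.add_mem (v.asIdeal.mul_mem_left (s : 𝓞 F) h)
      (v.asIdeal.mul_mem_left (t : 𝓞 F) h')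
    have h3 : ((s : 𝓞 F) * ((p : ℕ) : 𝓞 F) + (t : 𝓞 F) * ((p' : ℕ) : 𝓞 F)) = 1 := by
      have := congrArg (Int.cast : ℤ → 𝓞 F) hst
      push_cast at this
      exact this
    rwa [h3] at h2
  exact (Ideal.ne_top_iff_one _).mp v.isPrime.ne_top h1

/-- The primes of `𝓞 F` over a finite set `S` of rational primes, counted prime by prime. -/
theorem card_primesOver_finset (S : Finset Nat.Primes) :
    Nat.card {v : HeightOneSpectrum (𝓞 F) // ∃ p ∈ S, (((p : Nat.Primes) : ℕ) : 𝓞 F) ∈ v.asIdeal} =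
      ∑ p ∈ S, Nat.card
        {v : HeightOneSpectrum (𝓞 F) // (((p : Nat.Primes) : ℕ) : 𝓞 F) ∈ v.asIdeal} := by
  classical
  have hfin : ∀ p : ↥S, Finite
      {v : HeightOneSpectrum (𝓞 F) // ((((p : ↥S) : Nat.Primes) : ℕ) : 𝓞 F) ∈ v.asIdeal} := by
    intro p
    haveI : Fact ((p : Nat.Primes) : ℕ).Prime := ⟨(p : Nat.Primes).2⟩
    exact finite_primesOver _ F
  let e : (Σ p : ↥S, {v : HeightOneSpectrum (𝓞 F) //
        ((((p : ↥S) : Nat.Primes) : ℕ) : 𝓞 F) ∈ v.asIdeal}) →
      {v : HeightOneSpectrum (𝓞 F) // ∃ p ∈ S, (((p : Nat.Primes) : ℕ) : 𝓞 F) ∈ v.asIdeal} :=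
    fun x => ⟨x.2.1, x.1.1, x.1.2, x.2.2⟩
  have he : Function.Bijective e := by
    constructor
    · rintro ⟨⟨p, hp⟩, ⟨v, hv⟩⟩ ⟨⟨p', hp'⟩, ⟨v', hv'⟩⟩ hxy
      have hvv : v = v' := congrArg Subtype.val hxy
      subst hvv
      have hpp : (p : ℕ) = (p' : ℕ) := prime_unique_of_mem F v p.2 p'.2 hv hv'
      have hpp' : p = p' := Subtype.ext hpp
      subst hpp'
      rfl
    · rintro ⟨v, p, hp, hv⟩
      exact ⟨⟨⟨p, hp⟩, ⟨v, hv⟩⟩, rfl⟩
  rw [← Nat.card_congr (Equiv.ofBijective e he), Nat.card_sigma, ← Finset.sum_coe_sort S]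

/-- **The S-count**: the total number of double cosets `Gal(ℚ̄/F) \ G_ℚ / D_p`, `p ∈ S`, is
the number of primes of `𝓞 F` over `S`. -/
theorem sum_card_doubleCoset (S : Finset Nat.Primes) :
    ∑ p ∈ S, Nat.card (DoubleCoset.Quotient (F.fixingSubgroup : Set GQ)
        ((ExtCitation.primeLocalPlace p).decompositionSubgroup ℚ : Set GQ)) =
      Nat.card {v : HeightOneSpectrum (𝓞 F) //
        ∃ p ∈ S, (((p : Nat.Primes) : ℕ) : 𝓞 F) ∈ v.asIdeal} := by
  rw [card_primesOver_finset]
  refine Finset.sum_congr rfl (fun p _ => ?_)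
  haveI : Fact ((p : Nat.Primes) : ℕ).Prime := ⟨p.2⟩
  exact card_doubleCoset (p : ℕ) F

end SVersion

end Fermat.Agent.S55.helper4727
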