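/-
S55 moonshot, leaf S55-NF-SELCOUNT (seat helper9292): the global Kummer count.

For a number field `F` containing a primitive `p`-th root of unity and a finite set `S` of
finite places, the group `Kum(S) = {x ∈ Fˣ | p ∣ ord_v x for all v ∉ S}` satisfies
`[Kum(S) : Fˣᵖ] = p ^ (rank F + #S + 1) * #(Cl_S / p)`.

Mathlib + the S14 `S`-unit theorem (helper2613, on main) only.
-/
import Mathlib
import Fermat.Agent.S14.helper2613_SUnitCount

set_option autoImplicit false

open IsDedekindDomain NumberField Module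
open scoped nonZeroDivisors

namespace Fermat.Agent.S55.helper9292

noncomputable section

/-! ## Part 1: an abstract index computation -/

section Abstract

variable {A I : Type*} [CommGroup A] [CommGroup I]

/-- The subgroup of `p`-th powers of a commutative group. -/
abbrev powSub (G : Type*) [CommGroup G] (p : ℕ) : Subgroup G := (powMonoidHom p : G →* G).range

theorem mem_powSub {G : Type*} [CommGroup G] {p : ℕ} {x : G} :
    x ∈ powSub G p ↔ ∃ y : G, y ^ p = x := by
  simp [powSub, MonoidHom.mem_range]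

variable (π : A →* I) (T : Subgroup I) (p : ℕ)

/-- The "Kummer group" attached to `π : A →* I` and `T ≤ I`: elements whose image is in
`T · Iᵖ`. -/
abbrev kumSub : Subgroup A := (T ⊔ powSub I p).comap π

theorem powSub_le_kumSub : powSub A p ≤ kumSub π T p := by
  intro x hx
  obtain ⟨a, rfl⟩ := mem_powSub.mp hx
  refine Subgroup.mem_comap.mpr (Subgroup.mem_sup_right ?_)
  exact mem_powSub.mpr ⟨π a, by rw [map_pow]⟩

theorem comap_le_kumSub : T.comap π ≤ kumSub π T p :=
  Subgroup.comap_mono le_sup_left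

theorem exists_root_of_mem_kumSub (x : kumSub π T p) :
    ∃ J : I, π x * (J ^ p)⁻¹ ∈ T := by
  obtain ⟨t, ht, z, hz, h⟩ := Subgroup.mem_sup.mp (Subgroup.mem_comap.mp x.2)
  obtain ⟨J, rfl⟩ := mem_powSub.mp hz
  exact ⟨J, by rw [← h]; simpa using ht⟩

variable {π T p}

theorem root_unique (hT : ∀ x : I, x ^ p ∈ T → x ∈ T) {y J J' : I}
    (h : y * (J ^ p)⁻¹ ∈ T) (h' : y * (J' ^ p)⁻¹ ∈ T) : J⁻¹ * J' ∈ T := by
  apply hT
  have : (J⁻¹ * J') ^ p = (y * (J ^ p)⁻¹) * (y * (J' ^ p)⁻¹)⁻¹ := by
    simp only [mul_pow, inv_pow, mul_inv, inv_inv]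
    rw [mul_mul_mul_comm, mul_inv_cancel, one_mul]
  rw [this]
  exact T.mul_mem h (T.inv_mem h')

variable (π T p) in
/-- The class of a `p`-th root of the ideal of `x ∈ Kum`, as a homomorphism to
`I ⧸ (π(A) · T)`. -/
def rootClass (hT : ∀ x : I, x ^ p ∈ T → x ∈ T) : kumSub π T p →* I ⧸ (π.range ⊔ T) :=
  MonoidHom.mk' (fun x => QuotientGroup.mk (Classical.choose (exists_root_of_mem_kumSub π T p x)))
    (by
      intro x y
      rw [← QuotientGroup.mk_mul, QuotientGroup.eq]
      apply Subgroup.mem_sup_right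
      have hx := Classical.choose_spec (exists_root_of_mem_kumSub π T p x)
      have hy := Classical.choose_spec (exists_root_of_mem_kumSub π T p y)
      have hxy : π ((x : A) * (y : A))
          * (Classical.choose (exists_root_of_mem_kumSub π T p (x * y)) ^ p)⁻¹ ∈ T :=
        Classical.choose_spec (exists_root_of_mem_kumSub π T p (x * y))
      refine root_unique hT (y := π ((x : A) * (y : A))) hxy ?_
      rw [map_mul, mul_pow, mul_inv, mul_mul_mul_comm]
      exact T.mul_mem hx hy)

theorem rootClass_eq (hT : ∀ x : I, x ^ p ∈ T → x ∈ T) (x : kumSub π T p) {J : I}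
    (hJ : π x * (J ^ p)⁻¹ ∈ T) : rootClass π T p hT x = QuotientGroup.mk J := by
  show QuotientGroup.mk (Classical.choose (exists_root_of_mem_kumSub π T p x)) = _
  rw [QuotientGroup.eq]
  apply Subgroup.mem_sup_right
  exact root_unique hT (Classical.choose_spec (exists_root_of_mem_kumSub π T p x)) hJ

theorem ker_rootClass (hT : ∀ x : I, x ^ p ∈ T → x ∈ T) :
    (rootClass π T p hT).ker = (T.comap π ⊔ powSub A p).subgroupOf (kumSub π T p) := by
  ext x
  rw [MonoidHom.mem_ker, Subgroup.mem_subgroupOf]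
  obtain ⟨J, hJ⟩ := exists_root_of_mem_kumSub π T p x
  rw [rootClass_eq hT x hJ, QuotientGroup.eq_one_iff]
  constructor
  · intro h
    obtain ⟨y, hy, t, ht, hyt⟩ := Subgroup.mem_sup.mp h
    obtain ⟨a, rfl⟩ := hy
    rw [Subgroup.mem_sup]
    refine ⟨(x : A) * (a ^ p)⁻¹, ?_, a ^ p, mem_powSub.mpr ⟨a, rfl⟩, by group⟩
    rw [Subgroup.mem_comap, map_mul, map_inv, map_pow]
    have : π x * (π a ^ p)⁻¹ = (π x * (J ^ p)⁻¹) * t ^ p := by
      rw [← hyt, mul_pow, mul_inv, mul_assoc, mul_assoc, inv_mul_cancel, mul_one]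
    rw [this]
    exact T.mul_mem hJ (T.pow_mem ht p)
  · intro h
    obtain ⟨u, hu, z, hz, huz⟩ := Subgroup.mem_sup.mp h
    obtain ⟨a, rfl⟩ := mem_powSub.mp hz
    have h1 : π x * ((π a) ^ p)⁻¹ ∈ T := by
      rw [← huz, map_mul, map_pow]
      simpa using hu
    have h2 := root_unique hT hJ h1
    have h3 : J = π a * (J⁻¹ * π a)⁻¹ := by
      rw [mul_inv, inv_inv, mul_comm J, mul_inv_cancel_left]
    rw [h3]
    exact Subgroup.mul_mem _ (Subgroup.mem_sup_left ⟨a, rfl⟩)
      (Subgroup.mem_sup_right (T.inv_mem h2))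

theorem range_rootClass (hT : ∀ x : I, x ^ p ∈ T → x ∈ T) :
    (rootClass π T p hT).range = (powMonoidHom p : (I ⧸ (π.range ⊔ T)) →* _).ker := by
  ext q
  rw [MonoidHom.mem_range, MonoidHom.mem_ker, powMonoidHom_apply]
  constructor
  · rintro ⟨x, rfl⟩
    obtain ⟨J, hJ⟩ := exists_root_of_mem_kumSub π T p x
    rw [rootClass_eq hT x hJ, ← QuotientGroup.mk_pow, QuotientGroup.eq_one_iff]
    have : J ^ p = π x * (π x * (J ^ p)⁻¹)⁻¹ := by
      rw [mul_inv, inv_inv, mul_inv_cancel_left]
    rw [this]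
    exact Subgroup.mul_mem _ (Subgroup.mem_sup_left ⟨x, rfl⟩)
      (Subgroup.mem_sup_right (T.inv_mem hJ))
  · intro hq
    obtain ⟨J, rfl⟩ := QuotientGroup.mk_surjective q
    rw [← QuotientGroup.mk_pow, QuotientGroup.eq_one_iff] at hq
    obtain ⟨y, hy, t, ht, hyt⟩ := Subgroup.mem_sup.mp hq
    obtain ⟨a, rfl⟩ := hy
    have ha : a ∈ kumSub π T p := by
      rw [Subgroup.mem_comap]
      have : π a = t⁻¹ * J ^ p := by rw [← hyt, mul_comm (π a), inv_mul_cancel_left]
      rw [this]
      exact Subgroup.mul_mem _ (Subgroup.mem_sup_left (T.inv_mem ht))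
        (Subgroup.mem_sup_right (mem_powSub.mpr ⟨J, rfl⟩))
    refine ⟨⟨a, ha⟩, rootClass_eq hT _ ?_⟩
    have : π a * (J ^ p)⁻¹ = t⁻¹ := by rw [← hyt, mul_inv, mul_inv_cancel_left]
    show π a * (J ^ p)⁻¹ ∈ T
    rw [this]
    exact T.inv_mem ht

theorem powSub_subgroupOf_comap (hT : ∀ x : I, x ^ p ∈ T → x ∈ T) :
    (powSub A p).subgroupOf (T.comap π) = powSub (T.comap π) p := by
  ext u
  rw [Subgroup.mem_subgroupOf, mem_powSub, mem_powSub]
  constructor
  · rintro ⟨a, ha⟩
    have hmem : a ∈ T.comap π := by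
      rw [Subgroup.mem_comap]
      apply hT
      rw [← map_pow, ha]
      exact u.2
    exact ⟨⟨a, hmem⟩, Subtype.ext ha⟩
  · rintro ⟨a, rfl⟩
    exact ⟨a, rfl⟩

/-- **Abstract Kummer count.** `π : A →* I`, `T ≤ I` with `I / T` free of `p`-torsion. Then
`[Kum : Aᵖ] = #Q[p] * [U : Uᵖ]` with `U = π⁻¹ T`, `Kum = π⁻¹ (T · Iᵖ)`, `Q = I / (π(A) · T)`. -/
theorem relIndex_powSub_kumSub (hT : ∀ x : I, x ^ p ∈ T → x ∈ T) :
    (powSub A p).relIndex (kumSub π T p)
      = Nat.card (powMonoidHom p : (I ⧸ (π.range ⊔ T)) →* _).ker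
        * (powSub (T.comap π) p).index := by
  have h1 : powSub A p ≤ T.comap π ⊔ powSub A p := le_sup_right
  have h2 : T.comap π ⊔ powSub A p ≤ kumSub π T p :=
    sup_le (comap_le_kumSub π T p) (powSub_le_kumSub π T p)
  rw [← Subgroup.relIndex_mul_relIndex _ _ _ h1 h2, mul_comm]
  congr 1
  · rw [Subgroup.relIndex, ← ker_rootClass hT, Subgroup.index_ker, range_rootClass hT]
  · rw [Subgroup.relIndex_sup_right, Subgroup.relIndex, powSub_subgroupOf_comap hT]

/-- In a finite commutative group the `p`-torsion and the cokernel of `p` have the same size. -/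
theorem card_ker_pow_eq_index_range (Q : Type*) [CommGroup Q] [Finite Q] (p : ℕ) :
    Nat.card (powMonoidHom p : Q →* Q).ker = (powSub Q p).index := by
  have h1 := Subgroup.card_mul_index (powMonoidHom p : Q →* Q).ker
  have h2 := Subgroup.card_mul_index (powSub Q p)
  rw [Subgroup.index_ker] at h1
  have h3 : Nat.card (powSub Q p) ≠ 0 := Nat.card_pos.ne'
  have h4 : Nat.card (powMonoidHom p : Q →* Q).ker * Nat.card (powSub Q p)
      = Nat.card (powSub Q p) * (powSub Q p).index := by rw [h1, h2]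
  rw [mul_comm] at h4
  exact Nat.eq_of_mul_eq_mul_left (Nat.pos_of_ne_zero h3) h4

end Abstract

/-! ## Part 2: Dedekind domains -/

section Dedekind

open FractionalIdeal

variable {R : Type*} [CommRing R] [IsDedekindDomain R] {K : Type*} [Field K] [Algebra R K]
  [IsFractionRing R K]

/-- The `v`-adic valuation of `x ≠ 0` is `exp (- count_v (x))`. -/
theorem valuation_eq_exp_neg_count (v : HeightOneSpectrum R) {x : K} (hx : x ≠ 0) :
    v.valuation K x = WithZero.exp (-(count K v (spanSingleton R⁰ x))) := by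
  obtain ⟨⟨r, s⟩, rfl⟩ := IsLocalization.mk'_surjective R⁰ x
  have hr : r ≠ 0 := by
    rintro rfl
    simp at hx
  have hs : (s : R) ≠ 0 := nonZeroDivisors.coe_ne_zero s
  show v.valuation K (IsLocalization.mk' K r s) = _
  rw [HeightOneSpectrum.valuation_of_mk', v.intValuation_if_neg hr, v.intValuation_if_neg hs]
  have hI : spanSingleton R⁰ (IsLocalization.mk' K r s) ≠ 0 := by
    rw [Ne, spanSingleton_eq_zero_iff]
    exact hx
  have key : spanSingleton R⁰ (IsLocalization.mk' K r s) =
      spanSingleton R⁰ ((algebraMap R K) (s : R))⁻¹ *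
        ((Ideal.span {r} : Ideal R) : FractionalIdeal R⁰ K) := by
    rw [coeIdeal_span_singleton, spanSingleton_mul_spanSingleton]
    congr 1
    rw [IsFractionRing.mk'_eq_div]
    field_simp
  rw [count_well_defined K v hI key, ← WithZero.exp_sub]
  congr 1
  ring

/-- The subgroup of invertible fractional ideals supported on `S`. -/
def suppSub (S : Set (HeightOneSpectrum R)) : Subgroup (FractionalIdeal R⁰ K)ˣ where
  carrier := {J | ∀ v, v ∉ S → count K v (J : FractionalIdeal R⁰ K) = 0}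
  mul_mem' := by
    intro a b ha hb v hv
    rw [Units.val_mul, count_mul K v a.ne_zero b.ne_zero, ha v hv, hb v hv, add_zero]
  one_mem' := fun v _ => by rw [Units.val_one, count_one]
  inv_mem' := by
    intro a ha v hv
    rw [Units.val_inv_eq_inv_val, count_inv, ha v hv, neg_zero]

theorem mem_suppSub {S : Set (HeightOneSpectrum R)} {J : (FractionalIdeal R⁰ K)ˣ} :
    J ∈ suppSub S ↔ ∀ v, v ∉ S → count K v (J : FractionalIdeal R⁰ K) = 0 := Iff.rfl

theorem suppSub_saturated (S : Set (HeightOneSpectrum R)) {p : ℕ} (hp : p ≠ 0)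
    (J : (FractionalIdeal R⁰ K)ˣ) (h : J ^ p ∈ suppSub S) : J ∈ suppSub S := by
  intro v hv
  have h1 := h v hv
  rw [Units.val_pow_eq_pow_val, count_pow] at h1
  rcases mul_eq_zero.mp h1 with h0 | h0
  · exact absurd (by exact_mod_cast h0) hp
  · exact h0

theorem comap_suppSub (S : Set (HeightOneSpectrum R)) :
    (suppSub S).comap (toPrincipalIdeal R K) = S.unit K := by
  ext x
  rw [Subgroup.mem_comap, mem_suppSub]
  constructor
  · intro h v hv
    rw [valuation_eq_exp_neg_count v x.ne_zero, ← coe_toPrincipalIdeal, h v hv, neg_zero,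
      WithZero.exp_zero]
  · intro h v hv
    have h1 : v.valuation K (x : K) = 1 := h v hv
    rw [valuation_eq_exp_neg_count v x.ne_zero, ← WithZero.exp_zero, WithZero.exp_inj,
      neg_eq_zero] at h1
    rw [coe_toPrincipalIdeal]
    exact h1

theorem mem_sup_powSub_iff (S : Set (HeightOneSpectrum R)) (p : ℕ)
    (J : (FractionalIdeal R⁰ K)ˣ) :
    J ∈ suppSub S ⊔ powSub (FractionalIdeal R⁰ K)ˣ p ↔
      ∀ v, v ∉ S → (p : ℤ) ∣ count K v (J : FractionalIdeal R⁰ K) := by
  classical
  constructor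
  · intro h v hv
    obtain ⟨t, ht, z, hz, rfl⟩ := Subgroup.mem_sup.mp h
    obtain ⟨L, rfl⟩ := mem_powSub.mp hz
    rw [Units.val_mul, count_mul K v t.ne_zero (L ^ p).ne_zero, ht v hv, zero_add,
      Units.val_pow_eq_pow_val, count_pow]
    exact dvd_mul_right _ _
  · intro h
    set exps : HeightOneSpectrum R → ℤ :=
      fun v => if v ∈ S then 0 else count K v (J : FractionalIdeal R⁰ K) / p with hexps
    have hfin : ∀ᶠ v : HeightOneSpectrum R in Filter.cofinite, exps v = 0 := by
      refine (finite_factors (J : FractionalIdeal R⁰ K)).mono ?_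
      intro v hv
      simp only [hexps]
      split_ifs
      · rfl
      · rw [hv, Int.zero_ediv]
    set L₀ : FractionalIdeal R⁰ K :=
      ∏ᶠ v : HeightOneSpectrum R, (v.asIdeal : FractionalIdeal R⁰ K) ^ exps v with hL₀
    have hL₀ne : L₀ ≠ 0 := by
      apply finprod_ne_zero
      intro v
      exact zpow_ne_zero _ (coeIdeal_ne_zero.mpr v.ne_bot)
    have hcount : ∀ v, count K v L₀ = exps v := fun v => count_finprod K v exps hfin
    set L : (FractionalIdeal R⁰ K)ˣ := Units.mk0 L₀ hL₀ne with hL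
    have hJ : J = (J * (L ^ p)⁻¹) * L ^ p := by rw [inv_mul_cancel_right]
    rw [hJ]
    refine Subgroup.mul_mem _ (Subgroup.mem_sup_left ?_)
      (Subgroup.mem_sup_right (mem_powSub.mpr ⟨L, rfl⟩))
    intro v hv
    rw [Units.val_mul, count_mul K v J.ne_zero (L ^ p)⁻¹.ne_zero, Units.val_inv_eq_inv_val,
      count_inv, Units.val_pow_eq_pow_val, count_pow, hL, Units.val_mk0, hcount v]
    simp only [hexps, if_neg hv]
    rw [Int.mul_ediv_cancel' (h v hv), add_neg_cancel]

variable (R K) in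
/-- `kumS R K S p`: the elements of `Kˣ` whose valuations outside `S` are divisible by `p`. -/
def kumS (S : Set (HeightOneSpectrum R)) (p : ℕ) : Subgroup Kˣ :=
  kumSub (toPrincipalIdeal R K) (suppSub S) p

theorem mem_kumS_iff_count (S : Set (HeightOneSpectrum R)) (p : ℕ) (x : Kˣ) :
    x ∈ kumS R K S p ↔ ∀ v, v ∉ S → (p : ℤ) ∣ count K v (spanSingleton R⁰ (x : K)) := by
  rw [kumS, Subgroup.mem_comap, mem_sup_powSub_iff S p]
  simp only [coe_toPrincipalIdeal]

variable (R K) in
/-- The group `Cl_S = I / (principal · S-supported)`, `I` the invertible fractional ideals. -/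
abbrev ClS (S : Set (HeightOneSpectrum R)) : Type _ :=
  (FractionalIdeal R⁰ K)ˣ ⧸ ((toPrincipalIdeal R K).range ⊔ suppSub S)

/-- **Kummer count, Dedekind form**: `[Kum(S) : Kˣᵖ] = #Cl_S[p] * [U_S : U_Sᵖ]`. -/
theorem relIndex_powSub_kumS (S : Set (HeightOneSpectrum R)) {p : ℕ} (hp : p ≠ 0) :
    (powSub Kˣ p).relIndex (kumS R K S p)
      = Nat.card (powMonoidHom (α := ClS R K S) p).ker * (powSub (S.unit K) p).index := by
  have h := relIndex_powSub_kumSub (π := toPrincipalIdeal R K) (T := suppSub S) (p := p)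
    (suppSub_saturated S hp)
  rw [kumS, h]
  congr 1
  have hU := comap_suppSub (R := R) (K := K) S
  rw [hU]

instance finite_ClS [Finite (ClassGroup R)] (S : Set (HeightOneSpectrum R)) :
    Finite (ClS R K S) := by
  have h1 : Finite ((FractionalIdeal R⁰ K)ˣ ⧸ (toPrincipalIdeal R K).range) :=
    Finite.of_equiv _ (ClassGroup.equiv (R := R) K).toEquiv
  exact Finite.of_surjective
    (QuotientGroup.map _ ((toPrincipalIdeal R K).range ⊔ suppSub S) (MonoidHom.id _)
      (by intro x hx; exact Subgroup.mem_sup_left hx))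
    (by
      intro q
      obtain ⟨J, rfl⟩ := QuotientGroup.mk_surjective q
      exact ⟨QuotientGroup.mk J, rfl⟩)

variable (R K) in
/-- The number `#(Cl_S / p)`: the index of `principal · S-supported · p-th powers` in the group
of invertible fractional ideals. -/
def clSModCard (S : Set (HeightOneSpectrum R)) (p : ℕ) : ℕ :=
  ((toPrincipalIdeal R K).range ⊔ suppSub S ⊔ powSub (FractionalIdeal R⁰ K)ˣ p).index

theorem index_powSub_ClS (S : Set (HeightOneSpectrum R)) (p : ℕ) :
    (powSub (ClS R K S) p).index = clSModCard R K S p := by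
  rw [clSModCard, ← Subgroup.index_comap_of_surjective (powSub (ClS R K S) p)
    (QuotientGroup.mk'_surjective ((toPrincipalIdeal R K).range ⊔ suppSub S))]
  congr 1
  ext J
  rw [Subgroup.mem_comap, mem_powSub]
  constructor
  · rintro ⟨q, hq⟩
    obtain ⟨L, rfl⟩ := QuotientGroup.mk_surjective q
    rw [QuotientGroup.mk'_apply, ← QuotientGroup.mk_pow, QuotientGroup.eq] at hq
    have : J = L ^ p * ((L ^ p)⁻¹ * J) := by rw [mul_inv_cancel_left]
    rw [this, mul_comm]
    exact Subgroup.mul_mem _ (Subgroup.mem_sup_left hq)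
      (Subgroup.mem_sup_right (mem_powSub.mpr ⟨L, rfl⟩))
  · intro h
    obtain ⟨n, hn, z, hz, rfl⟩ := Subgroup.mem_sup.mp h
    obtain ⟨L, rfl⟩ := mem_powSub.mp hz
    refine ⟨QuotientGroup.mk L, ?_⟩
    rw [QuotientGroup.mk'_apply, ← QuotientGroup.mk_pow, QuotientGroup.eq]
    have : (L ^ p)⁻¹ * (n * L ^ p) = n := by rw [mul_comm n, inv_mul_cancel_left]
    rw [this]
    exact hn

/-- **Kummer count, Dedekind form with finite class group**:
`[Kum(S) : Kˣᵖ] = #(Cl_S / p) * [U_S : U_Sᵖ]`. -/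
theorem relIndex_powSub_kumS' [Finite (ClassGroup R)] (S : Set (HeightOneSpectrum R)) {p : ℕ}
    (hp : p ≠ 0) :
    (powSub Kˣ p).relIndex (kumS R K S p)
      = clSModCard R K S p * (powSub (S.unit K) p).index := by
  rw [relIndex_powSub_kumS S hp, card_ker_pow_eq_index_range, index_powSub_ClS]

/-- Cardinality of the image of a subgroup in a quotient. -/
theorem card_map_mk' {G : Type*} [CommGroup G] (N H : Subgroup G) :
    Nat.card (H.map (QuotientGroup.mk' N)) = N.relIndex H := by
  have h1 : ((QuotientGroup.mk' N).comp H.subtype).ker = N.subgroupOf H := by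
    ext x
    rw [MonoidHom.mem_ker, Subgroup.mem_subgroupOf, MonoidHom.comp_apply,
      QuotientGroup.mk'_apply, QuotientGroup.eq_one_iff]
    rfl
  have h2 : ((QuotientGroup.mk' N).comp H.subtype).range = H.map (QuotientGroup.mk' N) := by
    rw [MonoidHom.range_comp, Subgroup.range_subtype]
  rw [Subgroup.relIndex, ← h1, Subgroup.index_ker, h2]

theorem valuationOfNeZeroMod_mk_eq_one_iff (v : HeightOneSpectrum R) (p : ℕ) (x : Kˣ) :
    v.valuationOfNeZeroMod p (QuotientGroup.mk x) = 1 ↔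
      (p : ℤ) ∣ count K v (spanSingleton R⁰ (x : K)) := by
  have h1 : v.valuationOfNeZeroMod p (QuotientGroup.mk x)
      = Multiplicative.ofAdd (((Multiplicative.toAdd (v.valuationOfNeZero x) : ℤ)) : ZMod p) := rfl
  have h2 : Multiplicative.toAdd (v.valuationOfNeZero x)
      = -(count K v (spanSingleton R⁰ (x : K))) := by
    have h3 := HeightOneSpectrum.valuationOfNeZero_eq v x
    rw [valuation_eq_exp_neg_count v x.ne_zero] at h3
    have h4 : ((v.valuationOfNeZero x : Multiplicative ℤ) : WithZero (Multiplicative ℤ))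
        = WithZero.exp (Multiplicative.toAdd (v.valuationOfNeZero x)) := rfl
    rw [h4, WithZero.exp_inj] at h3
    exact h3
  rw [h1, h2]
  constructor
  · intro h
    have h5 : ((-(count K v (spanSingleton R⁰ (x : K))) : ℤ) : ZMod p) = 0 := h
    rw [ZMod.intCast_zmod_eq_zero_iff_dvd] at h5
    exact (dvd_neg.mp h5)
  · intro h
    have h5 : ((-(count K v (spanSingleton R⁰ (x : K))) : ℤ) : ZMod p) = 0 := by
      rw [ZMod.intCast_zmod_eq_zero_iff_dvd]
      exact dvd_neg.mpr h
    rw [h5]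
    rfl

/-- Mathlib's Selmer group `K⟮S, p⟯` is the image of `kumS`. -/
theorem selmerGroup_eq_map (S : Set (HeightOneSpectrum R)) (p : ℕ) :
    (selmerGroup (K := K) (S := S) (n := p)) = (kumS R K S p).map (QuotientGroup.mk' _) := by
  ext q
  obtain ⟨x, rfl⟩ := QuotientGroup.mk_surjective q
  have hmem : QuotientGroup.mk x ∈ selmerGroup (K := K) (S := S) (n := p) ↔
      ∀ v, v ∉ S → (v : HeightOneSpectrum R).valuationOfNeZeroMod p (QuotientGroup.mk x) = 1 :=
    Iff.rfl
  rw [hmem]
  simp only [valuationOfNeZeroMod_mk_eq_one_iff]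
  rw [← mem_kumS_iff_count, Subgroup.mem_map]
  constructor
  · intro h
    exact ⟨x, h, rfl⟩
  · rintro ⟨y, hy, hxy⟩
    rw [QuotientGroup.mk'_apply, QuotientGroup.eq] at hxy
    have : x = y * (y⁻¹ * x) := by rw [mul_inv_cancel_left]
    rw [this]
    exact Subgroup.mul_mem _ hy (powSub_le_kumSub _ _ _ hxy)

/-- **Kummer count for Mathlib's Selmer group, Dedekind form.** -/
theorem card_selmerGroup [Finite (ClassGroup R)] (S : Set (HeightOneSpectrum R)) {p : ℕ}
    (hp : p ≠ 0) :
    Nat.card (selmerGroup (K := K) (S := S) (n := p))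
      = clSModCard R K S p * (powSub (S.unit K) p).index := by
  rw [selmerGroup_eq_map, card_map_mk', relIndex_powSub_kumS' S hp]

end Dedekind

/-! ## Part 3: number fields -/

section NumberFieldCount

open Fermat.Agent.S14.helper2613

variable {F : Type*} [Field F] [NumberField F]

theorem mem_kumS_iff_ordAt (S : Finset (HeightOneSpectrum (𝓞 F))) (p : ℕ) (x : Fˣ) :
    x ∈ kumS (𝓞 F) F (S : Set (HeightOneSpectrum (𝓞 F))) p ↔
      ∀ v, v ∉ S → (p : ℤ) ∣ ordAt v x := by
  rw [mem_kumS_iff_count]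
  have key : ∀ v : HeightOneSpectrum (𝓞 F), ordAt v x
      = -(FractionalIdeal.count F v (FractionalIdeal.spanSingleton (𝓞 F)⁰ (x : F))) := by
    intro v
    rw [ordAt, valuation_eq_exp_neg_count v x.ne_zero, WithZero.log_exp]
  constructor
  · intro h v hv
    rw [key]
    exact dvd_neg.mpr (h v (by simpa using hv))
  · intro h v hv
    have := h v (by simpa using hv)
    rw [key] at this
    exact dvd_neg.mp this

/-- **The global Kummer count** (relative index form): if `F` contains a primitive `p`-th root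
of unity, then `[Kum(S) : Fˣᵖ] = p ^ (rank F + #S + 1) * #(Cl_S / p)`. -/
theorem relIndex_powSub_kumS_numberField (S : Finset (HeightOneSpectrum (𝓞 F))) {p : ℕ}
    (hp : p ≠ 0) {ζ : F} (hζ : IsPrimitiveRoot ζ p) :
    (powSub Fˣ p).relIndex (kumS (𝓞 F) F (S : Set (HeightOneSpectrum (𝓞 F))) p)
      = p ^ (NumberField.Units.rank F + S.card + 1)
        * clSModCard (𝓞 F) F (S : Set (HeightOneSpectrum (𝓞 F))) p := by
  rw [relIndex_powSub_kumS' _ hp, mul_comm]
  congr 1
  exact index_pow_SUnits S hp hζ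

/-- **The global Kummer count** for Mathlib's Selmer group `F⟮S, p⟯`. -/
theorem card_selmerGroup_numberField (S : Finset (HeightOneSpectrum (𝓞 F))) {p : ℕ}
    (hp : p ≠ 0) {ζ : F} (hζ : IsPrimitiveRoot ζ p) :
    Nat.card (selmerGroup (K := F) (S := (S : Set (HeightOneSpectrum (𝓞 F)))) (n := p))
      = p ^ (NumberField.Units.rank F + S.card + 1)
        * clSModCard (𝓞 F) F (S : Set (HeightOneSpectrum (𝓞 F))) p := by
  rw [selmerGroup_eq_map, card_map_mk', relIndex_powSub_kumS_numberField S hp hζ]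

/-- If `F` contains a primitive `p`-th root of unity with `2 < p`, then `F` is totally complex
and `rank F + 1 = [F : ℚ] / 2`. -/
theorem two_mul_rank_add_one {p : ℕ} (hp : 2 < p) {ζ : F} (hζ : IsPrimitiveRoot ζ p) :
    2 * (NumberField.Units.rank F + 1) = finrank ℚ F := by
  have h0 : InfinitePlace.nrRealPlaces F = 0 :=
    NumberField.InfinitePlace.IsPrimitiveRoot.nrRealPlaces_eq_zero_of_two_lt hp hζ
  have h1 := InfinitePlace.card_add_two_mul_card_eq_rank F
  have h2 := InfinitePlace.card_eq_nrRealPlaces_add_nrComplexPlaces F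
  have h3 : 0 < Fintype.card (InfinitePlace F) := Fintype.card_pos
  rw [NumberField.Units.rank]
  omega

theorem rank_add_one_eq {p : ℕ} (hp : 2 < p) {ζ : F} (hζ : IsPrimitiveRoot ζ p) :
    NumberField.Units.rank F + 1 = finrank ℚ F / 2 := by
  have := two_mul_rank_add_one hp hζ
  omega

end NumberFieldCount

/-! ## Part 4: the `p`-rank of `Cl_S` and the final form -/

section Rank

open FractionalIdeal

variable (R : Type*) [CommRing R] [IsDedekindDomain R] (K : Type*) [Field K] [Algebra R K]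
  [IsFractionRing R K]

/-- The group `Cl_S / p = I / (principal · S-supported · p-th powers)`. -/
abbrev ClSModP (S : Set (HeightOneSpectrum R)) (p : ℕ) : Type _ :=
  (FractionalIdeal R⁰ K)ˣ ⧸
    ((toPrincipalIdeal R K).range ⊔ suppSub S ⊔ powSub (FractionalIdeal R⁰ K)ˣ p)

theorem card_ClSModP (S : Set (HeightOneSpectrum R)) (p : ℕ) :
    Nat.card (ClSModP R K S p) = clSModCard R K S p :=
  (Subgroup.index_eq_card _).symm

instance finite_ClSModP [Finite (ClassGroup R)] (S : Set (HeightOneSpectrum R)) (p : ℕ) :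
    Finite (ClSModP R K S p) :=
  Finite.of_surjective
    (QuotientGroup.map ((toPrincipalIdeal R K).range ⊔ suppSub S)
      ((toPrincipalIdeal R K).range ⊔ suppSub S ⊔ powSub (FractionalIdeal R⁰ K)ˣ p)
      (MonoidHom.id _) (by intro x hx; exact Subgroup.mem_sup_left hx))
    (by
      intro q
      obtain ⟨J, rfl⟩ := QuotientGroup.mk_surjective q
      exact ⟨QuotientGroup.mk J, rfl⟩)

theorem pow_eq_one_ClSModP (S : Set (HeightOneSpectrum R)) (p : ℕ) (q : ClSModP R K S p) :
    q ^ p = 1 := by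
  obtain ⟨J, rfl⟩ := QuotientGroup.mk_surjective q
  rw [← QuotientGroup.mk_pow, QuotientGroup.eq_one_iff]
  exact Subgroup.mem_sup_right (mem_powSub.mpr ⟨J, rfl⟩)

/-- The `p`-rank of `Cl_S`: `#(Cl_S / p) = p ^ clSRank`. -/
def clSRank (S : Set (HeightOneSpectrum R)) (p : ℕ) : ℕ := Nat.log p (clSModCard R K S p)

theorem clSModCard_eq_pow [Finite (ClassGroup R)] (S : Set (HeightOneSpectrum R)) (p : ℕ)
    [hp : Fact p.Prime] : clSModCard R K S p = p ^ clSRank R K S p := by
  have hP : IsPGroup p (ClSModP R K S p) := fun q => ⟨1, by rw [pow_one, pow_eq_one_ClSModP]⟩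
  obtain ⟨n, hn⟩ := (IsPGroup.iff_card).mp hP
  rw [clSRank, ← card_ClSModP, hn, Nat.log_pow hp.out.one_lt]

end Rank

section Final

variable {F : Type*} [Field F] [NumberField F]

/-- **The global Kummer count, final form.** `F ∋ ζ_p`, `p` an odd prime, `S` a finite set of
finite places of `F`. The Selmer group `F⟮S, p⟯ = {x ∈ Fˣ/Fˣᵖ | p ∣ ord_v x ∀ v ∉ S}` has
`p ^ ([F:ℚ]/2 + #S + rk_p Cl_S)` elements. -/
theorem card_selmerGroup_eq_pow (S : Finset (HeightOneSpectrum (𝓞 F))) {p : ℕ} [hp : Fact p.Prime]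
    (hp2 : p ≠ 2) {ζ : F} (hζ : IsPrimitiveRoot ζ p) :
    Nat.card (selmerGroup (K := F) (S := (S : Set (HeightOneSpectrum (𝓞 F)))) (n := p))
      = p ^ (finrank ℚ F / 2 + S.card
          + clSRank (𝓞 F) F (S : Set (HeightOneSpectrum (𝓞 F))) p) := by
  have h2 : 2 < p := lt_of_le_of_ne hp.out.two_le (Ne.symm hp2)
  rw [card_selmerGroup_numberField S hp.out.ne_zero hζ, clSModCard_eq_pow, ← pow_add,
    ← rank_add_one_eq h2 hζ]
  congr 1
  ring

/-- The same count as a relative index inside `Fˣ`. -/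
theorem relIndex_powSub_kumS_eq_pow (S : Finset (HeightOneSpectrum (𝓞 F))) {p : ℕ}
    [hp : Fact p.Prime] (hp2 : p ≠ 2) {ζ : F} (hζ : IsPrimitiveRoot ζ p) :
    (powSub Fˣ p).relIndex (kumS (𝓞 F) F (S : Set (HeightOneSpectrum (𝓞 F))) p)
      = p ^ (finrank ℚ F / 2 + S.card
          + clSRank (𝓞 F) F (S : Set (HeightOneSpectrum (𝓞 F))) p) := by
  have h2 : 2 < p := lt_of_le_of_ne hp.out.two_le (Ne.symm hp2)
  rw [relIndex_powSub_kumS_numberField S hp.out.ne_zero hζ, clSModCard_eq_pow, ← pow_add,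
    ← rank_add_one_eq h2 hζ]
  congr 1
  ring

end Final

end

end Fermat.Agent.S55.helper9292
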