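/-
S55 moonshot, leaf NF-H1COUNT-DICT (seat helper9292): the global Kummer count of
`helper9292_SelmerCount` in the valuation-subring language of the frozen carriers.

`F : IntermediateField ℚ ℚ̄` finite over `ℚ`, `S` a finite set of rational primes,
`SF F S` the primes of `𝓞 F` over `S`.
-/
import Fermat.Agent.S55.helper9292_SelmerCount
import Fermat.Agent.S55.helper4727_Places

set_option autoImplicit false

namespace Fermat.Agent.S55.helper9292

open scoped NumberField
open IsDedekindDomain Module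
open Fermat.Agent.Lib.helper54 Fermat.Agent.S14.helper2613

attribute [local instance] numberField_intermediate

local notation "Qb" => AlgebraicClosure ℚ

noncomputable section

/-! ## `ordAt` of quotients and integer powers -/

section Ord

variable {K : Type*} [Field K] [NumberField K]

theorem ordAt_div' (v : HeightOneSpectrum (𝓞 K)) (x y : Kˣ) :
    ordAt v (x / y) = ordAt v x - ordAt v y := by
  have h : ordHom v (x / y) = ordHom v x / ordHom v y := map_div _ _ _
  exact congrArg Multiplicative.toAdd h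

theorem ordAt_zpow' (v : HeightOneSpectrum (𝓞 K)) (x : Kˣ) (n : ℤ) :
    ordAt v (x ^ n) = n * ordAt v x := by
  have h : ordHom v (x ^ n) = ordHom v x ^ n := map_zpow _ _ _
  have h2 := congrArg Multiplicative.toAdd h
  rw [toAdd_zpow] at h2
  exact h2.trans (by simp [ordHom])

theorem ordAt_npow' (v : HeightOneSpectrum (𝓞 K)) (x : Kˣ) (n : ℕ) :
    ordAt v (x ^ n) = n * ordAt v x := by
  have h := ordAt_zpow' v x n
  simpa using h

end Ord

section Dict

variable (F : IntermediateField ℚ Qb) [FiniteDimensional ℚ F]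

theorem finite_primesOverS (S : Finset Nat.Primes) :
    {v : HeightOneSpectrum (𝓞 F) |
      ∃ q ∈ S, (((q : Nat.Primes) : ℕ) : 𝓞 F) ∈ v.asIdeal}.Finite := by
  have h : {v : HeightOneSpectrum (𝓞 F) | ∃ q ∈ S, (((q : Nat.Primes) : ℕ) : 𝓞 F) ∈ v.asIdeal}
      = ⋃ q ∈ S, {v : HeightOneSpectrum (𝓞 F) | (((q : Nat.Primes) : ℕ) : 𝓞 F) ∈ v.asIdeal} := by
    ext v
    simp
  rw [h]
  refine Set.Finite.biUnion S.finite_toSet (fun q _ => ?_)
  have : Fact ((q : Nat.Primes) : ℕ).Prime := ⟨q.2⟩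
  exact Set.finite_coe_iff.mp (Fermat.Agent.S55.helper4727.finite_primesOver (q : ℕ) F)

/-- The primes of `𝓞 F` over a finite set `S` of rational primes, as a `Finset`. -/
def SF (S : Finset Nat.Primes) : Finset (HeightOneSpectrum (𝓞 F)) :=
  (finite_primesOverS F S).toFinset

variable {F} in
theorem mem_SF {S : Finset Nat.Primes} {v : HeightOneSpectrum (𝓞 F)} :
    v ∈ SF F S ↔ ∃ q ∈ S, (((q : Nat.Primes) : ℕ) : 𝓞 F) ∈ v.asIdeal := by
  simp [SF]

theorem card_SF (S : Finset Nat.Primes) :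
    (SF F S).card = Nat.card {v : HeightOneSpectrum (𝓞 F) //
      ∃ q ∈ S, (((q : Nat.Primes) : ℕ) : 𝓞 F) ∈ v.asIdeal} := by
  rw [SF, ← Set.ncard_eq_toFinset_card _ (finite_primesOverS F S)]
  exact (Nat.card_coe_set_eq _).symm

/-- The number of primes of `𝓞 F` over `S` is the number of double cosets
`Gal(ℚ̄/F) \ G_ℚ / D_q`, `q ∈ S` (helper4727). -/
theorem card_SF_eq_sum (S : Finset Nat.Primes) :
    (SF F S).card = ∑ q ∈ S, Nat.card (DoubleCoset.Quotient
        (F.fixingSubgroup : Set (Qb ≃ₐ[ℚ] Qb))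
        ((ExtCitation.primeLocalPlace q).decompositionSubgroup ℚ : Set (Qb ≃ₐ[ℚ] Qb))) := by
  rw [card_SF, Fermat.Agent.S55.helper4727.sum_card_doubleCoset]

/-- A prime cut out by a valuation subring over `q ∉ S` is not in `SF F S`. -/
theorem heightOneOL_notMem_SF {S : Finset Nat.Primes} {q : Nat.Primes} (hq : q ∉ S)
    (A : ValuationSubring Qb) (hA : A.LiesOverPrime (q : ℕ)) :
    heightOneOL F q.2 A hA ∉ SF F S := by
  rw [mem_SF]
  rintro ⟨q', hq', hmem⟩
  have h : (q' : ℕ) = q := eq_of_natCast_mem_primeOL F q.2 q'.2 A hA hmem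
  have h' : q' = q := Subtype.ext h
  exact hq (h' ▸ hq')

/-- Every prime outside `SF F S` is cut out by a valuation subring over some `q ∉ S`. -/
theorem exists_heightOneOL_eq_of_notMem_SF {S : Finset Nat.Primes} {v : HeightOneSpectrum (𝓞 F)}
    (hv : v ∉ SF F S) :
    ∃ (q : Nat.Primes) (A : ValuationSubring Qb) (hA : A.LiesOverPrime (q : ℕ)),
      q ∉ S ∧ heightOneOL F q.2 A hA = v := by
  have := v.isPrime
  obtain ⟨ℓ, A, hℓ, hA, hP⟩ := exists_valuationSubring_primeOL_eq F v.asIdeal v.ne_bot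
  refine ⟨⟨ℓ, hℓ⟩, A, hA, ?_, HeightOneSpectrum.ext hP⟩
  intro hmem
  apply hv
  rw [mem_SF]
  refine ⟨⟨ℓ, hℓ⟩, hmem, ?_⟩
  rw [← hP]
  exact natCast_mem_primeOL F A hA

/-- **Dictionary.** `a ∈ Fˣ` has all valuations outside `SF F S` divisible by `p` iff at every
valuation subring `A` of `ℚ̄` over a prime `q ∉ S` it is a unit times a `p`-th power of `F`. -/
theorem mem_kumS_SF_iff (S : Finset Nat.Primes) (p : ℕ) (a : Fˣ) :
    a ∈ kumS (𝓞 F) F (SF F S : Set (HeightOneSpectrum (𝓞 F))) p ↔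
      ∀ q : Nat.Primes, q ∉ S → ∀ A : ValuationSubring Qb, A.LiesOverPrime (q : ℕ) →
        ∃ c : Fˣ, A.valuation (algebraMap F Qb ((a : F) / (c : F) ^ p)) = 1 := by
  rw [mem_kumS_iff_ordAt]
  constructor
  · intro h q hq A hA
    obtain ⟨k, hk⟩ := h _ (heightOneOL_notMem_SF F hq A hA)
    obtain ⟨π, hπ⟩ := (heightOneOL F q.2 A hA).valuation_exists_uniformizer F
    have hπ0 : π ≠ 0 := by
      rintro rfl
      rw [map_zero] at hπ
      exact WithZero.exp_ne_zero hπ.symm
    have hu : ordAt (heightOneOL F q.2 A hA) (Units.mk0 π hπ0) = -1 := by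
      rw [ordAt, Units.val_mk0, hπ, WithZero.log_exp]
    refine ⟨(Units.mk0 π hπ0) ^ (-k), ?_⟩
    rw [← heightOneOL_valuation_eq_one_iff F q.2 A hA]
    have hcast : ((a : F) / (((Units.mk0 π hπ0) ^ (-k) : Fˣ) : F) ^ p)
        = ((a / ((Units.mk0 π hπ0) ^ (-k)) ^ p : Fˣ) : F) := by
      push_cast
      rfl
    rw [hcast, ← ordAt_eq_zero_iff, ordAt_div', ordAt_npow', ordAt_zpow', hu, hk]
    ring
  · intro h v hv
    obtain ⟨q, A, hA, hq, rfl⟩ := exists_heightOneOL_eq_of_notMem_SF F hv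
    obtain ⟨c, hc⟩ := h q hq A hA
    rw [← heightOneOL_valuation_eq_one_iff F q.2 A hA] at hc
    have hcast : ((a : F) / (c : F) ^ p) = ((a / c ^ p : Fˣ) : F) := by
      push_cast
      rfl
    rw [hcast, ← ordAt_eq_zero_iff, ordAt_div', ordAt_npow'] at hc
    exact ⟨ordAt (heightOneOL F q.2 A hA) c, by linarith⟩

/-- **The global Kummer count in the language of the frozen carriers.** `F ⊂ ℚ̄` a number field
containing a primitive `p`-th root of unity, `p` odd, `S` a finite set of rational primes. The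
group of `a ∈ Fˣ` which are locally (at every place of `ℚ̄` over a prime outside `S`) a unit times
a `p`-th power has index `p ^ ([F:ℚ]/2 + #S_F + rk_p Cl_S(F))` over the `p`-th powers. -/
theorem relIndex_powSub_kumS_SF (S : Finset Nat.Primes) {p : ℕ} [Fact p.Prime] (hp2 : p ≠ 2)
    {ζ : F} (hζ : IsPrimitiveRoot ζ p) :
    (powSub Fˣ p).relIndex (kumS (𝓞 F) F (SF F S : Set (HeightOneSpectrum (𝓞 F))) p)
      = p ^ (finrank ℚ F / 2 + (SF F S).card
          + clSRank (𝓞 F) F (SF F S : Set (HeightOneSpectrum (𝓞 F))) p) :=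
  relIndex_powSub_kumS_eq_pow (SF F S) hp2 hζ

end Dict

end

end Fermat.Agent.S55.helper9292
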