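import Mathlib
import Fermat.Prelude.Def_GroupCohomology_ContinuousUnramified
import Fermat.Agent.Lib.helper54_LocalSplit
import Fermat.Agent.Lib.helper1646_MinkowskiInertia

/-!
# S55-GLOBRAM (helper4709): frozen `IsUnramifiedOutside S` versus classical ramification

Global bridge for the number-field core of S55.
-/

set_option autoImplicit false
set_option linter.unusedSectionVars false

namespace Fermat.Agent.S55.helper4709

open scoped Pointwise NumberField
open Fermat.Agent.Lib

attribute [local instance] helper54.isAlgebraic_Qbar helper54.isAlgClosure_Qbar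
  helper54.isGalois_Qbar helper54.isIntegral_Qbar helper54.numberField_intermediate

local notation "Qb" => AlgebraicClosure ℚ
local notation "GQ" => (AlgebraicClosure ℚ ≃ₐ[ℚ] AlgebraicClosure ℚ)

/-- (G0a) A Galois conjugate of an `S`-unramified field is `S`-unramified. -/
theorem isUnramifiedOutside_map {S : Finset Nat.Primes} {F : IntermediateField ℚ Qb}
    (hF : F.IsUnramifiedOutside S) (σ : GQ) :
    (F.map (σ : Qb →ₐ[ℚ] Qb)).IsUnramifiedOutside S := by
  have := hF.1
  refine ⟨?_, fun q hq A hA g hg => ?_⟩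
  · exact (IntermediateField.equivMap F (σ : Qb →ₐ[ℚ] Qb)).toLinearEquiv.finiteDimensional
  · rw [IntermediateField.mem_fixingSubgroup_iff]
    rintro y hy
    obtain ⟨x, hx, rfl⟩ := hy
    have h1 := helper1646.conj_mem_inertiaSubgroupIn A σ⁻¹ g hg
    have h2 := hF.2 q hq (σ⁻¹ • A) (helper1646.liesOverPrime_smul A σ⁻¹ hA) h1
    rw [IntermediateField.mem_fixingSubgroup_iff] at h2
    have h3 := h2 x hx
    have h4 : (σ⁻¹ * g * σ⁻¹⁻¹) x = σ⁻¹ (g (σ x)) := by
      rw [inv_inv]; rfl
    rw [h4] at h3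
    have h5 := congrArg σ h3
    have h6 : σ (σ⁻¹ (g (σ x))) = g (σ x) := σ.apply_symm_apply _
    rw [h6] at h5
    exact h5

/-- (G0) The normal closure of an `S`-unramified field is `S`-unramified. -/
theorem isUnramifiedOutside_normalClosure {S : Finset Nat.Primes} {F : IntermediateField ℚ Qb}
    (hF : F.IsUnramifiedOutside S) :
    (IntermediateField.normalClosure ℚ F Qb).IsUnramifiedOutside S := by
  have := hF.1
  refine ⟨inferInstance, fun q hq A hA => ?_⟩
  rw [← IntermediateField.le_iff_le]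
  have h := IntermediateField.normalClosure_def'' (F := ℚ) (L := Qb) F
  refine le_trans (le_of_eq h) ?_
  exact iSup_le fun σ =>
    (IntermediateField.le_iff_le _ _).2 ((isUnramifiedOutside_map hF σ).2 q hq A hA)

/-- The inertia group (in `Gal(N/ℚ)`) of the prime of `𝓞 N` cut out by `A` is trivial as soon as
the inertia subgroup of `A` in `Gal(ℚ̄/ℚ)` fixes `N`. -/
theorem inertia_primeOL_eq_bot (N : IntermediateField ℚ Qb) [FiniteDimensional ℚ N] [IsGalois ℚ N]
    {q : ℕ} (hq : q.Prime) (A : ValuationSubring Qb) (hA : A.LiesOverPrime q)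
    (hI : A.inertiaSubgroupIn ℚ ≤ N.fixingSubgroup) :
    Ideal.inertia Gal(N/ℚ) (helper54.primeOL N A) = ⊥ := by
  rw [eq_bot_iff]
  intro γ hγ
  rw [Subgroup.mem_bot]
  obtain ⟨g, hg, hgγ⟩ := helper54.exists_mem_inertiaSubgroupIn_restrict_eq N hq A hA γ
    (fun a => hγ a)
  rw [← hgγ]
  exact helper54.restrictNormalHom_eq_one_of_mem_fixingSubgroup N g (hI hg)

/-- If the inertia subgroup of `A` fixes the Galois number field `N`, the prime of `𝓞 N` cut out by
`A` has ramification index one over `ℤ`. -/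
theorem ramificationIdx_primeOL_eq_one (N : IntermediateField ℚ Qb) [FiniteDimensional ℚ N]
    [IsGalois ℚ N] {q : ℕ} (hq : q.Prime) (A : ValuationSubring Qb) (hA : A.LiesOverPrime q)
    (hI : A.inertiaSubgroupIn ℚ ≤ N.fixingSubgroup) :
    (helper54.primeOL N A).ramificationIdx ℤ = 1 := by
  have htriv := inertia_primeOL_eq_bot N hq A hA hI
  have hpZ : Prime (q : ℤ) := Nat.prime_iff_prime_int.mp hq
  have hqP : ((q : ℕ) : 𝓞 N) ∈ helper54.primeOL N A := helper54.natCast_mem_primeOL N A hA
  have hlies : (helper54.primeOL N A).LiesOver (Ideal.span {(q : ℤ)}) := by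
    rw [Ideal.liesOver_span_iff (helper54.primeOL_isPrime N A).ne_top hpZ]
    simpa using hqP
  have hpprime : (Ideal.span {(q : ℤ)}).IsPrime := by
    rw [Ideal.span_singleton_prime hpZ.ne_zero]
    exact hpZ
  have hcard := Ideal.card_inertia_eq_ramificationIdxIn (G := Gal(N/ℚ)) (Ideal.span {(q : ℤ)})
    (helper54.primeOL N A)
  rw [htriv, Subgroup.card_bot,
    Ideal.ramificationIdxIn_eq_ramificationIdx _ (helper54.primeOL N A) Gal(N/ℚ)] at hcard
  exact hcard.symm

section Dictionary

variable (F : IntermediateField ℚ Qb) [FiniteDimensional ℚ F]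

/-- The height-one prime of `𝓞 F` cut out by a valuation subring `A` of `ℚ̄` over a prime `q`. -/
noncomputable def placeOL {q : ℕ} (hq : q.Prime) (A : ValuationSubring Qb)
    (hA : A.LiesOverPrime q) : IsDedekindDomain.HeightOneSpectrum (𝓞 F) :=
  ⟨helper54.primeOL F A, helper54.primeOL_isPrime F A, helper54.primeOL_ne_bot F hq A hA⟩

@[simp] theorem placeOL_asIdeal {q : ℕ} (hq : q.Prime) (A : ValuationSubring Qb)
    (hA : A.LiesOverPrime q) : (placeOL F hq A hA).asIdeal = helper54.primeOL F A := rfl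

/-- Algebraic integers of `F` lie in every valuation subring of `ℚ̄`. -/
theorem algebraMap_integer_mem (A : ValuationSubring Qb) (a : 𝓞 F) :
    algebraMap F Qb (a : F) ∈ A :=
  helper54.mem_valuationSubring_of_isIntegral A _ (helper54.oLToZbar F a).2

/-- An integer of `F` outside the prime cut out by `A` is a unit of `A`. -/
theorem valuation_integer_eq_one_of_notMem (A : ValuationSubring Qb) (a : 𝓞 F)
    (ha : a ∉ helper54.primeOL F A) : A.valuation (algebraMap F Qb (a : F)) = 1 := by
  have h1 : A.valuation (algebraMap F Qb (a : F)) ≤ 1 :=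
    (A.valuation_le_one_iff _).2 (algebraMap_integer_mem F A a)
  rcases lt_or_eq_of_le h1 with h2 | h2
  · exact absurd ((helper54.mem_primeOL F A a).2 ((ValuationSubring.mem_nonunits_iff A).2 h2)) ha
  · exact h2

/-- An integer of `F` inside the prime cut out by `A` is a nonunit of `A`. -/
theorem valuation_integer_lt_one_of_mem (A : ValuationSubring Qb) (a : 𝓞 F)
    (ha : a ∈ helper54.primeOL F A) : A.valuation (algebraMap F Qb (a : F)) < 1 :=
  (ValuationSubring.mem_nonunits_iff A).1 ((helper54.mem_primeOL F A a).1 ha)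

variable {q : ℕ} (hq : q.Prime) (A : ValuationSubring Qb) (hA : A.LiesOverPrime q)

/-- (D1a) `v_P(x) ≤ 1 → x ∈ A`. -/
theorem valuation_le_one_of_placeOL_le_one (x : F)
    (hx : (placeOL F hq A hA).valuation F x ≤ 1) : A.valuation (algebraMap F Qb x) ≤ 1 := by
  obtain ⟨n, d, hnd⟩ :=
    IsDedekindDomain.HeightOneSpectrum.exists_primeCompl_mul_eq_of_integer (placeOL F hq A hA) x hx
  have hd : A.valuation (algebraMap F Qb ((d : 𝓞 F) : F)) = 1 :=
    valuation_integer_eq_one_of_notMem F A d d.2
  have hn : A.valuation (algebraMap F Qb ((n : 𝓞 F) : F)) ≤ 1 :=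
    (A.valuation_le_one_iff _).2 (algebraMap_integer_mem F A n)
  have h1 := congrArg (fun y : F => A.valuation (algebraMap F Qb y)) hnd
  simp only [map_mul] at h1
  have h2 : algebraMap (𝓞 F) F (d : 𝓞 F) = ((d : 𝓞 F) : F) := rfl
  have h3 : algebraMap (𝓞 F) F n = (n : F) := rfl
  rw [h2, h3, hd, mul_one] at h1
  rw [h1]
  exact hn

/-- (D1b) `v_P(x) < 1 → x ∈ 𝔪_A`. -/
theorem valuation_lt_one_of_placeOL_lt_one (x : F)
    (hx : (placeOL F hq A hA).valuation F x < 1) : A.valuation (algebraMap F Qb x) < 1 := by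
  obtain ⟨n, d, hnd⟩ :=
    IsDedekindDomain.HeightOneSpectrum.exists_primeCompl_mul_eq_of_integer (placeOL F hq A hA) x
      hx.le
  have hd : A.valuation (algebraMap F Qb ((d : 𝓞 F) : F)) = 1 :=
    valuation_integer_eq_one_of_notMem F A d d.2
  have hdv : (placeOL F hq A hA).valuation F (algebraMap (𝓞 F) F (d : 𝓞 F)) = 1 := by
    rw [IsDedekindDomain.HeightOneSpectrum.valuation_of_algebraMap,
      IsDedekindDomain.HeightOneSpectrum.intValuation_eq_one_iff_mem_primeCompl]
    exact d.2
  have hnv : (placeOL F hq A hA).valuation F (algebraMap (𝓞 F) F n) < 1 := by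
    rw [← hnd, map_mul, hdv, mul_one]
    exact hx
  have hnP : n ∈ helper54.primeOL F A := by
    rw [IsDedekindDomain.HeightOneSpectrum.valuation_lt_one_iff_mem] at hnv
    exact hnv
  have hn : A.valuation (algebraMap F Qb ((n : 𝓞 F) : F)) < 1 :=
    valuation_integer_lt_one_of_mem F A n hnP
  have h1 := congrArg (fun y : F => A.valuation (algebraMap F Qb y)) hnd
  simp only [map_mul] at h1
  have h2 : algebraMap (𝓞 F) F (d : 𝓞 F) = ((d : 𝓞 F) : F) := rfl
  have h3 : algebraMap (𝓞 F) F n = (n : F) := rfl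
  rw [h2, h3, hd, mul_one] at h1
  rw [h1]
  exact hn

/-- (D1) The valuation ring of the height-one prime cut out by `A` is `A ∩ F`. -/
theorem placeOL_valuation_le_one_iff (x : F) :
    (placeOL F hq A hA).valuation F x ≤ 1 ↔ A.valuation (algebraMap F Qb x) ≤ 1 := by
  refine ⟨valuation_le_one_of_placeOL_le_one F hq A hA x, fun h => ?_⟩
  by_contra hcon
  rw [not_le] at hcon
  have hx0 : x ≠ 0 := by
    rintro rfl
    simp at hcon
  have h1 : (placeOL F hq A hA).valuation F x⁻¹ < 1 := by
    rw [map_inv₀]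
    exact inv_lt_one_of_one_lt₀ hcon
  have h2 := valuation_lt_one_of_placeOL_lt_one F hq A hA x⁻¹ h1
  rw [map_inv₀, map_inv₀] at h2
  have h3 : A.valuation (algebraMap F Qb x) ≠ 0 := by
    rw [Ne, map_eq_zero, map_eq_zero]
    exact hx0
  have h4 : 1 < A.valuation (algebraMap F Qb x) := by
    have := (inv_lt_one₀ (zero_lt_iff.2 h3)).1 h2
    exact this
  exact absurd h (not_le.2 h4)

/-- (D1') strict version. -/
theorem placeOL_valuation_lt_one_iff (x : F) :
    (placeOL F hq A hA).valuation F x < 1 ↔ A.valuation (algebraMap F Qb x) < 1 := by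
  refine ⟨valuation_lt_one_of_placeOL_lt_one F hq A hA x, fun h => ?_⟩
  by_contra hcon
  rw [not_lt] at hcon
  have hx0 : x ≠ 0 := by
    rintro rfl
    simp at hcon
  have h1 : (placeOL F hq A hA).valuation F x⁻¹ ≤ 1 := by
    rw [map_inv₀]
    exact inv_le_one_of_one_le₀ hcon
  have h2 := valuation_le_one_of_placeOL_le_one F hq A hA x⁻¹ h1
  rw [map_inv₀, map_inv₀] at h2
  have h3 : A.valuation (algebraMap F Qb x) ≠ 0 := by
    rw [Ne, map_eq_zero, map_eq_zero]
    exact hx0
  have h4 : 1 ≤ A.valuation (algebraMap F Qb x) :=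
    (inv_le_one₀ (zero_lt_iff.2 h3)).1 h2
  exact absurd h (not_lt.2 h4)

/-- (D1'') unit version. -/
theorem placeOL_valuation_eq_one_iff (x : F) :
    (placeOL F hq A hA).valuation F x = 1 ↔ A.valuation (algebraMap F Qb x) = 1 := by
  have h1 := placeOL_valuation_le_one_iff F hq A hA x
  have h2 := placeOL_valuation_lt_one_iff F hq A hA x
  constructor
  · intro h
    exact le_antisymm (h1.1 h.le) (not_lt.1 fun h3 => absurd (h2.2 h3) (by rw [h]; exact lt_irrefl _))
  · intro h
    exact le_antisymm (h1.2 h.le) (not_lt.1 fun h3 => absurd (h2.1 h3) (by rw [h]; exact lt_irrefl _))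

end Dictionary

section ValueGroup

variable (F : IntermediateField ℚ Qb) [FiniteDimensional ℚ F]
variable {q : ℕ} (hq : q.Prime) (A : ValuationSubring Qb) (hA : A.LiesOverPrime q)

/-- `v_P(q) = exp (-1)` if and only if `e(P | q) = 1` (Mathlib's `Ideal.ramificationIdx`). -/
theorem placeOL_valuation_natCast_iff :
    (placeOL F hq A hA).valuation F ((q : ℕ) : F) = WithZero.exp (-1 : ℤ) ↔
      (helper54.primeOL F A).ramificationIdx ℤ = 1 := by
  have hq0 : ((q : ℕ) : 𝓞 F) ≠ 0 := Nat.cast_ne_zero.mpr hq.ne_zero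
  have hpZ : Prime (q : ℤ) := Nat.prime_iff_prime_int.mp hq
  have hqP : ((q : ℕ) : 𝓞 F) ∈ helper54.primeOL F A := helper54.natCast_mem_primeOL F A hA
  have hlies : (helper54.primeOL F A).LiesOver (Ideal.span {(q : ℤ)}) := by
    rw [Ideal.liesOver_span_iff (helper54.primeOL_isPrime F A).ne_top hpZ]
    simpa using hqP
  have hmap : (Ideal.span {(q : ℤ)}).map (algebraMap ℤ (𝓞 F)) = Ideal.span {((q : ℕ) : 𝓞 F)} := by
    rw [Ideal.map_span, Set.image_singleton]
    simp
  have hne : (Ideal.span {(q : ℤ)}).map (algebraMap ℤ (𝓞 F)) ≠ ⊥ := by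
    rw [hmap, Ne, Ideal.span_singleton_eq_bot]
    exact hq0
  have he := Ideal.IsDedekindDomain.ramificationIdx_eq_multiplicity (Ideal.span {(q : ℤ)})
    (helper54.primeOL F A) hne
  have hv : (placeOL F hq A hA).valuation F ((q : ℕ) : F) =
      WithZero.exp (-(multiplicity (helper54.primeOL F A) (Ideal.span {((q : ℕ) : 𝓞 F)}) : ℤ)) := by
    have h1 : ((q : ℕ) : F) = algebraMap (𝓞 F) F ((q : ℕ) : 𝓞 F) := by simp
    rw [h1, IsDedekindDomain.HeightOneSpectrum.valuation_of_algebraMap,
      IsDedekindDomain.HeightOneSpectrum.intValuation_eq_exp_neg_multiplicity _ hq0]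
    rfl
  rw [hv, he, hmap, WithZero.exp_inj]
  omega

include hq hA in
/-- (G1, core) If `e(P | q) = 1` for the prime `P` of `𝓞 F` cut out by `A`, then `q` generates the
value group of `A ∩ F`: every nonzero `x ∈ F` is a unit of `A` times a power of `q`. -/
theorem exists_zpow_valuation_eq_one_of_ramificationIdx_eq_one
    (he : (helper54.primeOL F A).ramificationIdx ℤ = 1) (x : F) (hx : x ≠ 0) :
    ∃ k : ℤ, A.valuation (algebraMap F Qb x / (q : Qb) ^ k) = 1 := by
  have hvq := (placeOL_valuation_natCast_iff F hq A hA).2 he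
  have hvx : (placeOL F hq A hA).valuation F x ≠ 0 := by
    rw [Ne, map_eq_zero]
    exact hx
  refine ⟨-(WithZero.log ((placeOL F hq A hA).valuation F x)), ?_⟩
  have h1 : (placeOL F hq A hA).valuation F
      (x / ((q : ℕ) : F) ^ (-(WithZero.log ((placeOL F hq A hA).valuation F x)))) = 1 := by
    rw [map_div₀, map_zpow₀, hvq, ← WithZero.exp_zsmul, smul_eq_mul, neg_mul_neg, mul_one,
      WithZero.exp_log hvx]
    exact div_self hvx
  have h2 := (placeOL_valuation_eq_one_iff F hq A hA _).1 h1
  rw [map_div₀, map_zpow₀, map_natCast] at h2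
  exact h2

end ValueGroup

/-- The normal closure in `ℚ̄` of a subfield is Galois over `ℚ` (for the default algebra
instance on the subfield). -/
theorem isGalois_normalClosure (F : IntermediateField ℚ Qb) :
    IsGalois ℚ (IntermediateField.normalClosure ℚ F Qb) := by
  have h : @Normal ℚ (IntermediateField.normalClosure ℚ F Qb) _ _
      (IntermediateField.algebra' _) := by
    exact normalClosure.normal ℚ F Qb
  have h' : Normal ℚ (IntermediateField.normalClosure ℚ F Qb) := h
  exact IsGalois.mk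

/-- **(G1) Value group of an `S`-level.**  If `F` is unramified outside `S` (frozen sense),
`q ∉ S` and `A` is a valuation subring of `ℚ̄` over `q`, then every nonzero `x ∈ F` is a unit
of `A` times an integral power of `q`: `q` is a uniformizer at every place of `F` above `q`. -/
theorem exists_zpow_valuation_eq_one {S : Finset Nat.Primes} {F : IntermediateField ℚ Qb}
    (hF : F.IsUnramifiedOutside S) (q : Nat.Primes) (hq : q ∉ S)
    (A : ValuationSubring Qb) (hA : A.LiesOverPrime (q : ℕ)) (x : Qb) (hx : x ∈ F)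
    (hx0 : x ≠ 0) : ∃ k : ℤ, A.valuation (x / (q : Qb) ^ k) = 1 := by
  have := hF.1
  have hN := isUnramifiedOutside_normalClosure hF
  have : FiniteDimensional ℚ (IntermediateField.normalClosure ℚ F Qb) := hN.1
  have : IsGalois ℚ (IntermediateField.normalClosure ℚ F Qb) := isGalois_normalClosure F
  have he := ramificationIdx_primeOL_eq_one (IntermediateField.normalClosure ℚ F Qb) q.2 A hA
    (hN.2 q hq A hA)
  have hxN : x ∈ IntermediateField.normalClosure ℚ F Qb := IntermediateField.le_normalClosure F hx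
  obtain ⟨k, hk⟩ := exists_zpow_valuation_eq_one_of_ramificationIdx_eq_one
    (IntermediateField.normalClosure ℚ F Qb) q.2 A hA he ⟨x, hxN⟩
    (by intro h; exact hx0 (congrArg Subtype.val h))
  exact ⟨k, hk⟩

/-- **(G2a)** If `F` is unramified outside `S` (frozen sense), `q ∉ S` and `A` lies over `q`, then
`q` has valuation `exp (-1)` at the height-one prime of `𝓞 F` cut out by `A`. -/
theorem placeOL_valuation_natCast_of_isUnramifiedOutside {S : Finset Nat.Primes}
    {F : IntermediateField ℚ Qb} [FiniteDimensional ℚ F] (hF : F.IsUnramifiedOutside S)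
    (q : Nat.Primes) (hq : q ∉ S) (A : ValuationSubring Qb) (hA : A.LiesOverPrime (q : ℕ)) :
    (placeOL F q.2 A hA).valuation F (((q : ℕ) : ℕ) : F) = WithZero.exp (-1 : ℤ) := by
  obtain ⟨π, hπ⟩ :=
    IsDedekindDomain.HeightOneSpectrum.valuation_exists_uniformizer F (placeOL F q.2 A hA)
  have hπ0 : π ≠ 0 := by
    rintro rfl
    rw [map_zero] at hπ
    exact WithZero.exp_ne_zero hπ.symm
  obtain ⟨k, hk⟩ := exists_zpow_valuation_eq_one hF q hq A hA (algebraMap F Qb π) π.2
    (by intro h; exact hπ0 (Subtype.ext h))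
  have h1 : (placeOL F q.2 A hA).valuation F (π / (((q : ℕ) : ℕ) : F) ^ k) = 1 := by
    rw [placeOL_valuation_eq_one_iff, map_div₀, map_zpow₀, map_natCast]
    exact hk
  have hq0 : (placeOL F q.2 A hA).valuation F (((q : ℕ) : ℕ) : F) ≠ 0 := by
    rw [Ne, map_eq_zero]
    exact Nat.cast_ne_zero.mpr q.2.ne_zero
  have hqlt : (placeOL F q.2 A hA).valuation F (((q : ℕ) : ℕ) : F) < 1 := by
    have h2 : (((q : ℕ) : ℕ) : F) = algebraMap (𝓞 F) F (((q : ℕ) : ℕ) : 𝓞 F) := by simp
    rw [h2, IsDedekindDomain.HeightOneSpectrum.valuation_lt_one_iff_mem]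
    exact helper54.natCast_mem_primeOL F A hA
  obtain ⟨z, hz⟩ : ∃ z : ℤ, (placeOL F q.2 A hA).valuation F (((q : ℕ) : ℕ) : F) = WithZero.exp z :=
    ⟨_, (WithZero.exp_log hq0).symm⟩
  rw [hz] at hqlt ⊢
  rw [← WithZero.exp_zero, WithZero.exp_lt_exp] at hqlt
  rw [map_div₀, map_zpow₀, hπ, hz, ← WithZero.exp_zsmul, smul_eq_mul,
    div_eq_iff WithZero.exp_ne_zero, one_mul, WithZero.exp_inj] at h1
  rw [WithZero.exp_inj]
  have h3 : z ∣ 1 := Dvd.intro_left (-k) (by rw [neg_mul, ← h1]; norm_num)
  rcases Int.isUnit_iff.1 (isUnit_of_dvd_one h3) with h4 | h4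
  · rw [h4] at hqlt
    exact absurd hqlt (by norm_num)
  · exact h4

/-- **(G2)** Mathlib form: if `F` is unramified outside `S` (frozen sense), then every prime of
`𝓞 F` above a prime number `q ∉ S` has ramification index one over `ℤ`. -/
theorem ramificationIdx_eq_one_of_isUnramifiedOutside {S : Finset Nat.Primes}
    {F : IntermediateField ℚ Qb} [FiniteDimensional ℚ F] (hF : F.IsUnramifiedOutside S)
    (q : Nat.Primes) (hq : q ∉ S) (P : Ideal (𝓞 F)) [P.IsPrime] (hqP : (((q : ℕ) : ℕ) : 𝓞 F) ∈ P) :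
    P.ramificationIdx ℤ = 1 := by
  obtain ⟨A, hA, rfl⟩ := helper54.exists_valuationSubring_primeOL_eq_of_mem F q.2 P hqP
  exact (placeOL_valuation_natCast_iff F q.2 A hA).1
    (placeOL_valuation_natCast_of_isUnramifiedOutside hF q hq A hA)

end Fermat.Agent.S55.helper4709
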