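import Mathlib
import Fermat.Agent.S55.helper4709_GlobRam

/-!
# S55-GLOBRAM part 2 (helper4709): radical and cyclotomic extensions are `S`-levels

Adjoining an `n`-th root (all prime factors of `n` in `S`) of an element which is locally a unit
times an `n`-th power outside `S` preserves the frozen predicate `IsUnramifiedOutside S`.
-/

set_option autoImplicit false
set_option linter.unusedSectionVars false

namespace Fermat.Agent.S55.helper4709

open scoped Pointwise NumberField
open Fermat.Agent.Lib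

attribute [local instance] helper54.isAlgebraic_Qbar helper54.isAlgClosure_Qbar
  helper54.isGalois_Qbar helper54.isIntegral_Qbar helper54.numberField_intermediate

local notation "Qb" => AlgebraicClosure ℚ
local notation "GQ" => (AlgebraicClosure ℚ ≃ₐ[ℚ] AlgebraicClosure ℚ)

/-- Integers are in every valuation subring. -/
theorem valuation_intCast_le_one (A : ValuationSubring Qb) (m : ℤ) : A.valuation (m : Qb) ≤ 1 :=
  (A.valuation_le_one_iff _).2 (intCast_mem A m)

/-- A natural number prime to `q` is a unit at every valuation subring over `q`. -/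
theorem valuation_natCast_eq_one_of_coprime {q : ℕ} (A : ValuationSubring Qb)
    (hA : A.LiesOverPrime q) (n : ℕ) (hn : Nat.Coprime n q) : A.valuation (n : Qb) = 1 := by
  have h1 : A.valuation (n : Qb) ≤ 1 := by
    have := valuation_intCast_le_one A (n : ℤ)
    rwa [Int.cast_natCast] at this
  rcases lt_or_eq_of_le h1 with h2 | h2
  · exfalso
    have hq : A.valuation (q : Qb) < 1 := (ValuationSubring.mem_nonunits_iff A).1 hA
    have hcop : IsCoprime (n : ℤ) (q : ℤ) := Nat.isCoprime_iff_coprime.mpr hn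
    obtain ⟨s, t, hst⟩ := hcop
    have h3 : ((s : Qb) * (n : Qb) + (t : Qb) * (q : Qb)) = 1 := by
      have := congrArg (Int.cast : ℤ → Qb) hst
      push_cast at this
      exact this
    have h4 : A.valuation ((s : Qb) * (n : Qb) + (t : Qb) * (q : Qb)) < 1 := by
      refine lt_of_le_of_lt (A.valuation.map_add _ _) (max_lt ?_ ?_)
      · rw [map_mul]
        exact lt_of_le_of_lt (mul_le_of_le_one_left' (valuation_intCast_le_one A s)) h2
      · rw [map_mul]
        exact lt_of_le_of_lt (mul_le_of_le_one_left' (valuation_intCast_le_one A t)) hq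
    rw [h3, map_one] at h4
    exact lt_irrefl _ h4
  · exact h2

/-- A root of unity of order prime to `q` which is congruent to `1` modulo the maximal ideal of a
valuation subring over `q` is `1`. -/
theorem eq_one_of_pow_eq_one_of_valuation_sub_one_lt {q : ℕ} (A : ValuationSubring Qb)
    (hA : A.LiesOverPrime q) (n : ℕ) (hn : Nat.Coprime n q) (ζ : Qb) (hζ : ζ ^ n = 1)
    (hlt : A.valuation (ζ - 1) < 1) : ζ = 1 := by
  by_contra hne
  have hn0 : n ≠ 0 := by
    rintro rfl
    rw [Nat.coprime_zero_left] at hn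
    subst hn
    have h1 : A.valuation ((1 : ℕ) : Qb) < 1 := (ValuationSubring.mem_nonunits_iff A).1 hA
    simp at h1
  have hζv : A.valuation ζ = 1 := by
    have h1 : A.valuation ζ ^ n = 1 := by rw [← map_pow, hζ, map_one]
    exact (pow_eq_one_iff_of_nonneg zero_le hn0).1 h1
  have hsum : ∑ i ∈ Finset.range n, ζ ^ i = 0 := by
    have h1 := geom_sum_mul ζ n
    rw [hζ, sub_self] at h1
    rcases mul_eq_zero.1 h1 with h2 | h2
    · exact h2
    · exact absurd (sub_eq_zero.1 h2) hne
  have hn' : (n : Qb) = ∑ i ∈ Finset.range n, (1 - ζ ^ i) := by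
    rw [Finset.sum_sub_distrib, hsum, sub_zero]
    simp
  have hlt' : A.valuation (n : Qb) < 1 := by
    rw [hn']
    refine Valuation.map_sum_lt _ one_ne_zero fun i _ => ?_
    have h1 : (1 : Qb) - ζ ^ i = -((ζ - 1) * ∑ j ∈ Finset.range i, ζ ^ j) := by
      rw [mul_comm, geom_sum_mul]
      ring
    rw [h1, Valuation.map_neg, map_mul]
    have h2 : A.valuation (∑ j ∈ Finset.range i, ζ ^ j) ≤ 1 := by
      refine Valuation.map_sum_le _ fun j _ => ?_
      rw [map_pow, hζv, one_pow]
    exact lt_of_le_of_lt (mul_le_of_le_one_right' h2) hlt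
  rw [valuation_natCast_eq_one_of_coprime A hA n hn] at hlt'
  exact lt_irrefl _ hlt'

/-- An automorphism fixing `α` fixes `ℚ(α)` pointwise. -/
theorem mem_fixingSubgroup_adjoin_singleton (g : GQ) (α : Qb) (h : g α = α) :
    g ∈ (IntermediateField.adjoin ℚ {α}).fixingSubgroup := by
  have h1 : IntermediateField.adjoin ℚ {α} ≤
      IntermediateField.fixedField (MulAction.stabilizer GQ α) := by
    rw [IntermediateField.adjoin_le_iff, Set.singleton_subset_iff, SetLike.mem_coe,
      IntermediateField.mem_fixedField_iff]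
    intro f hf
    exact hf
  exact (IntermediateField.le_iff_le _ _).1 h1 h

/-- **(G3) Radical extensions are `S`-levels.**  Let `F` be unramified outside `S`, let `n` be an
integer all of whose prime factors lie in `S`, and let `α ∈ ℚ̄` with `α ^ n ∈ F` such that at every
valuation subring `A` over every prime `q ∉ S` the element `α ^ n` is a unit times an `n`-th power
of `F`.  Then `F(α)` is unramified outside `S`.  (No roots of unity are assumed in `F`.) -/
theorem isUnramifiedOutside_sup_adjoin_root {S : Finset Nat.Primes} {F : IntermediateField ℚ Qb}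
    (hF : F.IsUnramifiedOutside S) (n : ℕ) (hnS : ∀ q : Nat.Primes, (q : ℕ) ∣ n → q ∈ S)
    (α : Qb) (hα : α ^ n ∈ F)
    (hloc : ∀ q : Nat.Primes, q ∉ S → ∀ A : ValuationSubring Qb, A.LiesOverPrime (q : ℕ) →
      ∃ b ∈ F, b ≠ 0 ∧ A.valuation (α ^ n / b ^ n) = 1) :
    (F ⊔ IntermediateField.adjoin ℚ {α}).IsUnramifiedOutside S := by
  have := hF.1
  have hαint : IsIntegral ℚ α := Algebra.IsIntegral.isIntegral α
  have : FiniteDimensional ℚ (IntermediateField.adjoin ℚ {α}) :=
    IntermediateField.adjoin.finiteDimensional hαint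
  refine ⟨IntermediateField.finiteDimensional_sup F _, fun q hq A hA g hg => ?_⟩
  rw [IntermediateField.fixingSubgroup_sup]
  have hgF' := hF.2 q hq A hA hg
  refine ⟨hgF', mem_fixingSubgroup_adjoin_singleton g α ?_⟩
  obtain ⟨b, hbF, hb0, hu⟩ := hloc q hq A hA
  have hgF : ∀ x ∈ F, g x = x := (IntermediateField.mem_fixingSubgroup_iff F g).1 hgF'
  have hgb : g b = b := hgF b hbF
  have hgαn : g (α ^ n) = α ^ n := hgF _ hα
  have hn0 : n ≠ 0 := by
    rintro rfl
    exact hq (hnS q (dvd_zero _))
  have hcop : Nat.Coprime n q :=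
    Nat.Coprime.symm ((Nat.Prime.coprime_iff_not_dvd q.2).2 fun h => hq (hnS q h))
  have hβn : (α / b) ^ n = α ^ n / b ^ n := div_pow α b n
  have hβv : A.valuation (α / b) = 1 := by
    have h1 : A.valuation (α / b) ^ n = 1 := by
      rw [← map_pow, hβn]
      exact hu
    exact (pow_eq_one_iff_of_nonneg zero_le hn0).1 h1
  have hβ0 : α / b ≠ 0 := by
    intro h
    rw [h, map_zero] at hβv
    exact zero_ne_one hβv
  have hgβn : (g (α / b)) ^ n = (α / b) ^ n := by
    rw [← map_pow, hβn, map_div₀, map_pow g b, hgb, hgαn]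
  have hmem := (helper1646.mem_inertiaSubgroupIn_iff A g).1 hg
  have hsub : A.valuation (g (α / b) - α / b) < 1 :=
    (ValuationSubring.mem_nonunits_iff A).1
      (hmem.2 (α / b) ((A.valuation_le_one_iff _).1 hβv.le))
  have hζn : (g (α / b) / (α / b)) ^ n = 1 := by
    rw [div_pow, hgβn, div_self (pow_ne_zero n hβ0)]
  have hζlt : A.valuation (g (α / b) / (α / b) - 1) < 1 := by
    have h1 : g (α / b) / (α / b) - 1 = (g (α / b) - α / b) / (α / b) := by
      rw [sub_div, div_self hβ0]
    rw [h1, map_div₀, hβv, div_one]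
    exact hsub
  have hζ1 := eq_one_of_pow_eq_one_of_valuation_sub_one_lt A hA n hcop _ hζn hζlt
  have hgβ : g (α / b) = α / b := (div_eq_one_iff_eq hβ0).1 hζ1
  have h2 : α = (α / b) * b := by
    field_simp
  rw [h2, map_mul, hgβ, hgb]

/-- **(G3, cyclotomic case)** If all prime factors of `n` lie in `S`, then adjoining any `n`-th
root of unity to an `S`-level gives an `S`-level. -/
theorem isUnramifiedOutside_sup_adjoin_rootOfUnity {S : Finset Nat.Primes}
    {F : IntermediateField ℚ Qb} (hF : F.IsUnramifiedOutside S) (n : ℕ)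
    (hnS : ∀ q : Nat.Primes, (q : ℕ) ∣ n → q ∈ S) (ζ : Qb) (hζ : ζ ^ n = 1) :
    (F ⊔ IntermediateField.adjoin ℚ {ζ}).IsUnramifiedOutside S := by
  refine isUnramifiedOutside_sup_adjoin_root hF n hnS ζ (by rw [hζ]; exact F.one_mem)
    fun q _ A _ => ⟨1, F.one_mem, one_ne_zero, ?_⟩
  rw [hζ, one_pow, div_one, map_one]

/-- **(G3, cyclotomic field)** `ℚ(ζ)` is unramified outside `S` for every `n`-th root of unity
`ζ`, when all prime factors of `n` lie in `S`. -/
theorem isUnramifiedOutside_adjoin_rootOfUnity (S : Finset Nat.Primes) (n : ℕ)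
    (hnS : ∀ q : Nat.Primes, (q : ℕ) ∣ n → q ∈ S) (ζ : Qb) (hζ : ζ ^ n = 1) :
    (IntermediateField.adjoin ℚ {ζ}).IsUnramifiedOutside S := by
  have h := isUnramifiedOutside_sup_adjoin_rootOfUnity
    (IntermediateField.isUnramifiedOutside_bot S) n hnS ζ hζ
  rwa [bot_sup_eq] at h

/-- **(G3, prime-power case)** for the frozen hypotheses of S55: if `pPrime p ∈ S` then
`ℚ(ζ)` is an `S`-level for every `p ^ m`-th root of unity `ζ`. -/
theorem isUnramifiedOutside_adjoin_primePow_rootOfUnity (S : Finset Nat.Primes) (p : ℕ)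
    [Fact p.Prime] (hpS : ExtCitation.pPrime p ∈ S) (m : ℕ) (ζ : Qb) (hζ : ζ ^ (p ^ m) = 1) :
    (IntermediateField.adjoin ℚ {ζ}).IsUnramifiedOutside S := by
  refine isUnramifiedOutside_adjoin_rootOfUnity S (p ^ m) (fun q hq => ?_) ζ hζ
  have h1 : (q : ℕ) ∣ p := q.2.dvd_of_dvd_pow hq
  have h2 : (q : ℕ) = p := (Nat.prime_dvd_prime_iff_eq q.2 Fact.out).1 h1
  have h3 : q = ExtCitation.pPrime p := Subtype.ext h2
  rw [h3]
  exact hpS

/-- **Kummer criterion, both directions** (no root of unity in `F` needed): for `F` unramified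
outside `S`, `n` with all prime factors in `S`, and `α ^ n ∈ F`, `α ≠ 0`: the field `F(α)` is
unramified outside `S` if and only if `α ^ n` is, at every valuation subring over every prime
outside `S`, a unit times an `n`-th power of `F`. -/
theorem isUnramifiedOutside_sup_adjoin_root_iff {S : Finset Nat.Primes}
    {F : IntermediateField ℚ Qb} (hF : F.IsUnramifiedOutside S) (n : ℕ)
    (hnS : ∀ q : Nat.Primes, (q : ℕ) ∣ n → q ∈ S) (α : Qb) (hα : α ^ n ∈ F) (hα0 : α ≠ 0) :
    (F ⊔ IntermediateField.adjoin ℚ {α}).IsUnramifiedOutside S ↔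
      ∀ q : Nat.Primes, q ∉ S → ∀ A : ValuationSubring Qb, A.LiesOverPrime (q : ℕ) →
        ∃ b ∈ F, b ≠ 0 ∧ A.valuation (α ^ n / b ^ n) = 1 := by
  refine ⟨fun h q hq A hA => ?_, isUnramifiedOutside_sup_adjoin_root hF n hnS α hα⟩
  have hαmem : α ∈ F ⊔ IntermediateField.adjoin ℚ {α} :=
    (le_sup_right : IntermediateField.adjoin ℚ {α} ≤ F ⊔ IntermediateField.adjoin ℚ {α})
      (IntermediateField.mem_adjoin_simple_self ℚ α)
  obtain ⟨k, hk⟩ := exists_zpow_valuation_eq_one h q hq A hA α hαmem hα0
  have hq0 : ((q : ℕ) : Qb) ≠ 0 := Nat.cast_ne_zero.mpr q.2.ne_zero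
  refine ⟨((q : ℕ) : Qb) ^ k, zpow_mem (natCast_mem F (q : ℕ)) k, zpow_ne_zero k hq0, ?_⟩
  rw [← div_pow, map_pow, hk, one_pow]

end Fermat.Agent.S55.helper4709
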