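/-
helper9072 (S55, GC-KUMMER backup seat): Hilbert 90 and the Kummer sequence for LEVEL cochains on
the UNIVERSAL carrier.

Carrier: fields `K₀ ⊆ Ω`, any group `G` with `r : G →* (Ω ≃ₐ[K₀] Ω)`; `G` acts on `Ωˣ` through
`r` (`r g • u`, Mathlib's action of `Ω ≃ₐ[K₀] Ω` on `Ωˣ`).  A cochain is LEVEL if it is
right-invariant under `r ⁻¹' F.fixingSubgroup` for some finite `F / K₀` (the frozen shape
`groupCohomology.IsLevelConstant₁/₂` with `ℚ`, `AlgebraicClosure ℚ` replaced by `K₀`, `Ω`).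
Instances of the carrier: `r = MonoidHom.id _` (the group `Ω ≃ₐ[K₀] Ω`), `r = H.subtype`
(a subgroup, e.g. `K.fixingSubgroup`), the frozen `r`.
-/
import Mathlib
import Fermat.Prelude.Def_GroupCohomology_ContinuousH2

set_option autoImplicit false

namespace Fermat.Agent.S55.helper9072

section Defs

variable {K₀ Ω : Type*} [Field K₀] [Field Ω] [Algebra K₀ Ω]
variable {G : Type*} [Group G] (r : G →* (Ω ≃ₐ[K₀] Ω))

/-- A 1-cochain is *level* if it is right-invariant under the preimage of the fixing subgroup of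
a finite subextension. -/
def IsLev₁ {X : Type*} (f : G → X) : Prop :=
  ∃ F : IntermediateField K₀ Ω, FiniteDimensional K₀ F ∧
    ∀ g s : G, r s ∈ F.fixingSubgroup → f (g * s) = f g

/-- A 2-cochain is *level* if it is right-invariant (in both variables) under the preimage of the
fixing subgroup of a finite subextension. -/
def IsLev₂ {X : Type*} (f : G × G → X) : Prop :=
  ∃ F : IntermediateField K₀ Ω, FiniteDimensional K₀ F ∧
    ∀ g g' s s' : G, r s ∈ F.fixingSubgroup → r s' ∈ F.fixingSubgroup →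
      f (g * s, g' * s') = f (g, g')

variable {r}

lemma IsLev₁.comp {X Y : Type*} {f : G → X} (hf : IsLev₁ r f) (φ : X → Y) :
    IsLev₁ r (fun g => φ (f g)) := by
  obtain ⟨F, hF, h⟩ := hf
  exact ⟨F, hF, fun g s hs => by simp only [h g s hs]⟩

lemma IsLev₂.comp {X Y : Type*} {f : G × G → X} (hf : IsLev₂ r f) (φ : X → Y) :
    IsLev₂ r (fun x => φ (f x)) := by
  obtain ⟨F, hF, h⟩ := hf
  exact ⟨F, hF, fun g g' s s' hs hs' => by simp only [h g g' s s' hs hs']⟩

lemma IsLev₁.map₂ {X Y Z : Type*} {f : G → X} {f' : G → Y} (hf : IsLev₁ r f)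
    (hf' : IsLev₁ r f') (φ : X → Y → Z) : IsLev₁ r (fun g => φ (f g) (f' g)) := by
  obtain ⟨F, hF, h⟩ := hf
  obtain ⟨F', hF', h'⟩ := hf'
  have := hF; have := hF'
  refine ⟨F ⊔ F', inferInstance, fun g s hs => ?_⟩
  simp only [h g s (IntermediateField.fixingSubgroup_antitone le_sup_left hs),
    h' g s (IntermediateField.fixingSubgroup_antitone le_sup_right hs)]

lemma IsLev₂.map₂ {X Y Z : Type*} {f : G × G → X} {f' : G × G → Y} (hf : IsLev₂ r f)
    (hf' : IsLev₂ r f') (φ : X → Y → Z) : IsLev₂ r (fun x => φ (f x) (f' x)) := by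
  obtain ⟨F, hF, h⟩ := hf
  obtain ⟨F', hF', h'⟩ := hf'
  have := hF; have := hF'
  refine ⟨F ⊔ F', inferInstance, fun g g' s s' hs hs' => ?_⟩
  simp only [h g g' s s' (IntermediateField.fixingSubgroup_antitone le_sup_left hs)
      (IntermediateField.fixingSubgroup_antitone le_sup_left hs'),
    h' g g' s s' (IntermediateField.fixingSubgroup_antitone le_sup_right hs)
      (IntermediateField.fixingSubgroup_antitone le_sup_right hs')]

lemma IsLev₁.mul {X : Type*} [Mul X] {f f' : G → X} (hf : IsLev₁ r f) (hf' : IsLev₁ r f') :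
    IsLev₁ r (fun g => f g * f' g) := hf.map₂ hf' (· * ·)

lemma IsLev₁.div {X : Type*} [Div X] {f f' : G → X} (hf : IsLev₁ r f) (hf' : IsLev₁ r f') :
    IsLev₁ r (fun g => f g / f' g) := hf.map₂ hf' (· / ·)

lemma IsLev₁.pow {X : Type*} [Monoid X] {f : G → X} (hf : IsLev₁ r f) (n : ℕ) :
    IsLev₁ r (fun g => f g ^ n) := hf.comp (· ^ n)

lemma IsLev₂.mul {X : Type*} [Mul X] {f f' : G × G → X} (hf : IsLev₂ r f) (hf' : IsLev₂ r f') :
    IsLev₂ r (fun x => f x * f' x) := hf.map₂ hf' (· * ·)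

lemma IsLev₂.div {X : Type*} [Div X] {f f' : G × G → X} (hf : IsLev₂ r f) (hf' : IsLev₂ r f') :
    IsLev₂ r (fun x => f x / f' x) := hf.map₂ hf' (· / ·)

lemma IsLev₂.pow {X : Type*} [Monoid X] {f : G × G → X} (hf : IsLev₂ r f) (n : ℕ) :
    IsLev₂ r (fun x => f x ^ n) := hf.comp (· ^ n)

end Defs

section H90

variable {K₀ Ω : Type*} [Field K₀] [Field Ω] [Algebra K₀ Ω]
variable {G : Type*} [Group G] (r : G →* (Ω ≃ₐ[K₀] Ω))

/-- **Hilbert 90 for level cocycles, with control of the primitive** (Poincaré series).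
`c : G → Ωˣ` a 1-cocycle for the action through `r`, right-invariant under `r ⁻¹' F.fixingSubgroup`
with `F / K₀` finite.  Then `c g = r g • β / β` with `β` in any intermediate field `L` containing
the values of `c` and all conjugates `r g x`, `x ∈ F`. No Galois hypothesis on `Ω / K₀`. -/
theorem exists_coboundary_mem {c : G → Ωˣ} (hc : ∀ g h, c (g * h) = r g • c h * c g)
    (F : IntermediateField K₀ Ω) [FiniteDimensional K₀ F]
    (hinv : ∀ g s : G, r s ∈ F.fixingSubgroup → c (g * s) = c g)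
    (L : IntermediateField K₀ Ω) (hcL : ∀ g, (c g : Ω) ∈ L) (hFL : ∀ g, ∀ x ∈ F, r g x ∈ L) :
    ∃ β : Ωˣ, (β : Ω) ∈ L ∧ ∀ g, r g • β / β = c g := by
  classical
  let res : G → (F →ₐ[K₀] Ω) := fun g => ((r g : Ω ≃ₐ[K₀] Ω) : Ω →ₐ[K₀] Ω).comp F.val
  have hres_apply : ∀ g (x : F), res g x = r g x := fun g x => rfl
  have hres_mul : ∀ h g, res (h * g) = ((r h : Ω ≃ₐ[K₀] Ω) : Ω →ₐ[K₀] Ω).comp (res g) := by
    intro h g
    ext x
    simp [res, map_mul]
  have hres_eq : ∀ g g', res g = res g' → c g = c g' := by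
    intro g g' h
    have hs : r (g⁻¹ * g') ∈ F.fixingSubgroup := by
      rw [IntermediateField.mem_fixingSubgroup_iff]
      intro x hx
      have h1 := DFunLike.congr_fun h ⟨x, hx⟩
      simp only [hres_apply] at h1
      rw [map_mul, map_inv, AlgEquiv.mul_apply, ← h1]
      exact (r g).symm_apply_apply x
    have h2 := hinv g _ hs
    rw [mul_inv_cancel_left] at h2
    exact h2.symm
  let T : Finset (F →ₐ[K₀] Ω) := Finset.univ.filter (fun τ => ∃ g, res g = τ)
  have hT : ∀ τ, τ ∈ T ↔ ∃ g, res g = τ := by simp [T]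
  let rep : (F →ₐ[K₀] Ω) → G := fun τ => if h : ∃ g, res g = τ then h.choose else 1
  have hrep : ∀ g, res (rep (res g)) = res g := by
    intro g
    have h : ∃ g', res g' = res g := ⟨g, rfl⟩
    simp only [rep, dif_pos h]
    exact h.choose_spec
  have hcrep : ∀ g, c (rep (res g)) = c g := fun g => hres_eq _ _ (hrep g)
  let P : F → Ω := fun x => ∑ τ ∈ T, (c (rep τ) : Ω) * τ x
  have hP : ∀ (h : G) (x : F), (c h : Ω) * r h (P x) = P x := by
    intro h x
    simp only [P, map_sum, map_mul, Finset.mul_sum]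
    refine Finset.sum_nbij' (fun τ => ((r h : Ω ≃ₐ[K₀] Ω) : Ω →ₐ[K₀] Ω).comp τ)
      (fun τ => ((r h⁻¹ : Ω ≃ₐ[K₀] Ω) : Ω →ₐ[K₀] Ω).comp τ) ?_ ?_ ?_ ?_ ?_
    · intro τ hτ
      obtain ⟨g, rfl⟩ := (hT τ).1 hτ
      exact (hT _).2 ⟨h * g, hres_mul h g⟩
    · intro τ hτ
      obtain ⟨g, rfl⟩ := (hT τ).1 hτ
      exact (hT _).2 ⟨h⁻¹ * g, hres_mul h⁻¹ g⟩
    · intro τ _
      ext x
      simp [map_inv]
    · intro τ _
      ext x
      simp [map_inv]
    · intro τ hτ
      obtain ⟨g, rfl⟩ := (hT τ).1 hτ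
      rw [← hres_mul, hcrep, hcrep]
      have h3 := congrArg Units.val (hc h g)
      simp only [AlgEquiv.smul_units_def, Units.val_mul, Units.coe_map, MonoidHom.coe_coe] at h3
      rw [h3]
      simp only [hres_apply, map_mul, AlgEquiv.mul_apply]
      ring
  have hne : ∃ x : F, P x ≠ 0 := by
    by_contra hcon
    push Not at hcon
    have hli : LinearIndependent Ω (fun τ : F →ₐ[K₀] Ω => (τ : F → Ω)) := by
      have h1 := linearIndependent_monoidHom F Ω
      have hinj : Function.Injective (fun τ : F →ₐ[K₀] Ω => ((τ : F →+* Ω) : F →* Ω)) := by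
        intro τ τ' h
        ext x
        exact DFunLike.congr_fun h x
      exact h1.comp _ hinj
    have h0 : ∑ τ ∈ T, (c (rep τ) : Ω) • (τ : F → Ω) = 0 := by
      funext x
      simpa [P, Finset.sum_apply] using hcon x
    have h4 := linearIndependent_iff'.1 hli T (fun τ => (c (rep τ) : Ω)) h0 (res 1)
      ((hT _).2 ⟨1, rfl⟩)
    exact (c (rep (res 1))).ne_zero h4
  obtain ⟨x, hx⟩ := hne
  have hPL : P x ∈ L := by
    refine sum_mem fun τ hτ => ?_
    obtain ⟨g, rfl⟩ := (hT τ).1 hτ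
    exact mul_mem (hcL _) (hFL g x x.2)
  refine ⟨(Units.mk0 (P x) hx)⁻¹, ?_, fun g => ?_⟩
  · simpa using inv_mem hPL
  · apply Units.ext
    have h5 := hP g x
    have h6 : r g (P x) ≠ 0 := by simpa using hx
    simp only [AlgEquiv.smul_units_def, Units.val_div_eq_div_val, Units.coe_map, MonoidHom.coe_coe,
      Units.val_inv_eq_inv_val, Units.val_mk0, map_inv₀]
    field_simp
    rw [mul_comm]
    exact h5.symm

/-- **Hilbert 90 for level cocycles** on the universal carrier. -/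
theorem exists_coboundary_of_isLev₁ {c : G → Ωˣ} (hc : ∀ g h, c (g * h) = r g • c h * c g)
    (hlev : IsLev₁ r c) : ∃ β : Ωˣ, ∀ g, r g • β / β = c g := by
  obtain ⟨F, hF, hinv⟩ := hlev
  have := hF
  obtain ⟨β, -, hβ⟩ := exists_coboundary_mem r hc F hinv ⊤ (fun _ => trivial) (fun _ _ _ => trivial)
  exact ⟨β, hβ⟩

end H90

section LevelCalc

variable {K₀ Ω : Type*} [Field K₀] [Field Ω] [Algebra K₀ Ω]
variable {G : Type*} [Group G] (r : G →* (Ω ≃ₐ[K₀] Ω))

/-- A function that is right-invariant under `r ⁻¹' F.fixingSubgroup`, `F / K₀` finite, takes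
finitely many values. -/
lemma finite_range_of_level {X : Type*} (F : IntermediateField K₀ Ω) [FiniteDimensional K₀ F]
    (a : G → X) (hinv : ∀ g s : G, r s ∈ F.fixingSubgroup → a (g * s) = a g) :
    (Set.range a).Finite := by
  classical
  let res : G → (F →ₐ[K₀] Ω) := fun g => ((r g : Ω ≃ₐ[K₀] Ω) : Ω →ₐ[K₀] Ω).comp F.val
  have hres_apply : ∀ g (x : F), res g x = r g x := fun g x => rfl
  have hres_eq : ∀ g g', res g = res g' → a g = a g' := by
    intro g g' h
    have hs : r (g⁻¹ * g') ∈ F.fixingSubgroup := by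
      rw [IntermediateField.mem_fixingSubgroup_iff]
      intro x hx
      have h1 := DFunLike.congr_fun h ⟨x, hx⟩
      simp only [hres_apply] at h1
      rw [map_mul, map_inv, AlgEquiv.mul_apply, ← h1]
      exact (r g).symm_apply_apply x
    have h2 := hinv g _ hs
    rw [mul_inv_cancel_left] at h2
    exact h2.symm
  let rep : (F →ₐ[K₀] Ω) → G := fun τ => if h : ∃ g, res g = τ then h.choose else 1
  have hrep : ∀ g, res (rep (res g)) = res g := by
    intro g
    have h : ∃ g', res g' = res g := ⟨g, rfl⟩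
    simp only [rep, dif_pos h]
    exact h.choose_spec
  refine Set.Finite.subset (Set.finite_range (fun τ : F →ₐ[K₀] Ω => a (rep τ))) ?_
  rintro _ ⟨g, rfl⟩
  exact ⟨res g, hres_eq _ _ (hrep g)⟩

/-- An automorphism maps a normal intermediate field into itself. -/
lemma apply_mem_of_normal (L : IntermediateField K₀ Ω) [Normal K₀ L] (σ : Ω ≃ₐ[K₀] Ω) {x : Ω}
    (hx : x ∈ L) : σ x ∈ L := by
  have h := AlgHom.fieldRange_of_normal (E := L) ((σ : Ω →ₐ[K₀] Ω).comp L.val)
  rw [← h]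
  exact ⟨⟨x, hx⟩, rfl⟩

/-- The fixing subgroup of a normal intermediate field is stable under conjugation. -/
lemma conj_mem_fixingSubgroup_of_normal (L : IntermediateField K₀ Ω) [Normal K₀ L]
    {σ : Ω ≃ₐ[K₀] Ω} (hσ : σ ∈ L.fixingSubgroup) (τ : Ω ≃ₐ[K₀] Ω) :
    τ⁻¹ * σ * τ ∈ L.fixingSubgroup := by
  rw [IntermediateField.mem_fixingSubgroup_iff] at hσ ⊢
  intro x hx
  rw [AlgEquiv.mul_apply, AlgEquiv.mul_apply, hσ _ (apply_mem_of_normal L τ hx)]
  exact τ.symm_apply_apply x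

/-- `g ↦ r g • α / α` is level (`Ω / K₀` algebraic). -/
lemma isLev₁_smul_div [Algebra.IsAlgebraic K₀ Ω] (α : Ωˣ) :
    IsLev₁ r (fun g => r g • α / α) := by
  refine ⟨IntermediateField.adjoin K₀ {(α : Ω)},
    IntermediateField.adjoin.finiteDimensional (Algebra.IsIntegral.isIntegral _), fun g s hs => ?_⟩
  have h1 : r s • α = α := by
    apply Units.ext
    rw [IntermediateField.mem_fixingSubgroup_iff] at hs
    simpa [AlgEquiv.smul_units_def] using hs _ (IntermediateField.mem_adjoin_simple_self K₀ (α : Ω))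
  show r (g * s) • α / α = r g • α / α
  rw [map_mul, mul_smul, h1]

/-- A level `Ωˣ`-valued 1-cochain has a finite NORMAL level containing all its values. -/
lemma IsLev₁.exists_normal_level [Normal K₀ Ω] {a : G → Ωˣ} (ha : IsLev₁ r a) :
    ∃ L : IntermediateField K₀ Ω, FiniteDimensional K₀ L ∧ Normal K₀ L ∧
      (∀ g, (a g : Ω) ∈ L) ∧ ∀ g s : G, r s ∈ L.fixingSubgroup → a (g * s) = a g := by
  obtain ⟨F, hF, hinv⟩ := ha
  have := hF
  have hfin : (Set.range a).Finite := finite_range_of_level r F a hinv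
  let S : Set Ω := Units.val '' Set.range a
  have hSfin : S.Finite := hfin.image _
  have : Finite S := hSfin.to_subtype
  have hE : FiniteDimensional K₀ (IntermediateField.adjoin K₀ S) :=
    IntermediateField.finiteDimensional_adjoin (fun x _ => Algebra.IsIntegral.isIntegral x)
  let L₀ : IntermediateField K₀ Ω := F ⊔ IntermediateField.adjoin K₀ S
  have hL₀ : FiniteDimensional K₀ L₀ := inferInstance
  refine ⟨IntermediateField.normalClosure K₀ L₀ Ω, normalClosure.is_finiteDimensional K₀ L₀ Ω,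
    normalClosure.normal K₀ L₀ Ω, fun g => ?_, fun g s hs => ?_⟩
  · have h1 : (a g : Ω) ∈ IntermediateField.adjoin K₀ S :=
      IntermediateField.subset_adjoin K₀ S ⟨a g, ⟨g, rfl⟩, rfl⟩
    exact L₀.le_normalClosure ((le_sup_right : _ ≤ L₀) h1)
  · exact hinv g s (IntermediateField.fixingSubgroup_antitone
      ((le_sup_left : F ≤ L₀).trans L₀.le_normalClosure) hs)

/-- The coboundary of a level `Ωˣ`-valued 1-cochain is a level 2-cochain. -/
lemma IsLev₁.isLev₂_d [Normal K₀ Ω] {a : G → Ωˣ} (ha : IsLev₁ r a) :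
    IsLev₂ r (fun x : G × G => r x.1 • a x.2 / a (x.1 * x.2) * a x.1) := by
  obtain ⟨L, hL, hLn, hmem, hinv⟩ := ha.exists_normal_level
  refine ⟨L, hL, fun g g' s s' hs hs' => ?_⟩
  have h1 : a (g' * s') = a g' := hinv _ _ hs'
  have h2 : a (g * s) = a g := hinv _ _ hs
  have h3 : a (g * s * (g' * s')) = a (g * g') := by
    have e : g * s * (g' * s') = g * g' * ((g'⁻¹ * s * g') * s') := by group
    rw [e]
    refine hinv _ _ ?_
    rw [map_mul]
    refine mul_mem ?_ hs'
    have := conj_mem_fixingSubgroup_of_normal L hs (r g')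
    simpa [map_mul, map_inv] using this
  have h4 : r (g * s) • a g' = r g • a g' := by
    have h5 : r s • a g' = a g' := by
      apply Units.ext
      rw [IntermediateField.mem_fixingSubgroup_iff] at hs
      simpa [AlgEquiv.smul_units_def] using hs _ (hmem g')
    rw [map_mul, mul_smul, h5]
  simp only [h1, h2, h3, h4]

/-- A coboundary is a 2-cocycle. -/
lemma cocycle₂_d (a : G → Ωˣ) (g h j : G) :
    (r (g * h) • a j / a (g * h * j) * a (g * h)) * (r g • a h / a (g * h) * a g) =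
      r g • (r h • a j / a (h * j) * a h) * (r g • a (h * j) / a (g * (h * j)) * a g) := by
  simp only [smul_mul', smul_div', mul_smul, map_mul, mul_assoc]
  apply Units.ext
  simp only [Units.val_mul, Units.val_div_eq_div_val]
  field_simp

end LevelCalc

section Kummer

variable {K₀ Ω : Type*} [Field K₀] [Field Ω] [Algebra K₀ Ω]
variable {G : Type*} [Group G] (r : G →* (Ω ≃ₐ[K₀] Ω))

omit [Algebra K₀ Ω] in
private lemma units_aux (x y z u v w : Ωˣ) :
    x / (u / v) / (y / (u / w)) * (z / (v / w)) = x / y * z := by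
  apply Units.ext
  simp only [Units.val_mul, Units.val_div_eq_div_val]
  field_simp

omit [Algebra K₀ Ω] in
private lemma exists_unit_root {p : ℕ} (hroot : ∀ x : Ω, ∃ y : Ω, y ^ p = x) (u : Ωˣ) :
    ∃ v : Ωˣ, v ^ p = u := by
  have hp0 : p ≠ 0 := by
    rintro rfl
    obtain ⟨y, hy⟩ := hroot 0
    simp at hy
  obtain ⟨y, hy⟩ := hroot (u : Ω)
  have hy0 : y ≠ 0 := by
    rintro rfl
    rw [zero_pow hp0] at hy
    exact u.ne_zero hy.symm
  exact ⟨Units.mk0 y hy0, Units.ext (by simpa using hy)⟩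

/-- **Kummer, degree 1**: a level 1-cocycle with values in `μ_p` is `g ↦ r g • β / β` with
`β ^ p` fixed by `G`. -/
theorem exists_kummer_of_mu_cocycle {p : ℕ} {c : G → Ωˣ}
    (hc : ∀ g h, c (g * h) = r g • c h * c g) (hlev : IsLev₁ r c) (hp : ∀ g, c g ^ p = 1) :
    ∃ β : Ωˣ, (∀ g, r g • β / β = c g) ∧ ∀ g, r g • (β ^ p) = β ^ p := by
  obtain ⟨β, hβ⟩ := exists_coboundary_of_isLev₁ r hc hlev
  refine ⟨β, hβ, fun g => ?_⟩
  have h1 : r g • β = c g * β := by rw [← hβ g, div_mul_cancel]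
  rw [smul_pow', h1, mul_pow, hp, one_mul]

/-- **Kummer sequence, injectivity of `H²(μ_p) → H²(Ωˣ)` on level cochains**: if a `μ_p`-valued
2-cochain `f` is the coboundary of a level `Ωˣ`-valued 1-cochain `b`, then it is the coboundary of
a level `μ_p`-valued 1-cochain.  (`Ω` has `p`-th roots; Hilbert 90 for the cocycle `b ^ p`.) -/
theorem exists_mu_primitive [Algebra.IsAlgebraic K₀ Ω] {p : ℕ}
    (hroot : ∀ x : Ω, ∃ y : Ω, y ^ p = x) {b : G → Ωˣ} (hb : IsLev₁ r b) {f : G × G → Ωˣ}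
    (hbf : ∀ g h, r g • b h / b (g * h) * b g = f (g, h)) (hf : ∀ x, f x ^ p = 1) :
    ∃ b' : G → Ωˣ, IsLev₁ r b' ∧ (∀ g, b' g ^ p = 1) ∧
      ∀ g h, r g • b' h / b' (g * h) * b' g = f (g, h) := by
  have hc : ∀ g h, b (g * h) ^ p = r g • (b h ^ p) * b g ^ p := by
    intro g h
    have h1 := congrArg (· ^ p) (hbf g h)
    simp only [hf] at h1
    rw [mul_pow, div_pow, ← smul_pow', div_mul_eq_mul_div, div_eq_one] at h1
    exact h1.symm
  obtain ⟨β, hβ⟩ := exists_coboundary_of_isLev₁ r (c := fun g => b g ^ p) hc (hb.pow p)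
  obtain ⟨α, hα⟩ := exists_unit_root hroot β
  refine ⟨fun g => b g / (r g • α / α), hb.div (isLev₁_smul_div r α), fun g => ?_, fun g h => ?_⟩
  · rw [div_pow, div_pow, ← smul_pow', hα, hβ g]
    exact div_self' _
  · rw [← hbf g h]
    simp only [smul_div', mul_smul, map_mul]
    exact units_aux _ _ _ _ _ _

/-- **Kummer sequence, surjectivity onto the `p`-torsion of `H²(Ωˣ)` on level cochains**: if the
`p`-th power of a level 2-cochain `f` is the coboundary of a level 1-cochain `b`, then `f` differs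
from a `μ_p`-valued level 2-cochain by the coboundary of a level 1-cochain `a` (with `a ^ p = b`).
-/
theorem exists_mu_representative [Normal K₀ Ω] {p : ℕ}
    (hroot : ∀ x : Ω, ∃ y : Ω, y ^ p = x) {f : G × G → Ωˣ} (hf : IsLev₂ r f) {b : G → Ωˣ}
    (hb : IsLev₁ r b) (hfb : ∀ g h, r g • b h / b (g * h) * b g = f (g, h) ^ p) :
    ∃ a : G → Ωˣ, IsLev₁ r a ∧ (∀ g, a g ^ p = b g) ∧
      IsLev₂ r (fun x : G × G => f x / (r x.1 • a x.2 / a (x.1 * x.2) * a x.1)) ∧
      ∀ g h, (f (g, h) / (r g • a h / a (g * h) * a g)) ^ p = 1 := by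
  choose ρ hρ using exists_unit_root hroot
  have ha : IsLev₁ r (fun g => ρ (b g)) := hb.comp ρ
  refine ⟨fun g => ρ (b g), ha, fun g => hρ _, hf.div ha.isLev₂_d, fun g h => ?_⟩
  rw [div_pow, mul_pow, div_pow, ← smul_pow', hρ, hρ, hρ, hfb]
  exact div_self' _

/-- The quotient of a 2-cocycle by a coboundary is a 2-cocycle. -/
theorem cocycle₂_div_d {f : G × G → Ωˣ}
    (hf : ∀ g h j, f (g * h, j) * f (g, h) = r g • f (h, j) * f (g, h * j)) (a : G → Ωˣ)
    (g h j : G) :
    (f (g * h, j) / (r (g * h) • a j / a (g * h * j) * a (g * h))) *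
        (f (g, h) / (r g • a h / a (g * h) * a g)) =
      r g • (f (h, j) / (r h • a j / a (h * j) * a h)) *
        (f (g, h * j) / (r g • a (h * j) / a (g * (h * j)) * a g)) := by
  have h1 := cocycle₂_d r a g h j
  have h2 := hf g h j
  rw [smul_div', div_mul_div_comm, div_mul_div_comm, h2, h1]

end Kummer

section MathlibForm

open groupCohomology

variable {K Ω : Type*} [Field K] [Field Ω] [Algebra K Ω]

/-- Hilbert 90 for level cocycles of `Gal(Ω/K)`, Mathlib predicates. -/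
theorem isMulCoboundary₁_of_isLev₁ {c : (Ω ≃ₐ[K] Ω) → Ωˣ} (hc : IsMulCocycle₁ c)
    (hlev : IsLev₁ (MonoidHom.id (Ω ≃ₐ[K] Ω)) c) : IsMulCoboundary₁ c :=
  exists_coboundary_of_isLev₁ (MonoidHom.id (Ω ≃ₐ[K] Ω)) hc hlev

/-- Kummer sequence (injectivity), Mathlib predicates: a `μ_p`-valued 2-cochain of `Gal(Ω/K)` that
is the coboundary of a level `Ωˣ`-valued cochain is the coboundary of a level `μ_p`-valued one. -/
theorem exists_mu_primitive_gal [Algebra.IsAlgebraic K Ω] {p : ℕ}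
    (hroot : ∀ x : Ω, ∃ y : Ω, y ^ p = x) {b : (Ω ≃ₐ[K] Ω) → Ωˣ}
    (hb : IsLev₁ (MonoidHom.id (Ω ≃ₐ[K] Ω)) b) {f : (Ω ≃ₐ[K] Ω) × (Ω ≃ₐ[K] Ω) → Ωˣ}
    (hbf : ∀ g h, g • b h / b (g * h) * b g = f (g, h)) (hf : ∀ x, f x ^ p = 1) :
    ∃ b' : (Ω ≃ₐ[K] Ω) → Ωˣ, IsLev₁ (MonoidHom.id (Ω ≃ₐ[K] Ω)) b' ∧ (∀ g, b' g ^ p = 1) ∧
      ∀ g h, g • b' h / b' (g * h) * b' g = f (g, h) :=
  exists_mu_primitive (MonoidHom.id (Ω ≃ₐ[K] Ω)) hroot hb hbf hf

end MathlibForm

section Frozen

universe u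

variable {G : Type u} [Group G] (r : G →* (AlgebraicClosure ℚ ≃ₐ[ℚ] AlgebraicClosure ℚ))

/-- On the frozen carrier `IsLev₁` IS the frozen `IsLevelConstant₁`. -/
theorem isLev₁_iff_isLevelConstant₁ {X : Type*} (f : G → X) :
    IsLev₁ r f ↔ groupCohomology.IsLevelConstant₁ r f := Iff.rfl

/-- On the frozen carrier `IsLev₂` IS the frozen `IsLevelConstant₂`. -/
theorem isLev₂_iff_isLevelConstant₂ {X : Type*} (f : G × G → X) :
    IsLev₂ r f ↔ groupCohomology.IsLevelConstant₂ r f := Iff.rfl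

/-- Hilbert 90 on the frozen carrier: a frozen-level-constant 1-cocycle `G → Qbarˣ` (action
through `r`) is a coboundary. -/
theorem exists_coboundary_of_isLevelConstant₁ {c : G → (AlgebraicClosure ℚ)ˣ}
    (hc : ∀ g h, c (g * h) = r g • c h * c g) (hlev : groupCohomology.IsLevelConstant₁ r c) :
    ∃ β : (AlgebraicClosure ℚ)ˣ, ∀ g, r g • β / β = c g :=
  exists_coboundary_of_isLev₁ r hc hlev

end Frozen

end Fermat.Agent.S55.helper9072
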