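import Mathlib
import Fermat.Prelude.Def_GroupCohomology_ContinuousUnramified
import Fermat.Agent.S05.helper4205_Inertia

set_option autoImplicit false

/-!
Closure properties of fields unramified outside `S` (`IntermediateField.IsUnramifiedOutside`),
in the frozen vocabulary of S55:

* `mem_inertiaSubgroupIn_iff_forall` : an elementwise description of `A.inertiaSubgroupIn K`;
* `conj_mem_inertiaSubgroupIn` : the inertia group of `τ • A` is the `τ`-conjugate of that of `A`;
* `apply_eq_self_of_pow_fixed` : `m`-th roots of inertia-fixed units are inertia-fixed when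
  `m` is a unit of `A`;
* `isUnramifiedOutside_iff_forall`, `isUnramifiedOutside_adjoin_of_forall`;
* `IsUnramifiedOutside.map` : conjugates of `S`-fields are `S`-fields;
* `IsUnramifiedOutside.normalClosure`, `exists_isGalois_ge` : every `S`-field lies in a finite
  Galois `S`-field;
* `isUnramifiedOutside_sup_adjoin_of_pow` : Kummer criterion (radical extensions of degree
  supported in `S` that are locally generated by roots of units);
* `isUnramifiedOutside_sup_adjoin_of_pow_eq_one` : adjoining roots of unity of order supported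
  in `S`.
-/

namespace Fermat.Agent.S55.helper4039

open ValuationSubring IntermediateField
open scoped Pointwise
open Fermat.Agent.S05.helper4205

section General

variable {K L : Type*} [Field K] [Field L] [Algebra K L]

/-- Converse of `apply_sub_mem_nonunits`: an element of the decomposition group acting trivially
modulo the maximal ideal lies in the inertia group. -/
theorem mem_inertiaSubgroupIn_of_forall {A : ValuationSubring L} {σ : L ≃ₐ[K] L}
    (hD : σ ∈ A.decompositionSubgroup K) (h : ∀ x ∈ A, σ x - x ∈ A.nonunits) :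
    σ ∈ A.inertiaSubgroupIn K := by
  rw [mem_inertiaSubgroupIn_iff]
  refine ⟨hD, ?_⟩
  show MulSemiringAction.toRingAut (A.decompositionSubgroup K) (IsLocalRing.ResidueField A)
      ⟨σ, hD⟩ = 1
  ext r
  obtain ⟨x, rfl⟩ := IsLocalRing.residue_surjective r
  show (⟨σ, hD⟩ : A.decompositionSubgroup K) • IsLocalRing.residue A x = IsLocalRing.residue A x
  rw [← IsLocalRing.ResidueField.residue_smul, ← sub_eq_zero, ← map_sub,
    IsLocalRing.residue_eq_zero_iff, ← ValuationSubring.coe_mem_nonunits_iff]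
  exact h x x.2

/-- Elementwise description of the inertia group. -/
theorem mem_inertiaSubgroupIn_iff_forall {A : ValuationSubring L} {σ : L ≃ₐ[K] L} :
    σ ∈ A.inertiaSubgroupIn K ↔
      σ ∈ A.decompositionSubgroup K ∧ ∀ x ∈ A, σ x - x ∈ A.nonunits :=
  ⟨fun h => ⟨mem_decomposition_of_mem_inertiaSubgroupIn h, fun _ hx => apply_sub_mem_nonunits h hx⟩,
    fun h => mem_inertiaSubgroupIn_of_forall h.1 h.2⟩

theorem apply_mem_smul_iff (τ : L ≃ₐ[K] L) (A : ValuationSubring L) (x : L) :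
    τ x ∈ τ • A ↔ x ∈ A := by
  have := ValuationSubring.smul_mem_pointwise_smul_iff (g := τ) (S := A) (x := x)
  exact this

theorem mem_smul_iff_symm_apply_mem (τ : L ≃ₐ[K] L) (A : ValuationSubring L) (x : L) :
    x ∈ τ • A ↔ τ.symm x ∈ A := by
  rw [← apply_mem_smul_iff τ A (τ.symm x), AlgEquiv.apply_symm_apply]

theorem apply_mem_nonunits_smul_iff (τ : L ≃ₐ[K] L) (A : ValuationSubring L) (x : L) :
    τ x ∈ (τ • A).nonunits ↔ x ∈ A.nonunits := by
  rw [ValuationSubring.mem_nonunits_iff_or, ValuationSubring.mem_nonunits_iff_or, ← map_inv₀,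
    apply_mem_smul_iff, EmbeddingLike.map_eq_zero_iff]

theorem mem_nonunits_smul_iff (τ : L ≃ₐ[K] L) (A : ValuationSubring L) (x : L) :
    x ∈ (τ • A).nonunits ↔ τ.symm x ∈ A.nonunits := by
  rw [← apply_mem_nonunits_smul_iff τ A (τ.symm x), AlgEquiv.apply_symm_apply]

/-- The conjugate valuation ring lies over the same rational prime. -/
theorem liesOverPrime_smul (τ : L ≃ₐ[K] L) {A : ValuationSubring L} {q : ℕ}
    (hA : A.LiesOverPrime q) : (τ • A).LiesOverPrime q := by
  unfold ValuationSubring.LiesOverPrime at hA ⊢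
  rw [mem_nonunits_smul_iff, map_natCast]
  exact hA

theorem liesOverPrime_smul_iff (τ : L ≃ₐ[K] L) {A : ValuationSubring L} {q : ℕ} :
    (τ • A).LiesOverPrime q ↔ A.LiesOverPrime q := by
  refine ⟨fun h => ?_, liesOverPrime_smul τ⟩
  have := liesOverPrime_smul τ⁻¹ h
  rwa [inv_smul_smul] at this

/-- The decomposition group of `τ • A` is the conjugate of that of `A`. -/
theorem conj_mem_decompositionSubgroup (τ : L ≃ₐ[K] L) {A : ValuationSubring L} {σ : L ≃ₐ[K] L}
    (hσ : σ ∈ A.decompositionSubgroup K) : τ * σ * τ⁻¹ ∈ (τ • A).decompositionSubgroup K := by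
  have h : σ • A = A := hσ
  show (τ * σ * τ⁻¹) • (τ • A) = τ • A
  rw [mul_smul, inv_smul_smul, mul_smul, h]

/-- The inertia group of `τ • A` is the conjugate of that of `A`. -/
theorem conj_mem_inertiaSubgroupIn (τ : L ≃ₐ[K] L) {A : ValuationSubring L} {σ : L ≃ₐ[K] L}
    (hσ : σ ∈ A.inertiaSubgroupIn K) : τ * σ * τ⁻¹ ∈ (τ • A).inertiaSubgroupIn K := by
  rw [mem_inertiaSubgroupIn_iff_forall] at hσ ⊢
  refine ⟨conj_mem_decompositionSubgroup τ hσ.1, fun x hx => ?_⟩
  rw [mem_smul_iff_symm_apply_mem] at hx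
  have h1 := hσ.2 _ hx
  rw [← apply_mem_nonunits_smul_iff τ A] at h1
  have h2 : (τ * σ * τ⁻¹) x - x = τ (σ (τ.symm x) - τ.symm x) := by
    rw [map_sub, AlgEquiv.apply_symm_apply]
    rfl
  rw [h2]
  exact h1

theorem conj_mem_inertiaSubgroupIn_iff (τ : L ≃ₐ[K] L) {A : ValuationSubring L}
    {σ : L ≃ₐ[K] L} :
    τ * σ * τ⁻¹ ∈ (τ • A).inertiaSubgroupIn K ↔ σ ∈ A.inertiaSubgroupIn K := by
  refine ⟨fun h => ?_, conj_mem_inertiaSubgroupIn τ⟩
  have := conj_mem_inertiaSubgroupIn τ⁻¹ h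
  rw [inv_smul_smul] at this
  have e : τ⁻¹ * (τ * σ * τ⁻¹) * τ⁻¹⁻¹ = σ := by group
  rwa [e] at this

/-- `σ ∈ I_A` conjugated back: `τ⁻¹ σ τ ∈ I_{τ⁻¹ • A}`. -/
theorem inv_conj_mem_inertiaSubgroupIn (τ : L ≃ₐ[K] L) {A : ValuationSubring L} {σ : L ≃ₐ[K] L}
    (hσ : σ ∈ A.inertiaSubgroupIn K) : τ⁻¹ * σ * τ ∈ (τ⁻¹ • A).inertiaSubgroupIn K := by
  have := conj_mem_inertiaSubgroupIn τ⁻¹ hσ
  rwa [inv_inv] at this

/-- If `m` is a unit of `A`, `β` is a unit of `A` and `β ^ m` is fixed by `σ ∈ I_A`,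
then `σ β = β`. -/
theorem apply_eq_self_of_pow_fixed {A : ValuationSubring L} {σ : L ≃ₐ[K] L}
    (hσ : σ ∈ A.inertiaSubgroupIn K) {β : L} {m : ℕ} (hm : A.valuation (m : L) = 1)
    (hβ : A.valuation β = 1) (hfix : σ (β ^ m) = β ^ m) : σ β = β := by
  have hβA : β ∈ A := (ValuationSubring.valuation_le_one_iff A β).1 hβ.le
  have hm0 : m ≠ 0 := by
    rintro rfl
    simp at hm
  set a : A := ⟨β, hβA⟩ with ha
  have hcA : β ^ m ∈ A := pow_mem hβA m
  set c : A := ⟨β ^ m, hcA⟩ with hc
  have hca : a ^ m = c := Subtype.ext (by simp [ha, hc])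
  have key := apply_eq_self_of_simple_root hσ (Polynomial.X ^ m - Polynomial.C c) ?_ a ?_ ?_
  · exact key
  · intro i
    rw [Polynomial.coeff_sub, Polynomial.coeff_X_pow, Polynomial.coeff_C]
    have hm0' : ¬ (0 = m) := fun h => hm0 h.symm
    by_cases h1 : i = m <;> by_cases h2 : i = 0
    · exact absurd (h1.symm.trans h2) hm0
    · simp [h1, hm0]
    · simp [h2, hm0', hc, hfix]
    · simp [h1, h2]
  · simp [hca]
  · rw [Polynomial.derivative_sub, Polynomial.derivative_C, sub_zero, Polynomial.derivative_X_pow,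
      Polynomial.eval_mul, Polynomial.eval_pow, Polynomial.eval_X, Polynomial.eval_C,
      ValuationSubring.valuation_eq_one_iff]
    have : ((((m : ℕ) : A) * a ^ (m - 1) : A) : L) = (m : L) * β ^ (m - 1) := by
      simp [ha]
    rw [this, map_mul, hm, map_pow, hβ, one_pow, one_mul]

/-- An automorphism fixing a set pointwise fixes the field it generates. -/
theorem mem_fixingSubgroup_adjoin {T : Set L} {σ : L ≃ₐ[K] L} (h : ∀ x ∈ T, σ x = x) :
    σ ∈ (IntermediateField.adjoin K T).fixingSubgroup := by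
  rw [IntermediateField.mem_fixingSubgroup_iff]
  intro x hx
  induction hx using IntermediateField.adjoin_induction with
  | mem x hx => exact h x hx
  | algebraMap x => exact σ.commutes x
  | add x y _ _ hx hy => rw [map_add, hx, hy]
  | inv x _ hx => rw [map_inv₀, hx]
  | mul x y _ _ hx hy => rw [map_mul, hx, hy]

/-- An automorphism fixing each member of a family of fields fixes their compositum. -/
theorem mem_fixingSubgroup_iSup {ι : Sort*} {t : ι → IntermediateField K L} {σ : L ≃ₐ[K] L}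
    (h : ∀ i, σ ∈ (t i).fixingSubgroup) : σ ∈ (⨆ i, t i).fixingSubgroup := by
  have h1 : (⨆ i, t i) ≤ IntermediateField.fixedField (Subgroup.zpowers σ) :=
    iSup_le fun i => (IntermediateField.le_iff_le _ _).2 ((Subgroup.zpowers_le).2 (h i))
  exact (IntermediateField.le_iff_le _ _).1 h1 (Subgroup.mem_zpowers σ)

end General

section SField

variable {S : Finset Nat.Primes}

theorem isIntegral_Qbar (x : AlgebraicClosure ℚ) : IsIntegral ℚ x := by
  haveI : Algebra.IsAlgebraic ℚ (AlgebraicClosure ℚ) := AlgebraicClosure.isAlgebraic ℚ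
  exact (Algebra.IsAlgebraic.isAlgebraic x).isIntegral

/-- Elementwise description of `IsUnramifiedOutside`. -/
theorem isUnramifiedOutside_iff_forall {F : IntermediateField ℚ (AlgebraicClosure ℚ)} :
    F.IsUnramifiedOutside S ↔ FiniteDimensional ℚ F ∧
      ∀ q : Nat.Primes, q ∉ S → ∀ A : ValuationSubring (AlgebraicClosure ℚ),
        A.LiesOverPrime (q : ℕ) → ∀ σ ∈ A.inertiaSubgroupIn ℚ, ∀ x ∈ F, σ x = x := by
  unfold IntermediateField.IsUnramifiedOutside
  refine and_congr Iff.rfl (forall_congr' fun q => forall_congr' fun hq => forall_congr' fun A =>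
    forall_congr' fun hA => ?_)
  constructor
  · intro h σ hσ x hx
    exact (IntermediateField.mem_fixingSubgroup_iff F σ).1 (h hσ) x hx
  · intro h σ hσ
    rw [IntermediateField.mem_fixingSubgroup_iff]
    exact h σ hσ

/-- A field generated by finitely many elements fixed by all inertia groups outside `S`
is unramified outside `S`. -/
theorem isUnramifiedOutside_adjoin_of_forall {T : Set (AlgebraicClosure ℚ)} (hT : T.Finite)
    (h : ∀ q : Nat.Primes, q ∉ S → ∀ A : ValuationSubring (AlgebraicClosure ℚ),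
        A.LiesOverPrime (q : ℕ) → ∀ σ ∈ A.inertiaSubgroupIn ℚ, ∀ x ∈ T, σ x = x) :
    (IntermediateField.adjoin ℚ T).IsUnramifiedOutside S := by
  have : Finite T := hT
  refine ⟨IntermediateField.finiteDimensional_adjoin (fun x _ => isIntegral_Qbar x),
    fun q hq A hA σ hσ => ?_⟩
  exact mem_fixingSubgroup_adjoin (h q hq A hA σ hσ)

/-- Conjugates of fields unramified outside `S` are unramified outside `S`. -/
theorem isUnramifiedOutside_map {F : IntermediateField ℚ (AlgebraicClosure ℚ)}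
    (hF : F.IsUnramifiedOutside S) (τ : AlgebraicClosure ℚ ≃ₐ[ℚ] AlgebraicClosure ℚ) :
    (F.map (τ : AlgebraicClosure ℚ →ₐ[ℚ] AlgebraicClosure ℚ)).IsUnramifiedOutside S := by
  have := hF.1
  refine ⟨?_, fun q hq A hA σ hσ => ?_⟩
  · exact LinearEquiv.finiteDimensional
      (F.equivMap (τ : AlgebraicClosure ℚ →ₐ[ℚ] AlgebraicClosure ℚ)).toLinearEquiv
  · rw [IntermediateField.mem_fixingSubgroup_iff]
    rintro _ ⟨x, hx, rfl⟩
    have h1 := hF.2 q hq (τ⁻¹ • A) (liesOverPrime_smul τ⁻¹ hA)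
      (inv_conj_mem_inertiaSubgroupIn τ hσ)
    rw [IntermediateField.mem_fixingSubgroup_iff] at h1
    have h2 := h1 x hx
    have h3 : τ ((τ⁻¹ * σ * τ) x) = σ (τ x) := by
      show τ (τ.symm (σ (τ x))) = σ (τ x)
      rw [AlgEquiv.apply_symm_apply]
    rw [h2] at h3
    exact h3.symm

theorem isAlgClosure_Qbar : IsAlgClosure ℚ (AlgebraicClosure ℚ) :=
  ⟨inferInstance, AlgebraicClosure.isAlgebraic ℚ⟩

theorem normal_Qbar : Normal ℚ (AlgebraicClosure ℚ) :=
  haveI := isAlgClosure_Qbar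
  inferInstance

/-- The Galois closure `⨆ τ, τ(F)` of `F` inside `AlgebraicClosure ℚ`, written without
reference to `IntermediateField.normalClosure` (whose statement depends on a choice of
`Algebra ℚ F` instance). -/
theorem normalClosure_eq_iSup_map (F : IntermediateField ℚ (AlgebraicClosure ℚ)) :
    @IntermediateField.normalClosure ℚ F (AlgebraicClosure ℚ) _ _ _ (IntermediateField.algebra' F) _
      = ⨆ τ : AlgebraicClosure ℚ ≃ₐ[ℚ] AlgebraicClosure ℚ,
          F.map (τ : AlgebraicClosure ℚ →ₐ[ℚ] AlgebraicClosure ℚ) :=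
  haveI := normal_Qbar
  IntermediateField.normalClosure_def'' F

theorem le_iSup_map (F : IntermediateField ℚ (AlgebraicClosure ℚ)) :
    F ≤ ⨆ τ : AlgebraicClosure ℚ ≃ₐ[ℚ] AlgebraicClosure ℚ,
          F.map (τ : AlgebraicClosure ℚ →ₐ[ℚ] AlgebraicClosure ℚ) := by
  rw [← normalClosure_eq_iSup_map]
  exact F.le_normalClosure

theorem finiteDimensional_iSup_map (F : IntermediateField ℚ (AlgebraicClosure ℚ))
    [FiniteDimensional ℚ F] :
    FiniteDimensional ℚ (⨆ τ : AlgebraicClosure ℚ ≃ₐ[ℚ] AlgebraicClosure ℚ,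
          F.map (τ : AlgebraicClosure ℚ →ₐ[ℚ] AlgebraicClosure ℚ) :
            IntermediateField ℚ (AlgebraicClosure ℚ)) := by
  rw [← normalClosure_eq_iSup_map]
  exact @normalClosure.is_finiteDimensional ℚ F (AlgebraicClosure ℚ) _ _ _
    (IntermediateField.algebra' F) _ _

/-- The Galois closure is stable under every automorphism. -/
theorem map_iSup_map (F : IntermediateField ℚ (AlgebraicClosure ℚ))
    (σ : AlgebraicClosure ℚ ≃ₐ[ℚ] AlgebraicClosure ℚ) :
    (⨆ τ : AlgebraicClosure ℚ ≃ₐ[ℚ] AlgebraicClosure ℚ,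
      F.map (τ : AlgebraicClosure ℚ →ₐ[ℚ] AlgebraicClosure ℚ)).map
        (σ : AlgebraicClosure ℚ →ₐ[ℚ] AlgebraicClosure ℚ)
      = ⨆ τ : AlgebraicClosure ℚ ≃ₐ[ℚ] AlgebraicClosure ℚ,
          F.map (τ : AlgebraicClosure ℚ →ₐ[ℚ] AlgebraicClosure ℚ) := by
  haveI := normal_Qbar
  rw [← normalClosure_eq_iSup_map]
  have hN : Normal ℚ (@IntermediateField.normalClosure ℚ F (AlgebraicClosure ℚ) _ _ _
      (IntermediateField.algebra' F) _) :=
    @normalClosure.normal ℚ F (AlgebraicClosure ℚ) _ _ _ (IntermediateField.algebra' F) _ _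
  exact IntermediateField.normal_iff_forall_map_eq'.1 hN σ

/-- The Galois closure of a field unramified outside `S` is unramified outside `S`. -/
theorem isUnramifiedOutside_iSup_map {F : IntermediateField ℚ (AlgebraicClosure ℚ)}
    (hF : F.IsUnramifiedOutside S) :
    (⨆ τ : AlgebraicClosure ℚ ≃ₐ[ℚ] AlgebraicClosure ℚ,
      F.map (τ : AlgebraicClosure ℚ →ₐ[ℚ] AlgebraicClosure ℚ)).IsUnramifiedOutside S := by
  have := hF.1
  exact ⟨finiteDimensional_iSup_map F, fun q hq A hA σ hσ =>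
    mem_fixingSubgroup_iSup fun τ => (isUnramifiedOutside_map hF τ).2 q hq A hA hσ⟩

/-- If `F` is stable under all automorphisms then its fixing subgroup is normal. -/
theorem normal_fixingSubgroup_of_map_eq {F : IntermediateField ℚ (AlgebraicClosure ℚ)}
    (h : ∀ τ : AlgebraicClosure ℚ ≃ₐ[ℚ] AlgebraicClosure ℚ,
      F.map (τ : AlgebraicClosure ℚ →ₐ[ℚ] AlgebraicClosure ℚ) = F) :
    F.fixingSubgroup.Normal := by
  refine ⟨fun σ hσ τ => ?_⟩
  rw [IntermediateField.mem_fixingSubgroup_iff] at hσ ⊢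
  intro x hx
  have hx' : τ⁻¹ x ∈ F := by
    have : τ⁻¹ x ∈ F.map ((τ⁻¹ : AlgebraicClosure ℚ ≃ₐ[ℚ] AlgebraicClosure ℚ) :
        AlgebraicClosure ℚ →ₐ[ℚ] AlgebraicClosure ℚ) := ⟨x, hx, rfl⟩
    rwa [h τ⁻¹] at this
  show τ (σ (τ⁻¹ x)) = x
  rw [hσ _ hx']
  show τ (τ.symm x) = x
  rw [AlgEquiv.apply_symm_apply]

/-- Every field unramified outside `S` is contained in a field unramified outside `S` that is
stable under all automorphisms of `AlgebraicClosure ℚ` (a finite Galois extension of `ℚ`). -/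
theorem exists_normal_ge {F : IntermediateField ℚ (AlgebraicClosure ℚ)}
    (hF : F.IsUnramifiedOutside S) :
    ∃ F' : IntermediateField ℚ (AlgebraicClosure ℚ),
      F ≤ F' ∧ F'.IsUnramifiedOutside S ∧
      (∀ τ : AlgebraicClosure ℚ ≃ₐ[ℚ] AlgebraicClosure ℚ,
        F'.map (τ : AlgebraicClosure ℚ →ₐ[ℚ] AlgebraicClosure ℚ) = F') ∧
      F'.fixingSubgroup.Normal :=
  ⟨_, le_iSup_map F, isUnramifiedOutside_iSup_map hF, map_iSup_map F,
    normal_fixingSubgroup_of_map_eq (map_iSup_map F)⟩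

/-- A field stable under all automorphisms is normal over `ℚ`
(for the `IntermediateField.algebra'` structure). -/
theorem normal_of_map_eq {F : IntermediateField ℚ (AlgebraicClosure ℚ)}
    (h : ∀ τ : AlgebraicClosure ℚ ≃ₐ[ℚ] AlgebraicClosure ℚ,
      F.map (τ : AlgebraicClosure ℚ →ₐ[ℚ] AlgebraicClosure ℚ) = F) :
    @Normal ℚ F _ _ (IntermediateField.algebra' F) :=
  haveI := normal_Qbar
  IntermediateField.normal_iff_forall_map_eq'.2 h

/-- A field stable under all automorphisms is Galois over `ℚ`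
(for the `IntermediateField.algebra'` structure). -/
theorem isGalois_of_map_eq {F : IntermediateField ℚ (AlgebraicClosure ℚ)}
    (h : ∀ τ : AlgebraicClosure ℚ ≃ₐ[ℚ] AlgebraicClosure ℚ,
      F.map (τ : AlgebraicClosure ℚ →ₐ[ℚ] AlgebraicClosure ℚ) = F) :
    @IsGalois ℚ _ F _ (IntermediateField.algebra' F) :=
  haveI := normal_of_map_eq h
  @IsGalois.mk ℚ _ F _ (IntermediateField.algebra' F) inferInstance inferInstance

/-- **Kummer criterion.** Let `F` be unramified outside `S`, let `m` be a natural number all of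
whose prime factors lie in `S`, and let `α` satisfy `α ^ m ∈ F`.  If for every valuation ring `A`
over a prime outside `S` some `F`-multiple `α * y` of `α` is a unit of `A`, then `F(α)` is
unramified outside `S`. -/
theorem isUnramifiedOutside_sup_adjoin_of_pow {F : IntermediateField ℚ (AlgebraicClosure ℚ)}
    (hF : F.IsUnramifiedOutside S) {m : ℕ} (hm : ∀ q : Nat.Primes, (q : ℕ) ∣ m → q ∈ S)
    {α : AlgebraicClosure ℚ} (hα : α ^ m ∈ F)
    (hloc : ∀ q : Nat.Primes, q ∉ S → ∀ A : ValuationSubring (AlgebraicClosure ℚ),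
      A.LiesOverPrime (q : ℕ) → ∃ y ∈ F, A.valuation (α * y) = 1) :
    (F ⊔ ℚ⟮α⟯).IsUnramifiedOutside S := by
  have := hF.1
  have hαint : IsIntegral ℚ α := isIntegral_Qbar α
  have := IntermediateField.adjoin.finiteDimensional hαint
  refine ⟨IntermediateField.finiteDimensional_sup F ℚ⟮α⟯, fun q hq A hA σ hσ => ?_⟩
  rw [IntermediateField.fixingSubgroup_sup]
  have hσF := hF.2 q hq A hA hσ
  refine ⟨hσF, ?_⟩
  rw [IntermediateField.mem_fixingSubgroup_iff] at hσF
  obtain ⟨y, hyF, hy⟩ := hloc q hq A hA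
  have hmq : ¬ (q : ℕ) ∣ m := fun h => hq (hm q h)
  have hmv : A.valuation ((m : ℕ) : AlgebraicClosure ℚ) = 1 :=
    valuation_natCast_eq_one q.2 hA hmq
  have hfix : σ ((α * y) ^ m) = (α * y) ^ m := by
    rw [mul_pow]
    exact hσF _ (mul_mem hα (pow_mem hyF m))
  have h1 := apply_eq_self_of_pow_fixed hσ hmv hy hfix
  have hy0 : y ≠ 0 := by
    rintro rfl
    simp at hy
  have h2 : σ α = α := by
    rw [map_mul, hσF y hyF] at h1
    exact mul_right_cancel₀ hy0 h1
  refine mem_fixingSubgroup_adjoin ?_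
  intro x hx
  rw [Set.mem_singleton_iff] at hx
  rw [hx]
  exact h2

/-- Kummer criterion, unit case: `m`-th roots of elements of `F` that are units outside `S`. -/
theorem isUnramifiedOutside_sup_adjoin_of_pow_unit
    {F : IntermediateField ℚ (AlgebraicClosure ℚ)}
    (hF : F.IsUnramifiedOutside S) {m : ℕ} (hm : ∀ q : Nat.Primes, (q : ℕ) ∣ m → q ∈ S)
    {α : AlgebraicClosure ℚ} (hα : α ^ m ∈ F)
    (hloc : ∀ q : Nat.Primes, q ∉ S → ∀ A : ValuationSubring (AlgebraicClosure ℚ),
      A.LiesOverPrime (q : ℕ) → A.valuation (α ^ m) = 1) :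
    (F ⊔ ℚ⟮α⟯).IsUnramifiedOutside S := by
  refine isUnramifiedOutside_sup_adjoin_of_pow hF hm hα fun q hq A hA => ⟨1, one_mem F, ?_⟩
  have hm0 : m ≠ 0 := by
    rintro rfl
    exact hq (hm q (dvd_zero _))
  have h := hloc q hq A hA
  rw [map_pow] at h
  rw [mul_one]
  exact (pow_eq_one_iff_of_nonneg zero_le hm0).1 h

/-- Kummer criterion, stated on `a = α ^ m`: for each valuation ring `A` over a prime outside
`S`, `a` is a unit of `A` times an `m`-th power of an element of `F`. -/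
theorem isUnramifiedOutside_sup_adjoin_of_pow_mul_pow
    {F : IntermediateField ℚ (AlgebraicClosure ℚ)}
    (hF : F.IsUnramifiedOutside S) {m : ℕ} (hm : ∀ q : Nat.Primes, (q : ℕ) ∣ m → q ∈ S)
    {α : AlgebraicClosure ℚ} (hα : α ^ m ∈ F)
    (hloc : ∀ q : Nat.Primes, q ∉ S → ∀ A : ValuationSubring (AlgebraicClosure ℚ),
      A.LiesOverPrime (q : ℕ) → ∃ y ∈ F, A.valuation (α ^ m * y ^ m) = 1) :
    (F ⊔ ℚ⟮α⟯).IsUnramifiedOutside S := by
  refine isUnramifiedOutside_sup_adjoin_of_pow hF hm hα fun q hq A hA => ?_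
  obtain ⟨y, hyF, hy⟩ := hloc q hq A hA
  refine ⟨y, hyF, ?_⟩
  have hm0 : m ≠ 0 := by
    rintro rfl
    exact hq (hm q (dvd_zero _))
  rw [← mul_pow, map_pow] at hy
  exact (pow_eq_one_iff_of_nonneg zero_le hm0).1 hy

/-- `m`-th roots of integers supported in `S` generate extensions unramified outside `S`
(for `m` supported in `S`). -/
theorem isUnramifiedOutside_sup_adjoin_of_pow_eq_intCast
    {F : IntermediateField ℚ (AlgebraicClosure ℚ)}
    (hF : F.IsUnramifiedOutside S) {m : ℕ} (hm : ∀ q : Nat.Primes, (q : ℕ) ∣ m → q ∈ S)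
    {a : ℤ} (ha : ∀ q : Nat.Primes, ((q : ℕ) : ℤ) ∣ a → q ∈ S)
    {α : AlgebraicClosure ℚ} (hα : α ^ m = (a : AlgebraicClosure ℚ)) :
    (F ⊔ ℚ⟮α⟯).IsUnramifiedOutside S := by
  refine isUnramifiedOutside_sup_adjoin_of_pow_unit hF hm ?_ fun q hq A hA => ?_
  · rw [hα]
    exact intCast_mem F a
  · rw [hα]
    exact valuation_intCast_eq_one q.2 hA (fun h => hq (ha q h))

/-- Adjoining a root of unity of order supported in `S` preserves being unramified
outside `S`. -/
theorem isUnramifiedOutside_sup_adjoin_of_pow_eq_one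
    {F : IntermediateField ℚ (AlgebraicClosure ℚ)}
    (hF : F.IsUnramifiedOutside S) {m : ℕ} (hm : ∀ q : Nat.Primes, (q : ℕ) ∣ m → q ∈ S)
    {ζ : AlgebraicClosure ℚ} (hζ : ζ ^ m = 1) :
    (F ⊔ ℚ⟮ζ⟯).IsUnramifiedOutside S := by
  refine isUnramifiedOutside_sup_adjoin_of_pow_unit hF hm (hζ ▸ one_mem F) fun q hq A hA => ?_
  rw [hζ, map_one]

/-- Cyclotomic fields of conductor supported in `S` are unramified outside `S`. -/
theorem isUnramifiedOutside_adjoin_of_pow_eq_one {m : ℕ}
    (hm : ∀ q : Nat.Primes, (q : ℕ) ∣ m → q ∈ S) {ζ : AlgebraicClosure ℚ} (hζ : ζ ^ m = 1) :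
    (ℚ⟮ζ⟯ : IntermediateField ℚ (AlgebraicClosure ℚ)).IsUnramifiedOutside S :=
  (isUnramifiedOutside_sup_adjoin_of_pow_eq_one
    (IntermediateField.isUnramifiedOutside_bot S) hm hζ).of_le le_sup_right

end SField

end Fermat.Agent.S55.helper4039
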