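/-
S55 / NF-2ND-ANALYTIC (helper865), part 1: equidistribution of generalised ideal classes.

`K` a number field, `𝔪` a nonzero ideal, `ψ : (Ideal (𝓞 K))⁰ →* G` a homomorphism to a finite
abelian group which is trivial on the principal ideals `(α)` with `α ≡ 1 mod 𝔪` and onto on the
ideals prime to `𝔪`.  Then the partial zeta sums
`Z_c(s) = ∑_{I prime to 𝔪, ψ I = c} N(I)^(-s)` have bounded differences on `(1, 2]`.

Proof: translate by an ideal of `ψ`-class `c⁻¹`, unfold every ideal class over the generators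
`a ∈ J` (theta partition `phi` of `S14/helper3886`), observe that the condition on `a` is a
union of cosets of `J * 𝔪`, shift each coset (`exists_shift_sum_bound`) and compare the ideal
classes (`partialZeta_diff_bounded`).
-/
import Mathlib
import Fermat.Agent.S14.helper3886_PartialZeta

set_option autoImplicit false

namespace Fermat.Agent.S55.helper865

open NumberField
open scoped nonZeroDivisors
open Fermat.Agent.S14
open Fermat.Agent.Lib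

section Unfold

/-- Generic unfolding with a condition: a sum over the nonzero elements `a` of an integral ideal
`J` satisfying `P`, weighted by a function `φ` whose sum over every unit orbit is `c`, is
`c * N(J)^(-s)` times the partial zeta sum over the ideals `I` of the inverse class of `J`
satisfying `Q`, provided `P a ↔ Q I` whenever `(a) = J * I`. -/
theorem unfold_pred (K : Type*) [Field K] [NumberField K]
    (φ : 𝓞 K → ℝ) (c : ℝ) (hφ0 : ∀ a, 0 ≤ φ a)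
    (hφ : ∀ a : 𝓞 K, a ≠ 0 → HasSum (fun u : (𝓞 K)ˣ => φ (u * a)) c)
    (J : (Ideal (𝓞 K))⁰) (s : ℝ)
    (P : 𝓞 K → Prop) (Q : (Ideal (𝓞 K))⁰ → Prop) [DecidablePred P] [DecidablePred Q]
    (hPQ : ∀ (a : 𝓞 K) (I : (Ideal (𝓞 K))⁰),
      Ideal.span {a} = (J : Ideal (𝓞 K)) * (I : Ideal (𝓞 K)) → (P a ↔ Q I))
    (hsum : Summable (fun I : {I : (Ideal (𝓞 K))⁰ // ClassGroup.mk0 I = (ClassGroup.mk0 J)⁻¹} =>
      (Ideal.absNorm (I.1 : Ideal (𝓞 K)) : ℝ) ^ (-s))) :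
    HasSum (fun a : {a : 𝓞 K // a ∈ (J : Ideal (𝓞 K)) ∧ a ≠ 0} =>
        if P a then φ a * (|Algebra.norm ℤ (a : 𝓞 K)| : ℝ) ^ (-s) else 0)
      (c * (Ideal.absNorm (J : Ideal (𝓞 K)) : ℝ) ^ (-s) *
        ∑' I : {I : (Ideal (𝓞 K))⁰ // ClassGroup.mk0 I = (ClassGroup.mk0 J)⁻¹},
          if Q I.1 then (Ideal.absNorm (I.1 : Ideal (𝓞 K)) : ℝ) ^ (-s) else 0) := by
  classical
  set T := {I : (Ideal (𝓞 K))⁰ // ClassGroup.mk0 I = (ClassGroup.mk0 J)⁻¹} with hT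
  have hJ0 : (J : Ideal (𝓞 K)) ≠ ⊥ := nonZeroDivisors.coe_ne_zero J
  -- the class map
  have key : ∀ a : {a : 𝓞 K // a ∈ (J : Ideal (𝓞 K)) ∧ a ≠ 0}, ∃ I : T,
      Ideal.span {(a : 𝓞 K)} = (J : Ideal (𝓞 K)) * (I.1 : Ideal (𝓞 K)) := by
    rintro ⟨a, haJ, ha0⟩
    obtain ⟨I, hI⟩ : (J : Ideal (𝓞 K)) ∣ Ideal.span {a} := Ideal.dvd_span_singleton.mpr haJ
    have hI0 : I ≠ ⊥ := by
      rintro rfl
      rw [Ideal.mul_bot] at hI
      exact ha0 (Ideal.span_singleton_eq_bot.mp hI)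
    have hImem : I ∈ (Ideal (𝓞 K))⁰ := mem_nonZeroDivisors_of_ne_zero hI0
    refine ⟨⟨⟨I, hImem⟩, ?_⟩, hI⟩
    rw [eq_inv_iff_mul_eq_one, ← map_mul]
    have h : (((⟨I, hImem⟩ * J : (Ideal (𝓞 K))⁰) : Ideal (𝓞 K))).IsPrincipal := by
      refine ⟨a, ?_⟩
      rw [Submonoid.coe_mul, ← Ideal.span, hI, mul_comm]
    rwa [← ClassGroup.mk0_eq_one_iff (SetLike.coe_mem _)] at h
  choose g hg using key
  have hg_iff : ∀ a I, g a = I ↔
      Ideal.span {(a : 𝓞 K)} = (J : Ideal (𝓞 K)) * (I.1 : Ideal (𝓞 K)) := by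
    intro a I
    constructor
    · rintro rfl; exact hg a
    · intro h
      have := (hg a).symm.trans h
      have h2 : ((g a).1 : Ideal (𝓞 K)) = (I.1 : Ideal (𝓞 K)) := mul_left_cancel₀ hJ0 this
      exact Subtype.ext (Subtype.ext h2)
  have hsumQ : Summable (fun I : T =>
      if Q I.1 then (Ideal.absNorm (I.1 : Ideal (𝓞 K)) : ℝ) ^ (-s) else 0) := by
    refine Summable.of_nonneg_of_le (fun I => ?_) (fun I => ?_) hsum
    · split_ifs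
      · positivity
      · exact le_rfl
    · split_ifs
      · exact le_rfl
      · positivity
  refine helper602.hasSum_of_fiberwise_nonneg _ (fun a => ?_) g
    (fun I => if Q I.1 then c * ((Ideal.absNorm (J : Ideal (𝓞 K)) : ℝ) ^ (-s) *
      (Ideal.absNorm (I.1 : Ideal (𝓞 K)) : ℝ) ^ (-s)) else 0) _ ?_ ?_
  · split_ifs
    · exact mul_nonneg (hφ0 _) (by positivity)
    · exact le_rfl
  · -- fibers
    intro I
    have hPfib : ∀ x : {x : {a : 𝓞 K // a ∈ (J : Ideal (𝓞 K)) ∧ a ≠ 0} // g x = I},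
        (P (x.1.1 : 𝓞 K) ↔ Q I.1) := fun x => hPQ _ _ ((hg_iff _ _).mp x.2)
    by_cases hQ : Q I.1
    · rw [if_pos hQ]
      have hfun : (fun x : {x : {a : 𝓞 K // a ∈ (J : Ideal (𝓞 K)) ∧ a ≠ 0} // g x = I} =>
          if P (x.1.1 : 𝓞 K) then φ x.1.1 * (|Algebra.norm ℤ (x.1.1 : 𝓞 K)| : ℝ) ^ (-s) else 0)
          = fun x => φ x.1.1 * (|Algebra.norm ℤ (x.1.1 : 𝓞 K)| : ℝ) ^ (-s) := by
        funext x
        rw [if_pos ((hPfib x).mpr hQ)]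
      rw [hfun]
      -- a generator of `J * I`
      have hprinc : (((J * I.1 : (Ideal (𝓞 K))⁰) : Ideal (𝓞 K))).IsPrincipal := by
        rw [← ClassGroup.mk0_eq_one_iff (SetLike.coe_mem _), map_mul, I.2, mul_inv_cancel]
      rw [Submonoid.coe_mul] at hprinc
      obtain ⟨a₀, ha₀⟩ := hprinc
      have ha₀' : Ideal.span {a₀} = (J : Ideal (𝓞 K)) * (I.1 : Ideal (𝓞 K)) := ha₀.symm
      have hI0 : (I.1 : Ideal (𝓞 K)) ≠ ⊥ := nonZeroDivisors.coe_ne_zero I.1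
      have ha₀0 : a₀ ≠ 0 := by
        rintro rfl
        rw [Ideal.span_singleton_eq_bot.mpr rfl] at ha₀'
        exact mul_ne_zero hJ0 hI0 ha₀'.symm
      have hmemJ : ∀ x : 𝓞 K, Ideal.span {x} = (J : Ideal (𝓞 K)) * (I.1 : Ideal (𝓞 K)) →
          x ∈ (J : Ideal (𝓞 K)) := by
        intro x hx
        have : x ∈ Ideal.span {x} := Ideal.mem_span_singleton_self x
        rw [hx] at this
        exact Ideal.mul_le_left this
      have hspan_u : ∀ u : (𝓞 K)ˣ, Ideal.span {(u : 𝓞 K) * a₀} =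
          (J : Ideal (𝓞 K)) * (I.1 : Ideal (𝓞 K)) := by
        intro u
        rw [← ha₀', Ideal.span_singleton_eq_span_singleton]
        exact associated_unit_mul_left_iff.mpr (Associated.refl a₀)
      -- the bijection between units and the fiber
      let h : (𝓞 K)ˣ → {x : {a : 𝓞 K // a ∈ (J : Ideal (𝓞 K)) ∧ a ≠ 0} // g x = I} := fun u =>
        ⟨⟨(u : 𝓞 K) * a₀, hmemJ _ (hspan_u u), mul_ne_zero u.ne_zero ha₀0⟩,
          (hg_iff _ _).mpr (hspan_u u)⟩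
      have hbij : Function.Bijective h := by
        constructor
        · intro u v huv
          have : (u : 𝓞 K) * a₀ = (v : 𝓞 K) * a₀ := congrArg (fun x => (x.1.1 : 𝓞 K)) huv
          exact Units.ext (mul_right_cancel₀ ha₀0 this)
        · rintro ⟨⟨x, hxJ, hx0⟩, hxI⟩
          have hx : Ideal.span {x} = Ideal.span {a₀} := by
            rw [ha₀']; exact (hg_iff _ _).mp hxI
          obtain ⟨u, hu⟩ := (Ideal.span_singleton_eq_span_singleton.mp hx).symm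
          refine ⟨u, ?_⟩
          apply Subtype.ext; apply Subtype.ext
          change (u : 𝓞 K) * a₀ = x
          rw [mul_comm]; exact hu
      have hnorm : ∀ x : {x : {a : 𝓞 K // a ∈ (J : Ideal (𝓞 K)) ∧ a ≠ 0} // g x = I},
          (|Algebra.norm ℤ (x.1.1 : 𝓞 K)| : ℝ) ^ (-s) =
            (Ideal.absNorm (J : Ideal (𝓞 K)) : ℝ) ^ (-s) *
              (Ideal.absNorm (I.1 : Ideal (𝓞 K)) : ℝ) ^ (-s) := by
        intro x
        have h1 := (hg_iff _ _).mp x.2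
        have h2 : (Ideal.absNorm (Ideal.span {(x.1.1 : 𝓞 K)}) : ℝ) =
            (Ideal.absNorm (J : Ideal (𝓞 K)) : ℝ) * (Ideal.absNorm (I.1 : Ideal (𝓞 K)) : ℝ) := by
          rw [h1, map_mul, Nat.cast_mul]
        rw [Ideal.absNorm_span_singleton, Nat.cast_natAbs, Int.cast_abs] at h2
        rw [h2, Real.mul_rpow (Nat.cast_nonneg _) (Nat.cast_nonneg _)]
      rw [← (Equiv.ofBijective h hbij).hasSum_iff]
      have : ((fun x : {x : {a : 𝓞 K // a ∈ (J : Ideal (𝓞 K)) ∧ a ≠ 0} // g x = I} =>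
          φ x.1.1 * (|Algebra.norm ℤ (x.1.1 : 𝓞 K)| : ℝ) ^ (-s)) ∘ (Equiv.ofBijective h hbij)) =
          fun u : (𝓞 K)ˣ => φ (u * a₀) * ((Ideal.absNorm (J : Ideal (𝓞 K)) : ℝ) ^ (-s) *
              (Ideal.absNorm (I.1 : Ideal (𝓞 K)) : ℝ) ^ (-s)) := by
        funext u
        simp only [Function.comp_apply]
        rw [hnorm]
        rfl
      rw [this]
      exact (hφ a₀ ha₀0).mul_right _
    · rw [if_neg hQ]
      have hfun : (fun x : {x : {a : 𝓞 K // a ∈ (J : Ideal (𝓞 K)) ∧ a ≠ 0} // g x = I} =>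
          if P (x.1.1 : 𝓞 K) then φ x.1.1 * (|Algebra.norm ℤ (x.1.1 : 𝓞 K)| : ℝ) ^ (-s) else 0)
          = fun _ => 0 := by
        funext x
        rw [if_neg (fun hP => hQ ((hPfib x).mp hP))]
      rw [hfun]
      exact hasSum_zero
  · have h1 := (hsumQ.hasSum.mul_left (c * (Ideal.absNorm (J : Ideal (𝓞 K)) : ℝ) ^ (-s)))
    refine h1.congr_fun (fun I => ?_)
    show (if Q I.1 then _ else 0) = _
    split_ifs
    · ring
    · ring

end Unfold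

section Coprime

variable {K : Type*} [Field K] [NumberField K]

/-- Every ideal class contains an integral ideal prime to a given nonzero ideal. -/
theorem exists_mk0_eq_isCoprime (𝔪 : Ideal (𝓞 K)) (h𝔪 : 𝔪 ≠ ⊥) (C : ClassGroup (𝓞 K)) :
    ∃ J : (Ideal (𝓞 K))⁰, ClassGroup.mk0 J = C ∧ IsCoprime (J : Ideal (𝓞 K)) 𝔪 := by
  by_cases htop : 𝔪 = ⊤
  · obtain ⟨J, hJ⟩ := ClassGroup.mk0_surjective C
    refine ⟨J, hJ, ?_⟩
    rw [Ideal.isCoprime_iff_sup_eq, htop, sup_top_eq]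
  obtain ⟨I, hI⟩ := ClassGroup.mk0_surjective C⁻¹
  have hI0 : (I : Ideal (𝓞 K)) ≠ ⊥ := nonZeroDivisors.coe_ne_zero I
  have hle : (I : Ideal (𝓞 K)) * 𝔪 ≤ (I : Ideal (𝓞 K)) := Ideal.mul_le_left
  obtain ⟨a, ha⟩ := IsDedekindDomain.exists_sup_span_eq hle (mul_ne_zero hI0 h𝔪)
  have haI : a ∈ (I : Ideal (𝓞 K)) := by
    rw [← ha]; exact Ideal.mem_sup_right (Ideal.mem_span_singleton_self a)
  obtain ⟨J, hJ⟩ : (I : Ideal (𝓞 K)) ∣ Ideal.span {a} := Ideal.dvd_span_singleton.mpr haI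
  have h1 : (I : Ideal (𝓞 K)) * (𝔪 ⊔ J) = (I : Ideal (𝓞 K)) * ⊤ := by
    rw [Ideal.mul_sup, ← hJ, ha, Ideal.mul_top]
  have h2 : 𝔪 ⊔ J = ⊤ := mul_left_cancel₀ hI0 h1
  have hJ0 : J ≠ ⊥ := by
    rintro rfl
    exact htop (by simpa using h2)
  have hJmem : J ∈ (Ideal (𝓞 K))⁰ := mem_nonZeroDivisors_of_ne_zero hJ0
  refine ⟨⟨J, hJmem⟩, ?_, ?_⟩
  · have h : (((I * ⟨J, hJmem⟩ : (Ideal (𝓞 K))⁰) : Ideal (𝓞 K))).IsPrincipal := by
      refine ⟨a, ?_⟩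
      rw [Submonoid.coe_mul, ← Ideal.span, hJ]
    rw [← ClassGroup.mk0_eq_one_iff (SetLike.coe_mem _), map_mul, hI] at h
    exact (inv_mul_eq_one.mp h).symm
  · rw [Ideal.isCoprime_iff_sup_eq, sup_comm]
    exact h2

/-- the nonzero principal ideal generated by a nonzero element. -/
noncomputable def spanNZ (a : 𝓞 K) (ha : a ≠ 0) : (Ideal (𝓞 K))⁰ :=
  ⟨Ideal.span {a}, mem_nonZeroDivisors_of_ne_zero
    (fun h => ha (Ideal.span_singleton_eq_bot.mp h))⟩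

omit [NumberField K] in
@[simp] theorem coe_spanNZ (a : 𝓞 K) (ha : a ≠ 0) :
    ((spanNZ a ha : (Ideal (𝓞 K))⁰) : Ideal (𝓞 K)) = Ideal.span {a} := rfl

omit [NumberField K] in
theorem spanNZ_mul (a b : 𝓞 K) (ha : a ≠ 0) (hb : b ≠ 0) :
    spanNZ (a * b) (mul_ne_zero ha hb) = spanNZ a ha * spanNZ b hb :=
  Subtype.ext (Ideal.span_singleton_mul_span_singleton a b).symm

omit [NumberField K] in
theorem isCoprime_span_of_sub_mem {𝔪 : Ideal (𝓞 K)} {a a' : 𝓞 K} (h : a - a' ∈ 𝔪)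
    (hcop : IsCoprime (Ideal.span {a}) 𝔪) : IsCoprime (Ideal.span {a'}) 𝔪 := by
  rw [Ideal.isCoprime_iff_exists] at hcop ⊢
  obtain ⟨i, hi, j, hj, hij⟩ := hcop
  obtain ⟨b, rfl⟩ := Ideal.mem_span_singleton'.mp hi
  refine ⟨b * a', Ideal.mem_span_singleton'.mpr ⟨b, rfl⟩, b * (a - a') + j,
    𝔪.add_mem (𝔪.mul_mem_left b h) hj, ?_⟩
  rw [← hij]; ring

variable {G : Type*} [CommGroup G]

omit [NumberField K] in
/-- `ψ` of a principal ideal prime to `𝔪` only depends on the residue of the generator. -/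
theorem psi_span_congr (𝔪 : Ideal (𝓞 K)) (ψ : (Ideal (𝓞 K))⁰ →* G)
    (hprin : ∀ (α : 𝓞 K) (hα : α ≠ 0), α - 1 ∈ 𝔪 → ψ (spanNZ α hα) = 1)
    {a a' : 𝓞 K} (ha : a ≠ 0) (ha' : a' ≠ 0) (h : a - a' ∈ 𝔪)
    (hcop : IsCoprime (Ideal.span {a}) 𝔪) : ψ (spanNZ a ha) = ψ (spanNZ a' ha') := by
  rw [Ideal.isCoprime_iff_exists] at hcop
  obtain ⟨i, hi, j, hj, hij⟩ := hcop
  obtain ⟨b, rfl⟩ := Ideal.mem_span_singleton'.mp hi
  by_cases hb : b = 0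
  · subst hb
    have h1 : (1 : 𝓞 K) ∈ 𝔪 := by
      have : j = 1 := by rw [← hij]; ring
      rwa [this] at hj
    have htop : 𝔪 = ⊤ := (Ideal.eq_top_iff_one 𝔪).mpr h1
    rw [hprin a ha (by rw [htop]; trivial), hprin a' ha' (by rw [htop]; trivial)]
  · have e1 : a * b - 1 ∈ 𝔪 := by
      have : a * b - 1 = -j := by rw [← hij]; ring
      rw [this]; exact 𝔪.neg_mem hj
    have e2 : a' * b - 1 ∈ 𝔪 := by
      have : a' * b - 1 = (a * b - 1) - (a - a') * b := by ring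
      rw [this]; exact 𝔪.sub_mem e1 (𝔪.mul_mem_right b h)
    have h1 := hprin (a * b) (mul_ne_zero ha hb) e1
    have h2 := hprin (a' * b) (mul_ne_zero ha' hb) e2
    rw [spanNZ_mul a b ha hb, map_mul] at h1
    rw [spanNZ_mul a' b ha' hb, map_mul] at h2
    exact mul_right_cancel (h1.trans h2.symm)

end Coprime

section Coset

variable {K : Type*} [Field K] [NumberField K]

omit [NumberField K] in
theorem exists_mem_mk_eq {J 𝔪 : Ideal (𝓞 K)} (h : IsCoprime J 𝔪) (ρ : 𝓞 K ⧸ 𝔪) :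
    ∃ a ∈ J, Ideal.Quotient.mk 𝔪 a = ρ := by
  obtain ⟨b, rfl⟩ := Ideal.Quotient.mk_surjective ρ
  rw [Ideal.isCoprime_iff_exists] at h
  obtain ⟨i, hi, j, hj, hij⟩ := h
  refine ⟨b * i, Ideal.mul_mem_left _ _ hi, ?_⟩
  rw [Ideal.Quotient.eq]
  have hi' : i = 1 - j := by rw [← hij]; ring
  have : b * i - b = -(b * j) := by rw [hi']; ring
  rw [this]
  exact 𝔪.neg_mem (𝔪.mul_mem_left b hj)

theorem summable_ite {α : Type*} {f : α → ℝ} (hf : Summable f) (P : α → Prop)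
    [DecidablePred P] : Summable (fun a => if P a then f a else 0) := by
  have := hf.indicator {a | P a}
  refine this.congr (fun a => ?_)
  by_cases h : P a <;> simp [h]

omit [NumberField K] in
/-- the sum over one residue class inside an ideal `J` prime to `𝔪` is a sum over a coset of
`J * 𝔪`. -/
theorem tsum_ite_mem_coset {J 𝔪 : Ideal (𝓞 K)} (h : IsCoprime J 𝔪)
    (rep : 𝓞 K ⧸ 𝔪 → 𝓞 K) (hrepJ : ∀ ρ, rep ρ ∈ J)
    (hrep : ∀ ρ, Ideal.Quotient.mk 𝔪 (rep ρ) = ρ) (f : 𝓞 K → ℝ) (ρ : 𝓞 K ⧸ 𝔪)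
    [DecidablePred fun a : 𝓞 K => a ∈ J ∧ Ideal.Quotient.mk 𝔪 a = ρ] :
    ∑' a : 𝓞 K, (if a ∈ J ∧ Ideal.Quotient.mk 𝔪 a = ρ then f a else 0) =
      ∑' x : ↥(J * 𝔪), f ((x : 𝓞 K) + rep ρ) := by
  have hle : J * 𝔪 ≤ J := Ideal.mul_le_left
  have hle' : J * 𝔪 ≤ 𝔪 := Ideal.mul_le_right
  have hinj : Function.Injective (fun x : ↥(J * 𝔪) => (x : 𝓞 K) + rep ρ) :=
    fun x y hxy => Subtype.ext (add_right_cancel hxy)
  have hsupp : Function.support (fun a : 𝓞 K =>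
      if a ∈ J ∧ Ideal.Quotient.mk 𝔪 a = ρ then f a else 0) ⊆
      Set.range (fun x : ↥(J * 𝔪) => (x : 𝓞 K) + rep ρ) := by
    intro a ha
    have ha' : a ∈ J ∧ Ideal.Quotient.mk 𝔪 a = ρ := by
      by_contra hcon
      simp [hcon] at ha
    have h1 : a - rep ρ ∈ J := J.sub_mem ha'.1 (hrepJ ρ)
    have h2 : a - rep ρ ∈ 𝔪 := by
      rw [← Ideal.Quotient.eq, ha'.2, hrep]
    have h3 : a - rep ρ ∈ J * 𝔪 := by
      rw [Ideal.mul_eq_inf_of_isCoprime h]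
      exact ⟨h1, h2⟩
    exact ⟨⟨a - rep ρ, h3⟩, by simp⟩
  rw [← hinj.tsum_eq hsupp]
  refine tsum_congr (fun x => ?_)
  have h1 : (x : 𝓞 K) + rep ρ ∈ J := J.add_mem (hle x.2) (hrepJ ρ)
  have h2 : Ideal.Quotient.mk 𝔪 ((x : 𝓞 K) + rep ρ) = ρ := by
    rw [map_add, Ideal.Quotient.eq_zero_iff_mem.mpr (hle' x.2), zero_add, hrep]
  rw [if_pos ⟨h1, h2⟩]

omit [NumberField K] in
/-- the sum over a set of residue classes inside an ideal `J` prime to `𝔪`. -/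
theorem tsum_ite_mem_residues {J 𝔪 : Ideal (𝓞 K)} (h : IsCoprime J 𝔪)
    (rep : 𝓞 K ⧸ 𝔪 → 𝓞 K) (hrepJ : ∀ ρ, rep ρ ∈ J)
    (hrep : ∀ ρ, Ideal.Quotient.mk 𝔪 (rep ρ) = ρ) (f : 𝓞 K → ℝ) (hf : Summable f)
    (R : Finset (𝓞 K ⧸ 𝔪))
    [DecidablePred fun a : 𝓞 K => a ∈ J ∧ Ideal.Quotient.mk 𝔪 a ∈ R] :
    ∑' a : 𝓞 K, (if a ∈ J ∧ Ideal.Quotient.mk 𝔪 a ∈ R then f a else 0) =
      ∑ ρ ∈ R, ∑' x : ↥(J * 𝔪), f ((x : 𝓞 K) + rep ρ) := by
  classical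
  have h1 : ∀ a : 𝓞 K, (if a ∈ J ∧ Ideal.Quotient.mk 𝔪 a ∈ R then f a else 0) =
      ∑ ρ ∈ R, (if a ∈ J ∧ Ideal.Quotient.mk 𝔪 a = ρ then f a else 0) := by
    intro a
    by_cases haJ : a ∈ J
    · simp only [haJ, true_and]
      rw [Finset.sum_ite_eq]
    · simp [haJ]
  rw [tsum_congr h1, Summable.tsum_finsetSum (fun ρ _ => summable_ite hf _)]
  refine Finset.sum_congr rfl (fun ρ _ => ?_)
  convert tsum_ite_mem_coset h rep hrepJ hrep f ρ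

end Coset

section Main

open scoped Classical

variable {K : Type*} [Field K] [NumberField K] {G : Type*} [CommGroup G]

/-- the partial zeta sum over the nonzero ideals prime to `𝔪` with `ψ`-value `c`. -/
noncomputable def rayZ (ψ : (Ideal (𝓞 K))⁰ →* G) (𝔪 : Ideal (𝓞 K)) (c : G) (s : ℝ) : ℝ :=
  ∑' I : (Ideal (𝓞 K))⁰, if IsCoprime (I : Ideal (𝓞 K)) 𝔪 ∧ ψ I = c then
    (Ideal.absNorm (I : Ideal (𝓞 K)) : ℝ) ^ (-s) else 0

/-- residues of the generators of the principal ideals prime to `𝔪` with `ψ`-value `g`. -/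
def resSet (ψ : (Ideal (𝓞 K))⁰ →* G) (𝔪 : Ideal (𝓞 K)) (g : G) : Set (𝓞 K ⧸ 𝔪) :=
  {ρ | ∃ (a : 𝓞 K) (ha : a ≠ 0), Ideal.Quotient.mk 𝔪 a = ρ ∧
    IsCoprime (Ideal.span {a}) 𝔪 ∧ ψ (spanNZ a ha) = g}

theorem tsum_eq_sum_tsum_fiber {α β : Type*} [Fintype β] (g : α → β) (f : α → ℝ)
    (hf : Summable f) : ∑' a, f a = ∑ b, ∑' x : {x // g x = b}, f x := by
  have hsum : Summable (fun p : (Σ b : β, {x // g x = b}) => f p.2.1) :=
    (Equiv.sigmaFiberEquiv g).summable_iff.mpr hf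
  calc ∑' a, f a = ∑' p : (Σ b : β, {x // g x = b}), f p.2.1 :=
        ((Equiv.sigmaFiberEquiv g).tsum_eq f).symm
    _ = ∑' b, ∑' x : {x // g x = b}, f x := hsum.tsum_sigma
    _ = ∑ b, ∑' x : {x // g x = b}, f x := tsum_fintype _

/-- the final real-number estimate in `exists_classSum_bound`. -/
theorem classSum_real_bound {T nJ nm pz' pz₁ E B₂ Ebd s Rc : ℝ} (hRc : 0 ≤ Rc)
    (hnJ1 : 1 ≤ nJ) (hnm1 : 1 ≤ nm) (hs1 : 1 < s) (hs2 : s ≤ 2)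
    (hsumE : nJ ^ (-s) * T = Rc * (nJ ^ (-s) * nm ^ (-s) * pz') + E)
    (h6 : |pz' - pz₁| ≤ B₂) (hE : |E| ≤ Ebd) :
    |T - Rc * nm ^ (-s) * pz₁| ≤ Rc * B₂ + nJ ^ 2 * Ebd := by
  have hnJpos : 0 < nJ := by linarith
  have hx : nJ ^ s * nJ ^ (-s) = 1 := by
    rw [← Real.rpow_add hnJpos]; simp
  have hxs0 : 0 ≤ nJ ^ s := Real.rpow_nonneg hnJpos.le _
  have hnJs : nJ ^ s ≤ nJ ^ 2 := by
    calc nJ ^ s ≤ nJ ^ (2 : ℝ) := Real.rpow_le_rpow_of_exponent_le hnJ1 hs2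
      _ = nJ ^ 2 := Real.rpow_two nJ
  have hy0 : 0 ≤ nm ^ (-s) := Real.rpow_nonneg (by linarith) _
  have hy1 : nm ^ (-s) ≤ 1 := Real.rpow_le_one_of_one_le_of_nonpos hnm1 (by linarith)
  have hB₂0 : 0 ≤ B₂ := (abs_nonneg _).trans h6
  have hEbd0 : 0 ≤ Ebd := (abs_nonneg _).trans hE
  have hTeq : T = Rc * nm ^ (-s) * pz' + nJ ^ s * E := by
    have h1 : T = nJ ^ s * (nJ ^ (-s) * T) := by rw [← mul_assoc, hx, one_mul]
    rw [h1, hsumE]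
    have : nJ ^ s * (Rc * (nJ ^ (-s) * nm ^ (-s) * pz') + E) =
        (nJ ^ s * nJ ^ (-s)) * (Rc * nm ^ (-s) * pz') + nJ ^ s * E := by ring
    rw [this, hx, one_mul]
  have hdiff : T - Rc * nm ^ (-s) * pz₁ =
      Rc * nm ^ (-s) * (pz' - pz₁) + nJ ^ s * E := by rw [hTeq]; ring
  rw [hdiff]
  have hA1 : |Rc * nm ^ (-s) * (pz' - pz₁)| ≤ Rc * B₂ := by
    rw [abs_mul, abs_of_nonneg (mul_nonneg hRc hy0)]
    calc Rc * nm ^ (-s) * |pz' - pz₁| ≤ Rc * 1 * B₂ :=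
          mul_le_mul (mul_le_mul_of_nonneg_left hy1 hRc) h6 (abs_nonneg _)
            (mul_nonneg hRc zero_le_one)
      _ = Rc * B₂ := by ring
  have hA2 : |nJ ^ s * E| ≤ nJ ^ 2 * Ebd := by
    rw [abs_mul, abs_of_nonneg hxs0]
    exact mul_le_mul hnJs hE (abs_nonneg _) (by positivity)
  exact (abs_add_le _ _).trans (add_le_add hA1 hA2)

/-- **One ideal class.**  For an integral ideal `J` prime to `𝔪`, the sum over the ideals `I` of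
the inverse class of `J`, prime to `𝔪`, with `ψ I = c`, is
`#(residues) * N(𝔪)^(-s) * Z_1(s) + O(1)` on `(1, 2]`. -/
theorem exists_classSum_bound (𝔪 : (Ideal (𝓞 K))⁰) (ψ : (Ideal (𝓞 K))⁰ →* G)
    (hprin : ∀ (α : 𝓞 K) (hα : α ≠ 0), α - 1 ∈ (𝔪 : Ideal (𝓞 K)) → ψ (spanNZ α hα) = 1)
    (J : (Ideal (𝓞 K))⁰) (hJ : IsCoprime (J : Ideal (𝓞 K)) (𝔪 : Ideal (𝓞 K))) (c g₀ : G)
    (hc : ψ J * c = g₀) :
    ∃ B : ℝ, ∀ s : ℝ, 1 < s → s ≤ 2 →
      |(∑' I : {I : (Ideal (𝓞 K))⁰ // ClassGroup.mk0 I = (ClassGroup.mk0 J)⁻¹},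
          if IsCoprime (I.1 : Ideal (𝓞 K)) (𝔪 : Ideal (𝓞 K)) ∧ ψ I.1 = c then
            (Ideal.absNorm (I.1 : Ideal (𝓞 K)) : ℝ) ^ (-s) else 0)
        - ((resSet ψ (𝔪 : Ideal (𝓞 K)) g₀).ncard : ℝ) *
            (Ideal.absNorm (𝔪 : Ideal (𝓞 K)) : ℝ) ^ (-s) * helper3886.partialZeta K 1 s| ≤ B := by
  have h𝔪0 : (𝔪 : Ideal (𝓞 K)) ≠ ⊥ := nonZeroDivisors.coe_ne_zero 𝔪
  have : Finite (𝓞 K ⧸ (𝔪 : Ideal (𝓞 K))) := Ideal.finiteQuotientOfFreeOfNeBot _ h𝔪0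
  have hRfin : (resSet ψ (𝔪 : Ideal (𝓞 K)) g₀).Finite := Set.toFinite _
  set R : Finset (𝓞 K ⧸ (𝔪 : Ideal (𝓞 K))) := hRfin.toFinset with hR
  have hRcard : (resSet ψ (𝔪 : Ideal (𝓞 K)) g₀).ncard = R.card :=
    Set.ncard_eq_toFinset_card _ hRfin
  have hmemR : ∀ ρ, ρ ∈ R ↔ ρ ∈ resSet ψ (𝔪 : Ideal (𝓞 K)) g₀ := fun ρ => hRfin.mem_toFinset
  choose rep hrepJ hrep using fun ρ => exists_mem_mk_eq hJ ρ
  obtain ⟨A, hA0, hA⟩ := helper3886.exists_shift_sum_bound (K := K)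
  obtain ⟨B₂, hB₂⟩ := helper3886.partialZeta_diff_bounded K
  set nJ : ℝ := (Ideal.absNorm (J : Ideal (𝓞 K)) : ℝ) with hnJ
  set nm : ℝ := (Ideal.absNorm (𝔪 : Ideal (𝓞 K)) : ℝ) with hnm
  have hnJ1 : 1 ≤ nJ := helper1121.one_le_absNorm K J
  have hnm1 : 1 ≤ nm := helper1121.one_le_absNorm K 𝔪
  refine ⟨(R.card : ℝ) * B₂ + nJ ^ 2 * ∑ ρ ∈ R, A * helper3886.nu K ((rep ρ : 𝓞 K) : K),
    fun s hs1 hs2 => ?_⟩
  -- the unfolding
  have hPQ : ∀ (a : 𝓞 K) (I : (Ideal (𝓞 K))⁰),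
      Ideal.span {a} = (J : Ideal (𝓞 K)) * (I : Ideal (𝓞 K)) →
      (Ideal.Quotient.mk (𝔪 : Ideal (𝓞 K)) a ∈ R ↔
        IsCoprime (I : Ideal (𝓞 K)) (𝔪 : Ideal (𝓞 K)) ∧ ψ I = c) := by
    intro a I haI
    have ha0 : a ≠ 0 := by
      rintro rfl
      have h0 : (J : Ideal (𝓞 K)) * (I : Ideal (𝓞 K)) = ⊥ := by rw [← haI]; simp
      exact mul_ne_zero (nonZeroDivisors.coe_ne_zero J) (nonZeroDivisors.coe_ne_zero I) h0
    have hspan : spanNZ a ha0 = J * I := Subtype.ext haI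
    rw [hmemR]
    constructor
    · rintro ⟨a', ha', hmk, hcop, hψ⟩
      have hsub : a' - a ∈ (𝔪 : Ideal (𝓞 K)) := Ideal.Quotient.eq.mp hmk
      have hcopa : IsCoprime (Ideal.span {a}) (𝔪 : Ideal (𝓞 K)) :=
        isCoprime_span_of_sub_mem hsub hcop
      have hψa : ψ (spanNZ a ha0) = g₀ := by
        rw [← psi_span_congr _ ψ hprin ha' ha0 hsub hcop, hψ]
      refine ⟨?_, ?_⟩
      · rw [haI] at hcopa
        exact hcopa.of_mul_left_right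
      · rw [hspan, map_mul, ← hc] at hψa
        exact mul_left_cancel hψa
    · rintro ⟨hcopI, hψI⟩
      refine ⟨a, ha0, rfl, ?_, ?_⟩
      · rw [haI]; exact IsCoprime.mul_left hJ hcopI
      · rw [hspan, map_mul, hψI, hc]
  have hsumT := helper1121.summable_class_rpow K (ClassGroup.mk0 J)⁻¹ hs1
  have hunf := unfold_pred K helper3886.phi 1 helper3886.phi_nonneg
    (fun a ha => helper3886.hasSum_phi ha) J s
    (fun a => Ideal.Quotient.mk (𝔪 : Ideal (𝓞 K)) a ∈ R)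
    (fun I => IsCoprime (I : Ideal (𝓞 K)) (𝔪 : Ideal (𝓞 K)) ∧ ψ I = c) hPQ hsumT
  rw [one_mul] at hunf
  set T : ℝ := ∑' I : {I : (Ideal (𝓞 K))⁰ // ClassGroup.mk0 I = (ClassGroup.mk0 J)⁻¹},
      if IsCoprime (I.1 : Ideal (𝓞 K)) (𝔪 : Ideal (𝓞 K)) ∧ ψ I.1 = c then
        (Ideal.absNorm (I.1 : Ideal (𝓞 K)) : ℝ) ^ (-s) else 0 with hT
  -- pass to a sum over all integers
  have hW : HasSum (fun a : 𝓞 K =>
      if a ∈ (J : Ideal (𝓞 K)) ∧ Ideal.Quotient.mk (𝔪 : Ideal (𝓞 K)) a ∈ R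
      then helper3886.F K s (a : K) else 0) (nJ ^ (-s) * T) := by
    have h1 := (hasSum_subtype_iff_indicator
      (s := {a : 𝓞 K | a ∈ (J : Ideal (𝓞 K)) ∧ a ≠ 0})
      (f := fun a : 𝓞 K => if Ideal.Quotient.mk (𝔪 : Ideal (𝓞 K)) a ∈ R then
        helper3886.phi a * (|Algebra.norm ℤ (a : 𝓞 K)| : ℝ) ^ (-s) else 0)).mp hunf
    refine h1.congr_fun (fun a => ?_)
    by_cases ha : a = 0
    · subst ha
      simp
    · by_cases haJ : a ∈ (J : Ideal (𝓞 K))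
      · rw [Set.indicator_of_mem (show a ∈ {a : 𝓞 K | a ∈ (J : Ideal (𝓞 K)) ∧ a ≠ 0} from
          ⟨haJ, ha⟩)]
        simp only [haJ, true_and, helper3886.F_eq_phi]
      · rw [Set.indicator_of_notMem (show a ∉ {a : 𝓞 K | a ∈ (J : Ideal (𝓞 K)) ∧ a ≠ 0} from
          fun h => haJ h.1)]
        simp [haJ]
  have hFsum := helper3886.summable_F (K := K) hs1 hs2
  have hcos := tsum_ite_mem_residues hJ rep hrepJ hrep
    (fun a : 𝓞 K => helper3886.F K s (a : K)) hFsum R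
  rw [hW.tsum_eq] at hcos
  -- the lattice sum
  set pz' : ℝ := helper3886.partialZeta K (ClassGroup.mk0 (J * 𝔪))⁻¹ s with hpz'
  set pz₁ : ℝ := helper3886.partialZeta K 1 s with hpz₁
  set S₀ : ℝ := ∑' x : ↥((J : Ideal (𝓞 K)) * (𝔪 : Ideal (𝓞 K))),
      helper3886.F K s ((x : 𝓞 K) : K) with hS₀
  have hS₀eq : S₀ = nJ ^ (-s) * nm ^ (-s) * pz' := by
    have h := (helper3886.hasSum_F_ideal (J * 𝔪) hs1).tsum_eq
    have e : ((Ideal.absNorm ((J * 𝔪 : (Ideal (𝓞 K))⁰) : Ideal (𝓞 K)) : ℝ)) ^ (-s) =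
        nJ ^ (-s) * nm ^ (-s) := by
      rw [Submonoid.coe_mul, map_mul, Nat.cast_mul,
        Real.mul_rpow (Nat.cast_nonneg _) (Nat.cast_nonneg _)]
    rw [e] at h
    exact h
  have h6 : |pz' - pz₁| ≤ B₂ := hB₂ s hs1 hs2 _ _
  have hB₂0 : 0 ≤ B₂ := (abs_nonneg _).trans h6
  have hshift : ∀ ρ ∈ R, |∑' x : ↥((J : Ideal (𝓞 K)) * (𝔪 : Ideal (𝓞 K))),
      helper3886.F K s ((((x : 𝓞 K) + rep ρ : 𝓞 K)) : K) - S₀| ≤
      A * helper3886.nu K ((rep ρ : 𝓞 K) : K) :=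
    fun ρ _ => hA s hs1 hs2 _ (rep ρ)
  set E : ℝ := ∑ ρ ∈ R, (∑' x : ↥((J : Ideal (𝓞 K)) * (𝔪 : Ideal (𝓞 K))),
      helper3886.F K s ((((x : 𝓞 K) + rep ρ : 𝓞 K)) : K) - S₀) with hE
  have hEabs : |E| ≤ ∑ ρ ∈ R, A * helper3886.nu K ((rep ρ : 𝓞 K) : K) :=
    (Finset.abs_sum_le_sum_abs _ _).trans (Finset.sum_le_sum hshift)
  have hE₀ : 0 ≤ ∑ ρ ∈ R, A * helper3886.nu K ((rep ρ : 𝓞 K) : K) :=
    (abs_nonneg _).trans hEabs
  have hsumE : nJ ^ (-s) * T = (R.card : ℝ) * S₀ + E := by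
    rw [hcos, hE, Finset.sum_sub_distrib, Finset.sum_const, nsmul_eq_mul]
    ring
  rw [hS₀eq] at hsumE
  rw [hRcard]
  exact classSum_real_bound (Nat.cast_nonneg _) hnJ1 hnm1 hs1 hs2 hsumE h6 hEabs

/-- **Equidistribution of the generalised ideal classes.**  If `ψ` is trivial on the principal
ideals generated by the `α ≡ 1 mod 𝔪` and onto on the ideals prime to `𝔪`, then the partial zeta
sums of the fibres of `ψ` have bounded differences on `(1, 2]`. -/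
theorem exists_rayZ_diff_bound [Finite G] (𝔪 : (Ideal (𝓞 K))⁰) (ψ : (Ideal (𝓞 K))⁰ →* G)
    (hprin : ∀ (α : 𝓞 K) (hα : α ≠ 0), α - 1 ∈ (𝔪 : Ideal (𝓞 K)) → ψ (spanNZ α hα) = 1)
    (hsurj : ∀ g : G, ∃ I : (Ideal (𝓞 K))⁰,
      IsCoprime (I : Ideal (𝓞 K)) (𝔪 : Ideal (𝓞 K)) ∧ ψ I = g) :
    ∃ M : ℝ, ∀ s : ℝ, 1 < s → s ≤ 2 → ∀ c c' : G,
      |rayZ ψ (𝔪 : Ideal (𝓞 K)) c s - rayZ ψ (𝔪 : Ideal (𝓞 K)) c' s| ≤ M := by
  have h𝔪0 : (𝔪 : Ideal (𝓞 K)) ≠ ⊥ := nonZeroDivisors.coe_ne_zero 𝔪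
  have := Fintype.ofFinite G
  choose Jrep hJmk hJcop using fun D : ClassGroup (𝓞 K) =>
    exists_mk0_eq_isCoprime (𝔪 : Ideal (𝓞 K)) h𝔪0 D⁻¹
  choose Irep hIcop hIψ using fun c : G => hsurj c⁻¹
  -- the estimate for one fibre and one ideal class
  have key : ∀ (c : G) (C : ClassGroup (𝓞 K)), ∃ B : ℝ, ∀ s : ℝ, 1 < s → s ≤ 2 →
      |(∑' I : {I : (Ideal (𝓞 K))⁰ // ClassGroup.mk0 I = C},
          if IsCoprime (I.1 : Ideal (𝓞 K)) (𝔪 : Ideal (𝓞 K)) ∧ ψ I.1 = c then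
            (Ideal.absNorm (I.1 : Ideal (𝓞 K)) : ℝ) ^ (-s) else 0)
        - ((resSet ψ (𝔪 : Ideal (𝓞 K))
              (ψ (Jrep (C * ClassGroup.mk0 (Irep c))))).ncard : ℝ) *
            (Ideal.absNorm (𝔪 : Ideal (𝓞 K)) : ℝ) ^ (-s) * helper3886.partialZeta K 1 s| ≤ B := by
    intro c C
    have hJcop' : IsCoprime ((Irep c * Jrep (C * ClassGroup.mk0 (Irep c)) : (Ideal (𝓞 K))⁰) :
        Ideal (𝓞 K)) (𝔪 : Ideal (𝓞 K)) := by
      rw [Submonoid.coe_mul]; exact IsCoprime.mul_left (hIcop c) (hJcop _)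
    have hcl : (ClassGroup.mk0 (Irep c * Jrep (C * ClassGroup.mk0 (Irep c))))⁻¹ = C := by
      rw [map_mul, hJmk, mul_inv_rev, inv_inv, mul_inv_cancel_right]
    have hc : ψ (Irep c * Jrep (C * ClassGroup.mk0 (Irep c))) * c =
        ψ (Jrep (C * ClassGroup.mk0 (Irep c))) := by
      rw [map_mul, hIψ, mul_comm c⁻¹, mul_assoc, inv_mul_cancel, mul_one]
    have h := exists_classSum_bound 𝔪 ψ hprin _ hJcop' c _ hc
    rw [hcl] at h
    exact h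
  choose B hB using key
  have hB0 : ∀ c C, 0 ≤ B c C := fun c C =>
    (abs_nonneg _).trans (hB c C 2 (by norm_num) le_rfl)
  -- the fibre sum splits over the ideal classes
  have hray : ∀ (c : G) (s : ℝ), 1 < s → rayZ ψ (𝔪 : Ideal (𝓞 K)) c s =
      ∑ C : ClassGroup (𝓞 K), ∑' I : {I : (Ideal (𝓞 K))⁰ // ClassGroup.mk0 I = C},
          if IsCoprime (I.1 : Ideal (𝓞 K)) (𝔪 : Ideal (𝓞 K)) ∧ ψ I.1 = c then
            (Ideal.absNorm (I.1 : Ideal (𝓞 K)) : ℝ) ^ (-s) else 0 := by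
    intro c s hs
    exact tsum_eq_sum_tsum_fiber (fun I : (Ideal (𝓞 K))⁰ => ClassGroup.mk0 I) _
      (summable_ite (helper1121.summable_ideal_rpow K hs) _)
  set Ntot : ℝ := ∑ D : ClassGroup (𝓞 K),
    ((resSet ψ (𝔪 : Ideal (𝓞 K)) (ψ (Jrep D))).ncard : ℝ) with hNtot
  have hN : ∀ c : G, ∑ C : ClassGroup (𝓞 K),
      ((resSet ψ (𝔪 : Ideal (𝓞 K)) (ψ (Jrep (C * ClassGroup.mk0 (Irep c))))).ncard : ℝ) =
        Ntot := by
    intro c
    exact Fintype.sum_equiv (Equiv.mulRight (ClassGroup.mk0 (Irep c))) _ _ (fun C => rfl)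
  have hmain : ∀ (c : G) (s : ℝ), 1 < s → s ≤ 2 →
      |rayZ ψ (𝔪 : Ideal (𝓞 K)) c s - Ntot * (Ideal.absNorm (𝔪 : Ideal (𝓞 K)) : ℝ) ^ (-s) *
        helper3886.partialZeta K 1 s| ≤ ∑ C, B c C := by
    intro c s hs1 hs2
    rw [hray c s hs1, ← hN c, Finset.sum_mul, Finset.sum_mul, ← Finset.sum_sub_distrib]
    exact (Finset.abs_sum_le_sum_abs _ _).trans
      (Finset.sum_le_sum (fun C _ => hB c C s hs1 hs2))
  have hle : ∀ c₀ : G, ∑ C, B c₀ C ≤ ∑ c : G, ∑ C, B c C := fun c₀ =>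
    Finset.single_le_sum (f := fun c => ∑ C, B c C)
      (fun c _ => Finset.sum_nonneg (fun C _ => hB0 c C)) (Finset.mem_univ c₀)
  refine ⟨2 * ∑ c : G, ∑ C, B c C, fun s hs1 hs2 c c' => ?_⟩
  have h1 := hmain c s hs1 hs2
  have h2 := hmain c' s hs1 hs2
  have h3 := abs_sub_le (rayZ ψ (𝔪 : Ideal (𝓞 K)) c s)
    (Ntot * (Ideal.absNorm (𝔪 : Ideal (𝓞 K)) : ℝ) ^ (-s) * helper3886.partialZeta K 1 s)
    (rayZ ψ (𝔪 : Ideal (𝓞 K)) c' s)
  rw [abs_sub_comm (Ntot * (Ideal.absNorm (𝔪 : Ideal (𝓞 K)) : ℝ) ^ (-s) *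
    helper3886.partialZeta K 1 s) (rayZ ψ (𝔪 : Ideal (𝓞 K)) c' s)] at h3
  linarith [hle c, hle c']

end Main

end Fermat.Agent.S55.helper865
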