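/-
S55 / NF-2ND-ANALYTIC (helper865), parts 2 and 3: the analytic second inequality.

`K ⊆ L` number fields, `𝔪` a nonzero ideal of `K`, `ψ` a homomorphism from the nonzero ideals of
`K` to a finite abelian group `G` which is trivial on the principal ideals `(α)`, `α ≡ 1 mod 𝔪`,
onto on the ideals prime to `𝔪`, and trivial on the primes `v ∤ 𝔪` having a prime of `L` of
degree one above them.  Then `|G| ≤ [L : K]`.

Part 2 is the real "group determinant" sieve of `S14/helper1094_Weber` for an arbitrary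
homomorphism on ideals, started at the primes dividing the modulus; part 3 compares the primes
of degree one of `L` with the primes of `K` below them.
-/
import Mathlib
import Fermat.Agent.S55.helper865_RayZeta
import Fermat.Agent.S14.helper1094_Weber
import Fermat.Agent.S14.helper2850_PrimeSums

set_option autoImplicit false

namespace Fermat.Agent.S55.helper865

open Matrix NumberField IsDedekindDomain Filter Topology
open scoped nonZeroDivisors
open Fermat.Agent.S14
open Fermat.Agent.Lib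

section Sieve

variable {K : Type*} [Field K] [NumberField K]
variable {A : Type*} [AddCommGroup A] (κ : (Ideal (𝓞 K))⁰ →* Multiplicative A)

/-- the class of a nonzero ideal, written additively. -/
def clsA (I : (Ideal (𝓞 K))⁰) : A := Multiplicative.toAdd (κ I)

omit [NumberField K] in
theorem clsA_one : clsA κ 1 = 0 := by simp [clsA]

omit [NumberField K] in
theorem clsA_mul (I J : (Ideal (𝓞 K))⁰) : clsA κ (I * J) = clsA κ I + clsA κ J := by
  simp [clsA]

open Classical in
/-- zeta sum over the nonzero ideals prime to `Q` whose class is `j`. -/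
noncomputable def zM (s : ℝ) (Q : Finset (HeightOneSpectrum (𝓞 K))) (j : A) : ℝ :=
  ∑' I : (Ideal (𝓞 K))⁰, if clsA κ I = j ∧ helper1094.cop Q I then helper1094.wt s I else 0

/-- the sieve identity: removing the multiples of one more prime. -/
theorem zM_insert [DecidableEq (HeightOneSpectrum (𝓞 K))] {s : ℝ}
    (hsum : Summable (helper1094.wt (K := K) s))
    (Q : Finset (HeightOneSpectrum (𝓞 K))) (v : HeightOneSpectrum (𝓞 K)) (hv : v ∉ Q) (j : A) :
    zM κ s (insert v Q) j =
      zM κ s Q j - helper1094.wt s (helper1094.pr v) * zM κ s Q (j - clsA κ (helper1094.pr v)) := by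
  classical
  set f : (Ideal (𝓞 K))⁰ → ℝ :=
    fun I => if clsA κ I = j ∧ helper1094.cop Q I then helper1094.wt s I else 0 with hf
  set g : (Ideal (𝓞 K))⁰ → ℝ :=
    fun I => if clsA κ I = j ∧ helper1094.cop (insert v Q) I then helper1094.wt s I else 0 with hg
  set h : (Ideal (𝓞 K))⁰ → ℝ :=
    fun I => if v.asIdeal ∣ (I : Ideal (𝓞 K)) ∧ (clsA κ I = j ∧ helper1094.cop Q I)
      then helper1094.wt s I else 0 with hh
  set f' : (Ideal (𝓞 K))⁰ → ℝ :=
    fun I => if clsA κ I = j - clsA κ (helper1094.pr v) ∧ helper1094.cop Q I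
      then helper1094.wt s I else 0 with hf'
  have hfgh : ∀ I, f I = g I + h I := by
    intro I
    simp only [hf, hg, hh, helper1094.cop_insert]
    by_cases h1 : v.asIdeal ∣ (I : Ideal (𝓞 K)) <;> simp [h1]
  have hg_sum : Summable g := helper1094.summable_ite_wt hsum _
  have hh_sum : Summable h := helper1094.summable_ite_wt hsum _
  have hmul : ∀ I, h (helper1094.pr v * I) = helper1094.wt s (helper1094.pr v) * f' I := by
    intro I
    have hd : v.asIdeal ∣ ((helper1094.pr v * I : (Ideal (𝓞 K))⁰) : Ideal (𝓞 K)) := by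
      simp only [Submonoid.coe_mul]; exact Dvd.intro _ rfl
    have hiff : (clsA κ (helper1094.pr v) + clsA κ I = j) ↔
        (clsA κ I = j - clsA κ (helper1094.pr v)) := by
      rw [eq_sub_iff_add_eq, add_comm]
    simp only [hh, hf', hd, true_and, clsA_mul, helper1094.cop_pr_mul Q v hv, helper1094.wt_mul,
      hiff]
    split_ifs <;> simp
  have hinj : Function.Injective (fun I : (Ideal (𝓞 K))⁰ => helper1094.pr v * I) := by
    intro I J hIJ
    have h1 : ((helper1094.pr v * I : (Ideal (𝓞 K))⁰) : Ideal (𝓞 K)) =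
        ((helper1094.pr v * J : (Ideal (𝓞 K))⁰) : Ideal (𝓞 K)) :=
      congrArg Subtype.val hIJ
    simp only [Submonoid.coe_mul] at h1
    exact Subtype.ext (mul_left_cancel₀ (nonZeroDivisors.coe_ne_zero (helper1094.pr v)) h1)
  have hsupp : Function.support h ⊆
      Set.range (fun I : (Ideal (𝓞 K))⁰ => helper1094.pr v * I) := by
    intro I hI
    have hd : v.asIdeal ∣ (I : Ideal (𝓞 K)) := by
      by_contra hd
      simp [hh, hd] at hI
    obtain ⟨J, hJ⟩ := hd
    have hJ0 : J ≠ 0 := by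
      rintro rfl
      exact (nonZeroDivisors.coe_ne_zero I) (by simpa using hJ)
    exact ⟨⟨J, mem_nonZeroDivisors_iff_ne_zero.mpr hJ0⟩, Subtype.ext hJ.symm⟩
  have h1 : ∑' I, h I = helper1094.wt s (helper1094.pr v) * ∑' I, f' I := by
    rw [← hinj.tsum_eq hsupp, ← tsum_mul_left]
    exact tsum_congr hmul
  show ∑' I, g I = ∑' I, f I - helper1094.wt s (helper1094.pr v) * ∑' I, f' I
  rw [← h1, tsum_congr hfgh, hg_sum.tsum_add hh_sum]
  ring

/-- removing all primes leaves only the unit ideal. -/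
theorem zM_tendsto [DecidableEq A] {s : ℝ} (hsum : Summable (helper1094.wt (K := K) s)) (j : A) :
    Tendsto (fun Q : Finset (HeightOneSpectrum (𝓞 K)) => zM κ s Q j) atTop
      (𝓝 (if j = 0 then 1 else 0)) := by
  classical
  have key : Tendsto (fun Q : Finset (HeightOneSpectrum (𝓞 K)) => zM κ s Q j) atTop
      (𝓝 (∑' I : (Ideal (𝓞 K))⁰, if I = 1 then (if j = 0 then (1 : ℝ) else 0) else 0)) := by
    unfold zM
    refine tendsto_tsum_of_dominated_convergence hsum (fun I => ?_)
      (Eventually.of_forall fun Q I => ?_)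
    · by_cases hI : I = 1
      · subst hI
        simp only [clsA_one, helper1094.cop_one, and_true, helper1094.wt_one, if_true]
        have : ((0 : A) = j) = (j = 0) := propext eq_comm
        simp only [this]
        exact tendsto_const_nhds
      · obtain ⟨v, hv⟩ := helper1094.exists_prime_dvd I hI
        simp only [hI, if_false]
        refine tendsto_const_nhds.congr' ?_
        filter_upwards [eventually_ge_atTop {v}] with Q hQ
        have : ¬ helper1094.cop Q I := fun h => h v (hQ (Finset.mem_singleton_self v)) hv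
        simp [this]
    · rw [Real.norm_eq_abs]
      split_ifs
      · rw [abs_of_nonneg (helper1094.wt_nonneg s I)]
      · simp [helper1094.wt_nonneg s I]
  rw [tsum_ite_eq] at key
  exact key

open Classical in
/-- the weight of a prime outside `Q₀` of trivial class. -/
noncomputable def indM (s : ℝ) (Q₀ : Finset (HeightOneSpectrum (𝓞 K)))
    (v : HeightOneSpectrum (𝓞 K)) : ℝ :=
  if v ∉ Q₀ ∧ clsA κ (helper1094.pr v) = 0 then helper1094.wt s (helper1094.pr v) else 0

theorem indM_nonneg (s : ℝ) (Q₀ : Finset (HeightOneSpectrum (𝓞 K)))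
    (v : HeightOneSpectrum (𝓞 K)) : 0 ≤ indM κ s Q₀ v := by
  unfold indM
  split_ifs
  · exact helper1094.wt_nonneg s _
  · exact le_rfl

theorem summable_indM {s : ℝ} (hsum : Summable (helper1094.wt (K := K) s))
    (Q₀ : Finset (HeightOneSpectrum (𝓞 K))) : Summable (indM κ s Q₀) := by
  refine Summable.of_nonneg_of_le (fun v => indM_nonneg κ s Q₀ v) (fun v => ?_)
    (hsum.comp_injective helper1094.pr_injective)
  unfold indM
  simp only [Function.comp]
  split_ifs
  · exact le_rfl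
  · exact helper1094.wt_nonneg s _

theorem zM_nonneg (s : ℝ) (Q : Finset (HeightOneSpectrum (𝓞 K))) (j : A) : 0 ≤ zM κ s Q j := by
  unfold zM
  refine tsum_nonneg fun I => ?_
  split_ifs
  · exact helper1094.wt_nonneg s I
  · exact le_rfl

section MatrixPart

variable [Fintype A] [DecidableEq A]

theorem circulant_zM_insert [DecidableEq (HeightOneSpectrum (𝓞 K))] {s : ℝ}
    (hsum : Summable (helper1094.wt (K := K) s))
    (Q : Finset (HeightOneSpectrum (𝓞 K))) (v : HeightOneSpectrum (𝓞 K)) (hv : v ∉ Q) :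
    circulant (zM κ s (insert v Q)) =
      circulant (zM κ s Q) * circulant (helper1094.locFac (clsA κ (helper1094.pr v))
        (helper1094.wt s (helper1094.pr v))) := by
  rw [circulant_mul, helper1094.circulant_mulVec_locFac]
  congr 1
  funext j
  exact zM_insert κ hsum Q v hv j

open Classical in
/-- the local factor of the group determinant at `v` (trivial at the primes of `Q₀`). -/
noncomputable def locM (s : ℝ) (Q₀ : Finset (HeightOneSpectrum (𝓞 K)))
    (v : HeightOneSpectrum (𝓞 K)) : ℝ :=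
  if v ∈ Q₀ then 1 else (circulant (helper1094.locFac (clsA κ (helper1094.pr v))
    (helper1094.wt s (helper1094.pr v)))).det

theorem det_zM [DecidableEq (HeightOneSpectrum (𝓞 K))] {s : ℝ}
    (hsum : Summable (helper1094.wt (K := K) s))
    (Q₀ Q : Finset (HeightOneSpectrum (𝓞 K))) :
    (circulant (zM κ s (Q₀ ∪ Q))).det =
      (circulant (zM κ s Q₀)).det * ∏ v ∈ Q, locM κ s Q₀ v := by
  induction Q using Finset.induction_on with
  | empty => simp
  | insert v Q hv ih =>
    rw [Finset.prod_insert hv]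
    by_cases hv₀ : v ∈ Q₀
    · have h1 : Q₀ ∪ insert v Q = Q₀ ∪ Q := by
        rw [Finset.union_insert, Finset.insert_eq_of_mem (Finset.mem_union_left _ hv₀)]
      rw [h1, ih, locM, if_pos hv₀, one_mul]
    · have h1 : v ∉ Q₀ ∪ Q := by simp [hv₀, hv]
      rw [Finset.union_insert, circulant_zM_insert κ hsum _ v h1, det_mul, ih, locM,
        if_neg hv₀]
      ring

theorem prod_locM_le {s : ℝ} (hs : 0 < s) (Q₀ Q : Finset (HeightOneSpectrum (𝓞 K))) :
    0 < ∏ v ∈ Q, locM κ s Q₀ v ∧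
    ∏ v ∈ Q, locM κ s Q₀ v ≤
      Real.exp (-((Fintype.card A : ℝ) * ∑ v ∈ Q, indM κ s Q₀ v)) := by
  have h0 : ∀ v : HeightOneSpectrum (𝓞 K), 0 ≤ helper1094.wt s (helper1094.pr v) :=
    fun v => helper1094.wt_nonneg s _
  have h1 : ∀ v : HeightOneSpectrum (𝓞 K), helper1094.wt s (helper1094.pr v) < 1 :=
    fun v => helper1094.wt_pr_lt_one hs v
  have hpos : ∀ v, 0 < locM κ s Q₀ v := by
    intro v
    unfold locM
    split_ifs
    · exact one_pos
    · exact helper1094.det_locFac_pos _ (h0 v) (h1 v)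
  refine ⟨Finset.prod_pos fun v _ => hpos v, ?_⟩
  rw [Finset.mul_sum, ← Finset.sum_neg_distrib, Real.exp_sum]
  refine Finset.prod_le_prod (fun v _ => (hpos v).le) (fun v _ => ?_)
  unfold locM indM
  by_cases hv₀ : v ∈ Q₀
  · rw [if_pos hv₀, if_neg (fun h => h.1 hv₀)]
    simp
  · rw [if_neg hv₀]
    by_cases hc : clsA κ (helper1094.pr v) = 0
    · rw [if_pos ⟨hv₀, hc⟩, hc, helper1094.det_locFac_zero]
      have h3 : 1 - helper1094.wt s (helper1094.pr v) ≤
          Real.exp (-helper1094.wt s (helper1094.pr v)) := Real.one_sub_le_exp_neg _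
      have h4 : (1 - helper1094.wt s (helper1094.pr v)) ^ Fintype.card A ≤
          Real.exp (-helper1094.wt s (helper1094.pr v)) ^ Fintype.card A :=
        pow_le_pow_left₀ (by linarith [h1 v]) h3 _
      refine h4.trans (le_of_eq ?_)
      rw [← Real.exp_nat_mul]
      congr 1
      ring
    · rw [if_neg (fun h => hc h.2)]
      simpa using helper1094.det_locFac_le_one _ (h0 v) (h1 v)

/-- the key lower bound for the group determinant. -/
theorem exp_le_det_zM {s : ℝ} (hs : 0 < s) (hsum : Summable (helper1094.wt (K := K) s))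
    (Q₀ : Finset (HeightOneSpectrum (𝓞 K))) :
    Real.exp ((Fintype.card A : ℝ) * ∑' v : HeightOneSpectrum (𝓞 K), indM κ s Q₀ v)
      ≤ (circulant (zM κ s Q₀)).det := by
  classical
  set a : Finset (HeightOneSpectrum (𝓞 K)) → ℝ :=
    fun Q => (circulant (zM κ s (Q₀ ∪ Q))).det with ha_def
  have hunion : Tendsto (fun Q : Finset (HeightOneSpectrum (𝓞 K)) => Q₀ ∪ Q) atTop atTop :=
    tendsto_atTop_mono (fun Q => Finset.subset_union_right) tendsto_id
  have ha : Tendsto a atTop (𝓝 1) := by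
    have hz : Tendsto (fun Q : Finset (HeightOneSpectrum (𝓞 K)) => zM κ s Q) atTop
        (𝓝 (helper1094.locFac (0 : A) 0)) := by
      refine tendsto_pi_nhds.mpr (fun j => ?_)
      have := zM_tendsto κ hsum j
      simpa [helper1094.locFac] using this
    have hc : Continuous (fun x : A → ℝ => (circulant x).det) :=
      Continuous.matrix_det (continuous_matrix fun i j => continuous_apply (i - j))
    have h1 := ((hc.tendsto (helper1094.locFac (0 : A) 0)).comp hz).comp hunion
    rw [helper1094.det_locFac_zero] at h1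
    have h2 : ((1 : ℝ) - 0) ^ Fintype.card A = 1 := by simp
    rw [h2] at h1
    exact h1
  have hP : Summable (indM κ s Q₀) := summable_indM κ hsum Q₀
  have hS : Tendsto (fun Q : Finset (HeightOneSpectrum (𝓞 K)) => ∑ v ∈ Q, indM κ s Q₀ v) atTop
      (𝓝 (∑' v, indM κ s Q₀ v)) := hP.hasSum
  have hprod := prod_locM_le κ hs Q₀
  have hdet := det_zM κ hsum Q₀
  obtain ⟨Q₁, hQ₁⟩ : ∃ Q, 0 < a Q := (ha.eventually (lt_mem_nhds zero_lt_one)).exists
  have ha0 : 0 < (circulant (zM κ s Q₀)).det := by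
    have h1 := hdet Q₁
    have h2 := (hprod Q₁).1
    have h3 : 0 < (circulant (zM κ s Q₀)).det * ∏ v ∈ Q₁, locM κ s Q₀ v := by
      rw [← h1]; exact hQ₁
    exact (pos_iff_pos_of_mul_pos h3).mpr h2
  have hle : ∀ Q, a Q ≤ (circulant (zM κ s Q₀)).det *
      Real.exp (-((Fintype.card A : ℝ) * ∑ v ∈ Q, indM κ s Q₀ v)) := by
    intro Q
    simp only [ha_def]
    rw [hdet Q]
    exact mul_le_mul_of_nonneg_left (hprod Q).2 ha0.le
  have hlim : Tendsto (fun Q : Finset (HeightOneSpectrum (𝓞 K)) =>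
      (circulant (zM κ s Q₀)).det *
        Real.exp (-((Fintype.card A : ℝ) * ∑ v ∈ Q, indM κ s Q₀ v))) atTop
      (𝓝 ((circulant (zM κ s Q₀)).det *
        Real.exp (-((Fintype.card A : ℝ) * ∑' v, indM κ s Q₀ v)))) := by
    have hcont : Continuous (fun x : ℝ => (circulant (zM κ s Q₀)).det *
        Real.exp (-((Fintype.card A : ℝ) * x))) := by
      fun_prop
    exact (hcont.tendsto _).comp hS
  have h1 : 1 ≤ (circulant (zM κ s Q₀)).det *
      Real.exp (-((Fintype.card A : ℝ) * ∑' v, indM κ s Q₀ v)) :=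
    le_of_tendsto_of_tendsto' ha hlim hle
  rw [Real.exp_neg] at h1
  have h2 := Real.exp_pos ((Fintype.card A : ℝ) * ∑' v, indM κ s Q₀ v)
  rw [← div_eq_mul_inv, le_div_iff₀ h2, one_mul] at h1
  exact h1

end MatrixPart

theorem sum_zM_le [Fintype A] {s : ℝ} (hsum : Summable (helper1094.wt (K := K) s))
    (Q₀ : Finset (HeightOneSpectrum (𝓞 K))) :
    ∑ j : A, zM κ s Q₀ j ≤ ∑' I : (Ideal (𝓞 K))⁰, helper1094.wt s I := by
  classical
  unfold zM
  rw [← Summable.tsum_finsetSum (fun j _ => helper1094.summable_ite_wt hsum _)]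
  refine Summable.tsum_le_tsum (fun I => ?_)
    (summable_sum (fun j _ => helper1094.summable_ite_wt hsum _)) hsum
  by_cases h : helper1094.cop Q₀ I
  · simp [h]
  · simp [h, helper1094.wt_nonneg]

/-- **Weber bound with a modulus.**  If the zeta sums over the ideals prime to `Q₀` of the
classes of `κ` have bounded differences on `(1, 2]`, then the primes outside `Q₀` of trivial
class satisfy `|A| * ∑ N v ^ (-s) ≤ log (1/(s-1)) + B`. -/
theorem exists_weber_mod [Finite A] (Q₀ : Finset (HeightOneSpectrum (𝓞 K)))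
    (hdiff : ∃ M : ℝ, ∀ s : ℝ, 1 < s → s ≤ 2 → ∀ j j' : A,
      |zM κ s Q₀ j - zM κ s Q₀ j'| ≤ M) :
    ∃ B : ℝ, ∀ s : ℝ, 1 < s → s ≤ 2 →
      (Nat.card A : ℝ) * ∑' v : HeightOneSpectrum (𝓞 K), indM κ s Q₀ v ≤
        Real.log (1 / (s - 1)) + B := by
  classical
  have : Fintype A := Fintype.ofFinite A
  obtain ⟨M, hM⟩ := hdiff
  obtain ⟨C, hC⟩ := helper1121.exists_zeta_upper K
  set D : ℝ := ((Fintype.card A).factorial : ℝ) * (max 1 M) ^ Fintype.card A with hD
  have hD_pos : 0 < D := by positivity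
  set C' : ℝ := max C 1 with hC'
  refine ⟨Real.log (C' * D), fun s hs1 hs2 => ?_⟩
  have hs0 : 0 < s := by linarith
  have hw : Summable (helper1094.wt (K := K) s) := helper1121.summable_ideal_rpow K hs1
  have h1 := exp_le_det_zM κ hs0 hw Q₀
  have h2 := helper1094.abs_det_circulant_le (zM κ s Q₀) M (hM s hs1 hs2)
  have hs1' : 0 < s - 1 := by linarith
  have h3 : ∑ j : A, zM κ s Q₀ j ≤ C' / (s - 1) := by
    refine (sum_zM_le κ hw Q₀).trans ?_
    rw [le_div_iff₀ hs1', mul_comm]
    exact (hC s hs1 hs2).trans (le_max_left _ _)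
  have h3' : 0 ≤ ∑ j : A, zM κ s Q₀ j := Finset.sum_nonneg fun j _ => zM_nonneg κ s Q₀ j
  have h4 : Real.exp ((Fintype.card A : ℝ) * ∑' v, indM κ s Q₀ v) ≤ C' / (s - 1) * D := by
    calc _ ≤ (circulant (zM κ s Q₀)).det := h1
      _ ≤ |(circulant (zM κ s Q₀)).det| := le_abs_self _
      _ ≤ |∑ j, zM κ s Q₀ j| * D := h2
      _ = (∑ j, zM κ s Q₀ j) * D := by rw [abs_of_nonneg h3']
      _ ≤ C' / (s - 1) * D := mul_le_mul_of_nonneg_right h3 hD_pos.le
  rw [Nat.card_eq_fintype_card]
  have hC'pos : 0 < C' := lt_of_lt_of_le one_pos (le_max_right _ _)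
  have h6 := Real.log_le_log (Real.exp_pos _) h4
  rw [Real.log_exp] at h6
  have h7 : Real.log (C' / (s - 1) * D) = Real.log (1 / (s - 1)) + Real.log (C' * D) := by
    rw [← Real.log_mul (by positivity) (by positivity)]
    congr 1
    field_simp
  linarith


end Sieve

section Bridge

variable {K : Type*} [Field K] [NumberField K] {G : Type*} [CommGroup G]

/-- `ψ` as a homomorphism to an additively written group. -/
def kap (ψ : (Ideal (𝓞 K))⁰ →* G) : (Ideal (𝓞 K))⁰ →* Multiplicative (Additive G) where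
  toFun I := Multiplicative.ofAdd (Additive.ofMul (ψ I))
  map_one' := by simp
  map_mul' I J := by simp

omit [NumberField K] in
theorem clsA_kap (ψ : (Ideal (𝓞 K))⁰ →* G) (I : (Ideal (𝓞 K))⁰) :
    clsA (kap ψ) I = Additive.ofMul (ψ I) := rfl

theorem isCoprime_iff_forall_not_dvd {𝔪 : Ideal (𝓞 K)} (h𝔪 : 𝔪 ≠ ⊥) (I : Ideal (𝓞 K)) :
    IsCoprime I 𝔪 ↔ ∀ v : HeightOneSpectrum (𝓞 K), v.asIdeal ∣ 𝔪 → ¬ v.asIdeal ∣ I := by
  constructor
  · intro h v hv hI
    have h1 : I ⊔ 𝔪 = ⊤ := Ideal.isCoprime_iff_sup_eq.mp h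
    have h2 : I ⊔ 𝔪 ≤ v.asIdeal := sup_le (Ideal.dvd_iff_le.mp hI) (Ideal.dvd_iff_le.mp hv)
    rw [h1] at h2
    exact v.isPrime.ne_top (top_le_iff.mp h2)
  · intro h
    by_contra hcon
    have h1 : I ⊔ 𝔪 ≠ ⊤ := fun h' => hcon (Ideal.isCoprime_iff_sup_eq.mpr h')
    obtain ⟨M, hM, hle⟩ := Ideal.exists_le_maximal _ h1
    have hM0 : M ≠ ⊥ := by
      rintro rfl
      exact h𝔪 (le_bot_iff.mp (le_sup_right.trans hle))
    exact h ⟨M, hM.isPrime, hM0⟩ (Ideal.dvd_iff_le.mpr (le_sup_right.trans hle))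
      (Ideal.dvd_iff_le.mpr (le_sup_left.trans hle))

/-- the primes dividing a nonzero ideal. -/
noncomputable def primesDvd (𝔪 : Ideal (𝓞 K)) (h𝔪 : 𝔪 ≠ ⊥) :
    Finset (HeightOneSpectrum (𝓞 K)) :=
  (Ideal.finite_factors h𝔪).toFinset

theorem mem_primesDvd {𝔪 : Ideal (𝓞 K)} (h𝔪 : 𝔪 ≠ ⊥) (v : HeightOneSpectrum (𝓞 K)) :
    v ∈ primesDvd 𝔪 h𝔪 ↔ v.asIdeal ∣ 𝔪 := by
  simp [primesDvd]

/-- the fibre sums of part 1 are the sieve sums started at the primes dividing `𝔪`. -/
theorem rayZ_eq_zM (ψ : (Ideal (𝓞 K))⁰ →* G) (𝔪 : Ideal (𝓞 K)) (h𝔪 : 𝔪 ≠ ⊥) (c : G) (s : ℝ) :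
    rayZ ψ 𝔪 c s = zM (kap ψ) s (primesDvd 𝔪 h𝔪) (Additive.ofMul c) := by
  unfold rayZ zM
  refine tsum_congr (fun I => ?_)
  have hiff : (IsCoprime (I : Ideal (𝓞 K)) 𝔪 ∧ ψ I = c) ↔
      (clsA (kap ψ) I = Additive.ofMul c ∧ helper1094.cop (primesDvd 𝔪 h𝔪) I) := by
    rw [clsA_kap, isCoprime_iff_forall_not_dvd h𝔪]
    constructor
    · rintro ⟨h1, h2⟩
      exact ⟨by rw [h2], fun v hv => h1 v ((mem_primesDvd h𝔪 v).mp hv)⟩
    · rintro ⟨h1, h2⟩
      exact ⟨fun v hv => h2 v ((mem_primesDvd h𝔪 v).mpr hv), Additive.ofMul.injective h1⟩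
  by_cases h : IsCoprime (I : Ideal (𝓞 K)) 𝔪 ∧ ψ I = c
  · rw [if_pos h, if_pos (hiff.mp h)]
    rfl
  · rw [if_neg h, if_neg (fun h' => h (hiff.mpr h'))]

end Bridge

section DegOne

variable (K L : Type) [Field K] [NumberField K] [Field L] [NumberField L] [Algebra K L]

/-- the primes of `K` below a prime of `L` of degree one. -/
def degOneBelow : Set (HeightOneSpectrum (𝓞 K)) :=
  {v | ∃ w : HeightOneSpectrum (𝓞 L),
    w.asIdeal.under (𝓞 K) = v.asIdeal ∧ (Ideal.absNorm w.asIdeal).Prime}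

variable {K L} in
theorem absNorm_eq_of_under {w : HeightOneSpectrum (𝓞 L)} {v : HeightOneSpectrum (𝓞 K)}
    (h : w.asIdeal.under (𝓞 K) = v.asIdeal) (hp : (Ideal.absNorm w.asIdeal).Prime) :
    Ideal.absNorm v.asIdeal = Ideal.absNorm w.asIdeal := by
  have hle : v.asIdeal ≤ w.asIdeal.comap (algebraMap (𝓞 K) (𝓞 L)) := h.ge
  have hf : Function.Injective (Ideal.quotientMap w.asIdeal (algebraMap (𝓞 K) (𝓞 L)) hle) :=
    Ideal.quotientMap_injective' h.le
  have hdvd : Nat.card (𝓞 K ⧸ v.asIdeal) ∣ Nat.card (𝓞 L ⧸ w.asIdeal) :=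
    AddSubgroup.card_dvd_of_injective
      (Ideal.quotientMap w.asIdeal (algebraMap (𝓞 K) (𝓞 L)) hle).toAddMonoidHom hf
  have h1 : Ideal.absNorm v.asIdeal ∣ Ideal.absNorm w.asIdeal := by
    rw [Ideal.absNorm_apply, Ideal.absNorm_apply, Submodule.cardQuot_apply,
      Submodule.cardQuot_apply]
    exact hdvd
  have h2 : Ideal.absNorm v.asIdeal ≠ 1 := by
    rw [Ne, Ideal.absNorm_eq_one_iff]; exact v.isPrime.ne_top
  exact ((Nat.dvd_prime hp).mp h1).resolve_left h2

/-- a prime of `K` has at most `[L : K]` primes of `L` above it. -/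
theorem card_fiber_le (v : HeightOneSpectrum (𝓞 K)) (u : Finset (HeightOneSpectrum (𝓞 L)))
    (hu : ∀ w ∈ u, w.asIdeal.under (𝓞 K) = v.asIdeal) : u.card ≤ Module.finrank K L := by
  classical
  have hmax := v.isMaximal
  have hsum := Ideal.sum_ramification_inertia_eq_finrank v.asIdeal (𝓞 L)
  rw [← IsFractionRing.finrank_eq (𝓞 K) K (𝓞 L) L] at hsum
  let g : {w // w ∈ u} → v.asIdeal.primesOver (𝓞 L) :=
    fun w => ⟨w.1.asIdeal, w.1.isPrime, ⟨(hu w.1 w.2).symm⟩⟩
  have hg : Function.Injective g := by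
    intro a b hab
    exact Subtype.ext (HeightOneSpectrum.ext (congrArg Subtype.val hab))
  have h1 : u.card ≤ Fintype.card (v.asIdeal.primesOver (𝓞 L)) := by
    have := Fintype.card_le_of_injective g hg
    simpa using this
  have h2 : Fintype.card (v.asIdeal.primesOver (𝓞 L)) ≤ Module.finrank K L := by
    rw [← hsum, Fintype.card_eq_sum_ones]
    refine Finset.sum_le_sum (fun q _ => ?_)
    have := q.2.1
    exact Nat.one_le_iff_ne_zero.mpr (mul_ne_zero (Ideal.ramificationIdx_pos q.1 (𝓞 K)).ne'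
      (Ideal.inertiaDeg_pos q.1 (𝓞 K)).ne')
  exact h1.trans h2

/-- **Degree-one primes.**  The primes of `K` below a prime of `L` of degree one have "density
at least `1/[L:K]`": `log (1/(s-1)) - B ≤ [L:K] * ∑ N v ^ (-s)`. -/
theorem exists_degOne_lower :
    ∃ B : ℝ, ∀ s : ℝ, 1 < s → s < 2 →
      Real.log (1 / (s - 1)) - B ≤ (Module.finrank K L : ℝ) *
        NumberField.Set.primeIdealZetaSum (degOneBelow K L) s := by
  classical
  obtain ⟨hsumL, B₁, hB₁⟩ := helper2850.stmt_PrimeZeta L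
  obtain ⟨B₂, hB₂⟩ := helper2850.stmt_NonDegOne L
  refine ⟨B₁ + B₂, fun s hs1 hs2 => ?_⟩
  set fL : HeightOneSpectrum (𝓞 L) → ℝ := fun w => (Ideal.absNorm w.asIdeal : ℝ) ^ (-s) with hfL
  set fK : HeightOneSpectrum (𝓞 K) → ℝ := fun v => (Ideal.absNorm v.asIdeal : ℝ) ^ (-s) with hfK
  set SL : Set (HeightOneSpectrum (𝓞 L)) := {w | (Ideal.absNorm w.asIdeal).Prime} with hSL
  have hsplit := (hsumL s hs1).tsum_subtype_add_tsum_subtype_compl SL
  have h1 : Real.log (1 / (s - 1)) - B₁ ≤ ∑' w, fL w := hB₁ s hs1 hs2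
  have h2 : ∑' x : ↑SLᶜ, fL x ≤ B₂ := hB₂ s hs1 hs2
  have h3 : ∑' x : ↑SL, fL x ≤
      (Module.finrank K L : ℝ) * ∑' v : ↑(degOneBelow K L), fK v := by
    refine Real.tsum_le_of_sum_le (fun _ => Real.rpow_nonneg (Nat.cast_nonneg _) _) (fun u => ?_)
    let below : ↑SL → ↑(degOneBelow K L) := fun w => ⟨w.1.under (𝓞 K), w.1, rfl, w.2⟩
    have hfb : ∀ w : ↑SL, fL w.1 = fK (below w).1 := by
      intro w
      simp only [hfL, hfK]
      rw [absNorm_eq_of_under (w := w.1) (v := (below w).1) rfl w.2]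
    have hsummK : Summable (fun v : ↑(degOneBelow K L) => fK v) :=
      (helper2850.summable_primes K hs1).subtype _
    calc ∑ w ∈ u, fL w.1 = ∑ w ∈ u, fK (below w).1 := Finset.sum_congr rfl (fun w _ => hfb w)
      _ = ∑ b ∈ u.image below, (u.filter (fun a => below a = b)).card • fK b.1 :=
          Finset.sum_comp (fun b : ↑(degOneBelow K L) => fK b.1) below
      _ ≤ ∑ b ∈ u.image below, (Module.finrank K L : ℝ) * fK b.1 := by
          refine Finset.sum_le_sum (fun b _ => ?_)
          rw [nsmul_eq_mul]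
          refine mul_le_mul_of_nonneg_right ?_ (Real.rpow_nonneg (Nat.cast_nonneg _) _)
          have hcard : (u.filter (fun a => below a = b)).card ≤ Module.finrank K L := by
            have := card_fiber_le K L b.1
              ((u.filter (fun a => below a = b)).image (fun a => a.1)) ?_
            · rwa [Finset.card_image_of_injective _ Subtype.val_injective] at this
            · intro w hw
              obtain ⟨a, ha, rfl⟩ := Finset.mem_image.mp hw
              have h' := congrArg (fun x : ↑(degOneBelow K L) => x.1.asIdeal)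
                (Finset.mem_filter.mp ha).2
              exact h'
          exact_mod_cast hcard
      _ = (Module.finrank K L : ℝ) * ∑ b ∈ u.image below, fK b.1 := by rw [Finset.mul_sum]
      _ ≤ (Module.finrank K L : ℝ) * ∑' v : ↑(degOneBelow K L), fK v := by
          refine mul_le_mul_of_nonneg_left ?_ (Nat.cast_nonneg _)
          exact hsummK.sum_le_tsum _ (fun _ _ => Real.rpow_nonneg (Nat.cast_nonneg _) _)
  rw [NumberField.Set.primeIdealZetaSum_def]
  linarith

end DegOne

section Final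

variable (K L : Type) [Field K] [NumberField K] [Field L] [NumberField L] [Algebra K L]

/-- **The analytic second inequality.**  `ψ` a homomorphism from the nonzero ideals of `K` to a
finite abelian group `G`, trivial on the principal ideals generated by the `α ≡ 1 mod 𝔪`, onto on
the ideals prime to `𝔪`, and trivial on every prime `v ∤ 𝔪` which has a prime of `L` of degree one
above it.  Then `|G| ≤ [L : K]`. -/
theorem card_le_finrank (𝔪 : Ideal (𝓞 K)) (h𝔪 : 𝔪 ≠ ⊥) {G : Type*} [CommGroup G] [Finite G]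
    (ψ : (Ideal (𝓞 K))⁰ →* G)
    (hprin : ∀ (α : 𝓞 K) (hα : α ≠ 0), α - 1 ∈ 𝔪 → ψ (spanNZ α hα) = 1)
    (hsurj : ∀ g : G, ∃ I : (Ideal (𝓞 K))⁰, IsCoprime (I : Ideal (𝓞 K)) 𝔪 ∧ ψ I = g)
    (hsplit : ∀ (v : HeightOneSpectrum (𝓞 K)) (w : HeightOneSpectrum (𝓞 L)),
      ¬ v.asIdeal ∣ 𝔪 → w.asIdeal.under (𝓞 K) = v.asIdeal → (Ideal.absNorm w.asIdeal).Prime →
      ψ (helper1094.pr v) = 1) :
    Nat.card G ≤ Module.finrank K L := by
  classical
  by_contra hcon'
  have hcon : Module.finrank K L < Nat.card G := not_le.mp hcon'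
  obtain ⟨M, hM⟩ := exists_rayZ_diff_bound (⟨𝔪, mem_nonZeroDivisors_of_ne_zero h𝔪⟩ :
    (Ideal (𝓞 K))⁰) ψ hprin hsurj
  set Q₀ := primesDvd 𝔪 h𝔪 with hQ₀
  have hdiff : ∃ M : ℝ, ∀ s : ℝ, 1 < s → s ≤ 2 → ∀ j j' : Additive G,
      |zM (kap ψ) s Q₀ j - zM (kap ψ) s Q₀ j'| ≤ M := by
    refine ⟨M, fun s hs1 hs2 j j' => ?_⟩
    have := hM s hs1 hs2 (Additive.toMul j) (Additive.toMul j')
    rw [rayZ_eq_zM ψ 𝔪 h𝔪, rayZ_eq_zM ψ 𝔪 h𝔪] at this
    exact this
  obtain ⟨B, hB⟩ := exists_weber_mod (kap ψ) Q₀ hdiff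
  obtain ⟨B', hB'⟩ := exists_degOne_lower K L
  set n : ℝ := (Module.finrank K L : ℝ) with hn
  set g : ℝ := (Nat.card G : ℝ) with hg
  have hgn : n + 1 ≤ g := by
    rw [hn, hg]
    exact_mod_cast hcon
  have hn0 : 0 ≤ n := Nat.cast_nonneg _
  have hg0 : 0 ≤ g := Nat.cast_nonneg _
  have hq0 : (0 : ℝ) ≤ Q₀.card := Nat.cast_nonneg _
  have key : ∀ s : ℝ, 1 < s → s < 2 →
      Real.log (1 / (s - 1)) ≤ g * B' + g * n * Q₀.card + n * B := by
    intro s hs1 hs2
    have hs0 : 0 < s := by linarith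
    have hw : Summable (helper1094.wt (K := K) s) := helper1121.summable_ideal_rpow K hs1
    have h1 : g * ∑' v, indM (kap ψ) s Q₀ v ≤ Real.log (1 / (s - 1)) + B := hB s hs1 hs2.le
    have h2 := hB' s hs1 hs2
    have hI := summable_indM (kap ψ) hw Q₀
    have h3 : NumberField.Set.primeIdealZetaSum (degOneBelow K L) s ≤
        (Q₀.card : ℝ) + ∑' v, indM (kap ψ) s Q₀ v := by
      rw [NumberField.Set.primeIdealZetaSum_def,
        tsum_subtype (degOneBelow K L) (fun v => (Ideal.absNorm v.asIdeal : ℝ) ^ (-s))]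
      have hfin : ∑' v : HeightOneSpectrum (𝓞 K), (if v ∈ Q₀ then (1 : ℝ) else 0) = Q₀.card := by
        rw [tsum_eq_sum (s := Q₀) (fun v hv => if_neg hv)]
        simp
      have hsfin : Summable (fun v : HeightOneSpectrum (𝓞 K) => if v ∈ Q₀ then (1 : ℝ) else 0) :=
        summable_of_ne_finset_zero (s := Q₀) (fun v hv => if_neg hv)
      rw [← hfin, ← Summable.tsum_add hsfin hI]
      refine Summable.tsum_le_tsum (fun v => ?_)
        ((helper2850.summable_primes K hs1).indicator _) (hsfin.add hI)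
      have hi0 := indM_nonneg (kap ψ) s Q₀ v
      by_cases hv : v ∈ degOneBelow K L
      · rw [Set.indicator_of_mem hv]
        by_cases hvQ : v ∈ Q₀
        · rw [if_pos hvQ]
          have hle1 : (Ideal.absNorm v.asIdeal : ℝ) ^ (-s) ≤ 1 :=
            (helper1094.wt_pr_lt_one hs0 v).le
          linarith
        · rw [if_neg hvQ, zero_add]
          obtain ⟨w, hw1, hw2⟩ := hv
          have hψ : ψ (helper1094.pr v) = 1 :=
            hsplit v w (fun hd => hvQ ((mem_primesDvd h𝔪 v).mpr hd)) hw1 hw2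
          have hind : indM (kap ψ) s Q₀ v = helper1094.wt s (helper1094.pr v) := by
            unfold indM
            rw [if_pos ⟨hvQ, by rw [clsA_kap, hψ]; rfl⟩]
          rw [hind]
          exact le_rfl
      · rw [Set.indicator_of_notMem hv]
        split_ifs <;> linarith
    have hlog0 : 0 ≤ Real.log (1 / (s - 1)) := by
      apply Real.log_nonneg
      rw [le_div_iff₀ (by linarith)]
      linarith
    have h4 : n * NumberField.Set.primeIdealZetaSum (degOneBelow K L) s ≤
        n * ((Q₀.card : ℝ) + ∑' v, indM (kap ψ) s Q₀ v) := mul_le_mul_of_nonneg_left h3 hn0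
    have h5 : g * (Real.log (1 / (s - 1)) - B') ≤
        g * (n * ((Q₀.card : ℝ) + ∑' v, indM (kap ψ) s Q₀ v)) :=
      mul_le_mul_of_nonneg_left (h2.trans h4) hg0
    have h6 : n * (g * ∑' v, indM (kap ψ) s Q₀ v) ≤ n * (Real.log (1 / (s - 1)) + B) :=
      mul_le_mul_of_nonneg_left h1 hn0
    have h7 : Real.log (1 / (s - 1)) ≤ (g - n) * Real.log (1 / (s - 1)) := by
      have : (1 : ℝ) * Real.log (1 / (s - 1)) ≤ (g - n) * Real.log (1 / (s - 1)) :=
        mul_le_mul_of_nonneg_right (by linarith) hlog0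
      linarith
    nlinarith [h5, h6, h7]
  set C₀ : ℝ := g * B' + g * n * Q₀.card + n * B with hC₀
  have hexp : Real.exp (-(|C₀| + 1)) < 1 := by
    calc Real.exp (-(|C₀| + 1)) < Real.exp 0 :=
          Real.exp_lt_exp.mpr (by linarith [abs_nonneg C₀])
      _ = 1 := Real.exp_zero
  have hkey := key (1 + Real.exp (-(|C₀| + 1))) (by linarith [Real.exp_pos (-(|C₀| + 1))])
    (by linarith)
  have hlog : Real.log (1 / (1 + Real.exp (-(|C₀| + 1)) - 1)) = |C₀| + 1 := by
    rw [add_sub_cancel_left, one_div, ← Real.exp_neg, neg_neg, Real.log_exp]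
  rw [hlog] at hkey
  linarith [le_abs_self C₀]

end Final

end Fermat.Agent.S55.helper865
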