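/-
S55 / helper1168 : local-field kit for finite extensions `K` of `ℚ_l` inside `PadicAlgCl l`
(Mathlib only).  Integers `OO K` (complete DVR, finite residue field), uniformizer and discrete
value group with the fundamental equality `q_K ^ e = l ^ [K:ℚ_l]` (`exists_unif`), reduction to
the residue field of `PadicAlgCl l`, isometric Galois action, injectivity of reduction on roots
of unity of order prime to `l`, first-order estimate for `Q`-th powers, Frobenius exponent
(`exists_frob_exponent`) and finitely many residue classes (`exists_finset_reps`).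
-/
import Mathlib
open scoped NNReal NormedField
open Polynomial
set_option linter.style.haveILetI false
noncomputable section
namespace Fermat.Agent.S55.helper1168

variable {l : ℕ} [Fact l.Prime]

theorem isIntegral_iff_norm_le_one (x : PadicAlgCl l) : IsIntegral ℤ_[l] x ↔ ‖x‖ ≤ 1 := by
  have hx : IsIntegral ℚ_[l] x := Algebra.IsIntegral.isIntegral x
  rw [← PadicAlgCl.spectralNorm_eq, spectralNorm, spectralValue_le_one_iff (minpoly.monic hx)]
  constructor
  · intro h n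
    rw [minpoly.isIntegrallyClosed_eq_field_fractions' ℚ_[l] h, coeff_map]
    exact PadicInt.norm_le_one _
  · intro h
    have hl : minpoly ℚ_[l] x ∈ Polynomial.lifts (algebraMap ℤ_[l] ℚ_[l]) := by
      rw [Polynomial.lifts_iff_coeff_lifts]
      intro n
      exact ⟨⟨_, h n⟩, rfl⟩
    obtain ⟨P, hP, -, hPm⟩ := Polynomial.lifts_and_degree_eq_and_monic hl (minpoly.monic hx)
    refine ⟨P, hPm, ?_⟩
    have := minpoly.aeval ℚ_[l] x
    rw [← hP] at this
    rw [← this, aeval_def, eval₂_map]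
    rfl

variable (K : IntermediateField ℚ_[l] (PadicAlgCl l))

/-- the valuation ring of `K` -/
abbrev OO : Subring K := Valued.integer K

instance rankOneK : Valuation.RankOne (Valued.v : Valuation K ℝ≥0) :=
  inferInstanceAs (Valuation.RankOne (NormedField.valuation (K := K)))

theorem mem_OO_iff {x : K} : x ∈ OO K ↔ ‖(x : PadicAlgCl l)‖ ≤ 1 := by
  rw [Valued.integer.mem_iff]; rfl

instance towerZlK : IsScalarTower ℤ_[l] K (PadicAlgCl l) :=
  IsScalarTower.of_algebraMap_eq (fun _ => rfl)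

theorem mem_integralClosure_iff_norm (x : K) :
    x ∈ integralClosure ℤ_[l] K ↔ ‖(x : PadicAlgCl l)‖ ≤ 1 := by
  rw [mem_integralClosure_iff, ← isIntegral_iff_norm_le_one]
  exact (isIntegral_algebraMap_iff (algebraMap K (PadicAlgCl l)).injective).symm

theorem integralClosure_toSubring : (integralClosure ℤ_[l] K).toSubring = OO K := by
  ext x
  rw [Subalgebra.mem_toSubring, mem_integralClosure_iff_norm, mem_OO_iff]

section fin
variable [FiniteDimensional ℚ_[l] K]

instance properSpaceK : ProperSpace K := FiniteDimensional.proper ℚ_[l] K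

instance compactOO : CompactSpace (OO K) := by
  have h : ((OO K : Subring K) : Set K) = Metric.closedBall 0 1 := by
    ext x
    simp only [SetLike.mem_coe, Metric.mem_closedBall, dist_zero_right]
    exact Valued.integer.mem_iff
  have h2 : IsCompact ((OO K : Subring K) : Set K) := by
    rw [h]; exact isCompact_closedBall 0 1
  exact isCompact_iff_compactSpace.mp h2

theorem pkg : CompleteSpace (OO K) ∧ IsDiscreteValuationRing (OO K) ∧
    Finite (IsLocalRing.ResidueField (OO K)) :=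
  Valued.integer.compactSpace_iff_completeSpace_and_isDiscreteValuationRing_and_finite_residueField.mp
    (compactOO K)

instance dvrOO : IsDiscreteValuationRing (OO K) := (pkg K).2.1
instance finiteResidue : Finite (IsLocalRing.ResidueField (OO K)) := (pkg K).2.2

instance torsionFreeZlK : Module.IsTorsionFree ℤ_[l] K :=
  Module.IsTorsionFree.trans_faithfulSMul ℤ_[l] ℚ_[l] K

set_option synthInstance.maxHeartbeats 400000 in
attribute [local instance] Ideal.Quotient.field in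
theorem card_intClosure_quot :
    Nat.card ((integralClosure ℤ_[l] K) ⧸
      Ideal.map (algebraMap ℤ_[l] (integralClosure ℤ_[l] K)) (IsLocalRing.maximalIdeal ℤ_[l]))
      = l ^ Module.finrank ℚ_[l] K := by
  have hfree : Module.Free ℤ_[l] (integralClosure ℤ_[l] K) :=
    IsIntegralClosure.module_free ℤ_[l] ℚ_[l] K (integralClosure ℤ_[l] K)
  have hfin : Module.Finite ℤ_[l] (integralClosure ℤ_[l] K) :=
    IsIntegralClosure.finite ℤ_[l] ℚ_[l] K (integralClosure ℤ_[l] K)
  have hrank : Module.finrank ℤ_[l] (integralClosure ℤ_[l] K) = Module.finrank ℚ_[l] K :=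
    IsIntegralClosure.rank ℤ_[l] ℚ_[l] K (integralClosure ℤ_[l] K)
  have h1 := IsLocalRing.finrank_quotient_map (R := ℤ_[l]) (S := integralClosure ℤ_[l] K)
  have hc : Nat.card (ℤ_[l] ⧸ IsLocalRing.maximalIdeal ℤ_[l]) = l := by
    show Nat.card (IsLocalRing.ResidueField ℤ_[l]) = l
    rw [Nat.card_congr (PadicInt.residueField (p := l)).toEquiv, Nat.card_zmod]
  have : Module.Finite (ℤ_[l] ⧸ IsLocalRing.maximalIdeal ℤ_[l])
      ((integralClosure ℤ_[l] K) ⧸
      Ideal.map (algebraMap ℤ_[l] (integralClosure ℤ_[l] K)) (IsLocalRing.maximalIdeal ℤ_[l])) :=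
    Module.Finite.of_restrictScalars_finite ℤ_[l] _ _
  have h2 : Nat.card ((integralClosure ℤ_[l] K) ⧸
      Ideal.map (algebraMap ℤ_[l] (integralClosure ℤ_[l] K)) (IsLocalRing.maximalIdeal ℤ_[l]))
      = Nat.card (ℤ_[l] ⧸ IsLocalRing.maximalIdeal ℤ_[l]) ^
        Module.finrank (ℤ_[l] ⧸ IsLocalRing.maximalIdeal ℤ_[l]) ((integralClosure ℤ_[l] K) ⧸
      Ideal.map (algebraMap ℤ_[l] (integralClosure ℤ_[l] K)) (IsLocalRing.maximalIdeal ℤ_[l])) :=
    Module.natCard_eq_pow_finrank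
  rw [h2, h1, hrank, hc]

theorem card_OO_quot_l :
    Nat.card (OO K ⧸ Ideal.span {(l : OO K)}) = l ^ Module.finrank ℚ_[l] K := by
  rw [← card_intClosure_quot K]
  let e : (integralClosure ℤ_[l] K) ≃+* OO K :=
    RingEquiv.subringCongr (integralClosure_toSubring K)
  have hmap : Ideal.map (algebraMap ℤ_[l] (integralClosure ℤ_[l] K))
      (IsLocalRing.maximalIdeal ℤ_[l]) = Ideal.span {(l : integralClosure ℤ_[l] K)} := by
    rw [PadicInt.maximalIdeal_eq_span_p, Ideal.map_span, Set.image_singleton, map_natCast]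
  rw [hmap]
  refine Nat.card_congr (Ideal.quotientEquiv _ _ e ?_).symm.toEquiv
  rw [Ideal.map_span, Set.image_singleton]
  congr 2

theorem norm_l : ‖((l : ℕ) : PadicAlgCl l)‖ = (l : ℝ)⁻¹ := by
  rw [← map_natCast (algebraMap ℚ_[l] (PadicAlgCl l)), PadicAlgCl.norm_extends, Padic.norm_p]

/-- Uniformizer package in norm language, with the fundamental equality `q ^ e = l ^ n`. -/
theorem exists_unif :
    ∃ (ϖ : K) (e : ℕ), 0 < e ∧ ϖ ≠ 0 ∧ ‖(ϖ : PadicAlgCl l)‖ < 1 ∧
      (∀ x : K, x ≠ 0 → ∃ k : ℤ, ‖(x : PadicAlgCl l)‖ = ‖(ϖ : PadicAlgCl l)‖ ^ k) ∧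
      ‖(ϖ : PadicAlgCl l)‖ ^ e = (l : ℝ)⁻¹ ∧
      Nat.card (IsLocalRing.ResidueField (OO K)) ^ e = l ^ Module.finrank ℚ_[l] K := by
  obtain ⟨ϖ, hϖ⟩ := IsDiscreteValuationRing.exists_irreducible (OO K)
  have hl0 : (l : OO K) ≠ 0 := by
    intro h
    have := congrArg (fun x : OO K => ((x : K) : PadicAlgCl l)) h
    simp at this
    exact (Fact.out : l.Prime).ne_zero (by exact_mod_cast this)
  obtain ⟨e, u, hu⟩ := IsDiscreteValuationRing.eq_unit_mul_pow_irreducible hl0 hϖ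
  have hϖ1 : ‖((ϖ : K) : PadicAlgCl l)‖ < 1 := Valued.integer.norm_irreducible_lt_one hϖ
  have hϖ0 : 0 < ‖((ϖ : K) : PadicAlgCl l)‖ := Valued.integer.norm_irreducible_pos hϖ
  have hunit : ∀ v : (OO K)ˣ, ‖(((v : OO K) : K) : PadicAlgCl l)‖ = 1 :=
    fun v => Valued.integer.norm_coe_unit v
  have hnorm : ‖((ϖ : K) : PadicAlgCl l)‖ ^ e = (l : ℝ)⁻¹ := by
    have := congrArg (fun x : OO K => ‖((x : K) : PadicAlgCl l)‖) hu
    simp only [Subring.coe_mul, Subring.coe_pow, IntermediateField.coe_mul,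
      IntermediateField.coe_pow, norm_mul, norm_pow, hunit, one_mul] at this
    rw [← this]
    simpa using norm_l (l := l)
  have he : 0 < e := by
    rcases Nat.eq_zero_or_pos e with h | h
    · rw [h, pow_zero] at hnorm
      have : (1 : ℝ) < l := by exact_mod_cast (Fact.out : l.Prime).one_lt
      have h2 : (l : ℝ)⁻¹ < 1 := inv_lt_one_of_one_lt₀ this
      linarith
    · exact h
  refine ⟨ϖ, e, he, ?_, hϖ1, ?_, hnorm, ?_⟩
  · intro h
    rw [h] at hϖ0
    simp at hϖ0
  · intro x hx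
    have key : ∀ y : K, y ≠ 0 → ‖(y : PadicAlgCl l)‖ ≤ 1 →
        ∃ k : ℕ, ‖(y : PadicAlgCl l)‖ = ‖((ϖ : K) : PadicAlgCl l)‖ ^ k := by
      intro y hy hy1
      have hy' : (⟨y, (mem_OO_iff K).mpr hy1⟩ : OO K) ≠ 0 := by
        intro h; exact hy (congrArg Subtype.val h)
      obtain ⟨k, v, hv⟩ := IsDiscreteValuationRing.eq_unit_mul_pow_irreducible hy' hϖ
      refine ⟨k, ?_⟩
      have := congrArg (fun x : OO K => ‖((x : K) : PadicAlgCl l)‖) hv
      simpa only [Subring.coe_mul, Subring.coe_pow, IntermediateField.coe_mul,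
        IntermediateField.coe_pow, norm_mul, norm_pow, hunit, one_mul] using this
    rcases le_or_gt ‖(x : PadicAlgCl l)‖ 1 with h | h
    · obtain ⟨k, hk⟩ := key x hx h
      exact ⟨k, by rw [hk, zpow_natCast]⟩
    · have hx' : x⁻¹ ≠ 0 := inv_ne_zero hx
      have : ‖((x⁻¹ : K) : PadicAlgCl l)‖ ≤ 1 := by
        rw [IntermediateField.coe_inv, norm_inv]
        exact inv_le_one_of_one_le₀ h.le
      obtain ⟨k, hk⟩ := key x⁻¹ hx' this
      refine ⟨-k, ?_⟩
      rw [IntermediateField.coe_inv, norm_inv] at hk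
      rw [zpow_neg, zpow_natCast, ← hk, inv_inv]
  · rw [← card_OO_quot_l K]
    have h1 : Ideal.span {(l : OO K)} = IsLocalRing.maximalIdeal (OO K) ^ e := by
      rw [hϖ.maximalIdeal_eq, Ideal.span_singleton_pow, hu,
        Ideal.span_singleton_mul_left_unit u.isUnit]
    rw [h1]
    have h2 := cardQuot_pow_of_prime (P := IsLocalRing.maximalIdeal (OO K))
      (IsDiscreteValuationRing.not_a_field (OO K)) (i := e)
    rw [Submodule.cardQuot_apply, Submodule.cardQuot_apply] at h2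
    rw [h2]
    rfl

end fin


/-! ### The residue field of `PadicAlgCl l` and reduction -/

section reduction

variable (l) in
/-- valuation ring of `PadicAlgCl l` -/
abbrev OΩ : Subring (PadicAlgCl l) := Valued.integer (PadicAlgCl l)

variable (l) in
/-- residue field of `PadicAlgCl l` -/
abbrev κΩ : Type := IsLocalRing.ResidueField (OΩ l)

theorem mem_OΩ_iff {x : PadicAlgCl l} : x ∈ OΩ l ↔ ‖x‖ ≤ 1 := Valued.integer.mem_iff

/-- reduction of an element of norm `≤ 1` -/
def red (x : PadicAlgCl l) (hx : ‖x‖ ≤ 1) : κΩ l :=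
  IsLocalRing.residue (OΩ l) ⟨x, mem_OΩ_iff.mpr hx⟩

theorem mem_maximalIdeal_OΩ_iff (x : OΩ l) :
    x ∈ IsLocalRing.maximalIdeal (OΩ l) ↔ ‖(x : PadicAlgCl l)‖ < 1 := by
  rw [IsLocalRing.mem_maximalIdeal, mem_nonunits_iff, Valued.integer.isUnit_iff_norm_eq_one]
  have h1 : ‖(x : PadicAlgCl l)‖ ≤ 1 := mem_OΩ_iff.mp x.2
  constructor
  · intro h; exact lt_of_le_of_ne h1 h
  · intro h; exact ne_of_lt h

theorem red_eq_red_iff {x y : PadicAlgCl l} (hx : ‖x‖ ≤ 1) (hy : ‖y‖ ≤ 1) :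
    red x hx = red y hy ↔ ‖x - y‖ < 1 := by
  unfold red
  rw [← sub_eq_zero, ← map_sub, IsLocalRing.residue_eq_zero_iff, mem_maximalIdeal_OΩ_iff]
  rfl

theorem red_eq_zero_iff {x : PadicAlgCl l} (hx : ‖x‖ ≤ 1) :
    red x hx = 0 ↔ ‖x‖ < 1 := by
  unfold red
  rw [IsLocalRing.residue_eq_zero_iff, mem_maximalIdeal_OΩ_iff]

theorem red_surj (c : κΩ l) : ∃ (x : PadicAlgCl l) (hx : ‖x‖ ≤ 1), red x hx = c := by
  obtain ⟨x, rfl⟩ := IsLocalRing.residue_surjective c
  exact ⟨x.1, mem_OΩ_iff.mp x.2, rfl⟩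

theorem red_mul {x y : PadicAlgCl l} (hx : ‖x‖ ≤ 1) (hy : ‖y‖ ≤ 1) :
    red (x * y) (by rw [norm_mul]; exact mul_le_one₀ hx (norm_nonneg _) hy) = red x hx * red y hy := by
  unfold red
  rw [← map_mul]
  rfl

theorem red_add {x y : PadicAlgCl l} (hx : ‖x‖ ≤ 1) (hy : ‖y‖ ≤ 1) :
    red (x + y) ((IsUltrametricDist.norm_add_le_max x y).trans (max_le hx hy)) =
      red x hx + red y hy := by
  unfold red
  rw [← map_add]
  rfl

theorem red_pow {x : PadicAlgCl l} (hx : ‖x‖ ≤ 1) (n : ℕ) :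
    red (x ^ n) (by rw [norm_pow]; exact pow_le_one₀ (norm_nonneg _) hx) = red x hx ^ n := by
  unfold red
  rw [← map_pow]
  rfl

theorem red_one : red (1 : PadicAlgCl l) (by simp) = 1 := by
  unfold red
  exact map_one _

end reduction

/-! ### Galois action on the residue field, roots of unity -/

section galois

theorem norm_galois (τ : PadicAlgCl l ≃ₐ[ℚ_[l]] PadicAlgCl l) (x : PadicAlgCl l) :
    ‖τ x‖ = ‖x‖ :=
  (spectralNorm_eq_of_equiv τ x).symm

/-- the restriction of a Galois automorphism to the valuation ring -/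
def galO (τ : PadicAlgCl l ≃ₐ[ℚ_[l]] PadicAlgCl l) : OΩ l →+* OΩ l :=
  (τ : PadicAlgCl l →+* PadicAlgCl l).restrict (OΩ l) (OΩ l)
    (fun x hx => mem_OΩ_iff.mpr (by
      have : ‖τ x‖ = ‖x‖ := norm_galois τ x
      exact this.le.trans (mem_OΩ_iff.mp hx)))

instance (τ : PadicAlgCl l ≃ₐ[ℚ_[l]] PadicAlgCl l) : IsLocalHom (galO τ) where
  map_nonunit a ha := by
    rw [Valued.integer.isUnit_iff_norm_eq_one] at ha ⊢
    have h : ‖τ (a : PadicAlgCl l)‖ = ‖(a : PadicAlgCl l)‖ := norm_galois τ a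
    exact h.symm.trans ha

/-- the action of a Galois automorphism on the residue field -/
def galRed (τ : PadicAlgCl l ≃ₐ[ℚ_[l]] PadicAlgCl l) : κΩ l →+* κΩ l :=
  IsLocalRing.ResidueField.map (galO τ)

theorem galRed_red (τ : PadicAlgCl l ≃ₐ[ℚ_[l]] PadicAlgCl l) {x : PadicAlgCl l} (hx : ‖x‖ ≤ 1) :
    galRed τ (red x hx) = red (τ x) ((norm_galois τ x).le.trans hx) := by
  unfold galRed red
  rw [IsLocalRing.ResidueField.map_residue]
  rfl

theorem norm_natCast_eq_one {N : ℕ} (hN : ¬ l ∣ N) : ‖(N : PadicAlgCl l)‖ = 1 := by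
  rw [← map_natCast (algebraMap ℚ_[l] (PadicAlgCl l)), PadicAlgCl.norm_extends,
    Padic.norm_natCast_eq_one_iff]
  exact (Nat.Prime.coprime_iff_not_dvd (Fact.out : l.Prime)).mpr hN

theorem norm_pow_sub_one_le {η : PadicAlgCl l} (hη : ‖η‖ ≤ 1) (i : ℕ) :
    ‖η ^ i - 1‖ ≤ ‖η - 1‖ := by
  induction i with
  | zero => simp
  | succ i ih =>
    have : η ^ (i + 1) - 1 = η * (η ^ i - 1) + (η - 1) := by ring
    rw [this]
    refine (IsUltrametricDist.norm_add_le_max _ _).trans (max_le ?_ le_rfl)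
    rw [norm_mul]
    calc ‖η‖ * ‖η ^ i - 1‖ ≤ 1 * ‖η ^ i - 1‖ := by gcongr
      _ = ‖η ^ i - 1‖ := one_mul _
      _ ≤ _ := ih

/-- A root of unity of order prime to `l` that is congruent to `1` is `1`. -/
theorem eq_one_of_pow_eq_one_of_norm_sub_lt {N : ℕ} (hN : ¬ l ∣ N) {η : PadicAlgCl l}
    (h1 : η ^ N = 1) (h2 : ‖η - 1‖ < 1) : η = 1 := by
  by_contra hne
  have hN0 : N ≠ 0 := fun h => hN (h ▸ dvd_zero l)
  have hη : ‖η‖ = 1 := by
    have : ‖η‖ ^ N = 1 := by rw [← norm_pow, h1, norm_one]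
    exact (pow_eq_one_iff_of_nonneg (norm_nonneg _) hN0).mp this
  have hsum : ∑ i ∈ Finset.range N, η ^ i = 0 := by
    have := mul_geom_sum η N
    rw [h1, sub_self] at this
    rcases mul_eq_zero.mp this with h | h
    · exact absurd (sub_eq_zero.mp h) hne
    · exact h
  have hN' : (N : PadicAlgCl l) = - ∑ i ∈ Finset.range N, (η ^ i - 1) := by
    rw [Finset.sum_sub_distrib, hsum]; simp
  have hlt : ‖∑ i ∈ Finset.range N, (η ^ i - 1)‖ < 1 := by
    refine lt_of_le_of_lt ?_ h2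
    apply IsUltrametricDist.norm_sum_le_of_forall_le_of_nonneg (norm_nonneg _)
    intro i _
    exact norm_pow_sub_one_le hη.le i
  have := norm_natCast_eq_one (l := l) hN
  rw [hN', norm_neg] at this
  linarith

theorem eq_of_pow_eq_one_of_norm_sub_lt {N : ℕ} (hN : ¬ l ∣ N) {ξ ξ' : PadicAlgCl l}
    (h1 : ξ ^ N = 1) (h1' : ξ' ^ N = 1) (h2 : ‖ξ - ξ'‖ < 1) : ξ = ξ' := by
  have hN0 : N ≠ 0 := fun h => hN (h ▸ dvd_zero l)
  have hξ' : ‖ξ'‖ = 1 := by
    have : ‖ξ'‖ ^ N = 1 := by rw [← norm_pow, h1', norm_one]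
    exact (pow_eq_one_iff_of_nonneg (norm_nonneg _) hN0).mp this
  have hξ'0 : ξ' ≠ 0 := by
    intro h; rw [h, norm_zero] at hξ'; exact zero_ne_one hξ'
  have h3 : (ξ / ξ') ^ N = 1 := by rw [div_pow, h1, h1', div_one]
  have h4 : ‖ξ / ξ' - 1‖ < 1 := by
    have : ξ / ξ' - 1 = (ξ - ξ') / ξ' := by field_simp
    rw [this, norm_div, hξ', div_one]
    exact h2
  have := eq_one_of_pow_eq_one_of_norm_sub_lt hN h3 h4
  exact (div_eq_one_iff_eq hξ'0).mp this

end galois

/-! ### Instantiation of `helper7604.UnramSetting` -/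

section power

/-- `‖a ^ i - b ^ i‖ ≤ ‖a - b‖` on the unit ball. -/
theorem norm_pow_sub_pow_le_sub {a b : PadicAlgCl l} (ha : ‖a‖ ≤ 1) (hb : ‖b‖ ≤ 1) (i : ℕ) :
    ‖a ^ i - b ^ i‖ ≤ ‖a - b‖ := by
  induction i with
  | zero => simp
  | succ i ih =>
    have : a ^ (i + 1) - b ^ (i + 1) = a * (a ^ i - b ^ i) + (a - b) * b ^ i := by ring
    rw [this]
    refine (IsUltrametricDist.norm_add_le_max _ _).trans (max_le ?_ ?_)
    · rw [norm_mul]
      calc ‖a‖ * ‖a ^ i - b ^ i‖ ≤ 1 * ‖a ^ i - b ^ i‖ := by gcongr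
        _ = ‖a ^ i - b ^ i‖ := one_mul _
        _ ≤ _ := ih
    · rw [norm_mul, norm_pow]
      calc ‖a - b‖ * ‖b‖ ^ i ≤ ‖a - b‖ * 1 := by
            gcongr
            exact pow_le_one₀ (norm_nonneg _) hb
        _ = ‖a - b‖ := mul_one _

/-- First order estimate for `Q`-th powers: `‖a^Q - b^Q‖ ≤ ‖a - b‖ * max ‖Q‖ ‖a - b‖`. -/
theorem norm_pow_sub_pow_le {a b : PadicAlgCl l} (ha : ‖a‖ ≤ 1) (hb : ‖b‖ ≤ 1) (Q : ℕ) :
    ‖a ^ Q - b ^ Q‖ ≤ ‖a - b‖ * max ‖(Q : PadicAlgCl l)‖ ‖a - b‖ := by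
  have h1 : a ^ Q - b ^ Q = (∑ i ∈ Finset.range Q, a ^ i * b ^ (Q - 1 - i)) * (a - b) :=
    (Commute.all a b).geom_sum₂_mul Q |>.symm
  have h2 : ∑ i ∈ Finset.range Q, a ^ i * b ^ (Q - 1 - i) =
      ∑ i ∈ Finset.range Q, (a ^ i - b ^ i) * b ^ (Q - 1 - i) + (Q : PadicAlgCl l) * b ^ (Q - 1) := by
    have h3 : ∀ i ∈ Finset.range Q, a ^ i * b ^ (Q - 1 - i) =
        (a ^ i - b ^ i) * b ^ (Q - 1 - i) + b ^ (Q - 1) := by
      intro i hi
      have hi' : i + (Q - 1 - i) = Q - 1 := by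
        have := Finset.mem_range.mp hi
        omega
      rw [sub_mul, ← pow_add, hi']
      ring
    rw [Finset.sum_congr rfl h3, Finset.sum_add_distrib, Finset.sum_const, Finset.card_range,
      nsmul_eq_mul]
  rw [h1, norm_mul, mul_comm]
  gcongr
  rw [h2]
  refine (IsUltrametricDist.norm_add_le_max _ _).trans ?_
  have hb' : ∀ n : ℕ, ‖b ^ n‖ ≤ 1 := fun n => by
    rw [norm_pow]; exact pow_le_one₀ (norm_nonneg _) hb
  apply max_le
  · refine le_trans ?_ (le_max_right _ _)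
    apply IsUltrametricDist.norm_sum_le_of_forall_le_of_nonneg (norm_nonneg _)
    intro i _
    rw [norm_mul]
    calc ‖a ^ i - b ^ i‖ * ‖b ^ (Q - 1 - i)‖ ≤ ‖a - b‖ * 1 := by
          gcongr
          · exact norm_pow_sub_pow_le_sub ha hb i
          · exact hb' _
      _ = ‖a - b‖ := mul_one _
  · refine le_trans ?_ (le_max_left _ _)
    rw [norm_mul]
    calc ‖(Q : PadicAlgCl l)‖ * ‖b ^ (Q - 1)‖ ≤ ‖(Q : PadicAlgCl l)‖ * 1 := by
          gcongr
          exact hb' _
      _ = _ := mul_one _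

end power

section residueK

variable (K : IntermediateField ℚ_[l] (PadicAlgCl l))

variable [FiniteDimensional ℚ_[l] K]

theorem mem_maximalIdeal_OO_iff (x : OO K) :
    x ∈ IsLocalRing.maximalIdeal (OO K) ↔ ‖((x : K) : PadicAlgCl l)‖ < 1 := by
  rw [IsLocalRing.mem_maximalIdeal, mem_nonunits_iff, Valued.integer.isUnit_iff_norm_eq_one]
  have h1 : ‖((x : K) : PadicAlgCl l)‖ ≤ 1 := (mem_OO_iff K).mp x.2
  constructor
  · intro h; exact lt_of_le_of_ne h1 h
  · intro h; exact ne_of_lt h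

/-- Frobenius exponent: there is `Q` with `‖Q‖ < 1` and `x ^ Q ≡ x` on the unit ball of `K`. -/
theorem exists_frob_exponent :
    ∃ Q : ℕ, ‖(Q : PadicAlgCl l)‖ < 1 ∧
      ∀ x : K, ‖(x : PadicAlgCl l)‖ ≤ 1 → ‖(x : PadicAlgCl l) ^ Q - x‖ < 1 := by
  classical
  letI : Fintype (IsLocalRing.ResidueField (OO K)) := Fintype.ofFinite _
  refine ⟨Fintype.card (IsLocalRing.ResidueField (OO K)), ?_, ?_⟩
  · have h0 : IsLocalRing.residue (OO K) ((Fintype.card (IsLocalRing.ResidueField (OO K)) : ℕ) : OO K)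
        = 0 := by
      rw [map_natCast]
      exact Nat.cast_card_eq_zero _
    rw [IsLocalRing.residue_eq_zero_iff, mem_maximalIdeal_OO_iff] at h0
    simpa using h0
  · intro x hx
    let x' : OO K := ⟨x, (mem_OO_iff K).mpr hx⟩
    have h0 : IsLocalRing.residue (OO K)
        (x' ^ Fintype.card (IsLocalRing.ResidueField (OO K)) - x') = 0 := by
      rw [map_sub, map_pow, FiniteField.pow_card, sub_self]
    rw [IsLocalRing.residue_eq_zero_iff, mem_maximalIdeal_OO_iff] at h0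
    simpa [x'] using h0

/-- Finitely many residue classes: a finite set of representatives of the unit ball of `K`
modulo the open unit ball. -/
theorem exists_finset_reps :
    ∃ T : Finset K, ∀ x : K, ‖(x : PadicAlgCl l)‖ ≤ 1 →
      ∃ t ∈ T, ‖(x : PadicAlgCl l) - t‖ < 1 := by
  classical
  letI : Fintype (IsLocalRing.ResidueField (OO K)) := Fintype.ofFinite _
  have hs : Function.Surjective (IsLocalRing.residue (OO K)) := IsLocalRing.residue_surjective
  choose r hr using hs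
  refine ⟨Finset.univ.image (fun c => ((r c : OO K) : K)), ?_⟩
  intro x hx
  let x' : OO K := ⟨x, (mem_OO_iff K).mpr hx⟩
  refine ⟨((r (IsLocalRing.residue (OO K) x') : OO K) : K),
    Finset.mem_image.mpr ⟨_, Finset.mem_univ _, rfl⟩, ?_⟩
  have h0 : IsLocalRing.residue (OO K) (x' - r (IsLocalRing.residue (OO K) x')) = 0 := by
    rw [map_sub, hr, sub_self]
  rw [IsLocalRing.residue_eq_zero_iff, mem_maximalIdeal_OO_iff] at h0
  simpa [x'] using h0

end residueK

end Fermat.Agent.S55.helper1168
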