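/-
S55 / helper7604 : unramified extensions of complete discretely valued fields with finite
residue field (abstract, Mathlib only).

Setting `UnramSetting K L` : `L/K` finite Galois, `L` a complete ultrametric normed field,
`Gal(L/K)` acts by isometries, discrete value group, finite residue field, trivial inertia.

Main results: a uniformizer of `L` exists in `K`; `Gal(L/K)` is cyclic; every `Gal`-fixed
unit is the norm of a unit (`exists_norm_eq_of_unit`).
-/
import Mathlib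

set_option autoImplicit false
set_option linter.style.haveILetI false

namespace Fermat.Agent.S55.helper7604

open Finset

section Ultra

variable {L : Type*} [NormedField L] [IsUltrametricDist L]

theorem norm_sub_le_max' (x y : L) : ‖x - y‖ ≤ max ‖x‖ ‖y‖ := by
  rw [sub_eq_add_neg]
  have := IsUltrametricDist.norm_add_le_max x (-y)
  rwa [norm_neg] at this

theorem norm_add_eq_of_lt {x y : L} (h : ‖y‖ < ‖x‖) : ‖x + y‖ = ‖x‖ := by
  rw [IsUltrametricDist.norm_add_eq_max_of_norm_ne_norm h.ne']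
  exact max_eq_left h.le

theorem norm_sub_eq_of_lt {x y : L} (h : ‖y‖ < ‖x‖) : ‖x - y‖ = ‖x‖ := by
  rw [sub_eq_add_neg]
  exact norm_add_eq_of_lt (by rwa [norm_neg])

theorem norm_sum_lt_of_forall_lt {ι : Type*} (s : Finset ι) (f : ι → L) {c : ℝ} (hc : 0 < c)
    (h : ∀ i ∈ s, ‖f i‖ < c) : ‖∑ i ∈ s, f i‖ < c := by
  classical
  induction s using Finset.induction_on with
  | empty => simpa using hc
  | insert a s ha ih =>
    rw [Finset.sum_insert ha]
    refine (IsUltrametricDist.norm_add_le_max _ _).trans_lt (max_lt ?_ ?_)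
    · exact h a (Finset.mem_insert_self a s)
    · exact ih (fun i hi => h i (Finset.mem_insert_of_mem hi))

theorem norm_sum_le_of_forall_le' {ι : Type*} (s : Finset ι) (f : ι → L) {c : ℝ} (hc : 0 ≤ c)
    (h : ∀ i ∈ s, ‖f i‖ ≤ c) : ‖∑ i ∈ s, f i‖ ≤ c := by
  classical
  induction s using Finset.induction_on with
  | empty => simpa using hc
  | insert a s ha ih =>
    rw [Finset.sum_insert ha]
    refine (IsUltrametricDist.norm_add_le_max _ _).trans (max_le ?_ ?_)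
    · exact h a (Finset.mem_insert_self a s)
    · exact ih (fun i hi => h i (Finset.mem_insert_of_mem hi))

/-- First-order expansion of a product `∏ (1 + z i)` with small `z i`. -/
theorem norm_prod_one_add_sub_le {ι : Type*} (s : Finset ι) (z : ι → L) {ε : ℝ} (hε0 : 0 ≤ ε)
    (hε1 : ε ≤ 1) (hz : ∀ i ∈ s, ‖z i‖ ≤ ε) :
    ‖∏ i ∈ s, (1 + z i) - 1 - ∑ i ∈ s, z i‖ ≤ ε ^ 2 := by
  classical
  induction s using Finset.induction_on with
  | empty => simpa using sq_nonneg ε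
  | insert a s ha ih =>
    have ih' := ih (fun i hi => hz i (Finset.mem_insert_of_mem hi))
    have hza : ‖z a‖ ≤ ε := hz a (Finset.mem_insert_self a s)
    have hS : ‖∑ i ∈ s, z i‖ ≤ ε :=
      norm_sum_le_of_forall_le' s z hε0 (fun i hi => hz i (Finset.mem_insert_of_mem hi))
    rw [Finset.prod_insert ha, Finset.sum_insert ha]
    have e : (1 + z a) * ∏ i ∈ s, (1 + z i) - 1 - (z a + ∑ i ∈ s, z i)
        = (∏ i ∈ s, (1 + z i) - 1 - ∑ i ∈ s, z i)
          + (z a * ∑ i ∈ s, z i + z a * (∏ i ∈ s, (1 + z i) - 1 - ∑ i ∈ s, z i)) := by ring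
    rw [e]
    refine (IsUltrametricDist.norm_add_le_max _ _).trans (max_le ih' ?_)
    refine (IsUltrametricDist.norm_add_le_max _ _).trans (max_le ?_ ?_)
    · rw [norm_mul, sq]; exact mul_le_mul hza hS (norm_nonneg _) hε0
    · rw [norm_mul]
      calc ‖z a‖ * ‖∏ i ∈ s, (1 + z i) - 1 - ∑ i ∈ s, z i‖ ≤ 1 * ε ^ 2 :=
            mul_le_mul (hza.trans hε1) ih' (norm_nonneg _) zero_le_one
        _ = ε ^ 2 := one_mul _

end Ultra

section Ball

variable (L : Type*) [NormedField L] [IsUltrametricDist L]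

/-- The closed unit ball of an ultrametric normed field, as a subring. -/
def ball : Subring L where
  carrier := {x | ‖x‖ ≤ 1}
  mul_mem' := fun {a b} ha hb => by
    show ‖a * b‖ ≤ 1
    rw [norm_mul]; exact mul_le_one₀ ha (norm_nonneg _) hb
  one_mem' := by show ‖(1 : L)‖ ≤ 1; simp
  add_mem' := fun {a b} ha hb => (IsUltrametricDist.norm_add_le_max a b).trans (max_le ha hb)
  zero_mem' := by show ‖(0 : L)‖ ≤ 1; simp
  neg_mem' := fun {a} ha => by show ‖-a‖ ≤ 1; rw [norm_neg]; exact ha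

variable {L}

theorem mem_ball_iff {x : L} : x ∈ ball L ↔ ‖x‖ ≤ 1 := Iff.rfl

theorem ball_isUnit_iff (x : ball L) : IsUnit x ↔ ‖(x : L)‖ = 1 := by
  constructor
  · rintro ⟨u, rfl⟩
    have h1 : ‖((u : ball L) : L)‖ ≤ 1 := (u : ball L).2
    have h2 : ‖(((u⁻¹ : (ball L)ˣ) : ball L) : L)‖ ≤ 1 := ((u⁻¹ : (ball L)ˣ) : ball L).2
    have h3 : ((u : ball L) : L) * (((u⁻¹ : (ball L)ˣ) : ball L) : L) = 1 := by
      have h := congrArg (fun z : ball L => (z : L)) u.mul_inv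
      exact h
    have h4 : ‖((u : ball L) : L)‖ * ‖(((u⁻¹ : (ball L)ˣ) : ball L) : L)‖ = 1 := by
      rw [← norm_mul, h3, norm_one]
    nlinarith [norm_nonneg ((u : ball L) : L), norm_nonneg ((((u⁻¹ : (ball L)ˣ) : ball L) : L))]
  · intro h
    have hx0 : (x : L) ≠ 0 := by
      intro h0; rw [h0, norm_zero] at h; exact zero_ne_one h
    refine isUnit_iff_exists_inv.2 ⟨⟨(x : L)⁻¹, ?_⟩, ?_⟩
    · show ‖(x : L)⁻¹‖ ≤ 1
      rw [norm_inv, h, inv_one]
    · exact Subtype.ext (mul_inv_cancel₀ hx0)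

instance ball_isLocalRing : IsLocalRing (ball L) := by
  refine IsLocalRing.of_isUnit_or_isUnit_one_sub_self (fun a => ?_)
  by_cases h : ‖(a : L)‖ = 1
  · exact Or.inl ((ball_isUnit_iff a).2 h)
  · right
    rw [ball_isUnit_iff]
    have hlt : ‖(a : L)‖ < 1 := lt_of_le_of_ne a.2 h
    have : ‖(1 : L) - (a : L)‖ = max ‖(1 : L)‖ ‖(a : L)‖ := by
      rw [sub_eq_add_neg]
      have := IsUltrametricDist.norm_add_eq_max_of_norm_ne_norm (x := (1 : L)) (y := -(a : L))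
        (by rw [norm_neg, norm_one]; exact fun h' => h h'.symm)
      rwa [norm_neg] at this
    show ‖(1 : L) - (a : L)‖ = 1
    rw [this, norm_one]; exact max_eq_left hlt.le

theorem mem_maximalIdeal_ball_iff (x : ball L) :
    x ∈ IsLocalRing.maximalIdeal (ball L) ↔ ‖(x : L)‖ < 1 := by
  rw [IsLocalRing.mem_maximalIdeal, mem_nonunits_iff, ball_isUnit_iff]
  exact ⟨fun h => lt_of_le_of_ne x.2 h, fun h => h.ne⟩

theorem residue_ball_eq_iff (x y : ball L) :
    IsLocalRing.residue (ball L) x = IsLocalRing.residue (ball L) y ↔ ‖(x : L) - y‖ < 1 := by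
  rw [← sub_eq_zero, ← map_sub, IsLocalRing.residue_eq_zero_iff, mem_maximalIdeal_ball_iff]
  rfl

theorem residue_ball_eq_zero_iff (x : ball L) :
    IsLocalRing.residue (ball L) x = 0 ↔ ‖(x : L)‖ < 1 := by
  rw [IsLocalRing.residue_eq_zero_iff, mem_maximalIdeal_ball_iff]

end Ball

section Setting

variable (K L : Type*) [Field K] [NormedField L] [IsUltrametricDist L] [Algebra K L]

/-- The unramified local setting: `Gal(L/K)` acts by isometries on the ultrametric normed field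
`L`, the value group is discrete, the residue field is finite and the inertia group is trivial. -/
structure UnramSetting : Prop where
  isom : ∀ (σ : L ≃ₐ[K] L) (x : L), ‖σ x‖ = ‖x‖
  disc : ∃ ϖ : L, 0 < ‖ϖ‖ ∧ ‖ϖ‖ < 1 ∧ ∀ x : L, x ≠ 0 → ∃ m : ℤ, ‖x‖ = ‖ϖ‖ ^ m
  resFinite : ∃ T : Finset L, ∀ x : L, ‖x‖ ≤ 1 → ∃ t ∈ T, ‖x - t‖ < 1
  inertia : ∀ σ : L ≃ₐ[K] L, (∀ x : L, ‖x‖ ≤ 1 → ‖σ x - x‖ < 1) → σ = 1

variable {K L}

/-- The action of the (isometric) Galois group on the unit ball. -/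
@[reducible] def ballAction (hiso : ∀ (σ : L ≃ₐ[K] L) (x : L), ‖σ x‖ = ‖x‖) :
    MulSemiringAction (L ≃ₐ[K] L) (ball L) where
  smul σ x := ⟨σ x.1, by show ‖σ x.1‖ ≤ 1; rw [hiso]; exact x.2⟩
  one_smul x := Subtype.ext rfl
  mul_smul σ τ x := Subtype.ext rfl
  smul_zero σ := Subtype.ext (map_zero σ)
  smul_add σ x y := Subtype.ext (map_add σ _ _)
  smul_one σ := Subtype.ext (map_one σ)
  smul_mul σ x y := Subtype.ext (map_mul σ _ _)

theorem resField_finite (h : UnramSetting K L) :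
    Finite (IsLocalRing.ResidueField (ball L)) := by
  classical
  obtain ⟨T, hT⟩ := h.resFinite
  let f : L → IsLocalRing.ResidueField (ball L) := fun t =>
    if ht : ‖t‖ ≤ 1 then IsLocalRing.residue (ball L) ⟨t, ht⟩ else 0
  have hsurj : Set.univ ⊆ f '' (T : Set L) := by
    intro z _
    obtain ⟨x, rfl⟩ := IsLocalRing.residue_surjective z
    obtain ⟨t, htT, ht⟩ := hT x x.2
    have ht1 : ‖t‖ ≤ 1 := by
      have : t = (x : L) - ((x : L) - t) := by ring
      rw [this]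
      refine (norm_sub_le_max' _ _).trans (max_le x.2 ht.le)
    refine ⟨t, htT, ?_⟩
    simp only [f, dif_pos ht1]
    rw [residue_ball_eq_iff]
    show ‖t - (x : L)‖ < 1
    rw [norm_sub_rev]; exact ht
  exact Set.finite_univ_iff.1 ((T.finite_toSet.image f).subset hsurj)

theorem resField_faithful (h : UnramSetting K L) :
    letI := ballAction h.isom
    FaithfulSMul (L ≃ₐ[K] L) (IsLocalRing.ResidueField (ball L)) := by
  let _ := ballAction h.isom
  refine ⟨fun {σ τ} hστ => ?_⟩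
  have key : τ⁻¹ * σ = 1 := by
    refine h.inertia _ (fun x hx => ?_)
    have h1 := hστ (IsLocalRing.residue (ball L) ⟨x, hx⟩)
    rw [← IsLocalRing.ResidueField.residue_smul, ← IsLocalRing.ResidueField.residue_smul, residue_ball_eq_iff] at h1
    have h2 : ‖σ x - τ x‖ < 1 := h1
    have h3 : (τ⁻¹ * σ) x - x = τ⁻¹ (σ x - τ x) := by
      rw [map_sub]
      show τ⁻¹ (σ x) - x = τ⁻¹ (σ x) - τ⁻¹ (τ x)
      congr 1
      exact (AlgEquiv.symm_apply_apply τ x).symm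
    rw [h3, h.isom]; exact h2
  exact (inv_mul_eq_one.1 key).symm

variable [FiniteDimensional K L]

/-- Residue trace is surjective: some integral element has a unit trace. -/
theorem exists_trace_unit (h : UnramSetting K L) :
    ∃ t : L, ‖t‖ ≤ 1 ∧ ‖∑ σ : L ≃ₐ[K] L, σ t‖ = 1 := by
  classical
  letI := ballAction h.isom
  haveI := resField_finite h
  haveI := resField_faithful h
  let l := IsLocalRing.ResidueField (ball L)
  let k₀ := FixedPoints.subfield (L ≃ₐ[K] L) l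
  let e : (L ≃ₐ[K] L) ≃* (l ≃ₐ[k₀] l) := FixedPoints.toAlgAutMulEquiv (L ≃ₐ[K] L) l
  obtain ⟨tb, htb⟩ := Algebra.trace_surjective k₀ l 1
  obtain ⟨t, rfl⟩ := IsLocalRing.residue_surjective tb
  refine ⟨t, t.2, ?_⟩
  have h1 : algebraMap k₀ l (Algebra.trace k₀ l (IsLocalRing.residue (ball L) t))
      = ∑ τ : l ≃ₐ[k₀] l, τ (IsLocalRing.residue (ball L) t) := trace_eq_sum_automorphisms _
  rw [htb, map_one] at h1
  have h2 : ∑ τ : l ≃ₐ[k₀] l, τ (IsLocalRing.residue (ball L) t)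
      = ∑ σ : L ≃ₐ[K] L, σ • (IsLocalRing.residue (ball L) t) :=
    (Fintype.sum_equiv e.toEquiv _ _ (fun σ => rfl)).symm
  have h3 : ∑ σ : L ≃ₐ[K] L, σ • (IsLocalRing.residue (ball L) t)
      = IsLocalRing.residue (ball L) (∑ σ : L ≃ₐ[K] L, σ • t) := by
    rw [map_sum]; rfl
  have h4 : IsUnit (∑ σ : L ≃ₐ[K] L, σ • t) := by
    rw [← IsLocalRing.residue_ne_zero_iff_isUnit, ← h3, ← h2, ← h1]; exact one_ne_zero
  rw [ball_isUnit_iff] at h4
  have h5 : ((∑ σ : L ≃ₐ[K] L, σ • t : ball L) : L) = ∑ σ : L ≃ₐ[K] L, σ (t : L) := by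
    rw [AddSubmonoidClass.coe_finsetSum]; rfl
  rw [← h5]; exact h4

/-- Residue norm is surjective: a unit which is Galois-fixed modulo the maximal ideal is
congruent to the norm of a unit. -/
theorem exists_norm_residue (h : UnramSetting K L) (u : L) (hu : ‖u‖ = 1)
    (hfix : ∀ σ : L ≃ₐ[K] L, ‖σ u - u‖ < 1) :
    ∃ y : L, ‖y‖ = 1 ∧ ‖∏ σ : L ≃ₐ[K] L, σ y - u‖ < 1 := by
  classical
  letI := ballAction h.isom
  haveI := resField_finite h
  haveI := resField_faithful h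
  let l := IsLocalRing.ResidueField (ball L)
  let k₀ := FixedPoints.subfield (L ≃ₐ[K] L) l
  let e : (L ≃ₐ[K] L) ≃* (l ≃ₐ[k₀] l) := FixedPoints.toAlgAutMulEquiv (L ≃ₐ[K] L) l
  let ub : ball L := ⟨u, hu.le⟩
  have hub : ∀ σ : L ≃ₐ[K] L,
      σ • IsLocalRing.residue (ball L) ub = IsLocalRing.residue (ball L) ub := by
    intro σ
    rw [← IsLocalRing.ResidueField.residue_smul, residue_ball_eq_iff]
    exact hfix σ
  let u₀ : k₀ := ⟨IsLocalRing.residue (ball L) ub, hub⟩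
  obtain ⟨yb, hyb⟩ := FiniteField.norm_surjective k₀ l u₀
  obtain ⟨y, rfl⟩ := IsLocalRing.residue_surjective yb
  have h1 : algebraMap k₀ l (Algebra.norm k₀ (IsLocalRing.residue (ball L) y))
      = ∏ τ : l ≃ₐ[k₀] l, τ (IsLocalRing.residue (ball L) y) :=
    Algebra.norm_eq_prod_automorphisms _ _
  rw [hyb] at h1
  have h2 : ∏ τ : l ≃ₐ[k₀] l, τ (IsLocalRing.residue (ball L) y)
      = ∏ σ : L ≃ₐ[K] L, σ • (IsLocalRing.residue (ball L) y) :=
    (Fintype.prod_equiv e.toEquiv _ _ (fun σ => rfl)).symm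
  have h3 : ∏ σ : L ≃ₐ[K] L, σ • (IsLocalRing.residue (ball L) y)
      = IsLocalRing.residue (ball L) (∏ σ : L ≃ₐ[K] L, σ • y) := by
    rw [map_prod]; rfl
  have h4 : IsLocalRing.residue (ball L) (∏ σ : L ≃ₐ[K] L, σ • y)
      = IsLocalRing.residue (ball L) ub := by
    rw [← h3, ← h2, ← h1]; rfl
  have hyunit : ‖(y : L)‖ = 1 := by
    rw [← ball_isUnit_iff, ← IsLocalRing.residue_ne_zero_iff_isUnit]
    intro h0
    have h6 : IsLocalRing.residue (ball L) ub = 0 := by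
      rw [← h4, ← h3]
      exact Finset.prod_eq_zero (Finset.mem_univ 1) (by rw [one_smul]; exact h0)
    rw [residue_ball_eq_zero_iff] at h6
    exact absurd hu h6.ne
  refine ⟨y, hyunit, ?_⟩
  rw [residue_ball_eq_iff] at h4
  have h5 : ((∏ σ : L ≃ₐ[K] L, σ • y : ball L) : L) = ∏ σ : L ≃ₐ[K] L, σ (y : L) := by
    rw [SubmonoidClass.coe_finsetProd]; rfl
  rw [← h5]; exact h4

/-- Hilbert 90 modulo the maximal ideal: a unit-valued map which is a 1-cocycle modulo the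
maximal ideal is a coboundary modulo the maximal ideal. -/
theorem exists_hilbert90_residue (h : UnramSetting K L) (f : (L ≃ₐ[K] L) → L)
    (hf1 : ∀ σ, ‖f σ‖ = 1)
    (hf : ∀ σ τ : L ≃ₐ[K] L, ‖f (σ * τ) - σ (f τ) * f σ‖ < 1) :
    ∃ w : L, ‖w‖ = 1 ∧ ∀ σ : L ≃ₐ[K] L, ‖σ w - f σ * w‖ < 1 := by
  classical
  letI := ballAction h.isom
  haveI := resField_finite h
  haveI := resField_faithful h
  let l := IsLocalRing.ResidueField (ball L)
  let k₀ := FixedPoints.subfield (L ≃ₐ[K] L) l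
  let e : (L ≃ₐ[K] L) ≃* (l ≃ₐ[k₀] l) := FixedPoints.toAlgAutMulEquiv (L ≃ₐ[K] L) l
  let fo : (L ≃ₐ[K] L) → ball L := fun σ => ⟨f σ, (hf1 σ).le⟩
  have hfo : ∀ σ, IsLocalRing.residue (ball L) (fo σ) ≠ 0 := fun σ =>
    (IsLocalRing.residue_ne_zero_iff_isUnit _).2 ((ball_isUnit_iff _).2 (hf1 σ))
  let fb : (L ≃ₐ[K] L) → lˣ := fun σ => Units.mk0 _ (hfo σ)
  have hcoc : ∀ σ τ : L ≃ₐ[K] L, IsLocalRing.residue (ball L) (fo (σ * τ))
      = σ • IsLocalRing.residue (ball L) (fo τ) * IsLocalRing.residue (ball L) (fo σ) := by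
    intro σ τ
    rw [← IsLocalRing.ResidueField.residue_smul, ← map_mul, residue_ball_eq_iff]
    exact hf σ τ
  let F : (l ≃ₐ[k₀] l) → lˣ := fun g => fb (e.symm g)
  have hF : groupCohomology.IsMulCocycle₁ F := by
    intro g g'
    apply Units.ext
    show IsLocalRing.residue (ball L) (fo (e.symm (g * g')))
      = g (IsLocalRing.residue (ball L) (fo (e.symm g')))
        * IsLocalRing.residue (ball L) (fo (e.symm g))
    rw [map_mul, hcoc]
    congr 1
    exact congrArg (fun τ : l ≃ₐ[k₀] l => τ (IsLocalRing.residue (ball L) (fo (e.symm g'))))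
      (e.apply_symm_apply g)
  obtain ⟨wb, hwb⟩ := groupCohomology.isMulCoboundary₁_of_isMulCocycle₁_of_aut_to_units F hF
  obtain ⟨w, hw⟩ := IsLocalRing.residue_surjective (wb : l)
  have hwunit : ‖(w : L)‖ = 1 := by
    rw [← ball_isUnit_iff, ← IsLocalRing.residue_ne_zero_iff_isUnit, hw]
    exact wb.ne_zero
  refine ⟨w, hwunit, fun σ => ?_⟩
  have h1 := hwb (e σ)
  have h2 : (e σ) (wb : l) = (F (e σ) : l) * (wb : l) := by
    have := congrArg (fun z : lˣ => (z : l)) (div_eq_iff_eq_mul.1 h1)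
    exact this
  have h3 : IsLocalRing.residue (ball L) (σ • w)
      = IsLocalRing.residue (ball L) (fo σ * w) := by
    rw [map_mul, IsLocalRing.ResidueField.residue_smul, hw]
    have h4 : F (e σ) = fb σ := by show fb (e.symm (e σ)) = fb σ; rw [e.symm_apply_apply]
    rw [h4] at h2
    exact h2
  rw [residue_ball_eq_iff] at h3
  exact h3

/-- In the unramified setting the Galois group is cyclic. -/
theorem isCyclic_gal (h : UnramSetting K L) : IsCyclic (L ≃ₐ[K] L) := by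
  classical
  letI := ballAction h.isom
  haveI := resField_finite h
  haveI := resField_faithful h
  let l := IsLocalRing.ResidueField (ball L)
  let k₀ := FixedPoints.subfield (L ≃ₐ[K] L) l
  let e : (L ≃ₐ[K] L) ≃* (l ≃ₐ[k₀] l) := FixedPoints.toAlgAutMulEquiv (L ≃ₐ[K] L) l
  exact isCyclic_of_surjective e.symm e.symm.surjective

variable [IsGalois K L]

/-- **(U0)** In the unramified setting a uniformizer of `L` can be found in `K`. -/
theorem exists_uniformizer (h : UnramSetting K L) :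
    ∃ π : K, 0 < ‖algebraMap K L π‖ ∧ ‖algebraMap K L π‖ < 1 ∧
      ∀ x : L, x ≠ 0 → ∃ m : ℤ, ‖x‖ = ‖algebraMap K L π‖ ^ m := by
  classical
  obtain ⟨ϖ, hϖ0, hϖ1, hϖ⟩ := h.disc
  have hϖne : ϖ ≠ 0 := norm_pos_iff.1 hϖ0
  -- the cocycle σ ↦ σ ϖ / ϖ
  obtain ⟨w, hw1, hw⟩ := exists_hilbert90_residue h (fun σ => σ ϖ / ϖ)
    (fun σ => by rw [norm_div, h.isom, div_self hϖ0.ne'])
    (fun σ τ => by
      have : (σ * τ) ϖ / ϖ - σ (τ ϖ / ϖ) * (σ ϖ / ϖ) = 0 := by
        have hσϖ : σ ϖ ≠ 0 := (map_ne_zero σ).2 hϖne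
        rw [map_div₀, AlgEquiv.mul_apply]
        field_simp
        ring
      rw [this, norm_zero]; exact zero_lt_one)
  have hwne : w ≠ 0 := by
    intro h0; rw [h0, norm_zero] at hw1; exact zero_ne_one hw1
  obtain ⟨t, ht1, htT⟩ := exists_trace_unit h
  -- the corrected uniformizer
  set ϖ' : L := ϖ / w with hϖ'
  have hϖ'n : ‖ϖ'‖ = ‖ϖ‖ := by rw [hϖ', norm_div, hw1, div_one]
  have hdiff : ∀ σ : L ≃ₐ[K] L, ‖σ ϖ' - ϖ'‖ < ‖ϖ‖ := by
    intro σ
    have hσw : σ w ≠ 0 := (map_ne_zero σ).2 hwne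
    have e : σ ϖ' - ϖ' = ϖ * ((σ ϖ / ϖ) * w - σ w) / (σ w * w) := by
      rw [hϖ', map_div₀]
      field_simp
    rw [e, norm_div, norm_mul, norm_mul, h.isom, hw1, mul_one, div_one]
    have h2 : ‖σ ϖ / ϖ * w - σ w‖ < 1 := by rw [norm_sub_rev]; exact hw σ
    calc ‖ϖ‖ * ‖σ ϖ / ϖ * w - σ w‖ < ‖ϖ‖ * 1 := mul_lt_mul_of_pos_left h2 hϖ0
      _ = ‖ϖ‖ := mul_one _
  refine ⟨Algebra.trace K L (ϖ' * t), ?_⟩
  have hP : algebraMap K L (Algebra.trace K L (ϖ' * t)) = ∑ σ : L ≃ₐ[K] L, σ (ϖ' * t) :=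
    trace_eq_sum_automorphisms _
  have hnorm : ‖algebraMap K L (Algebra.trace K L (ϖ' * t))‖ = ‖ϖ‖ := by
    rw [hP]
    have e : ∑ σ : L ≃ₐ[K] L, σ (ϖ' * t)
        = ϖ' * ∑ σ : L ≃ₐ[K] L, σ t + ∑ σ : L ≃ₐ[K] L, (σ ϖ' - ϖ') * σ t := by
      rw [Finset.mul_sum, ← Finset.sum_add_distrib]
      refine Finset.sum_congr rfl (fun σ _ => ?_)
      rw [map_mul]; ring
    have h1 : ‖ϖ' * ∑ σ : L ≃ₐ[K] L, σ t‖ = ‖ϖ‖ := by rw [norm_mul, htT, mul_one, hϖ'n]
    have h2 : ‖∑ σ : L ≃ₐ[K] L, (σ ϖ' - ϖ') * σ t‖ < ‖ϖ‖ := by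
      refine norm_sum_lt_of_forall_lt _ _ hϖ0 (fun σ _ => ?_)
      rw [norm_mul, h.isom σ t]
      calc ‖σ ϖ' - ϖ'‖ * ‖t‖ ≤ ‖σ ϖ' - ϖ'‖ * 1 :=
            mul_le_mul_of_nonneg_left ht1 (norm_nonneg _)
        _ = ‖σ ϖ' - ϖ'‖ := mul_one _
        _ < ‖ϖ‖ := hdiff σ
    rw [e, norm_add_eq_of_lt (by rw [h1]; exact h2), h1]
  rw [hnorm]
  exact ⟨hϖ0, hϖ1, hϖ⟩

/-- One step of the successive approximation of a unit by norms. -/
theorem norm_step (h : UnramSetting K L) (π : K) (hπ0 : 0 < ‖algebraMap K L π‖)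
    (hπ1 : ‖algebraMap K L π‖ < 1) (u : K) (i : ℕ) (hi : 1 ≤ i) (y : L) (hy : ‖y‖ = 1)
    (hyu : ‖∏ σ : L ≃ₐ[K] L, σ y - algebraMap K L u‖ ≤ ‖algebraMap K L π‖ ^ i) :
    ∃ y' : L, ‖y'‖ = 1 ∧ ‖y' - y‖ ≤ ‖algebraMap K L π‖ ^ i ∧
      ‖∏ σ : L ≃ₐ[K] L, σ y' - algebraMap K L u‖ ≤ ‖algebraMap K L π‖ ^ (i + 1) := by
  classical
  obtain ⟨t, ht1, htT⟩ := exists_trace_unit h
  set r := ‖algebraMap K L π‖ with hr
  set πL := algebraMap K L π with hπL
  set uL := algebraMap K L u with huL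
  set N := ∏ σ : L ≃ₐ[K] L, σ y with hN
  set T := ∑ σ : L ≃ₐ[K] L, σ t with hT
  have hNn : ‖N‖ = 1 := by
    rw [hN, norm_prod]; exact Finset.prod_eq_one (fun σ _ => by rw [h.isom, hy])
  have hN0 : N ≠ 0 := by
    intro h0; rw [h0, norm_zero] at hNn; exact zero_ne_one hNn
  have hT0 : T ≠ 0 := by
    intro h0; rw [h0, norm_zero] at htT; exact zero_ne_one htT
  have hπL0 : πL ≠ 0 := norm_pos_iff.1 hπ0
  have hNfix : ∀ τ : L ≃ₐ[K] L, τ N = N := by
    intro τ; rw [hN, ← Algebra.norm_eq_prod_automorphisms K y]; exact τ.commutes _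
  have hTfix : ∀ τ : L ≃ₐ[K] L, τ T = T := by
    intro τ; rw [hT, ← trace_eq_sum_automorphisms]; exact τ.commutes _
  set a : L := (uL - N) / (N * πL ^ i) with ha
  have han : ‖a‖ ≤ 1 := by
    rw [ha, norm_div, norm_mul, hNn, one_mul, norm_pow, div_le_one (pow_pos hπ0 i), norm_sub_rev]
    exact hyu
  have hafix : ∀ τ : L ≃ₐ[K] L, τ a = a := by
    intro τ
    rw [ha, map_div₀, map_sub, map_mul, map_pow, hNfix, huL, hπL, τ.commutes, τ.commutes]
  set b : L := a * t / T with hb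
  have hbn : ‖b‖ ≤ 1 := by
    rw [hb, norm_div, norm_mul, htT, div_one]; exact mul_le_one₀ han (norm_nonneg _) ht1
  have hbsum : ∑ σ : L ≃ₐ[K] L, σ b = a := by
    have e : ∀ σ : L ≃ₐ[K] L, σ b = a / T * σ t := by
      intro σ; rw [hb, map_div₀, map_mul, hafix, hTfix]; ring
    simp only [e]
    rw [← Finset.mul_sum, ← hT]; field_simp
  have hrb : r ^ i * ‖b‖ ≤ r ^ i :=
    calc r ^ i * ‖b‖ ≤ r ^ i * 1 := mul_le_mul_of_nonneg_left hbn (pow_nonneg hπ0.le i)
      _ = r ^ i := mul_one _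
  refine ⟨y * (1 + πL ^ i * b), ?_, ?_, ?_⟩
  · have hsmall : ‖πL ^ i * b‖ < 1 := by
      rw [norm_mul, norm_pow]
      exact hrb.trans_lt (pow_lt_one₀ hπ0.le hπ1 (by omega))
    rw [norm_mul, hy, one_mul, norm_add_eq_of_lt (by rw [norm_one]; exact hsmall), norm_one]
  · have e : y * (1 + πL ^ i * b) - y = y * (πL ^ i * b) := by ring
    rw [e, norm_mul, hy, one_mul, norm_mul, norm_pow]
    exact hrb
  · have hprod : ∏ σ : L ≃ₐ[K] L, σ (y * (1 + πL ^ i * b))
        = N * ∏ σ : L ≃ₐ[K] L, (1 + πL ^ i * σ b) := by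
      rw [hN, ← Finset.prod_mul_distrib]
      refine Finset.prod_congr rfl (fun σ _ => ?_)
      rw [map_mul, map_add, map_one, map_mul, map_pow, hπL, σ.commutes]
    have hexp := norm_prod_one_add_sub_le (Finset.univ : Finset (L ≃ₐ[K] L))
      (fun σ => πL ^ i * σ b) (ε := r ^ i) (pow_nonneg hπ0.le i) (pow_le_one₀ hπ0.le hπ1.le)
      (fun σ _ => by rw [norm_mul, norm_pow, h.isom]; exact hrb)
    have hsum : ∑ σ : L ≃ₐ[K] L, πL ^ i * σ b = πL ^ i * a := by
      rw [← Finset.mul_sum, hbsum]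
    rw [hsum] at hexp
    have e : N * ∏ σ : L ≃ₐ[K] L, (1 + πL ^ i * σ b) - uL
        = N * (∏ σ : L ≃ₐ[K] L, (1 + πL ^ i * σ b) - 1 - πL ^ i * a) := by
      rw [ha]; field_simp; ring
    rw [hprod, e, norm_mul, hNn, one_mul]
    refine hexp.trans ?_
    rw [← pow_mul]
    exact pow_le_pow_of_le_one hπ0.le hπ1.le (by nlinarith)

omit [IsUltrametricDist L] in
/-- With a discrete value group generated by `r < 1`, an element of norm `< 1` has norm `≤ r`. -/
theorem norm_le_of_lt_one {r : ℝ} (hr0 : 0 < r) (hr1 : r < 1)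
    (hdisc : ∀ x : L, x ≠ 0 → ∃ m : ℤ, ‖x‖ = r ^ m) {x : L} (hx : ‖x‖ < 1) : ‖x‖ ≤ r := by
  by_cases h0 : x = 0
  · rw [h0, norm_zero]; exact hr0.le
  · obtain ⟨m, hm⟩ := hdisc x h0
    rw [hm] at hx ⊢
    have hm1 : 1 ≤ m := by
      by_contra hcon
      have hm0 : m ≤ 0 := by omega
      have : (1 : ℝ) ≤ r ^ m := one_le_zpow_of_nonpos₀ hr0 hr1.le hm0
      exact absurd hx (not_lt.2 this)
    calc r ^ m ≤ r ^ (1 : ℤ) := zpow_le_zpow_right_of_le_one₀ hr0 hr1.le hm1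
      _ = r := zpow_one r

/-- **(U1) Units are norms.**  In the unramified setting over a complete field, every element
of `K` of norm one is the norm of an element of `L` of norm one. -/
theorem exists_norm_eq_of_unit [CompleteSpace L] (h : UnramSetting K L) (u : K)
    (hu : ‖algebraMap K L u‖ = 1) : ∃ y : L, ‖y‖ = 1 ∧ Algebra.norm K y = u := by
  classical
  obtain ⟨π, hπ0, hπ1, hπ⟩ := exists_uniformizer h
  set r := ‖algebraMap K L π‖ with hr
  let Nm : L → L := fun y => ∏ σ : L ≃ₐ[K] L, σ y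
  obtain ⟨y₀, hy₀, hy₀u⟩ := exists_norm_residue h (algebraMap K L u) hu
    (fun σ => by rw [σ.commutes, sub_self, norm_zero]; exact zero_lt_one)
  have hy₀u' : ‖Nm y₀ - algebraMap K L u‖ ≤ r ^ (0 + 1) := by
    rw [zero_add, pow_one]; exact norm_le_of_lt_one hπ0 hπ1 hπ hy₀u
  have step : ∀ (n : ℕ) (y : {y : L // ‖y‖ = 1 ∧ ‖Nm y - algebraMap K L u‖ ≤ r ^ (n + 1)}),
      ∃ y' : {y : L // ‖y‖ = 1 ∧ ‖Nm y - algebraMap K L u‖ ≤ r ^ (n + 1 + 1)},
        ‖(y' : L) - y‖ ≤ r ^ (n + 1) := by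
    intro n y
    obtain ⟨y', h1, h2, h3⟩ := norm_step h π hπ0 hπ1 u (n + 1) (by omega) y.1 y.2.1 y.2.2
    exact ⟨⟨y', h1, h3⟩, h2⟩
  choose next hnext using step
  let seq : (n : ℕ) → {y : L // ‖y‖ = 1 ∧ ‖Nm y - algebraMap K L u‖ ≤ r ^ (n + 1)} :=
    fun n => Nat.rec ⟨y₀, hy₀, hy₀u'⟩ (fun n y => next n y) n
  have hseq : ∀ n : ℕ, ‖((seq (n + 1)).1 : L) - ((seq n).1 : L)‖ ≤ r ^ (n + 1) := by
    intro n
    have h1 : seq (n + 1) = next n (seq n) := rfl
    rw [h1]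
    exact hnext n (seq n)
  have hcauchy : CauchySeq (fun n => (seq n).1) := by
    refine cauchySeq_of_le_geometric r r hπ1 (fun n => ?_)
    rw [dist_eq_norm, norm_sub_rev, ← pow_succ']
    exact hseq n
  obtain ⟨y, hy⟩ := cauchySeq_tendsto_of_complete hcauchy
  have hynorm : ‖y‖ = 1 := by
    have h1 : Filter.Tendsto (fun n => ‖(seq n).1‖) Filter.atTop (nhds ‖y‖) :=
      (continuous_norm.tendsto y).comp hy
    have h2 : (fun n => ‖(seq n).1‖) = fun _ => (1 : ℝ) := funext (fun n => (seq n).2.1)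
    rw [h2] at h1
    exact tendsto_nhds_unique h1 tendsto_const_nhds
  have hcont : Continuous Nm :=
    continuous_finsetProd _
      (fun σ _ => (AddMonoidHomClass.isometry_of_norm σ (h.isom σ)).continuous)
  have hNy : Nm y = algebraMap K L u := by
    have h1 : Filter.Tendsto (fun n => Nm (seq n).1) Filter.atTop (nhds (Nm y)) :=
      (hcont.tendsto y).comp hy
    have h2 : Filter.Tendsto (fun n => Nm (seq n).1) Filter.atTop
        (nhds (algebraMap K L u)) := by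
      rw [tendsto_iff_norm_sub_tendsto_zero]
      refine squeeze_zero (fun n => norm_nonneg _) (fun n => (seq n).2.2) ?_
      exact (tendsto_pow_atTop_nhds_zero_of_lt_one hπ0.le hπ1).comp
        (Filter.tendsto_add_atTop_nat 1)
    exact tendsto_nhds_unique h1 h2
  refine ⟨y, hynorm, ?_⟩
  apply (algebraMap K L).injective
  rw [Algebra.norm_eq_prod_automorphisms]; exact hNy

omit [IsUltrametricDist L] in
theorem norm_prod_gal (hiso : ∀ (σ : L ≃ₐ[K] L) (x : L), ‖σ x‖ = ‖x‖) (z : L) :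
    ‖algebraMap K L (Algebra.norm K z)‖ = ‖z‖ ^ Module.finrank K L := by
  classical
  rw [Algebra.norm_eq_prod_automorphisms, norm_prod]
  simp only [hiso]
  rw [Finset.prod_const, Finset.card_univ, ← Nat.card_eq_fintype_card,
    IsGalois.card_aut_eq_finrank]

/-- **(U2) The norm group.**  In the unramified setting, `x ∈ Kˣ` is a norm from `L` iff its
order (with respect to a uniformizer `π ∈ K`) is divisible by `[L : K]`. -/
theorem exists_norm_eq_iff [CompleteSpace L] (h : UnramSetting K L) (π : K)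
    (hπ0 : 0 < ‖algebraMap K L π‖)
    (hπ : ∀ x : L, x ≠ 0 → ∃ m : ℤ, ‖x‖ = ‖algebraMap K L π‖ ^ m) (x : K) (hx : x ≠ 0) :
    (∃ z : L, Algebra.norm K z = x) ↔
      ∃ k : ℤ, ‖algebraMap K L x‖ = ‖algebraMap K L π‖ ^ ((Module.finrank K L : ℤ) * k) := by
  constructor
  · rintro ⟨z, rfl⟩
    have hz : z ≠ 0 := by
      intro h0; rw [h0, Algebra.norm_zero] at hx; exact hx rfl
    obtain ⟨j, hj⟩ := hπ z hz
    refine ⟨j, ?_⟩
    rw [norm_prod_gal h.isom, hj, ← zpow_natCast, ← zpow_mul, mul_comm]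
  · rintro ⟨k, hk⟩
    have hπK : π ≠ 0 := by
      intro h0; rw [h0, map_zero, norm_zero] at hπ0; exact lt_irrefl _ hπ0
    set u : K := x / (π ^ k) ^ Module.finrank K L with hu
    have hun : ‖algebraMap K L u‖ = 1 := by
      rw [hu, map_div₀, map_pow, map_zpow₀, norm_div, norm_pow, norm_zpow, hk, ← zpow_natCast,
        ← zpow_mul, mul_comm]
      exact div_self (zpow_ne_zero _ hπ0.ne')
    obtain ⟨y, -, hy⟩ := exists_norm_eq_of_unit h u hun
    refine ⟨y * algebraMap K L (π ^ k), ?_⟩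
    rw [map_mul, hy, Algebra.norm_algebraMap, hu]
    field_simp

end Setting

end Fermat.Agent.S55.helper7604
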