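/-
S55 / helper7604 : cohomology of unramified extensions of complete discretely valued fields
with finite residue field, in Mathlib cocycle form.

* `isMulCoboundary₁_unit`   : `H¹(Gal(L/K), U_L) = 0`
* `isMulCoboundary₂_unit`   : `H²(Gal(L/K), U_L) = 0`
* `isMulCoboundary₂_iff_unram` : a 2-cocycle with values in `Lˣ` is a coboundary iff `[L:K]`
  divides the order of its cyclic invariant (so `H²(Gal(L/K), Lˣ) ≅ ℤ/[L:K]` through `ord`).
-/
import Fermat.Agent.S55.helper7604_CyclicH2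
import Fermat.Agent.S55.helper7604_Unram

set_option autoImplicit false
set_option linter.style.haveILetI false

namespace Fermat.Agent.S55.helper7604

open groupCohomology Finset

section Galois

variable {K L : Type*} [Field K] [Field L] [Algebra K L] [FiniteDimensional K L] [IsGalois K L]

/-- A Galois-fixed element comes from the base field. -/
theorem exists_algebraMap_eq_of_fixed (x : L) (hx : ∀ g : L ≃ₐ[K] L, g x = x) :
    ∃ x₀ : K, algebraMap K L x₀ = x := by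
  have := (IsGalois.mem_bot_iff_fixed (F := K) (E := L) x).2 hx
  exact IntermediateField.mem_bot.1 this

/-- For a cyclic Galois group generated by `σ`, the product over the powers of `σ` is the
norm. -/
theorem prod_range_pow_eq_norm (σ : L ≃ₐ[K] L) (hσ : ∀ g : L ≃ₐ[K] L, g ∈ Subgroup.zpowers σ)
    (y : L) :
    ∏ j ∈ range (orderOf σ), (σ ^ j) y = algebraMap K L (Algebra.norm K y) := by
  classical
  rw [Algebra.norm_eq_prod_automorphisms, ← IsCyclic.image_range_orderOf hσ,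
    Finset.prod_image]
  intro i hi j hj hij
  exact pow_injOn_Iio_orderOf (Finset.mem_range.1 hi) (Finset.mem_range.1 hj) hij

omit [FiniteDimensional K L] [IsGalois K L] in
theorem val_prod_range_smul (σ : L ≃ₐ[K] L) (y : Lˣ) (n : ℕ) :
    ((∏ j ∈ range n, σ ^ j • y : Lˣ) : L) = ∏ j ∈ range n, (σ ^ j) (y : L) := by
  rw [Units.coe_prod]; rfl

end Galois

section Unram

variable {K L : Type*} [Field K] [NormedField L] [IsUltrametricDist L] [Algebra K L]
  [FiniteDimensional K L] [IsGalois K L]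

/-- The subgroup of units of norm one. -/
def unitGroup (L : Type*) [NormedField L] : Subgroup Lˣ where
  carrier := {u | ‖(u : L)‖ = 1}
  mul_mem' := fun {a b} ha hb => by
    show ‖((a * b : Lˣ) : L)‖ = 1
    rw [Units.val_mul, norm_mul, ha, hb, mul_one]
  one_mem' := by show ‖((1 : Lˣ) : L)‖ = 1; simp
  inv_mem' := fun {a} ha => by
    show ‖((a⁻¹ : Lˣ) : L)‖ = 1
    rw [Units.val_inv_eq_inv_val, norm_inv, ha, inv_one]

omit [IsUltrametricDist L] [FiniteDimensional K L] [IsGalois K L] in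
theorem mem_unitGroup_iff (u : Lˣ) : u ∈ unitGroup L ↔ ‖(u : L)‖ = 1 := Iff.rfl

/-- **(U3)** `H¹(Gal(L/K), U_L) = 0` for unramified `L/K`: every 1-cocycle with values in `Lˣ`
is the coboundary of a unit of norm one. -/
theorem isMulCoboundary₁_unit (h : UnramSetting K L) (f : (L ≃ₐ[K] L) → Lˣ)
    (hf : IsMulCocycle₁ f) :
    ∃ w : Lˣ, ‖(w : L)‖ = 1 ∧ ∀ g : L ≃ₐ[K] L, g • w / w = f g := by
  obtain ⟨w₀, hw₀⟩ := isMulCoboundary₁_of_isMulCocycle₁_of_aut_to_units f hf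
  obtain ⟨π, hπ0, -, hπ⟩ := exists_uniformizer h
  obtain ⟨j, hj⟩ := hπ (w₀ : L) w₀.ne_zero
  have hπne : algebraMap K L π ≠ 0 := norm_pos_iff.1 hπ0
  set πu : Lˣ := Units.mk0 _ hπne with hπu
  have hfix : ∀ g : L ≃ₐ[K] L, g • πu = πu := fun g => Units.ext (g.commutes π)
  refine ⟨w₀ * πu ^ (-j), ?_, fun g => ?_⟩
  · rw [Units.val_mul, norm_mul, hj, Units.val_zpow_eq_zpow_val, norm_zpow, hπu, Units.val_mk0,
      ← zpow_add₀ hπ0.ne', add_neg_cancel, zpow_zero]
  · rw [smul_mul', smul_zpow', hfix, ← hw₀ g, mul_div_mul_right_eq_div]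

/-- **(U4)** `H²(Gal(L/K), U_L) = 0` for unramified `L/K`: a 2-cocycle with values of norm one
is the coboundary of a 1-cochain with values of norm one. -/
theorem isMulCoboundary₂_unit [CompleteSpace L] (h : UnramSetting K L)
    (c : (L ≃ₐ[K] L) × (L ≃ₐ[K] L) → Lˣ) (hc : IsMulCocycle₂ c)
    (hc1 : ∀ p, ‖(c p : L)‖ = 1) :
    ∃ x : (L ≃ₐ[K] L) → Lˣ, (∀ g, ‖(x g : L)‖ = 1) ∧
      ∀ g h : L ≃ₐ[K] L, g • x h / x (g * h) * x g = c (g, h) := by
  classical
  haveI := isCyclic_gal h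
  obtain ⟨σ, hσ⟩ := IsCyclic.exists_generator (α := L ≃ₐ[K] L)
  have hn : 0 < orderOf σ := orderOf_pos σ
  set a : Lˣ := ∏ j ∈ range (orderOf σ), c (σ ^ j, σ) with ha
  have hafix : ∀ g : L ≃ₐ[K] L, g (a : L) = (a : L) := fun g =>
    congrArg (fun u : Lˣ => (u : L))
      (smul_mulCyclic_invariant σ hσ (pow_orderOf_eq_one σ) hc g)
  obtain ⟨a₀, ha₀⟩ := exists_algebraMap_eq_of_fixed (a : L) hafix
  have han : ‖(a : L)‖ = 1 :=
    (unitGroup L).prod_mem (fun j _ => hc1 (σ ^ j, σ))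
  obtain ⟨y, hy1, hy⟩ := exists_norm_eq_of_unit h a₀ (by rw [ha₀]; exact han)
  have hy0 : y ≠ 0 := by
    intro h0; rw [h0, norm_zero] at hy1; exact zero_ne_one hy1
  have hprod : ∏ j ∈ range (orderOf σ), σ ^ j • Units.mk0 y hy0 = a := by
    apply Units.ext
    rw [val_prod_range_smul, Units.val_mk0, prod_range_pow_eq_norm σ hσ, hy, ha₀]
  obtain ⟨x, hx, hxU⟩ := exists_mulPrimitive_of_cyclic σ hσ hn hc (Units.mk0 y hy0) hprod
    (unitGroup L) (fun g u hu => by
      show ‖g (u : L)‖ = 1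
      rw [h.isom]; exact hu) hy1 hc1
  exact ⟨x, hxU, hx⟩

/-- **(U5)** For unramified `L/K` with `Gal(L/K) = ⟨σ⟩` and a uniformizer `π ∈ K`: a 2-cocycle
with values in `Lˣ` is a coboundary iff `[L : K]` divides the order of its cyclic invariant
`∏_{j<n} c (σ^j, σ)`. -/
theorem isMulCoboundary₂_iff_unram [CompleteSpace L] (h : UnramSetting K L) (σ : L ≃ₐ[K] L)
    (hσ : ∀ g : L ≃ₐ[K] L, g ∈ Subgroup.zpowers σ) (π : K) (hπ0 : 0 < ‖algebraMap K L π‖)
    (hπ : ∀ x : L, x ≠ 0 → ∃ m : ℤ, ‖x‖ = ‖algebraMap K L π‖ ^ m)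
    (c : (L ≃ₐ[K] L) × (L ≃ₐ[K] L) → Lˣ) (hc : IsMulCocycle₂ c) :
    IsMulCoboundary₂ c ↔
      ∃ k : ℤ, ‖((∏ j ∈ range (orderOf σ), c (σ ^ j, σ) : Lˣ) : L)‖
        = ‖algebraMap K L π‖ ^ ((Module.finrank K L : ℤ) * k) := by
  classical
  have hn : 0 < orderOf σ := orderOf_pos σ
  set a : Lˣ := ∏ j ∈ range (orderOf σ), c (σ ^ j, σ) with ha
  have hafix : ∀ g : L ≃ₐ[K] L, g (a : L) = (a : L) := fun g =>
    congrArg (fun u : Lˣ => (u : L))
      (smul_mulCyclic_invariant σ hσ (pow_orderOf_eq_one σ) hc g)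
  obtain ⟨a₀, ha₀⟩ := exists_algebraMap_eq_of_fixed (a : L) hafix
  have ha₀ne : a₀ ≠ 0 := by
    intro h0; rw [h0, map_zero] at ha₀; exact a.ne_zero ha₀.symm
  rw [isMulCoboundary₂_iff_of_cyclic σ hσ hn hc, ← ha₀, ← exists_norm_eq_iff h π hπ0 hπ a₀ ha₀ne]
  constructor
  · rintro ⟨y, hy⟩
    refine ⟨(y : L), ?_⟩
    apply (algebraMap K L).injective
    rw [← prod_range_pow_eq_norm σ hσ, ← val_prod_range_smul, hy, ha₀]
  · rintro ⟨z, hz⟩
    have hz0 : z ≠ 0 := by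
      intro h0; rw [h0, Algebra.norm_zero] at hz; exact ha₀ne hz.symm
    refine ⟨Units.mk0 z hz0, ?_⟩
    apply Units.ext
    rw [val_prod_range_smul, Units.val_mk0, prod_range_pow_eq_norm σ hσ, hz, ha₀]

end Unram

end Fermat.Agent.S55.helper7604
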