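/-
S55 / helper1168 : INSTANTIATION of `helper7604.UnramSetting` on concrete local fields
(registry leaf LA-UNRAM-INST).  `K` a finite extension of `ℚ_l` inside `PadicAlgCl l`,
`L : IntermediateField K (PadicAlgCl l)` finite Galois over `K`.

* `unramSetting_of_inertia`   : `isom`, `disc`, `resFinite` are automatic.
* `algEquiv_eq_one_of_norm_mem` : trivial inertia from `e(L/K) = 1` (equal value groups).
* `unramSetting_of_norm_mem`, `unramSetting_of_norm_zpow` : `UnramSetting K L` from `e = 1`.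
* `completeSpace_of_finite`   : `CompleteSpace L`.
* `exists_unit_primitive`     : infinite-level form of `H²(Gal(L/K), U_L) = 0` on
  `Gal(PadicAlgCl l / ℚ_l)` (cochains on the whole group, conditions on `K.fixingSubgroup`).
-/
import Mathlib
import Fermat.Agent.S55.helper1168_Unram
import Fermat.Agent.S55.helper7604_UnramCoh
set_option linter.style.haveILetI false
open scoped NNReal NormedField
open Polynomial
noncomputable section
namespace Fermat.Agent.S55.helper1168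

variable {l : ℕ} [Fact l.Prime]

section inst
variable (K : IntermediateField ℚ_[l] (PadicAlgCl l)) (L : IntermediateField K (PadicAlgCl l))

theorem finiteDimensional_restrictScalars [FiniteDimensional ℚ_[l] K] [FiniteDimensional K L] :
    FiniteDimensional ℚ_[l] (L.restrictScalars ℚ_[l]) := by
  have h : Module.Finite ℚ_[l] L := Module.Finite.trans K L
  exact h

theorem completeSpace_of_finite [FiniteDimensional ℚ_[l] K] [FiniteDimensional K L] :
    CompleteSpace L := by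
  haveI := finiteDimensional_restrictScalars K L
  have h : CompleteSpace (L.restrictScalars ℚ_[l]) := FiniteDimensional.complete ℚ_[l] _
  exact h

/-- `K`-automorphisms of `L` are isometries. -/
theorem norm_algEquiv_eq (σ : L ≃ₐ[K] L) (x : L) :
    ‖((σ x : L) : PadicAlgCl l)‖ = ‖((x : L) : PadicAlgCl l)‖ := by
  haveI : IsScalarTower ℚ_[l] L (PadicAlgCl l) := IsScalarTower.of_algebraMap_eq (fun _ => rfl)
  have hinj : Function.Injective (algebraMap L (PadicAlgCl l)) :=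
    (algebraMap L (PadicAlgCl l)).injective
  have e1 := minpoly.algebraMap_eq (A := ℚ_[l]) hinj (σ x)
  have e2 := minpoly.algebraMap_eq (A := ℚ_[l]) hinj x
  have e3 := minpoly.algEquiv_eq (σ.restrictScalars ℚ_[l]) x
  have h1 : minpoly ℚ_[l] ((σ x : L) : PadicAlgCl l) = minpoly ℚ_[l] ((x : L) : PadicAlgCl l) := by
    change minpoly ℚ_[l] (algebraMap L (PadicAlgCl l) (σ x)) =
      minpoly ℚ_[l] (algebraMap L (PadicAlgCl l) x)
    rw [e1, e2]
    exact e3
  rw [← PadicAlgCl.spectralNorm_eq, ← PadicAlgCl.spectralNorm_eq]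
  unfold spectralNorm
  rw [h1]

/-- **Trivial inertia from `e = 1`.**  If every nonzero norm of `L` is the norm of an element of
`K`, then a `K`-automorphism of `L` that is trivial on the residue field is trivial. -/
theorem algEquiv_eq_one_of_norm_mem [FiniteDimensional ℚ_[l] K] [FiniteDimensional K L]
    (hval : ∀ x : L, x ≠ 0 → ∃ y : K, ‖(x : PadicAlgCl l)‖ = ‖(y : PadicAlgCl l)‖)
    (σ : L ≃ₐ[K] L)
    (hσ : ∀ x : L, ‖(x : PadicAlgCl l)‖ ≤ 1 → ‖((σ x : L) : PadicAlgCl l) - x‖ < 1) :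
    σ = 1 := by
  haveI := finiteDimensional_restrictScalars K L
  obtain ⟨Q, hQ1, hQ⟩ := exists_frob_exponent (L.restrictScalars ℚ_[l])
  obtain ⟨ϖ, e, he, hϖ0, hϖ1, hdisc, -, -⟩ := exists_unif (L.restrictScalars ℚ_[l])
  have hϖpos : 0 < ‖(ϖ : PadicAlgCl l)‖ := by
    rw [norm_pos_iff]
    intro h
    exact hϖ0 (Subtype.ext h)
  obtain ⟨π, hπ⟩ := hval ⟨ϖ.1, ϖ.2⟩ (fun h => hϖ0 (Subtype.ext (congrArg Subtype.val h)))
  have hπ' : ‖(ϖ : PadicAlgCl l)‖ = ‖(π : PadicAlgCl l)‖ := hπ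
  have hπpos : 0 < ‖(π : PadicAlgCl l)‖ := hπ' ▸ hϖpos
  have hπ1 : ‖(π : PadicAlgCl l)‖ < 1 := hπ' ▸ hϖ1
  have hπ0 : (π : PadicAlgCl l) ≠ 0 := norm_pos_iff.mp hπpos
  -- (F2) elements of the open unit ball are divisible by `π`
  have F2 : ∀ x : L, ‖(x : PadicAlgCl l)‖ < 1 → ‖(x : PadicAlgCl l)‖ ≤ ‖(π : PadicAlgCl l)‖ := by
    intro x hx
    by_cases hx0 : x = 0
    · rw [hx0]; simp
    obtain ⟨k, hk⟩ := hdisc ⟨x.1, x.2⟩ (fun h => hx0 (Subtype.ext (congrArg Subtype.val h)))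
    have hk' : ‖(x : PadicAlgCl l)‖ = ‖(ϖ : PadicAlgCl l)‖ ^ k := hk
    rw [hk'] at hx ⊢
    rw [← hπ']
    have hk1 : 1 ≤ k := by
      by_contra hcon
      have hk0 : k ≤ 0 := by omega
      have : 1 ≤ ‖(ϖ : PadicAlgCl l)‖ ^ k := by
        obtain ⟨m, rfl⟩ : ∃ m : ℕ, k = -(m : ℤ) := ⟨(-k).toNat, by omega⟩
        rw [zpow_neg, zpow_natCast]
        exact (one_le_inv₀ (pow_pos hϖpos m)).mpr (pow_le_one₀ hϖpos.le hϖ1.le)
      linarith
    calc ‖(ϖ : PadicAlgCl l)‖ ^ k ≤ ‖(ϖ : PadicAlgCl l)‖ ^ (1 : ℤ) :=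
          zpow_le_zpow_right_of_le_one₀ hϖpos hϖ1.le hk1
      _ = ‖(ϖ : PadicAlgCl l)‖ := zpow_one _
  have hQπ : ‖(Q : PadicAlgCl l)‖ ≤ ‖(π : PadicAlgCl l)‖ := by
    have := F2 (Q : L) (by simpa using hQ1)
    simpa using this
  -- main induction
  have main : ∀ n : ℕ, ∀ x : L, ‖(x : PadicAlgCl l)‖ ≤ 1 →
      ‖((σ x : L) : PadicAlgCl l) - x‖ ≤ ‖(π : PadicAlgCl l)‖ ^ (n + 1) := by
    intro n
    induction n with
    | zero =>
      intro x hx
      have := F2 (σ x - x) (by simpa using hσ x hx)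
      simpa using this
    | succ n ih =>
      intro x hx
      have hσx : ‖((σ x : L) : PadicAlgCl l)‖ ≤ 1 := (norm_algEquiv_eq K L σ x).le.trans hx
      -- y = x ^ Q - x = π * z
      have hy : ‖((x ^ Q - x : L) : PadicAlgCl l)‖ < 1 := by
        have := hQ ⟨x.1, x.2⟩ hx
        simpa using this
      have hyπ := F2 (x ^ Q - x) hy
      set z : L := (algebraMap K L π)⁻¹ * (x ^ Q - x) with hz
      have hπL : ((algebraMap K L π : L) : PadicAlgCl l) = (π : PadicAlgCl l) := rfl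
      have hπL' : algebraMap K (PadicAlgCl l) π = (π : PadicAlgCl l) := rfl
      have hzn : ‖(z : PadicAlgCl l)‖ ≤ 1 := by
        rw [hz]
        push_cast
        rw [hπL', norm_mul, norm_inv, inv_mul_le_iff₀ hπpos, mul_one]
        simpa using hyπ
      have hyz : x ^ Q - x = algebraMap K L π * z := by
        rw [hz, ← mul_assoc, mul_inv_cancel₀, one_mul]
        intro h
        exact hπ0 (by rw [← hπL, h]; rfl)
      have hσy : σ (x ^ Q - x) = algebraMap K L π * σ z := by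
        rw [hyz, map_mul, σ.commutes]
      have key : ((σ x : L) : PadicAlgCl l) - x =
          (((σ x : L) : PadicAlgCl l) ^ Q - (x : PadicAlgCl l) ^ Q)
            - (π : PadicAlgCl l) * (((σ z : L) : PadicAlgCl l) - z) := by
        have h1 := congrArg (fun t : L => (t : PadicAlgCl l)) hσy
        have h2 := congrArg (fun t : L => (t : PadicAlgCl l)) hyz
        simp only [map_sub, map_pow] at h1
        push_cast at h1 h2
        rw [hπL'] at h1 h2
        linear_combination h2 - h1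
      have hd := ih x hx
      have hz' := ih z hzn
      have hpow_le : ‖(π : PadicAlgCl l)‖ ^ (n + 1) ≤ ‖(π : PadicAlgCl l)‖ := by
        calc ‖(π : PadicAlgCl l)‖ ^ (n + 1) ≤ ‖(π : PadicAlgCl l)‖ ^ 1 :=
              pow_le_pow_of_le_one hπpos.le hπ1.le (by omega)
          _ = _ := pow_one _
      rw [key, sub_eq_add_neg]
      refine (IsUltrametricDist.norm_add_le_max _ _).trans (max_le ?_ ?_)
      · refine (norm_pow_sub_pow_le hσx hx Q).trans ?_
        calc ‖((σ x : L) : PadicAlgCl l) - x‖ * max ‖(Q : PadicAlgCl l)‖ ‖((σ x : L) : PadicAlgCl l) - x‖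
            ≤ ‖(π : PadicAlgCl l)‖ ^ (n + 1) * ‖(π : PadicAlgCl l)‖ := by
              gcongr
              exact max_le hQπ (hd.trans hpow_le)
          _ = ‖(π : PadicAlgCl l)‖ ^ (n + 1 + 1) := (pow_succ _ _).symm
      · rw [norm_neg, norm_mul]
        calc ‖(π : PadicAlgCl l)‖ * ‖((σ z : L) : PadicAlgCl l) - z‖
            ≤ ‖(π : PadicAlgCl l)‖ * ‖(π : PadicAlgCl l)‖ ^ (n + 1) := by gcongr
          _ = ‖(π : PadicAlgCl l)‖ ^ (n + 1 + 1) := (pow_succ' _ _).symm
  -- conclusion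
  have fix1 : ∀ x : L, ‖(x : PadicAlgCl l)‖ ≤ 1 → σ x = x := by
    intro x hx
    have h0 : ‖((σ x : L) : PadicAlgCl l) - x‖ ≤ 0 := by
      have hlim : Filter.Tendsto (fun n : ℕ => ‖(π : PadicAlgCl l)‖ ^ (n + 1)) Filter.atTop (nhds 0) :=
        (tendsto_pow_atTop_nhds_zero_of_lt_one hπpos.le hπ1).comp (Filter.tendsto_add_atTop_nat 1)
      exact ge_of_tendsto' hlim (fun n => main n x hx)
    have h1 : ((σ x : L) : PadicAlgCl l) - x = 0 := norm_le_zero_iff.mp h0
    exact Subtype.ext (sub_eq_zero.mp h1)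
  ext x
  rcases le_or_gt ‖(x : PadicAlgCl l)‖ 1 with h | h
  · rw [fix1 x h]; rfl
  · have hx0 : x ≠ 0 := by
      rintro rfl
      simp at h
      linarith
    have hinv : ‖((x⁻¹ : L) : PadicAlgCl l)‖ ≤ 1 := by
      push_cast
      rw [norm_inv]
      exact inv_le_one_of_one_le₀ h.le
    have h2 := fix1 x⁻¹ hinv
    rw [map_inv₀] at h2
    have h3 : σ x = x := inv_injective h2
    rw [h3]; rfl

open Fermat.Agent.S55.helper7604 in
/-- **(I1)** `UnramSetting K L` for finite extensions `K ≤ L` of `ℚ_l` inside `PadicAlgCl l`, `L/K`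
Galois: the fields `isom`, `disc`, `resFinite` are automatic, only trivial inertia is needed. -/
theorem unramSetting_of_inertia [FiniteDimensional ℚ_[l] K] [FiniteDimensional K L] [IsGalois K L]
    (hin : ∀ σ : L ≃ₐ[K] L, (∀ x : L, ‖x‖ ≤ 1 → ‖σ x - x‖ < 1) → σ = 1) :
    UnramSetting K L := by
  haveI := finiteDimensional_restrictScalars K L
  refine ⟨fun σ x => norm_algEquiv_eq K L σ x, ?_, ?_, hin⟩
  · obtain ⟨ϖ, e, he, hϖ0, hϖ1, hdisc, -, -⟩ := exists_unif (L.restrictScalars ℚ_[l])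
    refine ⟨⟨ϖ.1, ϖ.2⟩, ?_, hϖ1, ?_⟩
    · show 0 < ‖(ϖ : PadicAlgCl l)‖
      rw [norm_pos_iff]
      intro h
      exact hϖ0 (Subtype.ext h)
    · intro x hx
      exact hdisc ⟨x.1, x.2⟩ (fun h => hx (Subtype.ext (congrArg Subtype.val h)))
  · classical
    obtain ⟨T, hT⟩ := exists_finset_reps (L.restrictScalars ℚ_[l])
    refine ⟨T.image (fun t => (⟨t.1, t.2⟩ : L)), ?_⟩
    intro x hx
    obtain ⟨t, ht, htx⟩ := hT ⟨x.1, x.2⟩ hx
    exact ⟨⟨t.1, t.2⟩, Finset.mem_image.mpr ⟨t, ht, rfl⟩, htx⟩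

open Fermat.Agent.S55.helper7604 in
/-- **(I2)** `UnramSetting K L` from `e(L/K) = 1`: every nonzero norm of `L` is a norm of `K`. -/
theorem unramSetting_of_norm_mem [FiniteDimensional ℚ_[l] K] [FiniteDimensional K L] [IsGalois K L]
    (hval : ∀ x : L, x ≠ 0 → ∃ y : K, ‖(x : PadicAlgCl l)‖ = ‖(y : PadicAlgCl l)‖) :
    UnramSetting K L :=
  unramSetting_of_inertia K L (fun σ h => algEquiv_eq_one_of_norm_mem K L hval σ h)

open Fermat.Agent.S55.helper7604 in
/-- **(I2')** `UnramSetting K L` for an absolutely unramified `L`: all norms are powers of `l`. -/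
theorem unramSetting_of_norm_zpow [FiniteDimensional ℚ_[l] K] [FiniteDimensional K L] [IsGalois K L]
    (hval : ∀ x : L, x ≠ 0 → ∃ k : ℤ, ‖(x : PadicAlgCl l)‖ = (l : ℝ) ^ k) :
    UnramSetting K L := by
  refine unramSetting_of_norm_mem K L (fun x hx => ?_)
  obtain ⟨k, hk⟩ := hval x hx
  refine ⟨((l : ℕ) : K) ^ (-k), ?_⟩
  rw [hk]
  have h1 : (((((l : ℕ) : K) ^ (-k) : K)) : PadicAlgCl l) = ((l : ℕ) : PadicAlgCl l) ^ (-k) :=
    rfl
  rw [h1, norm_zpow, norm_l, zpow_neg, inv_zpow, inv_inv]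

end inst

/-! ### Infinite level: `H²(unramified, units) = 0` on `Gal(PadicAlgCl l / ℚ_l)` -/

section infinite
open groupCohomology Fermat.Agent.S55.helper7604

variable (K L : IntermediateField ℚ_[l] (PadicAlgCl l))

example : Normal K (PadicAlgCl l) := inferInstance

theorem finiteDimensional_of_le [FiniteDimensional ℚ_[l] L] (hKL : K ≤ L) :
    FiniteDimensional ℚ_[l] K :=
  FiniteDimensional.of_injective (IntermediateField.inclusion hKL).toLinearMap
    (IntermediateField.inclusion_injective hKL)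

theorem finiteDimensional_extendScalars [FiniteDimensional ℚ_[l] L] (hKL : K ≤ L) :
    FiniteDimensional K (IntermediateField.extendScalars hKL) := by
  have h : Module.Finite ℚ_[l] (IntermediateField.extendScalars hKL) :=
    (inferInstance : Module.Finite ℚ_[l] L)
  exact Module.Finite.of_restrictScalars_finite ℚ_[l] K _

theorem normal_extendScalars (hKL : K ≤ L)
    (hnormal : ∀ g : PadicAlgCl l ≃ₐ[ℚ_[l]] PadicAlgCl l, g ∈ K.fixingSubgroup →
      ∀ x ∈ L, g x ∈ L) :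
    Normal K (IntermediateField.extendScalars hKL) := by
  rw [IntermediateField.normal_iff_forall_map_le']
  intro σ x hx
  obtain ⟨y, hy, rfl⟩ := hx
  have hmem : (σ.restrictScalars ℚ_[l]) ∈ K.fixingSubgroup := by
    rw [IntermediateField.mem_fixingSubgroup_iff]
    intro z hz
    exact σ.commutes ⟨z, hz⟩
  exact hnormal _ hmem y hy

/-- the restriction map `Gal(Ω/K) → Gal(L/K)` on the fixing subgroup -/
def resGal (hKL : K ≤ L) [Normal K (IntermediateField.extendScalars hKL)] :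
    K.fixingSubgroup →* ((IntermediateField.extendScalars hKL) ≃ₐ[K] (IntermediateField.extendScalars hKL)) :=
  (AlgEquiv.restrictNormalHom (IntermediateField.extendScalars hKL)).comp
    (IntermediateField.fixingSubgroupEquiv K).toMonoidHom

theorem resGal_apply (hKL : K ≤ L) [Normal K (IntermediateField.extendScalars hKL)]
    (g : K.fixingSubgroup) (y : IntermediateField.extendScalars hKL) :
    ((resGal K L hKL g y : IntermediateField.extendScalars hKL) : PadicAlgCl l) =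
      (g : PadicAlgCl l ≃ₐ[ℚ_[l]] PadicAlgCl l) (y : PadicAlgCl l) := by
  unfold resGal
  exact AlgEquiv.restrictNormal_commutes _ _ y

theorem resGal_surjective (hKL : K ≤ L) [Normal K (IntermediateField.extendScalars hKL)] :
    Function.Surjective (resGal K L hKL) := by
  unfold resGal
  intro σ
  obtain ⟨τ, hτ⟩ := AlgEquiv.restrictNormalHom_surjective (PadicAlgCl l) σ
  exact ⟨(IntermediateField.fixingSubgroupEquiv K).symm τ, by simpa using hτ⟩

theorem resGal_eq_one_iff (hKL : K ≤ L) [Normal K (IntermediateField.extendScalars hKL)]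
    (g : K.fixingSubgroup) :
    resGal K L hKL g = 1 ↔ (g : PadicAlgCl l ≃ₐ[ℚ_[l]] PadicAlgCl l) ∈ L.fixingSubgroup := by
  rw [IntermediateField.mem_fixingSubgroup_iff]
  constructor
  · intro h x hx
    have := resGal_apply K L hKL g ⟨x, hx⟩
    rw [h] at this
    exact this.symm
  · intro h
    ext y
    rw [resGal_apply]
    exact h y y.2

set_option synthInstance.maxHeartbeats 400000 in
set_option maxHeartbeats 1000000 in
/-- **(I3) Infinite-level `H²(unramified, units) = 0`.**  `K ≤ L` finite extensions of `ℚ_l`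
inside `Ω = PadicAlgCl l`, `L/K` normal with `e(L/K) = 1` (every nonzero norm of `L` is a norm
of `K`).  A unit-valued `2`-cocycle on `Γ_K = K.fixingSubgroup` that is inflated from `Gal(L/K)`
with values in `L` is the coboundary of a unit-valued cochain inflated from `Gal(L/K)` with
values in `L`. -/
theorem exists_unit_primitive [FiniteDimensional ℚ_[l] L] (hKL : K ≤ L)
    (hnormal : ∀ g : PadicAlgCl l ≃ₐ[ℚ_[l]] PadicAlgCl l, g ∈ K.fixingSubgroup →
      ∀ x ∈ L, g x ∈ L)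
    (hval : ∀ x ∈ L, x ≠ 0 → ∃ y ∈ K, ‖x‖ = ‖y‖)
    (C : (PadicAlgCl l ≃ₐ[ℚ_[l]] PadicAlgCl l) × (PadicAlgCl l ≃ₐ[ℚ_[l]] PadicAlgCl l) →
      (PadicAlgCl l)ˣ)
    (hcoc : ∀ g h j : PadicAlgCl l ≃ₐ[ℚ_[l]] PadicAlgCl l, g ∈ K.fixingSubgroup →
      h ∈ K.fixingSubgroup → j ∈ K.fixingSubgroup →
      C (g * h, j) * C (g, h) = g • C (h, j) * C (g, h * j))
    (hinv : ∀ g h s t : PadicAlgCl l ≃ₐ[ℚ_[l]] PadicAlgCl l, g ∈ K.fixingSubgroup →
      h ∈ K.fixingSubgroup → s ∈ L.fixingSubgroup → t ∈ L.fixingSubgroup →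
      C (g * s, h * t) = C (g, h))
    (hL : ∀ g h : PadicAlgCl l ≃ₐ[ℚ_[l]] PadicAlgCl l, g ∈ K.fixingSubgroup →
      h ∈ K.fixingSubgroup → (C (g, h) : PadicAlgCl l) ∈ L)
    (h1 : ∀ g h : PadicAlgCl l ≃ₐ[ℚ_[l]] PadicAlgCl l, g ∈ K.fixingSubgroup →
      h ∈ K.fixingSubgroup → ‖(C (g, h) : PadicAlgCl l)‖ = 1) :
    ∃ x : (PadicAlgCl l ≃ₐ[ℚ_[l]] PadicAlgCl l) → (PadicAlgCl l)ˣ,
      (∀ g s : PadicAlgCl l ≃ₐ[ℚ_[l]] PadicAlgCl l, s ∈ L.fixingSubgroup → x (g * s) = x g) ∧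
      (∀ g, ‖(x g : PadicAlgCl l)‖ = 1) ∧ (∀ g, (x g : PadicAlgCl l) ∈ L) ∧
      ∀ g h : PadicAlgCl l ≃ₐ[ℚ_[l]] PadicAlgCl l, g ∈ K.fixingSubgroup →
        h ∈ K.fixingSubgroup → g • x h / x (g * h) * x g = C (g, h) := by
  classical
  haveI := finiteDimensional_of_le K L hKL
  haveI := finiteDimensional_extendScalars K L hKL
  haveI : Normal K (IntermediateField.extendScalars hKL) := normal_extendScalars K L hKL hnormal
  haveI : IsGalois K (IntermediateField.extendScalars hKL) := IsGalois.mk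
  have hU : UnramSetting K (IntermediateField.extendScalars hKL) :=
    unramSetting_of_norm_mem K _ (fun x hx => by
      obtain ⟨y, hy, hxy⟩ := hval x x.2 (fun h => hx (Subtype.ext h))
      exact ⟨⟨y, hy⟩, hxy⟩)
  haveI : CompleteSpace (IntermediateField.extendScalars hKL) := completeSpace_of_finite K _
  have hLK : L.fixingSubgroup ≤ K.fixingSubgroup := IntermediateField.fixingSubgroup_antitone hKL
  -- a section of the restriction map
  choose s hs using resGal_surjective K L hKL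
  -- invariance under change of lifts
  have hA : ∀ g g' h h' : K.fixingSubgroup, resGal K L hKL g = resGal K L hKL g' →
      resGal K L hKL h = resGal K L hKL h' →
      C ((g : PadicAlgCl l ≃ₐ[ℚ_[l]] PadicAlgCl l), (h : PadicAlgCl l ≃ₐ[ℚ_[l]] PadicAlgCl l)) =
        C ((g' : PadicAlgCl l ≃ₐ[ℚ_[l]] PadicAlgCl l), (h' : PadicAlgCl l ≃ₐ[ℚ_[l]] PadicAlgCl l)) := by
    intro g g' h h' hg hh
    have m1 : ((g⁻¹ * g' : K.fixingSubgroup) : PadicAlgCl l ≃ₐ[ℚ_[l]] PadicAlgCl l) ∈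
        L.fixingSubgroup :=
      (resGal_eq_one_iff K L hKL _).mp (by rw [map_mul, map_inv, hg, inv_mul_cancel])
    have m2 : ((h⁻¹ * h' : K.fixingSubgroup) : PadicAlgCl l ≃ₐ[ℚ_[l]] PadicAlgCl l) ∈
        L.fixingSubgroup :=
      (resGal_eq_one_iff K L hKL _).mp (by rw [map_mul, map_inv, hh, inv_mul_cancel])
    have e := hinv g h _ _ g.2 h.2 m1 m2
    rw [← e]
    congr 2 <;> simp
  -- the finite-level cocycle
  let cbar : ((IntermediateField.extendScalars hKL) ≃ₐ[K] (IntermediateField.extendScalars hKL)) ×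
      ((IntermediateField.extendScalars hKL) ≃ₐ[K] (IntermediateField.extendScalars hKL)) →
      (IntermediateField.extendScalars hKL)ˣ := fun p =>
    Units.mk0 ⟨(C ((s p.1 : PadicAlgCl l ≃ₐ[ℚ_[l]] PadicAlgCl l),
      (s p.2 : PadicAlgCl l ≃ₐ[ℚ_[l]] PadicAlgCl l)) : PadicAlgCl l), hL _ _ (s p.1).2 (s p.2).2⟩
      (fun h => (C ((s p.1 : PadicAlgCl l ≃ₐ[ℚ_[l]] PadicAlgCl l),
        (s p.2 : PadicAlgCl l ≃ₐ[ℚ_[l]] PadicAlgCl l))).ne_zero (congrArg Subtype.val h))
  have hcbar_val : ∀ p, (((cbar p : (IntermediateField.extendScalars hKL)ˣ) :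
      IntermediateField.extendScalars hKL) : PadicAlgCl l) =
      (C ((s p.1 : PadicAlgCl l ≃ₐ[ℚ_[l]] PadicAlgCl l),
        (s p.2 : PadicAlgCl l ≃ₐ[ℚ_[l]] PadicAlgCl l)) : PadicAlgCl l) := fun p => rfl
  have hcbar : IsMulCocycle₂ cbar := by
    intro g h j
    apply Units.ext
    apply Subtype.ext
    have e1 : C (((s (g * h) : K.fixingSubgroup) : PadicAlgCl l ≃ₐ[ℚ_[l]] PadicAlgCl l),
        ((s j : K.fixingSubgroup) : PadicAlgCl l ≃ₐ[ℚ_[l]] PadicAlgCl l)) =
        C (((s g * s h : K.fixingSubgroup) : PadicAlgCl l ≃ₐ[ℚ_[l]] PadicAlgCl l),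
          ((s j : K.fixingSubgroup) : PadicAlgCl l ≃ₐ[ℚ_[l]] PadicAlgCl l)) :=
      hA _ _ _ _ (by rw [hs, map_mul, hs, hs]) rfl
    have e2 : C (((s g : K.fixingSubgroup) : PadicAlgCl l ≃ₐ[ℚ_[l]] PadicAlgCl l),
        ((s (h * j) : K.fixingSubgroup) : PadicAlgCl l ≃ₐ[ℚ_[l]] PadicAlgCl l)) =
        C (((s g : K.fixingSubgroup) : PadicAlgCl l ≃ₐ[ℚ_[l]] PadicAlgCl l),
          ((s h * s j : K.fixingSubgroup) : PadicAlgCl l ≃ₐ[ℚ_[l]] PadicAlgCl l)) :=
      hA _ _ _ _ rfl (by rw [hs, map_mul, hs, hs])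
    have e3 := congrArg (fun u : (PadicAlgCl l)ˣ => (u : PadicAlgCl l))
      (hcoc (s g) (s h) (s j) (s g).2 (s h).2 (s j).2)
    simp only [Units.val_mul, AlgEquiv.smul_units_def, Units.coe_map, MonoidHom.coe_coe] at e3
    have e4 : ((g ((cbar (h, j) : (IntermediateField.extendScalars hKL)ˣ) :
        IntermediateField.extendScalars hKL) : IntermediateField.extendScalars hKL) :
        PadicAlgCl l) = (s g : PadicAlgCl l ≃ₐ[ℚ_[l]] PadicAlgCl l)
          (C ((s h : PadicAlgCl l ≃ₐ[ℚ_[l]] PadicAlgCl l),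
            (s j : PadicAlgCl l ≃ₐ[ℚ_[l]] PadicAlgCl l)) : PadicAlgCl l) := by
      conv_lhs => rw [← hs g]
      rw [resGal_apply]
      rfl
    simp only [Units.val_mul, AlgEquiv.smul_units_def, Units.coe_map, MonoidHom.coe_coe,
      IntermediateField.coe_mul]
    rw [hcbar_val, hcbar_val, hcbar_val, e4]
    show (C (((s (g * h) : K.fixingSubgroup) : PadicAlgCl l ≃ₐ[ℚ_[l]] PadicAlgCl l),
        ((s j : K.fixingSubgroup) : PadicAlgCl l ≃ₐ[ℚ_[l]] PadicAlgCl l)) : PadicAlgCl l) *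
        (C (((s g : K.fixingSubgroup) : PadicAlgCl l ≃ₐ[ℚ_[l]] PadicAlgCl l),
          ((s h : K.fixingSubgroup) : PadicAlgCl l ≃ₐ[ℚ_[l]] PadicAlgCl l)) : PadicAlgCl l) = _ *
        (C (((s g : K.fixingSubgroup) : PadicAlgCl l ≃ₐ[ℚ_[l]] PadicAlgCl l),
          ((s (h * j) : K.fixingSubgroup) : PadicAlgCl l ≃ₐ[ℚ_[l]] PadicAlgCl l)) : PadicAlgCl l)
    rw [e1, e2]
    exact e3
  obtain ⟨xbar, hx1, hx⟩ := isMulCoboundary₂_unit hU cbar hcbar
    (fun p => h1 _ _ (s p.1).2 (s p.2).2)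
  -- the inflated primitive
  let ι : (IntermediateField.extendScalars hKL)ˣ →* (PadicAlgCl l)ˣ :=
    Units.map ((algebraMap (IntermediateField.extendScalars hKL) (PadicAlgCl l) :
      IntermediateField.extendScalars hKL →+* PadicAlgCl l) :
      IntermediateField.extendScalars hKL →* PadicAlgCl l)
  have hι_val : ∀ u : (IntermediateField.extendScalars hKL)ˣ,
      ((ι u : (PadicAlgCl l)ˣ) : PadicAlgCl l) =
        ((u : IntermediateField.extendScalars hKL) : PadicAlgCl l) := fun u => rfl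
  have hι_smul : ∀ (g : K.fixingSubgroup) (u : (IntermediateField.extendScalars hKL)ˣ),
      (g : PadicAlgCl l ≃ₐ[ℚ_[l]] PadicAlgCl l) • ι u = ι (resGal K L hKL g • u) := by
    intro g u
    apply Units.ext
    rw [AlgEquiv.smul_units_def, Units.coe_map, hι_val, hι_val, AlgEquiv.smul_units_def,
      Units.coe_map]
    exact (resGal_apply K L hKL g u).symm
  refine ⟨fun g => if hg : g ∈ K.fixingSubgroup then ι (xbar (resGal K L hKL ⟨g, hg⟩)) else 1,
    ?_, ?_, ?_, ?_⟩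
  · intro g t ht
    beta_reduce
    by_cases hg : g ∈ K.fixingSubgroup
    · have hgt : g * t ∈ K.fixingSubgroup := mul_mem hg (hLK ht)
      rw [dif_pos hgt, dif_pos hg]
      have : resGal K L hKL ⟨g * t, hgt⟩ = resGal K L hKL ⟨g, hg⟩ := by
        have e : (⟨g * t, hgt⟩ : K.fixingSubgroup) = ⟨g, hg⟩ * ⟨t, hLK ht⟩ := rfl
        rw [e, map_mul, (resGal_eq_one_iff K L hKL ⟨t, hLK ht⟩).mpr ht, mul_one]
      rw [this]
    · have hgt : g * t ∉ K.fixingSubgroup := fun h =>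
        hg ((mul_mem_cancel_right (hLK ht)).mp h)
      rw [dif_neg hgt, dif_neg hg]
  · intro g
    beta_reduce
    by_cases hg : g ∈ K.fixingSubgroup
    · rw [dif_pos hg, hι_val]
      exact hx1 _
    · rw [dif_neg hg]; simp
  · intro g
    beta_reduce
    by_cases hg : g ∈ K.fixingSubgroup
    · rw [dif_pos hg, hι_val]
      exact ((xbar (resGal K L hKL ⟨g, hg⟩) : (IntermediateField.extendScalars hKL)ˣ) :
        IntermediateField.extendScalars hKL).2
    · rw [dif_neg hg]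
      exact L.one_mem
  · intro g h hg hh
    have hgh : g * h ∈ K.fixingSubgroup := mul_mem hg hh
    beta_reduce
    rw [dif_pos hg, dif_pos hh, dif_pos hgh]
    have e1 : (⟨g * h, hgh⟩ : K.fixingSubgroup) = ⟨g, hg⟩ * ⟨h, hh⟩ := rfl
    have e2 := hι_smul ⟨g, hg⟩ (xbar (resGal K L hKL ⟨h, hh⟩))
    have e2' : g • ι (xbar (resGal K L hKL ⟨h, hh⟩)) =
        ι (resGal K L hKL ⟨g, hg⟩ • xbar (resGal K L hKL ⟨h, hh⟩)) := e2
    rw [e2', e1, map_mul, ← _root_.map_div, ← map_mul, hx]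
    apply Units.ext
    rw [hι_val, hcbar_val]
    exact congrArg (fun u : (PadicAlgCl l)ˣ => (u : PadicAlgCl l))
      (hA _ _ _ _ (hs _) (hs _))

end infinite

end Fermat.Agent.S55.helper1168
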