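import Mathlib
import Fermat.Prelude.Def_GaloisRep_CompletionBridge
import Fermat.Prelude.Def_FLTPrelim_Ramification
import Fermat.Agent.Lib.helper54_LocalSplit2
import Fermat.Agent.S14.helper1892_M6Defs

/-!
# S55-GLBRIDGE: number field <-> local field dictionary at the place cut out by `padicPlace q`
(helper1652)

For a number field `L ⊆ ℚ̄` (an `IntermediateField ℚ (AlgebraicClosure ℚ)`, finite over `ℚ`), a
prime `q`, `ι := padicEmbedding q : ℚ̄ → PadicAlgCl q`, the local field
`localFieldAt q L := ℚ_q(ι L) ⊆ PadicAlgCl q` and the prime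
`placeAt q L := helper54.heightOneOL L _ (padicPlace q) _` of `𝓞 L`:

* (B0) `padicPlace_liesOverPrime`;
* (B1) `exists_global_approx`: `ι L` is dense in `localFieldAt q L`;
* (B2) `placeAt_valuation_le_one_iff` (and `<`, `=`), `placeAt_valuation_le_exp_iff`;
* (B3) `locPow_iff_exists_pow_eq`: the completion-free `helper1892.LocPow` is
  "`p`-th power in the local field".
-/

set_option autoImplicit false
set_option linter.unusedSectionVars false

namespace Fermat.Agent.S55.helper1652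

open IsDedekindDomain
open scoped NumberField NNReal

attribute [local instance] Fermat.Agent.Lib.helper54.isAlgebraic_Qbar
  Fermat.Agent.Lib.helper54.isAlgClosure_Qbar Fermat.Agent.Lib.helper54.isGalois_Qbar
  Fermat.Agent.Lib.helper54.isIntegral_Qbar
attribute [local instance] Fermat.Agent.Lib.helper54.numberField_intermediate

local notation "Qb" => AlgebraicClosure ℚ

section Place

variable (q : ℕ) [Fact q.Prime]

/-- The embedding `ι` restricted to a subfield `L` of `ℚ̄`. -/
noncomputable def iotaL (L : IntermediateField ℚ Qb) : L →+* PadicAlgCl q :=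
  (padicEmbedding q).toRingHom.comp (algebraMap L Qb)

theorem iotaL_apply (L : IntermediateField ℚ Qb) (x : L) :
    iotaL q L x = padicEmbedding q (algebraMap L Qb x) := rfl

theorem iotaL_injective (L : IntermediateField ℚ Qb) : Function.Injective (iotaL q L) :=
  (iotaL q L).injective

theorem norm_padicEmbedding_natCast_self : ‖padicEmbedding q ((q : ℕ) : Qb)‖ = (q : ℝ)⁻¹ := by
  rw [map_natCast]
  have h : ((q : ℕ) : PadicAlgCl q) = algebraMap ℚ_[q] (PadicAlgCl q) ((q : ℕ) : ℚ_[q]) := by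
    rw [map_natCast]
  rw [h, PadicAlgCl.norm_extends, Padic.norm_p]

/-- Membership in the nonunits of `padicPlace q`. -/
theorem mem_nonunits_padicPlace_iff (x : Qb) :
    x ∈ (padicPlace q).nonunits ↔ ‖padicEmbedding q x‖ < 1 := by
  rw [ValuationSubring.mem_nonunits_iff]
  by_cases hx0 : x = 0
  · subst hx0
    simp
  have hne : (padicPlace q).valuation x ≠ 0 := by
    rw [Ne, map_eq_zero]
    exact hx0
  have hιx : padicEmbedding q x ≠ 0 := by
    rw [Ne, map_eq_zero]
    exact hx0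
  have h1 : (1 : _) ≤ (padicPlace q).valuation x ↔ x⁻¹ ∈ padicPlace q := by
    rw [← ValuationSubring.valuation_le_one_iff, map_inv₀, inv_le_one₀ (zero_lt_iff.mpr hne)]
  have h2 : x⁻¹ ∈ padicPlace q ↔ 1 ≤ ‖padicEmbedding q x‖ := by
    rw [mem_padicPlace_iff, map_inv₀, nnnorm_inv, ← NNReal.coe_le_coe]
    push_cast
    rw [inv_le_one₀ (norm_pos_iff.mpr hιx)]
  rw [← not_le, h1, h2, not_le]

/-- **(B0)** `padicPlace q` lies over `q`. -/
theorem padicPlace_liesOverPrime : (padicPlace q).LiesOverPrime q := by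
  show ((q : ℕ) : Qb) ∈ (padicPlace q).nonunits
  rw [mem_nonunits_padicPlace_iff, norm_padicEmbedding_natCast_self]
  have hq : (1 : ℝ) < q := by exact_mod_cast (Fact.out : q.Prime).one_lt
  exact inv_lt_one_of_one_lt₀ hq

theorem padicPlace_valuation_le_one_iff (x : Qb) :
    (padicPlace q).valuation x ≤ 1 ↔ ‖padicEmbedding q x‖ ≤ 1 := by
  rw [ValuationSubring.valuation_le_one_iff, mem_padicPlace_iff, ← NNReal.coe_le_coe]
  simp

theorem padicPlace_valuation_lt_one_iff (x : Qb) :
    (padicPlace q).valuation x < 1 ↔ ‖padicEmbedding q x‖ < 1 := by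
  rw [← mem_nonunits_padicPlace_iff, ValuationSubring.mem_nonunits_iff]

variable (L : IntermediateField ℚ Qb) [FiniteDimensional ℚ L]

/-- The prime of `𝓞 L` cut out by the embedding `ι : ℚ̄ → PadicAlgCl q`. -/
noncomputable def placeAt : HeightOneSpectrum (𝓞 L) :=
  Fermat.Agent.Lib.helper54.heightOneOL L (Fact.out : q.Prime) (padicPlace q)
    (padicPlace_liesOverPrime q)

/-- **(B2)** integrality dictionary. -/
theorem placeAt_valuation_le_one_iff (x : L) :
    (placeAt q L).valuation L x ≤ 1 ↔ ‖iotaL q L x‖ ≤ 1 := by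
  rw [placeAt, Fermat.Agent.Lib.helper54.heightOneOL_valuation_le_one_iff,
    padicPlace_valuation_le_one_iff]
  rfl

theorem placeAt_valuation_lt_one_iff (x : L) :
    (placeAt q L).valuation L x < 1 ↔ ‖iotaL q L x‖ < 1 := by
  rw [placeAt, Fermat.Agent.Lib.helper54.heightOneOL_valuation_lt_one_iff,
    padicPlace_valuation_lt_one_iff]
  rfl

theorem placeAt_valuation_eq_one_iff (x : L) :
    (placeAt q L).valuation L x = 1 ↔ ‖iotaL q L x‖ = 1 := by
  have h1 := placeAt_valuation_le_one_iff q L x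
  have h2 := placeAt_valuation_lt_one_iff q L x
  constructor
  · intro h
    exact le_antisymm (h1.mp h.le) (not_lt.mp (fun h3 => absurd (h2.mpr h3) (not_lt.mpr h.ge)))
  · intro h
    exact le_antisymm (h1.mpr h.le) (not_lt.mp (fun h3 => absurd (h2.mp h3) (not_lt.mpr h.ge)))

end Place

section Density

variable (q : ℕ) [Fact q.Prime] (L : IntermediateField ℚ Qb)

/-- The local field `ℚ_q(ι L) ⊆ PadicAlgCl q` attached to a subfield `L` of `ℚ̄`. -/
noncomputable def localFieldAt : IntermediateField ℚ_[q] (PadicAlgCl q) :=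
  IntermediateField.adjoin ℚ_[q] ((padicEmbedding q) '' (L : Set Qb))

theorem image_eq_range_iotaL :
    (padicEmbedding q) '' (L : Set Qb) = Set.range (iotaL q L) := by
  ext y
  constructor
  · rintro ⟨x, hx, rfl⟩
    exact ⟨⟨x, hx⟩, rfl⟩
  · rintro ⟨x, rfl⟩
    exact ⟨(x : Qb), x.2, rfl⟩

theorem iotaL_mem_localFieldAt (x : L) : iotaL q L x ∈ localFieldAt q L :=
  IntermediateField.subset_adjoin _ _ ⟨(x : Qb), x.2, rfl⟩

/-- `ι` is compatible with rational scalars. -/
theorem iotaL_rat_smul (r : ℚ) (x : L) :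
    iotaL q L (r • x) = (r : ℚ_[q]) • iotaL q L x := by
  rw [Algebra.smul_def, map_mul, Algebra.smul_def, eq_ratCast, map_ratCast, map_ratCast]

/-- Elements of the local field are `ℚ_q`-linear combinations of elements of `ι L`. -/
theorem mem_span_range_of_mem_localFieldAt {y : PadicAlgCl q} (hy : y ∈ localFieldAt q L) :
    y ∈ Submodule.span ℚ_[q] (Set.range (iotaL q L)) := by
  have halg : ∀ x ∈ (padicEmbedding q) '' (L : Set Qb), IsAlgebraic ℚ_[q] x :=
    fun x _ => Algebra.IsAlgebraic.isAlgebraic x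
  have h1 : (localFieldAt q L).toSubalgebra =
      Algebra.adjoin ℚ_[q] ((padicEmbedding q) '' (L : Set Qb)) :=
    IntermediateField.adjoin_toSubalgebra_of_isAlgebraic halg
  have h2 : y ∈ Algebra.adjoin ℚ_[q] ((padicEmbedding q) '' (L : Set Qb)) := by
    rw [← h1]
    exact hy
  rw [image_eq_range_iotaL] at h2
  have h3 : y ∈ Submodule.span ℚ_[q]
      ((Submonoid.closure (Set.range (iotaL q L)) : Submonoid (PadicAlgCl q)) : Set (PadicAlgCl q)) := by
    rw [← Algebra.adjoin_eq_span]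
    exact h2
  have h4 : ((Submonoid.closure (Set.range (iotaL q L)) : Submonoid (PadicAlgCl q)) :
      Set (PadicAlgCl q)) = Set.range (iotaL q L) := by
    have : (Set.range (iotaL q L)) = (((iotaL q L).range.toSubmonoid : Submonoid (PadicAlgCl q)) :
        Set (PadicAlgCl q)) := rfl
    rw [this, Submonoid.closure_eq]
  rw [h4] at h3
  exact h3

variable [FiniteDimensional ℚ L]

/-- The images of a `ℚ`-basis of `L` span the local field over `ℚ_q`. -/
theorem exists_coeffs_of_mem_localFieldAt {n : ℕ} (b : Module.Basis (Fin n) ℚ L)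
    {y : PadicAlgCl q} (hy : y ∈ localFieldAt q L) :
    ∃ c : Fin n → ℚ_[q], y = ∑ i, c i • iotaL q L (b i) := by
  have h1 := mem_span_range_of_mem_localFieldAt q L hy
  have h2 : Submodule.span ℚ_[q] (Set.range (iotaL q L)) ≤
      Submodule.span ℚ_[q] (Set.range (fun i => iotaL q L (b i))) := by
    rw [Submodule.span_le]
    rintro _ ⟨x, rfl⟩
    have hx : x = ∑ i, b.repr x i • b i := (b.sum_repr x).symm
    rw [hx, map_sum]
    refine Submodule.sum_mem _ (fun i _ => ?_)
    rw [iotaL_rat_smul]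
    exact Submodule.smul_mem _ _ (Submodule.subset_span ⟨i, rfl⟩)
  obtain ⟨c, hc⟩ := (Submodule.mem_span_range_iff_exists_fun ℚ_[q]).mp (h2 h1)
  exact ⟨c, hc.symm⟩

/-- **(B1)** density of `ι L` in the local field `ℚ_q(ι L)`. -/
theorem exists_global_approx {y : PadicAlgCl q} (hy : y ∈ localFieldAt q L) {ε : ℝ} (hε : 0 < ε) :
    ∃ x : L, ‖iotaL q L x - y‖ < ε := by
  set n := Module.finrank ℚ L with hn
  set b : Module.Basis (Fin n) ℚ L := Module.finBasis ℚ L with hb
  obtain ⟨c, hc⟩ := exists_coeffs_of_mem_localFieldAt q L b hy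
  set B : ℝ := ∑ i, ‖iotaL q L (b i)‖ + 1 with hB
  have hB0 : 0 < B := by
    have : 0 ≤ ∑ i, ‖iotaL q L (b i)‖ := Finset.sum_nonneg (fun i _ => norm_nonneg _)
    linarith
  have hδ : 0 < ε / B := div_pos hε hB0
  choose r hr using fun i => Padic.rat_dense q (c i) hδ
  refine ⟨∑ i, r i • b i, ?_⟩
  have h1 : iotaL q L (∑ i, r i • b i) - y = ∑ i, ((r i : ℚ_[q]) - c i) • iotaL q L (b i) := by
    rw [hc, map_sum, ← Finset.sum_sub_distrib]
    refine Finset.sum_congr rfl (fun i _ => ?_)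
    rw [iotaL_rat_smul, sub_smul]
  rw [h1]
  calc ‖∑ i, ((r i : ℚ_[q]) - c i) • iotaL q L (b i)‖
      ≤ ∑ i, ‖((r i : ℚ_[q]) - c i) • iotaL q L (b i)‖ := norm_sum_le _ _
    _ ≤ ∑ i, (ε / B) * ‖iotaL q L (b i)‖ := by
        refine Finset.sum_le_sum (fun i _ => ?_)
        rw [norm_smul]
        refine mul_le_mul_of_nonneg_right ?_ (norm_nonneg _)
        rw [← norm_neg, neg_sub]
        exact (hr i).le
    _ = (ε / B) * ∑ i, ‖iotaL q L (b i)‖ := by rw [Finset.mul_sum]
    _ < (ε / B) * B := by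
        refine mul_lt_mul_of_pos_left ?_ hδ
        rw [hB]
        linarith
    _ = ε := div_mul_cancel₀ ε hB0.ne'

/-- The local field is finite over `ℚ_q`. -/
instance finiteDimensional_localFieldAt : FiniteDimensional ℚ_[q] (localFieldAt q L) := by
  set n := Module.finrank ℚ L with hn
  set b : Module.Basis (Fin n) ℚ L := Module.finBasis ℚ L with hb
  have hle : (localFieldAt q L).toSubalgebra.toSubmodule ≤
      Submodule.span ℚ_[q] (Set.range (fun i => iotaL q L (b i))) := by
    intro y hy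
    obtain ⟨c, hc⟩ := exists_coeffs_of_mem_localFieldAt q L b hy
    rw [hc]
    exact Submodule.sum_mem _ (fun i _ => Submodule.smul_mem _ _ (Submodule.subset_span ⟨i, rfl⟩))
  have : FiniteDimensional ℚ_[q]
      (Submodule.span ℚ_[q] (Set.range (fun i => iotaL q L (b i)))) :=
    FiniteDimensional.span_of_finite ℚ_[q] (Set.finite_range _)
  exact Submodule.finiteDimensional_of_le hle

end Density

section Quantitative

variable (q : ℕ) [Fact q.Prime] (L : IntermediateField ℚ Qb) [FiniteDimensional ℚ L]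

theorem norm_iotaL_uniformizer_pos {π : L}
    (hπ : (placeAt q L).valuation L π = WithZero.exp (-1 : ℤ)) : 0 < ‖iotaL q L π‖ := by
  rw [norm_pos_iff, Ne, map_eq_zero]
  rintro rfl
  rw [map_zero] at hπ
  exact WithZero.exp_ne_zero hπ.symm

theorem norm_iotaL_uniformizer_lt_one {π : L}
    (hπ : (placeAt q L).valuation L π = WithZero.exp (-1 : ℤ)) : ‖iotaL q L π‖ < 1 := by
  rw [← placeAt_valuation_lt_one_iff, hπ, ← WithZero.exp_zero, WithZero.exp_lt_exp]
  norm_num

/-- **(B2), quantitative.** If `x` has `w`-adic valuation `exp (-k)` then `‖ι x‖ = ‖ι π‖ ^ k`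
for any uniformizer `π` at `w`. -/
theorem norm_iotaL_eq_zpow {π : L}
    (hπ : (placeAt q L).valuation L π = WithZero.exp (-1 : ℤ)) {x : L} (k : ℤ)
    (hk : (placeAt q L).valuation L x = WithZero.exp (-k)) :
    ‖iotaL q L x‖ = ‖iotaL q L π‖ ^ k := by
  have hρ := norm_iotaL_uniformizer_pos q L hπ
  have h1 : (placeAt q L).valuation L (x * (π ^ k)⁻¹) = 1 := by
    rw [map_mul, map_inv₀, map_zpow₀, hπ, hk, ← WithZero.exp_zsmul, smul_eq_mul, mul_neg_one]
    exact mul_inv_cancel₀ WithZero.exp_ne_zero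
  have h2 := (placeAt_valuation_eq_one_iff q L _).mp h1
  rw [map_mul, map_inv₀, map_zpow₀, norm_mul, norm_inv, norm_zpow] at h2
  exact (mul_inv_eq_one₀ (zpow_ne_zero _ hρ.ne')).mp h2

/-- **(B2), quantitative.** `w(x) ≤ exp (-N)` iff `‖ι x‖ ≤ ‖ι π‖ ^ N`. -/
theorem placeAt_valuation_le_exp_iff {π : L}
    (hπ : (placeAt q L).valuation L π = WithZero.exp (-1 : ℤ)) (x : L) (N : ℤ) :
    (placeAt q L).valuation L x ≤ WithZero.exp (-N) ↔ ‖iotaL q L x‖ ≤ ‖iotaL q L π‖ ^ N := by
  have hρ0 := norm_iotaL_uniformizer_pos q L hπ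
  have hρ1 := norm_iotaL_uniformizer_lt_one q L hπ
  by_cases hx : x = 0
  · subst hx
    simp only [map_zero, norm_zero, zero_le, true_iff]
    exact zpow_nonneg hρ0.le _
  · have hv : (placeAt q L).valuation L x ≠ 0 := by
      rw [Ne, map_eq_zero]
      exact hx
    set k : ℤ := - WithZero.log ((placeAt q L).valuation L x) with hkdef
    have hk : (placeAt q L).valuation L x = WithZero.exp (-k) := by
      rw [hkdef, neg_neg, WithZero.exp_log hv]
    rw [norm_iotaL_eq_zpow q L hπ k hk, hk, WithZero.exp_le_exp, neg_le_neg_iff]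
    exact (zpow_le_zpow_iff_right_of_lt_one₀ hρ0 hρ1).symm

end Quantitative

section LocPow

open Fermat.Agent.S14.helper1892 (LocPow LocPowN)

variable (q : ℕ) [Fact q.Prime]

/-- Ultrametric estimate: `‖u ^ n - 1‖ ≤ ‖u - 1‖` when `‖u - 1‖ ≤ 1`. -/
theorem norm_pow_sub_one_le {u : PadicAlgCl q} (hu : ‖u - 1‖ ≤ 1) (n : ℕ) :
    ‖u ^ n - 1‖ ≤ ‖u - 1‖ := by
  have hu1 : ‖u‖ ≤ 1 := by
    have e : u = (u - 1) + 1 := by ring
    rw [e]
    exact (IsUltrametricDist.norm_add_le_max _ _).trans (max_le hu (by simp))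
  induction n with
  | zero => simp
  | succ n ih =>
    have e : u ^ (n + 1) - 1 = u * (u ^ n - 1) + (u - 1) := by ring
    rw [e]
    refine (IsUltrametricDist.norm_add_le_max _ _).trans (max_le ?_ le_rfl)
    rw [norm_mul]
    calc ‖u‖ * ‖u ^ n - 1‖ ≤ 1 * ‖u - 1‖ := mul_le_mul hu1 ih (norm_nonneg _) zero_le_one
      _ = ‖u - 1‖ := one_mul _

/-- Ultrametric: `‖a - 1‖ < 1` forces `‖a‖ = 1`. -/
theorem norm_eq_one_of_norm_sub_one_lt {a : PadicAlgCl q} (h : ‖a - 1‖ < 1) : ‖a‖ = 1 := by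
  have e : a = (a - 1) + 1 := by ring
  have hne : ‖a - 1‖ ≠ ‖(1 : PadicAlgCl q)‖ := by
    rw [norm_one]
    exact h.ne
  rw [e, IsUltrametricDist.norm_add_eq_max_of_norm_ne_norm hne, norm_one]
  exact max_eq_right h.le

variable (L : IntermediateField ℚ Qb) [FiniteDimensional ℚ L]

/-- **(B3), easy direction.** A `p`-th power in the local field is a completion-free local
`p`-th power in the sense of the S14 modules. -/
theorem locPow_of_exists_pow_eq (p : ℕ) (hp : p ≠ 0) (x : Lˣ)
    (h : ∃ y ∈ localFieldAt q L, y ^ p = iotaL q L (x : L)) :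
    LocPow p (placeAt q L) x := by
  obtain ⟨y, hyL, hy⟩ := h
  obtain ⟨π, hπ⟩ := (placeAt q L).valuation_exists_uniformizer L
  have hρ0 := norm_iotaL_uniformizer_pos q L hπ
  have hρ1 := norm_iotaL_uniformizer_lt_one q L hπ
  intro N
  have hx0 : iotaL q L (x : L) ≠ 0 := by
    rw [Ne, map_eq_zero]
    exact x.ne_zero
  have hy0 : y ≠ 0 := by
    rintro rfl
    rw [zero_pow hp] at hy
    exact hx0 hy.symm
  have hyn : 0 < ‖y‖ := norm_pos_iff.mpr hy0
  have hε : 0 < ‖iotaL q L π‖ ^ (N : ℤ) * ‖y‖ := mul_pos (zpow_pos hρ0 _) hyn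
  obtain ⟨z, hz⟩ := exists_global_approx q L hyL hε
  have hρN : ‖iotaL q L π‖ ^ (N : ℤ) ≤ 1 := by
    rw [zpow_natCast]
    exact pow_le_one₀ hρ0.le hρ1.le
  have hz1 : ‖iotaL q L z - y‖ < ‖y‖ :=
    hz.trans_le (mul_le_of_le_one_left hyn.le hρN)
  have hzn : ‖iotaL q L z‖ = ‖y‖ := by
    have e : iotaL q L z = (iotaL q L z - y) + y := by ring
    rw [e, IsUltrametricDist.norm_add_eq_max_of_norm_ne_norm hz1.ne]
    exact max_eq_right hz1.le
  have hz0 : z ≠ 0 := by
    rintro rfl
    rw [map_zero, norm_zero] at hzn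
    exact hyn.ne hzn
  have hιz0 : iotaL q L z ≠ 0 := by
    rw [Ne, map_eq_zero]
    exact hz0
  refine ⟨Units.mk0 z hz0, ?_⟩
  rw [placeAt_valuation_le_exp_iff q L hπ]
  have hu1 : ‖y / iotaL q L z - 1‖ < ‖iotaL q L π‖ ^ (N : ℤ) := by
    have e : y / iotaL q L z - 1 = (y - iotaL q L z) / iotaL q L z := by
      field_simp
    rw [e, norm_div, hzn, div_lt_iff₀ hyn, norm_sub_rev]
    exact hz
  have key : iotaL q L ((x : L) / ((Units.mk0 z hz0 : Lˣ) : L) ^ p - 1) =
      (y / iotaL q L z) ^ p - 1 := by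
    rw [map_sub, map_div₀, map_pow, map_one, ← hy, div_pow]
    rfl
  rw [key]
  exact (norm_pow_sub_one_le q (hu1.le.trans hρN) p).trans hu1.le

/-- **(B3), hard direction.** A completion-free local `p`-th power is a `p`-th power in the
local field (compactness of bounded sets of the local field). -/
theorem exists_pow_eq_of_locPow (p : ℕ) (hp : p ≠ 0) (x : Lˣ)
    (h : LocPow p (placeAt q L) x) :
    ∃ y ∈ localFieldAt q L, y ^ p = iotaL q L (x : L) := by
  obtain ⟨π, hπ⟩ := (placeAt q L).valuation_exists_uniformizer L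
  have hρ0 := norm_iotaL_uniformizer_pos q L hπ
  have hρ1 := norm_iotaL_uniformizer_lt_one q L hπ
  choose z hz using fun N : ℕ => h (N + 1)
  set ξ : PadicAlgCl q := iotaL q L (x : L) with hξ
  set t : ℕ → PadicAlgCl q := fun N => iotaL q L ((z N : Lˣ) : L) with ht
  have ht0 : ∀ N, t N ≠ 0 := by
    intro N
    rw [ht]
    simp only [Ne, map_eq_zero]
    exact (z N).ne_zero
  have hu : ∀ N, ‖ξ / t N ^ p - 1‖ ≤ ‖iotaL q L π‖ ^ (N + 1) := by
    intro N
    have h1 := (placeAt_valuation_le_exp_iff q L hπ _ _).mp (hz N)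
    rw [map_sub, map_div₀, map_pow, map_one, zpow_natCast] at h1
    exact h1
  have hlt : ∀ N, ‖iotaL q L π‖ ^ (N + 1) < 1 := fun N =>
    pow_lt_one₀ hρ0.le hρ1 (Nat.succ_ne_zero N)
  have hun : ∀ N, ‖ξ / t N ^ p‖ = 1 := fun N =>
    norm_eq_one_of_norm_sub_one_lt q ((hu N).trans_lt (hlt N))
  have htp : ∀ N, ‖t N‖ ^ p = ‖ξ‖ := by
    intro N
    have h1 := hun N
    rw [norm_div, norm_pow] at h1
    have h2 : 0 < ‖t N‖ ^ p := pow_pos (norm_pos_iff.mpr (ht0 N)) p
    rw [div_eq_one_iff_eq h2.ne'] at h1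
    exact h1.symm
  have htb : ∀ N, ‖t N‖ ≤ max 1 ‖ξ‖ := by
    intro N
    by_cases h1 : ‖t N‖ ≤ 1
    · exact h1.trans (le_max_left _ _)
    · rw [not_le] at h1
      have h2 : ‖t N‖ ≤ ‖t N‖ ^ p := le_self_pow₀ h1.le hp
      rw [htp] at h2
      exact h2.trans (le_max_right _ _)
  -- compactness in the finite-dimensional `ℚ_q`-subspace underlying the local field
  let S : Submodule ℚ_[q] (PadicAlgCl q) := (localFieldAt q L).toSubalgebra.toSubmodule
  have hSfd : FiniteDimensional ℚ_[q] S := finiteDimensional_localFieldAt q L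
  have hSproper : ProperSpace S := FiniteDimensional.proper ℚ_[q] S
  let s : ℕ → S := fun N => ⟨t N, iotaL_mem_localFieldAt q L _⟩
  have hsb : ∀ N, s N ∈ Metric.closedBall (0 : S) (max 1 ‖ξ‖) := by
    intro N
    rw [mem_closedBall_zero_iff]
    exact htb N
  obtain ⟨a, -, φ, hφ, hlim⟩ := tendsto_subseq_of_bounded Metric.isBounded_closedBall hsb
  refine ⟨(a : PadicAlgCl q), a.2, ?_⟩
  have hlim' : Filter.Tendsto (fun N => t (φ N)) Filter.atTop (nhds (a : PadicAlgCl q)) :=
    (continuous_subtype_val.tendsto a).comp hlim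
  have hlim_pow : Filter.Tendsto (fun N => t (φ N) ^ p) Filter.atTop
      (nhds ((a : PadicAlgCl q) ^ p)) := hlim'.pow p
  have hlim_ξ : Filter.Tendsto (fun N => t (φ N) ^ p) Filter.atTop (nhds ξ) := by
    rw [tendsto_iff_norm_sub_tendsto_zero]
    have hb : ∀ N, ‖t (φ N) ^ p - ξ‖ ≤ ‖ξ‖ * ‖iotaL q L π‖ ^ (φ N + 1) := by
      intro N
      have hne : t (φ N) ^ p ≠ 0 := pow_ne_zero _ (ht0 _)
      have e : t (φ N) ^ p - ξ = - (t (φ N) ^ p * (ξ / t (φ N) ^ p - 1)) := by
        field_simp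
        ring
      rw [e, norm_neg, norm_mul, norm_pow, htp]
      exact mul_le_mul_of_nonneg_left (hu _) (norm_nonneg _)
    have hφt : Filter.Tendsto (fun N => φ N + 1) Filter.atTop Filter.atTop :=
      Filter.tendsto_atTop_mono (fun N => (hφ.id_le N).trans (Nat.le_succ _)) Filter.tendsto_id
    have h0 : Filter.Tendsto (fun N => ‖ξ‖ * ‖iotaL q L π‖ ^ (φ N + 1)) Filter.atTop (nhds 0) := by
      have := ((tendsto_pow_atTop_nhds_zero_of_lt_one hρ0.le hρ1).comp hφt).const_mul ‖ξ‖
      simpa using this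
    exact squeeze_zero (fun _ => norm_nonneg _) hb h0
  exact tendsto_nhds_unique hlim_pow hlim_ξ

/-- **(B3)** the completion-free `LocPow` of the S14 modules at the place cut out by
`padicPlace q` is "`p`-th power in the local field `ℚ_q(ι L)`". -/
theorem locPow_iff_exists_pow_eq (p : ℕ) (hp : p ≠ 0) (x : Lˣ) :
    LocPow p (placeAt q L) x ↔ ∃ y ∈ localFieldAt q L, y ^ p = iotaL q L (x : L) :=
  ⟨exists_pow_eq_of_locPow q L p hp x, locPow_of_exists_pow_eq q L p hp x⟩

end LocPow

end Fermat.Agent.S55.helper1652
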