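/-
S55 (Poitou–Tate), local layer, leaf LA-UNRAM-INST part (I4) (helper2512, registry backup).

VALUE GROUP OF THE LOCAL FIELD AT A PLACE OUTSIDE `S`.

Let `L ≤ ℚ̄` be unramified outside `S` in the frozen sense (`IntermediateField.IsUnramifiedOutside`)
and let `q ∉ S`.  Then every nonzero element of the local field `ℚ_q(ι L) ≤ PadicAlgCl q`
(`helper1652.localFieldAt q L`, `ι = padicEmbedding q`) has norm an integral power of `q`:
the value group of `ℚ_q(ι L)` is `q^ℤ`, i.e. `ℚ_q(ι L) / ℚ_q` has ramification index one.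
The same holds at every conjugate place `ι ∘ σ`, `σ ∈ G_ℚ`.

Proof: `(G1)` of `helper4709` (`q` is a uniformizer at every place of `L` above `q`) at the
valuation subring `padicPlace q`, density of `ι L` in `ℚ_q(ι L)` (`(B1)` of `helper1652`) and
the ultrametric inequality.

Consumers: the hypothesis "same value group" of the unramified local norm criterion
(`LA-UNRAM-INST (I2)`, `NF-GH-LOC (P4)` via the index count).
-/
import Mathlib
import Fermat.Agent.S55.helper1652_GlobalLocal
import Fermat.Agent.S55.helper4709_GlobRam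

set_option autoImplicit false
set_option linter.style.haveILetI false

namespace Fermat.Agent.S55.helper2512

open Fermat.Agent.S55

local notation "Qb" => AlgebraicClosure ℚ
local notation "GQ" => (AlgebraicClosure ℚ ≃ₐ[ℚ] AlgebraicClosure ℚ)

section Value

variable (q : ℕ) [Fact q.Prime]

/-- The norm of `q` in `PadicAlgCl q`. -/
theorem norm_natCast_self : ‖((q : ℕ) : PadicAlgCl q)‖ = (q : ℝ)⁻¹ := by
  have h := helper1652.norm_padicEmbedding_natCast_self q
  rwa [map_natCast] at h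

theorem natCast_self_ne_zero : ((q : ℕ) : PadicAlgCl q) ≠ 0 := by
  intro h
  have h1 := norm_natCast_self q
  rw [h, norm_zero] at h1
  have hq : (0 : ℝ) < q := by exact_mod_cast (Fact.out : q.Prime).pos
  exact (inv_pos.2 hq).ne h1

/-- The norm of an integral power of `q` in `PadicAlgCl q`. -/
theorem norm_natCast_self_zpow (k : ℤ) : ‖((q : ℕ) : PadicAlgCl q) ^ k‖ = (q : ℝ) ^ (-k) := by
  rw [norm_zpow, norm_natCast_self, inv_zpow, zpow_neg]

/-- For the valuation subring `padicPlace q`: valuation one means norm one. -/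
theorem norm_padicEmbedding_eq_one_of_valuation_eq_one {x : Qb}
    (h : (padicPlace q).valuation x = 1) : ‖padicEmbedding q x‖ = 1 := by
  have h1 : ‖padicEmbedding q x‖ ≤ 1 :=
    (helper1652.padicPlace_valuation_le_one_iff q x).1 h.le
  have h2 : ¬ ‖padicEmbedding q x‖ < 1 := fun hlt =>
    absurd ((helper1652.padicPlace_valuation_lt_one_iff q x).2 hlt) (not_lt.2 h.ge)
  exact le_antisymm h1 (not_lt.1 h2)

variable {q}

/-- **(V1)** If `L` is unramified outside `S` and `q ∉ S`, then the `q`-adic norm (through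
`padicEmbedding q`) of every nonzero element of `L` is an integral power of `q`. -/
theorem norm_padicEmbedding_eq_zpow {S : Finset Nat.Primes} {L : IntermediateField ℚ Qb}
    (hL : L.IsUnramifiedOutside S) (hq : (⟨q, Fact.out⟩ : Nat.Primes) ∉ S)
    (x : Qb) (hx : x ∈ L) (hx0 : x ≠ 0) :
    ∃ k : ℤ, ‖padicEmbedding q x‖ = (q : ℝ) ^ k := by
  obtain ⟨k, hk⟩ := helper4709.exists_zpow_valuation_eq_one hL ⟨q, Fact.out⟩ hq (padicPlace q)
    (helper1652.padicPlace_liesOverPrime q) x hx hx0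
  have h1 : ‖padicEmbedding q (x / ((q : ℕ) : Qb) ^ k)‖ = 1 :=
    norm_padicEmbedding_eq_one_of_valuation_eq_one q hk
  rw [map_div₀, map_zpow₀, map_natCast, norm_div, norm_natCast_self_zpow] at h1
  have hq0 : (0 : ℝ) < (q : ℝ) ^ (-k) := by
    have hq : (0 : ℝ) < q := by exact_mod_cast (Fact.out : q.Prime).pos
    exact zpow_pos hq _
  refine ⟨-k, ?_⟩
  rw [div_eq_iff hq0.ne'] at h1
  rw [h1, one_mul]

/-- **(V2)** If `L` is unramified outside `S` and `q ∉ S`, then the value group of the local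
field `ℚ_q(ι L)` is `q^ℤ`: every nonzero element has norm an integral power of `q`. -/
theorem norm_eq_zpow_of_mem_localFieldAt {S : Finset Nat.Primes} {L : IntermediateField ℚ Qb}
    (hL : L.IsUnramifiedOutside S) (hq : (⟨q, Fact.out⟩ : Nat.Primes) ∉ S)
    {y : PadicAlgCl q} (hy : y ∈ helper1652.localFieldAt q L) (hy0 : y ≠ 0) :
    ∃ k : ℤ, ‖y‖ = (q : ℝ) ^ k := by
  haveI : FiniteDimensional ℚ L := hL.1
  obtain ⟨x, hx⟩ := helper1652.exists_global_approx q L hy (norm_pos_iff.2 hy0)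
  have hxy : ‖helper1652.iotaL q L x‖ = ‖y‖ := by
    have h1 : helper1652.iotaL q L x = (helper1652.iotaL q L x - y) + y := by ring
    rw [h1, IsUltrametricDist.norm_add_eq_max_of_norm_ne_norm hx.ne, max_eq_right hx.le]
  have hx0 : (x : Qb) ≠ 0 := by
    intro h0
    have h2 : helper1652.iotaL q L x = 0 := by
      rw [helper1652.iotaL_apply]
      show padicEmbedding q (x : Qb) = 0
      rw [h0, map_zero]
    rw [h2, norm_zero] at hxy
    exact hy0 (norm_eq_zero.1 hxy.symm)
  obtain ⟨k, hk⟩ := norm_padicEmbedding_eq_zpow hL hq (x : Qb) x.2 hx0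
  exact ⟨k, by rw [← hxy]; exact hk⟩

/-- **Same value group.**  If `E` is unramified outside `S` and `q ∉ S`, then every nonzero
element of `ℚ_q(ι E)` has the norm of an element of any given intermediate field
`K` of `PadicAlgCl q / ℚ_q` (namely of a power of `q`). -/
theorem exists_mem_norm_eq_of_mem_localFieldAt {S : Finset Nat.Primes}
    {E : IntermediateField ℚ Qb} (hE : E.IsUnramifiedOutside S)
    (hq : (⟨q, Fact.out⟩ : Nat.Primes) ∉ S)
    (K : IntermediateField ℚ_[q] (PadicAlgCl q))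
    {y : PadicAlgCl q} (hy : y ∈ helper1652.localFieldAt q E) (hy0 : y ≠ 0) :
    ∃ x ∈ K, ‖y‖ = ‖x‖ := by
  obtain ⟨k, hk⟩ := norm_eq_zpow_of_mem_localFieldAt hE hq hy hy0
  refine ⟨((q : ℕ) : PadicAlgCl q) ^ (-k), zpow_mem (natCast_mem K q) _, ?_⟩
  rw [hk, norm_natCast_self_zpow, neg_neg]

/-- The local field at the conjugate place `ι ∘ σ` is the local field of the conjugate field. -/
theorem localFieldAt_map (L : IntermediateField ℚ Qb) (σ : GQ) :
    helper1652.localFieldAt q (L.map (σ : Qb →ₐ[ℚ] Qb)) =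
      IntermediateField.adjoin ℚ_[q] ((fun x : Qb => padicEmbedding q (σ x)) '' (L : Set Qb)) := by
  unfold helper1652.localFieldAt
  congr 1
  rw [IntermediateField.coe_map, Set.image_image]
  rfl

/-- **(V3)** Conjugate form of (V2): at the place `ι ∘ σ` of an `S`-unramified field `L`,
`q ∉ S`, the value group of the local field `ℚ_q(ι σ L)` is `q^ℤ`. -/
theorem norm_eq_zpow_of_mem_adjoin_conj {S : Finset Nat.Primes} {L : IntermediateField ℚ Qb}
    (hL : L.IsUnramifiedOutside S) (hq : (⟨q, Fact.out⟩ : Nat.Primes) ∉ S) (σ : GQ)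
    {y : PadicAlgCl q}
    (hy : y ∈ IntermediateField.adjoin ℚ_[q]
      ((fun x : Qb => padicEmbedding q (σ x)) '' (L : Set Qb)))
    (hy0 : y ≠ 0) :
    ∃ k : ℤ, ‖y‖ = (q : ℝ) ^ k := by
  rw [← localFieldAt_map] at hy
  exact norm_eq_zpow_of_mem_localFieldAt (helper4709.isUnramifiedOutside_map hL σ) hq hy hy0

/-- Conjugate form of the "same value group" statement. -/
theorem exists_mem_norm_eq_of_mem_adjoin_conj {S : Finset Nat.Primes}
    {E : IntermediateField ℚ Qb} (hE : E.IsUnramifiedOutside S)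
    (hq : (⟨q, Fact.out⟩ : Nat.Primes) ∉ S) (σ : GQ)
    (K : IntermediateField ℚ_[q] (PadicAlgCl q))
    {y : PadicAlgCl q}
    (hy : y ∈ IntermediateField.adjoin ℚ_[q]
      ((fun x : Qb => padicEmbedding q (σ x)) '' (E : Set Qb)))
    (hy0 : y ≠ 0) :
    ∃ x ∈ K, ‖y‖ = ‖x‖ := by
  obtain ⟨k, hk⟩ := norm_eq_zpow_of_mem_adjoin_conj hE hq σ hy hy0
  refine ⟨((q : ℕ) : PadicAlgCl q) ^ (-k), zpow_mem (natCast_mem K q) _, ?_⟩
  rw [hk, norm_natCast_self_zpow, neg_neg]

end Value

/-! ### `Nat.Primes` forms (the index type of the frozen carriers) -/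

section Primes

/-- (V2) for `q : Nat.Primes`. -/
theorem norm_eq_zpow_of_mem_localFieldAt' {S : Finset Nat.Primes} {L : IntermediateField ℚ Qb}
    (hL : L.IsUnramifiedOutside S) (q : Nat.Primes) (hq : q ∉ S) :
    letI : Fact (q : ℕ).Prime := ⟨q.2⟩
    ∀ y : PadicAlgCl (q : ℕ), y ∈ helper1652.localFieldAt (q : ℕ) L → y ≠ 0 →
      ∃ k : ℤ, ‖y‖ = ((q : ℕ) : ℝ) ^ k := by
  letI : Fact (q : ℕ).Prime := ⟨q.2⟩
  intro y hy hy0
  exact norm_eq_zpow_of_mem_localFieldAt hL hq hy hy0

/-- (V3) for `q : Nat.Primes`. -/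
theorem norm_eq_zpow_of_mem_adjoin_conj' {S : Finset Nat.Primes} {L : IntermediateField ℚ Qb}
    (hL : L.IsUnramifiedOutside S) (q : Nat.Primes) (hq : q ∉ S) (σ : GQ) :
    letI : Fact (q : ℕ).Prime := ⟨q.2⟩
    ∀ y : PadicAlgCl (q : ℕ),
      y ∈ IntermediateField.adjoin ℚ_[(q : ℕ)]
        ((fun x : Qb => padicEmbedding (q : ℕ) (σ x)) '' (L : Set Qb)) → y ≠ 0 →
      ∃ k : ℤ, ‖y‖ = ((q : ℕ) : ℝ) ^ k := by
  letI : Fact (q : ℕ).Prime := ⟨q.2⟩
  intro y hy hy0
  exact norm_eq_zpow_of_mem_adjoin_conj hL hq σ hy hy0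

end Primes

end Fermat.Agent.S55.helper2512
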