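import Mathlib

/-!
# S55 : level Hilbert 90 and the cyclic layer  (helper6044; Mathlib only)

Generic setting: `Ω/k` a field extension, `G = Ω ≃ₐ[k] Ω`; a cochain is *level* if it is
right-invariant under the fixing subgroup of a finite subextension.

* `level_hilbert90` : a level 1-cocycle (cocycle identity on a subgroup `N` containing a level)
  with values in `Ωˣ` is a coboundary on `N` (Poincaré series; `N` may be infinite).
* `IsCarryLift D p X` : `X : G → ℕ` is the `{0,…,p-1}`-valued lift of an additive character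
  `D → ℤ/p`; the carry cocycle is `(g,h) ↦ a ^ ((X g + X h) / p)`.
* `carry_isLevelCoboundary_iff` : for `a` fixed by `D` and `s ∈ D` with `X s = 1`, the carry
  cocycle is the coboundary (on `D`) of a level cochain iff `a = ∏_{j<p} s^j • y` for some `y`
  fixed by the kernel of the character.
-/

set_option autoImplicit false

noncomputable section

namespace Fermat.Agent.S55.helper6044

open IntermediateField

/-- `x` is right-invariant under the fixing subgroup of a finite subextension. -/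
def IsLevel {k Ω : Type*} [Field k] [Field Ω] [Algebra k Ω] {X : Type*}
    (x : (Ω ≃ₐ[k] Ω) → X) : Prop :=
  ∃ K : IntermediateField k Ω, FiniteDimensional k K ∧
    ∀ g s : Ω ≃ₐ[k] Ω, s ∈ K.fixingSubgroup → x (g * s) = x g

/-- **Level Hilbert 90.**  Let `Ω/k` be a field extension, `G = Aut(Ω/k)`, `N ≤ G` a subgroup
containing the fixing subgroup of a finite subextension `K`.  A map `x : G → Ωˣ` which is
right-invariant under `K.fixingSubgroup` and satisfies the 1-cocycle identity on `N` is a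
coboundary on `N`. -/
theorem level_hilbert90 {k Ω : Type*} [Field k] [Field Ω] [Algebra k Ω]
    (N : Subgroup (Ω ≃ₐ[k] Ω)) (K : IntermediateField k Ω) [FiniteDimensional k K]
    (hK : K.fixingSubgroup ≤ N) (x : (Ω ≃ₐ[k] Ω) → Ωˣ)
    (hx : ∀ g s : Ω ≃ₐ[k] Ω, s ∈ K.fixingSubgroup → x (g * s) = x g)
    (hc : ∀ t t' : Ω ≃ₐ[k] Ω, t ∈ N → t' ∈ N → x (t * t') = t • x t' * x t) :
    ∃ β : Ωˣ, ∀ t ∈ N, x t = t • β / β := by
  classical
  -- the finite quotient `N / U`
  let U : Subgroup N := K.fixingSubgroup.subgroupOf N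
  -- restriction to `K`
  let ρ : N → (K →ₐ[k] Ω) := fun t => ((t : Ω ≃ₐ[k] Ω) : Ω →ₐ[k] Ω).comp K.val
  have hρ : ∀ t t' : N, ρ t = ρ t' → (QuotientGroup.mk t : N ⧸ U) = QuotientGroup.mk t' := by
    intro t t' h
    rw [QuotientGroup.eq]
    change ((t⁻¹ * t' : N) : Ω ≃ₐ[k] Ω) ∈ K.fixingSubgroup
    rw [IntermediateField.mem_fixingSubgroup_iff]
    intro y hy
    have h1 : (t : Ω ≃ₐ[k] Ω) y = (t' : Ω ≃ₐ[k] Ω) y := by
      have := congrArg (fun f : K →ₐ[k] Ω => f ⟨y, hy⟩) h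
      simpa [ρ] using this
    push_cast
    rw [AlgEquiv.mul_apply, ← h1, AlgEquiv.aut_inv, AlgEquiv.symm_apply_apply]
  have hfin : Finite (N ⧸ U) := by
    let ρ' : N ⧸ U → (K →ₐ[k] Ω) := fun i => ρ (Quotient.out i)
    refine Finite.of_injective ρ' ?_
    intro i j h
    have := hρ _ _ h
    simpa using this
  haveI : Fintype (N ⧸ U) := Fintype.ofFinite _
  -- representatives
  let r : N ⧸ U → (Ω ≃ₐ[k] Ω) := fun i => ((Quotient.out i : N) : Ω ≃ₐ[k] Ω)
  have hrN : ∀ i, r i ∈ N := fun i => (Quotient.out i : N).2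
  -- the monoid homs `K →* Ω`
  let φ : N ⧸ U → (K →* Ω) := fun i => ((r i : Ω ≃ₐ[k] Ω) : Ω →* Ω).comp (K.val : K →* Ω)
  have hφ : Function.Injective φ := by
    intro i j h
    have h2 : ρ (Quotient.out i) = ρ (Quotient.out j) := by
      ext y
      have := congrArg (fun f : K →* Ω => f y) h
      simpa [φ, ρ, r] using this
    have := hρ _ _ h2
    simpa using this
  have hli : LinearIndependent Ω (fun i : N ⧸ U => (φ i : K → Ω)) :=
    (linearIndependent_monoidHom K Ω).comp φ hφ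
  -- the Poincaré series is nonzero somewhere
  obtain ⟨θ, hθ⟩ : ∃ θ : K, ∑ i, (x (r i) : Ω) * r i (θ : Ω) ≠ 0 := by
    by_contra hcon
    push_neg at hcon
    have h0 : ∑ i, (x (r i) : Ω) • (φ i : K → Ω) = 0 := by
      funext θ
      simp only [Finset.sum_apply, Pi.smul_apply, smul_eq_mul, Pi.zero_apply]
      exact hcon θ
    have := (Fintype.linearIndependent_iff.1 hli) (fun i => (x (r i) : Ω)) h0
      (QuotientGroup.mk (1 : N))
    exact (x _).ne_zero this
  -- key: the summand is right-`U`-invariant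
  have hinv : ∀ t u : Ω ≃ₐ[k] Ω, u ∈ K.fixingSubgroup →
      (x (t * u) : Ω) * (t * u) (θ : Ω) = (x t : Ω) * t (θ : Ω) := by
    intro t u hu
    rw [hx t u hu, AlgEquiv.mul_apply,
      (IntermediateField.mem_fixingSubgroup_iff _ _).1 hu _ θ.2]
  set B : Ω := ∑ i, (x (r i) : Ω) * r i (θ : Ω) with hB
  have key : ∀ t ∈ N, t B = B / (x t : Ω) := by
    intro t ht
    have h1 : t B = ∑ i, ((x (t * r i) : Ω) * (t * r i) (θ : Ω)) / (x t : Ω) := by
      rw [hB, map_sum]
      refine Finset.sum_congr rfl fun i _ => ?_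
      rw [map_mul, hc t (r i) ht (hrN i)]
      have : ((t • x (r i) : Ωˣ) : Ω) = t (x (r i) : Ω) := rfl
      rw [Units.val_mul, this, AlgEquiv.mul_apply]
      field_simp
    rw [h1, ← Finset.sum_div]
    congr 1
    -- reindex by the permutation `i ↦ t • i`
    let e : N ⧸ U ≃ N ⧸ U := MulAction.toPerm (⟨t, ht⟩ : N)
    have h2 : ∀ i, (x (t * r i) : Ω) * (t * r i) (θ : Ω) = (x (r (e i)) : Ω) * r (e i) (θ : Ω) := by
      intro i
      obtain ⟨h, hh⟩ := QuotientGroup.mk_out_eq_mul U ((⟨t, ht⟩ : N) * Quotient.out i)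
      have hei : e i = QuotientGroup.mk ((⟨t, ht⟩ : N) * Quotient.out i) := by
        change (⟨t, ht⟩ : N) • i = _
        conv_lhs => rw [← QuotientGroup.out_eq' i]
        rfl
      have hr : r (e i) = t * r i * (h : N) := by
        change ((Quotient.out (e i) : N) : Ω ≃ₐ[k] Ω) = _
        rw [hei, hh]
        rfl
      rw [hr]
      exact (hinv (t * r i) _ h.2).symm
    rw [Finset.sum_congr rfl fun i _ => h2 i]
    exact Equiv.sum_comp e (fun j => (x (r j) : Ω) * r j (θ : Ω))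
  refine ⟨(Units.mk0 B hθ)⁻¹, fun t ht => ?_⟩
  ext
  have h3 : ((t • (Units.mk0 B hθ)⁻¹ : Ωˣ) : Ω) = t (B⁻¹) := rfl
  rw [Units.val_div_eq_div_val, h3, map_inv₀, key t ht]
  simp only [Units.val_inv_eq_inv_val, Units.val_mk0]
  have hxt : (x t : Ω) ≠ 0 := (x t).ne_zero
  field_simp

section Carry

variable {G : Type*} [Group G] (D : Subgroup G) (p : ℕ) (X : G → ℕ)

/-- `X` is a lift to `{0,…,p-1}` of an additive character `D → ℤ/p`. -/
structure IsCarryLift : Prop where
  lt : ∀ g, X g < p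
  add : ∀ g h, g ∈ D → h ∈ D → X (g * h) = (X g + X h) % p

variable {D p X}

theorem IsCarryLift.one (h : IsCarryLift D p X) : X 1 = 0 := by
  have h1 := h.add 1 1 D.one_mem D.one_mem
  have h2 := h.lt 1
  rw [mul_one] at h1
  have h3 : (X 1 + X 1) % p = X 1 % p := by rw [← h1, Nat.mod_eq_of_lt h2]
  have h4 : p ∣ X 1 := by
    have := (Nat.modEq_iff_dvd' (by omega : X 1 ≤ X 1 + X 1)).1 h3.symm
    simpa using this
  exact Nat.eq_zero_of_dvd_of_lt h4 h2

theorem IsCarryLift.inv_mul (h : IsCarryLift D p X) {u v : G} (hu : u ∈ D) (hv : v ∈ D)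
    (huv : X u = X v) : X (u⁻¹ * v) = 0 := by
  have h1 := h.add u⁻¹ v (D.inv_mem hu) hv
  have h2 := h.add u⁻¹ u (D.inv_mem hu) hu
  rw [inv_mul_cancel, h.one] at h2
  rw [h1, ← huv, ← h2]

theorem IsCarryLift.pow (h : IsCarryLift D p X) {s : G} (hs : s ∈ D) (hXs : X s = 1) (k : ℕ) :
    X (s ^ k) = k % p := by
  induction k with
  | zero => simp [h.one]
  | succ k ih =>
    rw [pow_succ, h.add _ _ (D.pow_mem hs k) hs, ih, hXs]
    simp

/-- The kernel of the character. -/
def carryKer (D : Subgroup G) (X : G → ℕ) : Set G := {t | t ∈ D ∧ X t = 0}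

theorem IsCarryLift.mul_ker (h : IsCarryLift D p X) {g t : G} (hg : g ∈ D) (ht : t ∈ D)
    (hXt : X t = 0) : X (g * t) = X g := by
  rw [h.add g t hg ht, hXt, add_zero, Nat.mod_eq_of_lt (h.lt g)]

theorem IsCarryLift.conj_ker (h : IsCarryLift D p X) {g t : G} (hg : g ∈ D) (ht : t ∈ D)
    (hXt : X t = 0) : X (g⁻¹ * t * g) = 0 := by
  have h1 : X (t * g) = X g := by
    rw [h.add t g ht hg, hXt, zero_add, Nat.mod_eq_of_lt (h.lt g)]
  rw [mul_assoc]
  exact h.inv_mul hg (D.mul_mem ht hg) h1.symm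

end Carry

section LocalCyclic

variable {k Ω : Type*} [Field k] [Field Ω] [Algebra k Ω]

/-- the partial norm products `∏_{j<n} s^j • y` -/
def partialNorm (s : Ω ≃ₐ[k] Ω) (y : Ωˣ) (n : ℕ) : Ωˣ := ∏ j ∈ Finset.range n, (s ^ j) • y

theorem partialNorm_add (s : Ω ≃ₐ[k] Ω) (y : Ωˣ) (m n : ℕ) :
    partialNorm s y (m + n) = partialNorm s y m * ∏ j ∈ Finset.range n, (s ^ (m + j)) • y := by
  simp only [partialNorm, Finset.prod_range_add]

/-- **Cyclic layer, easy direction**: a norm gives an explicit level primitive of the carry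
cocycle. -/
theorem exists_primitive_of_norm (D : Subgroup (Ω ≃ₐ[k] Ω)) (p : ℕ) (X : (Ω ≃ₐ[k] Ω) → ℕ)
    (hX : IsCarryLift D p X)
    (hlev : ∃ K : IntermediateField k Ω, FiniteDimensional k K ∧
      ∀ t ∈ K.fixingSubgroup, t ∈ D ∧ X t = 0)
    (a : Ωˣ) (ha : ∀ g ∈ D, g • a = a) (s : Ω ≃ₐ[k] Ω) (hs : s ∈ D) (hXs : X s = 1)
    (y : Ωˣ) (hy : ∀ t ∈ D, X t = 0 → t • y = y) (hN : partialNorm s y p = a) :
    ∃ x : (Ω ≃ₐ[k] Ω) → Ωˣ, IsLevel x ∧
      ∀ g h, g ∈ D → h ∈ D → g • x h / x (g * h) * x g = a ^ ((X g + X h) / p) := by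
  classical
  have hp : 0 < p := lt_of_le_of_lt (Nat.zero_le _) (hX.lt 1)
  -- Lemma A
  have hA : ∀ g ∈ D, ∀ j : ℕ, g • ((s ^ j) • y) = (s ^ (X g + j)) • y := by
    intro g hg j
    have h1 : X (g * s ^ j) = X (s ^ (X g + j)) := by
      rw [hX.add _ _ hg (D.pow_mem hs j), hX.pow hs hXs, hX.pow hs hXs]
      simp
    have h2 := hX.inv_mul (D.pow_mem hs (X g + j)) (D.mul_mem hg (D.pow_mem hs j)) h1.symm
    have h3 := hy _ (D.mul_mem (D.inv_mem (D.pow_mem hs (X g + j)))
      (D.mul_mem hg (D.pow_mem hs j))) h2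
    calc g • ((s ^ j) • y) = (g * s ^ j) • y := (mul_smul _ _ _).symm
      _ = (s ^ (X g + j) * ((s ^ (X g + j))⁻¹ * (g * s ^ j))) • y := by
          rw [mul_inv_cancel_left]
      _ = (s ^ (X g + j)) • y := by rw [mul_smul, h3]
  -- Lemma B
  have hB : ∀ c r : ℕ, partialNorm s y (r + p * c) = partialNorm s y r * a ^ c := by
    intro c
    induction c with
    | zero => intro r; simp
    | succ c ih =>
      intro r
      have e : r + p * (c + 1) = (r + p * c) + p := by ring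
      rw [e, partialNorm_add, ih r, pow_succ, mul_assoc]
      congr 1
      congr 1
      have h1 : ∀ j ∈ Finset.range p, (s ^ (r + p * c + j)) • y = (s ^ (r + p * c)) • ((s ^ j) • y) := by
        intro j _
        rw [pow_add, mul_smul]
      rw [Finset.prod_congr rfl h1, ← Finset.smul_prod']
      change (s ^ (r + p * c)) • partialNorm s y p = a
      rw [hN]
      exact ha _ (D.pow_mem hs _)
  refine ⟨fun g => if g ∈ D then partialNorm s y (X g) else 1, ?_, ?_⟩
  · obtain ⟨K, hK, hK'⟩ := hlev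
    refine ⟨K, hK, fun g t ht => ?_⟩
    obtain ⟨htD, hXt⟩ := hK' t ht
    by_cases hg : g ∈ D
    · simp only [hg, D.mul_mem hg htD, if_true]
      rw [hX.mul_ker hg htD hXt]
    · have : g * t ∉ D := fun h => hg (by simpa using D.mul_mem h (D.inv_mem htD))
      simp only [hg, this, if_false]
  · intro g h hg hh
    simp only [hg, hh, D.mul_mem hg hh, if_true]
    have h1 : g • partialNorm s y (X h) = ∏ j ∈ Finset.range (X h), (s ^ (X g + j)) • y := by
      simp only [partialNorm]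
      rw [Finset.smul_prod']
      exact Finset.prod_congr rfl fun j _ => hA g hg j
    have h2 : partialNorm s y (X g + X h) = partialNorm s y (X g) * g • partialNorm s y (X h) := by
      rw [partialNorm_add, h1]
    have h3 : partialNorm s y (X g + X h) =
        partialNorm s y (X (g * h)) * a ^ ((X g + X h) / p) := by
      rw [hX.add g h hg hh, ← hB]
      congr 1
      exact (Nat.mod_add_div _ _).symm
    rw [h2] at h3
    rw [div_mul_eq_mul_div, div_eq_iff_eq_mul, mul_comm (a ^ _), ← h3, mul_comm]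

theorem cg_aux₃ {M : Type*} [CommGroup M] (A B C b gb ghb : M) :
    (A * (gb / ghb)) / (B * (b / ghb)) * (C * (b / gb)) = A / B * C := by
  rw [mul_div_mul_comm, div_div_div_cancel_right, mul_mul_mul_comm, div_mul_div_cancel,
    div_self', mul_one]

/-- **Cyclic layer, hard direction**: a level primitive of the carry cocycle forces `a` to be a
norm (level Hilbert 90 on the kernel + explicit product). -/
theorem exists_norm_of_primitive (D : Subgroup (Ω ≃ₐ[k] Ω)) (p : ℕ) (X : (Ω ≃ₐ[k] Ω) → ℕ)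
    (hX : IsCarryLift D p X)
    (hlev : ∃ K : IntermediateField k Ω, FiniteDimensional k K ∧
      ∀ t ∈ K.fixingSubgroup, t ∈ D ∧ X t = 0)
    (a : Ωˣ) (s : Ω ≃ₐ[k] Ω) (hs : s ∈ D) (hXs : X s = 1)
    (x : (Ω ≃ₐ[k] Ω) → Ωˣ) (hxl : IsLevel x)
    (hd : ∀ g h, g ∈ D → h ∈ D → g • x h / x (g * h) * x g = a ^ ((X g + X h) / p)) :
    ∃ y : Ωˣ, (∀ t ∈ D, X t = 0 → t • y = y) ∧ partialNorm s y p = a := by
  have hp1 : 1 < p := by have := hX.lt s; omega
  -- the kernel as a subgroup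
  let N : Subgroup (Ω ≃ₐ[k] Ω) :=
    { carrier := {t | t ∈ D ∧ X t = 0}
      mul_mem' := by
        rintro t t' ⟨ht, h0⟩ ⟨ht', h0'⟩
        exact ⟨D.mul_mem ht ht', by rw [hX.add t t' ht ht', h0, h0']; simp⟩
      one_mem' := ⟨D.one_mem, hX.one⟩
      inv_mem' := by
        rintro t ⟨ht, h0⟩
        refine ⟨D.inv_mem ht, ?_⟩
        have := hX.inv_mul ht D.one_mem (h0.trans hX.one.symm)
        simpa using this }
  have hN : ∀ t, t ∈ N ↔ t ∈ D ∧ X t = 0 := fun t => Iff.rfl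
  obtain ⟨K₁, hK₁, hx⟩ := hxl
  obtain ⟨K₂, hK₂, hK₂'⟩ := hlev
  have := hK₁; have := hK₂
  have hKN : (K₁ ⊔ K₂).fixingSubgroup ≤ N := fun t ht =>
    hK₂' t (IntermediateField.fixingSubgroup_antitone le_sup_right ht)
  have hxK : ∀ g t : Ω ≃ₐ[k] Ω, t ∈ (K₁ ⊔ K₂).fixingSubgroup → x (g * t) = x g := fun g t ht =>
    hx g t (IntermediateField.fixingSubgroup_antitone le_sup_left ht)
  have hcN : ∀ t t' : Ω ≃ₐ[k] Ω, t ∈ N → t' ∈ N → x (t * t') = t • x t' * x t := by
    rintro t t' ⟨ht, h0⟩ ⟨ht', h0'⟩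
    have h1 := hd t t' ht ht'
    rw [h0, h0', Nat.zero_add, Nat.zero_div, pow_zero] at h1
    rw [div_mul_eq_mul_div, div_eq_one] at h1
    exact h1.symm
  obtain ⟨β, hβ⟩ := level_hilbert90 N (K₁ ⊔ K₂) hKN x hxK hcN
  -- the normalised primitive
  set x' : (Ω ≃ₐ[k] Ω) → Ωˣ := fun g => x g * (β / g • β) with hx'
  have hd' : ∀ g h, g ∈ D → h ∈ D →
      g • x' h / x' (g * h) * x' g = a ^ ((X g + X h) / p) := by
    intro g h hg hh
    rw [← hd g h hg hh]
    simp only [hx', smul_mul', smul_div', ← mul_smul]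
    exact cg_aux₃ _ _ _ _ _ _
  have hx'N : ∀ t ∈ N, x' t = 1 := by
    intro t ht
    simp only [hx']
    rw [hβ t ht, div_mul_div_cancel, div_self']
  have h_ii : ∀ g t, g ∈ D → t ∈ N → x' (g * t) = x' g := by
    intro g t hg ht
    have h1 := hd' g t hg ht.1
    rw [ht.2, add_zero, Nat.div_eq_of_lt (hX.lt g), pow_zero, hx'N t ht, smul_one,
      div_mul_eq_mul_div, one_mul, div_eq_one] at h1
    exact h1.symm
  have h_iii : ∀ g t, g ∈ D → t ∈ N → x' (t * g) = t • x' g := by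
    intro g t hg ht
    have h1 := hd' t g ht.1 hg
    rw [ht.2, zero_add, Nat.div_eq_of_lt (hX.lt g), pow_zero, hx'N t ht, mul_one,
      div_eq_one] at h1
    exact h1.symm
  have h_iv : ∀ g t, g ∈ D → t ∈ N → t • x' g = x' g := by
    intro g t hg ht
    rw [← h_iii g t hg ht]
    have e : t * g = g * (g⁻¹ * t * g) := by group
    rw [e]
    exact h_ii g _ hg ⟨D.mul_mem (D.mul_mem (D.inv_mem hg) ht.1) hg, hX.conj_ker hg ht.1 ht.2⟩
  refine ⟨x' s, fun t ht h0 => h_iv s t hs ⟨ht, h0⟩, ?_⟩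
  have hclaim : ∀ j : ℕ, j < p → x' (s ^ j) = partialNorm s (x' s) j := by
    intro j
    induction j with
    | zero =>
      intro _
      rw [pow_zero, hx'N 1 N.one_mem]
      simp [partialNorm]
    | succ j ih =>
      intro hj
      have h1 := hd' (s ^ j) s (D.pow_mem hs j) hs
      rw [hX.pow hs hXs, hXs, Nat.mod_eq_of_lt (by omega : j < p), Nat.div_eq_of_lt hj,
        pow_zero, div_mul_eq_mul_div, div_eq_one] at h1
      rw [pow_succ, ← h1, ih (by omega)]
      simp only [partialNorm, Finset.prod_range_succ]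
      rw [mul_comm]
  have h1 := hd' (s ^ (p - 1)) s (D.pow_mem hs _) hs
  have hsp : s ^ (p - 1) * s = s ^ p := by rw [← pow_succ]; congr 1; omega
  have hspN : s ^ p ∈ N := ⟨D.pow_mem hs p, by rw [hX.pow hs hXs]; simp⟩
  rw [hX.pow hs hXs, hXs, Nat.mod_eq_of_lt (by omega : p - 1 < p),
    (by omega : p - 1 + 1 = p), Nat.div_self (by omega), pow_one, hsp, hx'N _ hspN, div_one,
    hclaim (p - 1) (by omega)] at h1
  rw [← h1]
  have e : p = (p - 1) + 1 := by omega
  conv_lhs => rw [e]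
  simp only [partialNorm, Finset.prod_range_succ]
  rw [mul_comm]

/-- **Cyclic layer.**  The carry cocycle of `a` is a level coboundary on `D` iff `a` is a norm
from the fixed field of the kernel of the character (generator form). -/
theorem carry_isLevelCoboundary_iff (D : Subgroup (Ω ≃ₐ[k] Ω)) (p : ℕ) (X : (Ω ≃ₐ[k] Ω) → ℕ)
    (hX : IsCarryLift D p X)
    (hlev : ∃ K : IntermediateField k Ω, FiniteDimensional k K ∧
      ∀ t ∈ K.fixingSubgroup, t ∈ D ∧ X t = 0)
    (a : Ωˣ) (ha : ∀ g ∈ D, g • a = a) (s : Ω ≃ₐ[k] Ω) (hs : s ∈ D) (hXs : X s = 1) :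
    (∃ x : (Ω ≃ₐ[k] Ω) → Ωˣ, IsLevel x ∧
      ∀ g h, g ∈ D → h ∈ D → g • x h / x (g * h) * x g = a ^ ((X g + X h) / p)) ↔
    ∃ y : Ωˣ, (∀ t ∈ D, X t = 0 → t • y = y) ∧ partialNorm s y p = a :=
  ⟨fun ⟨x, hxl, hd⟩ => exists_norm_of_primitive D p X hX hlev a s hs hXs x hxl hd,
   fun ⟨y, hy, hN⟩ => exists_primitive_of_norm D p X hX hlev a ha s hs hXs y hy hN⟩

/-- For `p` prime, a nontrivial character value can be normalised to `1`. -/
theorem IsCarryLift.exists_eq_one {G : Type*} [Group G] {D : Subgroup G} {p : ℕ} {X : G → ℕ}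
    (hX : IsCarryLift D p X) (hp : p.Prime) {g : G} (hg : g ∈ D) (h0 : X g ≠ 0) :
    ∃ s ∈ D, X s = 1 := by
  have hpow : ∀ n : ℕ, X (g ^ n) = (n * X g) % p := by
    intro n
    induction n with
    | zero => simp [hX.one]
    | succ n ih =>
      rw [pow_succ, hX.add _ _ (D.pow_mem hg n) hg, ih, Nat.succ_mul]
      simp
  have hp1 : 1 < p := hp.one_lt
  have hcop : Nat.Coprime (X g) p :=
    (Nat.coprime_comm.1 ((Nat.Prime.coprime_iff_not_dvd hp).2
      (fun hd => h0 (Nat.eq_zero_of_dvd_of_lt hd (hX.lt g)))))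
  obtain ⟨m, -, hm⟩ := Nat.exists_mul_mod_eq_one_of_coprime hcop hp1
  exact ⟨g ^ m, D.pow_mem hg m, by rw [hpow, mul_comm, hm]⟩

end LocalCyclic

end Fermat.Agent.S55.helper6044
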