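import Mathlib
import Fermat.Prelude.Def_GroupCohomology_ContinuousUnramified

set_option autoImplicit false

noncomputable section

namespace Fermat.Agent.S55.helper698

open Polynomial IntermediateField

variable (q : ℕ) [Fact q.Prime]

/-- Every element of `PadicAlgCl q` algebraic over `ℚ` is in the range of `padicEmbedding q`. -/
theorem mem_range_padicEmbedding_of_isIntegral {y : PadicAlgCl q} (hy : IsIntegral ℚ y) :
    ∃ z : AlgebraicClosure ℚ, padicEmbedding q z = y := by
  have hsp : ((minpoly ℚ y).map (algebraMap ℚ (AlgebraicClosure ℚ))).Splits :=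
    IsAlgClosed.splits _
  have h2 : ((minpoly ℚ y).map (algebraMap ℚ (PadicAlgCl q))).Splits := IsAlgClosed.splits _
  have hy0 : y ∈ (minpoly ℚ y).aroots (PadicAlgCl q) := by
    rw [Polynomial.mem_aroots]
    exact ⟨minpoly.ne_zero hy, minpoly.aeval ℚ y⟩
  have himg : (minpoly ℚ y).aroots (PadicAlgCl q) =
      ((minpoly ℚ y).aroots (AlgebraicClosure ℚ)).map (padicEmbedding q) := by
    rw [Polynomial.aroots_def, Polynomial.aroots_def]
    have := Polynomial.Splits.roots_map hsp (padicEmbedding q).toRingHom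
    rw [Polynomial.map_map] at this
    have hcomp : ((padicEmbedding q).toRingHom).comp (algebraMap ℚ (AlgebraicClosure ℚ)) =
        algebraMap ℚ (PadicAlgCl q) := Subsingleton.elim _ _
    rw [hcomp] at this
    exact this
  rw [himg, Multiset.mem_map] at hy0
  obtain ⟨z, _, hz⟩ := hy0
  exact ⟨z, hz⟩

/-- Density of `padicEmbedding q (AlgebraicClosure ℚ)` in `PadicAlgCl q`. -/
theorem exists_padicEmbedding_norm_sub_lt (x : PadicAlgCl q) {δ : ℝ} (hδ : 0 < δ) :
    ∃ z : AlgebraicClosure ℚ, ‖x - padicEmbedding q z‖ < δ := by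
  have hx : IsIntegral ℚ_[q] x := Algebra.IsIntegral.isIntegral x
  set f := minpoly ℚ_[q] x with hf
  have fmon : f.Monic := minpoly.monic hx
  have fa0 : Polynomial.aeval x f = 0 := minpoly.aeval _ _
  have fnatdeg0 : f.natDegree ≠ 0 := (minpoly.natDegree_pos hx).ne'
  have hε : (δ / (max ‖x‖ 1)) ^ f.natDegree / (f.natDegree + 1) > 0 := by positivity
  have hd : DenseRange (algebraMap ℚ ℚ_[q]) := by
    have : (algebraMap ℚ ℚ_[q] : ℚ → ℚ_[q]) = ((↑) : ℚ → ℚ_[q]) := by
      ext r; simp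
    rw [this]; exact Padic.denseRange_ratCast q
  obtain ⟨g, gmon, gdeg, gcoeff⟩ :=
    Polynomial.exists_monic_and_natDegree_eq_and_norm_map_algebraMap_coeff_sub_lt hd fmon hε
  obtain ⟨b, hb, hab⟩ := Polynomial.exists_aroots_norm_sub_lt_of_norm_coeff_sub_lt
      (L := PadicAlgCl q) hε fa0 fmon (gmon.map _) (gdeg ▸ (g.natDegree_map _)) gcoeff
      (IsAlgClosed.splits _)
  have hab : ‖x - b‖ < δ := by
    rw [← Real.rpow_natCast, ← mul_comm_div, div_self, one_mul,
        ← Real.rpow_mul (div_pos hδ (by positivity)).le, mul_inv_cancel₀] at hab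
    · simpa [mul_assoc, div_mul_cancel₀ _ (by positivity : (max ‖x‖ 1) > 0).ne'] using hab
    · simp [fnatdeg0]
    · positivity
  have hbint : IsIntegral ℚ b := by
    rw [Polynomial.mem_aroots] at hb
    refine ⟨g, gmon, ?_⟩
    have := hb.2
    rwa [Polynomial.aeval_map_algebraMap] at this
  obtain ⟨z, rfl⟩ := mem_range_padicEmbedding_of_isIntegral q hbint
  exact ⟨z, hab⟩

/-- Krasner: every element of `PadicAlgCl q` lies in `ℚ_[q](ι z)` for some `z : AlgebraicClosure ℚ`. -/
theorem exists_mem_adjoin_padicEmbedding (x : PadicAlgCl q) :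
    ∃ z : AlgebraicClosure ℚ, x ∈ ℚ_[q]⟮padicEmbedding q z⟯ := by
  have hx : IsIntegral ℚ_[q] x := Algebra.IsIntegral.isIntegral x
  classical
  let S : Finset (PadicAlgCl q) := {x' ∈ ((minpoly ℚ_[q] x).rootSet (PadicAlgCl q)).toFinset | x' ≠ x}
  let δ : ℝ := if hS : S.Nonempty then Finset.min' (S.image fun x' => ‖x - x'‖)
      (Finset.image_nonempty.mpr hS) else 1
  have norm_sub_le : ∀ x' : PadicAlgCl q, IsConjRoot ℚ_[q] x x' → x ≠ x' → δ ≤ ‖x - x'‖ := by
    intro x' conj ne
    by_cases hS : S.Nonempty <;> simp only [hS, ↓reduceDIte, δ]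
    · apply Finset.min'_le (S.image fun x' => ‖x - x'‖) (‖x - x'‖)
      apply Finset.mem_image_of_mem
      simp only [Finset.mem_filter, Set.mem_toFinset, S]
      rw [← (isConjRoot_iff_mem_minpoly_rootSet hx)]
      exact ⟨conj, ne.symm⟩
    · simp only [ne_eq, Finset.not_nonempty_iff_eq_empty, Finset.filter_eq_empty_iff,
        Set.mem_toFinset, not_not, S] at hS
      rw [isConjRoot_iff_mem_minpoly_rootSet hx] at conj
      exact (ne (hS conj).symm).elim
  have δpos : δ > 0 := by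
    by_cases hS : S.Nonempty <;> simp only [hS, ↓reduceDIte, δ]
    · simp only [gt_iff_lt, Finset.lt_min'_iff, Finset.mem_image, forall_exists_index, and_imp,
        forall_apply_eq_imp_iff₂]
      rintro x' hx'
      simp only [Finset.mem_filter, Set.mem_toFinset, S] at hx'
      rw [norm_pos_iff, sub_ne_zero]
      exact hx'.2.symm
    · linarith
  obtain ⟨z, hz⟩ := exists_padicEmbedding_norm_sub_lt q x δpos
  refine ⟨z, ?_⟩
  exact IsKrasner.krasner (K := ℚ_[q]) (L := PadicAlgCl q) (minpoly.irreducible hx).separable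
    (IsAlgClosed.splits _) (Algebra.IsIntegral.isIntegral _)
    fun x' h1 h2 ↦ lt_of_lt_of_le hz (norm_sub_le x' h1 h2)

/-- An automorphism fixing `y` fixes every element of `F⟮y⟯`. -/
theorem algEquiv_apply_eq_of_mem_adjoin_simple {F E : Type*} [Field F] [Field E] [Algebra F E]
    (σ : E ≃ₐ[F] E) {y x : E} (hy : σ y = y) (hx : x ∈ F⟮y⟯) : σ x = x := by
  have hle : F⟮y⟯ ≤ IntermediateField.fixedField (Subgroup.zpowers σ) := by
    rw [IntermediateField.adjoin_simple_le_iff, IntermediateField.mem_fixedField_iff]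
    intro τ hτ
    obtain ⟨n, rfl⟩ := Subgroup.mem_zpowers_iff.1 hτ
    have h1 : ∀ m : ℕ, (σ ^ m) y = y := by
      intro m
      induction m with
      | zero => simp
      | succ m ih => rw [pow_succ, AlgEquiv.mul_apply, hy, ih]
    have h2 : ∀ m : ℕ, (σ ^ m)⁻¹ y = y := by
      intro m
      have := h1 m
      rw [AlgEquiv.aut_inv]
      exact (AlgEquiv.symm_apply_eq _).2 this.symm
    obtain ⟨m, rfl | rfl⟩ := Int.eq_nat_or_neg n
    · simpa using h1 m
    · simpa using h2 m
  have := (IntermediateField.mem_fixedField_iff _ _).1 (hle hx) σ (Subgroup.mem_zpowers σ)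
  exact this

/-- (1) Every finite extension `K/ℚ_[q]` inside `PadicAlgCl q` is cut out by a number field:
there is a finite `F/ℚ` inside `AlgebraicClosure ℚ` such that every local automorphism whose
global restriction fixes `F` already fixes `K`. -/
theorem exists_numberField_comap_fixingSubgroup_le
    (K : IntermediateField ℚ_[q] (PadicAlgCl q)) [FiniteDimensional ℚ_[q] K] :
    ∃ F : IntermediateField ℚ (AlgebraicClosure ℚ), FiniteDimensional ℚ F ∧
      ∀ τ : PadicAlgCl q ≃ₐ[ℚ_[q]] PadicAlgCl q,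
        localGaloisToGlobal q τ ∈ F.fixingSubgroup → τ ∈ K.fixingSubgroup := by
  obtain ⟨α, hα⟩ := Field.exists_primitive_element ℚ_[q] K
  obtain ⟨z, hz⟩ := exists_mem_adjoin_padicEmbedding q (α : PadicAlgCl q)
  have hzint : IsIntegral ℚ z := ((AlgebraicClosure.isAlgebraic ℚ).isAlgebraic z).isIntegral
  refine ⟨ℚ⟮z⟯, IntermediateField.adjoin.finiteDimensional hzint, fun τ hτ => ?_⟩
  have h1 : localGaloisToGlobal q τ z = z :=
    (IntermediateField.mem_fixingSubgroup_iff _ _).1 hτ z (IntermediateField.mem_adjoin_simple_self ℚ z)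
  have h2 : τ (padicEmbedding q z) = padicEmbedding q z := by
    rw [← padicEmbedding_localGaloisToGlobal, h1]
  have h3 : τ (α : PadicAlgCl q) = α := algEquiv_apply_eq_of_mem_adjoin_simple τ h2 hz
  rw [IntermediateField.mem_fixingSubgroup_iff]
  intro k hk
  have hk' : k ∈ ℚ_[q]⟮(α : PadicAlgCl q)⟯ := by
    have hmap : (ℚ_[q]⟮α⟯).map K.val = ℚ_[q]⟮(α : PadicAlgCl q)⟯ := by
      rw [IntermediateField.adjoin_map, Set.image_singleton]; rfl
    rw [← hmap, hα, IntermediateField.mem_map]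
    exact ⟨⟨k, hk⟩, IntermediateField.mem_top, rfl⟩
  exact algEquiv_apply_eq_of_mem_adjoin_simple τ h3 hk'

/-- (2) Conversely, every number field `F` is cut out locally by a finite extension of `ℚ_[q]`. -/
theorem exists_localField_fixingSubgroup_le
    (F : IntermediateField ℚ (AlgebraicClosure ℚ)) [FiniteDimensional ℚ F] :
    ∃ K : IntermediateField ℚ_[q] (PadicAlgCl q), FiniteDimensional ℚ_[q] K ∧
      ∀ τ : PadicAlgCl q ≃ₐ[ℚ_[q]] PadicAlgCl q,
        τ ∈ K.fixingSubgroup → localGaloisToGlobal q τ ∈ F.fixingSubgroup := by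
  let algF : Algebra ℚ ↥F := F.algebra'
  obtain ⟨α, hα⟩ := @Field.exists_primitive_element ℚ ↥F _ _ algF inferInstance inferInstance
  have hint : IsIntegral ℚ_[q] (padicEmbedding q (α : AlgebraicClosure ℚ)) :=
    Algebra.IsIntegral.isIntegral _
  refine ⟨ℚ_[q]⟮padicEmbedding q (α : AlgebraicClosure ℚ)⟯,
    IntermediateField.adjoin.finiteDimensional hint, fun τ hτ => ?_⟩
  have h1 : τ (padicEmbedding q (α : AlgebraicClosure ℚ)) = padicEmbedding q (α : AlgebraicClosure ℚ) :=
    (IntermediateField.mem_fixingSubgroup_iff _ _).1 hτ _ (IntermediateField.mem_adjoin_simple_self _ _)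
  have h2 : localGaloisToGlobal q τ (α : AlgebraicClosure ℚ) = α := by
    apply (padicEmbedding q).toRingHom.injective
    change padicEmbedding q _ = padicEmbedding q _
    rw [padicEmbedding_localGaloisToGlobal, h1]
  rw [IntermediateField.mem_fixingSubgroup_iff]
  intro k hk
  have hk' : k ∈ ℚ⟮(α : AlgebraicClosure ℚ)⟯ := by
    have hmap : (@IntermediateField.adjoin ℚ _ ↥F _ algF {α}).map F.val =
        ℚ⟮(α : AlgebraicClosure ℚ)⟯ := by
      rw [IntermediateField.adjoin_map, Set.image_singleton]; rfl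
    rw [← hmap, hα, IntermediateField.mem_map]
    exact ⟨⟨k, hk⟩, IntermediateField.mem_top, rfl⟩
  exact algEquiv_apply_eq_of_mem_adjoin_simple _ h2 hk'

/-- (4) The restriction map `G_{ℚ_q} → G_ℚ` is injective. -/
theorem localGaloisToGlobal_injective : Function.Injective (localGaloisToGlobal q) := by
  rw [injective_iff_map_eq_one]
  intro τ hτ
  ext x
  obtain ⟨z, hz⟩ := exists_mem_adjoin_padicEmbedding q x
  have h2 : τ (padicEmbedding q z) = padicEmbedding q z := by
    rw [← padicEmbedding_localGaloisToGlobal, hτ]; rfl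
  simpa using algEquiv_apply_eq_of_mem_adjoin_simple τ h2 hz

/-- (3a) The frozen level-constancy of 1-cochains on the local Galois group is continuity for the
Krull topology: right-invariance under the fixing subgroup of a finite extension of `ℚ_[q]`. -/
theorem isLevelConstant₁_localGaloisToGlobal_iff {X : Type*}
    (f : (PadicAlgCl q ≃ₐ[ℚ_[q]] PadicAlgCl q) → X) :
    groupCohomology.IsLevelConstant₁ (localGaloisToGlobal q) f ↔
      ∃ K : IntermediateField ℚ_[q] (PadicAlgCl q), FiniteDimensional ℚ_[q] K ∧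
        ∀ g s : PadicAlgCl q ≃ₐ[ℚ_[q]] PadicAlgCl q, s ∈ K.fixingSubgroup → f (g * s) = f g := by
  constructor
  · rintro ⟨F, hF, h⟩
    have := hF
    obtain ⟨K, hK, hKF⟩ := exists_localField_fixingSubgroup_le q F
    exact ⟨K, hK, fun g s hs => h g s (hKF s hs)⟩
  · rintro ⟨K, hK, h⟩
    have := hK
    obtain ⟨F, hF, hFK⟩ := exists_numberField_comap_fixingSubgroup_le q K
    exact ⟨F, hF, fun g s hs => h g s (hFK s hs)⟩

/-- (3b) The same for 2-cochains. -/
theorem isLevelConstant₂_localGaloisToGlobal_iff {X : Type*}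
    (f : (PadicAlgCl q ≃ₐ[ℚ_[q]] PadicAlgCl q) × (PadicAlgCl q ≃ₐ[ℚ_[q]] PadicAlgCl q) → X) :
    groupCohomology.IsLevelConstant₂ (localGaloisToGlobal q) f ↔
      ∃ K : IntermediateField ℚ_[q] (PadicAlgCl q), FiniteDimensional ℚ_[q] K ∧
        ∀ g g' s s' : PadicAlgCl q ≃ₐ[ℚ_[q]] PadicAlgCl q, s ∈ K.fixingSubgroup →
          s' ∈ K.fixingSubgroup → f (g * s, g' * s') = f (g, g') := by
  constructor
  · rintro ⟨F, hF, h⟩
    have := hF
    obtain ⟨K, hK, hKF⟩ := exists_localField_fixingSubgroup_le q F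
    exact ⟨K, hK, fun g g' s s' hs hs' => h g g' s s' (hKF s hs) (hKF s' hs')⟩
  · rintro ⟨K, hK, h⟩
    have := hK
    obtain ⟨F, hF, hFK⟩ := exists_numberField_comap_fixingSubgroup_le q K
    exact ⟨F, hF, fun g g' s s' hs hs' => h g g' s s' (hFK s hs) (hFK s' hs')⟩

/-- Every finite extension of `ℚ_[q]` inside `PadicAlgCl q` is contained in a finite Galois one. -/
theorem exists_finite_normal_ge (K : IntermediateField ℚ_[q] (PadicAlgCl q))
    [FiniteDimensional ℚ_[q] K] :
    ∃ K' : IntermediateField ℚ_[q] (PadicAlgCl q), K ≤ K' ∧ FiniteDimensional ℚ_[q] K' ∧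
      Normal ℚ_[q] K' := by
  refine ⟨IntermediateField.normalClosure ℚ_[q] K (PadicAlgCl q), K.le_normalClosure,
    inferInstance, inferInstance⟩

/-- (3a') Galois form: a level-constant 1-cochain is right-invariant under the fixing subgroup of
a finite GALOIS extension of `ℚ_[q]`. -/
theorem isLevelConstant₁_localGaloisToGlobal_iff_normal {X : Type*}
    (f : (PadicAlgCl q ≃ₐ[ℚ_[q]] PadicAlgCl q) → X) :
    groupCohomology.IsLevelConstant₁ (localGaloisToGlobal q) f ↔
      ∃ K : IntermediateField ℚ_[q] (PadicAlgCl q), FiniteDimensional ℚ_[q] K ∧ Normal ℚ_[q] K ∧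
        ∀ g s : PadicAlgCl q ≃ₐ[ℚ_[q]] PadicAlgCl q, s ∈ K.fixingSubgroup → f (g * s) = f g := by
  rw [isLevelConstant₁_localGaloisToGlobal_iff]
  constructor
  · rintro ⟨K, hK, h⟩
    have := hK
    obtain ⟨K', hle, hfd, hn⟩ := exists_finite_normal_ge q K
    exact ⟨K', hfd, hn, fun g s hs => h g s (IntermediateField.fixingSubgroup_antitone hle hs)⟩
  · rintro ⟨K, hK, _, h⟩
    exact ⟨K, hK, h⟩

/-- (3b') Galois form for 2-cochains. -/
theorem isLevelConstant₂_localGaloisToGlobal_iff_normal {X : Type*}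
    (f : (PadicAlgCl q ≃ₐ[ℚ_[q]] PadicAlgCl q) × (PadicAlgCl q ≃ₐ[ℚ_[q]] PadicAlgCl q) → X) :
    groupCohomology.IsLevelConstant₂ (localGaloisToGlobal q) f ↔
      ∃ K : IntermediateField ℚ_[q] (PadicAlgCl q), FiniteDimensional ℚ_[q] K ∧ Normal ℚ_[q] K ∧
        ∀ g g' s s' : PadicAlgCl q ≃ₐ[ℚ_[q]] PadicAlgCl q, s ∈ K.fixingSubgroup →
          s' ∈ K.fixingSubgroup → f (g * s, g' * s') = f (g, g') := by
  rw [isLevelConstant₂_localGaloisToGlobal_iff]
  constructor
  · rintro ⟨K, hK, h⟩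
    have := hK
    obtain ⟨K', hle, hfd, hn⟩ := exists_finite_normal_ge q K
    exact ⟨K', hfd, hn, fun g g' s s' hs hs' => h g g' s s'
      (IntermediateField.fixingSubgroup_antitone hle hs)
      (IntermediateField.fixingSubgroup_antitone hle hs')⟩
  · rintro ⟨K, hK, _, h⟩
    exact ⟨K, hK, h⟩

section Primes

open ExtCitation

/-- `primeLocalToGlobal` is injective. -/
theorem primeLocalToGlobal_injective (l : Nat.Primes) :
    Function.Injective (primeLocalToGlobal l) :=
  haveI : Fact (l : ℕ).Prime := ⟨l.2⟩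
  localGaloisToGlobal_injective (l : ℕ)

/-- (3a) for the frozen local datum at a prime `l`. -/
theorem isLevelConstant₁_primeLocalToGlobal_iff (l : Nat.Primes) {X : Type*}
    (f : primeLocalGaloisGroup l → X) :
    haveI : Fact (l : ℕ).Prime := ⟨l.2⟩
    groupCohomology.IsLevelConstant₁ (primeLocalToGlobal l) f ↔
      ∃ K : IntermediateField ℚ_[(l : ℕ)] (PadicAlgCl (l : ℕ)),
        FiniteDimensional ℚ_[(l : ℕ)] K ∧ Normal ℚ_[(l : ℕ)] K ∧
        ∀ g s : PadicAlgCl (l : ℕ) ≃ₐ[ℚ_[(l : ℕ)]] PadicAlgCl (l : ℕ),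
          s ∈ K.fixingSubgroup → f (g * s) = f g :=
  haveI : Fact (l : ℕ).Prime := ⟨l.2⟩
  isLevelConstant₁_localGaloisToGlobal_iff_normal (l : ℕ) f

/-- (3b) for the frozen local datum at a prime `l`. -/
theorem isLevelConstant₂_primeLocalToGlobal_iff (l : Nat.Primes) {X : Type*}
    (f : primeLocalGaloisGroup l × primeLocalGaloisGroup l → X) :
    haveI : Fact (l : ℕ).Prime := ⟨l.2⟩
    groupCohomology.IsLevelConstant₂ (primeLocalToGlobal l) f ↔
      ∃ K : IntermediateField ℚ_[(l : ℕ)] (PadicAlgCl (l : ℕ)),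
        FiniteDimensional ℚ_[(l : ℕ)] K ∧ Normal ℚ_[(l : ℕ)] K ∧
        ∀ g g' s s' : PadicAlgCl (l : ℕ) ≃ₐ[ℚ_[(l : ℕ)]] PadicAlgCl (l : ℕ),
          s ∈ K.fixingSubgroup → s' ∈ K.fixingSubgroup → f (g * s, g' * s') = f (g, g') :=
  haveI : Fact (l : ℕ).Prime := ⟨l.2⟩
  isLevelConstant₂_localGaloisToGlobal_iff_normal (l : ℕ) f

end Primes

end Fermat.Agent.S55.helper698
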