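import Mathlib
import Fermat.Prelude.Def_GroupCohomology_ContinuousUnramified
import Fermat.Agent.S55.helper698_LocTop
import Fermat.Agent.S55.helper6044_LevelCyclic

/-!
# S55 / NF-GH-LOC : local triviality of global 2-cocycles at the places `ι ∘ σ`  (helper6044)

Carrier: everything lives in `G_ℚ = Gal(Qbar/ℚ)` and `G_q = Gal(PadicAlgCl q / ℚ_q)`; cochains are
plain functions on the whole groups, and (co)cycle conditions are only required on the relevant
subgroups (`F.fixingSubgroup` globally, `locGroup q F σ` locally).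
-/

set_option autoImplicit false

noncomputable section

namespace Fermat.Agent.S55.helper6044

open IntermediateField

local notation "Qb" => AlgebraicClosure ℚ
local notation "GQ" => (AlgebraicClosure ℚ ≃ₐ[ℚ] AlgebraicClosure ℚ)

variable (q : ℕ) [Fact q.Prime]

local notation "Om" => PadicAlgCl q
local notation "Gq" => (PadicAlgCl q ≃ₐ[ℚ_[q]] PadicAlgCl q)

/-! ## Two identities in commutative groups -/

theorem cg_aux₁ {M : Type*} [CommGroup M] (A B C a b c : M) :
    (A * a) / (B * b) * (C * c) = (A / B * C) * (a / b * c) := by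
  simp only [div_eq_mul_inv, mul_inv]
  ac_rfl

theorem cg_aux₂ {M : Type*} [CommGroup M] (a A B C : M) :
    a * (A / B * C) * (A⁻¹ / B⁻¹ * C⁻¹) = a := by
  have : (A / B * C) * (A⁻¹ / B⁻¹ * C⁻¹) = 1 := by
    rw [div_eq_mul_inv, div_eq_mul_inv, inv_inv]
    calc A * B⁻¹ * C * (A⁻¹ * B * C⁻¹) = (A * A⁻¹) * (B⁻¹ * B) * (C * C⁻¹) := by ac_rfl
      _ = 1 := by simp
  rw [mul_assoc, this, mul_one]

/-! ## The places `ι ∘ σ` -/

/-- The embedding `τ = ι ∘ σ` of `Qbar` into `PadicAlgCl q`. -/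
def embAt (σ : GQ) : Qb →ₐ[ℚ] Om := (padicEmbedding q).comp (σ : Qb →ₐ[ℚ] Qb)

@[simp] theorem embAt_apply (σ : GQ) (x : Qb) : embAt q σ x = padicEmbedding q (σ x) := rfl

/-- The local-to-global map at the place `ι ∘ σ`: `γ ↦ σ⁻¹ * r γ * σ`. -/
def locHomAt (σ : GQ) : Gq →* GQ :=
  (MulAut.conj σ⁻¹).toMonoidHom.comp (localGaloisToGlobal q)

theorem locHomAt_apply (σ : GQ) (γ : Gq) :
    locHomAt q σ γ = σ⁻¹ * localGaloisToGlobal q γ * σ := by
  simp [locHomAt]

theorem embAt_locHomAt (σ : GQ) (γ : Gq) (x : Qb) :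
    embAt q σ (locHomAt q σ γ x) = γ (embAt q σ x) := by
  rw [locHomAt_apply, embAt_apply, embAt_apply]
  simp only [AlgEquiv.mul_apply]
  rw [AlgEquiv.aut_inv, AlgEquiv.apply_symm_apply, padicEmbedding_localGaloisToGlobal]

/-- The action on units is compatible with `embAt`. -/
theorem unitsMap_embAt_smul (σ : GQ) (γ : Gq) (u : Qbˣ) :
    Units.map (embAt q σ : Qb →* Om) (locHomAt q σ γ • u) =
      γ • Units.map (embAt q σ : Qb →* Om) u := by
  ext
  exact embAt_locHomAt q σ γ (u : Qb)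

/-- The local Galois group of `F` at the place `ι ∘ σ`. -/
def locGroup (F : IntermediateField ℚ Qb) (σ : GQ) : Subgroup Gq :=
  F.fixingSubgroup.comap (locHomAt q σ)

theorem mem_locGroup {F : IntermediateField ℚ Qb} {σ : GQ} {γ : Gq} :
    γ ∈ locGroup q F σ ↔ locHomAt q σ γ ∈ F.fixingSubgroup := Iff.rfl

theorem locGroup_antitone {F F' : IntermediateField ℚ Qb} (h : F ≤ F') (σ : GQ) :
    locGroup q F' σ ≤ locGroup q F σ :=
  fun _ hγ => IntermediateField.fixingSubgroup_antitone h hγ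

/-- `γ ∈ locGroup q F σ` iff `γ` fixes `τ(F)` pointwise. -/
theorem mem_locGroup_iff {F : IntermediateField ℚ Qb} {σ : GQ} {γ : Gq} :
    γ ∈ locGroup q F σ ↔ ∀ x ∈ F, γ (embAt q σ x) = embAt q σ x := by
  rw [mem_locGroup, IntermediateField.mem_fixingSubgroup_iff]
  constructor
  · intro h x hx
    rw [← embAt_locHomAt, h x hx]
  · intro h x hx
    apply (embAt q σ).toRingHom.injective
    change embAt q σ _ = embAt q σ _
    rw [embAt_locHomAt, h x hx]

/-! ## Level-constant local cochains -/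

/-- A function on the local Galois group is *level-constant* if it is right-invariant under the
fixing subgroup of a finite extension of `ℚ_q`. -/
def IsLevelLoc {X : Type*} (x : Gq → X) : Prop :=
  ∃ K : IntermediateField ℚ_[q] Om, FiniteDimensional ℚ_[q] K ∧
    ∀ g s : Gq, s ∈ K.fixingSubgroup → x (g * s) = x g

theorem isLevelLoc_iff {X : Type*} (x : Gq → X) :
    IsLevelLoc q x ↔ groupCohomology.IsLevelConstant₁ (localGaloisToGlobal q) x :=
  (helper698.isLevelConstant₁_localGaloisToGlobal_iff q x).symm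

variable {q} in
theorem IsLevelLoc.mul {X : Type*} [Mul X] {x y : Gq → X} (hx : IsLevelLoc q x)
    (hy : IsLevelLoc q y) : IsLevelLoc q (fun g => x g * y g) := by
  obtain ⟨K, hK, h⟩ := hx
  obtain ⟨K', hK', h'⟩ := hy
  have := hK; have := hK'
  refine ⟨K ⊔ K', inferInstance, fun g s hs => ?_⟩
  show x (g * s) * y (g * s) = x g * y g
  rw [h g s (IntermediateField.fixingSubgroup_antitone le_sup_left hs),
    h' g s (IntermediateField.fixingSubgroup_antitone le_sup_right hs)]

variable {q} in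
theorem IsLevelLoc.comp {X Y : Type*} {x : Gq → X} (hx : IsLevelLoc q x) (φ : X → Y) :
    IsLevelLoc q (fun g => φ (x g)) := by
  obtain ⟨K, hK, h⟩ := hx
  exact ⟨K, hK, fun g s hs => by show φ (x (g * s)) = φ (x g); rw [h g s hs]⟩

/-- A finite level of `G_ℚ` pulls back along `locHomAt q σ` to a finite local level. -/
theorem exists_local_level (σ : GQ) (E : IntermediateField ℚ Qb) [FiniteDimensional ℚ E] :
    ∃ K : IntermediateField ℚ_[q] Om, FiniteDimensional ℚ_[q] K ∧
      ∀ γ : Gq, γ ∈ K.fixingSubgroup → locHomAt q σ γ ∈ E.fixingSubgroup := by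
  have : FiniteDimensional ℚ (E.map (σ : Qb →ₐ[ℚ] Qb)) :=
    LinearEquiv.finiteDimensional (IntermediateField.equivMap E (σ : Qb →ₐ[ℚ] Qb)).toLinearEquiv
  obtain ⟨K, hK, h⟩ := helper698.exists_localField_fixingSubgroup_le q (E.map (σ : Qb →ₐ[ℚ] Qb))
  refine ⟨K, hK, fun γ hγ => ?_⟩
  have h1 := h γ hγ
  rw [IntermediateField.mem_fixingSubgroup_iff] at h1 ⊢
  intro x hx
  have h2 := h1 (σ x) (by
    rw [IntermediateField.mem_map]
    exact ⟨x, hx, rfl⟩)
  rw [locHomAt_apply]
  simp only [AlgEquiv.mul_apply]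
  rw [h2, AlgEquiv.aut_inv, AlgEquiv.symm_apply_apply]

/-- Pull-back of a level-constant global cochain to the local group at `ι ∘ σ`. -/
theorem isLevelLoc_pullback {X : Type*} (σ : GQ) (u : GQ → X)
    (hu : ∃ E : IntermediateField ℚ Qb, FiniteDimensional ℚ E ∧
      ∀ g s : GQ, s ∈ E.fixingSubgroup → u (g * s) = u g) :
    IsLevelLoc q (fun γ => u (locHomAt q σ γ)) := by
  obtain ⟨E, hE, h⟩ := hu
  have := hE
  obtain ⟨K, hK, hK'⟩ := exists_local_level q σ E
  refine ⟨K, hK, fun g s hs => ?_⟩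
  show u (locHomAt q σ (g * s)) = u (locHomAt q σ g)
  rw [map_mul]
  exact h _ _ (hK' s hs)

/-! ## Local triviality -/

/-- The local cochain at `ι ∘ σ` attached to a global 2-cochain with values in `Qbarˣ`. -/
def locCochain (σ : GQ) (c : GQ × GQ → Qbˣ) : Gq × Gq → Omˣ :=
  fun γ => Units.map (embAt q σ : Qb →* Om) (c (locHomAt q σ γ.1, locHomAt q σ γ.2))

/-- `c` is *locally trivial at the place `ι ∘ σ` of `F`*: its pull-back to the local Galois group
of `F` at that place is the coboundary of a level-constant `PadicAlgCl qˣ`-valued 1-cochain. -/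
def LocTrivAt (F : IntermediateField ℚ Qb) (σ : GQ) (c : GQ × GQ → Qbˣ) : Prop :=
  ∃ x : Gq → Omˣ, IsLevelLoc q x ∧
    ∀ γ γ' : Gq, γ ∈ locGroup q F σ → γ' ∈ locGroup q F σ →
      γ • x γ' / x (γ * γ') * x γ = locCochain q σ c (γ, γ')

/-- **(P1)** Local triviality is stable under restriction to a larger field. -/
theorem LocTrivAt.mono {F F' : IntermediateField ℚ Qb} (h : F ≤ F') {σ : GQ}
    {c : GQ × GQ → Qbˣ} (hc : LocTrivAt q F σ c) : LocTrivAt q F' σ c := by
  obtain ⟨x, hx, hd⟩ := hc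
  exact ⟨x, hx, fun γ γ' hγ hγ' =>
    hd γ γ' (locGroup_antitone q h σ hγ) (locGroup_antitone q h σ hγ')⟩

/-- Only the values of `c` on `F.fixingSubgroup` matter. -/
theorem LocTrivAt.congr {F : IntermediateField ℚ Qb} {σ : GQ} {c c' : GQ × GQ → Qbˣ}
    (h : ∀ g h : GQ, g ∈ F.fixingSubgroup → h ∈ F.fixingSubgroup → c (g, h) = c' (g, h))
    (hc : LocTrivAt q F σ c) : LocTrivAt q F σ c' := by
  obtain ⟨x, hx, hd⟩ := hc
  refine ⟨x, hx, fun γ γ' hγ hγ' => ?_⟩
  rw [hd γ γ' hγ hγ']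
  simp only [locCochain]
  rw [h _ _ hγ hγ']

/-- One direction of **(P2)**: multiplying by a level-constant global coboundary preserves local
triviality. -/
theorem LocTrivAt.mul_coboundary {F : IntermediateField ℚ Qb} {σ : GQ} {c c' : GQ × GQ → Qbˣ}
    (u : GQ → Qbˣ)
    (hu : ∃ E : IntermediateField ℚ Qb, FiniteDimensional ℚ E ∧
      ∀ g s : GQ, s ∈ E.fixingSubgroup → u (g * s) = u g)
    (h : ∀ g h : GQ, g ∈ F.fixingSubgroup → h ∈ F.fixingSubgroup →
      c (g, h) = c' (g, h) * (g • u h / u (g * h) * u g))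
    (hc : LocTrivAt q F σ c') : LocTrivAt q F σ c := by
  obtain ⟨x, hx, hd⟩ := hc
  have hU : IsLevelLoc q (fun γ => Units.map (embAt q σ : Qb →* Om) (u (locHomAt q σ γ))) :=
    (isLevelLoc_pullback q σ u hu).comp _
  refine ⟨fun γ => x γ * Units.map (embAt q σ : Qb →* Om) (u (locHomAt q σ γ)), hx.mul hU,
    fun γ γ' hγ hγ' => ?_⟩
  have e1 := hd γ γ' hγ hγ'
  simp only [locCochain] at e1 ⊢
  rw [h _ _ hγ hγ', map_mul (Units.map (embAt q σ : Qb →* Om)), ← e1,
    map_mul (Units.map (embAt q σ : Qb →* Om)), map_div, unitsMap_embAt_smul, smul_mul',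
    ← map_mul (locHomAt q σ)]
  exact cg_aux₁ _ _ _ _ _ _

/-- **(P2)** Local triviality only depends on the class modulo level-constant global
coboundaries (on `F.fixingSubgroup`). -/
theorem locTrivAt_iff_of_coboundary {F : IntermediateField ℚ Qb} {σ : GQ} {c c' : GQ × GQ → Qbˣ}
    (u : GQ → Qbˣ)
    (hu : ∃ E : IntermediateField ℚ Qb, FiniteDimensional ℚ E ∧
      ∀ g s : GQ, s ∈ E.fixingSubgroup → u (g * s) = u g)
    (h : ∀ g h : GQ, g ∈ F.fixingSubgroup → h ∈ F.fixingSubgroup →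
      c (g, h) = c' (g, h) * (g • u h / u (g * h) * u g)) :
    LocTrivAt q F σ c ↔ LocTrivAt q F σ c' := by
  refine ⟨fun hc => ?_, fun hc => hc.mul_coboundary q u hu h⟩
  refine hc.mul_coboundary q (fun g => (u g)⁻¹) ?_ ?_
  · obtain ⟨E, hE, hE'⟩ := hu
    exact ⟨E, hE, fun g s hs => by rw [hE' g s hs]⟩
  · intro g k hg hk
    rw [h g k hg hk, smul_inv']
    exact (cg_aux₂ _ _ _ _).symm

/-- **(P5)** If the pull-back of `c` to the local group is the coboundary of a level-constant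
cochain with values in `Qbarˣ` (e.g. in `μ_p`), then `c` is locally trivial. -/
theorem LocTrivAt.of_global_valued {F : IntermediateField ℚ Qb} {σ : GQ} {c : GQ × GQ → Qbˣ}
    (x : Gq → Qbˣ) (hx : IsLevelLoc q x)
    (h : ∀ γ γ' : Gq, γ ∈ locGroup q F σ → γ' ∈ locGroup q F σ →
      c (locHomAt q σ γ, locHomAt q σ γ') = locHomAt q σ γ • x γ' / x (γ * γ') * x γ) :
    LocTrivAt q F σ c := by
  refine ⟨fun γ => Units.map (embAt q σ : Qb →* Om) (x γ), hx.comp _, fun γ γ' hγ hγ' => ?_⟩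
  simp only [locCochain]
  rw [h γ γ' hγ hγ', map_mul, map_div, unitsMap_embAt_smul]

/-! ## (P3) the cyclic layer -/

/-- `IsLevelLoc` is the generic `IsLevel` of `helper6044_LevelCyclic` for `PadicAlgCl q / ℚ_q`. -/
theorem isLevelLoc_iff_isLevel {X : Type*} (x : Gq → X) : IsLevelLoc q x ↔ IsLevel x := Iff.rfl

/-- **(P3), split case.** If the character is trivial on the local group, the carry cocycle is
locally trivial. -/
theorem LocTrivAt.of_carry_split {F : IntermediateField ℚ Qb} {σ : GQ} {c : GQ × GQ → Qbˣ}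
    (p : ℕ) (X : GQ → ℕ) (b : Qbˣ)
    (hc : ∀ g h : GQ, g ∈ F.fixingSubgroup → h ∈ F.fixingSubgroup →
      c (g, h) = b ^ ((X g + X h) / p))
    (hsplit : ∀ γ : Gq, γ ∈ locGroup q F σ → X (locHomAt q σ γ) = 0) :
    LocTrivAt q F σ c := by
  refine ⟨fun _ => 1, ⟨⊥, inferInstance, fun _ _ _ => rfl⟩, fun γ γ' hγ hγ' => ?_⟩
  simp only [locCochain]
  rw [hc _ _ hγ hγ', hsplit γ hγ, hsplit γ' hγ']
  simp

/-- **(P3), nonsplit case, generator form.**  `X` is the `{0,…,p-1}`-valued lift of an additive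
character of `V = F.fixingSubgroup` which is trivial on a finite level, `b` is fixed by `V`, and
`c` is the carry cocycle `b ^ ((X g + X h) / p)` on `V`.  If `s` in the local group at `ι ∘ σ`
has character value `1`, then `c` is locally trivial at `ι ∘ σ` iff `τ b` is a norm from the
local layer: `τ b = ∏_{j<p} s^j • y` with `y` fixed by the kernel of the local character. -/
theorem locTrivAt_carry_iff {F : IntermediateField ℚ Qb} {σ : GQ} {c : GQ × GQ → Qbˣ}
    (p : ℕ) (X : GQ → ℕ) (hX : IsCarryLift F.fixingSubgroup p X)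
    (hlev : ∃ E : IntermediateField ℚ Qb, FiniteDimensional ℚ E ∧
      ∀ t : GQ, t ∈ E.fixingSubgroup → t ∈ F.fixingSubgroup ∧ X t = 0)
    (b : Qbˣ) (hb : ∀ g : GQ, g ∈ F.fixingSubgroup → g • b = b)
    (hc : ∀ g h : GQ, g ∈ F.fixingSubgroup → h ∈ F.fixingSubgroup →
      c (g, h) = b ^ ((X g + X h) / p))
    (s : Gq) (hs : s ∈ locGroup q F σ) (hXs : X (locHomAt q σ s) = 1) :
    LocTrivAt q F σ c ↔
      ∃ y : Omˣ, (∀ t : Gq, t ∈ locGroup q F σ → X (locHomAt q σ t) = 0 → t • y = y) ∧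
        ∏ j ∈ Finset.range p, (s ^ j) • y = Units.map (embAt q σ : Qb →* Om) b := by
  have hX' : IsCarryLift (locGroup q F σ) p (fun γ => X (locHomAt q σ γ)) :=
    ⟨fun γ => hX.lt _, fun γ γ' hγ hγ' => by
      show X (locHomAt q σ (γ * γ')) = _
      rw [map_mul]; exact hX.add _ _ hγ hγ'⟩
  have hlev' : ∃ K : IntermediateField ℚ_[q] Om, FiniteDimensional ℚ_[q] K ∧
      ∀ t ∈ K.fixingSubgroup, t ∈ locGroup q F σ ∧ (fun γ => X (locHomAt q σ γ)) t = 0 := by
    obtain ⟨E, hE, hE'⟩ := hlev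
    have := hE
    obtain ⟨K, hK, hK'⟩ := exists_local_level q σ E
    exact ⟨K, hK, fun t ht => hE' _ (hK' t ht)⟩
  have ha : ∀ γ ∈ locGroup q F σ,
      γ • Units.map (embAt q σ : Qb →* Om) b = Units.map (embAt q σ : Qb →* Om) b := by
    intro γ hγ
    rw [← unitsMap_embAt_smul, hb _ hγ]
  have key := carry_isLevelCoboundary_iff (locGroup q F σ) p (fun γ => X (locHomAt q σ γ)) hX'
    hlev' (Units.map (embAt q σ : Qb →* Om) b) ha s hs hXs
  have e : LocTrivAt q F σ c ↔ ∃ x : Gq → Omˣ, IsLevel x ∧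
      ∀ g h, g ∈ locGroup q F σ → h ∈ locGroup q F σ → g • x h / x (g * h) * x g =
        (Units.map (embAt q σ : Qb →* Om) b) ^
          ((X (locHomAt q σ g) + X (locHomAt q σ h)) / p) := by
    refine exists_congr fun x => and_congr Iff.rfl ?_
    refine forall_congr' fun γ => forall_congr' fun γ' => forall_congr' fun hγ =>
      forall_congr' fun hγ' => ?_
    simp only [locCochain]
    rw [hc _ _ hγ hγ', map_pow]
  rw [e]
  exact key

/-- The fixing subgroup of an adjoin is cut out by the generators. -/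
theorem mem_fixingSubgroup_adjoin_iff {k Ω : Type*} [Field k] [Field Ω] [Algebra k Ω]
    (S : Set Ω) (t : Ω ≃ₐ[k] Ω) :
    t ∈ (IntermediateField.adjoin k S).fixingSubgroup ↔ ∀ x ∈ S, t x = x := by
  rw [IntermediateField.mem_fixingSubgroup_iff]
  constructor
  · intro h x hx
    exact h x (IntermediateField.subset_adjoin k S hx)
  · intro h x hx
    have hle : IntermediateField.adjoin k S ≤ IntermediateField.fixedField (Subgroup.zpowers t) := by
      rw [IntermediateField.adjoin_le_iff]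
      intro y hy
      rw [SetLike.mem_coe, IntermediateField.mem_fixedField_iff]
      intro g hg
      obtain ⟨n, rfl⟩ := Subgroup.mem_zpowers_iff.1 hg
      have h1 : ∀ m : ℕ, (t ^ m) y = y := by
        intro m
        induction m with
        | zero => simp
        | succ m ih => rw [pow_succ, AlgEquiv.mul_apply, h y hy, ih]
      have h2 : ∀ m : ℕ, (t ^ m)⁻¹ y = y := by
        intro m
        rw [AlgEquiv.aut_inv, AlgEquiv.symm_apply_eq, h1 m]
      cases n with
      | ofNat m => simpa using h1 m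
      | negSucc m => simpa using h2 (m + 1)
    have := (IntermediateField.mem_fixedField_iff _ x).1 (hle hx) t (Subgroup.mem_zpowers t)
    exact this

/-- The local field `ℚ_q(τ L)` of `L` at the place `τ = ι ∘ σ`. -/
def locField (L : IntermediateField ℚ Qb) (σ : GQ) : IntermediateField ℚ_[q] Om :=
  IntermediateField.adjoin ℚ_[q] (embAt q σ '' (L : Set Qb))

/-- The local group of `L` at `ι ∘ σ` is the fixing subgroup of the local field `ℚ_q(τ L)`. -/
theorem locGroup_eq_fixingSubgroup (L : IntermediateField ℚ Qb) (σ : GQ) :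
    locGroup q L σ = (locField q L σ).fixingSubgroup := by
  ext γ
  rw [mem_locGroup_iff, locField, mem_fixingSubgroup_adjoin_iff]
  constructor
  · rintro h _ ⟨x, hx, rfl⟩
    exact h x hx
  · intro h x hx
    exact h _ ⟨x, hx, rfl⟩

/-- An element of `PadicAlgCl q` lies in `ℚ_q(τ L)` iff it is fixed by the local group of `L`. -/
theorem mem_locField_iff (L : IntermediateField ℚ Qb) (σ : GQ) (y : Om) :
    y ∈ locField q L σ ↔ ∀ t : Gq, t ∈ locGroup q L σ → t y = y := by
  rw [locGroup_eq_fixingSubgroup]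
  conv_lhs => rw [← InfiniteGalois.fixedField_fixingSubgroup (locField q L σ)]
  rw [IntermediateField.mem_fixedField_iff]

/-- **(P3), field form (`LocNormGen` shape).**  `F ≤ L`, `L/F` the cyclic layer of degree `p`
cut out by the character (`X g = 0 ↔ g ∈ L.fixingSubgroup` on `F.fixingSubgroup`), `p` prime.
If the carry cocycle of `b` is locally trivial at `ι ∘ σ`, then either the place is split in the
layer, or `τ b` is a norm from `ℚ_q(τ L)` to `ℚ_q(τ F)` in generator form. -/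
theorem LocTrivAt.carry_split_or_norm {F L : IntermediateField ℚ Qb} {σ : GQ}
    {c : GQ × GQ → Qbˣ} (p : ℕ) (hp : p.Prime) (X : GQ → ℕ)
    (hX : IsCarryLift F.fixingSubgroup p X) [FiniteDimensional ℚ L]
    (hL : ∀ g : GQ, g ∈ F.fixingSubgroup → (X g = 0 ↔ g ∈ L.fixingSubgroup))
    (hLF : L.fixingSubgroup ≤ F.fixingSubgroup)
    (b : Qbˣ) (hb : ∀ g : GQ, g ∈ F.fixingSubgroup → g • b = b)
    (hc : ∀ g h : GQ, g ∈ F.fixingSubgroup → h ∈ F.fixingSubgroup →
      c (g, h) = b ^ ((X g + X h) / p))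
    (h : LocTrivAt q F σ c) :
    (∀ γ : Gq, γ ∈ locGroup q F σ → γ ∈ locGroup q L σ) ∨
      ∃ s : Gq, s ∈ locGroup q F σ ∧ s ∉ locGroup q L σ ∧ X (locHomAt q σ s) = 1 ∧
        ∃ y : Om, y ≠ 0 ∧ y ∈ locField q L σ ∧
          ∏ j ∈ Finset.range p, (s ^ j) y = embAt q σ (b : Qb) := by
  by_cases hsplit : ∀ γ : Gq, γ ∈ locGroup q F σ → γ ∈ locGroup q L σ
  · exact Or.inl hsplit
  right
  push_neg at hsplit
  obtain ⟨γ₀, hγ₀, hγ₀'⟩ := hsplit
  have hX' : IsCarryLift (locGroup q F σ) p (fun γ => X (locHomAt q σ γ)) :=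
    ⟨fun γ => hX.lt _, fun γ γ' hγ hγ' => by
      show X (locHomAt q σ (γ * γ')) = _
      rw [map_mul]; exact hX.add _ _ hγ hγ'⟩
  have h0 : X (locHomAt q σ γ₀) ≠ 0 := fun h0 => hγ₀' ((hL _ hγ₀).1 h0)
  obtain ⟨s, hs, hXs⟩ := hX'.exists_eq_one hp hγ₀ h0
  have hlev : ∃ E : IntermediateField ℚ Qb, FiniteDimensional ℚ E ∧
      ∀ t : GQ, t ∈ E.fixingSubgroup → t ∈ F.fixingSubgroup ∧ X t = 0 :=
    ⟨L, inferInstance, fun t ht => ⟨hLF ht, (hL t (hLF ht)).2 ht⟩⟩
  obtain ⟨y, hy, hN⟩ := (locTrivAt_carry_iff q p X hX hlev b hb hc s hs hXs).1 h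
  refine ⟨s, hs, fun hsL => ?_, hXs, (y : Om), y.ne_zero, ?_, ?_⟩
  · have := (hL _ hs).2 hsL
    rw [hXs] at this
    exact one_ne_zero this
  · rw [mem_locField_iff]
    intro t ht
    have htF : t ∈ locGroup q F σ := hLF ht
    have := hy t htF ((hL _ htF).2 ht)
    exact congrArg Units.val this
  · have := congrArg Units.val hN
    rw [Units.coe_prod] at this
    exact this

/-- **(P3), field form, converse.**  A norm from the local layer gives local triviality. -/
theorem LocTrivAt.of_carry_norm {F L : IntermediateField ℚ Qb} {σ : GQ}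
    {c : GQ × GQ → Qbˣ} (p : ℕ) (X : GQ → ℕ)
    (hX : IsCarryLift F.fixingSubgroup p X) [FiniteDimensional ℚ L]
    (hL : ∀ g : GQ, g ∈ F.fixingSubgroup → (X g = 0 ↔ g ∈ L.fixingSubgroup))
    (hLF : L.fixingSubgroup ≤ F.fixingSubgroup)
    (b : Qbˣ) (hb : ∀ g : GQ, g ∈ F.fixingSubgroup → g • b = b)
    (hc : ∀ g h : GQ, g ∈ F.fixingSubgroup → h ∈ F.fixingSubgroup →
      c (g, h) = b ^ ((X g + X h) / p))
    (s : Gq) (hs : s ∈ locGroup q F σ) (hXs : X (locHomAt q σ s) = 1)
    (y : Om) (hy0 : y ≠ 0) (hy : y ∈ locField q L σ)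
    (hN : ∏ j ∈ Finset.range p, (s ^ j) y = embAt q σ (b : Qb)) :
    LocTrivAt q F σ c := by
  have hlev : ∃ E : IntermediateField ℚ Qb, FiniteDimensional ℚ E ∧
      ∀ t : GQ, t ∈ E.fixingSubgroup → t ∈ F.fixingSubgroup ∧ X t = 0 :=
    ⟨L, inferInstance, fun t ht => ⟨hLF ht, (hL t (hLF ht)).2 ht⟩⟩
  refine (locTrivAt_carry_iff q p X hX hlev b hb hc s hs hXs).2 ⟨Units.mk0 y hy0, ?_, ?_⟩
  · intro t ht h0
    ext
    exact (mem_locField_iff q L σ y).1 hy t ((hL _ ht).1 h0)
  · ext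
    rw [Units.coe_prod]
    exact hN

end Fermat.Agent.S55.helper6044
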