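/-
S55 / helper1168 : **(P4)** of NF-GH-LOC through `H²(unramified, units) = 0`
(registry leaf LA-UNRAM-INST, consumer-side end theorem).

`N` a finite normal extension of `ℚ` inside `Qbar`, unramified outside `S` (frozen sense),
`F ≤ N`, `q ∉ S`, `σ ∈ G_ℚ`.  A `Qbarˣ`-valued `2`-cocycle on `F.fixingSubgroup` which is inflated
from `Gal(N/F)`, has values in `N` and values of norm one at the place `τ = ι ∘ σ` (e.g. a
`μ_p`-valued `S`-level cocycle) is locally trivial at `τ`: `helper6044.LocTrivAt q F σ c`.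

Inputs: `exists_unit_primitive` ((I3), this seat), the value group at `q ∉ S`
(`helper2512.exists_mem_norm_eq_of_mem_adjoin_conj`, (I4)), the local-triviality vocabulary of
`helper6044_LocTriv`.
-/
import Mathlib
import Fermat.Agent.S55.helper1168_UnramInst
import Fermat.Agent.S55.helper6044_LocTriv
import Fermat.Agent.S55.helper2512_UnramValue

set_option autoImplicit false
set_option linter.style.haveILetI false

noncomputable section

namespace Fermat.Agent.S55.helper1168

open Fermat.Agent.S55 IntermediateField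

local notation "Qb" => AlgebraicClosure ℚ
local notation "GQ" => (AlgebraicClosure ℚ ≃ₐ[ℚ] AlgebraicClosure ℚ)

variable {q : ℕ} [Fact q.Prime]

/-- The local field of a finite extension of `ℚ` at a place is finite over `ℚ_q`. -/
theorem finiteDimensional_locField (N : IntermediateField ℚ Qb) [FiniteDimensional ℚ N] (σ : GQ) :
    FiniteDimensional ℚ_[q] (helper6044.locField q N σ) := by
  have h1 : helper6044.locField q N σ =
      helper1652.localFieldAt q (N.map (σ : Qb →ₐ[ℚ] Qb)) := by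
    rw [helper2512.localFieldAt_map]
    rfl
  rw [h1]
  haveI : FiniteDimensional ℚ (N.map (σ : Qb →ₐ[ℚ] Qb)) :=
    LinearEquiv.finiteDimensional (IntermediateField.equivMap N (σ : Qb →ₐ[ℚ] Qb)).toLinearEquiv
  exact helper1652.finiteDimensional_localFieldAt q _

/-- The local field of a normal extension of `ℚ` is stable under the local Galois group. -/
theorem apply_mem_locField_of_normal (N : IntermediateField ℚ Qb)
    (hNn : ∀ g : GQ, ∀ x ∈ N, g x ∈ N) (σ : GQ)
    (γ : PadicAlgCl q ≃ₐ[ℚ_[q]] PadicAlgCl q) {y : PadicAlgCl q}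
    (hy : y ∈ helper6044.locField q N σ) : γ y ∈ helper6044.locField q N σ := by
  have h1 : (helper6044.locField q N σ).map (γ : PadicAlgCl q →ₐ[ℚ_[q]] PadicAlgCl q) ≤
      helper6044.locField q N σ := by
    unfold helper6044.locField
    rw [IntermediateField.adjoin_map, IntermediateField.adjoin_le_iff]
    rintro _ ⟨_, ⟨x, hx, rfl⟩, rfl⟩
    refine IntermediateField.subset_adjoin _ _ ⟨helper6044.locHomAt q σ γ x, hNn _ x hx, ?_⟩
    exact helper6044.embAt_locHomAt q σ γ x
  exact h1 ⟨y, hy, rfl⟩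

/-- **(P4) via (I3).**  Unit-valued cocycles inflated from a finite normal `S`-level are locally
trivial at every place above a prime `q ∉ S`. -/
theorem locTrivAt_of_unramified {S : Finset Nat.Primes} (hq : (⟨q, Fact.out⟩ : Nat.Primes) ∉ S)
    {F N : IntermediateField ℚ Qb} (hFN : F ≤ N) (hN : N.IsUnramifiedOutside S)
    (hNn : ∀ g : GQ, ∀ x ∈ N, g x ∈ N) (σ : GQ) (c : GQ × GQ → Qbˣ)
    (hcoc : ∀ g h j : GQ, g ∈ F.fixingSubgroup → h ∈ F.fixingSubgroup → j ∈ F.fixingSubgroup →
      c (g * h, j) * c (g, h) = g • c (h, j) * c (g, h * j))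
    (hinv : ∀ g h s t : GQ, g ∈ F.fixingSubgroup → h ∈ F.fixingSubgroup →
      s ∈ N.fixingSubgroup → t ∈ N.fixingSubgroup → c (g * s, h * t) = c (g, h))
    (hval : ∀ g h : GQ, g ∈ F.fixingSubgroup → h ∈ F.fixingSubgroup → (c (g, h) : Qb) ∈ N)
    (hunit : ∀ g h : GQ, g ∈ F.fixingSubgroup → h ∈ F.fixingSubgroup →
      ‖helper6044.embAt q σ (c (g, h) : Qb)‖ = 1) :
    helper6044.LocTrivAt q F σ c := by
  haveI : FiniteDimensional ℚ N := hN.1
  haveI : FiniteDimensional ℚ_[q] (helper6044.locField q N σ) := finiteDimensional_locField N σ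
  have hKL : helper6044.locField q F σ ≤ helper6044.locField q N σ :=
    IntermediateField.adjoin.mono _ _ _ (Set.image_mono hFN)
  have hgrpF := helper6044.locGroup_eq_fixingSubgroup q F σ
  have hgrpN := helper6044.locGroup_eq_fixingSubgroup q N σ
  obtain ⟨x, hx1, -, -, hx4⟩ := exists_unit_primitive (helper6044.locField q F σ)
    (helper6044.locField q N σ) hKL
    (fun γ _ y hy => apply_mem_locField_of_normal N hNn σ γ hy)
    (fun y hy hy0 => helper2512.exists_mem_norm_eq_of_mem_adjoin_conj hN hq σ _ hy hy0)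
    (helper6044.locCochain q σ c)
    (by
      intro g h j hg hh hj
      rw [← hgrpF] at hg hh hj
      simp only [helper6044.locCochain]
      rw [map_mul, map_mul, ← map_mul, hcoc _ _ _ hg hh hj, map_mul,
        helper6044.unitsMap_embAt_smul])
    (by
      intro g h s t hg hh hs ht
      rw [← hgrpF] at hg hh
      rw [← hgrpN] at hs ht
      simp only [helper6044.locCochain]
      rw [map_mul, map_mul, hinv _ _ _ _ hg hh hs ht])
    (by
      intro g h hg hh
      rw [← hgrpF] at hg hh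
      exact IntermediateField.subset_adjoin _ _ ⟨_, hval _ _ hg hh, rfl⟩)
    (by
      intro g h hg hh
      rw [← hgrpF] at hg hh
      exact hunit _ _ hg hh)
  refine ⟨x, ⟨helper6044.locField q N σ, inferInstance, fun g s hs => hx1 g s hs⟩, ?_⟩
  intro γ γ' hγ hγ'
  rw [hgrpF] at hγ hγ'
  exact hx4 γ γ' hγ hγ'

/-- **(P4), torsion-valued form.**  A cocycle with values in roots of unity (e.g. `μ_p`), inflated
from a finite normal `S`-level `N` containing its values, is locally trivial at every place above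
a prime `q ∉ S`. -/
theorem locTrivAt_of_unramified_of_pow_eq_one {S : Finset Nat.Primes}
    (hq : (⟨q, Fact.out⟩ : Nat.Primes) ∉ S)
    {F N : IntermediateField ℚ Qb} (hFN : F ≤ N) (hN : N.IsUnramifiedOutside S)
    (hNn : ∀ g : GQ, ∀ x ∈ N, g x ∈ N) (σ : GQ) (c : GQ × GQ → Qbˣ)
    (hcoc : ∀ g h j : GQ, g ∈ F.fixingSubgroup → h ∈ F.fixingSubgroup → j ∈ F.fixingSubgroup →
      c (g * h, j) * c (g, h) = g • c (h, j) * c (g, h * j))
    (hinv : ∀ g h s t : GQ, g ∈ F.fixingSubgroup → h ∈ F.fixingSubgroup →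
      s ∈ N.fixingSubgroup → t ∈ N.fixingSubgroup → c (g * s, h * t) = c (g, h))
    (hval : ∀ g h : GQ, g ∈ F.fixingSubgroup → h ∈ F.fixingSubgroup → (c (g, h) : Qb) ∈ N)
    (n : ℕ) (hn : n ≠ 0)
    (hpow : ∀ g h : GQ, g ∈ F.fixingSubgroup → h ∈ F.fixingSubgroup → c (g, h) ^ n = 1) :
    helper6044.LocTrivAt q F σ c := by
  refine locTrivAt_of_unramified hq hFN hN hNn σ c hcoc hinv hval (fun g h hg hh => ?_)
  have h1 : (helper6044.embAt q σ (c (g, h) : Qb)) ^ n = 1 := by
    rw [← map_pow, ← Units.val_pow_eq_pow_val, hpow g h hg hh, Units.val_one, map_one]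
  have h2 : ‖helper6044.embAt q σ (c (g, h) : Qb)‖ ^ n = 1 := by
    rw [← norm_pow, h1, norm_one]
  exact (pow_eq_one_iff_of_nonneg (norm_nonneg _) hn).mp h2

/-- **(P4), pointwise-torsion form** (each value is some root of unity). -/
theorem locTrivAt_of_unramified_of_torsion {S : Finset Nat.Primes}
    (hq : (⟨q, Fact.out⟩ : Nat.Primes) ∉ S)
    {F N : IntermediateField ℚ Qb} (hFN : F ≤ N) (hN : N.IsUnramifiedOutside S)
    (hNn : ∀ g : GQ, ∀ x ∈ N, g x ∈ N) (σ : GQ) (c : GQ × GQ → Qbˣ)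
    (hcoc : ∀ g h j : GQ, g ∈ F.fixingSubgroup → h ∈ F.fixingSubgroup → j ∈ F.fixingSubgroup →
      c (g * h, j) * c (g, h) = g • c (h, j) * c (g, h * j))
    (hinv : ∀ g h s t : GQ, g ∈ F.fixingSubgroup → h ∈ F.fixingSubgroup →
      s ∈ N.fixingSubgroup → t ∈ N.fixingSubgroup → c (g * s, h * t) = c (g, h))
    (hval : ∀ g h : GQ, g ∈ F.fixingSubgroup → h ∈ F.fixingSubgroup → (c (g, h) : Qb) ∈ N)
    (htor : ∀ g h : GQ, g ∈ F.fixingSubgroup → h ∈ F.fixingSubgroup →
      ∃ m : ℕ, 0 < m ∧ c (g, h) ^ m = 1) :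
    helper6044.LocTrivAt q F σ c := by
  refine locTrivAt_of_unramified hq hFN hN hNn σ c hcoc hinv hval (fun g h hg hh => ?_)
  obtain ⟨m, hm, hpow⟩ := htor g h hg hh
  have h1 : (helper6044.embAt q σ (c (g, h) : Qb)) ^ m = 1 := by
    rw [← map_pow, ← Units.val_pow_eq_pow_val, hpow, Units.val_one, map_one]
  have h2 : ‖helper6044.embAt q σ (c (g, h) : Qb)‖ ^ m = 1 := by
    rw [← norm_pow, h1, norm_one]
  exact (pow_eq_one_iff_of_nonneg (norm_nonneg _) hm.ne').mp h2

end Fermat.Agent.S55.helper1168
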