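/-
S55-CORES2 (helper1987): restriction-corestriction in degree 2 at cocycle level.

If `f : G × G → A` is a 2-cocycle whose restriction to a finite-index subgroup `H` is a
coboundary, then `H.index • f` is a coboundary.  The proof is by an explicit primitive
(no Shapiro lemma, no homogeneous cochains, no corestriction map).

Exported (all Mathlib-only, predicates `groupCohomology.IsCocycle₂` etc.):
* `index_smul_isCoboundary₂`            : additive cocycle form;
* `index_smul_isCoboundary₂_of_rightInvariant` : same, and the primitive stays right-invariant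
  under a normal subgroup `N ≤ H` when the data are (level-constant / continuous version);
* `isCoboundary₂_of_coprime_index`      : `n • f` coboundary, `n` coprime to the index ⟹ `f`
  coboundary (Sylow step);
* `pow_index_isMulCoboundary₂`          : multiplicative form (`MulDistribMulAction`, e.g. `Lˣ`);
* `index_smul_H2_eq_zero`               : on Mathlib's `groupCohomology.H2` of a `Rep k G`.

Idea: write `res f = d β`; on a right transversal put `Φ (h t) = f (h, t) - β h`, so that
`Φ (h y) = h • Φ y + f (h, y) - β h`; then `v x g = x⁻¹ • (f (x, g) - Φ (x g) + Φ x)` only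
depends on the coset `H x` and `g₁ • v (x g₁) g₂ - v x (g₁ g₂) + v x g₁ = f (g₁, g₂)` for
every `x`; summing over the cosets gives `index • f = d (∑ v)`.
-/
import Mathlib

set_option autoImplicit false

namespace Fermat.Agent.S55.helper1987

open groupCohomology

section core

variable {G A : Type*} [Group G] [AddCommGroup A] [DistribMulAction G A]

/-- A representative of the right coset `H x`. -/
noncomputable def cosetRep (H : Subgroup G) (x : G) : G :=
  (((x⁻¹ : G) : G ⧸ H).out)⁻¹

theorem mul_cosetRep_inv_mem (H : Subgroup G) (x : G) : x * (cosetRep H x)⁻¹ ∈ H := by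
  obtain ⟨h, hh⟩ := QuotientGroup.mk_out_eq_mul H x⁻¹
  simp only [cosetRep, inv_inv, hh, mul_inv_cancel_left]
  exact h.2

theorem cosetRep_mul_left (H : Subgroup G) {h : G} (hh : h ∈ H) (x : G) :
    cosetRep H (h * x) = cosetRep H x := by
  unfold cosetRep
  have : (((h * x)⁻¹ : G) : G ⧸ H) = ((x⁻¹ : G) : G ⧸ H) := by
    rw [mul_inv_rev]
    exact QuotientGroup.mk_mul_of_mem _ (H.inv_mem hh)
  rw [this]

/-- The `H`-component of `x` with respect to the chosen right transversal. -/
noncomputable def cosetPart (H : Subgroup G) (x : G) : H :=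
  ⟨x * (cosetRep H x)⁻¹, mul_cosetRep_inv_mem H x⟩

theorem cosetPart_mul_cosetRep (H : Subgroup G) (x : G) :
    (cosetPart H x : G) * cosetRep H x = x := by
  simp [cosetPart]

theorem cosetPart_mul_left (H : Subgroup G) (h : H) (x : G) :
    cosetPart H ((h : G) * x) = h * cosetPart H x := by
  apply Subtype.ext
  simp only [cosetPart, Subgroup.coe_mul, cosetRep_mul_left H h.2 x, mul_assoc]

/-- The auxiliary `H`-semi-equivariant primitive. -/
noncomputable def prim (H : Subgroup G) (f : G × G → A) (β : H → A) (x : G) : A :=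
  f ((cosetPart H x : G), cosetRep H x) - β (cosetPart H x)

theorem prim_mul_left (H : Subgroup G) {f : G × G → A} (hf : IsCocycle₂ f) {β : H → A}
    (hβ : ∀ g h : H, g • β h - β (g * h) + β g = f ((g : G), (h : G))) (h : H) (y : G) :
    prim H f β ((h : G) * y) = (h : G) • prim H f β y + f ((h : G), y) - β h := by
  unfold prim
  rw [cosetPart_mul_left, cosetRep_mul_left H h.2 y]
  have h1 := hf (h : G) (cosetPart H y : G) (cosetRep H y)
  have h2 := hβ h (cosetPart H y)
  rw [cosetPart_mul_cosetRep] at h1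
  rw [Subgroup.coe_mul, smul_sub]
  have h3 : h • β (cosetPart H y) = (h : G) • β (cosetPart H y) := rfl
  rw [h3] at h2
  rw [eq_sub_of_add_eq h1, ← h2]
  abel

/-- The coset-invariant "twisted primitive". -/
noncomputable def tw (H : Subgroup G) (f : G × G → A) (β : H → A) (x g : G) : A :=
  x⁻¹ • (f (x, g) - prim H f β (x * g) + prim H f β x)

theorem tw_mul_left (H : Subgroup G) {f : G × G → A} (hf : IsCocycle₂ f) {β : H → A}
    (hβ : ∀ g h : H, g • β h - β (g * h) + β g = f ((g : G), (h : G))) (h : H) (x g : G) :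
    tw H f β ((h : G) * x) g = tw H f β x g := by
  unfold tw
  have h1 := hf (h : G) x g
  have e1 := prim_mul_left H hf hβ h (x * g)
  have e2 := prim_mul_left H hf hβ h x
  rw [← mul_assoc] at e1
  have key : f ((h : G) * x, g) - prim H f β ((h : G) * x * g) + prim H f β ((h : G) * x)
      = (h : G) • (f (x, g) - prim H f β (x * g) + prim H f β x) := by
    rw [e1, e2, smul_add, smul_sub, eq_sub_of_add_eq h1]
    abel
  rw [key, mul_inv_rev, mul_smul, inv_smul_smul]

theorem tw_cocycle (H : Subgroup G) {f : G × G → A} (hf : IsCocycle₂ f) (β : H → A)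
    (x g₁ g₂ : G) :
    g₁ • tw H f β (x * g₁) g₂ - tw H f β x (g₁ * g₂) + tw H f β x g₁ = f (g₁, g₂) := by
  unfold tw
  have h1 := hf x g₁ g₂
  have e : g₁ • (x * g₁)⁻¹ • (f (x * g₁, g₂) - prim H f β (x * g₁ * g₂) + prim H f β (x * g₁))
      = x⁻¹ • (f (x * g₁, g₂) - prim H f β (x * g₁ * g₂) + prim H f β (x * g₁)) := by
    rw [← mul_smul, mul_inv_rev, mul_inv_cancel_left]
  rw [e, ← smul_sub, ← smul_add, ← mul_assoc]
  have key : f (x * g₁, g₂) - prim H f β (x * g₁ * g₂) + prim H f β (x * g₁)
      - (f (x, g₁ * g₂) - prim H f β (x * g₁ * g₂) + prim H f β x)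
      + (f (x, g₁) - prim H f β (x * g₁) + prim H f β x) = x • f (g₁, g₂) := by
    rw [eq_sub_of_add_eq h1]
    abel
  rw [key, inv_smul_smul]

/-- `tw` evaluated at the right-coset representative attached to a left coset `c`. -/
noncomputable def twQ (H : Subgroup G) (f : G × G → A) (β : H → A) (c : G ⧸ H) (g : G) : A :=
  tw H f β (c.out)⁻¹ g

theorem tw_out_inv_mul (H : Subgroup G) {f : G × G → A} (hf : IsCocycle₂ f) {β : H → A}
    (hβ : ∀ g h : H, g • β h - β (g * h) + β g = f ((g : G), (h : G))) (c : G ⧸ H) (g₁ g₂ : G) :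
    tw H f β ((c.out)⁻¹ * g₁) g₂ = twQ H f β (g₁⁻¹ • c) g₂ := by
  unfold twQ
  set b : G := (g₁⁻¹ • c).out with hb
  have hmk : ((g₁⁻¹ * c.out : G) : G ⧸ H) = ((b : G) : G ⧸ H) := by
    rw [hb, QuotientGroup.out_eq']
    conv_rhs => rw [← QuotientGroup.out_eq' c]
    rfl
  have hmem : (g₁⁻¹ * c.out)⁻¹ * b ∈ H := QuotientGroup.eq.1 hmk
  have e : (c.out)⁻¹ * g₁ = (⟨(g₁⁻¹ * c.out)⁻¹ * b, hmem⟩ : H) * b⁻¹ := by
    simp [mul_assoc]
  rw [e, tw_mul_left H hf hβ]

/-- **Restriction–corestriction in degree 2, cocycle form.** -/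
theorem index_smul_isCoboundary₂ (H : Subgroup G) [H.FiniteIndex] (f : G × G → A)
    (hf : IsCocycle₂ f)
    (hres : IsCoboundary₂ (fun q : H × H => f ((q.1 : G), (q.2 : G)))) :
    IsCoboundary₂ (H.index • f) := by
  classical
  obtain ⟨β, hβ⟩ := hres
  have : Finite (G ⧸ H) := Subgroup.finite_quotient_of_finiteIndex
  let _ : Fintype (G ⧸ H) := Fintype.ofFinite _
  refine ⟨fun g => ∑ c : G ⧸ H, twQ H f β c g, fun g₁ g₂ => ?_⟩
  have hperm : ∑ c : G ⧸ H, twQ H f β (g₁⁻¹ • c) g₂ = ∑ c : G ⧸ H, twQ H f β c g₂ :=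
    Equiv.sum_comp (MulAction.toPerm g₁⁻¹) (fun c => twQ H f β c g₂)
  have hsum : ∑ c : G ⧸ H, (g₁ • twQ H f β (g₁⁻¹ • c) g₂ - twQ H f β c (g₁ * g₂) + twQ H f β c g₁)
      = ∑ _c : G ⧸ H, f (g₁, g₂) := by
    refine Finset.sum_congr rfl fun c _ => ?_
    rw [← tw_out_inv_mul H hf hβ c g₁ g₂]
    exact tw_cocycle H hf β _ g₁ g₂
  rw [Finset.sum_add_distrib, Finset.sum_sub_distrib, ← Finset.smul_sum, hperm] at hsum
  rw [hsum, Finset.sum_const, Finset.card_univ, Pi.smul_apply, Subgroup.index_eq_card,
    Nat.card_eq_fintype_card]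

omit [DistribMulAction G A] in
theorem prim_mul_right_of_mem (H : Subgroup G) (N : Subgroup G) [N.Normal] (hNH : N ≤ H)
    {f : G × G → A} (hfN : ∀ g g' n : G, n ∈ N → f (g * n, g') = f (g, g'))
    {β : H → A} (hβN : ∀ h n : H, (n : G) ∈ N → β (h * n) = β h) (y : G) {n : G} (hn : n ∈ N) :
    prim H f β (y * n) = prim H f β y := by
  have hm : y * n * y⁻¹ ∈ N := Subgroup.Normal.conj_mem inferInstance n hn y
  have e : y * n = ((⟨y * n * y⁻¹, hNH hm⟩ : H) : G) * y := by simp
  set k : H := cosetPart H y with hk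
  have hm' : (k : G)⁻¹ * (y * n * y⁻¹) * (k : G) ∈ N := by
    have := Subgroup.Normal.conj_mem (inferInstance : N.Normal) _ hm (k : G)⁻¹
    simpa using this
  have e2 : (⟨y * n * y⁻¹, hNH hm⟩ : H) * k
      = k * (⟨(k : G)⁻¹ * (y * n * y⁻¹) * (k : G), hNH hm'⟩ : H) := by
    apply Subtype.ext
    simp [mul_assoc]
  unfold prim
  rw [e, cosetPart_mul_left, cosetRep_mul_left H (hNH hm) y, ← hk, e2, hβN k _ hm',
    Subgroup.coe_mul, hfN _ _ _ hm']

/-- **Level-preserving form**: if `f` and the primitive `β` of its restriction to `H` are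
right-invariant under a normal subgroup `N ≤ H`, then `H.index • f` has a primitive that is
right-invariant under `N`. -/
theorem index_smul_isCoboundary₂_of_rightInvariant (H : Subgroup G) [H.FiniteIndex]
    (N : Subgroup G) [N.Normal] (hNH : N ≤ H) (f : G × G → A) (hf : IsCocycle₂ f)
    (hfN : ∀ g g' n n' : G, n ∈ N → n' ∈ N → f (g * n, g' * n') = f (g, g'))
    (β : H → A) (hβ : ∀ g h : H, g • β h - β (g * h) + β g = f ((g : G), (h : G)))
    (hβN : ∀ h n : H, (n : G) ∈ N → β (h * n) = β h) :
    ∃ u : G → A, (∀ g h : G, g • u h - u (g * h) + u g = H.index • f (g, h)) ∧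
      ∀ g n : G, n ∈ N → u (g * n) = u g := by
  classical
  have : Finite (G ⧸ H) := Subgroup.finite_quotient_of_finiteIndex
  let _ : Fintype (G ⧸ H) := Fintype.ofFinite _
  have hfN1 : ∀ g g' n : G, n ∈ N → f (g * n, g') = f (g, g') := fun g g' n hn => by
    have := hfN g g' n 1 hn N.one_mem
    rwa [mul_one] at this
  have hfN2 : ∀ g g' n : G, n ∈ N → f (g, g' * n) = f (g, g') := fun g g' n hn => by
    have := hfN g g' 1 n N.one_mem hn
    rwa [mul_one] at this
  refine ⟨fun g => ∑ c : G ⧸ H, twQ H f β c g, fun g₁ g₂ => ?_, fun g n hn => ?_⟩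
  · have hperm : ∑ c : G ⧸ H, twQ H f β (g₁⁻¹ • c) g₂ = ∑ c : G ⧸ H, twQ H f β c g₂ :=
      Equiv.sum_comp (MulAction.toPerm g₁⁻¹) (fun c => twQ H f β c g₂)
    have hsum : ∑ c : G ⧸ H,
        (g₁ • twQ H f β (g₁⁻¹ • c) g₂ - twQ H f β c (g₁ * g₂) + twQ H f β c g₁)
        = ∑ _c : G ⧸ H, f (g₁, g₂) := by
      refine Finset.sum_congr rfl fun c _ => ?_
      rw [← tw_out_inv_mul H hf hβ c g₁ g₂]
      exact tw_cocycle H hf β _ g₁ g₂
    rw [Finset.sum_add_distrib, Finset.sum_sub_distrib, ← Finset.smul_sum, hperm] at hsum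
    rw [hsum, Finset.sum_const, Finset.card_univ, Subgroup.index_eq_card,
      Nat.card_eq_fintype_card]
  · refine Finset.sum_congr rfl fun c _ => ?_
    unfold twQ tw
    rw [← mul_assoc, prim_mul_right_of_mem H N hNH hfN1 hβN _ hn, hfN2 _ _ _ hn]

/-- Coprime form: if `n • f` is a coboundary, `n` is coprime to the index of `H`, and the
restriction of `f` to `H` is a coboundary, then `f` is a coboundary. -/
theorem isCoboundary₂_of_coprime_index (H : Subgroup G) [H.FiniteIndex] (f : G × G → A)
    (hf : IsCocycle₂ f)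
    (hres : IsCoboundary₂ (fun q : H × H => f ((q.1 : G), (q.2 : G))))
    (n : ℕ) (hn : IsCoboundary₂ (n • f)) (hcop : Nat.Coprime n H.index) :
    IsCoboundary₂ f := by
  obtain ⟨x, hx⟩ := hn
  obtain ⟨y, hy⟩ := index_smul_isCoboundary₂ H f hf hres
  have hb : (n : ℤ) * Nat.gcdA n H.index + (H.index : ℤ) * Nat.gcdB n H.index = 1 := by
    have := Nat.gcd_eq_gcd_ab n H.index
    rw [hcop.gcd_eq_one] at this
    exact_mod_cast this.symm
  refine ⟨fun g => Nat.gcdA n H.index • x g + Nat.gcdB n H.index • y g, fun g h => ?_⟩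
  have hx' := hx g h
  have hy' := hy g h
  simp only [Pi.smul_apply] at hx' hy'
  have e1 : g • (Nat.gcdA n H.index • x h + Nat.gcdB n H.index • y h)
      - (Nat.gcdA n H.index • x (g * h) + Nat.gcdB n H.index • y (g * h))
      + (Nat.gcdA n H.index • x g + Nat.gcdB n H.index • y g)
      = Nat.gcdA n H.index • (g • x h - x (g * h) + x g)
        + Nat.gcdB n H.index • (g • y h - y (g * h) + y g) := by
    simp only [smul_add, smul_sub, smul_comm g (_ : ℤ)]
    abel
  rw [e1, hx', hy']
  calc Nat.gcdA n H.index • n • f (g, h) + Nat.gcdB n H.index • H.index • f (g, h)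
      = ((n : ℤ) * Nat.gcdA n H.index + (H.index : ℤ) * Nat.gcdB n H.index) • f (g, h) := by
        rw [add_smul, mul_comm (n : ℤ), mul_comm (H.index : ℤ), mul_smul, mul_smul,
          natCast_zsmul, natCast_zsmul]
    _ = f (g, h) := by rw [hb, one_smul]

end core

section mul

variable {G M : Type*} [Group G] [CommGroup M] [MulDistribMulAction G M]

/-- The additive action on `Additive M` induced by a `MulDistribMulAction` (local use only). -/
@[reducible] def additiveAction (G M : Type*) [Group G] [CommGroup M] [MulDistribMulAction G M] :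
    DistribMulAction G (Additive M) where
  smul g a := Additive.ofMul (g • Additive.toMul a)
  one_smul a := by
    change Additive.ofMul ((1 : G) • Additive.toMul a) = a
    rw [one_smul]; rfl
  mul_smul g h a := by
    change Additive.ofMul ((g * h) • Additive.toMul a)
      = Additive.ofMul (g • Additive.toMul (Additive.ofMul (h • Additive.toMul a)))
    rw [mul_smul]; rfl
  smul_zero g := by
    change Additive.ofMul (g • (1 : M)) = Additive.ofMul 1
    rw [smul_one]
  smul_add g a b := by
    change Additive.ofMul (g • (Additive.toMul a * Additive.toMul b))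
      = Additive.ofMul (g • Additive.toMul a * g • Additive.toMul b)
    rw [smul_mul']

/-- **Restriction–corestriction in degree 2, multiplicative cocycle form** (e.g. `M = Lˣ`). -/
theorem pow_index_isMulCoboundary₂ (H : Subgroup G) [H.FiniteIndex] (f : G × G → M)
    (hf : IsMulCocycle₂ f)
    (hres : IsMulCoboundary₂ (fun q : H × H => f ((q.1 : G), (q.2 : G)))) :
    IsMulCoboundary₂ (f ^ H.index) := by
  let _ := additiveAction G M
  have hf' : IsCocycle₂ (fun q : G × G => Additive.ofMul (f q)) := fun g h j => hf g h j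
  have hres' : IsCoboundary₂ (fun q : H × H =>
      (fun q : G × G => Additive.ofMul (f q)) ((q.1 : G), (q.2 : G))) := by
    obtain ⟨x, hx⟩ := hres
    refine ⟨fun h => Additive.ofMul (x h), fun g h => ?_⟩
    exact congrArg Additive.ofMul (hx g h)
  obtain ⟨u, hu⟩ := index_smul_isCoboundary₂ H _ hf' hres'
  refine ⟨fun g => Additive.toMul (u g), fun g h => ?_⟩
  exact congrArg Additive.toMul (hu g h)

end mul

section rep

universe u

open CategoryTheory

variable {k G : Type u} [CommRing k] [Group G]

/-- The `DistribMulAction` underlying a representation (local use only). -/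
@[reducible] def repAction (A : Rep k G) : DistribMulAction G A where
  smul g a := A.ρ g a
  one_smul a := by
    change A.ρ 1 a = a
    simp
  mul_smul g h a := by
    change A.ρ (g * h) a = A.ρ g (A.ρ h a)
    simp
  smul_zero g := map_zero _
  smul_add g a b := map_add _ _ _

/-- **Restriction–corestriction in degree 2 on Mathlib's `H2`**: a class in `H²(G, A)` whose
restriction to a finite-index subgroup `H` vanishes is killed by the index of `H`. -/
theorem index_smul_H2_eq_zero (A : Rep k G) (H : Subgroup G) [H.FiniteIndex]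
    (x : groupCohomology.H2 A)
    (hx : groupCohomology.map H.subtype (𝟙 (Rep.res H.subtype A)) 2 x = 0) :
    H.index • x = 0 := by
  induction x using groupCohomology.H2_induction_on with
  | h c =>
    let _ := repAction A
    have hc : IsCocycle₂ (c : G × G → A) := (mem_cocycles₂_iff (c : G × G → A)).1 c.2
    have h1 : (H2π (Rep.res H.subtype A))
        (mapCocycles₂ H.subtype (𝟙 (Rep.res H.subtype A)) c) = 0 := by
      rw [← hx]
      exact (H2π_comp_map_apply H.subtype (𝟙 (Rep.res H.subtype A)) c).symm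
    rw [H2π_eq_zero_iff] at h1
    obtain ⟨β, hβ⟩ := h1
    have hres : IsCoboundary₂ (fun q : H × H => (c : G × G → A) ((q.1 : G), (q.2 : G))) := by
      refine ⟨β, fun g h => ?_⟩
      exact congrFun hβ (g, h)
    obtain ⟨u, hu⟩ := index_smul_isCoboundary₂ H _ hc hres
    have hmem : ((H.index • c : cocycles₂ A) : G × G → A) ∈ coboundaries₂ A := by
      refine ⟨u, ?_⟩
      funext q
      exact hu q.1 q.2
    have := (H2π_eq_zero_iff (H.index • c)).2 hmem
    rw [map_nsmul] at this
    exact this

end rep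

end Fermat.Agent.S55.helper1987
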