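import Mathlib

/-!
# Inflation-restriction in degree 2, explicit cocycles (S55-INFRES2, helper3644)

`G` a group, `N` a normal subgroup, `A` an abelian group with a distributive `G`-action such that
`H¹(N, A) = 0` (every 1-cocycle on `N` is a coboundary; Hilbert 90 in the applications).

* `exists_inflated_of_res_isCoboundary₂` : exactness of `H²(G/N, A^N) → H²(G, A) → H²(N, A)` in
  the middle: a 2-cocycle on `G` whose restriction to `N × N` is a coboundary is cohomologous to
  a 2-cocycle which is constant on `N`-cosets in both variables and has values in `A^N`.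
* `isCoboundary₂_descend` : injectivity of inflation: an `N`-coset-constant, `A^N`-valued
  function on `G × G` which is the coboundary of some 1-cochain on `G` is the coboundary of an
  `N`-coset-constant `A^N`-valued 1-cochain.

Multiplicative twins (`IsMulCocycle₂`, `MulDistribMulAction`, e.g. `A = Lˣ`) are at the end.
-/

namespace Fermat.Agent.S55.helper3644

open groupCohomology

section Additive

variable {G A : Type*} [Group G] [AddCommGroup A] [DistribMulAction G A]

/-- The coboundary of a 1-cochain, as a function on `G × G`. -/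
def dOne (x : G → A) : G × G → A := fun p => p.1 • x p.2 - x (p.1 * p.2) + x p.1

@[simp] lemma dOne_apply (x : G → A) (g h : G) : dOne x (g, h) = g • x h - x (g * h) + x g := rfl

lemma isCocycle₂_dOne (x : G → A) : IsCocycle₂ (dOne x) := by
  intro g h j
  simp only [dOne_apply, smul_add, smul_sub, mul_smul, mul_assoc]
  abel

lemma isCocycle₂_add {f f' : G × G → A} (hf : IsCocycle₂ f) (hf' : IsCocycle₂ f') :
    IsCocycle₂ (fun p => f p + f' p) := by
  intro g h j
  have e1 := hf g h j
  have e2 := hf' g h j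
  simp only [smul_add]
  linear_combination (norm := abel) e1 + e2

lemma isCocycle₂_sub {f f' : G × G → A} (hf : IsCocycle₂ f) (hf' : IsCocycle₂ f') :
    IsCocycle₂ (fun p => f p - f' p) := by
  intro g h j
  have e1 := hf g h j
  have e2 := hf' g h j
  simp only [smul_sub]
  linear_combination (norm := abel) e1 - e2

/-! ### Core identities for a 2-cocycle vanishing on `N × N` -/

section Core

variable {f : G × G → A}

/-- The "conjugation cochain" `n' ↦ f (g, n) - f (n', g)` with `g * n = n' * g` is additive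
along the cocycle rule (core identity, written with explicit group elements). -/
lemma core_conj_cocycle (hf : IsCocycle₂ f) (g n m n' m' : G)
    (hgn : g * n = n' * g) (hgm : g * m = m' * g)
    (hnm : f (n, m) = 0) (hnm' : f (n', m') = 0) :
    f (g, n * m) - f (n' * m', g) = n' • (f (g, m) - f (m', g)) + (f (g, n) - f (n', g)) := by
  have e1 := hf g n m
  have e2 := hf n' g m
  have e3 := hf n' m' g
  rw [hgn] at e1
  rw [hgm] at e2
  rw [hnm, smul_zero] at e1
  rw [hnm'] at e3
  simp only [smul_sub]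
  linear_combination (norm := abel) e2 - e1 - e3

/-- Transport of the normalising property `P` along right multiplication by `ν ∈ N`
(core identity). -/
lemma core_P_transfer (hf : IsCocycle₂ f) (t ν k k' n' : G) (β : A)
    (htk : t * k = n' * t) (hνk : ν * k' = k * ν)
    (hkν : f (k, ν) = 0) (hνk' : f (ν, k') = 0)
    (hβ : n' • β - β = f (t, k) - f (n', t)) :
    n' • (β + f (t, ν)) - (β + f (t, ν)) = f (t * ν, k') - f (n', t * ν) := by
  have e1 := hf n' t ν
  have e2 := hf t k ν
  have e3 := hf t ν k'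
  rw [← htk] at e1
  rw [hkν, smul_zero] at e2
  rw [hνk', smul_zero, hνk] at e3
  simp only [smul_add]
  linear_combination (norm := abel) hβ - e1 + e2 - e3

/-- Invariance of `φ = f + d x` under `N` (core identity). -/
lemma core_invariant (hf : IsCocycle₂ f) (x : G → A) (g h n' n₁ n₂ : G)
    (hg : g * n₁ = n' * g) (hh : h * n₂ = n₁ * h)
    (hPg : n' • x g - x g = f (g, n₁) - f (n', g))
    (hPh : n₁ • x h - x h = f (h, n₂) - f (n₁, h))
    (hPgh : n' • x (g * h) - x (g * h) = f (g * h, n₂) - f (n', g * h)) :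
    n' • (f (g, h) + dOne x (g, h)) = f (g, h) + dOne x (g, h) := by
  have e1 := hf n' g h
  have e2 := hf g n₁ h
  have e3 := hf g h n₂
  rw [← hg] at e1
  rw [← hh] at e2
  have e4 : n' • g • x h - g • x h = g • (f (h, n₂) - f (n₁, h)) := by
    rw [← hPh, smul_sub, ← mul_smul, ← mul_smul, hg]
  simp only [dOne_apply, smul_add, smul_sub] at e4 ⊢
  linear_combination (norm := abel) e4 - hPgh + hPg - e1 + e2 - e3

/-- Right coset-constancy of `φ = f + d x` in the second variable (core identity). -/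
lemma core_const_snd (hf : IsCocycle₂ f) (x : G → A) (g h ν : G)
    (hQh : x (h * ν) = x h + f (h, ν))
    (hQgh : x (g * h * ν) = x (g * h) + f (g * h, ν)) :
    f (g, h * ν) + dOne x (g, h * ν) = f (g, h) + dOne x (g, h) := by
  have e1 := hf g h ν
  simp only [dOne_apply, ← mul_assoc, hQh, hQgh, smul_add]
  linear_combination (norm := abel) (-1 : ℤ) • e1

/-- Right coset-constancy of `φ = f + d x` in the first variable (core identity). -/
lemma core_const_fst (hf : IsCocycle₂ f) (x : G → A) (g h ν ν' : G)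
    (hν : h * ν' = ν * h)
    (hQg : x (g * ν) = x g + f (g, ν))
    (hPh : ν • x h - x h = f (h, ν') - f (ν, h))
    (hQgh : x (g * h * ν') = x (g * h) + f (g * h, ν')) :
    f (g * ν, h) + dOne x (g * ν, h) = f (g, h) + dOne x (g, h) := by
  have e1 := hf g ν h
  have e2 := hf g h ν'
  rw [← hν] at e1
  have e3 : g • ν • x h - g • x h = g • (f (h, ν') - f (ν, h)) := by
    rw [← hPh, smul_sub]
  have e4 : x (g * ν * h) = x (g * h) + f (g * h, ν') := by
    rw [← hQgh, mul_assoc g ν h, ← hν, mul_assoc]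
  simp only [dOne_apply, hQg, e4, mul_smul, smul_sub] at e3 ⊢
  linear_combination (norm := abel) e1 - e2 + e3

end Core

/-! ### The theorems (additive form) -/

section Main

variable (N : Subgroup G) [N.Normal]

omit [N.Normal] in
/-- Membership form of `H¹(N, A) = 0`. -/
lemma exists_smul_sub_eq_of_H1
    (hH1 : ∀ c : N → A, IsCocycle₁ c → IsCoboundary₁ c)
    (c : G → A) (hc : ∀ n ∈ N, ∀ m ∈ N, c (n * m) = n • c m + c n) :
    ∃ b : A, ∀ n ∈ N, n • b - b = c n := by
  obtain ⟨b, hb⟩ := hH1 (fun n => c n) (fun n m => hc n n.2 m m.2)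
  exact ⟨b, fun n hn => hb ⟨n, hn⟩⟩

/-- **Inflation-restriction, exactness at `H²(G, A)`** (additive form).
If `H¹(N, A) = 0` and the restriction to `N × N` of a 2-cocycle `f` on `G` is a coboundary, then
`f = f' + d y` where the 2-cocycle `f'` is constant on `N`-cosets in both variables and has
values in the `N`-invariants, i.e. `f'` is inflated from `G ⧸ N` with coefficients `A^N`. -/
theorem exists_inflated_of_res_isCoboundary₂
    (hH1 : ∀ c : N → A, IsCocycle₁ c → IsCoboundary₁ c)
    {f : G × G → A} (hf : IsCocycle₂ f)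
    (hres : IsCoboundary₂ (fun nm : N × N => f ((nm.1 : G), (nm.2 : G)))) :
    ∃ (y : G → A) (f' : G × G → A), IsCocycle₂ f' ∧
      (∀ g h, f (g, h) = f' (g, h) + (g • y h - y (g * h) + y g)) ∧
      (∀ g h, ∀ n ∈ N, ∀ m ∈ N, f' (g * n, h * m) = f' (g, h)) ∧
      (∀ g h, ∀ n ∈ N, n • f' (g, h) = f' (g, h)) := by
  classical
  have hNn : N.Normal := inferInstance
  obtain ⟨u, hu⟩ := hres
  -- Step 0: make `f` vanish on `N × N`.
  let ũ : G → A := fun g => if h : g ∈ N then u ⟨g, h⟩ else 0
  have hũN : ∀ n (hn : n ∈ N), ũ n = u ⟨n, hn⟩ := fun n hn => dif_pos hn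
  let f0 : G × G → A := fun p => f p - dOne ũ p
  have hf0 : IsCocycle₂ f0 := isCocycle₂_sub hf (isCocycle₂_dOne ũ)
  have h0 : ∀ n ∈ N, ∀ m ∈ N, f0 (n, m) = 0 := by
    intro n hn m hm
    have h1 := hu ⟨n, hn⟩ ⟨m, hm⟩
    show f (n, m) - (n • ũ m - ũ (n * m) + ũ n) = 0
    rw [hũN n hn, hũN m hm, hũN (n * m) (N.mul_mem hn hm)]
    exact sub_eq_zero.mpr h1.symm
  -- Step 1: the normalising 0-cochains `b g`.
  have hb : ∀ g : G, ∃ b : A, ∀ n' ∈ N, n' • b - b = f0 (g, g⁻¹ * n' * g) - f0 (n', g) := by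
    intro g
    apply exists_smul_sub_eq_of_H1 N hH1 (fun n' => f0 (g, g⁻¹ * n' * g) - f0 (n', g))
    intro n' hn' m' hm'
    have key := core_conj_cocycle hf0 g (g⁻¹ * n' * g) (g⁻¹ * m' * g) n' m' (by group) (by group)
      (h0 _ (hNn.conj_mem' n' hn' g) _ (hNn.conj_mem' m' hm' g)) (h0 _ hn' _ hm')
    have e : g⁻¹ * n' * g * (g⁻¹ * m' * g) = g⁻¹ * (n' * m') * g := by group
    rw [e] at key
    exact key
  choose b hb using hb
  -- Step 2: coset representatives and the corrected 1-cochain `x`.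
  let t : G → G := fun g => (QuotientGroup.mk g : G ⧸ N).out
  have htN : ∀ g, (t g)⁻¹ * g ∈ N := by
    intro g
    obtain ⟨h, hh⟩ := QuotientGroup.mk_out_eq_mul N g
    have e : (t g)⁻¹ * g = (h : G)⁻¹ := by
      show ((QuotientGroup.mk g : G ⧸ N).out)⁻¹ * g = (h : G)⁻¹
      rw [hh]; group
    rw [e]; exact N.inv_mem h.2
  have htmul : ∀ g, ∀ n ∈ N, t (g * n) = t g := by
    intro g n hn
    show (QuotientGroup.mk (g * n) : G ⧸ N).out = (QuotientGroup.mk g : G ⧸ N).out
    rw [QuotientGroup.mk_mul_of_mem g hn]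
  let x : G → A := fun g => b (t g) + f0 (t g, (t g)⁻¹ * g)
  have hP : ∀ g, ∀ n' ∈ N, n' • x g - x g = f0 (g, g⁻¹ * n' * g) - f0 (n', g) := by
    intro g n' hn'
    have hk : (t g)⁻¹ * n' * t g ∈ N := hNn.conj_mem' n' hn' (t g)
    have hk' : ((t g)⁻¹ * g)⁻¹ * ((t g)⁻¹ * n' * t g) * ((t g)⁻¹ * g) ∈ N :=
      hNn.conj_mem' _ hk _
    have key := core_P_transfer hf0 (t g) ((t g)⁻¹ * g) ((t g)⁻¹ * n' * t g)
      (((t g)⁻¹ * g)⁻¹ * ((t g)⁻¹ * n' * t g) * ((t g)⁻¹ * g)) n' (b (t g))
      (by group) (by group) (h0 _ hk _ (htN g)) (h0 _ (htN g) _ hk') (hb (t g) n' hn')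
    have e1 : t g * ((t g)⁻¹ * g) = g := by group
    have e2 : ((t g)⁻¹ * g)⁻¹ * ((t g)⁻¹ * n' * t g) * ((t g)⁻¹ * g) = g⁻¹ * n' * g := by group
    rw [e1, e2] at key
    exact key
  have hQ : ∀ h, ∀ ν ∈ N, x (h * ν) = x h + f0 (h, ν) := by
    intro h ν hν
    have e := hf0 (t h) ((t h)⁻¹ * h) ν
    rw [h0 _ (htN h) _ hν, smul_zero] at e
    have e1 : t h * ((t h)⁻¹ * h) = h := by group
    have e2 : (t h)⁻¹ * h * ν = (t h)⁻¹ * (h * ν) := by group
    rw [e1, e2] at e
    show b (t (h * ν)) + f0 (t (h * ν), (t (h * ν))⁻¹ * (h * ν))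
      = b (t h) + f0 (t h, (t h)⁻¹ * h) + f0 (h, ν)
    rw [htmul h ν hν]
    linear_combination (norm := abel) (-1 : ℤ) • e
  -- Step 3: the inflated cocycle.
  refine ⟨ũ - x, fun p => f0 p + dOne x p, isCocycle₂_add hf0 (isCocycle₂_dOne x), ?_, ?_, ?_⟩
  · intro g h
    simp only [f0, dOne_apply, Pi.sub_apply, smul_sub]
    abel
  · intro g h n hn m hm
    have hν' : (h * m)⁻¹ * n * (h * m) ∈ N := hNn.conj_mem' n hn (h * m)
    have s1 := core_const_fst hf0 x g (h * m) n ((h * m)⁻¹ * n * (h * m)) (by group)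
      (hQ g n hn) (hP (h * m) n hn) (hQ (g * (h * m)) _ hν')
    have s2 := core_const_snd hf0 x g h m (hQ h m hm) (hQ (g * h) m hm)
    exact s1.trans s2
  · intro g h n hn
    have hn₁ : g⁻¹ * n * g ∈ N := hNn.conj_mem' n hn g
    have e : (g * h)⁻¹ * n * (g * h) = h⁻¹ * (g⁻¹ * n * g) * h := by group
    have hPgh := hP (g * h) n hn
    rw [e] at hPgh
    exact core_invariant hf0 x g h n (g⁻¹ * n * g) (h⁻¹ * (g⁻¹ * n * g) * h) (by group) (by group)
      (hP g n hn) (hP h _ hn₁) hPgh

/-- **Injectivity of inflation in degree 2** (additive form). If `H¹(N, A) = 0` and an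
`N`-coset-constant, `A^N`-valued function `f'` on `G × G` is the coboundary of a 1-cochain `x`
on `G`, then it is the coboundary of an `N`-coset-constant `A^N`-valued 1-cochain. -/
theorem isCoboundary₂_descend
    (hH1 : ∀ c : N → A, IsCocycle₁ c → IsCoboundary₁ c)
    {f' : G × G → A}
    (hconst : ∀ g h, ∀ n ∈ N, ∀ m ∈ N, f' (g * n, h * m) = f' (g, h))
    (hinv : ∀ g h, ∀ n ∈ N, n • f' (g, h) = f' (g, h))
    (x : G → A) (hx : ∀ g h, g • x h - x (g * h) + x g = f' (g, h)) :
    ∃ x' : G → A, (∀ g h, g • x' h - x' (g * h) + x' g = f' (g, h)) ∧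
      (∀ g, ∀ n ∈ N, x' (g * n) = x' g) ∧ (∀ g, ∀ n ∈ N, n • x' g = x' g) := by
  have hNn : N.Normal := inferInstance
  have hN : ∀ n ∈ N, ∀ m ∈ N, f' (n, m) = f' (1, 1) := by
    intro n hn m hm
    have := hconst 1 1 n hn m hm
    rwa [one_mul, one_mul] at this
  obtain ⟨b, hb⟩ := exists_smul_sub_eq_of_H1 N hH1 (fun n => x n - f' (1, 1)) (by
    intro n hn m hm
    have e1 := hx n m
    rw [hN n hn m hm] at e1
    have e2 := hinv 1 1 n hn
    simp only [smul_sub, e2]
    linear_combination (norm := abel) (-1 : ℤ) • e1)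
  have hx'N : ∀ n ∈ N, x n - (n • b - b) = f' (1, 1) := by
    intro n hn
    rw [hb n hn]; abel
  have hd : ∀ g h, g • (x h - (h • b - b)) - (x (g * h) - ((g * h) • b - b)) + (x g - (g • b - b))
      = f' (g, h) := by
    intro g h
    rw [← hx g h]
    simp only [smul_sub, mul_smul]
    abel
  refine ⟨fun g => x g - (g • b - b), hd, ?_, ?_⟩
  · intro g n hn
    have e1 := hd g n
    have e2 := hd g 1
    have e3 := hconst g 1 1 N.one_mem n hn
    rw [mul_one, one_mul] at e3
    rw [hx'N n hn, e3] at e1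
    rw [hx'N 1 N.one_mem, mul_one] at e2
    show x (g * n) - ((g * n) • b - b) = x g - (g • b - b)
    linear_combination (norm := abel) e2 - e1
  · intro g n hn
    have hn' : g⁻¹ * n * g ∈ N := hNn.conj_mem' n hn g
    have e1 := hd n g
    have e2 := hd 1 g
    have e3 := hconst 1 g n hn 1 N.one_mem
    rw [one_mul, mul_one] at e3
    rw [e3, hx'N n hn] at e1
    rw [hx'N 1 N.one_mem, one_mul, one_smul] at e2
    have e4 := hd g (g⁻¹ * n * g)
    have e5 := hd g 1
    have e6 := hconst g 1 1 N.one_mem (g⁻¹ * n * g) hn'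
    rw [mul_one, one_mul] at e6
    have e7 : g * (g⁻¹ * n * g) = n * g := by group
    rw [hx'N _ hn', e6, e7] at e4
    rw [hx'N 1 N.one_mem, mul_one] at e5
    show n • (x g - (g • b - b)) = x g - (g • b - b)
    linear_combination (norm := abel) e1 - e2 + e5 - e4

end Main

end Additive

/-! ### Multiplicative twins (`MulDistribMulAction`, e.g. `M = Lˣ` with Hilbert 90) -/

section Multiplicative

variable {G M : Type*} [Group G] [CommGroup M] [MulDistribMulAction G M]

/-- The distributive action on `Additive M` induced by a `MulDistribMulAction` on `M`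
(not an instance; used locally). -/
@[reducible] def additiveDistribMulAction (G M : Type*) [Group G] [CommGroup M]
    [MulDistribMulAction G M] : DistribMulAction G (Additive M) where
  smul g a := Additive.ofMul (g • Additive.toMul a)
  one_smul a := congrArg Additive.ofMul (one_smul G (Additive.toMul a))
  mul_smul g h a := congrArg Additive.ofMul (mul_smul g h (Additive.toMul a))
  smul_zero g := congrArg Additive.ofMul (smul_one g)
  smul_add g a b := congrArg Additive.ofMul (smul_mul' g (Additive.toMul a) (Additive.toMul b))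

variable (N : Subgroup G) [N.Normal]

/-- **Inflation-restriction, exactness at `H²(G, M)`** (multiplicative form). -/
theorem exists_inflated_of_res_isMulCoboundary₂
    (hH1 : ∀ c : N → M, IsMulCocycle₁ c → IsMulCoboundary₁ c)
    {f : G × G → M} (hf : IsMulCocycle₂ f)
    (hres : IsMulCoboundary₂ (fun nm : N × N => f ((nm.1 : G), (nm.2 : G)))) :
    ∃ (y : G → M) (f' : G × G → M), IsMulCocycle₂ f' ∧
      (∀ g h, f (g, h) = f' (g, h) * (g • y h / y (g * h) * y g)) ∧
      (∀ g h, ∀ n ∈ N, ∀ m ∈ N, f' (g * n, h * m) = f' (g, h)) ∧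
      (∀ g h, ∀ n ∈ N, n • f' (g, h) = f' (g, h)) := by
  let _inst : DistribMulAction G (Additive M) := additiveDistribMulAction G M
  obtain ⟨u, hu⟩ := hres
  obtain ⟨y, f', h1, h2, h3, h4⟩ := exists_inflated_of_res_isCoboundary₂ (G := G) (A := Additive M) N
    (fun c hc => by
      obtain ⟨b, hb⟩ := hH1 (fun n => Additive.toMul (c n)) (fun n m => hc n m)
      exact ⟨Additive.ofMul b, fun n => hb n⟩)
    (f := fun p => Additive.ofMul (f p)) (fun g h j => hf g h j)
    ⟨fun n => Additive.ofMul (u n), fun n m => hu n m⟩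
  exact ⟨fun g => Additive.toMul (y g), fun p => Additive.toMul (f' p), fun g h j => h1 g h j,
    fun g h => h2 g h, fun g h n hn m hm => h3 g h n hn m hm, fun g h n hn => h4 g h n hn⟩

/-- **Injectivity of inflation in degree 2** (multiplicative form). -/
theorem isMulCoboundary₂_descend
    (hH1 : ∀ c : N → M, IsMulCocycle₁ c → IsMulCoboundary₁ c)
    {f' : G × G → M}
    (hconst : ∀ g h, ∀ n ∈ N, ∀ m ∈ N, f' (g * n, h * m) = f' (g, h))
    (hinv : ∀ g h, ∀ n ∈ N, n • f' (g, h) = f' (g, h))
    (x : G → M) (hx : ∀ g h, g • x h / x (g * h) * x g = f' (g, h)) :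
    ∃ x' : G → M, (∀ g h, g • x' h / x' (g * h) * x' g = f' (g, h)) ∧
      (∀ g, ∀ n ∈ N, x' (g * n) = x' g) ∧ (∀ g, ∀ n ∈ N, n • x' g = x' g) := by
  let _inst : DistribMulAction G (Additive M) := additiveDistribMulAction G M
  obtain ⟨x', h1, h2, h3⟩ := isCoboundary₂_descend (G := G) (A := Additive M) N
    (fun c hc => by
      obtain ⟨b, hb⟩ := hH1 (fun n => Additive.toMul (c n)) (fun n m => hc n m)
      exact ⟨Additive.ofMul b, fun n => hb n⟩)
    (f' := fun p => Additive.ofMul (f' p))
    (fun g h n hn m hm => congrArg Additive.ofMul (hconst g h n hn m hm))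
    (fun g h n hn => congrArg Additive.ofMul (hinv g h n hn))
    (fun g => Additive.ofMul (x g)) (fun g h => congrArg Additive.ofMul (hx g h))
  exact ⟨fun g => Additive.toMul (x' g), fun g h => h1 g h, fun g n hn => h2 g n hn,
    fun g n hn => h3 g n hn⟩

end Multiplicative

end Fermat.Agent.S55.helper3644
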