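/-
S55-CYCH2 (helper6440): explicit second cohomology of a finite cyclic group on inhomogeneous
2-cocycles.  Mathlib only.

`G` a group, `A` an abelian group with an action `ρ : G →* AddMonoid.End A`, `χ : G → ZMod n`
additive (`χ (g * h) = χ g + χ h`).  For a `G`-invariant `a : A` the cochain
`cyc χ a (g, h) = carry (χ g) (χ h) • a` is a 2-cocycle (the "cyclic algebra" cocycle).
If `χ` is injective and `χ s = 1` (so `G` is cyclic of order `n` generated by `s`) then every
2-cocycle `f` is cohomologous to `cyc χ a` with `a = ∑_{j<n} f (s^j, s)`, and `cyc χ a` is a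
coboundary iff `a` is a norm `∑_{j<n} s^j • b`.
-/
import Mathlib

set_option autoImplicit false

namespace Fermat.Agent.S55.helper6440

open Finset

/-! ## The carry function -/

/-- Carry of the addition of two residues mod `n` (computed on the representatives in `[0, n)`):
it is `0` or `1`. -/
def carry (n : ℕ) (u v : ZMod n) : ℕ := (u.val + v.val) / n

section carry

variable {n : ℕ}

lemma carry_comm (u v : ZMod n) : carry n u v = carry n v u := by
  rw [carry, carry, add_comm]

variable [NeZero n]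

lemma val_add_carry (u v : ZMod n) : (u + v).val + n * carry n u v = u.val + v.val := by
  rw [ZMod.val_add, carry]; exact Nat.mod_add_div _ _

lemma carry_zero_left (v : ZMod n) : carry n 0 v = 0 := by
  rw [carry, ZMod.val_zero, zero_add]
  exact Nat.div_eq_of_lt (ZMod.val_lt v)

lemma carry_zero_right (u : ZMod n) : carry n u 0 = 0 := by
  rw [carry_comm, carry_zero_left]

lemma carry_le_one (u v : ZMod n) : carry n u v ≤ 1 := by
  have hu := ZMod.val_lt u
  have hv := ZMod.val_lt v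
  have hn : 0 < n := Nat.pos_of_ne_zero (NeZero.ne n)
  rw [carry]
  have : (u.val + v.val) / n < 2 := by
    rw [Nat.div_lt_iff_lt_mul hn]; omega
  omega

lemma carry_assoc (u v w : ZMod n) :
    carry n (u + v) w + carry n u v = carry n v w + carry n u (v + w) := by
  have h1 := val_add_carry u v
  have h2 := val_add_carry (u + v) w
  have h3 := val_add_carry v w
  have h4 := val_add_carry u (v + w)
  rw [add_assoc] at h2
  have hn : 0 < n := Nat.pos_of_ne_zero (NeZero.ne n)
  apply Nat.eq_of_mul_eq_mul_left hn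
  rw [mul_add, mul_add]
  linarith

end carry

/-! ## Cocycles and coboundaries for an action given by a monoid hom -/

section cyc

variable {G A : Type*} [AddCommGroup A] {n : ℕ}

/-- The cyclic cochain attached to `χ : G → ZMod n` and `a : A`:
`(g, h) ↦ carry (χ g) (χ h) • a`. -/
def cyc (χ : G → ZMod n) (a : A) : G × G → A := fun p => carry n (χ p.1) (χ p.2) • a

@[simp] lemma cyc_apply (χ : G → ZMod n) (a : A) (g h : G) :
    cyc χ a (g, h) = carry n (χ g) (χ h) • a := rfl

lemma cyc_add (χ : G → ZMod n) (a b : A) : cyc χ (a + b) = cyc χ a + cyc χ b := by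
  funext p; simp [cyc]

lemma cyc_zero (χ : G → ZMod n) : cyc χ (0 : A) = 0 := by
  funext p; simp [cyc]

lemma cyc_neg (χ : G → ZMod n) (a : A) : cyc χ (-a) = -cyc χ a := by
  funext p; simp [cyc]

lemma cyc_sub (χ : G → ZMod n) (a b : A) : cyc χ (a - b) = cyc χ a - cyc χ b := by
  funext p; simp [cyc, nsmul_sub]

/-- Naturality of `cyc` in the coefficient module. -/
lemma map_cyc {B : Type*} [AddCommGroup B] (φ : A →+ B) (χ : G → ZMod n) (a : A) (p : G × G) :
    φ (cyc χ a p) = cyc χ (φ a) p := by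
  simp [cyc, map_nsmul]

/-- Naturality of `cyc` in the group (inflation / restriction). -/
lemma cyc_comp {H : Type*} (π : H → G) (χ : G → ZMod n) (a : A) (p : H × H) :
    cyc (χ ∘ π) a p = cyc χ a (π p.1, π p.2) := rfl

end cyc

section core

variable {G A : Type*} [Group G] [AddCommGroup A] (ρ : G →* AddMonoid.End A)

/-- The inhomogeneous 2-cocycle condition for the action `ρ`. -/
def IsTwoCocycle (f : G × G → A) : Prop :=
  ∀ g h j : G, f (g * h, j) + f (g, h) = ρ g (f (h, j)) + f (g, h * j)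

/-- The inhomogeneous 2-coboundary condition for the action `ρ`. -/
def IsTwoCoboundary (f : G × G → A) : Prop :=
  ∃ x : G → A, ∀ g h : G, ρ g (x h) - x (g * h) + x g = f (g, h)

variable {n : ℕ}

/-- (1) `cyc χ a` is a 2-cocycle when `χ` is additive and `a` is invariant. -/
theorem isTwoCocycle_cyc [NeZero n] (χ : G → ZMod n) (hχ : ∀ g h, χ (g * h) = χ g + χ h) {a : A} (ha : ∀ g, ρ g a = a) :
    IsTwoCocycle ρ (cyc χ a) := by
  intro g h j
  simp only [cyc_apply, hχ, map_nsmul, ha]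
  rw [← add_nsmul, ← add_nsmul, carry_assoc]

/-- Partial sums `∑_{j<i} f (s^j, s)`. -/
def psum (s : G) (f : G × G → A) (i : ℕ) : A := ∑ j ∈ range i, f (s ^ j, s)

@[simp] lemma psum_zero (s : G) (f : G × G → A) : psum s f 0 = 0 := by simp [psum]

lemma psum_succ (s : G) (f : G × G → A) (i : ℕ) :
    psum s f (i + 1) = psum s f i + f (s ^ i, s) := by
  simp [psum, sum_range_succ]

variable {ρ}

/-- Key formula: a 2-cocycle on powers of `s` is the coboundary of `i ↦ f (1,1) - psum s f i`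
(as a function on `ℕ`). -/
lemma cocycle_pow_formula {f : G × G → A} (hf : IsTwoCocycle ρ f) (s : G) (i k : ℕ) :
    f (s ^ i, s ^ k) = ρ (s ^ i) (f (1, 1) - psum s f k) - (f (1, 1) - psum s f (i + k))
      + (f (1, 1) - psum s f i) := by
  induction k with
  | zero =>
    have h := hf (s ^ i) 1 1
    simp only [mul_one] at h
    have h' : f (s ^ i, 1) = ρ (s ^ i) (f (1, 1)) := by
      have := add_right_cancel h
      exact this
    simp [h']
  | succ k ih =>
    have h := hf (s ^ i) (s ^ k) s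
    rw [← pow_add, ← pow_succ] at h
    have h2 : f (s ^ i, s ^ (k + 1)) = f (s ^ (i + k), s) + f (s ^ i, s ^ k)
        - ρ (s ^ i) (f (s ^ k, s)) := by
      rw [h]; abel
    have e : i + (k + 1) = (i + k) + 1 := by omega
    rw [h2, ih, psum_succ, e, psum_succ]
    simp only [map_sub, map_add]
    abel

lemma psum_add_period {f : G × G → A} (hf : IsTwoCocycle ρ f) {s : G} (hsn : s ^ n = 1)
    (k : ℕ) : psum s f (k + n) = psum s f k + psum s f n := by
  have h1 := cocycle_pow_formula hf s n k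
  have h2 := cocycle_pow_formula hf s 0 k
  rw [hsn] at h1
  simp only [pow_zero, zero_add, psum_zero, sub_zero] at h2
  rw [h2] at h1
  simp only [map_one, AddMonoid.End.coe_one, id_eq] at h1
  rw [add_comm k n]
  have : psum s f (n + k) - psum s f k - psum s f n = 0 := by
    have h3 := sub_eq_zero.mpr h1.symm
    rw [← h3]; abel
  rw [← sub_eq_zero, ← this]; abel

lemma psum_period_invariant {f : G × G → A} (hf : IsTwoCocycle ρ f) {s : G} (hsn : s ^ n = 1)
    (i : ℕ) : ρ (s ^ i) (psum s f n) = psum s f n := by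
  have h1 := cocycle_pow_formula hf s i n
  have h2 := cocycle_pow_formula hf s i 0
  rw [hsn] at h1
  rw [pow_zero] at h2
  rw [h2, psum_add_period hf hsn i] at h1
  simp only [psum_zero, sub_zero, add_zero, map_sub] at h1
  have h3 := sub_eq_zero.mpr h1
  rw [← sub_eq_zero, ← h3]; abel

lemma psum_add_mul_period {f : G × G → A} (hf : IsTwoCocycle ρ f) {s : G} (hsn : s ^ n = 1)
    (k m : ℕ) : psum s f (k + m * n) = psum s f k + m • psum s f n := by
  induction m with
  | zero => simp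
  | succ m ih =>
    rw [add_mul, one_mul, ← add_assoc, psum_add_period hf hsn, ih, succ_nsmul, add_assoc]


/-! ### The cyclic case: `χ` injective with `χ s = 1` -/

section cyclic

variable [NeZero n] {χ : G → ZMod n}

omit [NeZero n] in
lemma chi_one (hχ : ∀ g h, χ (g * h) = χ g + χ h) : χ 1 = 0 := by
  have h := hχ 1 1
  rw [mul_one] at h
  exact left_eq_add.mp h

omit [NeZero n] in
lemma chi_pow (hχ : ∀ g h, χ (g * h) = χ g + χ h) {s : G} (hs : χ s = 1) (i : ℕ) :
    χ (s ^ i) = (i : ZMod n) := by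
  induction i with
  | zero => simp [chi_one hχ]
  | succ i ih => rw [pow_succ, hχ, ih, hs]; push_cast; rfl

lemma pow_val_chi (hχ : ∀ g h, χ (g * h) = χ g + χ h) (hinj : Function.Injective χ) {s : G}
    (hs : χ s = 1) (g : G) : s ^ (χ g).val = g := by
  apply hinj
  rw [chi_pow hχ hs, ZMod.natCast_zmod_val]

omit [NeZero n] in
lemma pow_card_eq_one (hχ : ∀ g h, χ (g * h) = χ g + χ h) (hinj : Function.Injective χ) {s : G}
    (hs : χ s = 1) : s ^ n = 1 := by
  apply hinj
  rw [chi_pow hχ hs, chi_one hχ, ZMod.natCast_self]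

/-- (2), explicit form: every 2-cocycle `f` of a cyclic group differs from
`cyc χ (∑_{j<n} f (s^j, s))` by the coboundary of `g ↦ f (1,1) - ∑_{j<(χ g).val} f (s^j, s)`. -/
theorem cocycle_eq_cyc_add_coboundary (hχ : ∀ g h, χ (g * h) = χ g + χ h)
    (hinj : Function.Injective χ) {s : G} (hs : χ s = 1) {f : G × G → A}
    (hf : IsTwoCocycle ρ f) (g h : G) :
    ρ g (f (1, 1) - psum s f (χ h).val) - (f (1, 1) - psum s f (χ (g * h)).val)
        + (f (1, 1) - psum s f (χ g).val)
      = f (g, h) - cyc χ (psum s f n) (g, h) := by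
  have hsn := pow_card_eq_one hχ hinj hs
  have hg := pow_val_chi hχ hinj hs g
  have hh := pow_val_chi hχ hinj hs h
  have hc := val_add_carry (χ g) (χ h)
  rw [← hχ] at hc
  have h1 := cocycle_pow_formula hf s (χ g).val (χ h).val
  rw [hg, hh, ← hc, mul_comm n, psum_add_mul_period hf hsn] at h1
  rw [h1, cyc_apply]
  abel

/-- the element `∑_{j<n} f (s^j, s)` attached to a 2-cocycle is invariant. -/
theorem psum_card_invariant (hχ : ∀ g h, χ (g * h) = χ g + χ h)
    (hinj : Function.Injective χ) {s : G} (hs : χ s = 1) {f : G × G → A}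
    (hf : IsTwoCocycle ρ f) (g : G) : ρ g (psum s f n) = psum s f n := by
  have hsn := pow_card_eq_one hχ hinj hs
  rw [← pow_val_chi hχ hinj hs g]
  exact psum_period_invariant hf hsn _

/-- (2) every 2-cocycle of a cyclic group is cohomologous to a cyclic cocycle `cyc χ a` with
`a` invariant. -/
theorem exists_cyc_cohomologous (hχ : ∀ g h, χ (g * h) = χ g + χ h)
    (hinj : Function.Injective χ) {s : G} (hs : χ s = 1) {f : G × G → A}
    (hf : IsTwoCocycle ρ f) :
    ∃ a : A, (∀ g, ρ g a = a) ∧ IsTwoCoboundary ρ (f - cyc χ a) :=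
  ⟨psum s f n, psum_card_invariant hχ hinj hs hf,
    fun g => f (1, 1) - psum s f (χ g).val,
    fun g h => cocycle_eq_cyc_add_coboundary hχ hinj hs hf g h⟩

end cyclic

/-! ### Norms -/

section norm

variable (ρ)

/-- Partial norm sums `∑_{j<i} s^j • b`. -/
def nsum (s : G) (b : A) (i : ℕ) : A := ∑ j ∈ range i, ρ (s ^ j) b

variable {ρ}

lemma nsum_add (s : G) (b : A) (i k : ℕ) :
    nsum ρ s b (i + k) = nsum ρ s b i + ρ (s ^ i) (nsum ρ s b k) := by
  simp only [nsum, sum_range_add, map_sum, pow_add, map_mul]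
  rfl

lemma nsum_add_mul_period {s : G} (hsn : s ^ n = 1) (b : A) (k m : ℕ) :
    nsum ρ s b (k + m * n) = nsum ρ s b k + m • nsum ρ s b n := by
  induction m with
  | zero => simp
  | succ m ih =>
    have e : k + (m + 1) * n = n + (k + m * n) := by ring
    rw [e, nsum_add, hsn, map_one, AddMonoid.End.coe_one, id_eq, ih, succ_nsmul]
    abel

variable [NeZero n] {χ : G → ZMod n}

/-- (3, ⇐), explicit form: `cyc χ (N b)` is the coboundary of `g ↦ ∑_{j<(χ g).val} s^j • b`. -/
theorem cyc_norm_eq_coboundary (hχ : ∀ g h, χ (g * h) = χ g + χ h)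
    (hinj : Function.Injective χ) {s : G} (hs : χ s = 1) (b : A) (g h : G) :
    ρ g (nsum ρ s b (χ h).val) - nsum ρ s b (χ (g * h)).val + nsum ρ s b (χ g).val
      = cyc χ (nsum ρ s b n) (g, h) := by
  have hsn := pow_card_eq_one hχ hinj hs
  have hg := pow_val_chi hχ hinj hs g
  have hc := val_add_carry (χ g) (χ h)
  rw [← hχ] at hc
  have h1 := nsum_add (ρ := ρ) s b (χ g).val (χ h).val
  rw [hg, ← hc, mul_comm n, nsum_add_mul_period hsn] at h1
  rw [cyc_apply]
  have h2 : ρ g (nsum ρ s b (χ h).val) = nsum ρ s b (χ (g * h)).val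
      + carry n (χ g) (χ h) • nsum ρ s b n - nsum ρ s b (χ g).val := by
    rw [h1]; abel
  rw [h2]; abel

omit [NeZero n] in
lemma sum_carry_one (hn1 : n ≠ 1) (hn0 : n ≠ 0) (a : A) :
    ∑ j ∈ range n, carry n (j : ZMod n) 1 • a = a := by
  obtain ⟨m, rfl⟩ : ∃ m, n = m + 1 := ⟨n - 1, by omega⟩
  have hm : m ≠ 0 := by omega
  rw [sum_range_succ]
  have h0 : ∀ j ∈ range m, carry (m + 1) (j : ZMod (m + 1)) 1 • a = 0 := by
    intro j hj
    have hj' : j < m := mem_range.mp hj
    rw [carry, ZMod.val_natCast_of_lt (by omega), ZMod.val_one'' hn1,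
      Nat.div_eq_of_lt (by omega), zero_smul]
  rw [sum_eq_zero h0, zero_add, carry, ZMod.val_natCast_of_lt (by omega), ZMod.val_one'' hn1,
    Nat.div_self (by omega), one_smul]

/-- (3, ⇒): if `cyc χ a` is a coboundary then `a` is a norm. -/
theorem exists_norm_of_cyc_isTwoCoboundary (hχ : ∀ g h, χ (g * h) = χ g + χ h)
    (hinj : Function.Injective χ) {s : G} (hs : χ s = 1) {a : A}
    (h : IsTwoCoboundary ρ (cyc χ a)) : ∃ b : A, a = nsum ρ s b n := by
  by_cases hn1 : n = 1
  · refine ⟨a, ?_⟩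
    subst hn1
    simp [nsum]
  · obtain ⟨x, hx⟩ := h
    have hsn := pow_card_eq_one hχ hinj hs
    refine ⟨x s, ?_⟩
    have key : ∑ j ∈ range n, (ρ (s ^ j) (x s) - x (s ^ j * s) + x (s ^ j))
        = ∑ j ∈ range n, cyc χ a (s ^ j, s) := sum_congr rfl fun j _ => hx (s ^ j) s
    have hR : ∑ j ∈ range n, cyc χ a (s ^ j, s) = a := by
      have hR' : ∑ j ∈ range n, cyc χ a (s ^ j, s) = ∑ j ∈ range n, carry n (j : ZMod n) 1 • a := by
        refine sum_congr rfl fun j _ => ?_
        rw [cyc_apply, chi_pow hχ hs, hs]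
      rw [hR', sum_carry_one hn1 (NeZero.ne n) a]
    have hL : ∑ j ∈ range n, (ρ (s ^ j) (x s) - x (s ^ j * s) + x (s ^ j)) = nsum ρ s (x s) n := by
      have ht : ∑ j ∈ range n, (x (s ^ (j + 1)) - x (s ^ j)) = x (s ^ n) - x (s ^ 0) :=
        sum_range_sub (fun j => x (s ^ j)) n
      rw [hsn, pow_zero, sub_self] at ht
      have : ∑ j ∈ range n, (ρ (s ^ j) (x s) - x (s ^ j * s) + x (s ^ j))
          = nsum ρ s (x s) n - ∑ j ∈ range n, (x (s ^ (j + 1)) - x (s ^ j)) := by
        rw [nsum, ← sum_sub_distrib]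
        refine sum_congr rfl fun j _ => ?_
        rw [pow_succ]; abel
      rw [this, ht, sub_zero]
    rw [← hR, ← key, hL]

/-- (3) `cyc χ a` is a coboundary iff `a` is a norm. -/
theorem cyc_isTwoCoboundary_iff (hχ : ∀ g h, χ (g * h) = χ g + χ h)
    (hinj : Function.Injective χ) {s : G} (hs : χ s = 1) (a : A) :
    IsTwoCoboundary ρ (cyc χ a) ↔ ∃ b : A, a = ∑ j ∈ range n, ρ (s ^ j) b := by
  constructor
  · exact exists_norm_of_cyc_isTwoCoboundary hχ hinj hs
  · rintro ⟨b, rfl⟩
    exact ⟨fun g => nsum ρ s b (χ g).val, fun g h => cyc_norm_eq_coboundary hχ hinj hs b g h⟩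

/-- Sums over `j < n` of values at `s^j` are sums over the whole group. -/
lemma sum_range_pow_eq_sum_univ [Fintype G] (hχ : ∀ g h, χ (g * h) = χ g + χ h)
    (hinj : Function.Injective χ) {s : G} (hs : χ s = 1) (F : G → A) :
    ∑ j ∈ range n, F (s ^ j) = ∑ g : G, F g := by
  refine Finset.sum_nbij' (fun j => s ^ j) (fun g => (χ g).val) ?_ ?_ ?_ ?_ ?_
  · intro j _; exact mem_univ _
  · intro g _; exact mem_range.mpr (ZMod.val_lt _)
  · intro j hj; rw [chi_pow hχ hs, ZMod.val_natCast_of_lt (mem_range.mp hj)]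
  · intro g _; exact pow_val_chi hχ hinj hs g
  · intro j _; rfl

/-- (3) with the norm written as a sum over the group. -/
theorem cyc_isTwoCoboundary_iff_sum_univ [Fintype G] (hχ : ∀ g h, χ (g * h) = χ g + χ h)
    (hinj : Function.Injective χ) {s : G} (hs : χ s = 1) (a : A) :
    IsTwoCoboundary ρ (cyc χ a) ↔ ∃ b : A, a = ∑ g : G, ρ g b := by
  rw [cyc_isTwoCoboundary_iff hχ hinj hs]
  refine exists_congr fun b => ?_
  rw [sum_range_pow_eq_sum_univ hχ hinj hs (fun g => ρ g b)]

end norm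

end core

/-! ## Surface 1: `DistribMulAction` (Mathlib's `IsCocycle₂` / `IsCoboundary₂`) -/

section distrib

open groupCohomology

variable {G A : Type*} [Group G] [AddCommGroup A] [DistribMulAction G A] {n : ℕ}

lemma isCocycle₂_iff_isTwoCocycle (f : G × G → A) :
    IsCocycle₂ f ↔ IsTwoCocycle (DistribMulAction.toAddMonoidEnd G A) f := Iff.rfl

lemma isCoboundary₂_iff_isTwoCoboundary (f : G × G → A) :
    IsCoboundary₂ f ↔ IsTwoCoboundary (DistribMulAction.toAddMonoidEnd G A) f := Iff.rfl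

variable [NeZero n] {χ : G → ZMod n}

/-- (1) `cyc χ a` is a 2-cocycle for `χ` additive and `a` invariant. -/
theorem isCocycle₂_cyc (hχ : ∀ g h, χ (g * h) = χ g + χ h) {a : A} (ha : ∀ g : G, g • a = a) :
    IsCocycle₂ (cyc χ a) :=
  isTwoCocycle_cyc (DistribMulAction.toAddMonoidEnd G A) χ hχ ha

/-- (2) every 2-cocycle of a finite cyclic group is cohomologous to `cyc χ a`, with
`a = ∑_{j<n} f (s^j, s)` invariant. -/
theorem exists_cyc_isCoboundary₂ (hχ : ∀ g h, χ (g * h) = χ g + χ h)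
    (hinj : Function.Injective χ) {s : G} (hs : χ s = 1) {f : G × G → A} (hf : IsCocycle₂ f) :
    ∃ a : A, (∀ g : G, g • a = a) ∧ IsCoboundary₂ (f - cyc χ a) :=
  exists_cyc_cohomologous (ρ := DistribMulAction.toAddMonoidEnd G A) hχ hinj hs hf

/-- (3) `cyc χ a` is a coboundary iff `a` is a norm. -/
theorem cyc_isCoboundary₂_iff (hχ : ∀ g h, χ (g * h) = χ g + χ h)
    (hinj : Function.Injective χ) {s : G} (hs : χ s = 1) (a : A) :
    IsCoboundary₂ (cyc χ a) ↔ ∃ b : A, a = ∑ j ∈ range n, s ^ j • b :=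
  cyc_isTwoCoboundary_iff (ρ := DistribMulAction.toAddMonoidEnd G A) hχ hinj hs a

/-- (3) with the norm as a sum over the group. -/
theorem cyc_isCoboundary₂_iff_sum_univ [Fintype G] (hχ : ∀ g h, χ (g * h) = χ g + χ h)
    (hinj : Function.Injective χ) {s : G} (hs : χ s = 1) (a : A) :
    IsCoboundary₂ (cyc χ a) ↔ ∃ b : A, a = ∑ g : G, g • b :=
  cyc_isTwoCoboundary_iff_sum_univ (ρ := DistribMulAction.toAddMonoidEnd G A) hχ hinj hs a

end distrib

/-! ## Surface 2: representations (`cocycles₂` / `coboundaries₂` of a `Rep`) -/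

section rep

open groupCohomology

universe u

variable {k G : Type u} [CommRing k] [Group G] (A : Rep k G) {n : ℕ}

/-- The action of a representation as a monoid hom to additive endomorphisms. -/
def repAddEnd : G →* AddMonoid.End A where
  toFun g := (A.ρ g).toAddMonoidHom
  map_one' := by
    ext x
    change A.ρ 1 x = x
    simp
  map_mul' g h := by
    ext x
    change A.ρ (g * h) x = A.ρ g (A.ρ h x)
    simp

@[simp] lemma repAddEnd_apply (g : G) (a : A) : repAddEnd A g a = A.ρ g a := rfl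

variable {A}

lemma mem_cocycles₂_iff_isTwoCocycle (f : G × G → A) :
    f ∈ cocycles₂ A ↔ IsTwoCocycle (repAddEnd A) f := mem_cocycles₂_iff f

lemma mem_coboundaries₂_iff_isTwoCoboundary (f : G × G → A) :
    f ∈ coboundaries₂ A ↔ IsTwoCoboundary (repAddEnd A) f := by
  constructor
  · rintro ⟨x, rfl⟩
    exact ⟨x, fun g h => rfl⟩
  · rintro ⟨x, hx⟩
    exact ⟨x, funext fun p => hx p.1 p.2⟩

variable [NeZero n] {χ : G → ZMod n}

/-- (1) `cyc χ a ∈ Z²(G, A)` for `χ` additive and `a` invariant. -/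
theorem cyc_mem_cocycles₂ (hχ : ∀ g h, χ (g * h) = χ g + χ h) {a : A}
    (ha : ∀ g : G, A.ρ g a = a) : cyc χ a ∈ cocycles₂ A :=
  (mem_cocycles₂_iff_isTwoCocycle _).2 (isTwoCocycle_cyc (repAddEnd A) χ hχ ha)

/-- (2) every 2-cocycle of a finite cyclic group is cohomologous to some `cyc χ a`. -/
theorem exists_sub_cyc_mem_coboundaries₂ (hχ : ∀ g h, χ (g * h) = χ g + χ h)
    (hinj : Function.Injective χ) {s : G} (hs : χ s = 1) {f : G × G → A}
    (hf : f ∈ cocycles₂ A) :
    ∃ a : A, (∀ g : G, A.ρ g a = a) ∧ f - cyc χ a ∈ coboundaries₂ A := by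
  obtain ⟨a, ha, hb⟩ := exists_cyc_cohomologous (ρ := repAddEnd A) hχ hinj hs
    ((mem_cocycles₂_iff_isTwoCocycle f).1 hf)
  exact ⟨a, ha, (mem_coboundaries₂_iff_isTwoCoboundary _).2 hb⟩

/-- (3) `cyc χ a ∈ B²(G, A)` iff `a` is a norm. -/
theorem cyc_mem_coboundaries₂_iff (hχ : ∀ g h, χ (g * h) = χ g + χ h)
    (hinj : Function.Injective χ) {s : G} (hs : χ s = 1) (a : A) :
    cyc χ a ∈ coboundaries₂ A ↔ ∃ b : A, a = ∑ j ∈ range n, A.ρ (s ^ j) b :=
  (mem_coboundaries₂_iff_isTwoCoboundary _).trans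
    (cyc_isTwoCoboundary_iff (ρ := repAddEnd A) hχ hinj hs a)

end rep

/-! ## Surface 3: multiplicative (`IsMulCocycle₂` / `IsMulCoboundary₂`) -/

section mul

open groupCohomology

variable {G M : Type*} [Group G] [CommGroup M] [MulDistribMulAction G M] {n : ℕ}

/-- The multiplicative cyclic cochain `(g, h) ↦ a ^ carry (χ g) (χ h)`. -/
def mulCyc (χ : G → ZMod n) (a : M) : G × G → M := fun p => a ^ carry n (χ p.1) (χ p.2)

omit [Group G] [MulDistribMulAction G M] in
@[simp] lemma mulCyc_apply (χ : G → ZMod n) (a : M) (g h : G) :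
    mulCyc χ a (g, h) = a ^ carry n (χ g) (χ h) := rfl

variable (G M) in
/-- The action of `G` on `Additive M` as a monoid hom to additive endomorphisms. -/
def mulAddEnd : G →* AddMonoid.End (Additive M) where
  toFun g := MonoidHom.toAdditive (MulDistribMulAction.toMonoidHom M g)
  map_one' := by
    ext x
    change Additive.ofMul ((1 : G) • Additive.toMul x) = x
    rw [one_smul]; rfl
  map_mul' g h := by
    ext x
    change Additive.ofMul ((g * h) • Additive.toMul x)
      = Additive.ofMul (g • (h • Additive.toMul x))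
    rw [mul_smul]

lemma isMulCocycle₂_iff_isTwoCocycle (f : G × G → M) :
    IsMulCocycle₂ f ↔ IsTwoCocycle (mulAddEnd G M) (Additive.ofMul ∘ f) := Iff.rfl

lemma isMulCoboundary₂_iff_isTwoCoboundary (f : G × G → M) :
    IsMulCoboundary₂ f ↔ IsTwoCoboundary (mulAddEnd G M) (Additive.ofMul ∘ f) :=
  ⟨fun ⟨x, hx⟩ => ⟨Additive.ofMul ∘ x, hx⟩, fun ⟨x, hx⟩ => ⟨Additive.toMul ∘ x, hx⟩⟩

omit [Group G] [MulDistribMulAction G M] in
lemma ofMul_comp_mulCyc (χ : G → ZMod n) (a : M) :
    Additive.ofMul ∘ mulCyc χ a = cyc χ (Additive.ofMul a) := rfl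

variable [NeZero n] {χ : G → ZMod n}

/-- (1) `mulCyc χ a` is a multiplicative 2-cocycle for `χ` additive and `a` invariant. -/
theorem isMulCocycle₂_mulCyc (hχ : ∀ g h, χ (g * h) = χ g + χ h) {a : M}
    (ha : ∀ g : G, g • a = a) : IsMulCocycle₂ (mulCyc χ a) :=
  isTwoCocycle_cyc (mulAddEnd G M) χ hχ (a := Additive.ofMul a) ha

/-- (2) every multiplicative 2-cocycle of a finite cyclic group is cohomologous to some
`mulCyc χ a` with `a` invariant (in fact `a = ∏_{j<n} f (s^j, s)`). -/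
theorem exists_mulCyc_isMulCoboundary₂ (hχ : ∀ g h, χ (g * h) = χ g + χ h)
    (hinj : Function.Injective χ) {s : G} (hs : χ s = 1) {f : G × G → M}
    (hf : IsMulCocycle₂ f) :
    ∃ a : M, (∀ g : G, g • a = a) ∧ IsMulCoboundary₂ (f / mulCyc χ a) := by
  obtain ⟨a, ha, hb⟩ := exists_cyc_cohomologous (ρ := mulAddEnd G M) hχ hinj hs
    ((isMulCocycle₂_iff_isTwoCocycle f).1 hf)
  exact ⟨Additive.toMul a, ha, (isMulCoboundary₂_iff_isTwoCoboundary _).2 hb⟩

/-- (3) `mulCyc χ a` is a multiplicative coboundary iff `a` is a norm. -/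
theorem mulCyc_isMulCoboundary₂_iff (hχ : ∀ g h, χ (g * h) = χ g + χ h)
    (hinj : Function.Injective χ) {s : G} (hs : χ s = 1) (a : M) :
    IsMulCoboundary₂ (mulCyc χ a) ↔ ∃ b : M, a = ∏ j ∈ range n, s ^ j • b := by
  rw [isMulCoboundary₂_iff_isTwoCoboundary, ofMul_comp_mulCyc,
    cyc_isTwoCoboundary_iff (ρ := mulAddEnd G M) hχ hinj hs]
  constructor
  · rintro ⟨b, hb⟩
    exact ⟨Additive.toMul b, hb⟩
  · rintro ⟨b, hb⟩
    exact ⟨Additive.ofMul b, hb⟩

/-- (3) with the norm as a product over the group. -/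
theorem mulCyc_isMulCoboundary₂_iff_prod_univ [Fintype G] (hχ : ∀ g h, χ (g * h) = χ g + χ h)
    (hinj : Function.Injective χ) {s : G} (hs : χ s = 1) (a : M) :
    IsMulCoboundary₂ (mulCyc χ a) ↔ ∃ b : M, a = ∏ g : G, g • b := by
  rw [isMulCoboundary₂_iff_isTwoCoboundary, ofMul_comp_mulCyc,
    cyc_isTwoCoboundary_iff_sum_univ (ρ := mulAddEnd G M) hχ hinj hs]
  constructor
  · rintro ⟨b, hb⟩
    exact ⟨Additive.toMul b, hb⟩
  · rintro ⟨b, hb⟩
    exact ⟨Additive.ofMul b, hb⟩

end mul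

/-! ## Surface 4: cyclic Galois extensions of fields (`H²(Gal(L/K), Lˣ) = Kˣ / N Lˣ`) -/

section galois

open groupCohomology

variable {K L : Type*} [Field K] [Field L] [Algebra K L]

/-- The image in `Lˣ` of a unit of the base field. -/
def baseUnit (a : Kˣ) : Lˣ := Units.map (algebraMap K L : K →* L) a

@[simp] lemma baseUnit_coe (a : Kˣ) : ((baseUnit a : Lˣ) : L) = algebraMap K L a := rfl

lemma smul_baseUnit (σ : L ≃ₐ[K] L) (a : Kˣ) : σ • (baseUnit a : Lˣ) = baseUnit a := by
  ext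
  simp

variable {n : ℕ} [NeZero n] {χ : (L ≃ₐ[K] L) → ZMod n}

/-- (1) the cyclic-algebra cocycle `(σ, τ) ↦ a ^ carry (χ σ) (χ τ)` of `a ∈ Kˣ`. -/
theorem isMulCocycle₂_mulCyc_baseUnit (hχ : ∀ g h, χ (g * h) = χ g + χ h) (a : Kˣ) :
    IsMulCocycle₂ (mulCyc χ (baseUnit a : Lˣ)) :=
  isMulCocycle₂_mulCyc hχ fun σ => smul_baseUnit σ a

variable [FiniteDimensional K L] [IsGalois K L]

/-- (2) for `L/K` cyclic, every 2-cocycle of `Gal(L/K)` in `Lˣ` is cohomologous to the
cyclic-algebra cocycle of some `a ∈ Kˣ`. -/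
theorem exists_mulCyc_baseUnit_isMulCoboundary₂ (hχ : ∀ g h, χ (g * h) = χ g + χ h)
    (hinj : Function.Injective χ) {s : L ≃ₐ[K] L} (hs : χ s = 1)
    {f : (L ≃ₐ[K] L) × (L ≃ₐ[K] L) → Lˣ} (hf : IsMulCocycle₂ f) :
    ∃ a : Kˣ, IsMulCoboundary₂ (f / mulCyc χ (baseUnit a : Lˣ)) := by
  obtain ⟨b, hb, hcob⟩ := exists_mulCyc_isMulCoboundary₂ hχ hinj hs hf
  have hfix : ∀ σ : L ≃ₐ[K] L, σ (b : L) = b := fun σ => by
    have := congrArg Units.val (hb σ)
    simpa using this
  obtain ⟨a, ha⟩ := (IsGalois.mem_range_algebraMap_iff_fixed (F := K) (E := L) (b : L)).2 hfix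
  have ha0 : a ≠ 0 := by
    rintro rfl
    rw [map_zero] at ha
    exact b.ne_zero ha.symm
  refine ⟨Units.mk0 a ha0, ?_⟩
  have : (baseUnit (Units.mk0 a ha0) : Lˣ) = b := by
    ext
    simp [ha]
  rw [this]
  exact hcob

/-- (3) the cyclic-algebra cocycle of `a ∈ Kˣ` is a coboundary iff `a` is a norm from `L`. -/
theorem mulCyc_baseUnit_isMulCoboundary₂_iff (hχ : ∀ g h, χ (g * h) = χ g + χ h)
    (hinj : Function.Injective χ) {s : L ≃ₐ[K] L} (hs : χ s = 1) (a : Kˣ) :
    IsMulCoboundary₂ (mulCyc χ (baseUnit a : Lˣ)) ↔ ∃ b : Lˣ, Algebra.norm K (b : L) = a := by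
  rw [mulCyc_isMulCoboundary₂_iff_prod_univ hχ hinj hs]
  refine exists_congr fun b => ?_
  have hprod : ((∏ σ : L ≃ₐ[K] L, σ • b : Lˣ) : L) = algebraMap K L (Algebra.norm K (b : L)) := by
    rw [Algebra.norm_eq_prod_automorphisms, Units.coe_prod]
    rfl
  constructor
  · intro h
    have h' := congrArg Units.val h
    rw [hprod, baseUnit_coe] at h'
    exact ((algebraMap K L).injective h').symm
  · intro h
    ext
    rw [hprod, baseUnit_coe, h]

end galois

end Fermat.Agent.S55.helper6440
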