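import Mathlib
import Fermat.Agent.S55.helper3644_InfRes2
import Fermat.Agent.S55.helper6440_CyclicH2
import Fermat.Agent.S55.helper1987_ResCor2

/-!
# Abstract Hasse devissage for `H²` (S55, leaf NF-GH-HASSE, helper1242)

Pure finite-group cohomology on explicit inhomogeneous cochains (Mathlib's `IsCocycle₂`,
`IsCoboundary₂` and their multiplicative twins), carrier-free.

* `inflated_eq_cyc_add_coboundary`, `exists_cyc_of_res_isCoboundary₂` : the **layer lemma**.
  `χ : P → ZMod p` additive with `χ s = 1`, `N = ker χ`, `H¹(N, A) = 0`. A 2-cocycle of `P` whose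
  restriction to `N` is a coboundary is cohomologous to the cyclic cocycle `cyc χ a` of a
  `P`-invariant `a` (inflation-restriction and the cyclic normal form, in inflated form: no
  quotient groups appear).
* `cyc_isCoboundary₂_of_norm` : `cyc χ (∑_{j<p} s^j • b)` is a coboundary when `b` is fixed by
  `ker χ` (inflated form of "norms give trivial cyclic classes").
* `isCoboundary₂_of_locally_trivial` : the **devissage**. `G` finite, `p` prime, Hilbert 90 for
  all subgroups, `T τ H c` an abstract notion of "the cochain `c` of the subgroup `H` is trivial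
  at the place `τ`" which is stable under adding coboundaries and satisfies the Hasse principle
  on cyclic layer cocycles `cyc χ a`. Then a 2-cocycle `c` of `G` which is killed by a power of
  `p` and is trivial at all places on all subgroups is a coboundary.
* multiplicative twins (`mulCyc`, `IsMulCocycle₂`, e.g. coefficients `Lˣ`).
-/

namespace Fermat.Agent.S55.helper1242

open groupCohomology Finset
open Fermat.Agent.S55

/-! ### The layer lemma -/

section layer

variable {P A : Type*} [Group P] [AddCommGroup A] [DistribMulAction P A] {p : ℕ}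

omit [DistribMulAction P A] in
lemma chi_inv {χ : P → ZMod p} (hχ : ∀ g h, χ (g * h) = χ g + χ h) (g : P) : χ g⁻¹ = -χ g := by
  have h := hχ g⁻¹ g
  rw [inv_mul_cancel, helper6440.chi_one hχ] at h
  exact eq_neg_of_add_eq_zero_left h.symm

/-- Every `g` is `s ^ (χ g).val` times an element of `ker χ`. -/
lemma chi_decomp [NeZero p] {χ : P → ZMod p} (hχ : ∀ g h, χ (g * h) = χ g + χ h) {s : P}
    (hs : χ s = 1) (g : P) : χ ((s ^ (χ g).val)⁻¹ * g) = 0 := by
  rw [hχ, chi_inv hχ, helper6440.chi_pow hχ hs, ZMod.natCast_zmod_val, neg_add_cancel]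

/-- On `ker χ`-invariants, `g` acts as `s ^ (χ g).val`. -/
lemma smul_eq_pow_smul [NeZero p] {χ : P → ZMod p} (hχ : ∀ g h, χ (g * h) = χ g + χ h) {s : P}
    (hs : χ s = 1) (g : P) {b : A} (hb : ∀ n : P, χ n = 0 → n • b = b) :
    g • b = s ^ (χ g).val • b := by
  have e : g = s ^ (χ g).val * ((s ^ (χ g).val)⁻¹ * g) := by group
  conv_lhs => rw [e, mul_smul, hb _ (chi_decomp hχ hs g)]

/-- **Cyclic normal form of an inflated 2-cocycle.** `χ : P → ZMod p` additive with `χ s = 1`;
`f'` a 2-cocycle of `P` which is constant on cosets of `ker χ` in both variables and has values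
in the `ker χ`-invariants. Then `a = ∑_{j<p} f' (s^j, s)` is `P`-invariant and
`f' - cyc χ a` is the coboundary of `g ↦ f' (1,1) - ∑_{j<(χ g).val} f' (s^j, s)`. -/
theorem inflated_eq_cyc_add_coboundary [NeZero p] (χ : P → ZMod p)
    (hχ : ∀ g h, χ (g * h) = χ g + χ h) {s : P} (hs : χ s = 1)
    {f' : P × P → A} (hf' : IsCocycle₂ f')
    (hconst : ∀ g h n m, χ n = 0 → χ m = 0 → f' (g * n, h * m) = f' (g, h))
    (hinv : ∀ g h n, χ n = 0 → n • f' (g, h) = f' (g, h)) :
    (∀ g : P, g • helper6440.psum s f' p = helper6440.psum s f' p) ∧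
    ∀ g h : P, g • (f' (1, 1) - helper6440.psum s f' (χ h).val)
        - (f' (1, 1) - helper6440.psum s f' (χ (g * h)).val)
        + (f' (1, 1) - helper6440.psum s f' (χ g).val)
      = f' (g, h) - helper6440.cyc χ (helper6440.psum s f' p) (g, h) := by
  have hform : ∀ i k : ℕ, f' (s ^ i, s ^ k)
      = s ^ i • (f' (1, 1) - helper6440.psum s f' k) - (f' (1, 1) - helper6440.psum s f' (i + k))
        + (f' (1, 1) - helper6440.psum s f' i) := fun i k =>
    helper6440.cocycle_pow_formula (ρ := DistribMulAction.toAddMonoidEnd P A) hf' s i k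
  have hsp : χ (s ^ p) = 0 := by rw [helper6440.chi_pow hχ hs, ZMod.natCast_self]
  have h1 : χ (1 : P) = 0 := helper6440.chi_one hχ
  -- invariance of the partial sums under `ker χ`
  have hSinv : ∀ (k : ℕ) (n : P), χ n = 0 → n • helper6440.psum s f' k = helper6440.psum s f' k := by
    intro k n hn
    unfold helper6440.psum
    rw [Finset.smul_sum]
    exact Finset.sum_congr rfl fun j _ => hinv _ _ n hn
  have hXinv : ∀ (k : ℕ) (n : P), χ n = 0 →
      n • (f' (1, 1) - helper6440.psum s f' k) = f' (1, 1) - helper6440.psum s f' k := by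
    intro k n hn
    rw [smul_sub, hinv _ _ n hn, hSinv k n hn]
  have hone : ∀ k : ℕ, f' (1, s ^ k) = f' (1, 1) := by
    intro k
    have := hform 0 k
    simp only [pow_zero, zero_add, one_smul, helper6440.psum_zero, sub_zero] at this
    rw [this]; abel
  -- periodicity
  have hper : ∀ k : ℕ, helper6440.psum s f' (k + p)
      = helper6440.psum s f' k + helper6440.psum s f' p := by
    intro k
    have e1 := hform p k
    have e2 : f' (s ^ p, s ^ k) = f' (1, s ^ k) := by
      have := hconst 1 (s ^ k) (s ^ p) 1 hsp h1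
      rwa [one_mul, mul_one] at this
    rw [e2, hone k, hXinv k _ hsp, add_comm p k] at e1
    linear_combination (norm := abel) (-1 : ℤ) • e1
  have hperm : ∀ k m : ℕ, helper6440.psum s f' (k + m * p)
      = helper6440.psum s f' k + m • helper6440.psum s f' p := by
    intro k m
    induction m with
    | zero => simp
    | succ m ih => rw [add_mul, one_mul, ← add_assoc, hper, ih, succ_nsmul, add_assoc]
  -- invariance of `a` under powers of `s`
  have hpow : ∀ i : ℕ, s ^ i • helper6440.psum s f' p = helper6440.psum s f' p := by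
    intro i
    have e1 := hform i p
    have e2 : f' (s ^ i, s ^ p) = f' (s ^ i, 1) := by
      have := hconst (s ^ i) 1 1 (s ^ p) h1 hsp
      rwa [mul_one, one_mul] at this
    have e3 := hform i 0
    simp only [pow_zero, helper6440.psum_zero, sub_zero, add_zero] at e3
    rw [e2, e3, hper i, smul_sub] at e1
    linear_combination (norm := abel) e1
  have hainv : ∀ n : P, χ n = 0 → n • helper6440.psum s f' p = helper6440.psum s f' p :=
    hSinv p
  refine ⟨fun g => ?_, fun g h => ?_⟩
  · rw [smul_eq_pow_smul hχ hs g hainv, hpow]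
  · have e1 := hform (χ g).val (χ h).val
    have e2 : f' (g, h) = f' (s ^ (χ g).val, s ^ (χ h).val) := by
      have := hconst (s ^ (χ g).val) (s ^ (χ h).val) _ _ (chi_decomp hχ hs g) (chi_decomp hχ hs h)
      rw [← this]
      congr 2 <;> group
    have hc := helper6440.val_add_carry (χ g) (χ h)
    rw [← hχ] at hc
    rw [← hc, mul_comm p, hperm, ← smul_eq_pow_smul hχ hs g (hXinv _), ← e2] at e1
    rw [helper6440.cyc_apply, e1]
    abel

/-- **Layer lemma** (inflation-restriction + cyclic normal form). `χ : P → ZMod p` additive with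
`χ s = 1`, `N = ker χ`, `H¹(N, A) = 0`. A 2-cocycle `f` of `P` whose restriction to `N` is a
coboundary is cohomologous to `cyc χ a` for some `P`-invariant `a`. -/
theorem exists_cyc_of_res_isCoboundary₂ [NeZero p] (χ : P → ZMod p)
    (hχ : ∀ g h, χ (g * h) = χ g + χ h) {s : P} (hs : χ s = 1)
    (N : Subgroup P) (hN : ∀ g, g ∈ N ↔ χ g = 0)
    (hH1 : ∀ c : N → A, IsCocycle₁ c → IsCoboundary₁ c)
    {f : P × P → A} (hf : IsCocycle₂ f)
    (hres : IsCoboundary₂ (fun nm : N × N => f ((nm.1 : P), (nm.2 : P)))) :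
    ∃ a : A, (∀ g : P, g • a = a) ∧ IsCoboundary₂ (f - helper6440.cyc χ a) := by
  have hNn : N.Normal := ⟨fun n hn g => by
    rw [hN] at hn ⊢
    rw [hχ, hχ, hn, add_zero, chi_inv hχ, add_neg_cancel]⟩
  obtain ⟨y, f', hf', hff', hconst, hinv⟩ :=
    helper3644.exists_inflated_of_res_isCoboundary₂ N hH1 hf hres
  obtain ⟨ha, hX⟩ := inflated_eq_cyc_add_coboundary χ hχ hs hf'
    (fun g h n m hn hm => hconst g h n ((hN n).2 hn) m ((hN m).2 hm))
    (fun g h n hn => hinv g h n ((hN n).2 hn))
  refine ⟨_, ha, fun g => (f' (1, 1) - helper6440.psum s f' (χ g).val) + y g, fun g h => ?_⟩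
  have e := hX g h
  rw [Pi.sub_apply, hff' g h]
  simp only [smul_add] at e ⊢
  linear_combination (norm := abel) e

/-- Norms from the `ker χ`-invariants give trivial cyclic classes (inflated form):
`cyc χ (∑_{j<p} s^j • b)` is the coboundary of `g ↦ ∑_{j<(χ g).val} s^j • b`. -/
theorem cyc_isCoboundary₂_of_norm [NeZero p] (χ : P → ZMod p)
    (hχ : ∀ g h, χ (g * h) = χ g + χ h) {s : P} (hs : χ s = 1)
    (b : A) (hb : ∀ n : P, χ n = 0 → n • b = b) :
    IsCoboundary₂ (helper6440.cyc χ (∑ j ∈ range p, s ^ j • b) : P × P → A) := by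
  set ρ := DistribMulAction.toAddMonoidEnd P A with hρ
  have hnsum : ∀ k : ℕ, helper6440.nsum ρ s b k = ∑ j ∈ range k, s ^ j • b := fun k => rfl
  have hadd : ∀ i k : ℕ, helper6440.nsum ρ s b (i + k)
      = helper6440.nsum ρ s b i + s ^ i • helper6440.nsum ρ s b k := fun i k =>
    helper6440.nsum_add (ρ := ρ) s b i k
  have hsp : χ (s ^ p) = 0 := by rw [helper6440.chi_pow hχ hs, ZMod.natCast_self]
  -- each `s^j • b` is `ker χ`-invariant
  have hbj : ∀ (j : ℕ) (n : P), χ n = 0 → n • s ^ j • b = s ^ j • b := by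
    intro j n hn
    have e : n * s ^ j = s ^ j * ((s ^ j)⁻¹ * n * s ^ j) := by group
    have hk : χ ((s ^ j)⁻¹ * n * s ^ j) = 0 := by
      rw [hχ, hχ, chi_inv hχ, hn, add_zero, neg_add_cancel]
    rw [← mul_smul, e, mul_smul, hb _ hk]
  have hNinv : ∀ (k : ℕ) (n : P), χ n = 0 →
      n • helper6440.nsum ρ s b k = helper6440.nsum ρ s b k := by
    intro k n hn
    rw [hnsum, Finset.smul_sum]
    exact Finset.sum_congr rfl fun j _ => hbj j n hn
  -- the full norm is invariant under `s`
  have hs1 : s • helper6440.nsum ρ s b p = helper6440.nsum ρ s b p := by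
    have e1 := hadd 1 p
    have e2 := hadd p 1
    have e3 : helper6440.nsum ρ s b 1 = b := by simp [hnsum]
    rw [add_comm 1 p, e2, e3, pow_one, hb _ hsp] at e1
    linear_combination (norm := abel) (-1 : ℤ) • e1
  have hspow : ∀ i : ℕ, s ^ i • helper6440.nsum ρ s b p = helper6440.nsum ρ s b p := by
    intro i
    induction i with
    | zero => simp
    | succ i ih => rw [pow_succ, mul_smul, hs1, ih]
  have hperm : ∀ k m : ℕ, helper6440.nsum ρ s b (k + m * p)
      = helper6440.nsum ρ s b k + m • helper6440.nsum ρ s b p := by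
    intro k m
    induction m with
    | zero => simp
    | succ m ih =>
      rw [add_mul, one_mul, ← add_assoc, hadd (k + m * p) p, ih, hspow, succ_nsmul, add_assoc]
  refine ⟨fun g => helper6440.nsum ρ s b (χ g).val, fun g h => ?_⟩
  have e1 := hadd (χ g).val (χ h).val
  have hc := helper6440.val_add_carry (χ g) (χ h)
  rw [← hχ] at hc
  rw [← hc, mul_comm p, hperm, ← smul_eq_pow_smul hχ hs g (hNinv _)] at e1
  rw [helper6440.cyc_apply, ← hnsum p]
  linear_combination (norm := abel) (-1 : ℤ) • e1

end layer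

/-! ### The devissage -/

section devissage

variable {G A : Type*} [Group G] [AddCommGroup A] [DistribMulAction G A]

/-- `H¹`-vanishing for all subgroups of `G` passes to subgroups of a subgroup. -/
lemma H1_subgroup_of_subgroup
    (hH1 : ∀ N : Subgroup G, ∀ c : N → A, IsCocycle₁ c → IsCoboundary₁ c)
    (P : Subgroup G) (N0 : Subgroup P) : ∀ c : N0 → A, IsCocycle₁ c → IsCoboundary₁ c := by
  intro c hc
  let e := N0.equivMapOfInjective P.subtype P.subtype_injective
  have he : ∀ n : N0, ((e n : G)) = ((n : P) : G) := fun n =>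
    Subgroup.coe_equivMapOfInjective_apply _ _ _ n
  have hsm : ∀ (n' : N0.map P.subtype) (x : A), (e.symm n') • x = n' • x := by
    intro n' x
    show (((e.symm n' : N0) : P) : G) • x = (n' : G) • x
    rw [← he, MulEquiv.apply_symm_apply]
  obtain ⟨b, hb⟩ := hH1 (N0.map P.subtype) (fun n' => c (e.symm n')) (by
    intro n' m'
    show c (e.symm (n' * m')) = n' • c (e.symm m') + c (e.symm n')
    rw [map_mul, hc (e.symm n') (e.symm m'), hsm])
  refine ⟨b, fun n => ?_⟩
  have h := hb (e n)
  simp only [MulEquiv.symm_apply_apply] at h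
  rw [← h]
  show ((n : P) : G) • b - b = (e n : G) • b - b
  rw [he]

/-- **Devissage on `p`-subgroups.** Under the hypotheses of `isCoboundary₂_of_locally_trivial`,
the restriction of `c` to every `p`-subgroup is a coboundary (induction on the order along
index-`p` normal subgroups, via the layer lemma). -/
theorem res_pGroup_isCoboundary₂ [Finite G] {ι : Sort*} (p : ℕ) [Fact p.Prime]
    (hH1 : ∀ N : Subgroup G, ∀ c : N → A, IsCocycle₁ c → IsCoboundary₁ c)
    (T : ι → (H : Subgroup G) → (H × H → A) → Prop)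
    (T_cob : ∀ τ (H : Subgroup G) (c c' : H × H → A), T τ H c → IsCoboundary₂ (c' - c) → T τ H c')
    (hLayer : ∀ (H : Subgroup G) (χ : H → ZMod p), (∀ g h, χ (g * h) = χ g + χ h) →
      (∃ s, χ s = 1) → ∀ a : A, (∀ g : H, g • a = a) → (∀ τ, T τ H (helper6440.cyc χ a)) →
      IsCoboundary₂ (helper6440.cyc χ a))
    {c : G × G → A} (hc : IsCocycle₂ c)
    (hT : ∀ τ (H : Subgroup G), T τ H (fun q : H × H => c ((q.1 : G), (q.2 : G)))) :
    ∀ (n : ℕ) (P : Subgroup G), Nat.card P = p ^ n →
      IsCoboundary₂ (fun q : P × P => c ((q.1 : G), (q.2 : G))) := by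
  have hp : p.Prime := Fact.out
  have : NeZero p := ⟨hp.ne_zero⟩
  intro n
  induction n with
  | zero =>
    intro P hP
    rw [pow_zero] at hP
    have hbot : P = ⊥ := Subgroup.eq_bot_of_card_eq P hP
    have h1' : ∀ x ∈ P, x = 1 := fun x hx => by
      rw [hbot] at hx
      exact Subgroup.mem_bot.1 hx
    have h1 : ∀ g : P, (g : G) = 1 := fun g => h1' g g.2
    refine ⟨fun _ => c (1, 1), fun g h => ?_⟩
    show (g : G) • c (1, 1) - c (1, 1) + c (1, 1) = c ((g : G), (h : G))
    rw [h1 g, h1 h, one_smul]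
    abel
  | succ n ih =>
    intro P hP
    obtain ⟨N0, hN0⟩ := Sylow.exists_subgroup_card_pow_prime (G := P) p (n := n)
      (by rw [hP, pow_succ]; exact dvd_mul_right _ _)
    have hidx : N0.index = p := by
      have := N0.card_mul_index
      rw [hN0, hP, pow_succ] at this
      exact Nat.eq_of_mul_eq_mul_left (pow_pos hp.pos n) this
    have hN0n : N0.Normal := Subgroup.normal_of_index_eq_minFac_card
      (by rw [hidx, hP, hp.pow_minFac (Nat.succ_ne_zero n)])
    have hcardQ : Nat.card (P ⧸ N0) = p := by rw [← Subgroup.index_eq_card, hidx]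
    have hcardZ : Nat.card (Multiplicative (ZMod p)) = p := by
      rw [Nat.card_congr Multiplicative.toAdd, Nat.card_zmod]
    let e : (P ⧸ N0) ≃* Multiplicative (ZMod p) := mulEquivOfPrimeCardEq hcardQ hcardZ
    let χ : P → ZMod p := fun g => Multiplicative.toAdd (e (QuotientGroup.mk g))
    have hχ : ∀ g h, χ (g * h) = χ g + χ h := fun g h => by
      show Multiplicative.toAdd (e (QuotientGroup.mk (g * h))) = _
      rw [QuotientGroup.mk_mul, map_mul, toAdd_mul]
    have hN : ∀ g, g ∈ N0 ↔ χ g = 0 := fun g => by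
      rw [← QuotientGroup.eq_one_iff (N := N0) g]
      show _ ↔ Multiplicative.toAdd (e (QuotientGroup.mk g)) = 0
      rw [toAdd_eq_zero, MulEquiv.map_eq_one_iff]
    obtain ⟨s, hs⟩ : ∃ s, χ s = 1 := by
      obtain ⟨s, hs⟩ := QuotientGroup.mk_surjective (e.symm (Multiplicative.ofAdd 1))
      refine ⟨s, ?_⟩
      show Multiplicative.toAdd (e (QuotientGroup.mk s)) = 1
      rw [hs, MulEquiv.apply_symm_apply]
      rfl
    -- the cocycle restricted to `P`
    have hcPc : IsCocycle₂ (fun q : P × P => c ((q.1 : G), (q.2 : G))) := fun g h j => hc g h j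
    -- induction hypothesis on the image of `N0` in `G`
    have hresN : IsCoboundary₂ (fun nm : N0 × N0 =>
        (fun q : P × P => c ((q.1 : G), (q.2 : G))) ((nm.1 : P), (nm.2 : P))) := by
      obtain ⟨u, hu⟩ := ih (N0.map P.subtype)
        (by rw [Subgroup.card_map_of_injective P.subtype_injective, hN0])
      refine ⟨fun n => u ⟨((n : P) : G), Subgroup.mem_map_of_mem _ n.2⟩, fun n m => ?_⟩
      exact hu ⟨((n : P) : G), Subgroup.mem_map_of_mem _ n.2⟩
        ⟨((m : P) : G), Subgroup.mem_map_of_mem _ m.2⟩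
    obtain ⟨a, ha, hcob⟩ := exists_cyc_of_res_isCoboundary₂ χ hχ hs N0 hN
      (H1_subgroup_of_subgroup hH1 P N0) hcPc hresN
    have hTcyc : ∀ τ, T τ P (helper6440.cyc χ a) := fun τ =>
      T_cob τ P _ _ (hT τ P) (by
        obtain ⟨x, hx⟩ := hcob
        refine ⟨fun g => - x g, fun g h => ?_⟩
        have := hx g h
        simp only [Pi.sub_apply, smul_neg] at this ⊢
        linear_combination (norm := abel) (-1 : ℤ) • this)
    obtain ⟨x1, hx1⟩ := hLayer P χ hχ ⟨s, hs⟩ a ha hTcyc
    obtain ⟨x2, hx2⟩ := hcob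
    refine ⟨fun g => x1 g + x2 g, fun g h => ?_⟩
    have e1 := hx1 g h
    have e2 := hx2 g h
    simp only [Pi.sub_apply, smul_add] at e2 ⊢
    linear_combination (norm := abel) e1 + e2

/-- **Abstract Hasse devissage for `H²`.** `G` a finite group acting on `A`, `p` a prime.
* `hH1` : `H¹(N, A) = 0` for every subgroup `N` (Hilbert 90);
* `T τ H c` : "the 2-cochain `c` of the subgroup `H` is trivial at the place `τ`", stable under
  adding coboundaries (`T_cob`);
* `hLayer` : the Hasse principle for cyclic layers: for `χ : H → ZMod p` additive and onto and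
  `a` fixed by `H`, if `cyc χ a` is trivial at every place then it is a coboundary;
* `c` a 2-cocycle of `G` whose restriction to every subgroup is trivial at every place, and
  which is killed by a power of `p`.
Then `c` is a coboundary. -/
theorem isCoboundary₂_of_locally_trivial [Finite G] {ι : Sort*} (p : ℕ) [Fact p.Prime]
    (hH1 : ∀ N : Subgroup G, ∀ c : N → A, IsCocycle₁ c → IsCoboundary₁ c)
    (T : ι → (H : Subgroup G) → (H × H → A) → Prop)
    (T_cob : ∀ τ (H : Subgroup G) (c c' : H × H → A), T τ H c → IsCoboundary₂ (c' - c) → T τ H c')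
    (hLayer : ∀ (H : Subgroup G) (χ : H → ZMod p), (∀ g h, χ (g * h) = χ g + χ h) →
      (∃ s, χ s = 1) → ∀ a : A, (∀ g : H, g • a = a) → (∀ τ, T τ H (helper6440.cyc χ a)) →
      IsCoboundary₂ (helper6440.cyc χ a))
    {c : G × G → A} (hc : IsCocycle₂ c)
    (hT : ∀ τ (H : Subgroup G), T τ H (fun q : H × H => c ((q.1 : G), (q.2 : G))))
    (hk : ∃ k : ℕ, IsCoboundary₂ ((p ^ k) • c)) : IsCoboundary₂ c := by
  obtain ⟨k, hk⟩ := hk
  obtain ⟨P⟩ : Nonempty (Sylow p G) := inferInstance
  have hres := res_pGroup_isCoboundary₂ p hH1 T T_cob hLayer hc hT _ (P : Subgroup G)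
    P.card_eq_multiplicity
  exact helper1987.isCoboundary₂_of_coprime_index (P : Subgroup G) c hc hres (p ^ k) hk
    (Nat.Coprime.pow_left k ((Nat.Prime.coprime_iff_not_dvd Fact.out).2 P.not_dvd_index))

end devissage

/-! ### Multiplicative twins (`MulDistribMulAction`, e.g. `M = Lˣ`) -/

section mul

variable {G M : Type*} [Group G] [CommGroup M] [MulDistribMulAction G M]

/-- **Layer lemma**, multiplicative form. -/
theorem exists_mulCyc_of_res_isMulCoboundary₂ {p : ℕ} [NeZero p] (χ : G → ZMod p)
    (hχ : ∀ g h, χ (g * h) = χ g + χ h) {s : G} (hs : χ s = 1)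
    (N : Subgroup G) (hN : ∀ g, g ∈ N ↔ χ g = 0)
    (hH1 : ∀ c : N → M, IsMulCocycle₁ c → IsMulCoboundary₁ c)
    {f : G × G → M} (hf : IsMulCocycle₂ f)
    (hres : IsMulCoboundary₂ (fun nm : N × N => f ((nm.1 : G), (nm.2 : G)))) :
    ∃ a : M, (∀ g : G, g • a = a) ∧ IsMulCoboundary₂ (f / helper6440.mulCyc χ a) := by
  let _inst : DistribMulAction G (Additive M) := helper3644.additiveDistribMulAction G M
  obtain ⟨u, hu⟩ := hres
  obtain ⟨a, ha, x, hx⟩ := exists_cyc_of_res_isCoboundary₂ (P := G) (A := Additive M) χ hχ hs N hN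
    (fun c hc => by
      obtain ⟨b, hb⟩ := hH1 (fun n => Additive.toMul (c n)) (fun n m => hc n m)
      exact ⟨Additive.ofMul b, fun n => hb n⟩)
    (f := fun q => Additive.ofMul (f q)) (fun g h j => hf g h j)
    ⟨fun n => Additive.ofMul (u n), fun n m => hu n m⟩
  exact ⟨Additive.toMul a, fun g => ha g, fun g => Additive.toMul (x g), fun g h => hx g h⟩

/-- Norms from the `ker χ`-invariants give trivial cyclic classes, multiplicative form. -/
theorem mulCyc_isMulCoboundary₂_of_norm {p : ℕ} [NeZero p] (χ : G → ZMod p)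
    (hχ : ∀ g h, χ (g * h) = χ g + χ h) {s : G} (hs : χ s = 1)
    (b : M) (hb : ∀ n : G, χ n = 0 → n • b = b) :
    IsMulCoboundary₂ (helper6440.mulCyc χ (∏ j ∈ range p, s ^ j • b) : G × G → M) := by
  let _inst : DistribMulAction G (Additive M) := helper3644.additiveDistribMulAction G M
  obtain ⟨x, hx⟩ := cyc_isCoboundary₂_of_norm (P := G) (A := Additive M) χ hχ hs
    (Additive.ofMul b) (fun n hn => congrArg Additive.ofMul (hb n hn))
  have e : (∑ j ∈ range p, s ^ j • Additive.ofMul b)
      = Additive.ofMul (∏ j ∈ range p, s ^ j • b) := (ofMul_prod _ _).symm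
  rw [e] at hx
  exact ⟨fun g => Additive.toMul (x g), fun g h => hx g h⟩

/-- **Abstract Hasse devissage for `H²`**, multiplicative form (e.g. `G = Gal(L/F)`, `M = Lˣ`).
* `hH1` : Hilbert 90 for every subgroup;
* `T τ H c` : "the 2-cochain `c` of the subgroup `H` is trivial at the place `τ`", stable under
  multiplying by coboundaries (`T_cob`);
* `hLayer` : the Hasse principle for cyclic layers: for `χ : H → ZMod p` additive and onto and
  `a` fixed by `H`, if `mulCyc χ a` is trivial at every place then it is a coboundary;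
* `c` a 2-cocycle of `G` whose restriction to every subgroup is trivial at every place, and
  with `c ^ (p ^ k)` a coboundary for some `k` (e.g. `c` has values in `μ_p`).
Then `c` is a coboundary. -/
theorem isMulCoboundary₂_of_locally_trivial [Finite G] {ι : Sort*} (p : ℕ) [Fact p.Prime]
    (hH1 : ∀ N : Subgroup G, ∀ c : N → M, IsMulCocycle₁ c → IsMulCoboundary₁ c)
    (T : ι → (H : Subgroup G) → (H × H → M) → Prop)
    (T_cob : ∀ τ (H : Subgroup G) (c c' : H × H → M), T τ H c → IsMulCoboundary₂ (c' / c) →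
      T τ H c')
    (hLayer : ∀ (H : Subgroup G) (χ : H → ZMod p), (∀ g h, χ (g * h) = χ g + χ h) →
      (∃ s, χ s = 1) → ∀ a : M, (∀ g : H, g • a = a) → (∀ τ, T τ H (helper6440.mulCyc χ a)) →
      IsMulCoboundary₂ (helper6440.mulCyc χ a))
    {c : G × G → M} (hc : IsMulCocycle₂ c)
    (hT : ∀ τ (H : Subgroup G), T τ H (fun q : H × H => c ((q.1 : G), (q.2 : G))))
    (hk : ∃ k : ℕ, IsMulCoboundary₂ (c ^ (p ^ k))) : IsMulCoboundary₂ c := by
  let _inst : DistribMulAction G (Additive M) := helper3644.additiveDistribMulAction G M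
  obtain ⟨k, xk, hxk⟩ := hk
  obtain ⟨x, hx⟩ := isCoboundary₂_of_locally_trivial (G := G) (A := Additive M) p
    (fun N c1 hc1 => by
      obtain ⟨b, hb⟩ := hH1 N (fun n => Additive.toMul (c1 n)) (fun n m => hc1 n m)
      exact ⟨Additive.ofMul b, fun n => hb n⟩)
    (fun τ H c' => T τ H (fun q => Additive.toMul (c' q)))
    (fun τ H c1 c2 h1 h2 => by
      obtain ⟨x, hx⟩ := h2
      exact T_cob τ H _ _ h1 ⟨fun g => Additive.toMul (x g), fun g h => hx g h⟩)
    (fun H χ hχ hs a ha hTa => by
      obtain ⟨x, hx⟩ := hLayer H χ hχ hs (Additive.toMul a) (fun g => ha g) (fun τ => hTa τ)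
      exact ⟨fun g => Additive.ofMul (x g), fun g h => hx g h⟩)
    (c := fun q => Additive.ofMul (c q)) (fun g h j => hc g h j)
    (fun τ H => hT τ H)
    ⟨k, fun g => Additive.ofMul (xk g), fun g h => hxk g h⟩
  exact ⟨fun g => Additive.toMul (x g), fun g h => hx g h⟩

end mul

end Fermat.Agent.S55.helper1242
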