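import Mathlib
import Fermat.Agent.S55.helper1242_HasseDevissage

/-!
# Hasse devissage on Galois groups (S55, leaf NF-GH-HASSE, part 2, helper1242)

* `isCoboundary₂_on_of_locally_trivial`, `isMulCoboundary₂_on_of_locally_trivial` : the abstract
  devissage of `helper1242_HasseDevissage` for a cochain `c : G × G → A` which is a cocycle only on
  a subgroup `G₁` (all hypotheses only for subgroups `H ≤ G₁`).
* `hilbert90_subgroup` : Hilbert 90 for every subgroup of `Gal(L/K)`, `L/K` finite.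
* `galois_isMulCoboundary₂_on_of_locally_trivial` : the devissage for `G = Gal(L/K)`, `M = Lˣ`
  (no Hilbert 90 hypothesis, layer hypothesis in norm form); `HasseCalculus p G₁ T` bundles the
  two hypotheses on the local-triviality calculus `T`.
* finite-level presentation (`Ω/K` Galois, `N/K` finite Galois, `ρ : Gal(Ω/K) → Gal(N/K)`,
  `V ⊇ Gal(Ω/N)`): `exists_descent₂` (a right-`Gal(Ω/N)`-invariant cochain on `V` with values in
  `N` descends to `Gal(N/K)`), `isMulCocycle₂_of_descent`, `exists_primitive_of_descent`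
  (a primitive at finite level inflates to a level primitive on `V`), `val_mem_of_rightInv`.
* `exists_primitive_of_locally_trivial` (intermediate field `N`),
  `exists_primitive_of_hasseCalculus` (abstract `N`), `exists_primitive_of_locally_trivial_Qbar`
  (frozen carrier `Gal(ℚ̄/F)`): the Hasse devissage for level cocycles on the infinite-level
  carrier, hypothesis-passing over a finite-level `HasseCalculus`.
-/

namespace Fermat.Agent.S55.helper1242

open groupCohomology Finset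
open Fermat.Agent.S55

/-! ### The devissage for a cocycle on a subgroup -/

section onSubgroup

variable {G A : Type*} [Group G] [AddCommGroup A] [DistribMulAction G A]

/-- Devissage on `p`-subgroups of `G₁` (the version of `res_pGroup_isCoboundary₂` for a cochain
which is a cocycle on the subgroup `G₁` only). -/
theorem res_pGroup_isCoboundary₂_on [Finite G] {ι : Sort*} (p : ℕ) [Fact p.Prime]
    (G₁ : Subgroup G)
    (hH1 : ∀ N : Subgroup G, ∀ c : N → A, IsCocycle₁ c → IsCoboundary₁ c)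
    (T : ι → (H : Subgroup G) → (H × H → A) → Prop)
    (T_cob : ∀ τ (H : Subgroup G), H ≤ G₁ → ∀ c c' : H × H → A, T τ H c →
      IsCoboundary₂ (c' - c) → T τ H c')
    (hLayer : ∀ (H : Subgroup G), H ≤ G₁ → ∀ (χ : H → ZMod p),
      (∀ g h, χ (g * h) = χ g + χ h) → (∃ s, χ s = 1) → ∀ a : A, (∀ g : H, g • a = a) →
      (∀ τ, T τ H (helper6440.cyc χ a)) → IsCoboundary₂ (helper6440.cyc χ a))
    {c : G × G → A} (hc : IsCocycle₂ (fun q : G₁ × G₁ => c ((q.1 : G), (q.2 : G))))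
    (hT : ∀ τ (H : Subgroup G), H ≤ G₁ → T τ H (fun q : H × H => c ((q.1 : G), (q.2 : G)))) :
    ∀ (n : ℕ) (P : Subgroup G), P ≤ G₁ → Nat.card P = p ^ n →
      IsCoboundary₂ (fun q : P × P => c ((q.1 : G), (q.2 : G))) := by
  have hp : p.Prime := Fact.out
  have : NeZero p := ⟨hp.ne_zero⟩
  intro n
  induction n with
  | zero =>
    intro P _ hP
    rw [pow_zero] at hP
    have hbot : P = ⊥ := Subgroup.eq_bot_of_card_eq P hP
    have h1' : ∀ x ∈ P, x = 1 := fun x hx => by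
      rw [hbot] at hx
      exact Subgroup.mem_bot.1 hx
    have h1 : ∀ g : P, (g : G) = 1 := fun g => h1' g g.2
    refine ⟨fun _ => c (1, 1), fun g h => ?_⟩
    show (g : G) • c (1, 1) - c (1, 1) + c (1, 1) = c ((g : G), (h : G))
    rw [h1 g, h1 h, one_smul]
    abel
  | succ n ih =>
    intro P hPG hP
    obtain ⟨N0, hN0⟩ := Sylow.exists_subgroup_card_pow_prime (G := P) p (n := n)
      (by rw [hP, pow_succ]; exact dvd_mul_right _ _)
    have hidx : N0.index = p := by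
      have := N0.card_mul_index
      rw [hN0, hP, pow_succ] at this
      exact Nat.eq_of_mul_eq_mul_left (pow_pos hp.pos n) this
    have hN0n : N0.Normal := Subgroup.normal_of_index_eq_minFac_card
      (by rw [hidx, hP, hp.pow_minFac (Nat.succ_ne_zero n)])
    have hcardQ : Nat.card (P ⧸ N0) = p := by rw [← Subgroup.index_eq_card, hidx]
    have hcardZ : Nat.card (Multiplicative (ZMod p)) = p := by
      rw [Nat.card_congr Multiplicative.toAdd, Nat.card_zmod]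
    let e : (P ⧸ N0) ≃* Multiplicative (ZMod p) := mulEquivOfPrimeCardEq hcardQ hcardZ
    let χ : P → ZMod p := fun g => Multiplicative.toAdd (e (QuotientGroup.mk g))
    have hχ : ∀ g h, χ (g * h) = χ g + χ h := fun g h => by
      show Multiplicative.toAdd (e (QuotientGroup.mk (g * h))) = _
      rw [QuotientGroup.mk_mul, map_mul, toAdd_mul]
    have hN : ∀ g, g ∈ N0 ↔ χ g = 0 := fun g => by
      rw [← QuotientGroup.eq_one_iff (N := N0) g]
      show _ ↔ Multiplicative.toAdd (e (QuotientGroup.mk g)) = 0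
      rw [toAdd_eq_zero, MulEquiv.map_eq_one_iff]
    obtain ⟨s, hs⟩ : ∃ s, χ s = 1 := by
      obtain ⟨s, hs⟩ := QuotientGroup.mk_surjective (e.symm (Multiplicative.ofAdd 1))
      refine ⟨s, ?_⟩
      show Multiplicative.toAdd (e (QuotientGroup.mk s)) = 1
      rw [hs, MulEquiv.apply_symm_apply]
      rfl
    have hcPc : IsCocycle₂ (fun q : P × P => c ((q.1 : G), (q.2 : G))) := fun g h j =>
      hc ⟨g, hPG g.2⟩ ⟨h, hPG h.2⟩ ⟨j, hPG j.2⟩
    have hresN : IsCoboundary₂ (fun nm : N0 × N0 =>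
        (fun q : P × P => c ((q.1 : G), (q.2 : G))) ((nm.1 : P), (nm.2 : P))) := by
      obtain ⟨u, hu⟩ := ih (N0.map P.subtype) ((Subgroup.map_subtype_le N0).trans hPG)
        (by rw [Subgroup.card_map_of_injective P.subtype_injective, hN0])
      refine ⟨fun n => u ⟨((n : P) : G), Subgroup.mem_map_of_mem _ n.2⟩, fun n m => ?_⟩
      exact hu ⟨((n : P) : G), Subgroup.mem_map_of_mem _ n.2⟩
        ⟨((m : P) : G), Subgroup.mem_map_of_mem _ m.2⟩
    obtain ⟨a, ha, hcob⟩ := exists_cyc_of_res_isCoboundary₂ χ hχ hs N0 hN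
      (H1_subgroup_of_subgroup hH1 P N0) hcPc hresN
    have hTcyc : ∀ τ, T τ P (helper6440.cyc χ a) := fun τ =>
      T_cob τ P hPG _ _ (hT τ P hPG) (by
        obtain ⟨x, hx⟩ := hcob
        refine ⟨fun g => - x g, fun g h => ?_⟩
        have := hx g h
        simp only [Pi.sub_apply, smul_neg] at this ⊢
        linear_combination (norm := abel) (-1 : ℤ) • this)
    obtain ⟨x1, hx1⟩ := hLayer P hPG χ hχ ⟨s, hs⟩ a ha hTcyc
    obtain ⟨x2, hx2⟩ := hcob
    refine ⟨fun g => x1 g + x2 g, fun g h => ?_⟩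
    have e1 := hx1 g h
    have e2 := hx2 g h
    simp only [Pi.sub_apply, smul_add] at e2 ⊢
    linear_combination (norm := abel) e1 + e2

/-- **Abstract Hasse devissage for a cocycle on a subgroup `G₁`** (additive form): the version
of `isCoboundary₂_of_locally_trivial` in which `c : G × G → A` is a cocycle on `G₁` only and the
local hypotheses are required only for subgroups `H ≤ G₁`. -/
theorem isCoboundary₂_on_of_locally_trivial [Finite G] {ι : Sort*} (p : ℕ) [Fact p.Prime]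
    (G₁ : Subgroup G)
    (hH1 : ∀ N : Subgroup G, ∀ c : N → A, IsCocycle₁ c → IsCoboundary₁ c)
    (T : ι → (H : Subgroup G) → (H × H → A) → Prop)
    (T_cob : ∀ τ (H : Subgroup G), H ≤ G₁ → ∀ c c' : H × H → A, T τ H c →
      IsCoboundary₂ (c' - c) → T τ H c')
    (hLayer : ∀ (H : Subgroup G), H ≤ G₁ → ∀ (χ : H → ZMod p),
      (∀ g h, χ (g * h) = χ g + χ h) → (∃ s, χ s = 1) → ∀ a : A, (∀ g : H, g • a = a) →
      (∀ τ, T τ H (helper6440.cyc χ a)) → IsCoboundary₂ (helper6440.cyc χ a))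
    {c : G × G → A} (hc : IsCocycle₂ (fun q : G₁ × G₁ => c ((q.1 : G), (q.2 : G))))
    (hT : ∀ τ (H : Subgroup G), H ≤ G₁ → T τ H (fun q : H × H => c ((q.1 : G), (q.2 : G))))
    (hk : ∃ k : ℕ, IsCoboundary₂ ((p ^ k) • fun q : G₁ × G₁ => c ((q.1 : G), (q.2 : G)))) :
    IsCoboundary₂ (fun q : G₁ × G₁ => c ((q.1 : G), (q.2 : G))) := by
  obtain ⟨k, hk⟩ := hk
  obtain ⟨P'⟩ : Nonempty (Sylow p G₁) := inferInstance
  have hres := res_pGroup_isCoboundary₂_on p G₁ hH1 T T_cob hLayer hc hT _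
    ((P' : Subgroup G₁).map G₁.subtype) (Subgroup.map_subtype_le _)
    (by rw [Subgroup.card_map_of_injective G₁.subtype_injective]; exact P'.card_eq_multiplicity)
  have hres' : IsCoboundary₂ (fun q : ↥(P' : Subgroup G₁) × ↥(P' : Subgroup G₁) =>
      (fun q : G₁ × G₁ => c ((q.1 : G), (q.2 : G))) ((q.1 : G₁), (q.2 : G₁))) := by
    obtain ⟨u, hu⟩ := hres
    refine ⟨fun n => u ⟨((n : G₁) : G), Subgroup.mem_map_of_mem _ n.2⟩, fun n m => ?_⟩
    exact hu ⟨((n : G₁) : G), Subgroup.mem_map_of_mem _ n.2⟩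
      ⟨((m : G₁) : G), Subgroup.mem_map_of_mem _ m.2⟩
  exact helper1987.isCoboundary₂_of_coprime_index (P' : Subgroup G₁) _ hc hres' (p ^ k) hk
    (Nat.Coprime.pow_left k ((Nat.Prime.coprime_iff_not_dvd Fact.out).2 P'.not_dvd_index))

end onSubgroup

section onSubgroupMul

variable {G M : Type*} [Group G] [CommGroup M] [MulDistribMulAction G M]

/-- **Abstract Hasse devissage for a cocycle on a subgroup `G₁`**, multiplicative form. -/
theorem isMulCoboundary₂_on_of_locally_trivial [Finite G] {ι : Sort*} (p : ℕ) [Fact p.Prime]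
    (G₁ : Subgroup G)
    (hH1 : ∀ N : Subgroup G, ∀ c : N → M, IsMulCocycle₁ c → IsMulCoboundary₁ c)
    (T : ι → (H : Subgroup G) → (H × H → M) → Prop)
    (T_cob : ∀ τ (H : Subgroup G), H ≤ G₁ → ∀ c c' : H × H → M, T τ H c →
      IsMulCoboundary₂ (c' / c) → T τ H c')
    (hLayer : ∀ (H : Subgroup G), H ≤ G₁ → ∀ (χ : H → ZMod p),
      (∀ g h, χ (g * h) = χ g + χ h) → (∃ s, χ s = 1) → ∀ a : M, (∀ g : H, g • a = a) →
      (∀ τ, T τ H (helper6440.mulCyc χ a)) → IsMulCoboundary₂ (helper6440.mulCyc χ a))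
    {c : G × G → M} (hc : IsMulCocycle₂ (fun q : G₁ × G₁ => c ((q.1 : G), (q.2 : G))))
    (hT : ∀ τ (H : Subgroup G), H ≤ G₁ → T τ H (fun q : H × H => c ((q.1 : G), (q.2 : G))))
    (hk : ∃ k : ℕ, IsMulCoboundary₂ ((fun q : G₁ × G₁ => c ((q.1 : G), (q.2 : G))) ^ (p ^ k))) :
    IsMulCoboundary₂ (fun q : G₁ × G₁ => c ((q.1 : G), (q.2 : G))) := by
  let _inst : DistribMulAction G (Additive M) := helper3644.additiveDistribMulAction G M
  obtain ⟨k, xk, hxk⟩ := hk
  obtain ⟨x, hx⟩ := isCoboundary₂_on_of_locally_trivial (G := G) (A := Additive M) p G₁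
    (fun N c1 hc1 => by
      obtain ⟨b, hb⟩ := hH1 N (fun n => Additive.toMul (c1 n)) (fun n m => hc1 n m)
      exact ⟨Additive.ofMul b, fun n => hb n⟩)
    (fun τ H c' => T τ H (fun q => Additive.toMul (c' q)))
    (fun τ H hH c1 c2 h1 h2 => by
      obtain ⟨x, hx⟩ := h2
      exact T_cob τ H hH _ _ h1 ⟨fun g => Additive.toMul (x g), fun g h => hx g h⟩)
    (fun H hH χ hχ hs a ha hTa => by
      obtain ⟨x, hx⟩ := hLayer H hH χ hχ hs (Additive.toMul a) (fun g => ha g) (fun τ => hTa τ)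
      exact ⟨fun g => Additive.ofMul (x g), fun g h => hx g h⟩)
    (c := fun q => Additive.ofMul (c q)) (fun g h j => hc g h j)
    (fun τ H hH => hT τ H hH)
    ⟨k, fun g => Additive.ofMul (xk g), fun g h => hxk g h⟩
  exact ⟨fun g => Additive.toMul (x g), fun g h => hx g h⟩

/-- The same with the layer hypothesis in **norm form**: if `mulCyc χ a` is trivial at every
place then `a` is a norm `∏_{j<p} s^j • b` of an element fixed by `ker χ`. -/
theorem isMulCoboundary₂_on_of_locally_trivial_of_norm [Finite G] {ι : Sort*} (p : ℕ)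
    [Fact p.Prime] (G₁ : Subgroup G)
    (hH1 : ∀ N : Subgroup G, ∀ c : N → M, IsMulCocycle₁ c → IsMulCoboundary₁ c)
    (T : ι → (H : Subgroup G) → (H × H → M) → Prop)
    (T_cob : ∀ τ (H : Subgroup G), H ≤ G₁ → ∀ c c' : H × H → M, T τ H c →
      IsMulCoboundary₂ (c' / c) → T τ H c')
    (hLayerNorm : ∀ (H : Subgroup G), H ≤ G₁ → ∀ (χ : H → ZMod p),
      (∀ g h, χ (g * h) = χ g + χ h) → ∀ s : H, χ s = 1 → ∀ a : M, (∀ g : H, g • a = a) →
      (∀ τ, T τ H (helper6440.mulCyc χ a)) →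
      ∃ b : M, (∀ n : H, χ n = 0 → n • b = b) ∧ a = ∏ j ∈ range p, s ^ j • b)
    {c : G × G → M} (hc : IsMulCocycle₂ (fun q : G₁ × G₁ => c ((q.1 : G), (q.2 : G))))
    (hT : ∀ τ (H : Subgroup G), H ≤ G₁ → T τ H (fun q : H × H => c ((q.1 : G), (q.2 : G))))
    (hk : ∃ k : ℕ, IsMulCoboundary₂ ((fun q : G₁ × G₁ => c ((q.1 : G), (q.2 : G))) ^ (p ^ k))) :
    IsMulCoboundary₂ (fun q : G₁ × G₁ => c ((q.1 : G), (q.2 : G))) := by
  have hp : p.Prime := Fact.out
  have : NeZero p := ⟨hp.ne_zero⟩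
  refine isMulCoboundary₂_on_of_locally_trivial p G₁ hH1 T T_cob ?_ hc hT hk
  intro H hH χ hχ hs a ha hTa
  obtain ⟨s, hs⟩ := hs
  obtain ⟨b, hb, rfl⟩ := hLayerNorm H hH χ hχ s hs a ha hTa
  exact mulCyc_isMulCoboundary₂_of_norm χ hχ hs b hb

end onSubgroupMul

/-! ### Galois groups: Hilbert 90 for subgroups and the devissage on `Gal(L/K)` -/

section galois

variable {K L : Type*} [Field K] [Field L] [Algebra K L] [FiniteDimensional K L]

/-- **Hilbert 90 for every subgroup** of the automorphism group of a finite extension. -/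
theorem hilbert90_subgroup (H : Subgroup (L ≃ₐ[K] L)) (c : H → Lˣ) (hc : IsMulCocycle₁ c) :
    IsMulCoboundary₁ c := by
  classical
  set K' := IntermediateField.fixedField H with hK'
  have hfix : K'.fixingSubgroup = H := IntermediateField.fixingSubgroup_fixedField H
  have hmem : ∀ σ : L ≃ₐ[K'] L, σ.restrictScalars K ∈ H := by
    intro σ
    rw [← hfix, IntermediateField.mem_fixingSubgroup_iff]
    intro x hx
    exact σ.commutes ⟨x, hx⟩
  let φ : (L ≃ₐ[K'] L) → H := fun σ => ⟨σ.restrictScalars K, hmem σ⟩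
  have hφmul : ∀ σ τ, φ (σ * τ) = φ σ * φ τ := fun σ τ => Subtype.ext rfl
  obtain ⟨β, hβ⟩ := isMulCoboundary₁_of_isMulCocycle₁_of_aut_to_units (K := K')
    (fun σ => c (φ σ)) (by
      intro σ τ
      show c (φ (σ * τ)) = σ • c (φ τ) * c (φ σ)
      rw [hφmul, hc (φ σ) (φ τ)]
      rfl)
  refine ⟨β, fun h => ?_⟩
  have hh : (h : L ≃ₐ[K] L) ∈ K'.fixingSubgroup := by rw [hfix]; exact h.2
  have h1 := hβ (IntermediateField.fixingSubgroupEquiv K' ⟨h, hh⟩)
  have h2 : φ (IntermediateField.fixingSubgroupEquiv K' ⟨h, hh⟩) = h := Subtype.ext (by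
    ext x
    rfl)
  simp only [h2] at h1
  rw [← h1]
  rfl

/-- **Hasse devissage on a Galois group.** `L/K` finite, `G₁ ≤ Gal(L/K)`, `p` prime;
`T τ H c` an abstract notion of local triviality at the place `τ` for 2-cochains of subgroups
`H ≤ G₁` with values in `Lˣ`, stable under multiplying by coboundaries, and such that a cyclic
layer cocycle `mulCyc χ a` which is trivial at all places has `a` a norm from the
`ker χ`-invariants. Then a cochain `c` which is a 2-cocycle on `G₁`, trivial at all places on all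
subgroups of `G₁` and with `c ^ (p ^ k)` a coboundary on `G₁`, is a coboundary on `G₁`. -/
theorem galois_isMulCoboundary₂_on_of_locally_trivial {ι : Sort*} (p : ℕ) [Fact p.Prime]
    (G₁ : Subgroup (L ≃ₐ[K] L))
    (T : ι → (H : Subgroup (L ≃ₐ[K] L)) → (H × H → Lˣ) → Prop)
    (T_cob : ∀ τ (H : Subgroup (L ≃ₐ[K] L)), H ≤ G₁ → ∀ c c' : H × H → Lˣ, T τ H c →
      IsMulCoboundary₂ (c' / c) → T τ H c')
    (hLayerNorm : ∀ (H : Subgroup (L ≃ₐ[K] L)), H ≤ G₁ → ∀ (χ : H → ZMod p),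
      (∀ g h, χ (g * h) = χ g + χ h) → ∀ s : H, χ s = 1 → ∀ a : Lˣ, (∀ g : H, g • a = a) →
      (∀ τ, T τ H (helper6440.mulCyc χ a)) →
      ∃ b : Lˣ, (∀ n : H, χ n = 0 → n • b = b) ∧ a = ∏ j ∈ range p, s ^ j • b)
    {c : (L ≃ₐ[K] L) × (L ≃ₐ[K] L) → Lˣ}
    (hc : IsMulCocycle₂ (fun q : G₁ × G₁ => c ((q.1 : L ≃ₐ[K] L), (q.2 : L ≃ₐ[K] L))))
    (hT : ∀ τ (H : Subgroup (L ≃ₐ[K] L)), H ≤ G₁ →
      T τ H (fun q : H × H => c ((q.1 : L ≃ₐ[K] L), (q.2 : L ≃ₐ[K] L))))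
    (hk : ∃ k : ℕ, IsMulCoboundary₂
      ((fun q : G₁ × G₁ => c ((q.1 : L ≃ₐ[K] L), (q.2 : L ≃ₐ[K] L))) ^ (p ^ k))) :
    IsMulCoboundary₂ (fun q : G₁ × G₁ => c ((q.1 : L ≃ₐ[K] L), (q.2 : L ≃ₐ[K] L))) :=
  isMulCoboundary₂_on_of_locally_trivial_of_norm p G₁ hilbert90_subgroup T T_cob hLayerNorm hc hT
    hk

/-- The two properties of a local-triviality calculus `T` on the subgroups of `G₁ ≤ Gal(L/K)`
used by the devissage: stability under multiplication by coboundaries, and the Hasse principle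
on cyclic layers in norm form. -/
def HasseCalculus {ι : Sort*} (p : ℕ) (G₁ : Subgroup (L ≃ₐ[K] L))
    (T : ι → (H : Subgroup (L ≃ₐ[K] L)) → (H × H → Lˣ) → Prop) : Prop :=
  (∀ τ (H : Subgroup (L ≃ₐ[K] L)), H ≤ G₁ → ∀ c c' : H × H → Lˣ, T τ H c →
      IsMulCoboundary₂ (c' / c) → T τ H c') ∧
    (∀ (H : Subgroup (L ≃ₐ[K] L)), H ≤ G₁ → ∀ (χ : H → ZMod p),
      (∀ g h, χ (g * h) = χ g + χ h) → ∀ s : H, χ s = 1 → ∀ a : Lˣ, (∀ g : H, g • a = a) →
      (∀ τ, T τ H (helper6440.mulCyc χ a)) →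
      ∃ b : Lˣ, (∀ n : H, χ n = 0 → n • b = b) ∧ a = ∏ j ∈ range p, s ^ j • b)

end galois

/-! ### Finite-level presentation: descent from `V ≤ Gal(Ω/K)` to `Gal(N/K)`

`Ω/K` a (possibly infinite) normal extension, `N/K` a normal subextension (an abstract field with
`K → N → Ω`), `ρ = AlgEquiv.restrictNormalHom N : Gal(Ω/K) → Gal(N/K)`, `V ≤ Gal(Ω/K)`. -/

section descentAbs

variable {K N Ω : Type*} [Field K] [Field N] [Field Ω] [Algebra K N] [Algebra K Ω] [Algebra N Ω]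
  [IsScalarTower K N Ω] [Normal K N] {V : Subgroup (Ω ≃ₐ[K] Ω)}

lemma algebraMap_restrictNormalHom (g : Ω ≃ₐ[K] Ω) (x : N) :
    algebraMap N Ω (AlgEquiv.restrictNormalHom N g x) = g (algebraMap N Ω x) :=
  AlgEquiv.restrictNormal_commutes g N x

lemma algebraMap_smul_units (g : Ω ≃ₐ[K] Ω) (u : Nˣ) :
    algebraMap N Ω ((AlgEquiv.restrictNormalHom N g • u : Nˣ) : N)
      = g (algebraMap N Ω (u : N)) := by
  rw [AlgEquiv.smul_units_def, Units.coe_map, MonoidHom.coe_coe, algebraMap_restrictNormalHom]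

/-- **Descent of a 2-cochain to finite level.** A function `c : V × V → Ωˣ` with values in `N`
which is right-invariant under `ker ρ` in both variables comes from a function on
`Gal(N/K) × Gal(N/K)` with values in `Nˣ`. -/
theorem exists_descent₂ (c : V × V → Ωˣ)
    (hinv : ∀ g h u u' : V, AlgEquiv.restrictNormalHom N (u : Ω ≃ₐ[K] Ω) = 1 →
      AlgEquiv.restrictNormalHom N (u' : Ω ≃ₐ[K] Ω) = 1 → c (g * u, h * u') = c (g, h))
    (hval : ∀ x, ((c x : Ωˣ) : Ω) ∈ Set.range (algebraMap N Ω)) :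
    ∃ cbar : (N ≃ₐ[K] N) × (N ≃ₐ[K] N) → Nˣ, ∀ g h : V,
      algebraMap N Ω ((cbar (AlgEquiv.restrictNormalHom N (g : Ω ≃ₐ[K] Ω),
        AlgEquiv.restrictNormalHom N (h : Ω ≃ₐ[K] Ω)) : Nˣ) : N) = ((c (g, h) : Ωˣ) : Ω) := by
  classical
  let s : (N ≃ₐ[K] N) → V := fun γ =>
    if h : ∃ g : V, AlgEquiv.restrictNormalHom N (g : Ω ≃ₐ[K] Ω) = γ then h.choose else 1
  have hs : ∀ g : V, AlgEquiv.restrictNormalHom N ((s (AlgEquiv.restrictNormalHom N
      (g : Ω ≃ₐ[K] Ω)) : V) : Ω ≃ₐ[K] Ω) = AlgEquiv.restrictNormalHom N (g : Ω ≃ₐ[K] Ω) := by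
    intro g
    have h : ∃ g' : V, AlgEquiv.restrictNormalHom N (g' : Ω ≃ₐ[K] Ω)
        = AlgEquiv.restrictNormalHom N (g : Ω ≃ₐ[K] Ω) := ⟨g, rfl⟩
    show AlgEquiv.restrictNormalHom N ((dite _ _ _ : V) : Ω ≃ₐ[K] Ω) = _
    rw [dif_pos h]
    exact h.choose_spec
  choose n hn using hval
  have hn0 : ∀ x, n x ≠ 0 := fun x h0 => by
    have := hn x
    rw [h0, map_zero] at this
    exact (c x).ne_zero this.symm
  refine ⟨fun q => Units.mk0 (n (s q.1, s q.2)) (hn0 _), fun g h => ?_⟩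
  show algebraMap N Ω (n (s _, s _)) = _
  rw [hn]
  have hker : ∀ g : V, AlgEquiv.restrictNormalHom N
      ((g⁻¹ * s (AlgEquiv.restrictNormalHom N (g : Ω ≃ₐ[K] Ω)) : V) : Ω ≃ₐ[K] Ω) = 1 := by
    intro g
    rw [Subgroup.coe_mul, Subgroup.coe_inv, map_mul, map_inv, hs, inv_mul_cancel]
  have := hinv g h _ _ (hker g) (hker h)
  rw [mul_inv_cancel_left, mul_inv_cancel_left] at this
  rw [this]

/-- A descended cochain is a 2-cocycle on `ρ(V) ≤ Gal(N/K)` when `c` is a 2-cocycle on `V`. -/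
theorem isMulCocycle₂_of_descent {c : V × V → Ωˣ} (hc : IsMulCocycle₂ c)
    {cbar : (N ≃ₐ[K] N) × (N ≃ₐ[K] N) → Nˣ}
    (hcbar : ∀ g h : V, algebraMap N Ω ((cbar (AlgEquiv.restrictNormalHom N (g : Ω ≃ₐ[K] Ω),
      AlgEquiv.restrictNormalHom N (h : Ω ≃ₐ[K] Ω)) : Nˣ) : N) = ((c (g, h) : Ωˣ) : Ω)) :
    IsMulCocycle₂ (fun q : V.map (AlgEquiv.restrictNormalHom N) ×
      V.map (AlgEquiv.restrictNormalHom N) => cbar ((q.1 : N ≃ₐ[K] N), (q.2 : N ≃ₐ[K] N))) := by
  rintro ⟨_, g, hg, rfl⟩ ⟨_, h, hh, rfl⟩ ⟨_, j, hj, rfl⟩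
  apply Units.ext
  apply (algebraMap N Ω).injective
  have e := congrArg Units.val (hc ⟨g, hg⟩ ⟨h, hh⟩ ⟨j, hj⟩)
  have e1 := hcbar (⟨g, hg⟩ * ⟨h, hh⟩) ⟨j, hj⟩
  have e2 := hcbar ⟨g, hg⟩ ⟨h, hh⟩
  have e3 := hcbar ⟨h, hh⟩ ⟨j, hj⟩
  have e4 := hcbar ⟨g, hg⟩ (⟨h, hh⟩ * ⟨j, hj⟩)
  simp only [Subgroup.coe_mul, map_mul] at e1 e4
  show algebraMap N Ω ((cbar (AlgEquiv.restrictNormalHom N g * AlgEquiv.restrictNormalHom N h,
      AlgEquiv.restrictNormalHom N j) * cbar (AlgEquiv.restrictNormalHom N g,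
      AlgEquiv.restrictNormalHom N h) : Nˣ) : N)
    = algebraMap N Ω ((AlgEquiv.restrictNormalHom N g • cbar (AlgEquiv.restrictNormalHom N h,
      AlgEquiv.restrictNormalHom N j) * cbar (AlgEquiv.restrictNormalHom N g,
      AlgEquiv.restrictNormalHom N h * AlgEquiv.restrictNormalHom N j) : Nˣ) : N)
  rw [Units.val_mul, Units.val_mul, map_mul, map_mul, e1, e2, e4, algebraMap_smul_units, e3]
  exact e

/-- **Inflation of a primitive.** If a descended cochain is a coboundary on `ρ(V)`, then `c` is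
the coboundary of a 1-cochain on `V` with values in `N`, right-invariant under `ker ρ`. -/
theorem exists_primitive_of_descent {c : V × V → Ωˣ}
    {cbar : (N ≃ₐ[K] N) × (N ≃ₐ[K] N) → Nˣ}
    (hcbar : ∀ g h : V, algebraMap N Ω ((cbar (AlgEquiv.restrictNormalHom N (g : Ω ≃ₐ[K] Ω),
      AlgEquiv.restrictNormalHom N (h : Ω ≃ₐ[K] Ω)) : Nˣ) : N) = ((c (g, h) : Ωˣ) : Ω))
    (hb : IsMulCoboundary₂ (fun q : V.map (AlgEquiv.restrictNormalHom N) ×
      V.map (AlgEquiv.restrictNormalHom N) => cbar ((q.1 : N ≃ₐ[K] N), (q.2 : N ≃ₐ[K] N)))) :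
    ∃ h : V → Ωˣ, (∀ g, ((h g : Ωˣ) : Ω) ∈ Set.range (algebraMap N Ω)) ∧
      (∀ g u : V, AlgEquiv.restrictNormalHom N (u : Ω ≃ₐ[K] Ω) = 1 → h (g * u) = h g) ∧
      ∀ g k : V, g • h k / h (g * k) * h g = c (g, k) := by
  obtain ⟨x, hx⟩ := hb
  let r : V → V.map (AlgEquiv.restrictNormalHom N) := fun g =>
    ⟨AlgEquiv.restrictNormalHom N (g : Ω ≃ₐ[K] Ω), Subgroup.mem_map_of_mem _ g.2⟩
  have hr : ∀ g k : V, r (g * k) = r g * r k := fun g k => Subtype.ext (map_mul _ _ _)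
  refine ⟨fun g => Units.map (algebraMap N Ω : N →* Ω) (x (r g)), fun g => ?_, fun g u hu => ?_,
    fun g k => ?_⟩
  · exact ⟨((x (r g) : Nˣ) : N), rfl⟩
  · have : r (g * u) = r g := Subtype.ext (by
      show AlgEquiv.restrictNormalHom N ((g * u : V) : Ω ≃ₐ[K] Ω) = _
      rw [Subgroup.coe_mul, map_mul, hu, mul_one])
    show Units.map _ (x (r (g * u))) = Units.map _ (x (r g))
    rw [this]
  · have e := hx (r g) (r k)
    rw [← hr, div_mul_eq_mul_div, div_eq_iff_eq_mul] at e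
    have e' := congrArg (fun u : Nˣ => algebraMap N Ω (u : N)) e
    simp only [Units.val_mul, map_mul] at e'
    have e5 : algebraMap N Ω ((r g • x (r k) : Nˣ) : N)
        = (g : Ω ≃ₐ[K] Ω) (algebraMap N Ω ((x (r k) : Nˣ) : N)) :=
      algebraMap_smul_units (g : Ω ≃ₐ[K] Ω) (x (r k))
    rw [e5, hcbar g k] at e'
    rw [div_mul_eq_mul_div, div_eq_iff_eq_mul]
    apply Units.ext
    exact e'

/-- **Hasse devissage on the infinite-level carrier** (core form, `N` an abstract field). -/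
theorem exists_primitive_of_hasseCalculus [FiniteDimensional K N] {ι : Sort*} (p : ℕ)
    [Fact p.Prime] (T : ι → (H : Subgroup (N ≃ₐ[K] N)) → (H × H → Nˣ) → Prop)
    (hcalc : HasseCalculus p (V.map (AlgEquiv.restrictNormalHom N)) T)
    {c : V × V → Ωˣ} (hc : IsMulCocycle₂ c)
    (hinv : ∀ g h u u' : V, AlgEquiv.restrictNormalHom N (u : Ω ≃ₐ[K] Ω) = 1 →
      AlgEquiv.restrictNormalHom N (u' : Ω ≃ₐ[K] Ω) = 1 → c (g * u, h * u') = c (g, h))
    (hval : ∀ x, ((c x : Ωˣ) : Ω) ∈ Set.range (algebraMap N Ω))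
    (hpow : ∃ k : ℕ, ∀ x, c x ^ (p ^ k) = 1)
    (hT : ∀ cbar : (N ≃ₐ[K] N) × (N ≃ₐ[K] N) → Nˣ,
      (∀ g h : V, algebraMap N Ω ((cbar (AlgEquiv.restrictNormalHom N (g : Ω ≃ₐ[K] Ω),
        AlgEquiv.restrictNormalHom N (h : Ω ≃ₐ[K] Ω)) : Nˣ) : N) = ((c (g, h) : Ωˣ) : Ω)) →
      ∀ τ (H : Subgroup (N ≃ₐ[K] N)), H ≤ V.map (AlgEquiv.restrictNormalHom N) →
        T τ H (fun q : H × H => cbar ((q.1 : N ≃ₐ[K] N), (q.2 : N ≃ₐ[K] N)))) :
    ∃ h : V → Ωˣ, (∀ g, ((h g : Ωˣ) : Ω) ∈ Set.range (algebraMap N Ω)) ∧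
      (∀ g u : V, AlgEquiv.restrictNormalHom N (u : Ω ≃ₐ[K] Ω) = 1 → h (g * u) = h g) ∧
      ∀ g k : V, g • h k / h (g * k) * h g = c (g, k) := by
  obtain ⟨cbar, hcbar⟩ := exists_descent₂ c hinv hval
  have hcoc := isMulCocycle₂_of_descent hc hcbar
  have hk : ∃ k : ℕ, IsMulCoboundary₂ ((fun q : V.map (AlgEquiv.restrictNormalHom N) ×
      V.map (AlgEquiv.restrictNormalHom N) =>
        cbar ((q.1 : N ≃ₐ[K] N), (q.2 : N ≃ₐ[K] N))) ^ (p ^ k)) := by
    obtain ⟨k, hk⟩ := hpow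
    refine ⟨k, fun _ => 1, ?_⟩
    rintro ⟨_, g, hg, rfl⟩ ⟨_, h, hh, rfl⟩
    simp only [smul_one, div_one, mul_one, Pi.pow_apply]
    apply Units.ext
    apply (algebraMap N Ω).injective
    rw [Units.val_pow_eq_pow_val, map_pow, hcbar ⟨g, hg⟩ ⟨h, hh⟩, ← Units.val_pow_eq_pow_val, hk,
      Units.val_one, Units.val_one, map_one]
  have hb := galois_isMulCoboundary₂_on_of_locally_trivial p
    (V.map (AlgEquiv.restrictNormalHom N)) T hcalc.1 hcalc.2 hcoc (hT cbar hcbar) hk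
  exact exists_primitive_of_descent hcbar hb

end descentAbs

/-! ### The same for an intermediate field `N` of `Ω/K` (the shape of the frozen carriers:
`K = ℚ`, `Ω = ℚ̄`, `V = F.fixingSubgroup` with `F ≤ N`, `N` a finite Galois level) -/

section descentIF

variable {K Ω : Type*} [Field K] [Field Ω] [Algebra K Ω]
  {N : IntermediateField K Ω} [Normal K N] {V : Subgroup (Ω ≃ₐ[K] Ω)}

lemma restrictNormalHom_eq_one_iff (u : Ω ≃ₐ[K] Ω) :
    AlgEquiv.restrictNormalHom N u = 1 ↔ u ∈ N.fixingSubgroup := by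
  rw [← IntermediateField.restrictNormalHom_ker N, MonoidHom.mem_ker]

/-- `ρ g ∈ ρ(V)` iff `g ∈ V`, when `V` contains `Gal(Ω/N)`. -/
lemma restrictNormalHom_mem_map_iff (hNV : N.fixingSubgroup ≤ V) (g : Ω ≃ₐ[K] Ω) :
    AlgEquiv.restrictNormalHom N g ∈ V.map (AlgEquiv.restrictNormalHom N) ↔ g ∈ V := by
  constructor
  · rintro ⟨g', hg', h⟩
    have hu : g'⁻¹ * g ∈ N.fixingSubgroup := by
      rw [← restrictNormalHom_eq_one_iff, map_mul, map_inv, h, inv_mul_cancel]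
    have : g = g' * (g'⁻¹ * g) := by group
    rw [this]
    exact V.mul_mem hg' (hNV hu)
  · intro hg
    exact Subgroup.mem_map_of_mem _ hg

/-- The values of a 2-cocycle on `V` which is right-invariant under `Gal(Ω/N)` in both variables
are fixed by `Gal(Ω/N)`. -/
lemma smul_eq_of_rightInv (hNV : N.fixingSubgroup ≤ V) {c : V × V → Ωˣ} (hc : IsMulCocycle₂ c)
    (hinv : ∀ g h u u' : V, (u : Ω ≃ₐ[K] Ω) ∈ N.fixingSubgroup →
      (u' : Ω ≃ₐ[K] Ω) ∈ N.fixingSubgroup → c (g * u, h * u') = c (g, h))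
    (h j : V) {u : Ω ≃ₐ[K] Ω} (hu : u ∈ N.fixingSubgroup) : u • c (h, j) = c (h, j) := by
  have hnorm : N.fixingSubgroup.Normal := by
    rw [← IntermediateField.restrictNormalHom_ker N]
    exact MonoidHom.normal_ker _
  have h1 : ∀ j : V, c (1, j) = c (1, 1) := by
    intro j
    have := hc 1 1 j
    rw [one_mul, one_smul, one_mul] at this
    exact (mul_left_cancel this).symm
  let u' : V := ⟨u, hNV hu⟩
  have hu'1 : ∀ k : V, c (u', k) = c (1, k) := by
    intro k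
    have := hinv 1 k u' 1 hu (one_mem _)
    rwa [one_mul, mul_one] at this
  have hconj : ((h⁻¹ * u' * h : V) : Ω ≃ₐ[K] Ω) ∈ N.fixingSubgroup := by
    have := hnorm.conj_mem u hu (h : Ω ≃ₐ[K] Ω)⁻¹
    simpa [mul_assoc] using this
  have h2 : c (u' * h, j) = c (h, j) := by
    have e : u' * h = h * (h⁻¹ * u' * h) := by group
    have := hinv h j (h⁻¹ * u' * h) 1 hconj (one_mem _)
    rw [mul_one] at this
    rw [e, this]
  have h3 := hc u' h j
  rw [h2, hu'1, hu'1, h1 h, h1 (h * j)] at h3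
  exact (mul_right_cancel h3).symm

variable [IsGalois K Ω]

/-- The values of a 2-cocycle on `V` which is right-invariant under `Gal(Ω/N)` lie in `N`. -/
lemma val_mem_of_rightInv (hNV : N.fixingSubgroup ≤ V) {c : V × V → Ωˣ} (hc : IsMulCocycle₂ c)
    (hinv : ∀ g h u u' : V, (u : Ω ≃ₐ[K] Ω) ∈ N.fixingSubgroup →
      (u' : Ω ≃ₐ[K] Ω) ∈ N.fixingSubgroup → c (g * u, h * u') = c (g, h))
    (x : V × V) : ((c x : Ωˣ) : Ω) ∈ N := by
  have : ((c x : Ωˣ) : Ω) ∈ IntermediateField.fixedField N.fixingSubgroup := by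
    rw [IntermediateField.mem_fixedField_iff]
    intro u hu
    have := congrArg Units.val (smul_eq_of_rightInv hNV hc hinv x.1 x.2 hu)
    exact this
  rwa [InfiniteGalois.fixedField_fixingSubgroup] at this

/-- **Hasse devissage on the infinite-level carrier.** `Ω/K` Galois (possibly infinite), `N` a
finite Galois intermediate field, `V ≤ Gal(Ω/K)` a subgroup containing `Gal(Ω/N)`, `p` a prime.
Let `c : V × V → Ωˣ` be a 2-cocycle, right-invariant under `Gal(Ω/N)` in both variables and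
killed by a power of `p`. Let `T τ H cbar` be a notion of local triviality at the place `τ` for
cochains `cbar : H × H → Nˣ` of subgroups `H ≤ ρ(V) ≤ Gal(N/K)` which is a `HasseCalculus`
(stable under multiplication by coboundaries; Hasse principle on cyclic layers in norm form) and
holds for every finite-level descent of `c` on every subgroup. Then `c = d h` for a 1-cochain
`h : V → Ωˣ` with values in `N` which is right-invariant under `Gal(Ω/N)`. -/
theorem exists_primitive_of_locally_trivial [FiniteDimensional K N]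
    (hNV : N.fixingSubgroup ≤ V) {ι : Sort*} (p : ℕ) [Fact p.Prime]
    (T : ι → (H : Subgroup (N ≃ₐ[K] N)) → (H × H → (↥N)ˣ) → Prop)
    (hcalc : HasseCalculus p (V.map (AlgEquiv.restrictNormalHom N)) T)
    {c : V × V → Ωˣ} (hc : IsMulCocycle₂ c)
    (hinv : ∀ g h u u' : V, (u : Ω ≃ₐ[K] Ω) ∈ N.fixingSubgroup →
      (u' : Ω ≃ₐ[K] Ω) ∈ N.fixingSubgroup → c (g * u, h * u') = c (g, h))
    (hpow : ∃ k : ℕ, ∀ x, c x ^ (p ^ k) = 1)
    (hT : ∀ cbar : (N ≃ₐ[K] N) × (N ≃ₐ[K] N) → (↥N)ˣ,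
      (∀ g h : V, (((cbar (AlgEquiv.restrictNormalHom N (g : Ω ≃ₐ[K] Ω),
        AlgEquiv.restrictNormalHom N (h : Ω ≃ₐ[K] Ω)) : (↥N)ˣ) : N) : Ω)
          = ((c (g, h) : Ωˣ) : Ω)) →
      ∀ τ (H : Subgroup (N ≃ₐ[K] N)), H ≤ V.map (AlgEquiv.restrictNormalHom N) →
        T τ H (fun q : H × H => cbar ((q.1 : N ≃ₐ[K] N), (q.2 : N ≃ₐ[K] N)))) :
    ∃ h : V → Ωˣ, (∀ g, ((h g : Ωˣ) : Ω) ∈ N) ∧
      (∀ g u : V, (u : Ω ≃ₐ[K] Ω) ∈ N.fixingSubgroup → h (g * u) = h g) ∧
      ∀ g k : V, g • h k / h (g * k) * h g = c (g, k) := by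
  obtain ⟨h, h1, h2, h3⟩ := exists_primitive_of_hasseCalculus (N := ↥N) (V := V) p T hcalc hc
    (fun g h u u' hu hu' => hinv g h u u' ((restrictNormalHom_eq_one_iff _).1 hu)
      ((restrictNormalHom_eq_one_iff _).1 hu'))
    (fun x => ⟨⟨_, val_mem_of_rightInv hNV hc hinv x⟩, rfl⟩) hpow
    (fun cbar hcbar => hT cbar hcbar)
  refine ⟨h, fun g => ?_, fun g u hu => h2 g u ((restrictNormalHom_eq_one_iff _).2 hu), h3⟩
  obtain ⟨y, hy⟩ := h1 g
  rw [← hy]
  exact y.2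

end descentIF

/-! ### The frozen carrier: `K = ℚ`, `Ω = AlgebraicClosure ℚ`, `V = F.fixingSubgroup`

All instances in the statement are the ones Lean elaborates for `ℚ` (so `N ≃ₐ[ℚ] N` below is what
a consumer writes); for data typed with `IntermediateField.algebra'` use
`exists_primitive_of_locally_trivial` directly. -/

section frozen

theorem isGalois_algebraicClosure_rat : IsGalois ℚ (AlgebraicClosure ℚ) :=
  haveI : IsAlgClosure ℚ (AlgebraicClosure ℚ) := ⟨inferInstance, AlgebraicClosure.isAlgebraic ℚ⟩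
  inferInstance

/-- **Hasse devissage on the frozen carrier.** `F ≤ N` number fields inside `ℚ̄`, `N/ℚ` finite
Galois. A 2-cocycle `c` of `Gal(ℚ̄/F)` with values in `ℚ̄ˣ`, right-invariant under `Gal(ℚ̄/N)` and
killed by a power of `p`, whose finite-level descents to `Gal(N/ℚ)` are trivial at all places on
all subgroups `H ≤ Gal(N/F)` for a `HasseCalculus` `T`, is the coboundary of a 1-cochain
`h : Gal(ℚ̄/F) → ℚ̄ˣ` with values in `N`, right-invariant under `Gal(ℚ̄/N)`. -/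
theorem exists_primitive_of_locally_trivial_Qbar
    (F N : IntermediateField ℚ (AlgebraicClosure ℚ)) (hFN : F ≤ N)
    [hfin : FiniteDimensional ℚ N] [hnorm : Normal ℚ N] {ι : Sort*} (p : ℕ) [Fact p.Prime]
    (T : ι → (H : Subgroup (N ≃ₐ[ℚ] N)) → (H × H → (↥N)ˣ) → Prop)
    (hcalc : HasseCalculus p (F.fixingSubgroup.map (AlgEquiv.restrictNormalHom N)) T)
    {c : F.fixingSubgroup × F.fixingSubgroup → (AlgebraicClosure ℚ)ˣ} (hc : IsMulCocycle₂ c)
    (hinv : ∀ g h u u' : F.fixingSubgroup,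
      (u : AlgebraicClosure ℚ ≃ₐ[ℚ] AlgebraicClosure ℚ) ∈ N.fixingSubgroup →
      (u' : AlgebraicClosure ℚ ≃ₐ[ℚ] AlgebraicClosure ℚ) ∈ N.fixingSubgroup →
      c (g * u, h * u') = c (g, h))
    (hpow : ∃ k : ℕ, ∀ x, c x ^ (p ^ k) = 1)
    (hT : ∀ cbar : (N ≃ₐ[ℚ] N) × (N ≃ₐ[ℚ] N) → (↥N)ˣ,
      (∀ g h : F.fixingSubgroup, (((cbar (AlgEquiv.restrictNormalHom N
          (g : AlgebraicClosure ℚ ≃ₐ[ℚ] AlgebraicClosure ℚ), AlgEquiv.restrictNormalHom N
          (h : AlgebraicClosure ℚ ≃ₐ[ℚ] AlgebraicClosure ℚ)) : (↥N)ˣ) : N) : AlgebraicClosure ℚ)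
          = ((c (g, h) : (AlgebraicClosure ℚ)ˣ) : AlgebraicClosure ℚ)) →
      ∀ τ (H : Subgroup (N ≃ₐ[ℚ] N)),
        H ≤ F.fixingSubgroup.map (AlgEquiv.restrictNormalHom N) →
        T τ H (fun q : H × H => cbar ((q.1 : N ≃ₐ[ℚ] N), (q.2 : N ≃ₐ[ℚ] N)))) :
    ∃ h : F.fixingSubgroup → (AlgebraicClosure ℚ)ˣ,
      (∀ g, ((h g : (AlgebraicClosure ℚ)ˣ) : AlgebraicClosure ℚ) ∈ N) ∧
      (∀ g u : F.fixingSubgroup,
        (u : AlgebraicClosure ℚ ≃ₐ[ℚ] AlgebraicClosure ℚ) ∈ N.fixingSubgroup →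
        h (g * u) = h g) ∧
      ∀ g k : F.fixingSubgroup, g • h k / h (g * k) * h g = c (g, k) :=
  @exists_primitive_of_locally_trivial ℚ (AlgebraicClosure ℚ) _ _ _ N hnorm F.fixingSubgroup
    isGalois_algebraicClosure_rat hfin (IntermediateField.fixingSubgroup_antitone hFN) ι p _ T
    hcalc c hc hinv hpow hT

end frozen

end Fermat.Agent.S55.helper1242
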