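import Mathlib
import Fermat.Prelude.Def_GroupCohomology_ContinuousUnramified
import Fermat.Agent.Lib.helper54_LocalSplit2
import Fermat.Agent.S05.helper4205_Inertia
import Fermat.Agent.S55.helper6119_Kummer

/-!
# S55 / NF-GH-KER (backup copy, helper1919): the kernel bound, carrier-light form

`F ≤ ℚ̄` is a number field unramified outside `S`, containing a primitive `p`-th root of unity,
`p ∈ S`, `V = F.fixingSubgroup = Gal(ℚ̄/F)`.  Everything is a statement about a primitive
`h : V → ℚ̄ˣ` (an `Ω^×`-valued `S`-level 1-cochain whose coboundary is `μ_p`-valued).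

* `exists_alpha` (level Hilbert 90): there is `α` in an `S`-unramified number field with
  `h g ^ p = g α / α` for all `g ∈ V`.
* `exists_mu_primitive` (Kummer criterion): if `α / f` (`f ∈ Fˣ`) is, at every valuation subring
  `A` of `ℚ̄` over every `q ∉ S`, a unit times `q ^ (p k)`, then the coboundary of `h` is the
  coboundary of a `μ_p`-valued `S`-level 1-cochain `z`.
-/

set_option autoImplicit false

namespace Fermat.Agent.S55.helper1919

open IntermediateField
open Fermat.Agent.Lib.helper54 Fermat.Agent.S05.helper4205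

attribute [local instance] isAlgebraic_Qbar isAlgClosure_Qbar isGalois_Qbar isIntegral_Qbar

local notation "Qb" => AlgebraicClosure ℚ
local notation "GQ" => (AlgebraicClosure ℚ ≃ₐ[ℚ] AlgebraicClosure ℚ)

/-- The Galois action on units of `ℚ̄`. -/
noncomputable abbrev gal (g : GQ) : Qbˣ →* Qbˣ := Units.map (g : Qb →* Qb)

theorem gal_val (g : GQ) (x : Qbˣ) : ((gal g x : Qbˣ) : Qb) = g (x : Qb) := rfl

theorem gal_mul (g k : GQ) (x : Qbˣ) : gal (g * k) x = gal g (gal k x) := by
  ext; rfl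

theorem gal_one (x : Qbˣ) : gal 1 x = x := by
  ext; rfl

variable (S : Finset Nat.Primes)

/-- `x` lies in a number field unramified outside `S`. -/
def IsSUnr (x : Qb) : Prop :=
  ∃ L : IntermediateField ℚ Qb, L.IsUnramifiedOutside S ∧ x ∈ L

variable (F : IntermediateField ℚ Qb)

/-- `S`-level functions on `V = Gal(ℚ̄/F)`: right-invariant under the fixing subgroup of a number
field unramified outside `S`. -/
def IsSLevelOn {X : Type*} (h : F.fixingSubgroup → X) : Prop :=
  ∃ L : IntermediateField ℚ Qb, L.IsUnramifiedOutside S ∧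
    ∀ g s : F.fixingSubgroup, (s : GQ) ∈ L.fixingSubgroup → h (g * s) = h g

/-- `Ω^×`-valued `S`-level 1-cochains on `V`: `S`-level, with all values in the level field. -/
def IsOmLevel (h : F.fixingSubgroup → Qbˣ) : Prop :=
  ∃ L : IntermediateField ℚ Qb, L.IsUnramifiedOutside S ∧ (∀ g, ((h g : Qbˣ) : Qb) ∈ L) ∧
    ∀ g s : F.fixingSubgroup, (s : GQ) ∈ L.fixingSubgroup → h (g * s) = h g

variable {S F}

theorem IsOmLevel.isSLevelOn {h : F.fixingSubgroup → Qbˣ} (hh : IsOmLevel S F h) :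
    IsSLevelOn S F h := by
  obtain ⟨L, hL, -, hinv⟩ := hh
  exact ⟨L, hL, hinv⟩

/-- The level field of an `Ω^×`-valued `S`-level cochain may be taken to contain `F`. -/
theorem IsOmLevel.exists_ge (hF : F.IsUnramifiedOutside S) {h : F.fixingSubgroup → Qbˣ}
    (hh : IsOmLevel S F h) :
    ∃ L : IntermediateField ℚ Qb, L.IsUnramifiedOutside S ∧ F ≤ L ∧
      (∀ g, ((h g : Qbˣ) : Qb) ∈ L) ∧
      ∀ g s : F.fixingSubgroup, (s : GQ) ∈ L.fixingSubgroup → h (g * s) = h g := by
  obtain ⟨L, hL, hval, hinv⟩ := hh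
  refine ⟨L ⊔ F, hL.sup hF, le_sup_right, fun g => ?_, fun g s hs => ?_⟩
  · exact (le_sup_left : L ≤ L ⊔ F) (hval g)
  · exact hinv g s (IntermediateField.fixingSubgroup_antitone le_sup_left hs)

/-- Elements fixed by the fixing subgroup of a (finite) subextension lie in it. -/
theorem mem_of_fixed (L : IntermediateField ℚ Qb) (x : Qb)
    (hx : ∀ s ∈ L.fixingSubgroup, s x = x) : x ∈ L := by
  have h1 : x ∈ IntermediateField.fixedField L.fixingSubgroup := by
    rw [IntermediateField.mem_fixedField_iff]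
    exact hx
  rwa [InfiniteGalois.fixedField_fixingSubgroup] at h1

/-- **Level Hilbert 90 on `V`.**  If the coboundary of the `Ω^×`-valued `S`-level cochain `h` is
`μ_p`-valued, then `h ^ p` is the coboundary of an element `α` of an `S`-unramified field. -/
theorem exists_alpha {p : ℕ} (hF : F.IsUnramifiedOutside S) (h : F.fixingSubgroup → Qbˣ)
    (hlev : IsOmLevel S F h)
    (hμ : ∀ g k : F.fixingSubgroup, (h g * gal (g : GQ) (h k) / h (g * k)) ^ p = 1) :
    ∃ α : Qbˣ, IsSUnr S (α : Qb) ∧ ∀ g : F.fixingSubgroup, h g ^ p = gal (g : GQ) α / α := by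
  obtain ⟨L, hL, hFL, hval, hinv⟩ := hlev.exists_ge hF
  have hLfin : FiniteDimensional ℚ L := hL.1
  -- transport to `Gal(ℚ̄/F)`
  let e : F.fixingSubgroup ≃* (Qb ≃ₐ[F] Qb) := IntermediateField.fixingSubgroupEquiv F
  have he : ∀ (g : F.fixingSubgroup) (x : Qb), e g x = (g : GQ) x := fun g x => rfl
  let c : (Qb ≃ₐ[F] Qb) → Qbˣ := fun g' => h (e.symm g') ^ p
  have hcoc : ∀ g k : F.fixingSubgroup, h (g * k) ^ p = h g ^ p * gal (g : GQ) (h k ^ p) := by
    intro g k
    have h1 := hμ g k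
    rw [div_pow, div_eq_one, mul_pow] at h1
    rw [← h1, map_pow]
  have hc : ∀ g k, c (g * k) = c g * Units.map (g : Qb →* Qb) (c k) := by
    intro g k
    show h (e.symm (g * k)) ^ p = h (e.symm g) ^ p * Units.map (g : Qb →* Qb) (h (e.symm k) ^ p)
    rw [map_mul, hcoc]
    rfl
  let L' : IntermediateField F Qb := IntermediateField.extendScalars hFL
  have hL'fin : FiniteDimensional F L' := by
    have e1 : L ≃ₗ[ℚ] L' :=
      { toFun := fun x => ⟨x.1, x.2⟩
        invFun := fun x => ⟨x.1, x.2⟩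
        map_add' := fun _ _ => rfl
        map_smul' := fun _ _ => rfl
        left_inv := fun _ => rfl
        right_inv := fun _ => rfl }
    have : Module.Finite ℚ L' := Module.Finite.equiv e1
    exact Module.Finite.of_restrictScalars_finite ℚ F L'
  have hL' : ∀ g, ∀ u ∈ L'.fixingSubgroup, c (g * u) = c g := by
    intro g u hu
    show h (e.symm (g * u)) ^ p = h (e.symm g) ^ p
    rw [map_mul, hinv]
    rw [IntermediateField.mem_fixingSubgroup_iff]
    intro x hx
    rw [IntermediateField.mem_fixingSubgroup_iff] at hu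
    exact hu x hx
  obtain ⟨b, hb⟩ := Fermat.Agent.S55.helper6119.hilbert90_level c hc L' hL'
  have hb' : ∀ g : F.fixingSubgroup, h g ^ p = gal (g : GQ) b / b := by
    intro g
    have h1 := hb (e g)
    show h g ^ p = _
    have h2 : c (e g) = h g ^ p := by
      show h (e.symm (e g)) ^ p = h g ^ p
      rw [MulEquiv.symm_apply_apply]
    rw [← h2, h1]
    congr 1
  refine ⟨b, ⟨L, hL, ?_⟩, hb'⟩
  -- `b` is fixed by `L.fixingSubgroup`
  apply mem_of_fixed
  intro s hs
  have hsF : s ∈ F.fixingSubgroup := IntermediateField.fixingSubgroup_antitone hFL hs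
  have h1 := hb' ⟨s, hsF⟩
  have h2 : h ⟨s, hsF⟩ = h 1 := by
    have := hinv 1 ⟨s, hsF⟩ hs
    rwa [one_mul] at this
  have h3 : h (1 : F.fixingSubgroup) ^ p = 1 := by
    have := hb' 1
    rw [this]
    show gal 1 b / b = 1
    rw [gal_one, div_self']
  rw [h2, h3] at h1
  have h4 : gal s b = b := by
    rw [eq_comm, div_eq_one] at h1
    exact h1
  exact congrArg Units.val h4

/-- An automorphism fixing `β` fixes `ℚ(β)`. -/
theorem mem_fixingSubgroup_adjoin_simple (σ : GQ) (β : Qb) (hσ : σ β = β) :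
    σ ∈ (ℚ⟮β⟯ : IntermediateField ℚ Qb).fixingSubgroup := by
  have h1 : (ℚ⟮β⟯ : IntermediateField ℚ Qb) ≤ IntermediateField.fixedField (Subgroup.zpowers σ) := by
    rw [IntermediateField.adjoin_simple_le_iff, IntermediateField.mem_fixedField_iff]
    rintro τ ⟨n, rfl⟩
    have h2 : ∀ m : ℕ, (σ ^ m) β = β := by
      intro m
      induction m with
      | zero => rfl
      | succ m ih => rw [pow_succ, AlgEquiv.mul_apply, hσ, ih]
    have h3 : σ⁻¹ β = β := by
      have : σ⁻¹ (σ β) = β := σ.symm_apply_apply β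
      rwa [hσ] at this
    have h4 : ∀ m : ℕ, (σ⁻¹ ^ m) β = β := by
      intro m
      induction m with
      | zero => rfl
      | succ m ih => rw [pow_succ, AlgEquiv.mul_apply, h3, ih]
    rcases n with n | n
    · simpa using h2 n
    · show (σ ^ Int.negSucc n) β = β
      rw [zpow_negSucc, ← inv_pow]
      exact h4 (n + 1)
  rw [IntermediateField.mem_fixingSubgroup_iff]
  intro x hx
  have := h1 hx
  rw [IntermediateField.mem_fixedField_iff] at this
  exact this σ (Subgroup.mem_zpowers σ)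

/-- A `p`-th root of unity congruent to `1` modulo the maximal ideal of a valuation ring of
residue characteristic `q ≠ p` is `1`. -/
theorem eq_one_of_pow_eq_one_of_sub_one_mem {p q : ℕ} (hp : p.Prime) (hq : q.Prime) (hpq : q ≠ p)
    (A : ValuationSubring Qb) (hA : A.LiesOverPrime q) (w : Qb) (hw : w ^ p = 1)
    (hw1 : w - 1 ∈ A.nonunits) : w = 1 := by
  by_contra hne
  have hsum : ∑ j ∈ Finset.range p, w ^ j = 0 := by
    have h1 := mul_geom_sum w p
    rw [hw, sub_self] at h1
    rcases mul_eq_zero.1 h1 with h2 | h2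
    · exact absurd (sub_eq_zero.1 h2) hne
    · exact h2
  rw [ValuationSubring.mem_nonunits_iff] at hw1
  have hwv : A.valuation w ≤ 1 := by
    have : w = (w - 1) + 1 := by ring
    rw [this]
    refine (Valuation.map_add _ _ _).trans (max_le hw1.le ?_)
    rw [map_one]
  have hj : ∀ j : ℕ, A.valuation (1 - w ^ j) < 1 := by
    intro j
    induction j with
    | zero => simp
    | succ j ih =>
      have : 1 - w ^ (j + 1) = w ^ j * (1 - w) + (1 - w ^ j) := by ring
      rw [this]
      refine Valuation.map_add_lt _ ?_ ih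
      rw [map_mul, map_pow]
      have h1 : A.valuation (1 - w) < 1 := by
        rw [← Valuation.map_neg, neg_sub]; exact hw1
      calc A.valuation w ^ j * A.valuation (1 - w) ≤ 1 * A.valuation (1 - w) :=
            mul_le_mul_left (pow_le_one' hwv j) _
        _ = A.valuation (1 - w) := one_mul _
        _ < 1 := h1
  have hpv : A.valuation ((p : ℕ) : Qb) < 1 := by
    have h1 : ((p : ℕ) : Qb) = ∑ j ∈ Finset.range p, (1 - w ^ j) := by
      rw [Finset.sum_sub_distrib, hsum, sub_zero]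
      simp
    rw [h1]
    exact Valuation.map_sum_lt _ one_ne_zero (fun j _ => hj j)
  have hpv1 : A.valuation ((p : ℕ) : Qb) = 1 :=
    valuation_natCast_eq_one hq hA (fun hdvd => hpq ((Nat.prime_dvd_prime_iff_eq hq hp).1 hdvd))
  rw [hpv1] at hpv
  exact lt_irrefl _ hpv

/-- **Kummer criterion, local step.**  Let `A` be a valuation subring of `ℚ̄` of residue
characteristic `q ≠ p`, `σ` in its inertia group, `a` a `σ`-fixed element which is, at `A`, a unit
times `q ^ (p k)`.  Then `σ` fixes every `p`-th root of `a`. -/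
theorem inertia_fixes_root {p q : ℕ} (hp : p.Prime) (hq : q.Prime) (hpq : q ≠ p)
    (A : ValuationSubring Qb) (hA : A.LiesOverPrime q) (σ : GQ) (hσ : σ ∈ A.inertiaSubgroupIn ℚ)
    (a β : Qb) (hβ : β ^ p = a) (ha0 : a ≠ 0) (hσa : σ a = a)
    (k : ℤ) (hk : A.valuation (a / ((q : ℕ) : Qb) ^ ((p : ℤ) * k)) = 1) : σ β = β := by
  have hβ0 : β ≠ 0 := by
    rintro rfl
    rw [zero_pow hp.ne_zero] at hβ
    exact ha0 hβ.symm
  have hq0 : ((q : ℕ) : Qb) ≠ 0 := Nat.cast_ne_zero.mpr hq.ne_zero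
  set u : Qb := β / ((q : ℕ) : Qb) ^ k with hu
  have hup : u ^ p = a / ((q : ℕ) : Qb) ^ ((p : ℤ) * k) := by
    rw [hu, div_pow, hβ, ← zpow_natCast (((q : ℕ) : Qb) ^ k) p, ← zpow_mul, mul_comm]
  have huv : A.valuation u = 1 := by
    have h1 : A.valuation u ^ p = 1 := by rw [← map_pow, hup, hk]
    exact (pow_eq_one_iff.1 h1).resolve_right hp.ne_zero
  have hσu : σ u = σ β / ((q : ℕ) : Qb) ^ k := by
    rw [hu, map_div₀, map_zpow₀, map_natCast]
  have h1 := apply_div_sub_one_mem_nonunits_of_unit hσ huv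
  have h2 : σ u / u = σ β / β := by
    rw [hσu, hu]
    field_simp
  rw [h2] at h1
  have h3 : (σ β / β) ^ p = 1 := by
    rw [div_pow, ← map_pow, hβ, hσa, div_self ha0]
  have h4 := eq_one_of_pow_eq_one_of_sub_one_mem hp hq hpq A hA _ h3 h1
  exact (div_eq_one_iff_eq hβ0).1 h4

theorem commGroup_aux₁ {G : Type*} [CommGroup G] (x y f : G) :
    x / y * (y / f) / (x / f) = 1 := by
  apply Additive.ofMul.injective
  simp only [ofMul_mul, ofMul_div, ofMul_one]
  abel

theorem commGroup_aux₂ {G : Type*} [CommGroup G] (a b c d e x : G) :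
    a * x / d * (b * d / e) / (c * x / e) = a * b / c := by
  apply Additive.ofMul.injective
  simp only [ofMul_mul, ofMul_div]
  abel

/-- **Kummer criterion (global form).**  If `h ^ p = d α` and `α / f` (`f ∈ Fˣ`) is, at every
valuation subring `A` of `ℚ̄` over every `q ∉ S`, a unit times `q ^ (p k)`, then the coboundary of
`h` equals the coboundary of a `μ_p`-valued `S`-level 1-cochain `z` (with trivial action on
`μ_p ⊂ F`): the class of `d h` in `H²(G_{F,S}, μ_p)` is trivial. -/
theorem exists_mu_primitive {p : ℕ} [Fact p.Prime] (hpS : ExtCitation.pPrime p ∈ S)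
    (hF : F.IsUnramifiedOutside S) {ζ : Qb} (hζ : IsPrimitiveRoot ζ p) (hζF : ζ ∈ F)
    (h : F.fixingSubgroup → Qbˣ) (hlev : IsOmLevel S F h)
    (α : Qbˣ) (hα : IsSUnr S (α : Qb))
    (hαh : ∀ g : F.fixingSubgroup, h g ^ p = gal (g : GQ) α / α)
    (f : Qbˣ) (hf : (f : Qb) ∈ F)
    (hdiv : ∀ q : Nat.Primes, q ∉ S → ∀ A : ValuationSubring Qb, A.LiesOverPrime (q : ℕ) →
      ∃ k : ℤ, A.valuation ((α : Qb) / ((f : Qb) * ((q : ℕ) : Qb) ^ ((p : ℤ) * k))) = 1) :
    ∃ z : F.fixingSubgroup → Qbˣ, IsSLevelOn S F z ∧ (∀ g, z g ^ p = 1) ∧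
      ∀ g k : F.fixingSubgroup,
        h g * gal (g : GQ) (h k) / h (g * k) = z g * z k / z (g * k) := by
  have hp : p.Prime := Fact.out
  have : NeZero p := ⟨hp.ne_zero⟩
  obtain ⟨L₁, hL₁, hFL₁, hval, hinv⟩ := hlev.exists_ge hF
  obtain ⟨L₂, hL₂, hαL₂⟩ := hα
  set L : IntermediateField ℚ Qb := L₁ ⊔ L₂ with hLdef
  have hL : L.IsUnramifiedOutside S := hL₁.sup hL₂
  have hFL : F ≤ L := hFL₁.trans le_sup_left
  -- the element `a = α / f` and a `p`-th root `β`
  set a : Qbˣ := α / f with ha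
  obtain ⟨β₀, hβ₀⟩ := IsAlgClosed.exists_pow_nat_eq ((a : Qbˣ) : Qb) hp.pos
  have hβ₀0 : β₀ ≠ 0 := by
    rintro rfl
    rw [zero_pow hp.ne_zero] at hβ₀
    exact a.ne_zero hβ₀.symm
  let β : Qbˣ := Units.mk0 β₀ hβ₀0
  have hβp : β ^ p = a := Units.ext (by simpa [β] using hβ₀)
  have haL : ((a : Qbˣ) : Qb) ∈ L := by
    rw [ha, Units.val_div_eq_div_val]
    exact div_mem ((le_sup_right : L₂ ≤ L) hαL₂) (hFL hf)
  -- inertia outside `S` fixes `β₀`
  have hfix : ∀ q : Nat.Primes, q ∉ S → ∀ A : ValuationSubring Qb, A.LiesOverPrime (q : ℕ) →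
      ∀ σ ∈ A.inertiaSubgroupIn ℚ, σ β₀ = β₀ := by
    intro q hq A hA σ hσ
    have hσL : σ ∈ L.fixingSubgroup := hL.2 q hq A hA hσ
    have hσa : σ ((a : Qbˣ) : Qb) = a :=
      (IntermediateField.mem_fixingSubgroup_iff _ _).1 hσL _ haL
    obtain ⟨k, hk⟩ := hdiv q hq A hA
    have hqp : (q : ℕ) ≠ p := by
      intro hqp
      apply hq
      have : q = ExtCitation.pPrime p := Subtype.ext hqp
      rw [this]
      exact hpS
    refine inertia_fixes_root hp q.2 hqp A hA σ hσ _ β₀ hβ₀ a.ne_zero hσa k ?_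
    rw [ha, Units.val_div_eq_div_val, div_div]
    exact hk
  -- the level field of `z`
  set L₃ : IntermediateField ℚ Qb := L ⊔ ℚ⟮β₀⟯ with hL₃def
  have hL₃ : L₃.IsUnramifiedOutside S := by
    have := hL.1
    have hβint : IsIntegral ℚ β₀ := Algebra.IsIntegral.isIntegral β₀
    have : FiniteDimensional ℚ (ℚ⟮β₀⟯ : IntermediateField ℚ Qb) :=
      IntermediateField.adjoin.finiteDimensional hβint
    refine ⟨IntermediateField.finiteDimensional_sup L _, fun q hq A hA σ hσ => ?_⟩
    rw [IntermediateField.fixingSubgroup_sup]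
    exact ⟨hL.2 q hq A hA hσ, mem_fixingSubgroup_adjoin_simple σ β₀ (hfix q hq A hA σ hσ)⟩
  have hβL₃ : β₀ ∈ L₃ := (le_sup_right : (ℚ⟮β₀⟯ : IntermediateField ℚ Qb) ≤ L₃)
    (IntermediateField.mem_adjoin_simple_self ℚ β₀)
  have hgf : ∀ g : F.fixingSubgroup, gal (g : GQ) f = f := by
    intro g
    ext
    exact (IntermediateField.mem_fixingSubgroup_iff _ _).1 g.2 _ hf
  -- the `μ_p`-valued cochain
  let z : F.fixingSubgroup → Qbˣ := fun g => h g * β / gal (g : GQ) β
  have hzp : ∀ g, z g ^ p = 1 := by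
    intro g
    show (h g * β / gal (g : GQ) β) ^ p = 1
    rw [div_pow, mul_pow, hαh g, ← map_pow, hβp, ha, map_div, hgf g]
    exact commGroup_aux₁ _ _ _
  have hzfix : ∀ g k : F.fixingSubgroup, gal (g : GQ) (z k) = z k := by
    intro g k
    obtain ⟨i, -, hi⟩ := hζ.eq_pow_of_pow_eq_one (ξ := ((z k : Qbˣ) : Qb))
      (by rw [← Units.val_pow_eq_pow_val, hzp k]; rfl)
    ext
    show (g : GQ) ((z k : Qbˣ) : Qb) = z k
    rw [← hi, map_pow]
    congr 1
    exact (IntermediateField.mem_fixingSubgroup_iff _ _).1 g.2 _ hζF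
  refine ⟨z, ⟨L₃, hL₃, fun g s hs => ?_⟩, hzp, fun g k => ?_⟩
  · show h (g * s) * β / gal ((g * s : F.fixingSubgroup) : GQ) β = h g * β / gal (g : GQ) β
    have hs₁ : (s : GQ) ∈ L₁.fixingSubgroup :=
      IntermediateField.fixingSubgroup_antitone
        ((le_sup_left : L₁ ≤ L).trans (le_sup_left : L ≤ L₃)) hs
    have hsβ : gal (s : GQ) β = β := by
      ext
      exact (IntermediateField.mem_fixingSubgroup_iff _ _).1 hs _ hβL₃
    rw [hinv g s hs₁]
    have : gal ((g * s : F.fixingSubgroup) : GQ) β = gal (g : GQ) (gal (s : GQ) β) := gal_mul _ _ _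
    rw [this, hsβ]
  · rw [← hzfix g k]
    show h g * gal (g : GQ) (h k) / h (g * k) =
      h g * β / gal (g : GQ) β * gal (g : GQ) (h k * β / gal (k : GQ) β) /
        (h (g * k) * β / gal ((g * k : F.fixingSubgroup) : GQ) β)
    have : gal ((g * k : F.fixingSubgroup) : GQ) β = gal (g : GQ) (gal (k : GQ) β) := gal_mul _ _ _
    rw [this, map_div, map_mul]
    exact (commGroup_aux₂ _ _ _ _ _ _).symm

end Fermat.Agent.S55.helper1919
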