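import Mathlib
import Fermat.Prelude.Def_GroupCohomology_ContinuousUnramified

/-!
# S55 GLOBAL BRIDGE (GB-SPEC, helper3071)

The contract between the number-field core (statements about one field `F`) and the soft layer
(statements about `G_ℚ`-modules `coind_F 𝔽_p` on the frozen carriers).

* Part 1: the frozen `S`-level carriers made relative to a homomorphism `r : Γ →* G_ℚ`
  (`IsLevS₁`, `IsLevS₂`, `relH1S`, `relH2S`); for `r = MonoidHom.id` they are the frozen
  `continuousH1S`, `continuousH2S` (by `rfl`).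
* Part 2: restriction `relH2S S r A → continuousH2 ρ B` along a compatible group hom.
* Part 3: the field level: `fieldH1 S p F`, `fieldH2 S p F` (cohomology of `F.fixingSubgroup`
  with trivial `ZMod p` coefficients, `S`-level cochains), the local groups `placeGroup F q g`
  at the place `g • v_q` of `F`, the restrictions `fieldRes₂`, `fieldSha2`, and the number of
  places `nPl S F` (ideal count, the shape of `helper4727.sum_card_doubleCoset`).
* Part 4: the induced module `indRep p F = coind_{G_F}^{G_ℚ} 𝔽_p`, the closed Props of the layer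
  and the proved transports to the frozen carriers.
-/

set_option autoImplicit false

open CategoryTheory groupCohomology ExtCitation

noncomputable section

namespace Fermat.Agent.S55.helper3071

/-- The frozen absolute Galois group of `ℚ`. -/
abbrev GQ : Type := AlgebraicClosure ℚ ≃ₐ[ℚ] AlgebraicClosure ℚ

/-! ## Part 1: relative `S`-level carriers -/

section RelLevel

variable (S : Finset Nat.Primes) {Γ : Type} [Group Γ] (r : Γ →* GQ)

/-- `f : Γ → X` is right-invariant under `r ⁻¹' Gal(ℚ̄/L)` for some `L` unramified outside `S`.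
For `r = MonoidHom.id` this is the frozen `IsLevelConstantS₁ S f`. -/
def IsLevS₁ {X : Type*} (f : Γ → X) : Prop :=
  ∃ L : IntermediateField ℚ (AlgebraicClosure ℚ), L.IsUnramifiedOutside S ∧
    ∀ g s : Γ, r s ∈ L.fixingSubgroup → f (g * s) = f g

/-- Two-variable version; for `r = MonoidHom.id` this is the frozen `IsLevelConstantS₂ S f`. -/
def IsLevS₂ {X : Type*} (f : Γ × Γ → X) : Prop :=
  ∃ L : IntermediateField ℚ (AlgebraicClosure ℚ), L.IsUnramifiedOutside S ∧
    ∀ g g' s s' : Γ, r s ∈ L.fixingSubgroup → r s' ∈ L.fixingSubgroup →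
      f (g * s, g' * s') = f (g, g')

lemma isLevS₁_id_iff {X : Type*} (f : GQ → X) :
    IsLevS₁ S (MonoidHom.id GQ) f ↔ IsLevelConstantS₁ S f := Iff.rfl

lemma isLevS₂_id_iff {X : Type*} (f : GQ × GQ → X) :
    IsLevS₂ S (MonoidHom.id GQ) f ↔ IsLevelConstantS₂ S f := Iff.rfl

variable {S r}

lemma IsLevS₁.isLevelConstant₁ {X : Type*} {f : Γ → X} (hf : IsLevS₁ S r f) :
    IsLevelConstant₁ r f := by
  obtain ⟨L, hL, h⟩ := hf
  exact ⟨L, hL.1, h⟩

lemma IsLevS₂.isLevelConstant₂ {X : Type*} {f : Γ × Γ → X} (hf : IsLevS₂ S r f) :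
    IsLevelConstant₂ r f := by
  obtain ⟨L, hL, h⟩ := hf
  exact ⟨L, hL.1, h⟩

lemma IsLevS₁.add {X : Type*} [Add X] {f f' : Γ → X} (hf : IsLevS₁ S r f)
    (hf' : IsLevS₁ S r f') : IsLevS₁ S r (f + f') := by
  obtain ⟨L, hL, h⟩ := hf
  obtain ⟨L', hL', h'⟩ := hf'
  refine ⟨L ⊔ L', hL.sup hL', fun g s hs => ?_⟩
  simp only [Pi.add_apply]
  rw [h g s (IntermediateField.fixingSubgroup_antitone le_sup_left hs),
    h' g s (IntermediateField.fixingSubgroup_antitone le_sup_right hs)]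

lemma IsLevS₂.add {X : Type*} [Add X] {f f' : Γ × Γ → X} (hf : IsLevS₂ S r f)
    (hf' : IsLevS₂ S r f') : IsLevS₂ S r (f + f') := by
  obtain ⟨L, hL, h⟩ := hf
  obtain ⟨L', hL', h'⟩ := hf'
  refine ⟨L ⊔ L', hL.sup hL', fun g g' s s' hs hs' => ?_⟩
  simp only [Pi.add_apply]
  rw [h g g' s s' (IntermediateField.fixingSubgroup_antitone le_sup_left hs)
      (IntermediateField.fixingSubgroup_antitone le_sup_left hs'),
    h' g g' s s' (IntermediateField.fixingSubgroup_antitone le_sup_right hs)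
      (IntermediateField.fixingSubgroup_antitone le_sup_right hs')]

variable (S r) in
lemma isLevS₁_const {X : Type*} (x : X) : IsLevS₁ S r (fun _ : Γ => x) :=
  ⟨⊥, IntermediateField.isUnramifiedOutside_bot S, fun _ _ _ => rfl⟩

variable (S r) in
lemma isLevS₂_const {X : Type*} (x : X) : IsLevS₂ S r (fun _ : Γ × Γ => x) :=
  ⟨⊥, IntermediateField.isUnramifiedOutside_bot S, fun _ _ _ _ _ _ => rfl⟩

lemma IsLevS₁.comp {X Y : Type*} {f : Γ → X} (hf : IsLevS₁ S r f) (φ : X → Y) :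
    IsLevS₁ S r (φ ∘ f) := by
  obtain ⟨L, hL, h⟩ := hf
  exact ⟨L, hL, fun g s hs => by simp only [Function.comp_apply, h g s hs]⟩

lemma IsLevS₂.comp {X Y : Type*} {f : Γ × Γ → X} (hf : IsLevS₂ S r f) (φ : X → Y) :
    IsLevS₂ S r (φ ∘ f) := by
  obtain ⟨L, hL, h⟩ := hf
  exact ⟨L, hL, fun g g' s s' hs hs' => by simp only [Function.comp_apply, h g g' s s' hs hs']⟩

lemma IsLevS₁.mono {S' : Finset Nat.Primes} (hS : S ⊆ S') {X : Type*} {f : Γ → X}
    (hf : IsLevS₁ S r f) : IsLevS₁ S' r f := by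
  obtain ⟨L, hL, h⟩ := hf
  exact ⟨L, hL.mono hS, h⟩

lemma IsLevS₂.mono {S' : Finset Nat.Primes} (hS : S ⊆ S') {X : Type*} {f : Γ × Γ → X}
    (hf : IsLevS₂ S r f) : IsLevS₂ S' r f := by
  obtain ⟨L, hL, h⟩ := hf
  exact ⟨L, hL.mono hS, h⟩

/-- Pull-back of a relative `S`-level function along a compatible group hom. -/
lemma IsLevS₁.precomp {Δ : Type} [Group Δ] {ρ : Δ →* GQ} (f : Δ →* Γ)
    (hf : ∀ d, r (f d) = ρ d) {X : Type*} {x : Γ → X} (hx : IsLevS₁ S r x) :
    IsLevS₁ S ρ (x ∘ f) := by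
  obtain ⟨L, hL, h⟩ := hx
  refine ⟨L, hL, fun g s hs => ?_⟩
  simp only [Function.comp_apply, map_mul]
  exact h (f g) (f s) (by rwa [hf])

lemma IsLevS₂.precomp {Δ : Type} [Group Δ] {ρ : Δ →* GQ} (f : Δ →* Γ)
    (hf : ∀ d, r (f d) = ρ d) {X : Type*} {x : Γ × Γ → X} (hx : IsLevS₂ S r x) :
    IsLevS₂ S ρ (x ∘ Prod.map f f) := by
  obtain ⟨L, hL, h⟩ := hx
  refine ⟨L, hL, fun g g' s s' hs hs' => ?_⟩
  simp only [Function.comp_apply, Prod.map_apply, map_mul]
  exact h (f g) (f g') (f s) (f s') (by rwa [hf]) (by rwa [hf])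

variable (S r) {k : Type} [CommRing k] (M : Rep k Γ)

/-- Relative `S`-level 1-cochains. -/
def levS₁ : Submodule k (Γ → M) where
  carrier := {f | IsLevS₁ S r f}
  add_mem' hf hf' := hf.add hf'
  zero_mem' := isLevS₁_const S r (0 : M)
  smul_mem' c _ hf := hf.comp (c • ·)

/-- Relative `S`-level 2-cochains. -/
def levS₂ : Submodule k (Γ × Γ → M) where
  carrier := {f | IsLevS₂ S r f}
  add_mem' hf hf' := hf.add hf'
  zero_mem' := isLevS₂_const S r (0 : M)
  smul_mem' c _ hf := hf.comp (c • ·)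

lemma mem_levS₁_iff (f : Γ → M) : f ∈ levS₁ S r M ↔ IsLevS₁ S r f := Iff.rfl

lemma mem_levS₂_iff (f : Γ × Γ → M) : f ∈ levS₂ S r M ↔ IsLevS₂ S r f := Iff.rfl

/-- Relative `S`-level 1-cocycles (as a submodule of `cocycles₁ M`, frozen shape). -/
def relZ1S : Submodule k (cocycles₁ M) :=
  (levS₁ S r M).comap (cocycles₁ M).subtype

/-- Relative `S`-level `H¹` (a submodule of `H1 M`, frozen shape of `continuousH1S`). -/
def relH1S : Submodule k (H1 M) :=
  (relZ1S S r M).map (H1π M).hom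

lemma mem_relH1S_iff (x : H1 M) :
    x ∈ relH1S S r M ↔ ∃ c : cocycles₁ M, IsLevS₁ S r c ∧ (H1π M).hom c = x := by
  simp only [relH1S, Submodule.mem_map, relZ1S, Submodule.mem_comap]; rfl

/-- Relative `S`-level 2-cocycles. -/
def relZ2S : Submodule k (Γ × Γ → M) :=
  cocycles₂ M ⊓ levS₂ S r M

/-- Relative `S`-level 2-coboundaries. -/
def relB2S : Submodule k (Γ × Γ → M) :=
  (levS₁ S r M).map (d₁₂ M).hom

lemma mem_relZ2S_iff (f : Γ × Γ → M) :
    f ∈ relZ2S S r M ↔ f ∈ cocycles₂ M ∧ IsLevS₂ S r f := Iff.rfl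

lemma mem_relB2S_iff (f : Γ × Γ → M) :
    f ∈ relB2S S r M ↔ ∃ x : Γ → M, IsLevS₁ S r x ∧ (d₁₂ M).hom x = f := by
  simp only [relB2S, Submodule.mem_map, mem_levS₁_iff]

/-- Relative `S`-level `H²` (frozen shape of `continuousH2S`). -/
abbrev relH2S : Type :=
  ↥(relZ2S S r M) ⧸ (relB2S S r M).comap (relZ2S S r M).subtype

/-- The class map. -/
abbrev relH2Sπ : ↥(relZ2S S r M) →ₗ[k] relH2S S r M :=
  Submodule.mkQ _

lemma relH2Sπ_eq_zero_iff (f : ↥(relZ2S S r M)) :
    relH2Sπ S r M f = 0 ↔ (f : Γ × Γ → M) ∈ relB2S S r M := by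
  simp [Submodule.Quotient.mk_eq_zero, Submodule.mem_comap]

lemma relH2Sπ_surjective : Function.Surjective (relH2Sπ S r M) :=
  Submodule.mkQ_surjective _

end RelLevel

/-! ### The absolute case is the frozen carrier -/

section Absolute

variable (S : Finset Nat.Primes) {k : Type} [CommRing k] (M : Rep k GQ)

lemma levS₁_id : levS₁ S (MonoidHom.id GQ) M = levelCochainsS₁ S M := rfl

lemma levS₂_id : levS₂ S (MonoidHom.id GQ) M = levelCochainsS₂ S M := rfl

lemma relH1S_id : relH1S S (MonoidHom.id GQ) M = continuousH1S S M := rfl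

lemma relZ2S_id : relZ2S S (MonoidHom.id GQ) M = levelCocyclesS₂ S M := rfl

lemma relB2S_id : relB2S S (MonoidHom.id GQ) M = levelCoboundariesS₂ S M := rfl

lemma relH2S_id : relH2S S (MonoidHom.id GQ) M = continuousH2S S M := rfl

end Absolute

/-! ## Part 2: restriction from relative `S`-level `H²` to a frozen local `H²` -/

section Restriction

variable (S : Finset Nat.Primes) {k : Type} [CommRing k] {Γ Δ : Type} [Group Γ] [Group Δ]
  {r : Γ →* GQ} {ρ : Δ →* GQ} (f : Δ →* Γ) (hf : ∀ d, r (f d) = ρ d)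
  {A : Rep k Γ} {B : Rep k Δ} (φ : A →ₗ[k] B)
  (hφ : ∀ (d : Δ) (a : A), φ (A.ρ (f d) a) = B.ρ d (φ a))

include hf hφ in
lemma cochainsPullPush₂_mem_levelCocycles₂_of_relZ2S {x : Γ × Γ → A} (hx : x ∈ relZ2S S r A) :
    cochainsPullPush₂ f φ x ∈ levelCocycles₂ ρ B :=
  ⟨cochainsPullPush₂_mem_cocycles₂ f φ hφ hx.1,
    ((IsLevelConstant₂.precomp f hf hx.2.isLevelConstant₂).comp φ :)⟩

include hf hφ in
lemma cochainsPullPush₂_mem_levelCoboundaries₂_of_relB2S {x : Γ × Γ → A}
    (hx : x ∈ relB2S S r A) : cochainsPullPush₂ f φ x ∈ levelCoboundaries₂ ρ B := by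
  obtain ⟨y, hy, rfl⟩ := (mem_relB2S_iff S r A x).1 hx
  exact (mem_levelCoboundaries₂_iff ρ B _).2
    ⟨cochainsPullPush₁ f φ y, (IsLevelConstant₁.precomp f hf hy.isLevelConstant₁).comp φ,
      (cochainsPullPush₂_d₁₂ f φ hφ y).symm⟩

/-- Cocycle-level restriction (pull back along `f`, push forward along `φ`). -/
def relZ2SRes : ↥(relZ2S S r A) →ₗ[k] ↥(levelCocycles₂ ρ B) :=
  (cochainsPullPush₂ f φ).restrict fun _ hx =>
    cochainsPullPush₂_mem_levelCocycles₂_of_relZ2S S f hf φ hφ hx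

@[simp] lemma coe_relZ2SRes (x : ↥(relZ2S S r A)) :
    (relZ2SRes S f hf φ hφ x : Δ × Δ → B) = cochainsPullPush₂ f φ x := rfl

/-- Restriction `relH2S S r A → continuousH2 ρ B` along `f : Δ →* Γ` with `r ∘ f = ρ` and a
`f`-equivariant `φ : A → B`.  For `r = id` and `φ = id` this is the frozen `locRes₂S`. -/
def relH2SRes : relH2S S r A →ₗ[k] continuousH2 ρ B :=
  Submodule.mapQ _ _ (relZ2SRes S f hf φ hφ) fun _ hx =>
    cochainsPullPush₂_mem_levelCoboundaries₂_of_relB2S S f hf φ hφ hx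

@[simp] lemma relH2SRes_mk (x : ↥(relZ2S S r A)) :
    relH2SRes S f hf φ hφ (relH2Sπ S r A x) = continuousH2π ρ B (relZ2SRes S f hf φ hφ x) :=
  rfl

end Restriction

/-- The frozen `locRes₂S` is `relH2SRes` for `r = id`, `φ = id`. -/
lemma locRes₂S_eq_relH2SRes (S : Finset Nat.Primes) {k : Type} [CommRing k] (M : Rep k GQ)
    {H : Type} [Group H] (f : H →* GQ) :
    locRes₂S S M f =
      relH2SRes S (r := MonoidHom.id GQ) (ρ := f) f (fun _ => rfl)
        (LinearMap.id : M →ₗ[k] Rep.res f M) (fun _ _ => rfl) := by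
  apply LinearMap.ext
  intro x
  obtain ⟨c, rfl⟩ := Submodule.mkQ_surjective _ x
  rfl

/-! ## Part 3: the field level -/

section Field

variable (S : Finset Nat.Primes) (p : ℕ) (F : IntermediateField ℚ (AlgebraicClosure ℚ))

/-- The trivial `ZMod p`-representation of `Gal(ℚ̄/F)`. -/
abbrev trivF : Rep (ZMod p) ↥F.fixingSubgroup :=
  Rep.trivial (ZMod p) ↥F.fixingSubgroup (ZMod p)

/-- `H¹(G_{F,S}, 𝔽_p)`: classes of `S`-level 1-cocycles of `Gal(ℚ̄/F)` with trivial coefficients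
(equivalently: `S`-level additive characters, see `fieldH1_equiv_chars`). -/
def fieldH1 : Submodule (ZMod p) (H1 (trivF p F)) :=
  relH1S S F.fixingSubgroup.subtype (trivF p F)

/-- `H²(G_{F,S}, 𝔽_p)` as `S`-level cocycles modulo `S`-level coboundaries on `Gal(ℚ̄/F)`. -/
abbrev fieldH2 : Type :=
  relH2S S F.fixingSubgroup.subtype (trivF p F)

/-- The decomposition group (inside the local Galois group at `q`) of the place `g • v_q` of
`F`: `{σ | g * loc σ * g⁻¹ ∈ Gal(ℚ̄/F)}`. -/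
def placeGroup (q : Nat.Primes) (g : GQ) : Subgroup (primeLocalGaloisGroup q) :=
  F.fixingSubgroup.comap ((MulAut.conj g).toMonoidHom.comp (primeLocalToGlobal q))

lemma mem_placeGroup_iff (q : Nat.Primes) (g : GQ) (σ : primeLocalGaloisGroup q) :
    σ ∈ placeGroup F q g ↔ g * primeLocalToGlobal q σ * g⁻¹ ∈ F.fixingSubgroup := Iff.rfl

/-- The map `σ ↦ g * loc σ * g⁻¹` from the decomposition group to `Gal(ℚ̄/F)`. -/
def placeHom (q : Nat.Primes) (g : GQ) : ↥(placeGroup F q g) →* ↥F.fixingSubgroup :=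
  (((MulAut.conj g).toMonoidHom.comp (primeLocalToGlobal q)).comp
    (placeGroup F q g).subtype).codRestrict F.fixingSubgroup fun σ => σ.2

@[simp] lemma coe_placeHom (q : Nat.Primes) (g : GQ) (σ : ↥(placeGroup F q g)) :
    ((placeHom F q g σ : ↥F.fixingSubgroup) : GQ) =
      g * primeLocalToGlobal q (σ : primeLocalGaloisGroup q) * g⁻¹ := rfl

/-- The structure map of the decomposition group to `G_ℚ` (the level structure of the local
cohomology `continuousH1/continuousH2 (placeLoc F q g)`). -/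
def placeLoc (q : Nat.Primes) (g : GQ) : ↥(placeGroup F q g) →* GQ :=
  F.fixingSubgroup.subtype.comp (placeHom F q g)

@[simp] lemma placeLoc_apply (q : Nat.Primes) (g : GQ) (σ : ↥(placeGroup F q g)) :
    placeLoc F q g σ = g * primeLocalToGlobal q (σ : primeLocalGaloisGroup q) * g⁻¹ := rfl

/-- The trivial `ZMod p`-representation of the decomposition group. -/
abbrev trivPl (q : Nat.Primes) (g : GQ) : Rep (ZMod p) ↥(placeGroup F q g) :=
  Rep.trivial (ZMod p) ↥(placeGroup F q g) (ZMod p)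

/-- Restriction `H²(G_{F,S}, 𝔽_p) → H²(F_w, 𝔽_p)` at the place `w = g • v_q` (the target is the
frozen local carrier `continuousH2 (placeLoc F q g)`). -/
def fieldRes₂ (q : Nat.Primes) (g : GQ) :
    fieldH2 S p F →ₗ[ZMod p] continuousH2 (placeLoc F q g) (trivPl p F q g) :=
  relH2SRes S (r := F.fixingSubgroup.subtype) (ρ := placeLoc F q g) (placeHom F q g)
    (fun _ => rfl) (LinearMap.id : ZMod p →ₗ[ZMod p] ZMod p) (fun _ _ => rfl)

/-- `Ш²_S(F, 𝔽_p)`: the classes that vanish at every place `g • v_q`, `q ∈ S`, `g ∈ G_ℚ`. -/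
def fieldSha2 : Submodule (ZMod p) (fieldH2 S p F) :=
  ⨅ q : ↥S, ⨅ g : GQ, LinearMap.ker (fieldRes₂ S p F (q : Nat.Primes) g)

lemma mem_fieldSha2_iff (x : fieldH2 S p F) :
    x ∈ fieldSha2 S p F ↔ ∀ q ∈ S, ∀ g : GQ, fieldRes₂ S p F q g x = 0 := by
  simp [fieldSha2, Submodule.mem_iInf]

open NumberField IsDedekindDomain in
/-- The number of primes of `𝓞 F` above `S` (the shape of
`helper4727.sum_card_doubleCoset` / `card_primesOver_finset`). -/
def nPl : ℕ :=
  Nat.card {v : HeightOneSpectrum (𝓞 F) // ∃ q ∈ S, (((q : Nat.Primes) : ℕ) : 𝓞 F) ∈ v.asIdeal}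

/-- `coind_{G_F}^{G_ℚ} 𝔽_p` (Mathlib `Rep.coind`: functions `f : G_ℚ → 𝔽_p` with
`f (h * g) = f g` for `h ∈ G_F`, acted on by right translation). -/
abbrev indRep : Rep (ZMod p) GQ :=
  Rep.coind F.fixingSubgroup.subtype (trivF p F)

end Field

/-! ## Part 4: the closed Props of the layer

All Props are per-field (`S`, `p`, `F` explicit), `c`-free (no class-group quantity is shared
between leaves) and division-free (`[F:ℚ] = 2 r₂` enters doubled).  Notation of the squeeze:
`h¹ = finrank fieldH1`, `h² = finrank fieldH2`, `a₂ = finrank fieldSha2`, `s = nPl S F`. -/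

section Props

variable (S : Finset Nat.Primes) (p : ℕ) (F : IntermediateField ℚ (AlgebraicClosure ℚ))

/-- `F` contains a primitive `p`-th root of unity. -/
def HasZeta : Prop :=
  ∃ ζ : AlgebraicClosure ℚ, ζ ∈ F ∧ IsPrimitiveRoot ζ p

/-- The standing hypotheses on a field of the number-field core: an `S`-field containing `μ_p`,
`p` an odd prime in `S`. -/
structure IsSFieldZeta : Prop where
  prime : p.Prime
  odd : p ≠ 2
  mem : ∃ q ∈ S, ((q : Nat.Primes) : ℕ) = p
  unram : F.IsUnramifiedOutside S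
  zeta : HasZeta p F

/-- Finiteness of the field-level cohomology. -/
def FieldFin : Prop :=
  Module.Finite (ZMod p) (fieldH1 S p F) ∧ Module.Finite (ZMod p) (fieldH2 S p F)

/-- `a₂ + r₂ + s ≤ h¹` (doubled): the lower Kummer count `h¹ ≥ r₂ + s + ρ` together with the
Hasse principle `a₂ ≤ ρ`, `ρ = rk_p Cl_S(F)`. -/
def FieldLower : Prop :=
  2 * (Module.finrank (ZMod p) (fieldSha2 S p F) + nPl S F) + Module.finrank ℚ F ≤
    2 * Module.finrank (ZMod p) (fieldH1 S p F)

/-- `h¹ ≤ r₂ + s + h²` (doubled): the upper Kummer count `h¹ ≤ r₂ + s + ρ` together with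
`ρ ≤ h²` (`Cl_S(F)/p ↪ H²(G_{F,S}, μ_p)`). -/
def FieldUpper : Prop :=
  2 * Module.finrank (ZMod p) (fieldH1 S p F) ≤
    Module.finrank ℚ F + 2 * (nPl S F + Module.finrank (ZMod p) (fieldH2 S p F))

/-- `(G-E)`: the localisation `H²(G_{F,S}, 𝔽_p) → ⊕_{w | S} H²(F_w, 𝔽_p)` has rank `≥ s - 1`. -/
def FieldGE : Prop :=
  nPl S F ≤ Module.finrank (ZMod p) (fieldH2 S p F ⧸ fieldSha2 S p F) + 1

/-- `K'/K` is Galois of degree `n`: `K ≤ K'`, `Gal(ℚ̄/K')` is normal in `Gal(ℚ̄/K)` and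
`[K':ℚ] = n [K:ℚ]`. -/
def IsGaloisOfDegree (K K' : IntermediateField ℚ (AlgebraicClosure ℚ)) (n : ℕ) : Prop :=
  K ≤ K' ∧ (K'.fixingSubgroup.subgroupOf K.fixingSubgroup).Normal ∧
    Module.finrank ℚ K' = n * Module.finrank ℚ K

/-- Submultiplicativity of `χ₂ = 1 - h¹ + h²` in a `p`-power Galois layer `K'/K` of degree `n`
(`χ₂(K') ≤ n χ₂(K)`, in `ℕ`-form). -/
def Chi2Sub (K K' : IntermediateField ℚ (AlgebraicClosure ℚ)) (n : ℕ) : Prop :=
  1 + Module.finrank (ZMod p) (fieldH2 S p K') + n * Module.finrank (ZMod p) (fieldH1 S p K) ≤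
    n * (1 + Module.finrank (ZMod p) (fieldH2 S p K)) + Module.finrank (ZMod p) (fieldH1 S p K')

/-- The cyclotomic tower: a `p`-power Galois layer `K'/K` of `S`-fields with at most `[K':K]`
places above `S`. -/
def Tower : Prop :=
  ∃ (K' : IntermediateField ℚ (AlgebraicClosure ℚ)) (t : ℕ),
    K'.IsUnramifiedOutside S ∧ IsGaloisOfDegree F K' (p ^ t) ∧ nPl S K' ≤ p ^ t

/-- Shapiro in degree 1 on the frozen carrier. -/
def Sh1 : Prop :=
  Nonempty (continuousH1S S (indRep p F) ≃ₗ[ZMod p] fieldH1 S p F)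

/-- Shapiro in degree 2 on the frozen carrier, mapping `Ш²` of the induced module into `Ш²` of
the field (Mackey–Shapiro compatibility + invisibility of the archimedean place). -/
def Sh2 : Prop :=
  ∃ Φ : continuousH2S S (indRep p F) ≃ₗ[ZMod p] fieldH2 S p F,
    ∀ x ∈ sha₂ S (indRep p F), Φ x ∈ fieldSha2 S p F

end Props

/-- Closed form: finiteness for all `S`-fields containing `μ_p`. -/
def Stmt_FieldFin : Prop :=
  ∀ (S : Finset Nat.Primes) (p : ℕ) (F : IntermediateField ℚ (AlgebraicClosure ℚ)),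
    IsSFieldZeta S p F → FieldFin S p F

/-- Closed form of `FieldLower`. -/
def Stmt_FieldLower : Prop :=
  ∀ (S : Finset Nat.Primes) (p : ℕ) (F : IntermediateField ℚ (AlgebraicClosure ℚ)),
    IsSFieldZeta S p F → FieldLower S p F

/-- Closed form of `FieldUpper`. -/
def Stmt_FieldUpper : Prop :=
  ∀ (S : Finset Nat.Primes) (p : ℕ) (F : IntermediateField ℚ (AlgebraicClosure ℚ)),
    IsSFieldZeta S p F → FieldUpper S p F

/-- Closed form of `FieldGE`. -/
def Stmt_FieldGE : Prop :=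
  ∀ (S : Finset Nat.Primes) (p : ℕ) (F : IntermediateField ℚ (AlgebraicClosure ℚ)),
    IsSFieldZeta S p F → FieldGE S p F

/-- Closed form of `Chi2Sub`: all `p`-power Galois layers of `S`-fields containing `μ_p`. -/
def Stmt_Chi2Sub : Prop :=
  ∀ (S : Finset Nat.Primes) (p : ℕ) (K K' : IntermediateField ℚ (AlgebraicClosure ℚ)) (t : ℕ),
    IsSFieldZeta S p K → K'.IsUnramifiedOutside S → IsGaloisOfDegree K K' (p ^ t) →
      Chi2Sub S p K K' (p ^ t)

/-- Closed form of `Tower`. -/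
def Stmt_Tower : Prop :=
  ∀ (S : Finset Nat.Primes) (p : ℕ) (F : IntermediateField ℚ (AlgebraicClosure ℚ)),
    IsSFieldZeta S p F → Tower S p F

/-- Closed form of Shapiro in degrees 1 and 2 for all `S`-fields (no `μ_p` needed). -/
def Stmt_Shapiro : Prop :=
  ∀ (S : Finset Nat.Primes) (p : ℕ) (F : IntermediateField ℚ (AlgebraicClosure ℚ)),
    p.Prime → F.IsUnramifiedOutside S → Sh1 S p F ∧ Sh2 S p F

end Fermat.Agent.S55.helper3071
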