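import Mathlib
import Fermat.Agent.S55.helper1242_HasseGalois
import Fermat.Agent.S55.helper3071_GlobalBridge
import Fermat.Agent.S55.helper1919_KerBound
import Fermat.Agent.S55.helper4039_SField

/-!
# The discharge of `Stmt_ShaHasse` (S55, leaf NF-GH-HASSE, part 3, helper1242)

Skeleton of the proof that a `μ_p`-valued `S`-level 2-cocycle on `Gal(ℚ̄/F)` which is locally
trivial at all places over `S` is the coboundary of an `S`-level `ℚ̄ˣ`-valued 1-cochain.

* `CohTo P` : the place-independent local-triviality calculus "cohomologous on `H` to a descent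
  of `c`"; `hasseCalculus_cohTo` : it is a `HasseCalculus` as soon as the norm clause holds with
  an explicit global primitive.
* `exists_primitive_of_layerNorm_abs`, `exists_primitive_of_layerNorm`,
  `exists_primitive_of_layerNorm_Qbar` : the Hasse devissage, hypothesis-passing over the
  infinite-level cyclic-layer statement.
* `Stmt_LayerNorm`, `Stmt_ShaHasseCore`, `Stmt_ShaHasse` and the implications between them.
-/

namespace Fermat.Agent.S55.helper1242

open groupCohomology Finset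
open Fermat.Agent.S55

/-! ### The place-independent calculus -/

section shortcut

variable {K L : Type*} [Field K] [Field L] [Algebra K L]

/-- The calculus "`c'` is cohomologous on `H` to (the restriction of) a cochain `cbar` of
`Gal(L/K)` satisfying `P`" (independent of the place index). -/
def CohTo (P : ((L ≃ₐ[K] L) × (L ≃ₐ[K] L) → Lˣ) → Prop) :
    PUnit.{1} → (H : Subgroup (L ≃ₐ[K] L)) → (H × H → Lˣ) → Prop :=
  fun _ H c' => ∃ cbar : (L ≃ₐ[K] L) × (L ≃ₐ[K] L) → Lˣ, P cbar ∧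
    IsMulCoboundary₂ (c' / fun q : H × H => cbar ((q.1 : L ≃ₐ[K] L), (q.2 : L ≃ₐ[K] L)))

lemma cohTo_self {P : ((L ≃ₐ[K] L) × (L ≃ₐ[K] L) → Lˣ) → Prop}
    {cbar : (L ≃ₐ[K] L) × (L ≃ₐ[K] L) → Lˣ} (hP : P cbar) (τ : PUnit.{1})
    (H : Subgroup (L ≃ₐ[K] L)) :
    CohTo P τ H (fun q : H × H => cbar ((q.1 : L ≃ₐ[K] L), (q.2 : L ≃ₐ[K] L))) :=
  ⟨cbar, hP, fun _ => 1, fun g h => by simp⟩

/-- `CohTo P` is a `HasseCalculus` as soon as the norm clause holds in the form with an explicit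
primitive: `a ^ carry = cbar · d x` on `H`. -/
theorem hasseCalculus_cohTo (p : ℕ) (G₁ : Subgroup (L ≃ₐ[K] L))
    (P : ((L ≃ₐ[K] L) × (L ≃ₐ[K] L) → Lˣ) → Prop)
    (hnorm : ∀ cbar, P cbar → ∀ H : Subgroup (L ≃ₐ[K] L), H ≤ G₁ → ∀ χ : H → ZMod p,
      (∀ g h, χ (g * h) = χ g + χ h) → ∀ s : H, χ s = 1 → ∀ a : Lˣ, (∀ g : H, g • a = a) →
      ∀ x : H → Lˣ, (∀ g k : H, a ^ helper6440.carry p (χ g) (χ k) =
          cbar ((g : L ≃ₐ[K] L), (k : L ≃ₐ[K] L)) * (g • x k / x (g * k) * x g)) →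
      ∃ b : Lˣ, (∀ n : H, χ n = 0 → n • b = b) ∧ a = ∏ j ∈ range p, s ^ j • b) :
    HasseCalculus p G₁ (CohTo P) := by
  refine ⟨?_, ?_⟩
  · rintro τ H hH c₁ c₂ ⟨cbar, hP, x, hx⟩ ⟨y, hy⟩
    refine ⟨cbar, hP, x * y, fun g k => ?_⟩
    have e1 := hx g k
    have e2 := hy g k
    simp only [Pi.div_apply, Pi.mul_apply] at e1 e2 ⊢
    rw [smul_mul', mul_div_mul_comm, mul_mul_mul_comm, e1, e2, mul_comm, div_mul_div_cancel]
  · intro H hH χ hχ s hs a ha hT
    obtain ⟨cbar, hP, x, hx⟩ := hT PUnit.unit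
    refine hnorm cbar hP H hH χ hχ s hs a ha x (fun g k => ?_)
    have e := hx g k
    simp only [Pi.div_apply, helper6440.mulCyc_apply] at e
    rw [e, mul_div_cancel]

end shortcut

/-! ### Finite level to infinite level: abstract `N` -/

section layerAbs

variable {K N Ω : Type*} [Field K] [Field N] [Field Ω] [Algebra K N] [Algebra K Ω] [Algebra N Ω]
  [IsScalarTower K N Ω] [Normal K N] {V : Subgroup (Ω ≃ₐ[K] Ω)}

/-- **Hasse devissage, hypothesis-passing over the infinite-level cyclic-layer statement**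
(abstract `N`). The layer hypothesis is about a subgroup `W` with `ker ρ ≤ W ≤ V`, an additive
character `χ` of `W` trivial on `ker ρ`, `s ∈ W` with `χ s = 1`, `a` fixed by `W` and an explicit
primitive `h` on `W`: `a ^ carry (χ g) (χ k) = c (g, k) · (d h) (g, k)`. -/
theorem exists_primitive_of_layerNorm_abs [FiniteDimensional K N] [Normal K Ω] (p : ℕ)
    [Fact p.Prime]
    (hNV : ∀ u : Ω ≃ₐ[K] Ω, AlgEquiv.restrictNormalHom N u = 1 → u ∈ V)
    (hfix : ∀ y : Ω, (∀ u : Ω ≃ₐ[K] Ω, AlgEquiv.restrictNormalHom N u = 1 → u y = y) →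
      y ∈ Set.range (algebraMap N Ω))
    {c : V × V → Ωˣ} (hc : IsMulCocycle₂ c)
    (hinv : ∀ g h u u' : V, AlgEquiv.restrictNormalHom N (u : Ω ≃ₐ[K] Ω) = 1 →
      AlgEquiv.restrictNormalHom N (u' : Ω ≃ₐ[K] Ω) = 1 → c (g * u, h * u') = c (g, h))
    (hval : ∀ x, ((c x : Ωˣ) : Ω) ∈ Set.range (algebraMap N Ω))
    (hpow : ∃ k : ℕ, ∀ x, c x ^ (p ^ k) = 1)
    (hlayer : ∀ (W : Subgroup (Ω ≃ₐ[K] Ω)) (hWV : W ≤ V),
      (∀ u : Ω ≃ₐ[K] Ω, AlgEquiv.restrictNormalHom N u = 1 → u ∈ W) →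
      ∀ χ : W → ZMod p, (∀ g k, χ (g * k) = χ g + χ k) →
      (∀ u : W, AlgEquiv.restrictNormalHom N (u : Ω ≃ₐ[K] Ω) = 1 → χ u = 0) →
      ∀ s : W, χ s = 1 → ∀ a : Ωˣ, (∀ g : W, (g : Ω ≃ₐ[K] Ω) (a : Ω) = a) →
      ∀ h : W → Ωˣ, (∀ g, ((h g : Ωˣ) : Ω) ∈ Set.range (algebraMap N Ω)) →
      (∀ g u : W, AlgEquiv.restrictNormalHom N (u : Ω ≃ₐ[K] Ω) = 1 → h (g * u) = h g) →
      (∀ g k : W, a ^ helper6440.carry p (χ g) (χ k) =
        c (Subgroup.inclusion hWV g, Subgroup.inclusion hWV k) * (g • h k / h (g * k) * h g)) →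
      ∃ y : Ω, y ≠ 0 ∧ (∀ n : W, χ n = 0 → (n : Ω ≃ₐ[K] Ω) y = y) ∧
        ∏ j ∈ range p, ((s : Ω ≃ₐ[K] Ω) ^ j) y = (a : Ω)) :
    ∃ h : V → Ωˣ, (∀ g, ((h g : Ωˣ) : Ω) ∈ Set.range (algebraMap N Ω)) ∧
      (∀ g u : V, AlgEquiv.restrictNormalHom N (u : Ω ≃ₐ[K] Ω) = 1 → h (g * u) = h g) ∧
      ∀ g k : V, g • h k / h (g * k) * h g = c (g, k) := by
  refine exists_primitive_of_hasseCalculus p
    (CohTo (fun cbar : (N ≃ₐ[K] N) × (N ≃ₐ[K] N) → Nˣ => ∀ g h : V,
      algebraMap N Ω ((cbar (AlgEquiv.restrictNormalHom N (g : Ω ≃ₐ[K] Ω),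
        AlgEquiv.restrictNormalHom N (h : Ω ≃ₐ[K] Ω)) : Nˣ) : N) = ((c (g, h) : Ωˣ) : Ω)))
    (hasseCalculus_cohTo p _ _ ?_) hc hinv hval hpow
    (fun cbar hcbar τ H _ => cohTo_self hcbar τ H)
  intro cbar hcbar H hH χ hχ s hs a ha x hx
  -- the preimage of `H`
  let W : Subgroup (Ω ≃ₐ[K] Ω) := H.comap (AlgEquiv.restrictNormalHom N)
  have hWV : W ≤ V := by
    intro g hg
    obtain ⟨v, hv, hvg⟩ := hH (show AlgEquiv.restrictNormalHom N g ∈ H from hg)
    have hu : AlgEquiv.restrictNormalHom N (v⁻¹ * g) = 1 := by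
      rw [map_mul, map_inv, hvg, inv_mul_cancel]
    have : g = v * (v⁻¹ * g) := by group
    rw [this]
    exact V.mul_mem hv (hNV _ hu)
  have hkerW : ∀ u : Ω ≃ₐ[K] Ω, AlgEquiv.restrictNormalHom N u = 1 → u ∈ W := by
    intro u hu
    show AlgEquiv.restrictNormalHom N u ∈ H
    rw [hu]
    exact H.one_mem
  let r : W → H := fun g => ⟨AlgEquiv.restrictNormalHom N (g : Ω ≃ₐ[K] Ω), g.2⟩
  have hr : ∀ g k : W, r (g * k) = r g * r k := fun g k => Subtype.ext (map_mul _ _ _)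
  have hr1 : ∀ u : W, AlgEquiv.restrictNormalHom N (u : Ω ≃ₐ[K] Ω) = 1 → r u = 1 :=
    fun u hu => Subtype.ext hu
  have hχ0 : χ 1 = 0 := by
    have := hχ 1 1
    rw [mul_one] at this
    exact left_eq_add.mp this
  obtain ⟨s', hs'⟩ := AlgEquiv.restrictNormalHom_surjective Ω (s : N ≃ₐ[K] N)
  have hs'W : s' ∈ W := by
    show AlgEquiv.restrictNormalHom N s' ∈ H
    rw [hs']
    exact s.2
  have hrs' : r ⟨s', hs'W⟩ = s := Subtype.ext hs'
  have hsm : ∀ (g : W) (u : Nˣ), algebraMap N Ω ((r g • u : Nˣ) : N)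
      = (g : Ω ≃ₐ[K] Ω) (algebraMap N Ω (u : N)) :=
    fun g u => algebraMap_smul_units (g : Ω ≃ₐ[K] Ω) u
  have hcb : ∀ g k : W, algebraMap N Ω ((cbar ((r g : N ≃ₐ[K] N), (r k : N ≃ₐ[K] N)) : Nˣ) : N)
      = ((c (Subgroup.inclusion hWV g, Subgroup.inclusion hWV k) : Ωˣ) : Ω) :=
    fun g k => hcbar (Subgroup.inclusion hWV g) (Subgroup.inclusion hWV k)
  obtain ⟨y, hy0, hyfix, hyprod⟩ := hlayer W hWV hkerW (fun g => χ (r g))
    (fun g k => by rw [hr, hχ]) (fun u hu => by rw [hr1 u hu, hχ0]) ⟨s', hs'W⟩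
    (by rw [hrs', hs]) (Units.map (algebraMap N Ω : N →* Ω) a)
    (fun g => by
      have := hsm g a
      rw [ha (r g)] at this
      exact this.symm)
    (fun g => Units.map (algebraMap N Ω : N →* Ω) (x (r g)))
    (fun g => ⟨((x (r g) : Nˣ) : N), rfl⟩)
    (fun g u hu => by
      show Units.map _ (x (r (g * u))) = Units.map _ (x (r g))
      rw [hr, hr1 u hu, mul_one])
    (fun g k => by
      have e := hx (r g) (r k)
      rw [← hr, div_mul_eq_mul_div, ← mul_div_assoc, eq_div_iff_mul_eq'] at e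
      have e' := congrArg (fun u : Nˣ => algebraMap N Ω (u : N)) e
      simp only [Units.val_mul, map_mul, Units.val_pow_eq_pow_val, map_pow] at e'
      rw [hsm, hcb] at e'
      rw [div_mul_eq_mul_div, ← mul_div_assoc, eq_div_iff_mul_eq']
      apply Units.ext
      exact e')
  obtain ⟨b₀, rfl⟩ := hfix y (fun u hu => hyfix ⟨u, hkerW u hu⟩ (by
    show χ (r ⟨u, hkerW u hu⟩) = 0
    rw [hr1 ⟨u, hkerW u hu⟩ hu, hχ0]))
  have hb0 : b₀ ≠ 0 := fun h0 => hy0 (by rw [h0, map_zero])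
  refine ⟨Units.mk0 b₀ hb0, fun n hn => ?_, ?_⟩
  · obtain ⟨g, hg⟩ := AlgEquiv.restrictNormalHom_surjective Ω (n : N ≃ₐ[K] N)
    have hgW : g ∈ W := by
      show AlgEquiv.restrictNormalHom N g ∈ H
      rw [hg]
      exact n.2
    have hrg : r ⟨g, hgW⟩ = n := Subtype.ext hg
    have e := hyfix ⟨g, hgW⟩ (by show χ (r ⟨g, hgW⟩) = 0; rw [hrg, hn])
    apply Units.ext
    apply (algebraMap N Ω).injective
    rw [← hrg, hsm]
    exact e
  · apply Units.ext
    apply (algebraMap N Ω).injective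
    rw [Units.coe_prod, map_prod]
    rw [show algebraMap N Ω ((a : Nˣ) : N) = ((Units.map (algebraMap N Ω : N →* Ω) a : Ωˣ) : Ω)
      from rfl, ← hyprod]
    refine Finset.prod_congr rfl (fun j _ => ?_)
    have e := hsm (⟨s', hs'W⟩ ^ j) (Units.mk0 b₀ hb0)
    have hrj : r (⟨s', hs'W⟩ ^ j) = s ^ j := by
      apply Subtype.ext
      show AlgEquiv.restrictNormalHom N (((⟨s', hs'W⟩ : W) ^ j : W) : Ω ≃ₐ[K] Ω) = _
      rw [Subgroup.coe_pow, map_pow, Subgroup.coe_pow]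
      exact congrArg (· ^ j) hs'
    rw [hrj] at e
    rw [e]
    rfl

end layerAbs

/-! ### The same for an intermediate field `N` of `Ω/K`, layer hypothesis in field form -/

section layerIF

variable {K Ω : Type*} [Field K] [Field Ω] [Algebra K Ω]
  {N : IntermediateField K Ω} [Normal K N] {V : Subgroup (Ω ≃ₐ[K] Ω)} [IsGalois K Ω]

/-- **Hasse devissage, hypothesis-passing over the infinite-level cyclic-layer statement.**
`Ω/K` Galois, `N` a finite Galois intermediate field, `V ⊇ Gal(Ω/N)`, `c` a 2-cocycle on `V`,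
right-invariant under `Gal(Ω/N)` and killed by a power of `p`. The layer hypothesis: for every
intermediate field `K' ≤ N` with `Gal(Ω/K') ≤ V`, every additive character `χ` of `Gal(Ω/K')`
trivial on `Gal(Ω/N)`, `s` with `χ s = 1`, `a ∈ K'ˣ` and every explicit level primitive `h`
(`a ^ carry (χ g) (χ k) = c (g, k) · (d h) (g, k)` on `Gal(Ω/K')`), `a = ∏_{j<p} s^j y` for some
`y ≠ 0` fixed by `ker χ`. -/
theorem exists_primitive_of_layerNorm [FiniteDimensional K N]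
    (hNV : N.fixingSubgroup ≤ V) (p : ℕ) [Fact p.Prime]
    {c : V × V → Ωˣ} (hc : IsMulCocycle₂ c)
    (hinv : ∀ g h u u' : V, (u : Ω ≃ₐ[K] Ω) ∈ N.fixingSubgroup →
      (u' : Ω ≃ₐ[K] Ω) ∈ N.fixingSubgroup → c (g * u, h * u') = c (g, h))
    (hpow : ∃ k : ℕ, ∀ x, c x ^ (p ^ k) = 1)
    (hlayer : ∀ (K' : IntermediateField K Ω) (hK'V : K'.fixingSubgroup ≤ V), K' ≤ N →
      ∀ χ : K'.fixingSubgroup → ZMod p, (∀ g k, χ (g * k) = χ g + χ k) →
      (∀ u : K'.fixingSubgroup, (u : Ω ≃ₐ[K] Ω) ∈ N.fixingSubgroup → χ u = 0) →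
      ∀ s : K'.fixingSubgroup, χ s = 1 → ∀ a : Ωˣ, (a : Ω) ∈ K' →
      ∀ h : K'.fixingSubgroup → Ωˣ, (∀ g, ((h g : Ωˣ) : Ω) ∈ N) →
      (∀ g u : K'.fixingSubgroup, (u : Ω ≃ₐ[K] Ω) ∈ N.fixingSubgroup → h (g * u) = h g) →
      (∀ g k : K'.fixingSubgroup, a ^ helper6440.carry p (χ g) (χ k) =
        c (Subgroup.inclusion hK'V g, Subgroup.inclusion hK'V k) * (g • h k / h (g * k) * h g)) →
      ∃ y : Ω, y ≠ 0 ∧ (∀ n : K'.fixingSubgroup, χ n = 0 → (n : Ω ≃ₐ[K] Ω) y = y) ∧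
        ∏ j ∈ range p, ((s : Ω ≃ₐ[K] Ω) ^ j) y = (a : Ω)) :
    ∃ h : V → Ωˣ, (∀ g, ((h g : Ωˣ) : Ω) ∈ N) ∧
      (∀ g u : V, (u : Ω ≃ₐ[K] Ω) ∈ N.fixingSubgroup → h (g * u) = h g) ∧
      ∀ g k : V, g • h k / h (g * k) * h g = c (g, k) := by
  have hmemN : ∀ y : Ω, (∀ u ∈ N.fixingSubgroup, u y = y) → y ∈ N := by
    intro y hy
    have : y ∈ IntermediateField.fixedField N.fixingSubgroup := by
      rw [IntermediateField.mem_fixedField_iff]
      exact hy
    rwa [InfiniteGalois.fixedField_fixingSubgroup] at this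
  obtain ⟨h, h1, h2, h3⟩ := exists_primitive_of_layerNorm_abs (N := ↥N) (V := V) p
    (fun u hu => hNV ((restrictNormalHom_eq_one_iff u).1 hu))
    (fun y hy => ⟨⟨y, hmemN y (fun u hu => hy u ((restrictNormalHom_eq_one_iff u).2 hu))⟩, rfl⟩)
    hc
    (fun g h u u' hu hu' => hinv g h u u' ((restrictNormalHom_eq_one_iff _).1 hu)
      ((restrictNormalHom_eq_one_iff _).1 hu'))
    (fun x => ⟨⟨_, val_mem_of_rightInv hNV hc hinv x⟩, rfl⟩) hpow
    (by
      intro W hWV hkerW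
      have hNW : N.fixingSubgroup ≤ W := fun u hu => hkerW u ((restrictNormalHom_eq_one_iff u).2 hu)
      have hWopen : IsOpen (W : Set (Ω ≃ₐ[K] Ω)) :=
        Subgroup.isOpen_mono hNW (IntermediateField.fixingSubgroup_isOpen N)
      have hWclosed : IsClosed (W : Set (Ω ≃ₐ[K] Ω)) := Subgroup.isClosed_of_isOpen W hWopen
      obtain ⟨K', rfl⟩ : ∃ K' : IntermediateField K Ω, K'.fixingSubgroup = W :=
        ⟨_, InfiniteGalois.fixingSubgroup_fixedField ⟨W, hWclosed⟩⟩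
      intro χ hχ hχ1 s hs a ha h hval hrinv hrel
      refine hlayer K' hWV ?_ χ hχ (fun u hu => hχ1 u ((restrictNormalHom_eq_one_iff _).2 hu))
        s hs a ?_ h ?_ (fun g u hu => hrinv g u ((restrictNormalHom_eq_one_iff _).2 hu)) hrel
      · intro x hx
        exact hmemN x (fun u hu => (IntermediateField.mem_fixingSubgroup_iff _ _).1 (hNW hu) x hx)
      · have : (a : Ω) ∈ IntermediateField.fixedField K'.fixingSubgroup := by
          rw [IntermediateField.mem_fixedField_iff]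
          exact fun g hg => ha ⟨g, hg⟩
        rwa [InfiniteGalois.fixedField_fixingSubgroup] at this
      · intro g
        obtain ⟨n, hn⟩ := hval g
        rw [← hn]
        exact n.2)
  refine ⟨h, fun g => ?_, fun g u hu => h2 g u ((restrictNormalHom_eq_one_iff _).2 hu), h3⟩
  obtain ⟨y, hy⟩ := h1 g
  rw [← hy]
  exact y.2

end layerIF

/-! ### The frozen carrier: `Stmt_ShaHasse` from the cyclic-layer statement -/

section frozen

local notation "Qb" => AlgebraicClosure ℚ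
local notation "GQ" => (AlgebraicClosure ℚ ≃ₐ[ℚ] AlgebraicClosure ℚ)

/-- Local triviality of a `μ_p`-valued 2-cochain `c` on `Gal(ℚ̄/F)` at the place `g • v_q` of
`F`, in the frozen sense: on the decomposition group `c` is the (trivial-action) coboundary of a
`μ_p`-valued level 1-cochain. -/
def MuLocTriv (p : ℕ) (F : IntermediateField ℚ Qb) (q : Nat.Primes) (g : GQ)
    (c : F.fixingSubgroup × F.fixingSubgroup → Qbˣ) : Prop :=
  ∃ u : ↥(helper3071.placeGroup F q g) → Qbˣ, (∀ a, u a ^ p = 1) ∧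
    IsLevelConstant₁ (helper3071.placeLoc F q g) u ∧
    ∀ a b, c (helper3071.placeHom F q g a, helper3071.placeHom F q g b) = u a * u b / u (a * b)

/-- **`Ш²(G_{F,S}, μ_p) ⊆ K(F)`**: a `μ_p`-valued `S`-level 2-cocycle on `Gal(ℚ̄/F)` (`F` an
`S`-field containing `μ_p`, `p` odd, `p ∈ S`; trivial action) which is locally trivial at every
place over `S` is the coboundary of a `ℚ̄ˣ`-valued `S`-level 1-cochain with values in an
`S`-field. -/
def Stmt_ShaHasse : Prop :=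
  ∀ (S : Finset Nat.Primes) (p : ℕ) (F : IntermediateField ℚ Qb), helper3071.IsSFieldZeta S p F →
    ∀ c : F.fixingSubgroup × F.fixingSubgroup → Qbˣ, (∀ x, c x ^ p = 1) →
      (∀ g h k : F.fixingSubgroup, c (g * h, k) * c (g, h) = c (h, k) * c (g, h * k)) →
      helper3071.IsLevS₂ S F.fixingSubgroup.subtype c →
      (∀ q ∈ S, ∀ g : GQ, MuLocTriv p F q g c) →
      ∃ h : F.fixingSubgroup → Qbˣ, helper1919.IsOmLevel S F h ∧
        ∀ g k : F.fixingSubgroup, c (g, k) = h g * helper1919.gal (g : GQ) (h k) / h (g * k)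

/-- The core of `Stmt_ShaHasse` at a fixed finite Galois level `N ⊇ F` (an `S`-field stable
under `G_ℚ`): a `μ_p`-valued 2-cocycle `c` on `Gal(ℚ̄/F)` (Galois action), right-invariant under
`Gal(ℚ̄/N)` and locally trivial at every place over `S`, is `d h` for a 1-cochain `h` with
values in `N`, right-invariant under `Gal(ℚ̄/N)`. -/
def Stmt_ShaHasseCore : Prop :=
  ∀ (S : Finset Nat.Primes) (p : ℕ) (F : IntermediateField ℚ Qb), helper3071.IsSFieldZeta S p F →
    ∀ N : IntermediateField ℚ Qb, F ≤ N → N.IsUnramifiedOutside S →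
      (∀ τ : GQ, N.map (τ : Qb →ₐ[ℚ] Qb) = N) →
      ∀ c : F.fixingSubgroup × F.fixingSubgroup → Qbˣ, (∀ x, c x ^ p = 1) → IsMulCocycle₂ c →
      (∀ g h u u' : F.fixingSubgroup, (u : GQ) ∈ N.fixingSubgroup → (u' : GQ) ∈ N.fixingSubgroup →
        c (g * u, h * u') = c (g, h)) →
      (∀ q ∈ S, ∀ g : GQ, MuLocTriv p F q g c) →
      ∃ h : F.fixingSubgroup → Qbˣ, (∀ g, ((h g : Qbˣ) : Qb) ∈ N) ∧
        (∀ g u : F.fixingSubgroup, (u : GQ) ∈ N.fixingSubgroup → h (g * u) = h g) ∧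
        ∀ g k : F.fixingSubgroup, g • h k / h (g * k) * h g = c (g, k)

/-- **The cyclic-layer statement** (all that is left of the Hasse principle after the
devissage): in the situation of `Stmt_ShaHasseCore`, let `F ≤ K ≤ N`, `χ` an additive character
of `Gal(ℚ̄/K)` trivial on `Gal(ℚ̄/N)`, `s` with `χ s = 1`, `a ∈ Kˣ`, and `h` a 1-cochain on
`Gal(ℚ̄/K)` with values in `N`, right-invariant under `Gal(ℚ̄/N)`, such that
`a ^ carry (χ g) (χ k) = c (g, k) · (g • h k / h (g k) · h g)` on `Gal(ℚ̄/K)`.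
Then `a = ∏_{j<p} s^j y` for some `y ≠ 0` fixed by `ker χ`. -/
def Stmt_LayerNorm : Prop :=
  ∀ (S : Finset Nat.Primes) (p : ℕ) (F : IntermediateField ℚ Qb), helper3071.IsSFieldZeta S p F →
    ∀ N : IntermediateField ℚ Qb, F ≤ N → N.IsUnramifiedOutside S →
      (∀ τ : GQ, N.map (τ : Qb →ₐ[ℚ] Qb) = N) →
      ∀ c : F.fixingSubgroup × F.fixingSubgroup → Qbˣ, (∀ x, c x ^ p = 1) → IsMulCocycle₂ c →
      (∀ g h u u' : F.fixingSubgroup, (u : GQ) ∈ N.fixingSubgroup → (u' : GQ) ∈ N.fixingSubgroup →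
        c (g * u, h * u') = c (g, h)) →
      (∀ q ∈ S, ∀ g : GQ, MuLocTriv p F q g c) →
      ∀ (K : IntermediateField ℚ Qb) (hFK : F ≤ K), K ≤ N →
      ∀ χ : K.fixingSubgroup → ZMod p, (∀ g k, χ (g * k) = χ g + χ k) →
      (∀ u : K.fixingSubgroup, (u : GQ) ∈ N.fixingSubgroup → χ u = 0) →
      ∀ s : K.fixingSubgroup, χ s = 1 → ∀ a : Qbˣ, (a : Qb) ∈ K →
      ∀ h : K.fixingSubgroup → Qbˣ, (∀ g, ((h g : Qbˣ) : Qb) ∈ N) →
      (∀ g u : K.fixingSubgroup, (u : GQ) ∈ N.fixingSubgroup → h (g * u) = h g) →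
      (∀ g k : K.fixingSubgroup, a ^ helper6440.carry p (χ g) (χ k) =
        c (Subgroup.inclusion (IntermediateField.fixingSubgroup_antitone hFK) g,
            Subgroup.inclusion (IntermediateField.fixingSubgroup_antitone hFK) k) *
          (g • h k / h (g * k) * h g)) →
      ∃ y : Qb, y ≠ 0 ∧ (∀ n : K.fixingSubgroup, χ n = 0 → (n : GQ) y = y) ∧
        ∏ j ∈ range p, ((s : GQ) ^ j) y = (a : Qb)

/-- The devissage: the cyclic-layer statement implies the core statement. -/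
theorem stmt_ShaHasseCore_of_layerNorm (h : Stmt_LayerNorm) : Stmt_ShaHasseCore := by
  intro S p F hF N hFN hN hmap c hμ hc hinv hloc
  have hpr : Fact p.Prime := ⟨hF.prime⟩
  have hfin : FiniteDimensional ℚ N := hN.1
  have hnorm : Normal ℚ N := helper4039.normal_of_map_eq hmap
  refine @exists_primitive_of_layerNorm ℚ Qb _ _ _ N hnorm F.fixingSubgroup
    isGalois_algebraicClosure_rat hfin (IntermediateField.fixingSubgroup_antitone hFN) p hpr c hc
    hinv ⟨1, by simpa using hμ⟩ ?_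
  intro K' hK'V hK'N χ hχ hχ1 s hs a ha h' hval hrinv hrel
  have hFK : F ≤ K' := by
    intro x hx
    have hmem : x ∈ IntermediateField.fixedField K'.fixingSubgroup := by
      rw [IntermediateField.mem_fixedField_iff]
      intro g hg
      exact (IntermediateField.mem_fixingSubgroup_iff _ _).1 (hK'V hg) x hx
    have hgal : IsGalois ℚ Qb := isGalois_algebraicClosure_rat
    rwa [InfiniteGalois.fixedField_fixingSubgroup] at hmem
  exact h S p F hF N hFN hN hmap c hμ hc hinv hloc K' hFK hK'N χ hχ hχ1 s hs a ha h' hval hrinv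
    hrel

/-- `Stmt_ShaHasse` from its core at finite Galois level: choice of the level, conversion of the
trivial-action cocycle identity (`Gal(ℚ̄/F)` fixes `μ_p` as `ζ_p ∈ F`), level bookkeeping. -/
theorem stmt_ShaHasse_of_core (h : Stmt_ShaHasseCore) : Stmt_ShaHasse := by
  intro S p F hF c hμ hcoc hlev hloc
  obtain ⟨L, hL, hLinv⟩ := hlev
  obtain ⟨N, hle, hN, hmap, -⟩ := helper4039.exists_normal_ge (hL.sup hF.unram)
  have hFN : F ≤ N := le_sup_right.trans hle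
  have hLN : L ≤ N := le_sup_left.trans hle
  obtain ⟨ζ, hζF, hζ⟩ := hF.zeta
  have hp0 : NeZero p := ⟨hF.prime.pos.ne'⟩
  have hfixμ : ∀ (g : F.fixingSubgroup) (x : Qbˣ), x ^ p = 1 → g • x = x := by
    intro g x hx
    have hx' : (x : Qb) ^ p = 1 := by
      rw [← Units.val_pow_eq_pow_val, hx, Units.val_one]
    obtain ⟨i, -, hi⟩ := hζ.eq_pow_of_pow_eq_one hx'
    apply Units.ext
    show (g : GQ) (x : Qb) = x
    rw [← hi, map_pow, (IntermediateField.mem_fixingSubgroup_iff F _).1 g.2 ζ hζF]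
  have hc : IsMulCocycle₂ c := by
    intro g h k
    rw [hfixμ g _ (hμ _)]
    exact hcoc g h k
  obtain ⟨h', hval, hrinv, hd⟩ := h S p F hF N hFN hN hmap c hμ hc
    (fun g h u u' hu hu' => hLinv g h u u' (IntermediateField.fixingSubgroup_antitone hLN hu)
      (IntermediateField.fixingSubgroup_antitone hLN hu')) hloc
  refine ⟨h', ⟨N, hN, hval, hrinv⟩, fun g k => ?_⟩
  rw [← hd g k, div_mul_eq_mul_div, mul_comm]
  rfl

/-- **`Stmt_ShaHasse` from the cyclic-layer statement.** -/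
theorem stmt_ShaHasse_of_layerNorm (h : Stmt_LayerNorm) : Stmt_ShaHasse :=
  stmt_ShaHasse_of_core (stmt_ShaHasseCore_of_layerNorm h)

end frozen

end Fermat.Agent.S55.helper1242
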