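/-
S55 / NF-LOCNORM-COUNT, component (B) (seat helper1957): the LOWER bound for the index of the
completion-free local `p`-th powers.

* `le_index_locPowSubgroup` : `p ^ 2 * Nv ^ (ord_v p) ≤ [Fˣ : P_v]` for
  `P_v = helper1892.locPowSubgroup p v` (`F ∋ ζ_p`).  The upper bound is
  `helper4204.index_locPowSubgroup`, hence `index_locPowSubgroup_eq` : the index is exactly
  `p ^ 2 * Nv ^ (ord_v p)`.
-/
import Mathlib
import Fermat.Agent.S14.helper1892_M6Defs
import Fermat.Agent.S14.helper4204_LocalPow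

set_option autoImplicit false
set_option linter.style.haveILetI false
set_option linter.unusedSectionVars false

open IsDedekindDomain IsDedekindDomain.HeightOneSpectrum NumberField WithZero

namespace Fermat.Agent.S55.helper1957

open Fermat.Agent.S14.helper1892 (LocPow LocPowN locPowSubgroup)
open Fermat.Agent.S14.helper4204 (ordP)

noncomputable section

section LowerBound

variable {F : Type*} [Field F] [NumberField F] (v : HeightOneSpectrum (𝓞 F))

/-- `a ^ p - z ^ p` is at least as small as `a - z` when `a`, `z` are `v`-integral. -/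
theorem valuation_pow_sub_pow_le {a z : F} (ha : v.valuation F a ≤ 1) (hz : v.valuation F z ≤ 1)
    (p : ℕ) : v.valuation F (a ^ p - z ^ p) ≤ v.valuation F (a - z) := by
  rw [← geom_sum₂_mul, map_mul]
  have h1 : v.valuation F (∑ i ∈ Finset.range p, a ^ i * z ^ (p - 1 - i)) ≤ 1 := by
    apply Valuation.map_sum_le
    intro i _
    rw [map_mul, map_pow, map_pow]
    exact mul_le_one' (pow_le_one' ha _) (pow_le_one' hz _)
  calc v.valuation F (∑ i ∈ Finset.range p, a ^ i * z ^ (p - 1 - i)) * v.valuation F (a - z)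
      ≤ 1 * v.valuation F (a - z) := mul_le_mul' h1 le_rfl
    _ = v.valuation F (a - z) := one_mul _

/-- **(B) lower bound**: the local `p`-th powers at `v` have index at least
`p ^ 2 * Nv ^ (ord_v p)` in `Fˣ`. -/
theorem le_index_locPowSubgroup {p : ℕ} (hp : p.Prime) {ζ : F} (hζ : IsPrimitiveRoot ζ p) :
    p ^ 2 * Ideal.absNorm v.asIdeal ^ ordP v p ≤ (locPowSubgroup p v).index := by
  classical
  set e := ordP v p with he_def
  obtain ⟨N, hNdef⟩ : ∃ N, N = 2 * e + 1 := ⟨_, rfl⟩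
  have hN : 2 * e < N := by omega
  have hN0 : N ≠ 0 := by omega
  have hfin : Finite (𝓞 F ⧸ v.asIdeal ^ N) := Fermat.Agent.S14.helper4204.finite_quot_pow v N
  have hpne : NeZero p := ⟨hp.ne_zero⟩
  have hζ' : IsPrimitiveRoot hζ.toInteger p := hζ.toInteger_isPrimitiveRoot
  have hcardQ : Nat.card ((𝓞 F ⧸ v.asIdeal ^ N)ˣ ⧸
      (powMonoidHom p : (𝓞 F ⧸ v.asIdeal ^ N)ˣ →* (𝓞 F ⧸ v.asIdeal ^ N)ˣ).range) =
      p * Ideal.absNorm v.asIdeal ^ e :=
    Fermat.Agent.S14.helper4204.index_range_pow_units v hp.pos hζ'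
      (Fermat.Agent.S14.helper4204.intValuation_natCast_eq v hp.ne_zero) hN
  -- representatives in `𝓞 F` of the classes of units modulo `p`-th powers
  have hrep : ∀ q : (𝓞 F ⧸ v.asIdeal ^ N)ˣ ⧸
      (powMonoidHom p : (𝓞 F ⧸ v.asIdeal ^ N)ˣ →* (𝓞 F ⧸ v.asIdeal ^ N)ˣ).range,
      ∃ r : 𝓞 F, r ∉ v.asIdeal ∧ ∃ u : (𝓞 F ⧸ v.asIdeal ^ N)ˣ,
        (u : 𝓞 F ⧸ v.asIdeal ^ N) = Ideal.Quotient.mk (v.asIdeal ^ N) r ∧
        (QuotientGroup.mk u : (𝓞 F ⧸ v.asIdeal ^ N)ˣ ⧸
          (powMonoidHom p : (𝓞 F ⧸ v.asIdeal ^ N)ˣ →* (𝓞 F ⧸ v.asIdeal ^ N)ˣ).range) = q := by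
    intro q
    obtain ⟨u, rfl⟩ := QuotientGroup.mk_surjective q
    obtain ⟨r, hr⟩ := Ideal.Quotient.mk_surjective (u : 𝓞 F ⧸ v.asIdeal ^ N)
    refine ⟨r, ?_, u, hr.symm, rfl⟩
    rw [← Ideal.Quotient.isUnit_mk_pow_iff_notMem v.asIdeal hN0, hr]
    exact u.isUnit
  choose r hr using hrep
  have hvr : ∀ q, v.valuation F (algebraMap (𝓞 F) F (r q)) = 1 := by
    intro q
    rw [valuation_of_algebraMap]
    exact intValuation_eq_one_iff.mpr (hr q).1
  have hr0 : ∀ q, algebraMap (𝓞 F) F (r q) ≠ 0 := by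
    intro q h
    have := hvr q
    rw [h, map_zero] at this
    exact zero_ne_one this
  -- a uniformizer
  obtain ⟨ϖ, hϖ⟩ := v.valuation_exists_uniformizer F
  have hϖ0 : ϖ ≠ 0 := by
    rintro rfl
    rw [map_zero] at hϖ
    exact exp_ne_zero hϖ.symm
  have hexpN : exp (-(N : ℤ)) < (1 : ℤᵐ⁰) := by
    rw [← exp_zero, exp_lt_exp]; omega
  let g : Fin p × ((𝓞 F ⧸ v.asIdeal ^ N)ˣ ⧸
      (powMonoidHom p : (𝓞 F ⧸ v.asIdeal ^ N)ˣ →* (𝓞 F ⧸ v.asIdeal ^ N)ˣ).range) →
      Fˣ ⧸ locPowSubgroup p v :=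
    fun a => QuotientGroup.mk (Units.mk0 ϖ hϖ0 ^ (a.1 : ℕ) * Units.mk0 _ (hr0 a.2))
  have hg : Function.Injective g := by
    rintro ⟨k, q⟩ ⟨k', q'⟩ h
    have h1 : (Units.mk0 ϖ hϖ0 ^ (k : ℕ) * Units.mk0 _ (hr0 q))⁻¹ *
        (Units.mk0 ϖ hϖ0 ^ (k' : ℕ) * Units.mk0 _ (hr0 q')) ∈ locPowSubgroup p v :=
      QuotientGroup.eq.mp h
    obtain ⟨z, hz⟩ := h1 N
    obtain ⟨x, hx⟩ : ∃ x : F, x = (ϖ ^ (k : ℕ) * algebraMap (𝓞 F) F (r q))⁻¹ *
        (ϖ ^ (k' : ℕ) * algebraMap (𝓞 F) F (r q')) := ⟨_, rfl⟩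
    have hz' : v.valuation F (x / (z : F) ^ p - 1) ≤ exp (-(N : ℤ)) := by
      rw [hx]
      simpa using hz
    have hvx : v.valuation F x = exp ((k : ℤ) - (k' : ℤ)) := by
      rw [hx, map_mul, map_inv₀, map_mul, map_mul, map_pow, map_pow, hϖ, hvr, hvr, mul_one,
        mul_one, ← exp_nsmul, ← exp_nsmul, ← exp_neg, ← exp_add]
      congr 1
      simp
      ring
    have hv1 : v.valuation F (x / (z : F) ^ p) = 1 :=
      Fermat.Agent.S14.helper1892.val_eq_one_of_sub_one_lt v (lt_of_le_of_lt hz' hexpN)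
    have hz0 : v.valuation F (z : F) ≠ 0 := (Valuation.ne_zero_iff _).mpr z.ne_zero
    obtain ⟨m, hm⟩ : ∃ m : ℤ, v.valuation F (z : F) = exp m :=
      ⟨log (v.valuation F (z : F)), (exp_log hz0).symm⟩
    rw [map_div₀, map_pow, hvx, hm, ← exp_nsmul, div_eq_iff exp_ne_zero, one_mul, exp_inj] at hv1
    have hkk : (k : ℕ) = (k' : ℕ) := by
      have hk := k.2
      have hk' := k'.2
      have hdvd : (p : ℤ) ∣ (k : ℤ) - (k' : ℤ) := ⟨m, by simpa using hv1⟩
      have habs : |(k : ℤ) - (k' : ℤ)| < (p : ℤ) := by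
        rw [abs_lt]
        constructor <;> omega
      have := Int.eq_zero_of_abs_lt_dvd hdvd habs
      omega
    have hm0 : m = 0 := by
      rw [hkk] at hv1
      simp only [sub_self, nsmul_eq_mul] at hv1
      have hp0 : (p : ℤ) ≠ 0 := by exact_mod_cast hp.ne_zero
      rcases mul_eq_zero.mp hv1.symm with h | h
      · exact absurd h hp0
      · exact h
    have hvz : v.valuation F (z : F) = 1 := by rw [hm, hm0, exp_zero]
    have hz0' : (z : F) ≠ 0 := z.ne_zero
    have hx' : x = algebraMap (𝓞 F) F (r q') / algebraMap (𝓞 F) F (r q) := by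
      rw [hx, hkk]
      have := hr0 q
      field_simp
    have h2 : v.valuation F (algebraMap (𝓞 F) F (r q') - algebraMap (𝓞 F) F (r q) * (z : F) ^ p)
        ≤ exp (-(N : ℤ)) := by
      have hkey : algebraMap (𝓞 F) F (r q') - algebraMap (𝓞 F) F (r q) * (z : F) ^ p =
          (x / (z : F) ^ p - 1) * (algebraMap (𝓞 F) F (r q) * (z : F) ^ p) := by
        rw [hx']
        have := hr0 q
        field_simp
      rw [hkey, map_mul, map_mul, map_pow, hvr, hvz, one_pow, mul_one, mul_one]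
      exact hz'
    obtain ⟨a, ha⟩ := v.exists_valuation_sub_lt_of_integer (K := F) hvz.le
      (Units.mk0 (exp (-(N : ℤ))) exp_ne_zero)
    rw [Units.val_mk0] at ha
    have hva : v.valuation F (algebraMap (𝓞 F) F a) = 1 := by
      have h1 : algebraMap (𝓞 F) F a = (z : F) + (algebraMap (𝓞 F) F a - (z : F)) := by ring
      rw [h1, Valuation.map_add_eq_of_lt_left, hvz]
      rw [hvz]
      exact lt_trans ha hexpN
    have haP : a ∉ v.asIdeal := by
      rw [valuation_of_algebraMap] at hva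
      exact intValuation_eq_one_iff.mp hva
    have h3 : v.valuation F (algebraMap (𝓞 F) F a ^ p - (z : F) ^ p) ≤ exp (-(N : ℤ)) :=
      (valuation_pow_sub_pow_le v hva.le hvz.le p).trans ha.le
    have h4 : v.valuation F (algebraMap (𝓞 F) F (r q' - r q * a ^ p)) ≤ exp (-(N : ℤ)) := by
      have hkey : algebraMap (𝓞 F) F (r q' - r q * a ^ p) =
          (algebraMap (𝓞 F) F (r q') - algebraMap (𝓞 F) F (r q) * (z : F) ^ p) -
          algebraMap (𝓞 F) F (r q) * (algebraMap (𝓞 F) F a ^ p - (z : F) ^ p) := by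
        rw [map_sub, map_mul, map_pow]
        ring
      rw [hkey]
      refine Valuation.map_sub_le _ h2 ?_
      rw [map_mul, hvr, one_mul]
      exact h3
    rw [valuation_of_algebraMap, intValuation_le_pow_iff_mem] at h4
    have hrel : Ideal.Quotient.mk (v.asIdeal ^ N) (r q') =
        Ideal.Quotient.mk (v.asIdeal ^ N) (r q * a ^ p) := Ideal.Quotient.eq.mpr h4
    have hua : IsUnit (Ideal.Quotient.mk (v.asIdeal ^ N) a) :=
      (Ideal.Quotient.isUnit_mk_pow_iff_notMem v.asIdeal hN0).mpr haP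
    obtain ⟨-, u, hu, huq⟩ := hr q
    obtain ⟨-, u', hu', huq'⟩ := hr q'
    have huu : u' = u * hua.unit ^ p := by
      apply Units.ext
      rw [Units.val_mul, Units.val_pow_eq_pow_val, IsUnit.unit_spec, hu, hu', hrel, map_mul,
        map_pow]
    have hqq : q = q' := by
      rw [← huq, ← huq', huu, QuotientGroup.eq]
      refine ⟨hua.unit, ?_⟩
      rw [powMonoidHom_apply]
      group
    exact Prod.ext (Fin.ext hkk) hqq
  have hfinQ : Finite (Fˣ ⧸ locPowSubgroup p v) := by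
    have h := (Fermat.Agent.S14.helper4204.index_locPowSubgroup v hp hζ).1
    rw [Subgroup.index_eq_card] at h
    exact Nat.finite_of_card_ne_zero h
  rw [Subgroup.index_eq_card]
  calc p ^ 2 * Ideal.absNorm v.asIdeal ^ e
      = Nat.card (Fin p × ((𝓞 F ⧸ v.asIdeal ^ N)ˣ ⧸
          (powMonoidHom p : (𝓞 F ⧸ v.asIdeal ^ N)ˣ →* (𝓞 F ⧸ v.asIdeal ^ N)ˣ).range)) := by
        rw [Nat.card_prod, Nat.card_fin, hcardQ]; ring
    _ ≤ Nat.card (Fˣ ⧸ locPowSubgroup p v) := Nat.card_le_card_of_injective g hg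

/-- The local `p`-th powers at `v` have index exactly `p ^ 2 * Nv ^ (ord_v p)` in `Fˣ`. -/
theorem index_locPowSubgroup_eq {p : ℕ} (hp : p.Prime) {ζ : F} (hζ : IsPrimitiveRoot ζ p) :
    (locPowSubgroup p v).index = p ^ 2 * Ideal.absNorm v.asIdeal ^ ordP v p :=
  le_antisymm (Fermat.Agent.S14.helper4204.index_locPowSubgroup v hp hζ).2
    (le_index_locPowSubgroup v hp hζ)

end LowerBound

end

end Fermat.Agent.S55.helper1957
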