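/-
S55 / number-field core (NF), sub-block HNT (Hasse norm theorem for cyclic degree-`p` layers).
helper1980.  Carrier-free interfaces, in the completion-free language of the S14 modules
(`helper2613` S-units, `helper1892` `LocPow`, `helper165` `normHom`, `Split`).

* `LocNormN F E v N x`, `LocNorm F E v x` : `x ∈ Fˣ` is a norm from `E` at the finite place `v`
  (to precision `N` / to every precision): completion-free version of
  "`x` is a norm from `E ⊗_F F_v`".
* `Stmt_LocNormProper F E` : **(LN) local first inequality** at the places that do not split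
  completely: some element of `Fˣ` is not a local norm there.
* `Stmt_HasseNorm F E` : **Hasse norm theorem** : everywhere local norm ⟹ global norm.
* auxiliary interfaces `Stmt_ApproxN`, `Stmt_LocPowOpen`, `Stmt_KummerLaw`.

The counting proof (file `helper1980_HasseCount.lean`) derives `Stmt_HasseNorm F E` from
`helper1892.Stmt_TateCount F p` (second inequality, S14-M6), `helper165.Stmt_SUnitNormIndex F E p`
(S-unit Herbrand quotient, S14-M5), `helper1892.Stmt_LocIndex F p` and `Stmt_LocNormProper F E`.
-/
import Mathlib
import Fermat.Agent.S14.helper2613_SUnit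
import Fermat.Agent.S14.helper1892_M6Defs
import Fermat.Agent.S14.helper165_FirstIneqSpec

set_option autoImplicit false

open IsDedekindDomain NumberField

namespace Fermat.Agent.S55.helper1980

open Fermat.Agent.S14.helper2613 (ordAt SUnits)
open Fermat.Agent.S14.helper1892 (LocPowN LocPow ClassGen locPowS)
open Fermat.Agent.S14.helper165 (normHom Split IsAbove)

noncomputable section

variable (F E : Type) [Field F] [NumberField F] [Field E] [NumberField E] [Algebra F E]

/-- `x` is a norm from `E` at the finite place `v` of `F` to precision `N`: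
there is `y ∈ Eˣ` with `ord_v (x / N_{E/F} y - 1) ≥ N`. -/
def LocNormN (v : HeightOneSpectrum (𝓞 F)) (N : ℕ) (x : Fˣ) : Prop :=
  ∃ y : Eˣ, v.valuation F ((x : F) / ((normHom F E y : Fˣ) : F) - 1) ≤ WithZero.exp (-(N : ℤ))

/-- Completion-free version of "`x` is a norm from `E ⊗_F F_v`". -/
def LocNorm (v : HeightOneSpectrum (𝓞 F)) (x : Fˣ) : Prop :=
  ∀ N : ℕ, LocNormN F E v N x

/-- **(LN), local first inequality**: at a place which does not split completely in `E`, not
every element of `Fˣ` is a local norm. -/
def Stmt_LocNormProper : Prop :=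
  ∀ v : HeightOneSpectrum (𝓞 F), ¬ Split F E v → ∃ x : Fˣ, ¬ LocNorm F E v x

/-- **Hasse norm theorem** for `E / F`: an element which is a local norm at every finite place
is a global norm. -/
def Stmt_HasseNorm : Prop :=
  ∀ a : Fˣ, (∀ v : HeightOneSpectrum (𝓞 F), LocNorm F E v a) → a ∈ (normHom F E).range

variable {E} in
/-- **Strong form of weak approximation**: simultaneous multiplicative approximation of finitely
many elements of `Fˣ` at finitely many places, to any precision. -/
def Stmt_ApproxN : Prop :=
  ∀ (S : Finset (HeightOneSpectrum (𝓞 F))) (x : HeightOneSpectrum (𝓞 F) → Fˣ) (N : ℕ),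
    ∃ z : Fˣ, ∀ v ∈ S, v.valuation F ((z : F) / (x v : F) - 1) ≤ WithZero.exp (-(N : ℤ))

variable {E} in
/-- **Hensel for `p`-th powers, completion-free**: elements close to `1` at `v` are local
`p`-th powers at `v`. -/
def Stmt_LocPowOpen (p : ℕ) : Prop :=
  ∀ v : HeightOneSpectrum (𝓞 F), ∃ N : ℕ, ∀ x : Fˣ,
    v.valuation F ((x : F) - 1) ≤ WithZero.exp (-(N : ℤ)) → LocPow p v x

/-- **Kummer decomposition law** for `E = F(b^(1/p))` at the places not over `p` where `b` is a
unit: unramified, and split as soon as `b` is a local `p`-th power. -/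
def Stmt_KummerLaw (p : ℕ) (b : Fˣ) : Prop :=
  ∀ v : HeightOneSpectrum (𝓞 F), (p : 𝓞 F) ∉ v.asIdeal → ordAt v b = 0 →
    v.asIdeal.ramificationIdxIn (𝓞 E) = 1 ∧ (LocPow p v b → Split F E v)

/-- **Local input** (corollary of the local norm index theorem, LA-NORMIDX): for a Galois
extension `L / K` of prime degree `p` of finite extensions of `ℚ_ℓ` inside `PadicAlgCl ℓ`, the
norm `Lˣ → Kˣ` is not surjective. -/
def Stmt_LocalNormNotSurj (ℓ p : ℕ) [Fact ℓ.Prime] : Prop :=
  ∀ (K : IntermediateField ℚ_[ℓ] (PadicAlgCl ℓ)) (L : IntermediateField K (PadicAlgCl ℓ)),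
    FiniteDimensional ℚ_[ℓ] K → IsGalois K L → Module.finrank K L = p →
    ∃ u : Kˣ, u ∉ (Units.map (Algebra.norm K : L →* K)).range

end

end Fermat.Agent.S55.helper1980
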