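/-
S55 moonshot, leaf NF-LOCNORM-COUNT (seat helper4029), part (a): the unique prime `w` of `E`
above a nonsplit prime `v` of `F`, for a Galois extension `E / F` of number fields of prime
degree `p`.

* `nonsplit_data`     : `v` not split ⟹ exactly one prime above `v`, and `e * f = p`;
* `exists_liesOver`   : a place `w` of `E` above `v`;
* `valuation_gal_eq`  : `w (σ x) = w x` for `σ ∈ Gal(E/F)` (unique prime above `v`);
* `nonsplit_ef`       : `e * f = p`, `w (a) = v (a) ^ e` for `a ∈ F`, `N w = N v ^ f`;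
* `valuation_le_of_le`, `valuation_le_of_le_pow` : comparison of the precisions at `v`, `w`;
* `absNorm_pow_ordP_eq` : `N w ^ ord_w p = (N v ^ ord_v p) ^ p`;
* `index_locPowSubgroup_above` : `[Eˣ : P_w] ≤ p ^ 2 * (N v ^ ord_v p) ^ p` (and is finite).
-/
import Mathlib
import Fermat.Agent.S14.helper4204_LocalPow
import Fermat.Agent.S14.helper165_FirstIneqSpec
import Fermat.Agent.S14.helper4373_KummerDecomp
import Fermat.Agent.S14.helper3127_HerbrandUnits

set_option autoImplicit false

namespace Fermat.Agent.S55.helper4029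

/-! ## The unique prime above a nonsplit place -/

section NF

open NumberField IsDedekindDomain HeightOneSpectrum WithZero
open Fermat.Agent.S14.helper1892 (LocPow LocPowN locPowSubgroup)
open Fermat.Agent.S14.helper165 (normHom Split)
open Fermat.Agent.S14.helper4204 (ordP)
open Fermat.Agent.S14
open scoped Pointwise

variable {F E : Type} [Field F] [NumberField F] [Field E] [NumberField E] [Algebra F E]
  [IsGalois F E]

/-- A nonsplit prime has exactly one prime above it, with `e * f = p`. -/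
theorem nonsplit_data {p : ℕ} (hp : p.Prime) (hdeg : Module.finrank F E = p)
    (v : HeightOneSpectrum (𝓞 F)) (hns : ¬ Split F E v) :
    (v.asIdeal.primesOver (𝓞 E)).ncard = 1 ∧
      v.asIdeal.ramificationIdxIn (𝓞 E) * v.asIdeal.inertiaDegIn (𝓞 E) = p := by
  rcases helper4373.nf_trichotomy F E hp hdeg v.asIdeal with h | h | h
  · exact absurd (h.1.trans hdeg.symm) hns
  · exact ⟨h.1, by rw [h.2.1, h.2.2, mul_one]⟩
  · exact ⟨h.1, by rw [h.2.1, h.2.2, one_mul]⟩

/-- The valuation at the unique prime above `v` is Galois invariant. -/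
theorem valuation_gal_eq (v : HeightOneSpectrum (𝓞 F)) (w : HeightOneSpectrum (𝓞 E))
    [w.asIdeal.LiesOver v.asIdeal] (h1 : (v.asIdeal.primesOver (𝓞 E)).ncard = 1)
    (σ : E ≃ₐ[F] E) (x : E) : w.valuation E (σ x) = w.valuation E x := by
  have hσw : σ • w.asIdeal = w.asIdeal :=
    helper4373.smul_eq_of_ncard_eq_one v.asIdeal h1 w.asIdeal σ
  have := helper4373.isGaloisGroup_ringOfIntegers F E
  obtain ⟨a, b, hb, rfl⟩ := IsFractionRing.div_surjective (A := 𝓞 E) x
  have key : ∀ c : 𝓞 E, σ (algebraMap (𝓞 E) E c) = algebraMap (𝓞 E) E (σ • c) := by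
    intro c
    rw [algebraMap.smul']
    rfl
  rw [map_div₀, key, key, map_div₀, map_div₀, valuation_of_algebraMap, valuation_of_algebraMap,
    valuation_of_algebraMap, valuation_of_algebraMap,
    helper4373.intValuation_smul w σ hσw, helper4373.intValuation_smul w σ hσw]

/-- Ramification data of the prime `w` above a nonsplit `v`: `e * f = p`, valuations of
elements of `F` are raised to the power `e`, and `N w = N v ^ f`. -/
theorem nonsplit_ef {p : ℕ} (hp : p.Prime) (hdeg : Module.finrank F E = p)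
    (v : HeightOneSpectrum (𝓞 F)) (w : HeightOneSpectrum (𝓞 E))
    [w.asIdeal.LiesOver v.asIdeal] (hns : ¬ Split F E v) :
    ∃ e f : ℕ, e * f = p ∧ e ≠ 0 ∧
      (∀ a : F, w.valuation E (algebraMap F E a) = v.valuation F a ^ e) ∧
      Ideal.absNorm w.asIdeal = Ideal.absNorm v.asIdeal ^ f := by
  have := helper4373.isGaloisGroup_ringOfIntegers F E
  obtain ⟨-, hef⟩ := nonsplit_data hp hdeg v hns
  have he : v.asIdeal.ramificationIdxIn (𝓞 E) = v.asIdeal.ramificationIdx' w.asIdeal := by
    rw [Ideal.ramificationIdxIn_eq_ramificationIdx v.asIdeal w.asIdeal Gal(E/F),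
      Ideal.ramificationIdx'_eq_ramificationIdx v.asIdeal w.asIdeal v.ne_bot]
  have hf : v.asIdeal.inertiaDegIn (𝓞 E) = w.asIdeal.inertiaDeg (𝓞 F) :=
    Ideal.inertiaDegIn_eq_inertiaDeg v.asIdeal w.asIdeal Gal(E/F)
  refine ⟨v.asIdeal.ramificationIdx' w.asIdeal, w.asIdeal.inertiaDeg (𝓞 F), ?_, ?_, ?_, ?_⟩
  · rw [← he, ← hf, hef]
  · exact Ideal.IsDedekindDomain.ramificationIdx'_ne_zero_of_liesOver w.asIdeal v.ne_bot
  · intro a
    exact (HeightOneSpectrum.valuation_liesOver E v w a).symm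
  · exact (Ideal.absNorm_pow_inertiaDeg v.asIdeal w.asIdeal).symm

/-- `N w ^ ord_w p = (N v ^ ord_v p) ^ p` for the prime `w` above a nonsplit `v`. -/
theorem absNorm_pow_ordP_eq {p : ℕ} (hp : p.Prime) (hdeg : Module.finrank F E = p)
    (v : HeightOneSpectrum (𝓞 F)) (w : HeightOneSpectrum (𝓞 E))
    [w.asIdeal.LiesOver v.asIdeal] (hns : ¬ Split F E v) :
    Ideal.absNorm w.asIdeal ^ ordP w p = (Ideal.absNorm v.asIdeal ^ ordP v p) ^ p := by
  obtain ⟨e, f, hef, -, hval, hN⟩ := nonsplit_ef hp hdeg v w hns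
  have h1 := helper4204.valuation_natCast_eq w hp.ne_zero
  have h2 := helper4204.valuation_natCast_eq v hp.ne_zero
  have h3 := hval (p : F)
  rw [map_natCast, h1, h2, ← exp_nsmul, exp_inj] at h3
  have h4 : ordP w p = e * ordP v p := by
    have : (ordP w p : ℤ) = (e : ℤ) * (ordP v p : ℤ) := by
      simp only [nsmul_eq_mul, mul_neg] at h3
      linarith
    exact_mod_cast this
  rw [hN, h4, ← pow_mul, ← pow_mul, ← hef]
  congr 1
  ring

omit [IsGalois F E] in
/-- There is a place of `E` above every place of `F`. -/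
theorem exists_liesOver (v : HeightOneSpectrum (𝓞 F)) :
    ∃ w : HeightOneSpectrum (𝓞 E), w.asIdeal.LiesOver v.asIdeal := by
  obtain ⟨w, hw⟩ := helper3127.exists_place_over (E := E) v
  exact ⟨w, ⟨hw.symm⟩⟩

omit [IsGalois F E] in
/-- Precision at `v` implies the same precision at a place `w` above `v`. -/
theorem valuation_algebraMap_le (v : HeightOneSpectrum (𝓞 F)) (w : HeightOneSpectrum (𝓞 E))
    [w.asIdeal.LiesOver v.asIdeal] {a : F} {N : ℕ}
    (h : v.valuation F a ≤ exp (-(N : ℤ))) :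
    w.valuation E (algebraMap F E a) ≤ exp (-(N : ℤ)) := by
  have he : v.asIdeal.ramificationIdx' w.asIdeal ≠ 0 :=
    Ideal.IsDedekindDomain.ramificationIdx'_ne_zero_of_liesOver w.asIdeal v.ne_bot
  rw [← HeightOneSpectrum.valuation_liesOver E v w a]
  rcases eq_or_ne (v.valuation F a) 0 with h0 | h0
  · rw [h0, zero_pow he]
    exact zero_le
  · obtain ⟨m, hm⟩ : ∃ m : ℤ, v.valuation F a = exp m := ⟨_, (exp_log h0).symm⟩
    rw [hm, exp_le_exp] at h
    rw [hm, ← exp_nsmul, exp_le_exp, nsmul_eq_mul]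
    have h1 : (1 : ℤ) ≤ (v.asIdeal.ramificationIdx' w.asIdeal : ℤ) := by
      exact_mod_cast Nat.one_le_iff_ne_zero.mpr he
    have h2 : (0 : ℤ) ≤ (N : ℤ) := Nat.cast_nonneg N
    nlinarith

/-- Precision `p * N` at the prime `w` above a nonsplit `v` implies precision `N` at `v`. -/
theorem valuation_le_of_algebraMap_le {p : ℕ} (hp : p.Prime) (hdeg : Module.finrank F E = p)
    (v : HeightOneSpectrum (𝓞 F)) (w : HeightOneSpectrum (𝓞 E))
    [w.asIdeal.LiesOver v.asIdeal] (hns : ¬ Split F E v) {a : F} {N : ℕ}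
    (h : w.valuation E (algebraMap F E a) ≤ exp (-((p * N : ℕ) : ℤ))) :
    v.valuation F a ≤ exp (-(N : ℤ)) := by
  obtain ⟨e, f, hef, he0, hval, -⟩ := nonsplit_ef hp hdeg v w hns
  rw [hval] at h
  rcases eq_or_ne (v.valuation F a) 0 with h0 | h0
  · rw [h0]
    exact zero_le
  · obtain ⟨m, hm⟩ : ∃ m : ℤ, v.valuation F a = exp m := ⟨_, (exp_log h0).symm⟩
    rw [hm, ← exp_nsmul, exp_le_exp, nsmul_eq_mul] at h
    rw [hm, exp_le_exp]
    have he1 : (1 : ℤ) ≤ (e : ℤ) := by exact_mod_cast Nat.one_le_iff_ne_zero.mpr he0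
    have hep : (e : ℤ) ≤ (p : ℤ) := by
      have : e ≤ p := by
        rw [← hef]
        exact Nat.le_mul_of_pos_right e (Nat.pos_of_ne_zero (by
          rintro rfl
          rw [mul_zero] at hef
          exact hp.ne_zero hef.symm))
      exact_mod_cast this
    have h2 : (0 : ℤ) ≤ (N : ℤ) := Nat.cast_nonneg N
    push_cast at h
    by_contra hcon
    have hcon' : -(N : ℤ) < m := not_le.mp hcon
    nlinarith

/-- `[Eˣ : P_w] ≤ p ^ 2 * (N v ^ ord_v p) ^ p` (and finite) at the prime `w` above a nonsplit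
`v`. -/
theorem index_locPowSubgroup_above {p : ℕ} (hp : p.Prime) (hdeg : Module.finrank F E = p)
    {ζ : F} (hζ : IsPrimitiveRoot ζ p)
    (v : HeightOneSpectrum (𝓞 F)) (w : HeightOneSpectrum (𝓞 E))
    [w.asIdeal.LiesOver v.asIdeal] (hns : ¬ Split F E v) :
    (locPowSubgroup p w).index ≠ 0 ∧
      (locPowSubgroup p w).index ≤ p ^ 2 * (Ideal.absNorm v.asIdeal ^ ordP v p) ^ p := by
  have hζE : IsPrimitiveRoot (algebraMap F E ζ) p :=
    hζ.map_of_injective (FaithfulSMul.algebraMap_injective F E)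
  have h := helper4204.index_locPowSubgroup w hp hζE
  rw [absNorm_pow_ordP_eq hp hdeg v w hns] at h
  exact h

end NF

end Fermat.Agent.S55.helper4029
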