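/-
S55 / NF-LOCNORM-COUNT (seat helper1957, registry backup; owner helper4029).

Completion-free local norm index at a non-split place of a Galois extension `E / F` of prime
degree `p` (odd, `ζ_p ∈ F`), by counting: inert, tamely and wildly ramified places uniformly.
-/
import Mathlib
import Fermat.Agent.S14.helper1892_M6Defs
import Fermat.Agent.S14.helper4204_LocalPow
import Fermat.Agent.S14.helper165_FirstIneqSpec
import Fermat.Agent.S14.helper4373_KummerDecomp
import Fermat.Agent.S55.helper1957_BlockCount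
import Fermat.Agent.S55.helper1957_LocPowLower
import Fermat.Agent.S55.helper4029_NonsplitPlace
import Fermat.Agent.S55.helper1980_HasseSpec

set_option autoImplicit false
set_option linter.style.haveILetI false
set_option linter.unusedSectionVars false

open IsDedekindDomain IsDedekindDomain.HeightOneSpectrum NumberField WithZero

namespace Fermat.Agent.S55.helper1957

open Fermat.Agent.S14.helper1892 (LocPow LocPowN locPowSubgroup)
open Fermat.Agent.S14.helper4204 (ordP)
open Fermat.Agent.S14.helper165 (normHom Split)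

noncomputable section

/-! ## Multiplicative closeness for a valuation -/

section Close

variable {K Γ₀ : Type*} [Field K] [LinearOrderedCommGroupWithZero Γ₀] (val : Valuation K Γ₀)

theorem val_eq_one_of_close {γ : Γ₀} (hγ : γ < 1) {t : K} (h : val (t - 1) ≤ γ) : val t = 1 := by
  have := val.map_one_add_of_lt (lt_of_le_of_lt h hγ)
  simpa using this

theorem close_mul {γ : Γ₀} (hγ : γ < 1) {s t : K} (hs : val (s - 1) ≤ γ)
    (ht : val (t - 1) ≤ γ) : val (s * t - 1) ≤ γ := by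
  have key : s * t - 1 = (s - 1) * t + (t - 1) := by ring
  rw [key]
  refine val.map_add_le ?_ ht
  rw [map_mul, val_eq_one_of_close val hγ ht, mul_one]
  exact hs

theorem close_inv {γ : Γ₀} (hγ : γ < 1) {t : K} (ht : val (t - 1) ≤ γ) :
    val (t⁻¹ - 1) ≤ γ := by
  have h1 := val_eq_one_of_close val hγ ht
  have ht0 : t ≠ 0 := by
    rintro rfl
    rw [map_zero] at h1
    exact zero_ne_one h1
  have key : t⁻¹ - 1 = -(t - 1) * t⁻¹ := by
    field_simp
    ring
  rw [key, map_mul, map_inv₀, h1, inv_one, mul_one, Valuation.map_neg]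
  exact ht

theorem close_div {γ : Γ₀} (hγ : γ < 1) {s t : K} (hs : val (s - 1) ≤ γ)
    (ht : val (t - 1) ≤ γ) : val (s / t - 1) ≤ γ := by
  rw [div_eq_mul_inv]
  exact close_mul val hγ hs (close_inv val hγ ht)

theorem close_pow {γ : Γ₀} (hγ : γ < 1) {t : K} (ht : val (t - 1) ≤ γ) (n : ℕ) :
    val (t ^ n - 1) ≤ γ := by
  induction n with
  | zero => simp
  | succ n ih =>
    rw [pow_succ]
    exact close_mul val hγ ih ht

open Polynomial in
/-- If `t ^ p` is close to `1` (precision `γ ^ p`) then `t` is close to a `p`-th root of unity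
(precision `γ`). -/
theorem exists_root_close {p : ℕ} (hp : 0 < p) {ζ : K} (hζ : IsPrimitiveRoot ζ p) {γ : Γ₀}
    {t : K} (ht : val (t ^ p - 1) ≤ γ ^ p) : ∃ k : Fin p, val (t - ζ ^ (k : ℕ)) ≤ γ := by
  classical
  haveI : NeZero p := ⟨hp.ne'⟩
  have hne : (nthRootsFinset p (1 : K)).Nonempty :=
    ⟨1, (mem_nthRootsFinset hp 1).mpr (one_pow p)⟩
  obtain ⟨η₀, hη₀, hmin⟩ := Finset.exists_min_image _ (fun η => val (t - η)) hne
  obtain ⟨i, hi, rfl⟩ := hζ.eq_pow_of_pow_eq_one ((mem_nthRootsFinset hp 1).mp hη₀)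
  refine ⟨⟨i, hi⟩, ?_⟩
  by_contra hcon
  rw [not_le] at hcon
  have h1 : γ ^ p < val (t - ζ ^ i) ^ p := pow_lt_pow_left₀ hcon zero_le hp.ne'
  have h2 : val (t - ζ ^ i) ^ p ≤ val (t ^ p - 1) := by
    calc val (t - ζ ^ i) ^ p = ∏ _η ∈ nthRootsFinset p (1 : K), val (t - ζ ^ i) := by
          rw [Finset.prod_const, hζ.card_nthRootsFinset]
      _ ≤ ∏ η ∈ nthRootsFinset p (1 : K), val (t - η) :=
          Finset.prod_le_prod' (fun η hη => hmin η hη)
      _ = val (t ^ p - 1) := by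
          rw [← map_prod, ← Fermat.Agent.S14.helper4204.pow_sub_one_eq_prod_roots hp hζ t]
  exact absurd (h2.trans ht) (not_le.mpr h1)

end Close

/-! ## The kernel of `Fˣ / P_v → Eˣ / P_w` has at most `p` elements (pigeonhole form) -/

section Kernel

variable {F E : Type} [Field F] [NumberField F] [Field E] [NumberField E] [Algebra F E]

/-- **Approximate local Kummer theory (trace trick).**  `w` a place of `E` over the place `v` of
`F`, fixed by the Galois group.  Among `p + 1` elements of `Fˣ` which are local `p`-th powers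
at `w`, two differ by a local `p`-th power at `v`. -/
theorem exists_pair_locPow [IsGalois F E] {p : ℕ} (hp : p.Prime)
    (hdeg : Module.finrank F E = p) {ζ : F} (hζ : IsPrimitiveRoot ζ p)
    (v : HeightOneSpectrum (𝓞 F)) (w : HeightOneSpectrum (𝓞 E)) {e : ℕ} (he : e ≠ 0)
    (hwv : ∀ c : F, w.valuation E (algebraMap F E c) = v.valuation F c ^ e)
    (hσw : ∀ (σ : E ≃ₐ[F] E) (x : E), w.valuation E (σ x) = w.valuation E x)
    (x : Fin (p + 1) → Fˣ)
    (hx : ∀ j, LocPow p w (Units.map (algebraMap F E : F →* E) (x j))) :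
    ∃ i j, i ≠ j ∧ LocPow p v (x i / x j) := by
  classical
  have hcard : Nat.card (E ≃ₐ[F] E) = p := (IsGalois.card_aut_eq_finrank F E).trans hdeg
  have hfact : Fact p.Prime := ⟨hp⟩
  have hcyc : IsCyclic (E ≃ₐ[F] E) := isCyclic_of_prime_card hcard
  obtain ⟨σ, hσ⟩ := IsCyclic.exists_generator (α := E ≃ₐ[F] E)
  obtain ⟨W, hW⟩ : ∃ W : Valuation E ℤᵐ⁰, W = w.valuation E := ⟨_, rfl⟩
  obtain ⟨ev, hev⟩ : ∃ ev, ev = ordP v p := ⟨_, rfl⟩
  obtain ⟨ew, hew⟩ : ∃ ew, ew = ordP w p := ⟨_, rfl⟩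
  obtain ⟨m', hm'⟩ : ∃ m', m' = e * (2 * ev + 1) := ⟨_, rfl⟩
  obtain ⟨m, hm⟩ : ∃ m, m = m' + ew := ⟨_, rfl⟩
  obtain ⟨M, hM⟩ : ∃ M, M = p * m := ⟨_, rfl⟩
  have hm'pos : 0 < m' := by
    rw [hm']
    exact Nat.mul_pos (Nat.pos_of_ne_zero he) (by omega)
  have hmpos : 0 < m := by omega
  have hmM : m ≤ M := by
    rw [hM]
    exact Nat.le_mul_of_pos_left m hp.pos
  have hγm' : exp (-(m' : ℤ)) < (1 : ℤᵐ⁰) := by
    rw [← exp_zero, exp_lt_exp]; omega
  have hγm : exp (-(m : ℤ)) < (1 : ℤᵐ⁰) := by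
    rw [← exp_zero, exp_lt_exp]; omega
  have hγM : exp (-(M : ℤ)) < (1 : ℤᵐ⁰) := by
    rw [← exp_zero, exp_lt_exp]; omega
  have hMm : exp (-(M : ℤ)) = exp (-(m : ℤ)) ^ p := by
    rw [← exp_nsmul, hM]
    congr 1
    push_cast
    simp
  have hMm' : exp (-(M : ℤ)) ≤ exp (-(m' : ℤ)) := by
    rw [exp_le_exp]; omega
  -- the approximate roots
  have hz : ∀ j, ∃ z : Eˣ,
      W (algebraMap F E (x j : F) / (z : E) ^ p - 1) ≤ exp (-(M : ℤ)) := by
    intro j
    obtain ⟨z, hz⟩ := hx j M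
    refine ⟨z, ?_⟩
    rw [hW]
    simpa using hz
  choose z hz using hz
  obtain ⟨ζ', hζ'def⟩ : ∃ ζ' : E, ζ' = algebraMap F E ζ := ⟨_, rfl⟩
  have hζ' : IsPrimitiveRoot ζ' p := by
    rw [hζ'def]
    exact hζ.map_of_injective (algebraMap F E).injective
  have hWζ : ∀ k : ℕ, W (ζ' ^ k) = 1 := by
    intro k
    have h1 : W ζ' ^ p = 1 := by rw [← map_pow, hζ'.pow_eq_one, map_one]
    have h2 : W ζ' = 1 := by
      rcases lt_trichotomy (W ζ') 1 with h | h | h
      · exact absurd h1 (pow_lt_one₀ zero_le h hp.ne_zero).ne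
      · exact h
      · exact absurd h1 (one_lt_pow₀ h hp.ne_zero).ne'
    rw [map_pow, h2, one_pow]
  have hX0 : ∀ j, algebraMap F E (x j : F) ≠ 0 := fun j => by simp
  have hz0 : ∀ j, (z j : E) ≠ 0 := fun j => (z j).ne_zero
  have hσz0 : ∀ j, σ (z j : E) ≠ 0 := fun j => by simp
  have hσW : ∀ (τ : E ≃ₐ[F] E) (a : E), W (τ a - 1) = W (a - 1) := by
    intro τ a
    have : τ a - 1 = τ (a - 1) := by rw [map_sub, map_one]
    rw [this, hW, hσw]
  have hk : ∀ j, ∃ k : Fin p, W (σ (z j : E) / (z j : E) - ζ' ^ (k : ℕ)) ≤ exp (-(m : ℤ)) := by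
    intro j
    apply exists_root_close W hp.pos hζ'
    rw [← hMm]
    have ha : (σ (z j : E) / (z j : E)) ^ p = (algebraMap F E (x j : F) / (z j : E) ^ p) /
        σ (algebraMap F E (x j : F) / (z j : E) ^ p) := by
      rw [map_div₀, map_pow, σ.commutes, div_pow]
      have h1 := hX0 j
      have h2 := hz0 j
      have h3 := hσz0 j
      field_simp
    rw [ha]
    refine close_div W hγM (hz j) ?_
    rw [hσW]
    exact hz j
  choose k hk using hk
  obtain ⟨i, j, hij, hkij⟩ := Fintype.exists_ne_map_eq_of_card_lt k (by simp)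
  refine ⟨i, j, hij, ?_⟩
  obtain ⟨y, hy⟩ : ∃ y : E, y = (z i : E) / (z j : E) := ⟨_, rfl⟩
  have hy0 : y ≠ 0 := by
    rw [hy]
    exact div_ne_zero (hz0 i) (hz0 j)
  obtain ⟨U, hU⟩ : ∃ U : E, U = algebraMap F E ((x i / x j : Fˣ) : F) := ⟨_, rfl⟩
  -- (1) `u ≈ y ^ p`
  have h1 : W (U / y ^ p - 1) ≤ exp (-(M : ℤ)) := by
    have hkey : U / y ^ p = (algebraMap F E (x i : F) / (z i : E) ^ p) /
        (algebraMap F E (x j : F) / (z j : E) ^ p) := by
      rw [hU, hy, Units.val_div_eq_div_val, map_div₀, div_pow]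
      have h1 := hX0 j
      have h2 := hz0 j
      have h3 := hz0 i
      field_simp
    rw [hkey]
    exact close_div W hγM (hz i) (hz j)
  -- (2) `σ y ≈ y`
  have hWt : ∀ j, W (σ (z j : E) / (z j : E)) = 1 := by
    intro j
    have hkey : σ (z j : E) / (z j : E) =
        ζ' ^ (k j : ℕ) + (σ (z j : E) / (z j : E) - ζ' ^ (k j : ℕ)) := by ring
    rw [hkey, Valuation.map_add_eq_of_lt_left, hWζ]
    rw [hWζ]
    exact lt_of_le_of_lt (hk j) hγm
  have h2 : W (σ y / y - 1) ≤ exp (-(m : ℤ)) := by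
    have hkey : σ y / y - 1 = (σ (z i : E) / (z i : E) - σ (z j : E) / (z j : E)) /
        (σ (z j : E) / (z j : E)) := by
      rw [hy, map_div₀]
      have h1 := hz0 j
      have h2 := hz0 i
      have h3 := hσz0 j
      field_simp
    rw [hkey, map_div₀, hWt j, div_one]
    have hkey2 : σ (z i : E) / (z i : E) - σ (z j : E) / (z j : E) =
        (σ (z i : E) / (z i : E) - ζ' ^ (k i : ℕ)) -
        (σ (z j : E) / (z j : E) - ζ' ^ (k j : ℕ)) := by
      rw [hkij]; ring
    rw [hkey2]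
    exact W.map_sub_le (hk i) (hk j)
  -- (3) `τ y ≈ y` for all `τ`
  have h3 : ∀ τ : E ≃ₐ[F] E, W (τ y / y - 1) ≤ exp (-(m : ℤ)) := by
    have hpow : ∀ n : ℕ, W ((σ ^ n) y / y - 1) ≤ exp (-(m : ℤ)) := by
      intro n
      induction n with
      | zero => simp [div_self hy0]
      | succ n ih =>
        have hσy0 : σ y ≠ 0 := by simpa using hy0
        have hkey : (σ ^ (n + 1)) y / y = σ ((σ ^ n) y / y) * (σ y / y) := by
          rw [pow_succ', AlgEquiv.mul_apply, map_div₀]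
          field_simp
        rw [hkey]
        refine close_mul W hγm ?_ h2
        rw [hσW]
        exact ih
    intro τ
    have hτ : τ ∈ Submonoid.powers σ := mem_powers_iff_mem_zpowers.mpr (hσ τ)
    obtain ⟨n, rfl⟩ := hτ
    exact hpow n
  -- (4) the trace
  obtain ⟨c0, hc0⟩ : ∃ c0 : F, c0 = Algebra.trace F E y := ⟨_, rfl⟩
  have htr : algebraMap F E c0 = ∑ τ : E ≃ₐ[F] E, τ y := by
    rw [hc0]
    exact trace_eq_sum_automorphisms y
  have hsum : algebraMap F E c0 / y - (p : E) = ∑ τ : E ≃ₐ[F] E, (τ y / y - 1) := by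
    rw [Finset.sum_sub_distrib, ← Finset.sum_div, ← htr, Finset.sum_const, Finset.card_univ,
      ← Nat.card_eq_fintype_card, hcard]
    simp
  have h4 : W (algebraMap F E c0 / y - (p : E)) ≤ exp (-(m : ℤ)) := by
    rw [hsum]
    exact W.map_sum_le (fun τ _ => h3 τ)
  have hWp : W (p : E) = exp (-(ew : ℤ)) := by
    rw [hew, hW]
    exact Fermat.Agent.S14.helper4204.valuation_natCast_eq w hp.ne_zero
  have hpE : (p : E) ≠ 0 := by exact_mod_cast hp.ne_zero
  have hpF : (p : F) ≠ 0 := by exact_mod_cast hp.ne_zero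
  obtain ⟨c, hc⟩ : ∃ c : F, c = c0 / (p : F) := ⟨_, rfl⟩
  have hCy : algebraMap F E c / y - 1 = (algebraMap F E c0 / y - (p : E)) / (p : E) := by
    rw [hc, map_div₀, map_natCast]
    field_simp
  have h5 : W (algebraMap F E c / y - 1) ≤ exp (-(m' : ℤ)) := by
    rw [hCy, map_div₀, hWp]
    calc W (algebraMap F E c0 / y - (p : E)) / exp (-(ew : ℤ))
        ≤ exp (-(m : ℤ)) / exp (-(ew : ℤ)) := by
          rw [div_eq_mul_inv _ (exp (-(ew : ℤ))), div_eq_mul_inv _ (exp (-(ew : ℤ)))]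
          exact mul_le_mul' h4 le_rfl
      _ = exp (-(m' : ℤ)) := by
        rw [← exp_sub]
        congr 1
        rw [hm]
        push_cast
        ring
  have hC0 : algebraMap F E c ≠ 0 := by
    intro h
    have h' := val_eq_one_of_close W hγm' h5
    rw [h, zero_div, map_zero] at h'
    exact zero_ne_one h'
  have hc0' : c ≠ 0 := fun h => hC0 (by rw [h, map_zero])
  -- (5), (6) `u ≈ c ^ p` at `w`
  have h6 : W (U / (algebraMap F E c) ^ p - 1) ≤ exp (-(m' : ℤ)) := by
    have hkey : U / (algebraMap F E c) ^ p = (U / y ^ p) / (algebraMap F E c / y) ^ p := by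
      rw [div_pow]
      field_simp
    rw [hkey]
    exact close_div W hγm' (h1.trans hMm') (close_pow W hγm' h5 p)
  -- (7) transfer to `v`
  obtain ⟨d, hd⟩ : ∃ d : F, d = ((x i / x j : Fˣ) : F) / c ^ p - 1 := ⟨_, rfl⟩
  have hdE : algebraMap F E d = U / (algebraMap F E c) ^ p - 1 := by
    rw [hd, hU, map_sub, map_div₀, map_pow, map_one]
  have h7 : v.valuation F d ≤ exp (-((2 * ev + 1 : ℕ) : ℤ)) := by
    by_contra hcon
    rw [not_le] at hcon
    have h := pow_lt_pow_left₀ hcon zero_le he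
    rw [← hwv, hdE, ← exp_nsmul, ← hW] at h
    have h' : exp (-(m' : ℤ)) = exp (e • (-((2 * ev + 1 : ℕ) : ℤ))) := by
      congr 1
      rw [hm']
      push_cast
      simp
      ring
    rw [← h'] at h
    exact absurd h6 (not_le.mpr h)
  -- (8) Hensel
  have hloc : LocPow p v ((x i / x j) / (Units.mk0 c hc0') ^ p) := by
    apply Fermat.Agent.S14.helper4204.locPow_of_valuation_sub_one_le v hp (N := 2 * ev + 1)
      (by rw [hev]; omega)
    have hkey : (((x i / x j) / (Units.mk0 c hc0') ^ p : Fˣ) : F) - 1 = d := by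
      rw [hd]
      simp [Units.val_div_eq_div_val]
    rw [hkey]
    exact h7
  have hfin : x i / x j = ((x i / x j) / (Units.mk0 c hc0') ^ p) * (Units.mk0 c hc0') ^ p := by
    rw [div_mul_cancel]
  rw [hfin]
  exact Fermat.Agent.S14.helper1892.locPow_mul hloc
    (Fermat.Agent.S14.helper1892.locPow_pow p v _)

/-- **(e), index form.**  The local `p`-th powers `P_v` have (finite) index at most `p` in the
group of elements of `Fˣ` which are local `p`-th powers at `w`. -/
theorem relIndex_locPow_comap_le [IsGalois F E] {p : ℕ} (hp : p.Prime)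
    (hdeg : Module.finrank F E = p) {ζ : F} (hζ : IsPrimitiveRoot ζ p)
    (v : HeightOneSpectrum (𝓞 F)) (w : HeightOneSpectrum (𝓞 E)) {e : ℕ} (he : e ≠ 0)
    (hwv : ∀ c : F, w.valuation E (algebraMap F E c) = v.valuation F c ^ e)
    (hσw : ∀ (σ : E ≃ₐ[F] E) (x : E), w.valuation E (σ x) = w.valuation E x) :
    (locPowSubgroup p v).relIndex
        ((locPowSubgroup p w).comap (Units.map (algebraMap F E : F →* E))) ≠ 0 ∧
      (locPowSubgroup p v).relIndex
        ((locPowSubgroup p w).comap (Units.map (algebraMap F E : F →* E))) ≤ p := by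
  classical
  obtain ⟨K, hK⟩ : ∃ K : Subgroup Fˣ,
      K = (locPowSubgroup p w).comap (Units.map (algebraMap F E : F →* E)) := ⟨_, rfl⟩
  rw [← hK]
  have hne : (locPowSubgroup p v).relIndex K ≠ 0 := fun h =>
    (Fermat.Agent.S14.helper4204.index_locPowSubgroup v hp hζ).1
      (Subgroup.index_eq_zero_of_relIndex_eq_zero h)
  refine ⟨hne, ?_⟩
  by_contra hcon
  rw [not_le] at hcon
  have hcard : (locPowSubgroup p v).relIndex K =
      Nat.card (↥K ⧸ (locPowSubgroup p v).subgroupOf K) := rfl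
  have hfin : Finite (↥K ⧸ (locPowSubgroup p v).subgroupOf K) :=
    Nat.finite_of_card_ne_zero (hcard ▸ hne)
  have hle : p + 1 ≤ Nat.card (↥K ⧸ (locPowSubgroup p v).subgroupOf K) := by
    rw [← hcard]
    exact hcon
  let f : Fin (p + 1) → ↥K ⧸ (locPowSubgroup p v).subgroupOf K :=
    fun i => (Finite.equivFin _).symm (Fin.castLE hle i)
  have hf : Function.Injective f :=
    (Finite.equivFin _).symm.injective.comp (Fin.castLE_injective hle)
  have hrep : ∀ i, ∃ x : ↥K, (QuotientGroup.mk x : ↥K ⧸ (locPowSubgroup p v).subgroupOf K) = f i :=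
    fun i => QuotientGroup.mk_surjective (f i)
  choose x hx using hrep
  have hKmem : ∀ a : Fˣ, a ∈ K → LocPow p w (Units.map (algebraMap F E : F →* E) a) := by
    intro a ha
    rw [hK] at ha
    exact ha
  obtain ⟨i, j, hij, hloc⟩ := exists_pair_locPow hp hdeg hζ v w he hwv hσw
    (fun i => (x i : Fˣ)) (fun i => hKmem _ (x i).2)
  apply hij
  apply hf
  rw [← hx i, ← hx j]
  refine (QuotientGroup.eq.mpr ?_).symm
  rw [Subgroup.mem_subgroupOf]
  have : ((((x j)⁻¹ * x i : ↥K) : Fˣ)) = (x i : Fˣ) / (x j : Fˣ) := by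
    rw [Subgroup.coe_mul, Subgroup.coe_inv, inv_mul_eq_div]
  rw [this]
  exact hloc

/-- **(e)** at the prime `w` above a non-split `v`, in the shape consumed by the assembly. -/
theorem relIndex_locPow_comap_le_of_nonsplit [IsGalois F E] {p : ℕ} (hp : p.Prime)
    (hdeg : Module.finrank F E = p) {ζ : F} (hζ : IsPrimitiveRoot ζ p)
    (v : HeightOneSpectrum (𝓞 F)) (w : HeightOneSpectrum (𝓞 E))
    [w.asIdeal.LiesOver v.asIdeal] (hns : ¬ Split F E v) :
    (locPowSubgroup p v).relIndex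
        ((locPowSubgroup p w).comap (Units.map (algebraMap F E : F →* E))) ≠ 0 ∧
      (locPowSubgroup p v).relIndex
        ((locPowSubgroup p w).comap (Units.map (algebraMap F E : F →* E))) ≤ p := by
  obtain ⟨e, f, -, he, hval, -⟩ := Fermat.Agent.S55.helper4029.nonsplit_ef hp hdeg v w hns
  exact relIndex_locPow_comap_le hp hdeg hζ v w he hval
    (Fermat.Agent.S55.helper4029.valuation_gal_eq v w
      (Fermat.Agent.S55.helper4029.nonsplit_data hp hdeg v hns).1)

end Kernel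

/-! ## Assembly: a non-norm at every non-split place -/

section Assembly

variable {F E : Type} [Field F] [NumberField F] [Field E] [NumberField E] [Algebra F E]

/-- `N_{E/F} y = ∏_{i < p} σ^i y` for a generator `σ` of the Galois group of order `p`. -/
theorem algebraMap_norm_eq_prod_pow_gen [IsGalois F E] {p : ℕ}
    (hcard : Nat.card (E ≃ₐ[F] E) = p) {σ : E ≃ₐ[F] E}
    (hσ : ∀ τ : E ≃ₐ[F] E, τ ∈ Subgroup.zpowers σ) (y : E) :
    algebraMap F E (Algebra.norm F y) = ∏ i ∈ Finset.range p, (σ ^ i) y := by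
  classical
  have hord : orderOf σ = p := by
    rw [orderOf_eq_card_of_forall_mem_zpowers hσ, hcard]
  rw [Algebra.norm_eq_prod_automorphisms, ← hord]
  have himg : (Finset.univ : Finset (E ≃ₐ[F] E)) =
      (Finset.range (orderOf σ)).image (fun i => σ ^ i) := by
    ext τ
    simp only [Finset.mem_univ, Finset.mem_image, Finset.mem_range, true_iff]
    have h1 : τ ∈ Subgroup.zpowers σ := hσ τ
    rw [← mem_powers_iff_mem_zpowers] at h1
    obtain ⟨k, hk⟩ := h1
    refine ⟨k % orderOf σ, Nat.mod_lt _ (orderOf_pos σ), ?_⟩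
    rw [pow_mod_orderOf]
    exact hk
  rw [himg, Finset.prod_image]
  intro i hi j hj hij
  exact pow_injOn_Iio_orderOf (by simpa using hi) (by simpa using hj) hij

/-- **Local first inequality by counting.**  `E / F` Galois of odd prime degree `p`, `ζ_p ∈ F`,
`v` a place of `F` which does not split completely in `E` (inert, tamely or wildly ramified).
Then some `x ∈ Fˣ` is not a norm from `E` at `v`, already to precision `2 ord_v p + 1`. -/
theorem exists_not_norm_approx [IsGalois F E] {p : ℕ} (hp : p.Prime) (hodd : p ≠ 2)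
    (hdeg : Module.finrank F E = p) {ζ : F} (hζ : IsPrimitiveRoot ζ p)
    (v : HeightOneSpectrum (𝓞 F)) (hns : ¬ Split F E v) :
    ∃ x : Fˣ, ∀ y : Eˣ, ¬ (v.valuation F ((x : F) / ((normHom F E y : Fˣ) : F) - 1) ≤
      exp (-((2 * ordP v p + 1 : ℕ) : ℤ))) := by
  classical
  obtain ⟨w, hw⟩ := Fermat.Agent.S55.helper4029.exists_liesOver (E := E) v
  obtain ⟨h1, -⟩ := Fermat.Agent.S55.helper4029.nonsplit_data hp hdeg v hns
  have hgal := Fermat.Agent.S55.helper4029.valuation_gal_eq v w h1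
  by_contra hcon
  have hcon' : ∀ x : Fˣ, ∃ y : Eˣ,
      v.valuation F ((x : F) / ((normHom F E y : Fˣ) : F) - 1) ≤
        exp (-((2 * ordP v p + 1 : ℕ) : ℤ)) := by
    intro x
    by_contra hx
    exact hcon ⟨x, fun y hy => hx ⟨y, hy⟩⟩
  have hcard : Nat.card (E ≃ₐ[F] E) = p := (IsGalois.card_aut_eq_finrank F E).trans hdeg
  have hfact : Fact p.Prime := ⟨hp⟩
  have hcyc : IsCyclic (E ≃ₐ[F] E) := isCyclic_of_prime_card hcard
  obtain ⟨σ, hσ⟩ := IsCyclic.exists_generator (α := E ≃ₐ[F] E)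
  obtain ⟨Q, hQ⟩ : ∃ Q : ℕ, Q = Ideal.absNorm v.asIdeal ^ ordP v p := ⟨_, rfl⟩
  have hQpos : 0 < Q := by
    rw [hQ]
    exact pow_pos (Fermat.Agent.S14.helper4204.absNorm_pos v) _
  -- the groups
  obtain ⟨Pv, hPv⟩ : ∃ Pv : Subgroup Fˣ, Pv = locPowSubgroup p v := ⟨_, rfl⟩
  obtain ⟨Pw, hPw⟩ : ∃ Pw : Subgroup Eˣ, Pw = locPowSubgroup p w := ⟨_, rfl⟩
  obtain ⟨ι, hι⟩ : ∃ ι : Fˣ →* Eˣ, ι = Units.map (algebraMap F E : F →* E) := ⟨_, rfl⟩
  have hιcoe : ∀ a : Fˣ, ((ι a : Eˣ) : E) = algebraMap F E (a : F) := by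
    intro a
    rw [hι]
    rfl
  have hPv_mem : ∀ a : Fˣ, a ∈ Pv ↔ LocPow p v a := by
    intro a
    rw [hPv]
    rfl
  have hPw_mem : ∀ a : Eˣ, a ∈ Pw ↔ LocPow p w a := by
    intro a
    rw [hPw]
    rfl
  -- index bounds
  have hPw_idx : Pw.index ≠ 0 ∧ Pw.index ≤ p ^ 2 * Q ^ p := by
    rw [hPw, hQ]
    exact Fermat.Agent.S55.helper4029.index_locPowSubgroup_above hp hdeg hζ v w hns
  have hPv_idx : p ^ 2 * Q ≤ Pv.index := by
    rw [hPv, hQ]
    exact le_index_locPowSubgroup v hp hζ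
  have hker : Pv.relIndex (Pw.comap ι) ≤ p := by
    rw [hPv, hPw, hι]
    exact (relIndex_locPow_comap_le_of_nonsplit hp hdeg hζ v w hns).2
  -- `P_v ≤ ι⁻¹ P_w`
  have hPK : Pv ≤ Pw.comap ι := by
    intro a ha
    rw [Subgroup.mem_comap, hPw_mem]
    rw [hPv_mem] at ha
    intro N
    obtain ⟨y, hy⟩ := ha N
    refine ⟨ι y, ?_⟩
    have hkey : ((ι a : Eˣ) : E) / ((ι y : Eˣ) : E) ^ p - 1 =
        algebraMap F E ((a : F) / (y : F) ^ p - 1) := by
      rw [hιcoe, hιcoe, map_sub, map_div₀, map_pow, map_one]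
    rw [hkey]
    exact Fermat.Agent.S55.helper4029.valuation_algebraMap_le v w hy
  have hKidx : p * Q ≤ (Pw.comap ι).index := by
    have h2 := Subgroup.relIndex_mul_index hPK
    have h3 : p ^ 2 * Q ≤ p * (Pw.comap ι).index := by
      calc p ^ 2 * Q ≤ Pv.index := hPv_idx
        _ = Pv.relIndex (Pw.comap ι) * (Pw.comap ι).index := h2.symm
        _ ≤ p * (Pw.comap ι).index := Nat.mul_le_mul_right _ hker
    have h4 : p * (p * Q) ≤ p * (Pw.comap ι).index := by
      calc p * (p * Q) = p ^ 2 * Q := by ring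
        _ ≤ p * (Pw.comap ι).index := h3
    exact Nat.le_of_mul_le_mul_left h4 hp.pos
  -- the quotient `V = Eˣ / P_w` and the action of `σ`
  have hfinV : Finite (Eˣ ⧸ Pw) := by
    have h := hPw_idx.1
    rw [Subgroup.index_eq_card] at h
    exact Nat.finite_of_card_ne_zero h
  obtain ⟨σu, hσu⟩ : ∃ σu : Eˣ →* Eˣ, σu = Units.map ((σ : E ≃ₐ[F] E) : E →* E) := ⟨_, rfl⟩
  have hσucoe : ∀ a : Eˣ, ((σu a : Eˣ) : E) = σ (a : E) := by
    intro a
    rw [hσu]
    rfl
  have hσP : Pw ≤ Pw.comap σu := by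
    intro a ha
    rw [Subgroup.mem_comap, hPw_mem]
    rw [hPw_mem] at ha
    intro N
    obtain ⟨z, hz⟩ := ha N
    refine ⟨σu z, ?_⟩
    have hkey : ((σu a : Eˣ) : E) / ((σu z : Eˣ) : E) ^ p - 1 =
        σ ((a : E) / (z : E) ^ p - 1) := by
      rw [hσucoe, hσucoe, map_sub, map_div₀, map_pow, map_one]
    rw [hkey, hgal]
    exact hz
  obtain ⟨σb, hσb⟩ : ∃ σb : Eˣ ⧸ Pw →* Eˣ ⧸ Pw, σb = QuotientGroup.map Pw Pw σu hσP :=
    ⟨_, rfl⟩
  have hσb_mk : ∀ a : Eˣ, σb (QuotientGroup.mk a) = QuotientGroup.mk (σu a) := by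
    intro a
    rw [hσb]
    rfl
  have hiter : ∀ (n : ℕ) (a : Eˣ), σb^[n] (QuotientGroup.mk a) =
      QuotientGroup.mk (Units.map (((σ ^ n : E ≃ₐ[F] E)) : E →* E) a) := by
    intro n
    induction n with
    | zero =>
      intro a
      rw [Function.iterate_zero, id_eq]
      congr 1
    | succ n ih =>
      intro a
      rw [Function.iterate_succ_apply', ih, hσb_mk]
      congr 1
      apply Units.ext
      rw [hσucoe]
      show σ ((σ ^ n) (a : E)) = (σ ^ (n + 1)) (a : E)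
      rw [pow_succ', AlgEquiv.mul_apply]
  have hexp : ∀ X : Eˣ ⧸ Pw, X ^ p = 1 := by
    intro X
    induction X using QuotientGroup.induction_on with
    | H a =>
      rw [← QuotientGroup.mk_pow, QuotientGroup.eq_one_iff, hPw_mem]
      exact Fermat.Agent.S14.helper1892.locPow_pow p w a
  have hσp : ∀ X : Eˣ ⧸ Pw, σb^[p] X = X := by
    intro X
    induction X using QuotientGroup.induction_on with
    | H a =>
      rw [hiter]
      congr 1
      apply Units.ext
      show (σ ^ p) (a : E) = (a : E)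
      have h : σ ^ p = 1 := by
        rw [← hcard]
        exact pow_card_eq_one'
      rw [h]
      rfl
  -- the norm on `V`
  have hnorm : ∀ a : Eˣ, ∏ i ∈ Finset.range p, σb^[i] (QuotientGroup.mk a : Eˣ ⧸ Pw) =
      QuotientGroup.mk (ι (normHom F E a)) := by
    intro a
    simp only [hiter]
    rw [← QuotientGroup.mk_prod]
    congr 1
    apply Units.ext
    rw [Units.coe_prod, hιcoe]
    have h := algebraMap_norm_eq_prod_pow_gen hcard hσ (a : E)
    exact h.symm
  -- the image of `Fˣ` in `V`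
  obtain ⟨φ, hφ⟩ : ∃ φ : Fˣ →* Eˣ ⧸ Pw, φ = (QuotientGroup.mk' Pw).comp ι := ⟨_, rfl⟩
  have hφker : φ.ker = Pw.comap ι := by
    rw [hφ, ← MonoidHom.comap_ker, QuotientGroup.ker_mk']
  have hφidx : (Pw.comap ι).index = Nat.card φ.range := by
    rw [← hφker]
    exact Subgroup.index_ker φ
  have hsub : (φ.range : Set (Eˣ ⧸ Pw)) ⊆
      Set.range (fun X : Eˣ ⧸ Pw => ∏ i ∈ Finset.range p, σb^[i] X) := by
    rintro _ ⟨x, rfl⟩
    obtain ⟨y, hy⟩ := hcon' x
    have hu : LocPow p v (x / normHom F E y) := by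
      apply Fermat.Agent.S14.helper4204.locPow_of_valuation_sub_one_le v hp
        (N := 2 * ordP v p + 1) (by omega)
      rw [Units.val_div_eq_div_val]
      exact hy
    have huK : ι (x / normHom F E y) ∈ Pw := hPK ((hPv_mem _).mpr hu)
    refine ⟨QuotientGroup.mk y, ?_⟩
    show ∏ i ∈ Finset.range p, σb^[i] (QuotientGroup.mk y : Eˣ ⧸ Pw) = φ x
    rw [hnorm, hφ]
    show (QuotientGroup.mk (ι (normHom F E y)) : Eˣ ⧸ Pw) = QuotientGroup.mk (ι x)
    rw [QuotientGroup.eq]
    have hkey : (ι (normHom F E y))⁻¹ * ι x = ι (x / normHom F E y) := by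
      rw [map_div, div_eq_mul_inv, mul_comm]
    rw [hkey]
    exact huK
  have hcount : Nat.card φ.range ≤
      Nat.card (Set.range (fun X : Eˣ ⧸ Pw => ∏ i ∈ Finset.range p, σb^[i] X)) :=
    Nat.card_mono (Set.toFinite _) hsub
  have hblock := card_range_norm_pow_le (V := Eˣ ⧸ Pw) hp hexp σb hσp
  -- the final count
  have hfinal : (p * Q) ^ p ≤ p ^ 2 * Q ^ p := by
    calc (p * Q) ^ p ≤ (Pw.comap ι).index ^ p := Nat.pow_le_pow_left hKidx p
      _ = Nat.card φ.range ^ p := by rw [hφidx]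
      _ ≤ Nat.card (Set.range (fun X : Eˣ ⧸ Pw => ∏ i ∈ Finset.range p, σb^[i] X)) ^ p :=
          Nat.pow_le_pow_left hcount p
      _ ≤ Nat.card (Eˣ ⧸ Pw) := hblock
      _ = Pw.index := (Subgroup.index_eq_card Pw).symm
      _ ≤ p ^ 2 * Q ^ p := hPw_idx.2
  rw [mul_pow] at hfinal
  have hpp : p ^ p ≤ p ^ 2 := Nat.le_of_mul_le_mul_right hfinal (pow_pos hQpos p)
  have hp2 : p ≤ 2 := (Nat.pow_le_pow_iff_right hp.one_lt).mp hpp
  have := hp.two_le
  omega

/-- `helper1980.Stmt_LocNormProper` for a Galois extension of odd prime degree `p` of number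
fields containing `ζ_p`: the local input of the Hasse norm theorem, wild places included. -/
theorem stmt_LocNormProper [IsGalois F E] {p : ℕ} (hp : p.Prime) (hodd : p ≠ 2)
    (hdeg : Module.finrank F E = p) {ζ : F} (hζ : IsPrimitiveRoot ζ p) :
    Fermat.Agent.S55.helper1980.Stmt_LocNormProper F E := by
  intro v hns
  obtain ⟨x, hx⟩ := exists_not_norm_approx hp hodd hdeg hζ v hns
  refine ⟨x, fun h => ?_⟩
  obtain ⟨y, hy⟩ := h (2 * ordP v p + 1)
  exact hx y hy

/-- The same in unfolded (definition-agnostic) form. -/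
theorem exists_not_locNorm [IsGalois F E] {p : ℕ} (hp : p.Prime) (hodd : p ≠ 2)
    (hdeg : Module.finrank F E = p) {ζ : F} (hζ : IsPrimitiveRoot ζ p)
    (v : HeightOneSpectrum (𝓞 F)) (hns : ¬ Split F E v) :
    ∃ z : Fˣ, ¬ ∀ N : ℕ, ∃ y : Eˣ,
      v.valuation F ((z : F) / (normHom F E y : F) - 1) ≤ WithZero.exp (-(N : ℤ)) := by
  obtain ⟨x, hx⟩ := exists_not_norm_approx hp hodd hdeg hζ v hns
  refine ⟨x, fun h => ?_⟩
  obtain ⟨y, hy⟩ := h (2 * ordP v p + 1)
  exact hx y hy

end Assembly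

end

end Fermat.Agent.S55.helper1957
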