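import Mathlib

/-!
# S55-GLBRIDGE (B4): completion-free local norms <-> norms from the local field (helper1652)

Abstract number fields and an arbitrary embedding into `PadicAlgCl q`; the valuation
dictionary at the place is a hypothesis (`hv`), so the statements apply at every place.
-/

set_option autoImplicit false
set_option linter.unusedSectionVars false

namespace Fermat.Agent.S55.helper1652

open IsDedekindDomain
open scoped NumberField NNReal IntermediateField

/-! ### The local field attached to an embedding -/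

section LocalField

variable (q : ℕ) [Fact q.Prime]

/-- The local field `ℚ_q(φ K) ⊆ PadicAlgCl q` attached to an embedding `φ` of a field. -/
noncomputable def localFieldOf {K : Type*} [Field K] (φ : K →+* PadicAlgCl q) :
    IntermediateField ℚ_[q] (PadicAlgCl q) :=
  IntermediateField.adjoin ℚ_[q] (Set.range φ)

theorem apply_mem_localFieldOf {K : Type*} [Field K] (φ : K →+* PadicAlgCl q) (x : K) :
    φ x ∈ localFieldOf q φ :=
  IntermediateField.subset_adjoin _ _ ⟨x, rfl⟩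

theorem localFieldOf_comp_le {K K' : Type*} [Field K] [Field K'] (φ : K' →+* PadicAlgCl q)
    (f : K →+* K') : localFieldOf q (φ.comp f) ≤ localFieldOf q φ := by
  apply IntermediateField.adjoin_le_iff.mpr
  rintro _ ⟨x, rfl⟩
  exact apply_mem_localFieldOf q φ (f x)

variable {K : Type*} [Field K] [NumberField K] (φ : K →+* PadicAlgCl q)

/-- An embedding is compatible with rational scalars. -/
theorem map_rat_smul_padic (r : ℚ) (x : K) : φ (r • x) = (r : ℚ_[q]) • φ x := by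
  rw [Algebra.smul_def, map_mul, Algebra.smul_def, eq_ratCast, map_ratCast, map_ratCast]

/-- Elements of the local field are `ℚ_q`-linear combinations of elements of `φ K`. -/
theorem mem_span_range_of_mem_localFieldOf {y : PadicAlgCl q} (hy : y ∈ localFieldOf q φ) :
    y ∈ Submodule.span ℚ_[q] (Set.range φ) := by
  have halg : ∀ x ∈ Set.range φ, IsAlgebraic ℚ_[q] x :=
    fun x _ => Algebra.IsAlgebraic.isAlgebraic x
  have h1 : (localFieldOf q φ).toSubalgebra = Algebra.adjoin ℚ_[q] (Set.range φ) :=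
    IntermediateField.adjoin_toSubalgebra_of_isAlgebraic halg
  have h2 : y ∈ Algebra.adjoin ℚ_[q] (Set.range φ) := by
    rw [← h1]
    exact hy
  have h3 : y ∈ Submodule.span ℚ_[q]
      ((Submonoid.closure (Set.range φ) : Submonoid (PadicAlgCl q)) : Set (PadicAlgCl q)) := by
    rw [← Algebra.adjoin_eq_span]
    exact h2
  have h4 : ((Submonoid.closure (Set.range φ) : Submonoid (PadicAlgCl q)) :
      Set (PadicAlgCl q)) = Set.range φ := by
    have : (Set.range φ) = ((φ.range.toSubmonoid : Submonoid (PadicAlgCl q)) :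
        Set (PadicAlgCl q)) := rfl
    rw [this, Submonoid.closure_eq]
  rw [h4] at h3
  exact h3

/-- The images of a `ℚ`-basis of `K` span the local field over `ℚ_q`. -/
theorem exists_coeffs_of_mem_localFieldOf {n : ℕ} (b : Module.Basis (Fin n) ℚ K)
    {y : PadicAlgCl q} (hy : y ∈ localFieldOf q φ) :
    ∃ c : Fin n → ℚ_[q], y = ∑ i, c i • φ (b i) := by
  have h1 := mem_span_range_of_mem_localFieldOf q φ hy
  have h2 : Submodule.span ℚ_[q] (Set.range φ) ≤
      Submodule.span ℚ_[q] (Set.range (fun i => φ (b i))) := by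
    rw [Submodule.span_le]
    rintro _ ⟨x, rfl⟩
    have hx : x = ∑ i, b.repr x i • b i := (b.sum_repr x).symm
    rw [hx, map_sum]
    refine Submodule.sum_mem _ (fun i _ => ?_)
    rw [map_rat_smul_padic]
    exact Submodule.smul_mem _ _ (Submodule.subset_span ⟨i, rfl⟩)
  obtain ⟨c, hc⟩ := (Submodule.mem_span_range_iff_exists_fun ℚ_[q]).mp (h2 h1)
  exact ⟨c, hc.symm⟩

/-- **Density** of `φ K` in the local field `ℚ_q(φ K)`. -/
theorem exists_approx_of_mem_localFieldOf {y : PadicAlgCl q} (hy : y ∈ localFieldOf q φ)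
    {ε : ℝ} (hε : 0 < ε) : ∃ x : K, ‖φ x - y‖ < ε := by
  set n := Module.finrank ℚ K with hn
  set b : Module.Basis (Fin n) ℚ K := Module.finBasis ℚ K with hb
  obtain ⟨c, hc⟩ := exists_coeffs_of_mem_localFieldOf q φ b hy
  set B : ℝ := ∑ i, ‖φ (b i)‖ + 1 with hB
  have hB0 : 0 < B := by
    have : 0 ≤ ∑ i, ‖φ (b i)‖ := Finset.sum_nonneg (fun i _ => norm_nonneg _)
    linarith
  have hδ : 0 < ε / B := div_pos hε hB0
  choose r hr using fun i => Padic.rat_dense q (c i) hδ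
  refine ⟨∑ i, r i • b i, ?_⟩
  have h1 : φ (∑ i, r i • b i) - y = ∑ i, ((r i : ℚ_[q]) - c i) • φ (b i) := by
    rw [hc, map_sum, ← Finset.sum_sub_distrib]
    refine Finset.sum_congr rfl (fun i _ => ?_)
    rw [map_rat_smul_padic, sub_smul]
  rw [h1]
  calc ‖∑ i, ((r i : ℚ_[q]) - c i) • φ (b i)‖
      ≤ ∑ i, ‖((r i : ℚ_[q]) - c i) • φ (b i)‖ := norm_sum_le _ _
    _ ≤ ∑ i, (ε / B) * ‖φ (b i)‖ := by
        refine Finset.sum_le_sum (fun i _ => ?_)
        rw [norm_smul]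
        refine mul_le_mul_of_nonneg_right ?_ (norm_nonneg _)
        rw [← norm_neg, neg_sub]
        exact (hr i).le
    _ = (ε / B) * ∑ i, ‖φ (b i)‖ := by rw [Finset.mul_sum]
    _ < (ε / B) * B := by
        refine mul_lt_mul_of_pos_left ?_ hδ
        rw [hB]
        linarith
    _ = ε := div_mul_cancel₀ ε hB0.ne'

/-- The local field is finite over `ℚ_q`. -/
theorem finiteDimensional_localFieldOf : FiniteDimensional ℚ_[q] (localFieldOf q φ) := by
  set n := Module.finrank ℚ K with hn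
  set b : Module.Basis (Fin n) ℚ K := Module.finBasis ℚ K with hb
  have hle : (localFieldOf q φ).toSubalgebra.toSubmodule ≤
      Submodule.span ℚ_[q] (Set.range (fun i => φ (b i))) := by
    intro y hy
    obtain ⟨c, hc⟩ := exists_coeffs_of_mem_localFieldOf q φ b hy
    rw [hc]
    exact Submodule.sum_mem _ (fun i _ => Submodule.smul_mem _ _ (Submodule.subset_span ⟨i, rfl⟩))
  have : FiniteDimensional ℚ_[q]
      (Submodule.span ℚ_[q] (Set.range (fun i => φ (b i)))) :=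
    FiniteDimensional.span_of_finite ℚ_[q] (Set.finite_range _)
  exact Submodule.finiteDimensional_of_le hle

end LocalField

/-! ### The valuation dictionary, from its integrality form -/

section Dictionary

variable (q : ℕ) [Fact q.Prime]
variable {F : Type*} [Field F] [NumberField F] (φ : F →+* PadicAlgCl q)
  (v : HeightOneSpectrum (𝓞 F))

theorem valuation_lt_one_iff_of_dict (hv : ∀ x : F, v.valuation F x ≤ 1 ↔ ‖φ x‖ ≤ 1) (x : F) :
    v.valuation F x < 1 ↔ ‖φ x‖ < 1 := by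
  by_cases hx0 : x = 0
  · subst hx0
    simp
  have h := hv x⁻¹
  rw [map_inv₀, map_inv₀, norm_inv] at h
  have hv0 : v.valuation F x ≠ 0 := by
    rw [Ne, map_eq_zero]
    exact hx0
  have hn0 : 0 < ‖φ x‖ := by
    rw [norm_pos_iff, Ne, map_eq_zero]
    exact hx0
  rw [← not_le, ← not_le, not_iff_not]
  rw [inv_le_one₀ (zero_lt_iff.mpr hv0), inv_le_one₀ hn0] at h
  exact h

theorem valuation_eq_one_iff_of_dict (hv : ∀ x : F, v.valuation F x ≤ 1 ↔ ‖φ x‖ ≤ 1) (x : F) :
    v.valuation F x = 1 ↔ ‖φ x‖ = 1 := by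
  have h1 := hv x
  have h2 := valuation_lt_one_iff_of_dict q φ v hv x
  constructor
  · intro h
    exact le_antisymm (h1.mp h.le) (not_lt.mp (fun h3 => absurd (h2.mpr h3) (not_lt.mpr h.ge)))
  · intro h
    exact le_antisymm (h1.mpr h.le) (not_lt.mp (fun h3 => absurd (h2.mp h3) (not_lt.mpr h.ge)))

theorem norm_uniformizer_pos_of_dict {π : F}
    (hπ : v.valuation F π = WithZero.exp (-1 : ℤ)) : 0 < ‖φ π‖ := by
  rw [norm_pos_iff, Ne, map_eq_zero]
  rintro rfl
  rw [map_zero] at hπ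
  exact WithZero.exp_ne_zero hπ.symm

theorem norm_uniformizer_lt_one_of_dict (hv : ∀ x : F, v.valuation F x ≤ 1 ↔ ‖φ x‖ ≤ 1) {π : F}
    (hπ : v.valuation F π = WithZero.exp (-1 : ℤ)) : ‖φ π‖ < 1 := by
  rw [← valuation_lt_one_iff_of_dict q φ v hv, hπ, ← WithZero.exp_zero, WithZero.exp_lt_exp]
  norm_num

theorem norm_eq_zpow_of_dict (hv : ∀ x : F, v.valuation F x ≤ 1 ↔ ‖φ x‖ ≤ 1) {π : F}
    (hπ : v.valuation F π = WithZero.exp (-1 : ℤ)) {x : F} (k : ℤ)
    (hk : v.valuation F x = WithZero.exp (-k)) :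
    ‖φ x‖ = ‖φ π‖ ^ k := by
  have hρ := norm_uniformizer_pos_of_dict q φ v hπ
  have h1 : v.valuation F (x * (π ^ k)⁻¹) = 1 := by
    rw [map_mul, map_inv₀, map_zpow₀, hπ, hk, ← WithZero.exp_zsmul, smul_eq_mul, mul_neg_one]
    exact mul_inv_cancel₀ WithZero.exp_ne_zero
  have h2 := (valuation_eq_one_iff_of_dict q φ v hv _).mp h1
  rw [map_mul, map_inv₀, map_zpow₀, norm_mul, norm_inv, norm_zpow] at h2
  exact (mul_inv_eq_one₀ (zpow_ne_zero _ hρ.ne')).mp h2

/-- **Quantitative dictionary**: `v(x) ≤ exp (-N)` iff `‖φ x‖ ≤ ‖φ π‖ ^ N`, for a uniformizer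
`π` at `v`. -/
theorem valuation_le_exp_iff_of_dict (hv : ∀ x : F, v.valuation F x ≤ 1 ↔ ‖φ x‖ ≤ 1) {π : F}
    (hπ : v.valuation F π = WithZero.exp (-1 : ℤ)) (x : F) (N : ℤ) :
    v.valuation F x ≤ WithZero.exp (-N) ↔ ‖φ x‖ ≤ ‖φ π‖ ^ N := by
  have hρ0 := norm_uniformizer_pos_of_dict q φ v hπ
  have hρ1 := norm_uniformizer_lt_one_of_dict q φ v hv hπ
  by_cases hx : x = 0
  · subst hx
    simp only [map_zero, norm_zero, zero_le, true_iff]
    exact zpow_nonneg hρ0.le _
  · have hv0 : v.valuation F x ≠ 0 := by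
      rw [Ne, map_eq_zero]
      exact hx
    set k : ℤ := - WithZero.log (v.valuation F x) with hkdef
    have hk : v.valuation F x = WithZero.exp (-k) := by
      rw [hkdef, neg_neg, WithZero.exp_log hv0]
    rw [norm_eq_zpow_of_dict q φ v hv hπ k hk, hk, WithZero.exp_le_exp, neg_le_neg_iff]
    exact (zpow_le_zpow_iff_right_of_lt_one₀ hρ0 hρ1).symm

end Dictionary

/-! ### Ultrametric estimates in `PadicAlgCl q` -/

section Ultrametric

variable (q : ℕ) [Fact q.Prime]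

/-- Automorphisms of `PadicAlgCl q` over `ℚ_q` are isometries. -/
theorem norm_algEquiv_apply (s : PadicAlgCl q ≃ₐ[ℚ_[q]] PadicAlgCl q) (x : PadicAlgCl q) :
    ‖s x‖ = ‖x‖ := by
  rw [← PadicAlgCl.spectralNorm_eq, ← PadicAlgCl.spectralNorm_eq]
  exact (spectralNorm_eq_of_equiv s x).symm

theorem continuous_algEquiv (s : PadicAlgCl q ≃ₐ[ℚ_[q]] PadicAlgCl q) :
    Continuous (fun x : PadicAlgCl q => s x) :=
  (AddMonoidHomClass.isometry_of_norm s (norm_algEquiv_apply q s)).continuous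

/-- Ultrametric: `‖a - 1‖ < 1` forces `‖a‖ = 1`. -/
theorem norm_eq_one_of_norm_sub_one_lt' {a : PadicAlgCl q} (h : ‖a - 1‖ < 1) : ‖a‖ = 1 := by
  have e : a = (a - 1) + 1 := by ring
  have hne : ‖a - 1‖ ≠ ‖(1 : PadicAlgCl q)‖ := by
    rw [norm_one]
    exact h.ne
  rw [e, IsUltrametricDist.norm_add_eq_max_of_norm_ne_norm hne, norm_one]
  exact max_eq_right h.le

/-- Ultrametric: a finite product of elements `r`-close to `1` (`r ≤ 1`) is `r`-close to `1`. -/
theorem norm_prod_sub_one_lt {ι : Type*} (S : Finset ι) (a : ι → PadicAlgCl q) {r : ℝ}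
    (hr0 : 0 < r) (hr1 : r ≤ 1) (h : ∀ i ∈ S, ‖a i - 1‖ < r) : ‖∏ i ∈ S, a i - 1‖ < r := by
  classical
  induction S using Finset.induction_on with
  | empty => simpa using hr0
  | insert i S hi ih =>
    rw [Finset.prod_insert hi]
    have h1 : ‖a i - 1‖ < r := h i (Finset.mem_insert_self i S)
    have h2 : ‖∏ j ∈ S, a j - 1‖ < r := ih (fun j hj => h j (Finset.mem_insert_of_mem hj))
    have h3 : ‖a i‖ = 1 := norm_eq_one_of_norm_sub_one_lt' q (h1.trans_le hr1)
    have e : a i * ∏ j ∈ S, a j - 1 = a i * (∏ j ∈ S, a j - 1) + (a i - 1) := by ring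
    rw [e]
    refine (IsUltrametricDist.norm_add_le_max _ _).trans_lt (max_lt ?_ h1)
    rw [norm_mul, h3, one_mul]
    exact h2

/-- Ultrametric: `‖w - 1‖ < r ≤ 1` gives `w ≠ 0` and `‖w⁻¹ - 1‖ < r`. -/
theorem norm_inv_sub_one_lt {w : PadicAlgCl q} {r : ℝ} (hr1 : r ≤ 1) (h : ‖w - 1‖ < r) :
    w ≠ 0 ∧ ‖w⁻¹ - 1‖ < r := by
  have h1 : ‖w‖ = 1 := norm_eq_one_of_norm_sub_one_lt' q (h.trans_le hr1)
  have hw0 : w ≠ 0 := by
    rintro rfl
    simp at h1
  refine ⟨hw0, ?_⟩
  have e : w⁻¹ - 1 = - ((w - 1) * w⁻¹) := by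
    field_simp
    ring
  rw [e, norm_neg, norm_mul, norm_inv, h1, inv_one, mul_one]
  exact h

end Ultrametric

/-! ### Galois bookkeeping -/

section Galois

/-- A ring endomorphism of the target which fixes the image of `F` induces an `F`-automorphism
of a normal extension `E`. -/
theorem exists_algEquiv_of_fixes {F E Ω : Type*} [Field F] [Field E] [Field Ω] [Algebra F E]
    [Normal F E] (τ : E →+* Ω) (s : Ω →+* Ω)
    (hsF : ∀ x : F, s (τ (algebraMap F E x)) = τ (algebraMap F E x)) :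
    ∃ σ₀ : E ≃ₐ[F] E, ∀ x : E, s (τ x) = τ (σ₀ x) := by
  let _ : Algebra E Ω := τ.toAlgebra
  let _ : Algebra F Ω := (τ.comp (algebraMap F E)).toAlgebra
  have _ : IsScalarTower F E Ω := IsScalarTower.of_algebraMap_eq (fun _ => rfl)
  let ψ : E →ₐ[F] Ω := { (s.comp τ) with commutes' := fun x => hsF x }
  refine ⟨Normal.algHomEquivAut F Ω E ψ, fun x => ?_⟩
  have h := (Normal.algHomEquivAut F Ω E).left_inv ψ
  have h2 := congrArg (fun f : E →ₐ[F] Ω => f x) h
  exact h2.symm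

/-- The norm of a cyclic Galois extension as a product over the powers of a generator. -/
theorem algebraMap_norm_eq_prod_pow {F E : Type*} [Field F] [Field E] [Algebra F E]
    [FiniteDimensional F E] [IsGalois F E] (σ₀ : E ≃ₐ[F] E)
    (hgen : ∀ σ : E ≃ₐ[F] E, σ ∈ Subgroup.zpowers σ₀) (y : E) :
    algebraMap F E (Algebra.norm F y) =
      ∏ j ∈ Finset.range (Module.finrank F E), (σ₀ ^ j) y := by
  classical
  rw [Algebra.norm_eq_prod_automorphisms]
  have hcard : Nat.card (E ≃ₐ[F] E) = Module.finrank F E := IsGalois.card_aut_eq_finrank F E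
  have ho : orderOf σ₀ = Nat.card (E ≃ₐ[F] E) := orderOf_eq_card_of_forall_mem_zpowers hgen
  have himg : Finset.image (fun i : ℕ => σ₀ ^ i) (Finset.range (Module.finrank F E)) =
      Finset.univ := by
    rw [← hcard]
    exact IsCyclic.image_range_card hgen
  rw [← himg, Finset.prod_image]
  intro i hi j hj hij
  have hi' : i ∈ Set.Iio (orderOf σ₀) := by
    rw [ho, hcard]
    exact Finset.mem_range.mp hi
  have hj' : j ∈ Set.Iio (orderOf σ₀) := by
    rw [ho, hcard]
    exact Finset.mem_range.mp hj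
  exact pow_injOn_Iio_orderOf hi' hj' hij

/-- Compatibility of powers. -/
theorem pow_apply_of_comm {E Ω : Type*} [Field E] [Field Ω] {F K : Type*} [Field F] [Field K]
    [Algebra F E] [Algebra K Ω] (τ : E →+* Ω) (σ₀ : E ≃ₐ[F] E) (s : Ω ≃ₐ[K] Ω)
    (hs : ∀ x : E, s (τ x) = τ (σ₀ x)) (j : ℕ) (x : E) :
    (s ^ j) (τ x) = τ ((σ₀ ^ j) x) := by
  induction j generalizing x with
  | zero => simp
  | succ j ih =>
    rw [pow_succ, pow_succ, AlgEquiv.mul_apply, AlgEquiv.mul_apply, hs, ih]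

end Galois

/-! ### (B4a) non-split cyclic layer -/

section NonSplit

variable (q : ℕ) [Fact q.Prime]
variable {F E : Type*} [Field F] [NumberField F] [Field E] [NumberField E] [Algebra F E]
  [IsGalois F E]
variable (τ : E →+* PadicAlgCl q) (v : HeightOneSpectrum (𝓞 F))

/-- `τ ∘ N_{E/F}` as a product over the powers of a local automorphism inducing a generator of
`Gal(E/F)`. -/
theorem map_norm_eq_prod_pow (σ₀ : E ≃ₐ[F] E) (hgen : ∀ σ : E ≃ₐ[F] E, σ ∈ Subgroup.zpowers σ₀)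
    (s : PadicAlgCl q ≃ₐ[ℚ_[q]] PadicAlgCl q) (hs : ∀ x : E, s (τ x) = τ (σ₀ x)) (y : E) :
    τ (algebraMap F E (Algebra.norm F y)) =
      ∏ j ∈ Finset.range (Module.finrank F E), (s ^ j) (τ y) := by
  rw [algebraMap_norm_eq_prod_pow σ₀ hgen y, map_prod]
  exact Finset.prod_congr rfl (fun j _ => (pow_apply_of_comm τ σ₀ s hs j y).symm)

/-- **(B4a), `⇐`.**  Cyclic `E / F` with generator `σ₀`, `s` a local automorphism with
`s ∘ τ = τ ∘ σ₀` (so the place is non-split): a norm from the local field `ℚ_q(τ E)` is a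
completion-free local norm. -/
theorem locNorm_of_exists_prod_pow_eq
    (hv : ∀ x : F, v.valuation F x ≤ 1 ↔ ‖τ (algebraMap F E x)‖ ≤ 1)
    (σ₀ : E ≃ₐ[F] E) (hgen : ∀ σ : E ≃ₐ[F] E, σ ∈ Subgroup.zpowers σ₀)
    (s : PadicAlgCl q ≃ₐ[ℚ_[q]] PadicAlgCl q) (hs : ∀ x : E, s (τ x) = τ (σ₀ x)) (b : Fˣ)
    (h : ∃ y ∈ localFieldOf q τ, y ≠ 0 ∧
      ∏ j ∈ Finset.range (Module.finrank F E), (s ^ j) y = τ (algebraMap F E (b : F))) :
    ∀ N : ℕ, ∃ y : Eˣ, v.valuation F ((b : F) / Algebra.norm F (y : E) - 1) ≤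
        WithZero.exp (-(N : ℤ)) := by
  obtain ⟨y, hyL, hy0, hy⟩ := h
  set φ : F →+* PadicAlgCl q := τ.comp (algebraMap F E) with hφ
  have hv' : ∀ x : F, v.valuation F x ≤ 1 ↔ ‖φ x‖ ≤ 1 := hv
  obtain ⟨π, hπ⟩ := v.valuation_exists_uniformizer F
  have hρ0 := norm_uniformizer_pos_of_dict q φ v hπ
  have hρ1 := norm_uniformizer_lt_one_of_dict q φ v hv' hπ
  intro N
  have hyn : 0 < ‖y‖ := norm_pos_iff.mpr hy0
  have hρN0 : 0 < ‖φ π‖ ^ N := pow_pos hρ0 N
  have hρN1 : ‖φ π‖ ^ N ≤ 1 := pow_le_one₀ hρ0.le hρ1.le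
  have hε : 0 < ‖φ π‖ ^ N * ‖y‖ := mul_pos hρN0 hyn
  obtain ⟨z, hz⟩ := exists_approx_of_mem_localFieldOf q τ hyL hε
  have hz1 : ‖τ z - y‖ < ‖y‖ := hz.trans_le (mul_le_of_le_one_left hyn.le hρN1)
  have hzn : ‖τ z‖ = ‖y‖ := by
    have e : τ z = (τ z - y) + y := by ring
    rw [e, IsUltrametricDist.norm_add_eq_max_of_norm_ne_norm hz1.ne]
    exact max_eq_right hz1.le
  have hz0 : z ≠ 0 := by
    rintro rfl
    rw [map_zero, norm_zero] at hzn
    exact hyn.ne hzn
  refine ⟨Units.mk0 z hz0, ?_⟩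
  have hu : ‖τ z / y - 1‖ < ‖φ π‖ ^ N := by
    have e : τ z / y - 1 = (τ z - y) / y := by field_simp
    rw [e, norm_div, div_lt_iff₀ hyn]
    exact hz
  have hprod : φ (Algebra.norm F z) / φ (b : F) =
      ∏ j ∈ Finset.range (Module.finrank F E), (s ^ j) (τ z / y) := by
    have h1 : φ (Algebra.norm F z) = τ (algebraMap F E (Algebra.norm F z)) := rfl
    have h2 : φ (b : F) = τ (algebraMap F E (b : F)) := rfl
    rw [h1, h2, map_norm_eq_prod_pow q τ σ₀ hgen s hs z, ← hy, ← Finset.prod_div_distrib]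
    exact Finset.prod_congr rfl (fun j _ => (map_div₀ (s ^ j) _ _).symm)
  have hw : ‖φ (Algebra.norm F z) / φ (b : F) - 1‖ < ‖φ π‖ ^ N := by
    rw [hprod]
    refine norm_prod_sub_one_lt q _ _ hρN0 hρN1 (fun j _ => ?_)
    have e : (s ^ j) (τ z / y) - 1 = (s ^ j) (τ z / y - 1) := by rw [map_sub, map_one]
    rw [e, norm_algEquiv_apply]
    exact hu
  obtain ⟨-, hw'⟩ := norm_inv_sub_one_lt q hρN1 hw
  rw [valuation_le_exp_iff_of_dict q φ v hv' hπ, map_sub, map_div₀, map_one, zpow_natCast]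
  have e : φ (b : F) / φ (Algebra.norm F ((Units.mk0 z hz0 : Eˣ) : E)) - 1 =
      (φ (Algebra.norm F z) / φ (b : F))⁻¹ - 1 := by
    rw [inv_div]
    rfl
  rw [e]
  exact hw'.le

/-- **(B4a), `⇒`.**  Same setting: a completion-free local norm is a norm from the local field
`ℚ_q(τ E)` (compactness of bounded sets of the local field). -/
theorem exists_prod_pow_eq_of_locNorm
    (hv : ∀ x : F, v.valuation F x ≤ 1 ↔ ‖τ (algebraMap F E x)‖ ≤ 1)
    (σ₀ : E ≃ₐ[F] E) (hgen : ∀ σ : E ≃ₐ[F] E, σ ∈ Subgroup.zpowers σ₀)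
    (s : PadicAlgCl q ≃ₐ[ℚ_[q]] PadicAlgCl q) (hs : ∀ x : E, s (τ x) = τ (σ₀ x)) (b : Fˣ)
    (h : ∀ N : ℕ, ∃ y : Eˣ, v.valuation F ((b : F) / Algebra.norm F (y : E) - 1) ≤
        WithZero.exp (-(N : ℤ))) :
    ∃ y ∈ localFieldOf q τ, y ≠ 0 ∧
      ∏ j ∈ Finset.range (Module.finrank F E), (s ^ j) y = τ (algebraMap F E (b : F)) := by
  set φ : F →+* PadicAlgCl q := τ.comp (algebraMap F E) with hφ
  have hv' : ∀ x : F, v.valuation F x ≤ 1 ↔ ‖φ x‖ ≤ 1 := hv
  obtain ⟨π, hπ⟩ := v.valuation_exists_uniformizer F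
  have hρ0 := norm_uniformizer_pos_of_dict q φ v hπ
  have hρ1 := norm_uniformizer_lt_one_of_dict q φ v hv' hπ
  set n := Module.finrank F E with hn
  have hn0 : n ≠ 0 := (Module.finrank_pos (R := F) (M := E)).ne'
  choose z hz using fun N : ℕ => h (N + 1)
  set ξ : PadicAlgCl q := φ (b : F) with hξ
  have hξ0 : ξ ≠ 0 := by
    rw [hξ, Ne, map_eq_zero]
    exact b.ne_zero
  set t : ℕ → PadicAlgCl q := fun N => τ ((z N : Eˣ) : E) with ht
  have ht0 : ∀ N, t N ≠ 0 := by
    intro N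
    rw [ht]
    simp only [Ne, map_eq_zero]
    exact (z N).ne_zero
  set P : ℕ → PadicAlgCl q := fun N => ∏ j ∈ Finset.range n, (s ^ j) (t N) with hP
  have hPeq : ∀ N, P N = φ (Algebra.norm F ((z N : Eˣ) : E)) := fun N =>
    (map_norm_eq_prod_pow q τ σ₀ hgen s hs _).symm
  have hu : ∀ N, ‖ξ / P N - 1‖ ≤ ‖φ π‖ ^ (N + 1) := by
    intro N
    have h1 := (valuation_le_exp_iff_of_dict q φ v hv' hπ _ _).mp (hz N)
    rw [map_sub, map_div₀, map_one, zpow_natCast] at h1
    rw [hPeq]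
    exact h1
  have hlt : ∀ N, ‖φ π‖ ^ (N + 1) < 1 := fun N =>
    pow_lt_one₀ hρ0.le hρ1 (Nat.succ_ne_zero N)
  have hun : ∀ N, ‖ξ / P N‖ = 1 := fun N =>
    norm_eq_one_of_norm_sub_one_lt' q ((hu N).trans_lt (hlt N))
  have hPn : ∀ N, ‖P N‖ = ‖t N‖ ^ n := by
    intro N
    have h1 : ‖P N‖ = ∏ j ∈ Finset.range n, ‖(s ^ j) (t N)‖ := norm_prod _ _
    rw [h1, Finset.prod_congr rfl (fun j _ => norm_algEquiv_apply q (s ^ j) (t N)),
      Finset.prod_const, Finset.card_range]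
  have hP0 : ∀ N, P N ≠ 0 := by
    intro N h0
    have h1 := hPn N
    rw [h0, norm_zero] at h1
    exact (pow_pos (norm_pos_iff.mpr (ht0 N)) n).ne h1
  have htp : ∀ N, ‖t N‖ ^ n = ‖ξ‖ := by
    intro N
    have h1 := hun N
    rw [norm_div, hPn] at h1
    have h2 : 0 < ‖t N‖ ^ n := pow_pos (norm_pos_iff.mpr (ht0 N)) n
    rw [div_eq_one_iff_eq h2.ne'] at h1
    exact h1.symm
  have htb : ∀ N, ‖t N‖ ≤ max 1 ‖ξ‖ := by
    intro N
    by_cases h1 : ‖t N‖ ≤ 1
    · exact h1.trans (le_max_left _ _)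
    · rw [not_le] at h1
      have h2 : ‖t N‖ ≤ ‖t N‖ ^ n := le_self_pow₀ h1.le hn0
      rw [htp] at h2
      exact h2.trans (le_max_right _ _)
  -- compactness in the finite-dimensional `ℚ_q`-subspace underlying the local field
  let S : Submodule ℚ_[q] (PadicAlgCl q) := (localFieldOf q τ).toSubalgebra.toSubmodule
  have hSfd : FiniteDimensional ℚ_[q] S := finiteDimensional_localFieldOf q τ
  have hSproper : ProperSpace S := FiniteDimensional.proper ℚ_[q] S
  let w : ℕ → S := fun N => ⟨t N, apply_mem_localFieldOf q τ _⟩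
  have hwb : ∀ N, w N ∈ Metric.closedBall (0 : S) (max 1 ‖ξ‖) := by
    intro N
    rw [mem_closedBall_zero_iff]
    exact htb N
  obtain ⟨a, -, θ, hθ, hlim⟩ := tendsto_subseq_of_bounded Metric.isBounded_closedBall hwb
  have hlim' : Filter.Tendsto (fun N => t (θ N)) Filter.atTop (nhds (a : PadicAlgCl q)) :=
    (continuous_subtype_val.tendsto a).comp hlim
  have hlim_prod : Filter.Tendsto (fun N => P (θ N)) Filter.atTop
      (nhds (∏ j ∈ Finset.range n, (s ^ j) (a : PadicAlgCl q))) := by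
    refine tendsto_finsetProd _ (fun j _ => ?_)
    exact ((continuous_algEquiv q (s ^ j)).tendsto _).comp hlim'
  have hlim_ξ : Filter.Tendsto (fun N => P (θ N)) Filter.atTop (nhds ξ) := by
    rw [tendsto_iff_norm_sub_tendsto_zero]
    have hb : ∀ N, ‖P (θ N) - ξ‖ ≤ ‖ξ‖ * ‖φ π‖ ^ (θ N + 1) := by
      intro N
      have hne : P (θ N) ≠ 0 := hP0 _
      have e : P (θ N) - ξ = - (P (θ N) * (ξ / P (θ N) - 1)) := by
        field_simp
        ring
      rw [e, norm_neg, norm_mul, hPn, htp]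
      exact mul_le_mul_of_nonneg_left (hu _) (norm_nonneg _)
    have hθt : Filter.Tendsto (fun N => θ N + 1) Filter.atTop Filter.atTop :=
      Filter.tendsto_atTop_mono (fun N => (hθ.id_le N).trans (Nat.le_succ _)) Filter.tendsto_id
    have h0 : Filter.Tendsto (fun N => ‖ξ‖ * ‖φ π‖ ^ (θ N + 1)) Filter.atTop (nhds 0) := by
      have := ((tendsto_pow_atTop_nhds_zero_of_lt_one hρ0.le hρ1).comp hθt).const_mul ‖ξ‖
      simpa using this
    exact squeeze_zero (fun _ => norm_nonneg _) hb h0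
  have hfin := tendsto_nhds_unique hlim_prod hlim_ξ
  refine ⟨(a : PadicAlgCl q), a.2, ?_, hfin⟩
  intro ha0
  apply hξ0
  rw [← hfin]
  refine Finset.prod_eq_zero (Finset.mem_range.mpr (Nat.pos_of_ne_zero hn0)) ?_
  rw [ha0, map_zero]

/-- **(B4a), cyclic form.**  `E / F` cyclic with generator `σ₀`, `s` a `ℚ_q`-automorphism of
`PadicAlgCl q` with `s ∘ τ = τ ∘ σ₀`: `b` is a completion-free local norm at `v` iff `τ b` is a
norm from the local field `ℚ_q(τ E)`. -/
theorem locNorm_iff_exists_prod_pow_eq_of_generator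
    (hv : ∀ x : F, v.valuation F x ≤ 1 ↔ ‖τ (algebraMap F E x)‖ ≤ 1)
    (σ₀ : E ≃ₐ[F] E) (hgen : ∀ σ : E ≃ₐ[F] E, σ ∈ Subgroup.zpowers σ₀)
    (s : PadicAlgCl q ≃ₐ[ℚ_[q]] PadicAlgCl q) (hs : ∀ x : E, s (τ x) = τ (σ₀ x)) (b : Fˣ) :
    (∀ N : ℕ, ∃ y : Eˣ, v.valuation F ((b : F) / Algebra.norm F (y : E) - 1) ≤
        WithZero.exp (-(N : ℤ))) ↔
      ∃ y ∈ localFieldOf q τ, y ≠ 0 ∧
        ∏ j ∈ Finset.range (Module.finrank F E), (s ^ j) y = τ (algebraMap F E (b : F)) :=
  ⟨exists_prod_pow_eq_of_locNorm q τ v hv σ₀ hgen s hs b,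
    locNorm_of_exists_prod_pow_eq q τ v hv σ₀ hgen s hs b⟩

/-- **(B4a), prime degree.**  `E / F` Galois of prime degree `p`, `s` a `ℚ_q`-automorphism of
`PadicAlgCl q` fixing `τ F` pointwise and moving some element of `τ E` (the place is
non-split): `b` is a completion-free local norm at `v` iff `τ b = ∏_{j<p} s^j y` for some
`y ≠ 0` in the local field `ℚ_q(τ E)`. -/
theorem locNorm_iff_exists_prod_pow_eq
    (hv : ∀ x : F, v.valuation F x ≤ 1 ↔ ‖τ (algebraMap F E x)‖ ≤ 1)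
    {p : ℕ} (hp : p.Prime) (hdeg : Module.finrank F E = p)
    (s : PadicAlgCl q ≃ₐ[ℚ_[q]] PadicAlgCl q)
    (hsF : ∀ x : F, s (τ (algebraMap F E x)) = τ (algebraMap F E x))
    (hsE : ∃ x : E, s (τ x) ≠ τ x) (b : Fˣ) :
    (∀ N : ℕ, ∃ y : Eˣ, v.valuation F ((b : F) / Algebra.norm F (y : E) - 1) ≤
        WithZero.exp (-(N : ℤ))) ↔
      ∃ y ∈ localFieldOf q τ, y ≠ 0 ∧
        ∏ j ∈ Finset.range p, (s ^ j) y = τ (algebraMap F E (b : F)) := by
  obtain ⟨σ₀, hσ₀⟩ := exists_algEquiv_of_fixes τ s.toRingEquiv.toRingHom hsF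
  have hσ₀' : ∀ x : E, s (τ x) = τ (σ₀ x) := hσ₀
  have hσ1 : σ₀ ≠ 1 := by
    rintro rfl
    obtain ⟨x, hx⟩ := hsE
    exact hx (hσ₀' x)
  have : Fact p.Prime := ⟨hp⟩
  have hcard : Nat.card (E ≃ₐ[F] E) = p := (IsGalois.card_aut_eq_finrank F E).trans hdeg
  have htop := zpowers_eq_top_of_prime_card hcard hσ1
  have hgen : ∀ σ : E ≃ₐ[F] E, σ ∈ Subgroup.zpowers σ₀ := fun σ => by
    rw [htop]
    exact Subgroup.mem_top σ
  rw [← hdeg]
  exact locNorm_iff_exists_prod_pow_eq_of_generator q τ v hv σ₀ hgen s hσ₀' b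

end NonSplit

/-! ### (B4b) locally split place -/

section Split

/-- Two automorphisms agreeing at a primitive element are equal. -/
theorem algEquiv_eq_of_apply_primitive {F E : Type*} [Field F] [Field E] [Algebra F E]
    [Algebra.IsAlgebraic F E] {α : E} (hα : F⟮α⟯ = ⊤) {σ ρ : E ≃ₐ[F] E} (h : σ α = ρ α) :
    σ = ρ := by
  have halg : IsAlgebraic F α := Algebra.IsAlgebraic.isAlgebraic α
  have h1 : Algebra.adjoin F {α} = ⊤ := by
    have h2 := IntermediateField.adjoin_simple_toSubalgebra_of_isAlgebraic halg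
    rw [hα] at h2
    exact h2.symm
  have h3 : (σ : E →ₐ[F] E) = (ρ : E →ₐ[F] E) :=
    AlgHom.ext_of_adjoin_eq_top h1 (fun x hx => by
      rw [Set.mem_singleton_iff] at hx
      subst hx
      exact h)
  exact AlgEquiv.ext (fun x => congrArg (fun f : E →ₐ[F] E => f x) h3)

variable (q : ℕ) [Fact q.Prime]

/-- Galois criterion for membership in the local field: an element fixed by every
`ℚ_q`-automorphism fixing `φ K` pointwise lies in `ℚ_q(φ K)`. -/
theorem mem_localFieldOf_of_fixed {K : Type*} [Field K] (φ : K →+* PadicAlgCl q)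
    {y : PadicAlgCl q}
    (h : ∀ s : PadicAlgCl q ≃ₐ[ℚ_[q]] PadicAlgCl q, (∀ x : K, s (φ x) = φ x) → s y = y) :
    y ∈ localFieldOf q φ := by
  rw [← InfiniteGalois.fixedField_fixingSubgroup (localFieldOf q φ),
    IntermediateField.mem_fixedField_iff]
  intro s hs
  apply h
  intro x
  exact (IntermediateField.mem_fixingSubgroup_iff _ _).mp hs (φ x) (apply_mem_localFieldOf q φ x)

variable {F E : Type*} [Field F] [NumberField F] [Field E] [NumberField E] [Algebra F E]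
  [IsGalois F E]
variable (τ : E →+* PadicAlgCl q) (v : HeightOneSpectrum (𝓞 F))

/-- **(B4b).**  At a locally split place (`ℚ_q(τ E) = ℚ_q(τ F)`), every element of `Fˣ` is a
completion-free local norm.  (Lagrange interpolation at the conjugates of a primitive element
and density of `τ F` in its local field.) -/
theorem locNorm_of_localFieldOf_le
    (hv : ∀ x : F, v.valuation F x ≤ 1 ↔ ‖τ (algebraMap F E x)‖ ≤ 1)
    (hsplit : ∀ x : E, τ x ∈ localFieldOf q (τ.comp (algebraMap F E))) (b : Fˣ) :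
    ∀ N : ℕ, ∃ y : Eˣ, v.valuation F ((b : F) / Algebra.norm F (y : E) - 1) ≤
        WithZero.exp (-(N : ℤ)) := by
  classical
  set φ : F →+* PadicAlgCl q := τ.comp (algebraMap F E) with hφ
  have hv' : ∀ x : F, v.valuation F x ≤ 1 ↔ ‖φ x‖ ≤ 1 := hv
  obtain ⟨π, hπ⟩ := v.valuation_exists_uniformizer F
  have hρ0 := norm_uniformizer_pos_of_dict q φ v hπ
  have hρ1 := norm_uniformizer_lt_one_of_dict q φ v hv' hπ
  intro N
  have hρN0 : 0 < ‖φ π‖ ^ N := pow_pos hρ0 N
  have hρN1 : ‖φ π‖ ^ N ≤ 1 := pow_le_one₀ hρ0.le hρ1.le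
  have hb0 : φ (b : F) ≠ 0 := by
    rw [Ne, map_eq_zero]
    exact b.ne_zero
  obtain ⟨α, hα⟩ := Field.exists_primitive_element F E
  -- interpolation over the local field `K = ℚ_q(τ F)`
  let K : IntermediateField ℚ_[q] (PadicAlgCl q) := localFieldOf q φ
  let node : (E ≃ₐ[F] E) → K := fun σ => ⟨τ (σ α), hsplit _⟩
  have hnode_inj : Function.Injective node := by
    intro σ ρ h
    have h1 : τ (σ α) = τ (ρ α) := congrArg Subtype.val h
    exact algEquiv_eq_of_apply_primitive hα (τ.injective h1)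
  let ξ : K := ⟨φ (b : F), apply_mem_localFieldOf q φ _⟩
  let c : (E ≃ₐ[F] E) → K := fun σ => if σ = 1 then ξ else 1
  have hc : ∀ σ : E ≃ₐ[F] E, ((c σ : K) : PadicAlgCl q) = if σ = 1 then φ (b : F) else 1 := by
    intro σ
    show (((if σ = 1 then ξ else 1 : K)) : PadicAlgCl q) = _
    split_ifs <;> rfl
  let Z : Polynomial K := Lagrange.interpolate Finset.univ node c
  have hZ : ∀ σ, Polynomial.eval (node σ) Z = c σ := fun σ =>
    Lagrange.eval_interpolate_at_node c hnode_inj.injOn (Finset.mem_univ σ)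
  set d := Z.natDegree with hd
  set B : ℝ := ∑ σ : E ≃ₐ[F] E, ∑ i ∈ Finset.range (d + 1), ‖τ (σ α)‖ ^ i + 1 with hB
  have hB0 : 0 < B := by
    have : 0 ≤ ∑ σ : E ≃ₐ[F] E, ∑ i ∈ Finset.range (d + 1), ‖τ (σ α)‖ ^ i :=
      Finset.sum_nonneg (fun σ _ => Finset.sum_nonneg (fun i _ => pow_nonneg (norm_nonneg _) _))
    linarith
  set ε : ℝ := ‖φ π‖ ^ N * min 1 ‖φ (b : F)‖ with hε
  have hε0 : 0 < ε := mul_pos hρN0 (lt_min one_pos (norm_pos_iff.mpr hb0))
  have hδ : 0 < ε / B := div_pos hε0 hB0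
  have hcoef : ∀ i : ℕ, ∃ x : F, ‖φ x - ((Z.coeff i : K) : PadicAlgCl q)‖ < ε / B := fun i =>
    exists_approx_of_mem_localFieldOf q φ (Z.coeff i).2 hδ
  choose x hx using hcoef
  set y : E := ∑ i ∈ Finset.range (d + 1), algebraMap F E (x i) * α ^ i with hy
  have hest : ∀ σ : E ≃ₐ[F] E, ‖τ (σ y) - ((c σ : K) : PadicAlgCl q)‖ < ε := by
    intro σ
    have h1 : τ (σ y) = ∑ i ∈ Finset.range (d + 1), φ (x i) * τ (σ α) ^ i := by
      rw [hy, map_sum, map_sum]
      refine Finset.sum_congr rfl (fun i _ => ?_)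
      rw [map_mul, map_mul, AlgEquiv.commutes, map_pow, map_pow]
      rfl
    have h2 : ((c σ : K) : PadicAlgCl q) =
        ∑ i ∈ Finset.range (d + 1), ((Z.coeff i : K) : PadicAlgCl q) * τ (σ α) ^ i := by
      have h := congrArg K.val (hZ σ)
      rw [Polynomial.eval_eq_sum_range, map_sum] at h
      rw [show ((c σ : K) : PadicAlgCl q) = K.val (c σ) from rfl, ← h]
      refine Finset.sum_congr rfl (fun i _ => ?_)
      rw [map_mul, map_pow]
      rfl
    rw [h1, h2, ← Finset.sum_sub_distrib]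
    calc ‖∑ i ∈ Finset.range (d + 1),
          (φ (x i) * τ (σ α) ^ i - ((Z.coeff i : K) : PadicAlgCl q) * τ (σ α) ^ i)‖
        ≤ ∑ i ∈ Finset.range (d + 1),
          ‖φ (x i) * τ (σ α) ^ i - ((Z.coeff i : K) : PadicAlgCl q) * τ (σ α) ^ i‖ :=
            norm_sum_le _ _
      _ ≤ ∑ i ∈ Finset.range (d + 1), (ε / B) * ‖τ (σ α)‖ ^ i := by
          refine Finset.sum_le_sum (fun i _ => ?_)
          rw [← sub_mul, norm_mul, norm_pow]
          exact mul_le_mul_of_nonneg_right (hx i).le (pow_nonneg (norm_nonneg _) _)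
      _ = (ε / B) * ∑ i ∈ Finset.range (d + 1), ‖τ (σ α)‖ ^ i := by rw [Finset.mul_sum]
      _ ≤ (ε / B) * ∑ σ' : E ≃ₐ[F] E, ∑ i ∈ Finset.range (d + 1), ‖τ (σ' α)‖ ^ i := by
          refine mul_le_mul_of_nonneg_left ?_ hδ.le
          exact Finset.single_le_sum
            (f := fun σ' : E ≃ₐ[F] E => ∑ i ∈ Finset.range (d + 1), ‖τ (σ' α)‖ ^ i)
            (fun σ' _ => Finset.sum_nonneg (fun i _ => pow_nonneg (norm_nonneg _) _))
            (Finset.mem_univ σ)
      _ < (ε / B) * B := by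
          refine mul_lt_mul_of_pos_left ?_ hδ
          rw [hB]
          linarith
      _ = ε := div_mul_cancel₀ ε hB0.ne'
  have hnorm : φ (Algebra.norm F y) = ∏ σ : E ≃ₐ[F] E, τ (σ y) := by
    have h1 : φ (Algebra.norm F y) = τ (algebraMap F E (Algebra.norm F y)) := rfl
    rw [h1, Algebra.norm_eq_prod_automorphisms, map_prod]
  have hcprod : ∏ σ : E ≃ₐ[F] E, ((c σ : K) : PadicAlgCl q) = φ (b : F) := by
    rw [Finset.prod_congr rfl (fun σ _ => hc σ),
      Finset.prod_ite_eq' Finset.univ (1 : E ≃ₐ[F] E) (fun _ => φ (b : F))]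
    simp
  have hc0 : ∀ σ : E ≃ₐ[F] E, ((c σ : K) : PadicAlgCl q) ≠ 0 := by
    intro σ
    rw [hc σ]
    split_ifs
    · exact hb0
    · exact one_ne_zero
  have hcn : ∀ σ : E ≃ₐ[F] E, min 1 ‖φ (b : F)‖ ≤ ‖((c σ : K) : PadicAlgCl q)‖ := by
    intro σ
    rw [hc σ]
    split_ifs
    · exact min_le_right _ _
    · rw [norm_one]
      exact min_le_left _ _
  have hratio : φ (Algebra.norm F y) / φ (b : F) =
      ∏ σ : E ≃ₐ[F] E, (τ (σ y) / ((c σ : K) : PadicAlgCl q)) := by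
    rw [hnorm, ← hcprod, Finset.prod_div_distrib]
  have hw : ‖φ (Algebra.norm F y) / φ (b : F) - 1‖ < ‖φ π‖ ^ N := by
    rw [hratio]
    refine norm_prod_sub_one_lt q _ _ hρN0 hρN1 (fun σ _ => ?_)
    have hc0σ := hc0 σ
    have e : τ (σ y) / ((c σ : K) : PadicAlgCl q) - 1 =
        (τ (σ y) - ((c σ : K) : PadicAlgCl q)) / ((c σ : K) : PadicAlgCl q) := by
      field_simp
    rw [e, norm_div, div_lt_iff₀ (norm_pos_iff.mpr hc0σ)]
    refine (hest σ).trans_le ?_
    rw [hε]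
    exact mul_le_mul_of_nonneg_left (hcn σ) hρN0.le
  obtain ⟨hw0, hw'⟩ := norm_inv_sub_one_lt q hρN1 hw
  have hy0 : y ≠ 0 := by
    intro h0
    apply hw0
    rw [h0, Algebra.norm_zero, map_zero, zero_div]
  refine ⟨Units.mk0 y hy0, ?_⟩
  rw [valuation_le_exp_iff_of_dict q φ v hv' hπ, map_sub, map_div₀, map_one, zpow_natCast]
  have e : φ (b : F) / φ (Algebra.norm F ((Units.mk0 y hy0 : Eˣ) : E)) - 1 =
      (φ (Algebra.norm F y) / φ (b : F))⁻¹ - 1 := by
    rw [inv_div]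
    rfl
  rw [e]
  exact hw'.le

/-- **(B4b), Galois form.**  If every `ℚ_q`-automorphism of `PadicAlgCl q` fixing `τ F`
pointwise fixes `τ E` pointwise, every element of `Fˣ` is a completion-free local norm. -/
theorem locNorm_of_forall_fixed
    (hv : ∀ x : F, v.valuation F x ≤ 1 ↔ ‖τ (algebraMap F E x)‖ ≤ 1)
    (hsplit : ∀ s : PadicAlgCl q ≃ₐ[ℚ_[q]] PadicAlgCl q,
      (∀ x : F, s (τ (algebraMap F E x)) = τ (algebraMap F E x)) → ∀ x : E, s (τ x) = τ x)
    (b : Fˣ) :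
    ∀ N : ℕ, ∃ y : Eˣ, v.valuation F ((b : F) / Algebra.norm F (y : E) - 1) ≤
        WithZero.exp (-(N : ℤ)) :=
  locNorm_of_localFieldOf_le q τ v hv
    (fun x => mem_localFieldOf_of_fixed q _ (fun s hs => hsplit s hs x)) b

/-- **(B4), Hasse-ready form for a layer of prime degree.**  If `τ b` is a norm from
`ℚ_q(τ E)` with respect to every `ℚ_q`-automorphism `s` fixing `τ F` and moving `τ E`
(nothing is asked when there is none: split place), then `b` is a completion-free local norm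
at `v`. -/
theorem locNorm_of_local_norms
    (hv : ∀ x : F, v.valuation F x ≤ 1 ↔ ‖τ (algebraMap F E x)‖ ≤ 1)
    {p : ℕ} (hp : p.Prime) (hdeg : Module.finrank F E = p) (b : Fˣ)
    (h : ∀ s : PadicAlgCl q ≃ₐ[ℚ_[q]] PadicAlgCl q,
      (∀ x : F, s (τ (algebraMap F E x)) = τ (algebraMap F E x)) → (∃ x : E, s (τ x) ≠ τ x) →
        ∃ y ∈ localFieldOf q τ, y ≠ 0 ∧
          ∏ j ∈ Finset.range p, (s ^ j) y = τ (algebraMap F E (b : F))) :
    ∀ N : ℕ, ∃ y : Eˣ, v.valuation F ((b : F) / Algebra.norm F (y : E) - 1) ≤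
        WithZero.exp (-(N : ℤ)) := by
  by_cases hex : ∃ s : PadicAlgCl q ≃ₐ[ℚ_[q]] PadicAlgCl q,
      (∀ x : F, s (τ (algebraMap F E x)) = τ (algebraMap F E x)) ∧ ∃ x : E, s (τ x) ≠ τ x
  · obtain ⟨s, hsF, hsE⟩ := hex
    exact (locNorm_iff_exists_prod_pow_eq q τ v hv hp hdeg s hsF hsE b).mpr (h s hsF hsE)
  · refine locNorm_of_forall_fixed q τ v hv (fun s hsF x => ?_) b
    by_contra hne
    exact hex ⟨s, hsF, x, hne⟩

end Split

/-! ### (N1) closedness of local norms and transfer of a local non-norm -/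

section Transfer

variable (q : ℕ) [Fact q.Prime]

/-- Closedness of the set of "norms": a nonzero limit of products `∏_{j<n} s^j y`, with `y` in a
finite extension `L` of `ℚ_q` inside `PadicAlgCl q`, is such a product. -/
theorem exists_prod_pow_eq_of_approx (L : IntermediateField ℚ_[q] (PadicAlgCl q))
    [FiniteDimensional ℚ_[q] L] (s : PadicAlgCl q ≃ₐ[ℚ_[q]] PadicAlgCl q) {n : ℕ} (hn : n ≠ 0)
    {u : PadicAlgCl q} (hu : u ≠ 0)
    (h : ∀ ε : ℝ, 0 < ε → ∃ y ∈ L, ‖∏ j ∈ Finset.range n, (s ^ j) y - u‖ < ε) :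
    ∃ y ∈ L, y ≠ 0 ∧ ∏ j ∈ Finset.range n, (s ^ j) y = u := by
  have hun : 0 < ‖u‖ := norm_pos_iff.mpr hu
  have hεk : ∀ k : ℕ, 0 < min ‖u‖ (1 / ((k : ℝ) + 1)) := fun k =>
    lt_min hun (one_div_pos.mpr (by positivity))
  choose t htL ht using fun k : ℕ => h _ (hεk k)
  set P : ℕ → PadicAlgCl q := fun k => ∏ j ∈ Finset.range n, (s ^ j) (t k) with hP
  have hPn : ∀ k, ‖P k‖ = ‖t k‖ ^ n := by
    intro k
    have h1 : ‖P k‖ = ∏ j ∈ Finset.range n, ‖(s ^ j) (t k)‖ := norm_prod _ _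
    rw [h1, Finset.prod_congr rfl (fun j _ => norm_algEquiv_apply q (s ^ j) (t k)),
      Finset.prod_const, Finset.card_range]
  have hPu : ∀ k, ‖P k‖ = ‖u‖ := by
    intro k
    have h1 : ‖P k - u‖ < ‖u‖ := (ht k).trans_le (min_le_left _ _)
    have e : P k = (P k - u) + u := by ring
    rw [e, IsUltrametricDist.norm_add_eq_max_of_norm_ne_norm h1.ne]
    exact max_eq_right h1.le
  have htb : ∀ k, ‖t k‖ ≤ max 1 ‖u‖ := by
    intro k
    by_cases h1 : ‖t k‖ ≤ 1
    · exact h1.trans (le_max_left _ _)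
    · rw [not_le] at h1
      have h2 : ‖t k‖ ≤ ‖t k‖ ^ n := le_self_pow₀ h1.le hn
      rw [← hPn, hPu] at h2
      exact h2.trans (le_max_right _ _)
  let S : Submodule ℚ_[q] (PadicAlgCl q) := L.toSubalgebra.toSubmodule
  have hSfd : FiniteDimensional ℚ_[q] S := ‹FiniteDimensional ℚ_[q] L›
  have hSproper : ProperSpace S := FiniteDimensional.proper ℚ_[q] S
  let w : ℕ → S := fun k => ⟨t k, htL k⟩
  have hwb : ∀ k, w k ∈ Metric.closedBall (0 : S) (max 1 ‖u‖) := by
    intro k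
    rw [mem_closedBall_zero_iff]
    exact htb k
  obtain ⟨a, -, θ, hθ, hlim⟩ := tendsto_subseq_of_bounded Metric.isBounded_closedBall hwb
  have hlim' : Filter.Tendsto (fun k => t (θ k)) Filter.atTop (nhds (a : PadicAlgCl q)) :=
    (continuous_subtype_val.tendsto a).comp hlim
  have hlim_prod : Filter.Tendsto (fun k => P (θ k)) Filter.atTop
      (nhds (∏ j ∈ Finset.range n, (s ^ j) (a : PadicAlgCl q))) := by
    refine tendsto_finsetProd _ (fun j _ => ?_)
    exact ((continuous_algEquiv q (s ^ j)).tendsto _).comp hlim'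
  have hlim_u : Filter.Tendsto (fun k => P (θ k)) Filter.atTop (nhds u) := by
    rw [tendsto_iff_norm_sub_tendsto_zero]
    have hb : ∀ k, ‖P (θ k) - u‖ ≤ 1 / ((k : ℝ) + 1) := by
      intro k
      have h1 : ‖P (θ k) - u‖ < 1 / (((θ k : ℕ) : ℝ) + 1) := (ht (θ k)).trans_le (min_le_right _ _)
      refine h1.le.trans ?_
      have h2 : (k : ℝ) ≤ ((θ k : ℕ) : ℝ) := by exact_mod_cast hθ.id_le k
      exact one_div_le_one_div_of_le (by positivity) (by linarith)
    exact squeeze_zero (fun _ => norm_nonneg _) hb tendsto_one_div_add_atTop_nhds_zero_nat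
  have hfin := tendsto_nhds_unique hlim_prod hlim_u
  refine ⟨(a : PadicAlgCl q), a.2, ?_, hfin⟩
  intro ha0
  apply hu
  rw [← hfin]
  refine Finset.prod_eq_zero (Finset.mem_range.mpr (Nat.pos_of_ne_zero hn)) ?_
  rw [ha0, map_zero]

variable {F E : Type*} [Field F] [NumberField F] [Field E] [NumberField E] [Algebra F E]
  [IsGalois F E]
variable (τ : E →+* PadicAlgCl q) (v : HeightOneSpectrum (𝓞 F))

/-- **(N1), cyclic form.**  A local non-norm gives a global element which is not a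
completion-free local norm: if some `u ≠ 0` of `ℚ_q(τ F)` is not of the form `∏_{j<n} s^j y`
with `y ∈ ℚ_q(τ E)`, then some `x ∈ Fˣ` is not a completion-free local norm at `v`. -/
theorem exists_not_locNorm_of_generator
    (hv : ∀ x : F, v.valuation F x ≤ 1 ↔ ‖τ (algebraMap F E x)‖ ≤ 1)
    (σ₀ : E ≃ₐ[F] E) (hgen : ∀ σ : E ≃ₐ[F] E, σ ∈ Subgroup.zpowers σ₀)
    (s : PadicAlgCl q ≃ₐ[ℚ_[q]] PadicAlgCl q) (hs : ∀ x : E, s (τ x) = τ (σ₀ x))
    (hloc : ∃ u ∈ localFieldOf q (τ.comp (algebraMap F E)), u ≠ 0 ∧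
      ∀ y ∈ localFieldOf q τ, ∏ j ∈ Finset.range (Module.finrank F E), (s ^ j) y ≠ u) :
    ∃ x : Fˣ, ¬ ∀ N : ℕ, ∃ y : Eˣ, v.valuation F ((x : F) / Algebra.norm F (y : E) - 1) ≤
        WithZero.exp (-(N : ℤ)) := by
  obtain ⟨u, huK, hu0, hu⟩ := hloc
  set φ : F →+* PadicAlgCl q := τ.comp (algebraMap F E) with hφ
  have hn0 : Module.finrank F E ≠ 0 := (Module.finrank_pos (R := F) (M := E)).ne'
  have hfd : FiniteDimensional ℚ_[q] (localFieldOf q τ) := finiteDimensional_localFieldOf q τ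
  -- an `ε`-ball around `u` free of local norms
  have hball : ∃ ε : ℝ, 0 < ε ∧ ∀ y ∈ localFieldOf q τ,
      ε ≤ ‖∏ j ∈ Finset.range (Module.finrank F E), (s ^ j) y - u‖ := by
    by_contra hcon
    push Not at hcon
    obtain ⟨y, hyL, -, hy⟩ := exists_prod_pow_eq_of_approx q (localFieldOf q τ) s hn0 hu0
      (fun ε hε => hcon ε hε)
    exact hu y hyL hy
  obtain ⟨ε, hε, hfree⟩ := hball
  have hun : 0 < ‖u‖ := norm_pos_iff.mpr hu0
  obtain ⟨x₀, hx₀⟩ := exists_approx_of_mem_localFieldOf q φ huK (lt_min hε hun)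
  have hx₀n : ‖φ x₀‖ = ‖u‖ := by
    have h1 : ‖φ x₀ - u‖ < ‖u‖ := hx₀.trans_le (min_le_right _ _)
    have e : φ x₀ = (φ x₀ - u) + u := by ring
    rw [e, IsUltrametricDist.norm_add_eq_max_of_norm_ne_norm h1.ne]
    exact max_eq_right h1.le
  have hx₀0 : x₀ ≠ 0 := by
    rintro rfl
    rw [map_zero, norm_zero] at hx₀n
    exact hun.ne hx₀n
  refine ⟨Units.mk0 x₀ hx₀0, fun hLN => ?_⟩
  obtain ⟨y, hyL, -, hy⟩ := exists_prod_pow_eq_of_locNorm q τ v hv σ₀ hgen s hs (Units.mk0 x₀ hx₀0) hLN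
  have h1 := hfree y hyL
  rw [hy] at h1
  have h2 : ‖τ (algebraMap F E ((Units.mk0 x₀ hx₀0 : Fˣ) : F)) - u‖ < ε :=
    hx₀.trans_le (min_le_left _ _)
  exact absurd h1 (not_le.mpr h2)

/-- **(N1), prime degree.**  `E / F` Galois of prime degree `p`, `s` fixing `τ F` pointwise and
moving `τ E` (non-split place).  If the "norm" `y ↦ ∏_{j<p} s^j y` from `ℚ_q(τ E)` misses some
nonzero element of `ℚ_q(τ F)`, then some `x ∈ Fˣ` is not a completion-free local norm at `v`. -/
theorem exists_not_locNorm_of_local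
    (hv : ∀ x : F, v.valuation F x ≤ 1 ↔ ‖τ (algebraMap F E x)‖ ≤ 1)
    {p : ℕ} (hp : p.Prime) (hdeg : Module.finrank F E = p)
    (s : PadicAlgCl q ≃ₐ[ℚ_[q]] PadicAlgCl q)
    (hsF : ∀ x : F, s (τ (algebraMap F E x)) = τ (algebraMap F E x))
    (hsE : ∃ x : E, s (τ x) ≠ τ x)
    (hloc : ∃ u ∈ localFieldOf q (τ.comp (algebraMap F E)), u ≠ 0 ∧
      ∀ y ∈ localFieldOf q τ, ∏ j ∈ Finset.range p, (s ^ j) y ≠ u) :
    ∃ x : Fˣ, ¬ ∀ N : ℕ, ∃ y : Eˣ, v.valuation F ((x : F) / Algebra.norm F (y : E) - 1) ≤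
        WithZero.exp (-(N : ℤ)) := by
  obtain ⟨σ₀, hσ₀⟩ := exists_algEquiv_of_fixes τ s.toRingEquiv.toRingHom hsF
  have hσ₀' : ∀ x : E, s (τ x) = τ (σ₀ x) := hσ₀
  have hσ1 : σ₀ ≠ 1 := by
    rintro rfl
    obtain ⟨x, hx⟩ := hsE
    exact hx (hσ₀' x)
  have : Fact p.Prime := ⟨hp⟩
  have hcard : Nat.card (E ≃ₐ[F] E) = p := (IsGalois.card_aut_eq_finrank F E).trans hdeg
  have htop := zpowers_eq_top_of_prime_card hcard hσ1
  have hgen : ∀ σ : E ≃ₐ[F] E, σ ∈ Subgroup.zpowers σ₀ := fun σ => by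
    rw [htop]
    exact Subgroup.mem_top σ
  rw [← hdeg] at hloc
  exact exists_not_locNorm_of_generator q τ v hv σ₀ hgen s hσ₀' hloc

end Transfer

/-! ### (N2) lifting of isometries -/

section Lifting

variable (q : ℕ) [Fact q.Prime]

theorem norm_sum_smul_pow_sub_le (a b : ℕ → ℚ_[q]) (γ : PadicAlgCl q) (D : ℕ) {η : ℝ}
    (h : ∀ i, ‖a i - b i‖ ≤ η) :
    ‖∑ i ∈ Finset.range D, a i • γ ^ i - ∑ i ∈ Finset.range D, b i • γ ^ i‖ ≤
      η * ∑ i ∈ Finset.range D, ‖γ‖ ^ i := by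
  rw [← Finset.sum_sub_distrib, Finset.mul_sum]
  refine (norm_sum_le _ _).trans (Finset.sum_le_sum (fun i _ => ?_))
  rw [← sub_smul, norm_smul, norm_pow]
  exact mul_le_mul_of_nonneg_right (h i) (pow_nonneg (norm_nonneg _) _)

/-- **(N2).**  A ring endomorphism `σ` of a number field `E` which is an isometry for the
absolute value `‖τ ·‖` of an embedding `τ : E → PadicAlgCl q` is induced by a
`ℚ_q`-automorphism of `PadicAlgCl q`. -/
theorem exists_algEquiv_of_isometry {E : Type*} [Field E] [NumberField E]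
    (τ : E →+* PadicAlgCl q) (σ : E →+* E) (hσ : ∀ x : E, ‖τ (σ x)‖ = ‖τ x‖) :
    ∃ s : PadicAlgCl q ≃ₐ[ℚ_[q]] PadicAlgCl q, ∀ x : E, s (τ x) = τ (σ x) := by
  obtain ⟨θ, hθ⟩ := Field.exists_primitive_element ℚ E
  set β : PadicAlgCl q := τ θ with hβ
  set β' : PadicAlgCl q := τ (σ θ) with hβ'
  set m : Polynomial ℚ_[q] := minpoly ℚ_[q] β with hm
  have halg : IsAlgebraic ℚ_[q] β := Algebra.IsAlgebraic.isAlgebraic β
  have hroot : Polynomial.aeval β' m = 0 := by
    by_contra hne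
    set δ : ℝ := ‖Polynomial.aeval β' m‖ with hδ
    have hδ0 : 0 < δ := norm_pos_iff.mpr hne
    set d := m.natDegree with hd
    set B : ℝ := ∑ i ∈ Finset.range (d + 1), ‖β‖ ^ i + ∑ i ∈ Finset.range (d + 1), ‖β'‖ ^ i + 1
      with hB
    have hB1 : 0 ≤ ∑ i ∈ Finset.range (d + 1), ‖β‖ ^ i :=
      Finset.sum_nonneg (fun i _ => pow_nonneg (norm_nonneg _) _)
    have hB2 : 0 ≤ ∑ i ∈ Finset.range (d + 1), ‖β'‖ ^ i :=
      Finset.sum_nonneg (fun i _ => pow_nonneg (norm_nonneg _) _)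
    have hB0 : 0 < B := by
      rw [hB]
      linarith
    have hη : 0 < δ / B := div_pos hδ0 hB0
    choose r hr using fun i : ℕ => Padic.rat_dense q (m.coeff i) hη
    have hr' : ∀ i, ‖((r i : ℚ) : ℚ_[q]) - m.coeff i‖ ≤ δ / B := by
      intro i
      rw [← norm_neg, neg_sub]
      exact (hr i).le
    set x : E := ∑ i ∈ Finset.range (d + 1), r i • θ ^ i with hx
    have h1 : τ x = ∑ i ∈ Finset.range (d + 1), ((r i : ℚ) : ℚ_[q]) • β ^ i := by
      rw [hx, map_sum]
      refine Finset.sum_congr rfl (fun i _ => ?_)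
      rw [map_rat_smul_padic, map_pow]
    have h2 : τ (σ x) = ∑ i ∈ Finset.range (d + 1), ((r i : ℚ) : ℚ_[q]) • β' ^ i := by
      rw [hx, map_sum, map_sum]
      refine Finset.sum_congr rfl (fun i _ => ?_)
      rw [map_rat_smul σ, map_rat_smul_padic, map_pow, map_pow]
    have hm0 : Polynomial.aeval β m = 0 := minpoly.aeval ℚ_[q] β
    have e1 : ‖τ x‖ < δ := by
      have e : τ x = τ x - Polynomial.aeval β m := by rw [hm0, sub_zero]
      rw [e, h1, Polynomial.aeval_eq_sum_range]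
      refine (norm_sum_smul_pow_sub_le q _ _ β (d + 1) hr').trans_lt ?_
      calc δ / B * ∑ i ∈ Finset.range (d + 1), ‖β‖ ^ i < δ / B * B := by
            refine mul_lt_mul_of_pos_left ?_ hη
            rw [hB]
            linarith
        _ = δ := div_mul_cancel₀ δ hB0.ne'
    have e2 : ‖τ (σ x) - Polynomial.aeval β' m‖ < δ := by
      rw [h2, Polynomial.aeval_eq_sum_range]
      refine (norm_sum_smul_pow_sub_le q _ _ β' (d + 1) hr').trans_lt ?_
      calc δ / B * ∑ i ∈ Finset.range (d + 1), ‖β'‖ ^ i < δ / B * B := by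
            refine mul_lt_mul_of_pos_left ?_ hη
            rw [hB]
            linarith
        _ = δ := div_mul_cancel₀ δ hB0.ne'
    have e3 : ‖τ (σ x)‖ = δ := by
      have e : τ (σ x) = (τ (σ x) - Polynomial.aeval β' m) + Polynomial.aeval β' m := by ring
      rw [e, IsUltrametricDist.norm_add_eq_max_of_norm_ne_norm (ne_of_lt e2)]
      exact max_eq_right e2.le
    rw [hσ] at e3
    exact e1.ne e3
  obtain ⟨s, hs⟩ := minpoly.exists_algEquiv_of_root' halg hroot
  refine ⟨s, ?_⟩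
  have hadj : Algebra.adjoin ℚ {θ} = ⊤ := by
    have h2 := IntermediateField.adjoin_simple_toSubalgebra_of_isAlgebraic
      (Algebra.IsAlgebraic.isAlgebraic (R := ℚ) θ)
    rw [hθ] at h2
    exact h2.symm
  have h3 : (s.toRingEquiv.toRingHom.comp τ).toRatAlgHom = (τ.comp σ).toRatAlgHom :=
    AlgHom.ext_of_adjoin_eq_top hadj (fun y hy => by
      rw [Set.mem_singleton_iff] at hy
      subst hy
      exact hs)
  intro x
  exact congrArg (fun f : E →ₐ[ℚ] PadicAlgCl q => f x) h3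

end Lifting

/-! ### (a) the local extension at a non-split place and the Algebra.norm adapter -/

section LocalGalois

variable (q : ℕ) [Fact q.Prime]

/-- An automorphism fixing `φ K` pointwise fixes the local field `ℚ_q(φ K)` pointwise. -/
theorem apply_eq_of_mem_localFieldOf {K : Type*} [Field K] (φ : K →+* PadicAlgCl q)
    (s : PadicAlgCl q ≃ₐ[ℚ_[q]] PadicAlgCl q) (hs : ∀ x : K, s (φ x) = φ x)
    {y : PadicAlgCl q} (hy : y ∈ localFieldOf q φ) : s y = y := by
  have halg : ∀ x ∈ Set.range φ, IsAlgebraic ℚ_[q] x :=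
    fun x _ => Algebra.IsAlgebraic.isAlgebraic x
  have h1 : (localFieldOf q φ).toSubalgebra = Algebra.adjoin ℚ_[q] (Set.range φ) :=
    IntermediateField.adjoin_toSubalgebra_of_isAlgebraic halg
  have h2 : Algebra.adjoin ℚ_[q] (Set.range φ) ≤
      AlgHom.equalizer (s : PadicAlgCl q →ₐ[ℚ_[q]] PadicAlgCl q) (AlgHom.id ℚ_[q] (PadicAlgCl q)) := by
    apply Algebra.adjoin_le
    rintro _ ⟨x, rfl⟩
    exact hs x
  have h3 : y ∈ Algebra.adjoin ℚ_[q] (Set.range φ) := by
    rw [← h1]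
    exact hy
  exact h2 h3

/-- An automorphism mapping `φ K` into the local field maps the local field into itself. -/
theorem apply_mem_localFieldOf_of_forall {K : Type*} [Field K] (φ : K →+* PadicAlgCl q)
    (s : PadicAlgCl q ≃ₐ[ℚ_[q]] PadicAlgCl q) (hs : ∀ x : K, s (φ x) ∈ localFieldOf q φ)
    {y : PadicAlgCl q} (hy : y ∈ localFieldOf q φ) : s y ∈ localFieldOf q φ := by
  have h1 : (localFieldOf q φ).map (s : PadicAlgCl q →ₐ[ℚ_[q]] PadicAlgCl q) ≤ localFieldOf q φ := by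
    rw [localFieldOf, IntermediateField.adjoin_map]
    apply IntermediateField.adjoin_le_iff.mpr
    rintro _ ⟨_, ⟨x, rfl⟩, rfl⟩
    exact hs x
  exact h1 ⟨y, hy, rfl⟩


variable (F : Type*) {E : Type*} [Field F] [NumberField F] [Field E] [NumberField E] [Algebra F E]
  [IsGalois F E]
variable (τ : E →+* PadicAlgCl q)

/-- The local field `ℚ_q(τ E)` as an intermediate field over the local field `ℚ_q(τ F)`. -/
noncomputable def localExt :
    IntermediateField (localFieldOf q (τ.comp (algebraMap F E))) (PadicAlgCl q) :=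
  IntermediateField.extendScalars (localFieldOf_comp_le q τ (algebraMap F E))

theorem mem_localExt {y : PadicAlgCl q} : y ∈ localExt q F τ ↔ y ∈ localFieldOf q τ := Iff.rfl

theorem localExt_eq_adjoin : localExt q F τ =
    IntermediateField.adjoin (localFieldOf q (τ.comp (algebraMap F E))) (Set.range τ) := by
  apply le_antisymm
  · intro y hy
    have h1 : localFieldOf q τ ≤ (IntermediateField.adjoin
        (localFieldOf q (τ.comp (algebraMap F E))) (Set.range τ)).restrictScalars ℚ_[q] := by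
      rw [localFieldOf]
      apply IntermediateField.adjoin_le_iff.mpr
      intro z hz
      show z ∈ IntermediateField.adjoin (localFieldOf q (τ.comp (algebraMap F E))) (Set.range τ)
      exact IntermediateField.subset_adjoin (localFieldOf q (τ.comp (algebraMap F E)))
        (Set.range τ) hz
    exact h1 hy
  · apply IntermediateField.adjoin_le_iff.mpr
    rintro _ ⟨x, rfl⟩
    exact apply_mem_localFieldOf q τ x

theorem finiteDimensional_localExt :
    FiniteDimensional (localFieldOf q (τ.comp (algebraMap F E))) (localExt q F τ) := by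
  have h1 : FiniteDimensional ℚ_[q] (localFieldOf q τ) := finiteDimensional_localFieldOf q τ
  have h2 : FiniteDimensional ℚ_[q] (localExt q F τ) := h1
  exact Module.Finite.of_restrictScalars_finite ℚ_[q] _ _

theorem normal_localExt :
    Normal (localFieldOf q (τ.comp (algebraMap F E))) (localExt q F τ) := by
  apply IntermediateField.normal_iff_forall_map_le'.mpr
  intro σ
  rintro _ ⟨y, hy, rfl⟩
  set σ' : PadicAlgCl q ≃ₐ[ℚ_[q]] PadicAlgCl q := σ.restrictScalars ℚ_[q] with hσ'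
  have hfix : ∀ x : F, σ' (τ (algebraMap F E x)) = τ (algebraMap F E x) := fun x =>
    σ.commutes ⟨τ (algebraMap F E x), apply_mem_localFieldOf q (τ.comp (algebraMap F E)) x⟩
  obtain ⟨ρ, hρ⟩ := exists_algEquiv_of_fixes τ σ'.toRingEquiv.toRingHom hfix
  have hmem : ∀ x : E, σ' (τ x) ∈ localFieldOf q τ := fun x => by
    have h1 : σ' (τ x) = τ (ρ x) := hρ x
    rw [h1]
    exact apply_mem_localFieldOf q τ _
  exact apply_mem_localFieldOf_of_forall q τ σ' hmem hy

theorem isGalois_localExt :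
    IsGalois (localFieldOf q (τ.comp (algebraMap F E))) (localExt q F τ) := by
  have := normal_localExt q F τ
  exact IsGalois.mk


/-- `s` as an automorphism over the local field of `F`. -/
noncomputable def algEquivOverLocal (s : PadicAlgCl q ≃ₐ[ℚ_[q]] PadicAlgCl q)
    (hsF : ∀ x : F, s (τ (algebraMap F E x)) = τ (algebraMap F E x)) :
    PadicAlgCl q ≃ₐ[localFieldOf q (τ.comp (algebraMap F E))] PadicAlgCl q :=
  AlgEquiv.ofRingEquiv (f := s.toRingEquiv)
    (fun k => apply_eq_of_mem_localFieldOf q (τ.comp (algebraMap F E)) s hsF k.2)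

/-- **Local Galois group at a non-split place of a layer of prime degree.**  The local extension
`ℚ_q(τ E) / ℚ_q(τ F)` is cyclic of degree `p`, generated by the restriction of `s`. -/
theorem exists_generator_localExt {p : ℕ} (hp : p.Prime) (hdeg : Module.finrank F E = p)
    (s : PadicAlgCl q ≃ₐ[ℚ_[q]] PadicAlgCl q)
    (hsF : ∀ x : F, s (τ (algebraMap F E x)) = τ (algebraMap F E x))
    (hsE : ∃ x : E, s (τ x) ≠ τ x) :
    ∃ γ₀ : (localExt q F τ) ≃ₐ[localFieldOf q (τ.comp (algebraMap F E))] (localExt q F τ),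
      (∀ y : localExt q F τ, ((γ₀ y : localExt q F τ) : PadicAlgCl q) = s (y : PadicAlgCl q)) ∧
      (∀ γ : (localExt q F τ) ≃ₐ[localFieldOf q (τ.comp (algebraMap F E))] (localExt q F τ),
        γ ∈ Subgroup.zpowers γ₀) ∧
      Module.finrank (localFieldOf q (τ.comp (algebraMap F E))) (localExt q F τ) = p := by
  have hnorm := normal_localExt q F τ
  have hgal := isGalois_localExt q F τ
  have hfd := finiteDimensional_localExt q F τ
  have : Fact p.Prime := ⟨hp⟩
  set sK := algEquivOverLocal q F τ s hsF with hsK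
  set γ₀ : (localExt q F τ) ≃ₐ[localFieldOf q (τ.comp (algebraMap F E))] (localExt q F τ) :=
    sK.restrictNormal (localExt q F τ) with hγ₀
  have hγ : ∀ y : localExt q F τ,
      ((γ₀ y : localExt q F τ) : PadicAlgCl q) = s (y : PadicAlgCl q) := fun y =>
    AlgEquiv.restrictNormal_commutes sK (localExt q F τ) y
  obtain ⟨σ₀, hσ₀⟩ := exists_algEquiv_of_fixes τ s.toRingEquiv.toRingHom hsF
  have hσ₀' : ∀ x : E, s (τ x) = τ (σ₀ x) := hσ₀
  have hcardE : Nat.card (E ≃ₐ[F] E) = p := (IsGalois.card_aut_eq_finrank F E).trans hdeg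
  have hγ1 : γ₀ ≠ 1 := by
    intro h1
    obtain ⟨x, hx⟩ := hsE
    apply hx
    have h2 := hγ ⟨τ x, apply_mem_localFieldOf q τ x⟩
    rw [h1] at h2
    exact h2.symm
  have hext : ∀ γ γ' : (localExt q F τ) ≃ₐ[localFieldOf q (τ.comp (algebraMap F E))]
      (localExt q F τ),
      (∀ x : E, γ ⟨τ x, apply_mem_localFieldOf q τ x⟩ =
        γ' ⟨τ x, apply_mem_localFieldOf q τ x⟩) → γ = γ' := by
    intro γ γ' h
    have h1 : (γ : (localExt q F τ) →ₐ[localFieldOf q (τ.comp (algebraMap F E))]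
        (localExt q F τ)) = (γ' : (localExt q F τ) →ₐ[localFieldOf q (τ.comp (algebraMap F E))]
        (localExt q F τ)) :=
      IntermediateField.algHom_ext_of_eq_adjoin _ (localExt_eq_adjoin q F τ) (by
        rintro _ ⟨x, rfl⟩
        exact h x)
    exact AlgEquiv.ext (fun y => congrArg
      (fun f : (localExt q F τ) →ₐ[localFieldOf q (τ.comp (algebraMap F E))]
        (localExt q F τ) => f y) h1)
  have hγp : γ₀ ^ p = 1 := by
    apply hext
    intro x
    apply Subtype.ext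
    have h1 := pow_apply_of_comm (algebraMap (localExt q F τ) (PadicAlgCl q)) γ₀ s
      (fun y => (hγ y).symm) p ⟨τ x, apply_mem_localFieldOf q τ x⟩
    have h2 := pow_apply_of_comm τ σ₀ s hσ₀' p x
    have h3 : σ₀ ^ p = 1 := by
      rw [← hcardE]
      exact pow_card_eq_one'
    rw [h3] at h2
    exact h1.symm.trans h2
  have hord : orderOf γ₀ = p := orderOf_eq_prime hγp hγ1
  have hdvd : p ∣ Nat.card ((localExt q F τ) ≃ₐ[localFieldOf q (τ.comp (algebraMap F E))]
      (localExt q F τ)) := hord ▸ orderOf_dvd_natCard γ₀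
  have hchoose : ∀ γ : (localExt q F τ) ≃ₐ[localFieldOf q (τ.comp (algebraMap F E))]
      (localExt q F τ), ∃ ρ : E ≃ₐ[F] E,
      ∀ x : E, γ ⟨τ x, apply_mem_localFieldOf q τ x⟩ =
        ⟨τ (ρ x), apply_mem_localFieldOf q τ _⟩ := by
    intro γ
    let τL : E →+* (localExt q F τ) :=
      τ.codRestrict (localExt q F τ) (fun x => apply_mem_localFieldOf q τ x)
    have hfix : ∀ x : F, γ.toRingEquiv.toRingHom (τL (algebraMap F E x)) =
        τL (algebraMap F E x) := by
      intro x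
      exact γ.commutes
        ⟨τ (algebraMap F E x), apply_mem_localFieldOf q (τ.comp (algebraMap F E)) x⟩
    obtain ⟨ρ, hρ⟩ := exists_algEquiv_of_fixes τL γ.toRingEquiv.toRingHom hfix
    exact ⟨ρ, fun x => hρ x⟩
  choose Ψ hΨ using hchoose
  have hinj : Function.Injective Ψ := by
    intro γ γ' h
    apply hext
    intro x
    rw [hΨ γ x, hΨ γ' x, h]
  have hle : Nat.card ((localExt q F τ) ≃ₐ[localFieldOf q (τ.comp (algebraMap F E))]
      (localExt q F τ)) ≤ p := by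
    rw [← hcardE]
    exact Nat.card_le_card_of_injective Ψ hinj
  have hpos : 0 < Nat.card ((localExt q F τ) ≃ₐ[localFieldOf q (τ.comp (algebraMap F E))]
      (localExt q F τ)) := Nat.card_pos
  have hcard : Nat.card ((localExt q F τ) ≃ₐ[localFieldOf q (τ.comp (algebraMap F E))]
      (localExt q F τ)) = p := le_antisymm hle (Nat.le_of_dvd hpos hdvd)
  refine ⟨γ₀, hγ, ?_, ?_⟩
  · intro γ
    rw [zpowers_eq_top_of_prime_card hcard hγ1]
    exact Subgroup.mem_top γ
  · rw [← IsGalois.card_aut_eq_finrank, hcard]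

/-- **(a) local non-norm in generator form.**  From the local theorem "the norm of a Galois
extension of degree `p` of local fields is not onto" (shape of `helper9554.Stmt_LocalNormNotOnto`,
proved on main), the hypothesis `hloc` of `exists_not_locNorm_of_local`. -/
theorem exists_local_non_norm {p : ℕ} (hp : p.Prime) (hdeg : Module.finrank F E = p)
    (s : PadicAlgCl q ≃ₐ[ℚ_[q]] PadicAlgCl q)
    (hsF : ∀ x : F, s (τ (algebraMap F E x)) = τ (algebraMap F E x))
    (hsE : ∃ x : E, s (τ x) ≠ τ x)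
    (hloc : ∀ K : IntermediateField ℚ_[q] (PadicAlgCl q), FiniteDimensional ℚ_[q] K →
      ∀ L : IntermediateField K (PadicAlgCl q), IsGalois K L → Module.finrank K L = p →
        ∃ b : K, b ≠ 0 ∧ ∀ y : L, Algebra.norm K y ≠ b) :
    ∃ u ∈ localFieldOf q (τ.comp (algebraMap F E)), u ≠ 0 ∧
      ∀ y ∈ localFieldOf q τ, ∏ j ∈ Finset.range p, (s ^ j) y ≠ u := by
  have hgal := isGalois_localExt q F τ
  have hfd := finiteDimensional_localExt q F τ
  obtain ⟨γ₀, hγ, hgen, hrank⟩ := exists_generator_localExt q F τ hp hdeg s hsF hsE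
  obtain ⟨b, hb0, hb⟩ := hloc _ (finiteDimensional_localFieldOf q (τ.comp (algebraMap F E)))
    (localExt q F τ) hgal hrank
  refine ⟨(b : PadicAlgCl q), b.2, fun h0 => hb0 (Subtype.ext h0), fun y hy hprod => ?_⟩
  apply hb ⟨y, hy⟩
  apply Subtype.ext
  have h1 := algebraMap_norm_eq_prod_pow γ₀ hgen (⟨y, hy⟩ : localExt q F τ)
  rw [hrank] at h1
  have h2 := congrArg (algebraMap (localExt q F τ) (PadicAlgCl q)) h1
  rw [map_prod] at h2
  have h3 : ∀ j, algebraMap (localExt q F τ) (PadicAlgCl q) ((γ₀ ^ j) ⟨y, hy⟩) = (s ^ j) y :=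
    fun j => (pow_apply_of_comm (algebraMap (localExt q F τ) (PadicAlgCl q)) γ₀ s
      (fun z => (hγ z).symm) j ⟨y, hy⟩).symm
  rw [Finset.prod_congr rfl (fun j _ => h3 j), hprod] at h2
  exact h2

end LocalGalois

end Fermat.Agent.S55.helper1652
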