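import Mathlib
import Fermat.Prelude.Def_GaloisRep_CompletionBridge
import Fermat.Agent.S55.helper4727_Places
import Fermat.Agent.S55.helper1652_LocalNorm
import Fermat.Agent.S55.helper1980_HasseSpec

/-!
# S55 / NF-GH-LAYER: the bridge `NF-HNT → NF-GH-HASSE` for one cyclic Kummer layer (helper2999)

Setting: `K ≤ E` number fields inside `ℚ̄ = AlgebraicClosure ℚ` (as `IntermediateField ℚ ℚ̄`),
`E / K` cyclic of prime degree `p` generated by `s ∈ Gal(ℚ̄/K)` (`IsCyclicLayer p K E s`,
field form: no Galois-group types), `b ∈ Kˣ`.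

A *place* is a pair `(q, g)`, `q` a prime and `g ∈ Gal(ℚ̄/ℚ)`: the embedding
`tauAt q g = padicEmbedding q ∘ g⁻¹ : ℚ̄ → PadicAlgCl q` (valuation subring `g • padicPlace q`,
the convention of `helper4727.placeOf`); the local group of a field `F` at the place is
`{γ | g * localGaloisToGlobal q γ * g⁻¹ ∈ F.fixingSubgroup}`.

* `LocNormGen p q g K E b` : the **generator form** of "`b` is a local norm from `E` at the place
  `(q, g)`" — either the place splits in `E / K`, or `tauAt q g b = ∏_{j<p} γ^j y` for a local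
  automorphism `γ` over `K` acting non-trivially on `E` and a non-zero `y` fixed by the local
  group of `E`.  This is the output shape of the cyclic-layer step (P3) of NF-GH-LOC.
* `locNorm_placeOf_of_locNormGen` : `LocNormGen` at `(q, g)` implies the completion-free
  `helper1980.LocNorm` at the prime `helper4727.placeOf q K g` of `𝓞 K`
  (non-split case: `helper1652.locNorm_iff_exists_prod_pow_eq`; split case:
  `helper1652.locNorm_of_localFieldOf_le`).
* `layer_hasse` : **Hasse principle for the layer** — if `LocNormGen` holds at every place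
  `(q, g)`, then `b = ∏_{j<p} s^j y` for some `y ∈ Eˣ`, given the Hasse norm theorem
  `helper1980.Stmt_HasseNorm` for the layer.  This is hypothesis `(T-layer)` of the abstract
  Hasse devissage `helper1242.isMulCoboundary₂_of_locally_trivial`.
* `layer_hasse_mixed` : the same when at some places (those outside `S`) the completion-free
  local norm is supplied directly; `layer_hasse_of_locNorm` : the Hasse norm theorem of the
  layer with the conclusion in generator form (`Algebra.norm = ∏_{j<p} s^j`).
-/

set_option autoImplicit false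

namespace Fermat.Agent.S55.helper2999

open IsDedekindDomain
open scoped NumberField NNReal

attribute [local instance] Fermat.Agent.Lib.helper54.isAlgebraic_Qbar
  Fermat.Agent.Lib.helper54.isAlgClosure_Qbar Fermat.Agent.Lib.helper54.isGalois_Qbar
  Fermat.Agent.Lib.helper54.isIntegral_Qbar
attribute [local instance] Fermat.Agent.Lib.helper54.numberField_intermediate

local notation "Qb" => AlgebraicClosure ℚ
local notation "GQ" => (AlgebraicClosure ℚ ≃ₐ[ℚ] AlgebraicClosure ℚ)

/-! ### The embedding at a place `(q, g)` -/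

section Place

variable (q : ℕ) [Fact q.Prime]

/-- The embedding `ℚ̄ → PadicAlgCl q` attached to the place `g • padicPlace q`. -/
noncomputable def tauAt (g : GQ) : Qb →+* PadicAlgCl q :=
  (padicEmbedding q).toRingHom.comp ((g⁻¹ : GQ) : Qb →+* Qb)

theorem tauAt_apply (g : GQ) (x : Qb) : tauAt q g x = padicEmbedding q (g⁻¹ x) := rfl

theorem tauAt_injective (g : GQ) : Function.Injective (tauAt q g) := (tauAt q g).injective

/-- Equivariance: the conjugated local automorphism acts through `γ` after `tauAt`. -/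
theorem tauAt_conj (g : GQ) (γ : PadicAlgCl q ≃ₐ[ℚ_[q]] PadicAlgCl q) (x : Qb) :
    tauAt q g ((g * localGaloisToGlobal q γ * g⁻¹) x) = γ (tauAt q g x) := by
  rw [tauAt_apply, tauAt_apply, AlgEquiv.mul_apply, AlgEquiv.mul_apply,
    ← AlgEquiv.mul_apply, inv_mul_cancel, AlgEquiv.one_apply, padicEmbedding_localGaloisToGlobal]

/-- **Generator form of the local norm condition** at the place `(q, g)` for the layer `E / K`
of degree `p` and `b ∈ K`: either the place splits in `E / K`, or `tauAt q g b` is
`∏_{j<p} γ^j y` with `γ` a local automorphism over `K` moving `E` and `y ≠ 0` fixed by the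
local group of `E`. -/
def LocNormGen (p : ℕ) (g : GQ) (K E : IntermediateField ℚ Qb) (b : Qb) : Prop :=
  (∀ γ : PadicAlgCl q ≃ₐ[ℚ_[q]] PadicAlgCl q,
      g * localGaloisToGlobal q γ * g⁻¹ ∈ K.fixingSubgroup →
      g * localGaloisToGlobal q γ * g⁻¹ ∈ E.fixingSubgroup) ∨
  ∃ γ : PadicAlgCl q ≃ₐ[ℚ_[q]] PadicAlgCl q,
      g * localGaloisToGlobal q γ * g⁻¹ ∈ K.fixingSubgroup ∧
      g * localGaloisToGlobal q γ * g⁻¹ ∉ E.fixingSubgroup ∧
      ∃ y : PadicAlgCl q, y ≠ 0 ∧
        (∀ n : PadicAlgCl q ≃ₐ[ℚ_[q]] PadicAlgCl q,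
          g * localGaloisToGlobal q n * g⁻¹ ∈ E.fixingSubgroup → n y = y) ∧
        ∏ j ∈ Finset.range p, (γ ^ j) y = tauAt q g b

/-- **Galois descent in `PadicAlgCl q`**: an element fixed by the local group at `(q, g)` of a
subfield `L` of `ℚ̄` lies in the local field `ℚ_q(tauAt q g (L))`.  Here `L` is presented as the
range of a ring hom `φ : A → ℚ̄` (only `L ⊆ range φ` is used). -/
theorem mem_localFieldOf_of_fixed (g : GQ) (L : IntermediateField ℚ Qb) {A : Type*} [Field A]
    (φ : A →+* Qb) (hφ : ∀ x ∈ L, ∃ a : A, φ a = x) (y : PadicAlgCl q)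
    (hy : ∀ n : PadicAlgCl q ≃ₐ[ℚ_[q]] PadicAlgCl q,
      g * localGaloisToGlobal q n * g⁻¹ ∈ L.fixingSubgroup → n y = y) :
    y ∈ helper1652.localFieldOf q ((tauAt q g).comp φ) := by
  rw [← InfiniteGalois.fixedField_fixingSubgroup (helper1652.localFieldOf q ((tauAt q g).comp φ)),
    IntermediateField.mem_fixedField_iff]
  intro n hn
  apply hy
  rw [IntermediateField.mem_fixingSubgroup_iff]
  intro x hx
  obtain ⟨a, rfl⟩ := hφ x hx
  apply tauAt_injective q g
  rw [tauAt_conj]
  exact (IntermediateField.mem_fixingSubgroup_iff _ _).1 hn _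
    (helper1652.apply_mem_localFieldOf q ((tauAt q g).comp φ) a)

end Place

/-! ### The cyclic layer `E / K` -/

/-- `E / K` is a cyclic layer of degree `p` generated by `s ∈ Gal(ℚ̄/K)`, in field form:
`K ≤ E`, `E` is stable under `Gal(ℚ̄/K)`, every element of `Gal(ℚ̄/K)` acts on `E` as a power of
`s`, `s ^ p` is trivial on `E` and `s` is not. -/
structure IsCyclicLayer (p : ℕ) (K E : IntermediateField ℚ Qb) (s : GQ) : Prop where
  le : K ≤ E
  mem : s ∈ K.fixingSubgroup
  stable : ∀ g ∈ K.fixingSubgroup, ∀ x ∈ E, g x ∈ E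
  gen : ∀ g ∈ K.fixingSubgroup, ∃ j : ℕ, ∀ x ∈ E, g x = (s ^ j) x
  pow : ∀ x ∈ E, (s ^ p) x = x
  ne : ∃ x ∈ E, s x ≠ x

section Layer

variable {K E : IntermediateField ℚ Qb}

/-- `E`, viewed as an intermediate field of `ℚ̄ / K`, is a number field. -/
theorem numberField_extendScalars (hKE : K ≤ E) [FiniteDimensional ℚ E] :
    NumberField (IntermediateField.extendScalars hKE) :=
  { to_charZero := inferInstance
    to_finiteDimensional := (inferInstance : FiniteDimensional ℚ E) }

attribute [local instance] numberField_extendScalars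

theorem finiteDimensional_extendScalars (hKE : K ≤ E) [FiniteDimensional ℚ E] :
    FiniteDimensional K (IntermediateField.extendScalars hKE) := by
  have : FiniteDimensional ℚ (IntermediateField.extendScalars hKE) :=
    (inferInstance : FiniteDimensional ℚ E)
  exact Module.Finite.of_restrictScalars_finite ℚ K _

variable {p : ℕ} {s : GQ}

/-- The layer is normal. -/
theorem IsCyclicLayer.normal (h : IsCyclicLayer p K E s) :
    Normal K (IntermediateField.extendScalars h.le) := by
  rw [IntermediateField.normal_iff_forall_map_le']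
  intro σ x hx
  obtain ⟨y, hy, rfl⟩ := (IntermediateField.mem_map _).1 hx
  have hσ : σ.restrictScalars ℚ ∈ K.fixingSubgroup := by
    rw [IntermediateField.mem_fixingSubgroup_iff]
    intro z hz
    exact σ.commutes ⟨z, hz⟩
  exact (IntermediateField.mem_extendScalars h.le).2
    (h.stable _ hσ y ((IntermediateField.mem_extendScalars h.le).1 hy))

/-- The layer is Galois. -/
theorem IsCyclicLayer.isGalois (h : IsCyclicLayer p K E s) :
    IsGalois K (IntermediateField.extendScalars h.le) :=
  { to_isSeparable := inferInstance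
    to_normal := h.normal }

/-- The restriction of `s` to `E` generates `Gal(E/K)` and has order `p`. -/
theorem IsCyclicLayer.exists_gen [Fact p.Prime] (h : IsCyclicLayer p K E s) :
    ∃ σ₀ : (IntermediateField.extendScalars h.le) ≃ₐ[K] (IntermediateField.extendScalars h.le),
      (∀ (j : ℕ) (y : IntermediateField.extendScalars h.le),
        (((σ₀ ^ j) y : IntermediateField.extendScalars h.le) : Qb) = (s ^ j) (y : Qb)) ∧
      (∀ σ : (IntermediateField.extendScalars h.le) ≃ₐ[K] (IntermediateField.extendScalars h.le),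
        σ ∈ Subgroup.zpowers σ₀) ∧
      orderOf σ₀ = p := by
  have := h.normal
  set EK := IntermediateField.extendScalars h.le with hEK
  let s' : Qb ≃ₐ[K] Qb := IntermediateField.fixingSubgroupEquiv K ⟨s, h.mem⟩
  let σ₀ : EK ≃ₐ[K] EK := s'.restrictNormal EK
  have h1 : ∀ y : EK, ((σ₀ y : EK) : Qb) = s (y : Qb) := fun y =>
    AlgEquiv.restrictNormal_commutes s' EK y
  have hpow : ∀ (j : ℕ) (y : EK), (((σ₀ ^ j) y : EK) : Qb) = (s ^ j) (y : Qb) := by
    intro j
    induction j with
    | zero => intro y; simp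
    | succ j ih =>
      intro y
      rw [pow_succ, pow_succ, AlgEquiv.mul_apply, AlgEquiv.mul_apply, ih, h1]
  refine ⟨σ₀, hpow, ?_, ?_⟩
  · intro σ
    let σ' : Qb ≃ₐ[K] Qb := σ.liftNormal Qb
    have hσ' : σ'.restrictScalars ℚ ∈ K.fixingSubgroup := by
      rw [IntermediateField.mem_fixingSubgroup_iff]
      intro z hz
      exact σ'.commutes ⟨z, hz⟩
    obtain ⟨j, hj⟩ := h.gen _ hσ'
    have hσeq : σ = σ₀ ^ j := by
      apply AlgEquiv.ext
      intro y
      apply Subtype.ext
      rw [hpow j y]
      have h2 : σ' (algebraMap EK Qb y) = algebraMap EK Qb (σ y) :=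
        AlgEquiv.liftNormal_commutes σ Qb y
      have h3 := hj (y : Qb) ((IntermediateField.mem_extendScalars h.le).1 y.2)
      exact h2.symm.trans h3
    rw [hσeq]
    exact Subgroup.npow_mem_zpowers σ₀ j
  · apply orderOf_eq_prime
    · apply AlgEquiv.ext
      intro y
      apply Subtype.ext
      rw [hpow p y]
      exact h.pow (y : Qb) ((IntermediateField.mem_extendScalars h.le).1 y.2)
    · intro h0
      obtain ⟨x, hx, hne⟩ := h.ne
      apply hne
      have := h1 ⟨x, (IntermediateField.mem_extendScalars h.le).2 hx⟩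
      rw [h0] at this
      exact this.symm

/-- The layer has degree `p`. -/
theorem IsCyclicLayer.finrank_eq [Fact p.Prime] [FiniteDimensional ℚ E]
    (h : IsCyclicLayer p K E s) :
    Module.finrank K (IntermediateField.extendScalars h.le) = p := by
  have := h.isGalois
  have := finiteDimensional_extendScalars h.le
  obtain ⟨σ₀, -, hgen, hord⟩ := h.exists_gen
  rw [← IsGalois.card_aut_eq_finrank, ← orderOf_eq_card_of_forall_mem_zpowers hgen, hord]

end Layer

/-! ### From the generator form to the completion-free local norm -/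

section Local

variable {K E : IntermediateField ℚ Qb} {p : ℕ} {s : GQ}

attribute [local instance] numberField_extendScalars

/-- A prime of the ring of integers of a number field contains a rational prime. -/
theorem exists_prime_natCast_mem (F : Type) [Field F] [NumberField F]
    (v : HeightOneSpectrum (𝓞 F)) : ∃ ℓ : ℕ, ℓ.Prime ∧ (ℓ : 𝓞 F) ∈ v.asIdeal := by
  have key : ∀ N : ℕ, 0 < N → (N : 𝓞 F) ∈ v.asIdeal →
      ∃ ℓ : ℕ, ℓ.Prime ∧ (ℓ : 𝓞 F) ∈ v.asIdeal := by
    intro N
    induction N using Nat.strong_induction_on with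
    | _ N ih =>
      intro hN hmem
      have hN1 : N ≠ 1 := by
        rintro rfl
        rw [Nat.cast_one] at hmem
        exact v.isPrime.ne_top ((Ideal.eq_top_iff_one _).mpr hmem)
      have hp : N.minFac.Prime := Nat.minFac_prime hN1
      obtain ⟨m, hm⟩ := Nat.minFac_dvd N
      have hmem' : ((N.minFac : ℕ) : 𝓞 F) * (m : 𝓞 F) ∈ v.asIdeal := by
        rw [← Nat.cast_mul, ← hm]
        exact hmem
      rcases v.isPrime.mem_or_mem hmem' with h | h
      · exact ⟨N.minFac, hp, h⟩
      · have hm0 : 0 < m := by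
          rcases Nat.eq_zero_or_pos m with h0 | h0
          · rw [h0, mul_zero] at hm
            omega
          · exact h0
        have hlt : m < N := by
          have h2 := hp.two_le
          nlinarith
        exact ih m hlt hm0 h
  have hne : v.asIdeal ≠ ⊥ := v.ne_bot
  have h0 : Ideal.absNorm v.asIdeal ≠ 0 := by
    rw [Ne, Ideal.absNorm_eq_zero_iff]
    exact hne
  exact key _ (Nat.pos_of_ne_zero h0) (Ideal.absNorm_mem v.asIdeal)

/-- The valuation dictionary at the place `(q, g)`, in the shape used by `helper1652`. -/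
theorem placeOf_dict (hKE : K ≤ E) [FiniteDimensional ℚ K] (q : ℕ) [Fact q.Prime] (g : GQ)
    (x : K) :
    (helper4727.placeOf q K g).valuation K x ≤ 1 ↔
      ‖((tauAt q g).comp (algebraMap (IntermediateField.extendScalars hKE) Qb))
        (algebraMap K (IntermediateField.extendScalars hKE) x)‖ ≤ 1 := by
  rw [helper4727.placeOf_valuation_le_one_iff]
  rfl

/-- **Non-split case**: the generator form of the local norm condition gives the
completion-free local norm at the prime `placeOf q K g`. -/
theorem locNorm_placeOf_of_norm [Fact p.Prime] [FiniteDimensional ℚ K] [FiniteDimensional ℚ E]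
    (h : IsCyclicLayer p K E s) (q : ℕ) [Fact q.Prime] (g : GQ) (b : (↥K)ˣ)
    (γ : PadicAlgCl q ≃ₐ[ℚ_[q]] PadicAlgCl q)
    (hγK : g * localGaloisToGlobal q γ * g⁻¹ ∈ K.fixingSubgroup)
    (hγE : g * localGaloisToGlobal q γ * g⁻¹ ∉ E.fixingSubgroup)
    (y : PadicAlgCl q) (hy0 : y ≠ 0)
    (hyfix : ∀ n : PadicAlgCl q ≃ₐ[ℚ_[q]] PadicAlgCl q,
      g * localGaloisToGlobal q n * g⁻¹ ∈ E.fixingSubgroup → n y = y)
    (hprod : ∏ j ∈ Finset.range p, (γ ^ j) y = tauAt q g ((b : K) : Qb)) :
    helper1980.LocNorm K (IntermediateField.extendScalars h.le) (helper4727.placeOf q K g) b := by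
  have := h.isGalois
  have hdeg := h.finrank_eq
  set EK := IntermediateField.extendScalars h.le with hEK
  set τ : EK →+* PadicAlgCl q := (tauAt q g).comp (algebraMap EK Qb) with hτ
  have hsF : ∀ x : K, γ (τ (algebraMap K EK x)) = τ (algebraMap K EK x) := by
    intro x
    have h1 : τ (algebraMap K EK x) = tauAt q g (x : Qb) := rfl
    rw [h1, ← tauAt_conj]
    congr 1
    exact (IntermediateField.mem_fixingSubgroup_iff _ _).1 hγK _ x.2
  have hsE : ∃ x : EK, γ (τ x) ≠ τ x := by
    rw [IntermediateField.mem_fixingSubgroup_iff] at hγE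
    push Not at hγE
    obtain ⟨x, hx, hne⟩ := hγE
    refine ⟨⟨x, (IntermediateField.mem_extendScalars h.le).2 hx⟩, ?_⟩
    have h1 : τ ⟨x, (IntermediateField.mem_extendScalars h.le).2 hx⟩ = tauAt q g x := rfl
    rw [h1, ← tauAt_conj]
    exact fun h2 => hne (tauAt_injective q g h2)
  have hymem : y ∈ helper1652.localFieldOf q τ :=
    mem_localFieldOf_of_fixed q g E (algebraMap EK Qb)
      (fun x hx => ⟨⟨x, (IntermediateField.mem_extendScalars h.le).2 hx⟩, rfl⟩) y hyfix
  have hmain := (helper1652.locNorm_iff_exists_prod_pow_eq q τ (helper4727.placeOf q K g)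
    (placeOf_dict h.le q g) (Fact.out : p.Prime) hdeg γ hsF hsE b).2 ⟨y, hymem, hy0, hprod⟩
  exact fun N => hmain N

/-- **Split case**: if the place `(q, g)` splits in the layer, every element is a
completion-free local norm at `placeOf q K g` (`helper1652.locNorm_of_localFieldOf_le`). -/
theorem locNorm_placeOf_of_split [FiniteDimensional ℚ K] [FiniteDimensional ℚ E]
    (hKE : K ≤ E) (hG : IsGalois K (IntermediateField.extendScalars hKE))
    (q : ℕ) [Fact q.Prime] (g : GQ) (b : (↥K)ˣ)
    (hsplit : ∀ γ : PadicAlgCl q ≃ₐ[ℚ_[q]] PadicAlgCl q,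
      g * localGaloisToGlobal q γ * g⁻¹ ∈ K.fixingSubgroup →
      g * localGaloisToGlobal q γ * g⁻¹ ∈ E.fixingSubgroup) :
    helper1980.LocNorm K (IntermediateField.extendScalars hKE) (helper4727.placeOf q K g) b := by
  set EK := IntermediateField.extendScalars hKE with hEK
  set τ : EK →+* PadicAlgCl q := (tauAt q g).comp (algebraMap EK Qb) with hτ
  have hmem : ∀ x : EK, τ x ∈ helper1652.localFieldOf q (τ.comp (algebraMap K EK)) := by
    intro x
    refine mem_localFieldOf_of_fixed q g K ((algebraMap EK Qb).comp (algebraMap K EK))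
      (fun z hz => ⟨⟨z, hz⟩, rfl⟩) (τ x) (fun n hn => ?_)
    have h1 : τ x = tauAt q g (x : Qb) := rfl
    rw [h1, ← tauAt_conj]
    congr 1
    exact (IntermediateField.mem_fixingSubgroup_iff _ _).1 (hsplit n hn) _
      ((IntermediateField.mem_extendScalars hKE).1 x.2)
  have hmain := helper1652.locNorm_of_localFieldOf_le q τ (helper4727.placeOf q K g)
    (placeOf_dict hKE q g) hmem b
  exact fun N => hmain N

/-- The generator form of the local norm condition at `(q, g)` implies the completion-free
local norm at the prime `placeOf q K g` of `𝓞 K`. -/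
theorem locNorm_placeOf_of_locNormGen [Fact p.Prime] [FiniteDimensional ℚ K]
    [FiniteDimensional ℚ E] (h : IsCyclicLayer p K E s)
    (q : ℕ) [Fact q.Prime] (g : GQ) (b : (↥K)ˣ)
    (hloc : LocNormGen q p g K E ((b : K) : Qb)) :
    helper1980.LocNorm K (IntermediateField.extendScalars h.le) (helper4727.placeOf q K g) b := by
  rcases hloc with hsplit | ⟨γ, hγK, hγE, y, hy0, hyfix, hprod⟩
  · exact locNorm_placeOf_of_split h.le h.isGalois q g b hsplit
  · exact locNorm_placeOf_of_norm h q g b γ hγK hγE y hy0 hyfix hprod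

/-- **Hasse norm theorem for the layer, generator form of the conclusion**: if `b ∈ Kˣ` is a
completion-free local norm at every prime of `𝓞 K`, then `b = ∏_{j<p} s^j y` with `y ∈ Eˣ`. -/
theorem layer_hasse_of_locNorm [Fact p.Prime] [FiniteDimensional ℚ K] [FiniteDimensional ℚ E]
    (h : IsCyclicLayer p K E s)
    (hHN : helper1980.Stmt_HasseNorm K (IntermediateField.extendScalars h.le))
    (b : (↥K)ˣ)
    (hall : ∀ v : HeightOneSpectrum (𝓞 K),
      helper1980.LocNorm K (IntermediateField.extendScalars h.le) v b) :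
    ∃ y ∈ E, y ≠ 0 ∧ ∏ j ∈ Finset.range p, (s ^ j) y = ((b : K) : Qb) := by
  have := h.isGalois
  have := finiteDimensional_extendScalars h.le
  set EK := IntermediateField.extendScalars h.le with hEK
  obtain ⟨y, hy⟩ := hHN b hall
  obtain ⟨σ₀, hσpow, hgen, -⟩ := h.exists_gen
  have hnorm := helper1652.algebraMap_norm_eq_prod_pow σ₀ hgen (y : EK)
  rw [h.finrank_eq] at hnorm
  have hy' : Algebra.norm K (y : EK) = (b : K) := congrArg Units.val hy
  refine ⟨((y : EK) : Qb), (IntermediateField.mem_extendScalars h.le).1 (y : EK).2, ?_, ?_⟩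
  · intro h0
    exact y.ne_zero (Subtype.ext h0)
  · have h2 : ((algebraMap K EK (Algebra.norm K (y : EK)) : EK) : Qb) =
        ((∏ j ∈ Finset.range p, (σ₀ ^ j) (y : EK) : EK) : Qb) := congrArg Subtype.val hnorm
    rw [hy'] at h2
    have h3 : ((∏ j ∈ Finset.range p, (σ₀ ^ j) (y : EK) : EK) : Qb) =
        ∏ j ∈ Finset.range p, (s ^ j) ((y : EK) : Qb) :=
      (map_prod (algebraMap EK Qb) (fun j => (σ₀ ^ j) (y : EK)) (Finset.range p)).trans
        (Finset.prod_congr rfl (fun j _ => hσpow j (y : EK)))
    exact (h2.trans h3).symm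

/-- **Hasse principle for the cyclic layer `E / K`, mixed form**: at every place `(q, g)` either
the generator form of the local norm condition holds (places over `S`, from NF-GH-LOC (P3)), or
`b` is already known to be a completion-free local norm at `placeOf q K g` (places outside `S`,
from the valuation shadow `p ∣ ord_v b` and the unramified S14 leaf).  Then `b = ∏_{j<p} s^j y`
for some `y ∈ Eˣ`. -/
theorem layer_hasse_mixed [Fact p.Prime] [FiniteDimensional ℚ K] [FiniteDimensional ℚ E]
    (h : IsCyclicLayer p K E s)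
    (hHN : helper1980.Stmt_HasseNorm K (IntermediateField.extendScalars h.le))
    (b : (↥K)ˣ)
    (hloc : ∀ (q : ℕ) [Fact q.Prime] (g : GQ), LocNormGen q p g K E ((b : K) : Qb) ∨
      helper1980.LocNorm K (IntermediateField.extendScalars h.le) (helper4727.placeOf q K g) b) :
    ∃ y ∈ E, y ≠ 0 ∧ ∏ j ∈ Finset.range p, (s ^ j) y = ((b : K) : Qb) := by
  refine layer_hasse_of_locNorm h hHN b (fun v => ?_)
  obtain ⟨q, hq, hqv⟩ := exists_prime_natCast_mem K v
  have : Fact q.Prime := ⟨hq⟩
  obtain ⟨g, rfl⟩ := helper4727.placeOf_surjective q K v hqv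
  rcases hloc q g with h1 | h1
  · exact locNorm_placeOf_of_locNormGen h q g b h1
  · exact h1

/-- **Hasse principle for the cyclic layer `E / K`** (hypothesis `(T-layer)` of the abstract
Hasse devissage): if `b ∈ Kˣ` satisfies the generator form of the local norm condition at every
place `(q, g)`, then `b = ∏_{j<p} s^j y` for some `y ∈ Eˣ`.  Only input: the Hasse norm theorem
for the layer. -/
theorem layer_hasse [Fact p.Prime] [FiniteDimensional ℚ K] [FiniteDimensional ℚ E]
    (h : IsCyclicLayer p K E s)
    (hHN : helper1980.Stmt_HasseNorm K (IntermediateField.extendScalars h.le))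
    (b : Qb) (hbK : b ∈ K) (hb0 : b ≠ 0)
    (hloc : ∀ (q : ℕ) [Fact q.Prime] (g : GQ), LocNormGen q p g K E b) :
    ∃ y ∈ E, y ≠ 0 ∧ ∏ j ∈ Finset.range p, (s ^ j) y = b := by
  have hb0' : (⟨b, hbK⟩ : K) ≠ 0 := fun h0 => hb0 (congrArg Subtype.val h0)
  exact layer_hasse_mixed h hHN (Units.mk0 ⟨b, hbK⟩ hb0') (fun q _ g => Or.inl (hloc q g))

end Local

end Fermat.Agent.S55.helper2999
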