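/-
S55 number-field core: the Kummer SECOND INEQUALITY for an EXACTLY PRESCRIBED finite set `S`
of places, completion-free and in `LocPow` language only (no norm group, no extension field).
(helper1892)

`F` a number field, `b ∈ Fˣ` not a `p`-th power (so `E = F(b^(1/p))`).  For a finite set `S`
of places put

* `locPowS p S`       : elements which are local `p`-th powers at every `v ∈ S`  (⊆ local norms);
* `divOutside p b S`  : elements `x` with `p ∣ ord_w x` at every `w ∉ S` at which `b` is NOT a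
                        local `p`-th power (i.e. at the non-split places outside `S`).

`secondIneq_exact` : `[Fˣ : locPowS p S ⊔ divOutside p b S] ≤ p` for EVERY finite `S`,
from `Stmt_TateCount F p` (which only gives the bound for some large `S' ⊇ S`).
This is `[J_F : Fˣ · N J_E] ≤ p` read at the finite level `S`.

`twoPlace_exact` : the two-place form consumed by (G-E).
-/
import Fermat.Agent.S14.helper1892_M6Core
import Fermat.Agent.S14.helper4204_LocalPow
import Fermat.Agent.S14.helper1913_ApproxN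

set_option autoImplicit false

open IsDedekindDomain NumberField

namespace Fermat.Agent.S55.helper1892

open Fermat.Agent.S14
open Fermat.Agent.S14.helper2613 (ordAt SUnits mem_SUnits_iff_ordAt ordAt_mul ordAt_one)
open Fermat.Agent.S14.helper1892 (LocPow LocPowN locPowS mem_locPowS locPowSubgroup ordAt_inv
  dvd_ordAt_of_locPowN locPow_inv Stmt_TateCount)

noncomputable section

variable {F : Type*} [Field F] [NumberField F]

/-- Elements `x` with `p ∣ ord_w x` at every place `w` satisfying `P` at which `b` is not a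
local `p`-th power. -/
def divAt (p : ℕ) (b : Fˣ) (P : HeightOneSpectrum (𝓞 F) → Prop) : Subgroup Fˣ where
  carrier := {x | ∀ w : HeightOneSpectrum (𝓞 F), P w → ¬ LocPow p w b → (p : ℤ) ∣ ordAt w x}
  mul_mem' := fun {x y} hx hy w hw hb => by
    rw [ordAt_mul]
    exact dvd_add (hx w hw hb) (hy w hw hb)
  one_mem' := fun w _ _ => by
    rw [ordAt_one]
    exact dvd_zero _
  inv_mem' := fun {x} hx w hw hb => by
    rw [ordAt_inv]
    exact (dvd_neg).2 (hx w hw hb)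

theorem mem_divAt {p : ℕ} {b : Fˣ} {P : HeightOneSpectrum (𝓞 F) → Prop} {x : Fˣ} :
    x ∈ divAt p b P ↔
      ∀ w : HeightOneSpectrum (𝓞 F), P w → ¬ LocPow p w b → (p : ℤ) ∣ ordAt w x := Iff.rfl

/-- Elements `x` with `p ∣ ord_w x` at every place `w ∉ S` at which `b` is not a local `p`-th
power (the "non-split places outside `S`" of `F(b^(1/p))`). -/
def divOutside (p : ℕ) (b : Fˣ) (S : Finset (HeightOneSpectrum (𝓞 F))) : Subgroup Fˣ :=
  divAt p b (fun w => w ∉ S)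

theorem mem_divOutside {p : ℕ} {b : Fˣ} {S : Finset (HeightOneSpectrum (𝓞 F))} {x : Fˣ} :
    x ∈ divOutside p b S ↔
      ∀ w : HeightOneSpectrum (𝓞 F), w ∉ S → ¬ LocPow p w b → (p : ℤ) ∣ ordAt w x := Iff.rfl

theorem dvd_ordAt_of_locPow' {p : ℕ} {v : HeightOneSpectrum (𝓞 F)} {x : Fˣ}
    (hx : LocPow p v x) : (p : ℤ) ∣ ordAt v x :=
  dvd_ordAt_of_locPowN (hx 1)

/-- Weak approximation + Hensel: every `x` is (local `p`-th power at all of `S`) times (an
element with `ord_w = 0` at all `w ∈ S' \ S`). -/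
theorem exists_locPowS_mul {p : ℕ} (hp : p.Prime) (S S' : Finset (HeightOneSpectrum (𝓞 F)))
    (x : Fˣ) :
    ∃ g d : Fˣ, g ∈ locPowS p S ∧ (∀ w ∈ S', w ∉ S → ordAt w d = 0) ∧ x = g * d := by
  classical
  set N : ℕ := 2 * (∑ v ∈ S, helper4204.ordP v p) + 1 with hN
  obtain ⟨z, hzS, hzT⟩ := helper1913.approxN S (S' \ S) Finset.disjoint_sdiff N
    (fun w => - ordAt w x)
  refine ⟨z⁻¹, x * z, ?_, ?_, ?_⟩
  · rw [mem_locPowS]
    intro v hv
    refine locPow_inv (helper4204.locPow_of_valuation_sub_one_le v hp ?_ (hzS v hv))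
    have h1 : helper4204.ordP v p ≤ ∑ v ∈ S, helper4204.ordP v p :=
      Finset.single_le_sum (f := fun v => helper4204.ordP v p) (fun _ _ => Nat.zero_le _) hv
    omega
  · intro w hw hwS
    rw [ordAt_mul, hzT w (Finset.mem_sdiff.mpr ⟨hw, hwS⟩)]
    ring
  · rw [mul_comm x z, ← mul_assoc, inv_mul_cancel, one_mul]

/-- **Second inequality for an exactly prescribed `S`** (completion-free, `LocPow` form):
`[Fˣ : locPowS p S ⊔ divOutside p b S] ≤ p` for every finite set `S` of places. -/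
theorem secondIneq_exact {p : ℕ} (hp : p.Prime) (hTate : Stmt_TateCount F p) (b : Fˣ)
    (hb : ¬ ∃ y : Fˣ, b = y ^ p) (S : Finset (HeightOneSpectrum (𝓞 F))) :
    (locPowS p S ⊔ divOutside p b S).index ≠ 0 ∧ (locPowS p S ⊔ divOutside p b S).index ≤ p := by
  classical
  obtain ⟨S', T, hSS', -, -, -, -, hT, hidx0, hidxp⟩ := hTate b hb S
  set M : Subgroup Fˣ := locPowS p S ⊔ divOutside p b S with hM
  set H' : Subgroup Fˣ := locPowS p S' ⊔ divOutside p b S' with hH'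
  set D : Subgroup Fˣ := divAt p b (fun w => w ∈ S' ∧ w ∉ S) with hD
  -- the Tate group is contained in `H'`
  have h1 : locPowS p S' ⊔ SUnits F (S' ∪ T) ≤ H' := by
    refine sup_le_sup_left ?_ _
    intro u hu w hw hbw
    have hwT : w ∉ T := fun h => hbw (hT w h)
    have : w ∉ S' ∪ T := by
      rw [Finset.mem_union]
      rintro (h | h)
      · exact hw h
      · exact hwT h
    rw [(mem_SUnits_iff_ordAt.1 hu) w this]
    exact dvd_zero _
  have hH'dvd : H'.index ∣ (locPowS p S' ⊔ SUnits F (S' ∪ T)).index :=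
    Subgroup.index_dvd_of_le h1
  have hH'0 : H'.index ≠ 0 := by
    intro h0
    rw [h0, zero_dvd_iff] at hH'dvd
    exact hidx0 hH'dvd
  have hH'p : H'.index ≤ p :=
    (Nat.le_of_dvd (Nat.pos_of_ne_zero hidx0) hH'dvd).trans hidxp
  -- `locPowS p S' ≤ D` and `locPowS p S' ≤ locPowS p S`
  have hLD : locPowS p S' ≤ D := by
    intro x hx w hw _
    exact dvd_ordAt_of_locPow' ((mem_locPowS.1 hx) w hw.1)
  have hLL : locPowS p S' ≤ locPowS p S := by
    intro x hx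
    rw [mem_locPowS] at hx ⊢
    exact fun v hv => hx v (hSS' hv)
  -- modular law: `H' ⊓ D ≤ M`
  have hmod : H' ⊓ D ≤ M := by
    intro x hx
    obtain ⟨hxH, hxD⟩ := hx
    obtain ⟨l, hl, a, ha, rfl⟩ := Subgroup.mem_sup.1 hxH
    have haD : a ∈ D := by
      have : a = l⁻¹ * (l * a) := by rw [inv_mul_cancel_left]
      rw [this]
      exact D.mul_mem (D.inv_mem (hLD hl)) hxD
    refine Subgroup.mul_mem_sup (hLL hl) ?_
    intro w hw hbw
    by_cases hwS' : w ∈ S'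
    · exact haD w ⟨hwS', hw⟩ hbw
    · exact ha w hwS' hbw
  -- `D ⊔ M = ⊤`
  have hcover : D ⊔ M = ⊤ := by
    rw [eq_top_iff]
    intro x _
    obtain ⟨g, d, hg, hd, rfl⟩ := exists_locPowS_mul hp S S' x
    rw [mul_comm]
    refine Subgroup.mul_mem_sup ?_ (Subgroup.mem_sup_left hg)
    intro w hw _
    rw [hd w hw.1 hw.2]
    exact dvd_zero _
  -- index computation
  have e1 : M.index = M.relIndex D := by
    rw [← Subgroup.relIndex_top_right, ← hcover, Subgroup.relIndex_sup_right]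
  have e2 : M.relIndex D ∣ (H' ⊓ D).relIndex D := Subgroup.relIndex_dvd_of_le_left D hmod
  have e3 : (H' ⊓ D).relIndex D = H'.relIndex D := Subgroup.inf_relIndex_right H' D
  have e4 : H'.relIndex D ∣ H'.index := Subgroup.relIndex_dvd_index_of_normal H' D
  have hdvd : M.index ∣ H'.index := by
    rw [e1]
    exact (e3 ▸ e2).trans e4
  refine ⟨?_, (Nat.le_of_dvd (Nat.pos_of_ne_zero hH'0) hdvd).trans hH'p⟩
  intro h0
  rw [h0, zero_dvd_iff] at hdvd
  exact hH'0 hdvd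

/-- The same for any family of subgroups `Lam v ⊇` (local `p`-th powers at `v`), e.g. the
completion-free local norm groups of `F(b^(1/p))`. -/
theorem secondIneq_exact_of_le {p : ℕ} (hp : p.Prime) (hTate : Stmt_TateCount F p) (b : Fˣ)
    (hb : ¬ ∃ y : Fˣ, b = y ^ p) (S : Finset (HeightOneSpectrum (𝓞 F)))
    (Lam : HeightOneSpectrum (𝓞 F) → Subgroup Fˣ)
    (hLam : ∀ v ∈ S, locPowSubgroup p v ≤ Lam v) :
    ((⨅ v ∈ S, Lam v) ⊔ divOutside p b S).index ≠ 0 ∧
      ((⨅ v ∈ S, Lam v) ⊔ divOutside p b S).index ≤ p := by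
  obtain ⟨h0, hp'⟩ := secondIneq_exact hp hTate b hb S
  have hle : locPowS p S ⊔ divOutside p b S ≤ (⨅ v ∈ S, Lam v) ⊔ divOutside p b S := by
    refine sup_le_sup_right ?_ _
    unfold locPowS
    exact iInf₂_mono hLam
  have hdvd := Subgroup.index_dvd_of_le hle
  refine ⟨?_, (Nat.le_of_dvd (Nat.pos_of_ne_zero h0) hdvd).trans hp'⟩
  intro h
  rw [h, zero_dvd_iff] at hdvd
  exact h0 hdvd

/-! ## The two-place form -/

theorem exists_le_exp (a : WithZero (Multiplicative ℤ)) : ∃ n : ℕ, a ≤ WithZero.exp (n : ℤ) := by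
  rcases eq_or_ne a 0 with rfl | ha
  · exact ⟨0, by simp⟩
  · obtain ⟨m, rfl⟩ : ∃ m : ℤ, a = WithZero.exp m :=
      ⟨WithZero.log a, (WithZero.exp_log ha).symm⟩
    exact ⟨m.toNat, by rw [WithZero.exp_le_exp]; exact Int.self_le_toNat m⟩

/-- Weak approximation: `y` close to `x` at `w₁` and close to `1` at the other places of `S`. -/
theorem exists_approx_at (S : Finset (HeightOneSpectrum (𝓞 F))) (w₁ : HeightOneSpectrum (𝓞 F))
    (x : Fˣ) (N : ℕ) :
    ∃ y : Fˣ, w₁.valuation F ((y : F) / (x : F) - 1) ≤ WithZero.exp (-(N : ℤ)) ∧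
      ∀ v ∈ S, v ≠ w₁ → v.valuation F ((y : F) - 1) ≤ WithZero.exp (-(N : ℤ)) := by
  classical
  set t : F := (x : F) with ht
  have ht0 : t ≠ 0 := x.ne_zero
  choose n hn using fun v : HeightOneSpectrum (𝓞 F) =>
    exists_le_exp (v.valuation F ((1 - t) / t))
  choose n' hn' using fun v : HeightOneSpectrum (𝓞 F) => exists_le_exp (v.valuation F (t - 1))
  set B : ℕ := n w₁ + ∑ v ∈ S, n' v with hB
  obtain ⟨c, -, hcR, hcT⟩ := helper1913.exists_int_approx {w₁} (S.erase w₁)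
    (by simp) (N + B) (fun _ => N + B)
  set y : F := 1 + algebraMap (𝓞 F) F c * (t - 1) with hy
  have h1 : w₁.valuation F (y / t - 1) ≤ WithZero.exp (-((N + 1 : ℕ) : ℤ)) := by
    have e : y / t - 1 = -(algebraMap (𝓞 F) F (c - 1) * ((1 - t) / t)) := by
      rw [hy, map_sub, map_one]
      field_simp
      ring
    rw [e, Valuation.map_neg, map_mul, HeightOneSpectrum.valuation_of_algebraMap]
    have hc1 : w₁.intValuation (c - 1) ≤ WithZero.exp (-((N + B + 1 : ℕ) : ℤ)) :=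
      (w₁.intValuation_le_pow_iff_mem _ _).mpr (hcR w₁ (Finset.mem_singleton_self _))
    refine (mul_le_mul' hc1 (hn w₁)).trans ?_
    rw [← WithZero.exp_add, WithZero.exp_le_exp]
    push_cast
    omega
  have hy0 : y ≠ 0 := by
    intro h0
    rw [h0, zero_div, zero_sub, Valuation.map_neg, map_one] at h1
    have h2 : WithZero.exp (-((N + 1 : ℕ) : ℤ)) < (1 : WithZero (Multiplicative ℤ)) :=
      helper1892.exp_neg_succ_lt_one N
    exact absurd h1 (not_le.mpr h2)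
  have hmono : WithZero.exp (-((N + 1 : ℕ) : ℤ)) ≤
      (WithZero.exp (-(N : ℤ)) : WithZero (Multiplicative ℤ)) := by
    rw [WithZero.exp_le_exp]
    push_cast
    omega
  refine ⟨Units.mk0 y hy0, h1.trans hmono, ?_⟩
  intro v hv hne
  have e : ((Units.mk0 y hy0 : Fˣ) : F) - 1 = algebraMap (𝓞 F) F c * (t - 1) := by
    rw [Units.val_mk0, hy]
    ring
  rw [e, map_mul, HeightOneSpectrum.valuation_of_algebraMap,
    hcT v (Finset.mem_erase.mpr ⟨hne, hv⟩)]
  have hle : n' v ≤ ∑ v ∈ S, n' v :=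
    Finset.single_le_sum (f := fun v => n' v) (fun _ _ => Nat.zero_le _) hv
  refine (mul_le_mul' le_rfl (hn' v)).trans ?_
  rw [← WithZero.exp_add, WithZero.exp_le_exp]
  push_cast
  omega

/-- Weak approximation in `LocPow` form: `y ≡ x` at `w₁` and `y ≡ 1` at the other places of
`S`, modulo local `p`-th powers. -/
theorem exists_locPow_approx {p : ℕ} (hp : p.Prime) (S : Finset (HeightOneSpectrum (𝓞 F)))
    {w₁ : HeightOneSpectrum (𝓞 F)} (hw₁ : w₁ ∈ S) (x : Fˣ) :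
    ∃ y : Fˣ, LocPow p w₁ (y * x⁻¹) ∧ ∀ v ∈ S, v ≠ w₁ → LocPow p v y := by
  classical
  set N : ℕ := 2 * (∑ v ∈ S, helper4204.ordP v p) + 1 with hN
  have hNv : ∀ v ∈ S, 2 * helper4204.ordP v p < N := by
    intro v hv
    have h1 : helper4204.ordP v p ≤ ∑ v ∈ S, helper4204.ordP v p :=
      Finset.single_le_sum (f := fun v => helper4204.ordP v p) (fun _ _ => Nat.zero_le _) hv
    omega
  obtain ⟨y, hy1, hy2⟩ := exists_approx_at S w₁ x N
  refine ⟨y, ?_, fun v hv hne =>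
    helper4204.locPow_of_valuation_sub_one_le v hp (hNv v hv) (hy2 v hv hne)⟩
  refine helper4204.locPow_of_valuation_sub_one_le w₁ hp (hNv w₁ hw₁) ?_
  have e : ((y * x⁻¹ : Fˣ) : F) = (y : F) / (x : F) := by
    rw [Units.val_mul, Units.val_inv_eq_inv_val, div_eq_mul_inv]
  rw [e]
  exact hy1

/-- Pigeonhole in a quotient of order `≤ p`. -/
theorem exists_zpow_mul_zpow_mem {G : Type*} [CommGroup G] (M : Subgroup G) {p : ℕ}
    (hp : p.Prime) (h0 : M.index ≠ 0) (hle : M.index ≤ p) (x₁ x₂ : G) :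
    ∃ m n : ℤ, ¬ ((p : ℤ) ∣ m ∧ (p : ℤ) ∣ n) ∧ x₁ ^ m * x₂ ^ n ∈ M := by
  classical
  have hfi : M.FiniteIndex := ⟨h0⟩
  let _ : Fintype (G ⧸ M) := Fintype.ofFinite _
  let f : Fin p × Fin p → G ⧸ M :=
    fun ij => QuotientGroup.mk (x₁ ^ (ij.1 : ℕ) * x₂ ^ (ij.2 : ℕ))
  have hcard : Fintype.card (G ⧸ M) < Fintype.card (Fin p × Fin p) := by
    rw [Fintype.card_prod, Fintype.card_fin, ← Nat.card_eq_fintype_card]
    have h1 : Nat.card (G ⧸ M) ≤ p := hle
    have h2 : p < p * p := by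
      have := hp.two_le
      nlinarith
    omega
  obtain ⟨a, b, hab, hf⟩ := Fintype.exists_ne_map_eq_of_card_lt f hcard
  refine ⟨(b.1 : ℤ) - (a.1 : ℤ), (b.2 : ℤ) - (a.2 : ℤ), ?_, ?_⟩
  · rintro ⟨h1, h2⟩
    apply hab
    have e1 : (a.1 : ℕ) = (b.1 : ℕ) := by
      have hm : ((a.1 : ℕ) : ℤ) ≡ ((b.1 : ℕ) : ℤ) [ZMOD (p : ℤ)] := (Int.modEq_iff_dvd).2 h1
      exact Nat.ModEq.eq_of_lt_of_lt (Int.natCast_modEq_iff.1 hm) a.1.2 b.1.2
    have e2 : (a.2 : ℕ) = (b.2 : ℕ) := by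
      have hm : ((a.2 : ℕ) : ℤ) ≡ ((b.2 : ℕ) : ℤ) [ZMOD (p : ℤ)] := (Int.modEq_iff_dvd).2 h2
      exact Nat.ModEq.eq_of_lt_of_lt (Int.natCast_modEq_iff.1 hm) a.2.2 b.2.2
    exact Prod.ext (Fin.ext e1) (Fin.ext e2)
  · have h := QuotientGroup.eq.1 hf
    have e : x₁ ^ ((b.1 : ℤ) - (a.1 : ℤ)) * x₂ ^ ((b.2 : ℤ) - (a.2 : ℤ))
        = (x₁ ^ (a.1 : ℕ) * x₂ ^ (a.2 : ℕ))⁻¹ * (x₁ ^ (b.1 : ℕ) * x₂ ^ (b.2 : ℕ)) := by
      rw [zpow_sub, zpow_sub, zpow_natCast, zpow_natCast, zpow_natCast, zpow_natCast, mul_inv]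
      simp only [mul_assoc, mul_comm, mul_left_comm]
    rw [e]
    exact h

/-- **Two-place form of the second inequality** (exact `S`, `LocPow` language): for two
different places `w₁, w₂ ∈ S` and arbitrary `x₁, x₂ ∈ Fˣ` there are integers `(m, n) ≢ (0, 0)`
mod `p` and `a ∈ Fˣ` with `a ≡ x₁^m` at `w₁`, `a ≡ x₂^n` at `w₂`, `a ≡ 1` at the other places of
`S` (all modulo local `p`-th powers), and `p ∣ ord_w a` at every `w ∉ S` at which `b` is not a
local `p`-th power. -/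
theorem twoPlace_exact {p : ℕ} (hp : p.Prime) (hTate : Stmt_TateCount F p) (b : Fˣ)
    (hb : ¬ ∃ y : Fˣ, b = y ^ p) (S : Finset (HeightOneSpectrum (𝓞 F)))
    {w₁ w₂ : HeightOneSpectrum (𝓞 F)} (h₁ : w₁ ∈ S) (h₂ : w₂ ∈ S) (hne : w₁ ≠ w₂)
    (x₁ x₂ : Fˣ) :
    ∃ (m n : ℤ) (a : Fˣ), ¬ ((p : ℤ) ∣ m ∧ (p : ℤ) ∣ n) ∧
      LocPow p w₁ (a * (x₁ ^ m)⁻¹) ∧ LocPow p w₂ (a * (x₂ ^ n)⁻¹) ∧
      (∀ v ∈ S, v ≠ w₁ → v ≠ w₂ → LocPow p v a) ∧
      ∀ w : HeightOneSpectrum (𝓞 F), w ∉ S → ¬ LocPow p w b → (p : ℤ) ∣ ordAt w a := by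
  classical
  obtain ⟨y₁, hy₁, hy₁'⟩ := exists_locPow_approx hp S h₁ x₁
  obtain ⟨y₂, hy₂, hy₂'⟩ := exists_locPow_approx hp S h₂ x₂
  obtain ⟨h0, hle⟩ := secondIneq_exact hp hTate b hb S
  obtain ⟨m, n, hmn, hmem⟩ := exists_zpow_mul_zpow_mem _ hp h0 hle y₁ y₂
  obtain ⟨g, hg, a, ha, hga⟩ := Subgroup.mem_sup.1 hmem
  have hgS := mem_locPowS.1 hg
  have ha_eq : a = g⁻¹ * (y₁ ^ m * y₂ ^ n) := by
    rw [← hga, inv_mul_cancel_left]
  refine ⟨m, n, a, hmn, ?_, ?_, ?_, ha⟩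
  · -- at `w₁`
    have e : a * (x₁ ^ m)⁻¹ = g⁻¹ * ((y₁ * x₁⁻¹) ^ m * y₂ ^ n) := by
      rw [ha_eq, mul_zpow, inv_zpow]
      simp only [mul_assoc, mul_comm, mul_left_comm]
    rw [e]
    exact (locPowSubgroup p w₁).mul_mem ((locPowSubgroup p w₁).inv_mem (hgS w₁ h₁))
      ((locPowSubgroup p w₁).mul_mem ((locPowSubgroup p w₁).zpow_mem hy₁ m)
        ((locPowSubgroup p w₁).zpow_mem (hy₂' w₁ h₁ hne) n))
  · -- at `w₂`
    have e : a * (x₂ ^ n)⁻¹ = g⁻¹ * (y₁ ^ m * (y₂ * x₂⁻¹) ^ n) := by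
      rw [ha_eq, mul_zpow, inv_zpow]
      simp only [mul_assoc, mul_comm, mul_left_comm]
    rw [e]
    exact (locPowSubgroup p w₂).mul_mem ((locPowSubgroup p w₂).inv_mem (hgS w₂ h₂))
      ((locPowSubgroup p w₂).mul_mem ((locPowSubgroup p w₂).zpow_mem (hy₁' w₂ h₂ hne.symm) m)
        ((locPowSubgroup p w₂).zpow_mem hy₂ n))
  · intro v hv hv1 hv2
    rw [ha_eq]
    exact (locPowSubgroup p v).mul_mem ((locPowSubgroup p v).inv_mem (hgS v hv))
      ((locPowSubgroup p v).mul_mem ((locPowSubgroup p v).zpow_mem (hy₁' v hv hv1) m)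
        ((locPowSubgroup p v).zpow_mem (hy₂' v hv hv2) n))

end

end Fermat.Agent.S55.helper1892
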