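/-
S55 number-field core (reuse of the S14 class-field modules): the SECOND INEQUALITY in
Tate's counting form, with every leaf that is on main plugged in.  (helper1892)

* `stmt_TateCount_of_M5` : `Stmt_M5 F p` (first inequality, `Fˣ`-form) ⟹ `Stmt_TateCount F p`
  for every number field `F ∋ ζ_p`, `p` odd.
* `stmt_M5_of_two` : `Stmt_M5 F p` from the two leaves of the first inequality which are still
  in flight (Kummer dictionary, S-unit norm index).
* `stmt_TateCount_of_two` : the composition.
-/
import Fermat.Agent.S14.helper1892_M6Core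
import Fermat.Agent.S14.helper4204_LocalPow
import Fermat.Agent.S14.helper2613_SUnitStmt
import Fermat.Agent.S14.helper1080_TotComplex
import Fermat.Agent.S14.helper175_ClassGen
import Fermat.Agent.S14.helper7212_LocalCyclic
import Fermat.Agent.S14.helper7212_M2
import Fermat.Agent.S14.helper7133_M5Tame
import Fermat.Agent.S14.helper165_FirstIneq
import Fermat.Agent.S14.helper6582_M5KummerDict
import Fermat.Agent.S55.helper1892_SecondIneq

set_option autoImplicit false

open IsDedekindDomain NumberField

namespace Fermat.Agent.S55.helper1892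

open Fermat.Agent.S14

/-- **Second inequality, Tate's count**, from the first inequality `Stmt_M5 F p` alone:
all the other inputs of `helper1892.tateCount` are on main. -/
theorem stmt_TateCount_of_M5 {F : Type} [Field F] [NumberField F] {p : ℕ} (hp : p.Prime)
    (hodd : p ≠ 2) (hζ : ∃ ζ : F, IsPrimitiveRoot ζ p) (hM5 : S14.helper1892.Stmt_M5 F p) :
    S14.helper1892.Stmt_TateCount F p :=
  S14.helper1892.tateCount hp hM5 (helper7212.stmt_SelectOne hp hζ) (helper7212.localCyclic hp)
    (helper4204.stmt_locIndex hp hζ) (helper2613.stmt_SUnitCount F hp hζ)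
    (helper1080.totComplex hp hodd hζ) helper175.classGen

/-- **First inequality** `Stmt_M5 F p` from the Kummer dictionary and the S-unit norm index
(the tame index, norm valuations, approximation and class-group generation are on main). -/
theorem stmt_M5_of_two (F : Type) [Field F] [NumberField F] (p : ℕ) (hp : p.Prime)
    (hζ : ∃ ζ : F, IsPrimitiveRoot ζ p)
    (hD : helper165.Stmt_KummerDict F p)
    (hS : ∀ (E : Type) [Field E] [NumberField E] [Algebra F E] [IsGalois F E],
      Module.finrank F E = p → helper165.Stmt_SUnitNormIndex F E p) :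
    S14.helper1892.Stmt_M5 F p :=
  helper165.stmt_M5_of_three F p hp hD hS
    (fun E _ _ _ _ hdeg => helper7133.tameIndex F E p hp hζ hdeg)

/-- **Second inequality, Tate's count**, from the two open leaves of the first inequality. -/
theorem stmt_TateCount_of_two (F : Type) [Field F] [NumberField F] (p : ℕ) (hp : p.Prime)
    (hodd : p ≠ 2) (hζ : ∃ ζ : F, IsPrimitiveRoot ζ p)
    (hD : helper165.Stmt_KummerDict F p)
    (hS : ∀ (E : Type) [Field E] [NumberField E] [Algebra F E] [IsGalois F E],
      Module.finrank F E = p → helper165.Stmt_SUnitNormIndex F E p) :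
    S14.helper1892.Stmt_TateCount F p :=
  stmt_TateCount_of_M5 hp hodd hζ (stmt_M5_of_two F p hp hζ hD hS)

/-- **Second inequality, Tate's count**, from the S-unit norm index alone (the Kummer dictionary
`helper6582.kummerDict` is on main). -/
theorem stmt_TateCount_of_sUnitNormIndex (F : Type) [Field F] [NumberField F] (p : ℕ)
    (hp : p.Prime) (hodd : p ≠ 2) (hζ : ∃ ζ : F, IsPrimitiveRoot ζ p)
    (hS : ∀ (E : Type) [Field E] [NumberField E] [Algebra F E] [IsGalois F E],
      Module.finrank F E = p → helper165.Stmt_SUnitNormIndex F E p) :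
    S14.helper1892.Stmt_TateCount F p :=
  stmt_TateCount_of_two F p hp hodd hζ (helper6582.kummerDict F p hp hζ) hS

/-! ## Hypothesis-free forms (the first inequality `helper165.stmt_M5` is on main) -/

/-- **Kummer second inequality, Tate's count**, for every number field `F ∋ ζ_p`, `p` odd. -/
theorem stmt_TateCount (F : Type) [Field F] [NumberField F] (p : ℕ) (hp : p.Prime)
    (hodd : p ≠ 2) (hζ : ∃ ζ : F, IsPrimitiveRoot ζ p) : S14.helper1892.Stmt_TateCount F p :=
  stmt_TateCount_of_M5 hp hodd hζ (helper165.stmt_M5 F p hp hodd hζ)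

/-- **Second inequality for an exactly prescribed finite set `S`** of places, hypothesis-free:
`[Fˣ : locPowS p S ⊔ divOutside p b S] ≤ p`. -/
theorem secondIneq (F : Type) [Field F] [NumberField F] (p : ℕ) (hp : p.Prime)
    (hodd : p ≠ 2) (hζ : ∃ ζ : F, IsPrimitiveRoot ζ p) (b : Fˣ) (hb : ¬ ∃ y : Fˣ, b = y ^ p)
    (S : Finset (HeightOneSpectrum (𝓞 F))) :
    (S14.helper1892.locPowS p S ⊔ divOutside p b S).index ≠ 0 ∧
      (S14.helper1892.locPowS p S ⊔ divOutside p b S).index ≤ p :=
  secondIneq_exact hp (stmt_TateCount F p hp hodd hζ) b hb S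

/-- **Two-place form of the second inequality**, hypothesis-free. -/
theorem twoPlace (F : Type) [Field F] [NumberField F] (p : ℕ) (hp : p.Prime)
    (hodd : p ≠ 2) (hζ : ∃ ζ : F, IsPrimitiveRoot ζ p) (b : Fˣ) (hb : ¬ ∃ y : Fˣ, b = y ^ p)
    (S : Finset (HeightOneSpectrum (𝓞 F)))
    {w₁ w₂ : HeightOneSpectrum (𝓞 F)} (h₁ : w₁ ∈ S) (h₂ : w₂ ∈ S) (hne : w₁ ≠ w₂)
    (x₁ x₂ : Fˣ) :
    ∃ (m n : ℤ) (a : Fˣ), ¬ ((p : ℤ) ∣ m ∧ (p : ℤ) ∣ n) ∧
      S14.helper1892.LocPow p w₁ (a * (x₁ ^ m)⁻¹) ∧ S14.helper1892.LocPow p w₂ (a * (x₂ ^ n)⁻¹) ∧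
      (∀ v ∈ S, v ≠ w₁ → v ≠ w₂ → S14.helper1892.LocPow p v a) ∧
      ∀ w : HeightOneSpectrum (𝓞 F), w ∉ S → ¬ S14.helper1892.LocPow p w b →
        (p : ℤ) ∣ helper2613.ordAt w a :=
  twoPlace_exact hp (stmt_TateCount F p hp hodd hζ) b hb S h₁ h₂ hne x₁ x₂

end Fermat.Agent.S55.helper1892
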