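/-
S55 moonshot, leaf S55-NF-HNT (seat helper4783): the HASSE NORM THEOREM for cyclic Kummer
extensions `E / F` of prime degree `p` of number fields, completion-free, as a hypothesis-passing
assembly over the S14 class-field-theory modules.

Vocabulary (S14): `normHom F E : Eˣ →* Fˣ`, `SUnits F S`, `LocPow p v x`, `Split F E v`,
`ClassGen S`, `IsAbove F E S S'`.

New here:
* `LocIn H v x`     : `x` lies in the `v`-adic closure of the subgroup `H ≤ Fˣ`;
* `LocNorm F E v b` : `b` is a norm from `E ⊗ F_v`, stated by approximation: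
                      `∀ N, ∃ y : Eˣ, v (b / N_{E/F} y - 1) ≤ exp (-N)`;
* `locNormS F E S`  : the subgroup of `Fˣ` of elements which are local norms at all `v ∈ S`.

Main results:
* `inf_le_of_index_chase`  : the index chase (pure group theory);
* `hasse_norm_S`           : `U_{F,S} ⊓ locNormS S ≤ N_{E/F}(U_{E,S'})`;
* `le_index_locNormS`      : `p ^ #{v ∈ S not split} ≤ [Fˣ : locNormS S]` from the existence of a
                             local non-norm at every non-split place + weak approximation;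
* `hasse_norm`             : `b` a local norm at every finite place ⟹ `b ∈ N_{E/F}(Eˣ)`.
-/
import Mathlib
import Fermat.Agent.S14.helper2613_SUnit
import Fermat.Agent.S14.helper1892_M6Defs
import Fermat.Agent.S14.helper1892_M6Core
import Fermat.Agent.S14.helper165_FirstIneqSpec
import Fermat.Agent.S14.helper165_FirstIneqAsm
import Fermat.Agent.S14.helper175_ClassGen
import Fermat.Agent.S14.helper8091_M5NormVal
import Fermat.Agent.S14.helper4204_LocalPow

set_option autoImplicit false
set_option linter.unusedSectionVars false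

open IsDedekindDomain NumberField WithZero

namespace Fermat.Agent.S55.helper4783

open Fermat.Agent.S14.helper2613 (ordAt ordHom SUnits mem_SUnits mem_SUnits_iff_ordAt ordAt_mul
  ordAt_one ordAt_eq_zero_iff valuation_unit_ne_zero)
open Fermat.Agent.S14.helper1892 (LocPowN LocPow locPowSubgroup locPowS mem_locPowS ClassGen
  Stmt_TateCount Stmt_ClassGen)
open Fermat.Agent.S14.helper165 (normHom Split IsAbove Stmt_NormGen Stmt_SUnitNormIndex)
open Fermat.Agent.S14

noncomputable section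

/-! ## The `v`-adic closure of a subgroup of `Fˣ` (completion-free) -/

section LocCl

variable {F : Type*} [Field F] [NumberField F]

/-- `x` lies in the `v`-adic closure of the subgroup `H` of `Fˣ`: for every precision `N` there is
`h ∈ H` with `ord_v (x / h - 1) ≥ N`. -/
def LocIn (H : Subgroup Fˣ) (v : HeightOneSpectrum (𝓞 F)) (x : Fˣ) : Prop :=
  ∀ N : ℕ, ∃ h ∈ H, v.valuation F ((x : F) / (h : F) - 1) ≤ WithZero.exp (-(N : ℤ))

theorem locIn_one (H : Subgroup Fˣ) (v : HeightOneSpectrum (𝓞 F)) : LocIn H v (1 : Fˣ) :=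
  fun _ => ⟨1, H.one_mem, by simp⟩

theorem locIn_of_mem {H : Subgroup Fˣ} (v : HeightOneSpectrum (𝓞 F)) {x : Fˣ} (hx : x ∈ H) :
    LocIn H v x := by
  intro N
  refine ⟨x, hx, ?_⟩
  rw [div_self x.ne_zero, sub_self, map_zero]
  exact zero_le

theorem locIn_mul {H : Subgroup Fˣ} {v : HeightOneSpectrum (𝓞 F)} {x x' : Fˣ}
    (hx : LocIn H v x) (hx' : LocIn H v x') : LocIn H v (x * x') := by
  intro N
  obtain ⟨h, hh, hy⟩ := hx (N + 1)
  obtain ⟨h', hh', hy'⟩ := hx' (N + 1)
  refine ⟨h * h', H.mul_mem hh hh', ?_⟩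
  have h1 : v.valuation F ((x' : F) / (h' : F)) = 1 :=
    helper1892.val_eq_one_of_sub_one_lt v
      (lt_of_le_of_lt hy' (helper1892.exp_neg_succ_lt_one N))
  have key : ((x * x' : Fˣ) : F) / ((h * h' : Fˣ) : F) - 1
      = ((x : F) / (h : F) - 1) * ((x' : F) / (h' : F)) + ((x' : F) / (h' : F) - 1) := by
    have hy0 : (h : F) ≠ 0 := h.ne_zero
    have hy0' : (h' : F) ≠ 0 := h'.ne_zero
    push_cast
    field_simp
    ring
  rw [key]
  have hle : (WithZero.exp (-((N + 1 : ℕ) : ℤ)) : ℤᵐ⁰) ≤ WithZero.exp (-(N : ℤ)) := by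
    rw [WithZero.exp_le_exp]
    push_cast
    omega
  refine Valuation.map_add_le _ ?_ (hy'.trans hle)
  rw [map_mul, h1, mul_one]
  exact hy.trans hle

theorem locIn_inv {H : Subgroup Fˣ} {v : HeightOneSpectrum (𝓞 F)} {x : Fˣ}
    (hx : LocIn H v x) : LocIn H v x⁻¹ := by
  intro N
  obtain ⟨h, hh, hy⟩ := hx (N + 1)
  refine ⟨h⁻¹, H.inv_mem hh, ?_⟩
  have h1 : v.valuation F ((x : F) / (h : F)) = 1 :=
    helper1892.val_eq_one_of_sub_one_lt v
      (lt_of_le_of_lt hy (helper1892.exp_neg_succ_lt_one N))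
  have hy0 : (h : F) ≠ 0 := h.ne_zero
  have hx0 : (x : F) ≠ 0 := x.ne_zero
  have ht0 : (x : F) / (h : F) ≠ 0 := div_ne_zero hx0 hy0
  have key : ((x⁻¹ : Fˣ) : F) / ((h⁻¹ : Fˣ) : F) - 1
      = -((x : F) / (h : F) - 1) * ((x : F) / (h : F))⁻¹ := by
    have e1 : ((x⁻¹ : Fˣ) : F) / ((h⁻¹ : Fˣ) : F) = ((x : F) / (h : F))⁻¹ := by
      push_cast
      rw [inv_div, div_inv_eq_mul, mul_comm, div_eq_mul_inv]
    rw [e1, neg_mul, sub_mul, mul_inv_cancel₀ ht0, one_mul, neg_sub]
  rw [key, map_mul, map_inv₀, h1, inv_one, mul_one, Valuation.map_neg]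
  refine hy.trans ?_
  rw [WithZero.exp_le_exp]
  push_cast
  omega

/-- The `v`-adic closure of the subgroup `H` of `Fˣ`. -/
def locCl (H : Subgroup Fˣ) (v : HeightOneSpectrum (𝓞 F)) : Subgroup Fˣ where
  carrier := {x | LocIn H v x}
  mul_mem' := fun hx hx' => locIn_mul hx hx'
  one_mem' := locIn_one H v
  inv_mem' := fun hx => locIn_inv hx

@[simp] theorem mem_locCl {H : Subgroup Fˣ} {v : HeightOneSpectrum (𝓞 F)} {x : Fˣ} :
    x ∈ locCl H v ↔ LocIn H v x := Iff.rfl

theorem le_locCl (H : Subgroup Fˣ) (v : HeightOneSpectrum (𝓞 F)) : H ≤ locCl H v :=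
  fun _ hx => locIn_of_mem v hx

theorem locCl_mono {H H' : Subgroup Fˣ} (hH : H ≤ H') (v : HeightOneSpectrum (𝓞 F)) :
    locCl H v ≤ locCl H' v := by
  intro x hx N
  obtain ⟨h, hh, hv⟩ := hx N
  exact ⟨h, hH hh, hv⟩

theorem locPowSubgroup_le_locCl (p : ℕ) (v : HeightOneSpectrum (𝓞 F)) :
    locPowSubgroup p v ≤ locCl (powMonoidHom p : Fˣ →* Fˣ).range v := by
  intro x hx N
  obtain ⟨y, hy⟩ := hx N
  refine ⟨y ^ p, ⟨y, rfl⟩, ?_⟩
  rw [Units.val_pow_eq_pow_val]
  exact hy

theorem ordAt_zpow' (v : HeightOneSpectrum (𝓞 F)) (x : Fˣ) (n : ℤ) :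
    ordAt v (x ^ n) = n * ordAt v x := by
  have h : ordHom v (x ^ n) = (ordHom v x) ^ n := map_zpow _ _ _
  have h2 : Multiplicative.toAdd (ordHom v (x ^ n)) = n • Multiplicative.toAdd (ordHom v x) := by
    rw [h, toAdd_zpow]
  rw [smul_eq_mul] at h2
  exact h2

end LocCl

/-! ## Pure group theory: the index chase -/

section Chase

/-- **Index chase.**  `N₀ ≤ B`, `[G : A ⊔ B] ≤ p`, `p ^ t ≤ [G : B]`, `[A : N₀] * p ≤ p ^ t`
imply `A ⊓ B ≤ N₀`. -/
theorem inf_le_of_index_chase {G : Type*} [CommGroup G] (A B N₀ : Subgroup G) {p t : ℕ}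
    (hp : 0 < p) (hN₀B : N₀ ≤ B) (h1 : (A ⊔ B).index ≤ p)
    (h2 : p ^ t ≤ B.index) (h3 : N₀.relIndex A ≠ 0) (h3' : N₀.relIndex A * p ≤ p ^ t) :
    A ⊓ B ≤ N₀ := by
  have e1 : B.relIndex (A ⊔ B) * (A ⊔ B).index = B.index :=
    Subgroup.relIndex_mul_index le_sup_right
  have e2 : B.relIndex (A ⊔ B) = B.relIndex A := Subgroup.relIndex_sup_right _ _
  have e3 : (A ⊓ B).relIndex A = B.relIndex A := Subgroup.inf_relIndex_left _ _
  have hle : N₀ ⊓ A ≤ A ⊓ B := le_inf inf_le_right (inf_le_left.trans hN₀B)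
  have e4 : (N₀ ⊓ A).relIndex (A ⊓ B) * (A ⊓ B).relIndex A = (N₀ ⊓ A).relIndex A :=
    Subgroup.relIndex_mul_relIndex _ _ _ hle inf_le_left
  have e5 : (N₀ ⊓ A).relIndex A = N₀.relIndex A := Subgroup.inf_relIndex_right _ _
  rw [e3, e5] at e4
  rw [e2] at e1
  set c := (N₀ ⊓ A).relIndex (A ⊓ B)
  set m := B.relIndex A
  set I := (A ⊔ B).index
  have hm0 : m ≠ 0 := by
    rintro h0
    rw [h0, mul_zero] at e4
    exact h3 e4.symm
  have hc0 : c ≠ 0 := by
    rintro h0
    rw [h0, zero_mul] at e4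
    exact h3 e4.symm
  have hmp : 0 < m * p := Nat.mul_pos (Nat.pos_of_ne_zero hm0) hp
  have hc1 : c * (m * p) ≤ 1 * (m * p) := by
    calc c * (m * p) = N₀.relIndex A * p := by rw [← e4]; ring
      _ ≤ p ^ t := h3'
      _ ≤ B.index := h2
      _ = m * I := e1.symm
      _ ≤ m * p := Nat.mul_le_mul_left m h1
      _ = 1 * (m * p) := (one_mul _).symm
  have hc : c = 1 := le_antisymm (Nat.le_of_mul_le_mul_right hc1 hmp)
    (Nat.one_le_iff_ne_zero.mpr hc0)
  have hfin : A ⊓ B ≤ N₀ ⊓ A := Subgroup.relIndex_eq_one.mp hc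
  exact hfin.trans inf_le_left

/-- If `x ∈ B ∖ L` and `x ^ p ∈ L` (`p` prime), then `p ≤ [B : B ⊓ L]` (when finite). -/
theorem le_relIndex_of_pow_mem {G : Type*} [CommGroup G] (L B : Subgroup G) {p : ℕ}
    (hp : p.Prime) {x : G} (hxB : x ∈ B) (hxL : x ∉ L) (hxp : x ^ p ∈ L)
    (hfin : L.relIndex B ≠ 0) : p ≤ L.relIndex B := by
  have : Fact p.Prime := ⟨hp⟩
  set q : B ⧸ L.subgroupOf B := QuotientGroup.mk ⟨x, hxB⟩ with hq
  have hq1 : q ≠ 1 := by
    rw [hq, Ne, QuotientGroup.eq_one_iff]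
    exact hxL
  have hqp : q ^ p = 1 := by
    rw [hq, ← QuotientGroup.mk_pow, QuotientGroup.eq_one_iff]
    exact hxp
  have hord : orderOf q = p := orderOf_eq_prime hqp hq1
  have hdvd : p ∣ Nat.card (B ⧸ L.subgroupOf B) := hord ▸ orderOf_dvd_natCard q
  have hrel : L.relIndex B = Nat.card (B ⧸ L.subgroupOf B) := rfl
  rw [hrel] at hfin ⊢
  exact Nat.le_of_dvd (Nat.pos_of_ne_zero hfin) hdvd

end Chase

/-! ## Local norms -/

section Norm

variable (F E : Type) [Field F] [NumberField F] [Field E] [NumberField E] [Algebra F E]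

/-- `b` is a local norm from `E` at the finite place `v` of `F` (completion-free): for every
precision `N` there is `y ∈ Eˣ` with `ord_v (b / N_{E/F} y - 1) ≥ N`. -/
def LocNorm (v : HeightOneSpectrum (𝓞 F)) (b : Fˣ) : Prop :=
  ∀ N : ℕ, ∃ y : Eˣ,
    v.valuation F ((b : F) / Algebra.norm F (y : E) - 1) ≤ WithZero.exp (-(N : ℤ))

/-- The subgroup of `Fˣ` of local norms from `E` at `v`. -/
def locNormSubgroup (v : HeightOneSpectrum (𝓞 F)) : Subgroup Fˣ :=
  locCl (normHom F E).range v

variable {F E} in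
theorem mem_locNormSubgroup {v : HeightOneSpectrum (𝓞 F)} {b : Fˣ} :
    b ∈ locNormSubgroup F E v ↔ LocNorm F E v b := by
  constructor
  · intro h N
    obtain ⟨_, ⟨y, rfl⟩, hy⟩ := h N
    exact ⟨y, hy⟩
  · intro h N
    obtain ⟨y, hy⟩ := h N
    exact ⟨normHom F E y, ⟨y, rfl⟩, hy⟩

/-- The subgroup of `Fˣ` of elements which are local norms from `E` at every place of `S`. -/
def locNormS (S : Finset (HeightOneSpectrum (𝓞 F))) : Subgroup Fˣ :=
  ⨅ v ∈ S, locNormSubgroup F E v

variable {F E} in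
theorem mem_locNormS {S : Finset (HeightOneSpectrum (𝓞 F))} {b : Fˣ} :
    b ∈ locNormS F E S ↔ ∀ v ∈ S, LocNorm F E v b := by
  simp [locNormS, Subgroup.mem_iInf, mem_locNormSubgroup]

/-- Global norms are local norms. -/
theorem range_normHom_le_locNormSubgroup (v : HeightOneSpectrum (𝓞 F)) :
    (normHom F E).range ≤ locNormSubgroup F E v :=
  le_locCl _ v

theorem range_normHom_le_locNormS (S : Finset (HeightOneSpectrum (𝓞 F))) :
    (normHom F E).range ≤ locNormS F E S := by
  intro x hx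
  rw [mem_locNormS]
  intro v _
  exact mem_locNormSubgroup.1 (range_normHom_le_locNormSubgroup F E v hx)

/-- `p`-th powers of `F` are norms from an extension of degree `p`. -/
theorem pow_range_le_norm_range {p : ℕ} (hdeg : Module.finrank F E = p) :
    (powMonoidHom p : Fˣ →* Fˣ).range ≤ (normHom F E).range := by
  rintro _ ⟨y, rfl⟩
  refine ⟨Units.map (algebraMap F E : F →* E) y, ?_⟩
  ext
  change Algebra.norm F (algebraMap F E (y : F)) = ((y ^ p : Fˣ) : F)
  rw [Algebra.norm_algebraMap, hdeg, Units.val_pow_eq_pow_val]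

/-- Local `p`-th powers are local norms from an extension of degree `p`. -/
theorem locPowSubgroup_le_locNormSubgroup {p : ℕ} (hdeg : Module.finrank F E = p)
    (v : HeightOneSpectrum (𝓞 F)) : locPowSubgroup p v ≤ locNormSubgroup F E v :=
  (locPowSubgroup_le_locCl p v).trans (locCl_mono (pow_range_le_norm_range F E hdeg) v)

theorem locPowS_le_locNormS {p : ℕ} (hdeg : Module.finrank F E = p)
    (S : Finset (HeightOneSpectrum (𝓞 F))) : locPowS p S ≤ locNormS F E S := by
  intro x hx
  rw [mem_locNormS]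
  rw [mem_locPowS] at hx
  intro v hv
  exact mem_locNormSubgroup.1 (locPowSubgroup_le_locNormSubgroup F E hdeg v (hx v hv))

open Classical in
/-- If every prime of `T` is, up to primes in `S`, the divisor of a norm, then the
`S ∪ T`-units are products of `S`-units and norms. -/
theorem sUnits_union_le (S T : Finset (HeightOneSpectrum (𝓞 F)))
    (hτ : ∀ w ∈ T, ∃ τ ∈ (normHom F E).range, ordAt w τ = 1 ∧
      ∀ v', v' ∉ S → v' ≠ w → ordAt v' τ = 0) :
    SUnits F (S ∪ T) ≤ SUnits F S ⊔ (normHom F E).range := by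
  induction T using Finset.induction_on with
  | empty =>
    rw [Finset.union_empty]
    exact le_sup_left
  | insert w T hw ih =>
    intro x hx
    obtain ⟨τ, hτr, hτw, hτ'⟩ := hτ w (Finset.mem_insert_self _ _)
    have ih' := ih (fun w' hw' => hτ w' (Finset.mem_insert_of_mem hw'))
    have hx' : x * τ ^ (-(ordAt w x)) ∈ SUnits F (S ∪ T) := by
      rw [mem_SUnits_iff_ordAt] at hx ⊢
      intro v hv
      rw [ordAt_mul, ordAt_zpow']
      have hvS : v ∉ S := fun h => hv (Finset.mem_union_left _ h)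
      have hvT : v ∉ T := fun h => hv (Finset.mem_union_right _ h)
      by_cases hvw : v = w
      · subst hvw
        rw [hτw]
        ring
      · have hvST : v ∉ S ∪ insert w T := by
          simp [hvS, hvT, hvw]
        rw [hτ' v hvS hvw, hx v hvST]
        ring
    have h2 := ih' hx'
    have h3 : τ ^ (ordAt w x) ∈ SUnits F S ⊔ (normHom F E).range :=
      Subgroup.mem_sup_right (Subgroup.zpow_mem _ hτr _)
    have hxe : x = (x * τ ^ (-(ordAt w x))) * τ ^ (ordAt w x) := by
      rw [mul_assoc, ← zpow_add, neg_add_cancel, zpow_zero, mul_one]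
    rw [hxe]
    exact Subgroup.mul_mem _ h2 h3

open Classical in
/-- **Hasse norm theorem, `S`-unit form** (hypothesis-passing).  `E / F` of degree `p`;
`S ⊇` ramified primes, `S` and `S'` (the primes of `E` above `S`) generate the class groups;
`T` a set of split primes disjoint from `S` with Tate's count `[Fˣ : locPowS S · U_{S ∪ T}] ≤ p`.
Then an `S`-unit which is a local norm at every place of `S` is the norm of an `S'`-unit. -/
theorem hasse_norm_S {p : ℕ} (hp : p.Prime) (hdeg : Module.finrank F E = p)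
    (S T : Finset (HeightOneSpectrum (𝓞 F))) (S' : Finset (HeightOneSpectrum (𝓞 E)))
    (hAb : IsAbove F E S S') (hCG : ClassGen S) (hCG' : ClassGen S')
    (hunr : ∀ v, v ∉ S → v.asIdeal.ramificationIdxIn (𝓞 E) = 1)
    (hdisj : Disjoint S T) (hsplit : ∀ w ∈ T, Split F E w)
    (hTate : (locPowS p S ⊔ SUnits F (S ∪ T)).index ≠ 0 ∧
      (locPowS p S ⊔ SUnits F (S ∪ T)).index ≤ p)
    (hNG : Stmt_NormGen F E p) (hA3 : Stmt_SUnitNormIndex F E p)
    (hLoc : p ^ (S.filter (fun v => ¬ Split F E v)).card ≤ (locNormS F E S).index) :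
    SUnits F S ⊓ locNormS F E S ≤ (SUnits E S').map (normHom F E) := by
  -- (1) `[Fˣ : U_S ⊔ locNormS S] ≤ p`
  have hτ : ∀ w ∈ T, ∃ τ ∈ (normHom F E).range, ordAt w τ = 1 ∧
      ∀ v', v' ∉ S → v' ≠ w → ordAt v' τ = 0 := by
    intro w hw
    have hwS : w ∉ S := fun h => Finset.disjoint_left.1 hdisj h hw
    obtain ⟨τ, hτr, hτw, hτ'⟩ := hNG S S' hAb hCG' hunr w hwS
    rw [if_pos (hsplit w hw)] at hτw
    exact ⟨τ, hτr, hτw, hτ'⟩
  have hsub : locPowS p S ⊔ SUnits F (S ∪ T) ≤ SUnits F S ⊔ locNormS F E S := by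
    refine sup_le ((locPowS_le_locNormS F E hdeg S).trans le_sup_right) ?_
    refine (sUnits_union_le F E S T hτ).trans (sup_le le_sup_left ?_)
    exact (range_normHom_le_locNormS F E S).trans le_sup_right
  have hdvd : (SUnits F S ⊔ locNormS F E S).index ∣ (locPowS p S ⊔ SUnits F (S ∪ T)).index :=
    Subgroup.index_dvd_of_le hsub
  have h1 : (SUnits F S ⊔ locNormS F E S).index ≤ p :=
    (Nat.le_of_dvd (Nat.pos_of_ne_zero hTate.1) hdvd).trans hTate.2
  -- (3) the `S`-unit norm index
  obtain ⟨h3, h3'⟩ := hA3 S S' hAb hCG hunr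
  -- the chase
  have hN₀B : (SUnits E S').map (normHom F E) ≤ locNormS F E S := by
    rintro _ ⟨y, -, rfl⟩
    exact range_normHom_le_locNormS F E S ⟨y, rfl⟩
  exact inf_le_of_index_chase (SUnits F S) (locNormS F E S) ((SUnits E S').map (normHom F E))
    hp.pos hN₀B h1 hLoc h3 h3'

end Norm

/-! ## Weak approximation -/

section Approx

variable {F : Type*} [Field F] [NumberField F]

theorem exp_neg_le_of_toNat_le {a : ℤᵐ⁰} (ha : a ≠ 0) {K : ℕ}
    (hK : (-(WithZero.log a)).toNat ≤ K) : WithZero.exp (-(K : ℤ)) ≤ a := by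
  have h1 : a = WithZero.exp (WithZero.log a) := (WithZero.exp_log ha).symm
  rw [h1, WithZero.exp_le_exp]
  have h2 := Int.self_le_toNat (-(WithZero.log a))
  have h3 : ((-(WithZero.log a)).toNat : ℤ) ≤ (K : ℤ) := by exact_mod_cast hK
  omega

theorem div_le_exp_of_le {a b : ℤᵐ⁰} {N K : ℕ}
    (ha : a ≤ WithZero.exp (-((N + K + 1 : ℕ) : ℤ))) (hb : WithZero.exp (-(K : ℤ)) ≤ b) :
    a / b ≤ WithZero.exp (-(N : ℤ)) := by
  have hb0 : 0 < b := lt_of_lt_of_le (zero_lt_iff.mpr WithZero.exp_ne_zero) hb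
  rw [div_le_iff₀ hb0]
  calc a ≤ WithZero.exp (-((N + K + 1 : ℕ) : ℤ)) := ha
    _ ≤ WithZero.exp (-(N : ℤ)) * WithZero.exp (-(K : ℤ)) := by
        rw [← WithZero.exp_add, WithZero.exp_le_exp]
        push_cast
        omega
    _ ≤ WithZero.exp (-(N : ℤ)) * b := mul_le_mul_right hb _

/-- Two-point weak approximation: `x ≡ 1` at the places of `V` and `x ≡ c` at `v₀ ∉ V`, to
precision `N`. -/
theorem exists_approx_at (V : Finset (HeightOneSpectrum (𝓞 F))) (v₀ : HeightOneSpectrum (𝓞 F))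
    (hv₀ : v₀ ∉ V) (c : Fˣ) (N : ℕ) :
    ∃ x : Fˣ, (∀ v ∈ V, v.valuation F ((x : F) - 1) ≤ WithZero.exp (-(N : ℤ))) ∧
      v₀.valuation F ((x : F) / (c : F) - 1) ≤ WithZero.exp (-(N : ℤ)) := by
  classical
  obtain ⟨r, s, hs, hrs⟩ := IsFractionRing.div_surjective (A := 𝓞 F) (c : F)
  have hs0 : s ≠ 0 := nonZeroDivisors.ne_zero hs
  have hr0 : r ≠ 0 := by
    rintro rfl
    rw [map_zero, zero_div] at hrs
    exact c.ne_zero hrs.symm
  have hsF : algebraMap (𝓞 F) F s ≠ 0 := by simpa using hs0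
  have hrF : algebraMap (𝓞 F) F r ≠ 0 := by simpa using hr0
  -- a common bound for the orders of `r` and `s` at the places involved
  set f : HeightOneSpectrum (𝓞 F) → ℕ := fun v =>
    (-(WithZero.log (v.intValuation r))).toNat + (-(WithZero.log (v.intValuation s))).toNat
    with hf
  set K : ℕ := ∑ v ∈ insert v₀ V, f v with hKdef
  have hK : ∀ v ∈ insert v₀ V, WithZero.exp (-(K : ℤ)) ≤ v.intValuation r ∧
      WithZero.exp (-(K : ℤ)) ≤ v.intValuation s := by
    intro v hv
    have h1 : f v ≤ K := Finset.single_le_sum (f := f) (fun _ _ => Nat.zero_le _) hv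
    have h2 : (-(WithZero.log (v.intValuation r))).toNat ≤ f v := Nat.le_add_right _ _
    have h3 : (-(WithZero.log (v.intValuation s))).toNat ≤ f v := Nat.le_add_left _ _
    exact ⟨exp_neg_le_of_toNat_le (v.intValuation_ne_zero r hr0) (h2.trans h1),
      exp_neg_le_of_toNat_le (v.intValuation_ne_zero s hs0) (h3.trans h1)⟩
  obtain ⟨y, hy⟩ := IsDedekindDomain.exists_forall_sub_mem_ideal (s := insert v₀ V)
    (fun v : HeightOneSpectrum (𝓞 F) => v.asIdeal) (fun _ => N + K + 1)
    (fun v _ => v.prime) (fun v _ w _ hvw h => hvw (HeightOneSpectrum.ext h))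
    (fun v => if (v : HeightOneSpectrum (𝓞 F)) = v₀ then r else s)
  have hy₀ : v₀.intValuation (y - r) ≤ WithZero.exp (-((N + K + 1 : ℕ) : ℤ)) := by
    have h := hy v₀ (Finset.mem_insert_self _ _)
    simp only [if_true] at h
    exact (v₀.intValuation_le_pow_iff_mem _ _).mpr h
  have hyV : ∀ v ∈ V, v.intValuation (y - s) ≤ WithZero.exp (-((N + K + 1 : ℕ) : ℤ)) := by
    intro v hv
    have h := hy v (Finset.mem_insert_of_mem hv)
    have hne : v ≠ v₀ := fun h' => hv₀ (h' ▸ hv)
    simp only [hne, if_false] at h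
    exact (v.intValuation_le_pow_iff_mem _ _).mpr h
  have hy0 : y ≠ 0 := by
    rintro rfl
    rw [zero_sub, Valuation.map_neg] at hy₀
    have h1 := (hK v₀ (Finset.mem_insert_self _ _)).1
    have h2 : (WithZero.exp (-((N + K + 1 : ℕ) : ℤ)) : ℤᵐ⁰) < WithZero.exp (-(K : ℤ)) := by
      rw [WithZero.exp_lt_exp]
      push_cast
      omega
    exact absurd (h1.trans hy₀) (not_le.mpr h2)
  have hyF : algebraMap (𝓞 F) F y ≠ 0 := by simpa using hy0
  refine ⟨Units.mk0 (algebraMap (𝓞 F) F y / algebraMap (𝓞 F) F s) (div_ne_zero hyF hsF), ?_, ?_⟩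
  · intro v hv
    have e : algebraMap (𝓞 F) F y / algebraMap (𝓞 F) F s - 1
        = algebraMap (𝓞 F) F (y - s) / algebraMap (𝓞 F) F s := by
      rw [map_sub]
      field_simp
    rw [Units.val_mk0, e, map_div₀, HeightOneSpectrum.valuation_of_algebraMap,
      HeightOneSpectrum.valuation_of_algebraMap]
    exact div_le_exp_of_le (hyV v hv) (hK v (Finset.mem_insert_of_mem hv)).2
  · have e : algebraMap (𝓞 F) F y / algebraMap (𝓞 F) F s / (c : F) - 1
        = algebraMap (𝓞 F) F (y - r) / algebraMap (𝓞 F) F r := by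
      rw [← hrs, map_sub]
      field_simp
    rw [Units.val_mk0, e, map_div₀, HeightOneSpectrum.valuation_of_algebraMap,
      HeightOneSpectrum.valuation_of_algebraMap]
    exact div_le_exp_of_le hy₀ (hK v₀ (Finset.mem_insert_self _ _)).1

end Approx

/-! ## The local norm index from the existence of local non-norms -/

section Index

variable (F E : Type) [Field F] [NumberField F] [Field E] [NumberField E] [Algebra F E]

/-- **Local input of the Hasse norm theorem** (to be discharged from the local norm index theorem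
`[F_v^× : N E_w^×] = p`): at a place which does not split completely in `E`, not every element of
`Fˣ` is a local norm. -/
def Stmt_LocNonNorm : Prop :=
  ∀ v : HeightOneSpectrum (𝓞 F), ¬ Split F E v → ∃ c : Fˣ, ¬ LocNorm F E v c

/-- `p ^ #V ≤ [Fˣ : ⋂_{v ∈ V} (local norms at v)]` for a finite set `V` of non-split places. -/
theorem le_index_iInf_locNormSubgroup {p : ℕ} (hp : p.Prime) (hdeg : Module.finrank F E = p)
    {ζ : F} (hζ : IsPrimitiveRoot ζ p) (hNN : Stmt_LocNonNorm F E)
    (V : Finset (HeightOneSpectrum (𝓞 F))) (hV : ∀ v ∈ V, ¬ Split F E v) :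
    p ^ V.card ≤ (⨅ v ∈ V, locNormSubgroup F E v).index := by
  classical
  induction V using Finset.induction_on with
  | empty => simp
  | insert v₀ V hv₀ ih =>
    have ih' := ih (fun v hv => hV v (Finset.mem_insert_of_mem hv))
    rw [Finset.iInf_insert, Finset.card_insert_of_notMem hv₀, pow_succ]
    set B' := ⨅ v ∈ V, locNormSubgroup F E v with hB'
    set L := locNormSubgroup F E v₀ with hL
    -- finiteness of the index
    have hfin : (L ⊓ B').index ≠ 0 := by
      have hle : locPowS p (insert v₀ V) ≤ L ⊓ B' := by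
        have h := locPowS_le_locNormS F E hdeg (insert v₀ V)
        unfold locNormS at h
        rwa [Finset.iInf_insert] at h
      intro h0
      have hdvd := Subgroup.index_dvd_of_le hle
      rw [h0, zero_dvd_iff] at hdvd
      exact (helper4204.index_locPowS hp hζ (insert v₀ V)).1 hdvd
    have e1 : (L ⊓ B').relIndex B' * B'.index = (L ⊓ B').index :=
      Subgroup.relIndex_mul_index inf_le_right
    have e2 : (L ⊓ B').relIndex B' = L.relIndex B' := Subgroup.inf_relIndex_right _ _
    have hrel0 : L.relIndex B' ≠ 0 := by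
      intro h0
      rw [e2, h0, zero_mul] at e1
      exact hfin e1.symm
    -- an element of `B'` which is not a local norm at `v₀`
    obtain ⟨c, hc⟩ := hNN v₀ (hV v₀ (Finset.mem_insert_self _ _))
    set N : ℕ := 2 * (∑ v ∈ insert v₀ V, helper4204.ordP v p) + 1 with hN
    have hNv : ∀ v ∈ insert v₀ V, 2 * helper4204.ordP v p < N := by
      intro v hv
      have := Finset.single_le_sum (f := fun v => helper4204.ordP v p)
        (fun _ _ => Nat.zero_le _) hv
      omega
    obtain ⟨x, hxV, hx₀⟩ := exists_approx_at V v₀ hv₀ c N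
    have hxB : x ∈ B' := by
      rw [hB']
      simp only [Subgroup.mem_iInf]
      intro v hv
      exact locPowSubgroup_le_locNormSubgroup F E hdeg v
        (helper4204.locPow_of_valuation_sub_one_le v hp
          (hNv v (Finset.mem_insert_of_mem hv)) (hxV v hv))
    have hxL : x ∉ L := by
      intro hxL
      have h1 : x * c⁻¹ ∈ L := by
        refine locPowSubgroup_le_locNormSubgroup F E hdeg v₀
          (helper4204.locPow_of_valuation_sub_one_le v₀ hp
            (hNv v₀ (Finset.mem_insert_self _ _)) ?_)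
        have e : ((x * c⁻¹ : Fˣ) : F) = (x : F) / (c : F) := by
          rw [Units.val_mul, Units.val_inv_eq_inv_val, div_eq_mul_inv]
        rw [e]
        exact hx₀
      have h2 : c ∈ L := by
        have h := L.mul_mem (L.inv_mem h1) hxL
        have e : (x * c⁻¹)⁻¹ * x = c := by
          rw [mul_inv, inv_inv, mul_comm x⁻¹ c, mul_assoc, inv_mul_cancel, mul_one]
        rwa [e] at h
      exact hc (mem_locNormSubgroup.1 h2)
    have hxp : x ^ p ∈ L :=
      range_normHom_le_locNormSubgroup F E v₀ (pow_range_le_norm_range F E hdeg ⟨x, rfl⟩)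
    have hp_le := le_relIndex_of_pow_mem L B' hp hxB hxL hxp hrel0
    calc p ^ V.card * p ≤ B'.index * L.relIndex B' := Nat.mul_le_mul ih' hp_le
      _ = (L ⊓ B').index := by rw [← e1, e2, mul_comm]

open Classical in
/-- **Local norm index, lower bound**: `p ^ #{v ∈ S not split} ≤ [Fˣ : locNormS S]`. -/
theorem le_index_locNormS {p : ℕ} (hp : p.Prime) (hdeg : Module.finrank F E = p)
    {ζ : F} (hζ : IsPrimitiveRoot ζ p) (hNN : Stmt_LocNonNorm F E)
    (S : Finset (HeightOneSpectrum (𝓞 F))) :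
    p ^ (S.filter (fun v => ¬ Split F E v)).card ≤ (locNormS F E S).index := by
  have h1 := le_index_iInf_locNormSubgroup F E hp hdeg hζ hNN
    (S.filter (fun v => ¬ Split F E v)) (fun v hv => (Finset.mem_filter.1 hv).2)
  have hle : locNormS F E S ≤ ⨅ v ∈ S.filter (fun v => ¬ Split F E v), locNormSubgroup F E v := by
    intro x hx
    rw [mem_locNormS] at hx
    simp only [Subgroup.mem_iInf]
    intro v hv
    exact mem_locNormSubgroup.2 (hx v (Finset.mem_filter.1 hv).1)
  have hfin : (locNormS F E S).index ≠ 0 := by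
    intro h0
    have hdvd := Subgroup.index_dvd_of_le (locPowS_le_locNormS F E hdeg S)
    rw [h0, zero_dvd_iff] at hdvd
    exact (helper4204.index_locPowS hp hζ S).1 hdvd
  exact h1.trans (Nat.le_of_dvd (Nat.pos_of_ne_zero hfin) (Subgroup.index_dvd_of_le hle))

end Index

/-! ## The Hasse norm theorem -/

section Main

variable (F E : Type) [Field F] [NumberField F] [Field E] [NumberField E] [Algebra F E]

/-- **Kummer facts** consumed by the Hasse norm theorem for `E = F(a^(1/p))`: at a place `v ∤ p`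
where `a` is a unit, `E / F` is unramified, and `v` splits completely if `a` is a local `p`-th
power at `v`. -/
def Stmt_KummerFacts (p : ℕ) (a : Fˣ) : Prop :=
  ∀ v : HeightOneSpectrum (𝓞 F), (p : 𝓞 F) ∉ v.asIdeal → v.valuation F (a : F) = 1 →
    v.asIdeal.ramificationIdxIn (𝓞 E) = 1 ∧ (LocPow p v a → Split F E v)

/-- **Hasse norm theorem** for a Kummer extension `E = F(a^(1/p))` of prime degree `p`
(hypothesis-passing over Tate's count, the `S`-unit norm index and the local non-norm statement):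
an element of `Fˣ` which is a local norm at every finite place is a global norm. -/
theorem hasse_norm {p : ℕ} (hp : p.Prime) [IsGalois F E] (hdeg : Module.finrank F E = p)
    (hζ : ∃ ζ : F, IsPrimitiveRoot ζ p) (a : Fˣ) (ha : ¬ ∃ y : Fˣ, a = y ^ p)
    (hK : Stmt_KummerFacts F E p a) (hTate : Stmt_TateCount F p)
    (hA3 : Stmt_SUnitNormIndex F E p) (hNN : Stmt_LocNonNorm F E)
    (b : Fˣ) (hb : ∀ v : HeightOneSpectrum (𝓞 F), LocNorm F E v b) :
    b ∈ (normHom F E).range := by
  classical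
  obtain ⟨ζ, hζ⟩ := hζ
  have hfin_b := helper1892.finite_setOf_valuation_ne_one b
  obtain ⟨S₁, S₁', hS₁, hAb₁, -, hCG₁'⟩ :=
    helper165.goodSet F E helper175.classGen helper175.classGen hfin_b.toFinset
  obtain ⟨S, T, hS₁S, hdisj, hSp, hSCG, haS, hT, hI⟩ := hTate a ha S₁
  obtain ⟨S', hAb⟩ := helper165.exists_isAbove F E S
  have hCG' : ClassGen S' := by
    refine hCG₁'.mono ?_
    intro w hw
    rw [(helper165.isAbove_iff F E S S').1 hAb w]
    exact hS₁S (((helper165.isAbove_iff F E S₁ S₁').1 hAb₁ w).1 hw)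
  have hunr : ∀ v, v ∉ S → v.asIdeal.ramificationIdxIn (𝓞 E) = 1 := fun v hv =>
    (hK v (fun h => hv (hSp v h)) ((mem_SUnits.1 haS) v hv)).1
  have hsplit : ∀ w ∈ T, Split F E w := by
    intro w hw
    have hwS : w ∉ S := fun h => Finset.disjoint_left.1 hdisj h hw
    exact (hK w (fun h => hwS (hSp w h)) ((mem_SUnits.1 haS) w hwS)).2 (hT w hw)
  have hbS : b ∈ SUnits F S := by
    rw [mem_SUnits]
    intro v hv
    by_contra h
    exact hv (hS₁S (hS₁ (hfin_b.mem_toFinset.2 h)))
  have key := hasse_norm_S F E hp hdeg S T S' hAb hSCG hCG' hunr hdisj hsplit hI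
    (helper8091.normGen F E p hp hdeg) hA3 (le_index_locNormS F E hp hdeg hζ hNN S)
  obtain ⟨y, -, hy⟩ := key ⟨hbS, mem_locNormS.2 (fun v _ => hb v)⟩
  exact ⟨y, hy⟩

end Main

end

end Fermat.Agent.S55.helper4783
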