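/-
S55 moonshot, leaf S55-NF-HNT, final wiring (seat helper4783).

`hasseNorm_of_locNormProper` : for a Galois extension `E / F` of number fields of odd prime degree
`p` with `ζ_p ∈ F`, the Hasse norm theorem `helper1980.Stmt_HasseNorm F E` (Spec shape) follows
from the single local input `helper1980.Stmt_LocNormProper F E` ("at a non-split place not every
element of `Fˣ` is a local norm").

Everything else is discharged from main:
* Tate's count `Stmt_TateCount F p`      : `S55.helper1892.stmt_TateCount_of_M5` + `helper165.stmt_M5`;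
* the `S`-unit norm index               : `helper3036.sUnitNormIndex`;
* a Kummer generator `β ^ p = a`        : Mathlib `exists_root_adjoin_eq_top_of_isCyclic`;
* the Kummer decomposition law for `a`  : `helper4373` (K2) via the integral normalisation of
                                          `helper6582`.
-/
import Mathlib
import Fermat.Agent.S55.helper4783_HasseNorm
import Fermat.Agent.S55.helper1980_HasseSpec
import Fermat.Agent.S55.helper1892_TateChain
import Fermat.Agent.S14.helper165_FirstIneq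
import Fermat.Agent.S14.helper3036_M5SUnitIdx
import Fermat.Agent.S14.helper6582_M5KummerDict
import Fermat.Agent.S14.helper4373_KummerDecomp
import Fermat.Agent.S55.helper1957_LocNormCount

set_option autoImplicit false
set_option linter.unusedSectionVars false

open IsDedekindDomain NumberField WithZero IntermediateField

namespace Fermat.Agent.S55.helper4783

open Fermat.Agent.S14.helper2613 (ordAt)
open Fermat.Agent.S14.helper1892 (LocPow locPow_mul locPow_pow)
open Fermat.Agent.S14.helper165 (normHom Split)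

noncomputable section

section Kummer

variable (F E : Type) [Field F] [NumberField F] [Field E] [NumberField E] [Algebra F E]
  [IsGalois F E]

/-- A Galois extension of prime degree `p` of a field containing a primitive `p`-th root of unity
is generated by a `p`-th root of an element which is not a `p`-th power. -/
theorem exists_kummer_generator {p : ℕ} (hp : p.Prime) (hdeg : Module.finrank F E = p) {ζ : F}
    (hζ : IsPrimitiveRoot ζ p) :
    ∃ (a : Fˣ) (β : E), (¬ ∃ y : Fˣ, a = y ^ p) ∧ β ^ p = algebraMap F E (a : F) := by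
  have : Fact p.Prime := ⟨hp⟩
  have : NeZero p := ⟨hp.ne_zero⟩
  have hfd : FiniteDimensional F E := Module.finite_of_finrank_pos (by rw [hdeg]; exact hp.pos)
  have hcard : Nat.card (E ≃ₐ[F] E) = p := (IsGalois.card_aut_eq_finrank F E).trans hdeg
  have hcyc : IsCyclic (E ≃ₐ[F] E) := isCyclic_of_prime_card hcard
  have hK : (primitiveRoots (Module.finrank F E) F).Nonempty := by
    rw [hdeg]
    exact ⟨ζ, (mem_primitiveRoots hp.pos).mpr hζ⟩
  obtain ⟨α, ⟨a₀, ha₀⟩, hα⟩ := exists_root_adjoin_eq_top_of_isCyclic F E hK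
  rw [hdeg] at ha₀
  -- `α ∉ F`
  have hαF : α ∉ Set.range (algebraMap F E) := by
    intro hmem
    have h1 : F⟮α⟯ = ⊥ := adjoin_simple_eq_bot_iff.mpr (IntermediateField.mem_bot.mpr hmem)
    rw [hα] at h1
    have h2 : Module.finrank F E = 1 := by
      rw [← IntermediateField.finrank_top', h1, IntermediateField.finrank_bot]
    rw [hdeg] at h2
    exact hp.one_lt.ne' h2
  have ha₀0 : a₀ ≠ 0 := by
    rintro rfl
    rw [map_zero] at ha₀
    have hα0 : α = 0 := by
      have := ha₀.symm
      exact pow_eq_zero_iff hp.ne_zero |>.mp this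
    exact hαF ⟨0, by rw [hα0, map_zero]⟩
  refine ⟨Units.mk0 a₀ ha₀0, α, ?_, by rw [Units.val_mk0]; exact ha₀.symm⟩
  rintro ⟨y, hy⟩
  have hy' : a₀ = (y : F) ^ p := by
    have := congrArg (fun u : Fˣ => (u : F)) hy
    simpa using this
  have hyE : algebraMap F E (y : F) ≠ 0 := by
    rw [Ne, map_eq_zero]
    exact y.ne_zero
  have h1 : (α / algebraMap F E (y : F)) ^ p = 1 := by
    rw [div_pow, ← ha₀, hy', map_pow, div_self (pow_ne_zero _ hyE)]
  have hζE : IsPrimitiveRoot (algebraMap F E ζ) p :=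
    hζ.map_of_injective (algebraMap F E).injective
  obtain ⟨i, -, hi⟩ := hζE.eq_pow_of_pow_eq_one h1
  apply hαF
  refine ⟨ζ ^ i * (y : F), ?_⟩
  rw [map_mul, map_pow, hi, div_mul_cancel₀ _ hyE]

/-- For a Kummer generator `β` (`β ^ p = a`, `a` not a `p`-th power in `F`) there is an
automorphism acting on `β` through a primitive `p`-th root of unity of `F`. -/
theorem exists_kummer_aut {p : ℕ} (hp : p.Prime) (hdeg : Module.finrank F E = p) {ζ : F}
    (hζ : IsPrimitiveRoot ζ p) (a : Fˣ) (ha : ¬ ∃ y : Fˣ, a = y ^ p) (β : E)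
    (hβ : β ^ p = algebraMap F E (a : F)) :
    ∃ (ζ₁ : F) (σ : E ≃ₐ[F] E), IsPrimitiveRoot ζ₁ p ∧ σ β = algebraMap F E ζ₁ * β := by
  have : Fact p.Prime := ⟨hp⟩
  have : NeZero p := ⟨hp.ne_zero⟩
  have hfd : FiniteDimensional F E := Module.finite_of_finrank_pos (by rw [hdeg]; exact hp.pos)
  have hcard : Nat.card (E ≃ₐ[F] E) = p := (IsGalois.card_aut_eq_finrank F E).trans hdeg
  have hβ0 : β ≠ 0 := by
    rintro rfl
    rw [zero_pow hp.ne_zero] at hβ
    have : (a : F) = 0 := by
      have h := hβ.symm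
      rwa [map_eq_zero] at h
    exact a.ne_zero this
  -- a non-trivial automorphism
  have hnt : Nontrivial (E ≃ₐ[F] E) := by
    have hfin : Finite (E ≃ₐ[F] E) := Nat.finite_of_card_ne_zero (by rw [hcard]; exact hp.ne_zero)
    exact Finite.one_lt_card_iff_nontrivial.mp (by rw [hcard]; exact hp.one_lt)
  obtain ⟨σ, hσ1⟩ := exists_ne (1 : E ≃ₐ[F] E)
  have hσβ : σ β ≠ β := by
    intro hfix
    have hall : ∀ f : E ≃ₐ[F] E, f β = β := by
      intro f
      have hmem : f ∈ Subgroup.zpowers σ := by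
        rw [zpowers_eq_top_of_prime_card hcard hσ1]
        exact Subgroup.mem_top f
      have hle : Subgroup.zpowers σ ≤ MulAction.stabilizer (E ≃ₐ[F] E) β :=
        Subgroup.zpowers_le.mpr (MulAction.mem_stabilizer_iff.mpr hfix)
      exact MulAction.mem_stabilizer_iff.mp (hle hmem)
    obtain ⟨y₀, hy₀⟩ := (IsGalois.mem_range_algebraMap_iff_fixed (F := F) β).mpr hall
    have hy₀0 : y₀ ≠ 0 := by
      rintro rfl
      rw [map_zero] at hy₀
      exact hβ0 hy₀.symm
    apply ha
    refine ⟨Units.mk0 y₀ hy₀0, ?_⟩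
    ext
    apply (algebraMap F E).injective
    rw [Units.val_pow_eq_pow_val, Units.val_mk0, map_pow, hy₀, hβ]
  -- `σ β / β` is a `p`-th root of unity
  have h1 : (σ β / β) ^ p = 1 := by
    rw [div_pow, ← map_pow, hβ, AlgEquiv.commutes, div_self]
    rw [Ne, map_eq_zero]
    exact a.ne_zero
  have hζE : IsPrimitiveRoot (algebraMap F E ζ) p :=
    hζ.map_of_injective (algebraMap F E).injective
  obtain ⟨i, hip, hi⟩ := hζE.eq_pow_of_pow_eq_one h1
  have hi0 : i ≠ 0 := by
    rintro rfl
    rw [pow_zero] at hi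
    apply hσβ
    have := hi.symm
    rwa [div_eq_one_iff_eq hβ0] at this
  refine ⟨ζ ^ i, σ, hζ.pow_of_coprime i (Nat.coprime_of_lt_prime hi0 hip hp).symm, ?_⟩
  rw [map_pow, hi, div_mul_cancel₀ _ hβ0]

/-- **Kummer decomposition law** for `E = F(a^(1/p))` at the places not over `p` where `a` is a
unit: unramified, and split as soon as `a` is a local `p`-th power. -/
theorem kummerFacts_of_root {p : ℕ} (hp : p.Prime) (hdeg : Module.finrank F E = p) {ζ : F}
    (hζ : IsPrimitiveRoot ζ p) (a : Fˣ) (ha : ¬ ∃ y : Fˣ, a = y ^ p) (β : E)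
    (hβ : β ^ p = algebraMap F E (a : F)) : Stmt_KummerFacts F E p a := by
  obtain ⟨ζ₁, σ, hζ₁, hσ⟩ := exists_kummer_aut F E hp hdeg hζ a ha β hβ
  intro v hpv hv1
  have hGal := Fermat.Agent.S14.helper4373.isGaloisGroup_ringOfIntegers F E
  have hG : Nat.card (E ≃ₐ[F] E) = p :=
    (Fermat.Agent.S14.helper4373.card_gal_eq_finrank F E).trans hdeg
  have hord : (p : ℤ) ∣ ordAt v a := by
    rw [(Fermat.Agent.S14.helper2613.ordAt_eq_zero_iff v a).mpr hv1]
    exact dvd_zero _
  obtain ⟨c, b₂, hb₂, hb₂v⟩ :=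
    Fermat.Agent.S14.helper6582.exists_integer_unit_mul_pow hp.pos v a hord
  obtain ⟨ζ', β', hζ', hβ', hσ'⟩ :=
    Fermat.Agent.S14.helper6582.exists_integral_kummer F E hp.pos hζ₁ a β hβ σ hσ c b₂ hb₂
  have hζv : ζ' - 1 ∉ v.asIdeal :=
    Fermat.Agent.S14.helper6582.zeta_sub_one_not_mem hp v.asIdeal hζ' hpv
  have : v.asIdeal.IsMaximal := v.isMaximal
  refine ⟨Fermat.Agent.S14.helper4373.kummer_unramified (G := E ≃ₐ[F] E) hp hG v.asIdeal hζ' hζv
    hσ' hβ' hb₂v, fun hL => ?_⟩
  have hL' : LocPow p v (a * c ^ p) := locPow_mul hL (locPow_pow p v c)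
  have hb₂u : algebraMap (𝓞 F) F b₂ = ((a * c ^ p : Fˣ) : F) := by
    rw [hb₂]
    simp
  obtain ⟨y, hy⟩ := Fermat.Agent.S14.helper6582.exists_pow_sub_mem_pow_of_locPow hp.pos v
    (a * c ^ p) b₂ hb₂u hL' 1
  rw [pow_one] at hy
  have hs := (Fermat.Agent.S14.helper4373.kummer_split_iff (G := E ≃ₐ[F] E) hp hG v.asIdeal hζ'
    hζv hσ' hβ' hb₂v).mpr ⟨y, hy⟩
  unfold Split
  rw [hdeg]
  exact hs

end Kummer

section Final

variable (F E : Type) [Field F] [NumberField F] [Field E] [NumberField E] [Algebra F E]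
  [IsGalois F E]

/-- The local input in the Spec shape of `helper1980` is the one consumed by `hasse_norm`. -/
theorem locNonNorm_of_locNormProper (h : helper1980.Stmt_LocNormProper F E) :
    Stmt_LocNonNorm F E := by
  intro v hv
  obtain ⟨c, hc⟩ := h v hv
  exact ⟨c, fun hN => hc (fun N => hN N)⟩

/-- **Hasse norm theorem** (Spec shape `helper1980.Stmt_HasseNorm`) for a Galois extension `E / F`
of number fields of odd prime degree `p` with `ζ_p ∈ F`, from the single local input
`helper1980.Stmt_LocNormProper F E`. -/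
theorem hasseNorm_of_locNormProper {p : ℕ} (hp : p.Prime) (hp2 : p ≠ 2)
    (hdeg : Module.finrank F E = p) (hζ : ∃ ζ : F, IsPrimitiveRoot ζ p)
    (hLN : helper1980.Stmt_LocNormProper F E) : helper1980.Stmt_HasseNorm F E := by
  obtain ⟨ζ, hζ'⟩ := hζ
  obtain ⟨a, β, ha, hβ⟩ := exists_kummer_generator F E hp hdeg hζ'
  intro b hb
  exact hasse_norm F E hp hdeg ⟨ζ, hζ'⟩ a ha (kummerFacts_of_root F E hp hdeg hζ' a ha β hβ)
    (Fermat.Agent.S55.helper1892.stmt_TateCount_of_M5 hp hp2 ⟨ζ, hζ'⟩
      (Fermat.Agent.S14.helper165.stmt_M5 F p hp hp2 ⟨ζ, hζ'⟩))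
    (Fermat.Agent.S14.helper3036.sUnitNormIndex F E p hp hp2 ⟨ζ, hζ'⟩ hdeg)
    (locNonNorm_of_locNormProper F E hLN) b (fun v N => hb v N)

/-- **Hasse norm theorem for `C_p`-layers, unconditional** (Spec shape
`helper1980.Stmt_HasseNorm`): for a Galois extension `E / F` of number fields of odd prime degree
`p` with `ζ_p ∈ F`, an element of `Fˣ` which is a local norm at every finite place is a global
norm.  The local input is `helper1957.stmt_LocNormProper`. -/
theorem stmt_HasseNorm {p : ℕ} (hp : p.Prime) (hp2 : p ≠ 2)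
    (hdeg : Module.finrank F E = p) (hζ : ∃ ζ : F, IsPrimitiveRoot ζ p) :
    helper1980.Stmt_HasseNorm F E := by
  obtain ⟨ζ, hζ'⟩ := hζ
  exact hasseNorm_of_locNormProper F E hp hp2 hdeg ⟨ζ, hζ'⟩
    (Fermat.Agent.S55.helper1957.stmt_LocNormProper hp hp2 hdeg hζ')

/-- The same statement, unfolded (definition-agnostic): `b ∈ Fˣ` approximable by norms at every
finite place to every precision is a global norm. -/
theorem hasse_norm_raw_unconditional {p : ℕ} (hp : p.Prime) (hp2 : p ≠ 2)
    (hdeg : Module.finrank F E = p) (hζ : ∃ ζ : F, IsPrimitiveRoot ζ p) (b : Fˣ)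
    (hb : ∀ (v : IsDedekindDomain.HeightOneSpectrum (NumberField.RingOfIntegers F)) (N : ℕ),
      ∃ y : Eˣ, v.valuation F ((b : F) / Algebra.norm F (y : E) - 1) ≤
        WithZero.exp (-(N : ℤ))) :
    ∃ y : Eˣ, Algebra.norm F (y : E) = (b : F) := by
  obtain ⟨y, hy⟩ := stmt_HasseNorm F E hp hp2 hdeg hζ b (fun v N => hb v N)
  exact ⟨y, by rw [← hy]; rfl⟩

end Final

end

end Fermat.Agent.S55.helper4783
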