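import Mathlib
import Fermat.Agent.S55.helper2999_LayerHasse
import Fermat.Agent.S55.helper4783_HasseNormFinal
import Fermat.Agent.S55.helper1957_LocNormCount
import Fermat.Agent.S55.helper6044_LocTriv

/-!
# S55 / NF-GH-LAYER, part 2: the Hasse principle for a Kummer layer, unconditionally (helper2999)

* `stmt_hasseNorm_layer` : the Hasse norm theorem `helper1980.Stmt_HasseNorm` for a cyclic layer
  `E / K` of odd prime degree `p` with `ζ_p ∈ K` (from `helper4783.hasseNorm_of_locNormProper`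
  and `helper1957.stmt_LocNormProper`).
* `layer_hasse_kummer`, `layer_hasse_mixed_kummer` : `layer_hasse` / `layer_hasse_mixed` of
  `helper2999_LayerHasse` without the hypothesis `hHN`.
* `isCyclicLayer_of_carryLift` : the layer cut out by a character in the vocabulary of
  `helper6044` (`IsCarryLift K.fixingSubgroup p X`, `X g = 0 ↔ g ∈ E.fixingSubgroup`) is an
  `IsCyclicLayer`.
* `locNormGen_of_locTrivAt` : (P3) of NF-GH-LOC (`helper6044.LocTrivAt.carry_split_or_norm`,
  place `ι ∘ σ`) in the shape `LocNormGen q p σ⁻¹ K E b`.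
* `carry_hasse` : **Hasse principle for the carry cocycle of a Kummer layer** in the whole-group
  vocabulary of `helper6044`: if the carry cocycle `b ^ ((X g + X h) / p)` is locally trivial at
  every place `ι ∘ σ` (or `b` satisfies `LocNormGen` there), it is the coboundary on
  `K.fixingSubgroup` of a level cochain with values in `ℚ̄ˣ`; `carry_hasse_norm` : the same
  with the conclusion `b = ∏_{j<p} s^j y`, `y ∈ Eˣ`.
-/

set_option autoImplicit false

namespace Fermat.Agent.S55.helper2999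

open IsDedekindDomain
open scoped NumberField

attribute [local instance] Fermat.Agent.Lib.helper54.isAlgebraic_Qbar
  Fermat.Agent.Lib.helper54.isAlgClosure_Qbar Fermat.Agent.Lib.helper54.isGalois_Qbar
  Fermat.Agent.Lib.helper54.isIntegral_Qbar
attribute [local instance] Fermat.Agent.Lib.helper54.numberField_intermediate
attribute [local instance] numberField_extendScalars

local notation "Qb" => AlgebraicClosure ℚ
local notation "GQ" => (AlgebraicClosure ℚ ≃ₐ[ℚ] AlgebraicClosure ℚ)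

/-! ### The Hasse norm theorem for the layer -/

section Kummer

variable {K E : IntermediateField ℚ Qb} {p : ℕ} {s : GQ}

/-- **Hasse norm theorem for a Kummer layer**: `E / K` cyclic of odd prime degree `p`,
`ζ_p ∈ K`. -/
theorem stmt_hasseNorm_layer [Fact p.Prime] [FiniteDimensional ℚ K] [FiniteDimensional ℚ E]
    (h : IsCyclicLayer p K E s) (hp2 : p ≠ 2) {ζ : Qb} (hζ : IsPrimitiveRoot ζ p)
    (hζK : ζ ∈ K) :
    helper1980.Stmt_HasseNorm K (IntermediateField.extendScalars h.le) := by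
  have := h.isGalois
  have hζ' : IsPrimitiveRoot (⟨ζ, hζK⟩ : K) p :=
    IsPrimitiveRoot.of_map_of_injective (f := algebraMap K Qb) hζ (algebraMap K Qb).injective
  exact helper4783.hasseNorm_of_locNormProper K _ (Fact.out : p.Prime) hp2 h.finrank_eq
    ⟨_, hζ'⟩ (helper1957.stmt_LocNormProper (Fact.out : p.Prime) hp2 h.finrank_eq hζ')

/-- **Hasse principle for a Kummer layer `E / K`** (odd prime degree `p`, `ζ_p ∈ K`), mixed
form: at every place `(q, g)` either the generator form of the local norm condition holds or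
`b` is a completion-free local norm at `placeOf q K g`.  Then `b = ∏_{j<p} s^j y`, `y ∈ Eˣ`. -/
theorem layer_hasse_mixed_kummer [Fact p.Prime] [FiniteDimensional ℚ K] [FiniteDimensional ℚ E]
    (h : IsCyclicLayer p K E s) (hp2 : p ≠ 2) {ζ : Qb} (hζ : IsPrimitiveRoot ζ p)
    (hζK : ζ ∈ K) (b : (↥K)ˣ)
    (hloc : ∀ (q : ℕ) [Fact q.Prime] (g : GQ), LocNormGen q p g K E ((b : K) : Qb) ∨
      helper1980.LocNorm K (IntermediateField.extendScalars h.le) (helper4727.placeOf q K g) b) :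
    ∃ y ∈ E, y ≠ 0 ∧ ∏ j ∈ Finset.range p, (s ^ j) y = ((b : K) : Qb) :=
  layer_hasse_mixed h (stmt_hasseNorm_layer h hp2 hζ hζK) b hloc

/-- **Hasse principle for a Kummer layer `E / K`** (odd prime degree `p`, `ζ_p ∈ K`): if `b ∈ Kˣ`
satisfies the generator form of the local norm condition at every place `(q, g)`, then
`b = ∏_{j<p} s^j y` for some `y ∈ Eˣ`.  No hypothesis left. -/
theorem layer_hasse_kummer [Fact p.Prime] [FiniteDimensional ℚ K] [FiniteDimensional ℚ E]
    (h : IsCyclicLayer p K E s) (hp2 : p ≠ 2) {ζ : Qb} (hζ : IsPrimitiveRoot ζ p)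
    (hζK : ζ ∈ K) (b : Qb) (hbK : b ∈ K) (hb0 : b ≠ 0)
    (hloc : ∀ (q : ℕ) [Fact q.Prime] (g : GQ), LocNormGen q p g K E b) :
    ∃ y ∈ E, y ≠ 0 ∧ ∏ j ∈ Finset.range p, (s ^ j) y = b :=
  layer_hasse h (stmt_hasseNorm_layer h hp2 hζ hζK) b hbK hb0 hloc

end Kummer

/-! ### The vocabulary of `helper6044` (carry lifts, places `ι ∘ σ`) -/

section Carry

variable {K E : IntermediateField ℚ Qb} {p : ℕ}

/-- An element fixed by `L.fixingSubgroup` lies in `L`. -/
theorem mem_of_fixed (L : IntermediateField ℚ Qb) {x : Qb}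
    (hx : ∀ g : GQ, g ∈ L.fixingSubgroup → g x = x) : x ∈ L := by
  rw [← InfiniteGalois.fixedField_fixingSubgroup L, IntermediateField.mem_fixedField_iff]
  exact hx

/-- The layer cut out by a character, in the vocabulary of `helper6044`, is a cyclic layer. -/
theorem isCyclicLayer_of_carryLift {X : GQ → ℕ}
    (hX : helper6044.IsCarryLift K.fixingSubgroup p X)
    (hE : ∀ g : GQ, g ∈ K.fixingSubgroup → (X g = 0 ↔ g ∈ E.fixingSubgroup))
    (hEK : E.fixingSubgroup ≤ K.fixingSubgroup)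
    {s : GQ} (hs : s ∈ K.fixingSubgroup) (hXs : X s = 1) : IsCyclicLayer p K E s where
  le := by
    intro x hx
    exact mem_of_fixed E (fun g hg =>
      (IntermediateField.mem_fixingSubgroup_iff _ _).1 (hEK hg) x hx)
  mem := hs
  stable := by
    intro g hg x hx
    refine mem_of_fixed E (fun t ht => ?_)
    have htK : t ∈ K.fixingSubgroup := hEK ht
    have h0 : X (g⁻¹ * t * g) = 0 := hX.conj_ker hg htK ((hE t htK).2 ht)
    have hmem : g⁻¹ * t * g ∈ E.fixingSubgroup :=
      (hE _ (K.fixingSubgroup.mul_mem (K.fixingSubgroup.mul_mem (K.fixingSubgroup.inv_mem hg) htK)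
        hg)).1 h0
    have h1 := (IntermediateField.mem_fixingSubgroup_iff _ _).1 hmem x hx
    rw [AlgEquiv.mul_apply, AlgEquiv.mul_apply] at h1
    have h2 := congrArg g h1
    rw [← AlgEquiv.mul_apply, mul_inv_cancel, AlgEquiv.one_apply] at h2
    exact h2
  gen := by
    intro g hg
    refine ⟨X g, fun x hx => ?_⟩
    have h1 : X (s ^ X g) = X g := by
      rw [hX.pow hs hXs, Nat.mod_eq_of_lt (hX.lt g)]
    have hsK : s ^ X g ∈ K.fixingSubgroup := K.fixingSubgroup.pow_mem hs _
    have h0 : X ((s ^ X g)⁻¹ * g) = 0 := hX.inv_mul hsK hg h1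
    have hmem : (s ^ X g)⁻¹ * g ∈ E.fixingSubgroup :=
      (hE _ (K.fixingSubgroup.mul_mem (K.fixingSubgroup.inv_mem hsK) hg)).1 h0
    have h2 := (IntermediateField.mem_fixingSubgroup_iff _ _).1 hmem x hx
    rw [AlgEquiv.mul_apply] at h2
    have h3 := congrArg (s ^ X g) h2
    rw [← AlgEquiv.mul_apply, mul_inv_cancel, AlgEquiv.one_apply] at h3
    exact h3
  pow := by
    intro x hx
    have h0 : X (s ^ p) = 0 := by rw [hX.pow hs hXs, Nat.mod_self]
    exact (IntermediateField.mem_fixingSubgroup_iff _ _).1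
      ((hE _ (K.fixingSubgroup.pow_mem hs p)).1 h0) x hx
  ne := by
    by_contra hcon
    push Not at hcon
    have hmem : s ∈ E.fixingSubgroup :=
      (IntermediateField.mem_fixingSubgroup_iff _ _).2 hcon
    have := (hE s hs).2 hmem
    omega

/-- **(P3) in the shape `LocNormGen`**: if the carry cocycle of `b` for the layer `E / K` is
locally trivial at the place `ι ∘ σ` (`helper6044.LocTrivAt`), then `b` satisfies the generator
form of the local norm condition at the place `(q, σ⁻¹)`. -/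
theorem locNormGen_of_locTrivAt (q : ℕ) [Fact q.Prime] [Fact p.Prime] [FiniteDimensional ℚ E]
    {X : GQ → ℕ} (hX : helper6044.IsCarryLift K.fixingSubgroup p X)
    (hE : ∀ g : GQ, g ∈ K.fixingSubgroup → (X g = 0 ↔ g ∈ E.fixingSubgroup))
    (hEK : E.fixingSubgroup ≤ K.fixingSubgroup)
    (b : Qbˣ) (hb : ∀ g : GQ, g ∈ K.fixingSubgroup → g • b = b)
    {c : GQ × GQ → Qbˣ}
    (hc : ∀ g h : GQ, g ∈ K.fixingSubgroup → h ∈ K.fixingSubgroup →
      c (g, h) = b ^ ((X g + X h) / p))
    (σ : GQ) (hloc : helper6044.LocTrivAt q K σ c) :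
    LocNormGen q p σ⁻¹ K E (b : Qb) := by
  have hconj : ∀ γ : PadicAlgCl q ≃ₐ[ℚ_[q]] PadicAlgCl q,
      σ⁻¹ * localGaloisToGlobal q γ * σ⁻¹⁻¹ = helper6044.locHomAt q σ γ := by
    intro γ
    rw [helper6044.locHomAt_apply, inv_inv]
  rcases helper6044.LocTrivAt.carry_split_or_norm q p (Fact.out : p.Prime) X hX hE hEK b hb hc
    hloc with hsplit | ⟨γ, hγK, hγE, -, y, hy0, hymem, hprod⟩
  · left
    intro γ hγ
    rw [hconj] at hγ ⊢
    exact hsplit γ hγ
  · right
    refine ⟨γ, ?_, ?_, y, hy0, ?_, ?_⟩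
    · rw [hconj]
      exact hγK
    · rw [hconj]
      exact hγE
    · intro n hn
      rw [hconj] at hn
      exact (helper6044.mem_locField_iff q E σ y).1 hymem n hn
    · rw [hprod, tauAt_apply, inv_inv]
      rfl

/-- **Hasse principle for the carry cocycle of a Kummer layer, norm form**
(`p` odd, `ζ_p ∈ K`; vocabulary of `helper6044`): if at every place `ι ∘ σ` the carry cocycle
`b ^ ((X g + X h) / p)` of the layer `E / K` is locally trivial, or `b` satisfies `LocNormGen`
at `(q, σ⁻¹)`, then `b = ∏_{j<p} s^j y` with `y ∈ Eˣ`, for every `s` of character value `1`. -/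
theorem carry_hasse_norm [Fact p.Prime] [FiniteDimensional ℚ K] [FiniteDimensional ℚ E]
    (hp2 : p ≠ 2) {ζ : Qb} (hζ : IsPrimitiveRoot ζ p) (hζK : ζ ∈ K)
    {X : GQ → ℕ} (hX : helper6044.IsCarryLift K.fixingSubgroup p X)
    (hE : ∀ g : GQ, g ∈ K.fixingSubgroup → (X g = 0 ↔ g ∈ E.fixingSubgroup))
    (hEK : E.fixingSubgroup ≤ K.fixingSubgroup)
    (b : Qbˣ) (hb : ∀ g : GQ, g ∈ K.fixingSubgroup → g • b = b)
    {c : GQ × GQ → Qbˣ}
    (hc : ∀ g h : GQ, g ∈ K.fixingSubgroup → h ∈ K.fixingSubgroup →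
      c (g, h) = b ^ ((X g + X h) / p))
    (hloc : ∀ (q : ℕ) [Fact q.Prime] (σ : GQ),
      helper6044.LocTrivAt q K σ c ∨ LocNormGen q p σ⁻¹ K E (b : Qb))
    {s : GQ} (hs : s ∈ K.fixingSubgroup) (hXs : X s = 1) :
    ∃ y : Qbˣ, (y : Qb) ∈ E ∧ ∏ j ∈ Finset.range p, (s ^ j) (y : Qb) = (b : Qb) := by
  have hlayer : IsCyclicLayer p K E s := isCyclicLayer_of_carryLift hX hE hEK hs hXs
  have hbK : (b : Qb) ∈ K := mem_of_fixed K (fun g hg => congrArg Units.val (hb g hg))
  have hloc' : ∀ (q : ℕ) [Fact q.Prime] (g : GQ), LocNormGen q p g K E (b : Qb) := by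
    intro q _ g
    rcases hloc q g⁻¹ with h1 | h1
    · have h2 := locNormGen_of_locTrivAt q hX hE hEK b hb hc g⁻¹ h1
      rwa [inv_inv] at h2
    · rwa [inv_inv] at h1
  obtain ⟨y, hyE, hy0, hprod⟩ := layer_hasse_kummer hlayer hp2 hζ hζK (b : Qb) hbK b.ne_zero hloc'
  exact ⟨Units.mk0 y hy0, hyE, hprod⟩

/-- **Hasse principle for the carry cocycle of a Kummer layer** (`p` odd, `ζ_p ∈ K`; vocabulary
of `helper6044`): if at every place `ι ∘ σ` the carry cocycle `c = b ^ ((X g + X h) / p)` of the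
layer `E / K` is locally trivial (or `b` satisfies `LocNormGen` at `(q, σ⁻¹)`), then `c` is the
coboundary on `K.fixingSubgroup` of a level cochain `GQ → ℚ̄ˣ`. -/
theorem carry_hasse [Fact p.Prime] [FiniteDimensional ℚ K] [FiniteDimensional ℚ E]
    (hp2 : p ≠ 2) {ζ : Qb} (hζ : IsPrimitiveRoot ζ p) (hζK : ζ ∈ K)
    {X : GQ → ℕ} (hX : helper6044.IsCarryLift K.fixingSubgroup p X)
    (hE : ∀ g : GQ, g ∈ K.fixingSubgroup → (X g = 0 ↔ g ∈ E.fixingSubgroup))
    (hEK : E.fixingSubgroup ≤ K.fixingSubgroup)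
    (b : Qbˣ) (hb : ∀ g : GQ, g ∈ K.fixingSubgroup → g • b = b)
    {c : GQ × GQ → Qbˣ}
    (hc : ∀ g h : GQ, g ∈ K.fixingSubgroup → h ∈ K.fixingSubgroup →
      c (g, h) = b ^ ((X g + X h) / p))
    (hloc : ∀ (q : ℕ) [Fact q.Prime] (σ : GQ),
      helper6044.LocTrivAt q K σ c ∨ LocNormGen q p σ⁻¹ K E (b : Qb)) :
    ∃ x : GQ → Qbˣ, helper6044.IsLevel x ∧
      ∀ g h : GQ, g ∈ K.fixingSubgroup → h ∈ K.fixingSubgroup →
        g • x h / x (g * h) * x g = c (g, h) := by
  by_cases htriv : ∀ g : GQ, g ∈ K.fixingSubgroup → X g = 0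
  · refine ⟨fun _ => 1, ⟨⊥, inferInstance, fun _ _ _ => rfl⟩, fun g h hg hh => ?_⟩
    rw [hc g h hg hh, htriv g hg, htriv h hh]
    simp
  · push Not at htriv
    obtain ⟨g₀, hg₀, hne⟩ := htriv
    obtain ⟨s, hs, hXs⟩ := hX.exists_eq_one (Fact.out : p.Prime) hg₀ hne
    obtain ⟨y, hyE, hprod⟩ := carry_hasse_norm hp2 hζ hζK hX hE hEK b hb hc hloc hs hXs
    have hlev : ∃ L : IntermediateField ℚ Qb, FiniteDimensional ℚ L ∧
        ∀ t ∈ L.fixingSubgroup, t ∈ K.fixingSubgroup ∧ X t = 0 :=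
      ⟨E, inferInstance, fun t ht => ⟨hEK ht, (hE t (hEK ht)).2 ht⟩⟩
    have hy : ∀ t ∈ K.fixingSubgroup, X t = 0 → t • y = y := by
      intro t ht h0
      ext
      exact (IntermediateField.mem_fixingSubgroup_iff _ _).1 ((hE t ht).1 h0) _ hyE
    have hN : helper6044.partialNorm s y p = b := by
      ext
      rw [helper6044.partialNorm, Units.coe_prod]
      exact hprod
    obtain ⟨x, hxl, hx⟩ :=
      helper6044.exists_primitive_of_norm K.fixingSubgroup p X hX hlev b hb s hs hXs y hy hN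
    exact ⟨x, hxl, fun g h hg hh => by rw [hx g h hg hh, hc g h hg hh]⟩

end Carry

end Fermat.Agent.S55.helper2999
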