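import Mathlib
import Fermat.Prelude.Def_GroupCohomology_ContinuousUnramified

/-!
# S55, leaf SOFT-FINITE (helper1702), part 1: finiteness of the degree-one level cohomology

Everything here is stated directly on the frozen carriers.

* `finite_of_restrict_finite`: the abstract core (a cocycle is determined by its restriction to a
  finite-index subgroup and its values on coset representatives).
* `LevelHoms 𝓕 H A`: additive characters of a subgroup `H` which are right-invariant under some
  member of a family `𝓕` of subgroups; `LevelHomS S H A` (global, `S`-levels) and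
  `LevelHomLoc r H A` (relative to `r : G →* Gal(ℚbar/ℚ)`, all finite levels) are the two
  instances on the frozen level notions.
* `finite_levelCocycles`: level cocycles of a finite module trivialised by a finite-index subgroup
  `N` are finite in number as soon as the level characters `N → k` are.
* `exists_trivialising_field`: a finite-dimensional module satisfying the two frozen hypotheses of
  S55 is trivialised by an `S`-unramified Galois number field.
* `finite_continuousH1S_of_levelHomS`: `continuousH1S S M` is finite as soon as the `S`-level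
  characters of one trivialising `S`-unramified field are finite in number.
* `finite_continuousH1_of_levelHomLoc`: the local twin for `continuousH1 r A`.
-/

set_option autoImplicit false

noncomputable section

namespace Fermat.Agent.S55.helper1702

open groupCohomology

local notation "Γℚ" => (AlgebraicClosure ℚ ≃ₐ[ℚ] AlgebraicClosure ℚ)

/-! ## The abstract core -/

/-- A family of "cocycles" `c : G → M` (any rule `c (g * h) = Φ g (c h) (c g)`) whose restrictions
to a finite-index subgroup `N` lie in a finite set is finite, when `M` is finite. -/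
theorem finite_of_restrict_finite {G M : Type*} [Group G] [Finite M] (N : Subgroup G)
    [N.FiniteIndex] (Φ : G → M → M → M) (Z : Set (G → M))
    (hZ : ∀ c ∈ Z, ∀ g h, c (g * h) = Φ g (c h) (c g))
    (R : Set (N → M)) (hR : R.Finite) (hres : ∀ c ∈ Z, (fun n : N => c n) ∈ R) : Z.Finite := by
  have : Finite (G ⧸ N) := Subgroup.finite_quotient_of_finiteIndex
  have : Finite R := hR
  rw [← Set.finite_coe_iff]
  let F : Z → R × (G ⧸ N → M) := fun c =>
    (⟨fun n : N => c.1 n, hres c.1 c.2⟩, fun q => c.1 q.out)
  refine Finite.of_injective F ?_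
  rintro ⟨c, hc⟩ ⟨c', hc'⟩ h
  have h1 : (fun n : N => c n) = fun n : N => c' n := congrArg Subtype.val (congrArg Prod.fst h)
  have h2 : (fun q : G ⧸ N => c q.out) = fun q : G ⧸ N => c' q.out := congrArg Prod.snd h
  apply Subtype.ext
  funext g
  set t : G := (QuotientGroup.mk g : G ⧸ N).out with ht
  have hn : t⁻¹ * g ∈ N := by
    have : (QuotientGroup.mk t : G ⧸ N) = QuotientGroup.mk g := QuotientGroup.out_eq' _
    exact QuotientGroup.eq.mp this
  have hg : g = t * (t⁻¹ * g) := by group
  show c g = c' g
  rw [hg, hZ c hc, hZ c' hc']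
  have e1 : c (t⁻¹ * g) = c' (t⁻¹ * g) := congrFun h1 ⟨t⁻¹ * g, hn⟩
  have e2 : c t = c' t := congrFun h2 (QuotientGroup.mk g)
  rw [e1, e2]

/-! ## Level characters -/

/-- Additive characters of a subgroup `H` of `G`, with values in `A`, which are right-invariant
under (the trace on `H` of) some member of the family `𝓕` of subgroups of `G`. -/
def LevelHoms {G : Type*} [Group G] (𝓕 : Set (Subgroup G)) (H : Subgroup G) (A : Type*) [Add A] :
    Set (H → A) :=
  {φ | (∀ x y : H, φ (x * y) = φ x + φ y) ∧
    ∃ U ∈ 𝓕, ∀ x s : H, (s : G) ∈ U → φ (x * s) = φ x}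

/-- Level characters with values in a finite free module are finite in number if those with
values in the base ring are. -/
theorem finite_levelHoms_of_basis {G : Type*} [Group G] (𝓕 : Set (Subgroup G)) (H : Subgroup G)
    {k : Type*} [CommRing k] {M : Type*} [AddCommGroup M] [Module k M] {ι : Type*} [Finite ι]
    (b : Module.Basis ι k M) (hX : (LevelHoms 𝓕 H k).Finite) : (LevelHoms 𝓕 H M).Finite := by
  have hpi : {f : ι → (H → k) | ∀ i, f i ∈ LevelHoms 𝓕 H k}.Finite := Set.Finite.pi' fun _ => hX
  refine Set.Finite.of_injOn (f := fun (φ : H → M) (i : ι) (x : H) => b.coord i (φ x)) ?_ ?_ hpi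
  · rintro φ ⟨hadd, U, hU, hlev⟩ i
    refine ⟨fun x y => ?_, U, hU, fun x s hs => ?_⟩
    · show b.coord i (φ (x * y)) = b.coord i (φ x) + b.coord i (φ y)
      rw [hadd, map_add]
    · show b.coord i (φ (x * s)) = b.coord i (φ x)
      rw [hlev x s hs]
  · intro φ _ ψ _ h
    funext x
    apply b.ext_elem
    intro i
    have := congrFun (congrFun h i) x
    simpa using this

/-- Level characters of `H` are finite in number as soon as those of a subgroup `H' ≤ H` of
finite relative index are. -/
theorem finite_levelHoms_of_le {G : Type*} [Group G] (𝓕 : Set (Subgroup G)) {H H' : Subgroup G}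
    (hle : H' ≤ H) (hidx : H'.relIndex H ≠ 0) {A : Type*} [AddCommGroup A] [Finite A]
    (hX : (LevelHoms 𝓕 H' A).Finite) : (LevelHoms 𝓕 H A).Finite := by
  have : (H'.subgroupOf H).FiniteIndex := ⟨hidx⟩
  let T : (↥(H'.subgroupOf H) → A) → (H' → A) := fun ψ x => ψ ⟨⟨x.1, hle x.2⟩, x.2⟩
  have hT : Function.Injective T := by
    intro ψ ψ' h
    funext n
    exact congrFun h ⟨n.1.1, n.2⟩
  refine finite_of_restrict_finite (H'.subgroupOf H) (fun _ a b => b + a) (LevelHoms 𝓕 H A)
    (fun c hc g h => hc.1 g h) (T ⁻¹' LevelHoms 𝓕 H' A) (hX.preimage hT.injOn) ?_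
  rintro c ⟨hadd, U, hU, hlev⟩
  refine ⟨fun x y => ?_, U, hU, fun x s hs => ?_⟩
  · exact hadd ⟨x.1, hle x.2⟩ ⟨y.1, hle y.2⟩
  · exact hlev ⟨x.1, hle x.2⟩ ⟨s.1, hle s.2⟩ hs

/-- **Abstract finiteness of level cocycles.** Let `A` be a finite free `k`-module with an action
of `G` which is trivial on a subgroup `N` of finite index. If the level characters `N → k` are
finite in number, then so are the level `1`-cocycles `G → A`. -/
theorem finite_levelCocycles {G : Type*} [Group G] (𝓕 : Set (Subgroup G)) {k : Type*} [CommRing k]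
    {A : Type*} [AddCommGroup A] [Module k A] [Finite A] {ι : Type*} [Finite ι]
    (b : Module.Basis ι k A) (ρ : G → A → A) (N : Subgroup G) [N.FiniteIndex]
    (hN : ∀ s ∈ N, ∀ a, ρ s a = a) (hX : (LevelHoms 𝓕 N k).Finite) :
    {c : G → A | (∀ g h : G, c (g * h) = ρ g (c h) + c g) ∧
      ∃ U ∈ 𝓕, ∀ g s : G, s ∈ U → c (g * s) = c g}.Finite := by
  refine finite_of_restrict_finite N (fun g a b => ρ g a + b) _ (fun c hc g h => hc.1 g h)
    (LevelHoms 𝓕 N A) (finite_levelHoms_of_basis 𝓕 N b hX) ?_
  rintro c ⟨hcoc, U, hU, hlev⟩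
  refine ⟨fun x y => ?_, U, hU, fun x s hs => hlev x s hs⟩
  show c ((x : G) * (y : G)) = c x + c y
  rw [hcoc, hN x x.2, add_comm]

/-! ## The two frozen level notions -/

/-- The family of `S`-level subgroups of the absolute Galois group of `ℚ`. -/
def levelsS (S : Finset Nat.Primes) : Set (Subgroup Γℚ) :=
  {U | ∃ F : IntermediateField ℚ (AlgebraicClosure ℚ), F.IsUnramifiedOutside S ∧
    F.fixingSubgroup = U}

/-- The family of level subgroups of `G` relative to `r : G →* Gal(ℚbar/ℚ)`. -/
def levelsLoc {G : Type*} [Group G] (r : G →* Γℚ) : Set (Subgroup G) :=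
  {U | ∃ F : IntermediateField ℚ (AlgebraicClosure ℚ), FiniteDimensional ℚ F ∧
    F.fixingSubgroup.comap r = U}

/-- `S`-level additive characters of a subgroup `H` of the absolute Galois group of `ℚ`, with
values in `A`. -/
def LevelHomS (S : Finset Nat.Primes) (H : Subgroup Γℚ) (A : Type*) [Add A] : Set (H → A) :=
  {φ | (∀ x y : H, φ (x * y) = φ x + φ y) ∧
    ∃ F : IntermediateField ℚ (AlgebraicClosure ℚ), F.IsUnramifiedOutside S ∧
      ∀ x s : H, (s : Γℚ) ∈ F.fixingSubgroup → φ (x * s) = φ x}

/-- Level additive characters of a subgroup `H` of `G`, relative to `r : G →* Gal(ℚbar/ℚ)`, with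
values in `A`. -/
def LevelHomLoc {G : Type*} [Group G] (r : G →* Γℚ) (H : Subgroup G) (A : Type*) [Add A] :
    Set (H → A) :=
  {φ | (∀ x y : H, φ (x * y) = φ x + φ y) ∧
    ∃ F : IntermediateField ℚ (AlgebraicClosure ℚ), FiniteDimensional ℚ F ∧
      ∀ x s : H, r (s : G) ∈ F.fixingSubgroup → φ (x * s) = φ x}

theorem levelHomS_eq (S : Finset Nat.Primes) (H : Subgroup Γℚ) (A : Type*) [Add A] :
    LevelHomS S H A = LevelHoms (levelsS S) H A := by
  ext φ
  constructor
  · rintro ⟨hadd, F, hF, h⟩
    exact ⟨hadd, F.fixingSubgroup, ⟨F, hF, rfl⟩, h⟩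
  · rintro ⟨hadd, U, ⟨F, hF, rfl⟩, h⟩
    exact ⟨hadd, F, hF, h⟩

theorem levelHomLoc_eq {G : Type*} [Group G] (r : G →* Γℚ) (H : Subgroup G) (A : Type*) [Add A] :
    LevelHomLoc r H A = LevelHoms (levelsLoc r) H A := by
  ext φ
  constructor
  · rintro ⟨hadd, F, hF, h⟩
    exact ⟨hadd, F.fixingSubgroup.comap r, ⟨F, hF, rfl⟩, fun x s hs => h x s hs⟩
  · rintro ⟨hadd, U, ⟨F, hF, rfl⟩, h⟩
    exact ⟨hadd, F, hF, fun x s hs => h x s hs⟩

/-- Enlargement, global form: `S`-level characters of `H` are finite in number as soon as those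
of a subgroup of finite relative index are. -/
theorem finite_levelHomS_of_le (S : Finset Nat.Primes) {H H' : Subgroup Γℚ} (hle : H' ≤ H)
    (hidx : H'.relIndex H ≠ 0) {A : Type*} [AddCommGroup A] [Finite A]
    (hX : (LevelHomS S H' A).Finite) : (LevelHomS S H A).Finite := by
  rw [levelHomS_eq] at hX ⊢
  exact finite_levelHoms_of_le _ hle hidx hX

/-- Enlargement, relative form. -/
theorem finite_levelHomLoc_of_le {G : Type*} [Group G] (r : G →* Γℚ) {H H' : Subgroup G}
    (hle : H' ≤ H) (hidx : H'.relIndex H ≠ 0) {A : Type*} [AddCommGroup A] [Finite A]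
    (hX : (LevelHomLoc r H' A).Finite) : (LevelHomLoc r H A).Finite := by
  rw [levelHomLoc_eq] at hX ⊢
  exact finite_levelHoms_of_le _ hle hidx hX

/-! ## The trivialising field -/

theorem isGalois_Qbar : IsGalois ℚ (AlgebraicClosure ℚ) :=
  haveI : IsAlgClosure ℚ (AlgebraicClosure ℚ) := ⟨inferInstance, AlgebraicClosure.isAlgebraic ℚ⟩
  inferInstance

/-- The fixing subgroup of a number field has finite index in the absolute Galois group. -/
theorem finiteIndex_fixingSubgroup (K : IntermediateField ℚ (AlgebraicClosure ℚ))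
    [FiniteDimensional ℚ K] : K.fixingSubgroup.FiniteIndex := by
  have := isGalois_Qbar
  refine ⟨?_⟩
  rw [← IntermediateField.finrank_eq_fixingSubgroup_index]
  exact Module.finrank_pos.ne'

/-- The preimage of a finite-index subgroup has finite index. -/
theorem finiteIndex_comap {G G' : Type*} [Group G] [Group G'] (f : G' →* G) (H : Subgroup G)
    [H.FiniteIndex] : (H.comap f).FiniteIndex :=
  ⟨by
    rw [Subgroup.index_comap]
    exact fun h => Subgroup.FiniteIndex.index_ne_zero (Subgroup.index_eq_zero_of_relIndex_eq_zero h)⟩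

/-- A finite-dimensional module with open stabilisers and trivial inertia outside `S` is
trivialised exactly by the fixing subgroup of an `S`-unramified number field (automatically Galois
over `ℚ`, the fixing subgroup being a kernel). -/
theorem exists_trivialising_field {k : Type} [Field k] (S : Finset Nat.Primes)
    (M : Rep k Γℚ) [FiniteDimensional k M]
    (hsm : ∀ m : M, ∃ F : IntermediateField ℚ (AlgebraicClosure ℚ), FiniteDimensional ℚ F ∧
      ∀ s ∈ F.fixingSubgroup, M.ρ s m = m)
    (hMur : ∀ q : Nat.Primes, q ∉ S → ∀ A : ValuationSubring (AlgebraicClosure ℚ),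
      A.LiesOverPrime (q : ℕ) → ∀ g ∈ A.inertiaSubgroupIn ℚ, M.ρ g = 1) :
    ∃ K : IntermediateField ℚ (AlgebraicClosure ℚ), K.IsUnramifiedOutside S ∧
      K.fixingSubgroup.Normal ∧ ∀ s : Γℚ, s ∈ K.fixingSubgroup ↔ M.ρ s = 1 := by
  classical
  have := isGalois_Qbar
  -- a common level for a basis
  let b := Module.finBasis k M
  choose F hFfin hF using hsm
  let F₀ : IntermediateField ℚ (AlgebraicClosure ℚ) := ⨆ i, F (b i)
  have hF₀fin : FiniteDimensional ℚ F₀ := by
    have : ∀ i, FiniteDimensional ℚ (F (b i)) := fun i => hFfin (b i)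
    exact IntermediateField.finiteDimensional_iSup_of_finite
  let H : Subgroup Γℚ := MonoidHom.ker M.ρ
  have hF₀H : F₀.fixingSubgroup ≤ H := by
    intro s hs
    rw [MonoidHom.mem_ker]
    apply b.ext
    intro i
    have : s ∈ (F (b i)).fixingSubgroup :=
      IntermediateField.fixingSubgroup_antitone (le_iSup (fun i => F (b i)) i) hs
    simpa using hF (b i) s this
  have hHopen : IsOpen (H : Set Γℚ) :=
    Subgroup.isOpen_mono hF₀H (IntermediateField.fixingSubgroup_isOpen F₀)
  have hHclosed : IsClosed (H : Set Γℚ) := Subgroup.isClosed_of_isOpen H hHopen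
  let K : IntermediateField ℚ (AlgebraicClosure ℚ) := IntermediateField.fixedField H
  have hKH : K.fixingSubgroup = H :=
    InfiniteGalois.fixingSubgroup_fixedField ⟨H, hHclosed⟩
  have hKF₀ : K ≤ F₀ := by
    have h1 : IntermediateField.fixedField H ≤ IntermediateField.fixedField F₀.fixingSubgroup :=
      IntermediateField.fixedField_antitone hF₀H
    rwa [InfiniteGalois.fixedField_fixingSubgroup] at h1
  have hKfin : FiniteDimensional ℚ K :=
    FiniteDimensional.of_injective (IntermediateField.inclusion hKF₀).toLinearMap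
      (IntermediateField.inclusion_injective hKF₀)
  refine ⟨K, ⟨hKfin, fun q hq A hA g hg => ?_⟩, ?_, fun s => ?_⟩
  · rw [hKH, MonoidHom.mem_ker]
    exact hMur q hq A hA g hg
  · rw [hKH]
    exact MonoidHom.normal_ker _
  · rw [hKH, MonoidHom.mem_ker]

/-! ## Finiteness of `continuousH1S` and of `continuousH1` -/

/-- The `S`-level `1`-cocycles of a finite module trivialised by the number field `K` are finite
in number as soon as the `S`-level characters of `K.fixingSubgroup` are. -/
theorem finite_levelCocyclesS₁ {k : Type} [CommRing k] (S : Finset Nat.Primes) (M : Rep k Γℚ)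
    [Finite M] {ι : Type*} [Finite ι] (b : Module.Basis ι k M)
    (K : IntermediateField ℚ (AlgebraicClosure ℚ)) [FiniteDimensional ℚ K]
    (hK : ∀ s ∈ K.fixingSubgroup, M.ρ s = 1)
    (hX : (LevelHomS S K.fixingSubgroup k).Finite) : Finite (levelCocyclesS₁ S M) := by
  have := finiteIndex_fixingSubgroup K
  rw [levelHomS_eq] at hX
  have hfin := finite_levelCocycles (levelsS S) b (fun g a => M.ρ g a) K.fixingSubgroup
    (fun s hs a => by rw [hK s hs]; rfl) hX
  have : Finite ↥{c : Γℚ → M | (∀ g h : Γℚ, c (g * h) = M.ρ g (c h) + c g) ∧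
      ∃ U ∈ levelsS S, ∀ g s : Γℚ, s ∈ U → c (g * s) = c g} := hfin
  refine Finite.of_injective
    (fun c : levelCocyclesS₁ S M =>
      (⟨(c.1 : Γℚ → M), (mem_cocycles₁_iff _).1 c.1.2, by
        obtain ⟨F, hF, h⟩ := c.2
        exact ⟨F.fixingSubgroup, ⟨F, hF, rfl⟩, h⟩⟩ :
        ↥{c : Γℚ → M | (∀ g h : Γℚ, c (g * h) = M.ρ g (c h) + c g) ∧
          ∃ U ∈ levelsS S, ∀ g s : Γℚ, s ∈ U → c (g * s) = c g})) ?_
  intro c c' h
  have h' := congrArg Subtype.val h
  exact Subtype.ext (Subtype.ext h')

/-- **Finiteness of `continuousH1S`.** If the finite-dimensional module `M` is trivialised by the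
number field `K` and the `S`-level characters `K.fixingSubgroup → ZMod p` are finite in number,
then `continuousH1S S M` is finite. -/
theorem finite_continuousH1S_of_levelHomS {p : ℕ} [Fact p.Prime] (S : Finset Nat.Primes)
    (M : Rep (ZMod p) Γℚ) [FiniteDimensional (ZMod p) M]
    (K : IntermediateField ℚ (AlgebraicClosure ℚ)) [FiniteDimensional ℚ K]
    (hK : ∀ s ∈ K.fixingSubgroup, M.ρ s = 1)
    (hX : (LevelHomS S K.fixingSubgroup (ZMod p)).Finite) :
    Finite (continuousH1S S M) := by
  have : Finite M := Module.finite_of_finite (ZMod p)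
  have := finite_levelCocyclesS₁ S M (Module.finBasis (ZMod p) M) K hK hX
  have hsurj : Function.Surjective
      (fun c : levelCocyclesS₁ S M => (⟨(H1π M).hom c.1, Submodule.mem_map_of_mem c.2⟩ :
        continuousH1S S M)) := by
    rintro ⟨x, hx⟩
    obtain ⟨c, hc, rfl⟩ := hx
    exact ⟨⟨c, hc⟩, rfl⟩
  exact Finite.of_surjective _ hsurj

/-- The level `1`-cocycles (relative to `r`) of a finite module trivialised by a finite-index
subgroup `N` are finite in number as soon as the level characters of `N` are. -/
theorem finite_levelCocycles₁ {k G : Type} [CommRing k] [Group G] (r : G →* Γℚ) (A : Rep k G)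
    [Finite A] {ι : Type*} [Finite ι] (b : Module.Basis ι k A) (N : Subgroup G) [N.FiniteIndex]
    (hN : ∀ s ∈ N, A.ρ s = 1) (hX : (LevelHomLoc r N k).Finite) :
    Finite (levelCocycles₁ r A) := by
  rw [levelHomLoc_eq] at hX
  have hfin := finite_levelCocycles (levelsLoc r) b (fun g a => A.ρ g a) N
    (fun s hs a => by rw [hN s hs]; rfl) hX
  have : Finite ↥{c : G → A | (∀ g h : G, c (g * h) = A.ρ g (c h) + c g) ∧
      ∃ U ∈ levelsLoc r, ∀ g s : G, s ∈ U → c (g * s) = c g} := hfin
  refine Finite.of_injective
    (fun c : levelCocycles₁ r A =>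
      (⟨(c.1 : G → A), (mem_cocycles₁_iff _).1 c.1.2, by
        obtain ⟨F, hF, h⟩ := c.2
        exact ⟨F.fixingSubgroup.comap r, ⟨F, hF, rfl⟩, fun g s hs => h g s hs⟩⟩ :
        ↥{c : G → A | (∀ g h : G, c (g * h) = A.ρ g (c h) + c g) ∧
          ∃ U ∈ levelsLoc r, ∀ g s : G, s ∈ U → c (g * s) = c g})) ?_
  intro c c' h
  have h' := congrArg Subtype.val h
  exact Subtype.ext (Subtype.ext h')

/-- **Finiteness of `continuousH1 r A`** (local twin). If the finite-dimensional module `A` is
trivialised by a finite-index subgroup `N` of `G` and the level characters `N → ZMod p` are finite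
in number, then `continuousH1 r A` is finite. -/
theorem finite_continuousH1_of_levelHomLoc {p : ℕ} [Fact p.Prime] {G : Type} [Group G]
    (r : G →* Γℚ) (A : Rep (ZMod p) G) [FiniteDimensional (ZMod p) A] (N : Subgroup G)
    [N.FiniteIndex] (hN : ∀ s ∈ N, A.ρ s = 1) (hX : (LevelHomLoc r N (ZMod p)).Finite) :
    Finite (continuousH1 r A) := by
  have : Finite A := Module.finite_of_finite (ZMod p)
  have := finite_levelCocycles₁ r A (Module.finBasis (ZMod p) A) N hN hX
  have hsurj : Function.Surjective
      (fun c : levelCocycles₁ r A => (⟨(H1π A).hom c.1, Submodule.mem_map_of_mem c.2⟩ :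
        continuousH1 r A)) := by
    rintro ⟨x, hx⟩
    obtain ⟨c, hc, rfl⟩ := hx
    exact ⟨⟨c, hc⟩, rfl⟩
  exact Finite.of_surjective _ hsurj

/-- Local twin on the restriction of a global module: if the global module `M` is trivialised by
the number field `K`, then `continuousH1 r (Rep.res r M)` is finite as soon as the level characters
of the preimage of `K.fixingSubgroup` are finite in number. -/
theorem finite_continuousH1_res_of_levelHomLoc {p : ℕ} [Fact p.Prime] {G : Type} [Group G]
    (r : G →* Γℚ) (M : Rep (ZMod p) Γℚ) [FiniteDimensional (ZMod p) M]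
    (K : IntermediateField ℚ (AlgebraicClosure ℚ)) [FiniteDimensional ℚ K]
    (hK : ∀ s ∈ K.fixingSubgroup, M.ρ s = 1)
    (hX : (LevelHomLoc r (K.fixingSubgroup.comap r) (ZMod p)).Finite) :
    Finite (continuousH1 r (Rep.res r M)) := by
  have := finiteIndex_fixingSubgroup K
  have : FiniteDimensional (ZMod p) (Rep.res r M) :=
    inferInstanceAs (FiniteDimensional (ZMod p) M)
  have : (K.fixingSubgroup.comap r).FiniteIndex := finiteIndex_comap r K.fixingSubgroup
  exact finite_continuousH1_of_levelHomLoc r (Rep.res r M) (K.fixingSubgroup.comap r)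
    (fun s hs => hK (r s) hs) hX

end Fermat.Agent.S55.helper1702
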