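/-
S55 (Poitou–Tate), top layer.  Author: helper235.

`s55_of_finrankEq` : the frozen statement S55 follows from the purely numerical statement
`Stmt_FinrankEq` (both Tate–Shafarevich groups are finite-dimensional of the same dimension).
Pure linear algebra; no arithmetic.
-/
import Mathlib
import Fermat.Prelude.Def_GroupCohomology_ContinuousUnramified

set_option autoImplicit false

namespace Fermat.Agent.S55.helper235

open CategoryTheory Module groupCohomology ExtCitation

/-- Two finite-dimensional spaces of the same dimension carry a bilinear form that is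
nondegenerate on both sides. -/
theorem exists_nondegenerate_of_finrank_eq {k V W : Type*} [Field k]
    [AddCommGroup V] [Module k V] [AddCommGroup W] [Module k W]
    [FiniteDimensional k V] [FiniteDimensional k W] (h : finrank k V = finrank k W) :
    ∃ B : V →ₗ[k] W →ₗ[k] k,
      (∀ y, (∀ x, B y x = 0) → y = 0) ∧ (∀ x, (∀ y, B y x = 0) → x = 0) := by
  classical
  let e : V ≃ₗ[k] W := LinearEquiv.ofFinrankEq V W h
  let b := Module.finBasis k W
  refine ⟨b.toDual ∘ₗ e.toLinearMap, ?_, ?_⟩
  · intro y hy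
    have h1 : b.toDual (e y) = 0 := LinearMap.ext fun x => by simpa using hy x
    have h2 : e y = 0 := b.toDual_injective (by simpa using h1)
    simpa using h2
  · intro x hx
    have h1 : ∀ w : W, b.toDual w x = 0 := fun w => by
      simpa using hx (e.symm w)
    have h2 : b.repr x = 0 := by
      ext i
      have := h1 (b i)
      rw [Basis.toDual_apply_right] at this
      simpa using this
    simpa using h2

/-- The numerical form of S55: under the hypotheses of the frozen statement, `Ш¹_S` of the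
Tate-twisted dual and `Ш²_S` of `M` are finite-dimensional of the same dimension. -/
def Stmt_FinrankEq : Prop :=
  ∀ {p : ℕ} [Fact p.Prime], p ≠ 2 → ∀ (S : Finset Nat.Primes), pPrime p ∈ S →
    ∀ (M : Rep (ZMod p) (AlgebraicClosure ℚ ≃ₐ[ℚ] AlgebraicClosure ℚ))
      [FiniteDimensional (ZMod p) M],
      (∀ m : M, ∃ F : IntermediateField ℚ (AlgebraicClosure ℚ), FiniteDimensional ℚ F ∧
        ∀ s ∈ F.fixingSubgroup, M.ρ s m = m) →
      (∀ q : Nat.Primes, q ∉ S → ∀ A : ValuationSubring (AlgebraicClosure ℚ),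
        A.LiesOverPrime (q : ℕ) → ∀ g ∈ A.inertiaSubgroupIn ℚ, M.ρ g = 1) →
      FiniteDimensional (ZMod p) (sha₁ S (M.dualTwist (cycloChar p))) ∧
      FiniteDimensional (ZMod p) (sha₂ S M) ∧
      finrank (ZMod p) (sha₁ S (M.dualTwist (cycloChar p))) = finrank (ZMod p) (sha₂ S M)

/-- S55 (verbatim frozen shape) from the numerical statement. -/
theorem s55_of_finrankEq (H : Stmt_FinrankEq)
    {p : ℕ} [Fact p.Prime] (hp2 : p ≠ 2) (S : Finset Nat.Primes) (hpS : pPrime p ∈ S)
    (M : Rep (ZMod p) (AlgebraicClosure ℚ ≃ₐ[ℚ] AlgebraicClosure ℚ))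
    [FiniteDimensional (ZMod p) M]
    (hsm : ∀ m : M, ∃ F : IntermediateField ℚ (AlgebraicClosure ℚ), FiniteDimensional ℚ F ∧
      ∀ s ∈ F.fixingSubgroup, M.ρ s m = m)
    (hMur : ∀ q : Nat.Primes, q ∉ S → ∀ A : ValuationSubring (AlgebraicClosure ℚ),
      A.LiesOverPrime (q : ℕ) → ∀ g ∈ A.inertiaSubgroupIn ℚ, M.ρ g = 1) :
    ∃ B : sha₁ S (M.dualTwist (cycloChar p)) →ₗ[ZMod p] sha₂ S M →ₗ[ZMod p] ZMod p,
      (∀ y, (∀ x, B y x = 0) → y = 0) ∧ (∀ x, (∀ y, B y x = 0) → x = 0) := by
  obtain ⟨h1, h2, h3⟩ := H hp2 S hpS M hsm hMur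
  exact exists_nondegenerate_of_finrank_eq h3

end Fermat.Agent.S55.helper235
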