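/-
S55 (Poitou–Tate), SOFT layer Spec.  Author: helper2945 (architect).

The numerical invariants of the "soft squeeze" (findings #1621, with the refinement `E*` of
#1903 (II)(a)) are defined DIRECTLY on the frozen carriers, the soft inputs are closed `Prop`s
`Stmt_*`, and `stmt_FinrankEq_of` PROVES `helper235.Stmt_FinrankEq` (hence the frozen S55, by
`helper235.s55_of_finrankEq`) from them.  Only finite-dimensional linear algebra is used here.

Notation of the comments: `M' = M.dualTwist (cycloChar p)`, `hⁱ = dim Hⁱ(G_S, M)`,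
`aᵢ = dim Шⁱ_S(M)`, `rᵢ = rank of the localisation map in degree i`,
`πᵢ = ∑_{q ∈ S} dim Hⁱ(ℚ_q, M)` (continuous local cohomology), `χ = h⁰ - h¹ + h²`.
-/
import Mathlib
import Fermat.Prelude.Def_GroupCohomology_ContinuousUnramified
import Fermat.Agent.S55.helper235_Top

set_option autoImplicit false

namespace Fermat.Agent.S55.helper2945

open CategoryTheory Module groupCohomology ExtCitation

/-- The absolute Galois group of `ℚ` (the carrier of the frozen statement). -/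
abbrev GQ : Type := AlgebraicClosure ℚ ≃ₐ[ℚ] AlgebraicClosure ℚ

section Defs

variable {p : ℕ} [Fact p.Prime] (S : Finset Nat.Primes)

/-- The hypotheses of the frozen statement S55 on the module `M`: finite-dimensional, with open
stabilisers, unramified outside `S`. -/
structure IsSMod (M : Rep.{0, 0, 0} (ZMod p) GQ) : Prop where
  finite : FiniteDimensional (ZMod p) M
  smooth : ∀ m : M, ∃ F : IntermediateField ℚ (AlgebraicClosure ℚ), FiniteDimensional ℚ F ∧
    ∀ s ∈ F.fixingSubgroup, M.ρ s m = m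
  unram : ∀ q : Nat.Primes, q ∉ S → ∀ A : ValuationSubring (AlgebraicClosure ℚ),
    A.LiesOverPrime (q : ℕ) → ∀ g ∈ A.inertiaSubgroupIn ℚ, M.ρ g = 1

/-- The Tate-twisted dual `M' = Hom(M, μ_p)`. -/
noncomputable abbrev dualT (M : Rep.{0, 0, 0} (ZMod p) GQ) : Rep.{0, 0, 0} (ZMod p) GQ := M.dualTwist (cycloChar p)

/-- `h⁰(G_S, M)`. -/
noncomputable def h0 (M : Rep.{0, 0, 0} (ZMod p) GQ) : ℕ := finrank (ZMod p) (Representation.invariants M.ρ)

/-- `h¹(G_S, M)` (level-constant-`S` classes). -/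
noncomputable def h1 (M : Rep.{0, 0, 0} (ZMod p) GQ) : ℕ := finrank (ZMod p) (continuousH1S S M)

/-- `h²(G_S, M)`. -/
noncomputable def h2 (M : Rep.{0, 0, 0} (ZMod p) GQ) : ℕ := finrank (ZMod p) (continuousH2S S M)

/-- `a₁ = dim Ш¹_S(M)`. -/
noncomputable def a1 (M : Rep.{0, 0, 0} (ZMod p) GQ) : ℕ := finrank (ZMod p) (sha₁ S M)

/-- `a₂ = dim Ш²_S(M)`. -/
noncomputable def a2 (M : Rep.{0, 0, 0} (ZMod p) GQ) : ℕ := finrank (ZMod p) (sha₂ S M)

/-- `r₁` = rank of the localisation map on `H¹(G_S, M)`. -/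
noncomputable def r1 (M : Rep.{0, 0, 0} (ZMod p) GQ) : ℕ :=
  finrank (ZMod p) ((continuousH1S S M).map (locTotal (extArithLoc S) M))

/-- `r₂` = rank of the localisation map `locTotal₂S S M` on `H²(G_S, M)`, defined as the
dimension of `H²(G_S, M) ⧸ Ш²_S(M)` (`sha₂ S M` is by definition the kernel of `locTotal₂S S M`;
the quotient form avoids instance problems on the product of the local `H²`'s). -/
noncomputable def r2 (M : Rep.{0, 0, 0} (ZMod p) GQ) : ℕ :=
  finrank (ZMod p) (continuousH2S S M ⧸ sha₂ S M)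

/-- `π₀ = ∑_{q ∈ S} dim H⁰(ℚ_q, M)`. -/
noncomputable def pi0 (M : Rep.{0, 0, 0} (ZMod p) GQ) : ℕ :=
  ∑ q ∈ S, finrank (ZMod p) (Representation.invariants (Rep.res (primeLocalToGlobal q) M).ρ)

/-- `π₁ = ∑_{q ∈ S} dim H¹(ℚ_q, M)` (continuous classes). -/
noncomputable def pi1 (M : Rep.{0, 0, 0} (ZMod p) GQ) : ℕ :=
  ∑ q ∈ S, finrank (ZMod p)
    (continuousH1 (primeLocalToGlobal q) (Rep.res (primeLocalToGlobal q) M))

/-- `π₂ = ∑_{q ∈ S} dim H²(ℚ_q, M)` (continuous classes). -/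
noncomputable def pi2 (M : Rep.{0, 0, 0} (ZMod p) GQ) : ℕ :=
  ∑ q ∈ S, finrank (ZMod p)
    (continuousH2 (primeLocalToGlobal q) (Rep.res (primeLocalToGlobal q) M))

/-! ### Rank–nullity on the frozen carriers -/

theorem a2_add_r2 (M : Rep.{0, 0, 0} (ZMod p) GQ)
    [FiniteDimensional (ZMod p) (continuousH2S S M)] :
    a2 S M + r2 S M = h2 S M := by
  have h := (sha₂ S M).finrank_quotient_add_finrank
  unfold a2 r2 h2
  omega

theorem a1_add_r1 (M : Rep.{0, 0, 0} (ZMod p) GQ)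
    [FiniteDimensional (ZMod p) (continuousH1S S M)] :
    a1 S M + r1 S M = h1 S M := by
  have h := @LinearMap.finrank_range_add_finrank_ker (ZMod p) (continuousH1S S M) _ _ _ _ _ _ _
    ((locTotal (extArithLoc S) M).domRestrict (continuousH1S S M))
  have hr : LinearMap.range ((locTotal (extArithLoc S) M).domRestrict (continuousH1S S M)) =
      (continuousH1S S M).map (locTotal (extArithLoc S) M) :=
    LinearMap.range_domRestrict _ _
  have hk : finrank (ZMod p)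
      (LinearMap.ker ((locTotal (extArithLoc S) M).domRestrict (continuousH1S S M))) =
      finrank (ZMod p) ↥(continuousH1S S M ⊓ LinearMap.ker (locTotal (extArithLoc S) M)) := by
    have h1 : LinearMap.ker ((locTotal (extArithLoc S) M).domRestrict (continuousH1S S M)) =
        (continuousH1S S M ⊓ LinearMap.ker (locTotal (extArithLoc S) M)).comap
          (continuousH1S S M).subtype := by
      ext x
      simp [LinearMap.domRestrict_apply]
    rw [h1]
    exact (Submodule.comapSubtypeEquivOfLe (inf_le_left :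
      continuousH1S S M ⊓ LinearMap.ker (locTotal (extArithLoc S) M) ≤ continuousH1S S M)).finrank_eq
  rw [hr, hk] at h
  unfold a1 r1 h1 sha₁
  omega

end Defs

/-! ### The soft input statements -/

/-- DUAL-CLOSED. The class of modules of the frozen statement is stable under `M ↦ M'`
(`p ∈ S`, so the cyclotomic character is unramified outside `S`). -/
def Stmt_DualClosed : Prop :=
  ∀ {p : ℕ} [Fact p.Prime], p ≠ 2 → ∀ (S : Finset Nat.Primes), pPrime p ∈ S →
    ∀ (M : Rep.{0, 0, 0} (ZMod p) GQ), IsSMod S M → IsSMod S (dualT M)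

/-- FIN (one-sided). `H¹(G_S, M)` and `H²(G_S, M)` are finite-dimensional. -/
def Stmt_FinOne : Prop :=
  ∀ {p : ℕ} [Fact p.Prime], p ≠ 2 → ∀ (S : Finset Nat.Primes), pPrime p ∈ S →
    ∀ (M : Rep.{0, 0, 0} (ZMod p) GQ), IsSMod S M →
      FiniteDimensional (ZMod p) (continuousH1S S M) ∧
      FiniteDimensional (ZMod p) (continuousH2S S M)

/-- FIN. `H¹(G_S, -)` and `H²(G_S, -)` of `M` and of `M'` are finite-dimensional. -/
def Stmt_Fin : Prop :=
  ∀ {p : ℕ} [Fact p.Prime], p ≠ 2 → ∀ (S : Finset Nat.Primes), pPrime p ∈ S →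
    ∀ (M : Rep.{0, 0, 0} (ZMod p) GQ), IsSMod S M →
      FiniteDimensional (ZMod p) (continuousH1S S M) ∧
      FiniteDimensional (ZMod p) (continuousH2S S M) ∧
      FiniteDimensional (ZMod p) (continuousH1S S (dualT M)) ∧
      FiniteDimensional (ZMod p) (continuousH2S S (dualT M))

/-- Step A of #1621 (pair form): `a₁(M') ≤ a₂(M)` and `a₁(M) ≤ a₂(M')`. -/
def Stmt_A : Prop :=
  ∀ {p : ℕ} [Fact p.Prime], p ≠ 2 → ∀ (S : Finset Nat.Primes), pPrime p ∈ S →
    ∀ (M : Rep.{0, 0, 0} (ZMod p) GQ), IsSMod S M →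
      a1 S (dualT M) ≤ a2 S M ∧ a1 S M ≤ a2 S (dualT M)

/-- Step B of #1621 (pair form): `r₂(M) = π₂(M) - h⁰(M')` and `r₂(M') = π₂(M') - h⁰(M)`
(from (L2), reciprocity (R) and (GC)). -/
def Stmt_B : Prop :=
  ∀ {p : ℕ} [Fact p.Prime], p ≠ 2 → ∀ (S : Finset Nat.Primes), pPrime p ∈ S →
    ∀ (M : Rep.{0, 0, 0} (ZMod p) GQ), IsSMod S M →
      r2 S M + h0 (dualT M) = pi2 S M ∧ r2 S (dualT M) + h0 M = pi2 S (dualT M)

/-- Step C of #1621: `r₁(M) + r₁(M') ≤ π₁(M)` (the images of the global `H¹`'s are orthogonal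
for the nondegenerate sum of the local cup pairings (L3)). -/
def Stmt_C : Prop :=
  ∀ {p : ℕ} [Fact p.Prime], p ≠ 2 → ∀ (S : Finset Nat.Primes), pPrime p ∈ S →
    ∀ (M : Rep.{0, 0, 0} (ZMod p) GQ), IsSMod S M →
      r1 S M + r1 S (dualT M) ≤ pi1 S M

/-- Numerical form of (L2) used by step D: `π₂(M') = π₀(M)`. -/
def Stmt_L2num : Prop :=
  ∀ {p : ℕ} [Fact p.Prime], p ≠ 2 → ∀ (S : Finset Nat.Primes), pPrime p ∈ S →
    ∀ (M : Rep.{0, 0, 0} (ZMod p) GQ), IsSMod S M →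
      pi2 S (dualT M) = pi0 S M

/-- Step E of #1621 with `E*` of #1903 (II)(a): `χ(M) + χ(M') ≤ ∑_{q ∈ S} χ_q(M)`, written
without subtraction: `h⁰ + h² + h⁰' + h²' + π₁ ≤ h¹ + h¹' + π₀ + π₂`. -/
def Stmt_E : Prop :=
  ∀ {p : ℕ} [Fact p.Prime], p ≠ 2 → ∀ (S : Finset Nat.Primes), pPrime p ∈ S →
    ∀ (M : Rep.{0, 0, 0} (ZMod p) GQ), IsSMod S M →
      h0 M + h2 S M + h0 (dualT M) + h2 S (dualT M) + pi1 S M ≤
        h1 S M + h1 S (dualT M) + pi0 S M + pi2 S M

/-! ### Assembly -/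

/-- `Stmt_Fin` from the one-sided statement and stability of the class under duality. -/
theorem stmt_Fin_of (hD : Stmt_DualClosed) (hF : Stmt_FinOne) : Stmt_Fin := by
  intro p _ hp2 S hpS M hM
  obtain ⟨h1, h2⟩ := hF hp2 S hpS M hM
  obtain ⟨h3, h4⟩ := hF hp2 S hpS (dualT M) (hD hp2 S hpS M hM)
  exact ⟨h1, h2, h3, h4⟩

/-- The squeeze (step D of #1621 and the conclusion): under the soft inputs,
`a₂(M) = a₁(M')` and `a₂(M') = a₁(M)`. -/
theorem a2_eq_a1_dual (hFin : Stmt_Fin) (hA : Stmt_A) (hB : Stmt_B) (hC : Stmt_C)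
    (hL : Stmt_L2num) (hE : Stmt_E)
    {p : ℕ} [Fact p.Prime] (hp2 : p ≠ 2) (S : Finset Nat.Primes) (hpS : pPrime p ∈ S)
    (M : Rep.{0, 0, 0} (ZMod p) GQ) (hM : IsSMod S M) :
    a2 S M = a1 S (dualT M) ∧ a2 S (dualT M) = a1 S M := by
  obtain ⟨f1, f2, f3, f4⟩ := hFin hp2 S hpS M hM
  obtain ⟨hA1, hA2⟩ := hA hp2 S hpS M hM
  obtain ⟨hB1, hB2⟩ := hB hp2 S hpS M hM
  have hC' := hC hp2 S hpS M hM
  have hL' := hL hp2 S hpS M hM
  have hE' := hE hp2 S hpS M hM
  have e1 := a1_add_r1 S M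
  have e2 := a2_add_r2 S M
  have e3 := a1_add_r1 S (dualT M)
  have e4 := a2_add_r2 S (dualT M)
  omega

/-- TOP of the soft layer: the numerical form of S55 from the soft inputs. -/
theorem stmt_FinrankEq_of (hFin : Stmt_Fin) (hA : Stmt_A) (hB : Stmt_B) (hC : Stmt_C)
    (hL : Stmt_L2num) (hE : Stmt_E) : Fermat.Agent.S55.helper235.Stmt_FinrankEq := by
  intro p _ hp2 S hpS M _ hsm hMur
  have hM : IsSMod S M := ⟨inferInstance, hsm, hMur⟩
  obtain ⟨f1, f2, f3, f4⟩ := hFin hp2 S hpS M hM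
  have h := (a2_eq_a1_dual hFin hA hB hC hL hE hp2 S hpS M hM).1
  refine ⟨?_, ?_, h.symm⟩
  · exact Submodule.finiteDimensional_of_le
      (inf_le_left : sha₁ S (M.dualTwist (cycloChar p)) ≤ continuousH1S S (M.dualTwist (cycloChar p)))
  · exact FiniteDimensional.finiteDimensional_submodule _

/-- The frozen statement S55 from the soft inputs. -/
theorem s55_of_soft (hFin : Stmt_Fin) (hA : Stmt_A) (hB : Stmt_B) (hC : Stmt_C)
    (hL : Stmt_L2num) (hE : Stmt_E)
    {p : ℕ} [Fact p.Prime] (hp2 : p ≠ 2) (S : Finset Nat.Primes) (hpS : pPrime p ∈ S)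
    (M : Rep (ZMod p) (AlgebraicClosure ℚ ≃ₐ[ℚ] AlgebraicClosure ℚ))
    [FiniteDimensional (ZMod p) M]
    (hsm : ∀ m : M, ∃ F : IntermediateField ℚ (AlgebraicClosure ℚ), FiniteDimensional ℚ F ∧
      ∀ s ∈ F.fixingSubgroup, M.ρ s m = m)
    (hMur : ∀ q : Nat.Primes, q ∉ S → ∀ A : ValuationSubring (AlgebraicClosure ℚ),
      A.LiesOverPrime (q : ℕ) → ∀ g ∈ A.inertiaSubgroupIn ℚ, M.ρ g = 1) :
    ∃ B : sha₁ S (M.dualTwist (cycloChar p)) →ₗ[ZMod p] sha₂ S M →ₗ[ZMod p] ZMod p,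
      (∀ y, (∀ x, B y x = 0) → y = 0) ∧ (∀ x, (∀ y, B y x = 0) → x = 0) :=
  Fermat.Agent.S55.helper235.s55_of_finrankEq (stmt_FinrankEq_of hFin hA hB hC hL hE)
    hp2 S hpS M hsm hMur

end Fermat.Agent.S55.helper2945
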