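import Mathlib
import Fermat.Prelude.Def_GroupCohomology_ContinuousUnramified
import Fermat.Agent.S55.helper4039_SField

set_option autoImplicit false

/-!
Splitting fields of `S`-modules, in the frozen vocabulary of S55.

For a finitely generated module `V` with a smooth action `ρ` of `G_ℚ` (the frozen hypothesis
`hsm`) that is unramified outside `S` (the frozen hypothesis `hMur`):

* `exists_finite_level_of_smooth` : a single finite level trivialises `ρ`;
* `exists_splitting_sfield` : the fixed field `K` of `ker ρ` is a finite Galois extension of `ℚ`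
  unramified outside `S` with `K.fixingSubgroup = ker ρ`;
* `exists_galois_sfield_trivializing` : a finite Galois `S`-field containing `μ_p` and
  trivialising `ρ` and the mod `p` cyclotomic character (when `p ∈ S`);
* `cycloChar_eq_one_iff`, `cycloChar_eq_one_of_mem_inertiaSubgroupIn`;
* `finiteIndex_fixingSubgroup`, `isOpen_of_fixingSubgroup_le`.
-/

namespace Fermat.Agent.S55.helper4039

open ExtCitation ValuationSubring IntermediateField
open Fermat.Agent.S05.helper4205

local notation "Qb" => AlgebraicClosure ℚ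
local notation "GQ" => (AlgebraicClosure ℚ ≃ₐ[ℚ] AlgebraicClosure ℚ)

theorem isGalois_Qbar : IsGalois ℚ Qb :=
  haveI := isAlgClosure_Qbar
  inferInstance

/-- The fixing subgroup of a finite extension has finite index in `G_ℚ`. -/
theorem finiteIndex_fixingSubgroup (F : IntermediateField ℚ Qb) [FiniteDimensional ℚ F] :
    F.fixingSubgroup.FiniteIndex := by
  haveI := isGalois_Qbar
  haveI : Finite (GQ ⧸ F.fixingSubgroup) :=
    Subgroup.quotient_finite_of_isOpen _ F.fixingSubgroup_isOpen
  exact Subgroup.finiteIndex_of_finite_quotient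

/-- A subgroup containing the fixing subgroup of a finite extension is open. -/
theorem isOpen_of_fixingSubgroup_le {F : IntermediateField ℚ Qb} [FiniteDimensional ℚ F]
    {N : Subgroup GQ} (h : F.fixingSubgroup ≤ N) : IsOpen (N : Set GQ) :=
  Subgroup.isOpen_mono h F.fixingSubgroup_isOpen

/-- For a subgroup `N` containing the fixing subgroup of a finite extension (an open subgroup),
the fixing subgroup of the fixed field of `N` is `N`. -/
theorem fixingSubgroup_fixedField_of_le {F : IntermediateField ℚ Qb} [FiniteDimensional ℚ F]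
    {N : Subgroup GQ} (h : F.fixingSubgroup ≤ N) :
    (IntermediateField.fixedField N).fixingSubgroup = N := by
  haveI := isGalois_Qbar
  have hcl : IsClosed (N : Set GQ) := Subgroup.isClosed_of_isOpen N (isOpen_of_fixingSubgroup_le h)
  exact InfiniteGalois.fixingSubgroup_fixedField (⟨N, hcl⟩ : ClosedSubgroup GQ)

/-- The fixed field of a subgroup containing the fixing subgroup of `F` is contained in `F`. -/
theorem fixedField_le_of_le {F : IntermediateField ℚ Qb}
    {N : Subgroup GQ} (h : F.fixingSubgroup ≤ N) :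
    IntermediateField.fixedField N ≤ F := by
  haveI := isGalois_Qbar
  have h1 : IntermediateField.fixedField N ≤ IntermediateField.fixedField F.fixingSubgroup :=
    IntermediateField.fixedField_antitone h
  rwa [InfiniteGalois.fixedField_fixingSubgroup] at h1

/-- The fixed field of a normal subgroup is stable under all automorphisms. -/
theorem map_fixedField_of_normal (N : Subgroup GQ) [N.Normal] (τ : GQ) :
    (IntermediateField.fixedField N).map (τ : Qb →ₐ[ℚ] Qb) = IntermediateField.fixedField N := by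
  have key : ∀ σ : GQ, (IntermediateField.fixedField N).map (σ : Qb →ₐ[ℚ] Qb)
      ≤ IntermediateField.fixedField N := by
    intro σ y hy
    rw [IntermediateField.mem_map] at hy
    obtain ⟨x, hx, rfl⟩ := hy
    rw [IntermediateField.mem_fixedField_iff] at hx ⊢
    intro n hn
    have h1 : σ⁻¹ * n * σ ∈ N := by
      have := Subgroup.Normal.conj_mem ‹N.Normal› n hn σ⁻¹
      rwa [inv_inv] at this
    have h2 := hx _ h1
    have h3 : σ ((σ⁻¹ * n * σ) x) = n (σ x) := by
      show σ (σ.symm (n (σ x))) = n (σ x)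
      rw [AlgEquiv.apply_symm_apply]
    rw [h2] at h3
    exact h3.symm
  refine le_antisymm (key τ) ?_
  intro y hy
  have h1 : τ⁻¹ y ∈ IntermediateField.fixedField N :=
    key τ⁻¹ ((IntermediateField.mem_map _).2 ⟨y, hy, rfl⟩)
  rw [IntermediateField.mem_map]
  refine ⟨τ⁻¹ y, h1, ?_⟩
  show τ (τ.symm y) = y
  rw [AlgEquiv.apply_symm_apply]

section Rep

variable {S : Finset Nat.Primes}
variable {k V : Type*} [CommSemiring k] [AddCommMonoid V] [Module k V]

/-- Finitely many smooth vectors are fixed by a common finite level. -/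
theorem exists_finite_level_of_finset (ρ : Representation k GQ V)
    (hsm : ∀ m : V, ∃ F : IntermediateField ℚ Qb, FiniteDimensional ℚ F ∧
      ∀ s ∈ F.fixingSubgroup, ρ s m = m) (T : Finset V) :
    ∃ F : IntermediateField ℚ Qb, FiniteDimensional ℚ F ∧
      ∀ s ∈ F.fixingSubgroup, ∀ t ∈ T, ρ s t = t := by
  classical
  induction T using Finset.induction_on with
  | empty => exact ⟨⊥, inferInstance, fun _ _ t ht => absurd ht (Finset.notMem_empty t)⟩
  | insert a T _ ih =>
    obtain ⟨F, hF, h⟩ := ih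
    obtain ⟨F', hF', h'⟩ := hsm a
    refine ⟨F ⊔ F', IntermediateField.finiteDimensional_sup F F', fun s hs t ht => ?_⟩
    rw [IntermediateField.fixingSubgroup_sup] at hs
    rcases Finset.mem_insert.1 ht with rfl | ht
    · exact h' s hs.2
    · exact h s hs.1 t ht

/-- A smooth action on a finitely generated module is trivial on a finite level. -/
theorem exists_finite_level_of_smooth [Module.Finite k V] (ρ : Representation k GQ V)
    (hsm : ∀ m : V, ∃ F : IntermediateField ℚ Qb, FiniteDimensional ℚ F ∧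
      ∀ s ∈ F.fixingSubgroup, ρ s m = m) :
    ∃ F : IntermediateField ℚ Qb, FiniteDimensional ℚ F ∧ ∀ s ∈ F.fixingSubgroup, ρ s = 1 := by
  obtain ⟨T, hT⟩ := (Module.Finite.fg_top : (⊤ : Submodule k V).FG)
  obtain ⟨F, hF, h⟩ := exists_finite_level_of_finset ρ hsm T
  refine ⟨F, hF, fun s hs => ?_⟩
  apply LinearMap.ext_on_range (v := fun t : T => (t : V))
  · rw [Subtype.range_coe_subtype]
    exact hT
  · intro t
    exact h s hs t t.2

/-- **Splitting field of an `S`-module.** The fixed field `K` of `ker ρ` is unramified outside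
`S`, stable under all automorphisms, and `K.fixingSubgroup = ker ρ`. -/
theorem exists_splitting_sfield [Module.Finite k V] (ρ : Representation k GQ V)
    (hsm : ∀ m : V, ∃ F : IntermediateField ℚ Qb, FiniteDimensional ℚ F ∧
      ∀ s ∈ F.fixingSubgroup, ρ s m = m)
    (hMur : ∀ q : Nat.Primes, q ∉ S → ∀ A : ValuationSubring Qb,
      A.LiesOverPrime (q : ℕ) → ∀ g ∈ A.inertiaSubgroupIn ℚ, ρ g = 1) :
    ∃ K : IntermediateField ℚ Qb, K.IsUnramifiedOutside S ∧
      (∀ τ : GQ, K.map (τ : Qb →ₐ[ℚ] Qb) = K) ∧ K.fixingSubgroup.Normal ∧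
      K.fixingSubgroup.FiniteIndex ∧ ∀ s : GQ, s ∈ K.fixingSubgroup ↔ ρ s = 1 := by
  obtain ⟨F, hF, hFρ⟩ := exists_finite_level_of_smooth ρ hsm
  set N : Subgroup GQ := MonoidHom.ker (ρ : GQ →* (V →ₗ[k] V)) with hN
  have hmemN : ∀ s : GQ, s ∈ N ↔ ρ s = 1 := fun s => MonoidHom.mem_ker
  have hle : F.fixingSubgroup ≤ N := fun s hs => (hmemN s).2 (hFρ s hs)
  have hfix : (IntermediateField.fixedField N).fixingSubgroup = N :=
    fixingSubgroup_fixedField_of_le hle
  have hKF : IntermediateField.fixedField N ≤ F := fixedField_le_of_le hle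
  have hfd : FiniteDimensional ℚ (IntermediateField.fixedField N) :=
    FiniteDimensional.of_injective (IntermediateField.inclusion hKF).toLinearMap
      (IntermediateField.inclusion_injective hKF)
  haveI : N.Normal := MonoidHom.normal_ker _
  have hmap := map_fixedField_of_normal N
  refine ⟨IntermediateField.fixedField N, ⟨hfd, fun q hq A hA σ hσ => ?_⟩, hmap,
    normal_fixingSubgroup_of_map_eq hmap, finiteIndex_fixingSubgroup _, fun s => ?_⟩
  · rw [hfix, hmemN]
    exact hMur q hq A hA σ hσ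
  · rw [hfix, hmemN]

end Rep

section Cyclo

variable (p : ℕ) [Fact p.Prime]

/-- The mod `p` cyclotomic character of `σ` is trivial iff `σ` fixes all `p`-th roots of unity. -/
theorem cycloChar_eq_one_iff (σ : GQ) :
    cycloChar p σ = 1 ↔ ∀ ζ : Qb, ζ ^ p = 1 → σ ζ = ζ := by
  haveI : NeZero p := ⟨(Fact.out : p.Prime).ne_zero⟩
  haveI : Fact (1 < p) := ⟨(Fact.out : p.Prime).one_lt⟩
  have hdef : cycloChar p σ = modularCyclotomicCharacter Qb (card_rootsOfUnity_eq_self p)
      (σ : Qb ≃+* Qb) := rfl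
  constructor
  · intro h ζ hζ
    have hζ0 : ζ ≠ 0 := by
      rintro rfl
      rw [zero_pow (Fact.out : p.Prime).ne_zero] at hζ
      exact zero_ne_one hζ
    have ht : Units.mk0 ζ hζ0 ∈ rootsOfUnity p Qb := by
      rw [mem_rootsOfUnity]
      ext
      simpa using hζ
    have := modularCyclotomicCharacter.spec Qb (card_rootsOfUnity_eq_self p) (σ : Qb ≃+* Qb) ht
    rw [← hdef, h, Units.val_one, ZMod.val_one, pow_one] at this
    simpa using this
  · intro h
    have hc : ∀ t ∈ rootsOfUnity p Qb, (σ : Qb ≃+* Qb) (t : Qb) = ((t ^ (1 : ZMod p).val : Qbˣ) : Qb) := by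
      intro t ht
      rw [ZMod.val_one, pow_one]
      rw [mem_rootsOfUnity] at ht
      have : (t : Qb) ^ p = 1 := by
        have := congrArg (fun u : Qbˣ => (u : Qb)) ht
        simpa using this
      exact h _ this
    have := modularCyclotomicCharacter.unique Qb (card_rootsOfUnity_eq_self p) (σ : Qb ≃+* Qb)
      (c := 1) hc
    rw [← hdef] at this
    exact Units.ext this.symm

/-- Inertia at a prime `q ≠ p` fixes the `p`-th roots of unity. -/
theorem apply_eq_self_of_mem_inertia_of_pow_eq_one {q : ℕ} (hq : q.Prime) (hqp : q ≠ p)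
    {A : ValuationSubring Qb} (hA : A.LiesOverPrime q) {σ : GQ}
    (hσ : σ ∈ A.inertiaSubgroupIn ℚ) {ζ : Qb} (hζ : ζ ^ p = 1) : σ ζ = ζ := by
  have hp : p.Prime := Fact.out
  have hmv : A.valuation ((p : ℕ) : Qb) = 1 :=
    valuation_natCast_eq_one hq hA (fun h => hqp ((Nat.prime_dvd_prime_iff_eq hq hp).1 h))
  have hζv : A.valuation ζ = 1 := by
    have h1 : A.valuation ζ ^ p = 1 := by rw [← map_pow, hζ, map_one]
    exact (pow_eq_one_iff_of_nonneg zero_le hp.ne_zero).1 h1
  exact apply_eq_self_of_pow_fixed hσ hmv hζv (by rw [hζ, map_one])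

/-- The mod `p` cyclotomic character is trivial on inertia at primes `q ≠ p`. -/
theorem cycloChar_eq_one_of_mem_inertiaSubgroupIn {q : ℕ} (hq : q.Prime) (hqp : q ≠ p)
    {A : ValuationSubring Qb} (hA : A.LiesOverPrime q) {σ : GQ}
    (hσ : σ ∈ A.inertiaSubgroupIn ℚ) : cycloChar p σ = 1 :=
  (cycloChar_eq_one_iff p σ).2 fun _ hζ =>
    apply_eq_self_of_mem_inertia_of_pow_eq_one p hq hqp hA hσ hζ

variable {S : Finset Nat.Primes}

/-- The mod `p` cyclotomic character is trivial on inertia outside `S` when `p ∈ S`. -/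
theorem cycloChar_eq_one_of_mem_inertia_of_not_mem (hpS : pPrime p ∈ S) {q : Nat.Primes}
    (hq : q ∉ S) {A : ValuationSubring Qb} (hA : A.LiesOverPrime (q : ℕ)) {σ : GQ}
    (hσ : σ ∈ A.inertiaSubgroupIn ℚ) : cycloChar p σ = 1 := by
  refine cycloChar_eq_one_of_mem_inertiaSubgroupIn p q.2 ?_ hA hσ
  intro h
  apply hq
  have : q = pPrime p := Subtype.ext h
  rw [this]
  exact hpS

/-- A primitive `p`-th root of unity exists in `AlgebraicClosure ℚ`. -/
theorem exists_isPrimitiveRoot_Qbar : ∃ ζ : Qb, IsPrimitiveRoot ζ p := by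
  haveI : NeZero (p : Qb) := ⟨Nat.cast_ne_zero.2 (Fact.out : p.Prime).ne_zero⟩
  exact HasEnoughRootsOfUnity.exists_primitiveRoot Qb p

/-- **One-stop splitting field.** For a smooth, unramified-outside-`S` action on a finitely
generated module and `p ∈ S`, there is a finite extension `K` of `ℚ`, unramified outside `S`,
stable under all automorphisms (i.e. Galois over `ℚ`), containing the `p`-th roots of unity,
whose fixing subgroup (normal, of finite index) acts trivially through `ρ` and through the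
mod `p` cyclotomic character. -/
theorem exists_galois_sfield_trivializing (hpS : pPrime p ∈ S)
    {k V : Type*} [CommSemiring k] [AddCommMonoid V] [Module k V] [Module.Finite k V]
    (ρ : Representation k GQ V)
    (hsm : ∀ m : V, ∃ F : IntermediateField ℚ Qb, FiniteDimensional ℚ F ∧
      ∀ s ∈ F.fixingSubgroup, ρ s m = m)
    (hMur : ∀ q : Nat.Primes, q ∉ S → ∀ A : ValuationSubring Qb,
      A.LiesOverPrime (q : ℕ) → ∀ g ∈ A.inertiaSubgroupIn ℚ, ρ g = 1) :
    ∃ K : IntermediateField ℚ Qb, K.IsUnramifiedOutside S ∧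
      (∀ τ : GQ, K.map (τ : Qb →ₐ[ℚ] Qb) = K) ∧ K.fixingSubgroup.Normal ∧
      K.fixingSubgroup.FiniteIndex ∧ (∀ s ∈ K.fixingSubgroup, ρ s = 1) ∧
      (∀ s ∈ K.fixingSubgroup, cycloChar p s = 1) ∧ (∀ ζ : Qb, ζ ^ p = 1 → ζ ∈ K) := by
  obtain ⟨K₀, hK₀, -, -, -, hK₀ρ⟩ := exists_splitting_sfield (S := S) ρ hsm hMur
  obtain ⟨ζ₀, hζ₀⟩ := exists_isPrimitiveRoot_Qbar p
  have hm : ∀ q : Nat.Primes, (q : ℕ) ∣ p → q ∈ S := by
    intro q hq
    have : q = pPrime p :=
      Subtype.ext ((Nat.prime_dvd_prime_iff_eq q.2 (Fact.out : p.Prime)).1 hq)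
    rw [this]
    exact hpS
  have hK₁ := isUnramifiedOutside_sup_adjoin_of_pow_eq_one hK₀ hm hζ₀.pow_eq_one
  obtain ⟨K, hle, hK, hmap, hnorm⟩ := exists_normal_ge hK₁
  have hfd := hK.1
  have hζK : ζ₀ ∈ K := hle (le_sup_right (a := K₀)
    (IntermediateField.mem_adjoin_simple_self ℚ ζ₀))
  have hroots : ∀ ζ : Qb, ζ ^ p = 1 → ζ ∈ K := by
    intro ζ hζ
    haveI : NeZero p := ⟨(Fact.out : p.Prime).ne_zero⟩
    obtain ⟨i, -, rfl⟩ := hζ₀.eq_pow_of_pow_eq_one hζ
    exact pow_mem hζK i
  refine ⟨K, hK, hmap, hnorm, finiteIndex_fixingSubgroup K, fun s hs => ?_, fun s hs => ?_,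
    hroots⟩
  · exact (hK₀ρ s).1 (IntermediateField.fixingSubgroup_antitone (le_sup_left.trans hle) hs)
  · rw [cycloChar_eq_one_iff]
    intro ζ hζ
    exact (IntermediateField.mem_fixingSubgroup_iff K s).1 hs ζ (hroots ζ hζ)

/-- The frozen-shape version for `M : Rep (ZMod p) G_ℚ` (hypotheses exactly as in S55). -/
theorem exists_galois_sfield_trivializing_rep (hpS : pPrime p ∈ S)
    (M : Rep (ZMod p) GQ) [FiniteDimensional (ZMod p) M]
    (hsm : ∀ m : M, ∃ F : IntermediateField ℚ Qb, FiniteDimensional ℚ F ∧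
      ∀ s ∈ F.fixingSubgroup, M.ρ s m = m)
    (hMur : ∀ q : Nat.Primes, q ∉ S → ∀ A : ValuationSubring Qb,
      A.LiesOverPrime (q : ℕ) → ∀ g ∈ A.inertiaSubgroupIn ℚ, M.ρ g = 1) :
    ∃ K : IntermediateField ℚ Qb, K.IsUnramifiedOutside S ∧
      (∀ τ : GQ, K.map (τ : Qb →ₐ[ℚ] Qb) = K) ∧ K.fixingSubgroup.Normal ∧
      K.fixingSubgroup.FiniteIndex ∧ (∀ s ∈ K.fixingSubgroup, M.ρ s = 1) ∧
      (∀ s ∈ K.fixingSubgroup, cycloChar p s = 1) ∧ (∀ ζ : Qb, ζ ^ p = 1 → ζ ∈ K) :=
  exists_galois_sfield_trivializing p hpS M.ρ hsm hMur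

end Cyclo

end Fermat.Agent.S55.helper4039
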