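import Mathlib

/-!
# S55-SYLOW: p-Sylow devissage of `F_p[G]`-modules

Pure representation theory (Mathlib only).

* `exists_fixed_ne_zero` : a group all of whose elements act with `p`-power order on a nonzero
  finite `ZMod p`-module has a nonzero fixed vector.
-/

set_option autoImplicit false

open CategoryTheory

namespace Fermat.Agent.S55.helper5178

section FixedVector

variable {p : ℕ} [Fact p.Prime]

/-- **(SY1)** If every element of `H` acts with `p`-power order on a nonzero finite
`ZMod p`-module `V`, then `V` has a nonzero `H`-fixed vector. -/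
theorem exists_fixed_ne_zero {H : Type*} [Group H] {V : Type*} [AddCommGroup V]
    [Module (ZMod p) V] [Module.Finite (ZMod p) V] [Nontrivial V]
    (ρ : Representation (ZMod p) H V) (hp : ∀ h : H, ∃ n : ℕ, ρ h ^ p ^ n = 1) :
    ∃ v : V, v ≠ 0 ∧ ∀ h, ρ h v = v := by
  classical
  have : Finite V := Module.finite_of_finite (ZMod p)
  have : Finite (V →ₗ[ZMod p] V) := Finite.of_injective _ DFunLike.coe_injective
  have : Finite (V →ₗ[ZMod p] V)ˣ := Finite.of_injective _ Units.val_injective
  let Γ : Subgroup (V →ₗ[ZMod p] V)ˣ := ρ.asGroupHom.range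
  have hΓ : IsPGroup p Γ := by
    rintro ⟨γ, h, rfl⟩
    obtain ⟨n, hn⟩ := hp h
    refine ⟨n, Subtype.ext (Units.ext ?_)⟩
    simpa [Representation.asGroupHom_apply] using hn
  have hcard : p ∣ Nat.card V := by
    obtain ⟨n, hn⟩ : ∃ n : ℕ, Nat.card V = p ^ n := by
      refine ⟨Module.finrank (ZMod p) V, ?_⟩
      rw [Module.natCard_eq_pow_finrank (K := ZMod p) (V := V), Nat.card_zmod]
    rcases n with _ | n
    · exfalso
      rw [pow_zero] at hn
      have : Subsingleton V := (Nat.card_eq_one_iff_unique.1 hn).1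
      exact not_subsingleton V this
    · rw [hn, pow_succ]; exact dvd_mul_left _ _
  have h0 : (0 : V) ∈ MulAction.fixedPoints Γ V := by
    rintro ⟨γ, h, rfl⟩
    show (ρ.asGroupHom h : V →ₗ[ZMod p] V) 0 = 0
    simp
  obtain ⟨b, hb, hb0⟩ := hΓ.exists_fixed_point_of_prime_dvd_card_of_fixed_point V hcard h0
  refine ⟨b, fun h => hb0 h.symm, fun h => ?_⟩
  have := hb ⟨ρ.asGroupHom h, h, rfl⟩
  have h2 : (⟨ρ.asGroupHom h, h, rfl⟩ : Γ) • b = ρ h b := by
    show ((ρ.asGroupHom h : (V →ₗ[ZMod p] V)ˣ) : V →ₗ[ZMod p] V) b = ρ h b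
    rw [Representation.asGroupHom_apply]
  rw [← h2]; exact this

end FixedVector

section Unipotent

variable {p : ℕ} [Fact p.Prime] {H : Type} [Group H]

/-- Every element of the group acts with `p`-power order. -/
def IsPPower (p : ℕ) {H : Type} [Group H] (W : Rep (ZMod p) H) : Prop :=
  ∀ h : H, ∃ n : ℕ, W.ρ (h ^ p ^ n) = 1

lemma quotient_ρ_eq_one (W : Rep (ZMod p) H) (L : Submodule (ZMod p) W)
    (hL : ∀ g, L ≤ L.comap (W.ρ g)) {t : H} (ht : W.ρ t = 1) :
    (W.quotient L hL).ρ t = 1 := by
  apply LinearMap.ext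
  intro x
  obtain ⟨x, rfl⟩ := Submodule.Quotient.mk_surjective L x
  show Submodule.mapQ L L (W.ρ t) (hL t) (Submodule.Quotient.mk x) = Submodule.Quotient.mk x
  rw [Submodule.mapQ_apply, ht]
  rfl

/-- One step of the unipotent filtration: a nonzero `p`-power representation contains a trivial
line. -/
theorem exists_trivial_line (W : Rep (ZMod p) H) [Module.Finite (ZMod p) W] [Nontrivial W]
    (hW : IsPPower p W) :
    ∃ (W' : Rep (ZMod p) H) (i : Rep.trivial (ZMod p) H (ZMod p) ⟶ W) (q : W ⟶ W'),
      Module.Finite (ZMod p) W' ∧ Module.finrank (ZMod p) W' < Module.finrank (ZMod p) W ∧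
      (∀ t : H, W.ρ t = 1 → W'.ρ t = 1) ∧
      Function.Injective i.hom ∧ Function.Surjective q.hom ∧ Function.Exact i.hom q.hom := by
  obtain ⟨v, hv0, hv⟩ := exists_fixed_ne_zero (p := p) W.ρ (fun h => by
    obtain ⟨n, hn⟩ := hW h
    exact ⟨n, by rw [← map_pow]; exact hn⟩)
  let L : Submodule (ZMod p) W := Submodule.span (ZMod p) {v}
  have hL : ∀ g, L ≤ L.comap (W.ρ g) := by
    intro g x hx
    obtain ⟨c, rfl⟩ := Submodule.mem_span_singleton.1 hx
    rw [Submodule.mem_comap, map_smul, hv g]
    exact Submodule.smul_mem _ _ (Submodule.mem_span_singleton_self v)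
  let i : Rep.trivial (ZMod p) H (ZMod p) ⟶ W :=
    Rep.ofHom ⟨LinearMap.toSpanSingleton (ZMod p) W v, fun g => by
      apply LinearMap.ext
      intro c
      simp [hv g]⟩
  refine ⟨W.quotient L hL, i, W.mkQ L hL, ?_, ?_, fun t ht => quotient_ρ_eq_one W L hL ht,
    ?_, ?_, ?_⟩
  · exact inferInstanceAs (Module.Finite (ZMod p) (W ⧸ L))
  · have h1 : Module.finrank (ZMod p) L = 1 := finrank_span_singleton hv0
    have h2 := Submodule.finrank_quotient_add_finrank L
    show Module.finrank (ZMod p) (W ⧸ L) < Module.finrank (ZMod p) W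
    omega
  · intro a b hab
    have : a • v = b • v := hab
    exact smul_left_injective (ZMod p) hv0 this
  · exact Submodule.Quotient.mk_surjective L
  · intro x
    show (Submodule.Quotient.mk x : W ⧸ L) = 0 ↔ x ∈ Set.range fun c : ZMod p => c • v
    rw [Submodule.Quotient.mk_eq_zero, Submodule.mem_span_singleton]
    rfl

/-- **(SY2)** Unipotent induction: a property of `ZMod p`-representations of `H` that holds for
zero modules and passes from `W'` to any extension `0 → F_p → W → W' → 0` with trivial kernel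
holds for every finite `p`-power representation. The set `T` records elements acting
trivially (e.g. an open normal subgroup), so that the consumer stays inside its class. -/
theorem unipotent_induction (T : Set H) (Q : Rep (ZMod p) H → Prop)
    (hzero : ∀ W : Rep (ZMod p) H, Subsingleton W → Q W)
    (hstep : ∀ (W W' : Rep (ZMod p) H) (i : Rep.trivial (ZMod p) H (ZMod p) ⟶ W) (q : W ⟶ W'),
      Module.Finite (ZMod p) W → Module.Finite (ZMod p) W' →
      IsPPower p W → IsPPower p W' → (∀ t ∈ T, W.ρ t = 1) → (∀ t ∈ T, W'.ρ t = 1) →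
      Function.Injective i.hom → Function.Surjective q.hom → Function.Exact i.hom q.hom →
      Q W' → Q W)
    (W : Rep (ZMod p) H) [Module.Finite (ZMod p) W] (hW : IsPPower p W)
    (hT : ∀ t ∈ T, W.ρ t = 1) : Q W := by
  suffices key : ∀ (n : ℕ) (W : Rep (ZMod p) H), Module.Finite (ZMod p) W →
      Module.finrank (ZMod p) W = n → IsPPower p W → (∀ t ∈ T, W.ρ t = 1) → Q W from
    key _ W inferInstance rfl hW hT
  intro n
  induction n using Nat.strong_induction_on with
  | _ n ih =>
    intro W hfin hn hW hT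
    rcases subsingleton_or_nontrivial W with hs | hnt
    · exact hzero W hs
    · obtain ⟨W', i, q, hfin', hlt, htriv, hi, hq, hex⟩ := exists_trivial_line W hW
      have hW' : IsPPower p W' := fun h => by
        obtain ⟨m, hm⟩ := hW h
        exact ⟨m, htriv _ hm⟩
      have hT' : ∀ t ∈ T, W'.ρ t = 1 := fun t ht => htriv t (hT t ht)
      exact hstep W W' i q hfin hfin' hW hW' hT hT' hi hq hex
        (ih _ (hn ▸ hlt) W' hfin' rfl hW' hT')

lemma subrepresentation_ρ_eq_one (W : Rep (ZMod p) H) (L : Submodule (ZMod p) W)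
    (hL : ∀ g, L ≤ L.comap (W.ρ g)) {t : H} (ht : W.ρ t = 1) :
    (W.subrepresentation L hL).ρ t = 1 := by
  apply LinearMap.ext
  intro x
  apply Subtype.ext
  show W.ρ t x.1 = x.1
  rw [ht]
  rfl

/-- Dual step of the unipotent filtration: a nonzero `p`-power representation has a trivial
one-dimensional quotient. -/
theorem exists_trivial_quotient (W : Rep (ZMod p) H) [Module.Finite (ZMod p) W] [Nontrivial W]
    (hW : IsPPower p W) :
    ∃ (W' : Rep (ZMod p) H) (j : W' ⟶ W) (q : W ⟶ Rep.trivial (ZMod p) H (ZMod p)),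
      Module.Finite (ZMod p) W' ∧ Module.finrank (ZMod p) W' < Module.finrank (ZMod p) W ∧
      (∀ t : H, W.ρ t = 1 → W'.ρ t = 1) ∧
      Function.Injective j.hom ∧ Function.Surjective q.hom ∧ Function.Exact j.hom q.hom := by
  have hnt : Nontrivial (Module.Dual (ZMod p) W) := by
    apply Module.nontrivial_of_finrank_pos (R := ZMod p)
    rw [Subspace.dual_finrank_eq]
    exact Module.finrank_pos
  obtain ⟨l, hl0, hl⟩ := exists_fixed_ne_zero (p := p) W.ρ.dual (fun h => by
    obtain ⟨n, hn⟩ := hW h
    refine ⟨n, ?_⟩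
    rw [← map_pow, Representation.dual_apply]
    have h1 : W.ρ (h ^ p ^ n)⁻¹ = 1 := by
      have h2 : W.ρ (h ^ p ^ n)⁻¹ * W.ρ (h ^ p ^ n) = 1 := by
        rw [← map_mul, inv_mul_cancel, map_one]
      rwa [hn, mul_one] at h2
    rw [h1]
    apply LinearMap.ext
    intro f
    rfl)
  -- `l ∘ ρ g = l` for all `g`
  have hl' : ∀ (g : H) (x : W), l (W.ρ g x) = l x := by
    intro g x
    have := congrArg (fun f : Module.Dual (ZMod p) W => f x) (hl g⁻¹)
    simpa [Representation.dual_apply, Module.Dual.transpose_apply] using this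
  let K : Submodule (ZMod p) W := LinearMap.ker l
  have hK : ∀ g, K ≤ K.comap (W.ρ g) := by
    intro g x hx
    rw [Submodule.mem_comap, LinearMap.mem_ker, hl' g x]
    exact hx
  let q : W ⟶ Rep.trivial (ZMod p) H (ZMod p) :=
    Rep.ofHom ⟨l, fun g => by
      apply LinearMap.ext
      intro x
      exact hl' g x⟩
  refine ⟨W.subrepresentation K hK, W.subtype K hK, q, ?_, ?_,
    fun t ht => subrepresentation_ρ_eq_one W K hK ht, ?_, ?_, ?_⟩
  · exact inferInstanceAs (Module.Finite (ZMod p) K)
  · show Module.finrank (ZMod p) K < Module.finrank (ZMod p) W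
    apply Submodule.finrank_lt
    intro htop
    apply hl0
    apply LinearMap.ext
    intro x
    have : x ∈ K := htop ▸ Submodule.mem_top
    exact this
  · exact Subtype.val_injective
  · exact LinearMap.surjective_of_ne_zero hl0
  · intro x
    constructor
    · intro hx
      exact ⟨⟨x, hx⟩, rfl⟩
    · rintro ⟨y, rfl⟩
      exact y.2

/-- **(SY2')** Unipotent induction, quotient form: extensions `0 → W' → W → F_p → 0` with
trivial cokernel. -/
theorem unipotent_induction' (T : Set H) (Q : Rep (ZMod p) H → Prop)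
    (hzero : ∀ W : Rep (ZMod p) H, Subsingleton W → Q W)
    (hstep : ∀ (W W' : Rep (ZMod p) H) (j : W' ⟶ W) (q : W ⟶ Rep.trivial (ZMod p) H (ZMod p)),
      Module.Finite (ZMod p) W → Module.Finite (ZMod p) W' →
      IsPPower p W → IsPPower p W' → (∀ t ∈ T, W.ρ t = 1) → (∀ t ∈ T, W'.ρ t = 1) →
      Function.Injective j.hom → Function.Surjective q.hom → Function.Exact j.hom q.hom →
      Q W' → Q W)
    (W : Rep (ZMod p) H) [Module.Finite (ZMod p) W] (hW : IsPPower p W)
    (hT : ∀ t ∈ T, W.ρ t = 1) : Q W := by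
  suffices key : ∀ (n : ℕ) (W : Rep (ZMod p) H), Module.Finite (ZMod p) W →
      Module.finrank (ZMod p) W = n → IsPPower p W → (∀ t ∈ T, W.ρ t = 1) → Q W from
    key _ W inferInstance rfl hW hT
  intro n
  induction n using Nat.strong_induction_on with
  | _ n ih =>
    intro W hfin hn hW hT
    rcases subsingleton_or_nontrivial W with hs | hnt
    · exact hzero W hs
    · obtain ⟨W', j, q, hfin', hlt, htriv, hj, hq, hex⟩ := exists_trivial_quotient W hW
      have hW' : IsPPower p W' := fun h => by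
        obtain ⟨m, hm⟩ := hW h
        exact ⟨m, htriv _ hm⟩
      have hT' : ∀ t ∈ T, W'.ρ t = 1 := fun t ht => htriv t (hT t ht)
      exact hstep W W' j q hfin hfin' hW hW' hT hT' hj hq hex
        (ih _ (hn ▸ hlt) W' hfin' rfl hW' hT')

end Unipotent

section Coind

variable {k : Type} [CommRing k] {G : Type} [Group G] (H : Subgroup G)

/-- **(SY4a)** coinduction preserves injectivity. -/
theorem coindMap_injective {A B : Rep k H} (f : A ⟶ B) (hf : Function.Injective f.hom) :
    Function.Injective (Rep.coindMap H.subtype f).hom := by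
  intro x y hxy
  apply Subtype.ext
  funext g
  apply hf
  have := congrArg (fun z : Representation.coindV H.subtype B.ρ => z.1 g) hxy
  exact this

/-- **(SY4b)** coinduction from a subgroup preserves surjectivity. -/
theorem coindMap_surjective {A B : Rep k H} (f : A ⟶ B) (hf : Function.Surjective f.hom) :
    Function.Surjective (Rep.coindMap H.subtype f).hom := by
  have h1 : Epi f := (Rep.epi_iff_surjective f).2 hf
  have h2 : Epi ((Rep.coindFunctor k H.subtype).map f) := inferInstance
  exact (Rep.epi_iff_surjective _).1 h2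

/-- **(SY4c)** coinduction preserves exactness in the middle (left part of a short exact
sequence). -/
theorem coindMap_exact {A B C : Rep k H} (f : A ⟶ B) (g : B ⟶ C)
    (hf : Function.Injective f.hom) (hex : Function.Exact f.hom g.hom) :
    Function.Exact (Rep.coindMap H.subtype f).hom (Rep.coindMap H.subtype g).hom := by
  intro y
  constructor
  · intro hy
    have hy' : ∀ x : G, g.hom (y.1 x) = 0 := fun x =>
      congrArg (fun z : Representation.coindV H.subtype C.ρ => z.1 x) hy
    have hpre : ∀ x : G, ∃ a : A, f.hom a = y.1 x := fun x => (hex (y.1 x)).1 (hy' x)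
    choose a ha using hpre
    refine ⟨⟨a, fun h x => ?_⟩, ?_⟩
    · apply hf
      rw [ha, Rep.hom_comm_apply, ha]
      exact y.2 h x
    · apply Subtype.ext
      funext x
      exact ha x
  · rintro ⟨x, rfl⟩
    apply Subtype.ext
    funext t
    exact (hex _).2 ⟨x.1 t, rfl⟩

end Coind

section Summand

variable {k : Type} [CommRing k] {G : Type} [Group G] (H : Subgroup G) (M : Rep k G)

/-- The unit `m ↦ (g ↦ g • m)` of the restriction-coinduction adjunction, explicitly. -/
noncomputable def toCoind : M ⟶ Rep.coind H.subtype (Rep.res H.subtype M) :=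
  Rep.ofHom
    ⟨{ toFun := fun m => ⟨fun g => M.ρ g m, fun h g => by
          show M.ρ (H.subtype h * g) m = M.ρ (H.subtype h) (M.ρ g m)
          rw [map_mul]; rfl⟩
       map_add' := fun a b => by
          apply Subtype.ext; funext g; exact map_add (M.ρ g) a b
       map_smul' := fun c a => by
          apply Subtype.ext; funext g; exact map_smul (M.ρ g) c a },
     fun x => by
       apply LinearMap.ext
       intro m
       apply Subtype.ext
       funext g
       show M.ρ g (M.ρ x m) = M.ρ (g * x) m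
       rw [map_mul]; rfl⟩

@[simp] lemma toCoind_apply (m : M) (g : G) : ((toCoind H M).hom m).1 g = M.ρ g m := rfl

/-- `f ↦ g • f(g⁻¹)`, which only depends on the left coset `gH`. -/
noncomputable def avgAux (g : G) :
    Representation.coindV H.subtype (Rep.res H.subtype M).ρ →ₗ[k] M :=
  (M.ρ g) ∘ₗ (LinearMap.proj g⁻¹) ∘ₗ (Submodule.subtype _)

lemma avgAux_apply (g : G) (f : Representation.coindV H.subtype (Rep.res H.subtype M).ρ) :
    avgAux H M g f = M.ρ g (f.1 g⁻¹) := rfl

lemma avgAux_mul_right (g : G) (h : H) : avgAux H M (g * h) = avgAux H M g := by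
  apply LinearMap.ext
  intro f
  rw [avgAux_apply, avgAux_apply, mul_inv_rev]
  have h1 : f.1 ((h : G)⁻¹ * g⁻¹) = M.ρ (h : G)⁻¹ (f.1 g⁻¹) := f.2 h⁻¹ g⁻¹
  rw [h1, map_mul]
  show M.ρ g (M.ρ (h : G) (M.ρ (h : G)⁻¹ (f.1 g⁻¹))) = _
  rw [← Module.End.mul_apply (M.ρ (h : G)), ← map_mul, mul_inv_cancel, map_one]
  rfl

/-- The coset-wise averaging map. -/
noncomputable def avgQ (q : G ⧸ H) :
    Representation.coindV H.subtype (Rep.res H.subtype M).ρ →ₗ[k] M :=
  Quotient.liftOn' q (avgAux H M) (fun a b hab => by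
    rw [QuotientGroup.leftRel_apply] at hab
    have hb : b = a * ((⟨a⁻¹ * b, hab⟩ : H) : G) := by simp
    rw [hb]
    exact (avgAux_mul_right H M a ⟨a⁻¹ * b, hab⟩).symm)

lemma avgQ_mk (g : G) (f : Representation.coindV H.subtype (Rep.res H.subtype M).ρ) :
    avgQ H M (QuotientGroup.mk g) f = M.ρ g (f.1 g⁻¹) := rfl

lemma avgQ_smul (x : G) (q : G ⧸ H)
    (f : Representation.coindV H.subtype (Rep.res H.subtype M).ρ) :
    avgQ H M q ((Rep.coind H.subtype (Rep.res H.subtype M)).ρ x f) =
      M.ρ x (avgQ H M (x⁻¹ • q) f) := by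
  induction q using QuotientGroup.induction_on with
  | H g =>
    rw [MulAction.Quotient.smul_mk, avgQ_mk, avgQ_mk]
    show M.ρ g (f.1 (g⁻¹ * x)) = M.ρ x (M.ρ (x⁻¹ • g) (f.1 (x⁻¹ • g)⁻¹))
    rw [smul_eq_mul, mul_inv_rev, inv_inv, ← Module.End.mul_apply (M.ρ x), ← map_mul,
      mul_inv_cancel_left]

variable [Fintype (G ⧸ H)]

/-- Sum of the coset-wise averaging maps. -/
noncomputable def avg : Representation.coindV H.subtype (Rep.res H.subtype M).ρ →ₗ[k] M :=
  ∑ q : G ⧸ H, avgQ H M q

lemma avg_smul (x : G) (f : Representation.coindV H.subtype (Rep.res H.subtype M).ρ) :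
    avg H M ((Rep.coind H.subtype (Rep.res H.subtype M)).ρ x f) = M.ρ x (avg H M f) := by
  simp only [avg, LinearMap.sum_apply]
  rw [Finset.sum_congr rfl fun q _ => avgQ_smul H M x q f, ← map_sum]
  congr 1
  exact Equiv.sum_comp (MulAction.toPerm x⁻¹ : Equiv.Perm (G ⧸ H)) (fun q => avgQ H M q f)

lemma avg_toCoind (m : M) : avg H M ((toCoind H M).hom m) = (Fintype.card (G ⧸ H) : k) • m := by
  simp only [avg, LinearMap.sum_apply]
  have : ∀ q : G ⧸ H, avgQ H M q ((toCoind H M).hom m) = m := by
    intro q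
    induction q using QuotientGroup.induction_on with
    | H g =>
      rw [avgQ_mk, toCoind_apply, ← Module.End.mul_apply, ← map_mul, mul_inv_cancel, map_one]
      rfl
  rw [Finset.sum_congr rfl fun q _ => this q, Finset.sum_const, Finset.card_univ,
    Nat.cast_smul_eq_nsmul]

omit [Fintype (G ⧸ H)] in
/-- **(SY3)** If the index of `H` is invertible in `k`, the unit `toCoind` has an equivariant
retraction: `M` is a direct summand of `coind_H^G res_H M`. -/
theorem exists_retraction [H.FiniteIndex] (hc : IsUnit ((H.index : ℕ) : k)) :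
    ∃ π : Rep.coind H.subtype (Rep.res H.subtype M) ⟶ M,
      ∀ m : M, π.hom ((toCoind H M).hom m) = m := by
  classical
  have : Finite (G ⧸ H) := Subgroup.finite_quotient_of_finiteIndex
  let _ : Fintype (G ⧸ H) := Fintype.ofFinite _
  obtain ⟨u, hu⟩ := hc
  refine ⟨Rep.ofHom ⟨((↑u⁻¹ : k)) • avg H M, fun x => ?_⟩, fun m => ?_⟩
  · apply LinearMap.ext
    intro f
    show (↑u⁻¹ : k) • avg H M ((Rep.coind H.subtype (Rep.res H.subtype M)).ρ x f) =
      M.ρ x ((↑u⁻¹ : k) • avg H M f)
    rw [avg_smul, map_smul]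
  · show (↑u⁻¹ : k) • avg H M ((toCoind H M).hom m) = m
    have hcard : (Fintype.card (G ⧸ H) : k) = (u : k) := by
      rw [hu, ← Nat.card_eq_fintype_card]; rfl
    rw [avg_toCoind, smul_smul, hcard, Units.inv_mul, one_smul]

end Summand

section CoindBasics

variable {k : Type} [Field k] {G : Type} [Group G] (H : Subgroup G)

/-- Coinduction from a finite-index subgroup preserves finite-dimensionality. -/
theorem finite_coind [H.FiniteIndex] (A : Rep k H) [Module.Finite k A] :
    Module.Finite k (Rep.coind H.subtype A) := by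
  classical
  have : Finite (G ⧸ H) := Subgroup.finite_quotient_of_finiteIndex
  let r : G ⧸ H → G := Quotient.out
  let ev : Representation.coindV H.subtype A.ρ →ₗ[k] (G ⧸ H → A) :=
    (LinearMap.pi fun q => LinearMap.proj (r q)⁻¹) ∘ₗ Submodule.subtype _
  have hev : Function.Injective ev := by
    intro f f' hff
    apply Subtype.ext
    funext g
    set q : G ⧸ H := QuotientGroup.mk g⁻¹ with hq_def
    have hq : (r q)⁻¹ * g⁻¹ ∈ H :=
      QuotientGroup.leftRel_apply.1 (Quotient.exact' (Quotient.out_eq' q))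
    let h : H := ⟨g * r q, by simpa using H.inv_mem hq⟩
    have hg : g = (h : G) * (r q)⁻¹ := by simp [h]
    have e1 : f.1 ((h : G) * (r q)⁻¹) = A.ρ h (f.1 (r q)⁻¹) := f.2 h _
    have e2 : f'.1 ((h : G) * (r q)⁻¹) = A.ρ h (f'.1 (r q)⁻¹) := f'.2 h _
    have e3 : f.1 (r q)⁻¹ = f'.1 (r q)⁻¹ := congrFun hff q
    rw [hg, e1, e2, e3]
  exact Module.Finite.of_injective ev hev

/-- A normal subgroup `N ≤ H` acting trivially on `A` acts trivially on `coind_H^G A`. -/
theorem coind_ρ_eq_one (N : Subgroup G) [hN : N.Normal] (hNH : N ≤ H) (A : Rep k H)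
    (hA : ∀ (n : G) (hn : n ∈ N), A.ρ ⟨n, hNH hn⟩ = 1) {n : G} (hn : n ∈ N) :
    (Rep.coind H.subtype A).ρ n = 1 := by
  apply LinearMap.ext
  intro f
  apply Subtype.ext
  funext g
  show f.1 (g * n) = f.1 g
  have hc : g * n * g⁻¹ ∈ N := hN.conj_mem n hn g
  have e : g * n = ((⟨g * n * g⁻¹, hNH hc⟩ : H) : G) * g := by simp
  have e1 := f.2 ⟨g * n * g⁻¹, hNH hc⟩ g
  rw [e]
  refine e1.trans ?_
  rw [hA _ hc]
  rfl

theorem subsingleton_coind (A : Rep k H) (hA : Subsingleton A) :
    Subsingleton (Rep.coind H.subtype A) :=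
  ⟨fun _ _ => Subtype.ext (funext fun _ => Subsingleton.elim _ _)⟩

end CoindBasics

section Devissage

variable {p : ℕ} [Fact p.Prime] {G : Type} [Group G]

/-- The preimage in `G` of a Sylow `p`-subgroup of `G ⧸ N`. -/
theorem exists_sylow_preimage (N : Subgroup G) [N.Normal] [N.FiniteIndex] :
    ∃ H : Subgroup G, N ≤ H ∧ (∀ h ∈ H, ∃ n : ℕ, h ^ p ^ n ∈ N) ∧ ¬ p ∣ H.index := by
  have : Finite (G ⧸ N) := Subgroup.finite_quotient_of_finiteIndex
  let P : Sylow p (G ⧸ N) := default
  refine ⟨(P : Subgroup (G ⧸ N)).comap (QuotientGroup.mk' N), ?_, ?_, ?_⟩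
  · intro n hn
    rw [Subgroup.mem_comap]
    have : QuotientGroup.mk' N n = 1 := (QuotientGroup.eq_one_iff n).2 hn
    rw [this]
    exact Subgroup.one_mem _
  · intro h hh
    rw [Subgroup.mem_comap] at hh
    obtain ⟨n, hn⟩ := P.2 ⟨_, hh⟩
    refine ⟨n, ?_⟩
    have h1 : (QuotientGroup.mk' N h) ^ p ^ n = 1 := congrArg Subtype.val hn
    rw [← map_pow] at h1
    exact (QuotientGroup.eq_one_iff _).1 h1
  · rw [Subgroup.index_comap_of_surjective _ (QuotientGroup.mk'_surjective N)]
    exact P.not_dvd_index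

/-- **(SY5)** `p`-Sylow devissage. Let `N` be a normal subgroup of finite index of `G`. A property
`P` of `ZMod p`-representations of `G` which

* holds for zero modules,
* is closed under extensions (among finite `N`-trivial representations),
* passes to direct summands (given as a split short exact sequence `0 → X → B → A → 0`),
* holds for the permutation modules `coind_H^G F_p` for all `H ⊇ N` with `H/N` a `p`-group and
  `[G:H]` prime to `p`,

holds for every finite `N`-trivial representation. -/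
theorem sylow_devissage (N : Subgroup G) [N.Normal] [N.FiniteIndex]
    (P : Rep (ZMod p) G → Prop)
    (hzero : ∀ A : Rep (ZMod p) G, Subsingleton A → P A)
    (hext : ∀ (A B C : Rep (ZMod p) G) (f : A ⟶ B) (g : B ⟶ C),
      Module.Finite (ZMod p) A → Module.Finite (ZMod p) B → Module.Finite (ZMod p) C →
      (∀ n ∈ N, A.ρ n = 1) → (∀ n ∈ N, B.ρ n = 1) → (∀ n ∈ N, C.ρ n = 1) →
      Function.Injective f.hom → Function.Surjective g.hom → Function.Exact f.hom g.hom →
      P A → P C → P B)
    (hretract : ∀ (A B X : Rep (ZMod p) G) (j : X ⟶ B) (π : B ⟶ A) (i : A ⟶ B),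
      Module.Finite (ZMod p) A → Module.Finite (ZMod p) B → Module.Finite (ZMod p) X →
      (∀ n ∈ N, A.ρ n = 1) → (∀ n ∈ N, B.ρ n = 1) → (∀ n ∈ N, X.ρ n = 1) →
      Function.Injective j.hom → Function.Exact j.hom π.hom → (∀ a, π.hom (i.hom a) = a) →
      P B → P A)
    (hperm : ∀ H : Subgroup G, N ≤ H → (∀ h ∈ H, ∃ n : ℕ, h ^ p ^ n ∈ N) → ¬ p ∣ H.index →
      P (Rep.coind H.subtype (Rep.trivial (ZMod p) H (ZMod p))))
    (M : Rep (ZMod p) G) [Module.Finite (ZMod p) M] (hM : ∀ n ∈ N, M.ρ n = 1) : P M := by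
  obtain ⟨H, hNH, hHp, hidx⟩ := exists_sylow_preimage (p := p) N
  have hfi : H.FiniteIndex := Subgroup.finiteIndex_of_le hNH
  -- the restriction of `M` to `H`
  let W : Rep (ZMod p) H := Rep.res H.subtype M
  have hWfin : Module.Finite (ZMod p) W := inferInstanceAs (Module.Finite (ZMod p) M)
  let T : Set H := {t | (t : G) ∈ N}
  have hWT : ∀ t ∈ T, W.ρ t = 1 := fun t ht => hM _ ht
  have hWp : IsPPower p W := by
    intro h
    obtain ⟨n, hn⟩ := hHp h h.2
    exact ⟨n, hM _ (by simpa using hn)⟩
  -- step 1: `P (coind W)` by unipotent induction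
  have key : P (Rep.coind H.subtype W) := by
    refine unipotent_induction (p := p) T (fun W => P (Rep.coind H.subtype W))
      (fun W hW => hzero _ (subsingleton_coind H W hW)) ?_ W hWp hWT
    intro W W' i q hfW hfW' _ _ hTW hTW' hi hq hex hW'
    have hAt : ∀ (A : Rep (ZMod p) H), (∀ t ∈ T, A.ρ t = 1) →
        ∀ n ∈ N, (Rep.coind H.subtype A).ρ n = 1 := fun A hA n hn =>
      coind_ρ_eq_one H N hNH A (fun n hn => hA ⟨n, hNH hn⟩ hn) hn
    exact hext _ _ _ (Rep.coindMap H.subtype i) (Rep.coindMap H.subtype q)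
      (finite_coind H _) (finite_coind H W) (finite_coind H W')
      (hAt _ (fun t _ => rfl)) (hAt W hTW) (hAt W' hTW')
      (coindMap_injective H i hi) (coindMap_surjective H q hq) (coindMap_exact H i q hi hex)
      (hperm H hNH hHp hidx) hW'
  -- step 2: `M` is a direct summand of `coind W`
  have hunit : IsUnit ((H.index : ℕ) : ZMod p) := by
    rw [isUnit_iff_ne_zero, Ne, ZMod.natCast_eq_zero_iff]
    exact hidx
  obtain ⟨π, hπ⟩ := exists_retraction H M hunit
  have hB : ∀ n ∈ N, (Rep.coind H.subtype W).ρ n = 1 := fun n hn =>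
    coind_ρ_eq_one H N hNH W (fun n hn => hM n hn) hn
  have hBfin : Module.Finite (ZMod p) (Rep.coind H.subtype W) := finite_coind H W
  let K : Submodule (ZMod p) (Rep.coind H.subtype W) := LinearMap.ker π.hom.toLinearMap
  have hK : ∀ g, K ≤ K.comap ((Rep.coind H.subtype W).ρ g) := by
    intro g x hx
    rw [Submodule.mem_comap, LinearMap.mem_ker]
    have hx' : π.hom x = 0 := hx
    show π.hom ((Rep.coind H.subtype W).ρ g x) = 0
    rw [Rep.hom_comm_apply, hx', map_zero]
  refine hretract M (Rep.coind H.subtype W) ((Rep.coind H.subtype W).subrepresentation K hK)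
    ((Rep.coind H.subtype W).subtype K hK) π (toCoind H M) inferInstance hBfin ?_ hM hB ?_
    ?_ ?_ hπ key
  · exact inferInstanceAs (Module.Finite (ZMod p) K)
  · intro n hn
    apply LinearMap.ext
    intro x
    apply Subtype.ext
    show ((Rep.coind H.subtype W).ρ n) x.1 = x.1
    rw [hB n hn]
    rfl
  · exact Subtype.val_injective
  · intro x
    constructor
    · intro hx
      exact ⟨⟨x, hx⟩, rfl⟩
    · rintro ⟨y, rfl⟩
      exact y.2

end Devissage

end Fermat.Agent.S55.helper5178
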