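import Mathlib
import Fermat.Prelude.Def_GroupCohomology_ContinuousUnramified
import Fermat.Agent.S55.helper1702_Finite
import Fermat.Agent.S55.helper5178_Sylow
import Fermat.Agent.S55.helper4039_SModField
import Fermat.Agent.S55.helper3071_GlobalBridge
import Fermat.Agent.S55.helper2945_SoftSpec

/-!
# S55, leaf SOFT-FINITE (helper1702), part 2: finiteness of `continuousH2S` and `Stmt_FinOne`

* `isLevelConstantS₂_d₁₂`: for a module trivialised by an `S`-field, the coboundary of an
  `S`-level `1`-cochain is an `S`-level `2`-cochain.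
* `H2SMap`: functoriality of the frozen carrier `continuousH2S S -` in the coefficients, and
  `H2SMap_exact`: exactness at the middle term for a short exact sequence of coefficients.
* `finite_continuousH2S_of_subsingleton / _of_exact / _of_retract`: the three closure properties
  of the class of modules with finite `continuousH2S`.
* `finite_continuousH2S_of_perm`: Sylow devissage (`helper5178.sylow_devissage`): finiteness for
  all modules trivialised by a Galois `S`-field `K` follows from finiteness for the permutation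
  modules `coind_H 𝔽_p`, `H ⊇ Gal(ℚbar/K)` with `H / Gal(ℚbar/K)` a `p`-group.
* `finite_levelHomS_of_fieldH1`: adapter from the field-level `H¹` of the global bridge to the
  level characters of part 1.
* `stmt_FinOne_of`: `helper3071.Stmt_FieldFin → helper3071.Stmt_Shapiro → helper2945.Stmt_FinOne`.
-/

set_option autoImplicit false

noncomputable section

namespace Fermat.Agent.S55.helper1702

open groupCohomology ExtCitation CategoryTheory

local notation "Γℚ" => (AlgebraicClosure ℚ ≃ₐ[ℚ] AlgebraicClosure ℚ)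

/-! ## Coboundaries of level cochains -/

/-- For a module trivialised by a field unramified outside `S`, the coboundary of an `S`-level
`1`-cochain is an `S`-level `2`-cochain. -/
theorem isLevelConstantS₂_d₁₂ {k : Type} [CommRing k] (S : Finset Nat.Primes) (M : Rep k Γℚ)
    {K : IntermediateField ℚ (AlgebraicClosure ℚ)} (hK : K.IsUnramifiedOutside S)
    (hM : ∀ s ∈ K.fixingSubgroup, M.ρ s = 1) {x : Γℚ → M} (hx : IsLevelConstantS₁ S x) :
    IsLevelConstantS₂ S ((d₁₂ M).hom x) := by
  obtain ⟨F, hF, hxF⟩ := hx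
  obtain ⟨F', hle, hF', -, hnorm⟩ := helper4039.exists_normal_ge (hF.sup hK)
  refine ⟨F', hF', fun g g' s s' hs hs' => ?_⟩
  have hFF' : F'.fixingSubgroup ≤ F.fixingSubgroup :=
    IntermediateField.fixingSubgroup_antitone (le_sup_left.trans hle)
  have hKF' : F'.fixingSubgroup ≤ K.fixingSubgroup :=
    IntermediateField.fixingSubgroup_antitone (le_sup_right.trans hle)
  have hconj : g'⁻¹ * s * g' ∈ F'.fixingSubgroup := by
    have := hnorm.conj_mem s hs g'⁻¹
    simpa using this
  have e1 : x (g' * s') = x g' := hxF g' s' (hFF' hs')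
  have e2 : x (g * s) = x g := hxF g s (hFF' hs)
  have e3 : x (g * s * (g' * s')) = x (g * g') := by
    have : g * s * (g' * s') = g * g' * ((g'⁻¹ * s * g') * s') := by group
    rw [this]
    exact hxF _ _ (hFF' (mul_mem hconj hs'))
  have e4 : M.ρ (g * s) = M.ρ g := by rw [map_mul, hM s (hKF' hs), mul_one]
  show M.ρ (g * s) (x (g' * s')) - x (g * s * (g' * s')) + x (g * s) =
    M.ρ g (x g') - x (g * g') + x g
  rw [e1, e2, e3, e4]

/-! ## Functoriality of `continuousH2S` in the coefficients -/

section Functoriality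

variable {k : Type} [CommRing k] (S : Finset Nat.Primes) {A B C : Rep.{0, 0, 0} k Γℚ}

/-- Post-composition with a morphism of representations on `S`-level `2`-cocycles. -/
def levelCocyclesS₂Map (φ : A ⟶ B) : ↥(levelCocyclesS₂ S A) →ₗ[k] ↥(levelCocyclesS₂ S B) where
  toFun c := ⟨fun x => φ.hom (c.1 x), by
    obtain ⟨hc, hl⟩ := (mem_levelCocyclesS₂_iff S A _).1 c.2
    refine (mem_levelCocyclesS₂_iff S B _).2 ⟨?_, hl.comp (fun a => φ.hom a)⟩
    rw [mem_cocycles₂_iff] at hc ⊢
    intro g h j
    show φ.hom (c.1 (g * h, j)) + φ.hom (c.1 (g, h)) =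
      B.ρ g (φ.hom (c.1 (h, j))) + φ.hom (c.1 (g, h * j))
    rw [← map_add, hc g h j, map_add, Rep.hom_comm_apply]⟩
  map_add' c c' := by
    apply Subtype.ext
    funext x
    show φ.hom (c.1 x + c'.1 x) = φ.hom (c.1 x) + φ.hom (c'.1 x)
    rw [map_add]
  map_smul' a c := by
    apply Subtype.ext
    funext x
    show φ.hom (a • c.1 x) = a • φ.hom (c.1 x)
    rw [map_smul]

@[simp]
lemma levelCocyclesS₂Map_apply (φ : A ⟶ B) (c : ↥(levelCocyclesS₂ S A)) (x : Γℚ × Γℚ) :
    (levelCocyclesS₂Map S φ c).1 x = φ.hom (c.1 x) := rfl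

/-- The map induced on `continuousH2S S -` by a morphism of representations. -/
def H2SMap (φ : A ⟶ B) : continuousH2S S A →ₗ[k] continuousH2S S B :=
  Submodule.mapQ _ _ (levelCocyclesS₂Map S φ) (by
    intro c hc
    simp only [Submodule.mem_comap, Submodule.subtype_apply] at hc ⊢
    obtain ⟨x, hx, hxc⟩ := (mem_levelCoboundariesS₂_iff S A _).1 hc
    refine (mem_levelCoboundariesS₂_iff S B _).2
      ⟨fun g => φ.hom (x g), hx.comp (fun a => φ.hom a), ?_⟩
    funext ⟨g, h⟩
    have h1 := congrFun hxc (g, h)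
    have h2 : A.ρ g (x h) - x (g * h) + x g = c.1 (g, h) := h1
    show B.ρ g (φ.hom (x h)) - φ.hom (x (g * h)) + φ.hom (x g) = φ.hom (c.1 (g, h))
    rw [← h2, map_add, map_sub, Rep.hom_comm_apply])

@[simp]
lemma H2SMap_mk (φ : A ⟶ B) (c : ↥(levelCocyclesS₂ S A)) :
    H2SMap S φ (continuousH2Sπ S A c) = continuousH2Sπ S B (levelCocyclesS₂Map S φ c) := rfl

/-- Exactness of `continuousH2S S A → continuousH2S S B → continuousH2S S C` for a short exact
sequence `0 → A → B → C → 0` whose middle term is trivialised by an `S`-field. -/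
theorem H2SMap_exact (f : A ⟶ B) (g : B ⟶ C) (hf : Function.Injective f.hom)
    (hg : Function.Surjective g.hom) (hex : Function.Exact f.hom g.hom)
    {K : IntermediateField ℚ (AlgebraicClosure ℚ)} (hK : K.IsUnramifiedOutside S)
    (hB : ∀ s ∈ K.fixingSubgroup, B.ρ s = 1)
    (y : continuousH2S S B) (hy : H2SMap S g y = 0) : ∃ x, H2SMap S f x = y := by
  obtain ⟨b, rfl⟩ := Submodule.mkQ_surjective _ y
  have hgb : ((levelCocyclesS₂Map S g b : ↥(levelCocyclesS₂ S C)) : Γℚ × Γℚ → C) ∈
      levelCoboundariesS₂ S C := (continuousH2Sπ_eq_zero_iff S C _).1 hy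
  obtain ⟨c, hc, hcd⟩ := (mem_levelCoboundariesS₂_iff S C _).1 hgb
  let σ : C → B := Function.surjInv hg
  have hσ : ∀ z, g.hom (σ z) = z := Function.surjInv_eq hg
  let ct : Γℚ → B := fun t => σ (c t)
  have hct : IsLevelConstantS₁ S ct := hc.comp σ
  have hdl : IsLevelConstantS₂ S ((d₁₂ B).hom ct) := isLevelConstantS₂_d₁₂ S B hK hB hct
  have hdc : (d₁₂ B).hom ct ∈ cocycles₂ B := d₁₂_apply_mem_cocycles₂ ct
  let b' : Γℚ × Γℚ → B := b.1 - (d₁₂ B).hom ct
  have hb'Z : b' ∈ levelCocyclesS₂ S B :=
    Submodule.sub_mem _ b.2 ((mem_levelCocyclesS₂_iff S B _).2 ⟨hdc, hdl⟩)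
  have hgb' : ∀ x, g.hom (b' x) = 0 := by
    rintro ⟨u, v⟩
    have h1 : C.ρ u (c v) - c (u * v) + c u = g.hom (b.1 (u, v)) := congrFun hcd (u, v)
    show g.hom (b.1 (u, v) - (B.ρ u (σ (c v)) - σ (c (u * v)) + σ (c u))) = 0
    rw [map_sub, ← h1, map_add, map_sub, Rep.hom_comm_apply, hσ, hσ, hσ, sub_self]
  choose a ha using fun x => (hex (b' x)).1 (hgb' x)
  have haZ : a ∈ levelCocyclesS₂ S A := by
    obtain ⟨hb'c, F, hF, hb'l⟩ := (mem_levelCocyclesS₂_iff S B _).1 hb'Z
    refine (mem_levelCocyclesS₂_iff S A _).2 ⟨?_, F, hF, fun u v s s' hs hs' => hf ?_⟩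
    · rw [mem_cocycles₂_iff] at hb'c ⊢
      intro u v w
      apply hf
      rw [map_add, map_add, Rep.hom_comm_apply, ha, ha, ha, ha]
      exact hb'c u v w
    · rw [ha, ha]
      exact hb'l u v s s' hs hs'
  refine ⟨continuousH2Sπ S A ⟨a, haZ⟩, ?_⟩
  rw [H2SMap_mk]
  refine ((Submodule.Quotient.eq _).2 ?_).symm
  show ((b - levelCocyclesS₂Map S f ⟨a, haZ⟩ : ↥(levelCocyclesS₂ S B)) : Γℚ × Γℚ → B) ∈
    levelCoboundariesS₂ S B
  refine (mem_levelCoboundariesS₂_iff S B _).2 ⟨ct, hct, ?_⟩
  funext x
  show (d₁₂ B).hom ct x = b.1 x - f.hom (a x)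
  rw [ha]
  show (d₁₂ B).hom ct x = b.1 x - (b.1 x - (d₁₂ B).hom ct x)
  abel

/-! ## The three closure properties -/

/-- `continuousH2S` of a zero module is finite. -/
theorem finite_continuousH2S_of_subsingleton (A : Rep.{0, 0, 0} k Γℚ) (hA : Subsingleton A) :
    Finite (continuousH2S S A) := by
  have : Subsingleton ↥(levelCocyclesS₂ S A) :=
    ⟨fun x y => Subtype.ext (funext fun t => Subsingleton.elim _ _)⟩
  exact Finite.of_surjective (continuousH2Sπ S A) (Submodule.mkQ_surjective _)

/-- Extensions: if `0 → A → B → C → 0` is exact, `B` is trivialised by an `S`-field and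
`continuousH2S` of `A` and of `C` are finite, then so is `continuousH2S S B`. -/
theorem finite_continuousH2S_of_exact (f : A ⟶ B) (g : B ⟶ C) (hf : Function.Injective f.hom)
    (hg : Function.Surjective g.hom) (hex : Function.Exact f.hom g.hom)
    {K : IntermediateField ℚ (AlgebraicClosure ℚ)} (hK : K.IsUnramifiedOutside S)
    (hB : ∀ s ∈ K.fixingSubgroup, B.ρ s = 1)
    (hA : Finite (continuousH2S S A)) (hC : Finite (continuousH2S S C)) :
    Finite (continuousH2S S B) := by
  classical
  -- a set-theoretic section of `H2SMap S g` on its range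
  let τ : continuousH2S S C → continuousH2S S B := fun γ =>
    if h : ∃ y, H2SMap S g y = γ then h.choose else 0
  have hτ : ∀ y, H2SMap S g (τ (H2SMap S g y)) = H2SMap S g y := by
    intro y
    have h : ∃ y', H2SMap S g y' = H2SMap S g y := ⟨y, rfl⟩
    simp only [τ, dif_pos h]
    exact h.choose_spec
  let Θ : continuousH2S S A × continuousH2S S C → continuousH2S S B := fun z =>
    H2SMap S f z.1 + τ z.2
  refine Finite.of_surjective Θ fun y => ?_
  have h0 : H2SMap S g (y - τ (H2SMap S g y)) = 0 := by rw [map_sub, hτ, sub_self]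
  obtain ⟨x, hx⟩ := H2SMap_exact S f g hf hg hex hK hB _ h0
  refine ⟨(x, H2SMap S g y), ?_⟩
  show H2SMap S f x + τ (H2SMap S g y) = y
  rw [hx, sub_add_cancel]

/-- Retracts: if `A` is a retract of `B` and `continuousH2S S B` is finite, then so is
`continuousH2S S A`. -/
theorem finite_continuousH2S_of_retract (i : A ⟶ B) (π : B ⟶ A)
    (hπi : ∀ a, π.hom (i.hom a) = a) (hB : Finite (continuousH2S S B)) :
    Finite (continuousH2S S A) := by
  have hleft : Function.LeftInverse (H2SMap S π) (H2SMap S i) := by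
    intro x
    obtain ⟨c, rfl⟩ := Submodule.mkQ_surjective _ x
    show H2SMap S π (H2SMap S i (continuousH2Sπ S A c)) = continuousH2Sπ S A c
    rw [H2SMap_mk, H2SMap_mk]
    congr 1
    apply Subtype.ext
    funext x
    exact hπi (c.1 x)
  exact Finite.of_injective (H2SMap S i) hleft.injective

end Functoriality

/-! ## Sylow devissage -/

/-- **Finiteness of `continuousH2S` by devissage.** Let `K` be a Galois number field unramified
outside `S`. If `continuousH2S` is finite for the permutation modules `coind_H 𝔽_p`, for all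
subgroups `H ⊇ Gal(ℚbar/K)` with `H / Gal(ℚbar/K)` a `p`-group and `[G_ℚ : H]` prime to `p`,
then it is finite for every finite-dimensional module trivialised by `K`. -/
theorem finite_continuousH2S_of_perm {p : ℕ} [Fact p.Prime] (S : Finset Nat.Primes)
    {K : IntermediateField ℚ (AlgebraicClosure ℚ)} (hK : K.IsUnramifiedOutside S)
    [hKn : K.fixingSubgroup.Normal]
    (hperm : ∀ H : Subgroup Γℚ, K.fixingSubgroup ≤ H →
      (∀ h ∈ H, ∃ n : ℕ, h ^ p ^ n ∈ K.fixingSubgroup) → ¬ p ∣ H.index →
      Finite (continuousH2S S (Rep.coind H.subtype (Rep.trivial (ZMod p) H (ZMod p)))))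
    (M : Rep.{0, 0, 0} (ZMod p) Γℚ) [Module.Finite (ZMod p) M]
    (hM : ∀ n ∈ K.fixingSubgroup, M.ρ n = 1) : Finite (continuousH2S S M) := by
  have := hK.1
  have := finiteIndex_fixingSubgroup K
  exact helper5178.sylow_devissage K.fixingSubgroup (fun A => Finite (continuousH2S S A))
    (fun A hA => finite_continuousH2S_of_subsingleton S A hA)
    (fun A B C f g _ _ _ _ hB _ hf hg hex hA hC =>
      finite_continuousH2S_of_exact S f g hf hg hex hK hB hA hC)
    (fun A B X j π i _ _ _ _ _ _ _ _ hπi hB => finite_continuousH2S_of_retract S i π hπi hB)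
    hperm M hM

/-! ## Roots of unity in the fixed field of a `p`-extension of the level -/

/-- If the `p ^ n`-th power of `h` has trivial mod `p` cyclotomic character, so has `h`. -/
theorem cycloChar_eq_one_of_pow {p : ℕ} [Fact p.Prime] {h : Γℚ} {n : ℕ}
    (hn : cycloChar p (h ^ p ^ n) = 1) : cycloChar p h = 1 := by
  rw [map_pow] at hn
  apply Units.ext
  have h1 : ((cycloChar p h : (ZMod p)ˣ) : ZMod p) ^ p ^ n = 1 := by
    rw [← Units.val_pow_eq_pow_val, hn]
    rfl
  rw [ZMod.pow_card_pow] at h1
  exact h1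

/-! ## From the field-level `H¹` to level characters -/

/-- The `S`-level characters of `Gal(ℚbar/F)` are finite in number as soon as the field-level
`H¹` of the global bridge is finite. -/
theorem finite_levelHomS_of_fieldH1 (S : Finset Nat.Primes) (p : ℕ)
    (F : IntermediateField ℚ (AlgebraicClosure ℚ))
    (h : Finite (helper3071.fieldH1 S p F)) :
    (LevelHomS S F.fixingSubgroup (ZMod p)).Finite := by
  rw [← Set.finite_coe_iff]
  -- the cocycle attached to a level character
  have hcoc : ∀ φ : LevelHomS S F.fixingSubgroup (ZMod p),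
      (φ.1 : F.fixingSubgroup → ZMod p) ∈ cocycles₁ (helper3071.trivF p F) := by
    intro φ
    rw [mem_cocycles₁_iff]
    intro g h
    show φ.1 (g * h) = φ.1 h + φ.1 g
    rw [φ.2.1 g h, add_comm]
  let Ψ : LevelHomS S F.fixingSubgroup (ZMod p) → helper3071.fieldH1 S p F := fun φ =>
    ⟨(H1π (helper3071.trivF p F)).hom ⟨φ.1, hcoc φ⟩,
      (helper3071.mem_relH1S_iff S F.fixingSubgroup.subtype (helper3071.trivF p F) _).2
        ⟨⟨φ.1, hcoc φ⟩, by
          obtain ⟨L, hL, hlev⟩ := φ.2.2
          exact ⟨L, hL, fun g s hs => hlev g s hs⟩, rfl⟩⟩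
  refine Finite.of_injective Ψ ?_
  intro φ φ' hφ
  have h1 : (H1π (helper3071.trivF p F)).hom ⟨φ.1, hcoc φ⟩ =
      (H1π (helper3071.trivF p F)).hom ⟨φ'.1, hcoc φ'⟩ := congrArg Subtype.val hφ
  have h2 := (H1π_eq_iff _ _).1 h1
  obtain ⟨a, ha⟩ := h2
  apply Subtype.ext
  funext g
  have h3 := congrFun ha g
  have h4 : (d₀₁ (helper3071.trivF p F)).hom a g = 0 := by
    rw [d₀₁_hom_apply]
    show a - a = 0
    exact sub_self a
  rw [h4] at h3
  have h5 : φ.1 g - φ'.1 g = 0 := h3.symm
  exact sub_eq_zero.1 h5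

/-! ## `Stmt_FinOne` -/

/-- **SOFT-FINITE.** `Stmt_FinOne` of the soft spec (finite-dimensionality of `continuousH1S S M`
and of `continuousH2S S M` for every `S`-module `M`) from the two global-bridge statements:
finiteness of the field-level cohomology of `S`-fields containing `μ_p` and Shapiro's lemma for
the induced modules. -/
theorem stmt_FinOne_of (hFF : helper3071.Stmt_FieldFin) (hSh : helper3071.Stmt_Shapiro) :
    helper2945.Stmt_FinOne := by
  intro p _ hp2 S hpS M hM
  have hp : p.Prime := Fact.out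
  have := hM.finite
  obtain ⟨K, hK, -, hKn, hKfi, hKM, hKχ, hKζ⟩ :=
    helper4039.exists_galois_sfield_trivializing_rep p hpS M hM.smooth hM.unram
  have hKfd := hK.1
  obtain ⟨ζ, hζ⟩ := helper4039.exists_isPrimitiveRoot_Qbar p
  have hmem : ∃ q ∈ S, ((q : Nat.Primes) : ℕ) = p := ⟨pPrime p, hpS, rfl⟩
  have hSF : ∀ F : IntermediateField ℚ (AlgebraicClosure ℚ), F.IsUnramifiedOutside S → ζ ∈ F →
      helper3071.IsSFieldZeta S p F := fun F hF hζF => ⟨hp, hp2, hmem, hF, ζ, hζF, hζ⟩
  constructor
  · -- `H¹`: inflation-restriction to `K`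
    obtain ⟨hf1, -⟩ := hFF S p K (hSF K hK (hKζ ζ hζ.pow_eq_one))
    have : Finite (helper3071.fieldH1 S p K) := Module.finite_of_finite (ZMod p)
    have hX := finite_levelHomS_of_fieldH1 S p K this
    have := finite_continuousH1S_of_levelHomS S M K hKM hX
    exact Module.Finite.of_finite
  · -- `H²`: Sylow devissage
    have : Finite (continuousH2S S M) := by
      refine finite_continuousH2S_of_perm S hK ?_ M hKM
      intro H hKH hHp _
      -- the fixed field of `H`
      have hFH : (IntermediateField.fixedField H).fixingSubgroup = H :=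
        helper4039.fixingSubgroup_fixedField_of_le hKH
      have hFK : IntermediateField.fixedField H ≤ K := helper4039.fixedField_le_of_le hKH
      have hFS : (IntermediateField.fixedField H).IsUnramifiedOutside S := hK.of_le hFK
      have hζF : ζ ∈ IntermediateField.fixedField H := by
        rw [IntermediateField.mem_fixedField_iff]
        intro h hh
        obtain ⟨n, hn⟩ := hHp h hh
        have h1 : cycloChar p h = 1 := cycloChar_eq_one_of_pow (hKχ _ hn)
        exact (helper4039.cycloChar_eq_one_iff p h).1 h1 ζ hζ.pow_eq_one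
      obtain ⟨-, hf2⟩ := hFF S p _ (hSF _ hFS hζF)
      obtain ⟨-, Φ, -⟩ := hSh S p (IntermediateField.fixedField H) hp hFS
      have : Finite (helper3071.fieldH2 S p (IntermediateField.fixedField H)) :=
        Module.finite_of_finite (ZMod p)
      have hfin : Finite (continuousH2S S (helper3071.indRep p (IntermediateField.fixedField H))) :=
        Finite.of_injective Φ Φ.injective
      revert hfin
      show Finite (continuousH2S S (Rep.coind
          (IntermediateField.fixedField H).fixingSubgroup.subtype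
          (Rep.trivial (ZMod p) (IntermediateField.fixedField H).fixingSubgroup (ZMod p)))) →
        Finite (continuousH2S S (Rep.coind H.subtype (Rep.trivial (ZMod p) H (ZMod p))))
      rw [hFH]
      exact id
    exact Module.Finite.of_finite

end Fermat.Agent.S55.helper1702
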