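/-
S55 / GB-H1FIELD (backup implementation, helper324).

Direct Kummer theory on the carrier `V_F = F.fixingSubgroup ≤ Gal(Qbar/ℚ)`:
* `kum`       : the Kummer character of `α` with `α ^ p ∈ F` (`ζ ∈ F` a primitive `p`-th root of 1);
* `kum_eq_zero_iff`, `kum_mul`, `kum_rightInv` : kernel, additivity, level;
* `exists_kum_eq` : every level-constant character of `V_F` is a Kummer character
  (Lagrange resolvent + independence of characters; no infinite Galois theory beyond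
  `fixedField (fixingSubgroup F) = F`).
-/
import Mathlib
import Fermat.Prelude.Def_GroupCohomology_ContinuousUnramified

set_option autoImplicit false

namespace Fermat.Agent.S55.helper324

open IntermediateField

local notation "Qbar" => AlgebraicClosure ℚ
local notation "GQ" => (AlgebraicClosure ℚ ≃ₐ[ℚ] AlgebraicClosure ℚ)

/-- `Qbar` is an algebraic closure of `ℚ` (local instance, to get `IsGalois ℚ Qbar`). -/
local instance isAlgClosureQbar : IsAlgClosure ℚ Qbar :=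
  ⟨inferInstance, AlgebraicClosure.isAlgebraic ℚ⟩

/-- An element fixed by `F.fixingSubgroup` lies in `F`. -/
theorem mem_of_fixed {F : IntermediateField ℚ Qbar} {x : Qbar}
    (h : ∀ σ : GQ, σ ∈ F.fixingSubgroup → σ x = x) : x ∈ F := by
  have h1 : x ∈ IntermediateField.fixedField F.fixingSubgroup :=
    (IntermediateField.mem_fixedField_iff _ x).2 h
  rwa [InfiniteGalois.fixedField_fixingSubgroup] at h1

section PrimRoot

variable {K : Type*} [Field K] {p : ℕ} [Fact p.Prime] {ζ : K}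

/-- `ζ ^ n` only depends on `n` modulo `p`. -/
theorem zpow_val_add (hζ : IsPrimitiveRoot ζ p) (a b : ZMod p) :
    ζ ^ (a + b).val = ζ ^ a.val * ζ ^ b.val := by
  rw [← pow_add, ZMod.val_add, pow_eq_pow_mod (a.val + b.val) hζ.pow_eq_one]

theorem zpow_val_natCast (hζ : IsPrimitiveRoot ζ p) (n : ℕ) :
    ζ ^ ((n : ZMod p)).val = ζ ^ n := by
  rw [ZMod.val_natCast, ← pow_eq_pow_mod n hζ.pow_eq_one]

theorem zpow_val_inj (hζ : IsPrimitiveRoot ζ p) {a b : ZMod p} (h : ζ ^ a.val = ζ ^ b.val) :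
    a = b :=
  ZMod.val_injective p (hζ.pow_inj (ZMod.val_lt a) (ZMod.val_lt b) h)

theorem exists_zpow_val_eq (hζ : IsPrimitiveRoot ζ p) {ξ : K} (hξ : ξ ^ p = 1) :
    ∃ j : ZMod p, ζ ^ j.val = ξ := by
  obtain ⟨i, -, hi⟩ := hζ.eq_pow_of_pow_eq_one hξ
  exact ⟨(i : ZMod p), by rw [zpow_val_natCast hζ, hi]⟩

theorem zpow_val_zero : ζ ^ (0 : ZMod p).val = 1 := by
  rw [ZMod.val_zero, pow_zero]

theorem zpow_val_neg (hζ : IsPrimitiveRoot ζ p) (a : ZMod p) :
    ζ ^ (-a).val * ζ ^ a.val = 1 := by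
  rw [← zpow_val_add hζ, neg_add_cancel, zpow_val_zero]

end PrimRoot

section Kum

variable {p : ℕ} [Fact p.Prime] (F : IntermediateField ℚ Qbar) {ζ : Qbar}

open Classical in
/-- The Kummer exponent of `σ` on `α`: the `j` with `σ α = ζ ^ j * α` (junk `0` if none). -/
noncomputable def kumFun (ζ α : Qbar) (σ : GQ) : ZMod p :=
  if h : ∃ j : ZMod p, σ α = ζ ^ j.val * α then h.choose else 0

theorem kumFun_spec {ζ α : Qbar} {σ : GQ} (h : ∃ j : ZMod p, σ α = ζ ^ j.val * α) :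
    σ α = ζ ^ (kumFun (p := p) ζ α σ).val * α := by
  rw [kumFun, dif_pos h]
  exact h.choose_spec

theorem kumFun_eq (hζ : IsPrimitiveRoot ζ p) {α : Qbar} (hα : α ≠ 0) {σ : GQ} {j : ZMod p}
    (h : σ α = ζ ^ j.val * α) : kumFun (p := p) ζ α σ = j := by
  have h' := kumFun_spec (p := p) ⟨j, h⟩
  rw [h] at h'
  exact (zpow_val_inj hζ (mul_right_cancel₀ hα h')).symm

/-- If `α ^ p` is fixed by `σ`, then `σ α = ζ ^ j * α` for some `j`. -/
theorem exists_kum (hζ : IsPrimitiveRoot ζ p) {α : Qbar} (hα : α ≠ 0) {σ : GQ}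
    (hσ : σ (α ^ p) = α ^ p) : ∃ j : ZMod p, σ α = ζ ^ j.val * α := by
  have h1 : (σ α / α) ^ p = 1 := by
    rw [div_pow, ← map_pow, hσ, div_self (pow_ne_zero _ hα)]
  obtain ⟨j, hj⟩ := exists_zpow_val_eq hζ h1
  exact ⟨j, by rw [hj, div_mul_cancel₀ _ hα]⟩

theorem kumFun_spec' (hζ : IsPrimitiveRoot ζ p) {α : Qbar} (hα : α ≠ 0) {σ : GQ}
    (hσ : σ (α ^ p) = α ^ p) : σ α = ζ ^ (kumFun (p := p) ζ α σ).val * α :=
  kumFun_spec (exists_kum hζ hα hσ)

variable {F}

theorem fix_of_mem {σ : GQ} (hσ : σ ∈ F.fixingSubgroup) {x : Qbar} (hx : x ∈ F) : σ x = x :=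
  (IntermediateField.mem_fixingSubgroup_iff F σ).1 hσ x hx

/-- **Kummer character** of `α` (`α ≠ 0`, `α ^ p ∈ F`, `ζ ∈ F`) on `V_F = F.fixingSubgroup`. -/
noncomputable def kum (hζ : IsPrimitiveRoot ζ p) (hζF : ζ ∈ F) {α : Qbar} (hα : α ≠ 0)
    (hαF : α ^ p ∈ F) : Additive ↥F.fixingSubgroup →+ ZMod p :=
  AddMonoidHom.mk' (fun σ => kumFun (p := p) ζ α ((Additive.toMul σ : ↥F.fixingSubgroup) : GQ))
    (by
      intro σ τ
      have hσ := kumFun_spec' hζ hα (fix_of_mem (Additive.toMul σ).2 hαF)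
      have hτ := kumFun_spec' hζ hα (fix_of_mem (Additive.toMul τ).2 hαF)
      refine kumFun_eq hζ hα ?_
      rw [toMul_add, Subgroup.coe_mul, AlgEquiv.mul_apply, hτ, map_mul, map_pow,
        fix_of_mem (Additive.toMul σ).2 hζF, hσ, zpow_val_add hζ]
      ring)

theorem kum_apply (hζ : IsPrimitiveRoot ζ p) (hζF : ζ ∈ F) {α : Qbar} (hα : α ≠ 0)
    (hαF : α ^ p ∈ F) (σ : ↥F.fixingSubgroup) :
    (σ : GQ) α = ζ ^ (kum hζ hζF hα hαF (Additive.ofMul σ)).val * α :=
  kumFun_spec' hζ hα (fix_of_mem σ.2 hαF)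

theorem kum_eq_of (hζ : IsPrimitiveRoot ζ p) (hζF : ζ ∈ F) {α : Qbar} (hα : α ≠ 0)
    (hαF : α ^ p ∈ F) (σ : ↥F.fixingSubgroup) {j : ZMod p} (h : (σ : GQ) α = ζ ^ j.val * α) :
    kum hζ hζF hα hαF (Additive.ofMul σ) = j :=
  kumFun_eq hζ hα h

end Kum

section KumProps

variable {p : ℕ} [Fact p.Prime] {F : IntermediateField ℚ Qbar} {ζ : Qbar}

/-- The Kummer character vanishes at `σ` iff `σ` fixes `α`. -/
theorem kum_apply_eq_zero_iff (hζ : IsPrimitiveRoot ζ p) (hζF : ζ ∈ F) {α : Qbar} (hα : α ≠ 0)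
    (hαF : α ^ p ∈ F) (σ : ↥F.fixingSubgroup) :
    kum hζ hζF hα hαF (Additive.ofMul σ) = 0 ↔ (σ : GQ) α = α := by
  constructor
  · intro h
    have := kum_apply hζ hζF hα hαF σ
    rwa [h, zpow_val_zero, one_mul] at this
  · intro h
    exact kum_eq_of hζ hζF hα hαF σ (by rw [zpow_val_zero, one_mul, h])

/-- Kernel of the Kummer map: `kum α = 0` iff `α ∈ F`. -/
theorem kum_eq_zero_iff (hζ : IsPrimitiveRoot ζ p) (hζF : ζ ∈ F) {α : Qbar} (hα : α ≠ 0)
    (hαF : α ^ p ∈ F) : kum hζ hζF hα hαF = 0 ↔ α ∈ F := by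
  constructor
  · intro h
    refine mem_of_fixed fun σ hσ => ?_
    have := (kum_apply_eq_zero_iff hζ hζF hα hαF ⟨σ, hσ⟩).1 (by rw [h]; rfl)
    exact this
  · intro h
    refine DFunLike.ext _ _ fun σ => ?_
    exact (kum_apply_eq_zero_iff hζ hζF hα hαF (Additive.toMul σ)).2
      (fix_of_mem (Additive.toMul σ).2 h)

/-- Additivity of the Kummer map in `α`. -/
theorem kum_mul (hζ : IsPrimitiveRoot ζ p) (hζF : ζ ∈ F) {α β : Qbar} (hα : α ≠ 0)
    (hαF : α ^ p ∈ F) (hβ : β ≠ 0) (hβF : β ^ p ∈ F) (hαβ : α * β ≠ 0)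
    (hαβF : (α * β) ^ p ∈ F) :
    kum hζ hζF hαβ hαβF = kum hζ hζF hα hαF + kum hζ hζF hβ hβF := by
  refine DFunLike.ext _ _ fun σ => ?_
  refine kum_eq_of hζ hζF hαβ hαβF (Additive.toMul σ) ?_
  rw [map_mul, kum_apply hζ hζF hα hαF (Additive.toMul σ),
    kum_apply hζ hζF hβ hβF (Additive.toMul σ), AddMonoidHom.add_apply, zpow_val_add hζ]
  simp only [ofMul_toMul]
  ring

/-- The Kummer character is right-invariant under every subgroup fixing `α`. -/
theorem kum_rightInv (hζ : IsPrimitiveRoot ζ p) (hζF : ζ ∈ F) {α : Qbar} (hα : α ≠ 0)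
    (hαF : α ^ p ∈ F) (g s : ↥F.fixingSubgroup) (hs : (s : GQ) α = α) :
    kum hζ hζF hα hαF (Additive.ofMul (g * s)) = kum hζ hζF hα hαF (Additive.ofMul g) := by
  rw [ofMul_mul, map_add, (kum_apply_eq_zero_iff hζ hζF hα hαF s).2 hs, add_zero]

/-- Two `p`-th roots of elements of `F` with the same Kummer character differ by an element
of `F`. -/
theorem div_mem_of_kum_eq (hζ : IsPrimitiveRoot ζ p) (hζF : ζ ∈ F) {α β : Qbar} (hα : α ≠ 0)
    (hαF : α ^ p ∈ F) (hβ : β ≠ 0) (hβF : β ^ p ∈ F)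
    (h : kum hζ hζF hα hαF = kum hζ hζF hβ hβF) : α / β ∈ F := by
  refine mem_of_fixed fun σ hσ => ?_
  have h1 := kum_apply hζ hζF hα hαF ⟨σ, hσ⟩
  have h2 := kum_apply hζ hζF hβ hβF ⟨σ, hσ⟩
  simp only at h1 h2
  rw [map_div₀, h1, h2, h]
  have hz : ζ ^ (kum hζ hζF hβ hβF (Additive.ofMul ⟨σ, hσ⟩)).val ≠ 0 :=
    pow_ne_zero _ (hζ.ne_zero (Fact.out : p.Prime).ne_zero)
  field_simp

end KumProps

section Surj

variable {p : ℕ} [Fact p.Prime] {F M : IntermediateField ℚ Qbar} {ζ : Qbar}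

/-- The fixing subgroup of a finite extension has finite index in `V_F`. -/
theorem finite_quot_fixing (F M : IntermediateField ℚ Qbar) [FiniteDimensional ℚ M] :
    Finite (↥F.fixingSubgroup ⧸ M.fixingSubgroup.subgroupOf F.fixingSubgroup) := by
  have h1 : M.fixingSubgroup.index ≠ 0 := by
    rw [← IntermediateField.finrank_eq_fixingSubgroup_index]
    exact Module.finrank_pos.ne'
  have h2 : M.fixingSubgroup.FiniteIndex := ⟨h1⟩
  have h3 : (M.fixingSubgroup.subgroupOf F.fixingSubgroup).FiniteIndex := inferInstance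
  exact Subgroup.finite_quotient_of_finiteIndex

/-- **Surjectivity of the Kummer map** (Lagrange resolvent): a character of `V_F` which is
right-invariant under the fixing subgroup of a finite extension `M ⊇ F` is the Kummer character
of some `α ∈ M` with `α ^ p ∈ F`. -/
theorem exists_kum_eq (hζ : IsPrimitiveRoot ζ p) (hζF : ζ ∈ F) [FiniteDimensional ℚ M]
    (hFM : F ≤ M) (χ : Additive ↥F.fixingSubgroup →+ ZMod p)
    (hχ : ∀ g s : ↥F.fixingSubgroup, (s : GQ) ∈ M.fixingSubgroup →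
      χ (Additive.ofMul (g * s)) = χ (Additive.ofMul g)) :
    ∃ (α : Qbar) (hα : α ≠ 0) (hαF : α ^ p ∈ F), α ∈ M ∧ kum hζ hζF hα hαF = χ := by
  classical
  set H : Subgroup ↥F.fixingSubgroup := M.fixingSubgroup.subgroupOf F.fixingSubgroup with hH
  have hfinQ : Finite (↥F.fixingSubgroup ⧸ H) := finite_quot_fixing F M
  let _ : Fintype (↥F.fixingSubgroup ⧸ H) := Fintype.ofFinite _
  have hζ0 : ∀ n : ℕ, ζ ^ n ≠ 0 := fun n => pow_ne_zero _ (hζ.ne_zero (Fact.out : p.Prime).ne_zero)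
  -- the summand
  let f : Qbar → ↥F.fixingSubgroup → Qbar :=
    fun θ τ => ζ ^ (-(χ (Additive.ofMul τ))).val * (τ : GQ) θ
  have hf_inv : ∀ θ ∈ M, ∀ (τ s : ↥F.fixingSubgroup), s ∈ H → f θ (τ * s) = f θ τ := by
    intro θ hθ τ s hs
    have hs' : (s : GQ) ∈ M.fixingSubgroup := hs
    simp only [f]
    rw [hχ τ s hs', Subgroup.coe_mul, AlgEquiv.mul_apply, fix_of_mem hs' hθ]
  have hout : ∀ (τ : ↥F.fixingSubgroup), ∃ h : ↥F.fixingSubgroup, h ∈ H ∧
      (Quotient.out (QuotientGroup.mk τ : ↥F.fixingSubgroup ⧸ H)) = τ * h := by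
    intro τ
    obtain ⟨h, hh⟩ := QuotientGroup.mk_out_eq_mul H τ
    exact ⟨h, h.2, hh⟩
  -- equivariance of the summand
  have hf_eq : ∀ θ, ∀ (σ τ : ↥F.fixingSubgroup),
      (σ : GQ) (f θ τ) = ζ ^ (χ (Additive.ofMul σ)).val * f θ (σ * τ) := by
    intro θ σ τ
    simp only [f]
    rw [map_mul, map_pow, fix_of_mem σ.2 hζF, Subgroup.coe_mul, AlgEquiv.mul_apply, ← mul_assoc,
      ← zpow_val_add hζ, ofMul_mul, map_add]
    congr 2
    ring_nf
  -- the resolvent
  let A : Qbar → Qbar := fun θ => ∑ c : ↥F.fixingSubgroup ⧸ H, f θ (Quotient.out c)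
  have hA_eq : ∀ θ ∈ M, ∀ σ : ↥F.fixingSubgroup,
      (σ : GQ) (A θ) = ζ ^ (χ (Additive.ofMul σ)).val * A θ := by
    intro θ hθ σ
    simp only [A]
    rw [map_sum, Finset.mul_sum]
    rw [← Equiv.sum_comp (MulAction.toPerm σ : Equiv.Perm (↥F.fixingSubgroup ⧸ H))
      (fun c => ζ ^ (χ (Additive.ofMul σ)).val * f θ (Quotient.out c))]
    refine Finset.sum_congr rfl fun c _ => ?_
    rw [hf_eq θ σ (Quotient.out c)]
    congr 1
    have hc : (MulAction.toPerm σ : Equiv.Perm (↥F.fixingSubgroup ⧸ H)) c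
        = QuotientGroup.mk (σ * Quotient.out c) := by
      conv_lhs => rw [← QuotientGroup.out_eq' c]
      rfl
    rw [hc]
    obtain ⟨h, hh, hout'⟩ := hout (σ * Quotient.out c)
    rw [hout', hf_inv θ hθ _ h hh]
  -- nonvanishing by independence of characters
  have hne : ∃ θ ∈ M, A θ ≠ 0 := by
    by_contra hcon
    simp only [not_exists, not_and, not_not] at hcon
    let φ : (↥F.fixingSubgroup ⧸ H) → (↥M →* Qbar) := fun c =>
      (((Quotient.out c : ↥F.fixingSubgroup) : GQ) : Qbar →* Qbar).comp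
        ((M.val : ↥M →ₐ[ℚ] Qbar) : ↥M →* Qbar)
    have hφ : Function.Injective φ := by
      intro c c' hcc
      rw [← QuotientGroup.out_eq' c, ← QuotientGroup.out_eq' c']
      refine QuotientGroup.eq.2 ?_
      refine Subgroup.mem_subgroupOf.2 ?_
      rw [IntermediateField.mem_fixingSubgroup_iff]
      intro x hx
      have := DFunLike.congr_fun hcc ⟨x, hx⟩
      simp only [φ, MonoidHom.comp_apply] at this
      rw [Subgroup.coe_mul, Subgroup.coe_inv, AlgEquiv.mul_apply]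
      rw [AlgEquiv.aut_inv, AlgEquiv.symm_apply_eq]
      exact this.symm
    have hli := (linearIndependent_monoidHom (↥M) Qbar).comp φ hφ
    have h0 := Fintype.linearIndependent_iff.1 hli
      (fun c => ζ ^ (-(χ (Additive.ofMul (Quotient.out c)))).val) (by
        funext θ
        have := hcon (θ : Qbar) θ.2
        simp only [A, f] at this
        simp only [Function.comp_apply, Finset.sum_apply, Pi.smul_apply, smul_eq_mul, Pi.zero_apply]
        exact this)
    exact hζ0 _ (h0 (QuotientGroup.mk 1))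
  obtain ⟨θ, hθ, hAθ⟩ := hne
  have hAp : (A θ) ^ p ∈ F := by
    refine mem_of_fixed fun σ hσ => ?_
    rw [map_pow, hA_eq θ hθ ⟨σ, hσ⟩, mul_pow, ← pow_mul, mul_comm _ p, pow_mul, hζ.pow_eq_one,
      one_pow, one_mul]
  refine ⟨A θ, hAθ, hAp, ?_, ?_⟩
  · refine mem_of_fixed fun σ hσ => ?_
    have hσF : σ ∈ F.fixingSubgroup := IntermediateField.fixingSubgroup_antitone hFM hσ
    have h1 := hA_eq θ hθ ⟨σ, hσF⟩
    have h2 : χ (Additive.ofMul (⟨σ, hσF⟩ : ↥F.fixingSubgroup)) = 0 := by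
      have := hχ 1 ⟨σ, hσF⟩ hσ
      rw [one_mul] at this
      rw [this, ofMul_one, map_zero]
    rw [h2, zpow_val_zero, one_mul] at h1
    exact h1
  · refine DFunLike.ext _ _ fun σ => ?_
    exact kum_eq_of hζ hζF hAθ hAp (Additive.toMul σ) (hA_eq θ hθ (Additive.toMul σ))

end Surj

end Fermat.Agent.S55.helper324
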