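/-
S55 / GB-H1FIELD (backup implementation, helper324), part 2.

`fieldH1 S p F` (helper3071 GB-SPEC) versus the `S`-Kummer group of helper9292:

* `mem_fieldH1_iff`      : `fieldH1` = classes of `S`-level additive characters of `V_F`;
* `kumHom`               : the Kummer homomorphism `Fˣ → Hom(V_F, ZMod p)`, kernel = `p`-th powers;
* `card_fieldH1_eq_relIndex` : `#fieldH1 S p F = [Kum_S(F) : Fˣᵖ]`;
* `card_fieldH1`, `finite_fieldH1`, `two_mul_finrank_fieldH1` : the exact count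
  `2 * h¹ = [F:ℚ] + 2 * (nPl S F + clSRank)`.
-/
import Mathlib
import Fermat.Agent.S55.helper324_FieldKummer
import Fermat.Agent.S55.helper3071_GlobalBridge
import Fermat.Agent.S55.helper4709_GlobRam2
import Fermat.Agent.S55.helper9292_SelmerDict

set_option autoImplicit false

namespace Fermat.Agent.S55.helper324

open IntermediateField groupCohomology
open Fermat.Agent.S55.helper3071

local notation "Qbar" => AlgebraicClosure ℚ
local notation "GQ" => (AlgebraicClosure ℚ ≃ₐ[ℚ] AlgebraicClosure ℚ)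

section Chars

variable (S : Finset Nat.Primes) (p : ℕ) (F : IntermediateField ℚ Qbar)

/-- The `S`-level additive characters of `V_F = F.fixingSubgroup`. -/
def levChars : Set (Additive ↥F.fixingSubgroup →+ ZMod p) :=
  {χ | IsLevS₁ S F.fixingSubgroup.subtype
    (fun g : ↥F.fixingSubgroup => χ (Additive.ofMul g))}

/-- `fieldH1 S p F` corresponds to the `S`-level characters under `H1IsoOfIsTrivial`. -/
theorem mem_fieldH1_iff (x : H1 (trivF p F)) :
    x ∈ fieldH1 S p F ↔ (H1IsoOfIsTrivial (trivF p F)).hom x ∈ levChars S p F := by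
  constructor
  · intro hx
    obtain ⟨c, hc, rfl⟩ := (mem_relH1S_iff S F.fixingSubgroup.subtype (trivF p F) x).1 hx
    show IsLevS₁ S F.fixingSubgroup.subtype (fun g : ↥F.fixingSubgroup =>
        (H1IsoOfIsTrivial (trivF p F)).hom ((H1π (trivF p F)).hom c) (Additive.ofMul g))
    have h : (fun g : ↥F.fixingSubgroup =>
        (H1IsoOfIsTrivial (trivF p F)).hom ((H1π (trivF p F)).hom c) (Additive.ofMul g))
          = ⇑c := by
      funext g
      exact H1IsoOfIsTrivial_H1π_apply_apply c (Additive.ofMul g)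
    rw [h]
    exact hc
  · intro hx
    refine (mem_relH1S_iff S F.fixingSubgroup.subtype (trivF p F) x).2
      ⟨(cocycles₁IsoOfIsTrivial (trivF p F)).inv ((H1IsoOfIsTrivial (trivF p F)).hom x), hx, ?_⟩
    have h := H1IsoOfIsTrivial_inv_apply (A := trivF p F)
      ((H1IsoOfIsTrivial (trivF p F)).hom x)
    have h2 : (H1IsoOfIsTrivial (trivF p F)).inv ((H1IsoOfIsTrivial (trivF p F)).hom x) = x := by
      simp
    rw [h2] at h
    exact h.symm

theorem card_fieldH1_eq_card_levChars :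
    Nat.card ↥(fieldH1 S p F) = Nat.card ↥(levChars S p F) :=
  Nat.card_congr (Equiv.subtypeEquiv
    (H1IsoOfIsTrivial (trivF p F)).toLinearEquiv.toEquiv (fun x => mem_fieldH1_iff S p F x))

end Chars

section KumHom

variable {p : ℕ} [Fact p.Prime] {F : IntermediateField ℚ Qbar} {ζ : Qbar}

/-- A chosen `p`-th root in `Qbar`. -/
noncomputable def rootOf (p : ℕ) [Fact p.Prime] (a : Qbar) : Qbar :=
  Classical.choose (IsAlgClosed.exists_pow_nat_eq a (Fact.out : p.Prime).pos)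

theorem rootOf_pow (a : Qbar) : rootOf p a ^ p = a :=
  Classical.choose_spec (IsAlgClosed.exists_pow_nat_eq a (Fact.out : p.Prime).pos)

theorem rootOf_ne_zero {a : Qbar} (ha : a ≠ 0) : rootOf p a ≠ 0 := by
  intro h
  apply ha
  rw [← rootOf_pow (p := p) a, h, zero_pow (Fact.out : p.Prime).ne_zero]

theorem unit_coe_ne_zero (a : (↥F)ˣ) : ((a : ↥F) : Qbar) ≠ 0 := by
  intro h
  exact a.ne_zero (Subtype.ext h)

theorem rootOf_pow_mem (a : (↥F)ˣ) : rootOf p ((a : ↥F) : Qbar) ^ p ∈ F := by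
  rw [rootOf_pow]
  exact (a : ↥F).2

/-- The Kummer character only depends on `α ^ p`. -/
theorem kum_congr (hζ : IsPrimitiveRoot ζ p) (hζF : ζ ∈ F) {α β : Qbar} (hα : α ≠ 0)
    (hαF : α ^ p ∈ F) (hβ : β ≠ 0) (hβF : β ^ p ∈ F) (h : α ^ p = β ^ p) :
    kum hζ hζF hα hαF = kum hζ hζF hβ hβF := by
  have h1 : (α / β) ^ p = 1 := by
    rw [div_pow, h, div_self (pow_ne_zero _ hβ)]
  obtain ⟨j, hj⟩ := exists_zpow_val_eq hζ h1
  have hmem : α / β ∈ F := by
    rw [← hj]
    exact pow_mem hζF _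
  refine DFunLike.ext _ _ fun σ => ?_
  refine kum_eq_of hζ hζF hα hαF (Additive.toMul σ) ?_
  have h2 : α = α / β * β := by
    field_simp
  conv_lhs => rw [h2]
  rw [map_mul, fix_of_mem (Additive.toMul σ).2 hmem, kum_apply hζ hζF hβ hβF (Additive.toMul σ)]
  simp only [ofMul_toMul]
  field_simp

/-- **The Kummer homomorphism** `Fˣ → Hom(V_F, ZMod p)`. -/
noncomputable def kumHom (hζ : IsPrimitiveRoot ζ p) (hζF : ζ ∈ F) :
    (↥F)ˣ →* Multiplicative (Additive ↥F.fixingSubgroup →+ ZMod p) :=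
  MonoidHom.mk' (fun a => Multiplicative.ofAdd
      (kum hζ hζF (rootOf_ne_zero (p := p) (unit_coe_ne_zero a)) (rootOf_pow_mem a)))
    (by
      intro a b
      rw [← ofAdd_add]
      congr 1
      have hab : rootOf p ((a : ↥F) : Qbar) * rootOf p ((b : ↥F) : Qbar) ≠ 0 :=
        mul_ne_zero (rootOf_ne_zero (unit_coe_ne_zero a)) (rootOf_ne_zero (unit_coe_ne_zero b))
      have habp : (rootOf p ((a : ↥F) : Qbar) * rootOf p ((b : ↥F) : Qbar)) ^ p
          = (((a * b : (↥F)ˣ) : ↥F) : Qbar) := by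
        rw [mul_pow, rootOf_pow, rootOf_pow]
        push_cast
        rfl
      have habF : (rootOf p ((a : ↥F) : Qbar) * rootOf p ((b : ↥F) : Qbar)) ^ p ∈ F := by
        rw [habp]
        exact ((a * b : (↥F)ˣ) : ↥F).2
      rw [← kum_mul hζ hζF _ _ _ _ hab habF]
      exact kum_congr hζ hζF _ _ _ _ (by rw [rootOf_pow, habp]))

/-- `kumHom a` is the Kummer character of any `p`-th root of `a`. -/
theorem kumHom_eq (hζ : IsPrimitiveRoot ζ p) (hζF : ζ ∈ F) (a : (↥F)ˣ) {α : Qbar} (hα : α ≠ 0)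
    (hαa : α ^ p = ((a : ↥F) : Qbar)) :
    Multiplicative.toAdd (kumHom hζ hζF a) = kum hζ hζF hα (by rw [hαa]; exact (a : ↥F).2) :=
  kum_congr hζ hζF (rootOf_ne_zero (p := p) (unit_coe_ne_zero a)) (rootOf_pow_mem a) hα
    (by rw [hαa]; exact (a : ↥F).2) (by rw [rootOf_pow, hαa])

/-- The kernel of the Kummer homomorphism is the group of `p`-th powers. -/
theorem kumHom_ker (hζ : IsPrimitiveRoot ζ p) (hζF : ζ ∈ F) :
    (kumHom hζ hζF).ker = (powMonoidHom p : (↥F)ˣ →* (↥F)ˣ).range := by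
  ext a
  rw [MonoidHom.mem_ker, MonoidHom.mem_range]
  constructor
  · intro h
    have h0 : kum hζ hζF (rootOf_ne_zero (p := p) (unit_coe_ne_zero a)) (rootOf_pow_mem a) = 0 := by
      have : Multiplicative.toAdd (kumHom hζ hζF a) = 0 := by rw [h]; rfl
      exact this
    have hmem := (kum_eq_zero_iff hζ hζF _ _).1 h0
    have hne : (⟨rootOf p ((a : ↥F) : Qbar), hmem⟩ : ↥F) ≠ 0 := by
      intro h'
      exact rootOf_ne_zero (p := p) (unit_coe_ne_zero a) (congrArg Subtype.val h')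
    refine ⟨Units.mk0 _ hne, ?_⟩
    apply Units.ext
    apply Subtype.ext
    rw [powMonoidHom_apply]
    push_cast
    exact rootOf_pow _
  · rintro ⟨c, rfl⟩
    have hc : ((c : ↥F) : Qbar) ^ p = (((powMonoidHom p c : (↥F)ˣ) : ↥F) : Qbar) := by
      rw [powMonoidHom_apply]
      push_cast
      rfl
    have h1 := kumHom_eq hζ hζF (powMonoidHom p c) (unit_coe_ne_zero c) hc
    have h2 : kum hζ hζF (unit_coe_ne_zero c)
        (by rw [hc]; exact ((powMonoidHom p c : (↥F)ˣ) : ↥F).2) = 0 :=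
      (kum_eq_zero_iff hζ hζF _ _).2 (c : ↥F).2
    rw [h2] at h1
    exact h1

end KumHom

section Image

open Fermat.Agent.S55.helper9292 Fermat.Agent.Lib.helper54
open scoped NumberField

attribute [local instance] numberField_intermediate

variable {S : Finset Nat.Primes} {p : ℕ} [Fact p.Prime] {F : IntermediateField ℚ Qbar}
  [FiniteDimensional ℚ F] {ζ : Qbar}

/-- (⊆) The Kummer character of an element of the `S`-Kummer group is an `S`-level character. -/
theorem kumHom_mem_levChars (hF : F.IsUnramifiedOutside S)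
    (hpS : ∀ q : Nat.Primes, (q : ℕ) ∣ p → q ∈ S)
    (hζ : IsPrimitiveRoot ζ p) (hζF : ζ ∈ F) (a : (↥F)ˣ)
    (ha : a ∈ kumS (𝓞 F) F (SF F S : Set (IsDedekindDomain.HeightOneSpectrum (𝓞 F))) p) :
    Multiplicative.toAdd (kumHom hζ hζF a) ∈ levChars S p F := by
  have hα0 : rootOf p ((a : ↥F) : Qbar) ≠ 0 := rootOf_ne_zero (unit_coe_ne_zero a)
  have hαF : rootOf p ((a : ↥F) : Qbar) ^ p ∈ F := rootOf_pow_mem a
  have hloc := (mem_kumS_SF_iff F S p a).1 ha
  have hL : (F ⊔ IntermediateField.adjoin ℚ {rootOf p ((a : ↥F) : Qbar)}).IsUnramifiedOutside S := by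
    refine Fermat.Agent.S55.helper4709.isUnramifiedOutside_sup_adjoin_root hF p hpS _ hαF ?_
    intro q hq A hA
    obtain ⟨c, hc⟩ := hloc q hq A hA
    refine ⟨((c : ↥F) : Qbar), (c : ↥F).2, unit_coe_ne_zero c, ?_⟩
    have h1 : algebraMap (↥F) Qbar ((a : ↥F) / (c : ↥F) ^ p)
        = rootOf p ((a : ↥F) : Qbar) ^ p / ((c : ↥F) : Qbar) ^ p := by
      rw [map_div₀, map_pow, rootOf_pow]
      rfl
    rw [← h1]
    exact hc
  refine ⟨F ⊔ IntermediateField.adjoin ℚ {rootOf p ((a : ↥F) : Qbar)}, hL, ?_⟩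
  intro g s hs
  refine kum_rightInv hζ hζF hα0 hαF g s ?_
  refine (IntermediateField.mem_fixingSubgroup_iff _ _).1 hs _ ?_
  exact (le_sup_right : IntermediateField.adjoin ℚ {rootOf p ((a : ↥F) : Qbar)} ≤ _)
    (IntermediateField.mem_adjoin_simple_self ℚ _)

/-- (⊇) Every `S`-level character of `V_F` is the Kummer character of an element of the
`S`-Kummer group. -/
theorem exists_kumHom_eq (hF : F.IsUnramifiedOutside S)
    (hpS : ∀ q : Nat.Primes, (q : ℕ) ∣ p → q ∈ S)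
    (hζ : IsPrimitiveRoot ζ p) (hζF : ζ ∈ F) (χ : Additive ↥F.fixingSubgroup →+ ZMod p)
    (hχ : χ ∈ levChars S p F) :
    ∃ a ∈ kumS (𝓞 F) F (SF F S : Set (IsDedekindDomain.HeightOneSpectrum (𝓞 F))) p,
      Multiplicative.toAdd (kumHom hζ hζF a) = χ := by
  obtain ⟨L, hL, hinv⟩ := hχ
  have hM : (F ⊔ L).IsUnramifiedOutside S := hF.sup hL
  have : FiniteDimensional ℚ ↥(F ⊔ L) := hM.1
  have hχM : ∀ g s : ↥F.fixingSubgroup, (s : GQ) ∈ (F ⊔ L).fixingSubgroup →
      χ (Additive.ofMul (g * s)) = χ (Additive.ofMul g) := by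
    intro g s hs
    refine hinv g s ?_
    exact (IntermediateField.fixingSubgroup_antitone (le_sup_right : L ≤ F ⊔ L)) hs
  obtain ⟨α, hα0, hαF, hαM, hkum⟩ := exists_kum_eq (M := F ⊔ L) hζ hζF le_sup_left χ hχM
  have hne : (⟨α ^ p, hαF⟩ : ↥F) ≠ 0 := by
    intro h
    exact pow_ne_zero p hα0 (congrArg Subtype.val h)
  refine ⟨Units.mk0 ⟨α ^ p, hαF⟩ hne, ?_, ?_⟩
  · rw [mem_kumS_SF_iff]
    have hsub : F ⊔ IntermediateField.adjoin ℚ {α} ≤ F ⊔ L :=
      sup_le le_sup_left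
        (IntermediateField.adjoin_le_iff.2 (Set.singleton_subset_iff.2 hαM))
    have h1 := (Fermat.Agent.S55.helper4709.isUnramifiedOutside_sup_adjoin_root_iff hF p hpS α
      hαF hα0).1 (hM.of_le hsub)
    intro q hq A hA
    obtain ⟨b, hbF, hb0, hv⟩ := h1 q hq A hA
    have hbne : (⟨b, hbF⟩ : ↥F) ≠ 0 := by
      intro h
      exact hb0 (congrArg Subtype.val h)
    refine ⟨Units.mk0 ⟨b, hbF⟩ hbne, ?_⟩
    have h2 : algebraMap (↥F) Qbar
        (((Units.mk0 (⟨α ^ p, hαF⟩ : ↥F) hne : (↥F)ˣ) : ↥F)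
          / ((Units.mk0 (⟨b, hbF⟩ : ↥F) hbne : (↥F)ˣ) : ↥F) ^ p) = α ^ p / b ^ p := by
      rw [map_div₀, map_pow]
      rfl
    rw [h2]
    exact hv
  · rw [kumHom_eq hζ hζF _ hα0 rfl]
    exact hkum

/-- The image of the `S`-Kummer group under the Kummer homomorphism is the set of `S`-level
characters. -/
theorem map_kumHom_eq (hF : F.IsUnramifiedOutside S)
    (hpS : ∀ q : Nat.Primes, (q : ℕ) ∣ p → q ∈ S)
    (hζ : IsPrimitiveRoot ζ p) (hζF : ζ ∈ F)
    (χ : Multiplicative (Additive ↥F.fixingSubgroup →+ ZMod p)) :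
    χ ∈ (kumS (𝓞 F) F (SF F S : Set (IsDedekindDomain.HeightOneSpectrum (𝓞 F))) p).map
        (kumHom hζ hζF) ↔ Multiplicative.toAdd χ ∈ levChars S p F := by
  constructor
  · rintro ⟨a, ha, rfl⟩
    exact kumHom_mem_levChars hF hpS hζ hζF a ha
  · intro h
    obtain ⟨a, ha, hae⟩ := exists_kumHom_eq hF hpS hζ hζF _ h
    exact ⟨a, ha, hae⟩

/-- **The count of `S`-level characters.** -/
theorem card_levChars (hF : F.IsUnramifiedOutside S)
    (hpS : ∀ q : Nat.Primes, (q : ℕ) ∣ p → q ∈ S) (hp2 : p ≠ 2)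
    (hζ : IsPrimitiveRoot ζ p) (hζF : ζ ∈ F) :
    Nat.card ↥(levChars S p F) = p ^ (Module.finrank ℚ F / 2 + (SF F S).card
      + clSRank (𝓞 F) F (SF F S : Set (IsDedekindDomain.HeightOneSpectrum (𝓞 F))) p) := by
  have hζ' : IsPrimitiveRoot (⟨ζ, hζF⟩ : ↥F) p :=
    IsPrimitiveRoot.of_map_of_injective (f := algebraMap (↥F) Qbar) hζ
      (FaithfulSMul.algebraMap_injective (↥F) Qbar)
  have hker : (kumHom hζ hζF).ker = powSub (↥F)ˣ p := kumHom_ker hζ hζF
  rw [← relIndex_powSub_kumS_SF F S hp2 hζ', ← hker, Subgroup.relIndex_ker]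
  exact Nat.card_congr (Equiv.subtypeEquiv Multiplicative.ofAdd
    (fun χ => (map_kumHom_eq hF hpS hζ hζF (Multiplicative.ofAdd χ)).symm))

end Image

section Final

open Fermat.Agent.S55.helper9292 Fermat.Agent.Lib.helper54
open scoped NumberField

attribute [local instance] numberField_intermediate

variable {S : Finset Nat.Primes} {p : ℕ} {F : IntermediateField ℚ Qbar} [FiniteDimensional ℚ F]

/-- **GB-H1FIELD, cardinality form.** -/
theorem card_fieldH1 (h : IsSFieldZeta S p F) :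
    Nat.card ↥(fieldH1 S p F) = p ^ (Module.finrank ℚ F / 2 + nPl S F
      + clSRank (𝓞 F) F (SF F S : Set (IsDedekindDomain.HeightOneSpectrum (𝓞 F))) p) := by
  have : Fact p.Prime := ⟨h.prime⟩
  obtain ⟨q0, hq0S, hq0⟩ := h.mem
  obtain ⟨ζ, hζF, hζ⟩ := h.zeta
  have hpS : ∀ q : Nat.Primes, (q : ℕ) ∣ p → q ∈ S := by
    intro q hq
    have h1 : (q : ℕ) = p := (Nat.prime_dvd_prime_iff_eq q.2 h.prime).1 hq
    have h2 : q = q0 := Subtype.ext (h1.trans hq0.symm)
    rw [h2]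
    exact hq0S
  rw [card_fieldH1_eq_card_levChars, card_levChars h.unram hpS h.odd hζ hζF, card_SF]
  rfl

/-- **GB-H1FIELD, finiteness.** -/
theorem finite_fieldH1 (h : IsSFieldZeta S p F) : Module.Finite (ZMod p) ↥(fieldH1 S p F) := by
  have : Fact p.Prime := ⟨h.prime⟩
  have hc := card_fieldH1 h
  have hpos : Nat.card ↥(fieldH1 S p F) ≠ 0 := by
    rw [hc]
    exact pow_ne_zero _ h.prime.ne_zero
  have : Finite ↥(fieldH1 S p F) := Nat.finite_of_card_ne_zero hpos
  exact Module.Finite.of_finite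

/-- **GB-H1FIELD, exact rank** `h¹ = [F:ℚ]/2 + nPl + c`, `c = clSRank`. -/
theorem finrank_fieldH1 (h : IsSFieldZeta S p F) :
    Module.finrank (ZMod p) ↥(fieldH1 S p F) = Module.finrank ℚ F / 2 + nPl S F
      + clSRank (𝓞 F) F (SF F S : Set (IsDedekindDomain.HeightOneSpectrum (𝓞 F))) p := by
  have : Fact p.Prime := ⟨h.prime⟩
  have := finite_fieldH1 h
  have hc := card_fieldH1 h
  rw [Module.natCard_eq_pow_finrank (K := ZMod p) (V := ↥(fieldH1 S p F)), Nat.card_zmod] at hc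
  exact Nat.pow_right_injective h.prime.two_le hc

/-- **GB-H1FIELD, doubled exact rank** `2 h¹ = [F:ℚ] + 2 (nPl + c)`, `c = clSRank`. -/
theorem two_mul_finrank_fieldH1 (h : IsSFieldZeta S p F) :
    2 * Module.finrank (ZMod p) ↥(fieldH1 S p F) = Module.finrank ℚ F + 2 * (nPl S F
      + clSRank (𝓞 F) F (SF F S : Set (IsDedekindDomain.HeightOneSpectrum (𝓞 F))) p) := by
  have : Fact p.Prime := ⟨h.prime⟩
  obtain ⟨ζ, hζF, hζ⟩ := h.zeta
  have hζ' : IsPrimitiveRoot (⟨ζ, hζF⟩ : ↥F) p :=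
    IsPrimitiveRoot.of_map_of_injective (f := algebraMap (↥F) Qbar) hζ
      (FaithfulSMul.algebraMap_injective (↥F) Qbar)
  have hp2 : 2 < p := lt_of_le_of_ne h.prime.two_le (Ne.symm h.odd)
  have heven := two_mul_rank_add_one hp2 hζ'
  rw [finrank_fieldH1 h]
  omega

end Final

end Fermat.Agent.S55.helper324
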