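import Mathlib
import Fermat.Prelude.Def_GroupCohomology_ContinuousUnramified

set_option autoImplicit false

universe u

open CategoryTheory

noncomputable section

namespace Fermat.Agent.S55.helper5550

open groupCohomology

/-! ## Abstract prism identity (no group structure) -/

theorem prism_identity {X Y A : Type*} [AddCommGroup A] (F : X → X → X → A)
    (hF : ∀ x0 x1 x2 x3, F x1 x2 x3 - F x0 x2 x3 + F x0 x1 x3 - F x0 x1 x2 = 0)
    (β : Y → Y → A) (s : X → Y) (i : Y → X)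
    (hβ : ∀ y0 y1 y2, F (i y0) (i y1) (i y2) = β y1 y2 - β y0 y2 + β y0 y1) (x0 x1 x2 : X) :
    F x0 x1 x2 =
      (β (s x1) (s x2) - F x1 (i (s x1)) (i (s x2)) + F x1 x2 (i (s x2)))
      - (β (s x0) (s x2) - F x0 (i (s x0)) (i (s x2)) + F x0 x2 (i (s x2)))
      + (β (s x0) (s x1) - F x0 (i (s x0)) (i (s x1)) + F x0 x1 (i (s x1))) := by
  have a := hF x0 x1 x2 (i (s x2))
  have b := hF x0 x1 (i (s x1)) (i (s x2))
  have c := hF x0 (i (s x0)) (i (s x1)) (i (s x2))
  have d := hβ (s x0) (s x1) (s x2)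
  linear_combination (norm := abel) b - a - c + d

/-! ## Equivariant retraction `G → H` -/

theorem exists_retraction {G : Type*} [Group G] (H : Subgroup G) :
    ∃ s : G → H, (∀ (h : H) (g : G), s (h * g) = h * s g) ∧ s 1 = 1 := by
  classical
  let q : G → Quotient (QuotientGroup.rightRel H) := Quotient.mk _
  have hq : ∀ (h : H) (g : G), q (h * g) = q g := by
    intro h g
    apply Quotient.sound
    show (QuotientGroup.rightRel H) (h * g) g
    rw [QuotientGroup.rightRel_apply]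
    simp
  let t : G → G := fun g => (q g).out
  have ht : ∀ g, g * (t g)⁻¹ ∈ H := by
    intro g
    have : (QuotientGroup.rightRel H) (t g) g := Quotient.mk_out (s := QuotientGroup.rightRel H) g
    rwa [QuotientGroup.rightRel_apply] at this
  let s0 : G → H := fun g => ⟨g * (t g)⁻¹, ht g⟩
  have hs0 : ∀ (h : H) (g : G), s0 (h * g) = h * s0 g := by
    intro h g
    apply Subtype.ext
    simp only [s0, t, hq, Subgroup.coe_mul, mul_assoc]
  refine ⟨fun g => s0 g * (s0 1)⁻¹, fun h g => ?_, ?_⟩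
  · simp only [hs0, mul_assoc]
  · simp

/-! ## Coinduced module: cochain maps -/

section Coind

variable {k G : Type u} [CommRing k] [Group G] (H : Subgroup G) (N : Rep.{u} k H)

/-- Evaluation at `1`. -/
def ev : (Rep.coind H.subtype N) →ₗ[k] N :=
  LinearMap.proj 1 ∘ₗ (Representation.coindV H.subtype N.ρ).subtype

lemma ev_apply (f : Rep.coind H.subtype N) : ev H N f = f.1 1 := rfl

lemma coind_ρ_apply (g : G) (f : Rep.coind H.subtype N) (x : G) :
    ((Rep.coind H.subtype N).ρ g f).1 x = f.1 (x * g) := rfl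

lemma coind_val_mul (f : Rep.coind H.subtype N) (h : H) (x : G) :
    f.1 (h * x) = N.ρ h (f.1 x) := f.2 h x

lemma ev_ρ (h : H) (f : Rep.coind H.subtype N) :
    ev H N ((Rep.coind H.subtype N).ρ (H.subtype h) f) = N.ρ h (ev H N f) := by
  rw [ev_apply, ev_apply, coind_ρ_apply, one_mul]
  have := coind_val_mul H N f h 1
  rwa [mul_one] at this

variable {H N}

/-- Induction of 1-cochains (function level). -/
def indFun₁ (s : G → H) (b : H → N) (g : G) (x : G) : N :=
  N.ρ (s x) (b ((s x)⁻¹ * s (x * g)))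

/-- Induction of 2-cochains (function level). -/
def indFun₂ (s : G → H) (b : H × H → N) (p : G × G) (x : G) : N :=
  N.ρ (s x) (b ((s x)⁻¹ * s (x * p.1), (s (x * p.1))⁻¹ * s (x * p.1 * p.2)))

lemma indFun₁_mem (s : G → H) (hs : ∀ (h : H) (g : G), s (h * g) = h * s g) (b : H → N) (g : G) :
    indFun₁ s b g ∈ Representation.coindV H.subtype N.ρ := by
  intro h x
  simp only [indFun₁, Subgroup.coe_subtype, mul_assoc, hs, mul_inv_rev, inv_mul_cancel_left,
    map_mul, Module.End.mul_apply]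

lemma indFun₂_mem (s : G → H) (hs : ∀ (h : H) (g : G), s (h * g) = h * s g) (b : H × H → N)
    (p : G × G) : indFun₂ s b p ∈ Representation.coindV H.subtype N.ρ := by
  intro h x
  simp only [indFun₂, Subgroup.coe_subtype, mul_assoc, hs, mul_inv_rev, inv_mul_cancel_left,
    map_mul, Module.End.mul_apply]

/-- Induction of 1-cochains. -/
def ind₁ (s : G → H) (hs : ∀ (h : H) (g : G), s (h * g) = h * s g) (b : H → N) :
    G → Rep.coind H.subtype N :=
  fun g => ⟨indFun₁ s b g, indFun₁_mem s hs b g⟩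

/-- Induction of 2-cochains. -/
def ind₂ (s : G → H) (hs : ∀ (h : H) (g : G), s (h * g) = h * s g) (b : H × H → N) :
    G × G → Rep.coind H.subtype N :=
  fun p => ⟨indFun₂ s b p, indFun₂_mem s hs b p⟩


lemma ind₁_val (s : G → H) (hs : ∀ (h : H) (g : G), s (h * g) = h * s g) (b : H → N)
    (g x : G) : (ind₁ s hs b g).1 x = N.ρ (s x) (b ((s x)⁻¹ * s (x * g))) := rfl

lemma ind₂_val (s : G → H) (hs : ∀ (h : H) (g : G), s (h * g) = h * s g) (b : H × H → N)
    (g₁ g₂ x : G) : (ind₂ s hs b (g₁, g₂)).1 x =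
      N.ρ (s x) (b ((s x)⁻¹ * s (x * g₁), (s (x * g₁))⁻¹ * s (x * g₁ * g₂))) := rfl

lemma coind_ext {f f' : Rep.coind H.subtype N} (h : ∀ x, f.1 x = f'.1 x) : f = f' :=
  Subtype.ext (funext h)

lemma d₁₂_coind_val (c : G → Rep.coind H.subtype N) (g₁ g₂ x : G) :
    ((d₁₂ (Rep.coind H.subtype N)).hom c (g₁, g₂)).1 x =
      (c g₂).1 (x * g₁) - (c (g₁ * g₂)).1 x + (c g₁).1 x := rfl

lemma d₀₁_coind_val (f : Rep.coind H.subtype N) (g x : G) :
    ((d₀₁ (Rep.coind H.subtype N)).hom f g).1 x = f.1 (x * g) - f.1 x := rfl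

lemma mem_cocycles₂_coind_iff (c : G × G → Rep.coind H.subtype N) :
    c ∈ cocycles₂ (Rep.coind H.subtype N) ↔ ∀ g h j x : G,
      (c (g * h, j)).1 x + (c (g, h)).1 x = (c (h, j)).1 (x * g) + (c (g, h * j)).1 x := by
  rw [mem_cocycles₂_iff]
  constructor
  · intro hc g h j x
    exact congrArg (fun f : Rep.coind H.subtype N => f.1 x) (hc g h j)
  · intro hc g h j
    exact coind_ext (fun x => hc g h j x)

lemma mem_cocycles₁_coind_iff (c : G → Rep.coind H.subtype N) :
    c ∈ cocycles₁ (Rep.coind H.subtype N) ↔ ∀ g h x : G,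
      (c (g * h)).1 x = (c h).1 (x * g) + (c g).1 x := by
  rw [mem_cocycles₁_iff]
  constructor
  · intro hc g h x
    exact congrArg (fun f : Rep.coind H.subtype N => f.1 x) (hc g h)
  · intro hc g h
    exact coind_ext (fun x => hc g h x)

/-- `ind` is a cochain map in degree 1 → 2. -/
theorem d₁₂_ind₁ (s : G → H) (hs : ∀ (h : H) (g : G), s (h * g) = h * s g) (b : H → N) :
    (d₁₂ (Rep.coind H.subtype N)).hom (ind₁ s hs b) = ind₂ s hs ((d₁₂ N).hom b) := by
  funext ⟨g₁, g₂⟩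
  apply coind_ext
  intro x
  rw [d₁₂_coind_val, ind₂_val, d₁₂_hom_apply]
  simp only [ind₁_val, map_add, map_sub]
  rw [← Module.End.mul_apply, ← map_mul, mul_inv_cancel_left]
  simp only [mul_assoc, mul_inv_cancel_left]

/-- `ind` preserves 2-cocycles. -/
theorem ind₂_mem_cocycles₂ (s : G → H) (hs : ∀ (h : H) (g : G), s (h * g) = h * s g)
    {b : H × H → N} (hb : b ∈ cocycles₂ N) : ind₂ s hs b ∈ cocycles₂ (Rep.coind H.subtype N) := by
  rw [mem_cocycles₂_coind_iff]
  rw [mem_cocycles₂_iff] at hb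
  intro g h j x
  simp only [ind₂_val]
  have := congrArg (N.ρ (s x)) (hb ((s x)⁻¹ * s (x * g)) ((s (x * g))⁻¹ * s (x * g * h))
    ((s (x * g * h))⁻¹ * s (x * g * h * j)))
  simp only [map_add, mul_assoc, mul_inv_cancel_left] at this
  rw [← Module.End.mul_apply, ← map_mul, mul_inv_cancel_left] at this
  simpa only [mul_assoc] using this

/-- `ind` preserves 1-cocycles. -/
theorem ind₁_mem_cocycles₁ (s : G → H) (hs : ∀ (h : H) (g : G), s (h * g) = h * s g)
    {b : H → N} (hb : b ∈ cocycles₁ N) : ind₁ s hs b ∈ cocycles₁ (Rep.coind H.subtype N) := by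
  have hb' : (d₁₂ N).hom b = 0 := hb
  show (d₁₂ (Rep.coind H.subtype N)).hom (ind₁ s hs b) = 0
  rw [d₁₂_ind₁, hb']
  funext ⟨g₁, g₂⟩
  apply coind_ext
  intro x
  rw [ind₂_val]
  show N.ρ (s x) 0 = 0
  exact map_zero _

/-- Restriction `C¹(G, coind N) → C¹(H, N)`. -/
abbrev sh₁ (H : Subgroup G) (N : Rep.{u} k H) : (G → Rep.coind H.subtype N) →ₗ[k] (H → N) :=
  cochainsPullPush₁ H.subtype (ev H N)

/-- Restriction `C²(G, coind N) → C²(H, N)`. -/
abbrev sh₂ (H : Subgroup G) (N : Rep.{u} k H) :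
    (G × G → Rep.coind H.subtype N) →ₗ[k] (H × H → N) :=
  cochainsPullPush₂ H.subtype (ev H N)

lemma sh₁_apply (c : G → Rep.coind H.subtype N) (h : H) : sh₁ H N c h = (c h).1 1 := rfl

lemma sh₂_apply (c : G × G → Rep.coind H.subtype N) (h h' : H) :
    sh₂ H N c (h, h') = (c (h, h')).1 1 := rfl

lemma retraction_coe {s : G → H} (hs : ∀ (h : H) (g : G), s (h * g) = h * s g) (hs1 : s 1 = 1)
    (h : H) : s h = h := by
  have := hs h 1
  rwa [mul_one, hs1, mul_one] at this

theorem sh₁_ind₁ (s : G → H) (hs : ∀ (h : H) (g : G), s (h * g) = h * s g) (hs1 : s 1 = 1)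
    (b : H → N) : sh₁ H N (ind₁ s hs b) = b := by
  funext h
  rw [sh₁_apply, ind₁_val, one_mul, hs1, retraction_coe hs hs1]
  simp

theorem sh₂_ind₂ (s : G → H) (hs : ∀ (h : H) (g : G), s (h * g) = h * s g) (hs1 : s 1 = 1)
    (b : H × H → N) : sh₂ H N (ind₂ s hs b) = b := by
  funext ⟨h, h'⟩
  rw [sh₂_apply, ind₂_val, one_mul, hs1, retraction_coe hs hs1]
  have : s (↑h * ↑h') = h * h' := by
    have := retraction_coe hs hs1 (h * h')
    rwa [Subgroup.coe_mul] at this
  rw [this]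
  simp


/-! ### Degree 0 and injectivity in degree 1 -/

theorem ev_mem_invariants {f : Rep.coind H.subtype N}
    (hf : f ∈ Representation.invariants (Rep.coind H.subtype N).ρ) :
    ev H N f ∈ Representation.invariants N.ρ := by
  intro h
  rw [← ev_ρ, hf (H.subtype h)]

theorem eq_zero_of_ev_eq_zero {f : Rep.coind H.subtype N}
    (hf : f ∈ Representation.invariants (Rep.coind H.subtype N).ρ) (h0 : ev H N f = 0) : f = 0 := by
  apply coind_ext
  intro x
  have h1 : ((Rep.coind H.subtype N).ρ x f).1 1 = f.1 1 := by rw [hf x]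
  rw [coind_ρ_apply, one_mul] at h1
  rw [h1]
  exact h0

theorem exists_invariant_ev_eq {n : N} (hn : n ∈ Representation.invariants N.ρ) :
    ∃ f : Rep.coind H.subtype N,
      f ∈ Representation.invariants (Rep.coind H.subtype N).ρ ∧ ev H N f = n := by
  refine ⟨⟨fun _ => n, fun h _ => (hn h).symm⟩, fun g => ?_, rfl⟩
  apply coind_ext
  intro x
  rfl

/-- Shapiro in degree 0: `ev` induces a linear equivalence on invariants. -/
def invariantsEquiv :
    Representation.invariants (Rep.coind H.subtype N).ρ ≃ₗ[k] Representation.invariants N.ρ :=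
  LinearEquiv.ofBijective
    ((ev H N).restrict (fun _ hf => ev_mem_invariants hf))
    ⟨by
      rw [← LinearMap.ker_eq_bot, LinearMap.ker_eq_bot']
      intro f hf
      exact Subtype.ext (eq_zero_of_ev_eq_zero f.2 (congrArg Subtype.val hf)),
     fun n => by
      obtain ⟨f, hf, hfn⟩ := exists_invariant_ev_eq n.2
      exact ⟨⟨f, hf⟩, Subtype.ext hfn⟩⟩

lemma invariantsEquiv_apply (f : Representation.invariants (Rep.coind H.subtype N).ρ) :
    (invariantsEquiv (H := H) (N := N) f : N) = (f : Rep.coind H.subtype N).1 1 := rfl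

/-- Shapiro, injectivity in degree 1 (no level hypothesis is needed: the primitive is a
0-cochain). -/
theorem exists_d₀₁_eq_of_sh₁ {c : G → Rep.coind H.subtype N}
    (hc : c ∈ cocycles₁ (Rep.coind H.subtype N)) (n : N)
    (hn : sh₁ H N c = (d₀₁ N).hom n) :
    ∃ f : Rep.coind H.subtype N, (d₀₁ (Rep.coind H.subtype N)).hom f = c := by
  rw [mem_cocycles₁_coind_iff] at hc
  have hn' : ∀ h : H, (c h).1 1 = N.ρ h n - n := fun h => by
    have := congrFun hn h
    rwa [sh₁_apply, d₀₁_hom_apply] at this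
  have hmem : (fun x : G => (c x).1 1 + n) ∈ Representation.coindV H.subtype N.ρ := by
    intro h x
    show (c (↑h * x)).1 1 + n = N.ρ h ((c x).1 1 + n)
    rw [hc, hn', one_mul, map_add]
    have := coind_val_mul H N (c x) h 1
    rw [mul_one] at this
    rw [this]
    abel
  refine ⟨⟨_, hmem⟩, ?_⟩
  funext g
  apply coind_ext
  intro x
  rw [d₀₁_coind_val]
  show (c (x * g)).1 1 + n - ((c x).1 1 + n) = (c g).1 x
  rw [hc, one_mul]
  abel

theorem mem_coboundaries₁_of_sh₁ {c : G → Rep.coind H.subtype N}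
    (hc : c ∈ cocycles₁ (Rep.coind H.subtype N))
    (hn : sh₁ H N c ∈ coboundaries₁ N) : c ∈ coboundaries₁ (Rep.coind H.subtype N) := by
  obtain ⟨n, hn⟩ := hn
  obtain ⟨f, hf⟩ := exists_d₀₁_eq_of_sh₁ hc n hn.symm
  exact ⟨f, hf⟩

/-! ### Injectivity in degree 2: the explicit primitive -/

/-- Homogeneous form of a 2-cochain with values in the coinduced module. -/
def hom₂ (c : G × G → Rep.coind H.subtype N) (x0 x1 x2 : G) : N :=
  (c (x0⁻¹ * x1, x1⁻¹ * x2)).1 x0

/-- Homogeneous form of a 1-cochain of `H`. -/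
def homβ (β : H → N) (y0 y1 : H) : N := N.ρ y0 (β (y0⁻¹ * y1))

lemma hom₂_mul (c : G × G → Rep.coind H.subtype N) (h : H) (x0 x1 x2 : G) :
    hom₂ c (h * x0) (h * x1) (h * x2) = N.ρ h (hom₂ c x0 x1 x2) := by
  simp only [hom₂, mul_inv_rev, mul_assoc, inv_mul_cancel_left]
  exact coind_val_mul H N _ h x0

lemma homβ_mul (β : H → N) (h y0 y1 : H) :
    homβ β (h * y0) (h * y1) = N.ρ h (homβ β y0 y1) := by
  simp only [homβ, mul_inv_rev, mul_assoc, inv_mul_cancel_left, map_mul, Module.End.mul_apply]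

lemma hom₂_cocycle {c : G × G → Rep.coind H.subtype N}
    (hc : c ∈ cocycles₂ (Rep.coind H.subtype N)) (x0 x1 x2 x3 : G) :
    hom₂ c x1 x2 x3 - hom₂ c x0 x2 x3 + hom₂ c x0 x1 x3 - hom₂ c x0 x1 x2 = 0 := by
  rw [mem_cocycles₂_coind_iff] at hc
  have := hc (x0⁻¹ * x1) (x1⁻¹ * x2) (x2⁻¹ * x3) x0
  simp only [mul_assoc, mul_inv_cancel_left] at this
  simp only [hom₂]
  linear_combination (norm := abel) -this

lemma hom₂_eq (c : G × G → Rep.coind H.subtype N) (g₁ g₂ x : G) :
    (c (g₁, g₂)).1 x = hom₂ c x (x * g₁) (x * g₁ * g₂) := by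
  simp only [hom₂, mul_assoc, inv_mul_cancel_left, mul_inv_rev]

lemma hom₂_coe {c : G × G → Rep.coind H.subtype N} {β : H → N}
    (hβ : sh₂ H N c = (d₁₂ N).hom β) (y0 y1 y2 : H) :
    hom₂ c y0 y1 y2 = homβ β y1 y2 - homβ β y0 y2 + homβ β y0 y1 := by
  have h1 : hom₂ c y0 y1 y2 = N.ρ y0 (sh₂ H N c (y0⁻¹ * y1, y1⁻¹ * y2)) := by
    rw [sh₂_apply]
    have := coind_val_mul H N (c (↑(y0⁻¹ * y1), ↑(y1⁻¹ * y2))) y0 1
    rw [mul_one] at this
    rw [← this]
    simp only [hom₂, Subgroup.coe_mul, Subgroup.coe_inv]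
  rw [h1, hβ, d₁₂_hom_apply]
  simp only [homβ, map_add, map_sub, ← Module.End.mul_apply, ← map_mul, mul_assoc,
    mul_inv_cancel_left]

/-- The explicit primitive (function level). -/
def primFun (s : G → H) (c : G × G → Rep.coind H.subtype N) (β : H → N) (g x : G) : N :=
  homβ β (s x) (s (x * g)) - hom₂ c x (s x) (s (x * g)) + hom₂ c x (x * g) (s (x * g))

lemma primFun_mem (s : G → H) (hs : ∀ (h : H) (g : G), s (h * g) = h * s g)
    (c : G × G → Rep.coind H.subtype N) (β : H → N) (g : G) :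
    primFun s c β g ∈ Representation.coindV H.subtype N.ρ := by
  intro h x
  simp only [primFun, Subgroup.coe_subtype, mul_assoc, hs, Subgroup.coe_mul, homβ_mul, hom₂_mul,
    map_add, map_sub]

/-- The explicit primitive. -/
def prim (s : G → H) (hs : ∀ (h : H) (g : G), s (h * g) = h * s g)
    (c : G × G → Rep.coind H.subtype N) (β : H → N) : G → Rep.coind H.subtype N :=
  fun g => ⟨primFun s c β g, primFun_mem s hs c β g⟩

lemma prim_val (s : G → H) (hs : ∀ (h : H) (g : G), s (h * g) = h * s g)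
    (c : G × G → Rep.coind H.subtype N) (β : H → N) (g x : G) :
    (prim s hs c β g).1 x =
      homβ β (s x) (s (x * g)) - hom₂ c x (s x) (s (x * g)) + hom₂ c x (x * g) (s (x * g)) := rfl

/-- Shapiro, injectivity in degree 2 with an explicit primitive. -/
theorem d₁₂_prim (s : G → H) (hs : ∀ (h : H) (g : G), s (h * g) = h * s g)
    {c : G × G → Rep.coind H.subtype N} (hc : c ∈ cocycles₂ (Rep.coind H.subtype N))
    {β : H → N} (hβ : sh₂ H N c = (d₁₂ N).hom β) :
    (d₁₂ (Rep.coind H.subtype N)).hom (prim s hs c β) = c := by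
  funext ⟨g₁, g₂⟩
  apply coind_ext
  intro x
  rw [d₁₂_coind_val, hom₂_eq, prim_val, prim_val, prim_val]
  have := prism_identity (hom₂ c) (hom₂_cocycle hc) (homβ β) s (fun y : H => (y : G))
    (hom₂_coe hβ) x (x * g₁) (x * g₁ * g₂)
  simp only [mul_assoc] at this ⊢
  exact this.symm


/-! ### Level invariance -/

/-- Right-invariance of a 1-cochain under a subgroup. -/
def RInv₁ {Γ X : Type*} [Group Γ] (U : Subgroup Γ) (f : Γ → X) : Prop :=
  ∀ g s : Γ, s ∈ U → f (g * s) = f g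

/-- Right-invariance of a 2-cochain under a subgroup. -/
def RInv₂ {Γ X : Type*} [Group Γ] (U : Subgroup Γ) (f : Γ × Γ → X) : Prop :=
  ∀ g g' s s' : Γ, s ∈ U → s' ∈ U → f (g * s, g' * s') = f (g, g')

lemma RInv₁.eq_of_mem {Γ X : Type*} [Group Γ] {U : Subgroup Γ} {f : Γ → X} (hf : RInv₁ U f)
    {a a' : Γ} (h : a⁻¹ * a' ∈ U) : f a' = f a := by
  have := hf a (a⁻¹ * a') h
  rwa [mul_inv_cancel_left] at this

lemma RInv₂.eq_of_mem {Γ X : Type*} [Group Γ] {U : Subgroup Γ} {f : Γ × Γ → X} (hf : RInv₂ U f)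
    {a a' b b' : Γ} (h : a⁻¹ * a' ∈ U) (h' : b⁻¹ * b' ∈ U) : f (a', b') = f (a, b) := by
  have := hf a b (a⁻¹ * a') (b⁻¹ * b') h h'
  rwa [mul_inv_cancel_left, mul_inv_cancel_left] at this

lemma RInv₁.mono {Γ X : Type*} [Group Γ] {U V : Subgroup Γ} (hVU : V ≤ U) {f : Γ → X}
    (hf : RInv₁ U f) : RInv₁ V f := fun g s hs => hf g s (hVU hs)

lemma RInv₂.mono {Γ X : Type*} [Group Γ] {U V : Subgroup Γ} (hVU : V ≤ U) {f : Γ × Γ → X}
    (hf : RInv₂ U f) : RInv₂ V f := fun g g' s s' hs hs' => hf g g' s s' (hVU hs) (hVU hs')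

lemma retraction_mul_mem {s : G → H} (hs : ∀ (h : H) (g : G), s (h * g) = h * s g)
    {U : Subgroup G} [hU : U.Normal] (hUH : U ≤ H) (y : G) {u : G} (hu : u ∈ U) :
    ((s y : G))⁻¹ * (s (y * u) : G) ∈ U := by
  have hm : y * u * y⁻¹ ∈ U := hU.conj_mem u hu y
  have e : y * u = ((⟨y * u * y⁻¹, hUH hm⟩ : H) : G) * y := by simp
  rw [e, hs]
  have := hU.conj_mem _ hm ((s y : G)⁻¹)
  simpa [mul_assoc] using this

lemma retraction_quot_eq {s : G → H} (hs : ∀ (h : H) (g : G), s (h * g) = h * s g)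
    {U : Subgroup G} [hU : U.Normal] (hUH : U ≤ H) {y y' : G} (h : y⁻¹ * y' ∈ U) :
    ((s y' : G) : G ⧸ U) = ((s y : G) : G ⧸ U) := by
  have := retraction_mul_mem hs hUH y h
  rw [mul_inv_cancel_left] at this
  exact (QuotientGroup.eq.2 this).symm

theorem ind₁_rinv (s : G → H) (hs : ∀ (h : H) (g : G), s (h * g) = h * s g)
    {U : Subgroup G} [hU : U.Normal] (hUH : U ≤ H) {b : H → N}
    (hb : RInv₁ (U.subgroupOf H) b) : RInv₁ U (ind₁ s hs b) := by
  intro g u hu
  apply coind_ext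
  intro x
  rw [ind₁_val, ind₁_val]
  have h1 : ((s (x * (g * u)) : G) : G ⧸ U) = ((s (x * g) : G) : G ⧸ U) :=
    retraction_quot_eq hs hUH (by simpa [mul_assoc] using hu)
  have : b ((s x)⁻¹ * s (x * (g * u))) = b ((s x)⁻¹ * s (x * g)) := by
    apply hb.eq_of_mem
    rw [Subgroup.mem_subgroupOf, ← QuotientGroup.eq_one_iff]
    simp only [Subgroup.coe_mul, Subgroup.coe_inv, QuotientGroup.mk_mul, QuotientGroup.mk_inv, h1]
    group
  rw [this]

theorem ind₂_rinv (s : G → H) (hs : ∀ (h : H) (g : G), s (h * g) = h * s g)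
    {U : Subgroup G} [hU : U.Normal] (hUH : U ≤ H) {b : H × H → N}
    (hb : RInv₂ (U.subgroupOf H) b) : RInv₂ U (ind₂ s hs b) := by
  intro g g' u u' hu hu'
  apply coind_ext
  intro x
  rw [ind₂_val, ind₂_val]
  have h1 : ((s (x * (g * u)) : G) : G ⧸ U) = ((s (x * g) : G) : G ⧸ U) :=
    retraction_quot_eq hs hUH (by simpa [mul_assoc] using hu)
  have h2 : ((s (x * (g * u) * (g' * u')) : G) : G ⧸ U) = ((s (x * g * g') : G) : G ⧸ U) := by
    apply retraction_quot_eq hs hUH
    have e : (x * g * g')⁻¹ * (x * (g * u) * (g' * u')) = g'⁻¹ * u * g'⁻¹⁻¹ * u' := by group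
    rw [e]
    exact U.mul_mem (hU.conj_mem u hu g'⁻¹) hu'
  have : b ((s x)⁻¹ * s (x * (g * u)), (s (x * (g * u)))⁻¹ * s (x * (g * u) * (g' * u'))) =
      b ((s x)⁻¹ * s (x * g), (s (x * g))⁻¹ * s (x * g * g')) := by
    apply hb.eq_of_mem
    · rw [Subgroup.mem_subgroupOf, ← QuotientGroup.eq_one_iff]
      simp only [Subgroup.coe_mul, Subgroup.coe_inv, QuotientGroup.mk_mul, QuotientGroup.mk_inv,
        h1]
      group
    · rw [Subgroup.mem_subgroupOf, ← QuotientGroup.eq_one_iff]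
      simp only [Subgroup.coe_mul, Subgroup.coe_inv, QuotientGroup.mk_mul, QuotientGroup.mk_inv,
        h1, h2]
      group
  rw [this]

theorem prim_rinv (s : G → H) (hs : ∀ (h : H) (g : G), s (h * g) = h * s g)
    {U : Subgroup G} [hU : U.Normal] (hUH : U ≤ H) {c : G × G → Rep.coind H.subtype N}
    (hc : RInv₂ U c) {β : H → N} (hβ : RInv₁ (U.subgroupOf H) β) :
    RInv₁ U (prim s hs c β) := by
  intro g u hu
  apply coind_ext
  intro x
  rw [prim_val, prim_val]
  have h1 : ((s (x * (g * u)) : G) : G ⧸ U) = ((s (x * g) : G) : G ⧸ U) :=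
    retraction_quot_eq hs hUH (by simpa [mul_assoc] using hu)
  have hu1 : (u : G ⧸ U) = 1 := (QuotientGroup.eq_one_iff u).2 hu
  have e1 : homβ β (s x) (s (x * (g * u))) = homβ β (s x) (s (x * g)) := by
    have : β ((s x)⁻¹ * s (x * (g * u))) = β ((s x)⁻¹ * s (x * g)) := by
      apply hβ.eq_of_mem
      rw [Subgroup.mem_subgroupOf, ← QuotientGroup.eq_one_iff]
      simp only [Subgroup.coe_mul, Subgroup.coe_inv, QuotientGroup.mk_mul, QuotientGroup.mk_inv,
        h1]
      group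
    simp only [homβ, this]
  have e2 : hom₂ c x (s x) (s (x * (g * u))) = hom₂ c x (s x) (s (x * g)) := by
    have : c (x⁻¹ * (s x : G), (s x : G)⁻¹ * (s (x * (g * u)) : G)) =
        c (x⁻¹ * (s x : G), (s x : G)⁻¹ * (s (x * g) : G)) := by
      apply hc.eq_of_mem
      · simp
      · rw [← QuotientGroup.eq_one_iff]
        simp only [QuotientGroup.mk_mul, QuotientGroup.mk_inv, h1]
        group
    simp only [hom₂, this]
  have e3 : hom₂ c x (x * (g * u)) (s (x * (g * u))) = hom₂ c x (x * g) (s (x * g)) := by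
    have : c (x⁻¹ * (x * (g * u)), (x * (g * u))⁻¹ * (s (x * (g * u)) : G)) =
        c (x⁻¹ * (x * g), (x * g)⁻¹ * (s (x * g) : G)) := by
      apply hc.eq_of_mem
      · simpa [mul_assoc] using hu
      · rw [← QuotientGroup.eq_one_iff]
        simp only [QuotientGroup.mk_mul, QuotientGroup.mk_inv, h1, hu1]
        group
    simp only [hom₂, this]
  rw [e1, e2, e3]

lemma sh₁_rinv {U : Subgroup G} {c : G → Rep.coind H.subtype N} (hc : RInv₁ U c) :
    RInv₁ (U.subgroupOf H) (sh₁ H N c) := by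
  intro h v hv
  rw [sh₁_apply, sh₁_apply, Subgroup.coe_mul, hc _ _ (Subgroup.mem_subgroupOf.1 hv)]

lemma sh₂_rinv {U : Subgroup G} {c : G × G → Rep.coind H.subtype N} (hc : RInv₂ U c) :
    RInv₂ (U.subgroupOf H) (sh₂ H N c) := by
  intro h h' v v' hv hv'
  rw [sh₂_apply, sh₂_apply, Subgroup.coe_mul, Subgroup.coe_mul,
    hc _ _ _ _ (Subgroup.mem_subgroupOf.1 hv) (Subgroup.mem_subgroupOf.1 hv')]

end Coind

end Fermat.Agent.S55.helper5550
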