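import Mathlib
import Fermat.Agent.S55.helper5550_Shapiro

set_option autoImplicit false

universe u

open CategoryTheory

noncomputable section

namespace Fermat.Agent.S55.helper5550

open groupCohomology

/-! ## Normal levels -/

/-- Every number field inside `ℚ̄` is contained in a finite one with normal fixing subgroup. -/
theorem exists_normal_level (F₁ : IntermediateField ℚ (AlgebraicClosure ℚ))
    [FiniteDimensional ℚ F₁] :
    ∃ F : IntermediateField ℚ (AlgebraicClosure ℚ), FiniteDimensional ℚ F ∧ F₁ ≤ F ∧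
      F.fixingSubgroup.Normal := by
  have : Algebra.IsAlgebraic ℚ (AlgebraicClosure ℚ) := AlgebraicClosure.isAlgebraic ℚ
  have : IsAlgClosure ℚ (AlgebraicClosure ℚ) := ⟨inferInstance, inferInstance⟩
  have : Normal ℚ (AlgebraicClosure ℚ) := IsAlgClosure.normal ℚ (AlgebraicClosure ℚ)
  have : IsGalois ℚ (AlgebraicClosure ℚ) := inferInstance
  refine ⟨IntermediateField.normalClosure ℚ F₁ (AlgebraicClosure ℚ), inferInstance,
    IntermediateField.le_normalClosure F₁, ?_⟩
  have : IsGalois ℚ (IntermediateField.normalClosure ℚ F₁ (AlgebraicClosure ℚ)) :=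
    isGalois_iff.2 ⟨inferInstance, normalClosure.normal ℚ (↥F₁) (AlgebraicClosure ℚ)⟩
  infer_instance

section Frozen

variable {k G : Type u} [CommRing k] [Group G]
  (r : G →* (AlgebraicClosure ℚ ≃ₐ[ℚ] AlgebraicClosure ℚ)) (H : Subgroup G) (N : Rep.{u} k H)

/-- `H` is open for the level structure defined by `r`. -/
def IsLevelOpen : Prop :=
  ∃ F₀ : IntermediateField ℚ (AlgebraicClosure ℚ), FiniteDimensional ℚ F₀ ∧
    F₀.fixingSubgroup.comap r ≤ H

variable {r H N}

/-- A common normal level inside `H` below a given level. -/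
theorem exists_normal_level_le (hH : IsLevelOpen r H)
    (F₁ : IntermediateField ℚ (AlgebraicClosure ℚ)) [FiniteDimensional ℚ F₁] :
    ∃ F : IntermediateField ℚ (AlgebraicClosure ℚ), FiniteDimensional ℚ F ∧ F₁ ≤ F ∧
      (F.fixingSubgroup.comap r).Normal ∧ F.fixingSubgroup.comap r ≤ H := by
  obtain ⟨F₀, hF₀, hF₀H⟩ := hH
  have := hF₀
  obtain ⟨F, hF, hle, hn⟩ := exists_normal_level (F₁ ⊔ F₀)
  refine ⟨F, hF, le_sup_left.trans hle, hn.comap r, ?_⟩
  exact (Subgroup.comap_mono (IntermediateField.fixingSubgroup_antitone (le_sup_right.trans hle))).trans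
    hF₀H

/-- Shapiro, surjectivity in degree 1 on level-constant cocycles. -/
theorem exists_levelCocycle₁_sh₁_eq (hH : IsLevelOpen r H) {b : H → N} (hb : b ∈ cocycles₁ N)
    (hbl : IsLevelConstant₁ (r.comp H.subtype) b) :
    ∃ c : G → Rep.coind H.subtype N, c ∈ cocycles₁ (Rep.coind H.subtype N) ∧
      IsLevelConstant₁ r c ∧ sh₁ H N c = b := by
  obtain ⟨F₁, hF₁, h1⟩ := hbl
  have := hF₁
  obtain ⟨F, hF, hle, hn, hUH⟩ := exists_normal_level_le hH F₁
  obtain ⟨s, hs, hs1⟩ := exists_retraction H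
  have := hn
  have hb' : RInv₁ ((F.fixingSubgroup.comap r).subgroupOf H) b := fun h v hv =>
    h1 h v (IntermediateField.fixingSubgroup_antitone hle hv)
  exact ⟨ind₁ s hs b, ind₁_mem_cocycles₁ s hs hb, ⟨F, hF, ind₁_rinv s hs hUH hb'⟩,
    sh₁_ind₁ s hs hs1 b⟩

/-- Shapiro, surjectivity in degree 2 on level-constant cocycles. -/
theorem exists_levelCocycle₂_sh₂_eq (hH : IsLevelOpen r H) {b : H × H → N}
    (hb : b ∈ levelCocycles₂ (r.comp H.subtype) N) :
    ∃ c : G × G → Rep.coind H.subtype N, c ∈ levelCocycles₂ r (Rep.coind H.subtype N) ∧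
      sh₂ H N c = b := by
  obtain ⟨hbc, F₁, hF₁, h1⟩ := hb
  have := hF₁
  obtain ⟨F, hF, hle, hn, hUH⟩ := exists_normal_level_le hH F₁
  obtain ⟨s, hs, hs1⟩ := exists_retraction H
  have := hn
  have hb' : RInv₂ ((F.fixingSubgroup.comap r).subgroupOf H) b := fun h h' v v' hv hv' =>
    h1 h h' v v' (IntermediateField.fixingSubgroup_antitone hle hv)
      (IntermediateField.fixingSubgroup_antitone hle hv')
  exact ⟨ind₂ s hs b, ⟨ind₂_mem_cocycles₂ s hs hbc, ⟨F, hF, ind₂_rinv s hs hUH hb'⟩⟩,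
    sh₂_ind₂ s hs hs1 b⟩

/-- Shapiro, injectivity in degree 2 on level-constant cochains. -/
theorem mem_levelCoboundaries₂_of_sh₂ (hH : IsLevelOpen r H)
    {c : G × G → Rep.coind H.subtype N} (hc : c ∈ levelCocycles₂ r (Rep.coind H.subtype N))
    (hsh : sh₂ H N c ∈ levelCoboundaries₂ (r.comp H.subtype) N) :
    c ∈ levelCoboundaries₂ r (Rep.coind H.subtype N) := by
  obtain ⟨hcc, F₁, hF₁, h1⟩ := hc
  obtain ⟨β, ⟨F₂, hF₂, h2⟩, hβ⟩ := (mem_levelCoboundaries₂_iff _ _ _).1 hsh
  have := hF₁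
  have := hF₂
  obtain ⟨F, hF, hle, hn, hUH⟩ := exists_normal_level_le hH (F₁ ⊔ F₂)
  obtain ⟨s, hs, -⟩ := exists_retraction H
  have := hn
  have hc' : RInv₂ (F.fixingSubgroup.comap r) c := fun g g' v v' hv hv' =>
    h1 g g' v v' (IntermediateField.fixingSubgroup_antitone (le_sup_left.trans hle) hv)
      (IntermediateField.fixingSubgroup_antitone (le_sup_left.trans hle) hv')
  have hβ' : RInv₁ ((F.fixingSubgroup.comap r).subgroupOf H) β := fun h v hv =>
    h2 h v (IntermediateField.fixingSubgroup_antitone (le_sup_right.trans hle) hv)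
  exact (mem_levelCoboundaries₂_iff _ _ _).2
    ⟨prim s hs c β, ⟨F, hF, prim_rinv s hs hUH hc' hβ'⟩, d₁₂_prim s hs hcc hβ.symm⟩

variable (r H N)

/-- The Shapiro map on the frozen `continuousH2` carriers. -/
def shapiroH2Map :
    continuousH2 r (Rep.coind H.subtype N) →ₗ[k] continuousH2 (r.comp H.subtype) N :=
  continuousH2Map (rH := r) (rG := r.comp H.subtype) H.subtype (fun _ => rfl) (ev H N) (ev_ρ H N)

variable {r H N}

theorem shapiroH2Map_injective (hH : IsLevelOpen r H) :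
    Function.Injective (shapiroH2Map r H N) := by
  rw [← LinearMap.ker_eq_bot, LinearMap.ker_eq_bot']
  intro x hx
  obtain ⟨c, rfl⟩ := Submodule.mkQ_surjective _ x
  change continuousH2Map _ _ _ _ (continuousH2π r _ c) = 0 at hx
  rw [continuousH2Map_continuousH2π, continuousH2π_eq_zero_iff] at hx
  exact (continuousH2π_eq_zero_iff r _ c).2 (mem_levelCoboundaries₂_of_sh₂ hH c.2 hx)

theorem shapiroH2Map_surjective (hH : IsLevelOpen r H) :
    Function.Surjective (shapiroH2Map r H N) := by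
  intro y
  obtain ⟨b, rfl⟩ := Submodule.mkQ_surjective _ y
  obtain ⟨c, hc, hcb⟩ := exists_levelCocycle₂_sh₂_eq hH b.2
  refine ⟨continuousH2π r _ ⟨c, hc⟩, ?_⟩
  change continuousH2Map _ _ _ _ (continuousH2π r _ ⟨c, hc⟩) = _
  rw [continuousH2Map_continuousH2π]
  congr 1
  exact Subtype.ext hcb

/-- **Shapiro's lemma in degree 2 on the frozen carriers.** -/
def shapiroH2Equiv (hH : IsLevelOpen r H) :
    continuousH2 r (Rep.coind H.subtype N) ≃ₗ[k] continuousH2 (r.comp H.subtype) N :=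
  LinearEquiv.ofBijective (shapiroH2Map r H N)
    ⟨shapiroH2Map_injective hH, shapiroH2Map_surjective hH⟩


/-! ### Degree 1 on the frozen carriers -/

variable (H N)

/-- The counit `Res (coind N) ⟶ N` (evaluation at `1`) as a morphism of representations. -/
def evHom : Rep.res H.subtype (Rep.coind H.subtype N) ⟶ N :=
  Rep.ofHom ⟨ev H N, fun h => LinearMap.ext fun f => ev_ρ H N h f⟩

lemma evHom_apply (f : Rep.coind H.subtype N) : (evHom H N).hom f = f.1 1 := rfl

/-- The Shapiro map in degree 1 (Mathlib's functoriality applied to the counit). -/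
def shapiroH1Map : H1 (Rep.coind H.subtype N) →ₗ[k] H1 N :=
  (groupCohomology.map H.subtype (evHom H N) 1).hom

variable {H N}

lemma sh₁_mem_cocycles₁ {c : G → Rep.coind H.subtype N}
    (hc : c ∈ cocycles₁ (Rep.coind H.subtype N)) : sh₁ H N c ∈ cocycles₁ N := by
  rw [mem_cocycles₁_iff] at hc ⊢
  intro h h'
  rw [sh₁_apply, sh₁_apply, sh₁_apply, Subgroup.coe_mul, hc, ← ev_apply, ← ev_apply, ← ev_apply,
    map_add]
  congr 1
  exact ev_ρ H N h _

lemma shapiroH1Map_H1π (c : cocycles₁ (Rep.coind H.subtype N)) :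
    shapiroH1Map H N (H1π _ c) = H1π N ⟨sh₁ H N c, sh₁_mem_cocycles₁ c.2⟩ := by
  have := H1π_comp_map_apply (H.subtype) (evHom H N) c
  rw [shapiroH1Map]
  refine this.trans ?_
  congr 1


theorem shapiroH1Map_injective : Function.Injective (shapiroH1Map H N) := by
  rw [← LinearMap.ker_eq_bot, LinearMap.ker_eq_bot']
  intro x
  refine H1_induction_on x (fun c hx => ?_)
  rw [shapiroH1Map_H1π, H1π_eq_zero_iff] at hx
  exact (H1π_eq_zero_iff c).2 (mem_coboundaries₁_of_sh₁ c.2 hx)

theorem shapiroH1Map_surjective : Function.Surjective (shapiroH1Map H N) := by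
  intro y
  refine H1_induction_on y (fun b => ?_)
  obtain ⟨s, hs, hs1⟩ := exists_retraction H
  refine ⟨H1π _ ⟨ind₁ s hs b, ind₁_mem_cocycles₁ s hs b.2⟩, ?_⟩
  rw [shapiroH1Map_H1π]
  congr 1
  exact Subtype.ext (sh₁_ind₁ s hs hs1 b)

variable (H N) in
/-- **Shapiro's lemma in degree 1** (abstract `H¹`). -/
def shapiroH1Equiv : H1 (Rep.coind H.subtype N) ≃ₗ[k] H1 N :=
  LinearEquiv.ofBijective (shapiroH1Map H N) ⟨shapiroH1Map_injective, shapiroH1Map_surjective⟩

lemma shapiroH1Equiv_apply (x : H1 (Rep.coind H.subtype N)) :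
    shapiroH1Equiv H N x = shapiroH1Map H N x := rfl

/-- The Shapiro map identifies the frozen continuous `H¹` carriers. -/
theorem map_continuousH1 (hH : IsLevelOpen r H) :
    (continuousH1 r (Rep.coind H.subtype N)).map (shapiroH1Map H N) =
      continuousH1 (r.comp H.subtype) N := by
  apply le_antisymm
  · rintro _ ⟨x, hx, rfl⟩
    obtain ⟨c, hc, rfl⟩ := (mem_continuousH1_iff r _ x).1 hx
    have h1 : shapiroH1Map H N ((H1π _).hom c) = (H1π N).hom ⟨sh₁ H N c, sh₁_mem_cocycles₁ c.2⟩ :=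
      shapiroH1Map_H1π c
    rw [SetLike.mem_coe] at *
    change shapiroH1Map H N ((H1π _).hom c) ∈ _
    rw [h1]
    exact H1π_mem_continuousH1 _ _
      (cochainsPullPush₁_mem_levelCochains₁ (rH := r) (rG := r.comp H.subtype) H.subtype
        (fun _ => rfl) (ev H N) hc)
  · intro y hy
    obtain ⟨b, hb, rfl⟩ := (mem_continuousH1_iff _ _ y).1 hy
    obtain ⟨c, hc, hcl, hcb⟩ := exists_levelCocycle₁_sh₁_eq hH b.2 hb
    refine ⟨(H1π _).hom ⟨c, hc⟩, H1π_mem_continuousH1 r _ hcl, ?_⟩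
    have h1 : shapiroH1Map H N ((H1π _).hom ⟨c, hc⟩) =
        (H1π N).hom ⟨sh₁ H N c, sh₁_mem_cocycles₁ hc⟩ := shapiroH1Map_H1π ⟨c, hc⟩
    rw [h1]
    congr 1
    exact Subtype.ext hcb

/-- **Shapiro's lemma in degree 1 on the frozen carriers.** -/
def shapiroContinuousH1Equiv (hH : IsLevelOpen r H) :
    continuousH1 r (Rep.coind H.subtype N) ≃ₗ[k] continuousH1 (r.comp H.subtype) N :=
  ((shapiroH1Equiv H N).submoduleMap (continuousH1 r (Rep.coind H.subtype N))).trans
    (LinearEquiv.ofEq _ _ (map_continuousH1 hH))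

lemma shapiroContinuousH1Equiv_apply (hH : IsLevelOpen r H)
    (x : continuousH1 r (Rep.coind H.subtype N)) :
    (shapiroContinuousH1Equiv hH x : H1 N) = shapiroH1Map H N x := rfl

end Frozen

end Fermat.Agent.S55.helper5550
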