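import Mathlib
import Fermat.Prelude.Def_GroupCohomology_ContinuousUnramified
import Fermat.Agent.S55.helper4039_SField
import Fermat.Agent.S55.helper5550_Shapiro
import Fermat.Agent.S55.helper3071_GlobalBridge

/-!
# S55 / GB-SHAPIRO, cochain level (helper62)

Shapiro's lemma for a coinduced module `Rep.coind F.fixingSubgroup.subtype N` of the absolute
Galois group of `ℚ`, with the level conditions of the frozen carriers:

* `IsLevS₁ S r`, `IsLevS₂ S r` are the relative `S`-levels of `helper3071_GlobalBridge`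
  (for `r = id` these are the frozen `IsLevelConstantS₁/₂ S`);
* `sh` / `ind` / `prim` of `helper5550` preserve `S`-levels (the normal `S`-field needed for
  `ind` and `prim` comes from `helper4039.exists_normal_ge`);
* the conjugation formula `sh₂_conj_eq` and the local clause `exists_local_primitive`:
  if a 2-cocycle `c` of `G_ℚ` with values in the coinduced module restricts to a (level)
  coboundary along `r : D →* G_ℚ`, then `sh₂ c` restricts to a (level) coboundary along
  `a ↦ g * r a * g⁻¹` on `{a | g * r a * g⁻¹ ∈ F.fixingSubgroup}`, for every `g`.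
-/

set_option autoImplicit false

open CategoryTheory groupCohomology

noncomputable section

namespace Fermat.Agent.S55.helper62

open Fermat.Agent.S55.helper5550 Fermat.Agent.S55.helper3071

/-! ## `sh`, `ind`, `prim` and `S`-levels -/

section Transfer

variable {S : Finset Nat.Primes} {k : Type} [CommRing k]
  {F : IntermediateField ℚ (AlgebraicClosure ℚ)} {N : Rep.{0} k F.fixingSubgroup}

theorem isLevS₁_sh₁ {c : GQ → Rep.coind F.fixingSubgroup.subtype N}
    (hc : IsLevelConstantS₁ S c) :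
    IsLevS₁ S F.fixingSubgroup.subtype (sh₁ F.fixingSubgroup N c) := by
  obtain ⟨L, hL, h⟩ := hc
  refine ⟨L, hL, fun g s hs => ?_⟩
  rw [sh₁_apply, sh₁_apply, Subgroup.coe_mul]
  exact congrArg (fun f : Rep.coind F.fixingSubgroup.subtype N => f.1 1) (h _ _ hs)

theorem isLevS₂_sh₂ {c : GQ × GQ → Rep.coind F.fixingSubgroup.subtype N}
    (hc : IsLevelConstantS₂ S c) :
    IsLevS₂ S F.fixingSubgroup.subtype (sh₂ F.fixingSubgroup N c) := by
  obtain ⟨L, hL, h⟩ := hc
  refine ⟨L, hL, fun g g' s s' hs hs' => ?_⟩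
  rw [sh₂_apply, sh₂_apply, Subgroup.coe_mul, Subgroup.coe_mul]
  exact congrArg (fun f : Rep.coind F.fixingSubgroup.subtype N => f.1 1) (h _ _ _ _ hs hs')

/-- A normal `S`-level below a given `S`-field and below `F`. -/
theorem exists_normal_level (hF : F.IsUnramifiedOutside S)
    {L : IntermediateField ℚ (AlgebraicClosure ℚ)} (hL : L.IsUnramifiedOutside S) :
    ∃ L' : IntermediateField ℚ (AlgebraicClosure ℚ), L'.IsUnramifiedOutside S ∧
      L'.fixingSubgroup.Normal ∧ L'.fixingSubgroup ≤ L.fixingSubgroup ∧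
      L'.fixingSubgroup ≤ F.fixingSubgroup := by
  obtain ⟨L', hle, hL', -, hn⟩ := helper4039.exists_normal_ge (hL.sup hF)
  exact ⟨L', hL', hn,
    IntermediateField.fixingSubgroup_antitone (le_sup_left.trans hle),
    IntermediateField.fixingSubgroup_antitone (le_sup_right.trans hle)⟩

theorem isLevelConstantS₁_ind₁ (hF : F.IsUnramifiedOutside S) (s : GQ → F.fixingSubgroup)
    (hs : ∀ (h : F.fixingSubgroup) (g : GQ), s (h * g) = h * s g) {b : F.fixingSubgroup → N}
    (hb : IsLevS₁ S F.fixingSubgroup.subtype b) : IsLevelConstantS₁ S (ind₁ s hs b) := by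
  obtain ⟨L, hL, h⟩ := hb
  obtain ⟨L', hL', hn, hle, hleF⟩ := exists_normal_level hF hL
  have := hn
  have hb' : RInv₁ (L'.fixingSubgroup.subgroupOf F.fixingSubgroup) b :=
    fun g u hu => h g u (hle (Subgroup.mem_subgroupOf.1 hu))
  exact ⟨L', hL', ind₁_rinv s hs hleF hb'⟩

theorem isLevelConstantS₂_ind₂ (hF : F.IsUnramifiedOutside S) (s : GQ → F.fixingSubgroup)
    (hs : ∀ (h : F.fixingSubgroup) (g : GQ), s (h * g) = h * s g)
    {b : F.fixingSubgroup × F.fixingSubgroup → N}
    (hb : IsLevS₂ S F.fixingSubgroup.subtype b) : IsLevelConstantS₂ S (ind₂ s hs b) := by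
  obtain ⟨L, hL, h⟩ := hb
  obtain ⟨L', hL', hn, hle, hleF⟩ := exists_normal_level hF hL
  have := hn
  have hb' : RInv₂ (L'.fixingSubgroup.subgroupOf F.fixingSubgroup) b :=
    fun g g' u u' hu hu' => h g g' u u' (hle (Subgroup.mem_subgroupOf.1 hu))
      (hle (Subgroup.mem_subgroupOf.1 hu'))
  exact ⟨L', hL', ind₂_rinv s hs hleF hb'⟩

theorem isLevelConstantS₁_prim (hF : F.IsUnramifiedOutside S) (s : GQ → F.fixingSubgroup)
    (hs : ∀ (h : F.fixingSubgroup) (g : GQ), s (h * g) = h * s g)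
    {c : GQ × GQ → Rep.coind F.fixingSubgroup.subtype N} (hc : IsLevelConstantS₂ S c)
    {β : F.fixingSubgroup → N} (hβ : IsLevS₁ S F.fixingSubgroup.subtype β) :
    IsLevelConstantS₁ S (prim s hs c β) := by
  obtain ⟨L, hL, h⟩ := hβ
  obtain ⟨Lc, hLc, hc'⟩ := hc
  obtain ⟨L', hL', hn, hle, hleF⟩ := exists_normal_level hF (hL.sup hLc)
  have := hn
  have hle1 : L'.fixingSubgroup ≤ L.fixingSubgroup :=
    hle.trans (IntermediateField.fixingSubgroup_antitone le_sup_left)
  have hle2 : L'.fixingSubgroup ≤ Lc.fixingSubgroup :=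
    hle.trans (IntermediateField.fixingSubgroup_antitone le_sup_right)
  have hβ' : RInv₁ (L'.fixingSubgroup.subgroupOf F.fixingSubgroup) β :=
    fun g u hu => h g u (hle1 (Subgroup.mem_subgroupOf.1 hu))
  have hc'' : RInv₂ L'.fixingSubgroup c :=
    fun g g' u u' hu hu' => hc' g g' u u' (hle2 hu) (hle2 hu')
  exact ⟨L', hL', prim_rinv s hs hleF hc'' hβ'⟩

end Transfer

/-! ## The conjugation formula and the local clause -/

section Conj

variable {k : Type} [CommRing k] {G : Type} [Group G] {H : Subgroup G} {N : Rep.{0} k H}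

/-- The correction cochain of the conjugation formula. -/
def conjCorr (c : G × G → Rep.coind H.subtype N) (g : G) (a : H) : N :=
  (c (g⁻¹ * a * g, g⁻¹)).1 g - (c (g⁻¹, (a : G))).1 g

/-- **Conjugation formula.** For a 2-cocycle `c` of `G` with values in the coinduced module and
`a b ∈ H`: `c(a,b)(1) = c(g⁻¹ a g, g⁻¹ b g)(g) - (d w)(a,b)` with `w = conjCorr c g`. -/
theorem sh₂_conj_eq {c : G × G → Rep.coind H.subtype N}
    (hc : c ∈ cocycles₂ (Rep.coind H.subtype N)) (g : G) (a b : H) :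
    (c ((a : G), (b : G))).1 1 = (c (g⁻¹ * a * g, g⁻¹ * b * g)).1 g
      - (N.ρ a (conjCorr c g b) - conjCorr c g (a * b) + conjCorr c g a) := by
  rw [mem_cocycles₂_coind_iff] at hc
  have h1 := hc (g⁻¹ * a * g) (g⁻¹ * b * g) g⁻¹ g
  have h2 := hc (g⁻¹ * a * g) g⁻¹ b g
  have h3 := hc g⁻¹ a b g
  have e1 : g⁻¹ * (a : G) * g * (g⁻¹ * b * g) = g⁻¹ * ((a : G) * (b : G)) * g := by group
  have e2 : g * (g⁻¹ * (a : G) * g) = a * g := by group
  have e3 : g⁻¹ * (b : G) * g * g⁻¹ = g⁻¹ * b := by group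
  have e4 : g⁻¹ * (a : G) * g * g⁻¹ = g⁻¹ * a := by group
  have e5 : g * g⁻¹ = 1 := mul_inv_cancel g
  rw [e1, e2, e3, coind_val_mul] at h1
  rw [e4, e2, coind_val_mul] at h2
  rw [e5] at h3
  simp only [conjCorr, map_sub, Subgroup.coe_mul]
  linear_combination (norm := abel) -h3 + h2 - h1

/-- **Local clause.** If the restriction of the 2-cocycle `c` along `r : D →* G` is the
coboundary of `x`, then for every `g : G` the restriction of `sh₂ c` along
`a ↦ g * r a * g⁻¹` (on any group `D'` mapping to `D` and to `H` compatibly) is the coboundary of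
`a ↦ x(a)(g) - conjCorr c g (g r(a) g⁻¹)`. -/
theorem sh₂_local_eq {D D' : Type} [Group D] [Group D'] (r : D →* G) (i : D' →* D)
    (j : D' →* H) (g : G) (hj : ∀ a, (j a : G) = g * r (i a) * g⁻¹)
    {c : G × G → Rep.coind H.subtype N} (hc : c ∈ cocycles₂ (Rep.coind H.subtype N))
    (x : D → Rep.coind H.subtype N)
    (hx : ∀ a b : D, c (r a, r b) =
      (Rep.coind H.subtype N).ρ (r a) (x b) - x (a * b) + x a) (a b : D') :
    (c ((j a : G), (j b : G))).1 1 =
      N.ρ (j a) ((x (i b)).1 g - conjCorr c g (j b))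
        - ((x (i (a * b))).1 g - conjCorr c g (j (a * b)))
        + ((x (i a)).1 g - conjCorr c g (j a)) := by
  have ea : g⁻¹ * (j a : G) * g = r (i a) := by rw [hj]; group
  have eb : g⁻¹ * (j b : G) * g = r (i b) := by rw [hj]; group
  have e2 : g * r (i a) = (j a : G) * g := by rw [hj]; group
  rw [sh₂_conj_eq hc g (j a) (j b), ea, eb, hx (i a) (i b)]
  have e3 : ((Rep.coind H.subtype N).ρ (r (i a)) (x (i b)) - x (i a * i b) + x (i a)).1 g =
      N.ρ (j a) ((x (i b)).1 g) - (x (i (a * b))).1 g + (x (i a)).1 g := by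
    show ((Rep.coind H.subtype N).ρ (r (i a)) (x (i b))).1 g - (x (i a * i b)).1 g
      + (x (i a)).1 g = _
    rw [coind_ρ_apply, e2, coind_val_mul, map_mul]
  rw [e3]
  simp only [map_mul, map_sub]
  abel

end Conj

/-! ## Level of the local primitive -/

section LocalLevel

theorem mem_fixingSubgroup_of_conj {L : IntermediateField ℚ (AlgebraicClosure ℚ)} {g σ : GQ}
    (h : g * σ * g⁻¹ ∈
      (L.map (g : AlgebraicClosure ℚ →ₐ[ℚ] AlgebraicClosure ℚ)).fixingSubgroup) :
    σ ∈ L.fixingSubgroup := by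
  rw [IntermediateField.mem_fixingSubgroup_iff] at h ⊢
  intro x hx
  have h1 := h (g x) ⟨x, hx, rfl⟩
  have h2 : (g * σ * g⁻¹) (g x) = g (σ x) := by
    show g (σ (g.symm (g x))) = g (σ x)
    rw [AlgEquiv.symm_apply_apply]
  rw [h2] at h1
  exact g.injective h1

variable {S : Finset Nat.Primes} {k : Type} [CommRing k]
  {F : IntermediateField ℚ (AlgebraicClosure ℚ)} {N : Rep.{0} k F.fixingSubgroup}

/-- The local primitive of `sh₂_local_eq` is level-constant for the conjugated local map. -/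
theorem isLevelConstant₁_localPrim {D D' : Type} [Group D] [Group D'] (r : D →* GQ)
    (i : D' →* D) (j : D' →* F.fixingSubgroup) (g : GQ)
    (hj : ∀ a, (j a : GQ) = g * r (i a) * g⁻¹)
    {c : GQ × GQ → Rep.coind F.fixingSubgroup.subtype N} (hc : IsLevelConstantS₂ S c)
    {x : D → Rep.coind F.fixingSubgroup.subtype N} (hx : IsLevelConstant₁ r x) :
    IsLevelConstant₁ (F.fixingSubgroup.subtype.comp j)
      (fun a : D' => (x (i a)).1 g - conjCorr c g (j a)) := by
  obtain ⟨Lc, hLc, hc'⟩ := hc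
  obtain ⟨Lx, hLx, hx'⟩ := hx
  have := hLc.1
  have := hLx
  have f1 : FiniteDimensional ℚ
      (Lx.map (g : AlgebraicClosure ℚ →ₐ[ℚ] AlgebraicClosure ℚ)) :=
    LinearEquiv.finiteDimensional
      (Lx.equivMap (g : AlgebraicClosure ℚ →ₐ[ℚ] AlgebraicClosure ℚ)).toLinearEquiv
  have f2 : FiniteDimensional ℚ
      (Lc.map (g : AlgebraicClosure ℚ →ₐ[ℚ] AlgebraicClosure ℚ)) :=
    LinearEquiv.finiteDimensional
      (Lc.equivMap (g : AlgebraicClosure ℚ →ₐ[ℚ] AlgebraicClosure ℚ)).toLinearEquiv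
  refine ⟨Lx.map (g : AlgebraicClosure ℚ →ₐ[ℚ] AlgebraicClosure ℚ) ⊔ (Lc ⊔
    Lc.map (g : AlgebraicClosure ℚ →ₐ[ℚ] AlgebraicClosure ℚ)), inferInstance, fun a s hs => ?_⟩
  have hs' : (j s : GQ) ∈ (Lx.map (g : AlgebraicClosure ℚ →ₐ[ℚ] AlgebraicClosure ℚ) ⊔ (Lc ⊔
    Lc.map (g : AlgebraicClosure ℚ →ₐ[ℚ] AlgebraicClosure ℚ))).fixingSubgroup := hs
  have h1 : r (i s) ∈ Lx.fixingSubgroup := by
    apply mem_fixingSubgroup_of_conj (g := g)
    rw [← hj]
    exact IntermediateField.fixingSubgroup_antitone le_sup_left hs'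
  have h2 : (j s : GQ) ∈ Lc.fixingSubgroup :=
    IntermediateField.fixingSubgroup_antitone (le_sup_left.trans le_sup_right) hs'
  have h3 : r (i s) ∈ Lc.fixingSubgroup := by
    apply mem_fixingSubgroup_of_conj (g := g)
    rw [← hj]
    exact IntermediateField.fixingSubgroup_antitone (le_sup_right.trans le_sup_right) hs'
  have e1 : x (i (a * s)) = x (i a) := by rw [map_mul]; exact hx' _ _ h1
  have e2 : c (g⁻¹ * ((j (a * s) : F.fixingSubgroup) : GQ) * g, g⁻¹) =
      c (g⁻¹ * ((j a : F.fixingSubgroup) : GQ) * g, g⁻¹) := by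
    have e : g⁻¹ * ((j (a * s) : F.fixingSubgroup) : GQ) * g =
        g⁻¹ * ((j a : F.fixingSubgroup) : GQ) * g * r (i s) := by
      rw [map_mul, Subgroup.coe_mul, hj s]; group
    rw [e]
    have := hc' (g⁻¹ * ((j a : F.fixingSubgroup) : GQ) * g) g⁻¹ (r (i s)) 1 h3 (Subgroup.one_mem _)
    rwa [mul_one] at this
  have e3 : c (g⁻¹, ((j (a * s) : F.fixingSubgroup) : GQ)) =
      c (g⁻¹, ((j a : F.fixingSubgroup) : GQ)) := by
    rw [map_mul, Subgroup.coe_mul]
    have := hc' g⁻¹ ((j a : F.fixingSubgroup) : GQ) 1 (j s : GQ) (Subgroup.one_mem _) h2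
    rwa [mul_one] at this
  simp only [conjCorr, e1, e2, e3]

end LocalLevel

end Fermat.Agent.S55.helper62
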