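import Mathlib
import Fermat.Prelude.Def_GroupCohomology_ContinuousUnramified
import Fermat.Agent.S55.helper5550_ShapiroLevel
import Fermat.Agent.S55.helper62_ShapiroLevel

/-!
# S55 / GB-SHAPIRO (helper62): Shapiro's lemma on the frozen global `S`-level carriers

For an `S`-field `F` (unramified outside `S`) and any representation `N` of `Gal(ℚ̄/F)`:

* `shapiroH1SEquiv` : `continuousH1S S (coind N) ≃ₗ relH1S S F.fixingSubgroup.subtype N`;
* `shapiroH2SEquiv` : `continuousH2S S (coind N) ≃ₗ relH2S S F.fixingSubgroup.subtype N`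
  (restrict to `Gal(ℚ̄/F)`, evaluate at `1`);
* `shapiroH2SEquiv_mem_fieldSha2` : for trivial coefficients, `Ш²` of the induced module is
  mapped into `fieldSha2`;
* `stmt_Shapiro : helper3071.Stmt_Shapiro`.
-/

set_option autoImplicit false

open CategoryTheory groupCohomology ExtCitation

noncomputable section

namespace Fermat.Agent.S55.helper62

open Fermat.Agent.S55.helper5550 Fermat.Agent.S55.helper3071

section General

variable (S : Finset Nat.Primes) {k : Type} [CommRing k]
  (F : IntermediateField ℚ (AlgebraicClosure ℚ)) (N : Rep.{0} k F.fixingSubgroup)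

/-! ### Degree 1 -/

/-- The Shapiro map identifies the frozen `S`-level `H¹` of the coinduced module with the
relative `S`-level `H¹` of the subgroup. -/
theorem map_continuousH1S (hF : F.IsUnramifiedOutside S) :
    (continuousH1S S (Rep.coind F.fixingSubgroup.subtype N)).map
        (shapiroH1Map F.fixingSubgroup N) =
      relH1S S F.fixingSubgroup.subtype N := by
  apply le_antisymm
  · rintro _ ⟨x, hx, rfl⟩
    obtain ⟨c, hc, rfl⟩ := (mem_continuousH1S_iff S _ x).1 hx
    have h1 : shapiroH1Map F.fixingSubgroup N ((H1π _).hom c) =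
        (H1π N).hom ⟨sh₁ F.fixingSubgroup N c, sh₁_mem_cocycles₁ c.2⟩ := shapiroH1Map_H1π c
    change shapiroH1Map F.fixingSubgroup N ((H1π _).hom c) ∈ _
    rw [h1]
    exact (mem_relH1S_iff S _ N _).2 ⟨_, isLevS₁_sh₁ hc, rfl⟩
  · intro y hy
    obtain ⟨b, hb, rfl⟩ := (mem_relH1S_iff S _ N y).1 hy
    obtain ⟨s, hs, hs1⟩ := exists_retraction F.fixingSubgroup
    refine ⟨(H1π _).hom ⟨ind₁ s hs b, ind₁_mem_cocycles₁ s hs b.2⟩,
      (mem_continuousH1S_iff S _ _).2 ⟨_, isLevelConstantS₁_ind₁ hF s hs hb, rfl⟩, ?_⟩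
    have h1 : shapiroH1Map F.fixingSubgroup N
        ((H1π _).hom ⟨ind₁ s hs b, ind₁_mem_cocycles₁ s hs b.2⟩) =
        (H1π N).hom ⟨sh₁ F.fixingSubgroup N (ind₁ s hs b),
          sh₁_mem_cocycles₁ (ind₁_mem_cocycles₁ s hs b.2)⟩ :=
      shapiroH1Map_H1π ⟨ind₁ s hs b, ind₁_mem_cocycles₁ s hs b.2⟩
    rw [h1]
    congr 1
    exact Subtype.ext (sh₁_ind₁ s hs hs1 b)

/-- **Shapiro's lemma in degree 1 on the frozen `S`-level carriers.** -/
def shapiroH1SEquiv (hF : F.IsUnramifiedOutside S) :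
    continuousH1S S (Rep.coind F.fixingSubgroup.subtype N) ≃ₗ[k]
      relH1S S F.fixingSubgroup.subtype N :=
  ((shapiroH1Equiv F.fixingSubgroup N).submoduleMap
      (continuousH1S S (Rep.coind F.fixingSubgroup.subtype N))).trans
    (LinearEquiv.ofEq _ _ (map_continuousH1S S F N hF))

lemma shapiroH1SEquiv_apply (hF : F.IsUnramifiedOutside S)
    (x : continuousH1S S (Rep.coind F.fixingSubgroup.subtype N)) :
    (shapiroH1SEquiv S F N hF x : H1 N) = shapiroH1Map F.fixingSubgroup N x := rfl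

/-! ### Degree 2 -/

/-- Shapiro on `S`-level 2-cocycles: restrict to `Gal(ℚ̄/F)` and evaluate at `1`. -/
def shZ2S : ↥(levelCocyclesS₂ S (Rep.coind F.fixingSubgroup.subtype N)) →ₗ[k]
    ↥(relZ2S S F.fixingSubgroup.subtype N) :=
  (sh₂ F.fixingSubgroup N).restrict fun _ hc =>
    ⟨cochainsPullPush₂_mem_cocycles₂ F.fixingSubgroup.subtype (ev F.fixingSubgroup N)
      (ev_ρ F.fixingSubgroup N) hc.1, isLevS₂_sh₂ hc.2⟩

@[simp] lemma coe_shZ2S (c : ↥(levelCocyclesS₂ S (Rep.coind F.fixingSubgroup.subtype N))) :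
    (shZ2S S F N c : F.fixingSubgroup × F.fixingSubgroup → N) = sh₂ F.fixingSubgroup N c := rfl

/-- The Shapiro map `continuousH2S S (coind N) → relH2S S F.fixingSubgroup.subtype N`. -/
def shapiroH2SMap : continuousH2S S (Rep.coind F.fixingSubgroup.subtype N) →ₗ[k]
    relH2S S F.fixingSubgroup.subtype N :=
  Submodule.mapQ _ _ (shZ2S S F N) fun c hc => by
    obtain ⟨x, hx, hxc⟩ := (mem_levelCoboundariesS₂_iff S _ _).1 hc
    refine (mem_relB2S_iff S _ N _).2 ⟨sh₁ F.fixingSubgroup N x, isLevS₁_sh₁ hx, ?_⟩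
    have h := cochainsPullPush₂_d₁₂ F.fixingSubgroup.subtype (ev F.fixingSubgroup N)
      (ev_ρ F.fixingSubgroup N) x
    rw [hxc] at h
    exact h.symm

@[simp] lemma shapiroH2SMap_mk (c : ↥(levelCocyclesS₂ S (Rep.coind F.fixingSubgroup.subtype N))) :
    shapiroH2SMap S F N (continuousH2Sπ S _ c) = relH2Sπ S _ N (shZ2S S F N c) := rfl

theorem shapiroH2SMap_injective (hF : F.IsUnramifiedOutside S) :
    Function.Injective (shapiroH2SMap S F N) := by
  rw [← LinearMap.ker_eq_bot, LinearMap.ker_eq_bot']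
  intro x hx
  obtain ⟨c, rfl⟩ := Submodule.mkQ_surjective _ x
  have h1 : (shZ2S S F N c : F.fixingSubgroup × F.fixingSubgroup → N) ∈
      relB2S S F.fixingSubgroup.subtype N :=
    (relH2Sπ_eq_zero_iff S _ N _).1 hx
  obtain ⟨β, hβ, hβc⟩ := (mem_relB2S_iff S _ N _).1 h1
  obtain ⟨s, hs, -⟩ := exists_retraction F.fixingSubgroup
  have h2 : (d₁₂ (Rep.coind F.fixingSubgroup.subtype N)).hom (prim s hs c β) = c :=
    d₁₂_prim s hs c.2.1 hβc.symm
  exact (continuousH2Sπ_eq_zero_iff S _ c).2 ((mem_levelCoboundariesS₂_iff S _ _).2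
    ⟨prim s hs c β, isLevelConstantS₁_prim hF s hs c.2.2 hβ, h2⟩)

theorem shapiroH2SMap_surjective (hF : F.IsUnramifiedOutside S) :
    Function.Surjective (shapiroH2SMap S F N) := by
  intro y
  obtain ⟨b, rfl⟩ := Submodule.mkQ_surjective _ y
  obtain ⟨s, hs, hs1⟩ := exists_retraction F.fixingSubgroup
  refine ⟨continuousH2Sπ S _ ⟨ind₂ s hs b, ind₂_mem_cocycles₂ s hs b.2.1,
    isLevelConstantS₂_ind₂ hF s hs b.2.2⟩, ?_⟩
  rw [shapiroH2SMap_mk]
  congr 1
  exact Subtype.ext (sh₂_ind₂ s hs hs1 (b : F.fixingSubgroup × F.fixingSubgroup → N))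

/-- **Shapiro's lemma in degree 2 on the frozen `S`-level carriers.** -/
def shapiroH2SEquiv (hF : F.IsUnramifiedOutside S) :
    continuousH2S S (Rep.coind F.fixingSubgroup.subtype N) ≃ₗ[k]
      relH2S S F.fixingSubgroup.subtype N :=
  LinearEquiv.ofBijective (shapiroH2SMap S F N)
    ⟨shapiroH2SMap_injective S F N hF, shapiroH2SMap_surjective S F N hF⟩

lemma shapiroH2SEquiv_apply (hF : F.IsUnramifiedOutside S)
    (x : continuousH2S S (Rep.coind F.fixingSubgroup.subtype N)) :
    shapiroH2SEquiv S F N hF x = shapiroH2SMap S F N x := rfl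

end General

/-! ### The `Ш²` clause and the closed statement -/

section Field

variable (S : Finset Nat.Primes) (p : ℕ) (F : IntermediateField ℚ (AlgebraicClosure ℚ))

/-- A class of `continuousH2S S (indRep p F)` that dies at the prime `q` dies, after Shapiro,
at every place `g • v_q` of `F`. -/
theorem fieldRes₂_shapiroH2SMap_eq_zero (q : Nat.Primes) (g : GQ)
    (x : continuousH2S S (indRep p F))
    (hx : locRes₂S S (indRep p F) (primeLocalToGlobal q) x = 0) :
    fieldRes₂ S p F q g (shapiroH2SMap S F (trivF p F) x) = 0 := by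
  obtain ⟨c, rfl⟩ := Submodule.mkQ_surjective _ x
  have hcob : cochainsPullPush₂ (primeLocalToGlobal q)
      (LinearMap.id : indRep p F →ₗ[ZMod p] Rep.res (primeLocalToGlobal q) (indRep p F))
      (c : GQ × GQ → indRep p F) ∈
      levelCoboundaries₂ (primeLocalToGlobal q) (Rep.res (primeLocalToGlobal q) (indRep p F)) :=
    (continuousH2π_eq_zero_iff (primeLocalToGlobal q) _ _).1 hx
  obtain ⟨y, hyl, hyd⟩ := (mem_levelCoboundaries₂_iff _ _ _).1 hcob
  have hy : ∀ a b : primeLocalGaloisGroup q,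
      (c : GQ × GQ → indRep p F) (primeLocalToGlobal q a, primeLocalToGlobal q b) =
        (indRep p F).ρ (primeLocalToGlobal q a) (y b) - y (a * b) + y a := by
    intro a b
    have := congrFun hyd (a, b)
    rw [d₁₂_hom_apply] at this
    exact this.symm
  refine (continuousH2π_eq_zero_iff (placeLoc F q g) _ _).2
    ((mem_levelCoboundaries₂_iff _ _ _).2
      ⟨fun a => (y ((placeGroup F q g).subtype a)).1 g
          - conjCorr (c : GQ × GQ → indRep p F) g (placeHom F q g a),
        isLevelConstant₁_localPrim (primeLocalToGlobal q) (placeGroup F q g).subtype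
          (placeHom F q g) g (fun _ => rfl) c.2.2 hyl, ?_⟩)
  funext ⟨a, b⟩
  rw [d₁₂_hom_apply]
  have h := sh₂_local_eq (primeLocalToGlobal q) (placeGroup F q g).subtype (placeHom F q g) g
    (fun _ => rfl) c.2.1 y hy a b
  exact h.symm

/-- A class of `sha₂` dies at every prime of `S`. -/
theorem locRes₂S_eq_zero_of_mem_sha₂ (S : Finset Nat.Primes) {k : Type} [CommRing k]
    (M : Rep k (AlgebraicClosure ℚ ≃ₐ[ℚ] AlgebraicClosure ℚ)) (x : continuousH2S S M)
    (hx : x ∈ sha₂ S M) (q : ↥S) : locRes₂S S M (primeLocalToGlobal q.1) x = 0 := by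
  unfold sha₂ at hx
  rw [LinearMap.mem_ker] at hx
  exact congrFun hx (Sum.inr q)

/-- Shapiro maps `Ш²` of the induced module into `Ш²` of the field. -/
theorem shapiroH2SMap_mem_fieldSha2 (x : continuousH2S S (indRep p F))
    (hx : x ∈ sha₂ S (indRep p F)) :
    shapiroH2SMap S F (trivF p F) x ∈ fieldSha2 S p F := by
  rw [mem_fieldSha2_iff]
  intro q hq g
  exact fieldRes₂_shapiroH2SMap_eq_zero S p F q g x
    (locRes₂S_eq_zero_of_mem_sha₂ S (indRep p F) x hx ⟨q, hq⟩)

/-- **GB-SHAPIRO**: the closed statement `Stmt_Shapiro` of the global bridge. -/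
theorem stmt_Shapiro : Stmt_Shapiro := by
  intro S p F _ hF
  exact ⟨⟨shapiroH1SEquiv S F (trivF p F) hF⟩, shapiroH2SEquiv S F (trivF p F) hF,
    fun x hx => shapiroH2SMap_mem_fieldSha2 S p F x hx⟩

end Field

end Fermat.Agent.S55.helper62
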