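import Fermat.Prelude.Def_GroupCohomology_ContinuousUnramified

/-!
# S55 bridge: the archimedean local terms vanish for odd `p`

`helper6525`: cohomology of a finite group whose order is invertible in the coefficient ring
vanishes in degrees 1 and 2 (abstract `H1`, and the Prelude's `continuousH2`; stated with
`[Finite G]` and `Nat.card`, no `Fintype` instance is introduced), hence the
archimedean components of `locTotal` / `locTotal₂S` are zero for `ZMod p`-modules with `p` odd.
Consequently `sha₁` and `sha₂` are cut out by the finite places of `S` only.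
-/

set_option autoImplicit false

open CategoryTheory groupCohomology ExtCitation

namespace Fermat.Agent.S55.helper6525

universe u

section FiniteGroup

variable {k G : Type u} [CommRing k] [Group G] [Finite G]

/-- `H¹` of a finite group whose order is invertible in `k` vanishes. -/
theorem H1_eq_zero_of_isUnit_card (A : Rep k G) (hN : IsUnit (Nat.card G : k))
    (x : H1 A) : x = 0 := by
  cases nonempty_fintype G
  rw [Nat.card_eq_fintype_card] at hN
  induction x using H1_induction_on with
  | h c =>
    rw [H1π_eq_zero_iff]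
    obtain ⟨u, hu⟩ := hN
    have hc := (mem_cocycles₁_iff (c : G → A)).1 c.2
    refine ⟨-((↑u⁻¹ : k) • ∑ h : G, c h), ?_⟩
    funext g
    have key : A.ρ g (∑ h : G, c h) = ∑ h : G, c h - (Fintype.card G : k) • c g := by
      rw [map_sum]
      have : ∀ h : G, A.ρ g (c h) = c (g * h) - c g := fun h => by
        have := hc g h
        rw [eq_sub_iff_add_eq]; exact this.symm
      rw [Finset.sum_congr rfl (fun h _ => this h), Finset.sum_sub_distrib,
        Fintype.sum_equiv (Equiv.mulLeft g) (fun h => c (g * h)) (fun h => c h) (fun _ => rfl)]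
      simp [Finset.card_univ, Nat.cast_smul_eq_nsmul]
    rw [d₀₁_hom_apply, map_neg, map_smul, key, ← hu]
    simp only [smul_sub, smul_smul, Units.inv_mul, one_smul]
    abel

/-- The Prelude's `continuousH2` of a finite group whose order is invertible in `k` vanishes. -/
theorem continuousH2_eq_zero_of_isUnit_card
    (r : G →* (AlgebraicClosure ℚ ≃ₐ[ℚ] AlgebraicClosure ℚ)) (A : Rep k G)
    (hN : IsUnit (Nat.card G : k)) (x : continuousH2 r A) : x = 0 := by
  cases nonempty_fintype G
  rw [Nat.card_eq_fintype_card] at hN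
  obtain ⟨f, rfl⟩ := Submodule.mkQ_surjective _ x
  change continuousH2π r A f = 0
  rw [continuousH2π_eq_zero_iff, mem_levelCoboundaries₂_iff]
  obtain ⟨u, hu⟩ := hN
  have hf := (mem_cocycles₂_iff (f : G × G → A)).1 f.2.1
  obtain ⟨F, hF, hlev⟩ := f.2.2
  refine ⟨fun g => (↑u⁻¹ : k) • ∑ j : G, (f : G × G → A) (g, j), ⟨F, hF, fun g s hs => ?_⟩, ?_⟩
  · have h1 : r 1 ∈ F.fixingSubgroup := by rw [map_one]; exact Subgroup.one_mem _
    show (↑u⁻¹ : k) • ∑ j : G, (f : G × G → A) (g * s, j)
      = (↑u⁻¹ : k) • ∑ j : G, (f : G × G → A) (g, j)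
    congr 1
    refine Finset.sum_congr rfl fun j _ => ?_
    have := hlev g j s 1 hs h1
    rwa [mul_one] at this
  · funext ⟨g, h⟩
    rw [d₁₂_hom_apply]
    have key : ∑ j : G, A.ρ g ((f : G × G → A) (h, j)) - ∑ j : G, (f : G × G → A) (g * h, j)
        + ∑ j : G, (f : G × G → A) (g, j) = (Fintype.card G : k) • (f : G × G → A) (g, h) := by
      have e1 : ∀ j : G, A.ρ g ((f : G × G → A) (h, j)) - (f : G × G → A) (g * h, j)
          = (f : G × G → A) (g, h) - (f : G × G → A) (g, h * j) := fun j => by
        rw [sub_eq_sub_iff_add_eq_add]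
        exact (hf g h j).symm.trans (add_comm _ _)
      rw [← Finset.sum_sub_distrib, Finset.sum_congr rfl (fun j _ => e1 j), Finset.sum_sub_distrib,
        Fintype.sum_equiv (Equiv.mulLeft h) (fun j => (f : G × G → A) (g, h * j))
          (fun j => (f : G × G → A) (g, j)) (fun _ => rfl)]
      simp [Finset.card_univ, Nat.cast_smul_eq_nsmul]
    show A.ρ g ((↑u⁻¹ : k) • ∑ j : G, (f : G × G → A) (h, j))
        - (↑u⁻¹ : k) • ∑ j : G, (f : G × G → A) (g * h, j)
        + (↑u⁻¹ : k) • ∑ j : G, (f : G × G → A) (g, j) = (f : G × G → A) (g, h)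
    rw [map_smul, map_sum, ← smul_sub, ← smul_add, key, ← hu, smul_smul, Units.inv_mul, one_smul]

end FiniteGroup

section Archimedean

instance finite_archimedeanDecomposition : Finite ↥archimedeanDecomposition := by
  unfold archimedeanDecomposition
  have h : IsOfFinOrder complexConjugation :=
    isOfFinOrder_iff_pow_eq_one.2 ⟨2, by norm_num, complexConjugation_sq⟩
  exact h.finite_zpowers

theorem card_archimedeanDecomposition_dvd_two :
    Nat.card ↥archimedeanDecomposition ∣ 2 := by
  unfold archimedeanDecomposition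
  rw [Nat.card_zpowers]
  exact orderOf_dvd_of_pow_eq_one complexConjugation_sq

theorem isUnit_card_archimedeanDecomposition {p : ℕ} [Fact p.Prime] (hp2 : p ≠ 2) :
    IsUnit (Nat.card ↥archimedeanDecomposition : ZMod p) := by
  obtain ⟨m, hm⟩ := card_archimedeanDecomposition_dvd_two
  have h2 : IsUnit ((2 : ℕ) : ZMod p) := by
    rw [ZMod.isUnit_iff_coprime]
    exact (Nat.coprime_primes Nat.prime_two (Fact.out : p.Prime)).2 (Ne.symm hp2)
  rw [hm, Nat.cast_mul] at h2
  exact isUnit_of_mul_isUnit_left h2

variable {p : ℕ} [Fact p.Prime]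

/-- For odd `p` the archimedean local `H¹` of any `ZMod p`-representation vanishes. -/
theorem H1_archimedean_eq_zero (hp2 : p ≠ 2)
    (M : Rep (ZMod p) (AlgebraicClosure ℚ ≃ₐ[ℚ] AlgebraicClosure ℚ))
    (x : H1 (Rep.res archimedeanLoc M)) : x = 0 :=
  H1_eq_zero_of_isUnit_card _ (isUnit_card_archimedeanDecomposition hp2) x

/-- For odd `p` the archimedean local continuous `H²` of any `ZMod p`-representation vanishes. -/
theorem continuousH2_archimedean_eq_zero (hp2 : p ≠ 2)
    (M : Rep (ZMod p) (AlgebraicClosure ℚ ≃ₐ[ℚ] AlgebraicClosure ℚ))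
    (x : continuousH2 archimedeanLoc (Rep.res archimedeanLoc M)) : x = 0 :=
  continuousH2_eq_zero_of_isUnit_card _ _ (isUnit_card_archimedeanDecomposition hp2) x

/-- `sha₁` is cut out by the finite places of `S` only (odd `p`). -/
theorem mem_sha₁_iff (hp2 : p ≠ 2) (S : Finset Nat.Primes)
    (A : Rep (ZMod p) (AlgebraicClosure ℚ ≃ₐ[ℚ] AlgebraicClosure ℚ)) (x : H1 A) :
    x ∈ sha₁ S A ↔ x ∈ continuousH1S S A ∧
      ∀ q : ↥S, (locRes (extArithLoc S) A (Sum.inr q)).hom x = 0 := by
  unfold sha₁
  rw [Submodule.mem_inf, LinearMap.mem_ker]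
  refine and_congr Iff.rfl ⟨fun h q => ?_, fun h => ?_⟩
  · exact congrFun h (Sum.inr q)
  · funext v
    rcases v with v | q
    · exact H1_archimedean_eq_zero hp2 A _
    · exact h q

/-- `sha₂` is cut out by the finite places of `S` only (odd `p`). -/
theorem mem_sha₂_iff (hp2 : p ≠ 2) (S : Finset Nat.Primes)
    (M : Rep (ZMod p) (AlgebraicClosure ℚ ≃ₐ[ℚ] AlgebraicClosure ℚ)) (x : continuousH2S S M) :
    x ∈ sha₂ S M ↔ ∀ q : ↥S, locRes₂S S M (primeLocalToGlobal q.1) x = 0 := by
  unfold sha₂
  rw [LinearMap.mem_ker]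
  refine ⟨fun h q => ?_, fun h => ?_⟩
  · exact congrFun h (Sum.inr q)
  · funext v
    rcases v with v | q
    · exact continuousH2_archimedean_eq_zero hp2 M _
    · exact h q

end Archimedean

end Fermat.Agent.S55.helper6525
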