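/-
S55 (Poitou–Tate), framework layer, leaf FW-EXTMOD part (5): the twisted dual.
Author: helper1408.

`Rep.dualTwist A χ` is the representation on `Module.Dual k A` given by
`(g • φ) = χ g • (φ ∘ A.ρ g⁻¹)`.  This file makes it a contravariant exact functor on
representations over a field, proves biduality for finite-dimensional representations,
identifies its invariants, and shows that over `G_ℚ` with `χ = cycloChar p` the frozen
hypotheses of S55 (`hsm`, `hMur`, finite-dimensionality) pass from `A` to `A.dualTwist χ`.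
-/
import Mathlib
import Fermat.Prelude.Def_GroupCohomology_ContinuousUnramified
import Fermat.Agent.Lib.helper872_QbarPlaces

set_option autoImplicit false

namespace Fermat.Agent.S55.helper1408

open CategoryTheory Module groupCohomology ExtCitation

universe u

section generic

variable {k G : Type u} [Field k] [Group G] (χ : G →* kˣ)

/-- The action on the twisted dual, applied to a vector. -/
theorem dualTwist_ρ_apply_apply (A : Rep.{u} k G) (g : G) (φ : Module.Dual k A) (a : A) :
    (A.dualTwist χ).ρ g φ a = (χ g : k) * φ (A.ρ g⁻¹ a) := rfl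

/-- (D1) The twisted dual of a morphism of representations: precomposition. -/
noncomputable def dualTwistMap {A B : Rep.{u} k G} (f : A ⟶ B) :
    B.dualTwist χ ⟶ A.dualTwist χ :=
  Rep.ofHom
    { toLinearMap := f.hom.toLinearMap.dualMap
      isIntertwining' := fun g => by
        ext φ a
        change (χ g : k) * φ (B.ρ g⁻¹ (f.hom a)) = (χ g : k) * φ (f.hom (A.ρ g⁻¹ a))
        rw [Rep.hom_comm_apply] }

theorem dualTwistMap_apply {A B : Rep.{u} k G} (f : A ⟶ B) (φ : Module.Dual k B) (a : A) :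
    (dualTwistMap χ f).hom φ a = φ (f.hom a) := rfl

theorem dualTwistMap_toLinearMap {A B : Rep.{u} k G} (f : A ⟶ B) :
    (dualTwistMap χ f).hom.toLinearMap = f.hom.toLinearMap.dualMap := rfl

@[simp]
theorem dualTwistMap_id (A : Rep.{u} k G) : dualTwistMap χ (𝟙 A) = 𝟙 (A.dualTwist χ) := by
  ext φ a
  rfl

theorem dualTwistMap_comp {A B C : Rep.{u} k G} (f : A ⟶ B) (g : B ⟶ C) :
    dualTwistMap χ (f ≫ g) = dualTwistMap χ g ≫ dualTwistMap χ f := by
  ext φ a
  rfl

/-! ### (D2) contravariant exactness -/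

theorem dualTwistMap_surjective_of_injective {A B : Rep.{u} k G} (f : A ⟶ B)
    (hf : Function.Injective f.hom) : Function.Surjective (dualTwistMap χ f).hom := by
  have h : Function.Surjective f.hom.toLinearMap.dualMap :=
    LinearMap.dualMap_surjective_of_injective hf
  exact h

theorem dualTwistMap_injective_of_surjective {A B : Rep.{u} k G} (f : A ⟶ B)
    (hf : Function.Surjective f.hom) : Function.Injective (dualTwistMap χ f).hom := by
  have h : Function.Injective f.hom.toLinearMap.dualMap :=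
    LinearMap.dualMap_injective_of_surjective hf
  exact h

theorem dualTwistMap_exact {A B C : Rep.{u} k G} (f : A ⟶ B) (g : B ⟶ C)
    (hfg : Function.Exact f.hom g.hom) :
    Function.Exact (dualTwistMap χ g).hom (dualTwistMap χ f).hom := by
  have hfg' : Function.Exact f.hom.toLinearMap g.hom.toLinearMap := hfg
  have h : Function.Exact g.hom.toLinearMap.dualMap f.hom.toLinearMap.dualMap := by
    rw [LinearMap.exact_iff] at hfg' ⊢
    rw [LinearMap.ker_dualMap_eq_dualAnnihilator_range, ← hfg',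
      LinearMap.range_dualMap_eq_dualAnnihilator_ker]
  exact h

/-! ### (D3) biduality -/

/-- The evaluation isomorphism `A ≃ A**` as an equivalence of representations
(the two twists cancel). -/
noncomputable def evalRepEquiv (A : Rep.{u} k G) [FiniteDimensional k A] :
    A.ρ.Equiv ((A.dualTwist χ).dualTwist χ).ρ :=
  Representation.Equiv.mk (Module.evalEquiv k A) (fun g => by
    ext a φ
    change φ (A.ρ g a) = (χ g : k) * ((χ g⁻¹ : k) * φ (A.ρ g⁻¹⁻¹ a))
    rw [inv_inv, ← mul_assoc, ← Units.val_mul, ← map_mul, mul_inv_cancel, map_one,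
      Units.val_one, one_mul])

/-- (D3) Biduality: `A ≅ (A.dualTwist χ).dualTwist χ` for finite-dimensional `A`. -/
noncomputable def dualTwistDualTwistIso (A : Rep.{u} k G) [FiniteDimensional k A] :
    A ≅ (A.dualTwist χ).dualTwist χ :=
  Rep.mkIso (evalRepEquiv χ A)

theorem dualTwistDualTwistIso_hom_apply (A : Rep.{u} k G) [FiniteDimensional k A] (a : A)
    (φ : Module.Dual k A) : (dualTwistDualTwistIso χ A).hom.hom a φ = φ a := rfl

/-- Naturality of biduality. -/
theorem dualTwistDualTwistIso_naturality {A B : Rep.{u} k G} [FiniteDimensional k A]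
    [FiniteDimensional k B] (f : A ⟶ B) :
    f ≫ (dualTwistDualTwistIso χ B).hom =
      (dualTwistDualTwistIso χ A).hom ≫ dualTwistMap χ (dualTwistMap χ f) := by
  ext a φ
  rfl

/-! ### (D4) invariants of the twisted dual -/

theorem mem_invariants_dualTwist_iff (A : Rep.{u} k G) (φ : Module.Dual k A) :
    φ ∈ (A.dualTwist χ).ρ.invariants ↔ ∀ g a, φ (A.ρ g a) = (χ g : k) * φ a := by
  rw [Representation.mem_invariants]
  constructor
  · intro h g a
    have h1 : (A.dualTwist χ).ρ g φ (A.ρ g a) = φ (A.ρ g a) := by rw [h g]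
    have key : A.ρ g⁻¹ (A.ρ g a) = a := by
      rw [← Module.End.mul_apply, ← map_mul, inv_mul_cancel, map_one, Module.End.one_apply]
    rw [dualTwist_ρ_apply_apply, key] at h1
    exact h1.symm
  · intro h g
    ext a
    rw [dualTwist_ρ_apply_apply]
    have h1 := h g (A.ρ g⁻¹ a)
    rw [← Module.End.mul_apply, ← map_mul, mul_inv_cancel, map_one, Module.End.one_apply] at h1
    exact h1.symm

/-! ### (D5) restriction, trivial representations -/

/-- The twisted dual commutes with restriction along a group homomorphism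
(identity on the underlying spaces). -/
noncomputable def resDualTwistIso {H : Type u} [Group H] (f : H →* G) (A : Rep.{u} k G) :
    Rep.res f (A.dualTwist χ) ≅ (Rep.res f A).dualTwist (χ.comp f) :=
  Rep.mkIso (ρ := (A.dualTwist χ).ρ.comp f) (σ := ((Rep.res f A).dualTwist (χ.comp f)).ρ)
    (Representation.Equiv.mk (LinearEquiv.refl k (Module.Dual k A)) (fun h => by
      ext φ a
      change (χ (f h) : k) * φ (A.ρ (f h)⁻¹ a) = (χ (f h) : k) * φ (A.ρ (f h⁻¹) a)
      rw [map_inv f h]))

theorem resDualTwistIso_hom_apply {H : Type u} [Group H] (f : H →* G) (A : Rep.{u} k G)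
    (φ : Module.Dual k A) : (resDualTwistIso χ f A).hom.hom φ = φ := rfl

theorem resDualTwistIso_inv_apply {H : Type u} [Group H] (f : H →* G) (A : Rep.{u} k G)
    (φ : Module.Dual k A) : (resDualTwistIso χ f A).inv.hom φ = φ := rfl

/-- The twisted dual of a trivial representation is `χ`-isotypic. -/
theorem dualTwist_trivial_ρ_apply (V : Type u) [AddCommGroup V] [Module k V] (g : G)
    (φ : Module.Dual k V) :
    ((Rep.trivial k G V).dualTwist χ).ρ g φ = (χ g : k) • φ := by
  ext v
  rfl

/-- More generally: if `g` acts trivially on `A` it acts on `A.dualTwist χ` through `χ g`. -/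
theorem dualTwist_ρ_apply_of_ρ_eq_one (A : Rep.{u} k G) {g : G} (hg : A.ρ g = 1)
    (φ : Module.Dual k A) : (A.dualTwist χ).ρ g φ = (χ g : k) • φ := by
  ext a
  have h1 : A.ρ g⁻¹ = 1 := by
    have h2 := map_mul A.ρ g⁻¹ g
    rw [inv_mul_cancel, map_one, hg, mul_one] at h2
    exact h2.symm
  rw [dualTwist_ρ_apply_apply, h1]
  rfl

/-- If `g` acts trivially on `A` and `χ g = 1`, then `g` acts trivially on `A.dualTwist χ`. -/
theorem dualTwist_ρ_eq_one (A : Rep.{u} k G) {g : G} (hg : A.ρ g = 1) (hχ : χ g = 1) :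
    (A.dualTwist χ).ρ g = 1 := by
  ext φ a
  rw [dualTwist_ρ_apply_of_ρ_eq_one χ A hg, hχ, Units.val_one, one_smul]
  rfl

/-! ### (D7) short exact and split sequences, additivity -/

/-- (D7) The twisted dual of a short exact sequence `0 → A → B → C → 0` (in terms of the
underlying maps) is the short exact sequence `0 → C* → B* → A* → 0`. -/
theorem dualTwistMap_shortExact {A B C : Rep.{u} k G} (f : A ⟶ B) (g : B ⟶ C)
    (hf : Function.Injective f.hom) (hfg : Function.Exact f.hom g.hom)
    (hg : Function.Surjective g.hom) :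
    Function.Injective (dualTwistMap χ g).hom ∧
      Function.Exact (dualTwistMap χ g).hom (dualTwistMap χ f).hom ∧
      Function.Surjective (dualTwistMap χ f).hom :=
  ⟨dualTwistMap_injective_of_surjective χ g hg, dualTwistMap_exact χ f g hfg,
    dualTwistMap_surjective_of_injective χ f hf⟩

theorem dualTwistMap_zero (A B : Rep.{u} k G) :
    dualTwistMap χ (0 : A ⟶ B) = 0 := by
  ext φ a
  change φ ((0 : A ⟶ B).hom a) = 0
  rw [show (0 : A ⟶ B).hom a = 0 from rfl, map_zero]

theorem dualTwistMap_add {A B : Rep.{u} k G} (f g : A ⟶ B) :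
    dualTwistMap χ (f + g) = dualTwistMap χ f + dualTwistMap χ g := by
  ext φ a
  change φ ((f + g).hom a) = φ (f.hom a) + φ (g.hom a)
  rw [show (f + g).hom a = f.hom a + g.hom a from rfl, map_add]

/-- A retraction dualises to a section. -/
theorem dualTwistMap_comp_eq_id {A B : Rep.{u} k G} (f : A ⟶ B) (r : B ⟶ A) (h : f ≫ r = 𝟙 A) :
    dualTwistMap χ r ≫ dualTwistMap χ f = 𝟙 (A.dualTwist χ) := by
  rw [← dualTwistMap_comp, h, dualTwistMap_id]

/-- The twisted dual of an isomorphism. -/
noncomputable def dualTwistIso {A B : Rep.{u} k G} (e : A ≅ B) :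
    B.dualTwist χ ≅ A.dualTwist χ where
  hom := dualTwistMap χ e.hom
  inv := dualTwistMap χ e.inv
  hom_inv_id := by rw [← dualTwistMap_comp, e.inv_hom_id, dualTwistMap_id]
  inv_hom_id := by rw [← dualTwistMap_comp, e.hom_inv_id, dualTwistMap_id]

/-- If a subgroup `N` acts trivially on `A` and `χ` is trivial on `N`, then `N` acts trivially
on `A.dualTwist χ`. -/
theorem dualTwist_ρ_eq_one_of_mem (A : Rep.{u} k G) (N : Subgroup G)
    (hA : ∀ s ∈ N, A.ρ s = 1) (hχ : ∀ s ∈ N, χ s = 1) :
    ∀ s ∈ N, (A.dualTwist χ).ρ s = 1 :=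
  fun s hs => dualTwist_ρ_eq_one χ A (hA s hs) (hχ s hs)

end generic

/-! ### (D6) over `G_ℚ`: the cyclotomic character and the frozen hypotheses -/

section GaloisQ

local notation "Qb" => AlgebraicClosure ℚ
local notation "GQ" => (AlgebraicClosure ℚ ≃ₐ[ℚ] AlgebraicClosure ℚ)

variable (p : ℕ) [Fact p.Prime]

theorem exists_primitiveRoot_Qb : ∃ ζ : Qb, IsPrimitiveRoot ζ p := by
  have : NeZero (p : Qb) := ⟨by exact_mod_cast (Fact.out : p.Prime).ne_zero⟩
  exact HasEnoughRootsOfUnity.exists_primitiveRoot Qb p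

theorem apply_primitiveRoot (σ : GQ) {ζ : Qb} (hζ : IsPrimitiveRoot ζ p) :
    σ ζ = ζ ^ cycloExp p σ := by
  have : NeZero p := ⟨(Fact.out : p.Prime).ne_zero⟩
  have hu : IsUnit ζ := hζ.isUnit (Fact.out : p.Prime).ne_zero
  obtain ⟨u, rfl⟩ := hu
  have hmem : u ∈ rootsOfUnity p Qb := by
    rw [mem_rootsOfUnity]
    ext
    simpa using hζ.pow_eq_one
  have := modularCyclotomicCharacter.spec Qb (card_rootsOfUnity_eq_self p) (σ : Qb ≃+* Qb) hmem
  simpa [cycloExp] using this

theorem cycloChar_eq_one_iff (σ : GQ) {ζ : Qb} (hζ : IsPrimitiveRoot ζ p) :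
    cycloChar p σ = 1 ↔ σ ζ = ζ := by
  have hp := (Fact.out : p.Prime)
  have : Fact (1 < p) := ⟨hp.one_lt⟩
  have : NeZero p := ⟨hp.ne_zero⟩
  rw [apply_primitiveRoot p σ hζ]
  constructor
  · intro h
    have h1 : cycloExp p σ = 1 := by
      rw [← val_cycloChar, h]
      simp [ZMod.val_one]
    rw [h1, pow_one]
  · intro h
    have h1 : cycloExp p σ = 1 := by
      have hlt : cycloExp p σ < p := by
        rw [← val_cycloChar]
        exact ZMod.val_lt _
      exact hζ.pow_inj hlt hp.one_lt (by rw [h, pow_one])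
    apply Units.ext
    apply ZMod.val_injective
    rw [val_cycloChar, h1]
    simp [ZMod.val_one]

/-- The cyclotomic character is trivial on the fixing subgroup of a number field
(namely `ℚ(ζ_p)`). -/
theorem exists_level_cycloChar :
    ∃ F : IntermediateField ℚ Qb, FiniteDimensional ℚ F ∧
      ∀ s ∈ F.fixingSubgroup, cycloChar p s = 1 := by
  obtain ⟨ζ, hζ⟩ := exists_primitiveRoot_Qb p
  have hint : IsIntegral ℚ ζ := (AlgebraicClosure.isAlgebraic ℚ).isIntegral.isIntegral ζ
  refine ⟨IntermediateField.adjoin ℚ {ζ}, IntermediateField.adjoin.finiteDimensional hint, ?_⟩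
  intro s hs
  rw [cycloChar_eq_one_iff p s hζ]
  exact (IntermediateField.mem_fixingSubgroup_iff _ _).1 hs ζ
    (IntermediateField.subset_adjoin ℚ {ζ} (Set.mem_singleton ζ))

/-- Inertia at a prime `q ≠ p` acts trivially on `μ_p`: the mod `p` cyclotomic character is
unramified outside `p`. -/
theorem cycloChar_eq_one_of_mem_inertia {q : ℕ} (hq : q.Prime) (hqp : q ≠ p)
    (Av : ValuationSubring Qb) (hA : Av.LiesOverPrime q) {g : GQ}
    (hg : g ∈ Av.inertiaSubgroupIn ℚ) : cycloChar p g = 1 := by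
  have hp := (Fact.out : p.Prime)
  obtain ⟨ζ, hζ⟩ := exists_primitiveRoot_Qb p
  rw [cycloChar_eq_one_iff p g hζ]
  by_contra hne
  obtain ⟨hdec, hres⟩ := (Fermat.Agent.Lib.helper872.mem_inertiaSubgroupIn_iff Av g).1 hg
  set v := Av.valuation with hv
  -- `ζ` has valuation one
  have hvζ : v ζ = 1 := by
    have h1 : v ζ ^ p = 1 := by rw [← map_pow, hζ.pow_eq_one, map_one]
    exact (pow_eq_one_iff.1 h1).resolve_right hp.ne_zero
  have hζA : ζ ∈ Av := (Av.valuation_le_one_iff ζ).1 hvζ.le
  have hζ0 : ζ ≠ 0 := hζ.ne_zero hp.ne_zero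
  -- `η = g ζ / ζ` is a nontrivial `p`-th root of unity congruent to `1`
  set η : Qb := g ζ * ζ⁻¹ with hη
  have hηp : η ^ p = 1 := by
    rw [hη, mul_pow, ← map_pow, hζ.pow_eq_one, map_one, one_mul, inv_pow, hζ.pow_eq_one, inv_one]
  have hη1 : η ≠ 1 := by
    intro h
    apply hne
    rw [hη] at h
    field_simp at h
    exact h
  have hvη1 : v (η - 1) < 1 := by
    have h1 : η - 1 = (g ζ - ζ) * ζ⁻¹ := by
      rw [hη]; field_simp
    rw [h1, map_mul, map_inv₀, hvζ, inv_one, mul_one]
    exact (ValuationSubring.mem_nonunits_iff Av).1 (hres ζ hζA)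
  have hvη : v η ≤ 1 := by
    have h1 : v η ^ p = 1 := by rw [← map_pow, hηp, map_one]
    exact ((pow_eq_one_iff.1 h1).resolve_right hp.ne_zero).le
  have hsum : ∑ i ∈ Finset.range p, η ^ i = 0 := by
    have h1 := geom_sum_mul η p
    rw [hηp, sub_self] at h1
    rcases mul_eq_zero.1 h1 with h2 | h2
    · exact h2
    · exact absurd (sub_eq_zero.1 h2) hη1
  have hterm : ∀ i ∈ Finset.range p, v (1 - η ^ i) < 1 := by
    intro i _
    have h1 : 1 - η ^ i = -((∑ j ∈ Finset.range i, η ^ j) * (η - 1)) := by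
      rw [geom_sum_mul]; ring
    rw [h1, Valuation.map_neg, map_mul]
    have h2 : v (∑ j ∈ Finset.range i, η ^ j) ≤ 1 := by
      apply Valuation.map_sum_le
      intro j _
      rw [map_pow]
      exact pow_le_one' hvη j
    calc v (∑ j ∈ Finset.range i, η ^ j) * v (η - 1) ≤ 1 * v (η - 1) := by gcongr
      _ = v (η - 1) := one_mul _
      _ < 1 := hvη1
  have hpsum : (p : Qb) = ∑ i ∈ Finset.range p, (1 - η ^ i) := by
    rw [Finset.sum_sub_distrib, hsum, sub_zero]
    simp
  have hvp : v (p : Qb) < 1 := by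
    rw [hpsum]
    exact Valuation.map_sum_lt v one_ne_zero hterm
  have hvp1 : v (p : Qb) = 1 := by
    have h1 := Fermat.Agent.Lib.helper872.valuation_intCast_of_not_dvd hq Av hA (p : ℤ) (by
      intro hdvd
      have h2 : q ∣ p := by exact_mod_cast hdvd
      exact hqp ((Nat.prime_dvd_prime_iff_eq hq hp).1 h2))
    simpa using h1
  rw [hvp1] at hvp
  exact lt_irrefl _ hvp

variable {p}

/-- A finite-dimensional representation with open stabilisers is trivial on the fixing
subgroup of a number field. -/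
theorem exists_level_ρ_eq_one (A : Rep.{0} (ZMod p) GQ) [FiniteDimensional (ZMod p) A]
    (hsm : ∀ m : A, ∃ F : IntermediateField ℚ Qb, FiniteDimensional ℚ F ∧
      ∀ s ∈ F.fixingSubgroup, A.ρ s m = m) :
    ∃ F : IntermediateField ℚ Qb, FiniteDimensional ℚ F ∧ ∀ s ∈ F.fixingSubgroup, A.ρ s = 1 := by
  classical
  let b := Module.finBasis (ZMod p) A
  choose F hF hFs using fun i => hsm (b i)
  have : ∀ i, FiniteDimensional ℚ (F i) := hF
  refine ⟨⨆ i, F i, inferInstance, fun s hs => ?_⟩
  apply b.ext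
  intro i
  rw [Module.End.one_apply]
  exact hFs i s (IntermediateField.fixingSubgroup_antitone (le_iSup F i) hs)

instance finiteDimensional_dualTwist (A : Rep.{0} (ZMod p) GQ) [FiniteDimensional (ZMod p) A]
    (χ : GQ →* (ZMod p)ˣ) : FiniteDimensional (ZMod p) (A.dualTwist χ) :=
  inferInstanceAs (FiniteDimensional (ZMod p) (Module.Dual (ZMod p) A))

/-- (D6a) The frozen smoothness hypothesis `hsm` passes to the Tate-twisted dual. -/
theorem hsm_dualTwist (A : Rep.{0} (ZMod p) GQ) [FiniteDimensional (ZMod p) A]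
    (hsm : ∀ m : A, ∃ F : IntermediateField ℚ Qb, FiniteDimensional ℚ F ∧
      ∀ s ∈ F.fixingSubgroup, A.ρ s m = m) :
    ∀ m : A.dualTwist (cycloChar p), ∃ F : IntermediateField ℚ Qb, FiniteDimensional ℚ F ∧
      ∀ s ∈ F.fixingSubgroup, (A.dualTwist (cycloChar p)).ρ s m = m := by
  obtain ⟨F, hF, hFs⟩ := exists_level_ρ_eq_one A hsm
  obtain ⟨F₀, hF₀, hF₀s⟩ := exists_level_cycloChar p
  intro m
  refine ⟨F ⊔ F₀, IntermediateField.finiteDimensional_sup F F₀, fun s hs => ?_⟩
  have h1 : A.ρ s = 1 := hFs s (IntermediateField.fixingSubgroup_antitone le_sup_left hs)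
  have h2 : cycloChar p s = 1 := hF₀s s (IntermediateField.fixingSubgroup_antitone le_sup_right hs)
  rw [dualTwist_ρ_eq_one (cycloChar p) A h1 h2]
  rfl

/-- (D6b) The frozen unramifiedness hypothesis `hMur` passes to the Tate-twisted dual when
`p ∈ S`. -/
theorem hMur_dualTwist (S : Finset Nat.Primes) (hpS : pPrime p ∈ S) (A : Rep.{0} (ZMod p) GQ)
    (hMur : ∀ q : Nat.Primes, q ∉ S → ∀ Av : ValuationSubring Qb,
      Av.LiesOverPrime (q : ℕ) → ∀ g ∈ Av.inertiaSubgroupIn ℚ, A.ρ g = 1) :
    ∀ q : Nat.Primes, q ∉ S → ∀ Av : ValuationSubring Qb,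
      Av.LiesOverPrime (q : ℕ) → ∀ g ∈ Av.inertiaSubgroupIn ℚ,
        (A.dualTwist (cycloChar p)).ρ g = 1 := by
  intro q hq Av hAv g hg
  have hqp : (q : ℕ) ≠ p := by
    intro h
    apply hq
    have : q = pPrime p := Subtype.ext h
    rw [this]
    exact hpS
  exact dualTwist_ρ_eq_one (cycloChar p) A (hMur q hq Av hAv g hg)
    (cycloChar_eq_one_of_mem_inertia p q.2 hqp Av hAv hg)

end GaloisQ

end Fermat.Agent.S55.helper1408
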