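/-
S55 / FW-CUP (backup half, helper5036): evaluation pairing, invariants of the twisted dual as
equivariant maps, and the `H⁰ × H²` push-forward on the frozen carriers, with naturality.
Mathlib + Prelude only.
-/
import Mathlib
import Fermat.Prelude.Def_GroupCohomology_ContinuousUnramified

set_option autoImplicit false

namespace Fermat.Agent.S55.helper5036

open groupCohomology CategoryTheory

universe u

/-! ### The evaluation pairing `M × M*(χ) → k(χ)` -/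

section Eval

variable {k G : Type u} [Field k] [Group G]

/-- The evaluation pairing `M × M.dualTwist χ → ofChar χ`, `(m, f) ↦ f m`. -/
noncomputable def evalPairing (M : Rep.{u} k G) (χ : G →* kˣ) :
    M →ₗ[k] (M.dualTwist χ) →ₗ[k] (ofChar χ) :=
  Module.Dual.eval k M

@[simp] lemma evalPairing_apply (M : Rep.{u} k G) (χ : G →* kˣ) (m : M) (f : M.dualTwist χ) :
    evalPairing M χ m f = (f : Module.Dual k M) m := rfl

lemma ofChar_ρ_apply (χ : G →* kˣ) (g : G) (x : ofChar χ) :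
    (ofChar χ).ρ g x = (χ g : k) * (x : k) := rfl

/-- The evaluation pairing is `G`-equivariant. -/
theorem evalPairing_equivariant (M : Rep.{u} k G) (χ : G →* kˣ) (g : G) (m : M)
    (f : M.dualTwist χ) :
    evalPairing M χ (M.ρ g m) ((M.dualTwist χ).ρ g f) = (ofChar χ).ρ g (evalPairing M χ m f) := by
  rw [ofChar_ρ_apply, evalPairing_apply, evalPairing_apply, Rep.dualTwist_ρ_apply]
  simp

/-- The flipped evaluation pairing `M*(χ) × M → k(χ)` is `G`-equivariant. -/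
theorem evalPairing_flip_equivariant (M : Rep.{u} k G) (χ : G →* kˣ) (g : G) (f : M.dualTwist χ)
    (m : M) :
    (evalPairing M χ).flip ((M.dualTwist χ).ρ g f) (M.ρ g m)
      = (ofChar χ).ρ g ((evalPairing M χ).flip f m) :=
  evalPairing_equivariant M χ g m f

/-- Invariants of the twisted dual are exactly the `χ`-equivariant functionals. -/
theorem mem_invariants_dualTwist_iff (M : Rep.{u} k G) (χ : G →* kˣ) (f : M.dualTwist χ) :
    f ∈ (M.dualTwist χ).ρ.invariants ↔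
      ∀ (g : G) (m : M), (f : Module.Dual k M) (M.ρ g m) = (χ g : k) * (f : Module.Dual k M) m := by
  rw [Representation.mem_invariants]
  constructor
  · intro h g m
    have h1 := LinearMap.congr_fun (h g) (M.ρ g m)
    rw [Rep.dualTwist_ρ_apply] at h1
    rw [← h1]
    simp
  · intro h g
    rw [Rep.dualTwist_ρ_apply]
    refine LinearMap.ext fun m => ?_
    have h2 := h g (M.ρ g⁻¹ m)
    simp only [LinearMap.smul_apply, LinearMap.comp_apply, smul_eq_mul]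
    rw [← h2]
    simp

/-- A `χ`-equivariant functional as an equivariant linear map into `ofChar χ`. -/
noncomputable def invariantToLin (M : Rep.{u} k G) (χ : G →* kˣ) :
    (M.dualTwist χ).ρ.invariants →ₗ[k] (M →ₗ[k] (ofChar χ)) :=
  ((M.dualTwist χ).ρ.invariants).subtype

@[simp] lemma invariantToLin_apply (M : Rep.{u} k G) (χ : G →* kˣ)
    (φ : (M.dualTwist χ).ρ.invariants) (m : M) :
    invariantToLin M χ φ m = ((φ : M.dualTwist χ) : Module.Dual k M) m := rfl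

theorem invariantToLin_equivariant (M : Rep.{u} k G) (χ : G →* kˣ)
    (φ : (M.dualTwist χ).ρ.invariants) (g : G) (m : M) :
    invariantToLin M χ φ (M.ρ g m) = (ofChar χ).ρ g (invariantToLin M χ φ m) :=
  (mem_invariants_dualTwist_iff M χ φ.1).1 φ.2 g m

/-- Conversely an equivariant linear map `M → ofChar χ` is an invariant of the twisted dual. -/
noncomputable def linToInvariant (M : Rep.{u} k G) (χ : G →* kˣ) (f : M →ₗ[k] (ofChar χ))
    (hf : ∀ (g : G) (m : M), f (M.ρ g m) = (ofChar χ).ρ g (f m)) :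
    (M.dualTwist χ).ρ.invariants :=
  ⟨f, (mem_invariants_dualTwist_iff M χ f).2 hf⟩

@[simp] lemma invariantToLin_linToInvariant (M : Rep.{u} k G) (χ : G →* kˣ) (f : M →ₗ[k] (ofChar χ))
    (hf : ∀ (g : G) (m : M), f (M.ρ g m) = (ofChar χ).ρ g (f m)) :
    invariantToLin M χ (linToInvariant M χ f hf) = f := rfl

/-- The Rep morphism `M ⟶ ofChar χ` attached to an invariant of the twisted dual. -/
noncomputable def invariantToHom (M : Rep.{u} k G) (χ : G →* kˣ)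
    (φ : (M.dualTwist χ).ρ.invariants) : M ⟶ ofChar χ :=
  Rep.homEquiv.symm
    (⟨invariantToLin M χ φ, fun g => LinearMap.ext fun m => invariantToLin_equivariant M χ φ g m⟩ :
      M.ρ.IntertwiningMap (ofChar χ).ρ)

@[simp] lemma invariantToHom_hom_apply (M : Rep.{u} k G) (χ : G →* kˣ)
    (φ : (M.dualTwist χ).ρ.invariants) (m : M) :
    (invariantToHom M χ φ).hom m = invariantToLin M χ φ m := rfl

end Eval

/-! ### Functoriality of the frozen `H²` carriers in equivariant linear maps -/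

section H2Lin

variable {k G : Type u} [CommRing k] [Group G]
  (r : G →* (AlgebraicClosure ℚ ≃ₐ[ℚ] AlgebraicClosure ℚ))

/-- Push-forward of `continuousH2 r` along an equivariant linear map. -/
noncomputable def h2Lin {A B : Rep.{u} k G} (φ : A →ₗ[k] B)
    (hφ : ∀ (g : G) (a : A), φ (A.ρ g a) = B.ρ g (φ a)) :
    continuousH2 r A →ₗ[k] continuousH2 r B :=
  continuousH2Map (rH := r) (rG := r) (MonoidHom.id G) (fun _ => rfl) φ hφ

lemma h2Lin_mk {A B : Rep.{u} k G} (φ : A →ₗ[k] B)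
    (hφ : ∀ (g : G) (a : A), φ (A.ρ g a) = B.ρ g (φ a)) (c : ↥(levelCocycles₂ r A)) :
    h2Lin r φ hφ (continuousH2π r A c)
      = continuousH2π r B (levelCocycles₂Map (MonoidHom.id G) (fun _ => rfl) φ hφ c) := rfl

lemma coe_levelCocycles₂Map_id {A B : Rep.{u} k G} (φ : A →ₗ[k] B)
    (hφ : ∀ (g : G) (a : A), φ (A.ρ g a) = B.ρ g (φ a)) (c : ↥(levelCocycles₂ r A)) (x : G × G) :
    (levelCocycles₂Map (rH := r) (rG := r) (MonoidHom.id G) (fun _ => rfl) φ hφ c : G × G → B) x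
      = φ ((c : G × G → A) x) := rfl

lemma h2Lin_congr {A B : Rep.{u} k G} {φ ψ : A →ₗ[k] B} (h : φ = ψ)
    (hφ : ∀ (g : G) (a : A), φ (A.ρ g a) = B.ρ g (φ a))
    (hψ : ∀ (g : G) (a : A), ψ (A.ρ g a) = B.ρ g (ψ a)) :
    h2Lin r φ hφ = h2Lin r ψ hψ := by
  subst h; rfl

lemma h2Lin_add {A B : Rep.{u} k G} (φ ψ : A →ₗ[k] B)
    (hφ : ∀ (g : G) (a : A), φ (A.ρ g a) = B.ρ g (φ a))
    (hψ : ∀ (g : G) (a : A), ψ (A.ρ g a) = B.ρ g (ψ a))
    (hφψ : ∀ (g : G) (a : A), (φ + ψ) (A.ρ g a) = B.ρ g ((φ + ψ) a)) :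
    h2Lin r (φ + ψ) hφψ = h2Lin r φ hφ + h2Lin r ψ hψ := by
  refine LinearMap.ext fun x => ?_
  obtain ⟨c, rfl⟩ := Submodule.mkQ_surjective _ x
  change h2Lin r (φ + ψ) hφψ (continuousH2π r A c)
    = h2Lin r φ hφ (continuousH2π r A c) + h2Lin r ψ hψ (continuousH2π r A c)
  rw [h2Lin_mk, h2Lin_mk, h2Lin_mk, ← map_add]
  congr 1

lemma h2Lin_smul {A B : Rep.{u} k G} (t : k) (φ : A →ₗ[k] B)
    (hφ : ∀ (g : G) (a : A), φ (A.ρ g a) = B.ρ g (φ a))
    (htφ : ∀ (g : G) (a : A), (t • φ) (A.ρ g a) = B.ρ g ((t • φ) a)) :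
    h2Lin r (t • φ) htφ = t • h2Lin r φ hφ := by
  refine LinearMap.ext fun x => ?_
  obtain ⟨c, rfl⟩ := Submodule.mkQ_surjective _ x
  change h2Lin r (t • φ) htφ (continuousH2π r A c) = t • h2Lin r φ hφ (continuousH2π r A c)
  rw [h2Lin_mk, h2Lin_mk, ← map_smul]
  congr 1

lemma h2Lin_comp {A B C : Rep.{u} k G} (φ : A →ₗ[k] B) (ψ : B →ₗ[k] C)
    (hφ : ∀ (g : G) (a : A), φ (A.ρ g a) = B.ρ g (φ a))
    (hψ : ∀ (g : G) (b : B), ψ (B.ρ g b) = C.ρ g (ψ b))
    (hψφ : ∀ (g : G) (a : A), (ψ ∘ₗ φ) (A.ρ g a) = C.ρ g ((ψ ∘ₗ φ) a)) (x : continuousH2 r A) :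
    h2Lin r ψ hψ (h2Lin r φ hφ x) = h2Lin r (ψ ∘ₗ φ) hψφ x := by
  obtain ⟨c, rfl⟩ := Submodule.mkQ_surjective _ x
  rfl

end H2Lin

/-! ### The same for the global `S`-carrier -/

section H2LinS

variable (S : Finset Nat.Primes) {k : Type} [CommRing k]
  {A B C : Rep.{0} k (AlgebraicClosure ℚ ≃ₐ[ℚ] AlgebraicClosure ℚ)}

lemma comp_mem_levelCocyclesS₂ (φ : A →ₗ[k] B)
    (hφ : ∀ (g : AlgebraicClosure ℚ ≃ₐ[ℚ] AlgebraicClosure ℚ) (a : A), φ (A.ρ g a) = B.ρ g (φ a))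
    {c : (AlgebraicClosure ℚ ≃ₐ[ℚ] AlgebraicClosure ℚ) × (AlgebraicClosure ℚ ≃ₐ[ℚ] AlgebraicClosure ℚ) → A}
    (hc : c ∈ levelCocyclesS₂ S A) :
    cochainsPullPush₂ (MonoidHom.id _) φ c ∈ levelCocyclesS₂ S B :=
  ⟨cochainsPullPush₂_mem_cocycles₂ (MonoidHom.id _) φ hφ hc.1, hc.2.comp φ⟩

lemma comp_mem_levelCoboundariesS₂ (φ : A →ₗ[k] B)
    (hφ : ∀ (g : AlgebraicClosure ℚ ≃ₐ[ℚ] AlgebraicClosure ℚ) (a : A), φ (A.ρ g a) = B.ρ g (φ a))
    {c : (AlgebraicClosure ℚ ≃ₐ[ℚ] AlgebraicClosure ℚ) × (AlgebraicClosure ℚ ≃ₐ[ℚ] AlgebraicClosure ℚ) → A}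
    (hc : c ∈ levelCoboundariesS₂ S A) :
    cochainsPullPush₂ (MonoidHom.id _) φ c ∈ levelCoboundariesS₂ S B := by
  obtain ⟨x, hx, rfl⟩ := (mem_levelCoboundariesS₂_iff S A c).1 hc
  exact (mem_levelCoboundariesS₂_iff S B _).2
    ⟨cochainsPullPush₁ (MonoidHom.id _) φ x, hx.comp φ,
      (cochainsPullPush₂_d₁₂ (MonoidHom.id _) φ hφ x).symm⟩

/-- Push-forward of `S`-level 2-cocycles along an equivariant linear map. -/
noncomputable def levelCocyclesS₂Lin (φ : A →ₗ[k] B)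
    (hφ : ∀ (g : AlgebraicClosure ℚ ≃ₐ[ℚ] AlgebraicClosure ℚ) (a : A), φ (A.ρ g a) = B.ρ g (φ a)) :
    ↥(levelCocyclesS₂ S A) →ₗ[k] ↥(levelCocyclesS₂ S B) :=
  (cochainsPullPush₂ (MonoidHom.id _) φ).restrict fun _ hc => comp_mem_levelCocyclesS₂ S φ hφ hc

@[simp] lemma coe_levelCocyclesS₂Lin (φ : A →ₗ[k] B)
    (hφ : ∀ (g : AlgebraicClosure ℚ ≃ₐ[ℚ] AlgebraicClosure ℚ) (a : A), φ (A.ρ g a) = B.ρ g (φ a))
    (c : ↥(levelCocyclesS₂ S A))
    (x : (AlgebraicClosure ℚ ≃ₐ[ℚ] AlgebraicClosure ℚ) × (AlgebraicClosure ℚ ≃ₐ[ℚ] AlgebraicClosure ℚ)) :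
    (levelCocyclesS₂Lin S φ hφ c :
      (AlgebraicClosure ℚ ≃ₐ[ℚ] AlgebraicClosure ℚ) × (AlgebraicClosure ℚ ≃ₐ[ℚ] AlgebraicClosure ℚ) → B) x
      = φ ((c : (AlgebraicClosure ℚ ≃ₐ[ℚ] AlgebraicClosure ℚ) ×
          (AlgebraicClosure ℚ ≃ₐ[ℚ] AlgebraicClosure ℚ) → A) x) := rfl

/-- Push-forward of `continuousH2S S` along an equivariant linear map. -/
noncomputable def h2LinS (φ : A →ₗ[k] B)
    (hφ : ∀ (g : AlgebraicClosure ℚ ≃ₐ[ℚ] AlgebraicClosure ℚ) (a : A), φ (A.ρ g a) = B.ρ g (φ a)) :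
    continuousH2S S A →ₗ[k] continuousH2S S B :=
  Submodule.mapQ _ _ (levelCocyclesS₂Lin S φ hφ) fun _ hc =>
    comp_mem_levelCoboundariesS₂ S φ hφ hc

lemma h2LinS_mk (φ : A →ₗ[k] B)
    (hφ : ∀ (g : AlgebraicClosure ℚ ≃ₐ[ℚ] AlgebraicClosure ℚ) (a : A), φ (A.ρ g a) = B.ρ g (φ a))
    (c : ↥(levelCocyclesS₂ S A)) :
    h2LinS S φ hφ (continuousH2Sπ S A c) = continuousH2Sπ S B (levelCocyclesS₂Lin S φ hφ c) := rfl

lemma h2LinS_congr {φ ψ : A →ₗ[k] B} (h : φ = ψ)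
    (hφ : ∀ (g : AlgebraicClosure ℚ ≃ₐ[ℚ] AlgebraicClosure ℚ) (a : A), φ (A.ρ g a) = B.ρ g (φ a))
    (hψ : ∀ (g : AlgebraicClosure ℚ ≃ₐ[ℚ] AlgebraicClosure ℚ) (a : A), ψ (A.ρ g a) = B.ρ g (ψ a)) :
    h2LinS S φ hφ = h2LinS S ψ hψ := by
  subst h; rfl

lemma h2LinS_add (φ ψ : A →ₗ[k] B)
    (hφ : ∀ (g : AlgebraicClosure ℚ ≃ₐ[ℚ] AlgebraicClosure ℚ) (a : A), φ (A.ρ g a) = B.ρ g (φ a))
    (hψ : ∀ (g : AlgebraicClosure ℚ ≃ₐ[ℚ] AlgebraicClosure ℚ) (a : A), ψ (A.ρ g a) = B.ρ g (ψ a))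
    (hφψ : ∀ (g : AlgebraicClosure ℚ ≃ₐ[ℚ] AlgebraicClosure ℚ) (a : A),
      (φ + ψ) (A.ρ g a) = B.ρ g ((φ + ψ) a)) :
    h2LinS S (φ + ψ) hφψ = h2LinS S φ hφ + h2LinS S ψ hψ := by
  refine LinearMap.ext fun x => ?_
  obtain ⟨c, rfl⟩ := Submodule.mkQ_surjective _ x
  change h2LinS S (φ + ψ) hφψ (continuousH2Sπ S A c)
    = h2LinS S φ hφ (continuousH2Sπ S A c) + h2LinS S ψ hψ (continuousH2Sπ S A c)
  rw [h2LinS_mk, h2LinS_mk, h2LinS_mk, ← map_add]
  congr 1

lemma h2LinS_smul (t : k) (φ : A →ₗ[k] B)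
    (hφ : ∀ (g : AlgebraicClosure ℚ ≃ₐ[ℚ] AlgebraicClosure ℚ) (a : A), φ (A.ρ g a) = B.ρ g (φ a))
    (htφ : ∀ (g : AlgebraicClosure ℚ ≃ₐ[ℚ] AlgebraicClosure ℚ) (a : A),
      (t • φ) (A.ρ g a) = B.ρ g ((t • φ) a)) :
    h2LinS S (t • φ) htφ = t • h2LinS S φ hφ := by
  refine LinearMap.ext fun x => ?_
  obtain ⟨c, rfl⟩ := Submodule.mkQ_surjective _ x
  change h2LinS S (t • φ) htφ (continuousH2Sπ S A c) = t • h2LinS S φ hφ (continuousH2Sπ S A c)
  rw [h2LinS_mk, h2LinS_mk, ← map_smul]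
  congr 1

lemma h2LinS_comp (φ : A →ₗ[k] B) (ψ : B →ₗ[k] C)
    (hφ : ∀ (g : AlgebraicClosure ℚ ≃ₐ[ℚ] AlgebraicClosure ℚ) (a : A), φ (A.ρ g a) = B.ρ g (φ a))
    (hψ : ∀ (g : AlgebraicClosure ℚ ≃ₐ[ℚ] AlgebraicClosure ℚ) (b : B), ψ (B.ρ g b) = C.ρ g (ψ b))
    (hψφ : ∀ (g : AlgebraicClosure ℚ ≃ₐ[ℚ] AlgebraicClosure ℚ) (a : A),
      (ψ ∘ₗ φ) (A.ρ g a) = C.ρ g ((ψ ∘ₗ φ) a)) (x : continuousH2S S A) :
    h2LinS S ψ hψ (h2LinS S φ hφ x) = h2LinS S (ψ ∘ₗ φ) hψφ x := by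
  obtain ⟨c, rfl⟩ := Submodule.mkQ_surjective _ x
  rfl

/-- Localisation commutes with push-forward along an equivariant linear map:
`loc_f (φ_* x) = φ_* (loc_f x)`. -/
theorem locRes₂S_h2LinS {H : Type} [Group H] (f : H →* (AlgebraicClosure ℚ ≃ₐ[ℚ] AlgebraicClosure ℚ))
    (φ : A →ₗ[k] B)
    (hφ : ∀ (g : AlgebraicClosure ℚ ≃ₐ[ℚ] AlgebraicClosure ℚ) (a : A), φ (A.ρ g a) = B.ρ g (φ a))
    (hφ' : ∀ (h : H) (a : Rep.res f A), φ ((Rep.res f A).ρ h a) = (Rep.res f B).ρ h (φ a))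
    (x : continuousH2S S A) :
    locRes₂S S B f (h2LinS S φ hφ x)
      = h2Lin f (A := Rep.res f A) (B := Rep.res f B) φ hφ' (locRes₂S S A f x) := by
  obtain ⟨c, rfl⟩ := Submodule.mkQ_surjective _ x
  rfl

/-- The equivariance hypothesis restricted along `f` (convenience). -/
lemma equivariant_res {H : Type} [Group H] (f : H →* (AlgebraicClosure ℚ ≃ₐ[ℚ] AlgebraicClosure ℚ))
    (φ : A →ₗ[k] B)
    (hφ : ∀ (g : AlgebraicClosure ℚ ≃ₐ[ℚ] AlgebraicClosure ℚ) (a : A), φ (A.ρ g a) = B.ρ g (φ a))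
    (h : H) (a : Rep.res f A) : φ ((Rep.res f A).ρ h a) = (Rep.res f B).ρ h (φ a) :=
  hφ (f h) a

end H2LinS

/-! ### The `H⁰ × H²` push-forward pairing -/

section Push

variable {k G : Type u} [Field k] [Group G]
  (r : G →* (AlgebraicClosure ℚ ≃ₐ[ℚ] AlgebraicClosure ℚ))

/-- The push-forward pairing `H⁰(M*(χ)) × H²(M) → H²(k(χ))`, `(φ, x) ↦ φ_* x`, on the frozen
carrier `continuousH2 r`. -/
noncomputable def pushH2 (M : Rep.{u} k G) (χ : G →* kˣ) :
    (M.dualTwist χ).ρ.invariants →ₗ[k] continuousH2 r M →ₗ[k] continuousH2 r (ofChar χ) where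
  toFun φ := h2Lin r (invariantToLin M χ φ) (invariantToLin_equivariant M χ φ)
  map_add' φ ψ := by
    have h := h2Lin_add r (invariantToLin M χ φ) (invariantToLin M χ ψ)
      (invariantToLin_equivariant M χ φ) (invariantToLin_equivariant M χ ψ)
      (by rw [← map_add]; exact invariantToLin_equivariant M χ (φ + ψ))
    rw [← h]
    rfl
  map_smul' t φ := by
    have h := h2Lin_smul r t (invariantToLin M χ φ) (invariantToLin_equivariant M χ φ)
      (by rw [← map_smul]; exact invariantToLin_equivariant M χ (t • φ))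
    rw [RingHom.id_apply, ← h]
    rfl

lemma pushH2_apply (M : Rep.{u} k G) (χ : G →* kˣ) (φ : (M.dualTwist χ).ρ.invariants)
    (x : continuousH2 r M) :
    pushH2 r M χ φ x = h2Lin r (invariantToLin M χ φ) (invariantToLin_equivariant M χ φ) x := rfl

/-- On representatives: `φ_* [c] = [φ ∘ c]`. -/
lemma pushH2_mk (M : Rep.{u} k G) (χ : G →* kˣ) (φ : (M.dualTwist χ).ρ.invariants)
    (c : ↥(levelCocycles₂ r M)) :
    pushH2 r M χ φ (continuousH2π r M c)
      = continuousH2π r (ofChar χ)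
          (levelCocycles₂Map (MonoidHom.id G) (fun _ => rfl) (invariantToLin M χ φ)
            (invariantToLin_equivariant M χ φ) c) := rfl

/-- Naturality of the push-forward pairing in the module: if `φ' = φ ∘ ψ` then
`φ_* (ψ_* x) = φ'_* x`. -/
theorem pushH2_h2Lin {M N : Rep.{u} k G} (χ : G →* kˣ) (ψ : M →ₗ[k] N)
    (hψ : ∀ (g : G) (m : M), ψ (M.ρ g m) = N.ρ g (ψ m))
    (φ : (N.dualTwist χ).ρ.invariants) (φ' : (M.dualTwist χ).ρ.invariants)
    (h : ∀ m : M, invariantToLin M χ φ' m = invariantToLin N χ φ (ψ m)) (x : continuousH2 r M) :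
    pushH2 r N χ φ (h2Lin r ψ hψ x) = pushH2 r M χ φ' x := by
  have h' : invariantToLin M χ φ' = invariantToLin N χ φ ∘ₗ ψ := LinearMap.ext h
  rw [pushH2_apply, pushH2_apply,
    h2Lin_comp r ψ (invariantToLin N χ φ) hψ (invariantToLin_equivariant N χ φ)
      (by rw [← h']; exact invariantToLin_equivariant M χ φ')]
  exact LinearMap.congr_fun (h2Lin_congr r h'.symm _ _) x

/-- Pull-back of invariants of the twisted dual along an equivariant linear map. -/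
noncomputable def invariantsPull {M N : Rep.{u} k G} (χ : G →* kˣ) (ψ : M →ₗ[k] N)
    (hψ : ∀ (g : G) (m : M), ψ (M.ρ g m) = N.ρ g (ψ m)) :
    (N.dualTwist χ).ρ.invariants →ₗ[k] (M.dualTwist χ).ρ.invariants where
  toFun φ := linToInvariant M χ (invariantToLin N χ φ ∘ₗ ψ) (fun g m => by
    rw [LinearMap.comp_apply, LinearMap.comp_apply, hψ, invariantToLin_equivariant])
  map_add' φ φ' := by
    apply Subtype.ext
    exact LinearMap.ext fun m => rfl
  map_smul' t φ := by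
    apply Subtype.ext
    exact LinearMap.ext fun m => rfl

@[simp] lemma invariantToLin_invariantsPull {M N : Rep.{u} k G} (χ : G →* kˣ) (ψ : M →ₗ[k] N)
    (hψ : ∀ (g : G) (m : M), ψ (M.ρ g m) = N.ρ g (ψ m)) (φ : (N.dualTwist χ).ρ.invariants)
    (m : M) :
    invariantToLin M χ (invariantsPull χ ψ hψ φ) m = invariantToLin N χ φ (ψ m) := rfl

/-- Naturality, adjoint form: `⟨φ, ψ_* x⟩ = ⟨ψ^* φ, x⟩`. -/
theorem pushH2_h2Lin_eq_invariantsPull {M N : Rep.{u} k G} (χ : G →* kˣ) (ψ : M →ₗ[k] N)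
    (hψ : ∀ (g : G) (m : M), ψ (M.ρ g m) = N.ρ g (ψ m))
    (φ : (N.dualTwist χ).ρ.invariants) (x : continuousH2 r M) :
    pushH2 r N χ φ (h2Lin r ψ hψ x) = pushH2 r M χ (invariantsPull χ ψ hψ φ) x :=
  pushH2_h2Lin r χ ψ hψ φ _ (fun _ => rfl) x

end Push

/-! ### Restriction of the twisted dual along a group homomorphism -/

section ResDual

variable {k G H : Type u} [Field k] [Group G] [Group H]

/-- `Rep.res f (ofChar χ)` and `ofChar (χ.comp f)` are the same representation. -/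
lemma res_ofChar (f : H →* G) (χ : G →* kˣ) : Rep.res f (ofChar χ) = ofChar (χ.comp f) := rfl

/-- The identity map `Rep.res f (M.dualTwist χ) → (Rep.res f M).dualTwist (χ.comp f)`; the two
representations have the same carrier and the same action, but not definitionally. -/
noncomputable def resDualTwistEquiv (f : H →* G) (M : Rep.{u} k G) (χ : G →* kˣ) :
    Rep.res f (M.dualTwist χ) ≃ₗ[k] (Rep.res f M).dualTwist (χ.comp f) :=
  LinearEquiv.refl k (Module.Dual k M)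

@[simp] lemma resDualTwistEquiv_apply (f : H →* G) (M : Rep.{u} k G) (χ : G →* kˣ)
    (φ : Rep.res f (M.dualTwist χ)) (m : M) :
    ((resDualTwistEquiv f M χ φ : (Rep.res f M).dualTwist (χ.comp f)) : Module.Dual k M) m
      = (φ : Module.Dual k M) m := rfl

/-- The identification `resDualTwistEquiv` is equivariant. -/
theorem resDualTwistEquiv_equivariant (f : H →* G) (M : Rep.{u} k G) (χ : G →* kˣ) (h : H)
    (φ : Rep.res f (M.dualTwist χ)) :
    resDualTwistEquiv f M χ ((Rep.res f (M.dualTwist χ)).ρ h φ)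
      = ((Rep.res f M).dualTwist (χ.comp f)).ρ h (resDualTwistEquiv f M χ φ) := by
  refine LinearMap.ext fun m => ?_
  rw [Rep.dualTwist_ρ_apply]
  change ((M.dualTwist χ).ρ (f h) φ : Module.Dual k M) m = _
  rw [Rep.dualTwist_ρ_apply]
  simp only [LinearMap.smul_apply, LinearMap.comp_apply, MonoidHom.comp_apply, map_inv]
  rfl

/-- A global invariant of the twisted dual, viewed as an invariant of the twisted dual of the
restricted representation. -/
noncomputable def resInvariant (f : H →* G) (M : Rep.{u} k G) (χ : G →* kˣ) :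
    (M.dualTwist χ).ρ.invariants →ₗ[k] ((Rep.res f M).dualTwist (χ.comp f)).ρ.invariants where
  toFun φ := ⟨(φ : M.dualTwist χ),
    (mem_invariants_dualTwist_iff (Rep.res f M) (χ.comp f) _).2 fun h m =>
      (mem_invariants_dualTwist_iff M χ φ.1).1 φ.2 (f h) m⟩
  map_add' _ _ := rfl
  map_smul' _ _ := rfl

@[simp] lemma invariantToLin_resInvariant (f : H →* G) (M : Rep.{u} k G) (χ : G →* kˣ)
    (φ : (M.dualTwist χ).ρ.invariants) (m : M) :
    invariantToLin (Rep.res f M) (χ.comp f) (resInvariant f M χ φ) m = invariantToLin M χ φ m :=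
  rfl

end ResDual

/-! ### The global push-forward pairing and its localisation -/

section PushS

variable (S : Finset Nat.Primes) {k : Type} [Field k]

/-- The push-forward pairing `H⁰(G_ℚ, M*(χ)) × H²(G_S, M) → H²(G_S, k(χ))` on the frozen
carrier `continuousH2S S`. -/
noncomputable def pushH2S (M : Rep.{0} k (AlgebraicClosure ℚ ≃ₐ[ℚ] AlgebraicClosure ℚ))
    (χ : (AlgebraicClosure ℚ ≃ₐ[ℚ] AlgebraicClosure ℚ) →* kˣ) :
    (M.dualTwist χ).ρ.invariants →ₗ[k] continuousH2S S M →ₗ[k] continuousH2S S (ofChar χ) where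
  toFun φ := h2LinS S (invariantToLin M χ φ) (invariantToLin_equivariant M χ φ)
  map_add' φ ψ := by
    have h := h2LinS_add S (invariantToLin M χ φ) (invariantToLin M χ ψ)
      (invariantToLin_equivariant M χ φ) (invariantToLin_equivariant M χ ψ)
      (by rw [← map_add]; exact invariantToLin_equivariant M χ (φ + ψ))
    rw [← h]
    rfl
  map_smul' t φ := by
    have h := h2LinS_smul S t (invariantToLin M χ φ) (invariantToLin_equivariant M χ φ)
      (by rw [← map_smul]; exact invariantToLin_equivariant M χ (t • φ))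
    rw [RingHom.id_apply, ← h]
    rfl

variable {M N : Rep.{0} k (AlgebraicClosure ℚ ≃ₐ[ℚ] AlgebraicClosure ℚ)}
  (χ : (AlgebraicClosure ℚ ≃ₐ[ℚ] AlgebraicClosure ℚ) →* kˣ)

lemma pushH2S_apply (φ : (M.dualTwist χ).ρ.invariants) (x : continuousH2S S M) :
    pushH2S S M χ φ x
      = h2LinS S (invariantToLin M χ φ) (invariantToLin_equivariant M χ φ) x := rfl

/-- On representatives: `φ_* [c] = [φ ∘ c]`. -/
lemma pushH2S_mk (φ : (M.dualTwist χ).ρ.invariants) (c : ↥(levelCocyclesS₂ S M)) :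
    pushH2S S M χ φ (continuousH2Sπ S M c)
      = continuousH2Sπ S (ofChar χ)
          (levelCocyclesS₂Lin S (invariantToLin M χ φ) (invariantToLin_equivariant M χ φ) c) :=
  rfl

/-- Naturality of the global push-forward pairing in the module. -/
theorem pushH2S_h2LinS (ψ : M →ₗ[k] N)
    (hψ : ∀ (g : AlgebraicClosure ℚ ≃ₐ[ℚ] AlgebraicClosure ℚ) (m : M), ψ (M.ρ g m) = N.ρ g (ψ m))
    (φ : (N.dualTwist χ).ρ.invariants) (x : continuousH2S S M) :
    pushH2S S N χ φ (h2LinS S ψ hψ x) = pushH2S S M χ (invariantsPull χ ψ hψ φ) x := by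
  rw [pushH2S_apply, pushH2S_apply,
    h2LinS_comp S ψ (invariantToLin N χ φ) hψ (invariantToLin_equivariant N χ φ)
      (invariantToLin_equivariant M χ (invariantsPull χ ψ hψ φ))]
  rfl

/-- **Localisation of the push-forward pairing** (the compatibility used in step B of the soft
squeeze): `loc_f (φ_* x) = (φ|_f)_* (loc_f x)`, with the local pairing taken for the restricted
module `Rep.res f M` and the restricted character `χ.comp f`. -/
theorem locRes₂S_pushH2S {H : Type} [Group H]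
    (f : H →* (AlgebraicClosure ℚ ≃ₐ[ℚ] AlgebraicClosure ℚ))
    (φ : (M.dualTwist χ).ρ.invariants) (x : continuousH2S S M) :
    locRes₂S S (ofChar χ) f (pushH2S S M χ φ x)
      = pushH2 f (Rep.res f M) (χ.comp f) (resInvariant f M χ φ) (locRes₂S S M f x) := by
  obtain ⟨c, rfl⟩ := Submodule.mkQ_surjective _ x
  rfl

end PushS

end Fermat.Agent.S55.helper5036
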