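/-
S55, LOCAL layer (sub-architect helper665): the OUTPUT interface of the local layer on the
frozen carriers `continuousH2 r N`, together with the proved glue between the shapes used by
the leaves.

* `L2Inj r χ N`, `L2Surj r χ N` : the two kernels of the push-forward pairing
  `H²(N) × Hom_G(N, k(χ)) → H²(k(χ))`, `(z, φ) ↦ φ_* z`, are trivial (no normalised invariant
  map is needed to state them).
* `IsL2 r χ inv N` : the "inv-form" consumed by the local Euler characteristic, by step B of the
  soft squeeze and by the (GC) descent.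
* glue: `stmt_L2inj_iff` (the shape consumed by the landed (L3) file), `isL2_iff`,
  the invariant forms `l2Inj_iff_push` / `l2Surj_iff_push`, and the numerical consequence
  `finrank_continuousH2_eq_of_isL2`.
* closed statements at the primes: `Stmt_LocInv`, `Stmt_LocL2Inj`, `Stmt_LocL2Surj`, and what they
  give for restrictions of global modules (`isL2_res`, `finrank_continuousH2_res`,
  `finrank_continuousH2_res_dualTwist`).
-/
import Mathlib
import Fermat.Prelude.Def_GroupCohomology_ContinuousUnramified
import Fermat.Agent.S55.helper1447_L3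
import Fermat.Agent.S55.helper5036_EvalPush
import Fermat.Agent.S55.helper1408_DualTwist

set_option autoImplicit false

namespace Fermat.Agent.S55.helper665

open CategoryTheory groupCohomology ExtCitation Module

universe u

/-! ### Generic part: any group `G` with a map `r` to the absolute Galois group of `ℚ` -/

section Generic

variable {k G : Type u} [Field k] [Group G]
variable (r : G →* (AlgebraicClosure ℚ ≃ₐ[ℚ] AlgebraicClosure ℚ)) (χ : G →* kˣ)

/-- **(L2), left kernel.** A class of `continuousH2 r N` killed by every `G`-map `N → k(χ)`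
vanishes. -/
def L2Inj (N : Rep.{u} k G) : Prop :=
  ∀ z : continuousH2 r N, (∀ φ : N ⟶ ofChar χ, continuousH2MapHom r φ z = 0) → z = 0

/-- **(L2), right kernel.** A `G`-map `N → k(χ)` inducing zero on `continuousH2 r` vanishes. -/
def L2Surj (N : Rep.{u} k G) : Prop :=
  ∀ φ : N ⟶ ofChar χ, (∀ z : continuousH2 r N, continuousH2MapHom r φ z = 0) → φ = 0

/-- **(L2), inv-form**: both kernels of `(x, f) ↦ inv (f_* x)` are trivial. -/
def IsL2 (inv : continuousH2 r (ofChar χ) →ₗ[k] k) (N : Rep.{u} k G) : Prop :=
  (∀ x : continuousH2 r N, (∀ f : N ⟶ ofChar χ, inv (continuousH2MapHom r f x) = 0) → x = 0) ∧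
  (∀ f : N ⟶ ofChar χ, (∀ x : continuousH2 r N, inv (continuousH2MapHom r f x) = 0) → f = 0)

/-- The shape of (L2)-injectivity consumed by the landed (L3) file is `L2Inj` for every
finite-dimensional smooth module. -/
theorem stmt_L2inj_iff :
    helper1447.Stmt_L2inj r χ ↔
      ∀ N : Rep.{u} k G, FiniteDimensional k N → helper1447.IsSmoothRep r N → L2Inj r χ N := by
  constructor
  · intro h N hN hsm z hz
    by_contra hne
    obtain ⟨φ, hφ⟩ := h N hN hsm z hne
    exact hφ (hz φ)
  · intro h N hN hsm z hne
    by_contra hcon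
    exact hne (h N hN hsm z fun φ => not_not.1 fun hφ => hcon ⟨φ, hφ⟩)

variable {r χ}

/-- With an injective invariant map the inv-form is the conjunction of the two kernel
conditions. -/
theorem isL2_iff {inv : continuousH2 r (ofChar χ) →ₗ[k] k} (hinv : Function.Injective inv)
    (N : Rep.{u} k G) : IsL2 r χ inv N ↔ L2Inj r χ N ∧ L2Surj r χ N := by
  have key : ∀ y : continuousH2 r (ofChar χ), inv y = 0 ↔ y = 0 := fun y =>
    ⟨fun h => hinv (by rw [h, map_zero]), fun h => by rw [h, map_zero]⟩
  constructor
  · rintro ⟨h1, h2⟩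
    exact ⟨fun z hz => h1 z fun f => (key _).2 (hz f), fun φ hφ => h2 φ fun x => (key _).2 (hφ x)⟩
  · rintro ⟨h1, h2⟩
    exact ⟨fun x hx => h1 x fun f => (key _).1 (hx f), fun f hf => h2 f fun x => (key _).1 (hf x)⟩

theorem IsL2.of_l2 {inv : continuousH2 r (ofChar χ) →ₗ[k] k} (hinv : Function.Injective inv)
    {N : Rep.{u} k G} (h1 : L2Inj r χ N) (h2 : L2Surj r χ N) : IsL2 r χ inv N :=
  (isL2_iff hinv N).2 ⟨h1, h2⟩

/-! #### Homs into `k(χ)` versus invariants of the twisted dual -/

/-- The invariant of the twisted dual attached to a `G`-map `N → k(χ)`. -/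
noncomputable def homToInvariant (N : Rep.{u} k G) (f : N ⟶ ofChar χ) :
    (N.dualTwist χ).ρ.invariants :=
  helper5036.linToInvariant N χ f.hom.toLinearMap (fun g m => Rep.hom_comm_apply f g m)

@[simp] lemma invariantToHom_homToInvariant (N : Rep.{u} k G) (f : N ⟶ ofChar χ) :
    helper5036.invariantToHom N χ (homToInvariant N f) = f := by
  ext m
  rfl

@[simp] lemma homToInvariant_invariantToHom (N : Rep.{u} k G)
    (φ : (N.dualTwist χ).ρ.invariants) :
    homToInvariant N (helper5036.invariantToHom N χ φ) = φ := by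
  apply Subtype.ext
  rfl

/-- The push-forward pairing of `helper5036` is the frozen `continuousH2MapHom` of the
corresponding `G`-map. -/
lemma pushH2_eq_mapHom (N : Rep.{u} k G) (φ : (N.dualTwist χ).ρ.invariants)
    (z : continuousH2 r N) :
    helper5036.pushH2 r N χ φ z = continuousH2MapHom r (helper5036.invariantToHom N χ φ) z := rfl

lemma mapHom_eq_pushH2 (N : Rep.{u} k G) (f : N ⟶ ofChar χ) (z : continuousH2 r N) :
    continuousH2MapHom r f z = helper5036.pushH2 r N χ (homToInvariant N f) z := by
  rw [pushH2_eq_mapHom, invariantToHom_homToInvariant]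

/-- `L2Inj` in terms of the bilinear push-forward pairing with the invariants of the twisted
dual. -/
theorem l2Inj_iff_push (N : Rep.{u} k G) :
    L2Inj r χ N ↔
      ∀ z : continuousH2 r N,
        (∀ φ : (N.dualTwist χ).ρ.invariants, helper5036.pushH2 r N χ φ z = 0) → z = 0 := by
  constructor
  · intro h z hz
    exact h z fun f => by rw [mapHom_eq_pushH2]; exact hz _
  · intro h z hz
    exact h z fun φ => by rw [pushH2_eq_mapHom]; exact hz _

/-- `L2Surj` in terms of the bilinear push-forward pairing with the invariants of the twisted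
dual. -/
theorem l2Surj_iff_push (N : Rep.{u} k G) :
    L2Surj r χ N ↔
      ∀ φ : (N.dualTwist χ).ρ.invariants,
        (∀ z : continuousH2 r N, helper5036.pushH2 r N χ φ z = 0) → φ = 0 := by
  constructor
  · intro h φ hφ
    have h0 := h (helper5036.invariantToHom N χ φ) fun z => by
      rw [← pushH2_eq_mapHom]; exact hφ z
    have h1 := homToInvariant_invariantToHom N φ
    rw [h0] at h1
    rw [← h1]
    apply Subtype.ext
    rfl
  · intro h f hf
    have h0 := h (homToInvariant N f) fun z => by
      rw [← mapHom_eq_pushH2]; exact hf z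
    have h1 := invariantToHom_homToInvariant N f
    rw [h0] at h1
    rw [← h1]
    ext m
    rfl

/-- The `k`-valued pairing `H⁰(N*(χ)) × H²(N) → k`, `(φ, z) ↦ inv (φ_* z)`. -/
noncomputable def l2Pairing (inv : continuousH2 r (ofChar χ) →ₗ[k] k) (N : Rep.{u} k G) :
    (N.dualTwist χ).ρ.invariants →ₗ[k] continuousH2 r N →ₗ[k] k :=
  (helper5036.pushH2 r N χ).compr₂ inv

@[simp] lemma l2Pairing_apply (inv : continuousH2 r (ofChar χ) →ₗ[k] k) (N : Rep.{u} k G)
    (φ : (N.dualTwist χ).ρ.invariants) (z : continuousH2 r N) :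
    l2Pairing inv N φ z = inv (helper5036.pushH2 r N χ φ z) := rfl

/-- The inv-form of (L2) says exactly that the pairing `l2Pairing` has trivial kernels. -/
theorem isL2_iff_pairing (inv : continuousH2 r (ofChar χ) →ₗ[k] k) (N : Rep.{u} k G) :
    IsL2 r χ inv N ↔
      (∀ z : continuousH2 r N, (∀ φ, l2Pairing inv N φ z = 0) → z = 0) ∧
      (∀ φ : (N.dualTwist χ).ρ.invariants, (∀ z, l2Pairing inv N φ z = 0) → φ = 0) := by
  constructor
  · rintro ⟨h1, h2⟩
    refine ⟨fun z hz => h1 z fun f => ?_, fun φ hφ => ?_⟩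
    · rw [mapHom_eq_pushH2]; exact hz _
    · have h0 := h2 (helper5036.invariantToHom N χ φ) fun z => by
        rw [← pushH2_eq_mapHom]; exact hφ z
      have h3 := homToInvariant_invariantToHom N φ
      rw [h0] at h3
      rw [← h3]
      apply Subtype.ext
      rfl
  · rintro ⟨h1, h2⟩
    refine ⟨fun x hx => h1 x fun φ => ?_, fun f hf => ?_⟩
    · rw [l2Pairing_apply, pushH2_eq_mapHom]; exact hx _
    · have h0 := h2 (homToInvariant N f) fun z => by
        rw [l2Pairing_apply, ← mapHom_eq_pushH2]; exact hf z
      have h3 := invariantToHom_homToInvariant N f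
      rw [h0] at h3
      rw [← h3]
      ext m
      rfl

instance finiteDimensional_dualTwist' (N : Rep.{u} k G) [FiniteDimensional k N] :
    FiniteDimensional k (N.dualTwist χ) :=
  inferInstanceAs (FiniteDimensional k (Module.Dual k N))

/-- **Numerical (L2).** If `N` is finite-dimensional and (L2) holds in the inv-form, then
`continuousH2 r N` is finite-dimensional of the same dimension as the invariants of the
twisted dual. -/
theorem finrank_continuousH2_eq_of_isL2 {inv : continuousH2 r (ofChar χ) →ₗ[k] k}
    (N : Rep.{u} k G) [FiniteDimensional k N] (h : IsL2 r χ inv N) :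
    FiniteDimensional k (continuousH2 r N) ∧
      finrank k (continuousH2 r N) = finrank k (N.dualTwist χ).ρ.invariants := by
  obtain ⟨h1, h2⟩ := (isL2_iff_pairing inv N).1 h
  set B := l2Pairing inv N with hB
  have hinj1 : Function.Injective B.flip := by
    intro z z' hzz
    have : z - z' = 0 := h1 _ fun φ => by
      have := LinearMap.congr_fun hzz φ
      simp only [LinearMap.flip_apply] at this
      rw [map_sub, this, sub_self]
    exact sub_eq_zero.1 this
  have hinj2 : Function.Injective B := by
    intro φ φ' hφφ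
    have : φ - φ' = 0 := h2 _ fun z => by
      have := LinearMap.congr_fun hφφ z
      rw [map_sub, LinearMap.sub_apply, this, sub_self]
    exact sub_eq_zero.1 this
  have hfd : FiniteDimensional k (continuousH2 r N) :=
    FiniteDimensional.of_injective B.flip hinj1
  refine ⟨hfd, le_antisymm ?_ ?_⟩
  · have := LinearMap.finrank_le_finrank_of_injective hinj1
    rwa [Subspace.dual_finrank_eq] at this
  · have := LinearMap.finrank_le_finrank_of_injective hinj2
    rwa [Subspace.dual_finrank_eq] at this

/-- Isomorphic representations have invariants of the same dimension. -/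
theorem finrank_invariants_eq_of_iso {A B : Rep.{u} k G} (e : A ≅ B) :
    finrank k A.ρ.invariants = finrank k B.ρ.invariants := by
  have h1 : ∀ x : A, e.inv.hom (e.hom.hom x) = x := fun x => by simp
  have h2 : ∀ y : B, e.hom.hom (e.inv.hom y) = y := fun y => by simp
  have hA : ∀ x : A, x ∈ A.ρ.invariants → e.hom.hom x ∈ B.ρ.invariants := fun x hx g => by
    rw [← Rep.hom_comm_apply e.hom g x, hx g]
  have hB : ∀ y : B, y ∈ B.ρ.invariants → e.inv.hom y ∈ A.ρ.invariants := fun y hy g => by
    rw [← Rep.hom_comm_apply e.inv g y, hy g]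
  refine LinearEquiv.finrank_eq
    { toFun := fun x => ⟨e.hom.hom x.1, hA x.1 x.2⟩
      map_add' := fun x y => Subtype.ext (map_add _ _ _)
      map_smul' := fun c x => Subtype.ext (map_smul _ _ _)
      invFun := fun y => ⟨e.inv.hom y.1, hB y.1 y.2⟩
      left_inv := fun x => Subtype.ext (h1 x.1)
      right_inv := fun y => Subtype.ext (h2 y.1) }

end Generic

/-! ### Closed statements at the primes -/

section Closed

local notation "GQ" => (AlgebraicClosure ℚ ≃ₐ[ℚ] AlgebraicClosure ℚ)

variable (p : ℕ) [Fact p.Prime]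

/-- The mod `p` cyclotomic character of the local Galois group at `q`. -/
noncomputable def chiLoc (q : Nat.Primes) : primeLocalGaloisGroup q →* (ZMod p)ˣ :=
  (cycloChar p).comp (primeLocalToGlobal q)

/-- The restriction of the global `μ_p`-model is the local `μ_p`-model (definitionally). -/
lemma res_ofChar_cycloChar (q : Nat.Primes) :
    Rep.res (primeLocalToGlobal q) (ofChar (cycloChar p)) = ofChar (chiLoc p q) := rfl

/-- The local cyclotomic character is of level type. -/
theorem isLevelChar_chiLoc (q : Nat.Primes) :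
    helper1447.IsLevelChar (primeLocalToGlobal q) (chiLoc p q) := by
  obtain ⟨F, hF, h⟩ := helper1408.exists_level_cycloChar p
  exact ⟨F, hF, fun s hs => h _ hs⟩

variable {p}

/-- The restriction of a smooth global module to a local group is smooth. -/
theorem isSmoothRep_res (q : Nat.Primes) (M : Rep.{0} (ZMod p) GQ)
    (hsm : ∀ m : M, ∃ F : IntermediateField ℚ (AlgebraicClosure ℚ), FiniteDimensional ℚ F ∧
      ∀ s ∈ F.fixingSubgroup, M.ρ s m = m) :
    helper1447.IsSmoothRep (primeLocalToGlobal q) (Rep.res (primeLocalToGlobal q) M) := by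
  intro m
  obtain ⟨F, hF, h⟩ := hsm m
  exact ⟨F, hF, fun s hs => h _ hs⟩

instance finiteDimensional_res {H : Type} [Group H] (f : H →* GQ) (M : Rep.{0} (ZMod p) GQ)
    [FiniteDimensional (ZMod p) M] : FiniteDimensional (ZMod p) (Rep.res f M) :=
  inferInstanceAs (FiniteDimensional (ZMod p) M)

variable (p)

/-- **(O1) = (LB1) over `ℚ_q`.** `H²(ℚ_q, μ_p)` is a line: there is a bijective invariant map. -/
def Stmt_LocInv : Prop :=
  ∀ q : Nat.Primes, ∃ inv : continuousH2 (primeLocalToGlobal q) (ofChar (chiLoc p q))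
      →ₗ[ZMod p] ZMod p, Function.Bijective inv

/-- **(O2) (L2), left kernel**, for every prime and every finite smooth module, in the shape
consumed by the landed (L3) file. -/
def Stmt_LocL2Inj : Prop :=
  ∀ q : Nat.Primes, helper1447.Stmt_L2inj (primeLocalToGlobal q) (chiLoc p q)

/-- **(O2') (L2), right kernel**, for every prime and every finite smooth module. -/
def Stmt_LocL2Surj : Prop :=
  ∀ q : Nat.Primes, ∀ N : Rep.{0} (ZMod p) (primeLocalGaloisGroup q),
    FiniteDimensional (ZMod p) N → helper1447.IsSmoothRep (primeLocalToGlobal q) N →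
      L2Surj (primeLocalToGlobal q) (chiLoc p q) N

variable {p}

/-- (L2) in the inv-form for every finite smooth local module and EVERY injective invariant
map (so the existential choice of the invariant maps made by the reciprocity law is free). -/
theorem isL2_of_stmt (h1 : Stmt_LocL2Inj p) (h2 : Stmt_LocL2Surj p) (q : Nat.Primes)
    {inv : continuousH2 (primeLocalToGlobal q) (ofChar (chiLoc p q)) →ₗ[ZMod p] ZMod p}
    (hinv : Function.Injective inv) (N : Rep.{0} (ZMod p) (primeLocalGaloisGroup q))
    [FiniteDimensional (ZMod p) N] (hN : helper1447.IsSmoothRep (primeLocalToGlobal q) N) :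
    IsL2 (primeLocalToGlobal q) (chiLoc p q) inv N :=
  IsL2.of_l2 hinv ((stmt_L2inj_iff _ _).1 (h1 q) N inferInstance hN) (h2 q N inferInstance hN)

/-- A nonzero functional on a line is injective: under `Stmt_LocInv` every nonzero
`inv' : H²(ℚ_q, μ_p) → 𝔽_p` is injective. -/
theorem injective_of_ne_zero (h0 : Stmt_LocInv p) (q : Nat.Primes)
    {inv' : continuousH2 (primeLocalToGlobal q) (ofChar (chiLoc p q)) →ₗ[ZMod p] ZMod p}
    (hne : inv' ≠ 0) : Function.Injective inv' := by
  obtain ⟨inv, hinv⟩ := h0 q
  let e := LinearEquiv.ofBijective inv hinv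
  have hcomp : ∀ z, inv' z = inv z * inv' (e.symm 1) := fun z => by
    have hz : z = inv z • e.symm 1 := by
      apply hinv.1
      rw [map_smul]
      change inv z = inv z • e (e.symm 1)
      rw [e.apply_symm_apply, smul_eq_mul, mul_one]
    conv_lhs => rw [hz]
    rw [map_smul, smul_eq_mul]
  have hc : inv' (e.symm 1) ≠ 0 := fun h => hne (LinearMap.ext fun z => by
    rw [hcomp z, h, mul_zero, LinearMap.zero_apply])
  intro z z' hzz
  apply hinv.1
  have := hzz
  rw [hcomp z, hcomp z'] at this
  exact mul_right_cancel₀ hc this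

/-- (L2) for the restriction of a finite smooth global module. -/
theorem isL2_res (h1 : Stmt_LocL2Inj p) (h2 : Stmt_LocL2Surj p) (q : Nat.Primes)
    {inv : continuousH2 (primeLocalToGlobal q) (ofChar (chiLoc p q)) →ₗ[ZMod p] ZMod p}
    (hinv : Function.Injective inv) (M : Rep.{0} (ZMod p) GQ) [FiniteDimensional (ZMod p) M]
    (hsm : ∀ m : M, ∃ F : IntermediateField ℚ (AlgebraicClosure ℚ), FiniteDimensional ℚ F ∧
      ∀ s ∈ F.fixingSubgroup, M.ρ s m = m) :
    IsL2 (primeLocalToGlobal q) (chiLoc p q) inv (Rep.res (primeLocalToGlobal q) M) :=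
  isL2_of_stmt h1 h2 q hinv _ (isSmoothRep_res q M hsm)

/-- **Numerical (L2) for a global module, first half**: `h²_q(M) = h⁰_q(M*(1))`, with the
local terms written exactly as restrictions of the global modules. -/
theorem finrank_continuousH2_res (h0 : Stmt_LocInv p) (h1 : Stmt_LocL2Inj p)
    (h2 : Stmt_LocL2Surj p) (q : Nat.Primes) (M : Rep.{0} (ZMod p) GQ)
    [FiniteDimensional (ZMod p) M]
    (hsm : ∀ m : M, ∃ F : IntermediateField ℚ (AlgebraicClosure ℚ), FiniteDimensional ℚ F ∧
      ∀ s ∈ F.fixingSubgroup, M.ρ s m = m) :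
    FiniteDimensional (ZMod p)
        (continuousH2 (primeLocalToGlobal q) (Rep.res (primeLocalToGlobal q) M)) ∧
      finrank (ZMod p) (continuousH2 (primeLocalToGlobal q) (Rep.res (primeLocalToGlobal q) M))
        = finrank (ZMod p)
            (Rep.res (primeLocalToGlobal q) (M.dualTwist (cycloChar p))).ρ.invariants := by
  obtain ⟨inv, hinv⟩ := h0 q
  obtain ⟨hfd, hrk⟩ := finrank_continuousH2_eq_of_isL2 _ (isL2_res h1 h2 q hinv.1 M hsm)
  refine ⟨hfd, hrk.trans ?_⟩
  exact (finrank_invariants_eq_of_iso
    (helper1408.resDualTwistIso (cycloChar p) (primeLocalToGlobal q) M)).symm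

/-- **Numerical (L2) for a global module, second half**: `h²_q(M*(1)) = h⁰_q(M)`. -/
theorem finrank_continuousH2_res_dualTwist (h0 : Stmt_LocInv p) (h1 : Stmt_LocL2Inj p)
    (h2 : Stmt_LocL2Surj p) (q : Nat.Primes) (M : Rep.{0} (ZMod p) GQ)
    [FiniteDimensional (ZMod p) M]
    (hsm : ∀ m : M, ∃ F : IntermediateField ℚ (AlgebraicClosure ℚ), FiniteDimensional ℚ F ∧
      ∀ s ∈ F.fixingSubgroup, M.ρ s m = m) :
    FiniteDimensional (ZMod p)
        (continuousH2 (primeLocalToGlobal q)
          (Rep.res (primeLocalToGlobal q) (M.dualTwist (cycloChar p)))) ∧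
      finrank (ZMod p) (continuousH2 (primeLocalToGlobal q)
          (Rep.res (primeLocalToGlobal q) (M.dualTwist (cycloChar p))))
        = finrank (ZMod p) (Rep.res (primeLocalToGlobal q) M).ρ.invariants := by
  obtain ⟨hfd, hrk⟩ := finrank_continuousH2_res h0 h1 h2 q (M.dualTwist (cycloChar p))
    (helper1408.hsm_dualTwist M hsm)
  refine ⟨hfd, hrk.trans ?_⟩
  exact (finrank_invariants_eq_of_iso
    ((Rep.resFunctor (primeLocalToGlobal q)).mapIso
      (helper1408.dualTwistDualTwistIso (cycloChar p) M))).symm

/-- **(L3), left kernel**, at the prime `q`, from `Stmt_LocInv` and `Stmt_LocL2Inj`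
(instantiation of the landed (L3) file). -/
theorem l3_left (h0 : Stmt_LocInv p) (h1 : Stmt_LocL2Inj p) (q : Nat.Primes)
    (N : Rep.{0} (ZMod p) (primeLocalGaloisGroup q)) [FiniteDimensional (ZMod p) N]
    (hN : helper1447.IsSmoothRep (primeLocalToGlobal q) N)
    {x : primeLocalGaloisGroup q → N.dualTwist (chiLoc p q)}
    (hx : x ∈ cocycles₁ (N.dualTwist (chiLoc p q)))
    (hxl : IsLevelConstant₁ (primeLocalToGlobal q) x)
    (horth : ∀ y : primeLocalGaloisGroup q → N, y ∈ cocycles₁ N →
      IsLevelConstant₁ (primeLocalToGlobal q) y →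
        helper1447.cupCochain (chiLoc p q) N x y
          ∈ levelCoboundaries₂ (primeLocalToGlobal q) (ofChar (chiLoc p q))) :
    ∃ f : N.dualTwist (chiLoc p q), ∀ g, x g = (N.dualTwist (chiLoc p q)).ρ g f - f := by
  obtain ⟨inv, hinv⟩ := h0 q
  obtain ⟨z, hz⟩ := hinv.2 1
  refine helper1447.cup_left_nondegenerate hN (isLevelChar_chiLoc p q)
    ⟨z, fun h => ?_⟩ (h1 q) hx hxl horth
  rw [h, map_zero] at hz
  exact zero_ne_one hz

/-- **(L3), right kernel**, at the prime `q`. -/
theorem l3_right (h0 : Stmt_LocInv p) (h1 : Stmt_LocL2Inj p) (q : Nat.Primes)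
    (N : Rep.{0} (ZMod p) (primeLocalGaloisGroup q)) [FiniteDimensional (ZMod p) N]
    (hN : helper1447.IsSmoothRep (primeLocalToGlobal q) N)
    {y : primeLocalGaloisGroup q → N} (hy : y ∈ cocycles₁ N)
    (hyl : IsLevelConstant₁ (primeLocalToGlobal q) y)
    (horth : ∀ x : primeLocalGaloisGroup q → N.dualTwist (chiLoc p q),
      x ∈ cocycles₁ (N.dualTwist (chiLoc p q)) → IsLevelConstant₁ (primeLocalToGlobal q) x →
        helper1447.cupCochain (chiLoc p q) N x y
          ∈ levelCoboundaries₂ (primeLocalToGlobal q) (ofChar (chiLoc p q))) :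
    ∃ m : N, ∀ g, y g = N.ρ g m - m := by
  obtain ⟨inv, hinv⟩ := h0 q
  obtain ⟨z, hz⟩ := hinv.2 1
  refine helper1447.cup_right_nondegenerate hN (isLevelChar_chiLoc p q)
    ⟨z, fun h => ?_⟩ (h1 q) hy hyl horth
  rw [h, map_zero] at hz
  exact zero_ne_one hz

end Closed

end Fermat.Agent.S55.helper665
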