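/-
S55, LOCAL → SOFT boundary (helper665): the numerical statement `Stmt_L2num` of the SOFT Spec
(`helper2945_SoftSpec`) from the closed local statements of `helper665_LocalSpec`
(`Stmt_LocInv`, `Stmt_LocL2Inj`, `Stmt_LocL2Surj`), by summing the local equalities
`h²_q(M*(1)) = h⁰_q(M)` over `q ∈ S`.  Also the companion equality `π₂(M) = π₀(M*(1))` and the
finite-dimensionality of the local `H²`'s.
-/
import Mathlib
import Fermat.Agent.S55.helper665_LocalSpec
import Fermat.Agent.S55.helper2945_SoftSpec

set_option autoImplicit false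

namespace Fermat.Agent.S55.helper665

open CategoryTheory groupCohomology ExtCitation Module

/-- The complete (L2) package of the local layer, for odd `p`: `H²(ℚ_q, μ_p)` is a line and the
push-forward pairing `H²(ℚ_q, N) × Hom(N, μ_p) → H²(ℚ_q, μ_p)` has trivial kernels for every
finite smooth `N`. -/
def Stmt_LocalL2 : Prop :=
  ∀ (p : ℕ) [Fact p.Prime], p ≠ 2 → Stmt_LocInv p ∧ Stmt_LocL2Inj p ∧ Stmt_LocL2Surj p

/-- **SOFT-L2NUM.** `π₂(M') = π₀(M)` from the local (L2) package. -/
theorem stmt_L2num_of_local (h : Stmt_LocalL2) : helper2945.Stmt_L2num := by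
  intro p _ hp2 S _ M hM
  obtain ⟨h0, h1, h2⟩ := h p hp2
  have := hM.finite
  unfold helper2945.pi2 helper2945.pi0
  exact Finset.sum_congr rfl fun q _ =>
    (finrank_continuousH2_res_dualTwist h0 h1 h2 q M hM.smooth).2

/-- The companion equality `π₂(M) = π₀(M')`. -/
theorem pi2_eq_pi0_dualT (h : Stmt_LocalL2) {p : ℕ} [Fact p.Prime] (hp2 : p ≠ 2)
    (S : Finset Nat.Primes) (M : Rep.{0, 0, 0} (ZMod p) helper2945.GQ)
    (hM : helper2945.IsSMod S M) :
    helper2945.pi2 S M = helper2945.pi0 S (helper2945.dualT M) := by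
  obtain ⟨h0, h1, h2⟩ := h p hp2
  have := hM.finite
  unfold helper2945.pi2 helper2945.pi0
  exact Finset.sum_congr rfl fun q _ => (finrank_continuousH2_res h0 h1 h2 q M hM.smooth).2

/-- Finite-dimensionality of the local `H²` of a finite smooth global module. -/
theorem finiteDimensional_continuousH2_res (h : Stmt_LocalL2) {p : ℕ} [Fact p.Prime]
    (hp2 : p ≠ 2) (S : Finset Nat.Primes) (M : Rep.{0, 0, 0} (ZMod p) helper2945.GQ)
    (hM : helper2945.IsSMod S M) (q : Nat.Primes) :
    FiniteDimensional (ZMod p)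
      (continuousH2 (primeLocalToGlobal q) (Rep.res (primeLocalToGlobal q) M)) := by
  obtain ⟨h0, h1, h2⟩ := h p hp2
  have := hM.finite
  exact (finrank_continuousH2_res h0 h1 h2 q M hM.smooth).1

end Fermat.Agent.S55.helper665
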