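/-
S55 (Poitou–Tate), SOFT layer, leaf SOFT-DUALCLOSED.  Author: helper8412.

`helper2945.Stmt_DualClosed`: the class of modules of the frozen statement S55
(finite-dimensional, open stabilisers, unramified outside `S`) is stable under the Tate-twisted
dual `M ↦ M' = M.dualTwist (cycloChar p)` when `p ∈ S`.

Pure wiring: the three facts are `helper1408.finiteDimensional_dualTwist`,
`helper1408.hsm_dualTwist` and `helper1408.hMur_dualTwist` (leaf FW-EXTMOD part (5), on main).
Consumers: `helper2945.stmt_Fin_of` (finiteness for `M'` from the one-sided statement) and every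
soft leaf that applies a statement proved for all S-modules to `M'`.
-/
import Fermat.Agent.S55.helper2945_SoftSpec
import Fermat.Agent.S55.helper1408_DualTwist

set_option autoImplicit false

namespace Fermat.Agent.S55.helper8412

open CategoryTheory Module groupCohomology ExtCitation
open Fermat.Agent.S55.helper2945

/-- The S-module hypotheses pass to the Tate-twisted dual (no parity hypothesis needed). -/
theorem isSMod_dualT {p : ℕ} [Fact p.Prime] (S : Finset Nat.Primes) (hpS : pPrime p ∈ S)
    (M : Rep.{0, 0, 0} (ZMod p) GQ) (hM : IsSMod S M) : IsSMod S (dualT M) := by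
  have : FiniteDimensional (ZMod p) M := hM.finite
  exact ⟨Fermat.Agent.S55.helper1408.finiteDimensional_dualTwist M (cycloChar p),
    Fermat.Agent.S55.helper1408.hsm_dualTwist M hM.smooth,
    Fermat.Agent.S55.helper1408.hMur_dualTwist S hpS M hM.unram⟩

/-- **SOFT-DUALCLOSED**: `helper2945.Stmt_DualClosed`. -/
theorem stmt_DualClosed : Stmt_DualClosed :=
  fun {_p} _ _ S hpS M hM => isSMod_dualT S hpS M hM

/-- `Stmt_Fin` of the soft Spec from the one-sided finiteness statement alone. -/
theorem stmt_Fin_of_finOne (hF : Stmt_FinOne) : Stmt_Fin :=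
  stmt_Fin_of stmt_DualClosed hF

/-- Biduality at the level of the hypotheses: applying a statement about all S-modules to the
dual of the dual is legitimate. -/
theorem isSMod_dualT_dualT {p : ℕ} [Fact p.Prime] (S : Finset Nat.Primes) (hpS : pPrime p ∈ S)
    (M : Rep.{0, 0, 0} (ZMod p) GQ) (hM : IsSMod S M) : IsSMod S (dualT (dualT M)) :=
  isSMod_dualT S hpS _ (isSMod_dualT S hpS M hM)

end Fermat.Agent.S55.helper8412
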