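import Mathlib
import Fermat.Agent.S55.helper1702_FiniteH2
import Fermat.Agent.S55.helper62_GBShapiro
import Fermat.Agent.S55.helper8412_DualClosed
import Fermat.Agent.S55.helper324_FieldH1
import Fermat.Agent.S55.helper665_L2Num
import Fermat.Agent.S55.helper6525_Arch

/-!
# S55, leaf SOFT-FINITE (helper1702), part 3: wiring

* `stmt_FinOne_of_fieldFin`, `stmt_Fin_of_fieldFin`: `Stmt_FinOne` and `Stmt_Fin` of the soft spec
  from the single global-bridge statement `helper3071.Stmt_FieldFin` (finiteness of the
  field-level `H¹` and `H²` of the `S`-fields containing `μ_p`), using the landed Shapiro statement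
  `helper62.stmt_Shapiro` and `helper8412.stmt_Fin_of_finOne`.
* `Stmt_FieldSha2Fin`: finiteness of the field-level `Ш²` (the output of the Hasse principle of
  the number-field core), and `stmt_FieldFin_of : Stmt_FieldSha2Fin → helper665.Stmt_LocalL2 →
  helper3071.Stmt_FieldFin`: the field-level `H¹` is finite by `helper324.finite_fieldH1`, and
  the field-level `H²` is finite because, through Shapiro, it is an extension of a subspace of the
  finitely many finite local `H²`'s by `Ш²`.
* `stmt_Fin_of_sha2 : Stmt_FieldSha2Fin → helper665.Stmt_LocalL2 → helper2945.Stmt_Fin`.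
-/

set_option autoImplicit false

namespace Fermat.Agent.S55.helper1702

open groupCohomology ExtCitation

/-- `Stmt_FinOne` from the finiteness of the field-level cohomology. -/
theorem stmt_FinOne_of_fieldFin (hFF : helper3071.Stmt_FieldFin) : helper2945.Stmt_FinOne :=
  stmt_FinOne_of hFF helper62.stmt_Shapiro

/-- `Stmt_Fin` from the finiteness of the field-level cohomology. -/
theorem stmt_Fin_of_fieldFin (hFF : helper3071.Stmt_FieldFin) : helper2945.Stmt_Fin :=
  helper8412.stmt_Fin_of_finOne (stmt_FinOne_of_fieldFin hFF)

/-! ## The field-level `H²` from the field-level `Ш²` -/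

/-- Closed form: the field-level `Ш²` of every `S`-field containing `μ_p` is finite (this is what
the Hasse principle of the number-field core gives: an injection into `Cl_S(F)/p`). -/
def Stmt_FieldSha2Fin : Prop :=
  ∀ (S : Finset Nat.Primes) (p : ℕ) (F : IntermediateField ℚ (AlgebraicClosure ℚ)),
    helper3071.IsSFieldZeta S p F → Module.Finite (ZMod p) (helper3071.fieldSha2 S p F)

/-- A map from an additive group to a finite type whose fibres are contained in cosets of a finite
subgroup has finite source. -/
theorem finite_of_finite_fibres {X Y : Type*} [AddGroup X] [Finite Y] (f : X → Y)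
    (N : AddSubgroup X) [Finite N] (hf : ∀ x y, f x = f y → x - y ∈ N) : Finite X := by
  classical
  let r : Y → X := fun y => if h : ∃ x, f x = y then h.choose else 0
  have hr : ∀ x, f (r (f x)) = f x := fun x => by
    have h : ∃ x', f x' = f x := ⟨x, rfl⟩
    simp only [r, dif_pos h]
    exact h.choose_spec
  refine Finite.of_injective
    (fun x => (f x, (⟨x - r (f x), hf _ _ (hr x).symm⟩ : N))) ?_
  intro x y hxy
  have h1 : f x = f y := congrArg Prod.fst hxy
  have h2 : x - r (f x) = y - r (f y) := congrArg Subtype.val (congrArg Prod.snd hxy)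
  rw [h1] at h2
  exact sub_left_injective h2

/-- The induced module `coind_{G_F} 𝔽_p` of a field unramified outside `S` is an `S`-module. -/
theorem isSMod_indRep {p : ℕ} [Fact p.Prime] (S : Finset Nat.Primes)
    (F : IntermediateField ℚ (AlgebraicClosure ℚ)) (hF : F.IsUnramifiedOutside S) :
    helper2945.IsSMod S (helper3071.indRep p F) := by
  have := hF.1
  have := finiteIndex_fixingSubgroup F
  obtain ⟨F', hle, hF', -, hnorm⟩ := helper4039.exists_normal_ge hF
  have htriv : ∀ n ∈ F'.fixingSubgroup, (helper3071.indRep p F).ρ n = 1 := fun n hn =>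
    helper5178.coind_ρ_eq_one F.fixingSubgroup F'.fixingSubgroup
      (IntermediateField.fixingSubgroup_antitone hle) (helper3071.trivF p F) (fun _ _ => rfl) hn
  have hfin : Module.Finite (ZMod p) (helper3071.trivF p F) :=
    inferInstanceAs (Module.Finite (ZMod p) (ZMod p))
  refine ⟨helper5178.finite_coind F.fixingSubgroup (helper3071.trivF p F),
    fun m => ⟨F', hF'.1, fun s hs => ?_⟩, fun q hq A hA g hg => htriv g (hF'.2 q hq A hA hg)⟩
  rw [htriv s hs]
  rfl

/-- Finiteness of `continuousH2S` of the induced module of an `S`-field containing `μ_p`, from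
the finiteness of the field-level `Ш²` and of the local `H²`'s. -/
theorem finite_continuousH2S_indRep_of_sha2 (hL : helper665.Stmt_LocalL2)
    {S : Finset Nat.Primes} {p : ℕ} {F : IntermediateField ℚ (AlgebraicClosure ℚ)}
    (h : helper3071.IsSFieldZeta S p F)
    (hsha : Module.Finite (ZMod p) (helper3071.fieldSha2 S p F)) :
    Finite (continuousH2S S (helper3071.indRep p F)) := by
  have : Fact p.Prime := ⟨h.prime⟩
  have hp2 := h.odd
  have hA : helper2945.IsSMod S (helper3071.indRep p F) := isSMod_indRep S F h.unram
  obtain ⟨-, Φ, hΦ⟩ := helper62.stmt_Shapiro S p F h.prime h.unram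
  -- `Ш²` of the induced module is finite
  have : Finite (helper3071.fieldSha2 S p F) := Module.finite_of_finite (ZMod p)
  have hshaA : Finite (sha₂ S (helper3071.indRep p F)) :=
    Finite.of_injective
      (fun x : sha₂ S (helper3071.indRep p F) =>
        (⟨Φ x.1, hΦ x.1 x.2⟩ : helper3071.fieldSha2 S p F))
      (fun x y hxy => Subtype.ext (Φ.injective (congrArg Subtype.val hxy)))
  -- the local targets are finite
  have hloc : ∀ q : ↥S, Finite (continuousH2 (primeLocalToGlobal q.1)
      (Rep.res (primeLocalToGlobal q.1) (helper3071.indRep p F))) := fun q => by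
    have := helper665.finiteDimensional_continuousH2_res hL hp2 S (helper3071.indRep p F) hA q.1
    exact Module.finite_of_finite (ZMod p)
  -- the localisation map
  let Λ : continuousH2S S (helper3071.indRep p F) → ∀ q : ↥S,
      continuousH2 (primeLocalToGlobal q.1)
        (Rep.res (primeLocalToGlobal q.1) (helper3071.indRep p F)) :=
    fun x q => locRes₂S S (helper3071.indRep p F) (primeLocalToGlobal q.1) x
  have hΛ : ∀ x y, Λ x = Λ y → x - y ∈ (sha₂ S (helper3071.indRep p F)).toAddSubgroup := by
    intro x y hxy
    show x - y ∈ sha₂ S (helper3071.indRep p F)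
    rw [helper6525.mem_sha₂_iff hp2]
    intro q
    rw [map_sub, sub_eq_zero]
    exact congrFun hxy q
  have : Finite (sha₂ S (helper3071.indRep p F)).toAddSubgroup := hshaA
  exact finite_of_finite_fibres Λ (sha₂ S (helper3071.indRep p F)).toAddSubgroup hΛ

/-- Finiteness of the field-level `H²` from the finiteness of the field-level `Ш²` and of the
local `H²`'s. -/
theorem finite_fieldH2_of_sha2 (hL : helper665.Stmt_LocalL2)
    {S : Finset Nat.Primes} {p : ℕ} {F : IntermediateField ℚ (AlgebraicClosure ℚ)}
    (h : helper3071.IsSFieldZeta S p F)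
    (hsha : Module.Finite (ZMod p) (helper3071.fieldSha2 S p F)) :
    Module.Finite (ZMod p) (helper3071.fieldH2 S p F) := by
  have : Fact p.Prime := ⟨h.prime⟩
  obtain ⟨-, Φ, -⟩ := helper62.stmt_Shapiro S p F h.prime h.unram
  have := finite_continuousH2S_indRep_of_sha2 hL h hsha
  have : Finite (helper3071.fieldH2 S p F) := Finite.of_surjective Φ Φ.surjective
  exact Module.Finite.of_finite

/-- `Stmt_FieldFin` of the global bridge from the finiteness of the field-level `Ш²` and the local
(L2) package. -/
theorem stmt_FieldFin_of (hSha : Stmt_FieldSha2Fin) (hL : helper665.Stmt_LocalL2) :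
    helper3071.Stmt_FieldFin := by
  intro S p F h
  have := h.unram.1
  exact ⟨helper324.finite_fieldH1 h, finite_fieldH2_of_sha2 hL h (hSha S p F h)⟩

/-- `Stmt_Fin` of the soft spec from the finiteness of the field-level `Ш²` and the local (L2)
package. -/
theorem stmt_Fin_of_sha2 (hSha : Stmt_FieldSha2Fin) (hL : helper665.Stmt_LocalL2) :
    helper2945.Stmt_Fin :=
  stmt_Fin_of_fieldFin (stmt_FieldFin_of hSha hL)

end Fermat.Agent.S55.helper1702
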