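import Mathlib
import Fermat.Agent.S55.helper1919_KerBound
import Fermat.Agent.S55.helper4709_GlobRam
import Fermat.Agent.S55.helper9292_SelmerDict

/-!
# S55 / NF-GH-KER (backup copy, helper1919): the count form

`card_le_clSRank_of_independent` : abstract Dedekind lemma.  A finite family of divisors
`D i : HeightOneSpectrum R → ℤ` which is independent modulo `p`, principal divisors and divisors
supported on `S`, has at most `clSRank R K S p` members (`helper9292`'s `p`-rank of `Cl_S`).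
-/

set_option autoImplicit false

namespace Fermat.Agent.S55.helper1919

open IsDedekindDomain
open scoped nonZeroDivisors

section Abstract

open FractionalIdeal Fermat.Agent.S55.helper9292

variable {R : Type*} [CommRing R] [IsDedekindDomain R] {K : Type*} [Field K] [Algebra R K]
  [IsFractionRing R K]

/-- An invertible fractional ideal with prescribed (finitely supported) exponents. -/
theorem exists_unit_count (D : HeightOneSpectrum R → ℤ) (hD : (Function.support D).Finite) :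
    ∃ J : (FractionalIdeal R⁰ K)ˣ, ∀ v, count K v (J : FractionalIdeal R⁰ K) = D v := by
  classical
  have hfin : ∀ᶠ v : HeightOneSpectrum R in Filter.cofinite, D v = 0 := by
    rw [Filter.eventually_cofinite]
    exact hD
  have hL₀ne : (∏ᶠ v : HeightOneSpectrum R, (v.asIdeal : FractionalIdeal R⁰ K) ^ D v) ≠ 0 := by
    apply finprod_ne_zero
    intro v
    exact zpow_ne_zero _ (coeIdeal_ne_zero.mpr v.ne_bot)
  exact ⟨Units.mk0 _ hL₀ne, fun v => count_finprod K v D hfin⟩

theorem count_prod_zpow {ι : Type*} (v : HeightOneSpectrum R) (s : Finset ι)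
    (J : ι → (FractionalIdeal R⁰ K)ˣ) (n : ι → ℤ) :
    count K v (((∏ i ∈ s, J i ^ n i : (FractionalIdeal R⁰ K)ˣ)) : FractionalIdeal R⁰ K)
      = ∑ i ∈ s, n i * count K v (J i : FractionalIdeal R⁰ K) := by
  classical
  induction s using Finset.induction_on with
  | empty => simp [count_one]
  | insert a s ha ih =>
    rw [Finset.prod_insert ha, Finset.sum_insert ha, Units.val_mul,
      count_mul K v (J a ^ n a).ne_zero (∏ i ∈ s, J i ^ n i).ne_zero, ih,
      Units.val_zpow_eq_zpow_val, count_zpow]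

/-- **Abstract count.**  A finite family of divisors which is independent modulo `p`, principal
divisors and divisors supported on `S` has at most `rk_p Cl_S` members. -/
theorem card_le_clSRank_of_independent [Finite (ClassGroup R)] (S : Set (HeightOneSpectrum R))
    (p : ℕ) [hp : Fact p.Prime] {ι : Type*} [Fintype ι] (D : ι → HeightOneSpectrum R → ℤ)
    (hD : ∀ i, (Function.support (D i)).Finite)
    (hind : ∀ e : ι → ℤ, (∃ f : Kˣ, ∀ v, v ∉ S →
        (p : ℤ) ∣ (∑ i, e i * D i v) - count K v (spanSingleton R⁰ (f : K))) →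
      ∀ i, (p : ℤ) ∣ e i) :
    Fintype.card ι ≤ clSRank R K S p := by
  classical
  choose J hJ using fun i => exists_unit_count (K := K) (D i) (hD i)
  let ψ : (ι → ZMod p) → ClSModP R K S p :=
    fun e => QuotientGroup.mk (∏ i, J i ^ (((e i).val : ℕ) : ℤ))
  have hψ : Function.Injective ψ := by
    intro e e' hee'
    have h1 := QuotientGroup.eq.mp hee'
    have h2 : (∏ i, J i ^ (((e i).val : ℕ) : ℤ))⁻¹ * (∏ i, J i ^ (((e' i).val : ℕ) : ℤ))
        = ∏ i, J i ^ ((((e' i).val : ℕ) : ℤ) - (((e i).val : ℕ) : ℤ)) := by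
      rw [← Finset.prod_inv_distrib, ← Finset.prod_mul_distrib]
      refine Finset.prod_congr rfl fun i _ => ?_
      rw [zpow_sub, mul_comm]
    rw [h2] at h1
    obtain ⟨y, hy, z, hz, hyz⟩ := Subgroup.mem_sup.mp h1
    obtain ⟨x, hx, t, ht, rfl⟩ := Subgroup.mem_sup.mp hy
    obtain ⟨f, rfl⟩ := hx
    obtain ⟨L, rfl⟩ := mem_powSub.mp hz
    have key := hind (fun i => (((e' i).val : ℕ) : ℤ) - (((e i).val : ℕ) : ℤ)) ⟨f, fun v hv => ?_⟩
    · funext i
      have h3 := key i
      have h4 : (((((e' i).val : ℕ) : ℤ) - (((e i).val : ℕ) : ℤ) : ℤ) : ZMod p) = 0 :=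
        (ZMod.intCast_zmod_eq_zero_iff_dvd _ p).mpr h3
      push_cast at h4
      rw [ZMod.natCast_zmod_val, ZMod.natCast_zmod_val] at h4
      exact (sub_eq_zero.mp h4).symm
    · have hc : count K v (((toPrincipalIdeal R K f * t * L ^ p : (FractionalIdeal R⁰ K)ˣ)) :
          FractionalIdeal R⁰ K) = count K v (((∏ i, J i ^ ((((e' i).val : ℕ) : ℤ) -
            (((e i).val : ℕ) : ℤ)) : (FractionalIdeal R⁰ K)ˣ)) : FractionalIdeal R⁰ K) := by
        rw [hyz]
      rw [count_prod_zpow, Units.val_mul,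
        count_mul K v (toPrincipalIdeal R K f * t).ne_zero (L ^ p).ne_zero, Units.val_mul,
        count_mul K v (toPrincipalIdeal R K f).ne_zero t.ne_zero, ht v hv, add_zero,
        coe_toPrincipalIdeal, Units.val_pow_eq_pow_val, count_pow] at hc
      simp only [hJ] at hc
      rw [← hc]
      simp
  have hfin : Finite (ClSModP R K S p) := inferInstance
  have hcard := Nat.card_le_card_of_injective ψ hψ
  rw [Nat.card_eq_fintype_card, Fintype.card_fun, ZMod.card, card_ClSModP,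
    clSModCard_eq_pow] at hcard
  exact (Nat.pow_le_pow_iff_right hp.out.one_lt).mp hcard

end Abstract

open Fermat.Agent.Lib.helper54 Fermat.Agent.S05.helper4205 Fermat.Agent.S55.helper9292
open scoped NumberField Pointwise

attribute [local instance] isAlgebraic_Qbar isAlgClosure_Qbar isGalois_Qbar isIntegral_Qbar
attribute [local instance] numberField_intermediate

local notation "Qb" => AlgebraicClosure ℚ
local notation "GQ" => (AlgebraicClosure ℚ ≃ₐ[ℚ] AlgebraicClosure ℚ)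

/-! ### Orders at a valuation subring of `ℚ̄`, measured with the uniformizer `q` -/

section Ord

/-- `k` is the order of `x` at the valuation subring `A`, measured with the uniformizer `q`:
`x / q ^ k` is a unit of `A`. -/
def IsOrd (A : ValuationSubring Qb) (q : ℕ) (x : Qb) (k : ℤ) : Prop :=
  A.valuation (x / ((q : ℕ) : Qb) ^ k) = 1

variable {A : ValuationSubring Qb} {q : ℕ} {x y : Qb} {k m : ℤ}

theorem isOrd_one (A : ValuationSubring Qb) (q : ℕ) : IsOrd A q 1 0 := by
  simp [IsOrd]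

theorem IsOrd.mul (hq : q ≠ 0) (hx : IsOrd A q x k) (hy : IsOrd A q y m) :
    IsOrd A q (x * y) (k + m) := by
  have hq0 : ((q : ℕ) : Qb) ≠ 0 := Nat.cast_ne_zero.mpr hq
  unfold IsOrd at *
  have h1 : x * y / ((q : ℕ) : Qb) ^ (k + m)
      = (x / ((q : ℕ) : Qb) ^ k) * (y / ((q : ℕ) : Qb) ^ m) := by
    rw [zpow_add₀ hq0]
    field_simp
  rw [h1, map_mul, hx, hy, one_mul]

theorem IsOrd.zpow (hx : IsOrd A q x k) (n : ℤ) : IsOrd A q (x ^ n) (n * k) := by
  unfold IsOrd at *
  have h1 : x ^ n / ((q : ℕ) : Qb) ^ (n * k) = (x / ((q : ℕ) : Qb) ^ k) ^ n := by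
    rw [div_zpow, ← zpow_mul, mul_comm]
  rw [h1, map_zpow₀, hx, one_zpow]

theorem IsOrd.inv (hx : IsOrd A q x k) : IsOrd A q x⁻¹ (-k) := by
  have := hx.zpow (-1)
  simpa using this

theorem IsOrd.div (hq : q ≠ 0) (hx : IsOrd A q x k) (hy : IsOrd A q y m) :
    IsOrd A q (x / y) (k - m) := by
  rw [div_eq_mul_inv, sub_eq_add_neg]
  exact hx.mul hq hy.inv

theorem IsOrd.unique (hq : q.Prime) (hA : A.LiesOverPrime q) (h1 : IsOrd A q x k)
    (h2 : IsOrd A q x m) : k = m := by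
  have hq0 : ((q : ℕ) : Qb) ≠ 0 := Nat.cast_ne_zero.mpr hq.ne_zero
  have hvq0 : A.valuation ((q : ℕ) : Qb) ≠ 0 := (map_ne_zero _).mpr hq0
  have hvq1 : A.valuation ((q : ℕ) : Qb) < 1 := A.mem_nonunits_iff.mp hA
  unfold IsOrd at *
  rw [map_div₀, map_zpow₀, div_eq_one_iff_eq (zpow_ne_zero _ hvq0)] at h1 h2
  have h3 : A.valuation ((q : ℕ) : Qb) ^ k = A.valuation ((q : ℕ) : Qb) ^ m := h1.symm.trans h2
  exact zpow_right_injective₀ (zero_lt_iff.mpr hvq0) hvq1.ne h3

theorem isOrd_prod_zpow (hq : q ≠ 0) {ι : Type*} (s : Finset ι) (a : ι → Qb) (n k : ι → ℤ)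
    (h : ∀ i ∈ s, IsOrd A q (a i) (k i)) :
    IsOrd A q (∏ i ∈ s, a i ^ n i) (∑ i ∈ s, n i * k i) := by
  classical
  induction s using Finset.induction_on with
  | empty => simpa using isOrd_one A q
  | insert b s hb ih =>
    rw [Finset.prod_insert hb, Finset.sum_insert hb]
    exact ((h b (Finset.mem_insert_self b s)).zpow (n b)).mul hq
      (ih fun i hi => h i (Finset.mem_insert_of_mem hi))

theorem valuation_eq_one_iff_mem (A : ValuationSubring Qb) {y : Qb} (hy : y ≠ 0) :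
    A.valuation y = 1 ↔ y ∈ A ∧ y⁻¹ ∈ A := by
  rw [← A.valuation_le_one_iff, ← A.valuation_le_one_iff, map_inv₀]
  have hv0 : A.valuation y ≠ 0 := (map_ne_zero _).mpr hy
  constructor
  · intro h
    rw [h]
    simp
  · rintro ⟨h1, h2⟩
    refine le_antisymm h1 ?_
    rwa [inv_le_one₀ (zero_lt_iff.mpr hv0)] at h2

theorem valuation_smul_eq_one_iff (g : GQ) (A : ValuationSubring Qb) {y : Qb} (hy : y ≠ 0) :
    (g • A).valuation (g y) = 1 ↔ A.valuation y = 1 := by
  have hgy : g y ≠ 0 := (map_ne_zero _).mpr hy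
  rw [valuation_eq_one_iff_mem _ hgy, valuation_eq_one_iff_mem _ hy,
    ValuationSubring.mem_pointwise_smul_iff_inv_smul_mem,
    ValuationSubring.mem_pointwise_smul_iff_inv_smul_mem]
  have h1 : g⁻¹ • g y = y := g.symm_apply_apply y
  have h2 : g⁻¹ • (g y)⁻¹ = y⁻¹ := by
    rw [← map_inv₀]
    exact g.symm_apply_apply y⁻¹
  rw [h1, h2]

theorem isOrd_smul_iff (g : GQ) (A : ValuationSubring Qb) (hq : q ≠ 0) (hx : x ≠ 0) :
    IsOrd (g • A) q (g x) k ↔ IsOrd A q x k := by
  have hq0 : ((q : ℕ) : Qb) ≠ 0 := Nat.cast_ne_zero.mpr hq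
  unfold IsOrd
  have h1 : g x / ((q : ℕ) : Qb) ^ k = g (x / ((q : ℕ) : Qb) ^ k) := by
    rw [map_div₀, map_zpow₀, map_natCast]
  rw [h1]
  exact valuation_smul_eq_one_iff g A (div_ne_zero hx (zpow_ne_zero _ hq0))

end Ord

/-! ### Closure properties of `IsSUnr` and `IsOmLevel` -/

section Closure

variable {S : Finset Nat.Primes} {F : IntermediateField ℚ Qb}

theorem isSUnr_one (S : Finset Nat.Primes) : IsSUnr S (1 : Qb) :=
  ⟨⊥, IntermediateField.isUnramifiedOutside_bot S, one_mem _⟩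

theorem IsSUnr.mul {x y : Qb} (hx : IsSUnr S x) (hy : IsSUnr S y) : IsSUnr S (x * y) := by
  obtain ⟨L, hL, hxL⟩ := hx
  obtain ⟨L', hL', hyL'⟩ := hy
  exact ⟨L ⊔ L', hL.sup hL', mul_mem ((le_sup_left : L ≤ L ⊔ L') hxL)
    ((le_sup_right : L' ≤ L ⊔ L') hyL')⟩

theorem IsSUnr.zpow {x : Qb} (hx : IsSUnr S x) (n : ℤ) : IsSUnr S (x ^ n) := by
  obtain ⟨L, hL, hxL⟩ := hx
  exact ⟨L, hL, zpow_mem hxL n⟩

theorem isSUnr_prod_zpow {ι : Type*} (s : Finset ι) (a : ι → Qb) (n : ι → ℤ)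
    (h : ∀ i ∈ s, IsSUnr S (a i)) : IsSUnr S (∏ i ∈ s, a i ^ n i) := by
  classical
  induction s using Finset.induction_on with
  | empty => simpa using isSUnr_one S
  | insert b s hb ih =>
    rw [Finset.prod_insert hb]
    exact ((h b (Finset.mem_insert_self b s)).zpow (n b)).mul
      (ih fun i hi => h i (Finset.mem_insert_of_mem hi))

theorem isOmLevel_one (S : Finset Nat.Primes) (F : IntermediateField ℚ Qb) :
    IsOmLevel S F (fun _ => (1 : Qbˣ)) :=
  ⟨⊥, IntermediateField.isUnramifiedOutside_bot S, fun _ => one_mem _, fun _ _ _ => rfl⟩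

theorem IsOmLevel.mul {h h' : F.fixingSubgroup → Qbˣ} (hh : IsOmLevel S F h)
    (hh' : IsOmLevel S F h') : IsOmLevel S F (fun g => h g * h' g) := by
  obtain ⟨L, hL, hval, hinv⟩ := hh
  obtain ⟨L', hL', hval', hinv'⟩ := hh'
  refine ⟨L ⊔ L', hL.sup hL', fun g => ?_, fun g s hs => ?_⟩
  · rw [Units.val_mul]
    exact mul_mem ((le_sup_left : L ≤ L ⊔ L') (hval g)) ((le_sup_right : L' ≤ L ⊔ L') (hval' g))
  · show h (g * s) * h' (g * s) = h g * h' g
    rw [hinv g s (IntermediateField.fixingSubgroup_antitone le_sup_left hs),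
      hinv' g s (IntermediateField.fixingSubgroup_antitone le_sup_right hs)]

theorem IsOmLevel.zpow {h : F.fixingSubgroup → Qbˣ} (hh : IsOmLevel S F h) (n : ℤ) :
    IsOmLevel S F (fun g => h g ^ n) := by
  obtain ⟨L, hL, hval, hinv⟩ := hh
  refine ⟨L, hL, fun g => ?_, fun g s hs => ?_⟩
  · rw [Units.val_zpow_eq_zpow_val]
    exact zpow_mem (hval g) n
  · show h (g * s) ^ n = h g ^ n
    rw [hinv g s hs]

theorem isOmLevel_prod_zpow {ι : Type*} (s : Finset ι) (h : ι → F.fixingSubgroup → Qbˣ)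
    (n : ι → ℤ) (hh : ∀ i ∈ s, IsOmLevel S F (h i)) :
    IsOmLevel S F (fun g => ∏ i ∈ s, h i g ^ n i) := by
  classical
  induction s using Finset.induction_on with
  | empty => simpa using isOmLevel_one S F
  | insert b s hb ih =>
    have h1 := ((hh b (Finset.mem_insert_self b s)).zpow (n b)).mul
      (ih fun i hi => hh i (Finset.mem_insert_of_mem hi))
    have h2 : (fun g => ∏ i ∈ insert b s, h i g ^ n i)
        = fun g => h b g ^ n b * ∏ i ∈ s, h i g ^ n i := by
      funext g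
      rw [Finset.prod_insert hb]
    rw [h2]
    exact h1

/-- Every element of an `S`-unramified field has an order at every place outside `S`. -/
theorem IsSUnr.exists_isOrd {x : Qb} (hx : IsSUnr S x) (hx0 : x ≠ 0) (q : Nat.Primes)
    (hq : q ∉ S) (A : ValuationSubring Qb) (hA : A.LiesOverPrime (q : ℕ)) :
    ∃ k : ℤ, IsOrd A (q : ℕ) x k := by
  obtain ⟨L, hL, hxL⟩ := hx
  exact Fermat.Agent.S55.helper4709.exists_zpow_valuation_eq_one hL q hq A hA x hxL hx0

end Closure

/-! ### Arithmetic inputs -/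

section Arith

variable {S : Finset Nat.Primes} {F : IntermediateField ℚ Qb}

/-- **`V`-invariance modulo `p`**: if `g α / α = h g ^ p` with `h` valued in `S`-unramified fields,
the order of `α` at a place outside `S` only depends, modulo `p`, on the `V`-orbit of the place. -/
theorem isOrd_smul_dvd {p : ℕ} (h : F.fixingSubgroup → Qbˣ) (hlev : IsOmLevel S F h) (α : Qbˣ)
    (hαh : ∀ g : F.fixingSubgroup, h g ^ p = gal (g : GQ) α / α)
    (q : Nat.Primes) (hq : q ∉ S) (A : ValuationSubring Qb) (hA : A.LiesOverPrime (q : ℕ))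
    (g : F.fixingSubgroup) {k k' : ℤ} (hk : IsOrd A (q : ℕ) (α : Qb) k)
    (hk' : IsOrd ((g : GQ) • A) (q : ℕ) (α : Qb) k') : (p : ℤ) ∣ k' - k := by
  obtain ⟨L, hL, hval, -⟩ := hlev
  obtain ⟨m, hm⟩ := Fermat.Agent.S55.helper4709.exists_zpow_valuation_eq_one hL q hq A hA _
    (hval g⁻¹) (h g⁻¹).ne_zero
  have hm' : IsOrd A (q : ℕ) ((h g⁻¹ : Qbˣ) : Qb) m := hm
  have hq0 : (q : ℕ) ≠ 0 := q.2.ne_zero
  have h2 : gal ((g⁻¹ : F.fixingSubgroup) : GQ) α = α * h g⁻¹ ^ p := by
    rw [hαh g⁻¹, mul_div_cancel]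
  have h1 : ((g⁻¹ : F.fixingSubgroup) : GQ) (α : Qb) = (α : Qb) * ((h g⁻¹ : Qbˣ) : Qb) ^ p := by
    have h3 := congrArg Units.val h2
    rw [Units.val_mul, Units.val_pow_eq_pow_val] at h3
    exact h3
  have h4 : IsOrd A (q : ℕ) (((g⁻¹ : F.fixingSubgroup) : GQ) (α : Qb)) k' := by
    have h5 : (g : GQ) (((g⁻¹ : F.fixingSubgroup) : GQ) (α : Qb)) = α :=
      (g : GQ).apply_symm_apply _
    have h6 : ((g⁻¹ : F.fixingSubgroup) : GQ) (α : Qb) ≠ 0 := by
      rw [h1]
      exact mul_ne_zero α.ne_zero (pow_ne_zero _ (h g⁻¹).ne_zero)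
    rw [← isOrd_smul_iff (g : GQ) A hq0 h6, h5]
    exact hk'
  rw [h1] at h4
  have h6 : IsOrd A (q : ℕ) ((α : Qb) * ((h g⁻¹ : Qbˣ) : Qb) ^ p) (k + (p : ℤ) * m) := by
    have h7 := hm'.zpow (p : ℤ)
    rw [zpow_natCast] at h7
    exact hk.mul hq0 h7
  have h7 := IsOrd.unique q.2 hA h4 h6
  rw [h7]
  simp

/-- A nonzero algebraic number is a unit at every place over all but finitely many primes. -/
theorem exists_nat_forall_valuation_eq_one (x : Qb) (hx : x ≠ 0) :
    ∃ m : ℕ, m ≠ 0 ∧ ∀ (q : ℕ), q.Prime → ∀ A : ValuationSubring Qb, A.LiesOverPrime q →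
      ¬ q ∣ m → A.valuation x = 1 := by
  have hle : ∀ y : Qb, y ≠ 0 → ∃ m : ℤ, m ≠ 0 ∧ ∀ (q : ℕ), q.Prime →
      ∀ A : ValuationSubring Qb, A.LiesOverPrime q → ¬ (q : ℤ) ∣ m → A.valuation y ≤ 1 := by
    intro y _
    have halg : IsAlgebraic ℤ y :=
      (IsFractionRing.isAlgebraic_iff ℤ ℚ Qb).mpr (Algebra.IsAlgebraic.isAlgebraic y)
    obtain ⟨m, hm0, hint⟩ := halg.exists_integral_multiple
    refine ⟨m, hm0, fun q hq A hA hdvd => ?_⟩
    have h1 : m • y ∈ A := mem_valuationSubring_of_isIntegral A _ hint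
    have h2 : A.valuation ((m : ℤ) : Qb) = 1 := valuation_intCast_eq_one hq hA hdvd
    rw [← A.valuation_le_one_iff, zsmul_eq_mul, map_mul, h2, one_mul] at h1
    exact h1
  obtain ⟨m, hm0, hm⟩ := hle x hx
  obtain ⟨m', hm'0, hm'⟩ := hle x⁻¹ (inv_ne_zero hx)
  refine ⟨(m * m').natAbs, Int.natAbs_ne_zero.mpr (mul_ne_zero hm0 hm'0), fun q hq A hA hdvd => ?_⟩
  have hd : ¬ (q : ℤ) ∣ m * m' := by
    intro h
    exact hdvd (Int.natCast_dvd.mp h)
  have h1 := hm q hq A hA (fun h => hd (Dvd.dvd.mul_right h m'))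
  have h2 := hm' q hq A hA (fun h => hd (Dvd.dvd.mul_left h m))
  have hv0 : A.valuation x ≠ 0 := (map_ne_zero _).mpr hx
  rw [map_inv₀, inv_le_one₀ (zero_lt_iff.mpr hv0)] at h2
  exact le_antisymm h1 h2

/-- **Dictionary**: for `f ∈ Fˣ`, the order of `f` at a place `A` of `ℚ̄` over `q ∉ S` is the
multiplicity of the prime of `𝓞 F` cut out by `A` in the principal ideal `(f)`. -/
theorem isOrd_algebraMap (hF : F.IsUnramifiedOutside S) [FiniteDimensional ℚ F] (q : Nat.Primes)
    (hq : q ∉ S) (A : ValuationSubring Qb) (hA : A.LiesOverPrime (q : ℕ)) (f : Fˣ) :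
    IsOrd A (q : ℕ) (algebraMap F Qb (f : F))
      (FractionalIdeal.count F (heightOneOL F q.2 A hA)
        (FractionalIdeal.spanSingleton (𝓞 F)⁰ (f : F))) := by
  set v := heightOneOL F q.2 A hA with hv
  set c := FractionalIdeal.count F v (FractionalIdeal.spanSingleton (𝓞 F)⁰ (f : F)) with hc
  have hvq : v.valuation F (((q : ℕ) : ℕ) : F) = WithZero.exp (-1 : ℤ) :=
    Fermat.Agent.S55.helper4709.placeOL_valuation_natCast_of_isUnramifiedOutside hF q hq A hA
  have hvf : v.valuation F (f : F) = WithZero.exp (-c) := valuation_eq_exp_neg_count v f.ne_zero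
  have h1 : v.valuation F ((f : F) / (((q : ℕ) : ℕ) : F) ^ c) = 1 := by
    rw [map_div₀, map_zpow₀, hvq, hvf, ← WithZero.exp_zsmul, smul_eq_mul, mul_neg_one]
    exact div_self WithZero.exp_ne_zero
  have h2 := (heightOneOL_valuation_eq_one_iff F q.2 A hA _).1 h1
  rw [map_div₀, map_zpow₀, map_natCast] at h2
  exact h2

end Arith

/-! ### The count -/

section Count

variable {S : Finset Nat.Primes} {F : IntermediateField ℚ Qb}

/-- **NF-GH-KER, count form.**  `F` an `S`-unramified number field containing a primitive `p`-th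
root of unity, `p ∈ S`, `V = Gal(ℚ̄/F)`.  Let `(h i)` be a finite family of `Ω^×`-valued `S`-level
1-cochains on `V` with `μ_p`-valued coboundaries `c i = d (h i)` (so the `c i` represent classes
of `K(F) = ker (H²(G_{F,S}, μ_p) → H²(G_{F,S}, Ω^×))`).  If the classes of the `c i` in
`H²(G_{F,S}, μ_p)` are `𝔽_p`-linearly independent (no nontrivial product `∏ (c i) ^ (e i)` is the
coboundary of a `μ_p`-valued `S`-level 1-cochain), then the family has at most
`rk_p Cl_S(F) = clSRank (𝓞 F) F (SF F S) p` members. -/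
theorem card_le_clSRank {p : ℕ} [Fact p.Prime] (hpS : ExtCitation.pPrime p ∈ S)
    (hF : F.IsUnramifiedOutside S) [FiniteDimensional ℚ F] {ζ : Qb} (hζ : IsPrimitiveRoot ζ p)
    (hζF : ζ ∈ F) {ι : Type*} [Fintype ι] (h : ι → F.fixingSubgroup → Qbˣ)
    (hlev : ∀ i, IsOmLevel S F (h i))
    (hμ : ∀ i, ∀ g k : F.fixingSubgroup,
      (h i g * gal (g : GQ) (h i k) / h i (g * k)) ^ p = 1)
    (hind : ∀ e : ι → ℤ,
      (∃ z : F.fixingSubgroup → Qbˣ, IsSLevelOn S F z ∧ (∀ g, z g ^ p = 1) ∧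
        ∀ g k : F.fixingSubgroup,
          ∏ i, (h i g * gal (g : GQ) (h i k) / h i (g * k)) ^ e i = z g * z k / z (g * k)) →
      ∀ i, (p : ℤ) ∣ e i) :
    Fintype.card ι ≤ clSRank (𝓞 F) F (SF F S : Set (HeightOneSpectrum (𝓞 F))) p := by
  classical
  choose α hαS hαh using fun i => exists_alpha hF (h i) (hlev i) (hμ i)
  -- a chosen place over every prime of `𝓞 F` outside `S`
  choose qv Av hAv hqv hvA using
    fun v : {v : HeightOneSpectrum (𝓞 F) // v ∉ SF F S} =>
      exists_heightOneOL_eq_of_notMem_SF F v.2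
  -- the orders of the `α i` at the chosen places
  choose kk hkk using fun (i : ι) (v : {v : HeightOneSpectrum (𝓞 F) // v ∉ SF F S}) =>
    (hαS i).exists_isOrd (α i).ne_zero (qv v) (hqv v) (Av v) (hAv v)
  let D : ι → HeightOneSpectrum (𝓞 F) → ℤ := fun i v =>
    if hv : v ∈ SF F S then 0 else kk i ⟨v, hv⟩
  have hαprod : ∀ e : ι → ℤ, (((∏ i, α i ^ e i : Qbˣ)) : Qb) = ∏ i, (α i : Qb) ^ e i := by
    intro e
    rw [Units.coe_prod]
    exact Finset.prod_congr rfl fun i _ => Units.val_zpow_eq_zpow_val _ _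
  -- finite support
  have hD : ∀ i, (Function.support (D i)).Finite := by
    intro i
    obtain ⟨m, hm0, hm⟩ := exists_nat_forall_valuation_eq_one (α i : Qb) (α i).ne_zero
    have hsub : Function.support (D i) ⊆ ⋃ q ∈ m.primeFactors,
        {v : HeightOneSpectrum (𝓞 F) | ((q : ℕ) : 𝓞 F) ∈ v.asIdeal} := by
      intro v hv
      rw [Function.mem_support] at hv
      by_cases hvS : v ∈ SF F S
      · exact absurd (dif_pos hvS) hv
      · have hDv : D i v = kk i ⟨v, hvS⟩ := dif_neg hvS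
        rw [hDv] at hv
        have hq : (qv ⟨v, hvS⟩ : ℕ) ∣ m := by
          by_contra hndvd
          have h1 := hm _ (qv ⟨v, hvS⟩).2 (Av ⟨v, hvS⟩) (hAv ⟨v, hvS⟩) hndvd
          have h2 : IsOrd (Av ⟨v, hvS⟩) (qv ⟨v, hvS⟩ : ℕ) (α i : Qb) 0 := by
            unfold IsOrd
            rw [zpow_zero, div_one]
            exact h1
          exact hv (IsOrd.unique (qv ⟨v, hvS⟩).2 (hAv ⟨v, hvS⟩) (hkk i ⟨v, hvS⟩) h2)
        rw [Set.mem_iUnion₂]
        refine ⟨qv ⟨v, hvS⟩, Nat.mem_primeFactors.mpr ⟨(qv ⟨v, hvS⟩).2, hq, hm0⟩, ?_⟩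
        show ((qv ⟨v, hvS⟩ : ℕ) : 𝓞 F) ∈ v.asIdeal
        have h3 : ((qv ⟨v, hvS⟩ : ℕ) : 𝓞 F) ∈
            (heightOneOL F (qv ⟨v, hvS⟩).2 (Av ⟨v, hvS⟩) (hAv ⟨v, hvS⟩)).asIdeal :=
          natCast_mem_primeOL F (Av ⟨v, hvS⟩) (hAv ⟨v, hvS⟩)
        rwa [hvA ⟨v, hvS⟩] at h3
    refine Set.Finite.subset (Set.Finite.biUnion (Finset.finite_toSet _) fun q hq => ?_) hsub
    have : Fact (q : ℕ).Prime := ⟨(Nat.mem_primeFactors.mp hq).1⟩
    exact Set.finite_coe_iff.mp (Fermat.Agent.S55.helper4727.finite_primesOver q F)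
  refine card_le_clSRank_of_independent (K := F) (SF F S : Set (HeightOneSpectrum (𝓞 F))) p D hD ?_
  rintro e ⟨f, hf⟩
  apply hind e
  -- the combined cochain and the combined `α`
  have hlev_e : IsOmLevel S F (fun g => ∏ i, h i g ^ e i) :=
    isOmLevel_prod_zpow Finset.univ h e (fun i _ => hlev i)
  have hαe_S : IsSUnr S (((∏ i, α i ^ e i : Qbˣ)) : Qb) := by
    rw [hαprod e]
    exact isSUnr_prod_zpow Finset.univ _ e (fun i _ => hαS i)
  have hαh_e : ∀ g : F.fixingSubgroup,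
      (∏ i, h i g ^ e i) ^ p = gal (g : GQ) (∏ i, α i ^ e i) / ∏ i, α i ^ e i := by
    intro g
    rw [map_prod, ← Finset.prod_div_distrib, ← Finset.prod_pow]
    refine Finset.prod_congr rfl fun i _ => ?_
    rw [map_zpow, ← div_zpow, ← hαh i g, ← zpow_natCast, ← zpow_natCast, ← zpow_mul,
      ← zpow_mul, mul_comm]
  have hf'F : (((Units.map (algebraMap F Qb : F →* Qb) f : Qbˣ)) : Qb) ∈ F := (f : F).2
  have hdivAll : ∀ q : Nat.Primes, q ∉ S → ∀ A : ValuationSubring Qb, A.LiesOverPrime (q : ℕ) →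
      ∃ k : ℤ, A.valuation ((((∏ i, α i ^ e i : Qbˣ)) : Qb) /
        ((((Units.map (algebraMap F Qb : F →* Qb) f : Qbˣ)) : Qb) *
          ((q : ℕ) : Qb) ^ ((p : ℤ) * k))) = 1 := by
    -- the divisibility condition at every place outside `S`
    intro q hq A hA
    have hq0 : (q : ℕ) ≠ 0 := q.2.ne_zero
    have hvS : heightOneOL F q.2 A hA ∉ SF F S := heightOneOL_notMem_SF F hq A hA
    set v' : {v : HeightOneSpectrum (𝓞 F) // v ∉ SF F S} := ⟨heightOneOL F q.2 A hA, hvS⟩ with hv'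
    -- the chosen place over `v` lies over the same prime `q`
    have hqq : qv v' = q := by
      apply Subtype.ext
      have h2 : ((qv v' : ℕ) : 𝓞 F) ∈
          (heightOneOL F (qv v').2 (Av v') (hAv v')).asIdeal :=
        natCast_mem_primeOL F (Av v') (hAv v')
      rw [hvA v'] at h2
      exact eq_of_natCast_mem_primeOL F q.2 (qv v').2 A hA h2
    have hAv' : (Av v').LiesOverPrime (q : ℕ) := hqq ▸ hAv v'
    have hprime : primeOL F (Av v') = primeOL F A :=
      congrArg HeightOneSpectrum.asIdeal (hvA v')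
    obtain ⟨g, hgF, hgA⟩ := Fermat.Agent.S55.helper4727.exists_mem_fixingSubgroup_smul_eq F q.2
      (Av v') A hAv' hA hprime
    -- orders at `A`
    choose kA hkA using fun i : ι => (hαS i).exists_isOrd (α i).ne_zero q hq A hA
    have hdvd : ∀ i, (p : ℤ) ∣ kA i - kk i v' := by
      intro i
      have h1 : IsOrd (Av v') (q : ℕ) (α i : Qb) (kk i v') := hqq ▸ hkk i v'
      have h2 : IsOrd (((⟨g, hgF⟩ : F.fixingSubgroup) : GQ) • Av v') (q : ℕ) (α i : Qb)
          (kA i) := by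
        show IsOrd (g • Av v') _ _ _
        rw [hgA]
        exact hkA i
      exact isOrd_smul_dvd (h i) (hlev i) (α i) (hαh i) q hq (Av v') hAv' ⟨g, hgF⟩ h1 h2
    have hordα : IsOrd A (q : ℕ) (((∏ i, α i ^ e i : Qbˣ)) : Qb) (∑ i, e i * kA i) := by
      rw [hαprod e]
      exact isOrd_prod_zpow hq0 Finset.univ _ e kA (fun i _ => hkA i)
    have hordf := isOrd_algebraMap hF q hq A hA f
    have hdiv := hf _ hvS
    have hDv : ∀ i, D i (heightOneOL F q.2 A hA) = kk i v' := fun i => dif_neg hvS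
    have hp_dvd : (p : ℤ) ∣ (∑ i, e i * kA i) -
        FractionalIdeal.count F (heightOneOL F q.2 A hA)
          (FractionalIdeal.spanSingleton (𝓞 F)⁰ (f : F)) := by
      have h1 : (∑ i, e i * kA i) - FractionalIdeal.count F (heightOneOL F q.2 A hA)
          (FractionalIdeal.spanSingleton (𝓞 F)⁰ (f : F))
          = ((∑ i, e i * D i (heightOneOL F q.2 A hA)) -
              FractionalIdeal.count F (heightOneOL F q.2 A hA)
                (FractionalIdeal.spanSingleton (𝓞 F)⁰ (f : F)))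
            + ∑ i, e i * (kA i - kk i v') := by
        simp only [hDv, mul_sub, Finset.sum_sub_distrib]
        ring
      rw [h1]
      exact dvd_add hdiv (Finset.dvd_sum fun i _ => Dvd.dvd.mul_left (hdvd i) _)
    obtain ⟨k', hk'⟩ := hp_dvd
    refine ⟨k', ?_⟩
    have h2 := hordα.div hq0 hordf
    rw [hk'] at h2
    unfold IsOrd at h2
    rw [div_div] at h2
    exact h2
  obtain ⟨z, hzlev, hzp, hz⟩ := exists_mu_primitive hpS hF hζ hζF (fun g => ∏ i, h i g ^ e i)
    hlev_e (∏ i, α i ^ e i) hαe_S hαh_e (Units.map (algebraMap F Qb : F →* Qb) f) hf'F hdivAll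
  refine ⟨z, hzlev, hzp, fun g k => ?_⟩
  rw [← hz g k, map_prod, ← Finset.prod_mul_distrib, ← Finset.prod_div_distrib]
  refine Finset.prod_congr rfl fun i _ => ?_
  rw [map_zpow, div_zpow, mul_zpow]

end Count

end Fermat.Agent.S55.helper1919
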