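import Mathlib
import Fermat.Agent.S55.helper1919_KerCount
import Fermat.Agent.S55.helper3071_GlobalBridge
import Fermat.Agent.S55.helper324_FieldH1

/-!
# S55 / NF-GH-KER on the GB carrier (helper1919)

The kernel bound `helper1919.card_le_clSRank` transported to the field-level carrier
`helper3071.fieldH2 S p F` (additive `ZMod p`-valued `S`-level 2-cocycles on `V = Gal(ℚ̄/F)` modulo
`S`-level coboundaries).

* `IsKerClass S F p ζ c`: the additive cocycle `c` becomes, after exponentiation `ζ ^ c`, the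
  coboundary of an `Ω^×`-valued `S`-level 1-cochain (`IsOmLevel`).
* `card_le_of_linearIndependent`: a linearly independent family of classes in `fieldH2`, each
  having a representative that is a kernel class, has at most `clSRank` members.
* `finite_and_finrank_le`: a submodule `W` of `fieldH2` consisting of kernel classes is finite of
  `finrank ≤ clSRank`.
* `Stmt_GH` (the Hasse principle in kernel form: every class of `fieldSha2` is a kernel class), and
  its consequences `stmt_FieldSha2Fin_of`, `finrank_fieldSha2_le_of`, `stmt_FieldLower_of`.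
-/

set_option autoImplicit false

namespace Fermat.Agent.S55.helper1919

open IntermediateField groupCohomology
open Fermat.Agent.S55.helper3071 Fermat.Agent.S55.helper9292 Fermat.Agent.Lib.helper54
open scoped NumberField

attribute [local instance] numberField_intermediate

local notation "Qb" => AlgebraicClosure ℚ
local notation "GQ" => (AlgebraicClosure ℚ ≃ₐ[ℚ] AlgebraicClosure ℚ)

/-- The additive `ZMod p`-valued 2-cochain `c` on `V = Gal(ℚ̄/F)` is a *kernel class* (with respect
to the root of unity `ζ`): `ζ ^ c` is the coboundary of an `Ω^×`-valued `S`-level 1-cochain. -/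
def IsKerClass (S : Finset Nat.Primes) (F : IntermediateField ℚ Qb) (p : ℕ) (ζ : Qbˣ)
    (c : F.fixingSubgroup × F.fixingSubgroup → ZMod p) : Prop :=
  ∃ h : F.fixingSubgroup → Qbˣ, IsOmLevel S F h ∧
    ∀ g k : F.fixingSubgroup, h g * gal (g : GQ) (h k) / h (g * k) = ζ ^ (c (g, k)).val

section Log

variable {p : ℕ} [Fact p.Prime] {ζ : Qbˣ}

theorem zpow_sum_eq_prod {ι : Type*} (u : Qbˣ) (f : ι → ℤ) (s : Finset ι) :
    u ^ (∑ i ∈ s, f i) = ∏ i ∈ s, u ^ f i := by
  classical
  induction s using Finset.induction_on with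
  | empty => simp
  | insert a s ha ih => rw [Finset.sum_insert ha, Finset.prod_insert ha, zpow_add, ih]

/-- `ζ ^ (n mod p) = ζ ^ n` for a `p`-th root of unity. -/
theorem pow_val_intCast (hζp : ζ ^ p = 1) (n : ℤ) : ζ ^ ((n : ZMod p)).val = ζ ^ n := by
  have h1 : ζ ^ (p : ℤ) = 1 := by rw [zpow_natCast]; exact hζp
  rw [← zpow_natCast, ZMod.val_intCast]
  exact (zpow_eq_zpow_emod n h1).symm

/-- A primitive root separates integer exponents mod `p`. -/
theorem intCast_eq_of_zpow_eq (hζ : IsPrimitiveRoot ζ p) {m n : ℤ} (h : ζ ^ m = ζ ^ n) :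
    (m : ZMod p) = (n : ZMod p) := by
  have h1 : ζ ^ (m - n) = 1 := by rw [zpow_sub, h, mul_inv_cancel]
  have h2 : (p : ℤ) ∣ m - n := (hζ.zpow_eq_one_iff_dvd _).1 h1
  have h3 : ((m - n : ℤ) : ZMod p) = 0 := (ZMod.intCast_zmod_eq_zero_iff_dvd _ _).2 h2
  rw [Int.cast_sub] at h3
  exact sub_eq_zero.1 h3

/-- Discrete logarithm of a `p`-th root of unity. -/
theorem exists_pow_val_eq (hζ : IsPrimitiveRoot (ζ : Qb) p) (u : Qbˣ) (hu : u ^ p = 1) :
    ∃ a : ZMod p, ζ ^ a.val = u := by
  have hu' : (u : Qb) ^ p = 1 := by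
    have := congrArg (fun x : Qbˣ => (x : Qb)) hu
    simpa using this
  obtain ⟨i, hi, h⟩ := hζ.eq_pow_of_pow_eq_one hu'
  refine ⟨(i : ZMod p), Units.ext ?_⟩
  rw [ZMod.val_natCast_of_lt hi, Units.val_pow_eq_pow_val, h]

end Log

section Main

variable {S : Finset Nat.Primes} {p : ℕ} {F : IntermediateField ℚ Qb}

/-- **The kernel bound on the GB carrier, family form.**  A `ZMod p`-linearly independent family of
classes of `fieldH2 S p F`, each of which has a representative that is a kernel class, has at most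
`clSRank` members. -/
theorem card_le_of_linearIndependent [Fact p.Prime] [FiniteDimensional ℚ F]
    (hpS : ExtCitation.pPrime p ∈ S) (hF : F.IsUnramifiedOutside S) {ζ : Qbˣ}
    (hζ : IsPrimitiveRoot (ζ : Qb) p) (hζF : (ζ : Qb) ∈ F)
    {ι : Type*} [Fintype ι] (x : ι → fieldH2 S p F)
    (hx : ∀ i, ∃ c : ↥(relZ2S S F.fixingSubgroup.subtype (trivF p F)),
      relH2Sπ S F.fixingSubgroup.subtype (trivF p F) c = x i ∧
        IsKerClass S F p ζ (c : F.fixingSubgroup × F.fixingSubgroup → ZMod p))
    (hli : LinearIndependent (ZMod p) x) :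
    Fintype.card ι ≤ clSRank (𝓞 F) F
      (SF F S : Set (IsDedekindDomain.HeightOneSpectrum (𝓞 F))) p := by
  classical
  choose c hcx hc using hx
  choose h hlev hd using hc
  have hζu : IsPrimitiveRoot ζ p := IsPrimitiveRoot.coe_units_iff.1 hζ
  have hζp : ζ ^ p = 1 := hζu.pow_eq_one
  refine card_le_clSRank hpS hF hζ hζF h hlev (fun i g k => ?_) (fun e he => ?_)
  · rw [hd, ← pow_mul, mul_comm, pow_mul, hζp, one_pow]
  · obtain ⟨z, hzlev, hzp, hz⟩ := he
    let φ : Qbˣ → ZMod p := fun u =>
      if hu : u ^ p = 1 then Classical.choose (exists_pow_val_eq hζ u hu) else 0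
    have hφ : ∀ u : Qbˣ, u ^ p = 1 → ζ ^ (φ u).val = u := by
      intro u hu
      simp only [φ, dif_pos hu]
      exact Classical.choose_spec (exists_pow_val_eq hζ u hu)
    let y : F.fixingSubgroup → ZMod p := fun g => φ (z g)
    have hy : IsLevS₁ S F.fixingSubgroup.subtype y := by
      obtain ⟨L, hL, hinv⟩ := hzlev
      exact ⟨L, hL, fun g s hs => by
        show φ (z (g * s)) = φ (z g)
        rw [hinv g s hs]⟩
    have key : ∀ g k : F.fixingSubgroup,
        ∑ i, (e i : ZMod p) * (c i : F.fixingSubgroup × F.fixingSubgroup → ZMod p) (g, k)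
          = y k - y (g * k) + y g := by
      intro g k
      have h1 : ζ ^ (∑ i, e i * (((c i : F.fixingSubgroup × F.fixingSubgroup → ZMod p) (g, k)).val
          : ℤ)) = ζ ^ ((((y k).val : ℤ) - ((y (g * k)).val : ℤ)) + ((y g).val : ℤ)) := by
        rw [zpow_sum_eq_prod, zpow_add, zpow_sub, zpow_natCast, zpow_natCast, zpow_natCast,
          hφ _ (hzp k), hφ _ (hzp (g * k)), hφ _ (hzp g)]
        have h2 := hz g k
        rw [show z k * (z (g * k))⁻¹ * z g = z g * z k / z (g * k) by
          rw [mul_comm, div_eq_mul_inv, mul_assoc], ← h2]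
        refine Finset.prod_congr rfl fun i _ => ?_
        rw [hd, mul_comm, zpow_mul, zpow_natCast]
      have h3 := intCast_eq_of_zpow_eq hζu h1
      push_cast at h3
      simpa using h3
    have hsum : ∑ i, (e i : ZMod p) • x i = 0 := by
      have h1 : ∑ i, (e i : ZMod p) • x i
          = relH2Sπ S F.fixingSubgroup.subtype (trivF p F) (∑ i, (e i : ZMod p) • c i) := by
        rw [map_sum]
        refine Finset.sum_congr rfl fun i _ => ?_
        rw [map_smul, hcx]
      rw [h1, relH2Sπ_eq_zero_iff]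
      refine (mem_relB2S_iff S F.fixingSubgroup.subtype (trivF p F) _).2 ⟨y, hy, ?_⟩
      funext ⟨g, k⟩
      rw [d₁₂_hom_apply]
      have h4 := key g k
      simp only [Submodule.coe_sum, Submodule.coe_smul, Finset.sum_apply, Pi.smul_apply,
        smul_eq_mul]
      exact h4.symm
    have h5 := Fintype.linearIndependent_iff.1 hli (fun i => (e i : ZMod p)) hsum
    intro i
    exact (ZMod.intCast_zmod_eq_zero_iff_dvd (e i) p).1 (h5 i)

/-- **The kernel bound on the GB carrier, submodule form.**  A submodule `W` of `fieldH2 S p F` all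
of whose classes have a representative that is a kernel class is finite, of `finrank ≤ clSRank`. -/
theorem finite_and_finrank_le [Fact p.Prime] [FiniteDimensional ℚ F]
    (hpS : ExtCitation.pPrime p ∈ S) (hF : F.IsUnramifiedOutside S) {ζ : Qbˣ}
    (hζ : IsPrimitiveRoot (ζ : Qb) p) (hζF : (ζ : Qb) ∈ F)
    (W : Submodule (ZMod p) (fieldH2 S p F))
    (hW : ∀ x ∈ W, ∃ c : ↥(relZ2S S F.fixingSubgroup.subtype (trivF p F)),
      relH2Sπ S F.fixingSubgroup.subtype (trivF p F) c = x ∧
        IsKerClass S F p ζ (c : F.fixingSubgroup × F.fixingSubgroup → ZMod p)) :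
    Module.Finite (ZMod p) ↥W ∧
      Module.finrank (ZMod p) ↥W ≤ clSRank (𝓞 F) F
        (SF F S : Set (IsDedekindDomain.HeightOneSpectrum (𝓞 F))) p := by
  classical
  have hr : Module.rank (ZMod p) ↥W ≤
      ((clSRank (𝓞 F) F (SF F S : Set (IsDedekindDomain.HeightOneSpectrum (𝓞 F))) p : ℕ)
        : Cardinal) := by
    refine rank_le fun s hs => ?_
    have h1 := card_le_of_linearIndependent hpS hF hζ hζF
      (fun i : s => (((i : ↥W) : ↥W) : fieldH2 S p F)) (fun i => hW _ (i : ↥W).2)
      (hs.map' W.subtype (Submodule.ker_subtype W))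
    rwa [Fintype.card_coe] at h1
  exact ⟨Module.rank_lt_aleph0_iff.1 (hr.trans_lt Cardinal.natCast_lt_aleph0),
    Module.finrank_le_of_rank_le hr⟩

end Main

/-! ## The closed form -/

/-- **(G-H), kernel form**: for every `S`-field `F ∋ μ_p` and every primitive `p`-th root of unity
`ζ`, every class of `Ш²_S(F, 𝔽_p) = fieldSha2 S p F` has a representative `c` such that `ζ ^ c` is
the coboundary of an `Ω^×`-valued `S`-level 1-cochain (Hasse principle + local triviality). -/
def Stmt_GH : Prop :=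
  ∀ (S : Finset Nat.Primes) (p : ℕ) (F : IntermediateField ℚ Qb), IsSFieldZeta S p F →
    ∀ ζ : Qbˣ, IsPrimitiveRoot (ζ : Qb) p → ∀ x ∈ fieldSha2 S p F,
      ∃ c : ↥(relZ2S S F.fixingSubgroup.subtype (trivF p F)),
        relH2Sπ S F.fixingSubgroup.subtype (trivF p F) c = x ∧
          IsKerClass S F p ζ (c : F.fixingSubgroup × F.fixingSubgroup → ZMod p)

section Closed

variable {S : Finset Nat.Primes} {p : ℕ} {F : IntermediateField ℚ Qb}

/-- `Ш²_S(F, 𝔽_p)` is finite of rank `≤ clSRank`, from the kernel form of (G-H) at `F`. -/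
theorem finite_and_finrank_fieldSha2_le [FiniteDimensional ℚ F] (h : IsSFieldZeta S p F)
    (hGH : ∀ ζ : Qbˣ, IsPrimitiveRoot (ζ : Qb) p → ∀ x ∈ fieldSha2 S p F,
      ∃ c : ↥(relZ2S S F.fixingSubgroup.subtype (trivF p F)),
        relH2Sπ S F.fixingSubgroup.subtype (trivF p F) c = x ∧
          IsKerClass S F p ζ (c : F.fixingSubgroup × F.fixingSubgroup → ZMod p)) :
    Module.Finite (ZMod p) ↥(fieldSha2 S p F) ∧
      Module.finrank (ZMod p) ↥(fieldSha2 S p F) ≤ clSRank (𝓞 F) F
        (SF F S : Set (IsDedekindDomain.HeightOneSpectrum (𝓞 F))) p := by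
  have : Fact p.Prime := ⟨h.prime⟩
  obtain ⟨q0, hq0S, hq0⟩ := h.mem
  obtain ⟨ζ, hζF, hζ⟩ := h.zeta
  have hpS : ExtCitation.pPrime p ∈ S := by
    have h2 : ExtCitation.pPrime p = q0 := Subtype.ext hq0.symm
    rw [h2]
    exact hq0S
  have hζ0 : ζ ≠ 0 := hζ.ne_zero h.prime.ne_zero
  exact finite_and_finrank_le hpS h.unram (ζ := Units.mk0 ζ hζ0) hζ hζF (fieldSha2 S p F)
    (hGH (Units.mk0 ζ hζ0) hζ)

/-- Finiteness of `Ш²_S(F, 𝔽_p)` from `Stmt_GH`. -/
theorem finite_fieldSha2_of (hGH : Stmt_GH) (h : IsSFieldZeta S p F) :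
    Module.Finite (ZMod p) ↥(fieldSha2 S p F) := by
  have : FiniteDimensional ℚ F := h.unram.1
  exact (finite_and_finrank_fieldSha2_le h (hGH S p F h)).1

/-- `a₂ ≤ ρ` from `Stmt_GH`. -/
theorem finrank_fieldSha2_le_of [FiniteDimensional ℚ F] (hGH : Stmt_GH) (h : IsSFieldZeta S p F) :
    Module.finrank (ZMod p) ↥(fieldSha2 S p F) ≤ clSRank (𝓞 F) F
      (SF F S : Set (IsDedekindDomain.HeightOneSpectrum (𝓞 F))) p :=
  (finite_and_finrank_fieldSha2_le h (hGH S p F h)).2

/-- `FieldLower` at `F` from the bound `a₂ ≤ ρ` (with `helper324.two_mul_finrank_fieldH1`). -/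
theorem fieldLower_of_finrank_le [FiniteDimensional ℚ F] (h : IsSFieldZeta S p F)
    (hle : Module.finrank (ZMod p) ↥(fieldSha2 S p F) ≤ clSRank (𝓞 F) F
      (SF F S : Set (IsDedekindDomain.HeightOneSpectrum (𝓞 F))) p) :
    FieldLower S p F := by
  have h1 := helper324.two_mul_finrank_fieldH1 h
  unfold FieldLower
  omega

end Closed

/-- The closed finiteness statement (this is `helper1702.Stmt_FieldSha2Fin`, unfolded). -/
theorem stmt_FieldSha2Fin_of (hGH : Stmt_GH) :
    ∀ (S : Finset Nat.Primes) (p : ℕ) (F : IntermediateField ℚ (AlgebraicClosure ℚ)),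
      IsSFieldZeta S p F → Module.Finite (ZMod p) (fieldSha2 S p F) :=
  fun _ _ _ h => finite_fieldSha2_of hGH h

/-- `helper3071.Stmt_FieldLower` from the kernel form of (G-H). -/
theorem stmt_FieldLower_of (hGH : Stmt_GH) : Stmt_FieldLower := by
  intro S p F h
  have : FiniteDimensional ℚ F := h.unram.1
  exact fieldLower_of_finrank_le h (finrank_fieldSha2_le_of hGH h)

end Fermat.Agent.S55.helper1919
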