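/-
S55 leaf BR-MUP (helper6706): the `μ_p` dictionary.

Two carriers are in use in the S55 project:

* the frozen side works with `Rep (ZMod p) G` modules, in particular
  `groupCohomology.ofChar χ` (carrier `ZMod p`, action `a ↦ χ g * a`), with `χ = cycloChar p`
  or a restriction of it;
* the Kummer / local side works with `μ_p`-valued MULTIPLICATIVE cochains inside `Ωˣ`
  (`IsMulCocycle₁`, `IsMulCocycle₂`, `IsMulCoboundary₂` of Mathlib, `MulDistribMulAction G Ωˣ`).

This file is the adapter.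

* Part 1: `muExp ζ : ZMod p → U`, `a ↦ ζ ^ a.val`, additive-to-multiplicative, injective,
  equivariant (`g • muExp ζ a = muExp ζ (χ g * a)`), with range `μ_p`.
* Part 2: `IsMulEmbedding A E` for a general `A : Rep k G` and `E : A → U`; transport of
  invariants, `d₀₁`, `d₁₂`, 1- and 2-cocycles, 1- and 2-coboundaries, level-constancy
  (`IsLevelConstant₁/₂ r`, `IsLevelConstantS₁/₂ S`), frozen `levelCocycles₂`,
  `levelCoboundaries₂`, `levelCocyclesS₂`, `levelCoboundariesS₂`; restriction along a group hom.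
* Part 3: instances: `ofChar χ` with `muExp ζ` (generic), `G_ℚ` on `Qbarˣ` with `cycloChar p`,
  subgroups of `G_ℚ`, and the local groups `Gal(PadicAlgCl l / ℚ_l)` on `(PadicAlgCl l)ˣ`.

Mathlib + Prelude only.
-/
import Mathlib
import Fermat.Prelude.Def_GroupCohomology_ContinuousUnramified
import Fermat.Prelude.Def_DualSelmer_ExtConditions

set_option autoImplicit false

open CategoryTheory groupCohomology

namespace Fermat.Agent.S55.helper6706

universe u v

/-! ## Part 1. The exponential `muExp ζ : ZMod p → U` -/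

section Exp

variable {p : ℕ} [Fact p.Prime] {U : Type v} [CommGroup U]

/-- `a ↦ ζ ^ a.val`. -/
def muExp (ζ : U) (a : ZMod p) : U := ζ ^ a.val

lemma muExp_def (ζ : U) (a : ZMod p) : muExp ζ a = ζ ^ a.val := rfl

@[simp] lemma muExp_zero (ζ : U) : muExp ζ (0 : ZMod p) = 1 := by
  simp [muExp]

lemma muExp_one (ζ : U) : muExp ζ (1 : ZMod p) = ζ := by
  haveI : Fact (1 < p) := ⟨(Fact.out : p.Prime).one_lt⟩
  simp [muExp, ZMod.val_one]

lemma muExp_natCast {ζ : U} (hζ : ζ ^ p = 1) (n : ℕ) : muExp ζ (n : ZMod p) = ζ ^ n := by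
  rw [muExp, ZMod.val_natCast]
  exact (pow_eq_pow_mod n hζ).symm

lemma muExp_add {ζ : U} (hζ : ζ ^ p = 1) (a b : ZMod p) :
    muExp ζ (a + b) = muExp ζ a * muExp ζ b := by
  rw [muExp, muExp, muExp, ZMod.val_add, ← pow_add]
  exact (pow_eq_pow_mod _ hζ).symm

lemma muExp_mul {ζ : U} (hζ : ζ ^ p = 1) (c a : ZMod p) :
    muExp ζ (c * a) = muExp ζ a ^ c.val := by
  rw [muExp, muExp, ZMod.val_mul, ← pow_mul, mul_comm a.val]
  exact (pow_eq_pow_mod _ hζ).symm

lemma muExp_pow_prime {ζ : U} (hζ : ζ ^ p = 1) (a : ZMod p) : muExp ζ a ^ p = 1 := by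
  rw [muExp, ← pow_mul, mul_comm, pow_mul, hζ, one_pow]

lemma muExp_neg {ζ : U} (hζ : ζ ^ p = 1) (a : ZMod p) : muExp ζ (-a) = (muExp ζ a)⁻¹ := by
  rw [eq_inv_iff_mul_eq_one, ← muExp_add hζ, neg_add_cancel, muExp_zero]

lemma muExp_sub {ζ : U} (hζ : ζ ^ p = 1) (a b : ZMod p) :
    muExp ζ (a - b) = muExp ζ a / muExp ζ b := by
  rw [sub_eq_add_neg, muExp_add hζ, muExp_neg hζ, div_eq_mul_inv]

lemma muExp_intCast {ζ : U} (hζ : ζ ^ p = 1) (n : ℤ) : muExp ζ (n : ZMod p) = ζ ^ n := by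
  rw [muExp, ← zpow_natCast, ZMod.val_intCast]
  exact (zpow_eq_zpow_emod' n hζ).symm

lemma muExp_injective {ζ : U} (hζ : ζ ^ p = 1) (hζ1 : ζ ≠ 1) :
    Function.Injective (muExp (p := p) ζ) := by
  intro a b h
  have hord : orderOf ζ = p := orderOf_eq_prime hζ hζ1
  have h2 := pow_inj_mod.1 h
  rw [hord, Nat.mod_eq_of_lt (ZMod.val_lt a), Nat.mod_eq_of_lt (ZMod.val_lt b)] at h2
  exact ZMod.val_injective p h2

lemma muExp_eq_one_iff {ζ : U} (hζ : ζ ^ p = 1) (hζ1 : ζ ≠ 1) (a : ZMod p) :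
    muExp ζ a = 1 ↔ a = 0 := by
  rw [← muExp_zero (p := p) ζ]
  exact (muExp_injective hζ hζ1).eq_iff

/-- The bundled version of `muExp`. -/
def muExpHom (ζ : U) (hζ : ζ ^ p = 1) : Multiplicative (ZMod p) →* U where
  toFun a := muExp ζ (Multiplicative.toAdd a)
  map_one' := muExp_zero ζ
  map_mul' a b := muExp_add hζ _ _

@[simp] lemma muExpHom_apply (ζ : U) (hζ : ζ ^ p = 1) (a : Multiplicative (ZMod p)) :
    muExpHom ζ hζ a = muExp ζ (Multiplicative.toAdd a) := rfl

/-- The range of `muExp ζ` is the cyclic group generated by `ζ`. -/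
lemma range_muExp {ζ : U} (hζ : ζ ^ p = 1) :
    Set.range (muExp (p := p) ζ) = (Subgroup.zpowers ζ : Set U) := by
  ext u
  constructor
  · rintro ⟨a, rfl⟩
    exact Subgroup.npow_mem_zpowers ζ a.val
  · rintro ⟨n, rfl⟩
    exact ⟨(n : ZMod p), muExp_intCast hζ n⟩

/-- In the units of a domain, the range of `muExp ζ` is the group `μ_p` of all `p`-th roots of
unity. -/
lemma range_muExp_units {Ω : Type v} [CommRing Ω] [IsDomain Ω] {ζ : Ωˣ} (hζ : ζ ^ p = 1)
    (hζ1 : ζ ≠ 1) : Set.range (muExp (p := p) ζ) = {u : Ωˣ | u ^ p = 1} := by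
  haveI : NeZero p := ⟨(Fact.out : p.Prime).ne_zero⟩
  have hprim : IsPrimitiveRoot ζ p := by
    rw [← orderOf_eq_prime hζ hζ1]
    exact IsPrimitiveRoot.orderOf ζ
  rw [range_muExp hζ, hprim.zpowers_eq]
  ext u
  simp [mem_rootsOfUnity]

lemma mem_range_muExp_units_iff {Ω : Type v} [CommRing Ω] [IsDomain Ω] {ζ : Ωˣ} (hζ : ζ ^ p = 1)
    (hζ1 : ζ ≠ 1) (u : Ωˣ) : u ∈ Set.range (muExp (p := p) ζ) ↔ u ^ p = 1 := by
  rw [range_muExp_units hζ hζ1]
  rfl

/-- Equivariance: if `g • ζ = ζ ^ χ(g)` then `g • ζ ^ a = ζ ^ (χ(g) a)`. -/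
lemma smul_muExp {G : Type*} [Monoid G] [MulDistribMulAction G U] {ζ : U} (hζ : ζ ^ p = 1)
    {χ : G →* (ZMod p)ˣ} (hχ : ∀ g : G, g • ζ = ζ ^ ((χ g : (ZMod p)ˣ) : ZMod p).val)
    (g : G) (a : ZMod p) :
    g • muExp ζ a = muExp ζ (((χ g : (ZMod p)ˣ) : ZMod p) * a) := by
  rw [muExp_mul hζ, muExp, smul_pow', hχ, ← pow_mul, ← pow_mul, mul_comm]

end Exp

/-! ## Part 2. Equivariant embeddings of a representation into a multiplicative module -/

section Embedding

variable {k G : Type u} [CommRing k] [Group G] {U : Type v} [CommGroup U]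
  [MulDistribMulAction G U]

/-- `E : A → U` is an injective, additive-to-multiplicative, `G`-equivariant map from the
carrier of the representation `A` to the multiplicative `G`-module `U`. -/
structure IsMulEmbedding (A : Rep k G) (E : A → U) : Prop where
  map_add : ∀ a b : A, E (a + b) = E a * E b
  map_ρ : ∀ (g : G) (a : A), E (A.ρ g a) = g • E a
  injective : Function.Injective E

namespace IsMulEmbedding

variable {A : Rep k G} {E : A → U}

lemma map_zero (hE : IsMulEmbedding A E) : E 0 = 1 := by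
  have h := hE.map_add 0 0
  rw [add_zero] at h
  exact mul_eq_left.mp h.symm

lemma map_neg (hE : IsMulEmbedding A E) (a : A) : E (-a) = (E a)⁻¹ := by
  rw [eq_inv_iff_mul_eq_one, ← hE.map_add, neg_add_cancel, hE.map_zero]

lemma map_sub (hE : IsMulEmbedding A E) (a b : A) : E (a - b) = E a / E b := by
  rw [sub_eq_add_neg, hE.map_add, hE.map_neg, div_eq_mul_inv]

lemma eq_one_iff (hE : IsMulEmbedding A E) (a : A) : E a = 1 ↔ a = 0 := by
  rw [← hE.map_zero]
  exact hE.injective.eq_iff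

lemma map_sum (hE : IsMulEmbedding A E) {ι : Type*} (s : Finset ι) (f : ι → A) :
    E (∑ i ∈ s, f i) = ∏ i ∈ s, E (f i) := by
  classical
  induction s using Finset.induction_on with
  | empty => simpa using hE.map_zero
  | insert i s hi ih => rw [Finset.sum_insert hi, Finset.prod_insert hi, hE.map_add, ih]

/-- Invariants correspond to fixed points. -/
lemma mem_invariants_iff (hE : IsMulEmbedding A E) (a : A) :
    a ∈ A.ρ.invariants ↔ ∀ g : G, g • E a = E a := by
  rw [Representation.mem_invariants]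
  refine forall_congr' fun g => ?_
  rw [← hE.map_ρ]
  exact hE.injective.eq_iff.symm

/-- `E` turns `d₀₁` into the multiplicative coboundary `g ↦ g • u / u`. -/
lemma apply_d₀₁ (hE : IsMulEmbedding A E) (a : A) (g : G) :
    E ((d₀₁ A).hom a g) = g • E a / E a := by
  rw [d₀₁_hom_apply, hE.map_sub, hE.map_ρ]

/-- `E` turns `d₁₂` into the multiplicative coboundary `(g, h) ↦ g • u h / u (g * h) * u g`. -/
lemma apply_d₁₂ (hE : IsMulEmbedding A E) (x : G → A) (g h : G) :
    E ((d₁₂ A).hom x (g, h)) = g • E (x h) / E (x (g * h)) * E (x g) := by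
  rw [d₁₂_hom_apply, hE.map_add, hE.map_sub, hE.map_ρ]

/-- 1-cocycles of `A` are exactly the cochains whose image is a multiplicative 1-cocycle. -/
theorem mem_cocycles₁_iff (hE : IsMulEmbedding A E) (x : G → A) :
    x ∈ cocycles₁ A ↔ IsMulCocycle₁ (fun g => E (x g)) := by
  rw [groupCohomology.mem_cocycles₁_iff]
  refine forall₂_congr fun g h => ?_
  rw [← hE.map_ρ, ← hE.map_add]
  exact hE.injective.eq_iff.symm

/-- 2-cocycles of `A` are exactly the cochains whose image is a multiplicative 2-cocycle. -/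
theorem mem_cocycles₂_iff (hE : IsMulEmbedding A E) (f : G × G → A) :
    f ∈ cocycles₂ A ↔ IsMulCocycle₂ (fun q => E (f q)) := by
  rw [groupCohomology.mem_cocycles₂_iff]
  refine forall₃_congr fun g h j => ?_
  rw [← hE.map_ρ, ← hE.map_add, ← hE.map_add]
  exact hE.injective.eq_iff.symm

/-- 1-coboundaries of `A`: multiplicative coboundaries of an element of the range of `E`. -/
theorem mem_coboundaries₁_iff (hE : IsMulEmbedding A E) (x : G → A) :
    x ∈ coboundaries₁ A ↔ ∃ u ∈ Set.range E, ∀ g : G, g • u / u = E (x g) := by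
  constructor
  · rintro ⟨a, rfl⟩
    exact ⟨E a, ⟨a, rfl⟩, fun g => (hE.apply_d₀₁ a g).symm⟩
  · rintro ⟨_, ⟨a, rfl⟩, h⟩
    refine ⟨a, funext fun g => hE.injective ?_⟩
    rw [hE.apply_d₀₁, h]

/-- 2-coboundaries of `A`: multiplicative coboundaries of a 1-cochain with values in the range
of `E`. -/
theorem mem_coboundaries₂_iff (hE : IsMulEmbedding A E) (f : G × G → A) :
    f ∈ coboundaries₂ A ↔ ∃ u : G → U, (∀ g, u g ∈ Set.range E) ∧
      ∀ g h : G, g • u h / u (g * h) * u g = E (f (g, h)) := by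
  constructor
  · rintro ⟨x, rfl⟩
    exact ⟨fun g => E (x g), fun g => ⟨x g, rfl⟩, fun g h => (hE.apply_d₁₂ x g h).symm⟩
  · rintro ⟨u, hu, h⟩
    choose x hx using hu
    refine ⟨x, funext fun q => hE.injective ?_⟩
    obtain ⟨g, h'⟩ := q
    rw [hE.apply_d₁₂, hx, hx, hx, h]

/-- A cochain with values in the range of `E` comes from a unique cochain of `A`. -/
theorem existsUnique_lift (hE : IsMulEmbedding A E) {X : Type*} (u : X → U)
    (hu : ∀ x, u x ∈ Set.range E) : ∃! f : X → A, ∀ x, E (f x) = u x := by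
  choose f hf using hu
  refine ⟨f, hf, fun f' hf' => funext fun x => hE.injective ?_⟩
  rw [hf, hf']

/-! ### Level-constancy -/

variable (r : G →* (AlgebraicClosure ℚ ≃ₐ[ℚ] AlgebraicClosure ℚ))

lemma isLevelConstant₁_iff (hE : IsMulEmbedding A E) (x : G → A) :
    IsLevelConstant₁ r x ↔ IsLevelConstant₁ r (fun g => E (x g)) := by
  constructor
  · exact fun h => h.comp E
  · rintro ⟨F, hF, h⟩
    exact ⟨F, hF, fun g s hs => hE.injective (h g s hs)⟩

lemma isLevelConstant₂_iff (hE : IsMulEmbedding A E) (f : G × G → A) :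
    IsLevelConstant₂ r f ↔ IsLevelConstant₂ r (fun q => E (f q)) := by
  constructor
  · exact fun h => h.comp E
  · rintro ⟨F, hF, h⟩
    exact ⟨F, hF, fun g g' s s' hs hs' => hE.injective (h g g' s s' hs hs')⟩

/-- Frozen level 2-cocycles in terms of multiplicative cochains. -/
theorem mem_levelCocycles₂_iff (hE : IsMulEmbedding A E) (f : G × G → A) :
    f ∈ levelCocycles₂ r A ↔
      IsMulCocycle₂ (fun q => E (f q)) ∧ IsLevelConstant₂ r (fun q => E (f q)) := by
  rw [groupCohomology.mem_levelCocycles₂_iff, hE.mem_cocycles₂_iff, hE.isLevelConstant₂_iff r]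

/-- Frozen level 2-coboundaries in terms of multiplicative cochains. -/
theorem mem_levelCoboundaries₂_iff (hE : IsMulEmbedding A E) (f : G × G → A) :
    f ∈ levelCoboundaries₂ r A ↔ ∃ u : G → U, (∀ g, u g ∈ Set.range E) ∧ IsLevelConstant₁ r u ∧
      ∀ g h : G, g • u h / u (g * h) * u g = E (f (g, h)) := by
  rw [groupCohomology.mem_levelCoboundaries₂_iff]
  constructor
  · rintro ⟨x, hx, rfl⟩
    exact ⟨fun g => E (x g), fun g => ⟨x g, rfl⟩, hx.comp E,
      fun g h => (hE.apply_d₁₂ x g h).symm⟩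
  · rintro ⟨u, hu, hlev, h⟩
    choose x hx using hu
    have hxu : (fun g => E (x g)) = u := funext hx
    refine ⟨x, (hE.isLevelConstant₁_iff r x).2 (hxu ▸ hlev), funext fun q => hE.injective ?_⟩
    obtain ⟨g, h'⟩ := q
    rw [hE.apply_d₁₂, hx, hx, hx, h]

/-- Level 1-cocycles (the cocycles representing frozen `continuousH1 r A` classes). -/
theorem mem_cocycles₁_and_level_iff (hE : IsMulEmbedding A E) (x : G → A) :
    (x ∈ cocycles₁ A ∧ IsLevelConstant₁ r x) ↔
      IsMulCocycle₁ (fun g => E (x g)) ∧ IsLevelConstant₁ r (fun g => E (x g)) := by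
  rw [hE.mem_cocycles₁_iff, hE.isLevelConstant₁_iff r]

/-! ### Restriction and change of target -/

/-- Restriction along a group hom `φ : H →* G`, the target `U` carrying a compatible
`H`-action. -/
theorem res (hE : IsMulEmbedding A E) {H : Type u} [Group H] (φ : H →* G)
    [MulDistribMulAction H U] (hφ : ∀ (h : H) (u : U), h • u = φ h • u) :
    IsMulEmbedding (Rep.res φ A) E where
  map_add := hE.map_add
  map_ρ h a := by
    rw [hφ]
    exact hE.map_ρ (φ h) a
  injective := hE.injective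

/-- Restriction to a subgroup (with the subgroup action on `U`). -/
theorem res_subgroup (hE : IsMulEmbedding A E) (H : Subgroup G) :
    IsMulEmbedding (Rep.res H.subtype A) E :=
  hE.res H.subtype fun _ _ => rfl

/-- Restriction along `φ : H →* G` combined with an injective hom `ι : U →* U'` into an
`H`-module `U'` which intertwines the two actions. -/
theorem res_map (hE : IsMulEmbedding A E) {H : Type u} [Group H] (φ : H →* G)
    {U' : Type*} [CommGroup U'] [MulDistribMulAction H U'] (ι : U →* U')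
    (hι : Function.Injective ι) (hφ : ∀ (h : H) (u : U), ι (φ h • u) = h • ι u) :
    IsMulEmbedding (Rep.res φ A) (fun a => ι (E a)) where
  map_add a b := by
    show ι (E (a + b)) = ι (E a) * ι (E b)
    rw [hE.map_add, map_mul]
  map_ρ h a := by
    show ι (E (A.ρ (φ h) a)) = h • ι (E a)
    rw [hE.map_ρ, hφ]
  injective := hι.comp hE.injective

end IsMulEmbedding

end Embedding

/-! ### The `S`-level versions over `G_ℚ` -/

section SLevel

variable {k : Type} [CommRing k]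
  {A : Rep k (AlgebraicClosure ℚ ≃ₐ[ℚ] AlgebraicClosure ℚ)}
  {U : Type v} [CommGroup U] [MulDistribMulAction (AlgebraicClosure ℚ ≃ₐ[ℚ] AlgebraicClosure ℚ) U]
  {E : A → U} (S : Finset Nat.Primes)

namespace IsMulEmbedding

lemma isLevelConstantS₁_iff (hE : IsMulEmbedding A E)
    (x : (AlgebraicClosure ℚ ≃ₐ[ℚ] AlgebraicClosure ℚ) → A) :
    IsLevelConstantS₁ S x ↔ IsLevelConstantS₁ S (fun g => E (x g)) := by
  constructor
  · exact fun h => h.comp E
  · rintro ⟨F, hF, h⟩
    exact ⟨F, hF, fun g s hs => hE.injective (h g s hs)⟩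

lemma isLevelConstantS₂_iff (hE : IsMulEmbedding A E)
    (f : (AlgebraicClosure ℚ ≃ₐ[ℚ] AlgebraicClosure ℚ) ×
      (AlgebraicClosure ℚ ≃ₐ[ℚ] AlgebraicClosure ℚ) → A) :
    IsLevelConstantS₂ S f ↔ IsLevelConstantS₂ S (fun q => E (f q)) := by
  constructor
  · exact fun h => h.comp E
  · rintro ⟨F, hF, h⟩
    exact ⟨F, hF, fun g g' s s' hs hs' => hE.injective (h g g' s s' hs hs')⟩

/-- Frozen `S`-level 2-cocycles in terms of multiplicative cochains. -/
theorem mem_levelCocyclesS₂_iff (hE : IsMulEmbedding A E)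
    (f : (AlgebraicClosure ℚ ≃ₐ[ℚ] AlgebraicClosure ℚ) ×
      (AlgebraicClosure ℚ ≃ₐ[ℚ] AlgebraicClosure ℚ) → A) :
    f ∈ levelCocyclesS₂ S A ↔
      IsMulCocycle₂ (fun q => E (f q)) ∧ IsLevelConstantS₂ S (fun q => E (f q)) := by
  rw [groupCohomology.mem_levelCocyclesS₂_iff, hE.mem_cocycles₂_iff, hE.isLevelConstantS₂_iff S]

/-- Frozen `S`-level 2-coboundaries in terms of multiplicative cochains. -/
theorem mem_levelCoboundariesS₂_iff (hE : IsMulEmbedding A E)
    (f : (AlgebraicClosure ℚ ≃ₐ[ℚ] AlgebraicClosure ℚ) ×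
      (AlgebraicClosure ℚ ≃ₐ[ℚ] AlgebraicClosure ℚ) → A) :
    f ∈ levelCoboundariesS₂ S A ↔
      ∃ u : (AlgebraicClosure ℚ ≃ₐ[ℚ] AlgebraicClosure ℚ) → U,
        (∀ g, u g ∈ Set.range E) ∧ IsLevelConstantS₁ S u ∧
        ∀ g h, g • u h / u (g * h) * u g = E (f (g, h)) := by
  rw [groupCohomology.mem_levelCoboundariesS₂_iff]
  constructor
  · rintro ⟨x, hx, rfl⟩
    exact ⟨fun g => E (x g), fun g => ⟨x g, rfl⟩, hx.comp E,
      fun g h => (hE.apply_d₁₂ x g h).symm⟩
  · rintro ⟨u, hu, hlev, h⟩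
    choose x hx using hu
    have hxu : (fun g => E (x g)) = u := funext hx
    refine ⟨x, (hE.isLevelConstantS₁_iff S x).2 (hxu ▸ hlev), funext fun q => hE.injective ?_⟩
    obtain ⟨g, h'⟩ := q
    rw [hE.apply_d₁₂, hx, hx, hx, h]

/-- `S`-level 1-cocycles (the cocycles representing frozen `continuousH1S S A` classes). -/
theorem mem_cocycles₁_and_levelS_iff (hE : IsMulEmbedding A E)
    (x : (AlgebraicClosure ℚ ≃ₐ[ℚ] AlgebraicClosure ℚ) → A) :
    (x ∈ cocycles₁ A ∧ IsLevelConstantS₁ S x) ↔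
      IsMulCocycle₁ (fun g => E (x g)) ∧ IsLevelConstantS₁ S (fun g => E (x g)) := by
  rw [hE.mem_cocycles₁_iff, hE.isLevelConstantS₁_iff S]

end IsMulEmbedding

end SLevel

/-! ## Part 3. Instances -/

section Instances

open ExtCitation

variable {p : ℕ} [Fact p.Prime]

lemma ofChar_ρ_apply {G : Type} [Group G] (χ : G →* (ZMod p)ˣ) (g : G) (a : ZMod p) :
    (ofChar χ).ρ g a = ((χ g : (ZMod p)ˣ) : ZMod p) * a := rfl

/-- **The `μ_p` dictionary, generic form.** If `ζ` has order `p` in the multiplicative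
`G`-module `U` and `g • ζ = ζ ^ χ(g)`, then `muExp ζ` embeds the frozen module `ofChar χ`
into `U`. -/
theorem isMulEmbedding_ofChar {G : Type} [Group G] {U : Type v} [CommGroup U]
    [MulDistribMulAction G U] {ζ : U} (hζ : ζ ^ p = 1) (hζ1 : ζ ≠ 1) {χ : G →* (ZMod p)ˣ}
    (hχ : ∀ g : G, g • ζ = ζ ^ ((χ g : (ZMod p)ˣ) : ZMod p).val) :
    IsMulEmbedding (ofChar χ) (muExp (p := p) ζ) where
  map_add := muExp_add hζ
  map_ρ g a := (smul_muExp hζ hχ g a).symm
  injective := muExp_injective hζ hζ1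

/-- The same for the restriction of `ofChar χ` along `φ : H →* G` (only the action of `H` on
`U` is needed). -/
theorem isMulEmbedding_res_ofChar {H G : Type} [Group H] [Group G] (φ : H →* G)
    {U : Type v} [CommGroup U] [MulDistribMulAction H U] {ζ : U} (hζ : ζ ^ p = 1) (hζ1 : ζ ≠ 1)
    {χ : G →* (ZMod p)ˣ}
    (hχ : ∀ h : H, h • ζ = ζ ^ ((χ (φ h) : (ZMod p)ˣ) : ZMod p).val) :
    IsMulEmbedding (Rep.res φ (ofChar χ)) (muExp (p := p) ζ) where
  map_add := muExp_add hζ
  map_ρ h a := (smul_muExp (χ := χ.comp φ) hζ hχ h a).symm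
  injective := muExp_injective hζ hζ1

/-! ### The global instance: `G_ℚ` acting on `ℚ̄ˣ`, `χ = cycloChar p` -/

/-- The defining property of the frozen `cycloChar p`, on units. -/
theorem smul_eq_pow_cycloChar (σ : AlgebraicClosure ℚ ≃ₐ[ℚ] AlgebraicClosure ℚ)
    {ζ : (AlgebraicClosure ℚ)ˣ} (hζ : ζ ^ p = 1) :
    σ • ζ = ζ ^ ((cycloChar p σ : (ZMod p)ˣ) : ZMod p).val := by
  haveI : NeZero p := ⟨(Fact.out : p.Prime).ne_zero⟩
  apply Units.ext
  exact modularCyclotomicCharacter.spec (AlgebraicClosure ℚ) (card_rootsOfUnity_eq_self p)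
    (σ : AlgebraicClosure ℚ ≃+* AlgebraicClosure ℚ) ((mem_rootsOfUnity _ _).2 hζ)

lemma exists_zetaQbar (p : ℕ) [Fact p.Prime] :
    ∃ ζ : (AlgebraicClosure ℚ)ˣ, ζ ^ p = 1 ∧ ζ ≠ 1 := by
  haveI : NeZero p := ⟨(Fact.out : p.Prime).ne_zero⟩
  haveI : NeZero (p : AlgebraicClosure ℚ) := ⟨Nat.cast_ne_zero.mpr (NeZero.ne p)⟩
  obtain ⟨ζ, hζ⟩ := HasEnoughRootsOfUnity.exists_primitiveRoot (AlgebraicClosure ℚ) p
  have hu : IsUnit ζ := hζ.isUnit (NeZero.ne p)
  refine ⟨hu.unit, Units.ext ?_, fun h => ?_⟩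
  · simpa using hζ.pow_eq_one
  · have h1 : ζ = 1 := by simpa using congrArg Units.val h
    exact hζ.ne_one (Fact.out : p.Prime).one_lt h1

/-- A chosen primitive `p`-th root of unity in `ℚ̄ˣ`. -/
noncomputable def zetaQbar (p : ℕ) [Fact p.Prime] : (AlgebraicClosure ℚ)ˣ :=
  (exists_zetaQbar p).choose

lemma zetaQbar_pow (p : ℕ) [Fact p.Prime] : zetaQbar p ^ p = 1 :=
  (exists_zetaQbar p).choose_spec.1

lemma zetaQbar_ne_one (p : ℕ) [Fact p.Prime] : zetaQbar p ≠ 1 :=
  (exists_zetaQbar p).choose_spec.2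

lemma smul_zetaQbar (σ : AlgebraicClosure ℚ ≃ₐ[ℚ] AlgebraicClosure ℚ) :
    σ • zetaQbar p = zetaQbar p ^ ((cycloChar p σ : (ZMod p)ˣ) : ZMod p).val :=
  smul_eq_pow_cycloChar σ (zetaQbar_pow p)

/-- **Global dictionary**: `muExp ζ_p` embeds the frozen `ofChar (cycloChar p)` into `ℚ̄ˣ`. -/
theorem isMulEmbedding_global (p : ℕ) [Fact p.Prime] :
    IsMulEmbedding (ofChar (cycloChar p)) (muExp (p := p) (zetaQbar p)) :=
  isMulEmbedding_ofChar (zetaQbar_pow p) (zetaQbar_ne_one p) smul_zetaQbar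

/-- Its range is `μ_p(ℚ̄)`. -/
theorem range_muExp_zetaQbar (p : ℕ) [Fact p.Prime] :
    Set.range (muExp (p := p) (zetaQbar p)) = {u : (AlgebraicClosure ℚ)ˣ | u ^ p = 1} :=
  range_muExp_units (zetaQbar_pow p) (zetaQbar_ne_one p)

/-- **Dictionary over a subgroup** `H ≤ G_ℚ` (e.g. `H = F.fixingSubgroup`, or the archimedean
decomposition group). -/
theorem isMulEmbedding_subgroup (p : ℕ) [Fact p.Prime]
    (H : Subgroup (AlgebraicClosure ℚ ≃ₐ[ℚ] AlgebraicClosure ℚ)) :
    IsMulEmbedding (Rep.res H.subtype (ofChar (cycloChar p))) (muExp (p := p) (zetaQbar p)) :=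
  (isMulEmbedding_global p).res_subgroup H

/-! ### The local instances: `Gal(PadicAlgCl l / ℚ_l)` acting on `(PadicAlgCl l)ˣ` -/

section Local

variable (l : ℕ) [Fact l.Prime]

/-- The image of `ζ_p` in `(PadicAlgCl l)ˣ`. -/
noncomputable def zetaPadic (p : ℕ) [Fact p.Prime] (l : ℕ) [Fact l.Prime] : (PadicAlgCl l)ˣ :=
  Units.map ((padicEmbedding l : AlgebraicClosure ℚ →* PadicAlgCl l)) (zetaQbar p)

lemma zetaPadic_pow (p : ℕ) [Fact p.Prime] : zetaPadic p l ^ p = 1 := by
  rw [zetaPadic, ← map_pow, zetaQbar_pow, map_one]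

lemma zetaPadic_ne_one (p : ℕ) [Fact p.Prime] : zetaPadic p l ≠ 1 := by
  intro h
  apply zetaQbar_ne_one p
  apply Units.ext
  have h1 : padicEmbedding l (zetaQbar p : AlgebraicClosure ℚ) = 1 := congrArg Units.val h
  exact (padicEmbedding l).toRingHom.injective (by simpa using h1)

/-- The local Galois action on units is the global one through `localGaloisToGlobal`. -/
lemma unitsMap_padicEmbedding_smul (τ : PadicAlgCl l ≃ₐ[ℚ_[l]] PadicAlgCl l)
    (u : (AlgebraicClosure ℚ)ˣ) :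
    Units.map ((padicEmbedding l : AlgebraicClosure ℚ →* PadicAlgCl l))
        (localGaloisToGlobal l τ • u) =
      τ • Units.map ((padicEmbedding l : AlgebraicClosure ℚ →* PadicAlgCl l)) u :=
  Units.ext (padicEmbedding_localGaloisToGlobal l τ u)

lemma smul_zetaPadic (τ : PadicAlgCl l ≃ₐ[ℚ_[l]] PadicAlgCl l) :
    τ • zetaPadic p l =
      zetaPadic p l ^ ((cycloChar p (localGaloisToGlobal l τ) : (ZMod p)ˣ) : ZMod p).val := by
  rw [zetaPadic, ← unitsMap_padicEmbedding_smul, smul_zetaQbar, map_pow]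

/-- **Local dictionary**: `muExp ζ_p` embeds the restriction of the frozen `ofChar (cycloChar p)`
to the local Galois group into `(PadicAlgCl l)ˣ`. -/
theorem isMulEmbedding_local (p : ℕ) [Fact p.Prime] :
    IsMulEmbedding (Rep.res (localGaloisToGlobal l) (ofChar (cycloChar p)))
      (muExp (p := p) (zetaPadic p l)) :=
  isMulEmbedding_res_ofChar (localGaloisToGlobal l) (zetaPadic_pow l p) (zetaPadic_ne_one l p)
    (smul_zetaPadic l)

/-- Its range is `μ_p(PadicAlgCl l)`. -/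
theorem range_muExp_zetaPadic (p : ℕ) [Fact p.Prime] :
    Set.range (muExp (p := p) (zetaPadic p l)) = {u : (PadicAlgCl l)ˣ | u ^ p = 1} :=
  range_muExp_units (zetaPadic_pow l p) (zetaPadic_ne_one l p)

/-- The local embedding is the global one followed by `padicEmbedding`. -/
lemma muExp_zetaPadic (a : ZMod p) :
    muExp (zetaPadic p l) a =
      Units.map ((padicEmbedding l : AlgebraicClosure ℚ →* PadicAlgCl l))
        (muExp (zetaQbar p) a) := by
  rw [muExp, muExp, zetaPadic, map_pow]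

end Local

/-- **Local dictionary on the frozen carrier** `primeLocalToGlobal q`. -/
theorem isMulEmbedding_primeLocal (p : ℕ) [Fact p.Prime] (q : Nat.Primes) :
    haveI : Fact (q : ℕ).Prime := ⟨q.2⟩
    IsMulEmbedding (G := PadicAlgCl (q : ℕ) ≃ₐ[ℚ_[(q : ℕ)]] PadicAlgCl (q : ℕ))
      (Rep.res (primeLocalToGlobal q) (ofChar (cycloChar p)))
      (muExp (p := p) (zetaPadic p (q : ℕ))) :=
  haveI : Fact (q : ℕ).Prime := ⟨q.2⟩
  isMulEmbedding_local (q : ℕ) p

end Instances

/-! ## Part 4 (v2). Trivial coefficients, predicate-generic coboundaries, `(LB1)` transfer -/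

section Trivial

open ExtCitation

variable {p : ℕ} [Fact p.Prime]

/-- If `G` fixes `ζ`, then `muExp ζ` embeds the TRIVIAL module `ZMod p` into `U` (no twist). -/
theorem isMulEmbedding_trivial {G : Type} [Group G] {U : Type v} [CommGroup U]
    [MulDistribMulAction G U] {ζ : U} (hζ : ζ ^ p = 1) (hζ1 : ζ ≠ 1)
    (hfix : ∀ g : G, g • ζ = ζ) :
    IsMulEmbedding (Rep.trivial (ZMod p) G (ZMod p)) (muExp (p := p) ζ) where
  map_add := muExp_add hζ
  map_ρ g a := by
    show muExp ζ a = g • muExp ζ a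
    rw [muExp, smul_pow', hfix]
  injective := muExp_injective hζ hζ1

/-- The field case: `F ≤ ℚ̄` containing the `p`-th root of unity `ζ`; the trivial module of
`Gal(ℚ̄/F) = F.fixingSubgroup` embeds into `ℚ̄ˣ` by `a ↦ ζ ^ a`. -/
theorem isMulEmbedding_trivial_fixingSubgroup (F : IntermediateField ℚ (AlgebraicClosure ℚ))
    {ζ : (AlgebraicClosure ℚ)ˣ} (hζ : ζ ^ p = 1) (hζ1 : ζ ≠ 1)
    (hζF : (ζ : AlgebraicClosure ℚ) ∈ F) :
    IsMulEmbedding (Rep.trivial (ZMod p) ↥F.fixingSubgroup (ZMod p)) (muExp (p := p) ζ) :=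
  isMulEmbedding_trivial hζ hζ1 fun g =>
    Units.ext ((IntermediateField.mem_fixingSubgroup_iff F g.1).1 g.2 ζ hζF)

/-- `cycloChar p σ = 1` iff `σ` fixes a (any) primitive `p`-th root of unity. -/
theorem cycloChar_eq_one_iff (σ : AlgebraicClosure ℚ ≃ₐ[ℚ] AlgebraicClosure ℚ)
    {ζ : (AlgebraicClosure ℚ)ˣ} (hζ : ζ ^ p = 1) (hζ1 : ζ ≠ 1) :
    cycloChar p σ = 1 ↔ σ • ζ = ζ := by
  rw [smul_eq_pow_cycloChar σ hζ]
  constructor
  · intro h
    rw [h, Units.val_one]
    exact muExp_one ζ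
  · intro h
    have h2 : muExp (p := p) ζ ((cycloChar p σ : (ZMod p)ˣ) : ZMod p) = muExp (p := p) ζ 1 := by
      rw [muExp_one]
      exact h
    exact Units.ext (muExp_injective hζ hζ1 h2)

end Trivial

section Generic2

variable {k G : Type u} [CommRing k] [Group G] {U : Type v} [CommGroup U]
  [MulDistribMulAction G U] {A : Rep k G} {E : A → U}

namespace IsMulEmbedding

lemma apply_eq_iff (hE : IsMulEmbedding A E) {a b : A} : E a = E b ↔ a = b :=
  hE.injective.eq_iff

lemma map_nsmul (hE : IsMulEmbedding A E) (n : ℕ) (a : A) : E (n • a) = E a ^ n := by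
  induction n with
  | zero => simpa using hE.map_zero
  | succ n ih => rw [succ_nsmul, hE.map_add, ih, pow_succ]

/-- Predicate-generic form of the coboundary dictionary: `P` is any property of 1-cochains of
`A` (a level condition) and `Q` the corresponding property of `U`-valued cochains. -/
theorem exists_d₁₂_eq_iff (hE : IsMulEmbedding A E) {P : (G → A) → Prop} {Q : (G → U) → Prop}
    (hPQ : ∀ x : G → A, P x ↔ Q (fun g => E (x g))) (f : G × G → A) :
    (∃ x : G → A, P x ∧ (d₁₂ A).hom x = f) ↔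
      ∃ u : G → U, (∀ g, u g ∈ Set.range E) ∧ Q u ∧
        ∀ g h : G, g • u h / u (g * h) * u g = E (f (g, h)) := by
  constructor
  · rintro ⟨x, hx, rfl⟩
    exact ⟨fun g => E (x g), fun g => ⟨x g, rfl⟩, (hPQ x).1 hx,
      fun g h => (hE.apply_d₁₂ x g h).symm⟩
  · rintro ⟨u, hu, hQ, h⟩
    choose x hx using hu
    have hxu : (fun g => E (x g)) = u := funext hx
    refine ⟨x, (hPQ x).2 (hxu ▸ hQ), funext fun q => hE.injective ?_⟩
    obtain ⟨g, h'⟩ := q
    rw [hE.apply_d₁₂, hx, hx, hx, h]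

/-- Predicate-generic form in degree 1 (coboundaries of elements with a property). -/
theorem exists_d₀₁_eq_iff (hE : IsMulEmbedding A E) {P : A → Prop} {Q : U → Prop}
    (hPQ : ∀ a : A, P a ↔ Q (E a)) (x : G → A) :
    (∃ a : A, P a ∧ (d₀₁ A).hom a = x) ↔
      ∃ u ∈ Set.range E, Q u ∧ ∀ g : G, g • u / u = E (x g) := by
  constructor
  · rintro ⟨a, ha, rfl⟩
    exact ⟨E a, ⟨a, rfl⟩, (hPQ a).1 ha, fun g => (hE.apply_d₀₁ a g).symm⟩
  · rintro ⟨_, ⟨a, rfl⟩, hQ, h⟩
    refine ⟨a, (hPQ a).2 hQ, funext fun g => hE.injective ?_⟩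
    rw [hE.apply_d₀₁, h]

end IsMulEmbedding

end Generic2

/-! ### Transfer of `(LB1)` from the multiplicative shape to the frozen carrier -/

section LB1

variable {p : ℕ} [Fact p.Prime] {G : Type} [Group G] {U : Type v} [CommGroup U]
  [MulDistribMulAction G U] {A : Rep (ZMod p) G} {E : A → U}
  (r : G →* (AlgebraicClosure ℚ ≃ₐ[ℚ] AlgebraicClosure ℚ))

/-- **`(LB1)` transfer.** Suppose, in the multiplicative carrier (cochains with values in
`range E = μ_p`): there is a level 2-cocycle `F₀` which is not the coboundary of a `μ_p`-valued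
level 1-cochain, and every `μ_p`-valued level 2-cocycle is `F₀ ^ n * ∂u` with `u` a `μ_p`-valued
level 1-cochain. Then the frozen `continuousH2 r A` is one-dimensional over `ZMod p`. -/
theorem IsMulEmbedding.finrank_continuousH2_eq_one (hE : IsMulEmbedding A E)
    (F₀ : G × G → U) (hF₀range : ∀ q, F₀ q ∈ Set.range E) (hF₀ : IsMulCocycle₂ F₀)
    (hF₀lev : IsLevelConstant₂ r F₀)
    (hF₀ne : ¬ ∃ u : G → U, (∀ g, u g ∈ Set.range E) ∧ IsLevelConstant₁ r u ∧
      ∀ g h : G, g • u h / u (g * h) * u g = F₀ (g, h))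
    (hgen : ∀ F : G × G → U, (∀ q, F q ∈ Set.range E) → IsMulCocycle₂ F →
      IsLevelConstant₂ r F → ∃ (n : ℕ) (u : G → U), (∀ g, u g ∈ Set.range E) ∧
        IsLevelConstant₁ r u ∧ ∀ g h : G, F (g, h) = F₀ (g, h) ^ n * (g • u h / u (g * h) * u g)) :
    Module.finrank (ZMod p) (continuousH2 r A) = 1 := by
  choose f₀ hf₀ using hF₀range
  have hf₀E : (fun q => E (f₀ q)) = F₀ := funext hf₀
  have hf₀mem : f₀ ∈ levelCocycles₂ r A :=
    (hE.mem_levelCocycles₂_iff r f₀).2 ⟨hf₀E ▸ hF₀, hf₀E ▸ hF₀lev⟩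
  set z₀ : continuousH2 r A := continuousH2π r A ⟨f₀, hf₀mem⟩ with hz₀
  have hz₀ne : z₀ ≠ 0 := by
    intro h0
    rw [hz₀, continuousH2π_eq_zero_iff, hE.mem_levelCoboundaries₂_iff r] at h0
    obtain ⟨u, hu, hlev, h⟩ := h0
    exact hF₀ne ⟨u, hu, hlev, fun g h' => by rw [h g h', hf₀]⟩
  refine finrank_eq_one z₀ hz₀ne fun w => ?_
  obtain ⟨⟨f, hf⟩, rfl⟩ := Submodule.mkQ_surjective _ w
  have hf' := (hE.mem_levelCocycles₂_iff r f).1 hf
  obtain ⟨n, u, hu, hulev, h⟩ := hgen (fun q => E (f q)) (fun q => ⟨f q, rfl⟩) hf'.1 hf'.2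
  choose x hx using hu
  have hxu : (fun g => E (x g)) = u := funext hx
  have hxlev : IsLevelConstant₁ r x := (hE.isLevelConstant₁_iff r x).2 (hxu ▸ hulev)
  have hfeq : f = n • f₀ + (d₁₂ A).hom x := by
    funext q
    obtain ⟨g, h'⟩ := q
    apply hE.injective
    rw [Pi.add_apply, hE.map_add, Pi.smul_apply, hE.map_nsmul, hE.apply_d₁₂, hx, hx, hx, hf₀]
    exact h g h'
  refine ⟨(n : ZMod p), ?_⟩
  have hsub : (⟨f, hf⟩ : ↥(levelCocycles₂ r A)) - (n : ZMod p) • ⟨f₀, hf₀mem⟩ ∈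
      (levelCoboundaries₂ r A).comap (levelCocycles₂ r A).subtype := by
    rw [Submodule.mem_comap, groupCohomology.mem_levelCoboundaries₂_iff]
    refine ⟨x, hxlev, ?_⟩
    show (d₁₂ A).hom x = f - (n : ZMod p) • f₀
    rw [hfeq, Nat.cast_smul_eq_nsmul (ZMod p)]
    abel
  exact ((Submodule.Quotient.eq _).2 hsub).symm

end LB1

end Fermat.Agent.S55.helper6706
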