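import Mathlib
import Fermat.Agent.S55.helper1919_Sha2Bound
import Fermat.Agent.S55.helper6706_MuP
import Fermat.Agent.S55.helper1702_FinTop

/-!
# S55 / GB-SHA2FIELD (helper9826): from the Hasse step to the global-bridge Props

`F` an `S`-field containing `μ_p` (`helper3071.IsSFieldZeta S p F`), `V = Gal(ℚ̄/F)`.

* `MuLocTriv p F q g c` : the multiplicative `μ_p`-valued form of "the class of `c` dies in the
  frozen local group `continuousH2 (placeLoc F q g)`", for a cochain `c : V × V → ℚ̄ˣ`.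
* `Stmt_ShaHasse` : the one closed Prop consumed here, "`Ш²(G_{F,S}, μ_p) ⊆ K(F)`": a `μ_p`-valued
  `S`-level 2-cocycle on `V` which is trivial at every place `(q ∈ S, g)` is the coboundary of a
  `ℚ̄ˣ`-valued `S`-level 1-cochain with values in an `S`-field.  It is the output of the Hasse
  devissage (NF-GH-HASSE + NF-GH-LOC + NF-GH-LAYER + HNT), in the vocabulary of
  `helper1919.card_le_clSRank`.
* `stmt_GH_of : Stmt_ShaHasse → helper1919.Stmt_GH` : the `ζ`-exponential dictionary on `V` and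
  the unfolding of `fieldRes₂ = 0`.
* `stmt_FieldSha2Fin_of`, `stmt_FieldLower_of` : the consumer Props, verbatim
  (`helper1702.Stmt_FieldSha2Fin`, `helper3071.Stmt_FieldLower`).
-/

set_option autoImplicit false

open CategoryTheory groupCohomology ExtCitation

noncomputable section

namespace Fermat.Agent.S55.helper9826

open Fermat.Agent.S55.helper3071 Fermat.Agent.S55.helper6706

local notation "Qb" => AlgebraicClosure ℚ

/-! ## The contract -/

/-- Multiplicative `μ_p`-valued form of "the class of `c` dies in the frozen local cohomology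
`continuousH2 (placeLoc F q g)`": the pull-back of `c` along `placeHom F q g` is the coboundary
of a `μ_p`-valued level-constant 1-cochain of the decomposition group (trivial action). -/
def MuLocTriv (p : ℕ) (F : IntermediateField ℚ Qb) (q : Nat.Primes) (g : GQ)
    (c : ↥F.fixingSubgroup × ↥F.fixingSubgroup → Qbˣ) : Prop :=
  ∃ u : ↥(placeGroup F q g) → Qbˣ, (∀ a, u a ^ p = 1) ∧ IsLevelConstant₁ (placeLoc F q g) u ∧
    ∀ a b, c (placeHom F q g a, placeHom F q g b) = u a * u b / u (a * b)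

/-- **The Hasse step** `Ш²(G_{F,S}, μ_p) ⊆ K(F)`: for an `S`-field `F` containing `μ_p` (`p` odd,
`p ∈ S`), every `μ_p`-valued `S`-level 2-cocycle `c` on `V = Gal(ℚ̄/F)` which is trivial at every
place `(q ∈ S, g)` (in the frozen `μ_p`-valued sense) is the coboundary of a `ℚ̄ˣ`-valued `S`-level
1-cochain with values in an `S`-field. -/
def Stmt_ShaHasse : Prop :=
  ∀ (S : Finset Nat.Primes) (p : ℕ) (F : IntermediateField ℚ Qb), IsSFieldZeta S p F →
    ∀ c : ↥F.fixingSubgroup × ↥F.fixingSubgroup → Qbˣ,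
      (∀ x, c x ^ p = 1) →
      (∀ g h k, c (g * h, k) * c (g, h) = c (h, k) * c (g, h * k)) →
      IsLevS₂ S F.fixingSubgroup.subtype c →
      (∀ q ∈ S, ∀ g : GQ, MuLocTriv p F q g c) →
      ∃ h : ↥F.fixingSubgroup → Qbˣ, helper1919.IsOmLevel S F h ∧
        ∀ g k, c (g, k) = h g * helper1919.gal (g : GQ) (h k) / h (g * k)

/-! ## The dictionary -/

/-- For an `S`-level 2-cocycle `z` of `Gal(ℚ̄/F)` with trivial `ZMod p`-coefficients whose class
lies in `fieldSha2`, the cochain `ζ ^ z` satisfies all hypotheses of the Hasse step. -/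
theorem muExp_cocycle_props {S : Finset Nat.Primes} {p : ℕ} [Fact p.Prime]
    {F : IntermediateField ℚ Qb} {ζ : Qbˣ} (hζu : ζ ^ p = 1)
    (z : ↥(relZ2S S F.fixingSubgroup.subtype (trivF p F)))
    (hz : relH2Sπ S F.fixingSubgroup.subtype (trivF p F) z ∈ fieldSha2 S p F) :
    (∀ x, muExp ζ ((z : ↥F.fixingSubgroup × ↥F.fixingSubgroup → trivF p F) x) ^ p = 1) ∧
    (∀ g h k : ↥F.fixingSubgroup,
      muExp ζ ((z : ↥F.fixingSubgroup × ↥F.fixingSubgroup → trivF p F) (g * h, k)) *
          muExp ζ ((z : ↥F.fixingSubgroup × ↥F.fixingSubgroup → trivF p F) (g, h)) =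
        muExp ζ ((z : ↥F.fixingSubgroup × ↥F.fixingSubgroup → trivF p F) (h, k)) *
          muExp ζ ((z : ↥F.fixingSubgroup × ↥F.fixingSubgroup → trivF p F) (g, h * k))) ∧
    IsLevS₂ S F.fixingSubgroup.subtype
      (fun x => muExp ζ ((z : ↥F.fixingSubgroup × ↥F.fixingSubgroup → trivF p F) x)) ∧
    (∀ q ∈ S, ∀ g : GQ, MuLocTriv p F q g
      (fun x => muExp ζ ((z : ↥F.fixingSubgroup × ↥F.fixingSubgroup → trivF p F) x))) := by
  refine ⟨fun x => muExp_pow_prime hζu _, fun g h k => ?_,
    ((z.2.2 : IsLevS₂ S F.fixingSubgroup.subtype _).comp (muExp ζ)), fun q hq g => ?_⟩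
  · have h1 := (mem_cocycles₂_iff (A := trivF p F) _).1 z.2.1 g h k
    have h2 : (z : ↥F.fixingSubgroup × ↥F.fixingSubgroup → trivF p F) (g * h, k) +
        (z : ↥F.fixingSubgroup × ↥F.fixingSubgroup → trivF p F) (g, h) =
        (z : ↥F.fixingSubgroup × ↥F.fixingSubgroup → trivF p F) (h, k) +
        (z : ↥F.fixingSubgroup × ↥F.fixingSubgroup → trivF p F) (g, h * k) := by
      simpa using h1
    rw [← muExp_add hζu, ← muExp_add hζu]
    exact congrArg (muExp ζ) h2
  · have h0 := (mem_fieldSha2_iff S p F _).1 hz q hq g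
    have h1 : continuousH2π (placeLoc F q g) (trivPl p F q g)
        (relZ2SRes S (r := F.fixingSubgroup.subtype) (ρ := placeLoc F q g) (placeHom F q g)
          (fun _ => rfl) (LinearMap.id : ZMod p →ₗ[ZMod p] ZMod p) (fun _ _ => rfl) z) = 0 :=
      h0
    rw [continuousH2π_eq_zero_iff, mem_levelCoboundaries₂_iff] at h1
    obtain ⟨y, hylev, hy⟩ := h1
    refine ⟨fun a => muExp ζ (y a), fun a => muExp_pow_prime hζu _,
      hylev.comp (muExp ζ), fun a b => ?_⟩
    have h2 := congrFun hy (a, b)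
    rw [d₁₂_hom_apply] at h2
    have h3 : y b - y (a * b) + y a =
        (z : ↥F.fixingSubgroup × ↥F.fixingSubgroup → trivF p F)
          (placeHom F q g a, placeHom F q g b) := by
      simpa using h2
    show muExp ζ ((z : ↥F.fixingSubgroup × ↥F.fixingSubgroup → trivF p F)
      (placeHom F q g a, placeHom F q g b)) = _
    rw [← h3, muExp_add hζu, muExp_sub hζu, mul_comm, mul_div_assoc]

/-- **GB-SHA2FIELD, kernel form.**  The Hasse step gives the kernel form `helper1919.Stmt_GH` of
(G-H): every class of `fieldSha2` is represented by a cocycle `c` with `ζ ^ c` the coboundary of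
a `ℚ̄ˣ`-valued `S`-level cochain. -/
theorem stmt_GH_of (hH : Stmt_ShaHasse) : helper1919.Stmt_GH := by
  intro S p F h ζ hζ x hx
  haveI : Fact p.Prime := ⟨h.prime⟩
  obtain ⟨z, rfl⟩ := relH2Sπ_surjective S F.fixingSubgroup.subtype (trivF p F) x
  have hζu : ζ ^ p = 1 := by
    apply Units.ext
    rw [Units.val_pow_eq_pow_val, hζ.pow_eq_one, Units.val_one]
  obtain ⟨h1, h2, h3, h4⟩ := muExp_cocycle_props hζu z hx
  obtain ⟨hh, hhlev, hhc⟩ := hH S p F h _ h1 h2 h3 h4
  exact ⟨z, rfl, hh, hhlev, fun g k => (hhc g k).symm⟩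

/-- **GB-SHA2FIELD, finiteness.**  The Hasse step gives `helper1702.Stmt_FieldSha2Fin`. -/
theorem stmt_FieldSha2Fin_of (hH : Stmt_ShaHasse) : helper1702.Stmt_FieldSha2Fin :=
  helper1919.stmt_FieldSha2Fin_of (stmt_GH_of hH)

/-- **GB-SHA2FIELD, count.**  The Hasse step gives `helper3071.Stmt_FieldLower`
(`a₂ + r₂ + s ≤ h¹`, doubled). -/
theorem stmt_FieldLower_of (hH : Stmt_ShaHasse) : Stmt_FieldLower :=
  helper1919.stmt_FieldLower_of (stmt_GH_of hH)

end Fermat.Agent.S55.helper9826
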