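import Mathlib
import Fermat.Agent.S55.helper9826_Sha2Field
import Fermat.Agent.S55.helper6044_LocTriv

/-!
# S55 / GB-SHA2FIELD (helper9826): the frozen (P5) bridge

`MuLocTriv p F q g c` (the frozen `μ_p`-valued local vanishing of a cochain `c` on
`V = Gal(ℚ̄/F)` at the place `(q, g)` of the global bridge, `helper9826_Sha2Field`) implies
`helper6044.LocTrivAt q F g⁻¹ c'` for every whole-group cochain `c' : G_ℚ × G_ℚ → ℚ̄ˣ` which agrees
with `c` on `V × V`.

* `smul_eq_self_of_pow_eq_one` : `Gal(ℚ̄/F)` fixes `μ_p` when `ζ_p ∈ F`.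
* `locTrivAt_of_muLocTriv` : the bridge, for any extension `c'` of `c`.
* `extOne F c` : the extension of `c` by `1`, and `locTrivAt_extOne`.
-/

set_option autoImplicit false

open CategoryTheory groupCohomology ExtCitation

noncomputable section

namespace Fermat.Agent.S55.helper9826

open Fermat.Agent.S55.helper3071

local notation "Qb" => AlgebraicClosure ℚ

/-- A `p`-th root of unity of `ℚ̄` is fixed by `Gal(ℚ̄/F)` when `F` contains a primitive one. -/
theorem smul_eq_self_of_pow_eq_one {p : ℕ} [Fact p.Prime] {F : IntermediateField ℚ Qb} {ζ : Qb}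
    (hζ : IsPrimitiveRoot ζ p) (hζF : ζ ∈ F) {σ : GQ} (hσ : σ ∈ F.fixingSubgroup) (u : Qbˣ)
    (hu : u ^ p = 1) : σ • u = u := by
  haveI : NeZero p := ⟨(Fact.out : p.Prime).ne_zero⟩
  have hu' : (u : Qb) ^ p = 1 := by rw [← Units.val_pow_eq_pow_val, hu, Units.val_one]
  obtain ⟨i, -, hi⟩ := hζ.eq_pow_of_pow_eq_one hu'
  apply Units.ext
  rw [AlgEquiv.smul_units_def, Units.coe_map]
  show σ (u : Qb) = u
  rw [← hi, map_pow, (IntermediateField.mem_fixingSubgroup_iff F σ).1 hσ ζ hζF]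

/-- **The frozen (P5) bridge.**  The frozen `μ_p`-valued local vanishing at the place `(q, g)` of
the global bridge gives local triviality at the place `ι_q ∘ g⁻¹` in the sense of
`helper6044.LocTrivAt`, for every whole-group cochain extending `c`. -/
theorem locTrivAt_of_muLocTriv {p : ℕ} [Fact p.Prime] {F : IntermediateField ℚ Qb}
    [FiniteDimensional ℚ F] {ζ : Qb} (hζ : IsPrimitiveRoot ζ p) (hζF : ζ ∈ F) (q : Nat.Primes)
    (g : GQ) {c : ↥F.fixingSubgroup × ↥F.fixingSubgroup → Qbˣ} (hc : MuLocTriv p F q g c)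
    {c' : GQ × GQ → Qbˣ}
    (hc' : ∀ a b : ↥F.fixingSubgroup, c' ((a : GQ), (b : GQ)) = c (a, b)) :
    haveI : Fact (q : ℕ).Prime := ⟨q.2⟩
    helper6044.LocTrivAt (q : ℕ) F g⁻¹ c' := by
  haveI : Fact (q : ℕ).Prime := ⟨q.2⟩
  classical
  obtain ⟨u, hup, ⟨E, hE, hEinv⟩, hu⟩ := hc
  haveI := hE
  have hloc : ∀ γ : PadicAlgCl (q : ℕ) ≃ₐ[ℚ_[(q : ℕ)]] PadicAlgCl (q : ℕ),
      helper6044.locHomAt (q : ℕ) g⁻¹ γ = g * primeLocalToGlobal q γ * g⁻¹ := by
    intro γ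
    rw [helper6044.locHomAt_apply, inv_inv]
    rfl
  have hmem : ∀ γ : PadicAlgCl (q : ℕ) ≃ₐ[ℚ_[(q : ℕ)]] PadicAlgCl (q : ℕ),
      γ ∈ placeGroup F q g ↔ helper6044.locHomAt (q : ℕ) g⁻¹ γ ∈ F.fixingSubgroup := by
    intro γ
    rw [hloc]
    exact Iff.rfl
  let x : (PadicAlgCl (q : ℕ) ≃ₐ[ℚ_[(q : ℕ)]] PadicAlgCl (q : ℕ)) → Qbˣ := fun γ =>
    if h : γ ∈ placeGroup F q g then u ⟨γ, h⟩ else 1
  refine helper6044.LocTrivAt.of_global_valued (q : ℕ) x ?_ ?_
  · obtain ⟨K, hK, hKE⟩ := helper6044.exists_local_level (q : ℕ) g⁻¹ (F ⊔ E)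
    refine ⟨K, hK, fun γ s hs => ?_⟩
    have hsF : helper6044.locHomAt (q : ℕ) g⁻¹ s ∈ F.fixingSubgroup :=
      IntermediateField.fixingSubgroup_antitone le_sup_left (hKE s hs)
    have hsE : helper6044.locHomAt (q : ℕ) g⁻¹ s ∈ E.fixingSubgroup :=
      IntermediateField.fixingSubgroup_antitone le_sup_right (hKE s hs)
    have hsP : s ∈ placeGroup F q g := (hmem s).2 hsF
    have hsE' : placeLoc F q g ⟨s, hsP⟩ ∈ E.fixingSubgroup := by
      have h1 : placeLoc F q g ⟨s, hsP⟩ = helper6044.locHomAt (q : ℕ) g⁻¹ s := (hloc s).symm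
      rw [h1]
      exact hsE
    by_cases hγ : γ ∈ placeGroup F q g
    · have hγs : γ * s ∈ placeGroup F q g := by
        refine (hmem _).2 ?_
        rw [map_mul]
        exact mul_mem ((hmem γ).1 hγ) hsF
      have e1 : x (γ * s) = u ⟨γ * s, hγs⟩ := dif_pos hγs
      have e2 : x γ = u ⟨γ, hγ⟩ := dif_pos hγ
      rw [e1, e2]
      exact hEinv ⟨γ, hγ⟩ ⟨s, hsP⟩ hsE'
    · have hγs : γ * s ∉ placeGroup F q g := by
        intro h
        apply hγ
        refine (hmem γ).2 ?_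
        have h5 := (hmem _).1 h
        rw [map_mul] at h5
        exact (Subgroup.mul_mem_cancel_right _ hsF).1 h5
      have e1 : x (γ * s) = 1 := dif_neg hγs
      have e2 : x γ = 1 := dif_neg hγ
      rw [e1, e2]
  · intro γ γ' hγ hγ'
    have hγm : γ ∈ placeGroup F q g := (hmem γ).2 hγ
    have hγm' : γ' ∈ placeGroup F q g := (hmem γ').2 hγ'
    have hmul : γ * γ' ∈ placeGroup F q g := by
      refine (hmem _).2 ?_
      rw [map_mul]
      exact mul_mem hγ hγ'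
    have hx1 : x γ = u ⟨γ, hγm⟩ := dif_pos hγm
    have hx2 : x γ' = u ⟨γ', hγm'⟩ := dif_pos hγm'
    have hx3 : x (γ * γ') = u (⟨γ, hγm⟩ * ⟨γ', hγm'⟩) := dif_pos hmul
    rw [hx1, hx2, hx3, smul_eq_self_of_pow_eq_one hζ hζF hγ _ (hup _)]
    have h2 := hc' (placeHom F q g ⟨γ, hγm⟩) (placeHom F q g ⟨γ', hγm'⟩)
    have h3 : ((placeHom F q g ⟨γ, hγm⟩ : ↥F.fixingSubgroup) : GQ) =
        helper6044.locHomAt (q : ℕ) g⁻¹ γ := (hloc γ).symm
    have h4 : ((placeHom F q g ⟨γ', hγm'⟩ : ↥F.fixingSubgroup) : GQ) =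
        helper6044.locHomAt (q : ℕ) g⁻¹ γ' := (hloc γ').symm
    rw [h3, h4] at h2
    rw [h2, hu, mul_comm, mul_div_right_comm]

/-! ## Extension by one -/

section ExtOne

variable (F : IntermediateField ℚ Qb) (c : ↥F.fixingSubgroup × ↥F.fixingSubgroup → Qbˣ)

open Classical in
/-- The extension by `1` of a 2-cochain on `Gal(ℚ̄/F)` to a whole-group cochain on `G_ℚ`. -/
def extOne : GQ × GQ → Qbˣ := fun x =>
  if h : x.1 ∈ F.fixingSubgroup ∧ x.2 ∈ F.fixingSubgroup then c (⟨x.1, h.1⟩, ⟨x.2, h.2⟩) else 1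

variable {F c}

theorem extOne_apply_of_mem {g h : GQ} (hg : g ∈ F.fixingSubgroup) (hh : h ∈ F.fixingSubgroup) :
    extOne F c (g, h) = c (⟨g, hg⟩, ⟨h, hh⟩) :=
  dif_pos ⟨hg, hh⟩

theorem extOne_apply_of_not_mem {g h : GQ} (hgh : ¬ (g ∈ F.fixingSubgroup ∧ h ∈ F.fixingSubgroup)) :
    extOne F c (g, h) = 1 :=
  dif_neg hgh

@[simp] theorem extOne_coe (a b : ↥F.fixingSubgroup) : extOne F c ((a : GQ), (b : GQ)) = c (a, b) :=
  extOne_apply_of_mem a.2 b.2

/-- `extOne` of a `μ_p`-valued cochain is `μ_p`-valued. -/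
theorem extOne_pow {p : ℕ} (hc : ∀ x, c x ^ p = 1) (x : GQ × GQ) : extOne F c x ^ p = 1 := by
  obtain ⟨g, h⟩ := x
  by_cases hgh : g ∈ F.fixingSubgroup ∧ h ∈ F.fixingSubgroup
  · rw [extOne_apply_of_mem hgh.1 hgh.2]
    exact hc _
  · rw [extOne_apply_of_not_mem hgh, one_pow]

/-- The trivial-action cocycle identity on `Gal(ℚ̄/F)`. -/
theorem extOne_cocycle (hc : ∀ g h k, c (g * h, k) * c (g, h) = c (h, k) * c (g, h * k))
    {g h k : GQ} (hg : g ∈ F.fixingSubgroup) (hh : h ∈ F.fixingSubgroup)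
    (hk : k ∈ F.fixingSubgroup) :
    extOne F c (g * h, k) * extOne F c (g, h) = extOne F c (h, k) * extOne F c (g, h * k) := by
  rw [extOne_apply_of_mem (mul_mem hg hh) hk, extOne_apply_of_mem hg hh,
    extOne_apply_of_mem hh hk, extOne_apply_of_mem hg (mul_mem hh hk)]
  exact hc ⟨g, hg⟩ ⟨h, hh⟩ ⟨k, hk⟩

/-- The multiplicative 2-cocycle identity (Mathlib convention, with the Galois action) on
`Gal(ℚ̄/F)` for a `μ_p`-valued trivial-action cocycle, when `ζ_p ∈ F`. -/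
theorem extOne_mulCocycle {p : ℕ} [Fact p.Prime] {ζ : Qb} (hζ : IsPrimitiveRoot ζ p)
    (hζF : ζ ∈ F) (hμ : ∀ x, c x ^ p = 1)
    (hc : ∀ g h k, c (g * h, k) * c (g, h) = c (h, k) * c (g, h * k))
    {g h k : GQ} (hg : g ∈ F.fixingSubgroup) (hh : h ∈ F.fixingSubgroup)
    (hk : k ∈ F.fixingSubgroup) :
    extOne F c (g * h, k) * extOne F c (g, h) = g • extOne F c (h, k) * extOne F c (g, h * k) := by
  rw [smul_eq_self_of_pow_eq_one hζ hζF hg _ (extOne_pow hμ _)]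
  exact extOne_cocycle hc hg hh hk

/-- Right-invariance of `extOne` under the fixing subgroup of a field containing `F`. -/
theorem extOne_rightInv {L : IntermediateField ℚ Qb} (hFL : F ≤ L)
    (hinv : ∀ g g' s s' : ↥F.fixingSubgroup, (s : GQ) ∈ L.fixingSubgroup →
      (s' : GQ) ∈ L.fixingSubgroup → c (g * s, g' * s') = c (g, g'))
    (g g' s s' : GQ) (hs : s ∈ L.fixingSubgroup) (hs' : s' ∈ L.fixingSubgroup) :
    extOne F c (g * s, g' * s') = extOne F c (g, g') := by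
  have hsF : s ∈ F.fixingSubgroup := IntermediateField.fixingSubgroup_antitone hFL hs
  have hsF' : s' ∈ F.fixingSubgroup := IntermediateField.fixingSubgroup_antitone hFL hs'
  by_cases hgh : g ∈ F.fixingSubgroup ∧ g' ∈ F.fixingSubgroup
  · rw [extOne_apply_of_mem (mul_mem hgh.1 hsF) (mul_mem hgh.2 hsF'),
      extOne_apply_of_mem hgh.1 hgh.2]
    exact hinv ⟨g, hgh.1⟩ ⟨g', hgh.2⟩ ⟨s, hsF⟩ ⟨s', hsF'⟩ hs hs'
  · have hgh' : ¬ (g * s ∈ F.fixingSubgroup ∧ g' * s' ∈ F.fixingSubgroup) := fun h =>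
      hgh ⟨(Subgroup.mul_mem_cancel_right _ hsF).1 h.1,
        (Subgroup.mul_mem_cancel_right _ hsF').1 h.2⟩
    rw [extOne_apply_of_not_mem hgh, extOne_apply_of_not_mem hgh']

/-- `extOne` of a relative `S`-level cochain on `Gal(ℚ̄/F)`, `F` an `S`-field, is `S`-level on
`G_ℚ` in the frozen sense; the level field may be taken to contain `F`. -/
theorem exists_level_extOne {S : Finset Nat.Primes} (hF : F.IsUnramifiedOutside S)
    (hc : IsLevS₂ S F.fixingSubgroup.subtype c) :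
    ∃ L : IntermediateField ℚ Qb, L.IsUnramifiedOutside S ∧ F ≤ L ∧
      ∀ g g' s s' : GQ, s ∈ L.fixingSubgroup → s' ∈ L.fixingSubgroup →
        extOne F c (g * s, g' * s') = extOne F c (g, g') := by
  obtain ⟨L, hL, hinv⟩ := hc
  refine ⟨L ⊔ F, hL.sup hF, le_sup_right, fun g g' s s' hs hs' => ?_⟩
  exact extOne_rightInv (le_sup_right : F ≤ L ⊔ F)
    (fun a a' t t' ht ht' => hinv a a' t t'
      (IntermediateField.fixingSubgroup_antitone le_sup_left ht)
      (IntermediateField.fixingSubgroup_antitone le_sup_left ht')) g g' s s' hs hs'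

theorem isLevelConstantS₂_extOne {S : Finset Nat.Primes} (hF : F.IsUnramifiedOutside S)
    (hc : IsLevS₂ S F.fixingSubgroup.subtype c) : IsLevelConstantS₂ S (extOne F c) := by
  obtain ⟨L, hL, -, hinv⟩ := exists_level_extOne hF hc
  exact ⟨L, hL, hinv⟩

/-- **The frozen (P5) bridge, packaged**: for an `S`-field `F ∋ ζ_p`, a cochain `c` on
`Gal(ℚ̄/F)` which is `MuLocTriv` at every place `(q ∈ S, g)` has `extOne F c` locally trivial (in
the sense of `helper6044.LocTrivAt`) at every place `ι_q ∘ σ`, `q ∈ S`. -/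
theorem locTrivAt_extOne {S : Finset Nat.Primes} {p : ℕ} (hF : IsSFieldZeta S p F)
    (hc : ∀ q ∈ S, ∀ g : GQ, MuLocTriv p F q g c) (q : Nat.Primes) (hq : q ∈ S) (σ : GQ) :
    haveI : Fact (q : ℕ).Prime := ⟨q.2⟩
    helper6044.LocTrivAt (q : ℕ) F σ (extOne F c) := by
  haveI : Fact p.Prime := ⟨hF.prime⟩
  haveI : FiniteDimensional ℚ F := hF.unram.1
  obtain ⟨ζ, hζF, hζ⟩ := hF.zeta
  have h1 := locTrivAt_of_muLocTriv hζ hζF q σ⁻¹ (hc q hq σ⁻¹) (c' := extOne F c)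
    (fun a b => extOne_coe a b)
  rwa [inv_inv] at h1

end ExtOne

end Fermat.Agent.S55.helper9826
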