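import Mathlib
import Fermat.Agent.S55.helper1242_ShaHasse
import Fermat.Agent.S55.helper9826_MuLoc
import Fermat.Agent.S55.helper1168_UnramP4
import Fermat.Agent.S55.helper2999_LayerHasseKummer

/-!
# The cyclic-layer statement and the Hasse step `Stmt_ShaHasse` (S55, NF-GH-HASSE, part 4)

`stmt_LayerNorm : Stmt_LayerNorm` from the local theory (`helper6044.LocTrivAt`: (P1), (P2), (P3),
`helper9826.locTrivAt_extOne` = (P5) at the places over `S`, `helper1168` = (P4) at the places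
outside `S`) and the Hasse norm theorem for a Kummer layer (`helper2999.layer_hasse_kummer`).
Hence `stmt_ShaHasse : helper9826.Stmt_ShaHasse` without hypotheses.
-/

namespace Fermat.Agent.S55.helper1242

open groupCohomology Finset
open Fermat.Agent.S55

local notation "Qb" => AlgebraicClosure ℚ
local notation "GQ" => (AlgebraicClosure ℚ ≃ₐ[ℚ] AlgebraicClosure ℚ)

/-- The kernel of an additive character of `Gal(ℚ̄/K)`, as a subgroup of `G_ℚ`. -/
def charKer {K : IntermediateField ℚ Qb} {p : ℕ} (χ : K.fixingSubgroup → ZMod p)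
    (hχ : ∀ g k, χ (g * k) = χ g + χ k) : Subgroup GQ where
  carrier := {g | ∃ hg : g ∈ K.fixingSubgroup, χ ⟨g, hg⟩ = 0}
  mul_mem' := by
    rintro g k ⟨hg, hg0⟩ ⟨hk, hk0⟩
    refine ⟨K.fixingSubgroup.mul_mem hg hk, ?_⟩
    have := hχ ⟨g, hg⟩ ⟨k, hk⟩
    rw [hg0, hk0, add_zero] at this
    exact this
  one_mem' := by
    refine ⟨K.fixingSubgroup.one_mem, ?_⟩
    have := hχ 1 1
    rw [mul_one] at this
    exact left_eq_add.mp this
  inv_mem' := by
    rintro g ⟨hg, hg0⟩
    refine ⟨K.fixingSubgroup.inv_mem hg, ?_⟩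
    have h1 : χ 1 = 0 := by
      have := hχ 1 1
      rw [mul_one] at this
      exact left_eq_add.mp this
    have := hχ ⟨g⁻¹, K.fixingSubgroup.inv_mem hg⟩ ⟨g, hg⟩
    rw [hg0, add_zero] at this
    rw [← this]
    have e : (⟨g⁻¹, K.fixingSubgroup.inv_mem hg⟩ : K.fixingSubgroup) * ⟨g, hg⟩ = 1 :=
      Subtype.ext (inv_mul_cancel g)
    rw [e, h1]

lemma mem_charKer {K : IntermediateField ℚ Qb} {p : ℕ} {χ : K.fixingSubgroup → ZMod p}
    {hχ : ∀ g k, χ (g * k) = χ g + χ k} {g : GQ} :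
    g ∈ charKer χ hχ ↔ ∃ hg : g ∈ K.fixingSubgroup, χ ⟨g, hg⟩ = 0 := Iff.rfl

/-- **The cyclic-layer statement.** -/
theorem stmt_LayerNorm : Stmt_LayerNorm := by
  intro S p F hF N hFN hN hmap c hμ hc hinv hloc K hFK hKN χ hχ hχ1 s hs a ha h hval hrinv hrel
  classical
  have hpr : Fact p.Prime := ⟨hF.prime⟩
  have hp0 : NeZero p := ⟨hF.prime.ne_zero⟩
  have hgal : IsGalois ℚ Qb := isGalois_algebraicClosure_rat
  obtain ⟨ζ, hζF, hζ⟩ := hF.zeta
  have hfinN : FiniteDimensional ℚ N := hN.1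
  have hfinK : FiniteDimensional ℚ K := (hN.of_le hKN).1
  have hNK : N.fixingSubgroup ≤ K.fixingSubgroup := IntermediateField.fixingSubgroup_antitone hKN
  have hKF : K.fixingSubgroup ≤ F.fixingSubgroup := IntermediateField.fixingSubgroup_antitone hFK
  -- the layer field
  have hNW : N.fixingSubgroup ≤ charKer χ hχ := fun u hu => ⟨hNK hu, hχ1 ⟨u, hNK hu⟩ hu⟩
  have hWclosed : IsClosed (charKer χ hχ : Set GQ) :=
    Subgroup.isClosed_of_isOpen _
      (Subgroup.isOpen_mono hNW (IntermediateField.fixingSubgroup_isOpen N))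
  obtain ⟨E, hEfix⟩ : ∃ E : IntermediateField ℚ Qb, E.fixingSubgroup = charKer χ hχ :=
    ⟨_, InfiniteGalois.fixingSubgroup_fixedField ⟨charKer χ hχ, hWclosed⟩⟩
  have hEN : E ≤ N := by
    intro x hx
    refine helper2999.mem_of_fixed N (fun g hg => ?_)
    have : g ∈ E.fixingSubgroup := by rw [hEfix]; exact hNW hg
    exact (IntermediateField.mem_fixingSubgroup_iff _ _).1 this x hx
  have hfinE : FiniteDimensional ℚ E := (hN.of_le hEN).1
  have hEK : E.fixingSubgroup ≤ K.fixingSubgroup := by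
    rw [hEfix]
    rintro g ⟨hg, -⟩
    exact hg
  -- the carry lift
  let X : GQ → ℕ := fun g => if hg : g ∈ K.fixingSubgroup then (χ ⟨g, hg⟩).val else 0
  have hXmem : ∀ (g : GQ) (hg : g ∈ K.fixingSubgroup), X g = (χ ⟨g, hg⟩).val :=
    fun g hg => dif_pos hg
  have hX : helper6044.IsCarryLift K.fixingSubgroup p X := by
    refine ⟨fun g => ?_, fun g k hg hk => ?_⟩
    · by_cases hg : g ∈ K.fixingSubgroup
      · rw [hXmem g hg]
        exact ZMod.val_lt _
      · show (dite _ _ _ : ℕ) < p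
        rw [dif_neg hg]
        exact hF.prime.pos
    · rw [hXmem _ (K.fixingSubgroup.mul_mem hg hk), hXmem g hg, hXmem k hk, ← ZMod.val_add]
      exact congrArg ZMod.val (hχ ⟨g, hg⟩ ⟨k, hk⟩)
  have hE : ∀ g : GQ, g ∈ K.fixingSubgroup → (X g = 0 ↔ g ∈ E.fixingSubgroup) := by
    intro g hg
    rw [hEfix, hXmem g hg, ZMod.val_eq_zero]
    exact ⟨fun h0 => ⟨hg, h0⟩, fun ⟨_, h0⟩ => h0⟩
  have hXs : X (s : GQ) = 1 := by
    rw [hXmem _ s.2]
    have : (⟨(s : GQ), s.2⟩ : K.fixingSubgroup) = s := rfl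
    rw [this, hs]
    have h1p : Fact (1 < p) := ⟨hF.prime.one_lt⟩
    exact ZMod.val_one p
  have hcyc : helper2999.IsCyclicLayer p K E (s : GQ) :=
    helper2999.isCyclicLayer_of_carryLift hX hE hEK s.2 hXs
  -- the carry cochain and the extensions to the whole group
  let C : GQ × GQ → Qbˣ := fun x => a ^ ((X x.1 + X x.2) / p)
  let h' : GQ → Qbˣ := fun g => if hg : g ∈ K.fixingSubgroup then h ⟨g, hg⟩ else 1
  have hh'mem : ∀ (g : GQ) (hg : g ∈ K.fixingSubgroup), h' g = h ⟨g, hg⟩ := fun g hg => dif_pos hg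
  have hh'lev : ∃ E' : IntermediateField ℚ Qb, FiniteDimensional ℚ E' ∧
      ∀ g t : GQ, t ∈ E'.fixingSubgroup → h' (g * t) = h' g := by
    refine ⟨N, hfinN, fun g t ht => ?_⟩
    by_cases hg : g ∈ K.fixingSubgroup
    · rw [hh'mem _ (K.fixingSubgroup.mul_mem hg (hNK ht)), hh'mem g hg]
      exact hrinv ⟨g, hg⟩ ⟨t, hNK ht⟩ ht
    · have hgt : g * t ∉ K.fixingSubgroup := fun hgt =>
        hg ((Subgroup.mul_mem_cancel_right _ (hNK ht)).1 hgt)
      show (dite _ _ _ : Qbˣ) = dite _ _ _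
      rw [dif_neg hg, dif_neg hgt]
  have hb : ∀ g : GQ, g ∈ K.fixingSubgroup → g • a = a := by
    intro g hg
    apply Units.ext
    exact (IntermediateField.mem_fixingSubgroup_iff _ _).1 hg _ ha
  have hCrel : ∀ g k : GQ, g ∈ K.fixingSubgroup → k ∈ K.fixingSubgroup →
      C (g, k) = helper9826.extOne F c (g, k) * (g • h' k / h' (g * k) * h' g) := by
    intro g k hg hk
    have e := hrel ⟨g, hg⟩ ⟨k, hk⟩
    rw [helper9826.extOne_apply_of_mem (hKF hg) (hKF hk), hh'mem k hk, hh'mem g hg,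
      hh'mem _ (K.fixingSubgroup.mul_mem hg hk)]
    show a ^ ((X g + X k) / p) = _
    rw [hXmem g hg, hXmem k hk]
    exact e
  -- the values of `c` lie in `F`
  have hcF : ∀ x, ((c x : Qbˣ) : Qb) ∈ F := by
    intro x
    have hx' : ((c x : Qbˣ) : Qb) ^ p = 1 := by
      rw [← Units.val_pow_eq_pow_val, hμ x, Units.val_one]
    obtain ⟨i, -, hi⟩ := hζ.eq_pow_of_pow_eq_one hx'
    rw [← hi]
    exact pow_mem hζF i
  have hNn : ∀ g : GQ, ∀ x ∈ N, g x ∈ N := by
    intro g x hx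
    have : g x ∈ N.map (g : Qb →ₐ[ℚ] Qb) := ⟨x, hx, rfl⟩
    rwa [hmap g] at this
  -- local triviality of the carry cochain at every place
  have hlocC : ∀ (q : ℕ) [Fact q.Prime] (σ : GQ), helper6044.LocTrivAt q K σ C := by
    intro q hq σ
    have h1 : helper6044.LocTrivAt q F σ (helper9826.extOne F c) := by
      by_cases hqS : (⟨q, hq.out⟩ : Nat.Primes) ∈ S
      · exact helper9826.locTrivAt_extOne hF hloc ⟨q, hq.out⟩ hqS σ
      · refine helper1168.locTrivAt_of_unramified_of_pow_eq_one hqS hFN hN hNn σ _ ?_ ?_ ?_ p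
          hF.prime.ne_zero (fun g k _ _ => helper9826.extOne_pow hμ _)
        · intro g k j hg hk hj
          rw [helper9826.extOne_apply_of_mem (F.fixingSubgroup.mul_mem hg hk) hj,
            helper9826.extOne_apply_of_mem hg hk, helper9826.extOne_apply_of_mem hk hj,
            helper9826.extOne_apply_of_mem hg (F.fixingSubgroup.mul_mem hk hj)]
          exact hc ⟨g, hg⟩ ⟨k, hk⟩ ⟨j, hj⟩
        · intro g k u t _ _ hu ht
          exact helper9826.extOne_rightInv hFN hinv g k u t hu ht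
        · intro g k hg hk
          rw [helper9826.extOne_apply_of_mem hg hk]
          exact hFN (hcF _)
    have h2 : helper6044.LocTrivAt q K σ (helper9826.extOne F c) :=
      helper6044.LocTrivAt.mono q hFK h1
    exact helper6044.LocTrivAt.mul_coboundary q h' hh'lev hCrel h2
  have hgen : ∀ (q : ℕ) [Fact q.Prime] (g : GQ), helper2999.LocNormGen q p g K E (a : Qb) := by
    intro q hq g
    have := helper2999.locNormGen_of_locTrivAt q hX hE hEK a hb (c := C)
      (fun _ _ _ _ => rfl) g⁻¹ (hlocC q g⁻¹)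
    rwa [inv_inv] at this
  obtain ⟨y, hyE, hy0, hyprod⟩ := helper2999.layer_hasse_kummer hcyc hF.odd hζ (hFK hζF)
    (a : Qb) ha a.ne_zero hgen
  refine ⟨y, hy0, fun n hn => ?_, hyprod⟩
  have hnE : (n : GQ) ∈ E.fixingSubgroup := by
    rw [hEfix]
    exact ⟨n.2, hn⟩
  exact (IntermediateField.mem_fixingSubgroup_iff _ _).1 hnE y hyE

/-- **The Hasse step `Ш²(G_{F,S}, μ_p) ⊆ K(F)`**, without hypotheses. -/
theorem stmt_ShaHasse : helper9826.Stmt_ShaHasse :=
  stmt_ShaHasse_of_layerNorm stmt_LayerNorm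

/-- **(G-H), kernel form**, without hypotheses: every class of `Ш²_S(F, 𝔽_p)` is represented by a
cocycle `c` with `ζ ^ c` the coboundary of a `ℚ̄ˣ`-valued `S`-level cochain. -/
theorem stmt_GH : helper1919.Stmt_GH := helper9826.stmt_GH_of stmt_ShaHasse

/-- Finiteness of `Ш²_S(F, 𝔽_p)`, without hypotheses. -/
theorem stmt_FieldSha2Fin : helper1702.Stmt_FieldSha2Fin :=
  helper9826.stmt_FieldSha2Fin_of stmt_ShaHasse

/-- The lower count `a₂ + r₂ + s ≤ h¹` (doubled) of the number-field core, without hypotheses. -/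
theorem stmt_FieldLower : helper3071.Stmt_FieldLower :=
  helper9826.stmt_FieldLower_of stmt_ShaHasse

end Fermat.Agent.S55.helper1242
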