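import Mathlib
import Fermat.Prelude.Def_GroupCohomology_ContinuousUnramified
import Fermat.Agent.S55.helper3071_GlobalBridge

/-!
# S55 GLOBAL BRIDGE, proved transports (helper3071)

Hypothesis-passing consequences of the Props of `helper3071_GlobalBridge` on the frozen
carriers `continuousH1S / continuousH2S / sha₂ S (indRep p F)`:

* `finrank_invariants_indRep` : `h⁰(coind_F 𝔽_p) = 1` (no hypothesis);
* `Sh1.finrank_eq`, `Sh1.finite`, `Sh2.finrank_eq`, `Sh2.finite`, `Sh2.finrank_sha₂_le`;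
* `fieldLower_indRep` (T-E), `fieldGE_indRep` (T-GC; the quotient is `helper2945.r2`);
* `fieldH1EquivChars` : `H¹` of the field as `S`-level additive characters.
-/

set_option autoImplicit false
set_option maxHeartbeats 400000
set_option synthInstance.maxHeartbeats 400000

open CategoryTheory groupCohomology ExtCitation

noncomputable section

namespace Fermat.Agent.S55.helper3071

/-! ## Proved transports to the frozen carriers -/

section Transports

variable (S : Finset Nat.Primes) (p : ℕ) (F : IntermediateField ℚ (AlgebraicClosure ℚ))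

/-- The invariants of `coind_{G_F}^{G_ℚ} 𝔽_p` are the constant functions. -/
def invariantsIndRepEquiv :
    (indRep p F).ρ.invariants ≃ₗ[ZMod p] ZMod p where
  toFun f := (f : Representation.coindV F.fixingSubgroup.subtype (trivF p F).ρ).1 1
  map_add' _ _ := rfl
  map_smul' _ _ := rfl
  invFun c := ⟨⟨fun _ => c, fun _ _ => rfl⟩, fun _ => rfl⟩
  left_inv f := by
    apply Subtype.ext
    apply Subtype.ext
    funext x
    have h := congrArg (fun φ : Representation.coindV F.fixingSubgroup.subtype (trivF p F).ρ =>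
      φ.1 1) (f.2 x)
    have h' : (f : Representation.coindV F.fixingSubgroup.subtype (trivF p F).ρ).1 (1 * x) =
        (f : Representation.coindV F.fixingSubgroup.subtype (trivF p F).ρ).1 1 := h
    rw [one_mul] at h'
    exact h'.symm
  right_inv _ := rfl

/-- `h⁰(G_ℚ, coind_F 𝔽_p) = 1`. -/
theorem finrank_invariants_indRep (hp : p.Prime) :
    Module.finrank (ZMod p) (indRep p F).ρ.invariants = 1 := by
  have : Fact p.Prime := ⟨hp⟩
  rw [(invariantsIndRepEquiv p F).finrank_eq, Module.finrank_self]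

variable {S p F}

theorem Sh1.finrank_eq (h : Sh1 S p F) :
    Module.finrank (ZMod p) (continuousH1S S (indRep p F)) =
      Module.finrank (ZMod p) (fieldH1 S p F) := by
  obtain ⟨e⟩ := h
  exact e.finrank_eq

theorem Sh1.finite (h : Sh1 S p F) (hfin : FieldFin S p F) :
    Module.Finite (ZMod p) (continuousH1S S (indRep p F)) := by
  obtain ⟨e⟩ := h
  have := hfin.1
  exact Module.Finite.equiv e.symm

theorem Sh2.finrank_eq (h : Sh2 S p F) :
    Module.finrank (ZMod p) (continuousH2S S (indRep p F)) =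
      Module.finrank (ZMod p) (fieldH2 S p F) := by
  obtain ⟨Φ, -⟩ := h
  exact Φ.finrank_eq

theorem Sh2.finite (h : Sh2 S p F) (hfin : FieldFin S p F) :
    Module.Finite (ZMod p) (continuousH2S S (indRep p F)) := by
  obtain ⟨Φ, -⟩ := h
  have := hfin.2
  exact Module.Finite.equiv Φ.symm

/-- `dim Ш²_S(coind_F 𝔽_p) ≤ dim Ш²_S(F, 𝔽_p)`. -/
theorem Sh2.finrank_sha₂_le (hp : p.Prime) (h : Sh2 S p F) (hfin : FieldFin S p F) :
    Module.finrank (ZMod p) (sha₂ S (indRep p F)) ≤
      Module.finrank (ZMod p) (fieldSha2 S p F) := by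
  have : Fact p.Prime := ⟨hp⟩
  obtain ⟨Φ, hΦ⟩ := h
  have := hfin.2
  let ψ : sha₂ S (indRep p F) →ₗ[ZMod p] fieldSha2 S p F :=
    (Φ.toLinearMap.comp (sha₂ S (indRep p F)).subtype).codRestrict (fieldSha2 S p F)
      fun x => hΦ x x.2
  refine LinearMap.finrank_le_finrank_of_injective (f := ψ) ?_
  intro x y hxy
  apply Subtype.ext
  apply Φ.injective
  exact congrArg Subtype.val hxy

/-- **(T-E)** The field count on the frozen carriers:
`2 (a₂(A_F) + s) + [F:ℚ] ≤ 2 h¹_S(A_F)` for `A_F = coind_F 𝔽_p`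
(`(E1)+(E2)` of the base case `E*(A_F) ≤ 0`, `c`-free). -/
theorem fieldLower_indRep (hp : p.Prime) (h1 : Sh1 S p F) (h2 : Sh2 S p F)
    (hfin : FieldFin S p F) (hlow : FieldLower S p F) :
    2 * (Module.finrank (ZMod p) (sha₂ S (indRep p F)) + nPl S F) + Module.finrank ℚ F ≤
      2 * Module.finrank (ZMod p) (continuousH1S S (indRep p F)) := by
  have ha := h2.finrank_sha₂_le hp hfin
  have hb := h1.finrank_eq
  unfold FieldLower at hlow
  omega

/-- The surjection `H²_S(A_F) ⧸ Ш² ↠ H²(G_{F,S}) ⧸ Ш²` gives the rank comparison. -/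
theorem Sh2.finrank_quotient_le (hp : p.Prime) (h : Sh2 S p F) (hfin : FieldFin S p F) :
    Module.finrank (ZMod p) (fieldH2 S p F ⧸ fieldSha2 S p F) ≤
      Module.finrank (ZMod p) (continuousH2S S (indRep p F) ⧸ sha₂ S (indRep p F)) := by
  have : Fact p.Prime := ⟨hp⟩
  have := h.finite hfin
  obtain ⟨Φ, hΦ⟩ := h
  let ψ : (continuousH2S S (indRep p F) ⧸ sha₂ S (indRep p F)) →ₗ[ZMod p]
      (fieldH2 S p F ⧸ fieldSha2 S p F) :=
    Submodule.mapQ _ _ Φ.toLinearMap fun x hx => hΦ x hx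
  refine LinearMap.finrank_le_finrank_of_surjective (f := ψ) ?_
  intro y
  obtain ⟨y, rfl⟩ := Submodule.mkQ_surjective _ y
  exact ⟨Submodule.Quotient.mk (Φ.symm y), by simp [ψ]⟩

/-- **(T-GC)**: `s ≤ dim (H²_S(A_F) ⧸ Ш²_S(A_F)) + 1` (the quotient is the rank `r₂` of the
localisation map, `helper2945.r2`). -/
theorem fieldGE_indRep (hp : p.Prime) (h2 : Sh2 S p F) (hfin : FieldFin S p F)
    (hge : FieldGE S p F) :
    nPl S F ≤
      Module.finrank (ZMod p) (continuousH2S S (indRep p F) ⧸ sha₂ S (indRep p F)) + 1 :=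
  hge.trans (Nat.add_le_add_right (h2.finrank_quotient_le hp hfin) 1)

end Transports

/-! ## `H¹` of the field as `S`-level characters -/

section Characters

variable (S : Finset Nat.Primes) (p : ℕ) (F : IntermediateField ℚ (AlgebraicClosure ℚ))

/-- The `S`-level additive characters `Gal(ℚ̄/F) → ZMod p`. -/
def fieldChars : Submodule (ZMod p) (↥F.fixingSubgroup → ZMod p) :=
  cocycles₁ (trivF p F) ⊓ levS₁ S F.fixingSubgroup.subtype (trivF p F)

lemma mem_fieldChars_iff (χ : ↥F.fixingSubgroup → ZMod p) :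
    χ ∈ fieldChars S p F ↔
      (∀ g h : ↥F.fixingSubgroup, χ (g * h) = χ g + χ h) ∧
        IsLevS₁ S F.fixingSubgroup.subtype χ := by
  change χ ∈ cocycles₁ (trivF p F) ∧ IsLevS₁ S F.fixingSubgroup.subtype χ ↔ _
  rw [mem_cocycles₁_iff]
  refine and_congr_left fun _ => forall₂_congr fun g h => ?_
  rw [add_comm (χ g)]
  rfl

/-- The class of a character. -/
def fieldCharsToH1 : fieldChars S p F →ₗ[ZMod p] fieldH1 S p F where
  toFun χ := ⟨(H1π (trivF p F)).hom ⟨χ.1, χ.2.1⟩,
    (mem_relH1S_iff S _ _ _).2 ⟨⟨χ.1, χ.2.1⟩, χ.2.2, rfl⟩⟩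
  map_add' χ χ' := by
    apply Subtype.ext
    exact map_add (H1π (trivF p F)).hom ⟨χ.1, χ.2.1⟩ ⟨χ'.1, χ'.2.1⟩
  map_smul' c χ := by
    apply Subtype.ext
    exact map_smul (H1π (trivF p F)).hom c ⟨χ.1, χ.2.1⟩

lemma fieldCharsToH1_bijective : Function.Bijective (fieldCharsToH1 S p F) := by
  constructor
  · rw [← LinearMap.ker_eq_bot, LinearMap.ker_eq_bot']
    intro χ hχ
    have h0 : (H1π (trivF p F)).hom ⟨χ.1, χ.2.1⟩ = 0 := congrArg Subtype.val hχ
    have h1 := (H1π_eq_zero_iff (A := trivF p F) ⟨χ.1, χ.2.1⟩).1 h0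
    rw [coboundaries₁_eq_bot_of_isTrivial] at h1
    apply Subtype.ext
    exact h1
  · rintro ⟨x, hx⟩
    obtain ⟨c, hc, rfl⟩ := (mem_relH1S_iff S _ _ _).1 hx
    exact ⟨⟨c.1, c.2, hc⟩, rfl⟩

/-- `H¹(G_{F,S}, 𝔽_p)` is the space of `S`-level additive characters of `Gal(ℚ̄/F)`. -/
def fieldH1EquivChars : fieldChars S p F ≃ₗ[ZMod p] fieldH1 S p F :=
  LinearEquiv.ofBijective (fieldCharsToH1 S p F) (fieldCharsToH1_bijective S p F)

end Characters

end Fermat.Agent.S55.helper3071
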