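/-
S55 (Poitou–Tate), GLOBAL BRIDGE: the MACKEY COUNT for the induced module (helper1127).

For an `S`-field `F` and `N = coind_{G_F}^{G_ℚ} 𝔽_p` (`helper3071.indRep p F`):
`π₂(N) = ∑_{q ∈ S} dim H²(ℚ_q, N) ≤ #{places of F over S}` (`helper3071.nPl S F`), from the local
(L2) package `helper665.Stmt_LocalL2`.
-/
import Mathlib
import Fermat.Prelude.Def_GroupCohomology_ContinuousUnramified
import Fermat.Agent.S55.helper3071_GlobalBridge
import Fermat.Agent.S55.helper3071_GBTransport
import Fermat.Agent.S55.helper665_L2Num
import Fermat.Agent.S55.helper4727_PlacesOrbits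
import Fermat.Agent.S55.helper4039_SModField
import Fermat.Agent.S55.helper62_GBShapiro

set_option autoImplicit false

namespace Fermat.Agent.S55.helper1127

open CategoryTheory groupCohomology ExtCitation Module
open scoped IntermediateField

/-! ### Abstract part: `coind_H^G k` as functions on the right cosets -/

section Abstract

variable {k : Type*} [Field k] {G : Type*} [Group G] (H : Subgroup G)
  (σ : Representation k ↥H k) (hσ : ∀ (h : ↥H) (x : k), σ h x = x)

/-- The class of `h * x` in `H \ G` is the class of `x`. -/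
lemma rightCoset_mk_mul (h : G) (hh : h ∈ H) (x : G) :
    (Quotient.mk'' (h * x) : Quotient (QuotientGroup.rightRel H)) = Quotient.mk'' x := by
  apply Quotient.sound'
  rw [QuotientGroup.rightRel_apply]
  have : x * (h * x)⁻¹ = h⁻¹ := by group
  rw [this]
  exact H.inv_mem hh

lemma rightCoset_mk_eq_iff (z x g : G) :
    (Quotient.mk'' z : Quotient (QuotientGroup.rightRel H)) = Quotient.mk'' (x * g⁻¹) ↔
      (Quotient.mk'' (z * g) : Quotient (QuotientGroup.rightRel H)) = Quotient.mk'' x := by
  rw [Quotient.eq'', Quotient.eq'', QuotientGroup.rightRel_apply, QuotientGroup.rightRel_apply,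
    mul_inv_rev, mul_assoc]

include hσ in
lemma coindV_apply_mul (f : ↥(Representation.coindV H.subtype σ)) (h : G) (hh : h ∈ H) (x : G) :
    (f : G → k) (h * x) = (f : G → k) x := by
  have := f.2 ⟨h, hh⟩ x
  rw [hσ] at this
  exact this

/-- A coinduced function as a function on the right cosets `H \ G`. -/
def cosetEquiv : ↥(Representation.coindV H.subtype σ) ≃ₗ[k]
    (Quotient (QuotientGroup.rightRel H) → k) where
  toFun f c := Quotient.liftOn' c (f : G → k) (fun a b hab => by
    have hab' : b * a⁻¹ ∈ H := QuotientGroup.rightRel_apply.1 hab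
    have := coindV_apply_mul H σ hσ f (b * a⁻¹) hab' a
    rw [inv_mul_cancel_right] at this
    exact this.symm)
  map_add' f g := by
    funext c
    induction c using Quotient.inductionOn' with
    | h a => rfl
  map_smul' t f := by
    funext c
    induction c using Quotient.inductionOn' with
    | h a => rfl
  invFun φ := ⟨fun x => φ (Quotient.mk'' x), fun h x => by
    rw [hσ]
    exact congrArg φ (rightCoset_mk_mul H h.1 h.2 x)⟩
  left_inv f := Subtype.ext (funext fun x => rfl)
  right_inv φ := by
    funext c
    induction c using Quotient.inductionOn' with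
    | h a => rfl

@[simp] lemma cosetEquiv_apply_mk (f : ↥(Representation.coindV H.subtype σ)) (x : G) :
    cosetEquiv H σ hσ f (Quotient.mk'' x) = (f : G → k) x := rfl

@[simp] lemma cosetEquiv_symm_apply (φ : Quotient (QuotientGroup.rightRel H) → k) (x : G) :
    (((cosetEquiv H σ hσ).symm φ : ↥(Representation.coindV H.subtype σ)) : G → k) x
      = φ (Quotient.mk'' x) := rfl

lemma coind_apply_apply (g : G) (f : ↥(Representation.coindV H.subtype σ)) (x : G) :
    ((Representation.coind H.subtype σ g f : ↥(Representation.coindV H.subtype σ)) : G → k) x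
      = (f : G → k) (x * g) := rfl

/-- The right cosets of a finite-index subgroup are finitely many. -/
lemma finite_rightCosets [H.FiniteIndex] : Finite (Quotient (QuotientGroup.rightRel H)) :=
  Finite.of_equiv _ (QuotientGroup.quotientRightRelEquivQuotientLeftRel H).symm

/-- The double cosets `H \ G / K` of a finite-index subgroup `H` are finitely many. -/
lemma finite_doubleCosets [H.FiniteIndex] (K : Subgroup G) :
    Finite (DoubleCoset.Quotient (H : Set G) (K : Set G)) := by
  have := finite_rightCosets H
  refine Finite.of_surjective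
    (fun c : Quotient (QuotientGroup.rightRel H) =>
      Quotient.liftOn' c (DoubleCoset.mk H K) (fun a b hab => ?_)) ?_
  · have hab' : b * a⁻¹ ∈ H := QuotientGroup.rightRel_apply.1 hab
    exact (DoubleCoset.eq H K a b).2 ⟨b * a⁻¹, hab', 1, K.one_mem, by group⟩
  · intro c
    induction c using Quotient.inductionOn' with
    | h a => exact ⟨Quotient.mk'' a, rfl⟩

include hσ in
open Classical in
/-- **Abstract Mackey count.** Let `H ≤ G` have finite index and let `W` be a space of linear
functionals on `coind_H^G k` which are semi-invariant under a group `D` acting through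
`r : D →* G` (`l (d • f) = ψ d * l f`).  Then `dim W ≤ #(H \ G / r(D))`: such a functional is
determined by its values on the indicator functions of a system of representatives of the
double cosets. -/
theorem finrank_le_card_doubleCoset [H.FiniteIndex] {D : Type*} [Group D] (r : D →* G)
    (ψ : D → k) {W : Type*} [AddCommGroup W] [Module k W]
    (j : W →ₗ[k] Module.Dual k ↥(Representation.coindV H.subtype σ))
    (hj : Function.Injective j)
    (hW : ∀ (w : W) (d : D) (f : ↥(Representation.coindV H.subtype σ)),
      j w (Representation.coind H.subtype σ (r d) f) = ψ d * j w f) :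
    Module.finrank k W ≤ Nat.card (DoubleCoset.Quotient (H : Set G) (r.range : Set G)) := by
  have := finite_rightCosets H
  have := finite_doubleCosets H r.range
  cases nonempty_fintype (DoubleCoset.Quotient (H : Set G) (r.range : Set G))
  set e := cosetEquiv H σ hσ with he
  -- the evaluation at the indicator functions of the representatives
  let ev : W →ₗ[k] (DoubleCoset.Quotient (H : Set G) (r.range : Set G) → k) :=
    { toFun := fun w i => j w (e.symm (Pi.single (Quotient.mk'' (Quotient.out i)) 1))
      map_add' := fun w w' => by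
        funext i
        simp only [map_add, LinearMap.add_apply, Pi.add_apply]
      map_smul' := fun t w => by
        funext i
        simp only [map_smul, LinearMap.smul_apply, Pi.smul_apply, RingHom.id_apply] }
  have hev : Function.Injective ev := by
    rw [← LinearMap.ker_eq_bot, LinearMap.ker_eq_bot']
    intro w hw
    apply hj
    rw [map_zero]
    have hw' : ∀ i, j w (e.symm (Pi.single (Quotient.mk'' (Quotient.out i)) 1)) = 0 :=
      fun i => congrFun hw i
    -- reduce to the indicator functions
    have hμ : (j w) ∘ₗ e.symm.toLinearMap = 0 := by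
      apply LinearMap.pi_ext'
      intro c
      apply LinearMap.ext_ring
      simp only [LinearMap.comp_apply, LinearMap.coe_single, LinearEquiv.coe_coe,
        LinearMap.zero_comp, LinearMap.zero_apply]
      induction c using Quotient.inductionOn' with
      | h x =>
        obtain ⟨h, k', hh, ⟨d, rfl⟩, hout⟩ := DoubleCoset.mk_out_eq_mul H r.range x
        have hx : (Quotient.mk'' x : Quotient (QuotientGroup.rightRel H))
            = Quotient.mk'' ((Quotient.out (DoubleCoset.mk H r.range x)) * (r d)⁻¹) := by
          rw [hout]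
          have : h * x * r d * (r d)⁻¹ = h * x := by group
          rw [this, rightCoset_mk_mul H h hh x]
        have hρ : e.symm (Pi.single (Quotient.mk'' x) (1 : k))
            = Representation.coind H.subtype σ (r d)
                (e.symm (Pi.single (Quotient.mk'' (Quotient.out (DoubleCoset.mk H r.range x))) 1)) := by
          apply Subtype.ext
          funext z
          rw [coind_apply_apply, he, cosetEquiv_symm_apply, cosetEquiv_symm_apply, hx,
            Pi.single_apply, Pi.single_apply]
          congr 1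
          exact propext (rightCoset_mk_eq_iff H z _ (r d))
        rw [hρ, hW, hw', mul_zero]
    apply LinearMap.ext
    intro f
    have := LinearMap.congr_fun hμ (e f)
    simpa using this
  calc Module.finrank k W
      ≤ Module.finrank k (DoubleCoset.Quotient (H : Set G) (r.range : Set G) → k) :=
        LinearMap.finrank_le_finrank_of_injective hev
    _ = Nat.card (DoubleCoset.Quotient (H : Set G) (r.range : Set G)) := by
        rw [Module.finrank_fintype_fun_eq_card, Nat.card_eq_fintype_card]

/-- Right multiplication by `g` on the right cosets `H \ G`. -/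
def rightCosetMulRight (g : G) : Equiv.Perm (Quotient (QuotientGroup.rightRel H)) where
  toFun := Quotient.map' (· * g) (fun a b hab => by
    rw [QuotientGroup.rightRel_apply] at hab ⊢
    have : b * g * (a * g)⁻¹ = b * a⁻¹ := by group
    rw [this]
    exact hab)
  invFun := Quotient.map' (· * g⁻¹) (fun a b hab => by
    rw [QuotientGroup.rightRel_apply] at hab ⊢
    have : b * g⁻¹ * (a * g⁻¹)⁻¹ = b * a⁻¹ := by group
    rw [this]
    exact hab)
  left_inv c := by
    induction c using Quotient.inductionOn' with
    | h a =>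
      show (Quotient.mk'' (a * g * g⁻¹) : Quotient (QuotientGroup.rightRel H)) = Quotient.mk'' a
      rw [mul_inv_cancel_right]
  right_inv c := by
    induction c using Quotient.inductionOn' with
    | h a =>
      show (Quotient.mk'' (a * g⁻¹ * g) : Quotient (QuotientGroup.rightRel H)) = Quotient.mk'' a
      rw [inv_mul_cancel_right]

@[simp] lemma rightCosetMulRight_mk (g x : G) :
    rightCosetMulRight H g (Quotient.mk'' x) = Quotient.mk'' (x * g) := rfl

include hσ in
open Classical in
/-- **A semi-invariant functional on `coind_H^G k`.** If `χ` is trivial on the finite-index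
subgroup `H`, then `f ↦ ∑_{c ∈ H \ G} χ(c)⁻¹ f(c)` is a nonzero functional `l` with
`l (g • f) = χ g * l f`. -/
theorem exists_semiinvariant [H.FiniteIndex] (χ : G →* kˣ) (hχ : ∀ h ∈ H, χ h = 1) :
    ∃ l : Module.Dual k ↥(Representation.coindV H.subtype σ), l ≠ 0 ∧
      ∀ (g : G) (f : ↥(Representation.coindV H.subtype σ)),
        l (Representation.coind H.subtype σ g f) = (χ g : k) * l f := by
  have := finite_rightCosets H
  cases nonempty_fintype (Quotient (QuotientGroup.rightRel H))
  set e := cosetEquiv H σ hσ with he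
  let χinv : Quotient (QuotientGroup.rightRel H) → k := fun c =>
    Quotient.liftOn' c (fun x => (((χ x)⁻¹ : kˣ) : k)) (fun a b hab => by
      have hab' : b * a⁻¹ ∈ H := QuotientGroup.rightRel_apply.1 hab
      have h1 : χ b = χ a := by
        have h2 := hχ _ hab'
        rw [map_mul, map_inv, mul_inv_eq_one] at h2
        exact h2
      show (((χ a)⁻¹ : kˣ) : k) = (((χ b)⁻¹ : kˣ) : k)
      rw [h1])
  have hχinv : ∀ x : G, χinv (Quotient.mk'' x) = (((χ x)⁻¹ : kˣ) : k) := fun x => rfl
  let l : Module.Dual k ↥(Representation.coindV H.subtype σ) :=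
    ∑ c : Quotient (QuotientGroup.rightRel H), χinv c • ((LinearMap.proj c) ∘ₗ e.toLinearMap)
  have hl : ∀ f, l f = ∑ c : Quotient (QuotientGroup.rightRel H), χinv c * e f c := by
    intro f
    simp only [l, LinearMap.sum_apply, LinearMap.smul_apply, LinearMap.comp_apply,
      LinearMap.proj_apply, LinearEquiv.coe_coe, smul_eq_mul]
  refine ⟨l, ?_, ?_⟩
  · intro h0
    have h1 : l (e.symm (Pi.single (Quotient.mk'' 1) 1)) = 1 := by
      rw [hl, LinearEquiv.apply_symm_apply]
      simp only [Pi.single_apply, mul_ite, mul_one, mul_zero, Finset.sum_ite_eq',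
        Finset.mem_univ, if_true]
      rw [hχinv, map_one, inv_one, Units.val_one]
    rw [h0, LinearMap.zero_apply] at h1
    exact zero_ne_one h1
  · intro g f
    rw [hl, hl, Finset.mul_sum,
      ← Equiv.sum_comp (rightCosetMulRight H g) (fun c => (χ g : k) * (χinv c * e f c))]
    refine Finset.sum_congr rfl fun c _ => ?_
    induction c using Quotient.inductionOn' with
    | h x =>
      have hg : ((χ g : kˣ) : k) * (((χ g)⁻¹ : kˣ) : k) = 1 := by
        rw [← Units.val_mul, mul_inv_cancel, Units.val_one]
      rw [rightCosetMulRight_mk, hχinv, hχinv, he, cosetEquiv_apply_mk, cosetEquiv_apply_mk,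
        coind_apply_apply, map_mul, mul_inv, Units.val_mul]
      rw [show ((χ g : kˣ) : k) * ((((χ x)⁻¹ : kˣ) : k) * (((χ g)⁻¹ : kˣ) : k) * (f : G → k) (x * g))
          = (((χ g : kˣ) : k) * (((χ g)⁻¹ : kˣ) : k)) * ((((χ x)⁻¹ : kˣ) : k) * (f : G → k) (x * g))
          by ring, hg, one_mul]

end Abstract

/-! ### The induced module `coind_{G_F}^{G_ℚ} 𝔽_p` on the frozen carriers -/

section Concrete

local notation "GQ" => (AlgebraicClosure ℚ ≃ₐ[ℚ] AlgebraicClosure ℚ)

variable {p : ℕ} [Fact p.Prime] (S : Finset Nat.Primes)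
  (F : IntermediateField ℚ (AlgebraicClosure ℚ))

/-- `coind_{G_F}^{G_ℚ} 𝔽_p` is finite-dimensional for a finite extension `F`. -/
theorem finiteDimensional_indRep [FiniteDimensional ℚ F] :
    FiniteDimensional (ZMod p) (helper3071.indRep p F) := by
  have := helper4039.finiteIndex_fixingSubgroup F
  have := finite_rightCosets F.fixingSubgroup
  exact Module.Finite.equiv
    (cosetEquiv F.fixingSubgroup (helper3071.trivF p F).ρ (fun _ _ => rfl)).symm

/-- The fixing subgroup of the Galois closure of `F` acts trivially on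
`coind_{G_F}^{G_ℚ} 𝔽_p`. -/
theorem exists_sfield_trivial_indRep (hF : F.IsUnramifiedOutside S) :
    ∃ F' : IntermediateField ℚ (AlgebraicClosure ℚ), F'.IsUnramifiedOutside S ∧
      ∀ s ∈ F'.fixingSubgroup, (helper3071.indRep p F).ρ s = 1 := by
  obtain ⟨F', hle, hF', -, hnorm⟩ := helper4039.exists_normal_ge hF
  refine ⟨F', hF', fun s hs => ?_⟩
  apply LinearMap.ext
  intro f
  apply Subtype.ext
  funext x
  have h1 : x * s * x⁻¹ ∈ F.fixingSubgroup :=
    IntermediateField.fixingSubgroup_antitone hle (hnorm.conj_mem s hs x)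
  have h2 := coindV_apply_mul F.fixingSubgroup (helper3071.trivF p F).ρ (fun _ _ => rfl) f
    (x * s * x⁻¹) h1 x
  rw [inv_mul_cancel_right] at h2
  exact h2

/-- **(M1)** `coind_{G_F}^{G_ℚ} 𝔽_p` is a module of the frozen statement for every `S`-field. -/
theorem isSMod_indRep (hF : F.IsUnramifiedOutside S) :
    helper2945.IsSMod S (helper3071.indRep p F) where
  finite := by
    have := hF.1
    exact finiteDimensional_indRep F
  smooth := fun m => by
    obtain ⟨F', hF', h⟩ := exists_sfield_trivial_indRep (p := p) S F hF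
    exact ⟨F', hF'.1, fun s hs => by rw [h s hs]; rfl⟩
  unram := fun q hq A hA g hg => by
    obtain ⟨F', hF', h⟩ := exists_sfield_trivial_indRep (p := p) S F hF
    exact h g (hF'.2 q hq A hA hg)

/-- The local Mackey count at one prime: `dim H²(ℚ_q, coind_F 𝔽_p)` is at most the number of
double cosets `G_F \ G_ℚ / r_q(G_{ℚ_q})`. -/
theorem finrank_continuousH2_indRep_le (hL : helper665.Stmt_LocalL2) (hp2 : p ≠ 2)
    (hF : F.IsUnramifiedOutside S) (q : Nat.Primes) :
    Module.finrank (ZMod p) (continuousH2 (primeLocalToGlobal q)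
        (Rep.res (primeLocalToGlobal q) (helper3071.indRep p F))) ≤
      Nat.card (DoubleCoset.Quotient (F.fixingSubgroup : Set GQ)
        ((primeLocalToGlobal q).range : Set GQ)) := by
  obtain ⟨h0, h1, h2⟩ := hL p hp2
  obtain ⟨inv, hinv⟩ := h0 q
  have hM := isSMod_indRep (p := p) S F hF
  have := hM.finite
  have := hF.1
  have := helper4039.finiteIndex_fixingSubgroup F
  have hisL2 := helper665.isL2_res h1 h2 q hinv.1 (helper3071.indRep p F) hM.smooth
  obtain ⟨-, hrk⟩ := helper665.finrank_continuousH2_eq_of_isL2 _ hisL2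
  rw [hrk]
  exact finrank_le_card_doubleCoset F.fixingSubgroup (helper3071.trivF p F).ρ (fun _ _ => rfl)
    (primeLocalToGlobal q) (fun d => ((helper665.chiLoc p q d : (ZMod p)ˣ) : ZMod p))
    (helper5036.invariantToLin (Rep.res (primeLocalToGlobal q) (helper3071.indRep p F))
      (helper665.chiLoc p q))
    Subtype.val_injective
    (fun w d f => helper5036.invariantToLin_equivariant _ _ w d f)

/-- **(M2) MACKEY COUNT.** `π₂(coind_F 𝔽_p) ≤ #{places of F over S}`. -/
theorem pi2_indRep_le_nPl (hL : helper665.Stmt_LocalL2) (hp2 : p ≠ 2)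
    (hF : F.IsUnramifiedOutside S) :
    helper2945.pi2 S (helper3071.indRep p F) ≤ helper3071.nPl S F := by
  have := hF.1
  unfold helper2945.pi2 helper3071.nPl
  rw [← helper4727.sum_card_doubleCoset_range F S]
  exact Finset.sum_le_sum fun q _ => finrank_continuousH2_indRep_le S F hL hp2 hF q

/-- **(M3)** If the cyclotomic character is trivial on `G_F`, the twisted dual of
`coind_F 𝔽_p` has a nonzero invariant: `h⁰((coind_F 𝔽_p)') ≥ 1`. -/
theorem one_le_h0_dualT_indRep [FiniteDimensional ℚ F]
    (hχ : ∀ s ∈ F.fixingSubgroup, cycloChar p s = 1) :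
    1 ≤ helper2945.h0 (helper2945.dualT (helper3071.indRep p F)) := by
  have := helper4039.finiteIndex_fixingSubgroup F
  have := finiteDimensional_indRep (p := p) F
  obtain ⟨l, hl0, hl⟩ := exists_semiinvariant F.fixingSubgroup (helper3071.trivF p F).ρ
    (fun _ _ => rfl) (cycloChar p) hχ
  have hmem : (l : (helper3071.indRep p F).dualTwist (cycloChar p)) ∈
      ((helper3071.indRep p F).dualTwist (cycloChar p)).ρ.invariants :=
    (helper5036.mem_invariants_dualTwist_iff (helper3071.indRep p F) (cycloChar p) l).2 hl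
  unfold helper2945.h0
  rw [Nat.succ_le_iff, Module.finrank_pos_iff_exists_ne_zero]
  exact ⟨⟨l, hmem⟩, fun h => hl0 (congrArg Subtype.val h)⟩

/-- The cyclotomic character is trivial on the fixing subgroup of a field containing `μ_p`. -/
theorem cycloChar_eq_one_of_hasZeta (hζ : helper3071.HasZeta p F) (s : GQ)
    (hs : s ∈ F.fixingSubgroup) : cycloChar p s = 1 := by
  obtain ⟨ζ₀, hζ₀F, hζ₀⟩ := hζ
  rw [helper4039.cycloChar_eq_one_iff]
  intro ζ hζ
  have : NeZero p := ⟨(Fact.out : p.Prime).ne_zero⟩
  obtain ⟨i, -, rfl⟩ := hζ₀.eq_pow_of_pow_eq_one hζ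
  exact (IntermediateField.mem_fixingSubgroup_iff F s).1 hs _ (pow_mem hζ₀F i)

/-- **(M4) The numerical (GC) for the induced module** of an `S`-field containing `μ_p`:
`π₂(A_F) ≤ r₂(A_F) + h⁰(A_F')`, from the local (L2) package, finiteness and `(G-E)` of the
field layer (and the proved Shapiro statement). -/
theorem indB_of (hL : helper665.Stmt_LocalL2) (hFin : helper3071.Stmt_FieldFin)
    (hGE : helper3071.Stmt_FieldGE) (hp2 : p ≠ 2) (hF : helper3071.IsSFieldZeta S p F) :
    helper2945.pi2 S (helper3071.indRep p F) ≤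
      helper2945.r2 S (helper3071.indRep p F) +
        helper2945.h0 (helper2945.dualT (helper3071.indRep p F)) := by
  have hfd := hF.unram.1
  have h1 := pi2_indRep_le_nPl S F hL hp2 hF.unram
  have h2 := helper3071.fieldGE_indRep hF.prime
    (helper62.stmt_Shapiro S p F hF.prime hF.unram).2 (hFin S p F hF) (hGE S p F hF)
  have h3 := one_le_h0_dualT_indRep F (cycloChar_eq_one_of_hasZeta F hF.zeta)
  unfold helper2945.r2
  omega

/-- An `S`-field containing all `p`-th roots of unity satisfies the standing hypotheses of the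
field layer. -/
theorem isSFieldZeta_of_roots (hp2 : p ≠ 2) (hpS : pPrime p ∈ S)
    (hF : F.IsUnramifiedOutside S) (hroots : ∀ ζ : AlgebraicClosure ℚ, ζ ^ p = 1 → ζ ∈ F) :
    helper3071.IsSFieldZeta S p F := by
  obtain ⟨ζ₀, hζ₀⟩ := helper4039.exists_isPrimitiveRoot_Qbar p
  exact ⟨Fact.out, hp2, ⟨pPrime p, hpS, rfl⟩, hF, ⟨ζ₀, hroots ζ₀ hζ₀.pow_eq_one, hζ₀⟩⟩

end Concrete

/-- **(M5)** The numerical (GC) for induced modules, cofinal form: every `S`-field is contained
in an `S`-field `F` with `π₂(A_F) ≤ r₂(A_F) + h⁰(A_F')`. -/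
theorem stmt_IndB_of (hL : helper665.Stmt_LocalL2) (hFin : helper3071.Stmt_FieldFin)
    (hGE : helper3071.Stmt_FieldGE) :
    ∀ {p : ℕ} [Fact p.Prime], p ≠ 2 → ∀ (S : Finset Nat.Primes), pPrime p ∈ S →
      ∀ F₀ : IntermediateField ℚ (AlgebraicClosure ℚ), F₀.IsUnramifiedOutside S →
        ∃ F : IntermediateField ℚ (AlgebraicClosure ℚ), F₀ ≤ F ∧ F.IsUnramifiedOutside S ∧
          helper2945.pi2 S (helper3071.indRep p F) ≤
            helper2945.r2 S (helper3071.indRep p F) +
              helper2945.h0 (helper2945.dualT (helper3071.indRep p F)) := by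
  intro p _ hp2 S hpS F₀ hF₀
  obtain ⟨ζ₀, hζ₀⟩ := helper4039.exists_isPrimitiveRoot_Qbar p
  have hm : ∀ q : Nat.Primes, (q : ℕ) ∣ p → q ∈ S := by
    intro q hq
    have : q = pPrime p :=
      Subtype.ext ((Nat.prime_dvd_prime_iff_eq q.2 (Fact.out : p.Prime)).1 hq)
    rw [this]
    exact hpS
  have hF := helper4039.isUnramifiedOutside_sup_adjoin_of_pow_eq_one hF₀ hm hζ₀.pow_eq_one
  have hZ : helper3071.IsSFieldZeta S p (F₀ ⊔ ℚ⟮ζ₀⟯) :=
    ⟨Fact.out, hp2, ⟨pPrime p, hpS, rfl⟩, hF,
      ⟨ζ₀, (le_sup_right : ℚ⟮ζ₀⟯ ≤ F₀ ⊔ ℚ⟮ζ₀⟯) (IntermediateField.mem_adjoin_simple_self ℚ ζ₀),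
        hζ₀⟩⟩
  exact ⟨F₀ ⊔ ℚ⟮ζ₀⟯, le_sup_left, hF, indB_of S _ hL hFin hGE hp2 hZ⟩

end Fermat.Agent.S55.helper1127
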