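import Fermat.Prelude.Def_GroupCohomology_ContinuousUnramified

/-!
# S55, leaf LS-L3 (backup copy, `helper1447`): local `H¹ × H¹` duality from `(L2)`

Self-contained cocycle-level proof on the frozen local carrier (`IsLevelConstant₁/₂ r`,
`levelCoboundaries₂ r`, `continuousH2 r`), Mathlib + Prelude only.

Let `A B : Rep k G`, `χ : G →* kˣ`, `T := ofChar χ` and `β : A × B → k` a pairing with
`β (g a) (g b) = χ g * β a b`.  For a `1`-cocycle `x` of `B` we build the extension
`0 → T → N_x → A → 0` (`extRep`): `N_x = A × k` with `g (a, t) = (g a, χ g t + β (g a) (x g))`.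

* `mem_levelCoboundaries₂_of_inr`: if every level `1`-cocycle `y` of `A` has
  `(g, h) ↦ β (g (y h)) (x g)` a level coboundary of `T`, then `H²(T) → H²(N_x)` is injective.
* `exists_primitive_of_hom`: a `G`-map `N_x → T` which is nonzero on `T` exhibits `x` as a
  coboundary (if `b ↦ β (·, b)` is bijective onto the dual of `A`).
* `isCoboundary_of_orthogonal`: the two together with "`(L2)`-injectivity" for `N_x`
  (every nonzero class of `continuousH2 r N_x` is detected by a `G`-map `N_x → T`) and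
  `continuousH2 r T ≠ 0`: a cocycle orthogonal to all level cocycles is a coboundary.
-/

set_option autoImplicit false

open CategoryTheory groupCohomology

namespace Fermat.Agent.S55.helper1447

universe u

noncomputable section

section ExtRep

variable {k G : Type u} [Field k] [Group G]
variable {A B : Rep.{u} k G} (χ : G →* kˣ) (β : A →ₗ[k] B →ₗ[k] k) (x : G → B)

/-- The endomorphism of `A × k` attached to `g`: `(a, t) ↦ (g a, χ g t + β (g a) (x g))`. -/
def extEnd (g : G) : (A × k) →ₗ[k] (A × k) :=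
  LinearMap.prod (A.ρ g ∘ₗ LinearMap.fst k A k)
    ((χ g : k) • LinearMap.snd k A k + (β.flip (x g)) ∘ₗ A.ρ g ∘ₗ LinearMap.fst k A k)

lemma extEnd_apply (g : G) (v : A × k) :
    extEnd χ β x g v = (A.ρ g v.1, (χ g : k) * v.2 + β (A.ρ g v.1) (x g)) := rfl

variable {χ β x}

/-- The extension representation `N_x` on `A × k`. -/
def extRho (hβ : ∀ g a b, β (A.ρ g a) (B.ρ g b) = (χ g : k) * β a b)
    (hx : x ∈ cocycles₁ B) : Representation k G (A × k) where
  toFun g := extEnd χ β x g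
  map_one' := by
    have h1 : x 1 = 0 := by
      have := (mem_cocycles₁_iff x).1 hx 1 1
      simpa using this
    refine LinearMap.ext fun v => ?_
    rw [extEnd_apply, h1]
    simp
  map_mul' g h := by
    refine LinearMap.ext fun v => ?_
    have hc := (mem_cocycles₁_iff x).1 hx g h
    simp only [Module.End.mul_apply, extEnd_apply, map_mul, Units.val_mul, hc, map_add, hβ]
    refine Prod.ext rfl ?_
    simp only
    ring

/-- The extension `N_x` as an object of `Rep k G`. -/
abbrev extRep (hβ : ∀ g a b, β (A.ρ g a) (B.ρ g b) = (χ g : k) * β a b)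
    (hx : x ∈ cocycles₁ B) : Rep k G :=
  Rep.of (extRho hβ hx)

lemma extRep_ρ_apply (hβ : ∀ g a b, β (A.ρ g a) (B.ρ g b) = (χ g : k) * β a b)
    (hx : x ∈ cocycles₁ B) (g : G) (v : A × k) :
    (extRep hβ hx).ρ g v = (A.ρ g v.1, (χ g : k) * v.2 + β (A.ρ g v.1) (x g)) := rfl


/-- The inclusion `T → N_x`, `t ↦ (0, t)`. -/
def extInr (hβ : ∀ g a b, β (A.ρ g a) (B.ρ g b) = (χ g : k) * β a b)
    (hx : x ∈ cocycles₁ B) : ofChar χ ⟶ extRep hβ hx :=
  Rep.ofHom ⟨LinearMap.inr k A k, fun g => by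
    refine LinearMap.ext fun t => ?_
    show ((0 : A), (χ g : k) • t) = extEnd χ β x g ((0 : A), t)
    rw [extEnd_apply]
    simp⟩

lemma extInr_hom_apply (hβ : ∀ g a b, β (A.ρ g a) (B.ρ g b) = (χ g : k) * β a b)
    (hx : x ∈ cocycles₁ B) (t : k) :
    (extInr hβ hx).hom t = ((0 : A), t) := rfl

/-- The projection `N_x → A`. -/
def extFst (hβ : ∀ g a b, β (A.ρ g a) (B.ρ g b) = (χ g : k) * β a b)
    (hx : x ∈ cocycles₁ B) : extRep hβ hx ⟶ A :=
  Rep.ofHom (σ := A.ρ) ⟨LinearMap.fst k A k, fun g => by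
    refine LinearMap.ext fun v => ?_
    rfl⟩

/-- **Injectivity of `H²(T) → H²(N_x)` under orthogonality** (cochain form).  If every level
`1`-cocycle `y` of `A` has `(g, h) ↦ β (g (y h)) (x g)` a level coboundary of `T = ofChar χ`, and
`z : G × G → T` becomes a level coboundary in `N_x`, then `z` is a level coboundary of `T`. -/
theorem mem_levelCoboundaries₂_of_inr
    (r : G →* (AlgebraicClosure ℚ ≃ₐ[ℚ] AlgebraicClosure ℚ))
    (hβ : ∀ g a b, β (A.ρ g a) (B.ρ g b) = (χ g : k) * β a b) (hx : x ∈ cocycles₁ B)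
    (horth : ∀ y : G → A, y ∈ cocycles₁ A → IsLevelConstant₁ r y →
      (fun p : G × G => β (A.ρ p.1 (y p.2)) (x p.1)) ∈ levelCoboundaries₂ r (ofChar χ))
    (z : G × G → k)
    (hz : (fun p : G × G => ((0 : A), z p)) ∈ levelCoboundaries₂ r (extRep hβ hx)) :
    z ∈ levelCoboundaries₂ r (ofChar χ) := by
  obtain ⟨w, hw, hdw⟩ := (mem_levelCoboundaries₂_iff r (extRep hβ hx) _).1 hz
  -- components of the primitive
  have hw1 : IsLevelConstant₁ r (fun g => (w g).1) := hw.comp Prod.fst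
  have hw2 : IsLevelConstant₁ r (fun g => (w g).2) := hw.comp Prod.snd
  have key : ∀ g h : G, (A.ρ g (w h).1 - (w (g * h)).1 + (w g).1 = 0) ∧
      ((χ g : k) * (w h).2 + β (A.ρ g (w h).1) (x g) - (w (g * h)).2 + (w g).2 = z (g, h)) := by
    intro g h
    have := congrFun hdw (g, h)
    rw [d₁₂_hom_apply] at this
    have h1 := congrArg Prod.fst this
    have h2 := congrArg Prod.snd this
    exact ⟨h1, h2⟩
  have hcoc : (fun g => (w g).1) ∈ cocycles₁ A := by
    rw [mem_cocycles₁_def]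
    exact fun g h => (key g h).1
  obtain ⟨u, hu, hdu⟩ := (mem_levelCoboundaries₂_iff r (ofChar χ) _).1 (horth _ hcoc hw1)
  refine (mem_levelCoboundaries₂_iff r (ofChar χ) z).2
    ⟨(fun g => (w g).2) + u, IsLevelConstant₁.add hw2 hu, ?_⟩
  funext ⟨g, h⟩
  have hu' := congrFun hdu (g, h)
  rw [d₁₂_hom_apply] at hu' ⊢
  have h2 := (key g h).2
  simp only [Pi.add_apply, map_add] at hu' ⊢
  rw [← h2, ← hu']
  show (χ g : k) • (w h).2 + (χ g : k) • u h - ((w (g * h)).2 + u (g * h)) + ((w g).2 + u g) = _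
  show _ = (χ g : k) * (w h).2 + ((χ g : k) • u h - u (g * h) + u g) - (w (g * h)).2 + (w g).2
  simp only [smul_eq_mul]
  ring


/-- **A `G`-map `N_x → T` that is nonzero on `T` splits the cocycle.**  If `b ↦ β (·, b)` is
bijective onto the dual of `A`, then `x` is the coboundary of some `b : B`. -/
theorem exists_primitive_of_hom
    (hβ : ∀ g a b, β (A.ρ g a) (B.ρ g b) = (χ g : k) * β a b) (hx : x ∈ cocycles₁ B)
    (hsurj : ∀ f : A →ₗ[k] k, ∃ b : B, ∀ a, β a b = f a)
    (hinj : ∀ b : B, (∀ a, β a b = 0) → b = 0)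
    (φ : extRep hβ hx ⟶ ofChar χ) (hφ : φ.hom ((0 : A), (1 : k)) ≠ 0) :
    ∃ b : B, ∀ g, x g = B.ρ g b - b := by
  set lam : k := φ.hom ((0 : A), (1 : k)) with hlam
  -- the restriction of `φ` to `A × 0`
  let ψ : A →ₗ[k] k := φ.hom.toLinearMap ∘ₗ LinearMap.inl k A k
  have hψ : ∀ a : A, ψ a = φ.hom (a, (0 : k)) := fun a => rfl
  have hsplit : ∀ (a : A) (t : k), φ.hom (a, t) = ψ a + t * lam := by
    intro a t
    have h1 : ((a, t) : A × k) = (a, 0) + t • ((0 : A), (1 : k)) := by
      ext <;> simp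
    have h2 : φ.hom ((a, (0 : k)) + t • ((0 : A), (1 : k)))
        = φ.hom (a, (0 : k)) + t • φ.hom ((0 : A), (1 : k)) := by
      rw [map_add, map_smul]
    calc φ.hom (a, t) = φ.hom ((a, (0 : k)) + t • ((0 : A), (1 : k))) := by rw [← h1]
      _ = ψ a + t * lam := by rw [h2, hψ]; rfl
  -- equivariance of `φ`
  have hequiv : ∀ (g : G) (a : A), ψ a + β a (x g) * lam = (χ g : k) * ψ (A.ρ g⁻¹ a) := by
    intro g a
    have h := Rep.hom_comm_apply φ g ((A.ρ g⁻¹ a, (0 : k)) : A × k)
    have h3 : (extRep hβ hx).ρ g ((A.ρ g⁻¹ a, (0 : k)) : A × k) = (a, β a (x g)) := by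
      rw [extRep_ρ_apply]
      have : A.ρ g (A.ρ g⁻¹ a) = a := by
        rw [← Module.End.mul_apply, ← map_mul, mul_inv_cancel, map_one, Module.End.one_apply]
      simp [this]
    rw [h3, hsplit, ← hψ] at h
    rw [h]
    rfl
  obtain ⟨b₀, hb₀⟩ := hsurj (lam⁻¹ • ψ)
  refine ⟨b₀, fun g => ?_⟩
  have hgoal : x g - (B.ρ g b₀ - b₀) = 0 := by
    refine hinj _ fun a => ?_
    have e1 : β a (B.ρ g b₀) = (χ g : k) * (lam⁻¹ * ψ (A.ρ g⁻¹ a)) := by
      have : A.ρ g (A.ρ g⁻¹ a) = a := by
        rw [← Module.End.mul_apply, ← map_mul, mul_inv_cancel, map_one, Module.End.one_apply]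
      have h4 := hβ g (A.ρ g⁻¹ a) b₀
      rw [this, hb₀] at h4
      rw [h4]; rfl
    have e2 : β a b₀ = lam⁻¹ * ψ a := by rw [hb₀]; rfl
    have e3 := hequiv g a
    rw [map_sub, map_sub, e1, e2]
    have e4 : β a (x g) = lam⁻¹ * ((χ g : k) * ψ (A.ρ g⁻¹ a) - ψ a) := by
      rw [← e3]
      field_simp
      ring
    rw [e4]
    ring
  exact sub_eq_zero.1 hgoal

/-- **Core of `(L3)`.**  Assume `continuousH2 r T ≠ 0` for `T = ofChar χ`, and "`(L2)`-injectivity"
for the extension `N_x`: every nonzero class of `continuousH2 r N_x` is detected by a `G`-map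
`N_x → T`.  If the `1`-cocycle `x` of `B` is orthogonal to all level `1`-cocycles `y` of `A`,
i.e. `(g, h) ↦ β (g (y h)) (x g)` is always a level coboundary, then `x` is a coboundary. -/
theorem isCoboundary_of_orthogonal
    (r : G →* (AlgebraicClosure ℚ ≃ₐ[ℚ] AlgebraicClosure ℚ))
    (hβ : ∀ g a b, β (A.ρ g a) (B.ρ g b) = (χ g : k) * β a b) (hx : x ∈ cocycles₁ B)
    (hsurj : ∀ f : A →ₗ[k] k, ∃ b : B, ∀ a, β a b = f a)
    (hinj : ∀ b : B, (∀ a, β a b = 0) → b = 0)
    (hH2 : ∃ z : continuousH2 r (ofChar χ), z ≠ 0)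
    (hL2 : ∀ z : continuousH2 r (extRep hβ hx), z ≠ 0 →
      ∃ φ : extRep hβ hx ⟶ ofChar χ, continuousH2MapHom r φ z ≠ 0)
    (horth : ∀ y : G → A, y ∈ cocycles₁ A → IsLevelConstant₁ r y →
      (fun p : G × G => β (A.ρ p.1 (y p.2)) (x p.1)) ∈ levelCoboundaries₂ r (ofChar χ)) :
    ∃ b : B, ∀ g, x g = B.ρ g b - b := by
  obtain ⟨z, hz⟩ := hH2
  obtain ⟨c, rfl⟩ := Submodule.mkQ_surjective _ z
  -- the image of `z` in `H²(N_x)` is nonzero
  have hne : continuousH2MapHom r (extInr hβ hx) (continuousH2π r (ofChar χ) c) ≠ 0 := by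
    intro h0
    apply hz
    rw [continuousH2MapHom, continuousH2Map_continuousH2π, continuousH2π_eq_zero_iff] at h0
    change continuousH2π r (ofChar χ) c = 0
    rw [continuousH2π_eq_zero_iff]
    exact mem_levelCoboundaries₂_of_inr r hβ hx horth _ h0
  obtain ⟨φ, hφ⟩ := hL2 _ hne
  refine exists_primitive_of_hom hβ hx hsurj hinj φ fun h0 => hφ ?_
  -- if `φ` kills `T` then `φ_* ι_* z = 0`
  have hzero : ∀ t : k, φ.hom ((0 : A), t) = 0 := by
    intro t
    have h1 : (((0 : A), t) : A × k) = t • ((0 : A), (1 : k)) := by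
      ext <;> simp
    have h2 : φ.hom (t • (((0 : A), (1 : k)) : A × k)) = t • φ.hom ((0 : A), (1 : k)) :=
      map_smul _ _ _
    calc φ.hom ((0 : A), t) = φ.hom (t • (((0 : A), (1 : k)) : A × k)) := by rw [← h1]
      _ = 0 := by rw [h2, h0, smul_zero]
  change continuousH2π r (ofChar χ) (levelCocycles₂Map (MonoidHom.id G) (fun _ => rfl)
      φ.hom.toLinearMap (fun g a => Rep.hom_comm_apply φ g a)
      (levelCocycles₂Map (MonoidHom.id G) (fun _ => rfl) (extInr hβ hx).hom.toLinearMap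
        (fun g a => Rep.hom_comm_apply (extInr hβ hx) g a) c)) = 0
  rw [continuousH2π_eq_zero_iff]
  have : ((levelCocycles₂Map (MonoidHom.id G) (fun _ => rfl) φ.hom.toLinearMap
      (fun g a => Rep.hom_comm_apply φ g a)
      (levelCocycles₂Map (MonoidHom.id G) (fun _ => rfl) (extInr hβ hx).hom.toLinearMap
        (fun g a => Rep.hom_comm_apply (extInr hβ hx) g a) c) : levelCocycles₂ r (ofChar χ)) :
        G × G → (ofChar χ)) = 0 := by
    funext q
    exact hzero _
  rw [this]
  exact Submodule.zero_mem _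

end ExtRep

section Smooth

variable {k G : Type u} [Field k] [Group G]
variable (r : G →* (AlgebraicClosure ℚ ≃ₐ[ℚ] AlgebraicClosure ℚ))

/-- Smoothness of a representation of `G` with respect to the levels pulled back along `r`
(the shape of the hypothesis `hsm` of the frozen statement, transported along `r`). -/
def IsSmoothRep (N : Rep.{u} k G) : Prop :=
  ∀ n : N, ∃ F : IntermediateField ℚ (AlgebraicClosure ℚ), FiniteDimensional ℚ F ∧
    ∀ s : G, r s ∈ F.fixingSubgroup → N.ρ s n = n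

/-- A character is of level type if it is trivial on some level subgroup. -/
def IsLevelChar (χ : G →* kˣ) : Prop :=
  ∃ F : IntermediateField ℚ (AlgebraicClosure ℚ), FiniteDimensional ℚ F ∧
    ∀ s : G, r s ∈ F.fixingSubgroup → χ s = 1

variable {r}

/-- A finite-dimensional smooth representation is fixed by a single level subgroup. -/
theorem IsSmoothRep.exists_level {N : Rep.{u} k G} [FiniteDimensional k N] (hN : IsSmoothRep r N) :
    ∃ F : IntermediateField ℚ (AlgebraicClosure ℚ), FiniteDimensional ℚ F ∧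
      ∀ s : G, r s ∈ F.fixingSubgroup → ∀ n : N, N.ρ s n = n := by
  classical
  let b := Module.finBasis k N
  choose F hF hfix using fun i => hN (b i)
  have : ∀ i, FiniteDimensional ℚ (F i) := hF
  refine ⟨⨆ i, F i, IntermediateField.finiteDimensional_iSup_of_finite, fun s hs n => ?_⟩
  have hs' : ∀ i, r s ∈ (F i).fixingSubgroup := fun i =>
    IntermediateField.fixingSubgroup_antitone (le_iSup F i) hs
  have h1 : N.ρ s = LinearMap.id := b.ext fun i => by simpa using hfix i s (hs' i)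
  rw [h1]; rfl

lemma isLevelConstant₁_map_of_mem {X : Type*} {f : G → X} (hf : IsLevelConstant₁ r f) :
    ∃ F : IntermediateField ℚ (AlgebraicClosure ℚ), FiniteDimensional ℚ F ∧
      ∀ s : G, r s ∈ F.fixingSubgroup → f s = f 1 := by
  obtain ⟨F, hF, h⟩ := hf
  exact ⟨F, hF, fun s hs => by simpa using h 1 s hs⟩

end Smooth

section ExtRepSmooth

variable {k G : Type u} [Field k] [Group G]
variable {A B : Rep.{u} k G} {χ : G →* kˣ} {β : A →ₗ[k] B →ₗ[k] k} {x : G → B}
variable {r : G →* (AlgebraicClosure ℚ ≃ₐ[ℚ] AlgebraicClosure ℚ)}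

instance extRep_finiteDimensional [FiniteDimensional k A]
    (hβ : ∀ g a b, β (A.ρ g a) (B.ρ g b) = (χ g : k) * β a b) (hx : x ∈ cocycles₁ B) :
    FiniteDimensional k (extRep hβ hx) :=
  inferInstanceAs (FiniteDimensional k (A × k))

/-- `N_x` is smooth if `A` is finite-dimensional smooth, `χ` is a level character and `x` is
level-constant. -/
theorem extRep_isSmoothRep [FiniteDimensional k A]
    (hβ : ∀ g a b, β (A.ρ g a) (B.ρ g b) = (χ g : k) * β a b) (hx : x ∈ cocycles₁ B)
    (hA : IsSmoothRep r A) (hχ : IsLevelChar r χ) (hxl : IsLevelConstant₁ r x) :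
    IsSmoothRep r (extRep hβ hx) := by
  obtain ⟨F₁, hF₁, h₁⟩ := hA.exists_level
  obtain ⟨F₂, hF₂, h₂⟩ := hχ
  obtain ⟨F₃, hF₃, h₃⟩ := isLevelConstant₁_map_of_mem hxl
  have hx1 : x 1 = 0 := by
    have := (mem_cocycles₁_iff x).1 hx 1 1
    simpa using this
  have := hF₁; have := hF₂; have := hF₃
  intro n
  refine ⟨F₁ ⊔ F₂ ⊔ F₃, inferInstance, fun s hs => ?_⟩
  have hs₁ : r s ∈ F₁.fixingSubgroup :=
    IntermediateField.fixingSubgroup_antitone (le_sup_left.trans le_sup_left) hs
  have hs₂ : r s ∈ F₂.fixingSubgroup :=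
    IntermediateField.fixingSubgroup_antitone (le_sup_right.trans le_sup_left) hs
  have hs₃ : r s ∈ F₃.fixingSubgroup :=
    IntermediateField.fixingSubgroup_antitone le_sup_right hs
  rw [extRep_ρ_apply, h₁ s hs₁, h₂ s hs₂, h₃ s hs₃, hx1]
  simp

end ExtRepSmooth

section Duality

variable {k G : Type u} [Field k] [Group G]
variable (r : G →* (AlgebraicClosure ℚ ≃ₐ[ℚ] AlgebraicClosure ℚ)) (χ : G →* kˣ)
variable (M : Rep.{u} k G)

/-- The cup-product cochain `(x ∪ y)(g, h) = x(g) (g • y(h))` of a `1`-cochain `x` of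
`M' = M.dualTwist χ` and a `1`-cochain `y` of `M`, with values in `T = ofChar χ` (carrier `k`). -/
def cupCochain (x : G → M.dualTwist χ) (y : G → M) : G × G → (ofChar χ : Rep.{u} k G) :=
  fun p => (x p.1 : M →ₗ[k] k) (M.ρ p.1 (y p.2))

lemma cupCochain_apply (x : G → M.dualTwist χ) (y : G → M) (g h : G) :
    cupCochain χ M x y (g, h) = (x g : M →ₗ[k] k) (M.ρ g (y h)) := rfl

/-- The mirror cup-product cochain `(y ∪ x)(g, h) = (g • x(h)) (y(g))`. -/
def cupCochain' (y : G → M) (x : G → M.dualTwist χ) : G × G → (ofChar χ : Rep.{u} k G) :=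
  fun p => ((M.dualTwist χ).ρ p.1 (x p.2) : M →ₗ[k] k) (y p.1)

lemma cupCochain'_apply (y : G → M) (x : G → M.dualTwist χ) (g h : G) :
    cupCochain' χ M y x (g, h) = ((M.dualTwist χ).ρ g (x h) : M →ₗ[k] k) (y g) := rfl

lemma ofChar_ρ_apply (g : G) (t : k) : (ofChar χ : Rep.{u} k G).ρ g t = (χ g : k) * t := rfl

lemma dualTwist_ρ_apply_apply (g : G) (f : M.dualTwist χ) (m : M) :
    ((M.dualTwist χ).ρ g f : M →ₗ[k] k) m = (χ g : k) * (f : M →ₗ[k] k) (M.ρ g⁻¹ m) := rfl

lemma ρ_inv_ρ (g : G) (m : M) : M.ρ g⁻¹ (M.ρ g m) = m := by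
  rw [← Module.End.mul_apply, ← map_mul, inv_mul_cancel, map_one, Module.End.one_apply]

lemma dualTwist_ρ_apply_ρ (g : G) (f : M.dualTwist χ) (m : M) :
    ((M.dualTwist χ).ρ g f : M →ₗ[k] k) (M.ρ g m) = (χ g : k) * (f : M →ₗ[k] k) m := by
  rw [dualTwist_ρ_apply_apply, ρ_inv_ρ]

/-- **Graded commutativity** at cochain level: for `1`-cocycles `x`, `y`,
`x ∪ y + y ∪ x = d (g ↦ - x(g)(y(g)))`. -/
theorem cupCochain_add_cupCochain' {x : G → M.dualTwist χ} {y : G → M}
    (hx : x ∈ cocycles₁ (M.dualTwist χ)) (hy : y ∈ cocycles₁ M) :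
    cupCochain χ M x y + cupCochain' χ M y x
      = (d₁₂ (ofChar χ : Rep.{u} k G)).hom (fun g => -((x g : M →ₗ[k] k) (y g))) := by
  funext ⟨g, h⟩
  have hxc := (mem_cocycles₁_iff x).1 hx g h
  have hyc := (mem_cocycles₁_iff y).1 hy g h
  rw [d₁₂_hom_apply]
  simp only [Pi.add_apply, cupCochain_apply, cupCochain'_apply]
  have e1 : ((x (g * h) : M →ₗ[k] k) (y (g * h)))
      = ((M.dualTwist χ).ρ g (x h) : M →ₗ[k] k) (M.ρ g (y h))
        + ((M.dualTwist χ).ρ g (x h) : M →ₗ[k] k) (y g)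
        + (x g : M →ₗ[k] k) (M.ρ g (y h)) + (x g : M →ₗ[k] k) (y g) := by
    rw [hxc, hyc]
    simp only [map_add]
    change ((M.dualTwist χ).ρ g (x h) : M →ₗ[k] k) (M.ρ g (y h))
        + (x g : M →ₗ[k] k) (M.ρ g (y h))
        + (((M.dualTwist χ).ρ g (x h) : M →ₗ[k] k) (y g) + (x g : M →ₗ[k] k) (y g)) = _
    ring
  rw [dualTwist_ρ_apply_ρ] at e1
  change _ = (χ g : k) * (-((x h : M →ₗ[k] k) (y h))) - (-((x (g * h) : M →ₗ[k] k) (y (g * h))))
      + (-((x g : M →ₗ[k] k) (y g)))
  rw [e1]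
  ring

/-- The evaluation pairing `M × M' → k`, `(m, f) ↦ f m`. -/
def evalPairing : M →ₗ[k] (M.dualTwist χ) →ₗ[k] k := Module.Dual.eval k M

lemma evalPairing_apply (m : M) (f : M.dualTwist χ) :
    evalPairing χ M m f = (f : M →ₗ[k] k) m := rfl

lemma evalPairing_equivariant (g : G) (m : M) (f : M.dualTwist χ) :
    evalPairing χ M (M.ρ g m) ((M.dualTwist χ).ρ g f) = (χ g : k) * evalPairing χ M m f := by
  rw [evalPairing_apply, evalPairing_apply, dualTwist_ρ_apply_ρ]

/-- The evaluation pairing `M' × M → k`, `(f, m) ↦ f m`. -/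
def evalPairing' : (M.dualTwist χ) →ₗ[k] M →ₗ[k] k := LinearMap.id

lemma evalPairing'_apply (f : M.dualTwist χ) (m : M) :
    evalPairing' χ M f m = (f : M →ₗ[k] k) m := rfl

lemma evalPairing'_equivariant (g : G) (f : M.dualTwist χ) (m : M) :
    evalPairing' χ M ((M.dualTwist χ).ρ g f) (M.ρ g m) = (χ g : k) * evalPairing' χ M f m := by
  rw [evalPairing'_apply, evalPairing'_apply, dualTwist_ρ_apply_ρ]

instance dualTwist_finiteDimensional [FiniteDimensional k M] :
    FiniteDimensional k (M.dualTwist χ) :=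
  inferInstanceAs (FiniteDimensional k (Module.Dual k M))

variable {r χ M}

/-- The twisted dual of a finite-dimensional smooth representation by a level character is
smooth. -/
theorem dualTwist_isSmoothRep [FiniteDimensional k M] (hM : IsSmoothRep r M)
    (hχ : IsLevelChar r χ) : IsSmoothRep r (M.dualTwist χ) := by
  obtain ⟨F₁, hF₁, h₁⟩ := hM.exists_level
  obtain ⟨F₂, hF₂, h₂⟩ := hχ
  have := hF₁; have := hF₂
  intro f
  refine ⟨F₁ ⊔ F₂, inferInstance, fun s hs => ?_⟩
  have hs₁ : r s ∈ F₁.fixingSubgroup :=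
    IntermediateField.fixingSubgroup_antitone le_sup_left hs
  have hs₂ : r s ∈ F₂.fixingSubgroup :=
    IntermediateField.fixingSubgroup_antitone le_sup_right hs
  have hs₁' : r s⁻¹ ∈ F₁.fixingSubgroup := by
    rw [map_inv]; exact Subgroup.inv_mem _ hs₁
  refine LinearMap.ext fun m => ?_
  rw [dualTwist_ρ_apply_apply, h₂ s hs₂, h₁ s⁻¹ hs₁']
  simp

variable (r χ)

/-- **"(L2)-injectivity"** for the local group `G` (with levels pulled back along `r`) and the
character `χ`: for every finite-dimensional smooth `N`, every nonzero class of `continuousH2 r N`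
is detected by some `G`-map `N → T = ofChar χ`.  This is the left-nondegeneracy of the pairing
`H²(N) × H⁰(N') → H²(T)` of `(L2)`; no naturality, no invariant map and no dimension count is
needed for `(L3)`. -/
def Stmt_L2inj : Prop :=
  ∀ N : Rep.{u} k G, FiniteDimensional k N → IsSmoothRep r N →
    ∀ z : continuousH2 r N, z ≠ 0 → ∃ φ : N ⟶ ofChar χ, continuousH2MapHom r φ z ≠ 0

variable {r χ}

/-- **(L3), left kernel.**  A level `1`-cocycle `x` of `M' = M.dualTwist χ` whose cup product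
with every level `1`-cocycle of `M` is a level coboundary of `T = ofChar χ` is a coboundary. -/
theorem cup_left_nondegenerate [FiniteDimensional k M] (hM : IsSmoothRep r M)
    (hχ : IsLevelChar r χ) (hH2 : ∃ z : continuousH2 r (ofChar χ), z ≠ 0)
    (hL2 : Stmt_L2inj r χ)
    {x : G → M.dualTwist χ} (hx : x ∈ cocycles₁ (M.dualTwist χ)) (hxl : IsLevelConstant₁ r x)
    (horth : ∀ y : G → M, y ∈ cocycles₁ M → IsLevelConstant₁ r y →
      cupCochain χ M x y ∈ levelCoboundaries₂ r (ofChar χ)) :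
    ∃ f : M.dualTwist χ, ∀ g, x g = (M.dualTwist χ).ρ g f - f := by
  have hβ := evalPairing_equivariant χ M
  refine isCoboundary_of_orthogonal (β := evalPairing χ M) r hβ hx
    (fun f => ⟨f, fun a => rfl⟩) (fun b hb => LinearMap.ext hb) hH2
    (hL2 _ (extRep_finiteDimensional hβ hx) (extRep_isSmoothRep hβ hx hM hχ hxl)) horth

/-- **(L3), right kernel.**  A level `1`-cocycle `y` of `M` whose cup product with every level
`1`-cocycle of `M' = M.dualTwist χ` is a level coboundary of `T = ofChar χ` is a coboundary. -/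
theorem cup_right_nondegenerate [FiniteDimensional k M] (hM : IsSmoothRep r M)
    (hχ : IsLevelChar r χ) (hH2 : ∃ z : continuousH2 r (ofChar χ), z ≠ 0)
    (hL2 : Stmt_L2inj r χ)
    {y : G → M} (hy : y ∈ cocycles₁ M) (hyl : IsLevelConstant₁ r y)
    (horth : ∀ x : G → M.dualTwist χ, x ∈ cocycles₁ (M.dualTwist χ) → IsLevelConstant₁ r x →
      cupCochain χ M x y ∈ levelCoboundaries₂ r (ofChar χ)) :
    ∃ m : M, ∀ g, y g = M.ρ g m - m := by
  have hβ := evalPairing'_equivariant χ M
  refine isCoboundary_of_orthogonal (β := evalPairing' χ M) r hβ hy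
    (fun F => ⟨(Module.evalEquiv k M).symm F, fun f => ?_⟩)
    (fun m hm => (Module.forall_dual_apply_eq_zero_iff k m).1 hm) hH2
    (hL2 _ (extRep_finiteDimensional hβ hy)
      (extRep_isSmoothRep hβ hy (dualTwist_isSmoothRep hM hχ) hχ hyl)) ?_
  · have := congrArg (fun Φ : Module.Dual k (Module.Dual k M) => Φ f)
      ((Module.evalEquiv k M).apply_symm_apply F)
    exact this
  · intro x hx hxl
    have h1 := horth x hx hxl
    have h2 := cupCochain_add_cupCochain' χ M hx hy
    have h3 : (d₁₂ (ofChar χ : Rep.{u} k G)).hom (fun g => -((x g : M →ₗ[k] k) (y g)))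
        ∈ levelCoboundaries₂ r (ofChar χ) := by
      refine (mem_levelCoboundaries₂_iff r (ofChar χ) _).2 ⟨_, ?_, rfl⟩
      obtain ⟨F₁, hF₁, h₁⟩ := hxl
      obtain ⟨F₂, hF₂, h₂⟩ := hyl
      have := hF₁; have := hF₂
      refine ⟨F₁ ⊔ F₂, inferInstance, fun g s hs => ?_⟩
      have hs₁ : r s ∈ F₁.fixingSubgroup :=
        IntermediateField.fixingSubgroup_antitone le_sup_left hs
      have hs₂ : r s ∈ F₂.fixingSubgroup :=
        IntermediateField.fixingSubgroup_antitone le_sup_right hs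
      show -((x (g * s) : M →ₗ[k] k) (y (g * s))) = -((x g : M →ₗ[k] k) (y g))
      rw [h₁ g s hs₁, h₂ g s hs₂]
    have h4 : cupCochain' χ M y x
        = (d₁₂ (ofChar χ : Rep.{u} k G)).hom (fun g => -((x g : M →ₗ[k] k) (y g)))
          - cupCochain χ M x y := by
      rw [← h2]; abel
    have h5 : cupCochain' χ M y x ∈ levelCoboundaries₂ r (ofChar χ) := by
      rw [h4]; exact Submodule.sub_mem _ h3 h1
    exact h5

end Duality




end

end Fermat.Agent.S55.helper1447
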