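import Fermat.Agent.S55.helper7860_Cup
import Fermat.Agent.S55.helper1447_L3

/-!
# S55, leaf LS-L3 at the `H¹` level (`helper1447`)

The cup pairings of FW-CUP (`helper7860.cupH1`) for the evaluation pairings
`M' × M → T` and `M × M' → T` (`M' = M.dualTwist χ`, `T = ofChar χ`) on the frozen local carriers
`continuousH1 r`, `continuousH2 r` have trivial left and right kernels, as soon as
`continuousH2 r T ≠ 0` and `(L2)`-injectivity (`helper1447.Stmt_L2inj`) holds.
-/

set_option autoImplicit false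

open CategoryTheory groupCohomology

namespace Fermat.Agent.S55.helper1447

open Fermat.Agent.S55

universe u

variable {k G : Type u} [Field k] [Group G]
variable {r : G →* (AlgebraicClosure ℚ ≃ₐ[ℚ] AlgebraicClosure ℚ)} {χ : G →* kˣ}
variable {M : Rep.{u} k G}

lemma cup11_evalPairingSwap_eq (x : G → M.dualTwist χ) (y : G → M) :
    helper7860.cup11 (helper7860.evalPairingSwap M χ) x y = cupCochain χ M x y := rfl

lemma cup11_evalPairing_eq (y : G → M) (x : G → M.dualTwist χ) :
    helper7860.cup11 (helper7860.evalPairing M χ) y x = cupCochain' χ M y x := rfl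

/-- A class of `continuousH1 r A` represented by a level cocycle which is a coboundary is zero. -/
lemma toContinuousH1_eq_zero {A : Rep.{u} k G} (a : levelCocycles₁ r A)
    (h : ∃ m : A, ∀ g, a.1.1 g = A.ρ g m - m) : helper7860.toContinuousH1 r A a = 0 := by
  obtain ⟨m, hm⟩ := h
  apply Subtype.ext
  rw [helper7860.coe_toContinuousH1]
  change (H1π A).hom a.1 = 0
  rw [H1π_eq_zero_iff]
  exact ⟨m, funext fun g => (hm g).symm⟩

/-- **(L3) for `M' × M → T`, left kernel.** -/
theorem cupH1_swap_left_nondegenerate [FiniteDimensional k M] (hM : helper7860.IsSmoothAt r M)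
    (hχ : IsLevelChar r χ) (hH2 : ∃ z : continuousH2 r (ofChar χ), z ≠ 0)
    (hL2 : Stmt_L2inj r χ) (x : continuousH1 r (M.dualTwist χ))
    (h : ∀ y : continuousH1 r M,
      helper7860.cupH1 hM (helper7860.isEquivariantPairing_evalPairingSwap M χ) x y = 0) :
    x = 0 := by
  obtain ⟨a, rfl⟩ := helper7860.toContinuousH1_surjective r (M.dualTwist χ) x
  refine toContinuousH1_eq_zero a
    (cup_left_nondegenerate (r := r) hM hχ hH2 hL2 a.1.2 a.2 fun y hy hyl => ?_)
  have h1 := h (helper7860.toContinuousH1 r M ⟨⟨y, hy⟩, hyl⟩)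
  rw [helper7860.cupH1_mk, continuousH2π_eq_zero_iff] at h1
  exact h1

/-- **(L3) for `M' × M → T`, right kernel.** -/
theorem cupH1_swap_right_nondegenerate [FiniteDimensional k M] (hM : helper7860.IsSmoothAt r M)
    (hχ : IsLevelChar r χ) (hH2 : ∃ z : continuousH2 r (ofChar χ), z ≠ 0)
    (hL2 : Stmt_L2inj r χ) (y : continuousH1 r M)
    (h : ∀ x : continuousH1 r (M.dualTwist χ),
      helper7860.cupH1 hM (helper7860.isEquivariantPairing_evalPairingSwap M χ) x y = 0) :
    y = 0 := by
  obtain ⟨b, rfl⟩ := helper7860.toContinuousH1_surjective r M y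
  refine toContinuousH1_eq_zero b
    (cup_right_nondegenerate (r := r) hM hχ hH2 hL2 b.1.2 b.2 fun x hx hxl => ?_)
  have h1 := h (helper7860.toContinuousH1 r (M.dualTwist χ) ⟨⟨x, hx⟩, hxl⟩)
  rw [helper7860.cupH1_mk, continuousH2π_eq_zero_iff] at h1
  exact h1

/-- The two evaluation cup products differ by a sign on classes. -/
theorem cupH1_eval_eq_neg_swap (hM : helper7860.IsSmoothAt r M)
    (hM' : helper7860.IsSmoothAt r (M.dualTwist χ))
    (y : continuousH1 r M) (x : continuousH1 r (M.dualTwist χ)) :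
    helper7860.cupH1 hM' (helper7860.isEquivariantPairing_evalPairing M χ) y x
      = - helper7860.cupH1 hM (helper7860.isEquivariantPairing_evalPairingSwap M χ) x y := by
  obtain ⟨a, rfl⟩ := helper7860.toContinuousH1_surjective r (M.dualTwist χ) x
  obtain ⟨b, rfl⟩ := helper7860.toContinuousH1_surjective r M y
  rw [helper7860.cupH1_mk, helper7860.cupH1_mk, eq_neg_iff_add_eq_zero, ← map_add,
    continuousH2π_eq_zero_iff]
  have h2 := cupCochain_add_cupCochain' χ M a.1.2 b.1.2
  have h3 : ((helper7860.cupCocycle hM' (helper7860.isEquivariantPairing_evalPairing M χ) b a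
      + helper7860.cupCocycle hM (helper7860.isEquivariantPairing_evalPairingSwap M χ) a b :
        levelCocycles₂ r (ofChar χ)) : G × G → (ofChar χ : Rep.{u} k G))
      = (d₁₂ (ofChar χ : Rep.{u} k G)).hom
          (fun g => -((a.1.1 g : M →ₗ[k] k) (b.1.1 g))) := by
    rw [← h2, add_comm (cupCochain χ M _ _)]
    rfl
  rw [h3]
  refine (mem_levelCoboundaries₂_iff r (ofChar χ) _).2 ⟨_, ?_, rfl⟩
  obtain ⟨F₁, hF₁, h₁⟩ := a.2
  obtain ⟨F₂, hF₂, h₂⟩ := b.2
  have := hF₁; have := hF₂
  refine ⟨F₁ ⊔ F₂, inferInstance, fun g s hs => ?_⟩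
  have hs₁ : r s ∈ F₁.fixingSubgroup :=
    IntermediateField.fixingSubgroup_antitone le_sup_left hs
  have hs₂ : r s ∈ F₂.fixingSubgroup :=
    IntermediateField.fixingSubgroup_antitone le_sup_right hs
  show -((a.1.1 (g * s) : M →ₗ[k] k) (b.1.1 (g * s))) = -((a.1.1 g : M →ₗ[k] k) (b.1.1 g))
  have e1 : a.1.1 (g * s) = a.1.1 g := h₁ g s hs₁
  have e2 : b.1.1 (g * s) = b.1.1 g := h₂ g s hs₂
  rw [e1, e2]

/-- **(L3) for `M × M' → T`, left kernel.** -/
theorem cupH1_eval_left_nondegenerate [FiniteDimensional k M] (hM : helper7860.IsSmoothAt r M)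
    (hM' : helper7860.IsSmoothAt r (M.dualTwist χ))
    (hχ : IsLevelChar r χ) (hH2 : ∃ z : continuousH2 r (ofChar χ), z ≠ 0)
    (hL2 : Stmt_L2inj r χ) (y : continuousH1 r M)
    (h : ∀ x : continuousH1 r (M.dualTwist χ),
      helper7860.cupH1 hM' (helper7860.isEquivariantPairing_evalPairing M χ) y x = 0) :
    y = 0 :=
  cupH1_swap_right_nondegenerate hM hχ hH2 hL2 y fun x => by
    have := h x
    rw [cupH1_eval_eq_neg_swap hM hM', neg_eq_zero] at this
    exact this

/-- **(L3) for `M × M' → T`, right kernel.** -/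
theorem cupH1_eval_right_nondegenerate [FiniteDimensional k M] (hM : helper7860.IsSmoothAt r M)
    (hM' : helper7860.IsSmoothAt r (M.dualTwist χ))
    (hχ : IsLevelChar r χ) (hH2 : ∃ z : continuousH2 r (ofChar χ), z ≠ 0)
    (hL2 : Stmt_L2inj r χ) (x : continuousH1 r (M.dualTwist χ))
    (h : ∀ y : continuousH1 r M,
      helper7860.cupH1 hM' (helper7860.isEquivariantPairing_evalPairing M χ) y x = 0) :
    x = 0 :=
  cupH1_swap_left_nondegenerate hM hχ hH2 hL2 x fun y => by
    have := h y
    rw [cupH1_eval_eq_neg_swap hM hM', neg_eq_zero] at this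
    exact this

/-!
## Arbitrary perfect pairings, and restrictions of global modules

* `cupH1_left_kernel_trivial`, `cupH1_right_kernel_trivial`: for ANY perfect equivariant pairing
  `γ : B × A → T = ofChar χ`, the FW-CUP pairing `helper7860.cupH1 hA hγ` has trivial kernels.
* `res_cupH1_swap_left_trivial`, `res_cupH1_swap_right_trivial`, `res_cupH1_eval_left_trivial`,
  `res_cupH1_eval_right_trivial`: the shape consumed by step C of the squeeze: `M` a GLOBAL
  representation, `f : H →* Gal(ℚ̄/ℚ)` a local group; the localised cup products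
  `cupH1 (hB.res f) (hβ.res f)` of `helper7860.locRes₂S_cupH1S` have trivial kernels.
  (`Rep.res f (M.dualTwist χ)` is NOT definitionally `(Rep.res f M).dualTwist (χ.comp f)`, so the
  general form is needed.)
-/

section General

variable {k G : Type u} [Field k] [Group G]
variable {r : G →* (AlgebraicClosure ℚ ≃ₐ[ℚ] AlgebraicClosure ℚ)} {χ : G →* kˣ}
variable {A B : Rep.{u} k G}

/-- Graded commutativity on classes, for an arbitrary equivariant pairing. -/
theorem cupH1_flip_eq_neg {C : Rep.{u} k G} (hA : helper7860.IsSmoothAt r A)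
    (hB : helper7860.IsSmoothAt r B) {γ : B →ₗ[k] A →ₗ[k] C}
    (hγ : helper7860.IsEquivariantPairing γ) (y : continuousH1 r A) (x : continuousH1 r B) :
    helper7860.cupH1 hB hγ.flip y x = - helper7860.cupH1 hA hγ x y := by
  obtain ⟨a, rfl⟩ := helper7860.toContinuousH1_surjective r B x
  obtain ⟨b, rfl⟩ := helper7860.toContinuousH1_surjective r A y
  rw [helper7860.cupH1_mk, helper7860.cupH1_mk, eq_neg_iff_add_eq_zero, ← map_add,
    continuousH2π_eq_zero_iff]
  have h2 := helper7860.cup11_add_cup11_flip hγ a.1.2 b.1.2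
  have h3 : ((helper7860.cupCocycle hB hγ.flip b a + helper7860.cupCocycle hA hγ a b :
      levelCocycles₂ r C) : G × G → C)
      = (d₁₂ C).hom (fun g => - γ (a.1.1 g) (b.1.1 g)) := by
    rw [← h2, add_comm (helper7860.cup11 γ _ _)]
    rfl
  rw [h3]
  exact (mem_levelCoboundaries₂_iff r C _).2 ⟨_, (helper7860.levelConst₁_iff_isLevelConstant₁ r _).1
    (helper7860.levelConst₁_primitive_flip helper7860.isLevelClass_finiteDimensional γ
      ((helper7860.levelConst₁_iff_isLevelConstant₁ r _).2 a.2)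
      ((helper7860.levelConst₁_iff_isLevelConstant₁ r _).2 b.2)), rfl⟩

/-- **(L3), general form, left kernel.**  `γ : B × A → T = ofChar χ` equivariant with
`b ↦ γ b` bijective onto the dual of `A`. -/
theorem cupH1_left_kernel_trivial [FiniteDimensional k A] (hA : helper7860.IsSmoothAt r A)
    (hχ : IsLevelChar r χ) {γ : B →ₗ[k] A →ₗ[k] (ofChar χ : Rep.{u} k G)}
    (hγ : helper7860.IsEquivariantPairing γ)
    (hsurj : ∀ f : A →ₗ[k] k, ∃ b : B, ∀ a, γ b a = f a)
    (hinj : ∀ b : B, (∀ a, γ b a = 0) → b = 0)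
    (hH2 : ∃ z : continuousH2 r (ofChar χ), z ≠ 0) (hL2 : Stmt_L2inj r χ)
    (x : continuousH1 r B) (h : ∀ y : continuousH1 r A, helper7860.cupH1 hA hγ x y = 0) :
    x = 0 := by
  obtain ⟨a, rfl⟩ := helper7860.toContinuousH1_surjective r B x
  have hβ : ∀ g (m : A) (b : B), (γ.flip : A →ₗ[k] B →ₗ[k] k) (A.ρ g m) (B.ρ g b)
      = (χ g : k) * (γ.flip : A →ₗ[k] B →ₗ[k] k) m b := fun g m b => hγ g b m
  have hx : a.1.1 ∈ cocycles₁ B := a.1.2
  refine toContinuousH1_eq_zero a
    (isCoboundary_of_orthogonal (β := (γ.flip : A →ₗ[k] B →ₗ[k] k)) r hβ hx hsurj hinj hH2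
      (hL2 _ (extRep_finiteDimensional hβ hx) (extRep_isSmoothRep hβ hx hA hχ a.2))
      fun y hy hyl => ?_)
  have h1 := h (helper7860.toContinuousH1 r A ⟨⟨y, hy⟩, hyl⟩)
  rw [helper7860.cupH1_mk, continuousH2π_eq_zero_iff] at h1
  exact h1

/-- **(L3), general form, right kernel.**  `γ : B × A → T = ofChar χ` equivariant with
`a ↦ γ (·) a` bijective onto the dual of `B`. -/
theorem cupH1_right_kernel_trivial [FiniteDimensional k B] (hA : helper7860.IsSmoothAt r A)
    (hB : helper7860.IsSmoothAt r B)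
    (hχ : IsLevelChar r χ) {γ : B →ₗ[k] A →ₗ[k] (ofChar χ : Rep.{u} k G)}
    (hγ : helper7860.IsEquivariantPairing γ)
    (hsurj : ∀ f : B →ₗ[k] k, ∃ a : A, ∀ b, γ b a = f b)
    (hinj : ∀ a : A, (∀ b, γ b a = 0) → a = 0)
    (hH2 : ∃ z : continuousH2 r (ofChar χ), z ≠ 0) (hL2 : Stmt_L2inj r χ)
    (y : continuousH1 r A) (h : ∀ x : continuousH1 r B, helper7860.cupH1 hA hγ x y = 0) :
    y = 0 :=
  cupH1_left_kernel_trivial (γ := γ.flip) hB hχ hγ.flip hsurj hinj hH2 hL2 y fun x => by
    rw [cupH1_flip_eq_neg hA hB hγ, h x, neg_zero]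

end General

section Restricted

variable {k : Type} [Field k] {H : Type} [Group H]
variable (f : H →* (AlgebraicClosure ℚ ≃ₐ[ℚ] AlgebraicClosure ℚ))
variable (χ : (AlgebraicClosure ℚ ≃ₐ[ℚ] AlgebraicClosure ℚ) →* kˣ)
variable (M : Rep.{0} k (AlgebraicClosure ℚ ≃ₐ[ℚ] AlgebraicClosure ℚ))

/-- The frozen smoothness hypothesis `hsm` restricts to every local group. -/
lemma isSmoothAt_res_of_hsm
    (hsm : ∀ m : M, ∃ F : IntermediateField ℚ (AlgebraicClosure ℚ), FiniteDimensional ℚ F ∧
      ∀ s ∈ F.fixingSubgroup, M.ρ s m = m) : helper7860.IsSmoothAt f (Rep.res f M) := by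
  intro m
  obtain ⟨F, hF, h⟩ := hsm m
  exact ⟨F, hF, fun s hs => h (f s) hs⟩

/-- A global level character restricts to a level character of every local group. -/
lemma isLevelChar_comp
    (hχ : ∃ F : IntermediateField ℚ (AlgebraicClosure ℚ), FiniteDimensional ℚ F ∧
      ∀ s ∈ F.fixingSubgroup, χ s = 1) : IsLevelChar f (χ.comp f) := by
  obtain ⟨F, hF, h⟩ := hχ
  exact ⟨F, hF, fun s hs => h (f s) hs⟩

variable {f χ M}

/-- **(L3) localised, `M' × M → T`, left kernel** (the shape of `helper7860.locRes₂S_cupH1S`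
for `β = evalPairingSwap M χ`). -/
theorem res_cupH1_swap_left_trivial [FiniteDimensional k M]
    (hM : helper7860.IsSmoothAt f (Rep.res f M)) (hχ : IsLevelChar f (χ.comp f))
    (hH2 : ∃ z : continuousH2 f (ofChar (χ.comp f)), z ≠ 0) (hL2 : Stmt_L2inj f (χ.comp f))
    (x : continuousH1 f (Rep.res f (M.dualTwist χ)))
    (h : ∀ y : continuousH1 f (Rep.res f M),
      helper7860.cupH1 hM ((helper7860.isEquivariantPairing_evalPairingSwap M χ).res f) x y = 0) :
    x = 0 := by
  have : FiniteDimensional k (Rep.res f M) := inferInstanceAs (FiniteDimensional k M)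
  exact cupH1_left_kernel_trivial (χ := χ.comp f) (A := Rep.res f M)
    (B := Rep.res f (M.dualTwist χ)) hM hχ
    (γ := helper7860.resPairing f (helper7860.evalPairingSwap M χ))
    ((helper7860.isEquivariantPairing_evalPairingSwap M χ).res f)
    (fun φ => ⟨φ, fun a => rfl⟩) (fun b hb => LinearMap.ext hb) hH2 hL2 x h

/-- **(L3) localised, `M' × M → T`, right kernel.** -/
theorem res_cupH1_swap_right_trivial [FiniteDimensional k M]
    (hM : helper7860.IsSmoothAt f (Rep.res f M))
    (hM' : helper7860.IsSmoothAt f (Rep.res f (M.dualTwist χ)))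
    (hχ : IsLevelChar f (χ.comp f))
    (hH2 : ∃ z : continuousH2 f (ofChar (χ.comp f)), z ≠ 0) (hL2 : Stmt_L2inj f (χ.comp f))
    (y : continuousH1 f (Rep.res f M))
    (h : ∀ x : continuousH1 f (Rep.res f (M.dualTwist χ)),
      helper7860.cupH1 hM ((helper7860.isEquivariantPairing_evalPairingSwap M χ).res f) x y = 0) :
    y = 0 := by
  have : FiniteDimensional k (Rep.res f (M.dualTwist χ)) :=
    inferInstanceAs (FiniteDimensional k (Module.Dual k M))
  exact cupH1_right_kernel_trivial (χ := χ.comp f) (A := Rep.res f M)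
    (B := Rep.res f (M.dualTwist χ)) hM hM' hχ
    (γ := helper7860.resPairing f (helper7860.evalPairingSwap M χ))
    ((helper7860.isEquivariantPairing_evalPairingSwap M χ).res f)
    (fun F => ⟨(Module.evalEquiv k M).symm F, fun b =>
      congrArg (fun Φ : Module.Dual k (Module.Dual k M) => Φ b)
        ((Module.evalEquiv k M).apply_symm_apply F)⟩)
    (fun m hm => (Module.forall_dual_apply_eq_zero_iff k m).1 hm) hH2 hL2 y h

/-- **(L3) localised, `M × M' → T`, left kernel** (`β = evalPairing M χ`). -/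
theorem res_cupH1_eval_left_trivial [FiniteDimensional k M]
    (hM' : helper7860.IsSmoothAt f (Rep.res f (M.dualTwist χ)))
    (hχ : IsLevelChar f (χ.comp f))
    (hH2 : ∃ z : continuousH2 f (ofChar (χ.comp f)), z ≠ 0) (hL2 : Stmt_L2inj f (χ.comp f))
    (y : continuousH1 f (Rep.res f M))
    (h : ∀ x : continuousH1 f (Rep.res f (M.dualTwist χ)),
      helper7860.cupH1 hM' ((helper7860.isEquivariantPairing_evalPairing M χ).res f) y x = 0) :
    y = 0 := by
  have : FiniteDimensional k (Rep.res f (M.dualTwist χ)) :=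
    inferInstanceAs (FiniteDimensional k (Module.Dual k M))
  exact cupH1_left_kernel_trivial (χ := χ.comp f) (A := Rep.res f (M.dualTwist χ))
    (B := Rep.res f M) hM' hχ
    (γ := helper7860.resPairing f (helper7860.evalPairing M χ))
    ((helper7860.isEquivariantPairing_evalPairing M χ).res f)
    (fun F => ⟨(Module.evalEquiv k M).symm F, fun b =>
      congrArg (fun Φ : Module.Dual k (Module.Dual k M) => Φ b)
        ((Module.evalEquiv k M).apply_symm_apply F)⟩)
    (fun m hm => (Module.forall_dual_apply_eq_zero_iff k m).1 hm) hH2 hL2 y h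

/-- **(L3) localised, `M × M' → T`, right kernel.** -/
theorem res_cupH1_eval_right_trivial [FiniteDimensional k M]
    (hM : helper7860.IsSmoothAt f (Rep.res f M))
    (hM' : helper7860.IsSmoothAt f (Rep.res f (M.dualTwist χ)))
    (hχ : IsLevelChar f (χ.comp f))
    (hH2 : ∃ z : continuousH2 f (ofChar (χ.comp f)), z ≠ 0) (hL2 : Stmt_L2inj f (χ.comp f))
    (x : continuousH1 f (Rep.res f (M.dualTwist χ)))
    (h : ∀ y : continuousH1 f (Rep.res f M),
      helper7860.cupH1 hM' ((helper7860.isEquivariantPairing_evalPairing M χ).res f) y x = 0) :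
    x = 0 := by
  have : FiniteDimensional k (Rep.res f M) := inferInstanceAs (FiniteDimensional k M)
  exact cupH1_right_kernel_trivial (χ := χ.comp f) (A := Rep.res f (M.dualTwist χ))
    (B := Rep.res f M) hM' hM hχ
    (γ := helper7860.resPairing f (helper7860.evalPairing M χ))
    ((helper7860.isEquivariantPairing_evalPairing M χ).res f)
    (fun φ => ⟨φ, fun a => rfl⟩) (fun b hb => LinearMap.ext hb) hH2 hL2 x h

end Restricted

end Fermat.Agent.S55.helper1447
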