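/-
S55-CUP (helper7860): cup products in degree (1,1) on the frozen carriers, cochain level.
Mathlib + Prelude only.
-/
import Mathlib
import Fermat.Prelude.Def_GroupCohomology_ContinuousUnramified

set_option autoImplicit false

namespace Fermat.Agent.S55.helper7860

open groupCohomology

universe u

section Cochain

variable {k G : Type u} [CommRing k] [Group G] {A B C : Rep k G}

/-- `β` is `G`-equivariant: `β (g a) (g b) = g (β a b)`. -/
def IsEquivariantPairing (β : A →ₗ[k] B →ₗ[k] C) : Prop :=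
  ∀ (g : G) (a : A) (b : B), β (A.ρ g a) (B.ρ g b) = C.ρ g (β a b)

/-- The cup product of two inhomogeneous 1-cochains along a bilinear pairing:
`(a ∪ b)(g, h) = β (a g) (g • b h)`. -/
def cup11 (β : A →ₗ[k] B →ₗ[k] C) (a : G → A) (b : G → B) : G × G → C :=
  fun x => β (a x.1) (B.ρ x.1 (b x.2))

@[simp] lemma cup11_apply (β : A →ₗ[k] B →ₗ[k] C) (a : G → A) (b : G → B) (g h : G) :
    cup11 β a b (g, h) = β (a g) (B.ρ g (b h)) := rfl

lemma cup11_add_left (β : A →ₗ[k] B →ₗ[k] C) (a a' : G → A) (b : G → B) :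
    cup11 β (a + a') b = cup11 β a b + cup11 β a' b := by
  funext x; simp [cup11]

lemma cup11_add_right (β : A →ₗ[k] B →ₗ[k] C) (a : G → A) (b b' : G → B) :
    cup11 β a (b + b') = cup11 β a b + cup11 β a b' := by
  funext x; simp [cup11]

lemma cup11_smul_left (β : A →ₗ[k] B →ₗ[k] C) (c : k) (a : G → A) (b : G → B) :
    cup11 β (c • a) b = c • cup11 β a b := by
  funext x; simp [cup11]

lemma cup11_smul_right (β : A →ₗ[k] B →ₗ[k] C) (c : k) (a : G → A) (b : G → B) :
    cup11 β a (c • b) = c • cup11 β a b := by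
  funext x; simp [cup11]

/-- The cup product as a bilinear map on 1-cochains. -/
def cup11Lin (β : A →ₗ[k] B →ₗ[k] C) : (G → A) →ₗ[k] (G → B) →ₗ[k] (G × G → C) :=
  LinearMap.mk₂ k (cup11 β) (cup11_add_left β) (cup11_smul_left β) (cup11_add_right β)
    (cup11_smul_right β)

@[simp] lemma cup11Lin_apply (β : A →ₗ[k] B →ₗ[k] C) (a : G → A) (b : G → B) :
    cup11Lin β a b = cup11 β a b := rfl

/-- The cup product of two 1-cocycles is a 2-cocycle. -/
theorem cup11_mem_cocycles₂ {β : A →ₗ[k] B →ₗ[k] C} (hβ : IsEquivariantPairing β)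
    {a : G → A} {b : G → B} (ha : a ∈ cocycles₁ A) (hb : b ∈ cocycles₁ B) :
    cup11 β a b ∈ cocycles₂ C := by
  rw [mem_cocycles₁_iff] at ha hb
  rw [mem_cocycles₂_iff]
  intro g h j
  simp only [cup11_apply]
  rw [ha g h, hb h j, ← hβ g (a h) (B.ρ h (b j))]
  simp only [map_add, LinearMap.add_apply, map_mul, Module.End.mul_apply]
  abel

/-- `d⁰ m ∪ b = d¹ (g ↦ β m (b g))` for a 1-cocycle `b`. -/
theorem cup11_d₀₁_left {β : A →ₗ[k] B →ₗ[k] C} (hβ : IsEquivariantPairing β)
    (m : A) {b : G → B} (hb : b ∈ cocycles₁ B) :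
    cup11 β ((d₀₁ A).hom m) b = (d₁₂ C).hom (fun g => β m (b g)) := by
  rw [mem_cocycles₁_iff] at hb
  funext ⟨g, h⟩
  simp only [cup11_apply, d₀₁_hom_apply, d₁₂_hom_apply]
  rw [hb g h, ← hβ g m (b h)]
  simp only [map_add, map_sub, LinearMap.sub_apply]
  abel

/-- `a ∪ d⁰ n = d¹ (g ↦ - β (a g) (g • n))` for a 1-cocycle `a`. -/
theorem cup11_d₀₁_right {β : A →ₗ[k] B →ₗ[k] C} (hβ : IsEquivariantPairing β)
    {a : G → A} (ha : a ∈ cocycles₁ A) (n : B) :
    cup11 β a ((d₀₁ B).hom n) = (d₁₂ C).hom (fun g => - β (a g) (B.ρ g n)) := by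
  rw [mem_cocycles₁_iff] at ha
  funext ⟨g, h⟩
  simp only [cup11_apply, d₀₁_hom_apply, d₁₂_hom_apply]
  rw [ha g h, map_neg, ← hβ g (a h) (B.ρ h n)]
  simp only [map_add, map_sub, LinearMap.add_apply, map_mul, Module.End.mul_apply]
  abel

/-- Graded commutativity at cochain level:
`a ∪ b + b ∪' a = - d¹ (g ↦ β (a g) (b g))`, where `∪'` is the cup product along `β.flip`. -/
theorem cup11_add_cup11_flip {β : A →ₗ[k] B →ₗ[k] C} (hβ : IsEquivariantPairing β)
    {a : G → A} {b : G → B} (ha : a ∈ cocycles₁ A) (hb : b ∈ cocycles₁ B) :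
    cup11 β a b + cup11 β.flip b a = (d₁₂ C).hom (fun g => - β (a g) (b g)) := by
  rw [mem_cocycles₁_iff] at ha hb
  funext ⟨g, h⟩
  simp only [Pi.add_apply, cup11_apply, LinearMap.flip_apply, d₁₂_hom_apply]
  rw [ha g h, hb g h, map_neg, ← hβ g (a h) (b h)]
  simp only [map_add, LinearMap.add_apply]
  abel

lemma IsEquivariantPairing.flip {β : A →ₗ[k] B →ₗ[k] C} (hβ : IsEquivariantPairing β) :
    IsEquivariantPairing β.flip :=
  fun g b a => hβ g a b

end Cochain

/-! ### Level systems: one proof for the global `S`-levels and the local levels -/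

section Level

/-- A class of admissible levels (number fields inside `AlgebraicClosure ℚ`). -/
structure IsLevelClass (P : IntermediateField ℚ (AlgebraicClosure ℚ) → Prop) : Prop where
  finite : ∀ F, P F → FiniteDimensional ℚ F
  bot : P ⊥
  sup : ∀ F F', P F → P F' → P (F ⊔ F')

lemma isLevelClass_finiteDimensional :
    IsLevelClass (fun F : IntermediateField ℚ (AlgebraicClosure ℚ) => FiniteDimensional ℚ F) where
  finite _ h := h
  bot := inferInstance
  sup F F' h h' := by haveI := h; haveI := h'; exact inferInstance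

lemma isLevelClass_isUnramifiedOutside (S : Finset Nat.Primes) :
    IsLevelClass (fun F : IntermediateField ℚ (AlgebraicClosure ℚ) => F.IsUnramifiedOutside S) where
  finite _ h := h.1
  bot := IntermediateField.isUnramifiedOutside_bot S
  sup _ _ h h' := h.sup h'

variable {G : Type u} [Group G] (r : G →* (AlgebraicClosure ℚ ≃ₐ[ℚ] AlgebraicClosure ℚ))
  (P : IntermediateField ℚ (AlgebraicClosure ℚ) → Prop)

/-- A function on `G` is constant on the right cosets of the preimage of some level in `P`. -/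
def LevelConst₁ {X : Type*} (f : G → X) : Prop :=
  ∃ F : IntermediateField ℚ (AlgebraicClosure ℚ), P F ∧
    ∀ g s : G, r s ∈ F.fixingSubgroup → f (g * s) = f g

/-- Two-variable version of `LevelConst₁`. -/
def LevelConst₂ {X : Type*} (f : G × G → X) : Prop :=
  ∃ F : IntermediateField ℚ (AlgebraicClosure ℚ), P F ∧
    ∀ g g' s s' : G, r s ∈ F.fixingSubgroup → r s' ∈ F.fixingSubgroup →
      f (g * s, g' * s') = f (g, g')

lemma levelConst₁_iff_isLevelConstant₁ {X : Type*} (f : G → X) :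
    LevelConst₁ r (fun F => FiniteDimensional ℚ F) f ↔ IsLevelConstant₁ r f := Iff.rfl

lemma levelConst₂_iff_isLevelConstant₂ {X : Type*} (f : G × G → X) :
    LevelConst₂ r (fun F => FiniteDimensional ℚ F) f ↔ IsLevelConstant₂ r f := Iff.rfl

lemma levelConst₁_iff_isLevelConstantS₁ (S : Finset Nat.Primes) {X : Type*}
    (f : (AlgebraicClosure ℚ ≃ₐ[ℚ] AlgebraicClosure ℚ) → X) :
    LevelConst₁ (MonoidHom.id _) (fun F => F.IsUnramifiedOutside S) f ↔ IsLevelConstantS₁ S f :=
  Iff.rfl

lemma levelConst₂_iff_isLevelConstantS₂ (S : Finset Nat.Primes) {X : Type*}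
    (f : (AlgebraicClosure ℚ ≃ₐ[ℚ] AlgebraicClosure ℚ) × (AlgebraicClosure ℚ ≃ₐ[ℚ] AlgebraicClosure ℚ) → X) :
    LevelConst₂ (MonoidHom.id _) (fun F => F.IsUnramifiedOutside S) f ↔ IsLevelConstantS₂ S f :=
  Iff.rfl

variable {r P}

/-- A level-constant function takes only finitely many values. -/
lemma LevelConst₁.finite_range (hP : IsLevelClass P) {X : Type*} {f : G → X}
    (hf : LevelConst₁ r P f) : (Set.range f).Finite := by
  obtain ⟨F, hF, h⟩ := hf
  haveI := hP.finite F hF
  let res : G → (F →ₐ[ℚ] AlgebraicClosure ℚ) :=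
    fun g => ((r g : AlgebraicClosure ℚ ≃ₐ[ℚ] AlgebraicClosure ℚ) :
      AlgebraicClosure ℚ →ₐ[ℚ] AlgebraicClosure ℚ).comp F.val
  have key : ∀ g g', res g = res g' → f g = f g' := by
    intro g g' hgg
    have hmem : r (g⁻¹ * g') ∈ F.fixingSubgroup := by
      rw [IntermediateField.mem_fixingSubgroup_iff]
      intro x hx
      have h1 : r g x = r g' x := DFunLike.congr_fun hgg ⟨x, hx⟩
      rw [map_mul, map_inv, AlgEquiv.mul_apply, ← h1]
      exact (r g).symm_apply_apply x
    have h2 := h g (g⁻¹ * g') hmem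
    rw [mul_inv_cancel_left] at h2
    exact h2.symm
  haveI : Finite (Set.range res) := Finite.of_injective (fun x => x.1) Subtype.val_injective
  refine (Set.finite_range (fun q : Set.range res => f q.2.choose)).subset ?_
  rintro _ ⟨g, rfl⟩
  exact ⟨⟨res g, g, rfl⟩, key _ _ (Exists.choose_spec (⟨g, rfl⟩ : ∃ y, res y = res g))⟩

variable {k : Type u} [CommRing k]

variable (r P) in
/-- Every vector of `B` is fixed by the preimage of some level in `P`. -/
def SmoothRep (B : Rep k G) : Prop :=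
  ∀ b : B, ∃ F : IntermediateField ℚ (AlgebraicClosure ℚ), P F ∧
    ∀ s : G, r s ∈ F.fixingSubgroup → B.ρ s b = b

/-- Finitely many vectors of a smooth representation are fixed by a common level. -/
lemma SmoothRep.exists_level_of_finite (hP : IsLevelClass P) {B : Rep k G} (hB : SmoothRep r P B)
    {T : Set B} (hT : T.Finite) :
    ∃ F : IntermediateField ℚ (AlgebraicClosure ℚ), P F ∧
      ∀ s : G, r s ∈ F.fixingSubgroup → ∀ x ∈ T, B.ρ s x = x := by
  induction T, hT using Set.Finite.induction_on with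
  | empty => exact ⟨⊥, hP.bot, fun _ _ x hx => absurd hx (Set.notMem_empty x)⟩
  | @insert x T _ _ ih =>
    obtain ⟨F, hF, h⟩ := ih
    obtain ⟨F', hF', h'⟩ := hB x
    refine ⟨F ⊔ F', hP.sup _ _ hF hF', fun s hs y hy => ?_⟩
    rcases Set.mem_insert_iff.1 hy with rfl | hy
    · exact h' s (IntermediateField.fixingSubgroup_antitone le_sup_right hs)
    · exact h s (IntermediateField.fixingSubgroup_antitone le_sup_left hs) y hy

variable {A B C : Rep k G}

/-- The cup product of level-constant 1-cochains is level-constant, if `B` is smooth. -/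
theorem cup11_levelConst₂ (hP : IsLevelClass P) (hB : SmoothRep r P B) (β : A →ₗ[k] B →ₗ[k] C)
    {a : G → A} {b : G → B} (ha : LevelConst₁ r P a) (hb : LevelConst₁ r P b) :
    LevelConst₂ r P (cup11 β a b) := by
  obtain ⟨F₃, hF₃, h₃⟩ := hB.exists_level_of_finite hP (hb.finite_range hP)
  obtain ⟨F₁, hF₁, h₁⟩ := ha
  obtain ⟨F₂, hF₂, h₂⟩ := hb
  refine ⟨F₁ ⊔ F₂ ⊔ F₃, hP.sup _ _ (hP.sup _ _ hF₁ hF₂) hF₃, fun g g' s s' hs hs' => ?_⟩
  have hs₁ : r s ∈ F₁.fixingSubgroup :=
    IntermediateField.fixingSubgroup_antitone (le_sup_left.trans le_sup_left) hs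
  have hs₂ : r s' ∈ F₂.fixingSubgroup :=
    IntermediateField.fixingSubgroup_antitone (le_sup_right.trans le_sup_left) hs'
  have hs₃ : r s ∈ F₃.fixingSubgroup := IntermediateField.fixingSubgroup_antitone le_sup_right hs
  simp only [cup11_apply]
  rw [h₁ g s hs₁, h₂ g' s' hs₂, map_mul, Module.End.mul_apply, h₃ s hs₃ _ ⟨g', rfl⟩]

/-- The primitive of `d⁰ m ∪ b` is level-constant. -/
lemma levelConst₁_primitive_left (β : A →ₗ[k] B →ₗ[k] C) (m : A) {b : G → B}
    (hb : LevelConst₁ r P b) : LevelConst₁ r P (fun g => β m (b g)) := by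
  obtain ⟨F, hF, h⟩ := hb
  exact ⟨F, hF, fun g s hs => by simp only [h g s hs]⟩

/-- The primitive of `a ∪ d⁰ n` is level-constant, if `B` is smooth. -/
lemma levelConst₁_primitive_right (hP : IsLevelClass P) (hB : SmoothRep r P B)
    (β : A →ₗ[k] B →ₗ[k] C) {a : G → A} (ha : LevelConst₁ r P a) (n : B) :
    LevelConst₁ r P (fun g => - β (a g) (B.ρ g n)) := by
  obtain ⟨F, hF, h⟩ := ha
  obtain ⟨F', hF', h'⟩ := hB n
  refine ⟨F ⊔ F', hP.sup _ _ hF hF', fun g s hs => ?_⟩
  simp only
  rw [h g s (IntermediateField.fixingSubgroup_antitone le_sup_left hs), map_mul,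
    Module.End.mul_apply, h' s (IntermediateField.fixingSubgroup_antitone le_sup_right hs)]

/-- The primitive in the graded-commutativity formula is level-constant. -/
lemma levelConst₁_primitive_flip (hP : IsLevelClass P) (β : A →ₗ[k] B →ₗ[k] C)
    {a : G → A} {b : G → B} (ha : LevelConst₁ r P a) (hb : LevelConst₁ r P b) :
    LevelConst₁ r P (fun g => - β (a g) (b g)) := by
  obtain ⟨F, hF, h⟩ := ha
  obtain ⟨F', hF', h'⟩ := hb
  refine ⟨F ⊔ F', hP.sup _ _ hF hF', fun g s hs => ?_⟩
  simp only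
  rw [h g s (IntermediateField.fixingSubgroup_antitone le_sup_left hs),
    h' g s (IntermediateField.fixingSubgroup_antitone le_sup_right hs)]

end Level

/-! ### Descent of a bilinear map along two surjections -/

section Descent

variable {k : Type*} [CommRing k] {ZA ZB HA HB T : Type*}
  [AddCommGroup ZA] [Module k ZA] [AddCommGroup ZB] [Module k ZB]
  [AddCommGroup HA] [Module k HA] [AddCommGroup HB] [Module k HB]
  [AddCommGroup T] [Module k T]

lemma bilin_congr_of_vanish (pA : ZA →ₗ[k] HA) (pB : ZB →ₗ[k] HB) (f : ZA →ₗ[k] ZB →ₗ[k] T)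
    (hA : ∀ a, pA a = 0 → ∀ b, f a b = 0) (hB : ∀ b, pB b = 0 → ∀ a, f a b = 0)
    {a a' : ZA} {b b' : ZB} (ha : pA a = pA a') (hb : pB b = pB b') : f a b = f a' b' := by
  have h1 : f (a - a') b = 0 := hA _ (by rw [map_sub, ha, sub_self]) b
  have h2 : f a' (b - b') = 0 := hB _ (by rw [map_sub, hb, sub_self]) a'
  rw [map_sub, LinearMap.sub_apply, sub_eq_zero] at h1
  rw [map_sub, sub_eq_zero] at h2
  rw [h1, h2]

/-- A bilinear map vanishing on the kernels of two surjections descends. -/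
noncomputable def bilinDescent (pA : ZA →ₗ[k] HA) (pB : ZB →ₗ[k] HB)
    (hpA : Function.Surjective pA) (hpB : Function.Surjective pB) (f : ZA →ₗ[k] ZB →ₗ[k] T)
    (hA : ∀ a, pA a = 0 → ∀ b, f a b = 0) (hB : ∀ b, pB b = 0 → ∀ a, f a b = 0) :
    HA →ₗ[k] HB →ₗ[k] T :=
  LinearMap.mk₂ k (fun x y => f (Function.surjInv hpA x) (Function.surjInv hpB y))
    (fun x x' y => by
      rw [← LinearMap.add_apply, ← map_add]
      exact bilin_congr_of_vanish pA pB f hA hB
        (by rw [map_add]; simp only [Function.surjInv_eq]) rfl)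
    (fun c x y => by
      rw [← LinearMap.smul_apply, ← map_smul]
      exact bilin_congr_of_vanish pA pB f hA hB
        (by rw [map_smul]; simp only [Function.surjInv_eq]) rfl)
    (fun x y y' => by
      rw [← map_add]
      exact bilin_congr_of_vanish pA pB f hA hB rfl
        (by rw [map_add]; simp only [Function.surjInv_eq]))
    (fun c x y => by
      rw [← map_smul]
      exact bilin_congr_of_vanish pA pB f hA hB rfl
        (by rw [map_smul]; simp only [Function.surjInv_eq]))

lemma bilinDescent_apply (pA : ZA →ₗ[k] HA) (pB : ZB →ₗ[k] HB)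
    (hpA : Function.Surjective pA) (hpB : Function.Surjective pB) (f : ZA →ₗ[k] ZB →ₗ[k] T)
    (hA : ∀ a, pA a = 0 → ∀ b, f a b = 0) (hB : ∀ b, pB b = 0 → ∀ a, f a b = 0)
    (a : ZA) (b : ZB) : bilinDescent pA pB hpA hpB f hA hB (pA a) (pB b) = f a b :=
  bilin_congr_of_vanish pA pB f hA hB (Function.surjInv_eq hpA _) (Function.surjInv_eq hpB _)

end Descent

/-! ### The global `S`-carriers -/

section GlobalS

variable (S : Finset Nat.Primes) {k : Type} [CommRing k]
  {A B C : Rep k (AlgebraicClosure ℚ ≃ₐ[ℚ] AlgebraicClosure ℚ)}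

/-- `B` is a discrete `G_{ℚ,S}`-module: every vector is fixed by `Gal(ℚ̄/F)` for some number
field `F` unramified outside `S`.  (Stated unfolded in all theorems below.) -/
def IsSmoothS (B : Rep k (AlgebraicClosure ℚ ≃ₐ[ℚ] AlgebraicClosure ℚ)) : Prop :=
  ∀ b : B, ∃ F : IntermediateField ℚ (AlgebraicClosure ℚ), F.IsUnramifiedOutside S ∧
    ∀ s ∈ F.fixingSubgroup, B.ρ s b = b

variable {S}

lemma IsSmoothS.smoothRep (hB : IsSmoothS S B) :
    SmoothRep (MonoidHom.id _) (fun F => F.IsUnramifiedOutside S) B := hB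

theorem cup11_isLevelConstantS₂ (hB : IsSmoothS S B) (β : A →ₗ[k] B →ₗ[k] C)
    {a : (AlgebraicClosure ℚ ≃ₐ[ℚ] AlgebraicClosure ℚ) → A}
    {b : (AlgebraicClosure ℚ ≃ₐ[ℚ] AlgebraicClosure ℚ) → B}
    (ha : IsLevelConstantS₁ S a) (hb : IsLevelConstantS₁ S b) :
    IsLevelConstantS₂ S (cup11 β a b) :=
  (levelConst₂_iff_isLevelConstantS₂ S _).1
    (cup11_levelConst₂ (isLevelClass_isUnramifiedOutside S) hB.smoothRep β
      ((levelConst₁_iff_isLevelConstantS₁ S _).2 ha) ((levelConst₁_iff_isLevelConstantS₁ S _).2 hb))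

/-- The cup product of `S`-level 1-cocycles, as an `S`-level 2-cocycle. -/
noncomputable def cupCocycleS (hB : IsSmoothS S B) {β : A →ₗ[k] B →ₗ[k] C} (hβ : IsEquivariantPairing β)
    (a : levelCocyclesS₁ S A) (b : levelCocyclesS₁ S B) : levelCocyclesS₂ S C :=
  ⟨cup11 β a.1.1 b.1.1, cup11_mem_cocycles₂ hβ a.1.2 b.1.2, cup11_isLevelConstantS₂ hB β a.2 b.2⟩

@[simp] lemma coe_cupCocycleS (hB : IsSmoothS S B) {β : A →ₗ[k] B →ₗ[k] C}
    (hβ : IsEquivariantPairing β) (a : levelCocyclesS₁ S A) (b : levelCocyclesS₁ S B) :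
    (cupCocycleS hB hβ a b : (AlgebraicClosure ℚ ≃ₐ[ℚ] AlgebraicClosure ℚ) ×
      (AlgebraicClosure ℚ ≃ₐ[ℚ] AlgebraicClosure ℚ) → C) = cup11 β a.1.1 b.1.1 := rfl

/-- The cup product of `S`-level 1-cocycles, as a bilinear map into `H²(G_S, C)`. -/
noncomputable def cupZS (hB : IsSmoothS S B) {β : A →ₗ[k] B →ₗ[k] C} (hβ : IsEquivariantPairing β) :
    levelCocyclesS₁ S A →ₗ[k] levelCocyclesS₁ S B →ₗ[k] continuousH2S S C :=
  LinearMap.mk₂ k (fun a b => continuousH2Sπ S C (cupCocycleS hB hβ a b))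
    (fun a a' b => by
      rw [← map_add]; congr 1; apply Subtype.ext
      exact cup11_add_left β _ _ _)
    (fun c a b => by
      rw [← map_smul]; congr 1; apply Subtype.ext
      exact cup11_smul_left β c _ _)
    (fun a b b' => by
      rw [← map_add]; congr 1; apply Subtype.ext
      exact cup11_add_right β _ _ _)
    (fun c a b => by
      rw [← map_smul]; congr 1; apply Subtype.ext
      exact cup11_smul_right β c _ _)

lemma cupZS_apply (hB : IsSmoothS S B) {β : A →ₗ[k] B →ₗ[k] C} (hβ : IsEquivariantPairing β)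
    (a : levelCocyclesS₁ S A) (b : levelCocyclesS₁ S B) :
    cupZS hB hβ a b = continuousH2Sπ S C (cupCocycleS hB hβ a b) := rfl

/-- If `a` is a coboundary then `a ∪ b = 0` in `H²(G_S, C)`. -/
theorem cupZS_eq_zero_of_left (hB : IsSmoothS S B) {β : A →ₗ[k] B →ₗ[k] C}
    (hβ : IsEquivariantPairing β) (a : levelCocyclesS₁ S A) (b : levelCocyclesS₁ S B)
    (ha : (H1π A).hom a.1 = 0) : cupZS hB hβ a b = 0 := by
  rw [cupZS_apply, continuousH2Sπ_eq_zero_iff, coe_cupCocycleS]
  obtain ⟨m, hm⟩ := (H1π_eq_zero_iff a.1).1 ha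
  have hm' : a.1.1 = (d₀₁ A).hom m := hm.symm
  rw [hm', cup11_d₀₁_left hβ m b.1.2]
  exact (mem_levelCoboundariesS₂_iff S C _).2
    ⟨_, (levelConst₁_iff_isLevelConstantS₁ S _).1
      (levelConst₁_primitive_left β m ((levelConst₁_iff_isLevelConstantS₁ S _).2 b.2)), rfl⟩

/-- If `b` is a coboundary then `a ∪ b = 0` in `H²(G_S, C)`. -/
theorem cupZS_eq_zero_of_right (hB : IsSmoothS S B) {β : A →ₗ[k] B →ₗ[k] C}
    (hβ : IsEquivariantPairing β) (a : levelCocyclesS₁ S A) (b : levelCocyclesS₁ S B)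
    (hb : (H1π B).hom b.1 = 0) : cupZS hB hβ a b = 0 := by
  rw [cupZS_apply, continuousH2Sπ_eq_zero_iff, coe_cupCocycleS]
  obtain ⟨n, hn⟩ := (H1π_eq_zero_iff b.1).1 hb
  have hn' : b.1.1 = (d₀₁ B).hom n := hn.symm
  rw [hn', cup11_d₀₁_right hβ a.1.2 n]
  exact (mem_levelCoboundariesS₂_iff S C _).2
    ⟨_, (levelConst₁_iff_isLevelConstantS₁ S _).1
      (levelConst₁_primitive_right (isLevelClass_isUnramifiedOutside S) hB.smoothRep β
        ((levelConst₁_iff_isLevelConstantS₁ S _).2 a.2) n), rfl⟩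

/-- The canonical surjection from `S`-level 1-cocycles onto `continuousH1S`. -/
noncomputable def toContinuousH1S (S : Finset Nat.Primes)
    (A : Rep k (AlgebraicClosure ℚ ≃ₐ[ℚ] AlgebraicClosure ℚ)) :
    levelCocyclesS₁ S A →ₗ[k] continuousH1S S A :=
  (H1π A).hom.submoduleMap (levelCocyclesS₁ S A)

lemma toContinuousH1S_surjective (S : Finset Nat.Primes)
    (A : Rep k (AlgebraicClosure ℚ ≃ₐ[ℚ] AlgebraicClosure ℚ)) :
    Function.Surjective (toContinuousH1S S A) :=
  (H1π A).hom.submoduleMap_surjective (levelCocyclesS₁ S A)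

@[simp] lemma coe_toContinuousH1S (a : levelCocyclesS₁ S A) :
    (toContinuousH1S S A a : H1 A) = (H1π A).hom a.1 := rfl

/-- The cup product `H¹(G_S, A) × H¹(G_S, B) → H²(G_S, C)` on the frozen carriers. -/
noncomputable def cupH1S (hB : IsSmoothS S B) {β : A →ₗ[k] B →ₗ[k] C}
    (hβ : IsEquivariantPairing β) :
    continuousH1S S A →ₗ[k] continuousH1S S B →ₗ[k] continuousH2S S C :=
  bilinDescent (toContinuousH1S S A) (toContinuousH1S S B) (toContinuousH1S_surjective S A)
    (toContinuousH1S_surjective S B) (cupZS hB hβ)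
    (fun a ha b => cupZS_eq_zero_of_left hB hβ a b (by simpa using congrArg Subtype.val ha))
    (fun b hb a => cupZS_eq_zero_of_right hB hβ a b (by simpa using congrArg Subtype.val hb))

theorem cupH1S_mk (hB : IsSmoothS S B) {β : A →ₗ[k] B →ₗ[k] C} (hβ : IsEquivariantPairing β)
    (a : levelCocyclesS₁ S A) (b : levelCocyclesS₁ S B) :
    cupH1S hB hβ (toContinuousH1S S A a) (toContinuousH1S S B b)
      = continuousH2Sπ S C (cupCocycleS hB hβ a b) :=
  bilinDescent_apply _ _ _ _ _ _ _ a b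

end GlobalS

/-! ### The local carriers (any `r : G →* Gal(ℚ̄/ℚ)`) -/

section Local

variable {k G : Type u} [CommRing k] [Group G]
  (r : G →* (AlgebraicClosure ℚ ≃ₐ[ℚ] AlgebraicClosure ℚ)) {A B C : Rep k G}

/-- Every vector of `B` is fixed by the preimage under `r` of `Gal(ℚ̄/F)` for some number
field `F`. -/
def IsSmoothAt (B : Rep k G) : Prop :=
  ∀ b : B, ∃ F : IntermediateField ℚ (AlgebraicClosure ℚ), FiniteDimensional ℚ F ∧
    ∀ s : G, r s ∈ F.fixingSubgroup → B.ρ s b = b

variable {r}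

lemma IsSmoothAt.smoothRep (hB : IsSmoothAt r B) :
    SmoothRep r (fun F => FiniteDimensional ℚ F) B := hB

theorem cup11_isLevelConstant₂ (hB : IsSmoothAt r B) (β : A →ₗ[k] B →ₗ[k] C)
    {a : G → A} {b : G → B} (ha : IsLevelConstant₁ r a) (hb : IsLevelConstant₁ r b) :
    IsLevelConstant₂ r (cup11 β a b) :=
  (levelConst₂_iff_isLevelConstant₂ r _).1
    (cup11_levelConst₂ isLevelClass_finiteDimensional hB.smoothRep β
      ((levelConst₁_iff_isLevelConstant₁ r _).2 ha) ((levelConst₁_iff_isLevelConstant₁ r _).2 hb))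

/-- The cup product of level 1-cocycles, as a level 2-cocycle. -/
noncomputable def cupCocycle (hB : IsSmoothAt r B) {β : A →ₗ[k] B →ₗ[k] C}
    (hβ : IsEquivariantPairing β) (a : levelCocycles₁ r A) (b : levelCocycles₁ r B) :
    levelCocycles₂ r C :=
  ⟨cup11 β a.1.1 b.1.1, cup11_mem_cocycles₂ hβ a.1.2 b.1.2, cup11_isLevelConstant₂ hB β a.2 b.2⟩

@[simp] lemma coe_cupCocycle (hB : IsSmoothAt r B) {β : A →ₗ[k] B →ₗ[k] C}
    (hβ : IsEquivariantPairing β) (a : levelCocycles₁ r A) (b : levelCocycles₁ r B) :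
    (cupCocycle hB hβ a b : G × G → C) = cup11 β a.1.1 b.1.1 := rfl

/-- The cup product of level 1-cocycles, as a bilinear map into `continuousH2 r C`. -/
noncomputable def cupZ (hB : IsSmoothAt r B) {β : A →ₗ[k] B →ₗ[k] C} (hβ : IsEquivariantPairing β) :
    levelCocycles₁ r A →ₗ[k] levelCocycles₁ r B →ₗ[k] continuousH2 r C :=
  LinearMap.mk₂ k (fun a b => continuousH2π r C (cupCocycle hB hβ a b))
    (fun a a' b => by
      rw [← map_add]; congr 1; apply Subtype.ext
      exact cup11_add_left β _ _ _)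
    (fun c a b => by
      rw [← map_smul]; congr 1; apply Subtype.ext
      exact cup11_smul_left β c _ _)
    (fun a b b' => by
      rw [← map_add]; congr 1; apply Subtype.ext
      exact cup11_add_right β _ _ _)
    (fun c a b => by
      rw [← map_smul]; congr 1; apply Subtype.ext
      exact cup11_smul_right β c _ _)

lemma cupZ_apply (hB : IsSmoothAt r B) {β : A →ₗ[k] B →ₗ[k] C} (hβ : IsEquivariantPairing β)
    (a : levelCocycles₁ r A) (b : levelCocycles₁ r B) :
    cupZ hB hβ a b = continuousH2π r C (cupCocycle hB hβ a b) := rfl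

/-- If `a` is a coboundary then `a ∪ b = 0` in `continuousH2 r C`. -/
theorem cupZ_eq_zero_of_left (hB : IsSmoothAt r B) {β : A →ₗ[k] B →ₗ[k] C}
    (hβ : IsEquivariantPairing β) (a : levelCocycles₁ r A) (b : levelCocycles₁ r B)
    (ha : (H1π A).hom a.1 = 0) : cupZ hB hβ a b = 0 := by
  rw [cupZ_apply, continuousH2π_eq_zero_iff, coe_cupCocycle]
  obtain ⟨m, hm⟩ := (H1π_eq_zero_iff a.1).1 ha
  have hm' : a.1.1 = (d₀₁ A).hom m := hm.symm
  rw [hm', cup11_d₀₁_left hβ m b.1.2]
  exact (mem_levelCoboundaries₂_iff r C _).2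
    ⟨_, (levelConst₁_iff_isLevelConstant₁ r _).1
      (levelConst₁_primitive_left β m ((levelConst₁_iff_isLevelConstant₁ r _).2 b.2)), rfl⟩

/-- If `b` is a coboundary then `a ∪ b = 0` in `continuousH2 r C`. -/
theorem cupZ_eq_zero_of_right (hB : IsSmoothAt r B) {β : A →ₗ[k] B →ₗ[k] C}
    (hβ : IsEquivariantPairing β) (a : levelCocycles₁ r A) (b : levelCocycles₁ r B)
    (hb : (H1π B).hom b.1 = 0) : cupZ hB hβ a b = 0 := by
  rw [cupZ_apply, continuousH2π_eq_zero_iff, coe_cupCocycle]
  obtain ⟨n, hn⟩ := (H1π_eq_zero_iff b.1).1 hb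
  have hn' : b.1.1 = (d₀₁ B).hom n := hn.symm
  rw [hn', cup11_d₀₁_right hβ a.1.2 n]
  exact (mem_levelCoboundaries₂_iff r C _).2
    ⟨_, (levelConst₁_iff_isLevelConstant₁ r _).1
      (levelConst₁_primitive_right isLevelClass_finiteDimensional hB.smoothRep β
        ((levelConst₁_iff_isLevelConstant₁ r _).2 a.2) n), rfl⟩

/-- The canonical surjection from level 1-cocycles onto `continuousH1 r A`. -/
noncomputable def toContinuousH1 (r : G →* (AlgebraicClosure ℚ ≃ₐ[ℚ] AlgebraicClosure ℚ))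
    (A : Rep k G) : levelCocycles₁ r A →ₗ[k] continuousH1 r A :=
  (H1π A).hom.submoduleMap (levelCocycles₁ r A)

lemma toContinuousH1_surjective (r : G →* (AlgebraicClosure ℚ ≃ₐ[ℚ] AlgebraicClosure ℚ))
    (A : Rep k G) : Function.Surjective (toContinuousH1 r A) :=
  (H1π A).hom.submoduleMap_surjective (levelCocycles₁ r A)

@[simp] lemma coe_toContinuousH1 (a : levelCocycles₁ r A) :
    (toContinuousH1 r A a : H1 A) = (H1π A).hom a.1 := rfl

/-- The cup product `H¹ × H¹ → H²` on the frozen local carriers. -/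
noncomputable def cupH1 (hB : IsSmoothAt r B) {β : A →ₗ[k] B →ₗ[k] C}
    (hβ : IsEquivariantPairing β) :
    continuousH1 r A →ₗ[k] continuousH1 r B →ₗ[k] continuousH2 r C :=
  bilinDescent (toContinuousH1 r A) (toContinuousH1 r B) (toContinuousH1_surjective r A)
    (toContinuousH1_surjective r B) (cupZ hB hβ)
    (fun a ha b => cupZ_eq_zero_of_left hB hβ a b (by simpa using congrArg Subtype.val ha))
    (fun b hb a => cupZ_eq_zero_of_right hB hβ a b (by simpa using congrArg Subtype.val hb))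

theorem cupH1_mk (hB : IsSmoothAt r B) {β : A →ₗ[k] B →ₗ[k] C} (hβ : IsEquivariantPairing β)
    (a : levelCocycles₁ r A) (b : levelCocycles₁ r B) :
    cupH1 hB hβ (toContinuousH1 r A a) (toContinuousH1 r B b)
      = continuousH2π r C (cupCocycle hB hβ a b) :=
  bilinDescent_apply _ _ _ _ _ _ _ a b

end Local

/-! ### Naturality -/

section Naturality

variable {k G H : Type u} [CommRing k] [Group G] [Group H]

/-- General naturality of the cochain-level cup product under pull-back along `f : G →* H`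
and push-forward along compatible module maps (in the shape of the frozen
`cochainsPullPush`). -/
theorem cochainsPullPush₂_cup11 (f : G →* H) {A B C : Rep k H} {A' B' C' : Rep k G}
    (φA : A →ₗ[k] A') (φB : B →ₗ[k] B') (φC : C →ₗ[k] C')
    (hφB : ∀ (g : G) (b : B), φB (B.ρ (f g) b) = B'.ρ g (φB b))
    (β : A →ₗ[k] B →ₗ[k] C) (β' : A' →ₗ[k] B' →ₗ[k] C')
    (hββ' : ∀ a b, φC (β a b) = β' (φA a) (φB b)) (a : H → A) (b : H → B) :
    cochainsPullPush₂ f φC (cup11 β a b)
      = cup11 β' (cochainsPullPush₁ f φA a) (cochainsPullPush₁ f φB b) := by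
  funext ⟨g, h⟩
  simp only [cochainsPullPush₂_apply, cup11_apply, cochainsPullPush₁_apply, hββ', hφB]

/-- Push-forward in the target: `φ ∘ (a ∪ b) = a ∪ b` along `φ ∘ β`. -/
lemma comp_cup11 {A B C C' : Rep k G} (β : A →ₗ[k] B →ₗ[k] C) (φ : C →ₗ[k] C')
    (a : G → A) (b : G → B) : φ ∘ cup11 β a b = cup11 (β.compr₂ φ) a b := rfl

/-- Push-forward in the second variable along an equivariant map `φ : B → B'`. -/
lemma cup11_comp_right {A B B' C : Rep k G} (β : A →ₗ[k] B' →ₗ[k] C) (φ : B →ₗ[k] B')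
    (hφ : ∀ (g : G) (b : B), φ (B.ρ g b) = B'.ρ g (φ b)) (a : G → A) (b : G → B) :
    cup11 β a (φ ∘ b) = cup11 (β.compl₂ φ) a b := by
  funext ⟨g, h⟩
  simp only [cup11_apply, Function.comp_apply, LinearMap.compl₂_apply, hφ]

/-- Push-forward in the first variable along a linear map `φ : A → A'`. -/
lemma cup11_comp_left {A A' B C : Rep k G} (β : A' →ₗ[k] B →ₗ[k] C) (φ : A →ₗ[k] A')
    (a : G → A) (b : G → B) : cup11 β (φ ∘ a) b = cup11 (β.comp φ) a b := rfl

end Naturality

/-! ### Localisation: restriction of the global cup product to a local group -/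

section Localize

open CategoryTheory

variable (S : Finset Nat.Primes) {k : Type} [CommRing k] {H : Type} [Group H]
  (f : H →* (AlgebraicClosure ℚ ≃ₐ[ℚ] AlgebraicClosure ℚ))
  {A B C : Rep k (AlgebraicClosure ℚ ≃ₐ[ℚ] AlgebraicClosure ℚ)}

variable {S} in
lemma IsSmoothS.res (hB : IsSmoothS S B) : IsSmoothAt f (Rep.res f B) := by
  intro b
  obtain ⟨F, hF, h⟩ := hB b
  exact ⟨F, hF.1, fun s hs => h (f s) hs⟩

/-- A bilinear pairing, viewed on the restricted representations. -/
def resPairing (β : A →ₗ[k] B →ₗ[k] C) : Rep.res f A →ₗ[k] Rep.res f B →ₗ[k] Rep.res f C := β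

@[simp] lemma resPairing_apply (β : A →ₗ[k] B →ₗ[k] C) (a : A) (b : B) :
    resPairing f β a b = β a b := rfl

lemma IsEquivariantPairing.res {β : A →ₗ[k] B →ₗ[k] C} (hβ : IsEquivariantPairing β) :
    IsEquivariantPairing (resPairing f β) :=
  fun g a b => hβ (f g) a b

variable {S} in
lemma IsLevelConstantS₁.res {X : Type*} {a : (AlgebraicClosure ℚ ≃ₐ[ℚ] AlgebraicClosure ℚ) → X}
    (ha : IsLevelConstantS₁ S a) : IsLevelConstant₁ f (fun h => a (f h)) := by
  obtain ⟨F, hF, h⟩ := ha
  exact ⟨F, hF.1, fun g s hs => by simp only [map_mul]; exact h (f g) (f s) hs⟩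

/-- Restriction of an `S`-level 1-cocycle of `Gal(ℚ̄/ℚ)` to a local group. -/
noncomputable def resLevelCocycle (a : levelCocyclesS₁ S A) : levelCocycles₁ f (Rep.res f A) :=
  ⟨⟨fun h => a.1.1 (f h), (mem_cocycles₁_iff (A := Rep.res f A) _).2 fun g h => by
      rw [map_mul]; exact (mem_cocycles₁_iff a.1.1).1 a.1.2 (f g) (f h)⟩,
    IsLevelConstantS₁.res f a.2⟩

@[simp] lemma coe_resLevelCocycle (a : levelCocyclesS₁ S A) (h : H) :
    (resLevelCocycle S f a).1.1 h = a.1.1 (f h) := rfl

/-- Localisation commutes with cup products (cocycle level, frozen `locRes₂S`). -/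
theorem locRes₂S_cupCocycleS (hB : IsSmoothS S B) {β : A →ₗ[k] B →ₗ[k] C}
    (hβ : IsEquivariantPairing β) (a : levelCocyclesS₁ S A) (b : levelCocyclesS₁ S B) :
    locRes₂S S C f (continuousH2Sπ S C (cupCocycleS hB hβ a b))
      = continuousH2π f (Rep.res f C)
          (cupCocycle (hB.res f) (hβ.res f) (resLevelCocycle S f a) (resLevelCocycle S f b)) := by
  rfl

/-- Restriction `H¹(G_S, A) → H¹(G_v, A)` on the frozen carriers; the underlying map is Mathlib's
`groupCohomology.map f (𝟙 _) 1` (= the frozen `locRes`). -/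
noncomputable def resH1S (A : Rep k (AlgebraicClosure ℚ ≃ₐ[ℚ] AlgebraicClosure ℚ)) :
    continuousH1S S A →ₗ[k] continuousH1 f (Rep.res f A) :=
  ((groupCohomology.map f (𝟙 (Rep.res f A)) 1).hom.domRestrict (continuousH1S S A)).codRestrict
    (continuousH1 f (Rep.res f A)) (by
      rintro ⟨x, hx⟩
      obtain ⟨c, hc, rfl⟩ := (mem_continuousH1S_iff S A x).1 hx
      refine (mem_continuousH1_iff f (Rep.res f A) _).2
        ⟨mapCocycles₁ f (𝟙 (Rep.res f A)) c, IsLevelConstantS₁.res f hc, ?_⟩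
      exact (H1π_comp_map_apply f (𝟙 (Rep.res f A)) c).symm)

@[simp] lemma coe_resH1S (x : continuousH1S S A) :
    (resH1S S f A x : H1 (Rep.res f A)) = (groupCohomology.map f (𝟙 (Rep.res f A)) 1).hom x.1 := rfl

lemma resH1S_toContinuousH1S (a : levelCocyclesS₁ S A) :
    resH1S S f A (toContinuousH1S S A a) = toContinuousH1 f (Rep.res f A) (resLevelCocycle S f a) :=
  Subtype.ext (H1π_comp_map_apply f (𝟙 (Rep.res f A)) a.1)

/-- Localisation commutes with cup products (class level). -/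
theorem locRes₂S_cupH1S (hB : IsSmoothS S B) {β : A →ₗ[k] B →ₗ[k] C}
    (hβ : IsEquivariantPairing β) (x : continuousH1S S A) (y : continuousH1S S B) :
    locRes₂S S C f (cupH1S hB hβ x y)
      = cupH1 (hB.res f) (hβ.res f) (resH1S S f A x) (resH1S S f B y) := by
  obtain ⟨a, rfl⟩ := toContinuousH1S_surjective S A x
  obtain ⟨b, rfl⟩ := toContinuousH1S_surjective S B y
  rw [cupH1S_mk, resH1S_toContinuousH1S, resH1S_toContinuousH1S, cupH1_mk, locRes₂S_cupCocycleS]

/-- A global class which is locally trivial at `f` cups to a locally trivial class (left). -/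
theorem locRes₂S_cupH1S_eq_zero_of_left (hB : IsSmoothS S B) {β : A →ₗ[k] B →ₗ[k] C}
    (hβ : IsEquivariantPairing β) (x : continuousH1S S A) (y : continuousH1S S B)
    (hx : (groupCohomology.map f (𝟙 (Rep.res f A)) 1).hom x.1 = 0) :
    locRes₂S S C f (cupH1S hB hβ x y) = 0 := by
  have h0 : resH1S S f A x = 0 := Subtype.ext hx
  rw [locRes₂S_cupH1S, h0, map_zero, LinearMap.zero_apply]

/-- A global class which is locally trivial at `f` cups to a locally trivial class (right). -/
theorem locRes₂S_cupH1S_eq_zero_of_right (hB : IsSmoothS S B) {β : A →ₗ[k] B →ₗ[k] C}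
    (hβ : IsEquivariantPairing β) (x : continuousH1S S A) (y : continuousH1S S B)
    (hy : (groupCohomology.map f (𝟙 (Rep.res f B)) 1).hom y.1 = 0) :
    locRes₂S S C f (cupH1S hB hβ x y) = 0 := by
  have h0 : resH1S S f B y = 0 := Subtype.ext hy
  rw [locRes₂S_cupH1S, h0, map_zero]

end Localize

/-! ### The pairings used in local/global duality -/

section Instances

variable {k G : Type u} [Field k] [Group G]

/-- The evaluation pairing `M × M^∨(χ) → k(χ)`. -/
noncomputable def evalPairing (M : Rep k G) (χ : G →* kˣ) :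
    M →ₗ[k] M.dualTwist χ →ₗ[k] ofChar χ :=
  Module.Dual.eval k M

@[simp] lemma evalPairing_apply (M : Rep k G) (χ : G →* kˣ) (m : M) (φ : M.dualTwist χ) :
    evalPairing M χ m φ = (show Module.Dual k M from φ) m := rfl

lemma isEquivariantPairing_evalPairing (M : Rep k G) (χ : G →* kˣ) :
    IsEquivariantPairing (evalPairing M χ) := by
  intro g m φ
  rw [evalPairing_apply, Rep.dualTwist_ρ_apply]
  change (χ g : k) • (show Module.Dual k M from φ) (M.ρ g⁻¹ (M.ρ g m)) = (χ g : k) • _
  rw [← Module.End.mul_apply, ← map_mul, inv_mul_cancel, map_one, Module.End.one_apply]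
  rfl

/-- The evaluation pairing in the other order, `M^∨(χ) × M → k(χ)`. -/
noncomputable def evalPairingSwap (M : Rep k G) (χ : G →* kˣ) :
    M.dualTwist χ →ₗ[k] M →ₗ[k] ofChar χ :=
  (evalPairing M χ).flip

lemma isEquivariantPairing_evalPairingSwap (M : Rep k G) (χ : G →* kˣ) :
    IsEquivariantPairing (evalPairingSwap M χ) :=
  (isEquivariantPairing_evalPairing M χ).flip

/-- Graded commutativity of the evaluation cup products, with explicit primitive. -/
theorem cup11_evalPairing_add_swap (M : Rep k G) (χ : G →* kˣ) {a : G → M}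
    {b : G → M.dualTwist χ} (ha : a ∈ cocycles₁ M) (hb : b ∈ cocycles₁ (M.dualTwist χ)) :
    cup11 (evalPairing M χ) a b + cup11 (evalPairingSwap M χ) b a
      = (d₁₂ (ofChar χ)).hom (fun g => - evalPairing M χ (a g) (b g)) :=
  cup11_add_cup11_flip (isEquivariantPairing_evalPairing M χ) ha hb

/-- The scalar pairing `N × k → N`, `(n, c) ↦ c • n`, with `k` the trivial representation. -/
noncomputable def smulPairing (N : Rep k G) : N →ₗ[k] Rep.trivial k G k →ₗ[k] N :=
  (LinearMap.lsmul k N).flip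

@[simp] lemma smulPairing_apply (N : Rep k G) (n : N) (c : k) :
    smulPairing N n c = c • n := rfl

lemma isEquivariantPairing_smulPairing (N : Rep k G) : IsEquivariantPairing (smulPairing N) := by
  intro g n c
  change c • N.ρ g n = N.ρ g (c • n)
  rw [map_smul]

/-- `(ε ∪ χ)(g, h) = χ(h) • ε(g)`: the connecting map of an extension of `k` by `N` with
class `ε` sends a homomorphism `χ : G → k` to this 2-cocycle. -/
@[simp] lemma cup11_smulPairing_apply (N : Rep k G) (ε : G → N) (χ : G → Rep.trivial k G k)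
    (g h : G) : cup11 (smulPairing N) ε χ (g, h) = (show k from χ h) • ε g := rfl

/-- The scalar pairing in the other order, `k × N → N`. -/
noncomputable def smulPairingSwap (N : Rep k G) : Rep.trivial k G k →ₗ[k] N →ₗ[k] N :=
  (smulPairing N).flip

lemma isEquivariantPairing_smulPairingSwap (N : Rep k G) :
    IsEquivariantPairing (smulPairingSwap N) :=
  (isEquivariantPairing_smulPairing N).flip

@[simp] lemma cup11_smulPairingSwap_apply (N : Rep k G) (χ : G → Rep.trivial k G k) (b : G → N)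
    (g h : G) : cup11 (smulPairingSwap N) χ b (g, h) = (show k from χ g) • N.ρ g (b h) := rfl

end Instances

end Fermat.Agent.S55.helper7860
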