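/-
S55 (Poitou–Tate), step C of the soft reduction (finding #1621): the images of the global
`H¹` of two modules in duality are orthogonal for the sum of the local cup pairings, hence
`r₁(A) + r₁(B) ≤ π₁(A)`.  Author: helper15 (independent backup of leaf SOFT-C).

* `finrank_add_finrank_le_of_orthogonal` : abstract core, one-sided nondegeneracy only.
* `resTotal` : total localisation `continuousH1S S A → Π_{q ∈ S} continuousH1 r_q (Res A)`.
* `finrank_range_resTotal_add_le` / `_left` : step C for a general equivariant pairing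
  `β : A × B → C` of global representations, given an invariant system on `C` with the sum
  formula and a one-sided kernel condition for the local cup products.
* `finrank_map_locTotal_eq` : `r₁` in the `locTotal (extArithLoc S)` shape (odd `p`).
* specialisations to `M`, `M.dualTwist χ` with the evaluation pairings.
-/
import Mathlib
import Fermat.Agent.S55.helper7860_Cup
import Fermat.Agent.S55.helper6525_Arch

set_option autoImplicit false

namespace Fermat.Agent.S55.helper15

open Module groupCohomology ExtCitation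

/-! ### Abstract core -/

section Core

variable {k : Type*} [Field k] {ι : Type*} [Fintype ι]
  {V W : ι → Type*} [∀ i, AddCommGroup (V i)] [∀ i, Module k (V i)]
  [∀ i, AddCommGroup (W i)] [∀ i, Module k (W i)]

/-- The sum of a family of pairings, as a map `Π W → Dual (Π V)`. -/
noncomputable def sumPairing (β : ∀ i, V i →ₗ[k] W i →ₗ[k] k) :
    (∀ i, W i) →ₗ[k] Module.Dual k (∀ i, V i) :=
  LinearMap.flip (∑ i, (β i).compl₁₂ (LinearMap.proj i) (LinearMap.proj i))

lemma sumPairing_apply (β : ∀ i, V i →ₗ[k] W i →ₗ[k] k) (w : ∀ i, W i) (v : ∀ i, V i) :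
    sumPairing β w v = ∑ i, β i (v i) (w i) := by
  simp [sumPairing, LinearMap.sum_apply]

lemma sumPairing_injective (β : ∀ i, V i →ₗ[k] W i →ₗ[k] k)
    (hr : ∀ i (w : W i), (∀ v, β i v w = 0) → w = 0) :
    Function.Injective (sumPairing β) := by
  classical
  rw [← LinearMap.ker_eq_bot, LinearMap.ker_eq_bot']
  intro w hw
  funext i
  refine hr i (w i) fun v => ?_
  have h := congrArg (fun φ : Module.Dual k (∀ i, V i) => φ (Pi.single i v)) hw
  simp only [sumPairing_apply, LinearMap.zero_apply] at h
  rw [Finset.sum_eq_single i] at h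
  · simpa using h
  · intro j _ hji
    rw [Pi.single_eq_of_ne hji, map_zero, LinearMap.zero_apply]
  · intro hi
    exact absurd (Finset.mem_univ i) hi

/-- **Abstract step C.**  Two subspaces `A ≤ Π V`, `B ≤ Π W` which are orthogonal for the sum
of a family of pairings `V i × W i → k` with trivial kernel in the `W`-variable satisfy
`dim A + dim B ≤ ∑ dim V i`. -/
theorem finrank_add_finrank_le_of_orthogonal [∀ i, FiniteDimensional k (V i)]
    (β : ∀ i, V i →ₗ[k] W i →ₗ[k] k)
    (hr : ∀ i (w : W i), (∀ v, β i v w = 0) → w = 0)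
    (A : Submodule k (∀ i, V i)) (B : Submodule k (∀ i, W i))
    (horth : ∀ a ∈ A, ∀ b ∈ B, ∑ i, β i (a i) (b i) = 0) :
    finrank k A + finrank k B ≤ ∑ i, finrank k (V i) := by
  classical
  have hinj := sumPairing_injective β hr
  let f : B →ₗ[k] A.dualAnnihilator :=
    ((sumPairing β).comp B.subtype).codRestrict A.dualAnnihilator (fun b => by
      rw [Submodule.mem_dualAnnihilator]
      intro a ha
      rw [LinearMap.comp_apply, Submodule.subtype_apply, sumPairing_apply]
      exact horth a ha b b.2)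
  have hf : Function.Injective f := by
    intro b b' hbb'
    have h1 : sumPairing β b = sumPairing β b' := congrArg Subtype.val hbb'
    exact Subtype.ext (hinj h1)
  have h1 : finrank k B ≤ finrank k A.dualAnnihilator :=
    LinearMap.finrank_le_finrank_of_injective hf
  have h2 := Subspace.finrank_add_finrank_dualAnnihilator_eq A
  rw [Module.finrank_pi_fintype] at h2
  omega

/-- Variant of the abstract step C with the kernel condition in the `V`-variable and the
`W i` finite-dimensional: `dim A + dim B ≤ ∑ dim W i`. -/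
theorem finrank_add_finrank_le_of_orthogonal_left [∀ i, FiniteDimensional k (W i)]
    (β : ∀ i, V i →ₗ[k] W i →ₗ[k] k)
    (hl : ∀ i (v : V i), (∀ w, β i v w = 0) → v = 0)
    (A : Submodule k (∀ i, V i)) (B : Submodule k (∀ i, W i))
    (horth : ∀ a ∈ A, ∀ b ∈ B, ∑ i, β i (a i) (b i) = 0) :
    finrank k A + finrank k B ≤ ∑ i, finrank k (W i) := by
  have h := finrank_add_finrank_le_of_orthogonal (fun i => (β i).flip) hl B A
    (fun b hb a ha => by simpa using horth a ha b hb)
  omega

/-- A pairing `V × W → k` with both kernels trivial and `V` finite-dimensional: `W` is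
finite-dimensional of the same dimension. -/
theorem finite_and_finrank_eq_of_nondegenerate {V₀ W₀ : Type*} [AddCommGroup V₀] [Module k V₀]
    [AddCommGroup W₀] [Module k W₀] [FiniteDimensional k V₀] (β : V₀ →ₗ[k] W₀ →ₗ[k] k)
    (hl : ∀ v : V₀, (∀ w, β v w = 0) → v = 0) (hr : ∀ w : W₀, (∀ v, β v w = 0) → w = 0) :
    FiniteDimensional k W₀ ∧ finrank k V₀ = finrank k W₀ := by
  have hinjW : Function.Injective β.flip := by
    rw [← LinearMap.ker_eq_bot, LinearMap.ker_eq_bot']
    intro w hw
    exact hr w fun v => by simpa using congrArg (fun φ : Module.Dual k V₀ => φ v) hw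
  have hinjV : Function.Injective β := by
    rw [← LinearMap.ker_eq_bot, LinearMap.ker_eq_bot']
    intro v hv
    exact hl v fun w => by simpa using congrArg (fun φ : Module.Dual k W₀ => φ w) hv
  have hW : FiniteDimensional k W₀ := FiniteDimensional.of_injective β.flip hinjW
  refine ⟨hW, le_antisymm ?_ ?_⟩
  · have := LinearMap.finrank_le_finrank_of_injective hinjV
    rwa [Subspace.dual_finrank_eq] at this
  · have := LinearMap.finrank_le_finrank_of_injective hinjW
    rwa [Subspace.dual_finrank_eq] at this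

end Core

/-! ### The frozen carriers -/

section Frozen

open Fermat.Agent.S55.helper7860

variable (S : Finset Nat.Primes) {k : Type} [Field k]

/-- The local carrier `H¹(ℚ_q, A)` (frozen `continuousH1` along `primeLocalToGlobal q`). -/
abbrev LocH1 (A : Rep k (AlgebraicClosure ℚ ≃ₐ[ℚ] AlgebraicClosure ℚ)) (q : Nat.Primes) : Type :=
  ↥(continuousH1 (primeLocalToGlobal q) (Rep.res (primeLocalToGlobal q) A))

/-- The local carrier `H²(ℚ_q, C)` (frozen `continuousH2` along `primeLocalToGlobal q`). -/
abbrev LocH2 (C : Rep k (AlgebraicClosure ℚ ≃ₐ[ℚ] AlgebraicClosure ℚ)) (q : Nat.Primes) : Type :=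
  continuousH2 (primeLocalToGlobal q) (Rep.res (primeLocalToGlobal q) C)

/-- Total localisation at the primes of `S` on the frozen carriers. -/
noncomputable def resTotal (A : Rep k (AlgebraicClosure ℚ ≃ₐ[ℚ] AlgebraicClosure ℚ)) :
    continuousH1S S A →ₗ[k] ∀ q : ↥S, LocH1 A q.1 :=
  LinearMap.pi fun q => resH1S S (primeLocalToGlobal q.1) A

@[simp] lemma resTotal_apply (A : Rep k (AlgebraicClosure ℚ ≃ₐ[ℚ] AlgebraicClosure ℚ))
    (x : continuousH1S S A) (q : ↥S) :
    resTotal S A x q = resH1S S (primeLocalToGlobal q.1) A x := rfl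

variable {S} {A B C : Rep k (AlgebraicClosure ℚ ≃ₐ[ℚ] AlgebraicClosure ℚ)}

/-- The local cup product at `q`, composed with a linear functional on `H²(ℚ_q, C)`. -/
noncomputable def locCup (hB : IsSmoothS S B) {β : A →ₗ[k] B →ₗ[k] C} (hβ : IsEquivariantPairing β)
    (q : Nat.Primes) (inv : LocH2 C q →ₗ[k] k) : LocH1 A q →ₗ[k] LocH1 B q →ₗ[k] k :=
  (cupH1 (hB.res (primeLocalToGlobal q)) (hβ.res (primeLocalToGlobal q))).compr₂ inv

@[simp] lemma locCup_apply (hB : IsSmoothS S B) {β : A →ₗ[k] B →ₗ[k] C}
    (hβ : IsEquivariantPairing β) (q : Nat.Primes) (inv : LocH2 C q →ₗ[k] k)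
    (x : LocH1 A q) (y : LocH1 B q) :
    locCup hB hβ q inv x y
      = inv (cupH1 (hB.res (primeLocalToGlobal q)) (hβ.res (primeLocalToGlobal q)) x y) := rfl

/-- Global classes are orthogonal for the sum of the local cup pairings (reciprocity +
compatibility of cup products with localisation). -/
theorem sum_locCup_resTotal (hB : IsSmoothS S B) {β : A →ₗ[k] B →ₗ[k] C}
    (hβ : IsEquivariantPairing β) (inv : ∀ q : ↥S, LocH2 C q.1 →ₗ[k] k)
    (hR : ∀ z : continuousH2S S C, ∑ q : ↥S, inv q (locRes₂S S C (primeLocalToGlobal q.1) z) = 0)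
    (x : continuousH1S S A) (y : continuousH1S S B) :
    ∑ q : ↥S, locCup hB hβ q.1 (inv q) (resTotal S A x q) (resTotal S B y q) = 0 := by
  rw [← hR (cupH1S hB hβ x y)]
  refine Finset.sum_congr rfl fun q _ => ?_
  rw [locCup_apply, resTotal_apply, resTotal_apply, locRes₂S_cupH1S]

/-- **Step C, general pairing, kernel condition in the `B`-variable.** -/
theorem finrank_range_resTotal_add_le (hB : IsSmoothS S B) {β : A →ₗ[k] B →ₗ[k] C}
    (hβ : IsEquivariantPairing β) (inv : ∀ q : ↥S, LocH2 C q.1 →ₗ[k] k)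
    (hR : ∀ z : continuousH2S S C, ∑ q : ↥S, inv q (locRes₂S S C (primeLocalToGlobal q.1) z) = 0)
    [∀ q : ↥S, FiniteDimensional k (LocH1 A q.1)]
    (hker : ∀ (q : ↥S) (y : LocH1 B q.1),
      (∀ x : LocH1 A q.1, inv q (cupH1 (hB.res (primeLocalToGlobal q.1))
        (hβ.res (primeLocalToGlobal q.1)) x y) = 0) → y = 0) :
    finrank k (LinearMap.range (resTotal S A)) + finrank k (LinearMap.range (resTotal S B))
      ≤ ∑ q : ↥S, finrank k (LocH1 A q.1) := by
  refine finrank_add_finrank_le_of_orthogonal (fun q : ↥S => locCup hB hβ q.1 (inv q))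
    (fun q y hy => hker q y hy) _ _ ?_
  rintro _ ⟨x, rfl⟩ _ ⟨y, rfl⟩
  exact sum_locCup_resTotal hB hβ inv hR x y

/-- **Step C, general pairing, kernel condition in the `A`-variable.** -/
theorem finrank_range_resTotal_add_le_left (hB : IsSmoothS S B) {β : A →ₗ[k] B →ₗ[k] C}
    (hβ : IsEquivariantPairing β) (inv : ∀ q : ↥S, LocH2 C q.1 →ₗ[k] k)
    (hR : ∀ z : continuousH2S S C, ∑ q : ↥S, inv q (locRes₂S S C (primeLocalToGlobal q.1) z) = 0)
    [∀ q : ↥S, FiniteDimensional k (LocH1 B q.1)]
    (hker : ∀ (q : ↥S) (x : LocH1 A q.1),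
      (∀ y : LocH1 B q.1, inv q (cupH1 (hB.res (primeLocalToGlobal q.1))
        (hβ.res (primeLocalToGlobal q.1)) x y) = 0) → x = 0) :
    finrank k (LinearMap.range (resTotal S A)) + finrank k (LinearMap.range (resTotal S B))
      ≤ ∑ q : ↥S, finrank k (LocH1 B q.1) := by
  refine finrank_add_finrank_le_of_orthogonal_left (fun q : ↥S => locCup hB hβ q.1 (inv q))
    (fun q x hx => hker q x hx) _ _ ?_
  rintro _ ⟨x, rfl⟩ _ ⟨y, rfl⟩
  exact sum_locCup_resTotal hB hβ inv hR x y

end Frozen

/-! ### `r₁` in the `locTotal (extArithLoc S)` shape -/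

section LocTotal

open Fermat.Agent.S55.helper7860

variable {p : ℕ} [Fact p.Prime]

/-- For odd `p`, the rank of the frozen total localisation `locTotal (extArithLoc S)` on
`continuousH1S S A` is the rank of `resTotal S A` (the archimedean factor vanishes). -/
theorem finrank_map_locTotal_eq (hp2 : p ≠ 2) (S : Finset Nat.Primes)
    (A : Rep (ZMod p) (AlgebraicClosure ℚ ≃ₐ[ℚ] AlgebraicClosure ℚ)) :
    finrank (ZMod p) ((continuousH1S S A).map (locTotal (extArithLoc S) A))
      = finrank (ZMod p) (LinearMap.range (resTotal S A)) := by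
  have hk : LinearMap.ker ((locTotal (extArithLoc S) A).domRestrict (continuousH1S S A))
      = LinearMap.ker (resTotal S A) := by
    ext x
    simp only [LinearMap.mem_ker]
    constructor
    · intro h
      funext q
      apply Subtype.ext
      exact congrFun h (Sum.inr q)
    · intro h
      funext v
      rcases v with v | q
      · exact helper6525.H1_archimedean_eq_zero hp2 A _
      · exact congrArg Subtype.val (congrFun h q)
  rw [← LinearMap.range_domRestrict]
  have e1 := (LinearMap.quotKerEquivRange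
    ((locTotal (extArithLoc S) A).domRestrict (continuousH1S S A))).finrank_eq
  have e2 := (LinearMap.quotKerEquivRange (resTotal S A)).finrank_eq
  rw [← e1, ← e2, hk]

/-- **Step C in the SOFT-SPEC shape, general pairing, kernel condition in the `A`-variable.** -/
theorem finrank_map_locTotal_add_le_left (hp2 : p ≠ 2) {S : Finset Nat.Primes}
    {A B C : Rep (ZMod p) (AlgebraicClosure ℚ ≃ₐ[ℚ] AlgebraicClosure ℚ)}
    (hB : IsSmoothS S B) {β : A →ₗ[ZMod p] B →ₗ[ZMod p] C} (hβ : IsEquivariantPairing β)
    (inv : ∀ q : ↥S, LocH2 C q.1 →ₗ[ZMod p] ZMod p)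
    (hR : ∀ z : continuousH2S S C, ∑ q : ↥S, inv q (locRes₂S S C (primeLocalToGlobal q.1) z) = 0)
    (hfin : ∀ q : ↥S, FiniteDimensional (ZMod p) (LocH1 B q.1))
    (hker : ∀ (q : ↥S) (x : LocH1 A q.1),
      (∀ y : LocH1 B q.1, inv q (cupH1 (hB.res (primeLocalToGlobal q.1))
        (hβ.res (primeLocalToGlobal q.1)) x y) = 0) → x = 0) :
    finrank (ZMod p) ((continuousH1S S A).map (locTotal (extArithLoc S) A))
      + finrank (ZMod p) ((continuousH1S S B).map (locTotal (extArithLoc S) B))
      ≤ ∑ q ∈ S, finrank (ZMod p) (LocH1 B q) := by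
  rw [finrank_map_locTotal_eq hp2, finrank_map_locTotal_eq hp2,
    ← Finset.sum_coe_sort S (fun q => finrank (ZMod p) (LocH1 B q))]
  exact finrank_range_resTotal_add_le_left hB hβ inv hR hker

/-- **Step C in the SOFT-SPEC shape, general pairing, kernel condition in the `B`-variable.** -/
theorem finrank_map_locTotal_add_le (hp2 : p ≠ 2) {S : Finset Nat.Primes}
    {A B C : Rep (ZMod p) (AlgebraicClosure ℚ ≃ₐ[ℚ] AlgebraicClosure ℚ)}
    (hB : IsSmoothS S B) {β : A →ₗ[ZMod p] B →ₗ[ZMod p] C} (hβ : IsEquivariantPairing β)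
    (inv : ∀ q : ↥S, LocH2 C q.1 →ₗ[ZMod p] ZMod p)
    (hR : ∀ z : continuousH2S S C, ∑ q : ↥S, inv q (locRes₂S S C (primeLocalToGlobal q.1) z) = 0)
    (hfin : ∀ q : ↥S, FiniteDimensional (ZMod p) (LocH1 A q.1))
    (hker : ∀ (q : ↥S) (y : LocH1 B q.1),
      (∀ x : LocH1 A q.1, inv q (cupH1 (hB.res (primeLocalToGlobal q.1))
        (hβ.res (primeLocalToGlobal q.1)) x y) = 0) → y = 0) :
    finrank (ZMod p) ((continuousH1S S A).map (locTotal (extArithLoc S) A))
      + finrank (ZMod p) ((continuousH1S S B).map (locTotal (extArithLoc S) B))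
      ≤ ∑ q ∈ S, finrank (ZMod p) (LocH1 A q) := by
  rw [finrank_map_locTotal_eq hp2, finrank_map_locTotal_eq hp2,
    ← Finset.sum_coe_sort S (fun q => finrank (ZMod p) (LocH1 A q))]
  exact finrank_range_resTotal_add_le hB hβ inv hR hker

end LocTotal

end Fermat.Agent.S55.helper15
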