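/-
S55, LOCAL layer (helper665): `Stmt_LocInv` of `helper665_LocalSpec` from the numerical form
"`H²(ℚ_q, μ_p)` has dimension one on the frozen carrier" (the output shape of the end adapter
LA-LB1-FROZEN), and conversely.
-/
import Mathlib
import Fermat.Agent.S55.helper665_LocalSpec

set_option autoImplicit false

namespace Fermat.Agent.S55.helper665

open CategoryTheory groupCohomology ExtCitation Module

variable {p : ℕ} [Fact p.Prime]

/-- A one-dimensional space over `ZMod p` admits a bijective linear functional. -/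
theorem exists_bijective_of_finrank_eq_one {V : Type} [AddCommGroup V] [Module (ZMod p) V]
    (h : finrank (ZMod p) V = 1) : ∃ inv : V →ₗ[ZMod p] ZMod p, Function.Bijective inv := by
  have hfd : FiniteDimensional (ZMod p) V := FiniteDimensional.of_finrank_eq_succ h
  have e : V ≃ₗ[ZMod p] ZMod p := LinearEquiv.ofFinrankEq V (ZMod p) (by rw [h, finrank_self])
  exact ⟨e.toLinearMap, e.bijective⟩

/-- `Stmt_LocInv` from "`finrank = 1`" for the restriction of the global `μ_p`-model
(the output (ii) of LA-LB1-FROZEN). -/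
theorem stmt_LocInv_of_finrank_eq_one
    (h : ∀ q : Nat.Primes, finrank (ZMod p)
      (continuousH2 (primeLocalToGlobal q)
        (Rep.res (primeLocalToGlobal q) (ofChar (cycloChar p)))) = 1) :
    Stmt_LocInv p :=
  fun q => exists_bijective_of_finrank_eq_one (h q)

/-- Conversely `Stmt_LocInv` gives `finrank = 1`. -/
theorem finrank_eq_one_of_stmt_LocInv (h : Stmt_LocInv p) (q : Nat.Primes) :
    finrank (ZMod p) (continuousH2 (primeLocalToGlobal q) (ofChar (chiLoc p q))) = 1 := by
  obtain ⟨inv, hinv⟩ := h q
  rw [(LinearEquiv.ofBijective inv hinv).finrank_eq, finrank_self]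

/-- Under `Stmt_LocInv` the local `H²` of `μ_p` is nontrivial. -/
theorem exists_ne_zero_of_stmt_LocInv (h : Stmt_LocInv p) (q : Nat.Primes) :
    ∃ z : continuousH2 (primeLocalToGlobal q) (ofChar (chiLoc p q)), z ≠ 0 := by
  obtain ⟨inv, hinv⟩ := h q
  obtain ⟨z, hz⟩ := hinv.2 1
  refine ⟨z, fun h0 => ?_⟩
  rw [h0, map_zero] at hz
  exact zero_ne_one hz

end Fermat.Agent.S55.helper665
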