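import Mathlib

/-!
# S55-LA-POWIDX : the index of `p`-th powers in a local field

Author seat: helper8235.  Mathlib only.

Main result (`card_units_quot_pow`): for a finite extension `K` of `ℚ_[l]`,
`#(Kˣ / Kˣ^p) = p * #μ_p(K) * (p ^ [K : ℚ_l] if l = p else 1)`.

The file is organised in four layers, each reusable on its own:

* `A.` abstract commutative groups: the index of `p`-th powers is insensitive to
  finite index subgroups without `p`-torsion (`index_range_pow_eq_of_finiteIndex`), and
  splits off a factor `p` along a nontrivial homomorphism to `ℤ`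
  (`index_range_pow_eq_of_hom_int`);
* `B.` adically complete rings: `x ↦ x ^ p` on principal units
  (`exists_pow_eq_one_add`, `index_range_pow_units_of_complete`,
  `index_range_pow_units_of_complete_of_isUnit`);
* `C.` a field with a "valuation" hom `ν : Kˣ → ℤ` whose kernel is the unit group of a subring;
* `D.` the bridge to finite extensions of `ℚ_[l]` (integral closure of `ℤ_[l]`, spectral norm).
-/

set_option autoImplicit false

namespace Fermat.Agent.S55.helper8235

/-! ## A. Abstract groups -/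

section Groups

variable {G : Type*} [CommGroup G]

/-- The subgroup of `p`-th powers inside a subgroup `H`, seen inside `H`, is the range of the
`p`-power map of `H`. -/
theorem map_pow_subgroupOf (p : ℕ) (H : Subgroup G) :
    (H.map (powMonoidHom p : G →* G)).subgroupOf H = (powMonoidHom p : H →* H).range := by
  ext x
  simp only [Subgroup.mem_subgroupOf, Subgroup.mem_map, powMonoidHom_apply, MonoidHom.mem_range]
  constructor
  · rintro ⟨y, hy, hyx⟩
    exact ⟨⟨y, hy⟩, Subtype.ext (by simpa using hyx)⟩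
  · rintro ⟨y, hy⟩
    exact ⟨y, y.2, by simpa using congrArg Subtype.val hy⟩

/-- **Herbrand quotient lemma** (index form).  If `H ≤ G` has finite index and no `p`-torsion,
then `(G : G^p) = (H : H^p) * #G[p]`. -/
theorem index_range_pow_eq_of_finiteIndex (p : ℕ) (H : Subgroup G) (hfin : H.index ≠ 0)
    (htors : ∀ x ∈ H, x ^ p = 1 → x = 1) :
    (powMonoidHom p : G →* G).range.index =
      (powMonoidHom p : H →* H).range.index * Nat.card (powMonoidHom p : G →* G).ker := by
  set φ : G →* G := powMonoidHom p with hφ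
  have hle : H.map φ ≤ H := by
    rintro x ⟨y, hy, rfl⟩
    exact H.pow_mem hy p
  -- (G : H^p) = (G : H ⊔ T) * (G : G^p)
  have h1 : (H.map φ).index = (H ⊔ φ.ker).index * φ.range.index := Subgroup.index_map H φ
  -- (H : H^p) * (G : H) = (G : H^p)
  have h2 : (H.map φ).relIndex H * H.index = (H.map φ).index := Subgroup.relIndex_mul_index hle
  have h3 : (H.map φ).relIndex H = (powMonoidHom p : H →* H).range.index := by
    rw [Subgroup.relIndex, map_pow_subgroupOf]
  -- (H ⊔ T : H) * (G : H ⊔ T) = (G : H)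
  have h4 : H.relIndex (H ⊔ φ.ker) * (H ⊔ φ.ker).index = H.index :=
    Subgroup.relIndex_mul_index le_sup_left
  have h5 : H.relIndex (H ⊔ φ.ker) = H.relIndex φ.ker := Subgroup.relIndex_sup_left φ.ker H
  have h6 : H.relIndex φ.ker = Nat.card φ.ker := by
    have hbot : H.subgroupOf φ.ker = ⊥ := by
      rw [Subgroup.subgroupOf_eq_bot]
      rw [Subgroup.disjoint_def]
      intro x hxH hxT
      exact htors x hxH (by simpa [hφ] using hxT)
    rw [Subgroup.relIndex, hbot, Subgroup.index_bot]
  have hne : (H ⊔ φ.ker).index ≠ 0 := by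
    intro h0
    rw [h0, mul_zero] at h4
    exact hfin h4.symm
  have key : (H ⊔ φ.ker).index * φ.range.index =
      (H ⊔ φ.ker).index * ((powMonoidHom p : H →* H).range.index * Nat.card φ.ker) := by
    rw [← h1, ← h2, h3, ← h4, h5, h6]
    ring
  exact Nat.eq_of_mul_eq_mul_left (Nat.pos_of_ne_zero hne) key

/-- A nontrivial homomorphism `ν : G → ℤ` has "index `p`" modulo `p`-th powers:
`(G : ker ν · G^p) = p`. -/
theorem index_ker_sup_range_pow (p : ℕ) (hp : p ≠ 0) (ν : G →* Multiplicative ℤ)
    (hν : ∃ g, ν g ≠ 1) :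
    (ν.ker ⊔ (powMonoidHom p : G →* G).range).index = p := by
  classical
  have : NeZero p := ⟨hp⟩
  let v : G → ℤ := fun g => Multiplicative.toAdd (ν g)
  have v_mul : ∀ a b, v (a * b) = v a + v b := fun a b => by simp [v]
  have v_inv : ∀ a, v a⁻¹ = - v a := fun a => by simp [v]
  have v_zpow : ∀ (a : G) (k : ℤ), v (a ^ k) = k * v a := fun a k => by simp [v]
  have v_pow : ∀ (a : G) (k : ℕ), v (a ^ k) = k * v a := fun a k => by simp [v]
  have hex : ∃ k : ℕ, 0 < k ∧ ∃ g, v g = k := by
    obtain ⟨g, hg⟩ := hν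
    have hg' : v g ≠ 0 := by
      intro h
      apply hg
      have : Multiplicative.toAdd (ν g) = Multiplicative.toAdd (1 : Multiplicative ℤ) := by
        simpa [v] using h
      exact Multiplicative.toAdd.injective this
    rcases lt_or_gt_of_ne hg' with h | h
    · refine ⟨(- v g).toNat, ?_, g⁻¹, ?_⟩
      · omega
      · rw [v_inv]; omega
    · refine ⟨(v g).toNat, ?_, g, ?_⟩
      · omega
      · omega
  set d : ℕ := Nat.find hex with hd
  obtain ⟨hdpos, g₀, hg₀⟩ := Nat.find_spec hex
  have hdvd : ∀ g, (d : ℤ) ∣ v g := by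
    intro g
    by_contra hnd
    have hr : v (g * g₀ ^ (-(v g / d))) = v g % d := by
      rw [v_mul, v_zpow, hg₀, Int.emod_def]; ring
    have hr0 : 0 < v g % (d : ℤ) := by
      have h1 : 0 ≤ v g % (d : ℤ) := Int.emod_nonneg _ (by exact_mod_cast hdpos.ne')
      have h2 : v g % (d : ℤ) ≠ 0 := fun h => hnd (Int.dvd_of_emod_eq_zero h)
      omega
    have hrlt : v g % (d : ℤ) < d := Int.emod_lt_of_pos _ (by exact_mod_cast hdpos)
    have := Nat.find_min hex (m := (v g % (d : ℤ)).toNat) (by omega)
    apply this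
    refine ⟨by omega, g * g₀ ^ (-(v g / d)), ?_⟩
    rw [hr]; omega
  let ψ : G →* Multiplicative (ZMod p) :=
    MonoidHom.mk' (fun g => Multiplicative.ofAdd (((v g / (d : ℤ) : ℤ)) : ZMod p)) (by
      intro a b
      rw [v_mul, Int.add_ediv_of_dvd_left (hdvd a), Int.cast_add, ofAdd_add])
  have hψ : ∀ g, ψ g = Multiplicative.ofAdd (((v g / (d : ℤ) : ℤ)) : ZMod p) := fun g => rfl
  have hker : ψ.ker = ν.ker ⊔ (powMonoidHom p : G →* G).range := by
    apply le_antisymm
    · intro g hg
      rw [MonoidHom.mem_ker, hψ] at hg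
      have hg' : (((v g / (d : ℤ) : ℤ)) : ZMod p) = 0 := by
        have := congrArg Multiplicative.toAdd hg
        simpa using this
      rw [ZMod.intCast_zmod_eq_zero_iff_dvd] at hg'
      obtain ⟨k, hk⟩ := hg'
      have hg2 : g = (g * ((g₀ ^ k) ^ p)⁻¹) * (g₀ ^ k) ^ p := by group
      rw [hg2]
      refine Subgroup.mul_mem_sup ?_ ⟨g₀ ^ k, rfl⟩
      rw [MonoidHom.mem_ker]
      have : v (g * ((g₀ ^ k) ^ p)⁻¹) = 0 := by
        rw [v_mul, v_inv, v_pow, v_zpow, hg₀]
        have := Int.ediv_mul_cancel (hdvd g)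
        rw [hk] at this
        linarith
      have h1 : Multiplicative.toAdd (ν (g * ((g₀ ^ k) ^ p)⁻¹)) =
          Multiplicative.toAdd (1 : Multiplicative ℤ) := by simpa [v] using this
      exact Multiplicative.toAdd.injective h1
    · refine sup_le ?_ ?_
      · intro g hg
        rw [MonoidHom.mem_ker] at hg
        rw [MonoidHom.mem_ker, hψ]
        have : v g = 0 := by simp [v, hg]
        rw [this]; simp
      · rintro g ⟨y, rfl⟩
        rw [MonoidHom.mem_ker, hψ, powMonoidHom_apply, v_pow]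
        obtain ⟨m, hm⟩ := hdvd y
        have : (p : ℤ) * v y / (d : ℤ) = p * m := by
          rw [hm, ← mul_assoc, mul_comm (p : ℤ) (d : ℤ), mul_assoc,
            Int.mul_ediv_cancel_left _ (by exact_mod_cast hdpos.ne')]
        rw [this]
        simp
  have hsurj : Function.Surjective ψ := by
    intro a
    obtain ⟨k, hk⟩ := ZMod.intCast_surjective (Multiplicative.toAdd a)
    refine ⟨g₀ ^ k, ?_⟩
    rw [hψ, v_zpow, hg₀, Int.mul_ediv_cancel _ (by exact_mod_cast hdpos.ne'), hk]
    rfl
  rw [← hker, Subgroup.index_ker, MonoidHom.range_eq_top.mpr hsurj, Subgroup.card_top,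
    Nat.card_congr Multiplicative.toAdd, Nat.card_zmod]

/-- **Splitting off `ℤ`.**  If `ν : G → ℤ` is a nontrivial homomorphism, then
`(G : G^p) = p * (ker ν : (ker ν)^p)`. -/
theorem index_range_pow_eq_of_hom_int (p : ℕ) (hp : p ≠ 0) (ν : G →* Multiplicative ℤ)
    (hν : ∃ g, ν g ≠ 1) :
    (powMonoidHom p : G →* G).range.index =
      p * (powMonoidHom p : ν.ker →* ν.ker).range.index := by
  set φ : G →* G := powMonoidHom p with hφ
  have h1 : φ.range.relIndex (ν.ker ⊔ φ.range) * (ν.ker ⊔ φ.range).index = φ.range.index :=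
    Subgroup.relIndex_mul_index le_sup_right
  have h2 : φ.range.relIndex (ν.ker ⊔ φ.range) = φ.range.relIndex ν.ker :=
    Subgroup.relIndex_sup_right ν.ker φ.range
  have h3 : φ.range.relIndex ν.ker = (powMonoidHom p : ν.ker →* ν.ker).range.index := by
    rw [Subgroup.relIndex]
    congr 1
    ext x
    simp only [Subgroup.mem_subgroupOf, MonoidHom.mem_range, hφ, powMonoidHom_apply]
    constructor
    · rintro ⟨y, hy⟩
      have hy1 : ν y ^ p = 1 := by
        rw [← map_pow, hy]; exact x.2
      have hy2 : ν y = 1 := by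
        have := congrArg Multiplicative.toAdd hy1
        rw [toAdd_pow, toAdd_one, nsmul_eq_mul] at this
        rcases mul_eq_zero.mp this with h | h
        · exact absurd (by exact_mod_cast h) hp
        · exact Multiplicative.toAdd.injective (by simpa using h)
      exact ⟨⟨y, hy2⟩, Subtype.ext (by simpa using hy)⟩
    · rintro ⟨y, hy⟩
      exact ⟨y, by simpa using congrArg Subtype.val hy⟩
  rw [← h1, h2, h3, index_ker_sup_range_pow p hp ν hν, mul_comm]

end Groups

/-! ## B. Adically complete rings -/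

section Complete

open Polynomial

variable {R : Type*} [CommRing R]

/-- **Adic fixed point theorem.**  A self-map of an `I`-adically complete ring which improves
congruences by one power of `I` has a fixed point. -/
theorem exists_fixed_point_of_contraction (I : Ideal R) [IsAdicComplete I R] (T : R → R)
    (hT : ∀ (n : ℕ) (x y : R), x - y ∈ I ^ n → T x - T y ∈ I ^ (n + 1)) : ∃ z, T z = z := by
  let f : ℕ → R := fun n => T^[n] 0
  have hf : ∀ n, f (n + 1) = T (f n) := fun n => Function.iterate_succ_apply' T n 0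
  have hstep : ∀ n, f (n + 1) - f n ∈ I ^ n := by
    intro n
    induction n with
    | zero => simp
    | succ n ih =>
      have h := hT n _ _ ih
      rw [← hf n, ← hf (n + 1)] at h
      exact h
  have hmono : ∀ m n, m ≤ n → f n - f m ∈ I ^ m := by
    intro m n hmn
    induction n, hmn using Nat.le_induction with
    | base => simp
    | succ n hmn ih =>
      have : f (n + 1) - f m = (f (n + 1) - f n) + (f n - f m) := by ring
      rw [this]
      exact (I ^ m).add_mem (Ideal.pow_le_pow_right hmn (hstep n)) ih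
  obtain ⟨L, hL⟩ := IsPrecomplete.prec (I := I) (M := R) inferInstance (f := f) (by
    intro m n hmn
    rw [SModEq.sub_mem, smul_eq_mul, Ideal.mul_top]
    have := hmono m n hmn
    rw [← neg_sub]; exact (I ^ m).neg_mem this)
  have hL' : ∀ n, f n - L ∈ I ^ n := by
    intro n
    have := hL n
    rwa [SModEq.sub_mem, smul_eq_mul, Ideal.mul_top] at this
  refine ⟨L, ?_⟩
  rw [← sub_eq_zero]
  apply IsHausdorff.haus (I := I) inferInstance
  intro n
  rw [SModEq.sub_mem, sub_zero, smul_eq_mul, Ideal.mul_top]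
  have h1 : T L - T (f n) ∈ I ^ (n + 1) :=
    hT n _ _ (by rw [← neg_sub]; exact (I ^ n).neg_mem (hL' n))
  have : T L - L = (T L - T (f n)) + (f (n + 1) - f n) + (f n - L) := by rw [hf]; ring
  rw [this]
  exact (I ^ n).add_mem ((I ^ n).add_mem (Ideal.pow_le_pow_right n.le_succ h1) (hstep n)) (hL' n)

/-- `(1 + t)^p = 1 + p t + t^2 B(t)` for a polynomial `B`. -/
theorem exists_binomial_remainder (R : Type*) [CommRing R] (p : ℕ) :
    ∃ B : R[X], ∀ t : R, (1 + t) ^ p = 1 + p * t + t ^ 2 * B.eval t := by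
  have h : (X : R[X]) ^ 2 ∣ (X + 1) ^ p - 1 - C (p : R) * X := by
    rw [X_pow_dvd_iff]
    intro d hd
    interval_cases d
    · simp [coeff_X_add_one_pow]
    · simp [coeff_X_add_one_pow, coeff_one]
  obtain ⟨B, hB⟩ := h
  refine ⟨B, fun t => ?_⟩
  have := congrArg (Polynomial.eval t) hB
  simp only [eval_sub, eval_pow, eval_add, eval_X, eval_one, eval_mul, eval_C] at this
  linear_combination this

/-- **Surjectivity of the `p`-power map on principal units** (successive approximation).
If `R` is `c`-adically complete, `p t = s u` with `u` a unit and `t^2 ∈ s c R`, then every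
element of `1 + s R` is the `p`-th power of an element of `1 + t R`. -/
theorem exists_pow_eq_one_add (c : R) [IsAdicComplete (Ideal.span {c}) R] (p : ℕ)
    (t s : R) (u : Rˣ) (r : R) (h1 : (p : R) * t = s * u) (h2 : t ^ 2 = s * c * r) (w : R) :
    ∃ z : R, (1 + t * z) ^ p = 1 + s * w := by
  obtain ⟨B, hB⟩ := exists_binomial_remainder R p
  let Q : R[X] := X ^ 2 * B.comp (C t * X)
  have hQ : ∀ x, Q.eval x = x ^ 2 * B.eval (t * x) := by intro x; simp [Q]
  let T : R → R := fun z => (↑u⁻¹ : R) * (w - c * r * Q.eval z)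
  obtain ⟨z, hz⟩ := exists_fixed_point_of_contraction (Ideal.span {c}) T (by
    intro n x y hxy
    obtain ⟨q, hq⟩ := Polynomial.sub_dvd_eval_sub x y Q
    have : T x - T y = c * ((x - y) * (-(↑u⁻¹ : R) * r * q)) := by
      simp only [T]; linear_combination (-(↑u⁻¹ : R) * c * r) * hq
    rw [this, pow_succ']
    exact Ideal.mul_mem_mul (Ideal.mem_span_singleton_self c) (Ideal.mul_mem_right _ _ hxy))
  refine ⟨z, ?_⟩
  have hz' : (u : R) * z + c * r * Q.eval z = w := by
    have h3 : (u : R) * T z = w - c * r * Q.eval z := by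
      simp only [T]; rw [← mul_assoc, Units.mul_inv, one_mul]
    rw [hz] at h3
    linear_combination h3
  rw [hQ] at hz'
  rw [hB]
  linear_combination z * h1 + z ^ 2 * B.eval (t * z) * h2 + s * hz'

/-- **No `p`-torsion in principal units.** Same hypotheses as `exists_pow_eq_one_add`, in a
domain with `s ≠ 0`. -/
theorem eq_zero_of_one_add_pow_eq_one [IsDomain R] (c : R) [IsAdicComplete (Ideal.span {c}) R]
    (p : ℕ) (t s : R) (u : Rˣ) (r : R) (h1 : (p : R) * t = s * u) (h2 : t ^ 2 = s * c * r)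
    (hs : s ≠ 0) (z : R) (hz : (1 + t * z) ^ p = 1) : z = 0 := by
  obtain ⟨B, hB⟩ := exists_binomial_remainder R p
  have h3 : s * (z * (u + c * (r * z * B.eval (t * z)))) = 0 := by
    have := hB (t * z)
    rw [hz] at this
    linear_combination (-1 : R) * this - z * h1 - z ^ 2 * B.eval (t * z) * h2
  have h4 : z * (u + c * (r * z * B.eval (t * z))) = 0 := (mul_eq_zero.mp h3).resolve_left hs
  have hunit : IsUnit ((u : R) + c * (r * z * B.eval (t * z))) := by
    have hc : c ∈ (⊥ : Ideal R).jacobson :=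
      IsAdicComplete.le_jacobson_bot (Ideal.span {c}) (Ideal.mem_span_singleton_self c)
    rw [Ideal.mem_jacobson_bot] at hc
    have h5 := hc (r * z * B.eval (t * z) * ↑u⁻¹)
    have h6 : (u : R) + c * (r * z * B.eval (t * z)) =
        u * (c * (r * z * B.eval (t * z) * ↑u⁻¹) + 1) := by
      have h7 : (u : R) * ↑u⁻¹ = 1 := Units.mul_inv u
      linear_combination (-(c * (r * z * B.eval (t * z)))) * h7
    rw [h6]
    exact u.isUnit.mul h5
  exact (mul_eq_zero.mp h4).resolve_right hunit.ne_zero

/-- The principal units `1 + I`, as a subgroup of the unit group. -/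
def principalUnits (I : Ideal R) : Subgroup Rˣ :=
  (Units.map (Ideal.Quotient.mk I : R →* R ⧸ I)).ker

theorem mem_principalUnits {I : Ideal R} {x : Rˣ} : x ∈ principalUnits I ↔ (x : R) - 1 ∈ I := by
  rw [principalUnits, MonoidHom.mem_ker, Units.ext_iff, Units.coe_map, Units.val_one]
  change (Ideal.Quotient.mk I) (x : R) = 1 ↔ _
  rw [← map_one (Ideal.Quotient.mk I), Ideal.Quotient.eq]

theorem index_principalUnits_ne_zero (I : Ideal R) [Finite (R ⧸ I)] :
    (principalUnits I).index ≠ 0 := by
  rw [principalUnits, Subgroup.index_ker]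
  exact Nat.card_pos.ne'

/-- **Units of a `p`-adically complete domain.**  If `R` is a domain in which `p ≠ 0`, `R` is
`p`-adically complete and `R ⧸ p R` is finite, then
`(Rˣ : Rˣ^p) = #(R ⧸ p R) * #μ_p(R)`. -/
theorem index_range_pow_units_of_complete [IsDomain R] (p : ℕ) (hpR : (p : R) ≠ 0)
    [IsAdicComplete (Ideal.span {(p : R)}) R] [Finite (R ⧸ Ideal.span {(p : R)})] :
    (powMonoidHom p : Rˣ →* Rˣ).range.index =
      Nat.card (R ⧸ Ideal.span {(p : R)}) * Nat.card (powMonoidHom p : Rˣ →* Rˣ).ker := by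
  have hp0 : p ≠ 0 := by rintro rfl; simp at hpR
  have hc2 : (p : R) ^ 2 ≠ 0 := pow_ne_zero 2 hpR
  have e1 : ((p : R)) * (p : R) ^ 2 = (p : R) ^ 3 * ((1 : Rˣ) : R) := by
    rw [Units.val_one]; ring
  have e2 : ((p : R) ^ 2) ^ 2 = (p : R) ^ 3 * (p : R) * 1 := by ring
  set H : Subgroup Rˣ := principalUnits (Ideal.span {(p : R) ^ 2}) with hH
  have hfin : H.index ≠ 0 := by
    have : Finite (R ⧸ Ideal.span {(p : R) ^ 2}) := by
      rw [← Ideal.span_singleton_pow]
      exact Ideal.finite_quotient_pow ⟨{(p : R)}, by simp⟩ 2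
    exact index_principalUnits_ne_zero _
  have hmemH : ∀ x : Rˣ, x ∈ H ↔ ∃ z : R, (x : R) = 1 + (p : R) ^ 2 * z := by
    intro x
    rw [hH, mem_principalUnits, Ideal.mem_span_singleton]
    constructor
    · rintro ⟨z, hz⟩
      exact ⟨z, by linear_combination hz⟩
    · rintro ⟨z, hz⟩
      exact ⟨z, by linear_combination hz⟩
  have hdiv : ∀ x : H, ∃ z : R, ((x : Rˣ) : R) = 1 + (p : R) ^ 2 * z :=
    fun x => (hmemH x).mp x.2
  have htors : ∀ x ∈ H, x ^ p = 1 → x = 1 := by
    intro x hx hxp
    obtain ⟨z, hz⟩ := hdiv ⟨x, hx⟩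
    simp only at hz
    have hz0 : z = 0 :=
      eq_zero_of_one_add_pow_eq_one (p : R) p ((p : R) ^ 2) ((p : R) ^ 3) 1 1 e1 e2
        (pow_ne_zero 3 hpR) z (by rw [← hz, ← Units.val_pow_eq_pow_val, hxp, Units.val_one])
    apply Units.ext
    rw [hz, hz0]
    simp
  rw [index_range_pow_eq_of_finiteIndex p H hfin htors]
  congr 1
  choose ζ hζ using hdiv
  let ψ : H →* Multiplicative (R ⧸ Ideal.span {(p : R)}) :=
    MonoidHom.mk' (fun x => Multiplicative.ofAdd (Ideal.Quotient.mk _ (ζ x))) (by
      intro a b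
      rw [← ofAdd_add, ← map_add]
      congr 1
      rw [Ideal.Quotient.eq, Ideal.mem_span_singleton]
      have h := hζ (a * b)
      rw [Subgroup.coe_mul, Units.val_mul, hζ a, hζ b] at h
      have h' : ζ (a * b) = ζ a + ζ b + (p : R) ^ 2 * ζ a * ζ b := by
        apply mul_left_cancel₀ hc2
        linear_combination -h
      exact ⟨(p : R) * ζ a * ζ b, by rw [h']; ring⟩)
  have hψ : ∀ x, ψ x = Multiplicative.ofAdd (Ideal.Quotient.mk _ (ζ x)) := fun x => rfl
  have hpq : ((p : ℕ) : R ⧸ Ideal.span {(p : R)}) = 0 := by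
    rw [← map_natCast (Ideal.Quotient.mk (Ideal.span {(p : R)}))]
    exact Ideal.Quotient.eq_zero_iff_mem.mpr (Ideal.mem_span_singleton_self _)
  have hψker : ψ.ker = (powMonoidHom p : H →* H).range := by
    ext x
    rw [MonoidHom.mem_ker, MonoidHom.mem_range]
    constructor
    · intro hx
      have hx' : Ideal.Quotient.mk (Ideal.span {(p : R)}) (ζ x) = 0 := by
        rw [hψ] at hx
        exact Multiplicative.ofAdd.injective hx
      rw [Ideal.Quotient.eq_zero_iff_mem, Ideal.mem_span_singleton] at hx'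
      obtain ⟨w, hw⟩ := hx'
      obtain ⟨z, hz⟩ := exists_pow_eq_one_add (p : R) p ((p : R) ^ 2) ((p : R) ^ 3) 1 1 e1 e2 w
      have hxz : (1 + (p : R) ^ 2 * z) ^ p = ((x : Rˣ) : R) := by
        rw [hz, hζ x, hw]; ring
      have hu : IsUnit (1 + (p : R) ^ 2 * z) := by
        have : IsUnit ((1 + (p : R) ^ 2 * z) ^ p) := by rw [hxz]; exact Units.isUnit _
        exact (isUnit_pow_iff hp0).mp this
      refine ⟨⟨hu.unit, (hmemH _).mpr ⟨z, by simp⟩⟩, ?_⟩
      apply Subtype.ext
      apply Units.ext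
      simp [hxz]
    · rintro ⟨y, rfl⟩
      rw [powMonoidHom_apply, map_pow, hψ, ← ofAdd_nsmul, nsmul_eq_mul, hpq, zero_mul]
      rfl
  have hψsurj : Function.Surjective ψ := by
    intro a
    obtain ⟨z, hz⟩ := Ideal.Quotient.mk_surjective (Multiplicative.toAdd a)
    have hu : IsUnit (1 + (p : R) ^ 2 * z) := by
      have hcj : (p : R) ∈ (⊥ : Ideal R).jacobson :=
        IsAdicComplete.le_jacobson_bot _ (Ideal.mem_span_singleton_self (p : R))
      rw [Ideal.mem_jacobson_bot] at hcj
      have := hcj ((p : R) * z)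
      convert this using 1
      ring
    have hmem : hu.unit ∈ H := (hmemH _).mpr ⟨z, by simp⟩
    refine ⟨⟨hu.unit, hmem⟩, ?_⟩
    have h := hζ ⟨hu.unit, hmem⟩
    simp only [IsUnit.unit_spec] at h
    have h' : ζ ⟨hu.unit, hmem⟩ = z := mul_left_cancel₀ hc2 (by linear_combination -h)
    rw [hψ, h', hz]
    rfl
  rw [← hψker, Subgroup.index_ker, MonoidHom.range_eq_top.mpr hψsurj, Subgroup.card_top]
  exact Nat.card_congr Multiplicative.toAdd

/-- **Units of a complete domain, prime-to-residue-characteristic case.**  If `R` is a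
`c`-adically complete domain (`c ≠ 0`), `R ⧸ c R` is finite and `p` is a unit of `R`, then
`(Rˣ : Rˣ^p) = #μ_p(R)`. -/
theorem index_range_pow_units_of_complete_of_isUnit [IsDomain R] (p : ℕ) (c : R) (hc : c ≠ 0)
    [IsAdicComplete (Ideal.span {c}) R] [Finite (R ⧸ Ideal.span {c})] (hpu : IsUnit (p : R)) :
    (powMonoidHom p : Rˣ →* Rˣ).range.index = Nat.card (powMonoidHom p : Rˣ →* Rˣ).ker := by
  have hp0 : p ≠ 0 := by rintro rfl; simp at hpu
  have e1 : (p : R) * c = c * (hpu.unit : R) := by rw [IsUnit.unit_spec]; ring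
  have e2 : c ^ 2 = c * c * 1 := by ring
  set H : Subgroup Rˣ := principalUnits (Ideal.span {c}) with hH
  have hfin : H.index ≠ 0 := index_principalUnits_ne_zero _
  have hmemH : ∀ x : Rˣ, x ∈ H ↔ ∃ z : R, (x : R) = 1 + c * z := by
    intro x
    rw [hH, mem_principalUnits, Ideal.mem_span_singleton]
    constructor
    · rintro ⟨z, hz⟩
      exact ⟨z, by linear_combination hz⟩
    · rintro ⟨z, hz⟩
      exact ⟨z, by linear_combination hz⟩
  have hdiv : ∀ x ∈ H, ∃ z : R, ((x : Rˣ) : R) = 1 + c * z := fun x hx => (hmemH x).mp hx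
  have htors : ∀ x ∈ H, x ^ p = 1 → x = 1 := by
    intro x hx hxp
    obtain ⟨z, hz⟩ := hdiv x hx
    have hz0 : z = 0 :=
      eq_zero_of_one_add_pow_eq_one c p c c hpu.unit 1 e1 e2 hc z
        (by rw [← hz, ← Units.val_pow_eq_pow_val, hxp, Units.val_one])
    apply Units.ext
    rw [hz, hz0]
    simp
  rw [index_range_pow_eq_of_finiteIndex p H hfin htors]
  have htop : (powMonoidHom p : H →* H).range = ⊤ := by
    rw [MonoidHom.range_eq_top]
    intro y
    obtain ⟨w, hw⟩ := hdiv y y.2
    obtain ⟨z, hz⟩ := exists_pow_eq_one_add c p c c hpu.unit 1 e1 e2 w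
    have hxz : (1 + c * z) ^ p = ((y : Rˣ) : R) := by rw [hz, hw]
    have hu : IsUnit (1 + c * z) := by
      have : IsUnit ((1 + c * z) ^ p) := by rw [hxz]; exact Units.isUnit _
      exact (isUnit_pow_iff hp0).mp this
    refine ⟨⟨hu.unit, (hmemH _).mpr ⟨z, by simp⟩⟩, ?_⟩
    apply Subtype.ext
    apply Units.ext
    simp [hxz]
  rw [htop, Subgroup.index_top, one_mul]

end Complete

/-! ## C. A field with a valuation homomorphism -/

section Field

theorem index_range_pow_congr {G G' : Type*} [CommGroup G] [CommGroup G'] (e : G ≃* G') (p : ℕ) :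
    (powMonoidHom p : G' →* G').range.index = (powMonoidHom p : G →* G).range.index := by
  have h : (powMonoidHom p : G' →* G').range =
      (powMonoidHom p : G →* G).range.map (e : G →* G') := by
    ext x
    simp only [MonoidHom.mem_range, Subgroup.mem_map, powMonoidHom_apply, exists_exists_eq_and,
      MonoidHom.coe_coe, map_pow]
    constructor
    · rintro ⟨y, rfl⟩
      exact ⟨e.symm y, by simp⟩
    · rintro ⟨y, rfl⟩
      exact ⟨e y, rfl⟩
  rw [h, Subgroup.index_map_equiv]

theorem card_ker_pow_congr {G G' : Type*} [CommGroup G] [CommGroup G'] (e : G ≃* G') (p : ℕ) :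
    Nat.card (powMonoidHom p : G' →* G').ker = Nat.card (powMonoidHom p : G →* G).ker := by
  refine Nat.card_congr
    { toFun := fun x => ⟨e.symm x.1, ?_⟩
      invFun := fun y => ⟨e y.1, ?_⟩
      left_inv := fun x => by simp
      right_inv := fun y => by simp }
  · have hx := x.2
    rw [MonoidHom.mem_ker, powMonoidHom_apply] at hx ⊢
    rw [← map_pow, hx, map_one]
  · have hy := y.2
    rw [MonoidHom.mem_ker, powMonoidHom_apply] at hy ⊢
    rw [← map_pow, hy, map_one]

/-- **Units of a field versus units of its "ring of integers".**  Let `ν : Kˣ → ℤ` be a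
nontrivial homomorphism whose kernel is the image of the units of a subring `R`.  Then
`(Kˣ : Kˣ^p) = p * (Rˣ : Rˣ^p)` and `μ_p(K) = μ_p(R)`. -/
theorem index_range_pow_units_field {K R : Type*} [Field K] [CommRing R] (ι : R →+* K)
    (hι : Function.Injective ι) (p : ℕ) (hp : p ≠ 0) (ν : Kˣ →* Multiplicative ℤ)
    (hν : ∃ x, ν x ≠ 1)
    (hker : ∀ x : Kˣ, ν x = 1 ↔ x ∈ (Units.map (ι : R →* K)).range) :
    (powMonoidHom p : Kˣ →* Kˣ).range.index = p * (powMonoidHom p : Rˣ →* Rˣ).range.index ∧
      Nat.card (powMonoidHom p : Kˣ →* Kˣ).ker = Nat.card (powMonoidHom p : Rˣ →* Rˣ).ker := by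
  let f : Rˣ →* Kˣ := Units.map (ι : R →* K)
  have hf : Function.Injective f := Units.map_injective hι
  have hrange : f.range = ν.ker := by
    ext x
    rw [MonoidHom.mem_ker, hker]
  let e : Rˣ ≃* ν.ker := (MonoidHom.ofInjective hf).trans (MulEquiv.subgroupCongr hrange)
  refine ⟨?_, ?_⟩
  · rw [index_range_pow_eq_of_hom_int p hp ν hν, index_range_pow_congr e p]
  · rw [← card_ker_pow_congr e p]
    refine Nat.card_congr
      { toFun := fun x => ⟨⟨x.1, ?_⟩, ?_⟩
        invFun := fun y => ⟨y.1.1, ?_⟩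
        left_inv := fun x => rfl
        right_inv := fun y => rfl }
    · have hx := x.2
      rw [MonoidHom.mem_ker, powMonoidHom_apply] at hx
      rw [MonoidHom.mem_ker]
      have h1 : ν x.1 ^ p = 1 := by rw [← map_pow, hx, map_one]
      have h2 := congrArg Multiplicative.toAdd h1
      rw [toAdd_pow, toAdd_one, nsmul_eq_mul] at h2
      rcases mul_eq_zero.mp h2 with h | h
      · exact absurd (by exact_mod_cast h) hp
      · exact Multiplicative.toAdd.injective (by simpa using h)
    · have hx := x.2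
      rw [MonoidHom.mem_ker, powMonoidHom_apply] at hx ⊢
      exact Subtype.ext (by simpa using hx)
    · have hy := y.2
      rw [MonoidHom.mem_ker, powMonoidHom_apply] at hy ⊢
      simpa using congrArg Subtype.val hy

end Field

/-! ## D0. Finite free algebras over a complete ring -/

section FreeComplete

variable {A M ι : Type*} [CommRing A] [CommRing M] [Algebra A M] [Fintype ι]

theorem mem_span_pow_iff_repr (b : Module.Basis ι A M) (a : A) (n : ℕ) (x : M) :
    x ∈ Ideal.span {algebraMap A M a} ^ n ↔ ∀ i, b.repr x i ∈ Ideal.span {a} ^ n := by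
  rw [Ideal.span_singleton_pow, Ideal.span_singleton_pow, Ideal.mem_span_singleton]
  simp_rw [Ideal.mem_span_singleton]
  constructor
  · rintro ⟨y, rfl⟩ i
    refine ⟨b.repr y i, ?_⟩
    rw [← map_pow, ← Algebra.smul_def, map_smul]
    simp
  · intro h
    choose c hc using h
    refine ⟨b.equivFun.symm c, ?_⟩
    apply b.equivFun.injective
    rw [← map_pow, ← Algebra.smul_def, map_smul, LinearEquiv.apply_symm_apply]
    funext i
    rw [Module.Basis.equivFun_apply, hc i]
    simp

/-- A finite free algebra over an `a`-adically complete ring is `a`-adically complete. -/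
theorem isAdicComplete_of_basis (b : Module.Basis ι A M) (a : A)
    [IsAdicComplete (Ideal.span {a}) A] :
    IsAdicComplete (Ideal.span {algebraMap A M a}) M where
  haus' := by
    intro x hx
    apply b.repr.injective
    ext i
    rw [map_zero, Finsupp.zero_apply]
    apply IsHausdorff.haus (I := Ideal.span {a}) inferInstance
    intro n
    have := hx n
    rw [SModEq.sub_mem, sub_zero, smul_eq_mul, Ideal.mul_top] at this ⊢
    exact (mem_span_pow_iff_repr b a n x).mp this i
  prec' := by
    intro f hf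
    have hcoord : ∀ i, ∃ L : A, ∀ n, b.repr (f n) i ≡ L [SMOD (Ideal.span {a} ^ n • ⊤ : Ideal A)] := by
      intro i
      apply IsPrecomplete.prec (I := Ideal.span {a}) (M := A) inferInstance
      intro m n hmn
      have := hf hmn
      rw [SModEq.sub_mem, smul_eq_mul, Ideal.mul_top] at this ⊢
      have h2 := (mem_span_pow_iff_repr b a m _).mp this i
      simpa using h2
    choose L hL using hcoord
    refine ⟨b.equivFun.symm L, fun n => ?_⟩
    rw [SModEq.sub_mem, smul_eq_mul, Ideal.mul_top, mem_span_pow_iff_repr b a n]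
    intro i
    have := hL i n
    rw [SModEq.sub_mem, smul_eq_mul, Ideal.mul_top] at this
    have h3 : b.repr (f n - b.equivFun.symm L) i = b.repr (f n) i - L i := by
      rw [map_sub, Finsupp.sub_apply]
      congr 1
      have := congrFun (b.equivFun.apply_symm_apply L) i
      rwa [Module.Basis.equivFun_apply] at this
    rw [h3]
    exact this

/-- The quotient of a finite free algebra by `a` has `#(A/a)^rank` elements. -/
theorem card_quotient_span_of_basis (b : Module.Basis ι A M) (a : A) :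
    Nat.card (M ⧸ Ideal.span {algebraMap A M a}) =
      Nat.card (A ⧸ Ideal.span {a}) ^ Fintype.card ι := by
  let f : M →+ (ι → A ⧸ Ideal.span {a}) :=
    { toFun := fun x i => Ideal.Quotient.mk _ (b.repr x i)
      map_zero' := by funext i; simp
      map_add' := fun x y => by funext i; simp }
  have hker : f.ker = (Ideal.span {algebraMap A M a}).toAddSubgroup := by
    ext x
    rw [AddMonoidHom.mem_ker, Submodule.mem_toAddSubgroup]
    have h1 := mem_span_pow_iff_repr b a 1 x
    rw [pow_one, pow_one] at h1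
    rw [h1]
    constructor
    · intro h i
      have := congrFun h i
      exact Ideal.Quotient.eq_zero_iff_mem.mp this
    · intro h
      funext i
      exact Ideal.Quotient.eq_zero_iff_mem.mpr (h i)
  have hsurj : Function.Surjective f := by
    intro y
    choose c hc using fun i => Ideal.Quotient.mk_surjective (y i)
    refine ⟨b.equivFun.symm c, ?_⟩
    funext i
    have := congrFun (b.equivFun.apply_symm_apply c) i
    rw [Module.Basis.equivFun_apply] at this
    show Ideal.Quotient.mk _ (b.repr (b.equivFun.symm c) i) = y i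
    rw [this, hc]
  have h2 : Nat.card (M ⧸ Ideal.span {algebraMap A M a}) =
      (Ideal.span {algebraMap A M a}).toAddSubgroup.index := rfl
  rw [h2, ← hker, AddSubgroup.index_ker, AddMonoidHom.range_eq_top.mpr hsurj, AddSubgroup.card_top,
    Nat.card_fun]
  simp

end FreeComplete

/-! ## D. Finite extensions of `ℚ_[l]` -/

section Padic

open IntermediateField

variable (l : ℕ) [Fact l.Prime] {L : Type*} [Field L] [Algebra ℚ_[l] L]
  [FiniteDimensional ℚ_[l] L]

/-- The `l`-adic absolute value of the norm of `x`, via the constant coefficient of the minimal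
polynomial. -/
theorem norm_algebraNorm_eq (x : L) :
    ‖Algebra.norm ℚ_[l] x‖ = ‖(minpoly ℚ_[l] x).coeff 0‖ ^ Module.finrank ℚ_[l]⟮x⟯ L := by
  have hx : IsIntegral ℚ_[l] x := Algebra.IsIntegral.isIntegral x
  rw [Algebra.norm_eq_norm_adjoin ℚ_[l] x, ← IntermediateField.adjoin.powerBasis_gen hx,
    Algebra.PowerBasis.norm_gen_eq_coeff_zero_minpoly, IntermediateField.adjoin.powerBasis_gen hx,
    IntermediateField.minpoly_gen, norm_pow, norm_mul, norm_pow, norm_neg, norm_one, one_pow,
    one_mul]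

/-- The valuation of the norm, as a homomorphism `Lˣ → ℤ`. -/
noncomputable def normValuation : Lˣ →* Multiplicative ℤ :=
  MonoidHom.mk' (fun x => Multiplicative.ofAdd (Padic.valuation (Algebra.norm ℚ_[l] (x : L))))
    (by
      intro a b
      rw [Units.val_mul, map_mul,
        Padic.valuation_mul (Algebra.norm_ne_zero_iff.mpr a.ne_zero)
          (Algebra.norm_ne_zero_iff.mpr b.ne_zero), ofAdd_add])

theorem normValuation_eq_one_iff (x : Lˣ) :
    normValuation l x = 1 ↔ ‖Algebra.norm ℚ_[l] (x : L)‖ = 1 := by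
  have hne : Algebra.norm ℚ_[l] (x : L) ≠ 0 := Algebra.norm_ne_zero_iff.mpr x.ne_zero
  rw [Padic.norm_eq_zpow_neg_valuation hne]
  change Multiplicative.ofAdd (Padic.valuation (Algebra.norm ℚ_[l] (x : L))) = 1 ↔ _
  rw [ofAdd_eq_one]
  have hl : (1 : ℝ) < l := by exact_mod_cast (Fact.out : l.Prime).one_lt
  constructor
  · intro h
    rw [h]
    simp
  · intro h
    have := (zpow_eq_one_iff_right₀ (by positivity) hl.ne').mp h
    omega

theorem normValuation_ne_one : ∃ x : Lˣ, normValuation l x ≠ 1 := by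
  have hl0 : (l : ℚ_[l]) ≠ 0 := by exact_mod_cast (Fact.out : l.Prime).ne_zero
  have hl1 : (1 : ℝ) < l := by exact_mod_cast (Fact.out : l.Prime).one_lt
  refine ⟨Units.mk0 (algebraMap ℚ_[l] L l) ((map_ne_zero (algebraMap ℚ_[l] L)).mpr hl0), ?_⟩
  intro h
  rw [normValuation_eq_one_iff, Units.val_mk0, Algebra.norm_algebraMap, norm_pow,
    Padic.norm_p] at h
  have hn : Module.finrank ℚ_[l] L ≠ 0 := Module.finrank_pos.ne'
  have h2 := (pow_eq_one_iff_of_nonneg (by positivity) hn).mp h
  rw [inv_eq_one] at h2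
  exact hl1.ne' h2

variable [Algebra ℤ_[l] L] [IsScalarTower ℤ_[l] ℚ_[l] L]

omit [FiniteDimensional ℚ_[l] L] in
theorem norm_algebraNorm_le_one_of_isIntegral (x : L) (hx : IsIntegral ℤ_[l] x) :
    ‖Algebra.norm ℚ_[l] x‖ ≤ 1 := by
  have h := Algebra.isIntegral_norm ℚ_[l] hx
  obtain ⟨y, hy⟩ := IsIntegrallyClosed.isIntegral_iff.mp h
  rw [← hy]
  exact y.2

/-- Hensel/spectral norm: an element whose norm is an `l`-adic unit is integral over `ℤ_[l]`. -/
theorem isIntegral_of_norm_algebraNorm_eq_one (x : L) (hx : ‖Algebra.norm ℚ_[l] x‖ = 1) :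
    IsIntegral ℤ_[l] x := by
  have halg : IsIntegral ℚ_[l] x := Algebra.IsIntegral.isIntegral x
  have hmonic : (minpoly ℚ_[l] x).Monic := minpoly.monic halg
  have hfr : Module.finrank ℚ_[l]⟮x⟯ L ≠ 0 := Module.finrank_pos.ne'
  have h0 : ‖(minpoly ℚ_[l] x).coeff 0‖ = 1 := by
    have := norm_algebraNorm_eq l x
    rw [hx] at this
    exact (pow_eq_one_iff_of_nonneg (norm_nonneg _) hfr).mp this.symm
  have hspec : spectralNorm ℚ_[l] L x = 1 := by
    rw [spectralNorm.spectralNorm_eq_norm_coeff_zero_rpow, h0, Real.one_rpow]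
  have hcoeff : ∀ n, ‖(minpoly ℚ_[l] x).coeff n‖ ≤ 1 :=
    (spectralValue_le_one_iff hmonic).mp (le_of_eq hspec)
  have hlift : minpoly ℚ_[l] x ∈ Polynomial.lifts (algebraMap ℤ_[l] ℚ_[l]) := by
    rw [Polynomial.lifts_iff_coeff_lifts]
    intro n
    exact ⟨⟨_, hcoeff n⟩, rfl⟩
  obtain ⟨g, hg, -, hgm⟩ := Polynomial.lifts_and_degree_eq_and_monic hlift hmonic
  refine ⟨g, hgm, ?_⟩
  have h1 : Polynomial.aeval x (minpoly ℚ_[l] x) = 0 := minpoly.aeval _ _
  rw [← hg, Polynomial.aeval_map_algebraMap] at h1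
  exact h1

/-- The kernel of the valuation of the norm is the unit group of the integral closure. -/
theorem normValuation_eq_one_iff_mem_range (x : Lˣ) :
    normValuation l x = 1 ↔
      x ∈ (Units.map (algebraMap (integralClosure ℤ_[l] L) L : (integralClosure ℤ_[l] L) →* L)).range := by
  rw [normValuation_eq_one_iff]
  have hmul : Algebra.norm ℚ_[l] (x : L) * Algebra.norm ℚ_[l] ((x⁻¹ : Lˣ) : L) = 1 := by
    rw [← map_mul, ← Units.val_mul, mul_inv_cancel, Units.val_one, map_one]
  have hmul' : ‖Algebra.norm ℚ_[l] (x : L)‖ * ‖Algebra.norm ℚ_[l] ((x⁻¹ : Lˣ) : L)‖ = 1 := by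
    rw [← norm_mul, hmul, norm_one]
  constructor
  · intro h
    have h' : ‖Algebra.norm ℚ_[l] ((x⁻¹ : Lˣ) : L)‖ = 1 := by
      rw [h, one_mul] at hmul'
      exact hmul'
    have hx1 := isIntegral_of_norm_algebraNorm_eq_one l (x : L) h
    have hx2 := isIntegral_of_norm_algebraNorm_eq_one l ((x⁻¹ : Lˣ) : L) h'
    refine ⟨⟨⟨(x : L), hx1⟩, ⟨((x⁻¹ : Lˣ) : L), hx2⟩, ?_, ?_⟩, ?_⟩
    · exact Subtype.ext (by simp)
    · exact Subtype.ext (by simp)
    · exact Units.ext rfl
  · rintro ⟨u, rfl⟩
    have h1 : ‖Algebra.norm ℚ_[l] ((u : integralClosure ℤ_[l] L) : L)‖ ≤ 1 :=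
      norm_algebraNorm_le_one_of_isIntegral l _ (u : integralClosure ℤ_[l] L).2
    have h2 : ‖Algebra.norm ℚ_[l] (((u⁻¹ : (integralClosure ℤ_[l] L)ˣ) :
        integralClosure ℤ_[l] L) : L)‖ ≤ 1 :=
      norm_algebraNorm_le_one_of_isIntegral l _ ((u⁻¹ : (integralClosure ℤ_[l] L)ˣ) :
        integralClosure ℤ_[l] L).2
    have h3 : ((Units.map (algebraMap (integralClosure ℤ_[l] L) L : (integralClosure ℤ_[l] L) →* L) u : Lˣ) : L)
        = ((u : integralClosure ℤ_[l] L) : L) := rfl
    have h4 : (((Units.map (algebraMap (integralClosure ℤ_[l] L) L : (integralClosure ℤ_[l] L) →* L) u)⁻¹ : Lˣ) : L)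
        = (((u⁻¹ : (integralClosure ℤ_[l] L)ˣ) : integralClosure ℤ_[l] L) : L) := by
      rw [← map_inv]
      rfl
    rw [h3, h4] at hmul'
    rw [h3]
    by_contra hne
    have hlt : ‖Algebra.norm ℚ_[l] ((u : integralClosure ℤ_[l] L) : L)‖ < 1 := lt_of_le_of_ne h1 hne
    have : ‖Algebra.norm ℚ_[l] ((u : integralClosure ℤ_[l] L) : L)‖ *
        ‖Algebra.norm ℚ_[l] (((u⁻¹ : (integralClosure ℤ_[l] L)ˣ) :
        integralClosure ℤ_[l] L) : L)‖ < 1 := by
      calc _ ≤ ‖Algebra.norm ℚ_[l] ((u : integralClosure ℤ_[l] L) : L)‖ * 1 :=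
            mul_le_mul_of_nonneg_left h2 (norm_nonneg _)
        _ < 1 := by rw [mul_one]; exact hlt
    exact this.ne hmul'

end Padic

/-! ## The main theorem -/

section Main

/-- Auxiliary form of the main theorem, with the integral structure as parameters. -/
theorem index_range_pow_units_padic_aux (l p : ℕ) [Fact l.Prime] [Fact p.Prime] (K : Type*)
    [Field K] [Algebra ℚ_[l] K] [FiniteDimensional ℚ_[l] K] [Algebra ℤ_[l] K]
    [IsScalarTower ℤ_[l] ℚ_[l] K] :
    (powMonoidHom p : Kˣ →* Kˣ).range.index =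
      p * Nat.card (powMonoidHom p : Kˣ →* Kˣ).ker *
        (if l = p then p ^ Module.finrank ℚ_[l] K else 1) := by
  have hp : p.Prime := Fact.out
  have hl : l.Prime := Fact.out
  have : Module.IsTorsionFree ℤ_[l] K := Module.IsTorsionFree.trans_faithfulSMul ℤ_[l] ℚ_[l] K
  have : CharZero K := charZero_of_injective_algebraMap (algebraMap ℚ_[l] K).injective
  have : Module.Free ℤ_[l] (integralClosure ℤ_[l] K) :=
    IsIntegralClosure.module_free ℤ_[l] ℚ_[l] K (integralClosure ℤ_[l] K)
  have : Module.Finite ℤ_[l] (integralClosure ℤ_[l] K) :=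
    IsIntegralClosure.finite ℤ_[l] ℚ_[l] K (integralClosure ℤ_[l] K)
  have hrank : Module.finrank ℤ_[l] (integralClosure ℤ_[l] K) = Module.finrank ℚ_[l] K :=
    IsIntegralClosure.rank ℤ_[l] ℚ_[l] K (integralClosure ℤ_[l] K)
  let b := Module.Free.chooseBasis ℤ_[l] (integralClosure ℤ_[l] K)
  have : IsAdicComplete (Ideal.span {(l : ℤ_[l])}) ℤ_[l] := by
    rw [← PadicInt.maximalIdeal_eq_span_p]
    infer_instance
  have hmapl : algebraMap ℤ_[l] (integralClosure ℤ_[l] K) (l : ℤ_[l]) =
      ((l : ℕ) : integralClosure ℤ_[l] K) := map_natCast _ _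
  have hcomp : IsAdicComplete (Ideal.span {((l : ℕ) : integralClosure ℤ_[l] K)})
      (integralClosure ℤ_[l] K) := by
    rw [← hmapl]
    exact isAdicComplete_of_basis b (l : ℤ_[l])
  have hcardZ : Nat.card (ℤ_[l] ⧸ Ideal.span {(l : ℤ_[l])}) = l := by
    rw [← PadicInt.maximalIdeal_eq_span_p]
    have := Nat.card_congr (PadicInt.residueField (p := l)).toEquiv
    rw [Nat.card_zmod] at this
    exact this
  have hcard : Nat.card (integralClosure ℤ_[l] K ⧸
      Ideal.span {((l : ℕ) : integralClosure ℤ_[l] K)}) = l ^ Module.finrank ℚ_[l] K := by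
    rw [← hmapl, card_quotient_span_of_basis b, hcardZ, ← hrank,
      Module.finrank_eq_card_chooseBasisIndex]
  have hfinq : Finite (integralClosure ℤ_[l] K ⧸
      Ideal.span {((l : ℕ) : integralClosure ℤ_[l] K)}) :=
    Nat.finite_of_card_ne_zero (by rw [hcard]; exact pow_ne_zero _ hl.ne_zero)
  have hl0 : ((l : ℕ) : integralClosure ℤ_[l] K) ≠ 0 := by
    exact_mod_cast hl.ne_zero
  obtain ⟨h1, h2⟩ := index_range_pow_units_field (algebraMap (integralClosure ℤ_[l] K) K)
    Subtype.val_injective p hp.ne_zero (normValuation l) (normValuation_ne_one l)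
    (normValuation_eq_one_iff_mem_range l)
  rw [h1, h2]
  split_ifs with hlp
  · subst hlp
    have := hcomp
    have := hfinq
    rw [index_range_pow_units_of_complete l hl0, hcard]
    ring
  · have hpu : IsUnit ((p : ℕ) : integralClosure ℤ_[l] K) := by
      have h3 : IsUnit ((p : ℕ) : ℤ_[l]) :=
        PadicInt.isUnit_iff.mpr
          (PadicInt.norm_natCast_eq_one_iff.mpr ((Nat.coprime_primes hl hp).mpr hlp))
      have h4 := h3.map (algebraMap ℤ_[l] (integralClosure ℤ_[l] K))
      rwa [map_natCast] at h4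
    have := hcomp
    have := hfinq
    rw [index_range_pow_units_of_complete_of_isUnit p
      ((l : ℕ) : integralClosure ℤ_[l] K) hl0 hpu]
    ring

/-- **Index of `p`-th powers in a local field.**  For a finite extension `K` of `ℚ_[l]` and a
prime `p`: `(Kˣ : Kˣ^p) = p * #μ_p(K) * (p ^ [K : ℚ_l] if l = p else 1)`. -/
theorem index_range_pow_units_padic (l p : ℕ) [Fact l.Prime] [Fact p.Prime] (K : Type*)
    [Field K] [Algebra ℚ_[l] K] [FiniteDimensional ℚ_[l] K] :
    (powMonoidHom p : Kˣ →* Kˣ).range.index =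
      p * Nat.card (rootsOfUnity p K) * (if l = p then p ^ Module.finrank ℚ_[l] K else 1) := by
  let : Algebra ℤ_[l] K := ((algebraMap ℚ_[l] K).comp (algebraMap ℤ_[l] ℚ_[l])).toAlgebra
  have : IsScalarTower ℤ_[l] ℚ_[l] K := IsScalarTower.of_algebraMap_eq (fun _ => rfl)
  exact index_range_pow_units_padic_aux l p K

/-- **S55-LA-POWIDX.**  For a finite extension `K` of `ℚ_[l]` and a prime `p`:
`#(Kˣ / Kˣ^p) = p * #μ_p(K) * (p ^ [K : ℚ_l] if l = p else 1)`. -/
theorem card_units_quot_pow (l p : ℕ) [Fact l.Prime] [Fact p.Prime] (K : Type*)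
    [Field K] [Algebra ℚ_[l] K] [FiniteDimensional ℚ_[l] K] :
    Nat.card (Kˣ ⧸ (powMonoidHom p : Kˣ →* Kˣ).range) =
      p * Nat.card (rootsOfUnity p K) * (if l = p then p ^ Module.finrank ℚ_[l] K else 1) :=
  index_range_pow_units_padic l p K

/-- The group `Kˣ / Kˣ^p` is finite. -/
theorem finite_units_quot_pow (l p : ℕ) [Fact l.Prime] [Fact p.Prime] (K : Type*)
    [Field K] [Algebra ℚ_[l] K] [FiniteDimensional ℚ_[l] K] :
    Finite (Kˣ ⧸ (powMonoidHom p : Kˣ →* Kˣ).range) := by
  have hp : p.Prime := Fact.out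
  apply Nat.finite_of_card_ne_zero
  rw [card_units_quot_pow l p K]
  have h1 : Nat.card (rootsOfUnity p K) ≠ 0 := by
    have : NeZero p := ⟨hp.ne_zero⟩
    exact Nat.card_pos.ne'
  refine mul_ne_zero (mul_ne_zero hp.ne_zero h1) ?_
  split_ifs
  · exact pow_ne_zero _ hp.ne_zero
  · exact one_ne_zero

end Main

end Fermat.Agent.S55.helper8235
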