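import Mathlib
import Fermat.Prelude.Def_GroupCohomology_ContinuousUnramified
import Fermat.Agent.S55.helper698_LocTop

set_option autoImplicit false

/-
S55 leaf LA-H1LOC (helper895): the local `h¹` count.

* (A) `natCard_levelHom` : Kummer theory as a count, for any Galois `Om/K` with `μ_p ⊆ K` and
  `p`-th roots in `Om`: `#{level-constant χ : Gal(Om/K) → ℤ/p} = [Kˣ : Kˣᵖ]`.
* (B) `natCard_levelChars`, `finrank_levelChars_of_card`, `finrank_levelChars` : for a finite
  `K/ℚ_l` inside `PadicAlgCl l` and `G_K = K.fixingSubgroup`,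
  `dim Hom_cont(G_K, ℤ/p) = 2 + [l = p]·[K : ℚ_l]` (hypothesis-passing on the index of `p`-th
  powers, leaf LA-POWIDX).
* (C) `finrank_continuousH1_trivial_of_card`, `finrank_continuousH1_trivial`,
  `finite_continuousH1_trivial_of_card` : the same for the frozen carrier
  `continuousH1 (resToGlobal l K) (Rep.trivial (ZMod p) G_K (ZMod p))`.
-/

namespace Fermat.Agent.S55.helper895

open IntermediateField

section Kummer

variable (K Om : Type*) [Field K] [Field Om] [Algebra K Om]

/-- Characters `Gal(Om/K) → ℤ/p` that are trivial on the fixing subgroup of a finite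
subextension ("level-constant" / continuous characters). -/
def LevelHom (p : ℕ) : Set ((Om ≃ₐ[K] Om) →* Multiplicative (ZMod p)) :=
  {χ | ∃ E : IntermediateField K Om, FiniteDimensional K E ∧ E.fixingSubgroup ≤ χ.ker}

variable {K Om}

/-- The Kummer relation: `χ` is the Kummer character of `a` (w.r.t. the root of unity `ζ`). -/
def KRel (p : ℕ) (ζ : K) (a : Kˣ) (χ : (Om ≃ₐ[K] Om) →* Multiplicative (ZMod p)) : Prop :=
  ∃ α : Om, α ^ p = algebraMap K Om a ∧
    ∀ g : Om ≃ₐ[K] Om, g α = algebraMap K Om ζ ^ (Multiplicative.toAdd (χ g)).val * α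

omit [Field K] [Field Om] [Algebra K Om] in
lemma pow_val_add {M : Type*} [Monoid M] {n : ℕ} [NeZero n] {z : M} (hz : z ^ n = 1)
    (j j' : ZMod n) : z ^ (j + j').val = z ^ j.val * z ^ j'.val := by
  rw [ZMod.val_add, ← pow_add, pow_eq_pow_mod (j.val + j'.val) hz]

/-- Finite Hilbert 90 for a character with values in `μ_p ⊆ K`. -/
theorem exists_kummer_generator_finite {k L : Type*} [Field k] [Field L] [Algebra k L]
    [FiniteDimensional k L] {n : ℕ} [NeZero n] {ζ : k} (hζ : ζ ^ n = 1)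
    (j : (L ≃ₐ[k] L) → ZMod n) (hj : ∀ σ τ, j (σ * τ) = j σ + j τ) :
    ∃ β : L, β ≠ 0 ∧ ∀ σ : L ≃ₐ[k] L, σ β = algebraMap k L ζ ^ (j σ).val * β := by
  have hζ0 : algebraMap k L ζ ≠ 0 := by
    rw [Ne, map_eq_zero]
    rintro rfl
    rw [zero_pow (NeZero.ne n)] at hζ
    exact zero_ne_one hζ
  let u : Lˣ := Units.mk0 (algebraMap k L ζ) hζ0
  have hup : u ^ n = 1 := by
    apply Units.ext
    simp only [Units.val_pow_eq_pow_val, u, Units.val_mk0, Units.val_one]
    rw [← map_pow, hζ, map_one]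
  have hσu : ∀ σ : L ≃ₐ[k] L, σ • u = u := by
    intro σ
    apply Units.ext
    rw [AlgEquiv.smul_units_def, Units.coe_map]
    simp [u]
  let f : (L ≃ₐ[k] L) → Lˣ := fun σ => u ^ (j σ).val
  have hf : groupCohomology.IsMulCocycle₁ f := by
    intro σ τ
    simp only [f]
    rw [hj, pow_val_add hup, smul_pow', hσu, mul_comm]
  obtain ⟨β, hβ⟩ := groupCohomology.isMulCoboundary₁_of_isMulCocycle₁_of_aut_to_units f hf
  refine ⟨(β : L), β.ne_zero, fun σ => ?_⟩
  have h2 := hβ σ
  have h3 : σ • β = f σ * β := by rw [← h2, div_mul_cancel]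
  have h4 := congrArg (fun v : Lˣ => (v : L)) h3
  simpa [AlgEquiv.smul_units_def, f, u] using h4

variable {p : ℕ} [hp : Fact p.Prime] {ζ : K}


omit [Algebra K Om] in
lemma pow_val_inj {z : Om} (hz : IsPrimitiveRoot z p) {j j' : ZMod p}
    (h : z ^ j.val = z ^ j'.val) : j = j' :=
  ZMod.val_injective p (hz.pow_inj (ZMod.val_lt j) (ZMod.val_lt j') h)

omit [Algebra K Om] in
lemma exists_pow_val_eq {z : Om} (hz : IsPrimitiveRoot z p) {x : Om} (hx : x ^ p = 1) :
    ∃ j : ZMod p, z ^ j.val = x := by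
  have : NeZero p := ⟨hp.out.ne_zero⟩
  obtain ⟨i, hi, rfl⟩ := hz.eq_pow_of_pow_eq_one hx
  exact ⟨(i : ZMod p), by rw [ZMod.val_natCast_of_lt hi]⟩

/-- (1) Every unit of `K` with a `p`-th root in `Om` has a level-constant Kummer character. -/
theorem krel_exists_hom (hζ : IsPrimitiveRoot ζ p) (a : Kˣ) {α : Om}
    (hα : α ^ p = algebraMap K Om a) :
    ∃ χ ∈ LevelHom K Om p, KRel p ζ a χ := by
  set z : Om := algebraMap K Om ζ with hz
  have hzp : IsPrimitiveRoot z p := hζ.map_of_injective (algebraMap K Om).injective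
  have hz1 : z ^ p = 1 := hzp.pow_eq_one
  have ha0 : algebraMap K Om (a : K) ≠ 0 := by
    simp
  have hα0 : α ≠ 0 := by
    rintro rfl
    rw [zero_pow hp.out.ne_zero] at hα
    exact ha0 hα.symm
  have key : ∀ g : Om ≃ₐ[K] Om, ∃ j : ZMod p, z ^ j.val = g α / α := by
    intro g
    apply exists_pow_val_eq hzp
    rw [div_pow, ← map_pow, hα, AlgEquiv.commutes, div_self ha0]
  choose j hj using key
  have hj' : ∀ g : Om ≃ₐ[K] Om, g α = z ^ (j g).val * α := by
    intro g
    rw [hj g, div_mul_cancel₀ _ hα0]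
  have hmul : ∀ g h : Om ≃ₐ[K] Om, j (g * h) = j g + j h := by
    intro g h
    apply pow_val_inj hzp
    have h1 : (g * h) α = z ^ (j h).val * (z ^ (j g).val * α) := by
      rw [AlgEquiv.mul_apply, hj' h, map_mul, map_pow, hz, AlgEquiv.commutes, ← hz, hj' g]
    have h2 := hj' (g * h)
    rw [h1] at h2
    have h3 : z ^ (j (g * h)).val * α = (z ^ (j g).val * z ^ (j h).val) * α := by
      rw [← h2]; ring
    rw [pow_val_add hz1]
    exact mul_right_cancel₀ hα0 h3
  let χ : (Om ≃ₐ[K] Om) →* Multiplicative (ZMod p) :=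
    MonoidHom.mk' (fun g => Multiplicative.ofAdd (j g)) (fun g h => by
      rw [hmul, ofAdd_add])
  refine ⟨χ, ⟨K⟮α⟯, ?_, ?_⟩, α, hα, fun g => hj' g⟩
  · apply IntermediateField.adjoin.finiteDimensional
    refine ⟨Polynomial.X ^ p - Polynomial.C (a : K), ?_, ?_⟩
    · exact Polynomial.monic_X_pow_sub_C _ hp.out.ne_zero
    · simp [hα]
  · intro g hg
    rw [MonoidHom.mem_ker]
    have hgα : g α = α :=
      (IntermediateField.mem_fixingSubgroup_iff _ _).1 hg α (IntermediateField.mem_adjoin_simple_self K α)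
    have h0 : j g = 0 := by
      apply pow_val_inj hzp
      have := hj' g
      rw [hgα] at this
      rw [ZMod.val_zero, pow_zero]
      have h4 : z ^ (j g).val * α = 1 * α := by rw [← this, one_mul]
      exact mul_right_cancel₀ hα0 h4
    change Multiplicative.ofAdd (j g) = 1
    rw [h0]; rfl

/-- (3) Two Kummer characters coincide iff the units differ by a `p`-th power. -/
theorem krel_eq_iff [IsGalois K Om] (hζ : IsPrimitiveRoot ζ p) {a a' : Kˣ}
    {χ χ' : (Om ≃ₐ[K] Om) →* Multiplicative (ZMod p)} (h : KRel p ζ a χ) (h' : KRel p ζ a' χ') :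
    χ = χ' ↔ a⁻¹ * a' ∈ (powMonoidHom p : Kˣ →* Kˣ).range := by
  set z : Om := algebraMap K Om ζ with hz
  have hzp : IsPrimitiveRoot z p := hζ.map_of_injective (algebraMap K Om).injective
  have hz1 : z ^ p = 1 := hzp.pow_eq_one
  have hz0 : z ≠ 0 := hzp.ne_zero hp.out.ne_zero
  obtain ⟨α, hα, hg⟩ := h
  obtain ⟨α', hα', hg'⟩ := h'
  rw [← hz] at hg hg'
  have ha0 : algebraMap K Om (a : K) ≠ 0 := by simp
  have ha0' : algebraMap K Om (a' : K) ≠ 0 := by simp
  have hα0 : α ≠ 0 := by
    rintro rfl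
    rw [zero_pow hp.out.ne_zero] at hα
    exact ha0 hα.symm
  have hα0' : α' ≠ 0 := by
    rintro rfl
    rw [zero_pow hp.out.ne_zero] at hα'
    exact ha0' hα'.symm
  constructor
  · rintro rfl
    have hfix : ∀ g : Om ≃ₐ[K] Om, g (α' / α) = α' / α := by
      intro g
      rw [map_div₀, hg g, hg' g, mul_div_mul_left _ _ (pow_ne_zero _ hz0)]
    obtain ⟨c, hc⟩ := (InfiniteGalois.mem_range_algebraMap_iff_fixed (α' / α)).2 hfix
    have hc0 : c ≠ 0 := by
      rintro rfl
      rw [map_zero] at hc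
      exact div_ne_zero hα0' hα0 hc.symm
    refine ⟨Units.mk0 c hc0, ?_⟩
    apply Units.ext
    apply (algebraMap K Om).injective
    simp only [powMonoidHom_apply, Units.val_pow_eq_pow_val, Units.val_mk0, map_pow, hc,
      Units.val_mul, map_mul, Units.val_inv_eq_inv_val, map_inv₀]
    rw [div_pow, hα, hα', div_eq_inv_mul]
  · rintro ⟨c, hc⟩
    have hc' : ((c : K) ^ p) = (a : K)⁻¹ * a' := by
      have := congrArg (fun u : Kˣ => (u : K)) hc
      simpa using this
    have hc0 : algebraMap K Om (c : K) ≠ 0 := by simp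
    set γ : Om := α' / (α * algebraMap K Om (c : K)) with hγ
    have hγp : γ ^ p = 1 := by
      rw [hγ, div_pow, mul_pow, hα, hα', ← map_pow, hc', map_mul, map_inv₀]
      field_simp
    have hγ0 : γ ≠ 0 := by
      intro h0
      rw [h0, zero_pow hp.out.ne_zero] at hγp
      exact zero_ne_one hγp
    obtain ⟨i, hi⟩ := exists_pow_val_eq hzp hγp
    ext g
    have hgγ : g γ = γ := by
      rw [← hi, map_pow, hz, AlgEquiv.commutes]
    have hgγ' : g γ = z ^ (Multiplicative.toAdd (χ' g)).val / z ^ (Multiplicative.toAdd (χ g)).val * γ := by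
      rw [hγ, map_div₀, map_mul, hg g, hg' g, AlgEquiv.commutes]
      have hzj : z ^ (Multiplicative.toAdd (χ g)).val ≠ 0 := pow_ne_zero _ hz0
      field_simp
    rw [hgγ] at hgγ'
    have h5 : z ^ (Multiplicative.toAdd (χ' g)).val / z ^ (Multiplicative.toAdd (χ g)).val = 1 := by
      have h6 : 1 * γ = z ^ (Multiplicative.toAdd (χ' g)).val / z ^ (Multiplicative.toAdd (χ g)).val * γ := by
        rw [one_mul]; exact hgγ'
      exact (mul_right_cancel₀ hγ0 h6).symm
    have h7 : z ^ (Multiplicative.toAdd (χ' g)).val = z ^ (Multiplicative.toAdd (χ g)).val := by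
      rw [div_eq_one_iff_eq (pow_ne_zero _ hz0)] at h5
      exact h5
    have h8 := pow_val_inj hzp h7
    exact (Multiplicative.toAdd.injective h8).symm

/-- (2) Hilbert 90 in level form: every level-constant character is a Kummer character. -/
theorem krel_exists_unit [IsGalois K Om] (hζ : IsPrimitiveRoot ζ p)
    {χ : (Om ≃ₐ[K] Om) →* Multiplicative (ZMod p)} (hχ : χ ∈ LevelHom K Om p) :
    ∃ a : Kˣ, KRel p ζ a χ := by
  obtain ⟨E, hE, hle⟩ := hχ
  have : NeZero p := ⟨hp.out.ne_zero⟩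
  let N : IntermediateField K Om := IntermediateField.normalClosure K E Om
  have hEN : E ≤ N := E.le_normalClosure
  have hfd : FiniteDimensional K N := inferInstance
  have hnor : Normal K N := inferInstance
  let ρ : (Om ≃ₐ[K] Om) →* (N ≃ₐ[K] N) := AlgEquiv.restrictNormalHom N
  have hsurj : Function.Surjective ρ := AlgEquiv.restrictNormalHom_surjective Om
  have hρ : ∀ (g : Om ≃ₐ[K] Om) (x : N), algebraMap N Om (ρ g x) = g (algebraMap N Om x) :=
    fun g x => AlgEquiv.restrictNormal_commutes g N x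
  have hker : ∀ g : Om ≃ₐ[K] Om, ρ g = 1 → χ g = 1 := by
    intro g hg
    have hgN : g ∈ N.fixingSubgroup := by
      rw [IntermediateField.mem_fixingSubgroup_iff]
      intro x hx
      have := hρ g ⟨x, hx⟩
      rw [hg] at this
      exact this.symm
    exact MonoidHom.mem_ker.1 (hle (IntermediateField.fixingSubgroup_antitone hEN hgN))
  have hχρ : ∀ g g' : Om ≃ₐ[K] Om, ρ g = ρ g' → χ g = χ g' := by
    intro g g' h
    have h1 : ρ (g⁻¹ * g') = 1 := by rw [map_mul, map_inv, h, inv_mul_cancel]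
    have h2 := hker _ h1
    rw [map_mul, map_inv, inv_mul_eq_one] at h2
    exact h2
  let lift : (N ≃ₐ[K] N) → (Om ≃ₐ[K] Om) := Function.surjInv hsurj
  have hlift : ∀ σ, ρ (lift σ) = σ := Function.surjInv_eq hsurj
  obtain ⟨β, hβ0, hβ⟩ := exists_kummer_generator_finite (k := K) (L := N) hζ.pow_eq_one
    (fun σ => Multiplicative.toAdd (χ (lift σ))) (fun σ τ => by
      have h1 : χ (lift (σ * τ)) = χ (lift σ) * χ (lift τ) := by
        rw [← map_mul]
        apply hχρ
        rw [hlift, map_mul, hlift, hlift]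
      rw [h1, toAdd_mul])
  set z : Om := algebraMap K Om ζ with hz
  have hzp : IsPrimitiveRoot z p := hζ.map_of_injective (algebraMap K Om).injective
  have hz1 : z ^ p = 1 := hzp.pow_eq_one
  set b : Om := algebraMap N Om β with hb
  have hb0 : b ≠ 0 := by
    rw [hb, Ne, map_eq_zero]
    exact hβ0
  have hgb : ∀ g : Om ≃ₐ[K] Om, g b = z ^ (Multiplicative.toAdd (χ g)).val * b := by
    intro g
    have h5 : χ (lift (ρ g)) = χ g := hχρ _ _ (hlift _)
    rw [hb, ← hρ g, hβ (ρ g), map_mul, map_pow, h5, ← IsScalarTower.algebraMap_apply K N Om]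
  have hfix : ∀ g : Om ≃ₐ[K] Om, g (b ^ p) = b ^ p := by
    intro g
    rw [map_pow, hgb g, mul_pow, ← pow_mul, mul_comm _ p, pow_mul, hz1, one_pow, one_mul]
  obtain ⟨a0, ha0⟩ := (InfiniteGalois.mem_range_algebraMap_iff_fixed (b ^ p)).2 hfix
  have ha00 : a0 ≠ 0 := by
    rintro rfl
    rw [map_zero] at ha0
    exact pow_ne_zero p hb0 ha0.symm
  exact ⟨Units.mk0 a0 ha00, b, by rw [Units.val_mk0, ha0], hgb⟩

/-- (A) KUMMER COUNT: for a Galois extension `Om/K` in which every element of `K` has a `p`-th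
root, with `μ_p ⊆ K`, the level-constant characters `Gal(Om/K) → ℤ/p` are in bijection with
`Kˣ / Kˣᵖ`. -/
theorem natCard_levelHom [IsGalois K Om] (hζ : IsPrimitiveRoot ζ p)
    (hroot : ∀ a : K, ∃ α : Om, α ^ p = algebraMap K Om a) :
    Nat.card (LevelHom K Om p) = Nat.card (Kˣ ⧸ (powMonoidHom p : Kˣ →* Kˣ).range) := by
  classical
  have h1 : ∀ a : Kˣ, ∃ χ : LevelHom K Om p, KRel p ζ a χ.1 := by
    intro a
    obtain ⟨α, hα⟩ := hroot a
    obtain ⟨χ, hχ, h⟩ := krel_exists_hom hζ a hα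
    exact ⟨⟨χ, hχ⟩, h⟩
  choose F hF using h1
  have hFeq : ∀ a b : Kˣ, F a = F b ↔ a⁻¹ * b ∈ (powMonoidHom p : Kˣ →* Kˣ).range := by
    intro a b
    rw [← krel_eq_iff hζ (hF a) (hF b), Subtype.ext_iff]
  let Φ : (Kˣ ⧸ (powMonoidHom p : Kˣ →* Kˣ).range) → LevelHom K Om p :=
    Quotient.lift F (fun a b hab => (hFeq a b).2 (QuotientGroup.leftRel_apply.1 hab))
  have hΦ : Function.Bijective Φ := by
    constructor
    · intro x y
      induction x using QuotientGroup.induction_on with | _ a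
      induction y using QuotientGroup.induction_on with | _ b
      intro h
      exact QuotientGroup.eq.2 ((hFeq a b).1 h)
    · rintro ⟨χ, hχ⟩
      obtain ⟨a, ha⟩ := krel_exists_unit hζ hχ
      refine ⟨(a : Kˣ ⧸ _), ?_⟩
      apply Subtype.ext
      exact ((krel_eq_iff hζ (hF a) ha).2 (by rw [inv_mul_cancel]; exact one_mem _))
  exact (Nat.card_congr (Equiv.ofBijective Φ hΦ)).symm

end Kummer

section Local

variable (l : ℕ) [Fact l.Prime] (p : ℕ) [hp : Fact p.Prime]
  (K : IntermediateField ℚ_[l] (PadicAlgCl l))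

/-- Level-constant (= continuous) additive characters `G_K → ℤ/p`, where
`G_K = K.fixingSubgroup` is the absolute Galois group of the local field `K`, seen inside the
frozen local group `PadicAlgCl l ≃ₐ[ℚ_[l]] PadicAlgCl l`. For a homomorphism, killing
`G_K ∩ E.fixingSubgroup` is the same as right-invariance under it. -/
def levelChars : Submodule (ZMod p) (Additive K.fixingSubgroup →+ ZMod p) where
  carrier := {f | ∃ E : IntermediateField ℚ_[l] (PadicAlgCl l), FiniteDimensional ℚ_[l] E ∧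
      ∀ s : K.fixingSubgroup, (s : PadicAlgCl l ≃ₐ[ℚ_[l]] PadicAlgCl l) ∈ E.fixingSubgroup →
        f (Additive.ofMul s) = 0}
  add_mem' := by
    rintro f f' ⟨E, hE, h⟩ ⟨E', hE', h'⟩
    refine ⟨E ⊔ E', IntermediateField.finiteDimensional_sup E E', fun s hs => ?_⟩
    rw [IntermediateField.fixingSubgroup_sup] at hs
    rw [AddMonoidHom.add_apply, h s hs.1, h' s hs.2, add_zero]
  zero_mem' := ⟨⊥, inferInstance, fun _ _ => rfl⟩
  smul_mem' := by
    rintro c f ⟨E, hE, h⟩
    exact ⟨E, hE, fun s hs => by rw [AddMonoidHom.smul_apply, h s hs, smul_zero]⟩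

variable {l p K} in
lemma mem_levelChars_iff (f : Additive K.fixingSubgroup →+ ZMod p) :
    f ∈ levelChars l p K ↔
      ∃ E : IntermediateField ℚ_[l] (PadicAlgCl l), FiniteDimensional ℚ_[l] E ∧
        ∀ s : K.fixingSubgroup, (s : PadicAlgCl l ≃ₐ[ℚ_[l]] PadicAlgCl l) ∈ E.fixingSubgroup →
          f (Additive.ofMul s) = 0 := Iff.rfl

/-- Characters of `G_K ≤ G_{ℚ_l}` (additive) versus characters of `Gal(Om/K)` (multiplicative). -/
noncomputable def ambientEquiv : (Additive K.fixingSubgroup →+ ZMod p) ≃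
    ((PadicAlgCl l ≃ₐ[K] PadicAlgCl l) →* Multiplicative (ZMod p)) where
  toFun f := (AddMonoidHom.toMultiplicativeRight f).comp K.fixingSubgroupEquiv.symm.toMonoidHom
  invFun χ := MonoidHom.toAdditiveLeft (χ.comp K.fixingSubgroupEquiv.toMonoidHom)
  left_inv f := by
    ext s
    simp
  right_inv χ := by
    ext g
    simp

lemma ambientEquiv_apply (f : Additive K.fixingSubgroup →+ ZMod p)
    (g : PadicAlgCl l ≃ₐ[K] PadicAlgCl l) :
    ambientEquiv l p K f g = Multiplicative.ofAdd (f (Additive.ofMul (K.fixingSubgroupEquiv.symm g))) :=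
  rfl

lemma fixingSubgroupEquiv_symm_apply' (g : PadicAlgCl l ≃ₐ[K] PadicAlgCl l) (x : PadicAlgCl l) :
    ((K.fixingSubgroupEquiv.symm g : K.fixingSubgroup) :
      PadicAlgCl l ≃ₐ[ℚ_[l]] PadicAlgCl l) x = g x := rfl

lemma fixingSubgroupEquiv_apply' (s : K.fixingSubgroup) (x : PadicAlgCl l) :
    (K.fixingSubgroupEquiv s) x = (s : PadicAlgCl l ≃ₐ[ℚ_[l]] PadicAlgCl l) x := rfl

/-- The two notions of level-constancy correspond. -/
theorem ambientEquiv_mem_levelHom_iff (f : Additive K.fixingSubgroup →+ ZMod p) :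
    f ∈ levelChars l p K ↔ ambientEquiv l p K f ∈ LevelHom K (PadicAlgCl l) p := by
  constructor
  · rintro ⟨E, hE, h⟩
    obtain ⟨α, hα⟩ := Field.exists_primitive_element ℚ_[l] E
    have hint : IsIntegral K (α : PadicAlgCl l) :=
      (Algebra.IsIntegral.isIntegral (R := ℚ_[l]) (α : PadicAlgCl l)).tower_top
    refine ⟨(↥K)⟮(α : PadicAlgCl l)⟯, IntermediateField.adjoin.finiteDimensional hint, ?_⟩
    intro g hg
    rw [MonoidHom.mem_ker, ambientEquiv_apply]
    have hgα : g (α : PadicAlgCl l) = α :=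
      (IntermediateField.mem_fixingSubgroup_iff _ _).1 hg _
        (IntermediateField.mem_adjoin_simple_self _ _)
    have hs : ((K.fixingSubgroupEquiv.symm g : K.fixingSubgroup) :
        PadicAlgCl l ≃ₐ[ℚ_[l]] PadicAlgCl l) ∈ E.fixingSubgroup := by
      rw [IntermediateField.mem_fixingSubgroup_iff]
      intro x hx
      have hx' : x ∈ ℚ_[l]⟮(α : PadicAlgCl l)⟯ := by
        have hmap : (ℚ_[l]⟮α⟯).map E.val = ℚ_[l]⟮(α : PadicAlgCl l)⟯ := by
          rw [IntermediateField.adjoin_map, Set.image_singleton]; rfl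
        rw [← hmap, hα, IntermediateField.mem_map]
        exact ⟨⟨x, hx⟩, IntermediateField.mem_top, rfl⟩
      exact helper698.algEquiv_apply_eq_of_mem_adjoin_simple _
        (by rw [fixingSubgroupEquiv_symm_apply', hgα]) hx'
    rw [h _ hs]
    rfl
  · rintro ⟨E', hE', h⟩
    obtain ⟨β, hβ⟩ := Field.exists_primitive_element K E'
    have hint : IsIntegral ℚ_[l] (β : PadicAlgCl l) := Algebra.IsIntegral.isIntegral _
    refine ⟨ℚ_[l]⟮(β : PadicAlgCl l)⟯, IntermediateField.adjoin.finiteDimensional hint, ?_⟩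
    intro s hs
    have hsβ : (s : PadicAlgCl l ≃ₐ[ℚ_[l]] PadicAlgCl l) (β : PadicAlgCl l) = β :=
      (IntermediateField.mem_fixingSubgroup_iff _ _).1 hs _
        (IntermediateField.mem_adjoin_simple_self _ _)
    have hg : K.fixingSubgroupEquiv s ∈ E'.fixingSubgroup := by
      rw [IntermediateField.mem_fixingSubgroup_iff]
      intro x hx
      have hx' : x ∈ (↥K)⟮(β : PadicAlgCl l)⟯ := by
        have hmap : ((↥K)⟮β⟯).map E'.val = (↥K)⟮(β : PadicAlgCl l)⟯ := by
          rw [IntermediateField.adjoin_map, Set.image_singleton]; rfl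
        rw [← hmap, hβ, IntermediateField.mem_map]
        exact ⟨⟨x, hx⟩, IntermediateField.mem_top, rfl⟩
      exact helper698.algEquiv_apply_eq_of_mem_adjoin_simple _
        (by rw [fixingSubgroupEquiv_apply', hsβ]) hx'
    have h1 := MonoidHom.mem_ker.1 (h hg)
    rw [ambientEquiv_apply, MulEquiv.symm_apply_apply] at h1
    exact h1

/-- (B1) The number of continuous characters `G_K → ℤ/p` is the index of `p`-th powers in `Kˣ`
(Kummer theory; `μ_p ⊆ K`). -/
theorem natCard_levelChars {ζ : K} (hζ : IsPrimitiveRoot ζ p) :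
    Nat.card (levelChars l p K) =
      Nat.card ((↥K)ˣ ⧸ (powMonoidHom p : (↥K)ˣ →* (↥K)ˣ).range) := by
  have h1 : Nat.card (levelChars l p K) = Nat.card (LevelHom K (PadicAlgCl l) p) :=
    Nat.card_congr ((ambientEquiv l p K).subtypeEquiv (ambientEquiv_mem_levelHom_iff l p K))
  rw [h1]
  exact natCard_levelHom hζ (fun a => IsAlgClosed.exists_pow_nat_eq _ hp.out.pos)

/-- (B2) Hypothesis-passing form: if `[Kˣ : Kˣᵖ] = p ^ m` then the space of continuous characters
`G_K → ℤ/p` is finite of `𝔽_p`-dimension `m`. -/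
theorem finrank_levelChars_of_card {ζ : K} (hζ : IsPrimitiveRoot ζ p) {m : ℕ}
    (hPow : Nat.card ((↥K)ˣ ⧸ (powMonoidHom p : (↥K)ˣ →* (↥K)ˣ).range) = p ^ m) :
    Finite (levelChars l p K) ∧ Module.finrank (ZMod p) (levelChars l p K) = m := by
  have h1 : Nat.card (levelChars l p K) = p ^ m := (natCard_levelChars l p K hζ).trans hPow
  have hfin : Finite (levelChars l p K) :=
    Nat.finite_of_card_ne_zero (by rw [h1]; exact pow_ne_zero _ hp.out.ne_zero)
  refine ⟨hfin, ?_⟩
  have h2 := FiniteField.pow_finrank_eq_natCard p (levelChars l p K)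
  rw [h1] at h2
  exact Nat.pow_right_injective hp.out.two_le h2

/-- (B3) The same with the index of `p`-th powers in the shape of the leaf `LA-POWIDX`
(`helper8235.card_units_quot_pow`): `dim Hom_cont(G_K, ℤ/p) = 2 + [l = p]·[K : ℚ_l]`. -/
theorem finrank_levelChars [FiniteDimensional ℚ_[l] K] {ζ : K} (hζ : IsPrimitiveRoot ζ p)
    (hPow : Nat.card ((↥K)ˣ ⧸ (powMonoidHom p : (↥K)ˣ →* (↥K)ˣ).range) =
      p * Nat.card (rootsOfUnity p ↥K) *
        (if l = p then p ^ Module.finrank ℚ_[l] ↥K else 1)) :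
    Finite (levelChars l p K) ∧ Module.finrank (ZMod p) (levelChars l p K) =
      2 + (if l = p then Module.finrank ℚ_[l] ↥K else 0) := by
  have : NeZero p := ⟨hp.out.ne_zero⟩
  apply finrank_levelChars_of_card l p K hζ
  rw [hPow, hζ.card_rootsOfUnity]
  split_ifs
  · rw [pow_add, pow_two]
  · rw [add_zero, pow_two, mul_one]

end Local

section Frozen

open groupCohomology CategoryTheory

variable (l : ℕ) [Fact l.Prime] (p : ℕ) [hp : Fact p.Prime]
  (K : IntermediateField ℚ_[l] (PadicAlgCl l))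

/-- The frozen local-to-global map restricted to `G_K = K.fixingSubgroup`. -/
noncomputable def resToGlobal :
    K.fixingSubgroup →* (AlgebraicClosure ℚ ≃ₐ[ℚ] AlgebraicClosure ℚ) :=
  (localGaloisToGlobal l).comp K.fixingSubgroup.subtype

/-- Frozen level-constancy on `G_K` (number-field levels through `localGaloisToGlobal`) is
right-invariance under `G_K ∩ E.fixingSubgroup` for a finite `E/ℚ_l`. -/
theorem isLevelConstant₁_resToGlobal_iff {X : Type*} (f : K.fixingSubgroup → X) :
    IsLevelConstant₁ (resToGlobal l K) f ↔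
      ∃ E : IntermediateField ℚ_[l] (PadicAlgCl l), FiniteDimensional ℚ_[l] E ∧
        ∀ g s : K.fixingSubgroup,
          (s : PadicAlgCl l ≃ₐ[ℚ_[l]] PadicAlgCl l) ∈ E.fixingSubgroup → f (g * s) = f g := by
  constructor
  · rintro ⟨F, hF, h⟩
    have := hF
    obtain ⟨E, hE, hEF⟩ := helper698.exists_localField_fixingSubgroup_le l F
    exact ⟨E, hE, fun g s hs => h g s (hEF s hs)⟩
  · rintro ⟨E, hE, h⟩
    have := hE
    obtain ⟨F, hF, hFE⟩ := helper698.exists_numberField_comap_fixingSubgroup_le l E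
    exact ⟨F, hF, fun g s hs => h g s (hFE s hs)⟩

/-- The frozen `continuousH1` of the trivial module `ℤ/p` on `G_K` is the space of
level-constant characters. -/
theorem map_continuousH1_trivial :
    (continuousH1 (resToGlobal l K) (Rep.trivial (ZMod p) K.fixingSubgroup (ZMod p))).map
      ((H1IsoOfIsTrivial (Rep.trivial (ZMod p) K.fixingSubgroup (ZMod p))).toLinearEquiv :
        H1 (Rep.trivial (ZMod p) K.fixingSubgroup (ZMod p)) →ₗ[ZMod p]
          (Additive K.fixingSubgroup →+ ZMod p)) = levelChars l p K := by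
  ext f
  rw [Submodule.mem_map, mem_levelChars_iff]
  constructor
  · rintro ⟨x, hx, rfl⟩
    obtain ⟨c, hc, rfl⟩ := (mem_continuousH1_iff _ _ x).1 hx
    obtain ⟨E, hE, h⟩ := (isLevelConstant₁_resToGlobal_iff l K _).1 hc
    refine ⟨E, hE, fun s hs => ?_⟩
    have h1 := h 1 s hs
    rw [one_mul] at h1
    have h2 : (c : K.fixingSubgroup → _) 1 = 0 := cocycles₁_map_one c
    rw [h2] at h1
    exact (H1IsoOfIsTrivial_H1π_apply_apply c (Additive.ofMul s)).trans h1
  · rintro ⟨E, hE, h⟩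
    let c : cocycles₁ (Rep.trivial (ZMod p) K.fixingSubgroup (ZMod p)) :=
      (cocycles₁IsoOfIsTrivial (Rep.trivial (ZMod p) K.fixingSubgroup (ZMod p))).inv f
    have hc : ∀ g : K.fixingSubgroup, (c : K.fixingSubgroup → _) g = f (Additive.ofMul g) :=
      fun g => rfl
    refine ⟨(H1π _).hom c, (mem_continuousH1_iff _ _ _).2 ⟨c, ?_, rfl⟩, ?_⟩
    · rw [isLevelConstant₁_resToGlobal_iff]
      refine ⟨E, hE, fun g s hs => ?_⟩
      rw [hc, hc, ofMul_mul, map_add, h s hs, add_zero]
    · ext a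
      exact H1IsoOfIsTrivial_H1π_apply_apply c a

/-- (C) FROZEN CARRIER: `dim continuousH1(G_K, ℤ/p) = m` if `[Kˣ : Kˣᵖ] = p ^ m` (`μ_p ⊆ K`). -/
theorem finrank_continuousH1_trivial_of_card {ζ : K} (hζ : IsPrimitiveRoot ζ p) {m : ℕ}
    (hPow : Nat.card ((↥K)ˣ ⧸ (powMonoidHom p : (↥K)ˣ →* (↥K)ˣ).range) = p ^ m) :
    Module.finrank (ZMod p)
      (continuousH1 (resToGlobal l K) (Rep.trivial (ZMod p) K.fixingSubgroup (ZMod p))) = m := by
  rw [← (finrank_levelChars_of_card l p K hζ hPow).2, ← map_continuousH1_trivial l p K]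
  exact (LinearEquiv.finrank_eq (LinearEquiv.submoduleMap _ _))

/-- (C') Frozen carrier, with the index of `p`-th powers in the shape of the leaf `LA-POWIDX`
(`helper8235.card_units_quot_pow`): `dim H¹_cont(G_K, ℤ/p) = 2 + [l = p]·[K : ℚ_l]`. -/
theorem finrank_continuousH1_trivial [FiniteDimensional ℚ_[l] K] {ζ : K}
    (hζ : IsPrimitiveRoot ζ p)
    (hPow : Nat.card ((↥K)ˣ ⧸ (powMonoidHom p : (↥K)ˣ →* (↥K)ˣ).range) =
      p * Nat.card (rootsOfUnity p ↥K) *
        (if l = p then p ^ Module.finrank ℚ_[l] ↥K else 1)) :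
    Module.finrank (ZMod p)
      (continuousH1 (resToGlobal l K) (Rep.trivial (ZMod p) K.fixingSubgroup (ZMod p))) =
      2 + (if l = p then Module.finrank ℚ_[l] ↥K else 0) := by
  rw [← (finrank_levelChars l p K hζ hPow).2, ← map_continuousH1_trivial l p K]
  exact (LinearEquiv.finrank_eq (LinearEquiv.submoduleMap _ _))

/-- The frozen `continuousH1(G_K, ℤ/p)` is finite (as soon as `[Kˣ : Kˣᵖ]` is a power of `p`). -/
theorem finite_continuousH1_trivial_of_card {ζ : K} (hζ : IsPrimitiveRoot ζ p) {m : ℕ}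
    (hPow : Nat.card ((↥K)ˣ ⧸ (powMonoidHom p : (↥K)ˣ →* (↥K)ˣ).range) = p ^ m) :
    Finite (continuousH1 (resToGlobal l K) (Rep.trivial (ZMod p) K.fixingSubgroup (ZMod p))) := by
  have h1 : Finite (levelChars l p K) := (finrank_levelChars_of_card l p K hζ hPow).1
  rw [← map_continuousH1_trivial l p K] at h1
  exact Finite.of_equiv _ (LinearEquiv.submoduleMap
    (H1IsoOfIsTrivial (Rep.trivial (ZMod p) K.fixingSubgroup (ZMod p))).toLinearEquiv
    (continuousH1 (resToGlobal l K) (Rep.trivial (ZMod p) K.fixingSubgroup (ZMod p)))).symm.toEquiv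

end Frozen

end Fermat.Agent.S55.helper895
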