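import Mathlib
import Fermat.Prelude.Def_GroupCohomology_ContinuousUnramified
import Fermat.Agent.S55.helper895_H1Loc
import Fermat.Agent.S55.helper8235_PowIndex
import Fermat.Agent.S55.helper6706_MuP
import Fermat.Agent.S55.helper1702_Finite

set_option autoImplicit false

/-
S55 leaf LA-H1LOC (helper895), final consumer-facing forms (all unconditional):

* `finrank_levelChars_padic`, `finrank_continuousH1_trivial_padic` : (B), (C) of
  `helper895_H1Loc` with the index of `p`-th powers discharged by `helper8235.card_units_quot_pow`.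
* `exists_intermediateField_fixingSubgroup_eq` : open subgroup = fixing subgroup of a finite
  subextension of degree the index (any Galois extension).
* `finrank_continuousH1_trivial_of_open` / `_of_levelOpen` / `_primeLocal` : for an open subgroup
  `U` of the local Galois group with trivial cyclotomic character,
  `dim continuousH1 (r.comp U.subtype) (Rep.trivial (ZMod p) U (ZMod p)) = 2 + [l = p]·U.index`.
* `finite_levelHomLoc_comap` / `finite_levelHomLoc_primeLocal` : input (FL) of `helper1702_Finite`.
* `finite_continuousH1_res_of_smooth` : the frozen local `H¹` of every finite module with open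
  stabilisers is finite.
-/

namespace Fermat.Agent.S55.helper895

open IntermediateField groupCohomology ExtCitation

section Unconditional

variable (l : ℕ) [Fact l.Prime] (p : ℕ) [hp : Fact p.Prime]
  (K : IntermediateField ℚ_[l] (PadicAlgCl l)) [FiniteDimensional ℚ_[l] K]

/-- (B, unconditional) `dim Hom_cont(G_K, ℤ/p) = 2 + [l = p]·[K : ℚ_l]` for a finite `K/ℚ_l`
containing `μ_p`. -/
theorem finrank_levelChars_padic {ζ : K} (hζ : IsPrimitiveRoot ζ p) :
    Finite (levelChars l p K) ∧ Module.finrank (ZMod p) (levelChars l p K) =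
      2 + (if l = p then Module.finrank ℚ_[l] ↥K else 0) :=
  finrank_levelChars l p K hζ (helper8235.card_units_quot_pow l p K)

/-- (C, unconditional) the frozen carrier: `dim continuousH1(G_K, ℤ/p) = 2 + [l = p]·[K : ℚ_l]`. -/
theorem finrank_continuousH1_trivial_padic {ζ : K} (hζ : IsPrimitiveRoot ζ p) :
    Module.finrank (ZMod p)
      (continuousH1 (resToGlobal l K) (Rep.trivial (ZMod p) K.fixingSubgroup (ZMod p))) =
      2 + (if l = p then Module.finrank ℚ_[l] ↥K else 0) :=
  finrank_continuousH1_trivial l p K hζ (helper8235.card_units_quot_pow l p K)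

end Unconditional

section OpenSubgroup

/-- An open subgroup of the Galois group of a (possibly infinite) Galois extension is the fixing
subgroup of a finite subextension, of degree the index. -/
theorem exists_intermediateField_fixingSubgroup_eq {k Om : Type*} [Field k] [Field Om]
    [Algebra k Om] [IsGalois k Om] (U : Subgroup (Om ≃ₐ[k] Om))
    (hU : ∃ E : IntermediateField k Om, FiniteDimensional k E ∧ E.fixingSubgroup ≤ U) :
    ∃ K : IntermediateField k Om, FiniteDimensional k K ∧ K.fixingSubgroup = U ∧
      Module.finrank k K = U.index := by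
  obtain ⟨E, hE, hEU⟩ := hU
  have hopen : IsOpen (U : Set (Om ≃ₐ[k] Om)) := Subgroup.isOpen_mono hEU E.fixingSubgroup_isOpen
  have hclosed : IsClosed (U : Set (Om ≃ₐ[k] Om)) := Subgroup.isClosed_of_isOpen U hopen
  have hK : (IntermediateField.fixedField U).fixingSubgroup = U :=
    InfiniteGalois.fixingSubgroup_fixedField ⟨U, hclosed⟩
  have hle : IntermediateField.fixedField U ≤ E := by
    intro x hx
    rw [← InfiniteGalois.fixedField_fixingSubgroup E, IntermediateField.mem_fixedField_iff]
    intro g hg
    exact (IntermediateField.mem_fixedField_iff _ _).1 hx g (hEU hg)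
  refine ⟨IntermediateField.fixedField U, ?_, hK, ?_⟩
  · exact FiniteDimensional.of_injective (IntermediateField.inclusion hle).toLinearMap
      (IntermediateField.inclusion_injective hle)
  · rw [IntermediateField.finrank_eq_fixingSubgroup_index, hK]

end OpenSubgroup

section OpenFrozen

variable (l : ℕ) [Fact l.Prime] (p : ℕ) [hp : Fact p.Prime]

/-- The `p`-th root of unity `ζ_p ∈ PadicAlgCl l` (image of the one of `ℚbar`) is primitive. -/
theorem isPrimitiveRoot_zetaPadic :
    IsPrimitiveRoot ((helper6706.zetaPadic p l : (PadicAlgCl l)ˣ) : PadicAlgCl l) p := by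
  have h1 : orderOf (helper6706.zetaPadic p l) = p :=
    orderOf_eq_prime (helper6706.zetaPadic_pow l p) (helper6706.zetaPadic_ne_one l p)
  have h2 : IsPrimitiveRoot (helper6706.zetaPadic p l) p := by
    have h3 := IsPrimitiveRoot.orderOf (helper6706.zetaPadic p l)
    rwa [h1] at h3
  exact IsPrimitiveRoot.coe_units_iff.2 h2

/-- A local automorphism on which the cyclotomic character is trivial fixes `ζ_p`. -/
theorem apply_zetaPadic_of_cycloChar (u : PadicAlgCl l ≃ₐ[ℚ_[l]] PadicAlgCl l)
    (hu : cycloChar p (localGaloisToGlobal l u) = 1) :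
    u ((helper6706.zetaPadic p l : (PadicAlgCl l)ˣ) : PadicAlgCl l) =
      ((helper6706.zetaPadic p l : (PadicAlgCl l)ˣ) : PadicAlgCl l) := by
  have h1 := helper6706.smul_zetaPadic (p := p) l u
  rw [hu] at h1
  have h2 : ((1 : (ZMod p)ˣ) : ZMod p).val = 1 := by
    rw [Units.val_one]
    exact ZMod.val_one p
  rw [h2, pow_one] at h1
  have h3 := congrArg (fun v : (PadicAlgCl l)ˣ => (v : PadicAlgCl l)) h1
  simpa [AlgEquiv.smul_units_def] using h3

/-- LA-H1LOC, FROZEN END FORM (same convention as the end adapters LB1-FROZEN / LB2-FROZEN): for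
an open subgroup `U` of the local Galois group `Γ_l = Gal(PadicAlgCl l / ℚ_l)` on which the
cyclotomic character is trivial, `dim continuousH1(U, ℤ/p) = 2 + [l = p]·[Γ_l : U]`. -/
theorem finrank_continuousH1_trivial_of_open
    (U : Subgroup (PadicAlgCl l ≃ₐ[ℚ_[l]] PadicAlgCl l))
    (hU : ∃ E : IntermediateField ℚ_[l] (PadicAlgCl l),
      FiniteDimensional ℚ_[l] E ∧ E.fixingSubgroup ≤ U)
    (hχ : ∀ u ∈ U, cycloChar p (localGaloisToGlobal l u) = 1) :
    Module.finrank (ZMod p)
      (continuousH1 ((localGaloisToGlobal l).comp U.subtype)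
        (Rep.trivial (ZMod p) U (ZMod p))) =
      2 + (if l = p then U.index else 0) := by
  obtain ⟨K, hK, rfl, hidx⟩ := exists_intermediateField_fixingSubgroup_eq U hU
  have hmem : ((helper6706.zetaPadic p l : (PadicAlgCl l)ˣ) : PadicAlgCl l) ∈ K := by
    rw [← InfiniteGalois.fixedField_fixingSubgroup K, IntermediateField.mem_fixedField_iff]
    exact fun u hu => apply_zetaPadic_of_cycloChar l p u (hχ u hu)
  have hprim : IsPrimitiveRoot
      (⟨((helper6706.zetaPadic p l : (PadicAlgCl l)ˣ) : PadicAlgCl l), hmem⟩ : K) p :=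
    IsPrimitiveRoot.coe_submonoidClass_iff.1 (isPrimitiveRoot_zetaPadic l p)
  rw [← hidx]
  exact finrank_continuousH1_trivial_padic l p K hprim

/-- The same with openness stated through number-field levels (`helper5550.IsLevelOpen`
shape: `U` contains the preimage of the fixing subgroup of a number field). -/
theorem finrank_continuousH1_trivial_of_levelOpen
    (U : Subgroup (PadicAlgCl l ≃ₐ[ℚ_[l]] PadicAlgCl l))
    (hU : ∃ F₀ : IntermediateField ℚ (AlgebraicClosure ℚ), FiniteDimensional ℚ F₀ ∧
      F₀.fixingSubgroup.comap (localGaloisToGlobal l) ≤ U)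
    (hχ : ∀ u ∈ U, cycloChar p (localGaloisToGlobal l u) = 1) :
    Module.finrank (ZMod p)
      (continuousH1 ((localGaloisToGlobal l).comp U.subtype)
        (Rep.trivial (ZMod p) U (ZMod p))) =
      2 + (if l = p then U.index else 0) := by
  obtain ⟨F₀, hF₀, hle⟩ := hU
  obtain ⟨E, hE, hEF⟩ := helper698.exists_localField_fixingSubgroup_le l F₀
  exact finrank_continuousH1_trivial_of_open l p U ⟨E, hE, fun τ hτ => hle (hEF τ hτ)⟩ hχ

/-- Finite-dimensionality of the frozen `continuousH1(U, ℤ/p)` in the same situation. -/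
theorem finiteDimensional_continuousH1_trivial_of_levelOpen
    (U : Subgroup (PadicAlgCl l ≃ₐ[ℚ_[l]] PadicAlgCl l))
    (hU : ∃ F₀ : IntermediateField ℚ (AlgebraicClosure ℚ), FiniteDimensional ℚ F₀ ∧
      F₀.fixingSubgroup.comap (localGaloisToGlobal l) ≤ U)
    (hχ : ∀ u ∈ U, cycloChar p (localGaloisToGlobal l u) = 1) :
    FiniteDimensional (ZMod p)
      (continuousH1 ((localGaloisToGlobal l).comp U.subtype)
        (Rep.trivial (ZMod p) U (ZMod p))) := by
  apply Module.finite_of_finrank_pos
  rw [finrank_continuousH1_trivial_of_levelOpen l p U hU hχ]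
  omega

/-- LA-H1LOC on the frozen local datum at a prime `q` (`primeLocalToGlobal q`), for an open
subgroup `U` (e.g. a stabiliser of a point of `G_ℚ / G_F`) on which the cyclotomic character is
trivial: `dim continuousH1(U, ℤ/p) = 2 + [q = p]·[Γ_q : U]`. -/
theorem finrank_continuousH1_trivial_primeLocal (q : Nat.Primes)
    (U : Subgroup (primeLocalGaloisGroup q))
    (hU : ∃ F₀ : IntermediateField ℚ (AlgebraicClosure ℚ), FiniteDimensional ℚ F₀ ∧
      F₀.fixingSubgroup.comap (primeLocalToGlobal q) ≤ U)
    (hχ : ∀ u ∈ U, cycloChar p (primeLocalToGlobal q u) = 1) :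
    Module.finrank (ZMod p)
      (continuousH1 ((primeLocalToGlobal q).comp U.subtype)
        (Rep.trivial (ZMod p) U (ZMod p))) =
      2 + (if (q : ℕ) = p then U.index else 0) :=
  haveI : Fact (q : ℕ).Prime := ⟨q.2⟩
  finrank_continuousH1_trivial_of_levelOpen (q : ℕ) p U hU hχ

/-- Finite-dimensionality in the same situation. -/
theorem finiteDimensional_continuousH1_trivial_primeLocal (q : Nat.Primes)
    (U : Subgroup (primeLocalGaloisGroup q))
    (hU : ∃ F₀ : IntermediateField ℚ (AlgebraicClosure ℚ), FiniteDimensional ℚ F₀ ∧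
      F₀.fixingSubgroup.comap (primeLocalToGlobal q) ≤ U)
    (hχ : ∀ u ∈ U, cycloChar p (primeLocalToGlobal q u) = 1) :
    FiniteDimensional (ZMod p)
      (continuousH1 ((primeLocalToGlobal q).comp U.subtype)
        (Rep.trivial (ZMod p) U (ZMod p))) :=
  haveI : Fact (q : ℕ).Prime := ⟨q.2⟩
  finiteDimensional_continuousH1_trivial_of_levelOpen (q : ℕ) p U hU hχ

end OpenFrozen

section FiniteLocal

variable (l : ℕ) [Fact l.Prime] (p : ℕ) [hp : Fact p.Prime]

/-- (FL) of SOFT-FINITE (`helper1702`): the level characters `U → ℤ/p` of the open subgroup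
`U = r⁻¹(G_{K_g})` of the local Galois group are finite in number, for every number field `K_g`. -/
theorem finite_levelHomLoc_comap (Kg : IntermediateField ℚ (AlgebraicClosure ℚ))
    [FiniteDimensional ℚ Kg] :
    (helper1702.LevelHomLoc (localGaloisToGlobal l)
      (Kg.fixingSubgroup.comap (localGaloisToGlobal l)) (ZMod p)).Finite := by
  obtain ⟨E, hE, hEK⟩ := helper698.exists_localField_fixingSubgroup_le l Kg
  set ζ : PadicAlgCl l := ((helper6706.zetaPadic p l : (PadicAlgCl l)ˣ) : PadicAlgCl l) with hζdef
  have hfdζ : FiniteDimensional ℚ_[l] ℚ_[l]⟮ζ⟯ :=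
    IntermediateField.adjoin.finiteDimensional (Algebra.IsIntegral.isIntegral ζ)
  let K : IntermediateField ℚ_[l] (PadicAlgCl l) := E ⊔ ℚ_[l]⟮ζ⟯
  have hfdK : FiniteDimensional ℚ_[l] K := IntermediateField.finiteDimensional_sup E _
  have hζK : ζ ∈ K :=
    (le_sup_right : ℚ_[l]⟮ζ⟯ ≤ K) (IntermediateField.mem_adjoin_simple_self _ ζ)
  have hprim : IsPrimitiveRoot (⟨ζ, hζK⟩ : K) p :=
    IsPrimitiveRoot.coe_submonoidClass_iff.1 (isPrimitiveRoot_zetaPadic l p)
  have hfin : Finite (levelChars l p K) := (finrank_levelChars_padic l p K hprim).1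
  have hle : K.fixingSubgroup ≤ Kg.fixingSubgroup.comap (localGaloisToGlobal l) := by
    intro τ hτ
    exact hEK τ (IntermediateField.fixingSubgroup_antitone (le_sup_left : E ≤ K) hτ)
  have hidx : K.fixingSubgroup.relIndex (Kg.fixingSubgroup.comap (localGaloisToGlobal l)) ≠ 0 := by
    have h1 : K.fixingSubgroup.index ≠ 0 := by
      rw [← IntermediateField.finrank_eq_fixingSubgroup_index]
      exact Module.finrank_pos.ne'
    intro h
    exact h1 (Subgroup.index_eq_zero_of_relIndex_eq_zero h)
  refine helper1702.finite_levelHomLoc_of_le (localGaloisToGlobal l) hle hidx ?_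
  -- the level characters of `G_K` inject into `levelChars l p K`
  have key : ∀ φ : helper1702.LevelHomLoc (localGaloisToGlobal l) K.fixingSubgroup (ZMod p),
      ∃ f : levelChars l p K, ∀ s : K.fixingSubgroup, (f : Additive K.fixingSubgroup →+ ZMod p)
        (Additive.ofMul s) = (φ : K.fixingSubgroup → ZMod p) s := by
    rintro ⟨φ, hadd, F, hF, hlev⟩
    have := hF
    obtain ⟨E', hE', hE'F⟩ := helper698.exists_localField_fixingSubgroup_le l F
    have h1 : φ 1 = 0 := by
      have := hadd 1 1
      rw [mul_one] at this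
      exact left_eq_add.1 this
    refine ⟨⟨AddMonoidHom.mk' (fun a => φ (Additive.toMul a)) (fun a b => hadd _ _),
      E', hE', fun s hs => ?_⟩, fun s => rfl⟩
    have h2 := hlev 1 s (hE'F _ hs)
    rw [one_mul, h1] at h2
    exact h2
  choose f hf using key
  have hinj : Function.Injective f := by
    intro φ ψ h
    apply Subtype.ext
    funext s
    rw [← hf φ s, ← hf ψ s, h]
  exact Set.finite_coe_iff.1 (Finite.of_injective f hinj)

/-- (FL) on the frozen local datum at a prime `q`. -/
theorem finite_levelHomLoc_primeLocal (q : Nat.Primes)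
    (Kg : IntermediateField ℚ (AlgebraicClosure ℚ)) [FiniteDimensional ℚ Kg] :
    (helper1702.LevelHomLoc (primeLocalToGlobal q)
      (Kg.fixingSubgroup.comap (primeLocalToGlobal q)) (ZMod p)).Finite :=
  haveI : Fact (q : ℕ).Prime := ⟨q.2⟩
  finite_levelHomLoc_comap (q : ℕ) p Kg

/-- LOCAL `H¹` FINITENESS on the frozen carrier, for a module trivialised by a number field. -/
theorem finite_continuousH1_res_primeLocal (q : Nat.Primes)
    (M : Rep (ZMod p) (AlgebraicClosure ℚ ≃ₐ[ℚ] AlgebraicClosure ℚ))
    [FiniteDimensional (ZMod p) M]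
    (Kg : IntermediateField ℚ (AlgebraicClosure ℚ)) [FiniteDimensional ℚ Kg]
    (hK : ∀ s ∈ Kg.fixingSubgroup, M.ρ s = 1) :
    Finite (continuousH1 (primeLocalToGlobal q) (Rep.res (primeLocalToGlobal q) M)) :=
  helper1702.finite_continuousH1_res_of_levelHomLoc (primeLocalToGlobal q) M Kg hK
    (finite_levelHomLoc_primeLocal p q Kg)

/-- A finite-dimensional module with open stabilisers is trivialised by a number field. -/
theorem exists_numberField_trivialising
    (M : Rep (ZMod p) (AlgebraicClosure ℚ ≃ₐ[ℚ] AlgebraicClosure ℚ))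
    [FiniteDimensional (ZMod p) M]
    (hsm : ∀ m : M, ∃ F : IntermediateField ℚ (AlgebraicClosure ℚ), FiniteDimensional ℚ F ∧
      ∀ s ∈ F.fixingSubgroup, M.ρ s m = m) :
    ∃ Kg : IntermediateField ℚ (AlgebraicClosure ℚ), FiniteDimensional ℚ Kg ∧
      ∀ s ∈ Kg.fixingSubgroup, M.ρ s = 1 := by
  classical
  let b := Module.finBasis (ZMod p) M
  choose F hF hFfix using fun i => hsm (b i)
  have hfd : ∀ i, FiniteDimensional ℚ (F i) := hF
  refine ⟨⨆ i, F i, IntermediateField.finiteDimensional_iSup_of_finite, fun s hs => ?_⟩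
  apply b.ext
  intro i
  have hsi : s ∈ (F i).fixingSubgroup :=
    IntermediateField.fixingSubgroup_antitone (le_iSup F i) hs
  rw [hFfix i s hsi]
  rfl

/-- LOCAL `H¹` FINITENESS on the frozen carrier for every finite module with open stabilisers
(the frozen hypothesis `hsm` of S55): `continuousH1 (primeLocalToGlobal q) (Res M)` is finite.
Unconditional. -/
theorem finite_continuousH1_res_of_smooth (q : Nat.Primes)
    (M : Rep (ZMod p) (AlgebraicClosure ℚ ≃ₐ[ℚ] AlgebraicClosure ℚ))
    [FiniteDimensional (ZMod p) M]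
    (hsm : ∀ m : M, ∃ F : IntermediateField ℚ (AlgebraicClosure ℚ), FiniteDimensional ℚ F ∧
      ∀ s ∈ F.fixingSubgroup, M.ρ s m = m) :
    Finite (continuousH1 (primeLocalToGlobal q) (Rep.res (primeLocalToGlobal q) M)) := by
  obtain ⟨Kg, hKg, hK⟩ := exists_numberField_trivialising p M hsm
  exact finite_continuousH1_res_primeLocal p q M Kg hK

end FiniteLocal

end Fermat.Agent.S55.helper895
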