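/-
S55 (Poitou–Tate), step C in the verbatim SOFT-SPEC shape `helper2945.Stmt_C`.
Author: helper15 (independent backup of leaf SOFT-C).

`stmt_C_of` : `Stmt_R → Stmt_LocH1Fin → Stmt_L2injLoc → Stmt_H2ne → helper2945.Stmt_C`, where
* `Stmt_R` : an invariant system `inv_q : H²(ℚ_q, μ_p) → 𝔽_p` (`q ∈ S`), injective, with the sum
  formula on `continuousH2S S (ofChar (cycloChar p))` (NF-GR + LB1);
* `Stmt_LocH1Fin` : the local `H¹(ℚ_q, M)` are finite-dimensional (SOFT-FINITE);
* `Stmt_L2injLoc`, `Stmt_H2ne` : the two inputs of LS-L3 (`helper1447.Stmt_L2inj` and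
  `H²(ℚ_q, μ_p) ≠ 0`) at the primes of `S`.
-/
import Mathlib
import Fermat.Agent.S55.helper15_StepC
import Fermat.Agent.S55.helper2945_SoftSpec
import Fermat.Agent.S55.helper4039_SModField
import Fermat.Agent.S55.helper1447_L3H1
import Fermat.Agent.S55.helper665_L2Num
import Fermat.Agent.S55.helper665_LocInv
import Fermat.Agent.S55.helper895_H1LocFinal

set_option autoImplicit false

namespace Fermat.Agent.S55.helper15

open Module groupCohomology ExtCitation
open Fermat.Agent.S55.helper7860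

local notation "GQ" => (AlgebraicClosure ℚ ≃ₐ[ℚ] AlgebraicClosure ℚ)

/-! ### Restriction commutes with the twisted dual -/

section Bridge

variable {k : Type} [Field k] {G : Type} [Group G]

/-- Restriction commutes with `dualTwist` (as an equality of representations). -/
lemma res_dualTwist (f : G →* GQ) (M : Rep.{0, 0, 0} k GQ) (χ : GQ →* kˣ) :
    Rep.res f (M.dualTwist χ) = (Rep.res f M).dualTwist (χ.comp f) := by
  have h : (M.ρ.dual.twist χ).comp f = ((Rep.res f M).ρ.dual.twist (χ.comp f)) := by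
    ext g φ m
    simp [Representation.twist_apply_apply, Representation.dual_apply, map_inv]
  show Rep.of ((M.ρ.dual.twist χ).comp f) = Rep.of ((Rep.res f M).ρ.dual.twist (χ.comp f))
  rw [h]

/-- Restriction commutes with `ofChar`. -/
lemma res_ofChar (f : G →* GQ) (χ : GQ →* kˣ) :
    Rep.res f (ofChar χ : Rep.{0, 0, 0} k GQ) = (ofChar (χ.comp f) : Rep.{0, 0, 0} k G) := rfl

variable {r : G →* GQ}

/-- `helper1447.cupH1_swap_left_nondegenerate`, transported along equalities of
representations. -/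
theorem cupH1_left_kernel_of_eq {N : Rep.{0, 0, 0} k G} [FiniteDimensional k N] {ψ : G →* kˣ}
    (hN : IsSmoothAt r N) (hψ : helper1447.IsLevelChar r ψ)
    (hH2 : ∃ z : continuousH2 r (ofChar ψ), z ≠ 0) (hL2 : helper1447.Stmt_L2inj r ψ)
    (A' T' : Rep.{0, 0, 0} k G) (hA : A' = N.dualTwist ψ) (hT : T' = ofChar ψ)
    (β' : A' →ₗ[k] N →ₗ[k] T') (hβ' : IsEquivariantPairing β')
    (hβeq : HEq β' (evalPairingSwap N ψ))
    (x : continuousH1 r A') (h : ∀ y : continuousH1 r N, cupH1 hN hβ' x y = 0) : x = 0 := by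
  subst hA hT
  obtain rfl := eq_of_heq hβeq
  exact helper1447.cupH1_swap_left_nondegenerate hN hψ hH2 hL2 x h

end Bridge

/-! ### The soft inputs of step C -/

section Spec

open Fermat.Agent.S55.helper2945

/-- The Tate module `μ_p` as a representation of `G_ℚ`. -/
noncomputable abbrev muRep (p : ℕ) [Fact p.Prime] : Rep.{0, 0, 0} (ZMod p) GQ :=
  ofChar (cycloChar p)

/-- (R) + (LB1): an injective invariant system `inv_q : H²(ℚ_q, μ_p) → 𝔽_p`, `q ∈ S`, with the
sum formula on the global `S`-level classes. -/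
def Stmt_R : Prop :=
  ∀ {p : ℕ} [Fact p.Prime], p ≠ 2 → ∀ (S : Finset Nat.Primes), pPrime p ∈ S →
    ∃ inv : ∀ q : ↥S, LocH2 (muRep p) q.1 →ₗ[ZMod p] ZMod p,
      (∀ q, Function.Injective (inv q)) ∧
      ∀ z : continuousH2S S (muRep p),
        ∑ q : ↥S, inv q (locRes₂S S (muRep p) (primeLocalToGlobal q.1) z) = 0

/-- SOFT-FINITE (local, degree one): `H¹(ℚ_q, M)` is finite-dimensional for `q ∈ S`. -/
def Stmt_LocH1Fin : Prop :=
  ∀ {p : ℕ} [Fact p.Prime], p ≠ 2 → ∀ (S : Finset Nat.Primes), pPrime p ∈ S →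
    ∀ (M : Rep.{0, 0, 0} (ZMod p) GQ), IsSMod S M → ∀ q ∈ S,
      FiniteDimensional (ZMod p) (LocH1 M q)

/-- The `(L2)`-injectivity input of LS-L3 at every prime. -/
def Stmt_L2injLoc : Prop :=
  ∀ {p : ℕ} [Fact p.Prime], p ≠ 2 → ∀ q : Nat.Primes,
    helper1447.Stmt_L2inj (primeLocalToGlobal q) ((cycloChar p).comp (primeLocalToGlobal q))

/-- `H²(ℚ_q, μ_p) ≠ 0` at every prime (part of LB1). -/
def Stmt_H2ne : Prop :=
  ∀ {p : ℕ} [Fact p.Prime], p ≠ 2 → ∀ q : Nat.Primes,
    ∃ z : continuousH2 (primeLocalToGlobal q)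
      (ofChar ((cycloChar p).comp (primeLocalToGlobal q)) :
        Rep.{0, 0, 0} (ZMod p) (primeLocalGaloisGroup q)), z ≠ 0

/-- A module of the frozen statement is a discrete `G_{ℚ,S}`-module, and the cyclotomic
character is trivial on an `S`-level. -/
theorem exists_sfield_of_isSMod {p : ℕ} [Fact p.Prime] {S : Finset Nat.Primes}
    (hpS : pPrime p ∈ S) {M : Rep.{0, 0, 0} (ZMod p) GQ} (hM : IsSMod S M) :
    ∃ K : IntermediateField ℚ (AlgebraicClosure ℚ), K.IsUnramifiedOutside S ∧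
      (∀ s ∈ K.fixingSubgroup, M.ρ s = 1) ∧ (∀ s ∈ K.fixingSubgroup, cycloChar p s = 1) := by
  have := hM.finite
  obtain ⟨K, hK, -, -, -, hρ, hχ, -⟩ :=
    helper4039.exists_galois_sfield_trivializing_rep p hpS M hM.smooth hM.unram
  exact ⟨K, hK, hρ, hχ⟩

theorem isSmoothS_of_isSMod {p : ℕ} [Fact p.Prime] {S : Finset Nat.Primes}
    (hpS : pPrime p ∈ S) {M : Rep.{0, 0, 0} (ZMod p) GQ} (hM : IsSMod S M) : IsSmoothS S M := by
  obtain ⟨K, hK, hρ, -⟩ := exists_sfield_of_isSMod hpS hM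
  intro b
  exact ⟨K, hK, fun s hs => by rw [hρ s hs]; rfl⟩

/-- **Step C of #1621, verbatim SOFT-SPEC shape.** -/
theorem stmt_C_of (hR : Stmt_R) (hFin : Stmt_LocH1Fin) (hL2 : Stmt_L2injLoc) (hH2 : Stmt_H2ne) :
    Stmt_C := by
  intro p _ hp2 S hpS M hM
  have hMfin := hM.finite
  obtain ⟨K, hK, hρ, hχ⟩ := exists_sfield_of_isSMod hpS hM
  have hB : IsSmoothS S M := isSmoothS_of_isSMod hpS hM
  obtain ⟨inv, hinj, hsum⟩ := hR hp2 S hpS
  have hβ := isEquivariantPairing_evalPairingSwap M (cycloChar p)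
  have key := finrank_map_locTotal_add_le_left hp2 (A := dualT M) (B := M) (C := muRep p) hB hβ
    inv hsum (fun q => hFin hp2 S hpS M hM q.1 q.2) (fun q x hx => ?_)
  · unfold r1 pi1
    rw [add_comm]
    exact key
  · have hfd : FiniteDimensional (ZMod p) (Rep.res (primeLocalToGlobal q.1) M) := hMfin
    have hψ : helper1447.IsLevelChar (primeLocalToGlobal q.1)
        ((cycloChar p).comp (primeLocalToGlobal q.1)) :=
      ⟨K, hK.1, fun s hs => hχ _ hs⟩
    refine cupH1_left_kernel_of_eq (hB.res (primeLocalToGlobal q.1)) hψ (hH2 hp2 q.1)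
      (hL2 hp2 q.1) _ _ (res_dualTwist _ M (cycloChar p)) (res_ofChar _ (cycloChar p))
      _ (hβ.res (primeLocalToGlobal q.1)) HEq.rfl x (fun y => hinj q ?_)
    rw [hx y, map_zero]

end Spec

/-! ### Discharging the inputs from the landed layers -/

section Discharge

open Fermat.Agent.S55.helper2945

/-- `Stmt_LocH1Fin` holds unconditionally (LA-H1LOC, `helper895.finite_continuousH1_res_of_smooth`). -/
theorem stmt_LocH1Fin : Stmt_LocH1Fin := by
  intro p _ _ S _ M hM q _
  have := hM.finite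
  have hfin : Finite (LocH1 M q) := helper895.finite_continuousH1_res_of_smooth p q M hM.smooth
  exact Module.Finite.of_finite

/-- The two (L3)-inputs from the closed local package `helper665.Stmt_LocalL2`. -/
theorem stmt_L2injLoc_of_localL2 (h : helper665.Stmt_LocalL2) : Stmt_L2injLoc :=
  fun {p} _ hp2 q => (h p hp2).2.1 q

theorem stmt_H2ne_of_localL2 (h : helper665.Stmt_LocalL2) : Stmt_H2ne :=
  fun {p} _ hp2 q => helper665.exists_ne_zero_of_stmt_LocInv (h p hp2).1 q

/-- **Step C from the reciprocity invariant system and the local (L2) package.** -/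
theorem stmt_C_of_local (hR : Stmt_R) (hL : helper665.Stmt_LocalL2) : Stmt_C :=
  stmt_C_of hR stmt_LocH1Fin (stmt_L2injLoc_of_localL2 hL) (stmt_H2ne_of_localL2 hL)

end Discharge

end Fermat.Agent.S55.helper15
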