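/-
S55 (Poitou–Tate), step B of the soft squeeze (GB-GC / SOFT-B, helper1127).

`stmt_B_of` : `helper2945.Stmt_B` (`r₂(M) + h⁰(M') = π₂(M)` and the same for `M'`) from
* the local (L2) package `helper665.Stmt_LocalL2`,
* the reciprocity law in the inv-system form `helper15.Stmt_R`,
* finiteness and `(G-E)` of the field layer (`helper3071.Stmt_FieldFin`, `helper3071.Stmt_FieldGE`).

Route: `≤` is orthogonality of the images of `H²(G_S, M)` and `H⁰(G_ℚ, M')` in the sum of the
local (L2) pairings; `≥` is the statement (GC) "a family of local functionals orthogonal to the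
global classes is global", proved for `coind_K 𝔽_p` by the count of `helper1127_IndCount` and
descended to every module along the maps `coind_K 𝔽_p → M`.
-/
import Mathlib
import Fermat.Prelude.Def_GroupCohomology_ContinuousUnramified
import Fermat.Agent.S55.helper1127_IndCount
import Fermat.Agent.S55.helper15_StmtC
import Fermat.Agent.S55.helper6525_Arch
import Fermat.Agent.S55.helper8412_DualClosed

set_option autoImplicit false

namespace Fermat.Agent.S55.helper1127

open CategoryTheory groupCohomology ExtCitation Module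

/-! ### Part A: linear algebra of a pairing with two orthogonal subspaces -/

section LinAlg

variable {k : Type*} [Field k] {V W : Type*} [AddCommGroup V] [Module k V]
  [AddCommGroup W] [Module k W] (B : W →ₗ[k] V →ₗ[k] k)

/-- If `G ⊥ U` and the pairing has trivial right kernel on `G`, then
`dim U + dim G ≤ dim V`. -/
theorem finrank_add_le_of_orth [FiniteDimensional k V] (U : Submodule k V) (G : Submodule k W)
    (horth : ∀ w ∈ G, ∀ v ∈ U, B w v = 0) (hker : ∀ w ∈ G, (∀ v, B w v = 0) → w = 0) :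
    finrank k U + finrank k G ≤ finrank k V := by
  let Φ : G →ₗ[k] U.dualAnnihilator :=
    (B.comp G.subtype).codRestrict U.dualAnnihilator (fun g => by
      rw [Submodule.mem_dualAnnihilator]
      intro v hv
      exact horth g g.2 v hv)
  have hΦ : Function.Injective Φ := by
    refine (injective_iff_map_eq_zero Φ).2 fun g hg => ?_
    apply Subtype.ext
    apply hker g g.2
    intro v
    have h1 := congrArg (fun φ : U.dualAnnihilator => (φ : Module.Dual k V) v) hg
    exact h1
  have h1 := LinearMap.finrank_le_finrank_of_injective hΦ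
  have h2 := Subspace.finrank_add_finrank_dualAnnihilator_eq U
  omega

/-- If the pairing has trivial left kernel and `G` contains the annihilator of `U`, then
`dim V ≤ dim U + dim G`. -/
theorem finrank_le_add_of_gc [FiniteDimensional k V] (U : Submodule k V) (G : Submodule k W)
    [FiniteDimensional k G] (hker : ∀ v, (∀ w, B w v = 0) → v = 0)
    (hgc : ∀ w, (∀ v ∈ U, B w v = 0) → w ∈ G) :
    finrank k V ≤ finrank k U + finrank k G := by
  let Ψ : V →ₗ[k] Module.Dual k G := (B.comp G.subtype).flip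
  have hsurj : LinearMap.range B = ⊤ := by
    have h0 : (LinearMap.range B).dualCoannihilator = ⊥ := by
      rw [eq_bot_iff]
      intro v hv
      rw [Submodule.mem_dualCoannihilator] at hv
      exact (Submodule.mem_bot k).2 (hker v fun w => hv (B w) ⟨w, rfl⟩)
    have h1 := Subspace.dualCoannihilator_dualAnnihilator_eq (W := LinearMap.range B)
    rw [h0, Submodule.dualAnnihilator_bot] at h1
    exact h1.symm
  have hkerΨ : LinearMap.ker Ψ ≤ U := by
    intro v hv
    rw [← Subspace.dualAnnihilator_dualCoannihilator_eq (W := U), Submodule.mem_dualCoannihilator]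
    intro φ hφ
    obtain ⟨w, rfl⟩ : φ ∈ LinearMap.range B := by rw [hsurj]; trivial
    have hw : w ∈ G := hgc w fun u hu => (Submodule.mem_dualAnnihilator _).1 hφ u hu
    have h1 := LinearMap.congr_fun (LinearMap.mem_ker.1 hv) ⟨w, hw⟩
    exact h1
  have h1 := LinearMap.finrank_range_add_finrank_ker Ψ
  have h2 : finrank k (LinearMap.range Ψ) ≤ finrank k G := by
    have h3 := Submodule.finrank_le (LinearMap.range Ψ)
    rwa [Subspace.dual_finrank_eq] at h3
  have h3 := Submodule.finrank_mono hkerΨ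
  omega

/-- If `G ⊥ U`, the pairing has trivial left kernel on `U` and `dim W ≤ dim U + dim G`, then
`G` is the whole annihilator of `U`. -/
theorem mem_of_orth_of_finrank_le [FiniteDimensional k W] (U : Submodule k V)
    (G : Submodule k W) (horth : ∀ w ∈ G, ∀ v ∈ U, B w v = 0)
    (hker : ∀ v ∈ U, (∀ w, B w v = 0) → v = 0)
    (hnum : finrank k W ≤ finrank k U + finrank k G)
    (w : W) (hw : ∀ v ∈ U, B w v = 0) : w ∈ G := by
  let A : Submodule k W :=
    { carrier := {w | ∀ v ∈ U, B w v = 0}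
      add_mem' := fun {a b} ha hb v hv => by
        rw [map_add, LinearMap.add_apply, ha v hv, hb v hv, add_zero]
      zero_mem' := fun v _ => by rw [map_zero, LinearMap.zero_apply]
      smul_mem' := fun c a ha v hv => by
        rw [map_smul, LinearMap.smul_apply, ha v hv, smul_zero] }
  have hGA : G ≤ A := fun w hw => horth w hw
  let Φ : U →ₗ[k] A.dualAnnihilator :=
    (B.flip.comp U.subtype).codRestrict A.dualAnnihilator (fun u => by
      rw [Submodule.mem_dualAnnihilator]
      intro w hw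
      exact hw u u.2)
  have hΦ : Function.Injective Φ := by
    refine (injective_iff_map_eq_zero Φ).2 fun u hu => ?_
    apply Subtype.ext
    apply hker u u.2
    intro w
    have h1 := congrArg (fun φ : A.dualAnnihilator => (φ : Module.Dual k W) w) hu
    exact h1
  have h1 := LinearMap.finrank_le_finrank_of_injective hΦ
  have h2 := Subspace.finrank_add_finrank_dualAnnihilator_eq A
  have h3 : finrank k A ≤ finrank k G := by omega
  have h4 : G = A := Submodule.eq_of_le_of_finrank_le hGA h3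
  rw [h4]
  exact hw

end LinAlg

/-! ### Part B: the total local pairing on the frozen carriers -/

section Carriers

local notation "GQ" => (AlgebraicClosure ℚ ≃ₐ[ℚ] AlgebraicClosure ℚ)

variable {p : ℕ} [Fact p.Prime] (S : Finset Nat.Primes)

/-- The local `H²(ℚ_q, M)`. -/
abbrev LV (M : Rep.{0, 0, 0} (ZMod p) GQ) (q : Nat.Primes) : Type :=
  continuousH2 (primeLocalToGlobal q) (Rep.res (primeLocalToGlobal q) M)

/-- The local `H⁰(ℚ_q, M')`: invariants of the twisted dual of the restriction. -/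
abbrev LW (M : Rep.{0, 0, 0} (ZMod p) GQ) (q : Nat.Primes) : Type :=
  ((Rep.res (primeLocalToGlobal q) M).dualTwist (helper665.chiLoc p q)).ρ.invariants

/-- An invariant system: linear maps `H²(ℚ_q, μ_p) → 𝔽_p`, `q ∈ S`. -/
abbrev InvSys (p : ℕ) [Fact p.Prime] (S : Finset Nat.Primes) : Type :=
  ∀ q : ↥S, continuousH2 (primeLocalToGlobal q.1) (ofChar (helper665.chiLoc p q.1))
    →ₗ[ZMod p] ZMod p

/-- `∏_{q ∈ S} H²(ℚ_q, M)` (a type synonym, to keep instance search away from the product). -/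
def VS (M : Rep.{0, 0, 0} (ZMod p) GQ) : Type := ∀ q : ↥S, LV M q.1

/-- `∏_{q ∈ S} H⁰(ℚ_q, M')`. -/
def WS (M : Rep.{0, 0, 0} (ZMod p) GQ) : Type := ∀ q : ↥S, LW M q.1

noncomputable instance instAddCommGroupVS (M : Rep.{0, 0, 0} (ZMod p) GQ) :
    AddCommGroup (VS S M) :=
  @Pi.addCommGroup ↥S (fun q : ↥S => LV M q.1) (fun _ => inferInstance)

noncomputable instance instModuleVS (M : Rep.{0, 0, 0} (ZMod p) GQ) :
    Module (ZMod p) (VS S M) :=
  @Pi.module ↥S (fun q : ↥S => LV M q.1) (ZMod p) _ (fun _ => AddCommGroup.toAddCommMonoid)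
    (fun _ => inferInstance)

noncomputable instance instAddCommGroupWS (M : Rep.{0, 0, 0} (ZMod p) GQ) :
    AddCommGroup (WS S M) :=
  @Pi.addCommGroup ↥S (fun q : ↥S => LW M q.1) (fun _ => inferInstance)

noncomputable instance instModuleWS (M : Rep.{0, 0, 0} (ZMod p) GQ) :
    Module (ZMod p) (WS S M) :=
  @Pi.module ↥S (fun q : ↥S => LW M q.1) (ZMod p) _ (fun _ => AddCommGroup.toAddCommMonoid)
    (fun _ => inferInstance)

/-- The projection `∏ H²(ℚ_q, M) → H²(ℚ_q, M)`. -/
def projV (M : Rep.{0, 0, 0} (ZMod p) GQ) (q : ↥S) : VS S M →ₗ[ZMod p] LV M q.1 where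
  toFun v := v q
  map_add' _ _ := rfl
  map_smul' _ _ := rfl

/-- The projection `∏ H⁰(ℚ_q, M') → H⁰(ℚ_q, M')`. -/
def projW (M : Rep.{0, 0, 0} (ZMod p) GQ) (q : ↥S) : WS S M →ₗ[ZMod p] LW M q.1 where
  toFun w := w q
  map_add' _ _ := rfl
  map_smul' _ _ := rfl

@[simp] lemma projV_apply (M : Rep.{0, 0, 0} (ZMod p) GQ) (q : ↥S) (v : VS S M) :
    projV S M q v = v q := rfl

@[simp] lemma projW_apply (M : Rep.{0, 0, 0} (ZMod p) GQ) (q : ↥S) (w : WS S M) :
    projW S M q w = w q := rfl

/-- Total localisation `H²(G_S, M) → ∏_{q ∈ S} H²(ℚ_q, M)`. -/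
noncomputable def locS (M : Rep.{0, 0, 0} (ZMod p) GQ) :
    continuousH2S S M →ₗ[ZMod p] VS S M where
  toFun x q := locRes₂S S M (primeLocalToGlobal q.1) x
  map_add' x y := funext fun q => map_add (locRes₂S S M (primeLocalToGlobal q.1)) x y
  map_smul' c x := funext fun q => map_smul (locRes₂S S M (primeLocalToGlobal q.1)) c x

@[simp] lemma locS_apply (M : Rep.{0, 0, 0} (ZMod p) GQ) (x : continuousH2S S M) (q : ↥S) :
    locS S M x q = locRes₂S S M (primeLocalToGlobal q.1) x := rfl

/-- Diagonal restriction `H⁰(G_ℚ, M') → ∏_{q ∈ S} H⁰(ℚ_q, M')`. -/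
noncomputable def diagS (M : Rep.{0, 0, 0} (ZMod p) GQ) :
    (M.dualTwist (cycloChar p)).ρ.invariants →ₗ[ZMod p] WS S M where
  toFun φ q := helper5036.resInvariant (primeLocalToGlobal q.1) M (cycloChar p) φ
  map_add' φ ψ := funext fun q =>
    map_add (helper5036.resInvariant (primeLocalToGlobal q.1) M (cycloChar p)) φ ψ
  map_smul' c φ := funext fun q =>
    map_smul (helper5036.resInvariant (primeLocalToGlobal q.1) M (cycloChar p)) c φ

@[simp] lemma diagS_apply (M : Rep.{0, 0, 0} (ZMod p) GQ)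
    (φ : (M.dualTwist (cycloChar p)).ρ.invariants) (q : ↥S) :
    diagS S M φ q = helper5036.resInvariant (primeLocalToGlobal q.1) M (cycloChar p) φ := rfl

/-- The sum of the local (L2) pairings. -/
noncomputable def pairS (inv : InvSys p S) (M : Rep.{0, 0, 0} (ZMod p) GQ) :
    WS S M →ₗ[ZMod p] VS S M →ₗ[ZMod p] ZMod p :=
  ∑ q : ↥S, (helper665.l2Pairing (inv q) (Rep.res (primeLocalToGlobal q.1) M)).compl₁₂
    (projW S M q) (projV S M q)

lemma pairS_apply (inv : InvSys p S) (M : Rep.{0, 0, 0} (ZMod p) GQ)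
    (w : WS S M) (v : VS S M) :
    pairS S inv M w v = ∑ q : ↥S, helper665.l2Pairing (inv q)
      (Rep.res (primeLocalToGlobal q.1) M) (w q) (v q) := by
  unfold pairS
  rw [LinearMap.sum_apply, LinearMap.sum_apply]
  rfl

open Classical in
/-- The family with one nonzero component, in `∏ H⁰(ℚ_q, M')`. -/
noncomputable def singleW (M : Rep.{0, 0, 0} (ZMod p) GQ) (q : ↥S) (φ : LW M q.1) : WS S M :=
  fun q' => if h : q' = q then h ▸ φ else 0

open Classical in
/-- The family with one nonzero component, in `∏ H²(ℚ_q, M)`. -/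
noncomputable def singleV (M : Rep.{0, 0, 0} (ZMod p) GQ) (q : ↥S) (z : LV M q.1) : VS S M :=
  fun q' => if h : q' = q then h ▸ z else 0

lemma singleW_same (M : Rep.{0, 0, 0} (ZMod p) GQ) (q : ↥S) (φ : LW M q.1) :
    singleW S M q φ q = φ := by
  unfold singleW
  rw [dif_pos rfl]

lemma singleW_ne (M : Rep.{0, 0, 0} (ZMod p) GQ) (q : ↥S) (φ : LW M q.1) {q' : ↥S}
    (h : q' ≠ q) : singleW S M q φ q' = 0 := by
  unfold singleW
  rw [dif_neg h]

lemma singleV_same (M : Rep.{0, 0, 0} (ZMod p) GQ) (q : ↥S) (z : LV M q.1) :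
    singleV S M q z q = z := by
  unfold singleV
  rw [dif_pos rfl]

lemma singleV_ne (M : Rep.{0, 0, 0} (ZMod p) GQ) (q : ↥S) (z : LV M q.1) {q' : ↥S}
    (h : q' ≠ q) : singleV S M q z q' = 0 := by
  unfold singleV
  rw [dif_neg h]

lemma pairS_single_left (inv : InvSys p S) (M : Rep.{0, 0, 0} (ZMod p) GQ) (q : ↥S)
    (φ : LW M q.1) (v : VS S M) :
    pairS S inv M (singleW S M q φ) v
      = helper665.l2Pairing (inv q) (Rep.res (primeLocalToGlobal q.1) M) φ (v q) := by
  rw [pairS_apply, Finset.sum_eq_single q]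
  · rw [singleW_same]
  · intro q' _ hq'
    rw [singleW_ne S M q φ hq', map_zero, LinearMap.zero_apply]
  · intro h
    exact absurd (Finset.mem_univ q) h

lemma pairS_single_right (inv : InvSys p S) (M : Rep.{0, 0, 0} (ZMod p) GQ) (q : ↥S)
    (w : WS S M) (z : LV M q.1) :
    pairS S inv M w (singleV S M q z)
      = helper665.l2Pairing (inv q) (Rep.res (primeLocalToGlobal q.1) M) (w q) z := by
  rw [pairS_apply, Finset.sum_eq_single q]
  · rw [singleV_same]
  · intro q' _ hq'
    rw [singleV_ne S M q z hq', map_zero]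
  · intro h
    exact absurd (Finset.mem_univ q) h

/-- The local (L2) hypothesis for the restrictions of `M` at the primes of `S`. -/
abbrev L2At (inv : InvSys p S) (M : Rep.{0, 0, 0} (ZMod p) GQ) : Prop :=
  ∀ q : ↥S, helper665.IsL2 (primeLocalToGlobal q.1) (helper665.chiLoc p q.1) (inv q)
    (Rep.res (primeLocalToGlobal q.1) M)

lemma pairS_left_kernel (inv : InvSys p S) (M : Rep.{0, 0, 0} (ZMod p) GQ) (hL2 : L2At S inv M)
    (v : VS S M) (hv : ∀ w, pairS S inv M w v = 0) : v = 0 := by
  funext q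
  refine ((helper665.isL2_iff_pairing (inv q) _).1 (hL2 q)).1 (v q) fun φ => ?_
  rw [← pairS_single_left]
  exact hv _

lemma pairS_right_kernel (inv : InvSys p S) (M : Rep.{0, 0, 0} (ZMod p) GQ) (hL2 : L2At S inv M)
    (w : WS S M) (hw : ∀ v, pairS S inv M w v = 0) : w = 0 := by
  funext q
  refine ((helper665.isL2_iff_pairing (inv q) _).1 (hL2 q)).2 (w q) fun z => ?_
  rw [← pairS_single_right]
  exact hw _

/-- The sum formula (R) for an invariant system. -/
abbrev SumFormula (inv : InvSys p S) : Prop :=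
  ∀ z : continuousH2S S (ofChar (cycloChar p) : Rep.{0, 0, 0} (ZMod p) GQ),
    ∑ q : ↥S, inv q (locRes₂S S (ofChar (cycloChar p) : Rep.{0, 0, 0} (ZMod p) GQ)
      (primeLocalToGlobal q.1) z) = 0

/-- Reciprocity: the images of `H⁰(G_ℚ, M')` and `H²(G_S, M)` are orthogonal. -/
lemma pairS_diagS_locS (inv : InvSys p S) (hsum : SumFormula S inv)
    (M : Rep.{0, 0, 0} (ZMod p) GQ) (φ : (M.dualTwist (cycloChar p)).ρ.invariants)
    (x : continuousH2S S M) : pairS S inv M (diagS S M φ) (locS S M x) = 0 := by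
  rw [pairS_apply, ← hsum (helper5036.pushH2S S M (cycloChar p) φ x)]
  refine Finset.sum_congr rfl fun q _ => ?_
  rw [helper665.l2Pairing_apply, helper5036.locRes₂S_pushH2S]
  rfl

lemma ker_locS (hp2 : p ≠ 2) (M : Rep.{0, 0, 0} (ZMod p) GQ) :
    LinearMap.ker (locS S M) = sha₂ S M := by
  ext x
  rw [LinearMap.mem_ker, helper6525.mem_sha₂_iff hp2 S M x]
  constructor
  · intro h q
    exact congrFun h q
  · intro h
    funext q
    exact h q

lemma finrank_range_locS (hp2 : p ≠ 2) (M : Rep.{0, 0, 0} (ZMod p) GQ) :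
    finrank (ZMod p) (LinearMap.range (locS S M)) = helper2945.r2 S M := by
  unfold helper2945.r2
  exact ((Submodule.quotEquivOfEq _ _ (ker_locS S hp2 M).symm).trans
    (locS S M).quotKerEquivRange).finrank_eq.symm

lemma diagS_injective (hpS : pPrime p ∈ S) (M : Rep.{0, 0, 0} (ZMod p) GQ) :
    Function.Injective (diagS S M) := by
  intro φ φ' h
  have h1 : diagS S M φ ⟨pPrime p, hpS⟩ = diagS S M φ' ⟨pPrime p, hpS⟩ := congrFun h _
  have h2 := Subtype.ext_iff.1 h1
  exact Subtype.ext h2

lemma finrank_range_diagS (hpS : pPrime p ∈ S) (M : Rep.{0, 0, 0} (ZMod p) GQ) :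
    finrank (ZMod p) (LinearMap.range (diagS S M)) = helper2945.h0 (helper2945.dualT M) :=
  LinearMap.finrank_range_of_inj (diagS_injective S hpS M)

lemma finrank_VS (M : Rep.{0, 0, 0} (ZMod p) GQ)
    (hfin : ∀ q : ↥S, Module.Finite (ZMod p) (LV M q.1)) :
    finrank (ZMod p) (VS S M) = helper2945.pi2 S M := by
  have h1 := @Module.finrank_pi_fintype (ZMod p) _ _ ↥S _ (fun q : ↥S => LV M q.1)
    (fun _ => inferInstance) (fun _ => inferInstance) (fun q => inferInstance) hfin
  unfold helper2945.pi2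
  rw [← Finset.sum_coe_sort S (fun q => finrank (ZMod p) (LV M q))]
  exact h1

lemma finite_VS (M : Rep.{0, 0, 0} (ZMod p) GQ)
    (hfin : ∀ q : ↥S, Module.Finite (ZMod p) (LV M q.1)) :
    Module.Finite (ZMod p) (VS S M) :=
  @Module.Finite.pi (ZMod p) _ ↥S (fun q : ↥S => LV M q.1) _
    (fun _ => AddCommGroup.toAddCommMonoid) (fun _ => inferInstance) hfin

lemma finrank_WS (M : Rep.{0, 0, 0} (ZMod p) GQ)
    (hfin : ∀ q : ↥S, Module.Finite (ZMod p) (LW M q.1)) :
    finrank (ZMod p) (WS S M) = ∑ q ∈ S, finrank (ZMod p) (LW M q) := by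
  have h1 := @Module.finrank_pi_fintype (ZMod p) _ _ ↥S _ (fun q : ↥S => LW M q.1)
    (fun _ => inferInstance) (fun _ => inferInstance) (fun q => inferInstance) hfin
  rw [← Finset.sum_coe_sort S (fun q => finrank (ZMod p) (LW M q))]
  exact h1

lemma finite_WS (M : Rep.{0, 0, 0} (ZMod p) GQ)
    (hfin : ∀ q : ↥S, Module.Finite (ZMod p) (LW M q.1)) :
    Module.Finite (ZMod p) (WS S M) :=
  @Module.Finite.pi (ZMod p) _ ↥S (fun q : ↥S => LW M q.1) _
    (fun _ => AddCommGroup.toAddCommMonoid) (fun _ => inferInstance) hfin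

/-- Under (L2) the local `H²`'s are finite-dimensional. -/
lemma finite_LV_of_l2 (inv : InvSys p S) (M : Rep.{0, 0, 0} (ZMod p) GQ)
    [FiniteDimensional (ZMod p) M] (hL2 : L2At S inv M) (q : ↥S) :
    Module.Finite (ZMod p) (LV M q.1) :=
  (helper665.finrank_continuousH2_eq_of_isL2 _ (hL2 q)).1

/-- **Step B, upper bound**: `r₂(M) + h⁰(M') ≤ π₂(M)` from reciprocity and (L2). -/
theorem r2_add_h0_le_pi2 (hp2 : p ≠ 2) (hpS : pPrime p ∈ S) (inv : InvSys p S)
    (hsum : SumFormula S inv) (M : Rep.{0, 0, 0} (ZMod p) GQ) [FiniteDimensional (ZMod p) M]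
    (hL2 : L2At S inv M) :
    helper2945.r2 S M + helper2945.h0 (helper2945.dualT M) ≤ helper2945.pi2 S M := by
  have hfin := finite_LV_of_l2 S inv M hL2
  haveI := finite_VS S M hfin
  have h := finrank_add_le_of_orth (V := VS S M) (W := WS S M) (pairS S inv M)
    (LinearMap.range (locS S M)) (LinearMap.range (diagS S M))
    (by
      rintro _ ⟨φ, rfl⟩ _ ⟨x, rfl⟩
      exact pairS_diagS_locS S inv hsum M φ x)
    (fun w _ hw => pairS_right_kernel S inv M hL2 w hw)
  rwa [finrank_range_locS S hp2 M, finrank_range_diagS S hpS M, finrank_VS S M hfin] at h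

/-- **(GC)** for `M`: a family of local functionals orthogonal to all global classes comes from
one global invariant of the twisted dual. -/
def GCpi (inv : InvSys p S) (M : Rep.{0, 0, 0} (ZMod p) GQ) : Prop :=
  ∀ w : WS S M, (∀ x : continuousH2S S M, pairS S inv M w (locS S M x) = 0) →
    w ∈ LinearMap.range (diagS S M)

/-- **Step B, lower bound** from (GC): `π₂(M) ≤ r₂(M) + h⁰(M')`. -/
theorem pi2_le_of_gcpi (hp2 : p ≠ 2) (hpS : pPrime p ∈ S) (inv : InvSys p S)
    (M : Rep.{0, 0, 0} (ZMod p) GQ) [FiniteDimensional (ZMod p) M]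
    (hL2 : L2At S inv M) (hgc : GCpi S inv M) :
    helper2945.pi2 S M ≤ helper2945.r2 S M + helper2945.h0 (helper2945.dualT M) := by
  have hfin := finite_LV_of_l2 S inv M hL2
  haveI := finite_VS S M hfin
  have h := finrank_le_add_of_gc (V := VS S M) (W := WS S M) (pairS S inv M)
    (LinearMap.range (locS S M)) (LinearMap.range (diagS S M))
    (fun v hv => pairS_left_kernel S inv M hL2 v hv)
    (fun w hw => hgc w fun x => hw _ ⟨x, rfl⟩)
  rwa [finrank_range_locS S hp2 M, finrank_range_diagS S hpS M, finrank_VS S M hfin] at h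

/-- (GC) from the numerical inequality `π₂(M) ≤ r₂(M) + h⁰(M')`. -/
theorem gcpi_of_le (hp2 : p ≠ 2) (hpS : pPrime p ∈ S) (inv : InvSys p S)
    (hsum : SumFormula S inv) (M : Rep.{0, 0, 0} (ZMod p) GQ) [FiniteDimensional (ZMod p) M]
    (hL2 : L2At S inv M)
    (hnum : helper2945.pi2 S M ≤ helper2945.r2 S M + helper2945.h0 (helper2945.dualT M)) :
    GCpi S inv M := by
  intro w hw
  have hfinW : ∀ q : ↥S, Module.Finite (ZMod p) (LW M q.1) := fun q => inferInstance
  haveI := finite_WS S M hfinW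
  have hW : finrank (ZMod p) (WS S M) = helper2945.pi2 S M := by
    rw [finrank_WS S M hfinW]
    unfold helper2945.pi2
    exact Finset.sum_congr rfl fun q hq =>
      ((helper665.finrank_continuousH2_eq_of_isL2 _ (hL2 ⟨q, hq⟩)).2).symm
  refine mem_of_orth_of_finrank_le (V := VS S M) (W := WS S M) (pairS S inv M)
    (LinearMap.range (locS S M)) (LinearMap.range (diagS S M)) ?_ ?_ ?_ w ?_
  · rintro _ ⟨φ, rfl⟩ _ ⟨x, rfl⟩
    exact pairS_diagS_locS S inv hsum M φ x
  · intro v _ hv
    exact pairS_left_kernel S inv M hL2 v hv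
  · rw [hW, finrank_range_locS S hp2 M, finrank_range_diagS S hpS M]
    exact hnum
  · rintro _ ⟨x, rfl⟩
    exact hw x

/-! ### Descent of (GC) along equivariant maps -/

/-- The functional underlying a local invariant of the twisted dual. -/
def lfn (M : Rep.{0, 0, 0} (ZMod p) GQ) (q : Nat.Primes) (φ : LW M q) : M →ₗ[ZMod p] ZMod p :=
  φ.1

/-- The functional underlying a global invariant of the twisted dual. -/
def gfn (M : Rep.{0, 0, 0} (ZMod p) GQ) (φ : (M.dualTwist (cycloChar p)).ρ.invariants) :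
    M →ₗ[ZMod p] ZMod p :=
  φ.1

lemma lfn_injective (M : Rep.{0, 0, 0} (ZMod p) GQ) (q : Nat.Primes) :
    Function.Injective (lfn M q) := fun _ _ h => Subtype.ext h

lemma gfn_equivariant (M : Rep.{0, 0, 0} (ZMod p) GQ)
    (φ : (M.dualTwist (cycloChar p)).ρ.invariants) (g : GQ) (m : M) :
    gfn M φ (M.ρ g m) = ((cycloChar p g : (ZMod p)ˣ) : ZMod p) * gfn M φ m :=
  (helper5036.mem_invariants_dualTwist_iff M (cycloChar p) φ.1).1 φ.2 g m

lemma lfn_diagS (M : Rep.{0, 0, 0} (ZMod p) GQ)
    (φ : (M.dualTwist (cycloChar p)).ρ.invariants) (q : ↥S) (m : M) :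
    lfn M q.1 (diagS S M φ q) m = gfn M φ m := rfl

/-- Pull-back of a family of local functionals along a global equivariant map. -/
noncomputable def pullW (N M : Rep.{0, 0, 0} (ZMod p) GQ) (π : N →ₗ[ZMod p] M)
    (hπ : ∀ (g : GQ) (n : N), π (N.ρ g n) = M.ρ g (π n)) (w : WS S M) : WS S N :=
  fun q => helper5036.invariantsPull (helper665.chiLoc p q.1)
    (M := Rep.res (primeLocalToGlobal q.1) N) (N := Rep.res (primeLocalToGlobal q.1) M) π
    (helper5036.equivariant_res (primeLocalToGlobal q.1) π hπ) (w q)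

lemma lfn_pullW (N M : Rep.{0, 0, 0} (ZMod p) GQ) (π : N →ₗ[ZMod p] M)
    (hπ : ∀ (g : GQ) (n : N), π (N.ρ g n) = M.ρ g (π n)) (w : WS S M) (q : ↥S) (n : N) :
    lfn N q.1 (pullW S N M π hπ w q) n = lfn M q.1 (w q) (π n) := rfl

lemma pairS_pullW (inv : InvSys p S) (N M : Rep.{0, 0, 0} (ZMod p) GQ) (π : N →ₗ[ZMod p] M)
    (hπ : ∀ (g : GQ) (n : N), π (N.ρ g n) = M.ρ g (π n)) (w : WS S M)
    (y : continuousH2S S N) :
    pairS S inv N (pullW S N M π hπ w) (locS S N y)
      = pairS S inv M w (locS S M (helper5036.h2LinS S π hπ y)) := by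
  rw [pairS_apply, pairS_apply]
  refine Finset.sum_congr rfl fun q _ => ?_
  rw [helper665.l2Pairing_apply, helper665.l2Pairing_apply, locS_apply, locS_apply,
    helper5036.locRes₂S_h2LinS S (primeLocalToGlobal q.1) π hπ
      (helper5036.equivariant_res (primeLocalToGlobal q.1) π hπ) y,
    helper5036.pushH2_h2Lin_eq_invariantsPull]
  rfl

/-- **Descent of (GC).** If (GC) holds for `N` and every element of `M` lies in the image of
some `G_ℚ`-equivariant map `N → M`, then (GC) holds for `M`. -/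
theorem gcpi_descent (hpS : pPrime p ∈ S) (inv : InvSys p S)
    (N M : Rep.{0, 0, 0} (ZMod p) GQ) (hN : GCpi S inv N)
    (hcov : ∀ m : M, ∃ π : N →ₗ[ZMod p] M,
      (∀ (g : GQ) (n : N), π (N.ρ g n) = M.ρ g (π n)) ∧ m ∈ LinearMap.range π) :
    GCpi S inv M := by
  intro w hw
  have key : ∀ (π : N →ₗ[ZMod p] M) (hπ : ∀ (g : GQ) (n : N), π (N.ρ g n) = M.ρ g (π n)),
      ∃ ψ : (N.dualTwist (cycloChar p)).ρ.invariants,
        ∀ (q : ↥S) (n : N), lfn M q.1 (w q) (π n) = gfn N ψ n := by
    intro π hπ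
    obtain ⟨ψ, hψ⟩ := hN (pullW S N M π hπ w) (fun y => by
      rw [pairS_pullW]
      exact hw _)
    refine ⟨ψ, fun q n => ?_⟩
    have h1 : diagS S N ψ q = pullW S N M π hπ w q := congrFun hψ q
    rw [← lfn_pullW S N M π hπ w q n, ← h1, lfn_diagS]
  let q₀ : ↥S := ⟨pPrime p, hpS⟩
  have hℓ : ∀ (g : GQ) (m : M), lfn M q₀.1 (w q₀) (M.ρ g m)
      = ((cycloChar p g : (ZMod p)ˣ) : ZMod p) * lfn M q₀.1 (w q₀) m := by
    intro g m
    obtain ⟨π, hπ, n, rfl⟩ := hcov m
    obtain ⟨ψ, hψ⟩ := key π hπ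
    rw [← hπ g n, hψ q₀, hψ q₀, gfn_equivariant]
  refine ⟨⟨lfn M q₀.1 (w q₀),
    (helper5036.mem_invariants_dualTwist_iff M (cycloChar p) (lfn M q₀.1 (w q₀))).2 hℓ⟩, ?_⟩
  funext q
  apply lfn_injective M q.1
  apply LinearMap.ext
  intro m
  obtain ⟨π, hπ, n, rfl⟩ := hcov m
  obtain ⟨ψ, hψ⟩ := key π hπ
  rw [lfn_diagS, hψ q]
  exact hψ q₀ n

end Carriers

/-! ### Every module trivialised by `H` is covered by maps from `coind_H^G k` -/

section Cover

variable {k : Type*} [Field k] {G : Type*} [Group G] (H : Subgroup G)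
  (σ : Representation k ↥H k) (hσ : ∀ (h : ↥H) (x : k), σ h x = x)

include hσ in
open Classical in
/-- If the finite-index subgroup `H` acts trivially on `V`, then every `m : V` is in the image
of a `G`-equivariant map `coind_H^G k → V`, namely `f ↦ ∑_{c ∈ H \ G} f(c) • ρ(c)⁻¹ m`. -/
theorem exists_equivariant_map_coind [H.FiniteIndex] {V : Type*} [AddCommGroup V] [Module k V]
    (ρ : Representation k G V) (hρ : ∀ h ∈ H, ρ h = 1) (m : V) :
    ∃ π : ↥(Representation.coindV H.subtype σ) →ₗ[k] V,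
      (∀ (g : G) (f : ↥(Representation.coindV H.subtype σ)),
        π (Representation.coind H.subtype σ g f) = ρ g (π f)) ∧ m ∈ LinearMap.range π := by
  have := finite_rightCosets H
  cases nonempty_fintype (Quotient (QuotientGroup.rightRel H))
  set e := cosetEquiv H σ hσ with he
  let μ : Quotient (QuotientGroup.rightRel H) → V := fun c =>
    Quotient.liftOn' c (fun x => ρ x⁻¹ m) (fun a b hab => by
      have hab' : b * a⁻¹ ∈ H := QuotientGroup.rightRel_apply.1 hab
      have hb : b⁻¹ = a⁻¹ * (b * a⁻¹)⁻¹ := by group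
      show ρ a⁻¹ m = ρ b⁻¹ m
      rw [hb, map_mul, hρ _ (H.inv_mem hab'), mul_one])
  have hμ : ∀ x : G, μ (Quotient.mk'' x) = ρ x⁻¹ m := fun x => rfl
  let π : ↥(Representation.coindV H.subtype σ) →ₗ[k] V :=
    ∑ c : Quotient (QuotientGroup.rightRel H),
      ((LinearMap.proj c) ∘ₗ e.toLinearMap).smulRight (μ c)
  have hπ : ∀ f, π f = ∑ c : Quotient (QuotientGroup.rightRel H), e f c • μ c := by
    intro f
    simp only [π, LinearMap.sum_apply, LinearMap.smulRight_apply, LinearMap.comp_apply,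
      LinearMap.proj_apply, LinearEquiv.coe_coe]
  refine ⟨π, ?_, ?_⟩
  · intro g f
    rw [hπ, hπ, map_sum,
      ← Equiv.sum_comp (rightCosetMulRight H g) (fun c => ρ g (e f c • μ c))]
    refine Finset.sum_congr rfl fun c _ => ?_
    induction c using Quotient.inductionOn' with
    | h x =>
      rw [rightCosetMulRight_mk, hμ, hμ, he, cosetEquiv_apply_mk, cosetEquiv_apply_mk,
        coind_apply_apply, map_smul]
      congr 1
      rw [← Module.End.mul_apply, ← map_mul]
      have hx : g * (x * g)⁻¹ = x⁻¹ := by group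
      rw [hx]
  · refine ⟨e.symm (Pi.single (Quotient.mk'' 1) 1), ?_⟩
    rw [hπ, LinearEquiv.apply_symm_apply, Finset.sum_eq_single (Quotient.mk'' 1)]
    · rw [Pi.single_eq_same, one_smul, hμ, inv_one, map_one]
      rfl
    · intro c _ hc
      rw [Pi.single_eq_of_ne hc, zero_smul]
    · intro h
      exact absurd (Finset.mem_univ _) h

end Cover

/-! ### Assembly of step B -/

section Assembly

local notation "GQ" => (AlgebraicClosure ℚ ≃ₐ[ℚ] AlgebraicClosure ℚ)

variable {p : ℕ} [Fact p.Prime] (S : Finset Nat.Primes)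

/-- Every module trivialised by `G_K` is covered by equivariant maps from `coind_K 𝔽_p`. -/
theorem exists_cover_indRep (K : IntermediateField ℚ (AlgebraicClosure ℚ))
    [FiniteDimensional ℚ K] (M : Rep.{0, 0, 0} (ZMod p) GQ)
    (hK : ∀ s ∈ K.fixingSubgroup, M.ρ s = 1) (m : M) :
    ∃ π : helper3071.indRep p K →ₗ[ZMod p] M,
      (∀ (g : GQ) (n : helper3071.indRep p K),
        π ((helper3071.indRep p K).ρ g n) = M.ρ g (π n)) ∧ m ∈ LinearMap.range π := by
  have := helper4039.finiteIndex_fixingSubgroup K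
  exact exists_equivariant_map_coind K.fixingSubgroup (helper3071.trivF p K).ρ (fun _ _ => rfl)
    M.ρ hK m

/-- **Step B for one module**: `r₂(M) + h⁰(M') = π₂(M)`. -/
theorem r2_add_h0_eq_pi2 (hL : helper665.Stmt_LocalL2) (hR : helper15.Stmt_R)
    (hFin : helper3071.Stmt_FieldFin) (hGE : helper3071.Stmt_FieldGE)
    (hp2 : p ≠ 2) (hpS : pPrime p ∈ S) (M : Rep.{0, 0, 0} (ZMod p) GQ)
    (hM : helper2945.IsSMod S M) :
    helper2945.r2 S M + helper2945.h0 (helper2945.dualT M) = helper2945.pi2 S M := by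
  obtain ⟨-, h1, h2⟩ := hL p hp2
  obtain ⟨inv0, hinj, hsum0⟩ := hR hp2 S hpS
  let inv : InvSys p S := fun q => inv0 q
  have hsum : SumFormula S inv := hsum0
  have := hM.finite
  have hL2M : L2At S inv M := fun q => helper665.isL2_res h1 h2 q.1 (hinj q) M hM.smooth
  obtain ⟨K, hK, -, -, -, hρ, -, hroots⟩ :=
    helper4039.exists_galois_sfield_trivializing_rep p hpS M hM.smooth hM.unram
  have hZ := isSFieldZeta_of_roots S K hp2 hpS hK hroots
  have hN := isSMod_indRep (p := p) S K hK
  have := hN.finite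
  have := hK.1
  have hL2N : L2At S inv (helper3071.indRep p K) := fun q =>
    helper665.isL2_res h1 h2 q.1 (hinj q) (helper3071.indRep p K) hN.smooth
  have hgcN := gcpi_of_le S hp2 hpS inv hsum (helper3071.indRep p K) hL2N
    (indB_of S K hL hFin hGE hp2 hZ)
  have hgcM := gcpi_descent S hpS inv (helper3071.indRep p K) M hgcN
    (fun m => exists_cover_indRep K M hρ m)
  exact le_antisymm (r2_add_h0_le_pi2 S hp2 hpS inv hsum M hL2M)
    (pi2_le_of_gcpi S hp2 hpS inv M hL2M hgcM)

end Assembly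

/-- **SOFT-B / GB-GC.** Step B of the soft squeeze, `helper2945.Stmt_B`, from the local (L2)
package, the reciprocity law, and finiteness + `(G-E)` of the field layer. -/
theorem stmt_B_of (hL : helper665.Stmt_LocalL2) (hR : helper15.Stmt_R)
    (hFin : helper3071.Stmt_FieldFin) (hGE : helper3071.Stmt_FieldGE) : helper2945.Stmt_B := by
  intro p _ hp2 S hpS M hM
  have hM' : helper2945.IsSMod S (helper2945.dualT M) := helper8412.isSMod_dualT S hpS M hM
  refine ⟨r2_add_h0_eq_pi2 S hL hR hFin hGE hp2 hpS M hM, ?_⟩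
  have h := r2_add_h0_eq_pi2 S hL hR hFin hGE hp2 hpS (helper2945.dualT M) hM'
  have := hM.finite
  have hbi : helper2945.h0 M = helper2945.h0 (helper2945.dualT (helper2945.dualT M)) :=
    helper665.finrank_invariants_eq_of_iso (helper1408.dualTwistDualTwistIso (cycloChar p) M)
  rw [hbi]
  exact h

/-! ### The same with the numerical (GC) for induced modules as a hypothesis (ledger shape) -/

/-- The numerical (GC) for induced modules, cofinal form (the conclusion of
`stmt_IndB_of`). -/
def Stmt_IndB : Prop :=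
  ∀ {p : ℕ} [Fact p.Prime], p ≠ 2 → ∀ (S : Finset Nat.Primes), pPrime p ∈ S →
    ∀ F₀ : IntermediateField ℚ (AlgebraicClosure ℚ), F₀.IsUnramifiedOutside S →
      ∃ F : IntermediateField ℚ (AlgebraicClosure ℚ), F₀ ≤ F ∧ F.IsUnramifiedOutside S ∧
        helper2945.pi2 S (helper3071.indRep p F) ≤
          helper2945.r2 S (helper3071.indRep p F) +
            helper2945.h0 (helper2945.dualT (helper3071.indRep p F))

theorem stmt_IndB (hL : helper665.Stmt_LocalL2) (hFin : helper3071.Stmt_FieldFin)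
    (hGE : helper3071.Stmt_FieldGE) : Stmt_IndB :=
  stmt_IndB_of hL hFin hGE

/-- Step B for one module, from the numerical (GC) for induced modules. -/
theorem r2_add_h0_eq_pi2_of_indB (hL : helper665.Stmt_LocalL2) (hR : helper15.Stmt_R)
    (hInd : Stmt_IndB) {p : ℕ} [Fact p.Prime] (S : Finset Nat.Primes)
    (hp2 : p ≠ 2) (hpS : pPrime p ∈ S)
    (M : Rep.{0, 0, 0} (ZMod p) (AlgebraicClosure ℚ ≃ₐ[ℚ] AlgebraicClosure ℚ))
    (hM : helper2945.IsSMod S M) :
    helper2945.r2 S M + helper2945.h0 (helper2945.dualT M) = helper2945.pi2 S M := by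
  obtain ⟨-, h1, h2⟩ := hL p hp2
  obtain ⟨inv0, hinj, hsum0⟩ := hR hp2 S hpS
  let inv : InvSys p S := fun q => inv0 q
  have hsum : SumFormula S inv := hsum0
  have := hM.finite
  have hL2M : L2At S inv M := fun q => helper665.isL2_res h1 h2 q.1 (hinj q) M hM.smooth
  obtain ⟨K, hK, -, -, -, hρ, -, -⟩ :=
    helper4039.exists_galois_sfield_trivializing_rep p hpS M hM.smooth hM.unram
  obtain ⟨F, hKF, hF, hnum⟩ := hInd hp2 S hpS K hK
  have hN := isSMod_indRep (p := p) S F hF
  have := hN.finite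
  have := hF.1
  have hL2N : L2At S inv (helper3071.indRep p F) := fun q =>
    helper665.isL2_res h1 h2 q.1 (hinj q) (helper3071.indRep p F) hN.smooth
  have hgcN := gcpi_of_le S hp2 hpS inv hsum (helper3071.indRep p F) hL2N hnum
  have hgcM := gcpi_descent S hpS inv (helper3071.indRep p F) M hgcN
    (fun m => exists_cover_indRep F M
      (fun s hs => hρ s (IntermediateField.fixingSubgroup_antitone hKF hs)) m)
  exact le_antisymm (r2_add_h0_le_pi2 S hp2 hpS inv hsum M hL2M)
    (pi2_le_of_gcpi S hp2 hpS inv M hL2M hgcM)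

/-- **SOFT-B, ledger shape.** `helper2945.Stmt_B` from the local (L2) package, the reciprocity
law and the numerical (GC) for induced modules. -/
theorem stmt_B_of_indB (hL : helper665.Stmt_LocalL2) (hR : helper15.Stmt_R)
    (hInd : Stmt_IndB) : helper2945.Stmt_B := by
  intro p _ hp2 S hpS M hM
  have hM' : helper2945.IsSMod S (helper2945.dualT M) := helper8412.isSMod_dualT S hpS M hM
  refine ⟨r2_add_h0_eq_pi2_of_indB hL hR hInd S hp2 hpS M hM, ?_⟩
  have h := r2_add_h0_eq_pi2_of_indB hL hR hInd S hp2 hpS (helper2945.dualT M) hM'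
  have := hM.finite
  have hbi : helper2945.h0 M = helper2945.h0 (helper2945.dualT (helper2945.dualT M)) :=
    helper665.finrank_invariants_eq_of_iso (helper1408.dualTwistDualTwistIso (cycloChar p) M)
  rw [hbi]
  exact h

end Fermat.Agent.S55.helper1127
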