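import Mathlib

/-!
# S55 / NF-GE-COUNT : `(G-E)` by counting (route of team chat #137, helper8122)

Abstract assembly.  Notation for an `S`-field `F` containing `μ_p`:
`h1 F = dim H¹(G_{F,S}, 𝔽_p)`, `h2 F = dim H²(G_{F,S}, 𝔽_p)`, `a2 F = dim Ш²`,
`r F = r₂(F) = [F:ℚ]/2`, `s F =` number of places of `F` over `S`.

Inputs (all `c`-free, i.e. the `p`-rank of the `S`-class group has been eliminated):

* `(C)`  `a2 F + r F + s F ≤ h1 F`            (Kummer lower bound for `h¹` + `(G-H)`)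
* `(B)`  `h1 F ≤ r F + s F + h2 F`            (Kummer upper bound for `h¹` + `Cl_S/p ↪ H²`)
* `(D)`  `1 + h2 K' + n * h1 K ≤ n * (1 + h2 K) + h1 K'` for `K'/K` Galois of `p`-power degree `n`
         (`χ₂(K') ≤ n χ₂(K)`: truncated long exact sequence along a unipotent filtration)
* `(E)`  every `K` has such a `K'` with `s K' ≤ n` and `r K' = n * r K`   (cyclotomic tower)

Output: `s K ≤ (h2 K - a2 K) + 1`, i.e. the total localisation map on `H²` has corank `≤ 1`.
-/

namespace Fermat.Agent.S55.helper1826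

/-- **Integer core** of the counting route. -/
theorem ge_count_core {n h1K h2K a2K rK sK h1K' h2K' rK' sK' : ℕ}
    (hC : a2K + rK + sK ≤ h1K)
    (hB : h1K' ≤ rK' + sK' + h2K')
    (hD : 1 + h2K' + n * h1K ≤ n * (1 + h2K) + h1K')
    (hr : rK' = n * rK)
    (hE : sK' ≤ n) : a2K + sK ≤ h2K + 1 := by
  subst hr
  have h1 : n * (a2K + rK + sK) ≤ n * h1K := Nat.mul_le_mul_left n hC
  -- `1 + n * (a2K + sK) ≤ 2 * n + n * h2K`
  have h2 : 1 + n * (a2K + sK) ≤ n * (h2K + 2) := by nlinarith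
  by_contra hlt
  push Not at hlt
  have h3 : n * (h2K + 2) ≤ n * (a2K + sK) := Nat.mul_le_mul_left n (by omega)
  omega

/-- The same with degrees instead of `r₂` (no parity assumption): `d F = [F:ℚ]`, and the two
Kummer inputs are stated multiplied by `2`. -/
theorem ge_count_core_deg {n h1K h2K a2K dK sK h1K' h2K' dK' sK' : ℕ}
    (hC : 2 * a2K + dK + 2 * sK ≤ 2 * h1K)
    (hB : 2 * h1K' ≤ dK' + 2 * sK' + 2 * h2K')
    (hD : 1 + h2K' + n * h1K ≤ n * (1 + h2K) + h1K')
    (hd : dK' = n * dK)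
    (hE : sK' ≤ n) : a2K + sK ≤ h2K + 1 := by
  subst hd
  have h1 : n * (2 * a2K + dK + 2 * sK) ≤ n * (2 * h1K) := Nat.mul_le_mul_left n hC
  have h2 : 1 + n * (a2K + sK) ≤ n * (h2K + 2) := by nlinarith
  by_contra hlt
  push Not at hlt
  have h3 : n * (h2K + 2) ≤ n * (a2K + sK) := Nat.mul_le_mul_left n (by omega)
  omega

/-- **Abstract assembly** of `(G-E)` by counting, over an arbitrary index type `ι` of fields.
`Good F` = "`F` is an `S`-field containing `μ_p`"; `Tower K K' n` = "`K'/K` is Galois of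
`p`-power degree `n`". -/
theorem ge_count {ι : Type*} (Good : ι → Prop) (Tower : ι → ι → ℕ → Prop)
    (h1 h2 a2 r s : ι → ℕ)
    (hC : ∀ F, Good F → a2 F + r F + s F ≤ h1 F)
    (hB : ∀ F, Good F → h1 F ≤ r F + s F + h2 F)
    (hD : ∀ K K' n, Good K → Good K' → Tower K K' n →
      1 + h2 K' + n * h1 K ≤ n * (1 + h2 K) + h1 K')
    (hE : ∀ K, Good K → ∃ K' n, Good K' ∧ Tower K K' n ∧ r K' = n * r K ∧ s K' ≤ n)
    (K : ι) (hK : Good K) : a2 K + s K ≤ h2 K + 1 := by
  obtain ⟨K', n, hK', hT, hr, hs⟩ := hE K hK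
  exact ge_count_core (hC K hK) (hB K' hK') (hD K K' n hK hK' hT) hr hs

/-- Degree form of the abstract assembly. -/
theorem ge_count_deg {ι : Type*} (Good : ι → Prop) (Tower : ι → ι → ℕ → Prop)
    (h1 h2 a2 d s : ι → ℕ)
    (hC : ∀ F, Good F → 2 * a2 F + d F + 2 * s F ≤ 2 * h1 F)
    (hB : ∀ F, Good F → 2 * h1 F ≤ d F + 2 * s F + 2 * h2 F)
    (hD : ∀ K K' n, Good K → Good K' → Tower K K' n →
      1 + h2 K' + n * h1 K ≤ n * (1 + h2 K) + h1 K')
    (hE : ∀ K, Good K → ∃ K' n, Good K' ∧ Tower K K' n ∧ d K' = n * d K ∧ s K' ≤ n)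
    (K : ι) (hK : Good K) : a2 K + s K ≤ h2 K + 1 := by
  obtain ⟨K', n, hK', hT, hd, hs⟩ := hE K hK
  exact ge_count_core_deg (hC K hK) (hB K' hK') (hD K K' n hK hK' hT) hd hs

/-- Corank form: if `a2 ≤ h2` is the dimension of a subspace `Ш² ≤ H²`, the quotient
`H² ⧸ Ш²` (= image of the total localisation map) has dimension `≥ s - 1`. -/
theorem corank_le_one_of_count {k V : Type*} [Field k] [AddCommGroup V] [Module k V]
    [FiniteDimensional k V] (W : Submodule k V) {s : ℕ}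
    (h : Module.finrank k W + s ≤ Module.finrank k V + 1) :
    s ≤ Module.finrank k (V ⧸ W) + 1 := by
  have := W.finrank_quotient_add_finrank
  omega

end Fermat.Agent.S55.helper1826
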