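import Mathlib
import Fermat.Agent.S55.helper3071_GlobalBridge
import Fermat.Agent.S55.helper1826_GECount

/-!
# S55 / NF-GE-COUNT : `(G-E)` by counting, on the field carrier of the global bridge

Instantiation of `ge_count_core_deg` (route of team chat #137) on the closed Props of
`helper3071_GlobalBridge`:

`Stmt_FieldFin → Stmt_FieldLower → Stmt_FieldUpper → Stmt_Chi2Sub → Stmt_Tower → Stmt_FieldGE`.

So `(G-E)` — the total localisation map on `H²(G_{K,S}, 𝔽_p)` has corank at most one — holds for
**every** `S`-field `K` containing `μ_p`, with no cyclic algebras, no prescribed invariants and no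
existence half of the second inequality.
-/

set_option autoImplicit false

open Module Fermat.Agent.S55.helper3071

namespace Fermat.Agent.S55.helper1826

/-- Degrees multiply along a tower, read off from the indices of the fixing subgroups. -/
theorem finrank_eq_index_mul_finrank {K K' : IntermediateField ℚ (AlgebraicClosure ℚ)}
    (hle : K ≤ K') :
    finrank ℚ K' = (K'.fixingSubgroup.subgroupOf K.fixingSubgroup).index * finrank ℚ K := by
  have : Algebra.IsAlgebraic ℚ (AlgebraicClosure ℚ) := AlgebraicClosure.isAlgebraic ℚ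
  have : IsAlgClosure ℚ (AlgebraicClosure ℚ) := ⟨inferInstance, inferInstance⟩
  have : Normal ℚ (AlgebraicClosure ℚ) := IsAlgClosure.normal ℚ (AlgebraicClosure ℚ)
  have hG : IsGalois ℚ (AlgebraicClosure ℚ) := ⟨⟩
  rw [IntermediateField.finrank_eq_fixingSubgroup_index (AlgebraicClosure ℚ) K',
    IntermediateField.finrank_eq_fixingSubgroup_index (AlgebraicClosure ℚ) K]
  exact (Subgroup.relIndex_mul_index (IntermediateField.fixingSubgroup_antitone hle)).symm

/-- `IsGaloisOfDegree` from the index of the fixing subgroups (the shape in which tower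
providers naturally obtain it). -/
theorem isGaloisOfDegree_of_index {K K' : IntermediateField ℚ (AlgebraicClosure ℚ)} {n : ℕ}
    (hle : K ≤ K') (hnorm : (K'.fixingSubgroup.subgroupOf K.fixingSubgroup).Normal)
    (hidx : (K'.fixingSubgroup.subgroupOf K.fixingSubgroup).index = n) :
    IsGaloisOfDegree K K' n :=
  ⟨hle, hnorm, by rw [finrank_eq_index_mul_finrank hle, hidx]⟩

/-- The standing hypotheses pass to a larger `S`-field. -/
theorem isSFieldZeta_of_le {S : Finset Nat.Primes} {p : ℕ}
    {K K' : IntermediateField ℚ (AlgebraicClosure ℚ)} (hK : IsSFieldZeta S p K) (hle : K ≤ K')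
    (hK' : K'.IsUnramifiedOutside S) : IsSFieldZeta S p K' where
  prime := hK.prime
  odd := hK.odd
  mem := hK.mem
  unram := hK'
  zeta := by
    obtain ⟨ζ, hζK, hζ⟩ := hK.zeta
    exact ⟨ζ, hle hζK, hζ⟩

/-- Numerical form of `(G-E)` for one field: `dim Ш² + #places ≤ h² + 1`, from the lower count
for `K`, the upper count for `K'`, `χ₂`-submultiplicativity for `K'/K` and `#places(K') ≤ n`. -/
theorem finrank_fieldSha2_add_nPl_le {S : Finset Nat.Primes} {p : ℕ}
    {K K' : IntermediateField ℚ (AlgebraicClosure ℚ)} {n : ℕ}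
    (hC : FieldLower S p K) (hB : FieldUpper S p K') (hD : Chi2Sub S p K K' n)
    (hG : IsGaloisOfDegree K K' n) (hs : nPl S K' ≤ n) :
    finrank (ZMod p) (fieldSha2 S p K) + nPl S K ≤ finrank (ZMod p) (fieldH2 S p K) + 1 := by
  unfold FieldLower at hC
  unfold FieldUpper at hB
  unfold Chi2Sub at hD
  exact ge_count_core_deg (by omega) (by omega) hD hG.2.2 hs

/-- `(G-E)` for one field `K` from the inputs for `K` and one tower field `K'`. -/
theorem fieldGE_of_tower {S : Finset Nat.Primes} {p : ℕ}
    {K K' : IntermediateField ℚ (AlgebraicClosure ℚ)} {n : ℕ} (hp : p.Prime)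
    (hfin : Module.Finite (ZMod p) (fieldH2 S p K))
    (hC : FieldLower S p K) (hB : FieldUpper S p K') (hD : Chi2Sub S p K K' n)
    (hG : IsGaloisOfDegree K K' n) (hs : nPl S K' ≤ n) : FieldGE S p K := by
  have : Fact p.Prime := ⟨hp⟩
  exact corank_le_one_of_count (fieldSha2 S p K)
    (finrank_fieldSha2_add_nPl_le hC hB hD hG hs)

/-- **`(G-E)` by counting**, closed form on the global-bridge carriers. -/
theorem stmt_FieldGE_of (hF : Stmt_FieldFin) (hC : Stmt_FieldLower) (hB : Stmt_FieldUpper)
    (hD : Stmt_Chi2Sub) (hE : Stmt_Tower) : Stmt_FieldGE := by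
  intro S p K hK
  obtain ⟨K', t, hK'u, hG, hs⟩ := hE S p K hK
  have hK' : IsSFieldZeta S p K' := isSFieldZeta_of_le hK hG.1 hK'u
  exact fieldGE_of_tower hK.prime (hF S p K hK).2 (hC S p K hK) (hB S p K' hK')
    (hD S p K K' t hK hK'u hG) hG hs

end Fermat.Agent.S55.helper1826
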