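import Mathlib
import Fermat.Prelude.Def_GroupCohomology_ContinuousUnramified

/-!
# S55: low-degree cohomology of level-constant cochains (helper7486)

Generic in a system of levels `𝓛 : Levels G` (a directed family of finite-index subgroups in which
every member contains a normal member).  The two frozen carriers of S55 are instances:
the global `S`-levels (`IsLevelConstantS₁/₂ S`) and the local levels (`IsLevelConstant₁/₂ r`).

Contents: level cochains, stability under the differentials for smooth modules, the groups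
`LH1`, `LH2`, functoriality, connecting maps and the truncated long exact sequence.
-/

set_option autoImplicit false

universe u

noncomputable section

namespace Fermat.Agent.S55.helper7486

open groupCohomology

/-- A system of levels on a group: a directed family of subgroups of finite index, each of which
contains a normal member of the family. -/
structure Levels (G : Type u) [Group G] where
  /-- the predicate "is a level" -/
  P : Subgroup G → Prop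
  nonempty : ∃ U, P U
  inf : ∀ U V, P U → P V → ∃ W, P W ∧ W ≤ U ∧ W ≤ V
  normal : ∀ U, P U → ∃ V, P V ∧ V ≤ U ∧ V.Normal
  finite : ∀ U, P U → Finite (G ⧸ U)

namespace Levels

variable {G : Type u} [Group G] (𝓛 : Levels G)

/-- A function of one variable is level-constant. -/
def Is₁ {X : Type*} (f : G → X) : Prop :=
  ∃ U, 𝓛.P U ∧ ∀ g s, s ∈ U → f (g * s) = f g

/-- A function of two variables is level-constant. -/
def Is₂ {X : Type*} (f : G × G → X) : Prop :=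
  ∃ U, 𝓛.P U ∧ ∀ g g' s s', s ∈ U → s' ∈ U → f (g * s, g' * s') = f (g, g')

variable {𝓛}

lemma is₁_const {X : Type*} (x : X) : 𝓛.Is₁ (fun _ : G => x) := by
  obtain ⟨U, hU⟩ := 𝓛.nonempty
  exact ⟨U, hU, fun _ _ _ => rfl⟩

lemma is₂_const {X : Type*} (x : X) : 𝓛.Is₂ (fun _ : G × G => x) := by
  obtain ⟨U, hU⟩ := 𝓛.nonempty
  exact ⟨U, hU, fun _ _ _ _ _ _ => rfl⟩

lemma Is₁.comp {X Y : Type*} {f : G → X} (hf : 𝓛.Is₁ f) (φ : X → Y) : 𝓛.Is₁ (φ ∘ f) := by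
  obtain ⟨U, hU, h⟩ := hf
  exact ⟨U, hU, fun g s hs => by simp only [Function.comp_apply, h g s hs]⟩

lemma Is₂.comp {X Y : Type*} {f : G × G → X} (hf : 𝓛.Is₂ f) (φ : X → Y) : 𝓛.Is₂ (φ ∘ f) := by
  obtain ⟨U, hU, h⟩ := hf
  exact ⟨U, hU, fun g g' s s' hs hs' => by simp only [Function.comp_apply, h g g' s s' hs hs']⟩

lemma Is₁.map₂ {X Y Z : Type*} {f : G → X} {f' : G → Y} (hf : 𝓛.Is₁ f) (hf' : 𝓛.Is₁ f')
    (Φ : X → Y → Z) : 𝓛.Is₁ (fun g => Φ (f g) (f' g)) := by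
  obtain ⟨U, hU, h⟩ := hf
  obtain ⟨U', hU', h'⟩ := hf'
  obtain ⟨W, hW, hWU, hWU'⟩ := 𝓛.inf U U' hU hU'
  exact ⟨W, hW, fun g s hs => by
    show Φ (f (g * s)) (f' (g * s)) = Φ (f g) (f' g)
    rw [h g s (hWU hs), h' g s (hWU' hs)]⟩

lemma Is₂.map₂ {X Y Z : Type*} {f : G × G → X} {f' : G × G → Y} (hf : 𝓛.Is₂ f) (hf' : 𝓛.Is₂ f')
    (Φ : X → Y → Z) : 𝓛.Is₂ (fun g => Φ (f g) (f' g)) := by
  obtain ⟨U, hU, h⟩ := hf
  obtain ⟨U', hU', h'⟩ := hf'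
  obtain ⟨W, hW, hWU, hWU'⟩ := 𝓛.inf U U' hU hU'
  exact ⟨W, hW, fun g g' s s' hs hs' => by
    show Φ (f (g * s, g' * s')) (f' (g * s, g' * s')) = Φ (f (g, g')) (f' (g, g'))
    rw [h g g' s s' (hWU hs) (hWU hs'), h' g g' s s' (hWU' hs) (hWU' hs')]⟩

lemma Is₁.add {X : Type*} [Add X] {f f' : G → X} (hf : 𝓛.Is₁ f) (hf' : 𝓛.Is₁ f') :
    𝓛.Is₁ (f + f') := hf.map₂ hf' (· + ·)

lemma Is₂.add {X : Type*} [Add X] {f f' : G × G → X} (hf : 𝓛.Is₂ f) (hf' : 𝓛.Is₂ f') :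
    𝓛.Is₂ (f + f') := hf.map₂ hf' (· + ·)

/-- A level-constant function takes finitely many values. -/
lemma Is₁.finite_range {X : Type*} {f : G → X} (hf : 𝓛.Is₁ f) : (Set.range f).Finite := by
  obtain ⟨U, hU, h⟩ := hf
  have := 𝓛.finite U hU
  let f' : G ⧸ U → X := fun q => Quotient.liftOn' q f (by
    intro a b hab
    have hab' : a⁻¹ * b ∈ U := QuotientGroup.leftRel_apply.mp hab
    have := h a (a⁻¹ * b) hab'
    rw [mul_inv_cancel_left] at this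
    exact this.symm)
  refine (Set.finite_range f').subset ?_
  rintro x ⟨g, rfl⟩
  exact ⟨QuotientGroup.mk g, rfl⟩

/-- Smallness of levels can be chosen uniformly for two level-constant functions. -/
lemma Is₁.exists_le {X : Type*} {f : G → X} (hf : 𝓛.Is₁ f) (V : Subgroup G) (hV : 𝓛.P V) :
    ∃ U, 𝓛.P U ∧ U ≤ V ∧ U.Normal ∧ ∀ g s, s ∈ U → f (g * s) = f g := by
  obtain ⟨U, hU, h⟩ := hf
  obtain ⟨W, hW, hWU, hWV⟩ := 𝓛.inf U V hU hV
  obtain ⟨W', hW', hW'W, hn⟩ := 𝓛.normal W hW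
  exact ⟨W', hW', hW'W.trans hWV, hn, fun g s hs => h g s (hWU (hW'W hs))⟩

lemma Is₁.of_comp_injective {X Y : Type*} {f : G → X} {φ : X → Y} (hφ : Function.Injective φ)
    (hf : 𝓛.Is₁ (φ ∘ f)) : 𝓛.Is₁ f := by
  obtain ⟨U, hU, h⟩ := hf
  exact ⟨U, hU, fun g s hs => hφ (h g s hs)⟩

lemma Is₂.of_comp_injective {X Y : Type*} {f : G × G → X} {φ : X → Y}
    (hφ : Function.Injective φ) (hf : 𝓛.Is₂ (φ ∘ f)) : 𝓛.Is₂ f := by
  obtain ⟨U, hU, h⟩ := hf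
  exact ⟨U, hU, fun g g' s s' hs hs' => hφ (h g g' s s' hs hs')⟩

end Levels

section Smooth

variable {k G : Type u} [CommRing k] [Group G] (𝓛 : Levels G)

/-- `A` is smooth for the level system: every vector is fixed by a level. -/
def Levels.Smooth (A : Rep.{u, u, u} k G) : Prop :=
  ∀ a : A, ∃ U, 𝓛.P U ∧ ∀ s ∈ U, A.ρ s a = a

variable {𝓛} {A : Rep.{u, u, u} k G}

/-- Finitely many vectors of a smooth module are fixed by a common normal level, which may be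
taken inside any given level. -/
lemma Levels.Smooth.exists_fixing (hA : 𝓛.Smooth A) {T : Set A} (hT : T.Finite)
    (V : Subgroup G) (hV : 𝓛.P V) :
    ∃ U, 𝓛.P U ∧ U ≤ V ∧ U.Normal ∧ ∀ s ∈ U, ∀ t ∈ T, A.ρ s t = t := by
  induction T, hT using Set.Finite.induction_on with
  | empty =>
    obtain ⟨U, hU, hUV, hn⟩ := 𝓛.normal V hV
    exact ⟨U, hU, hUV, hn, by simp⟩
  | @insert a T _ _ ih =>
    obtain ⟨U, hU, hUV, _, hfix⟩ := ih
    obtain ⟨Ua, hUa, hfa⟩ := hA a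
    obtain ⟨W, hW, hWU, hWUa⟩ := 𝓛.inf U Ua hU hUa
    obtain ⟨W', hW', hW'W, hn'⟩ := 𝓛.normal W hW
    refine ⟨W', hW', (hW'W.trans hWU).trans hUV, hn', ?_⟩
    intro s hs t ht
    rcases Set.mem_insert_iff.mp ht with rfl | ht
    · exact hfa s (hWUa (hW'W hs))
    · exact hfix s (hWU (hW'W hs)) t ht

lemma Levels.Smooth.is₁_d₀₁ (hA : 𝓛.Smooth A) (a : A) : 𝓛.Is₁ ((d₀₁ A).hom a) := by
  obtain ⟨U, hU, h⟩ := hA a
  refine ⟨U, hU, fun g s hs => ?_⟩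
  simp only [d₀₁_hom_apply, map_mul, Module.End.mul_apply, h s hs]

lemma Levels.Smooth.is₂_d₁₂ (hA : 𝓛.Smooth A) {f : G → A} (hf : 𝓛.Is₁ f) :
    𝓛.Is₂ ((d₁₂ A).hom f) := by
  have hfin := hf.finite_range
  obtain ⟨U₀, hU₀, h₀⟩ := hf
  obtain ⟨U, hU, hUU₀, hn, hfix⟩ := hA.exists_fixing hfin U₀ hU₀
  refine ⟨U, hU, fun g g' s s' hs hs' => ?_⟩
  simp only [d₁₂_hom_apply]
  have h1 : f (g' * s') = f g' := h₀ _ _ (hUU₀ hs')
  have h2 : f (g * s) = f g := h₀ _ _ (hUU₀ hs)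
  have h3 : f (g * s * (g' * s')) = f (g * g') := by
    have e : g * s * (g' * s') = g * g' * (g'⁻¹ * s * g' * s') := by group
    rw [e]
    refine h₀ _ _ (hUU₀ (U.mul_mem ?_ hs'))
    simpa using hn.conj_mem s hs g'⁻¹
  rw [h1, h2, h3, map_mul, Module.End.mul_apply, hfix s hs _ ⟨g', rfl⟩]

end Smooth

section Carriers

variable {k G : Type u} [CommRing k] [Group G] (𝓛 : Levels G) (A : Rep.{u, u, u} k G)

/-- Level-constant 1-cochains. -/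
def lev₁ : Submodule k (G → A) where
  carrier := {f | 𝓛.Is₁ f}
  add_mem' hf hf' := hf.add hf'
  zero_mem' := Levels.is₁_const (0 : A)
  smul_mem' c _ hf := hf.comp (c • ·)

/-- Level-constant 2-cochains. -/
def lev₂ : Submodule k (G × G → A) where
  carrier := {f | 𝓛.Is₂ f}
  add_mem' hf hf' := hf.add hf'
  zero_mem' := Levels.is₂_const (0 : A)
  smul_mem' c _ hf := hf.comp (c • ·)

variable {𝓛 A} in
@[simp] lemma mem_lev₁ {f : G → A} : f ∈ lev₁ 𝓛 A ↔ 𝓛.Is₁ f := Iff.rfl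

variable {𝓛 A} in
@[simp] lemma mem_lev₂ {f : G × G → A} : f ∈ lev₂ 𝓛 A ↔ 𝓛.Is₂ f := Iff.rfl

/-- Level-constant 1-cocycles. -/
def Z1 : Submodule k (G → A) := cocycles₁ A ⊓ lev₁ 𝓛 A

/-- Level-constant 2-cocycles. -/
def Z2 : Submodule k (G × G → A) := cocycles₂ A ⊓ lev₂ 𝓛 A

/-- Coboundaries of level-constant 1-cochains. -/
def B2 : Submodule k (G × G → A) := (lev₁ 𝓛 A).map (d₁₂ A).hom

variable {𝓛 A} in
lemma mem_Z1 {f : G → A} : f ∈ Z1 𝓛 A ↔ f ∈ cocycles₁ A ∧ 𝓛.Is₁ f := Iff.rfl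

variable {𝓛 A} in
lemma mem_Z2 {f : G × G → A} : f ∈ Z2 𝓛 A ↔ f ∈ cocycles₂ A ∧ 𝓛.Is₂ f := Iff.rfl

variable {𝓛 A} in
lemma mem_B2 {f : G × G → A} : f ∈ B2 𝓛 A ↔ ∃ x : G → A, 𝓛.Is₁ x ∧ (d₁₂ A).hom x = f := by
  simp only [B2, Submodule.mem_map, mem_lev₁]

/-- Level `H¹`: level-constant 1-cocycles modulo coboundaries. -/
abbrev LH1 : Type u := ↥(Z1 𝓛 A) ⧸ (coboundaries₁ A).comap (Z1 𝓛 A).subtype

/-- Level `H²`: level-constant 2-cocycles modulo coboundaries of level-constant cochains. -/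
abbrev LH2 : Type u := ↥(Z2 𝓛 A) ⧸ (B2 𝓛 A).comap (Z2 𝓛 A).subtype

/-- The class of a level 1-cocycle. -/
abbrev LH1.mk : ↥(Z1 𝓛 A) →ₗ[k] LH1 𝓛 A := Submodule.mkQ _

/-- The class of a level 2-cocycle. -/
abbrev LH2.mk : ↥(Z2 𝓛 A) →ₗ[k] LH2 𝓛 A := Submodule.mkQ _

variable {𝓛 A} in
lemma LH1.mk_eq_zero_iff (z : ↥(Z1 𝓛 A)) :
    LH1.mk 𝓛 A z = 0 ↔ ∃ a : A, (d₀₁ A).hom a = (z : G → A) := by
  rw [LH1.mk, Submodule.mkQ_apply, Submodule.Quotient.mk_eq_zero, Submodule.mem_comap]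
  rfl

variable {𝓛 A} in
lemma LH2.mk_eq_zero_iff (z : ↥(Z2 𝓛 A)) :
    LH2.mk 𝓛 A z = 0 ↔ ∃ x : G → A, 𝓛.Is₁ x ∧ (d₁₂ A).hom x = (z : G × G → A) := by
  rw [LH2.mk, Submodule.mkQ_apply, Submodule.Quotient.mk_eq_zero, Submodule.mem_comap]
  exact mem_B2

variable {𝓛 A} in
lemma LH1.mk_surjective : Function.Surjective (LH1.mk 𝓛 A) := Submodule.mkQ_surjective _

variable {𝓛 A} in
lemma LH2.mk_surjective : Function.Surjective (LH2.mk 𝓛 A) := Submodule.mkQ_surjective _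

variable {𝓛 A} in
lemma Levels.Smooth.d₀₁_mem_Z1 (hA : 𝓛.Smooth A) (a : A) : (d₀₁ A).hom a ∈ Z1 𝓛 A :=
  ⟨d₀₁_apply_mem_cocycles₁ a, hA.is₁_d₀₁ a⟩

variable {𝓛 A} in
lemma Levels.Smooth.d₁₂_mem_Z2 (hA : 𝓛.Smooth A) {f : G → A} (hf : 𝓛.Is₁ f) :
    (d₁₂ A).hom f ∈ Z2 𝓛 A :=
  ⟨d₁₂_apply_mem_cocycles₂ f, hA.is₂_d₁₂ hf⟩

end Carriers

section Functoriality

variable {k G H : Type u} [CommRing k] [Group G] [Group H]

/-- Compatibility of two level systems along a group homomorphism: the preimage of a level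
contains a level. -/
def Levels.Compat (𝓛G : Levels G) (𝓛H : Levels H) (f : G →* H) : Prop :=
  ∀ U, 𝓛H.P U → ∃ V, 𝓛G.P V ∧ V ≤ U.comap f

variable {𝓛G : Levels G} {𝓛H : Levels H} {f : G →* H}

lemma Levels.Compat.is₁ (hc : 𝓛G.Compat 𝓛H f) {X : Type*} {x : H → X} (hx : 𝓛H.Is₁ x) :
    𝓛G.Is₁ (x ∘ f) := by
  obtain ⟨U, hU, h⟩ := hx
  obtain ⟨V, hV, hVU⟩ := hc U hU
  refine ⟨V, hV, fun g s hs => ?_⟩
  simp only [Function.comp_apply, map_mul]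
  exact h (f g) (f s) (hVU hs)

lemma Levels.Compat.is₂ (hc : 𝓛G.Compat 𝓛H f) {X : Type*} {x : H × H → X} (hx : 𝓛H.Is₂ x) :
    𝓛G.Is₂ (x ∘ Prod.map f f) := by
  obtain ⟨U, hU, h⟩ := hx
  obtain ⟨V, hV, hVU⟩ := hc U hU
  refine ⟨V, hV, fun g g' s s' hs hs' => ?_⟩
  simp only [Function.comp_apply, Prod.map_apply, map_mul]
  exact h (f g) (f g') (f s) (f s') (hVU hs) (hVU hs')

lemma Levels.compat_id (𝓛G : Levels G) : 𝓛G.Compat 𝓛G (MonoidHom.id G) :=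
  fun U hU => ⟨U, hU, fun _ hs => hs⟩

variable {A : Rep.{u, u, u} k H} {B : Rep.{u, u, u} k G} (φ : A →ₗ[k] B)

lemma cochainsPullPush₁_d₀₁ (hφ : ∀ (g : G) (a : A), φ (A.ρ (f g) a) = B.ρ g (φ a)) (a : A) :
    cochainsPullPush₁ f φ ((d₀₁ A).hom a) = (d₀₁ B).hom (φ a) := by
  ext g
  simp [d₀₁_hom_apply, map_sub, hφ]

lemma cochainsPullPush₁_mem_cocycles₁ (hφ : ∀ (g : G) (a : A), φ (A.ρ (f g) a) = B.ρ g (φ a))
    {x : H → A} (hx : x ∈ cocycles₁ A) : cochainsPullPush₁ f φ x ∈ cocycles₁ B := by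
  rw [mem_cocycles₁_iff] at hx ⊢
  intro g h
  simp only [cochainsPullPush₁_apply, map_mul, hx, map_add, hφ]

/-- The map induced on level 1-cocycles by a compatible pair. -/
def Z1map (hc : 𝓛G.Compat 𝓛H f) (hφ : ∀ (g : G) (a : A), φ (A.ρ (f g) a) = B.ρ g (φ a)) :
    ↥(Z1 𝓛H A) →ₗ[k] ↥(Z1 𝓛G B) :=
  (cochainsPullPush₁ f φ).restrict fun _ hx =>
    ⟨cochainsPullPush₁_mem_cocycles₁ φ hφ hx.1, (hc.is₁ hx.2).comp φ⟩

/-- The map induced on level 2-cocycles by a compatible pair. -/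
def Z2map (hc : 𝓛G.Compat 𝓛H f) (hφ : ∀ (g : G) (a : A), φ (A.ρ (f g) a) = B.ρ g (φ a)) :
    ↥(Z2 𝓛H A) →ₗ[k] ↥(Z2 𝓛G B) :=
  (cochainsPullPush₂ f φ).restrict fun _ hx =>
    ⟨cochainsPullPush₂_mem_cocycles₂ f φ hφ hx.1, (hc.is₂ hx.2).comp φ⟩

@[simp] lemma Z1map_apply (hc : 𝓛G.Compat 𝓛H f)
    (hφ : ∀ (g : G) (a : A), φ (A.ρ (f g) a) = B.ρ g (φ a)) (z : ↥(Z1 𝓛H A)) (g : G) :
    (Z1map φ hc hφ z : G → B) g = φ ((z : H → A) (f g)) := rfl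

@[simp] lemma Z2map_apply (hc : 𝓛G.Compat 𝓛H f)
    (hφ : ∀ (g : G) (a : A), φ (A.ρ (f g) a) = B.ρ g (φ a)) (z : ↥(Z2 𝓛H A)) (g : G × G) :
    (Z2map φ hc hφ z : G × G → B) g = φ ((z : H × H → A) (f g.1, f g.2)) := rfl

/-- The map induced on level `H¹`. -/
def LH1map (hc : 𝓛G.Compat 𝓛H f) (hφ : ∀ (g : G) (a : A), φ (A.ρ (f g) a) = B.ρ g (φ a)) :
    LH1 𝓛H A →ₗ[k] LH1 𝓛G B :=
  Submodule.mapQ _ _ (Z1map φ hc hφ) (by
    rintro z ⟨a, ha⟩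
    exact ⟨φ a, by
      rw [← cochainsPullPush₁_d₀₁ φ hφ a, ha]; rfl⟩)

/-- The map induced on level `H²`. -/
def LH2map (hc : 𝓛G.Compat 𝓛H f) (hφ : ∀ (g : G) (a : A), φ (A.ρ (f g) a) = B.ρ g (φ a)) :
    LH2 𝓛H A →ₗ[k] LH2 𝓛G B :=
  Submodule.mapQ _ _ (Z2map φ hc hφ) (by
    rintro z hz
    obtain ⟨x, hx, hxz⟩ := mem_B2.mp hz
    exact mem_B2.mpr ⟨cochainsPullPush₁ f φ x, (hc.is₁ hx).comp φ, by
      rw [← cochainsPullPush₂_d₁₂ f φ hφ x, hxz]; rfl⟩)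

@[simp] lemma LH1map_mk (hc : 𝓛G.Compat 𝓛H f)
    (hφ : ∀ (g : G) (a : A), φ (A.ρ (f g) a) = B.ρ g (φ a)) (z : ↥(Z1 𝓛H A)) :
    LH1map φ hc hφ (LH1.mk 𝓛H A z) = LH1.mk 𝓛G B (Z1map φ hc hφ z) := rfl

@[simp] lemma LH2map_mk (hc : 𝓛G.Compat 𝓛H f)
    (hφ : ∀ (g : G) (a : A), φ (A.ρ (f g) a) = B.ρ g (φ a)) (z : ↥(Z2 𝓛H A)) :
    LH2map φ hc hφ (LH2.mk 𝓛H A z) = LH2.mk 𝓛G B (Z2map φ hc hφ z) := rfl

/-- The map induced on invariants. -/
def invMap (f : G →* H) (hφ : ∀ (g : G) (a : A), φ (A.ρ (f g) a) = B.ρ g (φ a)) :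
    ↥(A.ρ.invariants) →ₗ[k] ↥(B.ρ.invariants) :=
  (φ.comp A.ρ.invariants.subtype).codRestrict _ fun a g => by
    have ha := a.2 (f g)
    simp only [LinearMap.comp_apply, Submodule.subtype_apply]
    rw [← hφ, ha]

@[simp] lemma invMap_apply (hφ : ∀ (g : G) (a : A), φ (A.ρ (f g) a) = B.ρ g (φ a))
    (a : ↥(A.ρ.invariants)) : (invMap φ f hφ a : B) = φ (a : A) := rfl

end Functoriality

section LinearHelpers

variable {k : Type*} [CommRing k] {X Y Z : Type*} [AddCommGroup X] [Module k X]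
  [AddCommGroup Y] [Module k Y] [AddCommGroup Z] [Module k Z]

/-- Descend a linear map along a surjection killing its kernel. -/
def descend (π : X →ₗ[k] Y) (hπ : Function.Surjective π) (θ : X →ₗ[k] Z)
    (h : LinearMap.ker π ≤ LinearMap.ker θ) : Y →ₗ[k] Z :=
  (LinearMap.ker π).liftQ θ h ∘ₗ (π.quotKerEquivOfSurjective hπ).symm.toLinearMap

lemma descend_apply (π : X →ₗ[k] Y) (hπ : Function.Surjective π) (θ : X →ₗ[k] Z)
    (h : LinearMap.ker π ≤ LinearMap.ker θ) (x : X) : descend π hπ θ h (π x) = θ x := by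
  have e : (π.quotKerEquivOfSurjective hπ).symm (π x) = Submodule.Quotient.mk x := by
    rw [LinearEquiv.symm_apply_eq]
    exact (LinearMap.quotKerEquivOfSurjective_apply_mk π hπ x).symm
  simp only [descend, LinearMap.comp_apply, LinearEquiv.coe_coe, e, Submodule.liftQ_apply]

/-- Divide a linear map by an injective one containing its range. -/
def divInj (Φ : Y →ₗ[k] Z) (hΦ : Function.Injective Φ) (D : X →ₗ[k] Z)
    (h : ∀ x, D x ∈ LinearMap.range Φ) : X →ₗ[k] Y :=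
  (LinearEquiv.ofInjective Φ hΦ).symm.toLinearMap ∘ₗ D.codRestrict (LinearMap.range Φ) h

lemma divInj_spec (Φ : Y →ₗ[k] Z) (hΦ : Function.Injective Φ) (D : X →ₗ[k] Z)
    (h : ∀ x, D x ∈ LinearMap.range Φ) (x : X) : Φ (divInj Φ hΦ D h x) = D x := by
  have := (LinearEquiv.ofInjective Φ hΦ).apply_symm_apply (D.codRestrict _ h x)
  exact congrArg Subtype.val this

lemma mem_range_compLeft {ι : Type*} (φ : X →ₗ[k] Y) (y : ι → Y)
    (hy : ∀ i, y i ∈ LinearMap.range φ) : y ∈ LinearMap.range (φ.compLeft ι) := by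
  choose z hz using hy
  exact ⟨z, funext hz⟩

lemma compLeft_injective {ι : Type*} {φ : X →ₗ[k] Y} (hφ : Function.Injective φ) :
    Function.Injective (φ.compLeft ι) :=
  fun _ _ h => funext fun i => hφ (congrFun h i)

end LinearHelpers

section LES

variable {k G : Type u} [CommRing k] [Group G]

/-- A short exact sequence of representations, in unbundled linear-map form. -/
structure SES (A B C : Rep.{u, u, u} k G) where
  /-- the injection -/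
  φ : A →ₗ[k] B
  /-- the surjection -/
  ψ : B →ₗ[k] C
  hφ : ∀ (g : G) (a : A), φ (A.ρ g a) = B.ρ g (φ a)
  hψ : ∀ (g : G) (b : B), ψ (B.ρ g b) = C.ρ g (ψ b)
  inj : Function.Injective φ
  surj : Function.Surjective ψ
  exact : Function.Exact φ ψ

namespace SES

variable {A B C : Rep.{u, u, u} k G} (E : SES A B C) {𝓛 : Levels G}

lemma ψ_φ (a : A) : E.ψ (E.φ a) = 0 := (E.exact _).mpr ⟨a, rfl⟩

lemma exists_of_ψ_eq_zero {b : B} (hb : E.ψ b = 0) : ∃ a, E.φ a = b := (E.exact _).mp hb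

lemma mem_cocycles₁_of_comp {a : G → A} (h : (fun g => E.φ (a g)) ∈ cocycles₁ B) :
    a ∈ cocycles₁ A := by
  rw [mem_cocycles₁_iff] at h ⊢
  intro g g'
  apply E.inj
  rw [map_add, E.hφ]
  exact h g g'

lemma mem_cocycles₂_of_comp {a : G × G → A} (h : (fun x => E.φ (a x)) ∈ cocycles₂ B) :
    a ∈ cocycles₂ A := by
  rw [mem_cocycles₂_iff] at h ⊢
  intro g g' j
  apply E.inj
  rw [map_add, map_add, E.hφ]
  exact h g g' j

lemma φ_d₀₁ (a : A) (g : G) : E.φ ((d₀₁ A).hom a g) = (d₀₁ B).hom (E.φ a) g := by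
  simp only [d₀₁_hom_apply, map_sub, E.hφ]

lemma ψ_d₀₁ (b : B) (g : G) : E.ψ ((d₀₁ B).hom b g) = (d₀₁ C).hom (E.ψ b) g := by
  simp only [d₀₁_hom_apply, map_sub, E.hψ]

lemma φ_d₁₂ (a : G → A) (x : G × G) :
    E.φ ((d₁₂ A).hom a x) = (d₁₂ B).hom (fun g => E.φ (a g)) x := by
  simp only [d₁₂_hom_apply, map_sub, map_add, E.hφ]

lemma ψ_d₁₂ (b : G → B) (x : G × G) :
    E.ψ ((d₁₂ B).hom b x) = (d₁₂ C).hom (fun g => E.ψ (b g)) x := by
  simp only [d₁₂_hom_apply, map_sub, map_add, E.hψ]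

/-! ### The connecting map `δ⁰ : C^G → H¹(A)` -/

/-- Elements of `B` whose image in `C` is invariant. -/
def B₀ : Submodule k B := (C.ρ.invariants).comap E.ψ

lemma d₀₁_mem_range (b : E.B₀) :
    (d₀₁ B).hom (b : B) ∈ LinearMap.range (E.φ.compLeft G) := by
  apply mem_range_compLeft
  intro g
  have hb : ∀ g, C.ρ g (E.ψ (b : B)) = E.ψ (b : B) := b.2
  have h0 : E.ψ ((d₀₁ B).hom (b : B) g) = 0 := by
    rw [E.ψ_d₀₁, d₀₁_hom_apply, hb g, sub_self]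
  exact E.exists_of_ψ_eq_zero h0

/-- The cochain `g ↦ φ⁻¹(g b - b)`. -/
def θ₀' : E.B₀ →ₗ[k] (G → A) :=
  divInj (E.φ.compLeft G) (compLeft_injective E.inj) ((d₀₁ B).hom ∘ₗ E.B₀.subtype)
    (fun b => E.d₀₁_mem_range b)

lemma φ_θ₀' (b : E.B₀) (g : G) : E.φ (E.θ₀' b g) = B.ρ g (b : B) - (b : B) := by
  have h := congrFun (divInj_spec (E.φ.compLeft G) (compLeft_injective E.inj)
    ((d₀₁ B).hom ∘ₗ E.B₀.subtype) (fun b => E.d₀₁_mem_range b) b) g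
  rw [← d₀₁_hom_apply]
  exact h

lemma θ₀'_mem_Z1 (hB : 𝓛.Smooth B) (b : E.B₀) : E.θ₀' b ∈ Z1 𝓛 A := by
  have hfun : (fun g => E.φ (E.θ₀' b g)) = (d₀₁ B).hom (b : B) := by
    ext g; rw [E.φ_θ₀', d₀₁_hom_apply]
  constructor
  · apply E.mem_cocycles₁_of_comp
    rw [hfun]
    exact d₀₁_apply_mem_cocycles₁ _
  · apply Levels.Is₁.of_comp_injective E.inj
    show 𝓛.Is₁ (fun g => E.φ (E.θ₀' b g))
    rw [hfun]
    exact hB.is₁_d₀₁ _

/-- The cocycle `g ↦ φ⁻¹(g b - b)` as a level cocycle. -/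
def θ₀ (hB : 𝓛.Smooth B) : E.B₀ →ₗ[k] ↥(Z1 𝓛 A) :=
  E.θ₀'.codRestrict _ (E.θ₀'_mem_Z1 hB)

lemma φ_θ₀ (hB : 𝓛.Smooth B) (b : E.B₀) (g : G) :
    E.φ ((E.θ₀ hB b : G → A) g) = B.ρ g (b : B) - (b : B) := E.φ_θ₀' b g

/-- The projection `B₀ → C^G`. -/
def π₀ : E.B₀ →ₗ[k] ↥(C.ρ.invariants) :=
  (E.ψ.comp E.B₀.subtype).codRestrict _ (fun b => b.2)

lemma π₀_surjective : Function.Surjective E.π₀ := by
  rintro ⟨c, hc⟩
  obtain ⟨b, rfl⟩ := E.surj c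
  exact ⟨⟨b, hc⟩, rfl⟩

/-- The connecting homomorphism `δ⁰ : C^G → H¹(A)`. -/
def δ₀ (hB : 𝓛.Smooth B) : ↥(C.ρ.invariants) →ₗ[k] LH1 𝓛 A :=
  descend E.π₀ E.π₀_surjective (LH1.mk 𝓛 A ∘ₗ E.θ₀ hB) (by
    intro b hb
    rw [LinearMap.mem_ker] at hb ⊢
    have hb' : E.ψ (b : B) = 0 := congrArg Subtype.val hb
    obtain ⟨a, ha⟩ := E.exists_of_ψ_eq_zero hb'
    rw [LinearMap.comp_apply, LH1.mk_eq_zero_iff]
    refine ⟨a, ?_⟩
    ext g
    apply E.inj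
    rw [E.φ_θ₀, E.φ_d₀₁, d₀₁_hom_apply, ha])

lemma δ₀_apply (hB : 𝓛.Smooth B) (b : E.B₀) :
    E.δ₀ hB (E.π₀ b) = LH1.mk 𝓛 A (E.θ₀ hB b) :=
  descend_apply _ _ _ _ b

/-! ### The connecting map `δ¹ : H¹(C) → H²(A)` -/

variable (𝓛) in
/-- Level-constant 1-cochains of `B` whose image in `C` is a cocycle. -/
def B₁ : Submodule k (G → B) := lev₁ 𝓛 B ⊓ (cocycles₁ C).comap (E.ψ.compLeft G)

lemma B₁_is₁ (b : E.B₁ 𝓛) : 𝓛.Is₁ (b : G → B) := b.2.1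

lemma B₁_cocycle (b : E.B₁ 𝓛) : (fun g => E.ψ ((b : G → B) g)) ∈ cocycles₁ C := b.2.2

lemma d₁₂_mem_range (b : E.B₁ 𝓛) :
    (d₁₂ B).hom (b : G → B) ∈ LinearMap.range (E.φ.compLeft (G × G)) := by
  apply mem_range_compLeft
  intro x
  have h0 : E.ψ ((d₁₂ B).hom (b : G → B) x) = 0 := by
    rw [E.ψ_d₁₂]
    have := E.B₁_cocycle b
    rw [cocycles₁, LinearMap.mem_ker] at this
    rw [this]; rfl
  exact E.exists_of_ψ_eq_zero h0

/-- The cochain `φ⁻¹ ∘ d b`. -/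
def θ₁' : E.B₁ 𝓛 →ₗ[k] (G × G → A) :=
  divInj (E.φ.compLeft (G × G)) (compLeft_injective E.inj) ((d₁₂ B).hom ∘ₗ (E.B₁ 𝓛).subtype)
    (fun b => E.d₁₂_mem_range b)

lemma φ_θ₁' (b : E.B₁ 𝓛) (x : G × G) : E.φ (E.θ₁' b x) = (d₁₂ B).hom (b : G → B) x :=
  congrFun (divInj_spec (E.φ.compLeft (G × G)) (compLeft_injective E.inj)
    ((d₁₂ B).hom ∘ₗ (E.B₁ 𝓛).subtype) (fun b => E.d₁₂_mem_range b) b) x

lemma θ₁'_mem_Z2 (hB : 𝓛.Smooth B) (b : E.B₁ 𝓛) : E.θ₁' b ∈ Z2 𝓛 A := by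
  have hfun : (fun x => E.φ (E.θ₁' b x)) = (d₁₂ B).hom (b : G → B) := by
    ext x; rw [E.φ_θ₁']
  constructor
  · apply E.mem_cocycles₂_of_comp
    rw [hfun]
    exact d₁₂_apply_mem_cocycles₂ _
  · apply Levels.Is₂.of_comp_injective E.inj
    show 𝓛.Is₂ (fun x => E.φ (E.θ₁' b x))
    rw [hfun]
    exact hB.is₂_d₁₂ (E.B₁_is₁ b)

/-- The 2-cocycle `φ⁻¹ ∘ d b` as a level cocycle. -/
def θ₁ (hB : 𝓛.Smooth B) : E.B₁ 𝓛 →ₗ[k] ↥(Z2 𝓛 A) :=
  E.θ₁'.codRestrict _ (E.θ₁'_mem_Z2 hB)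

lemma φ_θ₁ (hB : 𝓛.Smooth B) (b : E.B₁ 𝓛) (x : G × G) :
    E.φ ((E.θ₁ hB b : G × G → A) x) = (d₁₂ B).hom (b : G → B) x := E.φ_θ₁' b x

/-- The projection `B₁ → Z¹(C)`. -/
def π₁ : E.B₁ 𝓛 →ₗ[k] ↥(Z1 𝓛 C) :=
  ((E.ψ.compLeft G).comp (E.B₁ 𝓛).subtype).codRestrict _
    (fun b => ⟨b.2.2, (E.B₁_is₁ b).comp E.ψ⟩)

@[simp] lemma π₁_apply (b : E.B₁ 𝓛) (g : G) : (E.π₁ b : G → C) g = E.ψ ((b : G → B) g) := rfl

lemma π₁_surjective : Function.Surjective (E.π₁ (𝓛 := 𝓛)) := by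
  rintro ⟨c, hc⟩
  have hψ : ∀ g, E.ψ (Function.surjInv E.surj (c g)) = c g :=
    fun g => Function.surjInv_eq E.surj (c g)
  have hl : 𝓛.Is₁ (Function.surjInv E.surj ∘ c) := hc.2.comp _
  refine ⟨⟨fun g => Function.surjInv E.surj (c g), hl, ?_⟩, ?_⟩
  · show (fun g => E.ψ (Function.surjInv E.surj (c g))) ∈ cocycles₁ C
    rw [funext hψ]
    exact hc.1
  · apply Subtype.ext
    funext g
    exact hψ g

lemma ker_π₁_le (hB : 𝓛.Smooth B) :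
    LinearMap.ker (E.π₁ (𝓛 := 𝓛)) ≤ LinearMap.ker (LH2.mk 𝓛 A ∘ₗ E.θ₁ hB) := by
  intro b hb
  rw [LinearMap.mem_ker] at hb ⊢
  have hb' : ∀ g, E.ψ ((b : G → B) g) = 0 := fun g => congrFun (congrArg Subtype.val hb) g
  choose a ha using fun g => E.exists_of_ψ_eq_zero (hb' g)
  have hal : 𝓛.Is₁ a := by
    apply Levels.Is₁.of_comp_injective E.inj
    show 𝓛.Is₁ (fun g => E.φ (a g))
    rw [funext ha]
    exact E.B₁_is₁ b
  rw [LinearMap.comp_apply, LH2.mk_eq_zero_iff]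
  refine ⟨a, hal, ?_⟩
  ext x
  apply E.inj
  rw [E.φ_θ₁, E.φ_d₁₂, funext ha]

/-- `δ¹` on level cocycles. -/
def δ₁' (hB : 𝓛.Smooth B) : ↥(Z1 𝓛 C) →ₗ[k] LH2 𝓛 A :=
  descend E.π₁ E.π₁_surjective (LH2.mk 𝓛 A ∘ₗ E.θ₁ hB) (E.ker_π₁_le hB)

lemma δ₁'_apply (hB : 𝓛.Smooth B) (b : E.B₁ 𝓛) :
    E.δ₁' hB (E.π₁ b) = LH2.mk 𝓛 A (E.θ₁ hB b) :=
  descend_apply _ _ _ _ b

/-- The connecting homomorphism `δ¹ : H¹(C) → H²(A)`. -/
def δ₁ (hB : 𝓛.Smooth B) : LH1 𝓛 C →ₗ[k] LH2 𝓛 A :=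
  Submodule.liftQ _ (E.δ₁' hB) (by
    rintro c ⟨m, hm⟩
    rw [LinearMap.mem_ker]
    obtain ⟨b₀, rfl⟩ := E.surj m
    have hb : (d₀₁ B).hom b₀ ∈ E.B₁ 𝓛 := by
      refine ⟨hB.is₁_d₀₁ b₀, ?_⟩
      show (fun g => E.ψ ((d₀₁ B).hom b₀ g)) ∈ cocycles₁ C
      rw [funext (E.ψ_d₀₁ b₀)]
      exact d₀₁_apply_mem_cocycles₁ _
    have hc : E.π₁ ⟨_, hb⟩ = c := by
      apply Subtype.ext
      funext g
      rw [π₁_apply, E.ψ_d₀₁]
      exact congrFun hm g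
    rw [← hc, E.δ₁'_apply, LH2.mk_eq_zero_iff]
    refine ⟨0, Levels.is₁_const 0, ?_⟩
    ext x
    apply E.inj
    rw [E.φ_θ₁, map_zero]
    have := d₀₁_apply_mem_cocycles₁ (A := B) b₀
    rw [cocycles₁, LinearMap.mem_ker] at this
    have h0 : (d₁₂ B).hom ((d₀₁ B).hom b₀) x = 0 := congrFun this x
    exact (map_zero E.φ).trans h0.symm)

lemma δ₁_mk (hB : 𝓛.Smooth B) (b : E.B₁ 𝓛) :
    E.δ₁ hB (LH1.mk 𝓛 C (E.π₁ b)) = LH2.mk 𝓛 A (E.θ₁ hB b) := by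
  rw [δ₁, LH1.mk, Submodule.mkQ_apply, Submodule.liftQ_apply, E.δ₁'_apply]

/-! ### The maps of the long exact sequence and exactness -/

/-- `H⁰(A) → H⁰(B)`. -/
def H0φ : ↥(A.ρ.invariants) →ₗ[k] ↥(B.ρ.invariants) := invMap E.φ (MonoidHom.id G) E.hφ

/-- `H⁰(B) → H⁰(C)`. -/
def H0ψ : ↥(B.ρ.invariants) →ₗ[k] ↥(C.ρ.invariants) := invMap E.ψ (MonoidHom.id G) E.hψ

variable (𝓛) in
/-- `H¹(A) → H¹(B)`. -/
def H1φ : LH1 𝓛 A →ₗ[k] LH1 𝓛 B := LH1map E.φ 𝓛.compat_id E.hφ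

variable (𝓛) in
/-- `H¹(B) → H¹(C)`. -/
def H1ψ : LH1 𝓛 B →ₗ[k] LH1 𝓛 C := LH1map E.ψ 𝓛.compat_id E.hψ

variable (𝓛) in
/-- `H²(A) → H²(B)`. -/
def H2φ : LH2 𝓛 A →ₗ[k] LH2 𝓛 B := LH2map E.φ 𝓛.compat_id E.hφ

variable (𝓛) in
/-- `H²(B) → H²(C)`. -/
def H2ψ : LH2 𝓛 B →ₗ[k] LH2 𝓛 C := LH2map E.ψ 𝓛.compat_id E.hψ

@[simp] lemma H0φ_apply (a : ↥(A.ρ.invariants)) : (E.H0φ a : B) = E.φ (a : A) := rfl

@[simp] lemma H0ψ_apply (b : ↥(B.ρ.invariants)) : (E.H0ψ b : C) = E.ψ (b : B) := rfl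

lemma H1φ_mk (z : ↥(Z1 𝓛 A)) :
    E.H1φ 𝓛 (LH1.mk 𝓛 A z) = LH1.mk 𝓛 B (Z1map E.φ 𝓛.compat_id E.hφ z) := rfl

lemma H1ψ_mk (z : ↥(Z1 𝓛 B)) :
    E.H1ψ 𝓛 (LH1.mk 𝓛 B z) = LH1.mk 𝓛 C (Z1map E.ψ 𝓛.compat_id E.hψ z) := rfl

lemma H2φ_mk (z : ↥(Z2 𝓛 A)) :
    E.H2φ 𝓛 (LH2.mk 𝓛 A z) = LH2.mk 𝓛 B (Z2map E.φ 𝓛.compat_id E.hφ z) := rfl

lemma H2ψ_mk (z : ↥(Z2 𝓛 B)) :
    E.H2ψ 𝓛 (LH2.mk 𝓛 B z) = LH2.mk 𝓛 C (Z2map E.ψ 𝓛.compat_id E.hψ z) := rfl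

/-- Exactness at `H⁰(A)`. -/
lemma H0φ_injective : Function.Injective E.H0φ := by
  intro a a' h
  apply Subtype.ext
  apply E.inj
  exact congrArg Subtype.val h

/-- Exactness at `H⁰(B)`. -/
lemma exact_H0φ_H0ψ : Function.Exact E.H0φ E.H0ψ := by
  intro b
  constructor
  · intro hb
    have hb' : E.ψ (b : B) = 0 := congrArg Subtype.val hb
    obtain ⟨a, ha⟩ := E.exists_of_ψ_eq_zero hb'
    refine ⟨⟨a, fun g => ?_⟩, Subtype.ext ha⟩
    apply E.inj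
    rw [E.hφ, ha]
    exact b.2 g
  · rintro ⟨a, rfl⟩
    apply Subtype.ext
    exact E.ψ_φ _

/-- Exactness at `H⁰(C)`. -/
lemma exact_H0ψ_δ₀ (hB : 𝓛.Smooth B) : Function.Exact E.H0ψ (E.δ₀ (𝓛 := 𝓛) hB) := by
  intro c
  obtain ⟨b, rfl⟩ := E.π₀_surjective c
  rw [E.δ₀_apply, LH1.mk_eq_zero_iff]
  constructor
  · rintro ⟨a, ha⟩
    refine ⟨⟨(b : B) - E.φ a, fun g => ?_⟩, ?_⟩
    · have h1 := E.φ_θ₀ hB b g
      rw [← ha, E.φ_d₀₁, d₀₁_hom_apply] at h1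
      rw [map_sub, sub_eq_sub_iff_add_eq_add]
      rw [sub_eq_sub_iff_add_eq_add] at h1
      exact h1.symm.trans (add_comm _ _)
    · apply Subtype.ext
      show E.ψ ((b : B) - E.φ a) = E.ψ (b : B)
      rw [map_sub, E.ψ_φ, sub_zero]
  · rintro ⟨b', hb'⟩
    have h0 : E.ψ ((b : B) - (b' : B)) = 0 := by
      rw [map_sub, sub_eq_zero]
      exact (congrArg Subtype.val hb').symm
    obtain ⟨a, ha⟩ := E.exists_of_ψ_eq_zero h0
    refine ⟨a, ?_⟩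
    ext g
    apply E.inj
    rw [E.φ_d₀₁, d₀₁_hom_apply, E.φ_θ₀, ha, map_sub, b'.2 g]
    abel

/-- Exactness at `H¹(A)`. -/
lemma exact_δ₀_H1φ (hB : 𝓛.Smooth B) : Function.Exact (E.δ₀ (𝓛 := 𝓛) hB) (E.H1φ 𝓛) := by
  intro x
  obtain ⟨z, rfl⟩ := LH1.mk_surjective x
  rw [H1φ_mk, LH1.mk_eq_zero_iff]
  constructor
  · rintro ⟨b, hb⟩
    have hb' : ∀ g, B.ρ g b - b = E.φ ((z : G → A) g) := fun g => by
      have := congrFun hb g
      rwa [d₀₁_hom_apply] at this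
    have hb₀ : b ∈ E.B₀ := by
      intro g
      show C.ρ g (E.ψ b) = E.ψ b
      rw [← E.hψ, ← sub_eq_zero, ← map_sub, hb' g, E.ψ_φ]
    refine ⟨E.π₀ ⟨b, hb₀⟩, ?_⟩
    rw [E.δ₀_apply]
    congr 1
    apply Subtype.ext
    funext g
    apply E.inj
    rw [E.φ_θ₀]
    exact hb' g
  · rintro ⟨c, hc⟩
    obtain ⟨b, rfl⟩ := E.π₀_surjective c
    rw [E.δ₀_apply] at hc
    have h0 : LH1.mk 𝓛 A (E.θ₀ hB b - z) = 0 := by rw [map_sub, hc, sub_self]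
    obtain ⟨a, ha⟩ := (LH1.mk_eq_zero_iff _).mp h0
    refine ⟨(b : B) - E.φ a, ?_⟩
    ext g
    have h1 : (d₀₁ A).hom a g = (E.θ₀ hB b : G → A) g - (z : G → A) g := congrFun ha g
    have h2 : (z : G → A) g = (E.θ₀ hB b : G → A) g - (d₀₁ A).hom a g := by
      rw [h1]; abel
    show (d₀₁ B).hom ((b : B) - E.φ a) g = E.φ ((z : G → A) g)
    rw [h2]
    have e1 : E.φ ((E.θ₀ hB b : G → A) g - (d₀₁ A).hom a g)
        = (B.ρ g (b : B) - (b : B)) - (B.ρ g (E.φ a) - E.φ a) := by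
      rw [map_sub, E.φ_θ₀, E.φ_d₀₁, d₀₁_hom_apply]
    rw [e1, d₀₁_hom_apply, map_sub]
    abel

/-- Exactness at `H¹(B)`. -/
lemma exact_H1φ_H1ψ (hB : 𝓛.Smooth B) : Function.Exact (E.H1φ 𝓛) (E.H1ψ 𝓛) := by
  intro y
  obtain ⟨w, rfl⟩ := LH1.mk_surjective y
  rw [H1ψ_mk, LH1.mk_eq_zero_iff]
  constructor
  · rintro ⟨c, hc⟩
    obtain ⟨b, rfl⟩ := E.surj c
    have hw' : ∀ g, E.ψ ((w : G → B) g - (d₀₁ B).hom b g) = 0 := fun g => by
      have h1 : (d₀₁ C).hom (E.ψ b) g = E.ψ ((w : G → B) g) := congrFun hc g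
      rw [map_sub, E.ψ_d₀₁, h1, sub_self]
    choose a ha using fun g => E.exists_of_ψ_eq_zero (hw' g)
    have hw'Z : (fun g => (w : G → B) g - (d₀₁ B).hom b g) ∈ Z1 𝓛 B :=
      (Z1 𝓛 B).sub_mem w.2 (hB.d₀₁_mem_Z1 b)
    have haZ : a ∈ Z1 𝓛 A := by
      constructor
      · apply E.mem_cocycles₁_of_comp
        rw [funext ha]
        exact hw'Z.1
      · apply Levels.Is₁.of_comp_injective E.inj
        show 𝓛.Is₁ (fun g => E.φ (a g))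
        rw [funext ha]
        exact hw'Z.2
    refine ⟨LH1.mk 𝓛 A ⟨a, haZ⟩, ?_⟩
    rw [H1φ_mk, ← sub_eq_zero, ← map_sub, LH1.mk_eq_zero_iff]
    refine ⟨-b, ?_⟩
    ext g
    show (d₀₁ B).hom (-b) g = E.φ (a g) - (w : G → B) g
    rw [ha g, map_neg]
    show -((d₀₁ B).hom b g) = ((w : G → B) g - (d₀₁ B).hom b g) - (w : G → B) g
    abel
  · rintro ⟨x, hx⟩
    obtain ⟨z, rfl⟩ := LH1.mk_surjective x
    rw [H1φ_mk] at hx
    have h0 : LH1.mk 𝓛 B (w - Z1map E.φ 𝓛.compat_id E.hφ z) = 0 := by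
      rw [map_sub, hx, sub_self]
    obtain ⟨b, hb⟩ := (LH1.mk_eq_zero_iff _).mp h0
    refine ⟨E.ψ b, ?_⟩
    ext g
    have h1 : (d₀₁ B).hom b g = (w : G → B) g - E.φ ((z : G → A) g) := congrFun hb g
    show (d₀₁ C).hom (E.ψ b) g = E.ψ ((w : G → B) g)
    rw [← E.ψ_d₀₁, h1, map_sub, E.ψ_φ, sub_zero]

/-- Exactness at `H¹(C)`. -/
lemma exact_H1ψ_δ₁ (hB : 𝓛.Smooth B) : Function.Exact (E.H1ψ 𝓛) (E.δ₁ (𝓛 := 𝓛) hB) := by
  intro z
  obtain ⟨c, rfl⟩ := LH1.mk_surjective z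
  obtain ⟨b, rfl⟩ := E.π₁_surjective c
  rw [E.δ₁_mk, LH2.mk_eq_zero_iff]
  constructor
  · rintro ⟨a, hal, ha⟩
    have hb'l : 𝓛.Is₁ (fun g => (b : G → B) g - E.φ (a g)) :=
      (E.B₁_is₁ b).map₂ (hal.comp E.φ) (· - ·)
    have hb'c : (fun g => (b : G → B) g - E.φ (a g)) ∈ cocycles₁ B := by
      rw [cocycles₁, LinearMap.mem_ker]
      ext x
      have h1 : (d₁₂ B).hom (fun g => (b : G → B) g - E.φ (a g)) x
          = (d₁₂ B).hom (b : G → B) x - (d₁₂ B).hom (fun g => E.φ (a g)) x := by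
        simp only [d₁₂_hom_apply, map_sub]
        abel
      rw [h1, ← E.φ_d₁₂, ha, E.φ_θ₁, sub_self]
      rfl
    refine ⟨LH1.mk 𝓛 B ⟨_, hb'c, hb'l⟩, ?_⟩
    rw [H1ψ_mk]
    congr 1
    apply Subtype.ext
    funext g
    show E.ψ ((b : G → B) g - E.φ (a g)) = E.ψ ((b : G → B) g)
    rw [map_sub, E.ψ_φ, sub_zero]
  · rintro ⟨y, hy⟩
    obtain ⟨w, rfl⟩ := LH1.mk_surjective y
    rw [H1ψ_mk] at hy
    have h0 : LH1.mk 𝓛 C (E.π₁ b - Z1map E.ψ 𝓛.compat_id E.hψ w) = 0 := by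
      rw [map_sub, hy, sub_self]
    obtain ⟨c₀, hc₀⟩ := (LH1.mk_eq_zero_iff _).mp h0
    obtain ⟨b₀, rfl⟩ := E.surj c₀
    have hker : ∀ g, E.ψ ((b : G → B) g - (w : G → B) g - (d₀₁ B).hom b₀ g) = 0 := fun g => by
      have h1 : (d₀₁ C).hom (E.ψ b₀) g = E.ψ ((b : G → B) g) - E.ψ ((w : G → B) g) :=
        congrFun hc₀ g
      rw [map_sub, map_sub, E.ψ_d₀₁, h1, sub_self]
    choose a ha using fun g => E.exists_of_ψ_eq_zero (hker g)
    have hal : 𝓛.Is₁ a := by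
      apply Levels.Is₁.of_comp_injective E.inj
      show 𝓛.Is₁ (fun g => E.φ (a g))
      rw [funext ha]
      exact ((E.B₁_is₁ b).map₂ w.2.2 (· - ·)).map₂ (hB.is₁_d₀₁ b₀) (· - ·)
    refine ⟨a, hal, ?_⟩
    ext x
    apply E.inj
    rw [E.φ_d₁₂, funext ha, E.φ_θ₁]
    have hw : (d₁₂ B).hom (w : G → B) = 0 := by
      have : (w : G → B) ∈ cocycles₁ B := w.2.1
      rwa [cocycles₁, LinearMap.mem_ker] at this
    have hd : (d₁₂ B).hom ((d₀₁ B).hom b₀) = 0 := by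
      have := d₀₁_apply_mem_cocycles₁ (A := B) b₀
      rwa [cocycles₁, LinearMap.mem_ker] at this
    have h2 : (fun g => (b : G → B) g - (w : G → B) g - (d₀₁ B).hom b₀ g)
        = (b : G → B) - (w : G → B) - (d₀₁ B).hom b₀ := rfl
    rw [h2, map_sub, map_sub, hw, hd, sub_zero, sub_zero]

/-- Exactness at `H²(A)`. -/
lemma exact_δ₁_H2φ (hB : 𝓛.Smooth B) : Function.Exact (E.δ₁ (𝓛 := 𝓛) hB) (E.H2φ 𝓛) := by
  intro x
  obtain ⟨z, rfl⟩ := LH2.mk_surjective x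
  rw [H2φ_mk, LH2.mk_eq_zero_iff]
  constructor
  · rintro ⟨b, hbl, hb⟩
    have hb' : ∀ x, (d₁₂ B).hom b x = E.φ ((z : G × G → A) x) := fun x => congrFun hb x
    have hbB : b ∈ E.B₁ 𝓛 := by
      refine ⟨hbl, ?_⟩
      show (fun g => E.ψ (b g)) ∈ cocycles₁ C
      rw [cocycles₁, LinearMap.mem_ker]
      ext x
      rw [← E.ψ_d₁₂, hb' x, E.ψ_φ]
      rfl
    refine ⟨LH1.mk 𝓛 C (E.π₁ ⟨b, hbB⟩), ?_⟩
    rw [E.δ₁_mk]
    congr 1
    apply Subtype.ext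
    funext x
    apply E.inj
    rw [E.φ_θ₁]
    exact hb' x
  · rintro ⟨y, hy⟩
    obtain ⟨c, rfl⟩ := LH1.mk_surjective y
    obtain ⟨b, rfl⟩ := E.π₁_surjective c
    rw [E.δ₁_mk] at hy
    have h0 : LH2.mk 𝓛 A (z - E.θ₁ hB b) = 0 := by rw [map_sub, hy, sub_self]
    obtain ⟨a, hal, ha⟩ := (LH2.mk_eq_zero_iff _).mp h0
    refine ⟨fun g => (b : G → B) g + E.φ (a g), (E.B₁_is₁ b).map₂ (hal.comp E.φ) (· + ·), ?_⟩
    ext x
    have h1 : (d₁₂ A).hom a x = (z : G × G → A) x - (E.θ₁ hB b : G × G → A) x := congrFun ha x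
    have h2 : (d₁₂ B).hom (fun g => (b : G → B) g + E.φ (a g)) x
        = (d₁₂ B).hom (b : G → B) x + (d₁₂ B).hom (fun g => E.φ (a g)) x := by
      simp only [d₁₂_hom_apply, map_add]
      abel
    show (d₁₂ B).hom (fun g => (b : G → B) g + E.φ (a g)) x = E.φ ((z : G × G → A) x)
    rw [h2, ← E.φ_d₁₂, h1, map_sub, E.φ_θ₁]
    abel

/-- Exactness at `H²(B)`. -/
lemma exact_H2φ_H2ψ (hB : 𝓛.Smooth B) : Function.Exact (E.H2φ 𝓛) (E.H2ψ 𝓛) := by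
  intro y
  obtain ⟨w, rfl⟩ := LH2.mk_surjective y
  rw [H2ψ_mk, LH2.mk_eq_zero_iff]
  constructor
  · rintro ⟨c, hcl, hc⟩
    have hψ : ∀ g, E.ψ (Function.surjInv E.surj (c g)) = c g :=
      fun g => Function.surjInv_eq E.surj (c g)
    have hbl : 𝓛.Is₁ (Function.surjInv E.surj ∘ c) := hcl.comp _
    obtain ⟨b, hb⟩ : ∃ b : G → B, b = Function.surjInv E.surj ∘ c := ⟨_, rfl⟩
    rw [← hb] at hbl
    have hψb : (fun g => E.ψ (b g)) = c := by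
      rw [hb]
      exact funext hψ
    have hw' : ∀ x, E.ψ ((w : G × G → B) x - (d₁₂ B).hom b x) = 0 := fun x => by
      have h1 : (d₁₂ C).hom c x = E.ψ ((w : G × G → B) x) := congrFun hc x
      rw [map_sub, E.ψ_d₁₂, hψb, h1, sub_self]
    choose a ha using fun x => E.exists_of_ψ_eq_zero (hw' x)
    have hw'Z : (fun x => (w : G × G → B) x - (d₁₂ B).hom b x) ∈ Z2 𝓛 B :=
      (Z2 𝓛 B).sub_mem w.2 (hB.d₁₂_mem_Z2 hbl)
    have haZ : a ∈ Z2 𝓛 A := by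
      constructor
      · apply E.mem_cocycles₂_of_comp
        rw [funext ha]
        exact hw'Z.1
      · apply Levels.Is₂.of_comp_injective E.inj
        show 𝓛.Is₂ (fun x => E.φ (a x))
        rw [funext ha]
        exact hw'Z.2
    refine ⟨LH2.mk 𝓛 A ⟨a, haZ⟩, ?_⟩
    rw [H2φ_mk, ← sub_eq_zero, ← map_sub, LH2.mk_eq_zero_iff]
    refine ⟨-b, hbl.comp (fun v => -v), ?_⟩
    ext x
    show (d₁₂ B).hom (-b) x = E.φ (a x) - (w : G × G → B) x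
    rw [ha x, map_neg]
    show -((d₁₂ B).hom b x) = ((w : G × G → B) x - (d₁₂ B).hom b x) - (w : G × G → B) x
    abel
  · rintro ⟨x, hx⟩
    obtain ⟨z, rfl⟩ := LH2.mk_surjective x
    rw [H2φ_mk] at hx
    have h0 : LH2.mk 𝓛 B (w - Z2map E.φ 𝓛.compat_id E.hφ z) = 0 := by
      rw [map_sub, hx, sub_self]
    obtain ⟨b, hbl, hb⟩ := (LH2.mk_eq_zero_iff _).mp h0
    refine ⟨fun g => E.ψ (b g), hbl.comp E.ψ, ?_⟩
    ext x
    have h1 : (d₁₂ B).hom b x = (w : G × G → B) x - E.φ ((z : G × G → A) x) := congrFun hb x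
    show (d₁₂ C).hom (fun g => E.ψ (b g)) x = E.ψ ((w : G × G → B) x)
    rw [← E.ψ_d₁₂, h1, map_sub, E.ψ_φ, sub_zero]

end SES

end LES

section Naturality

variable {k G H : Type u} [CommRing k] [Group G] [Group H]

/-- A morphism of short exact sequences over a group homomorphism `f : G →* H`
(from a sequence of `H`-modules to a sequence of `G`-modules). -/
structure SES.Hom {A B C : Rep.{u, u, u} k H} {A' B' C' : Rep.{u, u, u} k G}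
    (E : SES A B C) (E' : SES A' B' C') (f : G →* H) where
  /-- the map on sub-objects -/
  α : A →ₗ[k] A'
  /-- the map on middle terms -/
  β : B →ₗ[k] B'
  /-- the map on quotients -/
  γ : C →ₗ[k] C'
  hα : ∀ (g : G) (a : A), α (A.ρ (f g) a) = A'.ρ g (α a)
  hβ : ∀ (g : G) (b : B), β (B.ρ (f g) b) = B'.ρ g (β b)
  hγ : ∀ (g : G) (c : C), γ (C.ρ (f g) c) = C'.ρ g (γ c)
  comm₁ : ∀ a : A, β (E.φ a) = E'.φ (α a)
  comm₂ : ∀ b : B, γ (E.ψ b) = E'.ψ (β b)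

namespace SES.Hom

variable {A B C : Rep.{u, u, u} k H} {A' B' C' : Rep.{u, u, u} k G}
  {E : SES A B C} {E' : SES A' B' C'} {f : G →* H} (F : E.Hom E' f)
  {𝓛G : Levels G} {𝓛H : Levels H}

lemma H0φ_comm (a : ↥(A.ρ.invariants)) :
    invMap F.β f F.hβ (E.H0φ a) = E'.H0φ (invMap F.α f F.hα a) :=
  Subtype.ext (F.comm₁ _)

lemma H0ψ_comm (b : ↥(B.ρ.invariants)) :
    invMap F.γ f F.hγ (E.H0ψ b) = E'.H0ψ (invMap F.β f F.hβ b) :=
  Subtype.ext (F.comm₂ _)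

lemma H1φ_comm (hc : 𝓛G.Compat 𝓛H f) (x : LH1 𝓛H A) :
    LH1map F.β hc F.hβ (E.H1φ 𝓛H x) = E'.H1φ 𝓛G (LH1map F.α hc F.hα x) := by
  obtain ⟨z, rfl⟩ := LH1.mk_surjective x
  rw [SES.H1φ_mk, LH1map_mk, LH1map_mk, SES.H1φ_mk]
  congr 1
  apply Subtype.ext
  funext g
  exact F.comm₁ _

lemma H1ψ_comm (hc : 𝓛G.Compat 𝓛H f) (x : LH1 𝓛H B) :
    LH1map F.γ hc F.hγ (E.H1ψ 𝓛H x) = E'.H1ψ 𝓛G (LH1map F.β hc F.hβ x) := by
  obtain ⟨z, rfl⟩ := LH1.mk_surjective x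
  rw [SES.H1ψ_mk, LH1map_mk, LH1map_mk, SES.H1ψ_mk]
  congr 1
  apply Subtype.ext
  funext g
  exact F.comm₂ _

lemma H2φ_comm (hc : 𝓛G.Compat 𝓛H f) (x : LH2 𝓛H A) :
    LH2map F.β hc F.hβ (E.H2φ 𝓛H x) = E'.H2φ 𝓛G (LH2map F.α hc F.hα x) := by
  obtain ⟨z, rfl⟩ := LH2.mk_surjective x
  rw [SES.H2φ_mk, LH2map_mk, LH2map_mk, SES.H2φ_mk]
  congr 1
  apply Subtype.ext
  funext g
  exact F.comm₁ _

lemma H2ψ_comm (hc : 𝓛G.Compat 𝓛H f) (x : LH2 𝓛H B) :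
    LH2map F.γ hc F.hγ (E.H2ψ 𝓛H x) = E'.H2ψ 𝓛G (LH2map F.β hc F.hβ x) := by
  obtain ⟨z, rfl⟩ := LH2.mk_surjective x
  rw [SES.H2ψ_mk, LH2map_mk, LH2map_mk, SES.H2ψ_mk]
  congr 1
  apply Subtype.ext
  funext g
  exact F.comm₂ _

/-- Naturality of `δ⁰`. -/
lemma δ₀_comm (hc : 𝓛G.Compat 𝓛H f) (hB : 𝓛H.Smooth B) (hB' : 𝓛G.Smooth B')
    (c : ↥(C.ρ.invariants)) :
    E'.δ₀ hB' (invMap F.γ f F.hγ c) = LH1map F.α hc F.hα (E.δ₀ hB c) := by
  obtain ⟨b, rfl⟩ := E.π₀_surjective c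
  have hb' : F.β (b : B) ∈ E'.B₀ := by
    intro g
    show C'.ρ g (E'.ψ (F.β (b : B))) = E'.ψ (F.β (b : B))
    rw [← F.comm₂, ← F.hγ]
    exact congrArg F.γ (b.2 (f g))
  have e : invMap F.γ f F.hγ (E.π₀ b) = E'.π₀ ⟨F.β (b : B), hb'⟩ :=
    Subtype.ext (F.comm₂ _)
  rw [e, E'.δ₀_apply, E.δ₀_apply, LH1map_mk]
  congr 1
  apply Subtype.ext
  funext g
  apply E'.inj
  rw [E'.φ_θ₀]
  show B'.ρ g (F.β (b : B)) - F.β (b : B) = E'.φ (F.α ((E.θ₀ hB b : H → A) (f g)))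
  rw [← F.comm₁, E.φ_θ₀, map_sub, F.hβ]

/-- Naturality of `δ¹`. -/
lemma δ₁_comm (hc : 𝓛G.Compat 𝓛H f) (hB : 𝓛H.Smooth B) (hB' : 𝓛G.Smooth B')
    (x : LH1 𝓛H C) :
    E'.δ₁ hB' (LH1map F.γ hc F.hγ x) = LH2map F.α hc F.hα (E.δ₁ hB x) := by
  obtain ⟨c, rfl⟩ := LH1.mk_surjective x
  obtain ⟨b, rfl⟩ := E.π₁_surjective c
  have hb'c : (fun g => E'.ψ (cochainsPullPush₁ f F.β (b : H → B) g)) ∈ cocycles₁ C' := by
    have h1 : (fun g => E'.ψ (cochainsPullPush₁ f F.β (b : H → B) g))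
        = cochainsPullPush₁ f F.γ (fun h => E.ψ ((b : H → B) h)) := by
      funext g
      exact (F.comm₂ _).symm
    rw [h1]
    exact cochainsPullPush₁_mem_cocycles₁ F.γ F.hγ (E.B₁_cocycle b)
  have hb' : cochainsPullPush₁ f F.β (b : H → B) ∈ E'.B₁ 𝓛G :=
    ⟨(hc.is₁ (E.B₁_is₁ b)).comp F.β, hb'c⟩
  have e : Z1map F.γ hc F.hγ (E.π₁ b) = E'.π₁ ⟨_, hb'⟩ := by
    apply Subtype.ext
    funext g
    exact F.comm₂ _
  rw [LH1map_mk, e, E'.δ₁_mk, E.δ₁_mk, LH2map_mk]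
  congr 1
  apply Subtype.ext
  funext x
  apply E'.inj
  rw [E'.φ_θ₁]
  show (d₁₂ B').hom (cochainsPullPush₁ f F.β (b : H → B)) x
    = E'.φ (F.α ((E.θ₁ hB b : H × H → A) (f x.1, f x.2)))
  rw [← F.comm₁, E.φ_θ₁, ← cochainsPullPush₂_d₁₂ f F.β F.hβ]
  rfl

end SES.Hom

end Naturality

section Dimension

variable {k : Type*} [Field k] {X Y Z : Type*} [AddCommGroup X] [Module k X]
  [AddCommGroup Y] [Module k Y] [AddCommGroup Z] [Module k Z]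

/-- Rank–nullity along an exact pair. -/
lemma finrank_eq_add_of_exact [FiniteDimensional k Y] {f : X →ₗ[k] Y} {g : Y →ₗ[k] Z}
    (h : Function.Exact f g) :
    Module.finrank k Y = Module.finrank k (LinearMap.range f)
      + Module.finrank k (LinearMap.range g) := by
  have h1 := LinearMap.finrank_range_add_finrank_ker g
  rw [LinearMap.exact_iff.mp h] at h1
  omega

end Dimension

section Euler

variable {k G : Type u} [Field k] [Group G]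

/-- The truncated Euler characteristic `h⁰ - h¹ + h²` of the level cohomology. -/
def chi (𝓛 : Levels G) (A : Rep.{u, u, u} k G) : ℤ :=
  (Module.finrank k ↥(A.ρ.invariants) : ℤ) - Module.finrank k (LH1 𝓛 A)
    + Module.finrank k (LH2 𝓛 A)

variable {A B C : Rep.{u, u, u} k G} {𝓛 : Levels G}

/-- The defect of additivity of the truncated Euler characteristic is the corank of
`H²(B) → H²(C)`. -/
theorem SES.chi_add_eq (E : SES A B C) (hB : 𝓛.Smooth B)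
    [FiniteDimensional k ↥(B.ρ.invariants)] [FiniteDimensional k ↥(C.ρ.invariants)]
    [FiniteDimensional k (LH1 𝓛 A)] [FiniteDimensional k (LH1 𝓛 B)]
    [FiniteDimensional k (LH1 𝓛 C)] [FiniteDimensional k (LH2 𝓛 A)]
    [FiniteDimensional k (LH2 𝓛 B)] :
    chi 𝓛 A + chi 𝓛 C = chi 𝓛 B + ((Module.finrank k (LH2 𝓛 C) : ℤ)
      - Module.finrank k (LinearMap.range (E.H2ψ 𝓛))) := by
  have e0 : Module.finrank k (LinearMap.range E.H0φ) = Module.finrank k ↥(A.ρ.invariants) :=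
    LinearMap.finrank_range_of_inj E.H0φ_injective
  have e1 := finrank_eq_add_of_exact E.exact_H0φ_H0ψ
  have e2 := finrank_eq_add_of_exact (E.exact_H0ψ_δ₀ (𝓛 := 𝓛) hB)
  have e3 := finrank_eq_add_of_exact (E.exact_δ₀_H1φ (𝓛 := 𝓛) hB)
  have e4 := finrank_eq_add_of_exact (E.exact_H1φ_H1ψ (𝓛 := 𝓛) hB)
  have e5 := finrank_eq_add_of_exact (E.exact_H1ψ_δ₁ (𝓛 := 𝓛) hB)
  have e6 := finrank_eq_add_of_exact (E.exact_δ₁_H2φ (𝓛 := 𝓛) hB)
  have e7 := finrank_eq_add_of_exact (E.exact_H2φ_H2ψ (𝓛 := 𝓛) hB)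
  simp only [chi]
  omega

/-- Subadditivity of the truncated Euler characteristic. -/
theorem SES.chi_le (E : SES A B C) (hB : 𝓛.Smooth B)
    [FiniteDimensional k ↥(B.ρ.invariants)] [FiniteDimensional k ↥(C.ρ.invariants)]
    [FiniteDimensional k (LH1 𝓛 A)] [FiniteDimensional k (LH1 𝓛 B)]
    [FiniteDimensional k (LH1 𝓛 C)] [FiniteDimensional k (LH2 𝓛 A)]
    [FiniteDimensional k (LH2 𝓛 B)] [FiniteDimensional k (LH2 𝓛 C)] :
    chi 𝓛 B ≤ chi 𝓛 A + chi 𝓛 C := by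
  have h := E.chi_add_eq (𝓛 := 𝓛) hB
  have h2 : Module.finrank k (LinearMap.range (E.H2ψ 𝓛)) ≤ Module.finrank k (LH2 𝓛 C) :=
    Submodule.finrank_le _
  omega

/-- Additivity of the truncated Euler characteristic when `H²(B) → H²(C)` is onto. -/
theorem SES.chi_eq_of_surjective (E : SES A B C) (hB : 𝓛.Smooth B)
    [FiniteDimensional k ↥(B.ρ.invariants)] [FiniteDimensional k ↥(C.ρ.invariants)]
    [FiniteDimensional k (LH1 𝓛 A)] [FiniteDimensional k (LH1 𝓛 B)]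
    [FiniteDimensional k (LH1 𝓛 C)] [FiniteDimensional k (LH2 𝓛 A)]
    [FiniteDimensional k (LH2 𝓛 B)] (hsurj : Function.Surjective (E.H2ψ 𝓛)) :
    chi 𝓛 B = chi 𝓛 A + chi 𝓛 C := by
  have h := E.chi_add_eq (𝓛 := 𝓛) hB
  have h2 : Module.finrank k (LinearMap.range (E.H2ψ 𝓛)) = Module.finrank k (LH2 𝓛 C) := by
    rw [LinearMap.range_eq_top.mpr hsurj, finrank_top]
  omega

end Euler

/-! ### Consumer-facing constructors and corollaries -/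

section Constructors

variable {k G H : Type u} [CommRing k] [Group G] [Group H]

/-- A short exact sequence from morphisms of representations. -/
def SES.ofHom {A B C : Rep.{u, u, u} k G} (f : A ⟶ B) (g : B ⟶ C)
    (hf : Function.Injective f.hom) (hg : Function.Surjective g.hom)
    (hex : Function.Exact f.hom g.hom) : SES A B C where
  φ := f.hom.toLinearMap
  ψ := g.hom.toLinearMap
  hφ := fun s a => Rep.hom_comm_apply f s a
  hψ := fun s b => Rep.hom_comm_apply g s b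
  inj := hf
  surj := hg
  exact := hex

/-- Restriction of a short exact sequence along a group homomorphism. -/
def SES.res {A B C : Rep.{u, u, u} k H} (E : SES A B C) (f : G →* H) :
    SES (Rep.res f A) (Rep.res f B) (Rep.res f C) where
  φ := E.φ
  ψ := E.ψ
  hφ := fun g a => E.hφ (f g) a
  hψ := fun g b => E.hψ (f g) b
  inj := E.inj
  surj := E.surj
  exact := E.exact

/-- The tautological morphism from a short exact sequence to its restriction. -/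
def SES.resHom {A B C : Rep.{u, u, u} k H} (E : SES A B C) (f : G →* H) :
    E.Hom (E.res f) f where
  α := LinearMap.id
  β := LinearMap.id
  γ := LinearMap.id
  hα := fun _ _ => rfl
  hβ := fun _ _ => rfl
  hγ := fun _ _ => rfl
  comm₁ := fun _ => rfl
  comm₂ := fun _ => rfl

end Constructors

section Formulas

variable {k G : Type u} [CommRing k] [Group G] {A B C : Rep.{u, u, u} k G} (E : SES A B C)
  {𝓛 : Levels G}

/-- Cocycle formula for `δ⁰`: if `b` lifts the invariant `c` and `φ (z g) = g b - b`, then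
`δ⁰ c` is the class of `z`. -/
lemma SES.δ₀_eq_mk (hB : 𝓛.Smooth B) (c : ↥(C.ρ.invariants)) (b : B) (hb : E.ψ b = (c : C))
    (z : ↥(Z1 𝓛 A)) (hz : ∀ g, E.φ ((z : G → A) g) = B.ρ g b - b) :
    E.δ₀ hB c = LH1.mk 𝓛 A z := by
  have hb₀ : b ∈ E.B₀ := by
    intro g
    show C.ρ g (E.ψ b) = E.ψ b
    rw [hb]
    exact c.2 g
  have e : c = E.π₀ ⟨b, hb₀⟩ := Subtype.ext hb.symm
  rw [e, E.δ₀_apply]
  congr 1
  apply Subtype.ext
  funext g
  apply E.inj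
  rw [E.φ_θ₀, hz]

/-- Cocycle formula for `δ¹`: if the level cochain `b` lifts the cocycle `c` and
`φ ∘ z = d b`, then `δ¹ [c]` is the class of `z`. -/
lemma SES.δ₁_eq_mk (hB : 𝓛.Smooth B) (c : ↥(Z1 𝓛 C)) (b : G → B) (hbl : 𝓛.Is₁ b)
    (hb : ∀ g, E.ψ (b g) = (c : G → C) g)
    (z : ↥(Z2 𝓛 A)) (hz : ∀ x, E.φ ((z : G × G → A) x) = (d₁₂ B).hom b x) :
    E.δ₁ hB (LH1.mk 𝓛 C c) = LH2.mk 𝓛 A z := by
  have hbB : b ∈ E.B₁ 𝓛 := by
    refine ⟨hbl, ?_⟩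
    show (fun g => E.ψ (b g)) ∈ cocycles₁ C
    rw [funext hb]
    exact c.2.1
  have e : c = E.π₁ ⟨b, hbB⟩ := by
    apply Subtype.ext
    funext g
    exact (hb g).symm
  rw [e, E.δ₁_mk]
  congr 1
  apply Subtype.ext
  funext x
  apply E.inj
  rw [E.φ_θ₁, hz]

/-- If the sequence has an equivariant section, `H²(B) → H²(C)` is onto. -/
lemma SES.H2ψ_surjective_of_section (s : C →ₗ[k] B)
    (hs : ∀ (g : G) (c : C), s (C.ρ g c) = B.ρ g (s c)) (hψs : ∀ c, E.ψ (s c) = c) :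
    Function.Surjective (E.H2ψ 𝓛) := by
  intro x
  obtain ⟨w, rfl⟩ := LH2.mk_surjective x
  refine ⟨LH2map s 𝓛.compat_id hs (LH2.mk 𝓛 C w), ?_⟩
  rw [LH2map_mk, SES.H2ψ_mk]
  congr 1
  apply Subtype.ext
  funext x
  exact hψs _

/-- If the sequence has an equivariant section, `H¹(B) → H¹(C)` is onto. -/
lemma SES.H1ψ_surjective_of_section (s : C →ₗ[k] B)
    (hs : ∀ (g : G) (c : C), s (C.ρ g c) = B.ρ g (s c)) (hψs : ∀ c, E.ψ (s c) = c) :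
    Function.Surjective (E.H1ψ 𝓛) := by
  intro x
  obtain ⟨w, rfl⟩ := LH1.mk_surjective x
  refine ⟨LH1map s 𝓛.compat_id hs (LH1.mk 𝓛 C w), ?_⟩
  rw [LH1map_mk, SES.H1ψ_mk]
  congr 1
  apply Subtype.ext
  funext x
  exact hψs _

end Formulas

section Congr

variable {k G : Type u} [CommRing k] [Group G] {A B : Rep.{u, u, u} k G} (𝓛 : Levels G)

/-- An equivariant linear equivalence induces an equivalence on invariants. -/
def invCongr (e : A ≃ₗ[k] B) (he : ∀ (g : G) (a : A), e (A.ρ g a) = B.ρ g (e a)) :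
    ↥(A.ρ.invariants) ≃ₗ[k] ↥(B.ρ.invariants) :=
  LinearEquiv.ofLinearMap (invMap e.toLinearMap (MonoidHom.id G) he)
    (invMap e.symm.toLinearMap (MonoidHom.id G) (fun g b => by
      apply e.injective
      show e (e.symm (B.ρ g b)) = e (A.ρ g (e.symm b))
      rw [he, e.apply_symm_apply, e.apply_symm_apply]))
    (by
      ext b
      exact e.apply_symm_apply _)
    (by
      ext a
      exact e.symm_apply_apply _)

/-- An equivariant linear equivalence induces an equivalence on level `H¹`. -/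
def LH1congr (e : A ≃ₗ[k] B) (he : ∀ (g : G) (a : A), e (A.ρ g a) = B.ρ g (e a)) :
    LH1 𝓛 A ≃ₗ[k] LH1 𝓛 B :=
  LinearEquiv.ofLinearMap (LH1map e.toLinearMap 𝓛.compat_id he)
    (LH1map e.symm.toLinearMap 𝓛.compat_id (fun g b => by
      apply e.injective
      show e (e.symm (B.ρ g b)) = e (A.ρ g (e.symm b))
      rw [he, e.apply_symm_apply, e.apply_symm_apply]))
    (by
      apply LinearMap.ext
      intro x
      obtain ⟨z, rfl⟩ := LH1.mk_surjective x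
      show LH1.mk 𝓛 B _ = LH1.mk 𝓛 B z
      congr 1
      apply Subtype.ext
      funext g
      exact e.apply_symm_apply _)
    (by
      apply LinearMap.ext
      intro x
      obtain ⟨z, rfl⟩ := LH1.mk_surjective x
      show LH1.mk 𝓛 A _ = LH1.mk 𝓛 A z
      congr 1
      apply Subtype.ext
      funext g
      exact e.symm_apply_apply _)

/-- An equivariant linear equivalence induces an equivalence on level `H²`. -/
def LH2congr (e : A ≃ₗ[k] B) (he : ∀ (g : G) (a : A), e (A.ρ g a) = B.ρ g (e a)) :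
    LH2 𝓛 A ≃ₗ[k] LH2 𝓛 B :=
  LinearEquiv.ofLinearMap (LH2map e.toLinearMap 𝓛.compat_id he)
    (LH2map e.symm.toLinearMap 𝓛.compat_id (fun g b => by
      apply e.injective
      show e (e.symm (B.ρ g b)) = e (A.ρ g (e.symm b))
      rw [he, e.apply_symm_apply, e.apply_symm_apply]))
    (by
      apply LinearMap.ext
      intro x
      obtain ⟨z, rfl⟩ := LH2.mk_surjective x
      show LH2.mk 𝓛 B _ = LH2.mk 𝓛 B z
      congr 1
      apply Subtype.ext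
      funext g
      exact e.apply_symm_apply _)
    (by
      apply LinearMap.ext
      intro x
      obtain ⟨z, rfl⟩ := LH2.mk_surjective x
      show LH2.mk 𝓛 A _ = LH2.mk 𝓛 A z
      congr 1
      apply Subtype.ext
      funext g
      exact e.symm_apply_apply _)

instance LH1.subsingleton [Subsingleton A] : Subsingleton (LH1 𝓛 A) :=
  ⟨fun x y => by
    obtain ⟨z, rfl⟩ := LH1.mk_surjective x
    obtain ⟨w, rfl⟩ := LH1.mk_surjective y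
    congr 1
    apply Subtype.ext
    funext g
    exact Subsingleton.elim _ _⟩

instance LH2.subsingleton [Subsingleton A] : Subsingleton (LH2 𝓛 A) :=
  ⟨fun x y => by
    obtain ⟨z, rfl⟩ := LH2.mk_surjective x
    obtain ⟨w, rfl⟩ := LH2.mk_surjective y
    congr 1
    apply Subtype.ext
    funext g
    exact Subsingleton.elim _ _⟩

end Congr

section EulerCongr

variable {k G : Type u} [Field k] [Group G] {A B C : Rep.{u, u, u} k G} {𝓛 : Levels G}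

/-- The Euler characteristic is invariant under equivariant linear equivalences. -/
lemma chi_congr (e : A ≃ₗ[k] B) (he : ∀ (g : G) (a : A), e (A.ρ g a) = B.ρ g (e a)) :
    chi 𝓛 A = chi 𝓛 B := by
  simp only [chi]
  rw [(invCongr e he).finrank_eq, (LH1congr 𝓛 e he).finrank_eq, (LH2congr 𝓛 e he).finrank_eq]

/-- The Euler characteristic of a zero module vanishes. -/
lemma chi_of_subsingleton [Subsingleton A] : chi 𝓛 A = 0 := by
  have h0 : Module.finrank k ↥(A.ρ.invariants) = 0 := Module.finrank_zero_of_subsingleton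
  have h1 : Module.finrank k (LH1 𝓛 A) = 0 := Module.finrank_zero_of_subsingleton
  have h2 : Module.finrank k (LH2 𝓛 A) = 0 := Module.finrank_zero_of_subsingleton
  simp only [chi, h0, h1, h2]
  rfl

/-- Additivity of the truncated Euler characteristic along a split sequence. -/
theorem SES.chi_eq_of_section (E : SES A B C) (hB : 𝓛.Smooth B)
    [FiniteDimensional k ↥(B.ρ.invariants)] [FiniteDimensional k ↥(C.ρ.invariants)]
    [FiniteDimensional k (LH1 𝓛 A)] [FiniteDimensional k (LH1 𝓛 B)]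
    [FiniteDimensional k (LH1 𝓛 C)] [FiniteDimensional k (LH2 𝓛 A)]
    [FiniteDimensional k (LH2 𝓛 B)] (s : C →ₗ[k] B)
    (hs : ∀ (g : G) (c : C), s (C.ρ g c) = B.ρ g (s c)) (hψs : ∀ c, E.ψ (s c) = c) :
    chi 𝓛 B = chi 𝓛 A + chi 𝓛 C :=
  E.chi_eq_of_surjective hB (E.H2ψ_surjective_of_section s hs hψs)

end EulerCongr

/-! ### Pull-back of a level system -/

section Comap

variable {G H : Type u} [Group G] [Group H]

/-- Pull back a level system along a group homomorphism: the levels are the preimages of the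
levels.  (The frozen local carriers are of this form.) -/
def Levels.comap (𝓛 : Levels H) (r : G →* H) : Levels G where
  P U := ∃ V, 𝓛.P V ∧ U = V.comap r
  nonempty := by
    obtain ⟨V, hV⟩ := 𝓛.nonempty
    exact ⟨_, V, hV, rfl⟩
  inf := by
    rintro _ _ ⟨V, hV, rfl⟩ ⟨V', hV', rfl⟩
    obtain ⟨W, hW, h1, h2⟩ := 𝓛.inf V V' hV hV'
    exact ⟨_, ⟨W, hW, rfl⟩, Subgroup.comap_mono h1, Subgroup.comap_mono h2⟩
  normal := by
    rintro _ ⟨V, hV, rfl⟩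
    obtain ⟨W, hW, h1, hn⟩ := 𝓛.normal V hV
    exact ⟨_, ⟨W, hW, rfl⟩, Subgroup.comap_mono h1, hn.comap r⟩
  finite := by
    rintro _ ⟨V, hV, rfl⟩
    have hfin : V.FiniteIndex := Subgroup.finiteIndex_iff_finite_quotient.mpr (𝓛.finite V hV)
    rw [← Subgroup.finiteIndex_iff_finite_quotient]
    constructor
    rw [Subgroup.index_comap]
    exact (Subgroup.isFiniteRelIndex_of_finiteIndex (H := V)).relIndex_ne_zero

lemma Levels.comap_compat (𝓛 : Levels H) (r : G →* H) : (𝓛.comap r).Compat 𝓛 r :=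
  fun U hU => ⟨_, ⟨U, hU, rfl⟩, le_rfl⟩

lemma Levels.comap_is₁_iff (𝓛 : Levels H) (r : G →* H) {X : Type*} (f : G → X) :
    (𝓛.comap r).Is₁ f ↔ ∃ V, 𝓛.P V ∧ ∀ g s, r s ∈ V → f (g * s) = f g := by
  constructor
  · rintro ⟨_, ⟨V, hV, rfl⟩, h⟩
    exact ⟨V, hV, h⟩
  · rintro ⟨V, hV, h⟩
    exact ⟨_, ⟨V, hV, rfl⟩, h⟩

lemma Levels.comap_is₂_iff (𝓛 : Levels H) (r : G →* H) {X : Type*} (f : G × G → X) :
    (𝓛.comap r).Is₂ f ↔
      ∃ V, 𝓛.P V ∧ ∀ g g' s s', r s ∈ V → r s' ∈ V → f (g * s, g' * s') = f (g, g') := by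
  constructor
  · rintro ⟨_, ⟨V, hV, rfl⟩, h⟩
    exact ⟨V, hV, h⟩
  · rintro ⟨V, hV, h⟩
    exact ⟨_, ⟨V, hV, rfl⟩, h⟩

/-- Restriction of a smooth module along `r` is smooth for the pulled-back levels. -/
lemma Levels.Smooth.res {k : Type u} [CommRing k] {𝓛 : Levels H} {A : Rep.{u, u, u} k H}
    (hA : 𝓛.Smooth A) (r : G →* H) : (𝓛.comap r).Smooth (Rep.res r A) := by
  intro a
  obtain ⟨V, hV, h⟩ := hA a
  exact ⟨_, ⟨V, hV, rfl⟩, fun s hs => h (r s) hs⟩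

/-- Smoothness is inherited along compatible level systems. -/
lemma Levels.Smooth.of_compat {k : Type u} [CommRing k] {𝓛G : Levels G} {𝓛H : Levels H}
    {A : Rep.{u, u, u} k H} (hA : 𝓛H.Smooth A) {r : G →* H} (hc : 𝓛G.Compat 𝓛H r) :
    𝓛G.Smooth (Rep.res r A) := by
  intro a
  obtain ⟨V, hV, h⟩ := hA a
  obtain ⟨W, hW, hWV⟩ := hc V hV
  exact ⟨W, hW, fun s hs => h (r s) (hWV hs)⟩

end Comap

/-! ### Restriction maps and localisation of the long exact sequence -/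

section Restriction

variable {k G H : Type u} [CommRing k] [Group G] [Group H]
  {𝓛G : Levels G} {𝓛H : Levels H} {r : G →* H}

/-- The identity map, viewed as a map to the restricted representation. -/
def resId (r : G →* H) (A : Rep.{u, u, u} k H) : A →ₗ[k] Rep.res r A := LinearMap.id

lemma resId_comm (r : G →* H) (A : Rep.{u, u, u} k H) (g : G) (a : A) :
    resId r A (A.ρ (r g) a) = (Rep.res r A).ρ g (resId r A a) := rfl

@[simp] lemma resId_apply (r : G →* H) (A : Rep.{u, u, u} k H) (a : A) : resId r A a = a := rfl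

/-- Restriction on invariants. -/
def resH0 (r : G →* H) (A : Rep.{u, u, u} k H) :
    ↥(A.ρ.invariants) →ₗ[k] ↥((Rep.res r A).ρ.invariants) :=
  invMap (resId r A) r (resId_comm r A)

/-- Restriction on level `H¹`. -/
def resH1 (hc : 𝓛G.Compat 𝓛H r) (A : Rep.{u, u, u} k H) :
    LH1 𝓛H A →ₗ[k] LH1 𝓛G (Rep.res r A) :=
  LH1map (resId r A) hc (resId_comm r A)

/-- Restriction on level `H²`. -/
def resH2 (hc : 𝓛G.Compat 𝓛H r) (A : Rep.{u, u, u} k H) :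
    LH2 𝓛H A →ₗ[k] LH2 𝓛G (Rep.res r A) :=
  LH2map (resId r A) hc (resId_comm r A)

lemma resH0_apply (A : Rep.{u, u, u} k H) (a : ↥(A.ρ.invariants)) :
    ((resH0 r A a : (Rep.res r A)) : A) = (a : A) := rfl

lemma resH1_mk (hc : 𝓛G.Compat 𝓛H r) (A : Rep.{u, u, u} k H) (z : ↥(Z1 𝓛H A)) :
    resH1 hc A (LH1.mk 𝓛H A z)
      = LH1.mk 𝓛G (Rep.res r A) (Z1map (resId r A) hc (resId_comm r A) z) :=
  rfl

lemma resH2_mk (hc : 𝓛G.Compat 𝓛H r) (A : Rep.{u, u, u} k H) (z : ↥(Z2 𝓛H A)) :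
    resH2 hc A (LH2.mk 𝓛H A z)
      = LH2.mk 𝓛G (Rep.res r A) (Z2map (resId r A) hc (resId_comm r A) z) :=
  rfl

variable {A B C : Rep.{u, u, u} k H} (E : SES A B C)

/-- The long exact sequence localises: restriction commutes with `φ_*` on `H¹`. -/
lemma SES.resH1_H1φ (hc : 𝓛G.Compat 𝓛H r) (x : LH1 𝓛H A) :
    resH1 hc B (E.H1φ 𝓛H x) = (E.res r).H1φ 𝓛G (resH1 hc A x) :=
  (E.resHom r).H1φ_comm hc x

lemma SES.resH1_H1ψ (hc : 𝓛G.Compat 𝓛H r) (x : LH1 𝓛H B) :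
    resH1 hc C (E.H1ψ 𝓛H x) = (E.res r).H1ψ 𝓛G (resH1 hc B x) :=
  (E.resHom r).H1ψ_comm hc x

lemma SES.resH2_H2φ (hc : 𝓛G.Compat 𝓛H r) (x : LH2 𝓛H A) :
    resH2 hc B (E.H2φ 𝓛H x) = (E.res r).H2φ 𝓛G (resH2 hc A x) :=
  (E.resHom r).H2φ_comm hc x

lemma SES.resH2_H2ψ (hc : 𝓛G.Compat 𝓛H r) (x : LH2 𝓛H B) :
    resH2 hc C (E.H2ψ 𝓛H x) = (E.res r).H2ψ 𝓛G (resH2 hc B x) :=
  (E.resHom r).H2ψ_comm hc x

/-- Restriction commutes with `δ⁰`. -/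
lemma SES.resH1_δ₀ (hc : 𝓛G.Compat 𝓛H r) (hB : 𝓛H.Smooth B)
    (hB' : 𝓛G.Smooth (Rep.res r B)) (c : ↥(C.ρ.invariants)) :
    (E.res r).δ₀ hB' (resH0 r C c) = resH1 hc A (E.δ₀ hB c) :=
  (E.resHom r).δ₀_comm hc hB hB' c

/-- Restriction commutes with `δ¹`. -/
lemma SES.resH2_δ₁ (hc : 𝓛G.Compat 𝓛H r) (hB : 𝓛H.Smooth B)
    (hB' : 𝓛G.Smooth (Rep.res r B)) (x : LH1 𝓛H C) :
    (E.res r).δ₁ hB' (resH1 hc C x) = resH2 hc A (E.δ₁ hB x) :=
  (E.resHom r).δ₁_comm hc hB hB' x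

end Restriction

end Fermat.Agent.S55.helper7486
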