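import Mathlib
import Fermat.Prelude.Def_GroupCohomology_ContinuousUnramified
import Fermat.Agent.S55.helper7486_LevelCoh
import Fermat.Agent.S55.helper4039_SModField

/-!
# S55: the frozen carriers as instances of the level framework (helper2598)

`helper7486_LevelCoh` develops low-degree cohomology of level-constant cochains for an abstract
system of levels `𝓛 : Levels G`.  This file instantiates it on the frozen carriers:

* `FieldClass`, `fieldLevels 𝓠 r` : the levels `F.fixingSubgroup.comap r`, `F` in a class of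
  finite subfields of `AlgebraicClosure ℚ`;
* `sClass S`, `finClass`, `globalLevels S`, `localLevels r`;
* `globalLevels_is₁_iff`, ... : level-constancy is the frozen predicate;
* `LH2equivS`, `LH2equiv`, `LH1equivS`, `LH1equiv` : the level cohomology groups are the frozen
  `continuousH2S`, `continuousH2`, `continuousH1S`, `continuousH1` (identity on representatives);
* `compat_global_local` and friends, and the frozen localisation maps as `resH2` / `resH1`.
-/

set_option autoImplicit false

universe u

noncomputable section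

namespace Fermat.Agent.S55.helper2598

open groupCohomology Fermat.Agent.S55.helper7486

local notation "Qb" => AlgebraicClosure ℚ
local notation "GQ" => (AlgebraicClosure ℚ ≃ₐ[ℚ] AlgebraicClosure ℚ)

/-! ### Classes of fields and the attached level systems -/

/-- A class of finite subfields of `AlgebraicClosure ℚ`, containing `ℚ`, stable under compositum,
in which every member lies in a member with normal fixing subgroup. -/
structure FieldClass where
  /-- the predicate "belongs to the class" -/
  Q : IntermediateField ℚ Qb → Prop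
  bot : Q ⊥
  sup : ∀ F F', Q F → Q F' → Q (F ⊔ F')
  fin : ∀ F, Q F → FiniteDimensional ℚ F
  normal : ∀ F, Q F → ∃ F', F ≤ F' ∧ Q F' ∧ F'.fixingSubgroup.Normal

/-- The level system on `Γ` cut out through `r : Γ →* G_ℚ` by a class of fields: the levels are
the subgroups `F.fixingSubgroup.comap r`. -/
def fieldLevels (𝓠 : FieldClass) {Γ : Type u} [Group Γ] (r : Γ →* GQ) : Levels Γ where
  P U := ∃ F, 𝓠.Q F ∧ U = F.fixingSubgroup.comap r
  nonempty := ⟨_, ⊥, 𝓠.bot, rfl⟩
  inf := by
    rintro _ _ ⟨F, hF, rfl⟩ ⟨F', hF', rfl⟩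
    exact ⟨_, ⟨F ⊔ F', 𝓠.sup F F' hF hF', rfl⟩,
      Subgroup.comap_mono (IntermediateField.fixingSubgroup_antitone le_sup_left),
      Subgroup.comap_mono (IntermediateField.fixingSubgroup_antitone le_sup_right)⟩
  normal := by
    rintro _ ⟨F, hF, rfl⟩
    obtain ⟨F', hle, hF', hn⟩ := 𝓠.normal F hF
    exact ⟨_, ⟨F', hF', rfl⟩,
      Subgroup.comap_mono (IntermediateField.fixingSubgroup_antitone hle), hn.comap r⟩
  finite := by
    rintro _ ⟨F, hF, rfl⟩
    have := 𝓠.fin F hF
    have : F.fixingSubgroup.FiniteIndex := helper4039.finiteIndex_fixingSubgroup F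
    rw [← Subgroup.finiteIndex_iff_finite_quotient]
    constructor
    rw [Subgroup.index_comap]
    exact (Subgroup.isFiniteRelIndex_of_finiteIndex (H := F.fixingSubgroup)).relIndex_ne_zero

lemma fieldLevels_P_iff (𝓠 : FieldClass) {Γ : Type u} [Group Γ] (r : Γ →* GQ) (U : Subgroup Γ) :
    (fieldLevels 𝓠 r).P U ↔ ∃ F, 𝓠.Q F ∧ U = F.fixingSubgroup.comap r := Iff.rfl

lemma fieldLevels_P (𝓠 : FieldClass) {Γ : Type u} [Group Γ] (r : Γ →* GQ)
    {F : IntermediateField ℚ Qb} (hF : 𝓠.Q F) : (fieldLevels 𝓠 r).P (F.fixingSubgroup.comap r) :=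
  ⟨F, hF, rfl⟩

lemma fieldLevels_is₁_iff (𝓠 : FieldClass) {Γ : Type u} [Group Γ] (r : Γ →* GQ) {X : Type*}
    (f : Γ → X) :
    (fieldLevels 𝓠 r).Is₁ f ↔
      ∃ F, 𝓠.Q F ∧ ∀ g s, r s ∈ F.fixingSubgroup → f (g * s) = f g := by
  constructor
  · rintro ⟨_, ⟨F, hF, rfl⟩, h⟩
    exact ⟨F, hF, h⟩
  · rintro ⟨F, hF, h⟩
    exact ⟨_, ⟨F, hF, rfl⟩, h⟩

lemma fieldLevels_is₂_iff (𝓠 : FieldClass) {Γ : Type u} [Group Γ] (r : Γ →* GQ) {X : Type*}
    (f : Γ × Γ → X) :
    (fieldLevels 𝓠 r).Is₂ f ↔
      ∃ F, 𝓠.Q F ∧ ∀ g g' s s', r s ∈ F.fixingSubgroup → r s' ∈ F.fixingSubgroup →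
        f (g * s, g' * s') = f (g, g') := by
  constructor
  · rintro ⟨_, ⟨F, hF, rfl⟩, h⟩
    exact ⟨F, hF, h⟩
  · rintro ⟨F, hF, h⟩
    exact ⟨_, ⟨F, hF, rfl⟩, h⟩

/-- Smoothness for `fieldLevels`, unfolded. -/
lemma fieldLevels_smooth_iff (𝓠 : FieldClass) {k Γ : Type u} [CommRing k] [Group Γ] (r : Γ →* GQ)
    (A : Rep.{u, u, u} k Γ) :
    (fieldLevels 𝓠 r).Smooth A ↔
      ∀ a : A, ∃ F, 𝓠.Q F ∧ ∀ s, r s ∈ F.fixingSubgroup → A.ρ s a = a := by
  constructor
  · intro h a
    obtain ⟨_, ⟨F, hF, rfl⟩, hs⟩ := h a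
    exact ⟨F, hF, hs⟩
  · intro h a
    obtain ⟨F, hF, hs⟩ := h a
    exact ⟨_, ⟨F, hF, rfl⟩, hs⟩

/-- Compatibility of field level systems along a group homomorphism over `G_ℚ`, for an inclusion
of classes. -/
lemma fieldLevels_compat {𝓠 𝓠' : FieldClass} (h : ∀ F, 𝓠.Q F → 𝓠'.Q F) {Γ Γ' : Type u} [Group Γ]
    [Group Γ'] (r : Γ →* GQ) (r' : Γ' →* GQ) (f : Γ' →* Γ) (hf : ∀ g, r (f g) = r' g) :
    (fieldLevels 𝓠' r').Compat (fieldLevels 𝓠 r) f := by
  rintro _ ⟨F, hF, rfl⟩
  refine ⟨_, ⟨F, h F hF, rfl⟩, fun s hs => ?_⟩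
  simp only [Subgroup.mem_comap] at hs ⊢
  rwa [hf]

/-- `fieldLevels 𝓠 (r.comp f)` is the pull-back of `fieldLevels 𝓠 r` along `f`. -/
lemma fieldLevels_comp_P_iff (𝓠 : FieldClass) {Γ Γ' : Type u} [Group Γ] [Group Γ'] (r : Γ →* GQ)
    (f : Γ' →* Γ) (U : Subgroup Γ') :
    (fieldLevels 𝓠 (r.comp f)).P U ↔ ((fieldLevels 𝓠 r).comap f).P U := by
  constructor
  · rintro ⟨F, hF, rfl⟩
    exact ⟨_, ⟨F, hF, rfl⟩, rfl⟩
  · rintro ⟨_, ⟨F, hF, rfl⟩, rfl⟩
    exact ⟨F, hF, rfl⟩

/-- The class of fields unramified outside `S`. -/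
def sClass (S : Finset Nat.Primes) : FieldClass where
  Q F := F.IsUnramifiedOutside S
  bot := IntermediateField.isUnramifiedOutside_bot S
  sup _ _ hF hF' := hF.sup hF'
  fin _ hF := hF.1
  normal _ hF := by
    obtain ⟨F', hle, hF', -, hn⟩ := helper4039.exists_normal_ge hF
    exact ⟨F', hle, hF', hn⟩

/-- The class of all finite subfields. -/
def finClass : FieldClass where
  Q F := FiniteDimensional ℚ F
  bot := inferInstance
  sup F F' hF hF' := by
    have := hF; have := hF'
    exact IntermediateField.finiteDimensional_sup F F'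
  fin _ hF := hF
  normal F hF := by
    have := hF
    exact ⟨_, helper4039.le_iSup_map F, helper4039.finiteDimensional_iSup_map F,
      helper4039.normal_fixingSubgroup_of_map_eq (helper4039.map_iSup_map F)⟩

@[simp] lemma sClass_Q (S : Finset Nat.Primes) (F : IntermediateField ℚ Qb) :
    (sClass S).Q F ↔ F.IsUnramifiedOutside S := Iff.rfl

@[simp] lemma finClass_Q (F : IntermediateField ℚ Qb) :
    finClass.Q F ↔ FiniteDimensional ℚ F := Iff.rfl

lemma sClass_le_finClass (S : Finset Nat.Primes) (F : IntermediateField ℚ Qb)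
    (hF : (sClass S).Q F) : finClass.Q F := hF.1

lemma sClass_mono {S S' : Finset Nat.Primes} (h : S ⊆ S') (F : IntermediateField ℚ Qb)
    (hF : (sClass S).Q F) : (sClass S').Q F := hF.mono h

/-- The global `S`-levels on `G_ℚ`: fixing subgroups of fields unramified outside `S`. -/
def globalLevels (S : Finset Nat.Primes) : Levels GQ := fieldLevels (sClass S) (MonoidHom.id GQ)

/-- The local levels on `G` through `r : G →* G_ℚ`: preimages of fixing subgroups of finite
extensions of `ℚ`. -/
def localLevels {G : Type u} [Group G] (r : G →* GQ) : Levels G := fieldLevels finClass r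

lemma globalLevels_P (S : Finset Nat.Primes) {F : IntermediateField ℚ Qb}
    (hF : F.IsUnramifiedOutside S) : (globalLevels S).P F.fixingSubgroup :=
  ⟨F, hF, rfl⟩

lemma globalLevels_P_iff (S : Finset Nat.Primes) (U : Subgroup GQ) :
    (globalLevels S).P U ↔ ∃ F : IntermediateField ℚ Qb, F.IsUnramifiedOutside S ∧
      U = F.fixingSubgroup := Iff.rfl

lemma localLevels_P {G : Type u} [Group G] (r : G →* GQ) (F : IntermediateField ℚ Qb)
    [hF : FiniteDimensional ℚ F] : (localLevels r).P (F.fixingSubgroup.comap r) :=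
  ⟨F, hF, rfl⟩

lemma localLevels_P_iff {G : Type u} [Group G] (r : G →* GQ) (U : Subgroup G) :
    (localLevels r).P U ↔ ∃ F : IntermediateField ℚ Qb, FiniteDimensional ℚ F ∧
      U = F.fixingSubgroup.comap r := Iff.rfl

/-! ### Level-constancy is the frozen predicate -/

section Iff

variable (S : Finset Nat.Primes) {G : Type u} [Group G] (r : G →* GQ)

lemma globalLevels_is₁_iff {X : Type*} (f : GQ → X) :
    (globalLevels S).Is₁ f ↔ IsLevelConstantS₁ S f :=
  fieldLevels_is₁_iff (sClass S) (MonoidHom.id GQ) f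

lemma globalLevels_is₂_iff {X : Type*} (f : GQ × GQ → X) :
    (globalLevels S).Is₂ f ↔ IsLevelConstantS₂ S f :=
  fieldLevels_is₂_iff (sClass S) (MonoidHom.id GQ) f

lemma localLevels_is₁_iff {X : Type*} (f : G → X) :
    (localLevels r).Is₁ f ↔ IsLevelConstant₁ r f :=
  fieldLevels_is₁_iff finClass r f

lemma localLevels_is₂_iff {X : Type*} (f : G × G → X) :
    (localLevels r).Is₂ f ↔ IsLevelConstant₂ r f :=
  fieldLevels_is₂_iff finClass r f

/-- The relative `S`-levels: level-constancy for `fieldLevels (sClass S) r`. -/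
lemma sLevels_is₁_iff {X : Type*} (f : G → X) :
    (fieldLevels (sClass S) r).Is₁ f ↔
      ∃ L : IntermediateField ℚ Qb, L.IsUnramifiedOutside S ∧
        ∀ g s, r s ∈ L.fixingSubgroup → f (g * s) = f g :=
  fieldLevels_is₁_iff (sClass S) r f

lemma sLevels_is₂_iff {X : Type*} (f : G × G → X) :
    (fieldLevels (sClass S) r).Is₂ f ↔
      ∃ L : IntermediateField ℚ Qb, L.IsUnramifiedOutside S ∧
        ∀ g g' s s', r s ∈ L.fixingSubgroup → r s' ∈ L.fixingSubgroup →
          f (g * s, g' * s') = f (g, g') :=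
  fieldLevels_is₂_iff (sClass S) r f

end Iff

/-! ### Compatibilities -/

section Compat

variable (S : Finset Nat.Primes)

/-- The local levels along `r : H →* G_ℚ` are compatible with the global `S`-levels. -/
lemma compat_global_local {H : Type} [Group H] (r : H →* GQ) :
    (localLevels r).Compat (globalLevels S) r :=
  fieldLevels_compat (sClass_le_finClass S) (MonoidHom.id GQ) r r fun _ => rfl

/-- The local levels along `r.comp f` are compatible with the local levels along `r`. -/
lemma compat_local_local {G H : Type u} [Group G] [Group H] (r : G →* GQ) (r' : H →* GQ)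
    (f : H →* G) (hf : ∀ h, r (f h) = r' h) : (localLevels r').Compat (localLevels r) f :=
  fieldLevels_compat (fun _ h => h) r r' f hf

/-- Enlarging `S` is compatible. -/
lemma compat_global_mono {S S' : Finset Nat.Primes} (h : S ⊆ S') :
    (globalLevels S').Compat (globalLevels S) (MonoidHom.id GQ) :=
  fieldLevels_compat (sClass_mono h) (MonoidHom.id GQ) (MonoidHom.id GQ) _ fun _ => rfl

/-- The relative `S`-levels along `r` are compatible with the global `S`-levels. -/
lemma compat_global_sLevels {H : Type} [Group H] (r : H →* GQ) :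
    (fieldLevels (sClass S) r).Compat (globalLevels S) r :=
  fieldLevels_compat (fun _ h => h) (MonoidHom.id GQ) r r fun _ => rfl

/-- The local levels along `r` are compatible with the relative `S`-levels along `r`. -/
lemma compat_sLevels_local {G : Type u} [Group G] (r : G →* GQ) :
    (localLevels r).Compat (fieldLevels (sClass S) r) (MonoidHom.id G) :=
  fieldLevels_compat (sClass_le_finClass S) r r _ fun _ => rfl

end Compat

/-! ### The carriers -/

section Carriers

variable (S : Finset Nat.Primes) {k : Type} [CommRing k] (M : Rep k GQ)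

lemma lev₁_globalLevels : lev₁ (globalLevels S) M = levelCochainsS₁ S M :=
  Submodule.ext fun f => globalLevels_is₁_iff S f

lemma lev₂_globalLevels : lev₂ (globalLevels S) M = levelCochainsS₂ S M :=
  Submodule.ext fun f => globalLevels_is₂_iff S f

lemma Z2_globalLevels : Z2 (globalLevels S) M = levelCocyclesS₂ S M := by
  rw [Z2, lev₂_globalLevels]; rfl

lemma B2_globalLevels : B2 (globalLevels S) M = levelCoboundariesS₂ S M := by
  rw [B2, lev₁_globalLevels]; rfl

end Carriers

section CarriersLocal

variable {k G : Type u} [CommRing k] [Group G] (r : G →* GQ) (A : Rep.{u, u, u} k G)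

lemma lev₁_localLevels : lev₁ (localLevels r) A = levelCochains₁ r A :=
  Submodule.ext fun f => localLevels_is₁_iff r f

lemma lev₂_localLevels : lev₂ (localLevels r) A = levelCochains₂ r A :=
  Submodule.ext fun f => localLevels_is₂_iff r f

lemma Z2_localLevels : Z2 (localLevels r) A = levelCocycles₂ r A := by
  rw [Z2, lev₂_localLevels]; rfl

lemma B2_localLevels : B2 (localLevels r) A = levelCoboundaries₂ r A := by
  rw [B2, lev₁_localLevels]; rfl

end CarriersLocal

/-! ### Generic transport of a quotient along equalities of submodules -/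

section QuotEq

variable {k : Type*} [CommRing k] {V : Type*} [AddCommGroup V] [Module k V]

/-- Two quotients `Z ⧸ B ⊓ Z`, `Z' ⧸ B' ⊓ Z'` with `Z = Z'` and `B = B'` are identified, by the
identity on representatives. -/
def quotEquivOfEq {Z Z' B B' : Submodule k V} (hZ : Z = Z') (hB : B = B') :
    (↥Z ⧸ B.comap Z.subtype) ≃ₗ[k] (↥Z' ⧸ B'.comap Z'.subtype) :=
  Submodule.Quotient.equiv _ _ (LinearEquiv.ofEq Z Z' hZ) (by
    subst hZ; subst hB
    ext x
    simp)

@[simp] lemma quotEquivOfEq_mk {Z Z' B B' : Submodule k V} (hZ : Z = Z') (hB : B = B')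
    (z : ↥Z) :
    quotEquivOfEq hZ hB (Submodule.Quotient.mk z)
      = Submodule.Quotient.mk (⟨(z : V), hZ ▸ z.2⟩ : ↥Z') := rfl

@[simp] lemma quotEquivOfEq_symm_mk {Z Z' B B' : Submodule k V} (hZ : Z = Z') (hB : B = B')
    (z : ↥Z') :
    (quotEquivOfEq hZ hB).symm (Submodule.Quotient.mk z)
      = Submodule.Quotient.mk (⟨(z : V), hZ ▸ z.2⟩ : ↥Z) := rfl

end QuotEq

/-! ### `H²` -/

section H2

variable (S : Finset Nat.Primes) {k : Type} [CommRing k] (M : Rep k GQ)

/-- The level `H²` for the global `S`-levels is the frozen `continuousH2S`. -/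
def LH2equivS : LH2 (globalLevels S) M ≃ₗ[k] continuousH2S S M :=
  quotEquivOfEq (Z2_globalLevels S M) (B2_globalLevels S M)

lemma mem_levelCocyclesS₂_of_mem_Z2 {z : GQ × GQ → M} (hz : z ∈ Z2 (globalLevels S) M) :
    z ∈ levelCocyclesS₂ S M := Z2_globalLevels S M ▸ hz

lemma mem_Z2_of_mem_levelCocyclesS₂ {z : GQ × GQ → M} (hz : z ∈ levelCocyclesS₂ S M) :
    z ∈ Z2 (globalLevels S) M := Z2_globalLevels S M ▸ hz

@[simp] lemma LH2equivS_mk (z : ↥(Z2 (globalLevels S) M)) :
    LH2equivS S M (LH2.mk (globalLevels S) M z)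
      = continuousH2Sπ S M ⟨(z : GQ × GQ → M), mem_levelCocyclesS₂_of_mem_Z2 S M z.2⟩ := rfl

@[simp] lemma LH2equivS_symm_mk (z : ↥(levelCocyclesS₂ S M)) :
    (LH2equivS S M).symm (continuousH2Sπ S M z)
      = LH2.mk (globalLevels S) M
          ⟨(z : GQ × GQ → M), mem_Z2_of_mem_levelCocyclesS₂ S M z.2⟩ := rfl

end H2

section H2Local

variable {k G : Type u} [CommRing k] [Group G] (r : G →* GQ) (A : Rep.{u, u, u} k G)

/-- The level `H²` for the local levels along `r` is the frozen `continuousH2 r`. -/
def LH2equiv : LH2 (localLevels r) A ≃ₗ[k] continuousH2 r A :=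
  quotEquivOfEq (Z2_localLevels r A) (B2_localLevels r A)

lemma mem_levelCocycles₂_of_mem_Z2 {z : G × G → A} (hz : z ∈ Z2 (localLevels r) A) :
    z ∈ levelCocycles₂ r A := Z2_localLevels r A ▸ hz

lemma mem_Z2_of_mem_levelCocycles₂ {z : G × G → A} (hz : z ∈ levelCocycles₂ r A) :
    z ∈ Z2 (localLevels r) A := Z2_localLevels r A ▸ hz

@[simp] lemma LH2equiv_mk (z : ↥(Z2 (localLevels r) A)) :
    LH2equiv r A (LH2.mk (localLevels r) A z)
      = continuousH2π r A ⟨(z : G × G → A), mem_levelCocycles₂_of_mem_Z2 r A z.2⟩ := rfl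

@[simp] lemma LH2equiv_symm_mk (z : ↥(levelCocycles₂ r A)) :
    (LH2equiv r A).symm (continuousH2π r A z)
      = LH2.mk (localLevels r) A
          ⟨(z : G × G → A), mem_Z2_of_mem_levelCocycles₂ r A z.2⟩ := rfl

end H2Local

/-! ### `H¹`: the level `H¹` as a submodule of the full `H¹` -/

section H1Generic

variable {k G : Type u} [CommRing k] [Group G] (𝓛 : Levels G) (A : Rep.{u, u, u} k G)

/-- A level 1-cocycle, as a 1-cocycle. -/
def Z1toCocycles : ↥(Z1 𝓛 A) →ₗ[k] ↥(cocycles₁ A) :=
  Submodule.inclusion (inf_le_left : Z1 𝓛 A ≤ cocycles₁ A)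

@[simp] lemma Z1toCocycles_coe (z : ↥(Z1 𝓛 A)) :
    ((Z1toCocycles 𝓛 A z : ↥(cocycles₁ A)) : G → A) = (z : G → A) := rfl

/-- The comparison map from the level `H¹` to the full `H¹`. -/
def LH1toH1 : LH1 𝓛 A →ₗ[k] H1 A :=
  Submodule.liftQ _ ((H1π A).hom ∘ₗ Z1toCocycles 𝓛 A) (by
    intro z hz
    rw [Submodule.mem_comap] at hz
    rw [LinearMap.mem_ker, LinearMap.comp_apply]
    exact (H1π_eq_zero_iff _).2 hz)

@[simp] lemma LH1toH1_mk (z : ↥(Z1 𝓛 A)) :
    LH1toH1 𝓛 A (LH1.mk 𝓛 A z) = (H1π A).hom (Z1toCocycles 𝓛 A z) := rfl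

lemma LH1toH1_injective : Function.Injective (LH1toH1 𝓛 A) := by
  rw [← LinearMap.ker_eq_bot, LinearMap.ker_eq_bot']
  intro x hx
  obtain ⟨z, rfl⟩ := LH1.mk_surjective x
  rw [LH1toH1_mk] at hx
  have h := (H1π_eq_zero_iff _).1 hx
  rw [LH1.mk, Submodule.mkQ_apply, Submodule.Quotient.mk_eq_zero, Submodule.mem_comap]
  exact h

/-- The submodule of level classes in `H¹`: classes of level-constant cocycles. -/
def levH1 : Submodule k (H1 A) := LinearMap.range (LH1toH1 𝓛 A)

variable {𝓛 A} in
lemma mem_levH1_iff (x : H1 A) :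
    x ∈ levH1 𝓛 A ↔ ∃ c : cocycles₁ A, 𝓛.Is₁ (c : G → A) ∧ (H1π A).hom c = x := by
  constructor
  · rintro ⟨y, rfl⟩
    obtain ⟨z, rfl⟩ := LH1.mk_surjective y
    exact ⟨Z1toCocycles 𝓛 A z, z.2.2, rfl⟩
  · rintro ⟨c, hc, rfl⟩
    exact ⟨LH1.mk 𝓛 A ⟨(c : G → A), c.2, hc⟩, rfl⟩

/-- The level `H¹` is the submodule of level classes of `H¹`. -/
def LH1equivLevH1 : LH1 𝓛 A ≃ₗ[k] ↥(levH1 𝓛 A) :=
  LinearEquiv.ofInjective (LH1toH1 𝓛 A) (LH1toH1_injective 𝓛 A)

@[simp] lemma LH1equivLevH1_apply (x : LH1 𝓛 A) :
    ((LH1equivLevH1 𝓛 A x : ↥(levH1 𝓛 A)) : H1 A) = LH1toH1 𝓛 A x := rfl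

lemma LH1equivLevH1_mk (z : ↥(Z1 𝓛 A)) :
    ((LH1equivLevH1 𝓛 A (LH1.mk 𝓛 A z) : ↥(levH1 𝓛 A)) : H1 A)
      = (H1π A).hom (Z1toCocycles 𝓛 A z) := rfl

lemma LH1toH1_LH1equivLevH1_symm (x : ↥(levH1 𝓛 A)) :
    LH1toH1 𝓛 A ((LH1equivLevH1 𝓛 A).symm x) = (x : H1 A) := by
  have h := (LH1equivLevH1 𝓛 A).apply_symm_apply x
  exact congrArg Subtype.val h

end H1Generic

section H1

variable (S : Finset Nat.Primes) {k : Type} [CommRing k] (M : Rep k GQ)

lemma levH1_globalLevels : levH1 (globalLevels S) M = continuousH1S S M := by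
  ext x
  rw [mem_levH1_iff, mem_continuousH1S_iff]
  exact exists_congr fun c => and_congr (globalLevels_is₁_iff S _) Iff.rfl

/-- The level `H¹` for the global `S`-levels is the frozen `continuousH1S`. -/
def LH1equivS : LH1 (globalLevels S) M ≃ₗ[k] ↥(continuousH1S S M) :=
  LH1equivLevH1 (globalLevels S) M ≪≫ₗ LinearEquiv.ofEq _ _ (levH1_globalLevels S M)

@[simp] lemma LH1equivS_apply (x : LH1 (globalLevels S) M) :
    ((LH1equivS S M x : ↥(continuousH1S S M)) : H1 M) = LH1toH1 (globalLevels S) M x := rfl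

lemma LH1equivS_mk (z : ↥(Z1 (globalLevels S) M)) :
    ((LH1equivS S M (LH1.mk (globalLevels S) M z) : ↥(continuousH1S S M)) : H1 M)
      = (H1π M).hom (Z1toCocycles (globalLevels S) M z) := rfl

lemma LH1toH1_LH1equivS_symm (x : ↥(continuousH1S S M)) :
    LH1toH1 (globalLevels S) M ((LH1equivS S M).symm x) = (x : H1 M) := by
  have h := (LH1equivS S M).apply_symm_apply x
  exact congrArg Subtype.val h

end H1

section H1Local

variable {k G : Type u} [CommRing k] [Group G] (r : G →* GQ) (A : Rep.{u, u, u} k G)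

lemma levH1_localLevels : levH1 (localLevels r) A = continuousH1 r A := by
  ext x
  rw [mem_levH1_iff, mem_continuousH1_iff]
  exact exists_congr fun c => and_congr (localLevels_is₁_iff r _) Iff.rfl

/-- The level `H¹` for the local levels along `r` is the frozen `continuousH1 r`. -/
def LH1equiv : LH1 (localLevels r) A ≃ₗ[k] ↥(continuousH1 r A) :=
  LH1equivLevH1 (localLevels r) A ≪≫ₗ LinearEquiv.ofEq _ _ (levH1_localLevels r A)

@[simp] lemma LH1equiv_apply (x : LH1 (localLevels r) A) :
    ((LH1equiv r A x : ↥(continuousH1 r A)) : H1 A) = LH1toH1 (localLevels r) A x := rfl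

lemma LH1equiv_mk (z : ↥(Z1 (localLevels r) A)) :
    ((LH1equiv r A (LH1.mk (localLevels r) A z) : ↥(continuousH1 r A)) : H1 A)
      = (H1π A).hom (Z1toCocycles (localLevels r) A z) := rfl

lemma LH1toH1_LH1equiv_symm (x : ↥(continuousH1 r A)) :
    LH1toH1 (localLevels r) A ((LH1equiv r A).symm x) = (x : H1 A) := by
  have h := (LH1equiv r A).apply_symm_apply x
  exact congrArg Subtype.val h

end H1Local

/-! ### The truncated Euler characteristic on the frozen carriers -/

section ChiFrozen

open Module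

variable (S : Finset Nat.Primes) {k : Type} [Field k]

/-- The level Euler characteristic for the global `S`-levels, in frozen terms. -/
lemma chi_globalLevels (M : Rep k GQ) :
    chi (globalLevels S) M = (finrank k ↥(M.ρ.invariants) : ℤ)
      - finrank k ↥(continuousH1S S M) + finrank k (continuousH2S S M) := by
  simp only [chi, (LH1equivS S M).finrank_eq, (LH2equivS S M).finrank_eq]

lemma finiteDimensional_LH1_globalLevels (M : Rep k GQ)
    [FiniteDimensional k ↥(continuousH1S S M)] : FiniteDimensional k (LH1 (globalLevels S) M) :=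
  (LH1equivS S M).symm.finiteDimensional

lemma finiteDimensional_LH2_globalLevels (M : Rep k GQ)
    [FiniteDimensional k (continuousH2S S M)] : FiniteDimensional k (LH2 (globalLevels S) M) :=
  (LH2equivS S M).symm.finiteDimensional

variable {S} {A B C : Rep k GQ}

/-- **Subadditivity of `h⁰ - h¹ + h²` on the frozen global carriers**: for a short exact sequence
`0 → A → B → C → 0` with `B` smooth for the `S`-levels, `χ(B) ≤ χ(A) + χ(C)`. -/
theorem chi_le_frozenS (E : SES A B C) (hB : (globalLevels S).Smooth B)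
    [FiniteDimensional k ↥(B.ρ.invariants)] [FiniteDimensional k ↥(C.ρ.invariants)]
    [FiniteDimensional k ↥(continuousH1S S A)] [FiniteDimensional k ↥(continuousH1S S B)]
    [FiniteDimensional k ↥(continuousH1S S C)] [FiniteDimensional k (continuousH2S S A)]
    [FiniteDimensional k (continuousH2S S B)] [FiniteDimensional k (continuousH2S S C)] :
    finrank k ↥(B.ρ.invariants) + finrank k ↥(continuousH1S S A)
        + finrank k ↥(continuousH1S S C) + finrank k (continuousH2S S B)
      ≤ finrank k ↥(A.ρ.invariants) + finrank k ↥(C.ρ.invariants)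
        + finrank k ↥(continuousH1S S B) + finrank k (continuousH2S S A)
        + finrank k (continuousH2S S C) := by
  have := finiteDimensional_LH1_globalLevels S A
  have := finiteDimensional_LH1_globalLevels S B
  have := finiteDimensional_LH1_globalLevels S C
  have := finiteDimensional_LH2_globalLevels S A
  have := finiteDimensional_LH2_globalLevels S B
  have := finiteDimensional_LH2_globalLevels S C
  have h := E.chi_le (𝓛 := globalLevels S) hB
  rw [chi_globalLevels, chi_globalLevels, chi_globalLevels] at h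
  omega

/-- **Additivity of `h⁰ - h¹ + h²` on the frozen global carriers** when `H²(B) → H²(C)` is onto
(stated on the level groups). -/
theorem chi_eq_frozenS_of_surjective (E : SES A B C) (hB : (globalLevels S).Smooth B)
    [FiniteDimensional k ↥(B.ρ.invariants)] [FiniteDimensional k ↥(C.ρ.invariants)]
    [FiniteDimensional k ↥(continuousH1S S A)] [FiniteDimensional k ↥(continuousH1S S B)]
    [FiniteDimensional k ↥(continuousH1S S C)] [FiniteDimensional k (continuousH2S S A)]
    [FiniteDimensional k (continuousH2S S B)]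
    (hsurj : Function.Surjective (E.H2ψ (globalLevels S))) :
    finrank k ↥(B.ρ.invariants) + finrank k ↥(continuousH1S S A)
        + finrank k ↥(continuousH1S S C) + finrank k (continuousH2S S B)
      = finrank k ↥(A.ρ.invariants) + finrank k ↥(C.ρ.invariants)
        + finrank k ↥(continuousH1S S B) + finrank k (continuousH2S S A)
        + finrank k (continuousH2S S C) := by
  have := finiteDimensional_LH1_globalLevels S A
  have := finiteDimensional_LH1_globalLevels S B
  have := finiteDimensional_LH1_globalLevels S C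
  have := finiteDimensional_LH2_globalLevels S A
  have := finiteDimensional_LH2_globalLevels S B
  have h := E.chi_eq_of_surjective (𝓛 := globalLevels S) hB hsurj
  rw [chi_globalLevels, chi_globalLevels, chi_globalLevels] at h
  omega

/-- **Additivity of `h⁰ - h¹ + h²` on the frozen global carriers** along a sequence with an
equivariant linear section. -/
theorem chi_eq_frozenS_of_section (E : SES A B C) (hB : (globalLevels S).Smooth B)
    [FiniteDimensional k ↥(B.ρ.invariants)] [FiniteDimensional k ↥(C.ρ.invariants)]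
    [FiniteDimensional k ↥(continuousH1S S A)] [FiniteDimensional k ↥(continuousH1S S B)]
    [FiniteDimensional k ↥(continuousH1S S C)] [FiniteDimensional k (continuousH2S S A)]
    [FiniteDimensional k (continuousH2S S B)] (s : C →ₗ[k] B)
    (hs : ∀ (g : GQ) (c : C), s (C.ρ g c) = B.ρ g (s c)) (hψs : ∀ c, E.ψ (s c) = c) :
    finrank k ↥(B.ρ.invariants) + finrank k ↥(continuousH1S S A)
        + finrank k ↥(continuousH1S S C) + finrank k (continuousH2S S B)
      = finrank k ↥(A.ρ.invariants) + finrank k ↥(C.ρ.invariants)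
        + finrank k ↥(continuousH1S S B) + finrank k (continuousH2S S A)
        + finrank k (continuousH2S S C) :=
  chi_eq_frozenS_of_surjective E hB (E.H2ψ_surjective_of_section s hs hψs)

end ChiFrozen

section ChiFrozenLocal

open Module

variable {k G : Type u} [Field k] [Group G] (r : G →* GQ)

/-- The level Euler characteristic for the local levels along `r`, in frozen terms. -/
lemma chi_localLevels (A : Rep.{u, u, u} k G) :
    chi (localLevels r) A = (finrank k ↥(A.ρ.invariants) : ℤ)
      - finrank k ↥(continuousH1 r A) + finrank k (continuousH2 r A) := by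
  simp only [chi, (LH1equiv r A).finrank_eq, (LH2equiv r A).finrank_eq]

lemma finiteDimensional_LH1_localLevels (A : Rep.{u, u, u} k G)
    [FiniteDimensional k ↥(continuousH1 r A)] : FiniteDimensional k (LH1 (localLevels r) A) :=
  (LH1equiv r A).symm.finiteDimensional

lemma finiteDimensional_LH2_localLevels (A : Rep.{u, u, u} k G)
    [FiniteDimensional k (continuousH2 r A)] : FiniteDimensional k (LH2 (localLevels r) A) :=
  (LH2equiv r A).symm.finiteDimensional

variable {r} {A B C : Rep.{u, u, u} k G}

/-- **Subadditivity of `h⁰ - h¹ + h²` on the frozen local carriers.** -/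
theorem chi_le_frozen (E : SES A B C) (hB : (localLevels r).Smooth B)
    [FiniteDimensional k ↥(B.ρ.invariants)] [FiniteDimensional k ↥(C.ρ.invariants)]
    [FiniteDimensional k ↥(continuousH1 r A)] [FiniteDimensional k ↥(continuousH1 r B)]
    [FiniteDimensional k ↥(continuousH1 r C)] [FiniteDimensional k (continuousH2 r A)]
    [FiniteDimensional k (continuousH2 r B)] [FiniteDimensional k (continuousH2 r C)] :
    finrank k ↥(B.ρ.invariants) + finrank k ↥(continuousH1 r A)
        + finrank k ↥(continuousH1 r C) + finrank k (continuousH2 r B)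
      ≤ finrank k ↥(A.ρ.invariants) + finrank k ↥(C.ρ.invariants)
        + finrank k ↥(continuousH1 r B) + finrank k (continuousH2 r A)
        + finrank k (continuousH2 r C) := by
  have := finiteDimensional_LH1_localLevels r A
  have := finiteDimensional_LH1_localLevels r B
  have := finiteDimensional_LH1_localLevels r C
  have := finiteDimensional_LH2_localLevels r A
  have := finiteDimensional_LH2_localLevels r B
  have := finiteDimensional_LH2_localLevels r C
  have h := E.chi_le (𝓛 := localLevels r) hB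
  rw [chi_localLevels, chi_localLevels, chi_localLevels] at h
  omega

/-- **Additivity of `h⁰ - h¹ + h²` on the frozen local carriers** when `H²(B) → H²(C)` is onto
(stated on the level groups). -/
theorem chi_eq_frozen_of_surjective (E : SES A B C) (hB : (localLevels r).Smooth B)
    [FiniteDimensional k ↥(B.ρ.invariants)] [FiniteDimensional k ↥(C.ρ.invariants)]
    [FiniteDimensional k ↥(continuousH1 r A)] [FiniteDimensional k ↥(continuousH1 r B)]
    [FiniteDimensional k ↥(continuousH1 r C)] [FiniteDimensional k (continuousH2 r A)]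
    [FiniteDimensional k (continuousH2 r B)]
    (hsurj : Function.Surjective (E.H2ψ (localLevels r))) :
    finrank k ↥(B.ρ.invariants) + finrank k ↥(continuousH1 r A)
        + finrank k ↥(continuousH1 r C) + finrank k (continuousH2 r B)
      = finrank k ↥(A.ρ.invariants) + finrank k ↥(C.ρ.invariants)
        + finrank k ↥(continuousH1 r B) + finrank k (continuousH2 r A)
        + finrank k (continuousH2 r C) := by
  have := finiteDimensional_LH1_localLevels r A
  have := finiteDimensional_LH1_localLevels r B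
  have := finiteDimensional_LH1_localLevels r C
  have := finiteDimensional_LH2_localLevels r A
  have := finiteDimensional_LH2_localLevels r B
  have h := E.chi_eq_of_surjective (𝓛 := localLevels r) hB hsurj
  rw [chi_localLevels, chi_localLevels, chi_localLevels] at h
  omega

/-- **Additivity of `h⁰ - h¹ + h²` on the frozen local carriers** along a sequence with an
equivariant linear section. -/
theorem chi_eq_frozen_of_section (E : SES A B C) (hB : (localLevels r).Smooth B)
    [FiniteDimensional k ↥(B.ρ.invariants)] [FiniteDimensional k ↥(C.ρ.invariants)]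
    [FiniteDimensional k ↥(continuousH1 r A)] [FiniteDimensional k ↥(continuousH1 r B)]
    [FiniteDimensional k ↥(continuousH1 r C)] [FiniteDimensional k (continuousH2 r A)]
    [FiniteDimensional k (continuousH2 r B)] (s : C →ₗ[k] B)
    (hs : ∀ (g : G) (c : C), s (C.ρ g c) = B.ρ g (s c)) (hψs : ∀ c, E.ψ (s c) = c) :
    finrank k ↥(B.ρ.invariants) + finrank k ↥(continuousH1 r A)
        + finrank k ↥(continuousH1 r C) + finrank k (continuousH2 r B)
      = finrank k ↥(A.ρ.invariants) + finrank k ↥(C.ρ.invariants)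
        + finrank k ↥(continuousH1 r B) + finrank k (continuousH2 r A)
        + finrank k (continuousH2 r C) :=
  chi_eq_frozen_of_surjective E hB (E.H2ψ_surjective_of_section s hs hψs)

end ChiFrozenLocal

end Fermat.Agent.S55.helper2598
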