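import Mathlib
import Fermat.Prelude.Def_GroupCohomology_ContinuousUnramified
import Fermat.Agent.S55.helper7486_LevelCoh
import Fermat.Agent.S55.helper4039_SModField
import Fermat.Agent.S55.helper5036_EvalPush
import Fermat.Agent.S55.helper2598_Frame

/-!
# S55: the frozen maps in the level framework (helper235)

Complement of `helper2598_Frame` (the instances `globalLevels S`, `localLevels r` of
`helper7486.Levels` and the equivalences `LH2equivS`, `LH2equiv` with the frozen `continuousH2S`,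
`continuousH2`).  This file adds, in the same vocabulary:

* degree one: `toH1`, `h1Range`, `LH1equivRange` (generic), and the equivalences
  `h1EquivS : LH1 (globalLevels S) M ≃ₗ ↥(continuousH1S S M)`,
  `h1Equiv : LH1 (localLevels r) A ≃ₗ ↥(continuousH1 r A)` (class of the same cocycle);
* the frozen maps are the maps of the level framework under these equivalences:
  `locRes₂S_LH2equivS` (`locRes₂S = resH2`), `continuousH2Map_LH2equiv`,
  `continuousH2MapHom_LH2equiv`, `h2LinS_LH2equivS`, `locRes_h1EquivS` (`locRes = resH1`),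
  `map_LH1equivRange` (Mathlib's `groupCohomology.map` on `H1` is `LH1map`);
* smoothness: `smooth_globalLevels` (the frozen hypotheses `hsm`, `hMur` give
  `(globalLevels S).Smooth M`), `smooth_localLevels_res`.
-/

set_option autoImplicit false

noncomputable section

namespace Fermat.Agent.S55.helper235

open groupCohomology CategoryTheory Fermat.Agent.S55.helper7486 Fermat.Agent.S55.helper2598

local notation "Qb" => AlgebraicClosure ℚ
local notation "GQ" => (AlgebraicClosure ℚ ≃ₐ[ℚ] AlgebraicClosure ℚ)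

/-! ### The degree one carriers -/

section H1

variable {k : Type} [CommRing k] {G : Type} [Group G] (𝓛 : Levels G) (A : Rep.{0, 0, 0} k G)

/-- The class map from the level `1`-cocycles to Mathlib's `H1`. -/
def toH1 : ↥(Z1 𝓛 A) →ₗ[k] H1 A :=
  (H1π A).hom ∘ₗ Submodule.inclusion (inf_le_left : Z1 𝓛 A ≤ cocycles₁ A)

theorem toH1_apply (z : ↥(Z1 𝓛 A)) : toH1 𝓛 A z = (H1π A).hom ⟨z, z.2.1⟩ := rfl

theorem ker_toH1 : LinearMap.ker (toH1 𝓛 A) = (coboundaries₁ A).comap (Z1 𝓛 A).subtype := by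
  ext z
  rw [LinearMap.mem_ker, toH1_apply]
  exact H1π_eq_zero_iff _

/-- The submodule of `H1 A` of the classes of level cocycles. -/
def h1Range : Submodule k (H1 A) := LinearMap.range (toH1 𝓛 A)

theorem mem_h1Range_iff (x : H1 A) :
    x ∈ h1Range 𝓛 A ↔ ∃ c : cocycles₁ A, 𝓛.Is₁ (c : G → A) ∧ (H1π A).hom c = x := by
  constructor
  · rintro ⟨z, rfl⟩
    exact ⟨⟨z, z.2.1⟩, z.2.2, rfl⟩
  · rintro ⟨c, hc, rfl⟩
    exact ⟨⟨c, c.2, hc⟩, rfl⟩

/-- `LH1 𝓛 A` is the submodule of the level classes of Mathlib's `H1 A`. -/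
def LH1equivRange : LH1 𝓛 A ≃ₗ[k] ↥(h1Range 𝓛 A) :=
  (Submodule.quotEquivOfEq _ _ (ker_toH1 𝓛 A).symm) ≪≫ₗ (toH1 𝓛 A).quotKerEquivRange

@[simp] theorem LH1equivRange_mk (z : ↥(Z1 𝓛 A)) :
    ((LH1equivRange 𝓛 A (LH1.mk 𝓛 A z) : ↥(h1Range 𝓛 A)) : H1 A) = toH1 𝓛 A z := rfl

end H1

section H1frozen

variable {k : Type} [CommRing k] (S : Finset Nat.Primes) (M : Rep.{0, 0, 0} k GQ)
  {Γ : Type} [Group Γ] (r : Γ →* GQ) (A : Rep.{0, 0, 0} k Γ)

theorem h1Range_globalLevels : h1Range (globalLevels S) M = continuousH1S S M := by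
  ext x
  rw [mem_h1Range_iff, mem_continuousH1S_iff]
  exact exists_congr fun c => and_congr (globalLevels_is₁_iff S _) Iff.rfl

theorem h1Range_localLevels : h1Range (localLevels r) A = continuousH1 r A := by
  ext x
  rw [mem_h1Range_iff, mem_continuousH1_iff]
  exact exists_congr fun c => and_congr (localLevels_is₁_iff r _) Iff.rfl

/-- `LH1 (globalLevels S) M` is the frozen `continuousH1S S M`. -/
def h1EquivS : LH1 (globalLevels S) M ≃ₗ[k] ↥(continuousH1S S M) :=
  LH1equivRange (globalLevels S) M ≪≫ₗ LinearEquiv.ofEq _ _ (h1Range_globalLevels S M)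

/-- `LH1 (localLevels r) A` is the frozen `continuousH1 r A`. -/
def h1Equiv : LH1 (localLevels r) A ≃ₗ[k] ↥(continuousH1 r A) :=
  LH1equivRange (localLevels r) A ≪≫ₗ LinearEquiv.ofEq _ _ (h1Range_localLevels r A)

variable {S M r A}

@[simp] theorem h1EquivS_mk (z : ↥(Z1 (globalLevels S) M)) :
    ((h1EquivS S M (LH1.mk (globalLevels S) M z) : ↥(continuousH1S S M)) : H1 M)
      = toH1 (globalLevels S) M z := rfl

@[simp] theorem h1Equiv_mk (z : ↥(Z1 (localLevels r) A)) :
    ((h1Equiv r A (LH1.mk (localLevels r) A z) : ↥(continuousH1 r A)) : H1 A)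
      = toH1 (localLevels r) A z := rfl

end H1frozen

/-! ### Compatibility of the maps -/

section Maps

variable {k : Type} [CommRing k] {G H : Type} [Group G] [Group H]
  {𝓛G : Levels G} {𝓛H : Levels H} {f : G →* H}

/-- The linear map underlying a morphism `Res(f)(A) ⟶ B`, typed as a map out of `A`. -/
def homLin {A : Rep.{0, 0, 0} k H} {B : Rep.{0, 0, 0} k G} (φ : Rep.res f A ⟶ B) : A →ₗ[k] B :=
  φ.hom.toLinearMap

theorem homLin_comm {A : Rep.{0, 0, 0} k H} {B : Rep.{0, 0, 0} k G} (φ : Rep.res f A ⟶ B)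
    (g : G) (a : A) : homLin φ (A.ρ (f g) a) = B.ρ g (homLin φ a) :=
  Rep.hom_comm_apply φ g a

@[simp] theorem homLin_apply {A : Rep.{0, 0, 0} k H} {B : Rep.{0, 0, 0} k G}
    (φ : Rep.res f A ⟶ B) (a : A) : homLin φ a = φ.hom a := rfl

/-- Mathlib's functoriality of `H1` is `LH1map` on level classes. -/
theorem map_toH1 (hc : 𝓛G.Compat 𝓛H f) {A : Rep.{0, 0, 0} k H} {B : Rep.{0, 0, 0} k G}
    (φ : Rep.res f A ⟶ B) (z : ↥(Z1 𝓛H A)) :
    (groupCohomology.map f φ 1).hom (toH1 𝓛H A z)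
      = toH1 𝓛G B (Z1map (homLin φ) hc (homLin_comm φ) z) :=
  H1π_comp_map_apply f φ ⟨z, z.2.1⟩

/-- Mathlib's functoriality of `H1` is `LH1map` under `LH1equivRange`. -/
theorem map_LH1equivRange (hc : 𝓛G.Compat 𝓛H f) {A : Rep.{0, 0, 0} k H} {B : Rep.{0, 0, 0} k G}
    (φ : Rep.res f A ⟶ B) (x : LH1 𝓛H A) :
    (groupCohomology.map f φ 1).hom ((LH1equivRange 𝓛H A x : ↥(h1Range 𝓛H A)) : H1 A)
      = ((LH1equivRange 𝓛G B (LH1map (homLin φ) hc (homLin_comm φ) x) :
            ↥(h1Range 𝓛G B)) : H1 B) := by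
  obtain ⟨z, rfl⟩ := LH1.mk_surjective x
  exact map_toH1 hc φ z

end Maps

/-! ### The frozen maps -/

section MapsFrozen

variable {k : Type} [CommRing k] (S : Finset Nat.Primes)

/-- The frozen localisation `locRes₂S` is `resH2` under the dictionary. -/
theorem locRes₂S_LH2equivS (M : Rep.{0, 0, 0} k GQ) {Γ : Type} [Group Γ] (r : Γ →* GQ)
    (x : LH2 (globalLevels S) M) :
    locRes₂S S M r (LH2equivS S M x)
      = LH2equiv r (Rep.res r M) (resH2 (compat_global_local S r) M x) := by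
  obtain ⟨z, rfl⟩ := LH2.mk_surjective x
  rfl

/-- The frozen `continuousH2Map` is `LH2map` under the dictionary. -/
theorem continuousH2Map_LH2equiv {G H : Type} [Group G] [Group H] {rH : H →* GQ} {rG : G →* GQ}
    (f : G →* H) (hf : ∀ g, rH (f g) = rG g) {A : Rep.{0, 0, 0} k H} {B : Rep.{0, 0, 0} k G}
    (φ : A →ₗ[k] B) (hφ : ∀ (g : G) (a : A), φ (A.ρ (f g) a) = B.ρ g (φ a))
    (x : LH2 (localLevels rH) A) :
    continuousH2Map f hf φ hφ (LH2equiv rH A x)
      = LH2equiv rG B (LH2map φ (compat_local_local rH rG f hf) hφ x) := by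
  obtain ⟨z, rfl⟩ := LH2.mk_surjective x
  rfl

/-- The frozen `continuousH2MapHom` is `LH2map` under the dictionary. -/
theorem continuousH2MapHom_LH2equiv {G : Type} [Group G] (r : G →* GQ) {A B : Rep.{0, 0, 0} k G}
    (φ : A ⟶ B) (x : LH2 (localLevels r) A) :
    continuousH2MapHom r φ (LH2equiv r A x)
      = LH2equiv r B (LH2map φ.hom.toLinearMap (localLevels r).compat_id
          (fun g a => Rep.hom_comm_apply φ g a) x) := by
  obtain ⟨z, rfl⟩ := LH2.mk_surjective x
  rfl

/-- The push-forward `helper5036.h2LinS` on `continuousH2S` is `LH2map` under the dictionary. -/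
theorem h2LinS_LH2equivS {A B : Rep.{0, 0, 0} k GQ} (φ : A →ₗ[k] B)
    (hφ : ∀ (g : GQ) (a : A), φ (A.ρ g a) = B.ρ g (φ a)) (x : LH2 (globalLevels S) A) :
    helper5036.h2LinS S φ hφ (LH2equivS S A x)
      = LH2equivS S B (LH2map φ (globalLevels S).compat_id hφ x) := by
  obtain ⟨z, rfl⟩ := LH2.mk_surjective x
  rfl

/-- The frozen localisation `locRes` on `H1` is `resH1` under the dictionary. -/
theorem locRes_h1EquivS (M : Rep.{0, 0, 0} k GQ) {Γ : Type} [Group Γ] (r : Γ →* GQ)
    (x : LH1 (globalLevels S) M) :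
    (groupCohomology.map r (𝟙 (Rep.res r M)) 1).hom ((h1EquivS S M x : ↥(continuousH1S S M)) : H1 M)
      = ((h1Equiv r (Rep.res r M) (resH1 (compat_global_local S r) M x) :
          ↥(continuousH1 r (Rep.res r M))) : H1 (Rep.res r M)) := by
  obtain ⟨z, rfl⟩ := LH1.mk_surjective x
  exact map_toH1 (compat_global_local S r) (𝟙 (Rep.res r M)) z

end MapsFrozen

/-! ### Smoothness -/

section Smooth

variable {k : Type} [CommRing k] (S : Finset Nat.Primes)

theorem smooth_globalLevels_iff (M : Rep.{0, 0, 0} k GQ) :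
    (globalLevels S).Smooth M ↔ ∀ m : M, ∃ F : IntermediateField ℚ Qb,
      F.IsUnramifiedOutside S ∧ ∀ s ∈ F.fixingSubgroup, M.ρ s m = m :=
  fieldLevels_smooth_iff (sClass S) (MonoidHom.id GQ) M

theorem smooth_localLevels_iff {Γ : Type} [Group Γ] (r : Γ →* GQ) (A : Rep.{0, 0, 0} k Γ) :
    (localLevels r).Smooth A ↔ ∀ a : A, ∃ F : IntermediateField ℚ Qb,
      FiniteDimensional ℚ F ∧ ∀ s : Γ, r s ∈ F.fixingSubgroup → A.ρ s a = a :=
  fieldLevels_smooth_iff finClass r A

/-- **The frozen hypotheses give smoothness for the `S`-levels.** A finite module with open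
stabilisers on which the inertia groups outside `S` act trivially is smooth for
`globalLevels S`. -/
theorem smooth_globalLevels (M : Rep.{0, 0, 0} k GQ) [Module.Finite k M]
    (hsm : ∀ m : M, ∃ F : IntermediateField ℚ Qb, FiniteDimensional ℚ F ∧
      ∀ s ∈ F.fixingSubgroup, M.ρ s m = m)
    (hMur : ∀ q : Nat.Primes, q ∉ S → ∀ A : ValuationSubring Qb,
      A.LiesOverPrime (q : ℕ) → ∀ g ∈ A.inertiaSubgroupIn ℚ, M.ρ g = 1) :
    (globalLevels S).Smooth M := by
  obtain ⟨K, hK, -, -, -, hKρ⟩ := helper4039.exists_splitting_sfield M.ρ hsm hMur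
  refine (smooth_globalLevels_iff S M).2 fun m => ⟨K, hK, fun s hs => ?_⟩
  rw [(hKρ s).1 hs]
  rfl

/-- Restrictions of `S`-smooth modules are smooth for the local levels. -/
theorem smooth_localLevels_res {M : Rep.{0, 0, 0} k GQ} (hM : (globalLevels S).Smooth M)
    {Γ : Type} [Group Γ] (r : Γ →* GQ) : (localLevels r).Smooth (Rep.res r M) :=
  hM.of_compat (compat_global_local S r)

/-- Restrictions of modules with open stabilisers are smooth for the local levels. -/
theorem smooth_localLevels_res_of_hsm (M : Rep.{0, 0, 0} k GQ)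
    (hsm : ∀ m : M, ∃ F : IntermediateField ℚ Qb, FiniteDimensional ℚ F ∧
      ∀ s ∈ F.fixingSubgroup, M.ρ s m = m)
    {Γ : Type} [Group Γ] (r : Γ →* GQ) : (localLevels r).Smooth (Rep.res r M) := by
  rw [smooth_localLevels_iff]
  intro a
  obtain ⟨F, hF, h⟩ := hsm a
  exact ⟨F, hF, fun s hs => h (r s) hs⟩

end Smooth

end Fermat.Agent.S55.helper235
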