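import Mathlib
import Fermat.Prelude.Def_GroupCohomology_ContinuousUnramified
import Fermat.Agent.S55.helper7486_LevelCoh
import Fermat.Agent.S55.helper5178_Sylow
import Fermat.Agent.S55.helper2598_Frame
import Fermat.Agent.S55.helper235_FrameMaps
import Fermat.Agent.S55.helper3071_GBTransport
import Fermat.Agent.S55.helper62_GBShapiro
import Fermat.Agent.S55.helper1702_FiniteH2
import Fermat.Agent.S55.helper1826_GEField

/-!
# S55, leaf FW-CHI2SUB (emergency copy, helper1161): submultiplicativity of `χ` in `p`-layers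

Abstract part (any level system `𝓛 : helper7486.Levels G`, coefficients `ZMod p`).

* `chi_coind_le` : for a subgroup `H ≤ G` and a finite `p`-power `H`-module `W`,
  `χ(coind_H^G W) ≤ dim W * χ(coind_H^G 𝔽_p)` (unipotent induction + subadditivity of `χ`).
* `coindTrans` : transitivity of coinduction in the function model,
  `coind_N^G 𝔽_p ≃ coind_H^G (coind_N^H 𝔽_p)` for `N ≤ H ≤ G`.
* `finrank_permRep` : `dim coind_N^H 𝔽_p = [H : N]`.
* `chi_coind_sub_le` : if `N ≤ H`, `N` normal in `H` of index `p ^ t`, then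
  `χ(coind_N^G 𝔽_p) ≤ p ^ t * χ(coind_H^G 𝔽_p)`.
-/

set_option autoImplicit false

noncomputable section

namespace Fermat.Agent.S55.helper1161

open groupCohomology

section Abstract

variable {p : ℕ} [Fact p.Prime] {G : Type} [Group G]

/-- The class of modules on which the truncated Euler characteristic calculus runs: finite
modules, smooth for the level system, with finite-dimensional `LH1` and `LH2`. -/
def ChiGood (𝓛 : helper7486.Levels G) (M : Rep.{0, 0, 0} (ZMod p) G) : Prop :=
  Module.Finite (ZMod p) M ∧ 𝓛.Smooth M ∧ FiniteDimensional (ZMod p) (helper7486.LH1 𝓛 M) ∧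
    FiniteDimensional (ZMod p) (helper7486.LH2 𝓛 M)

/-- In an extension `0 → 𝔽_p → W → W' → 0` the dimension goes up by one. -/
lemma finrank_eq_succ_of_exact {H : Type} [Group H] {W W' : Rep.{0, 0, 0} (ZMod p) H}
    [Module.Finite (ZMod p) W] (i : Rep.trivial (ZMod p) H (ZMod p) ⟶ W) (q : W ⟶ W')
    (hi : Function.Injective i.hom) (hq : Function.Surjective q.hom)
    (hex : Function.Exact i.hom q.hom) :
    Module.finrank (ZMod p) W = Module.finrank (ZMod p) W' + 1 := by
  have h := helper7486.finrank_eq_add_of_exact (k := ZMod p) (f := i.hom.toLinearMap)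
    (g := q.hom.toLinearMap) hex
  have h1 : Module.finrank (ZMod p) (LinearMap.range i.hom.toLinearMap) = 1 := by
    rw [LinearMap.finrank_range_of_inj hi]
    exact Module.finrank_self _
  have h2 : Module.finrank (ZMod p) (LinearMap.range q.hom.toLinearMap) =
      Module.finrank (ZMod p) W' := by
    rw [LinearMap.range_eq_top.mpr hq, finrank_top]
  omega

/-- **Unipotent bound.** `χ(coind_H^G W) ≤ dim W * χ(coind_H^G 𝔽_p)` for every finite `p`-power
`H`-module `W`, as soon as all the coinduced modules in sight are in the class `ChiGood`. -/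
theorem chi_coind_le (𝓛 : helper7486.Levels G) (H : Subgroup G) (T : Set H)
    (hgood : ∀ W : Rep.{0, 0, 0} (ZMod p) H, Module.Finite (ZMod p) W → (∀ t ∈ T, W.ρ t = 1) →
      ChiGood 𝓛 (Rep.coind H.subtype W))
    (W : Rep.{0, 0, 0} (ZMod p) H) [Module.Finite (ZMod p) W] (hW : helper5178.IsPPower p W)
    (hT : ∀ t ∈ T, W.ρ t = 1) :
    helper7486.chi 𝓛 (Rep.coind H.subtype W) ≤
      (Module.finrank (ZMod p) W : ℤ) *
        helper7486.chi 𝓛 (Rep.coind H.subtype (Rep.trivial (ZMod p) H (ZMod p))) := by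
  refine helper5178.unipotent_induction (p := p) T
    (fun W => helper7486.chi 𝓛 (Rep.coind H.subtype W) ≤
      (Module.finrank (ZMod p) W : ℤ) *
        helper7486.chi 𝓛 (Rep.coind H.subtype (Rep.trivial (ZMod p) H (ZMod p)))) ?_ ?_ W hW hT
  · intro W hW
    have := helper5178.subsingleton_coind H W hW
    rw [helper7486.chi_of_subsingleton, Module.finrank_zero_of_subsingleton]
    simp
  · intro W W' i q hfW hfW' _ _ hTW hTW' hi hq hex ih
    obtain ⟨hA1, hA2, hA3, hA4⟩ :=
      hgood (Rep.trivial (ZMod p) H (ZMod p)) inferInstance (fun t _ => rfl)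
    obtain ⟨hB1, hB2, hB3, hB4⟩ := hgood W hfW hTW
    obtain ⟨hC1, hC2, hC3, hC4⟩ := hgood W' hfW' hTW'
    let E := helper7486.SES.ofHom (Rep.coindMap H.subtype i) (Rep.coindMap H.subtype q)
      (helper5178.coindMap_injective H i hi) (helper5178.coindMap_surjective H q hq)
      (helper5178.coindMap_exact H i q hi hex)
    have hle := E.chi_le (𝓛 := 𝓛) hB2
    have hrk := finrank_eq_succ_of_exact i q hi hq hex
    rw [hrk]
    push_cast
    linarith

end Abstract

section Trans

variable (k : Type) [CommRing k] {G : Type} [Group G] (N H : Subgroup G)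

/-- The permutation module `k[N\H]` of `H` in its function model `coind_{N ∩ H}^H k`. -/
abbrev permRep : Rep.{0, 0, 0} k H :=
  Rep.coind (N.subgroupOf H).subtype (Rep.trivial k (N.subgroupOf H) k)

/-- The induced module `coind_N^G k` (functions on `N\G`). -/
abbrev permG : Rep.{0, 0, 0} k G :=
  Rep.coind N.subtype (Rep.trivial k N k)

variable {k N H}

lemma permG_apply_mul (f : permG k N) (n : G) (hn : n ∈ N) (g : G) :
    f.1 (n * g) = f.1 g :=
  f.2 ⟨n, hn⟩ g

lemma permRep_apply_mul (w : permRep k N H) (n : H) (hn : (n : G) ∈ N) (x : H) :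
    w.1 (n * x) = w.1 x :=
  w.2 ⟨n, Subgroup.mem_subgroupOf.2 hn⟩ x

lemma coind_apply_mul {A : Rep.{0, 0, 0} k H} (F : Rep.coind H.subtype A) (h : H) (g : G) :
    F.1 ((h : G) * g) = A.ρ h (F.1 g) :=
  F.2 h g

lemma coind_ρ_apply {Γ : Type} [Group Γ] (φ : Γ →* G) {A : Rep.{0, 0, 0} k Γ}
    (F : Rep.coind φ A) (γ g : G) :
    ((Rep.coind φ A).ρ γ F).1 g = F.1 (g * γ) := rfl

variable (k N H)

/-- Transitivity of coinduction, forward map: `f ↦ (g ↦ (x ↦ f (x * g)))`. -/
def coindTransFun (f : permG k N) : Rep.coind H.subtype (permRep k N H) :=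
  ⟨fun g => ⟨fun x : H => f.1 ((x : G) * g), fun n x => by
      show f.1 (((n : H) * x : H) * g) = f.1 ((x : G) * g)
      have hn : ((n : H) : G) ∈ N := Subgroup.mem_subgroupOf.1 n.2
      rw [Subgroup.coe_mul, mul_assoc]
      exact permG_apply_mul f _ hn _⟩,
    fun h g => by
      apply Subtype.ext
      funext x
      show f.1 ((x : G) * ((h : G) * g)) = f.1 (((x * h : H) : G) * g)
      rw [Subgroup.coe_mul, mul_assoc]⟩

/-- Transitivity of coinduction, inverse map: `F ↦ (g ↦ F g 1)`. -/
def coindTransInv (hNH : N ≤ H) (F : Rep.coind H.subtype (permRep k N H)) : permG k N :=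
  ⟨fun g => (F.1 g).1 1, fun n g => by
    show (F.1 ((n : G) * g)).1 1 = (F.1 g).1 1
    have h1 := coind_apply_mul F ⟨(n : G), hNH n.2⟩ g
    have h2 : (F.1 ((n : G) * g)) = (permRep k N H).ρ ⟨(n : G), hNH n.2⟩ (F.1 g) := h1
    rw [h2, coind_ρ_apply, one_mul]
    have h3 := permRep_apply_mul (F.1 g) ⟨(n : G), hNH n.2⟩ n.2 1
    rwa [mul_one] at h3⟩

/-- **Transitivity of coinduction** (function model): `coind_N^G k ≃ coind_H^G (coind_N^H k)`. -/
def coindTrans (hNH : N ≤ H) : permG k N ≃ₗ[k] Rep.coind H.subtype (permRep k N H) where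
  toFun := coindTransFun k N H
  map_add' f f' := by
    apply Subtype.ext
    funext g
    apply Subtype.ext
    funext x
    rfl
  map_smul' c f := by
    apply Subtype.ext
    funext g
    apply Subtype.ext
    funext x
    rfl
  invFun := coindTransInv k N H hNH
  left_inv f := by
    apply Subtype.ext
    funext g
    show f.1 (((1 : H) : G) * g) = f.1 g
    rw [Subgroup.coe_one, one_mul]
  right_inv F := by
    apply Subtype.ext
    funext g
    apply Subtype.ext
    funext x
    show (F.1 ((x : G) * g)).1 1 = (F.1 g).1 x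
    have h1 : (F.1 ((x : G) * g)) = (permRep k N H).ρ x (F.1 g) := coind_apply_mul F x g
    rw [h1, coind_ρ_apply, one_mul]

lemma coindTrans_ρ (hNH : N ≤ H) (γ : G) (f : permG k N) :
    coindTrans k N H hNH ((permG k N).ρ γ f) =
      (Rep.coind H.subtype (permRep k N H)).ρ γ (coindTrans k N H hNH f) := by
  apply Subtype.ext
  funext g
  apply Subtype.ext
  funext x
  show f.1 ((x : G) * g * γ) = f.1 ((x : G) * (g * γ))
  rw [mul_assoc]

end Trans

section Dim

variable (k : Type) [Field k] {H : Type} [Group H] (N : Subgroup H)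

/-- `coind_N^H k` is the space of functions on the right cosets `N\H`. -/
def coindTrivEquiv :
    (Rep.coind N.subtype (Rep.trivial k N k)) ≃ₗ[k] (Quotient (QuotientGroup.rightRel N) → k) where
  toFun w := fun q => Quotient.liftOn' q w.1 (fun a b hab => by
    have h1 : b * a⁻¹ ∈ N := QuotientGroup.rightRel_apply.1 hab
    have h2 := w.2 ⟨b * a⁻¹, h1⟩ a
    have h3 : w.1 (b * a⁻¹ * a) = w.1 a := h2
    rw [inv_mul_cancel_right] at h3
    exact h3.symm)
  map_add' w w' := by
    funext q
    induction q using Quotient.inductionOn' with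
    | h a => rfl
  map_smul' c w := by
    funext q
    induction q using Quotient.inductionOn' with
    | h a => rfl
  invFun φ := ⟨fun x => φ (Quotient.mk'' x), fun n x => by
    show φ (Quotient.mk'' ((n : H) * x)) = φ (Quotient.mk'' x)
    congr 1
    apply Quotient.sound'
    rw [QuotientGroup.rightRel_apply]
    have : x * ((n : H) * x)⁻¹ = (n : H)⁻¹ := by group
    rw [this]
    exact N.inv_mem n.2⟩
  left_inv w := by
    apply Subtype.ext
    funext x
    rfl
  right_inv φ := by
    funext q
    induction q using Quotient.inductionOn' with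
    | h a => rfl

/-- `dim coind_N^H k = [H : N]`. -/
theorem finrank_coind_trivial [N.FiniteIndex] :
    Module.finrank k (Rep.coind N.subtype (Rep.trivial k N k)) = N.index := by
  have : Finite (H ⧸ N) := Subgroup.finite_quotient_of_finiteIndex
  have : Finite (Quotient (QuotientGroup.rightRel N)) :=
    Finite.of_equiv _ (QuotientGroup.quotientRightRelEquivQuotientLeftRel N).symm
  have : Fintype (Quotient (QuotientGroup.rightRel N)) := Fintype.ofFinite _
  rw [(coindTrivEquiv k N).finrank_eq, Module.finrank_fintype_fun_eq_card, ← Nat.card_eq_fintype_card,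
    Nat.card_congr (QuotientGroup.quotientRightRelEquivQuotientLeftRel N), Subgroup.index_eq_card]

end Dim

section Layer

variable {p : ℕ} [Fact p.Prime] {G : Type} [Group G]

/-- **`χ` is submultiplicative in a `p`-layer.** Let `N ≤ H ≤ G` with `N` normal in `H` of index
`p ^ t`. If every `coind_H^G W` (`W` a finite `H`-module on which `N` acts trivially) is in the
class `ChiGood`, then `χ(coind_N^G 𝔽_p) ≤ p ^ t * χ(coind_H^G 𝔽_p)`. -/
theorem chi_coind_sub_le (𝓛 : helper7486.Levels G) (N H : Subgroup G) (hNH : N ≤ H)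
    [hnorm : (N.subgroupOf H).Normal] (t : ℕ) (hidx : (N.subgroupOf H).index = p ^ t)
    (hgood : ∀ W : Rep.{0, 0, 0} (ZMod p) H, Module.Finite (ZMod p) W →
      (∀ x : H, (x : G) ∈ N → W.ρ x = 1) → ChiGood 𝓛 (Rep.coind H.subtype W)) :
    helper7486.chi 𝓛 (permG (ZMod p) N) ≤
      (p ^ t : ℤ) * helper7486.chi 𝓛 (permG (ZMod p) H) := by
  have hp : p.Prime := Fact.out
  have hfi : (N.subgroupOf H).FiniteIndex := ⟨by rw [hidx]; exact pow_ne_zero _ hp.ne_zero⟩
  have hfin : Module.Finite (ZMod p) (permRep (ZMod p) N H) :=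
    helper5178.finite_coind (N.subgroupOf H) (Rep.trivial (ZMod p) (N.subgroupOf H) (ZMod p))
  have htriv : ∀ x : H, (x : G) ∈ N → (permRep (ZMod p) N H).ρ x = 1 := fun x hx =>
    helper5178.coind_ρ_eq_one (N.subgroupOf H) (N.subgroupOf H) le_rfl
      (Rep.trivial (ZMod p) (N.subgroupOf H) (ZMod p)) (fun _ _ => rfl)
      (Subgroup.mem_subgroupOf.2 hx)
  have hpp : helper5178.IsPPower p (permRep (ZMod p) N H) := by
    intro x
    refine ⟨t, htriv _ ?_⟩
    have := Subgroup.pow_index_mem (N.subgroupOf H) x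
    rw [hidx] at this
    exact Subgroup.mem_subgroupOf.1 this
  have key := chi_coind_le 𝓛 H {x : H | (x : G) ∈ N} (fun W hW hT => hgood W hW hT)
    (permRep (ZMod p) N H) hpp (fun x hx => htriv x hx)
  rw [finrank_coind_trivial (ZMod p) (N.subgroupOf H), hidx] at key
  rw [helper7486.chi_congr (𝓛 := 𝓛) (coindTrans (ZMod p) N H hNH) (coindTrans_ρ (ZMod p) N H hNH)]
  exact_mod_cast key

end Layer

section Frozen

open helper3071 helper2598 ExtCitation

local notation "Qb" => AlgebraicClosure ℚ
local notation "GQ" => (AlgebraicClosure ℚ ≃ₐ[ℚ] AlgebraicClosure ℚ)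

/-- `χ` of the induced module `coind_F 𝔽_p` for the global `S`-levels, in terms of the field-level
cohomology of the global bridge: `χ = 1 - h¹(F) + h²(F)`. -/
theorem chi_indRep (S : Finset Nat.Primes) (p : ℕ) (hp : p.Prime)
    (F : IntermediateField ℚ Qb) (h1 : Sh1 S p F) (h2 : Sh2 S p F) :
    haveI : Fact p.Prime := ⟨hp⟩
    helper7486.chi (globalLevels S) (indRep p F) =
      1 - (Module.finrank (ZMod p) (fieldH1 S p F) : ℤ) +
        Module.finrank (ZMod p) (fieldH2 S p F) := by
  have : Fact p.Prime := ⟨hp⟩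
  unfold helper7486.chi
  rw [finrank_invariants_indRep p F hp, (helper235.h1EquivS S (indRep p F)).finrank_eq,
    h1.finrank_eq, (LH2equivS S (indRep p F)).finrank_eq, h2.finrank_eq]
  simp

/-- **FW-CHI2SUB.** `Stmt_Chi2Sub` of the global bridge from `Stmt_FieldFin`:
`χ₂(K') ≤ p ^ t * χ₂(K)` for a Galois layer `K'/K` of degree `p ^ t` of `S`-fields. -/
theorem stmt_Chi2Sub_of (hFF : Stmt_FieldFin) : Stmt_Chi2Sub := by
  intro S p K K' t hK hK'u hG
  have hp : p.Prime := hK.prime
  have : Fact p.Prime := ⟨hp⟩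
  obtain ⟨hle, hnorm, hdeg⟩ := hG
  have hpS : pPrime p ∈ S := by
    obtain ⟨q, hq, hqp⟩ := hK.mem
    have : q = pPrime p := Subtype.ext hqp
    rwa [← this]
  have hKfd : FiniteDimensional ℚ K := hK.unram.1
  have hfiK : K.fixingSubgroup.FiniteIndex := helper4039.finiteIndex_fixingSubgroup K
  -- the index of the layer
  have hidx : (K'.fixingSubgroup.subgroupOf K.fixingSubgroup).index = p ^ t := by
    have h1 := helper1826.finrank_eq_index_mul_finrank hle
    rw [hdeg] at h1
    have hpos : 0 < Module.finrank ℚ K := Module.finrank_pos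
    exact (Nat.eq_of_mul_eq_mul_right hpos h1).symm
  -- a Galois `S`-field containing `K'`
  obtain ⟨L, hK'L, hL, -, hLn⟩ := helper4039.exists_normal_ge hK'u
  have hLK' : L.fixingSubgroup ≤ K'.fixingSubgroup := IntermediateField.fixingSubgroup_antitone hK'L
  have hK'K : K'.fixingSubgroup ≤ K.fixingSubgroup := IntermediateField.fixingSubgroup_antitone hle
  have hFin := helper1702.stmt_FinOne_of hFF helper62.stmt_Shapiro (p := p) hK.odd S hpS
  -- the class of modules
  have hgood : ∀ W : Rep.{0, 0, 0} (ZMod p) K.fixingSubgroup, Module.Finite (ZMod p) W →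
      (∀ x : K.fixingSubgroup, (x : GQ) ∈ K'.fixingSubgroup → W.ρ x = 1) →
      ChiGood (globalLevels S) (Rep.coind K.fixingSubgroup.subtype W) := by
    intro W hW hWt
    have hfin : Module.Finite (ZMod p) (Rep.coind K.fixingSubgroup.subtype W) :=
      helper5178.finite_coind K.fixingSubgroup W
    have htriv : ∀ s ∈ L.fixingSubgroup, (Rep.coind K.fixingSubgroup.subtype W).ρ s = 1 :=
      fun s hs => helper5178.coind_ρ_eq_one K.fixingSubgroup L.fixingSubgroup (hLK'.trans hK'K) W
        (fun n hn => hWt _ (hLK' hn)) hs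
    have hsm : (globalLevels S).Smooth (Rep.coind K.fixingSubgroup.subtype W) :=
      (helper235.smooth_globalLevels_iff S _).2 fun m => ⟨L, hL, fun s hs => by
        rw [htriv s hs]; rfl⟩
    have hSM : helper2945.IsSMod S (Rep.coind K.fixingSubgroup.subtype W) :=
      ⟨hfin, fun m => ⟨L, hL.1, fun s hs => by rw [htriv s hs]; rfl⟩,
        fun q hq A hA g hg => htriv g (hL.2 q hq A hA hg)⟩
    obtain ⟨hf1, hf2⟩ := hFin _ hSM
    exact ⟨hfin, hsm, Module.Finite.equiv (helper235.h1EquivS S _).symm,
      Module.Finite.equiv (LH2equivS S _).symm⟩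
  have key := chi_coind_sub_le (globalLevels S) K'.fixingSubgroup K.fixingSubgroup hK'K t hidx hgood
  have hSh := helper62.stmt_Shapiro S p K hp hK.unram
  have hSh' := helper62.stmt_Shapiro S p K' hp hK'u
  have e1 := chi_indRep S p hp K hSh.1 hSh.2
  have e2 := chi_indRep S p hp K' hSh'.1 hSh'.2
  change helper7486.chi (globalLevels S) (indRep p K') ≤
    (p ^ t : ℤ) * helper7486.chi (globalLevels S) (indRep p K) at key
  rw [e1, e2] at key
  unfold Chi2Sub
  have key' : (1 + (Module.finrank (ZMod p) (fieldH2 S p K') : ℤ) +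
      (p ^ t : ℤ) * Module.finrank (ZMod p) (fieldH1 S p K)) ≤
      (p ^ t : ℤ) * (1 + Module.finrank (ZMod p) (fieldH2 S p K)) +
        Module.finrank (ZMod p) (fieldH1 S p K') := by
    linarith
  exact_mod_cast key'

end Frozen

end Fermat.Agent.S55.helper1161
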