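/-
S55 (Poitou–Tate), local soft layer, leaf LS-CHI (backup copy).  Author: helper1610.

Fused Mackey + Shapiro in degrees 0 and 1 for a representation with a `G`-permuted basis
(every model of `k[G/H]`), on the frozen level-constant carriers.
-/
import Mathlib
import Fermat.Prelude.Def_GroupCohomology_ContinuousUnramified
import Fermat.Prelude.Def_GroupCohomology_Selmer

set_option autoImplicit false

noncomputable section

namespace Fermat.Agent.S55.helper1610

open groupCohomology Module

universe u

/-! ## Orbits, representatives and a section -/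

section Orbits

variable (G : Type*) {X : Type*} [Group G] [MulAction G X]

/-- The orbit class of a point. -/
def cls (x : X) : MulAction.orbitRel.Quotient G X := Quotient.mk (MulAction.orbitRel G X) x

/-- The chosen representative of an orbit. -/
def rp (o : MulAction.orbitRel.Quotient G X) : X := Quotient.out o

variable {G}

theorem cls_smul (g : G) (x : X) : cls G (g • x) = cls G x :=
  Quotient.sound (show g • x ∈ MulAction.orbit G x from ⟨g, rfl⟩)

theorem cls_rp (o : MulAction.orbitRel.Quotient G X) : cls G (rp G o) = o := Quotient.out_eq o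

theorem exists_smul_rp (x : X) : ∃ g : G, g • rp G (cls G x) = x := by
  have h : rp G (cls G x) ∈ MulAction.orbit G x :=
    Quotient.mk_out (s := MulAction.orbitRel G X) x
  obtain ⟨g, hg⟩ := h
  exact ⟨g⁻¹, by rw [← hg, inv_smul_smul]⟩

variable (G)

/-- A section: `sec G x` moves the representative of the orbit of `x` to `x`. -/
def sec (x : X) : G := (exists_smul_rp (G := G) x).choose

variable {G}

theorem sec_smul (x : X) : sec G x • rp G (cls G x) = x := (exists_smul_rp (G := G) x).choose_spec

theorem sec_inv_smul (x : X) : (sec G x)⁻¹ • x = rp G (cls G x) := by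
  rw [inv_smul_eq_iff]
  exact (sec_smul (G := G) x).symm

/-- The basic element of the stabiliser attached to `g` and `y`. -/
theorem transv_mem (g : G) (y : X) :
    (sec G y)⁻¹ * g * sec G (g⁻¹ • y) ∈ MulAction.stabilizer G (rp G (cls G y)) := by
  rw [MulAction.mem_stabilizer_iff, mul_smul, mul_smul]
  have h1 : sec G (g⁻¹ • y) • rp G (cls G y) = g⁻¹ • y := by
    have := sec_smul (G := G) (g⁻¹ • y)
    rwa [cls_smul] at this
  rw [h1, smul_inv_smul, sec_inv_smul]

theorem sec_rp_mem (o : MulAction.orbitRel.Quotient G X) :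
    sec G (rp G o) ∈ MulAction.stabilizer G (rp G o) := by
  rw [MulAction.mem_stabilizer_iff]
  have := sec_smul (G := G) (rp G o)
  rwa [cls_rp] at this

end Orbits

/-! ## Coordinates in a permuted basis -/

section PermBasis

variable {k G : Type u} [CommRing k] [Group G] (A : Rep k G)
  {X : Type u} [Fintype X] [MulAction G X] (b : Basis X k A)

omit [Fintype X] in
/-- Coordinates of `ρ g m` in a permuted basis. -/
theorem repr_ρ (hb : ∀ (g : G) (x : X), A.ρ g (b x) = b (g • x)) (g : G) (m : A) (x : X) :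
    b.repr (A.ρ g m) x = b.repr m (g⁻¹ • x) := by
  classical
  have h : (Finsupp.lapply x ∘ₗ b.repr.toLinearMap ∘ₗ A.ρ g) =
      (Finsupp.lapply (g⁻¹ • x) ∘ₗ b.repr.toLinearMap) := by
    apply b.ext
    intro y
    simp only [LinearMap.coe_comp, LinearEquiv.coe_coe, Function.comp_apply, hb,
      Basis.repr_self, Finsupp.lapply_apply, Finsupp.single_apply]
    by_cases h1 : g • y = x
    · rw [if_pos h1, if_pos (by rw [← h1, inv_smul_smul])]
    · rw [if_neg h1, if_neg (fun h2 => h1 (by rw [h2, smul_inv_smul]))]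
  exact LinearMap.congr_fun h m

/-- Coordinates of `ρ g m`, function form. -/
theorem equivFun_ρ (hb : ∀ (g : G) (x : X), A.ρ g (b x) = b (g • x)) (g : G) (m : A) (x : X) :
    b.equivFun (A.ρ g m) x = b.equivFun m (g⁻¹ • x) := by
  simp only [Basis.equivFun_apply]
  exact repr_ρ A b hb g m x

/-- Invariant vectors are those whose coordinates are constant on orbits. -/
theorem mem_invariants_iff (hb : ∀ (g : G) (x : X), A.ρ g (b x) = b (g • x)) (m : A) :
    m ∈ A.ρ.invariants ↔ ∀ (g : G) (x : X), b.equivFun m (g • x) = b.equivFun m x := by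
  rw [Representation.mem_invariants]
  constructor
  · intro h g x
    have := equivFun_ρ A b hb g⁻¹ m x
    rw [h g⁻¹, inv_inv] at this
    exact this.symm
  · intro h g
    apply b.equivFun.injective
    funext x
    rw [equivFun_ρ A b hb, h]

/-- `H⁰` of a permutation representation: functions on the set of orbits. -/
def invariantsEquiv (hb : ∀ (g : G) (x : X), A.ρ g (b x) = b (g • x)) :
    A.ρ.invariants ≃ₗ[k] (MulAction.orbitRel.Quotient G X → k) where
  toFun m o := b.equivFun m.1 (rp G o)
  map_add' m m' := by funext o; simp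
  map_smul' c m := by funext o; simp
  invFun f := ⟨b.equivFun.symm (fun x => f (cls G x)), by
    rw [mem_invariants_iff A b hb]
    intro g x
    simp only [LinearEquiv.apply_symm_apply, cls_smul]⟩
  left_inv m := by
    apply Subtype.ext
    apply b.equivFun.injective
    funext x
    simp only [LinearEquiv.apply_symm_apply]
    have h := (mem_invariants_iff A b hb m.1).1 m.2 (sec G x) (rp G (cls G x))
    rw [sec_smul] at h
    exact h.symm
  right_inv f := by
    funext o
    simp only [LinearEquiv.apply_symm_apply, cls_rp]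

end PermBasis

/-! ## Shapiro–Mackey in degree one on the frozen level carriers -/

section H1

variable {k G : Type u} [CommRing k] [Group G]
  (r : G →* (AlgebraicClosure ℚ ≃ₐ[ℚ] AlgebraicClosure ℚ)) (A : Rep k G)
  {X : Type u} [Fintype X] [MulAction G X] (b : Basis X k A)
  (hb : ∀ (g : G) (x : X), A.ρ g (b x) = b (g • x))

/-- The stabiliser of the representative of an orbit. -/
abbrev St (o : MulAction.orbitRel.Quotient G X) : Subgroup G := MulAction.stabilizer G (rp G o)

/-- The restriction of `r` to the stabiliser. -/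
abbrev rSt (o : MulAction.orbitRel.Quotient G X) :
    ↥(St (G := G) o) →* (AlgebraicClosure ℚ ≃ₐ[ℚ] AlgebraicClosure ℚ) :=
  r.comp (St o).subtype

/-- Trivial coefficients on the stabiliser. -/
abbrev Tr (k : Type u) [CommRing k] (o : MulAction.orbitRel.Quotient G X) :
    Rep k ↥(St (G := G) o) :=
  Rep.trivial k ↥(St o) k

/-- Evaluation at the representative of an orbit: a level 1-cocycle of `A` gives a level
homomorphism on the stabiliser. -/
def evalAt (o : MulAction.orbitRel.Quotient G X) :
    ↥(levelCocycles₁ r A) →ₗ[k] ↥(levelCocycles₁ (rSt r o) (Tr k o)) where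
  toFun c := ⟨⟨fun h => b.equivFun (c.1.1 h.1) (rp G o), by
      rw [mem_cocycles₁_iff]
      intro h h'
      have hc := (mem_cocycles₁_iff c.1.1).1 c.1.2 h.1 h'.1
      have hh : (h.1)⁻¹ • rp G o = rp G o := MulAction.mem_stabilizer_iff.1 (inv_mem h.2)
      show b.equivFun (c.1.1 (h.1 * h'.1)) (rp G o) =
        b.equivFun (c.1.1 h'.1) (rp G o) + b.equivFun (c.1.1 h.1) (rp G o)
      rw [hc, map_add, Pi.add_apply, equivFun_ρ A b hb, hh]⟩, by
      obtain ⟨F, hF, h⟩ := c.2
      exact ⟨F, hF, fun g s hs => by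
        show b.equivFun (c.1.1 (g.1 * s.1)) (rp G o) = b.equivFun (c.1.1 g.1) (rp G o)
        rw [show c.1.1 (g.1 * s.1) = c.1.1 g.1 from h g.1 s.1 hs]⟩⟩
  map_add' c c' := by
    apply Subtype.ext; apply Subtype.ext; funext h
    show b.equivFun ((c + c').1.1 h.1) (rp G o) =
      b.equivFun (c.1.1 h.1) (rp G o) + b.equivFun (c'.1.1 h.1) (rp G o)
    rw [show (c + c').1.1 h.1 = c.1.1 h.1 + c'.1.1 h.1 from rfl, map_add, Pi.add_apply]
  map_smul' a c := by
    apply Subtype.ext; apply Subtype.ext; funext h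
    show b.equivFun ((a • c).1.1 h.1) (rp G o) = a • b.equivFun (c.1.1 h.1) (rp G o)
    rw [show (a • c).1.1 h.1 = a • c.1.1 h.1 from rfl, map_smul, Pi.smul_apply]

theorem evalAt_apply (o : MulAction.orbitRel.Quotient G X) (c : ↥(levelCocycles₁ r A))
    (h : ↥(St (G := G) o)) :
    (evalAt r A b hb o c).1.1 h = b.equivFun (c.1.1 h.1) (rp G o) := rfl

/-- The total evaluation map. -/
def Phi : ↥(levelCocycles₁ r A) →ₗ[k]
    (∀ o : MulAction.orbitRel.Quotient G X, ↥(levelCocycles₁ (rSt r o) (Tr k o))) :=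
  LinearMap.pi (evalAt r A b hb)

include hb in
/-- Injectivity half, raw form: a 1-cocycle whose coordinates at the orbit representatives
vanish on the stabilisers is a coboundary, and conversely. -/
theorem coords_zero_iff_coboundary (f : G → A) (hf : f ∈ cocycles₁ A) :
    (∀ (o : MulAction.orbitRel.Quotient G X) (h : ↥(St (G := G) o)),
        b.equivFun (f h.1) (rp G o) = 0) ↔ f ∈ coboundaries₁ A := by
  constructor
  · intro h0'
    refine ⟨b.equivFun.symm (fun x => - b.equivFun (f (sec G x)) x), ?_⟩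
    funext g
    apply b.equivFun.injective
    funext y
    rw [d₀₁_hom_apply, map_sub, Pi.sub_apply, equivFun_ρ A b hb, LinearEquiv.apply_symm_apply]
    -- the element of the stabiliser
    have hmem := transv_mem (G := G) g y
    set y' := g⁻¹ • y with hy'
    set t : G := (sec G y)⁻¹ * g * sec G y' with ht
    have htinv : t⁻¹ ∈ St (G := G) (cls G y) := inv_mem hmem
    have hsy : sec G y = g * (sec G y' * t⁻¹) := by
      rw [ht]; group
    have hc := (mem_cocycles₁_iff f).1 hf
    have e1 : f (sec G y) = A.ρ g (A.ρ (sec G y') (f t⁻¹) + f (sec G y')) + f g := by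
      conv_lhs => rw [hsy]
      rw [hc g, hc (sec G y')]
    have e2 : b.equivFun (A.ρ g (A.ρ (sec G y') (f t⁻¹))) y = 0 := by
      rw [equivFun_ρ A b hb, equivFun_ρ A b hb, ← hy', sec_inv_smul, hy', cls_smul]
      exact h0' (cls G y) ⟨t⁻¹, htinv⟩
    have e3 : b.equivFun (f (sec G y)) y =
        b.equivFun (f (sec G y')) y' + b.equivFun (f g) y := by
      rw [e1, map_add, Pi.add_apply, map_add, map_add, Pi.add_apply, e2, zero_add,
        equivFun_ρ A b hb]
    rw [e3]; ring
  · rintro ⟨m, hm⟩ o h
    have hh : (h.1)⁻¹ • rp G o = rp G o := MulAction.mem_stabilizer_iff.1 (inv_mem h.2)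
    rw [← hm, d₀₁_hom_apply, map_sub, Pi.sub_apply, equivFun_ρ A b hb, hh, sub_self]

/-- Two level cocycles have the same evaluations iff they differ by a coboundary. -/
theorem Phi_eq_iff (c c' : ↥(levelCocycles₁ r A)) :
    Phi r A b hb c = Phi r A b hb c' ↔ (c.1.1 - c'.1.1) ∈ coboundaries₁ A := by
  rw [← coords_zero_iff_coboundary A b hb (c.1.1 - c'.1.1) (Submodule.sub_mem _ c.1.2 c'.1.2)]
  constructor
  · intro h o s
    have h1 : b.equivFun (c.1.1 s.1) (rp G o) = b.equivFun (c'.1.1 s.1) (rp G o) :=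
      congrArg (fun F => (F o).1.1 s) h
    rw [Pi.sub_apply, map_sub, Pi.sub_apply]
    exact sub_eq_zero.2 h1
  · intro h
    funext o
    apply Subtype.ext; apply Subtype.ext; funext s
    have h1 := h o s
    rw [Pi.sub_apply, map_sub, Pi.sub_apply] at h1
    exact sub_eq_zero.1 h1

/-- Extension by zero of a family of level homomorphisms on the stabilisers. -/
def ext0 (ψ : ∀ o : MulAction.orbitRel.Quotient G X, ↥(levelCocycles₁ (rSt r o) (Tr k o)))
    (o : MulAction.orbitRel.Quotient G X) (g : G) : k := by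
  classical
  exact if hg : g ∈ St (G := G) o then ((ψ o).1.1 ⟨g, hg⟩ : k) else 0

omit [Fintype X] in
theorem ext0_of_mem (ψ : ∀ o : MulAction.orbitRel.Quotient G X, ↥(levelCocycles₁ (rSt r o) (Tr k o)))
    (o : MulAction.orbitRel.Quotient G X) (h : ↥(St (G := G) o)) :
    ext0 r ψ o h.1 = (ψ o).1.1 h := by
  unfold ext0
  rw [dif_pos h.2]

omit [Fintype X] in
theorem ext0_mul (ψ : ∀ o : MulAction.orbitRel.Quotient G X, ↥(levelCocycles₁ (rSt r o) (Tr k o)))
    (o : MulAction.orbitRel.Quotient G X) {g g' : G} (hg : g ∈ St (G := G) o)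
    (hg' : g' ∈ St (G := G) o) : ext0 r ψ o (g * g') = ext0 r ψ o g + ext0 r ψ o g' := by
  have h1 := ext0_of_mem r ψ o ⟨g, hg⟩
  have h2 := ext0_of_mem r ψ o ⟨g', hg'⟩
  have h3 := ext0_of_mem r ψ o (⟨g, hg⟩ * ⟨g', hg'⟩)
  have hc := (mem_cocycles₁_iff (ψ o).1.1).1 (ψ o).1.2 ⟨g, hg⟩ ⟨g', hg'⟩
  simp only at h1 h2
  rw [show ((⟨g, hg⟩ * ⟨g', hg'⟩ : ↥(St (G := G) o)) : G) = g * g' from rfl] at h3
  rw [h1, h2, h3, hc, add_comm]
  rfl

omit [Fintype X] in
theorem ext0_one (ψ : ∀ o : MulAction.orbitRel.Quotient G X, ↥(levelCocycles₁ (rSt r o) (Tr k o)))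
    (o : MulAction.orbitRel.Quotient G X) : ext0 r ψ o 1 = 0 := by
  have h := ext0_mul r ψ o (one_mem (St (G := G) o)) (one_mem (St (G := G) o))
  rw [mul_one] at h
  exact left_eq_add.mp h

omit [Fintype X] in
theorem ext0_level (ψ : ∀ o : MulAction.orbitRel.Quotient G X, ↥(levelCocycles₁ (rSt r o) (Tr k o)))
    (o : MulAction.orbitRel.Quotient G X) :
    ∃ F : IntermediateField ℚ (AlgebraicClosure ℚ), FiniteDimensional ℚ F ∧
      ∀ n : G, n ∈ St (G := G) o → r n ∈ F.fixingSubgroup → ext0 r ψ o n = 0 := by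
  obtain ⟨F, hF, h⟩ := (ψ o).2
  refine ⟨F, hF, fun n hn hrn => ?_⟩
  have h1 := h 1 ⟨n, hn⟩ hrn
  rw [one_mul] at h1
  have h2 := ext0_of_mem r ψ o ⟨n, hn⟩
  have h3 := ext0_of_mem r ψ o 1
  rw [show ((1 : ↥(St (G := G) o)) : G) = 1 from rfl, ext0_one] at h3
  simp only at h2
  rw [h2]
  exact h1.trans h3.symm

omit [Fintype X] in
/-- Every number field is contained in a finite extension whose fixing subgroup is normal. -/
theorem exists_finite_normal_level (F₀ : IntermediateField ℚ (AlgebraicClosure ℚ))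
    [FiniteDimensional ℚ F₀] :
    ∃ F : IntermediateField ℚ (AlgebraicClosure ℚ), F₀ ≤ F ∧ FiniteDimensional ℚ F ∧
      F.fixingSubgroup.Normal := by
  have h0 : IsAlgClosure ℚ (AlgebraicClosure ℚ) := ⟨inferInstance, AlgebraicClosure.isAlgebraic ℚ⟩
  have h0' : Normal ℚ (AlgebraicClosure ℚ) := IsAlgClosure.normal ℚ (AlgebraicClosure ℚ)
  have h0'' : IsGalois ℚ (AlgebraicClosure ℚ) := inferInstance
  have h1 : Normal ℚ (IntermediateField.normalClosure ℚ F₀ (AlgebraicClosure ℚ)) :=
    normalClosure.normal ℚ F₀ (AlgebraicClosure ℚ)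
  have h2 : IsGalois ℚ (IntermediateField.normalClosure ℚ F₀ (AlgebraicClosure ℚ)) := ⟨⟩
  exact ⟨IntermediateField.normalClosure ℚ F₀ (AlgebraicClosure ℚ), F₀.le_normalClosure,
    inferInstance, inferInstance⟩

/-- A common Galois level. -/
theorem exists_common_level
    (hX : ∀ x : X, ∃ F : IntermediateField ℚ (AlgebraicClosure ℚ), FiniteDimensional ℚ F ∧
      ∀ s : G, r s ∈ F.fixingSubgroup → s • x = x)
    (ψ : ∀ o : MulAction.orbitRel.Quotient G X, ↥(levelCocycles₁ (rSt r o) (Tr k o))) :
    ∃ F : IntermediateField ℚ (AlgebraicClosure ℚ), FiniteDimensional ℚ F ∧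
      (∀ s g : G, r s ∈ F.fixingSubgroup → r (g⁻¹ * s * g) ∈ F.fixingSubgroup) ∧
      (∀ (s : G) (x : X), r s ∈ F.fixingSubgroup → s • x = x) ∧
      (∀ (o : MulAction.orbitRel.Quotient G X) (n : G), n ∈ St (G := G) o →
        r n ∈ F.fixingSubgroup → ext0 r ψ o n = 0) := by
  classical
  choose Fx hFx hx using hX
  choose Fo hFo ho using ext0_level r ψ
  have := hFx
  have := hFo
  have : Finite (MulAction.orbitRel.Quotient G X) := Quotient.finite _
  have hfd : FiniteDimensional ℚ ↥((⨆ x, Fx x) ⊔ (⨆ o, Fo o)) :=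
    IntermediateField.finiteDimensional_sup _ _
  obtain ⟨F, hle, hF, hN⟩ := exists_finite_normal_level ((⨆ x, Fx x) ⊔ (⨆ o, Fo o))
  refine ⟨F, hF, ?_, ?_, ?_⟩
  · intro s g hs
    rw [map_mul, map_mul, map_inv]
    exact hN.conj_mem' _ hs _
  · intro s x hs
    exact hx x s (IntermediateField.fixingSubgroup_antitone
      ((le_iSup Fx x).trans (le_sup_left.trans hle)) hs)
  · intro o n hn hrn
    exact ho o n hn (IntermediateField.fixingSubgroup_antitone
      ((le_iSup Fo o).trans (le_sup_right.trans hle)) hrn)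

/-- The transversal cocycle attached to a family of level homomorphisms on the stabilisers. -/
def shapiroFun (ψ : ∀ o : MulAction.orbitRel.Quotient G X, ↥(levelCocycles₁ (rSt r o) (Tr k o)))
    (g : G) : A :=
  b.equivFun.symm (fun y => ext0 r ψ (cls G y) ((sec G y)⁻¹ * g * sec G (g⁻¹ • y)))

theorem equivFun_shapiroFun
    (ψ : ∀ o : MulAction.orbitRel.Quotient G X, ↥(levelCocycles₁ (rSt r o) (Tr k o)))
    (g : G) (y : X) :
    b.equivFun (shapiroFun r A b ψ g) y =
      ext0 r ψ (cls G y) ((sec G y)⁻¹ * g * sec G (g⁻¹ • y)) := by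
  unfold shapiroFun
  rw [LinearEquiv.apply_symm_apply]

include hb in
theorem shapiroFun_mem_cocycles
    (ψ : ∀ o : MulAction.orbitRel.Quotient G X, ↥(levelCocycles₁ (rSt r o) (Tr k o))) :
    shapiroFun r A b ψ ∈ cocycles₁ A := by
  rw [mem_cocycles₁_iff]
  intro g g'
  apply b.equivFun.injective
  funext y
  rw [map_add, Pi.add_apply, equivFun_ρ A b hb, equivFun_shapiroFun, equivFun_shapiroFun,
    equivFun_shapiroFun]
  have h1 := transv_mem (G := G) g y
  have h2 := transv_mem (G := G) g' (g⁻¹ • y)
  rw [cls_smul] at h2 ⊢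
  have e : (sec G y)⁻¹ * (g * g') * sec G ((g * g')⁻¹ • y) =
      ((sec G y)⁻¹ * g * sec G (g⁻¹ • y)) *
        ((sec G (g⁻¹ • y))⁻¹ * g' * sec G (g'⁻¹ • g⁻¹ • y)) := by
    rw [mul_inv_rev, mul_smul]; group
  rw [e, ext0_mul r ψ _ h1 h2, add_comm]

theorem shapiroFun_level
    (hX : ∀ x : X, ∃ F : IntermediateField ℚ (AlgebraicClosure ℚ), FiniteDimensional ℚ F ∧
      ∀ s : G, r s ∈ F.fixingSubgroup → s • x = x)
    (ψ : ∀ o : MulAction.orbitRel.Quotient G X, ↥(levelCocycles₁ (rSt r o) (Tr k o))) :
    IsLevelConstant₁ r (shapiroFun r A b ψ) := by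
  obtain ⟨F, hF, hconj, htriv, hzero⟩ := exists_common_level r hX ψ
  refine ⟨F, hF, fun g s hs => ?_⟩
  apply b.equivFun.injective
  funext y
  rw [equivFun_shapiroFun, equivFun_shapiroFun]
  have hsy : (g * s)⁻¹ • y = g⁻¹ • y := by
    rw [mul_inv_rev, mul_smul]
    have : r s⁻¹ ∈ F.fixingSubgroup := by rw [map_inv]; exact inv_mem hs
    exact htriv s⁻¹ _ this
  rw [hsy]
  have hn : (sec G (g⁻¹ • y))⁻¹ * s * sec G (g⁻¹ • y) ∈ St (G := G) (cls G y) := by
    rw [MulAction.mem_stabilizer_iff]
    exact htriv _ _ (hconj s _ hs)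
  have e : (sec G y)⁻¹ * (g * s) * sec G (g⁻¹ • y) =
      ((sec G y)⁻¹ * g * sec G (g⁻¹ • y)) * ((sec G (g⁻¹ • y))⁻¹ * s * sec G (g⁻¹ • y)) := by
    group
  have h1 := transv_mem (G := G) g y
  rw [e, ext0_mul r ψ _ h1 hn, hzero _ _ hn (hconj s _ hs), add_zero]

/-- Surjectivity half of Shapiro–Mackey in degree one. -/
theorem Phi_surjective
    (hX : ∀ x : X, ∃ F : IntermediateField ℚ (AlgebraicClosure ℚ), FiniteDimensional ℚ F ∧
      ∀ s : G, r s ∈ F.fixingSubgroup → s • x = x) :
    Function.Surjective (Phi r A b hb) := by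
  intro ψ
  refine ⟨⟨⟨shapiroFun r A b ψ, shapiroFun_mem_cocycles r A b hb ψ⟩,
    shapiroFun_level r A b hX ψ⟩, ?_⟩
  funext o
  apply Subtype.ext; apply Subtype.ext; funext h
  show b.equivFun (shapiroFun r A b ψ h.1) (rp G o) = (ψ o).1.1 h
  rw [equivFun_shapiroFun]
  have hh : (h.1)⁻¹ • rp G o = rp G o := MulAction.mem_stabilizer_iff.1 (inv_mem h.2)
  rw [hh, cls_rp]
  have ha := sec_rp_mem (G := G) o
  have ha' : (sec G (rp G o))⁻¹ ∈ St (G := G) o := inv_mem ha
  rw [ext0_mul r ψ o (mul_mem ha' h.2) ha, ext0_mul r ψ o ha' h.2, ext0_of_mem r ψ o h]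
  have h0 : ext0 r ψ o (sec G (rp G o))⁻¹ + ext0 r ψ o (sec G (rp G o)) = 0 := by
    rw [← ext0_mul r ψ o ha' ha, inv_mul_cancel, ext0_one]
  have h0' : ext0 r ψ o (sec G (rp G o))⁻¹ = - ext0 r ψ o (sec G (rp G o)) :=
    eq_neg_of_add_eq_zero_left h0
  rw [h0']
  exact neg_add_cancel_comm _ _

end H1

/-! ## A quotient-free first isomorphism theorem -/

section TwoSurj

variable {R V W₁ W₂ : Type*} [Semiring R] [AddCommMonoid V] [AddCommMonoid W₁] [AddCommMonoid W₂]
  [Module R V] [Module R W₁] [Module R W₂]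

/-- Two surjective linear maps with the same fibres have isomorphic targets.  (Stated with
monoid instances only, so that it applies to submodules of submodules without instance
unification problems.) -/
def equivOfSurjective (f : V →ₗ[R] W₁) (g : V →ₗ[R] W₂) (hf : Function.Surjective f)
    (hg : Function.Surjective g) (h : ∀ v v', f v = f v' ↔ g v = g v') : W₁ ≃ₗ[R] W₂ where
  toFun w := g (Function.surjInv hf w)
  map_add' w w' := by
    rw [← map_add]
    apply (h _ _).1
    rw [map_add, Function.surjInv_eq hf, Function.surjInv_eq hf, Function.surjInv_eq hf]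
  map_smul' a w := by
    rw [RingHom.id_apply, ← map_smul]
    apply (h _ _).1
    rw [map_smul, Function.surjInv_eq hf, Function.surjInv_eq hf]
  invFun w := f (Function.surjInv hg w)
  left_inv w := by
    have h1 : f (Function.surjInv hg (g (Function.surjInv hf w))) = f (Function.surjInv hf w) :=
      (h _ _).2 (Function.surjInv_eq hg _)
    exact h1.trans (Function.surjInv_eq hf w)
  right_inv w := by
    have h1 : g (Function.surjInv hf (f (Function.surjInv hg w))) = g (Function.surjInv hg w) :=
      (h _ _).1 (Function.surjInv_eq hf _)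
    exact h1.trans (Function.surjInv_eq hg w)

theorem equivOfSurjective_apply (f : V →ₗ[R] W₁) (g : V →ₗ[R] W₂) (hf : Function.Surjective f)
    (hg : Function.Surjective g) (h : ∀ v v', f v = f v' ↔ g v = g v') (v : V) :
    equivOfSurjective f g hf hg h (f v) = g v :=
  (h _ _).1 (Function.surjInv_eq hf (f v))

end TwoSurj

/-! ## The frozen continuous `H¹` as a quotient of level cocycles -/

section ToH1

variable {k H : Type u} [CommRing k] [Group H]
  (r : H →* (AlgebraicClosure ℚ ≃ₐ[ℚ] AlgebraicClosure ℚ)) (B : Rep k H)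

/-- The projection of level cocycles onto the frozen continuous `H¹`. -/
def toH1 : ↥(levelCocycles₁ r B) →ₗ[k] ↥(continuousH1 r B) :=
  ((H1π B).hom.domRestrict (levelCocycles₁ r B)).codRestrict (continuousH1 r B)
    (fun c => Submodule.mem_map_of_mem c.2)

theorem toH1_coe (c : ↥(levelCocycles₁ r B)) : (toH1 r B c : H1 B) = (H1π B).hom c.1 := rfl

theorem toH1_surjective : Function.Surjective (toH1 r B) := by
  rintro ⟨x, hx⟩
  obtain ⟨c, hc, rfl⟩ := hx
  exact ⟨⟨c, hc⟩, rfl⟩

theorem toH1_eq_iff (c c' : ↥(levelCocycles₁ r B)) :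
    toH1 r B c = toH1 r B c' ↔ (c.1.1 - c'.1.1) ∈ coboundaries₁ B := by
  refine Iff.trans ?_ (H1π_eq_iff c.1 c'.1)
  constructor
  · intro h
    exact congrArg Subtype.val h
  · intro h
    exact Subtype.ext h

theorem toH1_injective_of_isTrivial [B.IsTrivial] : Function.Injective (toH1 r B) := by
  intro c c' h
  rw [toH1_eq_iff, coboundaries₁_eq_bot_of_isTrivial, Submodule.mem_bot] at h
  exact Subtype.ext (Subtype.ext (sub_eq_zero.1 h))

/-- For trivial coefficients the frozen continuous `H¹` is the space of level homomorphisms. -/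
def trivEquiv [B.IsTrivial] : ↥(levelCocycles₁ r B) ≃ₗ[k] ↥(continuousH1 r B) :=
  LinearEquiv.ofBijective (toH1 r B) ⟨toH1_injective_of_isTrivial r B, toH1_surjective r B⟩

theorem trivEquiv_apply [B.IsTrivial] (c : ↥(levelCocycles₁ r B)) :
    trivEquiv r B c = toH1 r B c := rfl

end ToH1

/-! ## The main equivalence -/

section Main

variable {k G : Type u} [CommRing k] [Group G]
  (r : G →* (AlgebraicClosure ℚ ≃ₐ[ℚ] AlgebraicClosure ℚ)) (A : Rep k G)
  {X : Type u} [Fintype X] [MulAction G X] (b : Basis X k A)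
  (hb : ∀ (g : G) (x : X), A.ρ g (b x) = b (g • x))
  (hX : ∀ x : X, ∃ F : IntermediateField ℚ (AlgebraicClosure ℚ), FiniteDimensional ℚ F ∧
      ∀ s : G, r s ∈ F.fixingSubgroup → s • x = x)

theorem toH1_eq_iff_Phi_eq (c c' : ↥(levelCocycles₁ r A)) :
    toH1 r A c = toH1 r A c' ↔ Phi r A b hb c = Phi r A b hb c' := by
  rw [toH1_eq_iff, Phi_eq_iff]

/-- Shapiro–Mackey in degree one, with values in level homomorphisms of the stabilisers. -/
def permShapiroCoc : ↥(continuousH1 r A) ≃ₗ[k]
    (∀ o : MulAction.orbitRel.Quotient G X, ↥(levelCocycles₁ (rSt r o) (Tr k o))) :=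
  equivOfSurjective (toH1 r A) (Phi r A b hb) (toH1_surjective r A)
    (Phi_surjective r A b hb hX) (toH1_eq_iff_Phi_eq r A b hb)

theorem permShapiroCoc_toH1 (c : ↥(levelCocycles₁ r A)) :
    permShapiroCoc r A b hb hX (toH1 r A c) = Phi r A b hb c :=
  equivOfSurjective_apply _ _ _ _ _ c

/-- The componentwise identification of level homomorphisms with the frozen `H¹`. -/
def piTrivEquiv :
    (∀ o : MulAction.orbitRel.Quotient G X, ↥(levelCocycles₁ (rSt r o) (Tr k o))) ≃ₗ[k]
    (∀ o : MulAction.orbitRel.Quotient G X, ↥(continuousH1 (rSt r o) (Tr k o))) :=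
  LinearEquiv.piCongrRight (fun o => trivEquiv (rSt r o) (Tr k o))

/-- **Shapiro–Mackey in degree one** for a representation with a permuted basis, on the frozen
carriers: the continuous `H¹` is the product, over the orbits, of the continuous `H¹` of the
stabilisers with trivial coefficients. -/
def permShapiro : ↥(continuousH1 r A) ≃ₗ[k]
    (∀ o : MulAction.orbitRel.Quotient G X, ↥(continuousH1 (rSt r o) (Tr k o))) :=
  (permShapiroCoc r A b hb hX).trans (piTrivEquiv r)

theorem permShapiro_toH1 (c : ↥(levelCocycles₁ r A)) (o : MulAction.orbitRel.Quotient G X) :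
    permShapiro r A b hb hX (toH1 r A c) o = toH1 (rSt r o) (Tr k o) (evalAt r A b hb o c) := by
  unfold permShapiro
  rw [LinearEquiv.trans_apply, permShapiroCoc_toH1]
  rfl

end Main

/-! ## Counting corollaries -/

section Counting

variable {k G : Type u} [Field k] [Group G] (A : Rep k G)
  {X : Type u} [Finite X] [MulAction G X] (b : Basis X k A)

/-- `h⁰` of a permutation representation is the number of orbits. -/
theorem finrank_invariants_eq_card_orbits (hb : ∀ (g : G) (x : X), A.ρ g (b x) = b (g • x)) :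
    Module.finrank k A.ρ.invariants = Nat.card (MulAction.orbitRel.Quotient G X) := by
  classical
  have := Fintype.ofFinite X
  have : Fintype (MulAction.orbitRel.Quotient G X) := Fintype.ofFinite _
  rw [(invariantsEquiv A b hb).finrank_eq, Module.finrank_fintype_fun_eq_card,
    Nat.card_eq_fintype_card]

omit [Finite X] in
theorem finite_quotient_stabilizer [Finite X] (x : X) : Finite (G ⧸ MulAction.stabilizer G x) :=
  Finite.of_injective _ (MulAction.injective_ofQuotientStabilizer G x)

/-- The class formula: the indices of the stabilisers of the orbit representatives add up to the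
cardinality of the set. -/
theorem sum_index_stabilizer (G : Type u) [Group G] (X : Type u) [Finite X] [MulAction G X]
    [Fintype (MulAction.orbitRel.Quotient G X)] :
    ∑ o : MulAction.orbitRel.Quotient G X, (St (G := G) o).index = Nat.card X := by
  have : ∀ o : MulAction.orbitRel.Quotient G X, Finite (G ⧸ MulAction.stabilizer G o.out) :=
    fun o => finite_quotient_stabilizer (G := G) o.out
  rw [Nat.card_congr (MulAction.selfEquivSigmaOrbitsQuotientStabilizer G X), Nat.card_sigma]
  rfl

/-- `h¹` of a permutation representation on the frozen carrier: the sum over the orbits of the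
`h¹` of the stabilisers with trivial coefficients. -/
theorem finrank_continuousH1_perm
    (r : G →* (AlgebraicClosure ℚ ≃ₐ[ℚ] AlgebraicClosure ℚ))
    (hb : ∀ (g : G) (x : X), A.ρ g (b x) = b (g • x))
    (hX : ∀ x : X, ∃ F : IntermediateField ℚ (AlgebraicClosure ℚ), FiniteDimensional ℚ F ∧
      ∀ s : G, r s ∈ F.fixingSubgroup → s • x = x)
    [Fintype (MulAction.orbitRel.Quotient G X)]
    (hfin : ∀ o : MulAction.orbitRel.Quotient G X,
      FiniteDimensional k ↥(continuousH1 (rSt r o) (Tr k o))) :
    Module.finrank k ↥(continuousH1 r A) =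
      ∑ o : MulAction.orbitRel.Quotient G X,
        Module.finrank k ↥(continuousH1 (rSt r o) (Tr k o)) := by
  classical
  have := Fintype.ofFinite X
  rw [(permShapiro r A b hb hX).finrank_eq, Module.finrank_pi_fintype]

/-- Finiteness of `h¹` of a permutation representation on the frozen carrier. -/
theorem finiteDimensional_continuousH1_perm
    (r : G →* (AlgebraicClosure ℚ ≃ₐ[ℚ] AlgebraicClosure ℚ))
    (hb : ∀ (g : G) (x : X), A.ρ g (b x) = b (g • x))
    (hX : ∀ x : X, ∃ F : IntermediateField ℚ (AlgebraicClosure ℚ), FiniteDimensional ℚ F ∧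
      ∀ s : G, r s ∈ F.fixingSubgroup → s • x = x)
    (hfin : ∀ o : MulAction.orbitRel.Quotient G X,
      FiniteDimensional k ↥(continuousH1 (rSt r o) (Tr k o))) :
    FiniteDimensional k ↥(continuousH1 r A) := by
  classical
  have := Fintype.ofFinite X
  have : Finite (MulAction.orbitRel.Quotient G X) := Quotient.finite _
  exact Module.Finite.equiv (permShapiro r A b hb hX).symm

end Counting

/-! ## The permuted basis of the coinduced trivial representation -/

section CoindBasis

variable (k : Type u) {G : Type u} [CommRing k] [Group G] (H : Subgroup G)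

/-- The model `𝔽[G/H]` of the team: Mathlib's coinduction of the trivial representation. -/
abbrev coindTriv : Rep k G := Rep.coind H.subtype (Rep.trivial k ↥H k)

theorem coindTriv_apply_mul (f : coindTriv k H) (h : G) (hh : h ∈ H) (x : G) :
    f.1 (h * x) = f.1 x := f.2 ⟨h, hh⟩ x

/-- Coordinates of the coinduced trivial representation: functions on `G ⧸ H`. -/
def coindFunEquiv : (coindTriv k H) ≃ₗ[k] (G ⧸ H → k) where
  toFun f := fun q => Quotient.liftOn' q (fun y => f.1 y⁻¹) (by
    intro a c hac
    have hac' : a⁻¹ * c ∈ H := QuotientGroup.leftRel_apply.mp hac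
    have e : c⁻¹ = (a⁻¹ * c)⁻¹ * a⁻¹ := by group
    show f.1 a⁻¹ = f.1 c⁻¹
    rw [e, coindTriv_apply_mul k H f _ (H.inv_mem hac')])
  map_add' f f' := by
    funext q
    induction q using QuotientGroup.induction_on with
    | H y => rfl
  map_smul' c f := by
    funext q
    induction q using QuotientGroup.induction_on with
    | H y => rfl
  invFun φ := ⟨fun x => φ (QuotientGroup.mk x⁻¹), by
    intro h x
    show φ (QuotientGroup.mk ((h : G) * x)⁻¹) = φ (QuotientGroup.mk x⁻¹)
    congr 1
    rw [QuotientGroup.eq]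
    have e : (((h : G) * x)⁻¹)⁻¹ * x⁻¹ = (h : G) := by group
    rw [e]
    exact h.2⟩
  left_inv f := by
    apply Subtype.ext
    funext x
    show f.1 (x⁻¹)⁻¹ = f.1 x
    rw [inv_inv]
  right_inv φ := by
    funext q
    induction q using QuotientGroup.induction_on with
    | H y =>
      show φ (QuotientGroup.mk (y⁻¹)⁻¹) = φ (QuotientGroup.mk y)
      rw [inv_inv]

theorem coindFunEquiv_mk (f : coindTriv k H) (y : G) :
    coindFunEquiv k H f (QuotientGroup.mk y) = f.1 y⁻¹ := rfl

theorem coindFunEquiv_ρ (g : G) (f : coindTriv k H) (q : G ⧸ H) :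
    coindFunEquiv k H ((coindTriv k H).ρ g f) q = coindFunEquiv k H f (g⁻¹ • q) := by
  induction q using QuotientGroup.induction_on with
  | H y =>
    show f.1 (y⁻¹ * g) = f.1 (g⁻¹ * y)⁻¹
    rw [mul_inv_rev, inv_inv]

variable [Finite (G ⧸ H)]

/-- The permuted basis of the coinduced trivial representation, indexed by `G ⧸ H`. -/
def coindBasis : Basis (G ⧸ H) k (coindTriv k H) := Basis.ofEquivFun (coindFunEquiv k H)

theorem coindBasis_equivFun : (coindBasis k H).equivFun = coindFunEquiv k H :=
  Basis.equivFun_ofEquivFun _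

theorem coindBasis_ρ (g : G) (x : G ⧸ H) :
    (coindTriv k H).ρ g (coindBasis k H x) = coindBasis k H (g • x) := by
  classical
  apply (coindFunEquiv k H).injective
  funext q
  rw [coindFunEquiv_ρ, ← coindBasis_equivFun, Basis.equivFun_self, Basis.equivFun_self]
  by_cases h : g • x = q
  · rw [if_pos h, if_pos (by rw [← h, inv_smul_smul])]
  · rw [if_neg h, if_neg (fun h' => h (by rw [h', smul_inv_smul]))]

end CoindBasis

/-! ## Twisted duals of permutation representations -/

section PermIso

variable {k G : Type u} [CommRing k] [Group G] (A B : Rep k G)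
  {X : Type u} [MulAction G X] (b : Basis X k A) (c : Basis X k B)

/-- Two representations with permuted bases on the same `G`-set are equivalent. -/
def permBasisEquiv (hb : ∀ (g : G) (x : X), A.ρ g (b x) = b (g • x))
    (hc : ∀ (g : G) (x : X), B.ρ g (c x) = c (g • x)) : A.ρ.Equiv B.ρ :=
  Representation.Equiv.mk (b.equiv c (Equiv.refl X)) (by
    intro g
    apply b.ext
    intro x
    simp only [LinearMap.coe_comp, LinearEquiv.coe_coe, Function.comp_apply, hb, hc,
      Basis.equiv_apply, Equiv.refl_apply])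

theorem permBasisEquiv_apply (hb : ∀ (g : G) (x : X), A.ρ g (b x) = b (g • x))
    (hc : ∀ (g : G) (x : X), B.ρ g (c x) = c (g • x)) (x : X) :
    permBasisEquiv A B b c hb hc (b x) = c x := by
  show b.equiv c (Equiv.refl X) (b x) = c x
  rw [Basis.equiv_apply, Equiv.refl_apply]

/-- Two representations with permuted bases on the same `G`-set are isomorphic. -/
def permBasisIso (hb : ∀ (g : G) (x : X), A.ρ g (b x) = b (g • x))
    (hc : ∀ (g : G) (x : X), B.ρ g (c x) = c (g • x)) : A ≅ B :=
  Rep.mkIso (permBasisEquiv A B b c hb hc)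

end PermIso

section DualTwist

variable {k G : Type u} [CommRing k] [Group G] (A : Rep k G)
  {X : Type u} [Finite X] [MulAction G X] (b : Basis X k A)
  (χ : G →* kˣ)

/-- The rescaling weight `χ (sec x)`. -/
def wt (x : X) : kˣ := χ (sec G x)

omit [Finite X] in
theorem wt_smul (hχ : ∀ (g : G) (x : X), g • x = x → χ g = 1) (g : G) (x : X) :
    wt χ (g • x) = χ g * wt χ x := by
  have h1 : sec G (g • x) • rp G (cls G x) = g • x := by
    have := sec_smul (G := G) (g • x)
    rwa [cls_smul] at this
  have h3 : ((g * sec G x)⁻¹ * sec G (g • x)) • rp G (cls G x) = rp G (cls G x) := by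
    rw [mul_smul, h1, mul_inv_rev, mul_smul, inv_smul_smul, sec_inv_smul]
  have h4 := hχ _ _ h3
  rw [map_mul, map_inv, inv_mul_eq_one] at h4
  unfold wt
  rw [← h4, map_mul]

/-- The permuted basis of the twisted dual of a permutation representation, when the character
is trivial on the stabilisers: the rescaled dual basis. -/
def dualTwistBasis : Basis X k (A.dualTwist χ) :=
  haveI := Classical.decEq X
  (b.dualBasis.unitsSMul (wt χ) : Basis X k (Module.Dual k A))

theorem dualTwistBasis_apply (x : X) (m : A) :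
    (dualTwistBasis A b χ x : Module.Dual k A) m = (wt χ x : k) * b.repr m x := by
  classical
  unfold dualTwistBasis
  rw [Basis.unitsSMul_apply]
  show (wt χ x : k) • (b.dualBasis x m) = _
  rw [Basis.dualBasis_apply, smul_eq_mul]

theorem dualTwistBasis_ρ (hb : ∀ (g : G) (x : X), A.ρ g (b x) = b (g • x))
    (hχ : ∀ (g : G) (x : X), g • x = x → χ g = 1) (g : G) (x : X) :
    (A.dualTwist χ).ρ g (dualTwistBasis A b χ x) = dualTwistBasis A b χ (g • x) := by
  apply LinearMap.ext
  intro m
  rw [Rep.dualTwist_ρ_apply]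
  show (χ g : k) • ((dualTwistBasis A b χ x : Module.Dual k A) (A.ρ g⁻¹ m)) = _
  rw [dualTwistBasis_apply, dualTwistBasis_apply, repr_ρ A b hb, inv_inv, wt_smul χ hχ,
    smul_eq_mul, Units.val_mul, mul_assoc]

/-- For a permutation representation and a character trivial on the stabilisers, the twisted
dual is isomorphic to the representation itself. -/
def dualTwistIso (hb : ∀ (g : G) (x : X), A.ρ g (b x) = b (g • x))
    (hχ : ∀ (g : G) (x : X), g • x = x → χ g = 1) : A.dualTwist χ ≅ A :=
  permBasisIso (A.dualTwist χ) A (dualTwistBasis A b χ) b (dualTwistBasis_ρ A b χ hb hχ) hb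

end DualTwist

/-! ## Covering a representation trivial on `H` by the coinduced trivial representation -/

section Cover

variable (k : Type u) {G : Type u} [CommRing k] [Group G] (H : Subgroup G) (N : Rep k G)

/-- For `N` trivial on `H` and `m : N`: the family `xH ↦ ρ(x) m`. -/
def coverVec (hN : ∀ h ∈ H, ∀ n : N, N.ρ h n = n) (m : N) : G ⧸ H → N :=
  fun q => Quotient.liftOn' q (fun g => N.ρ g m) (by
    intro a c hac
    have hac' : a⁻¹ * c ∈ H := QuotientGroup.leftRel_apply.mp hac
    have e : c = a * (a⁻¹ * c) := by group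
    show N.ρ a m = N.ρ c m
    conv_rhs => rw [e, map_mul]
    exact congrArg (N.ρ a) (hN _ hac' m).symm)

theorem coverVec_mk (hN : ∀ h ∈ H, ∀ n : N, N.ρ h n = n) (m : N) (g : G) :
    coverVec k H N hN m (QuotientGroup.mk g) = N.ρ g m := rfl

theorem coverVec_smul (hN : ∀ h ∈ H, ∀ n : N, N.ρ h n = n) (m : N) (g : G) (x : G ⧸ H) :
    coverVec k H N hN m (g • x) = N.ρ g (coverVec k H N hN m x) := by
  induction x using QuotientGroup.induction_on with
  | H y =>
    show N.ρ (g * y) m = N.ρ g (N.ρ y m)
    rw [map_mul]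
    rfl

variable [Finite (G ⧸ H)]

/-- The covering map `π_m : coind_H^G k → N`, `b_{xH} ↦ ρ(x) m`
(i.e. `f ↦ ∑_{xH} f(x⁻¹) • ρ(x) m`). -/
def coverMap (hN : ∀ h ∈ H, ∀ n : N, N.ρ h n = n) (m : N) : coindTriv k H →ₗ[k] N :=
  (coindBasis k H).constr k (coverVec k H N hN m)

theorem coverMap_basis (hN : ∀ h ∈ H, ∀ n : N, N.ρ h n = n) (m : N) (x : G ⧸ H) :
    coverMap k H N hN m (coindBasis k H x) = coverVec k H N hN m x :=
  Basis.constr_basis _ _ _ _

/-- The explicit formula `π_m f = ∑_{xH} f(x⁻¹) • ρ(x) m`. -/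
theorem coverMap_apply [Fintype (G ⧸ H)] (hN : ∀ h ∈ H, ∀ n : N, N.ρ h n = n) (m : N)
    (f : coindTriv k H) :
    coverMap k H N hN m f = ∑ x : G ⧸ H, coindFunEquiv k H f x • coverVec k H N hN m x := by
  unfold coverMap
  rw [Basis.constr_apply_fintype, coindBasis_equivFun]

/-- The covering map is `G`-equivariant. -/
theorem coverMap_equivariant (hN : ∀ h ∈ H, ∀ n : N, N.ρ h n = n) (m : N) (g : G)
    (f : coindTriv k H) :
    coverMap k H N hN m ((coindTriv k H).ρ g f) = N.ρ g (coverMap k H N hN m f) := by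
  have h : (coverMap k H N hN m) ∘ₗ ((coindTriv k H).ρ g) = (N.ρ g) ∘ₗ (coverMap k H N hN m) := by
    apply (coindBasis k H).ext
    intro x
    show coverMap k H N hN m ((coindTriv k H).ρ g (coindBasis k H x)) =
      N.ρ g (coverMap k H N hN m (coindBasis k H x))
    rw [coindBasis_ρ, coverMap_basis, coverMap_basis, coverVec_smul]
  exact LinearMap.congr_fun h f

/-- `m` is in the image of the covering map: `π_m (b_H) = m`. -/
theorem coverMap_one (hN : ∀ h ∈ H, ∀ n : N, N.ρ h n = n) (m : N) :
    coverMap k H N hN m (coindBasis k H (QuotientGroup.mk 1)) = m := by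
  rw [coverMap_basis, coverVec_mk, map_one]
  rfl

/-- The covering map as a morphism of representations. -/
def coverHom (hN : ∀ h ∈ H, ∀ n : N, N.ρ h n = n) (m : N) : coindTriv k H ⟶ N :=
  Rep.homEquiv.symm
    (⟨coverMap k H N hN m, fun g => LinearMap.ext fun f => coverMap_equivariant k H N hN m g f⟩ :
      (coindTriv k H).ρ.IntertwiningMap N.ρ)

theorem coverHom_hom_apply (hN : ∀ h ∈ H, ∀ n : N, N.ρ h n = n) (m : N) (f : coindTriv k H) :
    (coverHom k H N hN m).hom f = coverMap k H N hN m f := rfl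

/-- **Covering lemma**: every element of a representation trivial on a finite-index subgroup `H`
is in the image of a morphism from the coinduced trivial representation `coind_H^G k`. -/
theorem exists_coverHom (hN : ∀ h ∈ H, ∀ n : N, N.ρ h n = n) (m : N) :
    ∃ π : coindTriv k H ⟶ N, m ∈ LinearMap.range π.hom.toLinearMap :=
  ⟨coverHom k H N hN m, ⟨coindBasis k H (QuotientGroup.mk 1), coverMap_one k H N hN m⟩⟩

/-- The images of the covering maps span `N`. -/
theorem iSup_range_coverMap (hN : ∀ h ∈ H, ∀ n : N, N.ρ h n = n) :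
    ⨆ m : N, LinearMap.range (coverMap k H N hN m) = ⊤ := by
  rw [eq_top_iff]
  intro m _
  exact Submodule.mem_iSup_of_mem m
    ⟨coindBasis k H (QuotientGroup.mk 1), coverMap_one k H N hN m⟩

end Cover

end Fermat.Agent.S55.helper1610
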