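/-
S55-MACKEY (helper2556): Mackey decomposition of the restriction of a coinduced representation.

`G` a group, `H ≤ G`, `r : D →* G` any group hom, `σ` a representation of `H` on `A`.
For `g : G` put `D_g := r⁻¹(g⁻¹ H g)` (`mackeySubgroup`) and let `D_g` act on `A` through
`e ↦ σ (g * r e * g⁻¹)` (`mackeyRep`).  If `γ : I → G` is a system of representatives of the
double cosets `H \ G / r(D)` then
`Res_r Coind_H^G σ ≃ Π i, Coind_{D_{γ i}}^D (mackeyRep (γ i))`, `D`-equivariantly (`mackeyEquiv`,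
`mackeyEquiv_coind`).  For `σ = Res_H ρ` the twisted pieces are untwisted (`mackeyEquivRes`).
Everything is on Mathlib's `Representation.coindV` / `Representation.coind`.
-/
import Mathlib

set_option autoImplicit false

namespace Fermat.Agent.S55.helper2556

open Representation

section Mackey

variable {k G D : Type*} [CommRing k] [Group G] [Group D]
variable (H : Subgroup G) (r : D →* G)

/-- `D_g = r⁻¹(g⁻¹ H g)`: the elements `d` of `D` with `g * r d * g⁻¹ ∈ H`. -/
def mackeySubgroup (g : G) : Subgroup D where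
  carrier := {d | g * r d * g⁻¹ ∈ H}
  one_mem' := by simp [H.one_mem]
  mul_mem' := by
    intro a b ha hb
    have h : g * r (a * b) * g⁻¹ = (g * r a * g⁻¹) * (g * r b * g⁻¹) := by
      rw [map_mul]; group
    show g * r (a * b) * g⁻¹ ∈ H
    rw [h]; exact H.mul_mem ha hb
  inv_mem' := by
    intro a ha
    have h : g * r a⁻¹ * g⁻¹ = (g * r a * g⁻¹)⁻¹ := by rw [map_inv]; group
    show g * r a⁻¹ * g⁻¹ ∈ H
    rw [h]; exact H.inv_mem ha

lemma mem_mackeySubgroup {g : G} {d : D} :
    d ∈ mackeySubgroup H r g ↔ g * r d * g⁻¹ ∈ H := Iff.rfl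

/-- The conjugation homomorphism `D_g → H`, `e ↦ g * r e * g⁻¹`. -/
def mackeyHom (g : G) : mackeySubgroup H r g →* H where
  toFun e := ⟨g * r e * g⁻¹, e.2⟩
  map_one' := by ext; simp
  map_mul' a b := by
    ext
    simp only [Subgroup.coe_mul, map_mul]
    group

@[simp] lemma coe_mackeyHom (g : G) (e : mackeySubgroup H r g) :
    (mackeyHom H r g e : G) = g * r e * g⁻¹ := rfl

variable {A : Type*} [AddCommGroup A] [Module k A] (σ : Representation k H A)

/-- The `g`-twisted representation of `D_g` on `A`: `e` acts by `σ (g * r e * g⁻¹)`. -/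
def mackeyRep (g : G) : Representation k (mackeySubgroup H r g) A :=
  σ.comp (mackeyHom H r g)

lemma mackeyRep_apply (g : G) (e : mackeySubgroup H r g) (a : A) :
    mackeyRep H r σ g e a = σ (mackeyHom H r g e) a := rfl

/-- The `g`-component of the Mackey map: `f ↦ (d ↦ f (g * r d))`. -/
def mackeyProj (g : G) :
    coindV H.subtype σ →ₗ[k]
      coindV (mackeySubgroup H r g).subtype (mackeyRep H r σ g) where
  toFun f := ⟨fun d => f.1 (g * r d), by
    intro e d
    have hf := f.2 (mackeyHom H r g e) (g * r d)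
    show f.1 (g * r ((e : D) * d)) = mackeyRep H r σ g e (f.1 (g * r d))
    rw [mackeyRep_apply, ← hf]
    simp only [Subgroup.coe_subtype, coe_mackeyHom, map_mul]
    group⟩
  map_add' f f' := rfl
  map_smul' c f := rfl

@[simp] lemma mackeyProj_apply (g : G) (f : coindV H.subtype σ) (d : D) :
    (mackeyProj H r σ g f).1 d = f.1 (g * r d) := rfl

/-- `D`-equivariance of the components. -/
lemma mackeyProj_coind (g : G) (d : D) (f : coindV H.subtype σ) :
    mackeyProj H r σ g (coind H.subtype σ (r d) f) =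
      coind (mackeySubgroup H r g).subtype (mackeyRep H r σ g) d (mackeyProj H r σ g f) := by
  apply Subtype.ext
  funext d'
  show f.1 (g * r d' * r d) = f.1 (g * r (d' * d))
  rw [map_mul, mul_assoc]

variable {I : Type*} (γ : I → G)

/-- The Mackey map `Res_r Coind_H^G σ → Π i, Coind_{D_{γ i}}^D σ^{γ i}`. -/
def mackeyMap :
    coindV H.subtype σ →ₗ[k]
      ∀ i, coindV (mackeySubgroup H r (γ i)).subtype (mackeyRep H r σ (γ i)) :=
  LinearMap.pi fun i => mackeyProj H r σ (γ i)

@[simp] lemma mackeyMap_apply (f : coindV H.subtype σ) (i : I) :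
    mackeyMap H r σ γ f i = mackeyProj H r σ (γ i) f := rfl

/-- `γ` is a system of representatives of the double cosets `H \ G / r(D)`. -/
structure IsDoubleCosetReps : Prop where
  cover : ∀ x : G, ∃ i, ∃ h ∈ H, ∃ d : D, x = h * γ i * r d
  disj : ∀ i j, (∃ h ∈ H, ∃ d : D, γ j = h * γ i * r d) → i = j

variable {H r γ}

lemma IsDoubleCosetReps.exists_decomp (hγ : IsDoubleCosetReps H r γ) (x : G) :
    ∃ p : I × H × D, x = (p.2.1 : G) * γ p.1 * r p.2.2 := by
  obtain ⟨i, h, hh, d, rfl⟩ := hγ.cover x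
  exact ⟨(i, ⟨h, hh⟩, d), rfl⟩

/-- A chosen decomposition `x = h * γ i * r d`. -/
noncomputable def IsDoubleCosetReps.decomp (hγ : IsDoubleCosetReps H r γ) (x : G) : I × H × D :=
  (hγ.exists_decomp x).choose

lemma IsDoubleCosetReps.decomp_spec (hγ : IsDoubleCosetReps H r γ) (x : G) :
    x = ((hγ.decomp x).2.1 : G) * γ (hγ.decomp x).1 * r (hγ.decomp x).2.2 :=
  (hγ.exists_decomp x).choose_spec

variable {σ}

lemma mackeyMap_injective (hγ : IsDoubleCosetReps H r γ) :
    Function.Injective (mackeyMap H r σ γ) := by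
  rw [injective_iff_map_eq_zero]
  intro f hf
  apply Subtype.ext
  funext x
  obtain ⟨i, h, hh, d, rfl⟩ := hγ.cover x
  have h1 : f.1 (γ i * r d) = 0 := congrArg (fun F => (F i).1 d) hf
  have h2 := f.2 ⟨h, hh⟩ (γ i * r d)
  simp only [Subgroup.coe_subtype] at h2
  rw [mul_assoc, h2, h1, map_zero]
  rfl

/-- Well-definedness of the inverse. -/
lemma mackey_wd (hγ : IsDoubleCosetReps H r γ)
    (ψ : ∀ i, coindV (mackeySubgroup H r (γ i)).subtype (mackeyRep H r σ (γ i)))
    {i j : I} {h h' : H} {d d' : D}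
    (e : (h : G) * γ i * r d = (h' : G) * γ j * r d') :
    σ h ((ψ i).1 d) = σ h' ((ψ j).1 d') := by
  have hij : i = j := by
    refine hγ.disj i j ⟨((h'⁻¹ * h : H) : G), (h'⁻¹ * h).2, d * d'⁻¹, ?_⟩
    have e2 : γ j = (h' : G)⁻¹ * ((h : G) * γ i * r d) * (r d')⁻¹ := by rw [e]; group
    rw [e2]
    simp only [Subgroup.coe_mul, Subgroup.coe_inv, map_mul, map_inv]
    group
  subst hij
  have hmem : γ i * r (d' * d⁻¹) * (γ i)⁻¹ = ((h'⁻¹ * h : H) : G) := by
    have e2 : (h : G) = (h' : G) * γ i * r d' * (r d)⁻¹ * (γ i)⁻¹ := by rw [← e]; group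
    simp only [Subgroup.coe_mul, Subgroup.coe_inv, map_mul, map_inv]
    rw [e2]; group
  have hE : d' * d⁻¹ ∈ mackeySubgroup H r (γ i) := by
    rw [mem_mackeySubgroup, hmem]; exact (h'⁻¹ * h).2
  have h3 := (ψ i).2 ⟨d' * d⁻¹, hE⟩ d
  simp only [Subgroup.coe_subtype, inv_mul_cancel_right] at h3
  have hsub : mackeyHom H r (γ i) ⟨d' * d⁻¹, hE⟩ = h'⁻¹ * h := Subtype.ext hmem
  rw [h3, mackeyRep_apply, hsub, ← Module.End.mul_apply, ← map_mul, mul_inv_cancel_left]

/-- The inverse of the Mackey map on a family `ψ`. -/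
noncomputable def mackeyInv (hγ : IsDoubleCosetReps H r γ)
    (ψ : ∀ i, coindV (mackeySubgroup H r (γ i)).subtype (mackeyRep H r σ (γ i))) :
    coindV H.subtype σ :=
  ⟨fun x => σ (hγ.decomp x).2.1 ((ψ (hγ.decomp x).1).1 (hγ.decomp x).2.2), by
    intro h₀ x
    show σ (hγ.decomp ((h₀ : G) * x)).2.1 ((ψ (hγ.decomp ((h₀ : G) * x)).1).1
        (hγ.decomp ((h₀ : G) * x)).2.2) =
      σ h₀ (σ (hγ.decomp x).2.1 ((ψ (hγ.decomp x).1).1 (hγ.decomp x).2.2))
    rw [← Module.End.mul_apply, ← map_mul]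
    apply mackey_wd hγ ψ
    rw [← hγ.decomp_spec, Subgroup.coe_mul, mul_assoc, mul_assoc,
      ← mul_assoc ((hγ.decomp x).2.1 : G), ← hγ.decomp_spec]⟩

lemma mackeyInv_apply (hγ : IsDoubleCosetReps H r γ)
    (ψ : ∀ i, coindV (mackeySubgroup H r (γ i)).subtype (mackeyRep H r σ (γ i)))
    (i : I) (h : H) (d : D) :
    (mackeyInv hγ ψ).1 ((h : G) * γ i * r d) = σ h ((ψ i).1 d) :=
  mackey_wd hγ ψ (hγ.decomp_spec _).symm

lemma mackeyMap_mackeyInv (hγ : IsDoubleCosetReps H r γ)
    (ψ : ∀ i, coindV (mackeySubgroup H r (γ i)).subtype (mackeyRep H r σ (γ i))) :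
    mackeyMap H r σ γ (mackeyInv hγ ψ) = ψ := by
  funext i
  apply Subtype.ext
  funext d
  have h := mackeyInv_apply hγ ψ i 1 d
  simp only [OneMemClass.coe_one, one_mul, map_one, Module.End.one_apply] at h
  exact h

lemma mackeyMap_surjective (hγ : IsDoubleCosetReps H r γ) :
    Function.Surjective (mackeyMap H r σ γ) :=
  fun ψ => ⟨mackeyInv hγ ψ, mackeyMap_mackeyInv hγ ψ⟩

variable (σ)

/-- **Mackey decomposition** (linear equivalence). -/
noncomputable def mackeyEquiv (hγ : IsDoubleCosetReps H r γ) :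
    coindV H.subtype σ ≃ₗ[k]
      ∀ i, coindV (mackeySubgroup H r (γ i)).subtype (mackeyRep H r σ (γ i)) :=
  LinearEquiv.ofBijective (mackeyMap H r σ γ) ⟨mackeyMap_injective hγ, mackeyMap_surjective hγ⟩

@[simp] lemma mackeyEquiv_apply (hγ : IsDoubleCosetReps H r γ) (f : coindV H.subtype σ) (i : I)
    (d : D) : (mackeyEquiv σ hγ f i).1 d = f.1 (γ i * r d) := rfl

/-- **Mackey decomposition** (`D`-equivariance): the restriction along `r` of the coinduced
action corresponds to the componentwise coinduced actions. -/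
lemma mackeyEquiv_coind (hγ : IsDoubleCosetReps H r γ) (d : D) (f : coindV H.subtype σ) (i : I) :
    mackeyEquiv σ hγ (coind H.subtype σ (r d) f) i =
      coind (mackeySubgroup H r (γ i)).subtype (mackeyRep H r σ (γ i)) d (mackeyEquiv σ hγ f i) :=
  mackeyProj_coind H r σ (γ i) d f

end Mackey

section Reps

variable {G D : Type*} [Group G] [Group D] (H : Subgroup G) (r : D →* G)

/-- The double coset relation: `x ~ y` iff `y ∈ H x r(D)`. -/
def doubleCosetSetoid : Setoid G where
  r x y := ∃ h ∈ H, ∃ d : D, y = h * x * r d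
  iseqv :=
    ⟨fun x => ⟨1, H.one_mem, 1, by simp⟩,
     fun {x y} ⟨h, hh, d, e⟩ => ⟨h⁻¹, H.inv_mem hh, d⁻¹, by rw [e, map_inv]; group⟩,
     fun {x y z} ⟨h, hh, d, e⟩ ⟨h', hh', d', e'⟩ =>
       ⟨h' * h, H.mul_mem hh' hh, d * d', by rw [e', e, map_mul]; group⟩⟩

/-- The set of double cosets `H \ G / r(D)`. -/
abbrev DoubleCosets : Type _ := Quotient (doubleCosetSetoid H r)

/-- A chosen representative of a double coset. -/
noncomputable def doubleCosetRep (c : DoubleCosets H r) : G := Quotient.out c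

/-- Representatives of the double cosets `H \ G / r(D)` exist (indexed by the quotient). -/
theorem isDoubleCosetReps_doubleCosetRep : IsDoubleCosetReps H r (doubleCosetRep H r) where
  cover x := ⟨Quotient.mk (doubleCosetSetoid H r) x, Quotient.mk_out (s := doubleCosetSetoid H r) x⟩
  disj i j h := by
    have h1 : Quotient.mk (doubleCosetSetoid H r) (Quotient.out i) =
        Quotient.mk (doubleCosetSetoid H r) (Quotient.out j) := Quotient.sound h
    rwa [Quotient.out_eq, Quotient.out_eq] at h1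

/-- Finitely many double cosets when `H` has finite index. -/
instance finite_doubleCosets [H.FiniteIndex] : Finite (DoubleCosets H r) := by
  let f : G ⧸ H → DoubleCosets H r :=
    Quotient.lift (s := QuotientGroup.leftRel H)
      (fun y => Quotient.mk (doubleCosetSetoid H r) y⁻¹) (by
        intro a b hab
        have hab' : a⁻¹ * b ∈ H := QuotientGroup.leftRel_apply.mp hab
        apply Quotient.sound
        exact ⟨(a⁻¹ * b)⁻¹, H.inv_mem hab', 1, by simp⟩)
  refine Finite.of_surjective f ?_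
  intro c
  induction c using Quotient.inductionOn with
  | _ x =>
    refine ⟨QuotientGroup.mk x⁻¹, ?_⟩
    show Quotient.mk (doubleCosetSetoid H r) (x⁻¹)⁻¹ = Quotient.mk (doubleCosetSetoid H r) x
    rw [inv_inv]

end Reps

section Untwist

variable {k G D : Type*} [CommRing k] [Group G] [Group D]
variable (H : Subgroup G) (r : D →* G)
variable {A : Type*} [AddCommGroup A] [Module k A] (ρ : Representation k G A)

/-- For `σ = Res_H ρ` the `g`-twisted coinduced piece is the coinduction of the plain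
restriction of `ρ` to `D_g` (via `a ↦ ρ g⁻¹ a`). -/
def mackeyUntwist (g : G) :
    coindV (mackeySubgroup H r g).subtype (mackeyRep H r (ρ.comp H.subtype) g) ≃ₗ[k]
      coindV (mackeySubgroup H r g).subtype ((ρ.comp r).comp (mackeySubgroup H r g).subtype) where
  toFun ψ := ⟨fun d => ρ g⁻¹ (ψ.1 d), by
    intro e d
    have h := ψ.2 e d
    show ρ g⁻¹ (ψ.1 ((e : D) * d)) = ρ (r (e : D)) (ρ g⁻¹ (ψ.1 d))
    have h' : ψ.1 ((e : D) * d) = ρ (g * r (e : D) * g⁻¹) (ψ.1 d) := h
    rw [h', ← Module.End.mul_apply, ← map_mul, ← Module.End.mul_apply, ← map_mul]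
    congr 2
    group⟩
  map_add' ψ ψ' := by
    apply Subtype.ext; funext d
    show ρ g⁻¹ (ψ.1 d + ψ'.1 d) = ρ g⁻¹ (ψ.1 d) + ρ g⁻¹ (ψ'.1 d)
    rw [map_add]
  map_smul' c ψ := by
    apply Subtype.ext; funext d
    show ρ g⁻¹ (c • ψ.1 d) = c • ρ g⁻¹ (ψ.1 d)
    rw [map_smul]
  invFun ψ := ⟨fun d => ρ g (ψ.1 d), by
    intro e d
    have h := ψ.2 e d
    show ρ g (ψ.1 ((e : D) * d)) = ρ (g * r (e : D) * g⁻¹) (ρ g (ψ.1 d))
    have h' : ψ.1 ((e : D) * d) = ρ (r (e : D)) (ψ.1 d) := h
    rw [h', ← Module.End.mul_apply, ← map_mul, ← Module.End.mul_apply, ← map_mul]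
    congr 2
    group⟩
  left_inv ψ := by
    apply Subtype.ext; funext d
    show ρ g (ρ g⁻¹ (ψ.1 d)) = ψ.1 d
    rw [← Module.End.mul_apply, ← map_mul, mul_inv_cancel, map_one, Module.End.one_apply]
  right_inv ψ := by
    apply Subtype.ext; funext d
    show ρ g⁻¹ (ρ g (ψ.1 d)) = ψ.1 d
    rw [← Module.End.mul_apply, ← map_mul, inv_mul_cancel, map_one, Module.End.one_apply]

@[simp] lemma mackeyUntwist_apply (g : G)
    (ψ : coindV (mackeySubgroup H r g).subtype (mackeyRep H r (ρ.comp H.subtype) g)) (d : D) :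
    (mackeyUntwist H r ρ g ψ).1 d = ρ g⁻¹ (ψ.1 d) := rfl

lemma mackeyUntwist_coind (g : G) (d : D)
    (ψ : coindV (mackeySubgroup H r g).subtype (mackeyRep H r (ρ.comp H.subtype) g)) :
    mackeyUntwist H r ρ g
        (coind (mackeySubgroup H r g).subtype (mackeyRep H r (ρ.comp H.subtype) g) d ψ) =
      coind (mackeySubgroup H r g).subtype ((ρ.comp r).comp (mackeySubgroup H r g).subtype) d
        (mackeyUntwist H r ρ g ψ) := rfl

variable {I : Type*} {γ : I → G}

/-- **Mackey decomposition for a restricted representation**: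
`Res_r Coind_H^G Res_H ρ ≃ Π i, Coind_{D_{γ i}}^D Res_{D_{γ i}} Res_r ρ`,
`f ↦ (d ↦ ρ (γ i)⁻¹ (f (γ i * r d)))`. -/
noncomputable def mackeyEquivRes (hγ : IsDoubleCosetReps H r γ) :
    coindV H.subtype (ρ.comp H.subtype) ≃ₗ[k]
      ∀ i, coindV (mackeySubgroup H r (γ i)).subtype
        ((ρ.comp r).comp (mackeySubgroup H r (γ i)).subtype) :=
  (mackeyEquiv (ρ.comp H.subtype) hγ).trans
    (LinearEquiv.piCongrRight fun i => mackeyUntwist H r ρ (γ i))

@[simp] lemma mackeyEquivRes_apply (hγ : IsDoubleCosetReps H r γ)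
    (f : coindV H.subtype (ρ.comp H.subtype)) (i : I) (d : D) :
    (mackeyEquivRes H r ρ hγ f i).1 d = ρ (γ i)⁻¹ (f.1 (γ i * r d)) := rfl

/-- `D`-equivariance of `mackeyEquivRes`. -/
lemma mackeyEquivRes_coind (hγ : IsDoubleCosetReps H r γ) (d : D)
    (f : coindV H.subtype (ρ.comp H.subtype)) (i : I) :
    mackeyEquivRes H r ρ hγ (coind H.subtype (ρ.comp H.subtype) (r d) f) i =
      coind (mackeySubgroup H r (γ i)).subtype
        ((ρ.comp r).comp (mackeySubgroup H r (γ i)).subtype) d (mackeyEquivRes H r ρ hγ f i) := by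
  apply Subtype.ext
  funext d'
  show ρ (γ i)⁻¹ (f.1 (γ i * r d' * r d)) = ρ (γ i)⁻¹ (f.1 (γ i * r (d' * d)))
  rw [map_mul, mul_assoc]

end Untwist

section Packaged

variable {k D : Type*} [CommRing k] [Group D]

/-- The product of a family of representations of `D`. -/
def piRep {ι : Type*} (V : ι → Type*) [∀ i, AddCommGroup (V i)] [∀ i, Module k (V i)]
    (τ : ∀ i, Representation k D (V i)) : Representation k D (∀ i, V i) where
  toFun d := LinearMap.pi fun i => (τ i d).comp (LinearMap.proj i)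
  map_one' := by
    apply LinearMap.ext; intro v; funext i
    simp
  map_mul' d d' := by
    apply LinearMap.ext; intro v; funext i
    simp

@[simp] lemma piRep_apply {ι : Type*} (V : ι → Type*) [∀ i, AddCommGroup (V i)]
    [∀ i, Module k (V i)] (τ : ∀ i, Representation k D (V i)) (d : D) (v : ∀ i, V i) (i : ι) :
    piRep V τ d v i = τ i d (v i) := rfl

variable {G : Type*} [Group G] (H : Subgroup G) (r : D →* G)
variable {A : Type*} [AddCommGroup A] [Module k A]
variable {I : Type*} {γ : I → G}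

/-- **Mackey decomposition** as an equivalence of representations of `D`. -/
noncomputable def mackeyRepEquiv (σ : Representation k H A) (hγ : IsDoubleCosetReps H r γ) :
    Representation.Equiv ((coind H.subtype σ).comp r)
      (piRep (fun i => coindV (mackeySubgroup H r (γ i)).subtype (mackeyRep H r σ (γ i)))
        fun i => coind (mackeySubgroup H r (γ i)).subtype (mackeyRep H r σ (γ i))) :=
  Representation.Equiv.mk (mackeyEquiv σ hγ) (by
    intro d
    apply LinearMap.ext; intro f; funext i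
    exact mackeyEquiv_coind σ hγ d f i)

/-- **Mackey decomposition for a restricted representation** as an equivalence of
representations of `D`. -/
noncomputable def mackeyRepEquivRes (ρ : Representation k G A) (hγ : IsDoubleCosetReps H r γ) :
    Representation.Equiv ((coind H.subtype (ρ.comp H.subtype)).comp r)
      (piRep (fun i => coindV (mackeySubgroup H r (γ i)).subtype
          ((ρ.comp r).comp (mackeySubgroup H r (γ i)).subtype))
        fun i => coind (mackeySubgroup H r (γ i)).subtype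
          ((ρ.comp r).comp (mackeySubgroup H r (γ i)).subtype)) :=
  Representation.Equiv.mk (mackeyEquivRes H r ρ hγ) (by
    intro d
    apply LinearMap.ext; intro f; funext i
    exact mackeyEquivRes_coind H r ρ hγ d f i)

end Packaged

section Galois

variable {K L : Type*} [Field K] [Field L] [Algebra K L]
variable {D : Type*} [Group D] (r : D →* (L ≃ₐ[K] L))

/-- In the Galois situation `H = Gal(L/F)`, the Mackey subgroup `D_g` is the preimage of
`Gal(L / g⁻¹ F)`. -/
lemma mem_mackeySubgroup_fixingSubgroup (F : IntermediateField K L) (g : L ≃ₐ[K] L) (d : D) :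
    d ∈ mackeySubgroup F.fixingSubgroup r g ↔
      r d ∈ (F.map ((g⁻¹ : L ≃ₐ[K] L) : L →ₐ[K] L)).fixingSubgroup := by
  rw [mem_mackeySubgroup, IntermediateField.mem_fixingSubgroup_iff,
    IntermediateField.mem_fixingSubgroup_iff]
  constructor
  · intro h y hy
    obtain ⟨x, hx, rfl⟩ := (IntermediateField.mem_map F).1 hy
    have h1 := h x hx
    have h2 : g (r d (g⁻¹ x)) = x := h1
    have h3 : r d (g⁻¹ x) = g⁻¹ x := by
      apply g.injective
      rw [h2]
      show x = (g * g⁻¹) x
      rw [mul_inv_cancel]; rfl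
    exact h3
  · intro h x hx
    have h1 : r d (g⁻¹ x) = g⁻¹ x := h (g⁻¹ x) ((IntermediateField.mem_map F).2 ⟨x, hx, rfl⟩)
    show g (r d (g⁻¹ x)) = x
    rw [h1]
    show (g * g⁻¹) x = x
    rw [mul_inv_cancel]; rfl

lemma mackeySubgroup_fixingSubgroup (F : IntermediateField K L) (g : L ≃ₐ[K] L) :
    mackeySubgroup F.fixingSubgroup r g =
      ((F.map ((g⁻¹ : L ≃ₐ[K] L) : L →ₐ[K] L)).fixingSubgroup).comap r := by
  ext d
  rw [Subgroup.mem_comap]
  exact mem_mackeySubgroup_fixingSubgroup r F g d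

end Galois

section RepLevel

universe u

variable {k G D : Type u} [CommRing k] [Group G] [Group D] (H : Subgroup G) (r : D →* G)
variable {I : Type u} {γ : I → G}

/-- The `i`-th Mackey piece of a `G`-representation `M`, as an object of `Rep k D`:
`Coind_{D_{γ i}}^D Res_{D_{γ i}} Res_r M`. -/
noncomputable abbrev mackeyPiece (γ : I → G) (M : Rep.{u} k G) (i : I) : Rep.{u} k D :=
  Rep.coind (mackeySubgroup H r (γ i)).subtype
    (Rep.res (mackeySubgroup H r (γ i)).subtype (Rep.res r M))

/-- **Mackey decomposition** in `Rep k D`: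
`Res_r Coind_H^G Res_H M ≅ Π i, Coind_{D_{γ i}}^D Res_{D_{γ i}} Res_r M`. -/
noncomputable def mackeyIso (M : Rep.{u} k G) (hγ : IsDoubleCosetReps H r γ) :
    Rep.res r (Rep.coind H.subtype (Rep.res H.subtype M)) ≅
      Rep.of (piRep (fun i => (mackeyPiece H r γ M i).V) fun i => (mackeyPiece H r γ M i).ρ) :=
  Rep.mkIso (mackeyRepEquivRes H r M.ρ hγ)

lemma mackeyIso_hom_apply (M : Rep.{u} k G) (hγ : IsDoubleCosetReps H r γ)
    (f : Rep.res r (Rep.coind H.subtype (Rep.res H.subtype M))) (i : I) (d : D) :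
    ((mackeyIso H r M hγ).hom.hom f i).1 d = M.ρ (γ i)⁻¹ (f.1 (γ i * r d)) := rfl

end RepLevel

end Fermat.Agent.S55.helper2556
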