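/-
S55 bridge leaf S55-DECOMP (helper4145): the image of the local Galois group
`Gal(PadicAlgCl q / ℚ_q)` in `Gal(ℚ̄/ℚ)` under the frozen map `localGaloisToGlobal q` is exactly
the decomposition group of the frozen place `padicPlace q` (the Prelude proves only `≤`).
Prelude + Mathlib + `helper698_LocTop` (Krasner density, on main).
-/
import Mathlib
import Fermat.Prelude.Def_GroupCohomology_ContinuousUnramified
import Fermat.Agent.S55.helper698_LocTop

set_option autoImplicit false

open scoped NNReal Pointwise TensorProduct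
open Polynomial IntermediateField

namespace Fermat.Agent.S55.helper4145

local instance isAlgebraicQbar_h4145 : Algebra.IsAlgebraic ℚ (AlgebraicClosure ℚ) :=
  AlgebraicClosure.isAlgebraic ℚ

variable (q : ℕ) [Fact q.Prime]

local instance instTowerQqPadic_h4145 : IsScalarTower ℚ ℚ_[q] (PadicAlgCl q) :=
  IsScalarTower.of_algebraMap_eq' (Subsingleton.elim _ _)

/-! ### Automorphisms in the decomposition group preserve the `q`-adic norm -/

/-- Every element of `ℚ̄` is fixed by a positive power of a given automorphism. -/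
theorem exists_pow_apply_eq_self (σ : AlgebraicClosure ℚ ≃ₐ[ℚ] AlgebraicClosure ℚ)
    (x : AlgebraicClosure ℚ) : ∃ n : ℕ, 0 < n ∧ (σ ^ n) x = x := by
  classical
  have hx : IsIntegral ℚ x := Algebra.IsIntegral.isIntegral x
  have hfin : ((minpoly ℚ x).rootSet (AlgebraicClosure ℚ)).Finite := Polynomial.rootSet_finite _ _
  have hmem : ∀ k : ℕ, (σ ^ k) x ∈ (minpoly ℚ x).rootSet (AlgebraicClosure ℚ) := by
    intro k
    rw [Polynomial.mem_rootSet]
    refine ⟨minpoly.ne_zero hx, ?_⟩
    have h1 := Polynomial.aeval_algHom_apply ((σ ^ k : AlgebraicClosure ℚ ≃ₐ[ℚ] AlgebraicClosure ℚ) :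
      AlgebraicClosure ℚ →ₐ[ℚ] AlgebraicClosure ℚ) x (minpoly ℚ x)
    rw [minpoly.aeval, map_zero] at h1
    exact h1
  have : Finite ((minpoly ℚ x).rootSet (AlgebraicClosure ℚ)) := hfin
  obtain ⟨i, j, hij, hfij⟩ := Finite.exists_ne_map_eq_of_infinite
    (fun k : ℕ => (⟨(σ ^ k) x, hmem k⟩ : (minpoly ℚ x).rootSet (AlgebraicClosure ℚ)))
  have hfij' : (σ ^ i) x = (σ ^ j) x := congrArg Subtype.val hfij
  have key : ∀ a b : ℕ, a < b → (σ ^ a) x = (σ ^ b) x → ∃ n : ℕ, 0 < n ∧ (σ ^ n) x = x := by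
    intro a b hab h
    refine ⟨b - a, Nat.sub_pos_of_lt hab, ?_⟩
    have hb : σ ^ b = σ ^ a * σ ^ (b - a) := by
      rw [← pow_add, Nat.add_sub_cancel' hab.le]
    rw [hb, AlgEquiv.mul_apply] at h
    exact ((σ ^ a).injective h).symm
  rcases lt_or_gt_of_ne hij with h | h
  · exact key i j h hfij'
  · exact key j i h hfij'.symm

variable {q}

theorem apply_mem_padicPlace_iff {σ : AlgebraicClosure ℚ ≃ₐ[ℚ] AlgebraicClosure ℚ}
    (hσ : σ ∈ (padicPlace q).decompositionSubgroup ℚ) (x : AlgebraicClosure ℚ) :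
    σ x ∈ padicPlace q ↔ x ∈ padicPlace q := by
  have h1 : σ • padicPlace q = padicPlace q := MulAction.mem_stabilizer_iff.1 hσ
  conv_lhs => rw [← h1]
  rw [ValuationSubring.mem_pointwise_smul_iff_inv_smul_mem]
  have : σ⁻¹ • σ x = x := by
    show σ⁻¹ (σ x) = x
    rw [← AlgEquiv.mul_apply, inv_mul_cancel, AlgEquiv.one_apply]
  rw [this]

theorem norm_apply_lt_of_lt {σ : AlgebraicClosure ℚ ≃ₐ[ℚ] AlgebraicClosure ℚ}
    (hσ : σ ∈ (padicPlace q).decompositionSubgroup ℚ) {y z : AlgebraicClosure ℚ}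
    (h : ‖padicEmbedding q y‖ < ‖padicEmbedding q z‖) :
    ‖padicEmbedding q (σ y)‖ < ‖padicEmbedding q (σ z)‖ := by
  by_cases hy : y = 0
  · subst hy
    have hz : z ≠ 0 := by
      rintro rfl
      simp at h
    have hσz : padicEmbedding q (σ z) ≠ 0 := by
      rw [Ne, map_eq_zero, map_eq_zero]
      exact hz
    simpa using norm_pos_iff.2 hσz
  · have hy' : 0 < ‖padicEmbedding q y‖ := norm_pos_iff.2 (by rwa [Ne, map_eq_zero])
    have hσy' : 0 < ‖padicEmbedding q (σ y)‖ :=
      norm_pos_iff.2 (by rwa [Ne, map_eq_zero, map_eq_zero])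
    have h1 : ¬ (z / y ∈ padicPlace q) := by
      rw [mem_padicPlace_iff, ← NNReal.coe_le_coe, coe_nnnorm, NNReal.coe_one, map_div₀, norm_div,
        div_le_one hy']
      exact not_le.2 h
    rw [← apply_mem_padicPlace_iff hσ, mem_padicPlace_iff, ← NNReal.coe_le_coe, coe_nnnorm,
      NNReal.coe_one, map_div₀, map_div₀, norm_div, div_le_one hσy'] at h1
    exact not_le.1 h1

/-- **Norm preservation.** An automorphism of `ℚ̄` in the decomposition group of `padicPlace q`
preserves the `q`-adic norm pulled back along `padicEmbedding q`. -/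
theorem norm_padicEmbedding_apply_of_mem_decomposition
    {σ : AlgebraicClosure ℚ ≃ₐ[ℚ] AlgebraicClosure ℚ}
    (hσ : σ ∈ (padicPlace q).decompositionSubgroup ℚ) (x : AlgebraicClosure ℚ) :
    ‖padicEmbedding q (σ x)‖ = ‖padicEmbedding q x‖ := by
  obtain ⟨n, hn, hnx⟩ := exists_pow_apply_eq_self σ x
  have hsucc : ∀ k : ℕ, (σ ^ (k + 1)) x = σ ((σ ^ k) x) := by
    intro k
    rw [pow_succ', AlgEquiv.mul_apply]
  rcases lt_trichotomy ‖padicEmbedding q (σ x)‖ ‖padicEmbedding q x‖ with h | h | h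
  · exfalso
    have hanti : StrictAnti (fun k : ℕ => ‖padicEmbedding q ((σ ^ k) x)‖) := by
      refine strictAnti_nat_of_succ_lt fun k => ?_
      induction k with
      | zero => simpa using h
      | succ k ih =>
        have := norm_apply_lt_of_lt hσ ih
        rwa [← hsucc, ← hsucc] at this
    have := hanti hn
    simp only [hnx, pow_zero, AlgEquiv.one_apply, lt_self_iff_false] at this
  · exact h
  · exfalso
    have hmono : StrictMono (fun k : ℕ => ‖padicEmbedding q ((σ ^ k) x)‖) := by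
      refine strictMono_nat_of_lt_succ fun k => ?_
      induction k with
      | zero => simpa using h
      | succ k ih =>
        have := norm_apply_lt_of_lt hσ ih
        rwa [← hsucc, ← hsucc] at this
    have := hmono hn
    simp only [hnx, pow_zero, AlgEquiv.one_apply, lt_self_iff_false] at this

/-! ### The two maps `ℚ_q ⊗ ℚ̄ → PadicAlgCl q` -/

variable (q)

/-- The `ℚ_q`-algebra map `ℚ_q ⊗_ℚ ℚ̄ → PadicAlgCl q`, `a ⊗ x ↦ a · ι (σ x)`. -/
noncomputable def tensorMap (σ : AlgebraicClosure ℚ ≃ₐ[ℚ] AlgebraicClosure ℚ) :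
    ℚ_[q] ⊗[ℚ] AlgebraicClosure ℚ →ₐ[ℚ_[q]] PadicAlgCl q :=
  Algebra.TensorProduct.lift (Algebra.ofId ℚ_[q] (PadicAlgCl q))
    ((padicEmbedding q).comp (σ : AlgebraicClosure ℚ →ₐ[ℚ] AlgebraicClosure ℚ))
    (fun _ _ => Commute.all _ _)

theorem tensorMap_tmul (σ : AlgebraicClosure ℚ ≃ₐ[ℚ] AlgebraicClosure ℚ) (a : ℚ_[q])
    (x : AlgebraicClosure ℚ) :
    tensorMap q σ (a ⊗ₜ[ℚ] x) = algebraMap ℚ_[q] (PadicAlgCl q) a * padicEmbedding q (σ x) := by
  simp [tensorMap, Algebra.ofId_apply]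

/-- Simultaneous approximation: every value of the two tensor maps is approximated by
`ι y`, resp. `ι (σ y)`, for one and the same algebraic number `y`. -/
theorem exists_simultaneous_approx (σ : AlgebraicClosure ℚ ≃ₐ[ℚ] AlgebraicClosure ℚ)
    (t : ℚ_[q] ⊗[ℚ] AlgebraicClosure ℚ) {η : ℝ} (hη : 0 < η) :
    ∃ y : AlgebraicClosure ℚ, ‖tensorMap q 1 t - padicEmbedding q y‖ < η ∧
      ‖tensorMap q σ t - padicEmbedding q (σ y)‖ < η := by
  induction t using TensorProduct.induction_on generalizing η with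
  | zero => exact ⟨0, by simpa using hη, by simpa using hη⟩
  | tmul a x =>
    set C : ℝ := ‖padicEmbedding q x‖ + ‖padicEmbedding q (σ x)‖ + 1 with hC
    have hCpos : 0 < C := by positivity
    obtain ⟨r, hr⟩ := Padic.rat_dense q a (div_pos hη hCpos)
    have hr' : ‖a - (r : ℚ_[q])‖ * C < η := (lt_div_iff₀ hCpos).1 hr
    have hmap : ∀ z : AlgebraicClosure ℚ,
        padicEmbedding q (algebraMap ℚ (AlgebraicClosure ℚ) r * z) =
          algebraMap ℚ_[q] (PadicAlgCl q) (r : ℚ_[q]) * padicEmbedding q z := by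
      intro z
      have hr0 : algebraMap ℚ (PadicAlgCl q) r = algebraMap ℚ_[q] (PadicAlgCl q) (r : ℚ_[q]) :=
        (IsScalarTower.algebraMap_apply ℚ ℚ_[q] (PadicAlgCl q) r).trans (by simp)
      rw [map_mul, AlgHom.commutes, hr0]
    have hbound : ∀ z : AlgebraicClosure ℚ, ‖padicEmbedding q z‖ ≤ C →
        ‖algebraMap ℚ_[q] (PadicAlgCl q) a * padicEmbedding q z -
          padicEmbedding q (algebraMap ℚ (AlgebraicClosure ℚ) r * z)‖ < η := by
      intro z hz
      rw [hmap, ← sub_mul, ← map_sub, norm_mul, norm_algebraMap']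
      exact lt_of_le_of_lt (mul_le_mul_of_nonneg_left hz (norm_nonneg _)) hr'
    refine ⟨algebraMap ℚ (AlgebraicClosure ℚ) r * x, ?_, ?_⟩
    · rw [tensorMap_tmul, AlgEquiv.one_apply]
      refine hbound x ?_
      rw [hC]; linarith [norm_nonneg (padicEmbedding q (σ x))]
    · rw [tensorMap_tmul, map_mul, AlgEquiv.commutes]
      refine hbound (σ x) ?_
      rw [hC]; linarith [norm_nonneg (padicEmbedding q x)]
  | add t₁ t₂ ih₁ ih₂ =>
    obtain ⟨y₁, h₁, h₁'⟩ := ih₁ (half_pos hη)
    obtain ⟨y₂, h₂, h₂'⟩ := ih₂ (half_pos hη)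
    refine ⟨y₁ + y₂, ?_, ?_⟩
    · have : tensorMap q 1 (t₁ + t₂) - padicEmbedding q (y₁ + y₂) =
          (tensorMap q 1 t₁ - padicEmbedding q y₁) + (tensorMap q 1 t₂ - padicEmbedding q y₂) := by
        rw [map_add, map_add]; ring
      rw [this]
      exact lt_of_le_of_lt (norm_add_le _ _) (by linarith)
    · have : tensorMap q σ (t₁ + t₂) - padicEmbedding q (σ (y₁ + y₂)) =
          (tensorMap q σ t₁ - padicEmbedding q (σ y₁)) +
            (tensorMap q σ t₂ - padicEmbedding q (σ y₂)) := by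
        rw [map_add, map_add, map_add]; ring
      rw [this]
      exact lt_of_le_of_lt (norm_add_le _ _) (by linarith)

variable {q}

/-- For `σ` in the decomposition group, the kernel of `a ⊗ x ↦ a · ι x` is contained in the
kernel of `a ⊗ x ↦ a · ι (σ x)`. -/
theorem tensorMap_eq_zero_of_mem_decomposition
    {σ : AlgebraicClosure ℚ ≃ₐ[ℚ] AlgebraicClosure ℚ}
    (hσ : σ ∈ (padicPlace q).decompositionSubgroup ℚ)
    {t : ℚ_[q] ⊗[ℚ] AlgebraicClosure ℚ} (ht : tensorMap q 1 t = 0) : tensorMap q σ t = 0 := by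
  by_contra hne
  have hpos : 0 < ‖tensorMap q σ t‖ := norm_pos_iff.2 hne
  obtain ⟨y, h1, h2⟩ := exists_simultaneous_approx q σ t (half_pos hpos)
  rw [ht, zero_sub, norm_neg] at h1
  rw [← norm_padicEmbedding_apply_of_mem_decomposition hσ y] at h1
  have h3 : ‖tensorMap q σ t‖ ≤ ‖tensorMap q σ t - padicEmbedding q (σ y)‖ +
      ‖padicEmbedding q (σ y)‖ := by
    have := norm_add_le (tensorMap q σ t - padicEmbedding q (σ y)) (padicEmbedding q (σ y))
    rwa [sub_add_cancel] at this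
  linarith

variable (q)

/-- The map `a ⊗ x ↦ a · ι x` is onto `PadicAlgCl q` (Krasner). -/
theorem tensorMap_one_surjective : Function.Surjective (tensorMap q 1) := by
  intro x
  obtain ⟨z, hz⟩ := Fermat.Agent.S55.helper698.exists_mem_adjoin_padicEmbedding q x
  have hint : IsIntegral ℚ_[q] (padicEmbedding q z) := Algebra.IsIntegral.isIntegral _
  have hx : x ∈ (ℚ_[q]⟮padicEmbedding q z⟯).toSubalgebra := hz
  rw [IntermediateField.adjoin_simple_toSubalgebra_of_isAlgebraic hint.isAlgebraic] at hx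
  have hle : Algebra.adjoin ℚ_[q] {padicEmbedding q z} ≤ (tensorMap q 1).range := by
    rw [Algebra.adjoin_le_iff]
    rintro _ rfl
    refine ⟨(1 : ℚ_[q]) ⊗ₜ[ℚ] z, ?_⟩
    show tensorMap q 1 ((1 : ℚ_[q]) ⊗ₜ[ℚ] z) = padicEmbedding q z
    rw [tensorMap_tmul]; simp
  exact hle hx

variable {q}

/-- The `ℚ_q`-algebra endomorphism of `PadicAlgCl q` induced by `σ` in the decomposition group. -/
noncomputable def localLiftHom {σ : AlgebraicClosure ℚ ≃ₐ[ℚ] AlgebraicClosure ℚ}
    (hσ : σ ∈ (padicPlace q).decompositionSubgroup ℚ) : PadicAlgCl q →ₐ[ℚ_[q]] PadicAlgCl q :=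
  AlgHom.liftOfSurjective (tensorMap q 1) (tensorMap_one_surjective q) (tensorMap q σ)
    (fun _ ht => tensorMap_eq_zero_of_mem_decomposition hσ ht)

theorem localLiftHom_padicEmbedding {σ : AlgebraicClosure ℚ ≃ₐ[ℚ] AlgebraicClosure ℚ}
    (hσ : σ ∈ (padicPlace q).decompositionSubgroup ℚ) (x : AlgebraicClosure ℚ) :
    localLiftHom hσ (padicEmbedding q x) = padicEmbedding q (σ x) := by
  have h1 : tensorMap q 1 ((1 : ℚ_[q]) ⊗ₜ[ℚ] x) = padicEmbedding q x := by
    rw [tensorMap_tmul]; simp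
  have h2 : tensorMap q σ ((1 : ℚ_[q]) ⊗ₜ[ℚ] x) = padicEmbedding q (σ x) := by
    rw [tensorMap_tmul]; simp
  rw [← h1, ← h2]
  exact AlgHom.liftOfSurjective_apply _ _ _ _ _

/-- The local automorphism lifting `σ` in the decomposition group. -/
noncomputable def localLift {σ : AlgebraicClosure ℚ ≃ₐ[ℚ] AlgebraicClosure ℚ}
    (hσ : σ ∈ (padicPlace q).decompositionSubgroup ℚ) : PadicAlgCl q ≃ₐ[ℚ_[q]] PadicAlgCl q :=
  AlgEquiv.ofBijective (localLiftHom hσ) (Algebra.IsAlgebraic.algHom_bijective _)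

theorem localLift_padicEmbedding {σ : AlgebraicClosure ℚ ≃ₐ[ℚ] AlgebraicClosure ℚ}
    (hσ : σ ∈ (padicPlace q).decompositionSubgroup ℚ) (x : AlgebraicClosure ℚ) :
    localLift hσ (padicEmbedding q x) = padicEmbedding q (σ x) :=
  localLiftHom_padicEmbedding hσ x

/-- `localGaloisToGlobal q (localLift hσ) = σ`. -/
theorem localGaloisToGlobal_localLift {σ : AlgebraicClosure ℚ ≃ₐ[ℚ] AlgebraicClosure ℚ}
    (hσ : σ ∈ (padicPlace q).decompositionSubgroup ℚ) :
    localGaloisToGlobal q (localLift hσ) = σ := by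
  ext x
  apply (padicEmbedding q).toRingHom.injective
  show padicEmbedding q (localGaloisToGlobal q (localLift hσ) x) = padicEmbedding q (σ x)
  rw [padicEmbedding_localGaloisToGlobal, localLift_padicEmbedding]

variable (q)

/-- **S55-DECOMP (1), existence form.** Every automorphism of `ℚ̄` stabilising the frozen place
`padicPlace q` comes from a (unique) `ℚ_q`-automorphism of `PadicAlgCl q`. -/
theorem exists_localGaloisToGlobal_eq {σ : AlgebraicClosure ℚ ≃ₐ[ℚ] AlgebraicClosure ℚ}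
    (hσ : σ ∈ (padicPlace q).decompositionSubgroup ℚ) :
    ∃ τ : PadicAlgCl q ≃ₐ[ℚ_[q]] PadicAlgCl q, localGaloisToGlobal q τ = σ :=
  ⟨localLift hσ, localGaloisToGlobal_localLift hσ⟩

/-- **S55-DECOMP (1).** The image of the local Galois group is the decomposition group of the
frozen place `padicPlace q`. -/
theorem localGaloisToGlobal_range :
    (localGaloisToGlobal q).range = (padicPlace q).decompositionSubgroup ℚ := by
  apply le_antisymm
  · rintro _ ⟨τ, rfl⟩
    exact localGaloisToGlobal_mem_decompositionSubgroup q τ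
  · intro σ hσ
    exact ⟨localLift hσ, localGaloisToGlobal_localLift hσ⟩

theorem mem_decompositionSubgroup_iff_exists
    (σ : AlgebraicClosure ℚ ≃ₐ[ℚ] AlgebraicClosure ℚ) :
    σ ∈ (padicPlace q).decompositionSubgroup ℚ ↔
      ∃ τ : PadicAlgCl q ≃ₐ[ℚ_[q]] PadicAlgCl q, localGaloisToGlobal q τ = σ := by
  rw [← localGaloisToGlobal_range]; rfl

/-- `localGaloisToGlobal q` as an isomorphism onto the decomposition group of `padicPlace q`. -/
noncomputable def localGaloisEquivDecomposition :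
    (PadicAlgCl q ≃ₐ[ℚ_[q]] PadicAlgCl q) ≃* (padicPlace q).decompositionSubgroup ℚ :=
  MulEquiv.ofBijective
    ((localGaloisToGlobal q).codRestrict _ (localGaloisToGlobal_mem_decompositionSubgroup q))
    ⟨fun _ _ h => Fermat.Agent.S55.helper698.localGaloisToGlobal_injective q
        (congrArg Subtype.val h),
      fun σ => ⟨localLift σ.2, Subtype.ext (localGaloisToGlobal_localLift σ.2)⟩⟩

@[simp] theorem coe_localGaloisEquivDecomposition (τ : PadicAlgCl q ≃ₐ[ℚ_[q]] PadicAlgCl q) :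
    ((localGaloisEquivDecomposition q τ : (padicPlace q).decompositionSubgroup ℚ) :
      AlgebraicClosure ℚ ≃ₐ[ℚ] AlgebraicClosure ℚ) = localGaloisToGlobal q τ := rfl

theorem localGaloisToGlobal_localGaloisEquivDecomposition_symm
    (σ : (padicPlace q).decompositionSubgroup ℚ) :
    localGaloisToGlobal q ((localGaloisEquivDecomposition q).symm σ) = σ := by
  have := (localGaloisEquivDecomposition q).apply_symm_apply σ
  exact congrArg Subtype.val this

/-! ### The frozen place lies over `q`; its maximal ideal in norm language -/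

/-- The maximal ideal of `padicPlace q` is `{x | ‖ι x‖ < 1}`. -/
theorem mem_nonunits_padicPlace_iff {x : AlgebraicClosure ℚ} :
    x ∈ (padicPlace q).nonunits ↔ ‖padicEmbedding q x‖ < 1 := by
  rw [ValuationSubring.mem_nonunits_iff_or]
  by_cases hx : x = 0
  · subst hx; simp
  · have hpos : 0 < ‖padicEmbedding q x‖ := norm_pos_iff.2 (by rwa [Ne, map_eq_zero])
    rw [mem_padicPlace_iff, ← NNReal.coe_le_coe, coe_nnnorm, NNReal.coe_one, map_inv₀, norm_inv,
      inv_le_one₀ hpos]
    simp [hx]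

/-- `padicPlace q` in norm language. -/
theorem mem_padicPlace_iff_norm {x : AlgebraicClosure ℚ} :
    x ∈ padicPlace q ↔ ‖padicEmbedding q x‖ ≤ 1 := by
  rw [mem_padicPlace_iff, ← NNReal.coe_le_coe, coe_nnnorm, NNReal.coe_one]

theorem norm_padicEmbedding_natCast_self : ‖padicEmbedding q (q : AlgebraicClosure ℚ)‖ = (q : ℝ)⁻¹ := by
  rw [map_natCast, ← map_natCast (algebraMap ℚ_[q] (PadicAlgCl q)), norm_algebraMap',
    Padic.norm_p]

/-- The frozen place `padicPlace q` lies over `q`. -/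
theorem padicPlace_liesOverPrime : (padicPlace q).LiesOverPrime q := by
  unfold ValuationSubring.LiesOverPrime
  rw [mem_nonunits_padicPlace_iff, norm_padicEmbedding_natCast_self]
  have hq : (1 : ℝ) < q := by exact_mod_cast (Fact.out : q.Prime).one_lt
  exact inv_lt_one_of_one_lt₀ hq

section NatPrimes

open ExtCitation

/-- **S55-DECOMP (1)** for the frozen carriers `primeLocalToGlobal` / `primeLocalPlace`. -/
theorem primeLocalToGlobal_range (l : Nat.Primes) :
    (primeLocalToGlobal l).range = (primeLocalPlace l).decompositionSubgroup ℚ :=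
  haveI : Fact (l : ℕ).Prime := ⟨l.2⟩
  localGaloisToGlobal_range (l : ℕ)

theorem exists_primeLocalToGlobal_eq (l : Nat.Primes)
    {σ : AlgebraicClosure ℚ ≃ₐ[ℚ] AlgebraicClosure ℚ}
    (hσ : σ ∈ (primeLocalPlace l).decompositionSubgroup ℚ) :
    ∃ τ : primeLocalGaloisGroup l, primeLocalToGlobal l τ = σ :=
  haveI : Fact (l : ℕ).Prime := ⟨l.2⟩
  exists_localGaloisToGlobal_eq (l : ℕ) hσ

theorem primeLocalPlace_liesOverPrime (l : Nat.Primes) :
    (primeLocalPlace l).LiesOverPrime (l : ℕ) :=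
  haveI : Fact (l : ℕ).Prime := ⟨l.2⟩
  padicPlace_liesOverPrime (l : ℕ)

end NatPrimes

end Fermat.Agent.S55.helper4145
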