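import Fermat.Agent.S55.helper4727_Places
import Fermat.Agent.S55.helper4145_Decomp
import Fermat.Agent.S55.helper2556_Mackey

/-!
# Places of `F` over `q`: range / Mackey / orbit forms (helper4727, S55-PLACES part 2)

Adapters of `helper4727_Places` to the shapes used by the consumers:

* `card_doubleCoset_range`, `sum_card_doubleCoset_range`: double cosets with respect to
  `(localGaloisToGlobal q).range` / `(primeLocalToGlobal p).range` (the `nPl` of the global
  bridge).
* `card_of_isDoubleCosetReps`, `card_mackeyDoubleCosets`: the index set of a Mackey decomposition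
  (`helper2556.IsDoubleCosetReps`, `helper2556.DoubleCosets`).
* `placeOfCoset`, `placeOfCoset_eq_iff`, `orbitsEquiv`, `card_orbits_of_hom`: the orbits of the
  local Galois group on `G_ℚ ⧸ Gal(ℚ̄/F)` (the `h⁰` of the restriction of a permutation module).
-/

set_option autoImplicit false

namespace Fermat.Agent.S55.helper4727

open scoped Pointwise NumberField NNReal
open Fermat.Agent.Lib.helper54 Fermat.Agent.Lib.helper954
open IsDedekindDomain ExtCitation

attribute [local instance] isAlgebraic_Qbar isAlgClosure_Qbar isGalois_Qbar isIntegral_Qbar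
attribute [local instance] numberField_intermediate

local notation "Qb" => AlgebraicClosure ℚ
local notation "GQ" => (AlgebraicClosure ℚ ≃ₐ[ℚ] AlgebraicClosure ℚ)

section Range

variable (q : ℕ) [Fact q.Prime] (F : IntermediateField ℚ Qb) [FiniteDimensional ℚ F]

/-- Number of double cosets `Gal(ℚ̄/F) \\ G_ℚ / range (localGaloisToGlobal q)` = number of primes
of `𝓞 F` over `q`. -/
theorem card_doubleCoset_range :
    Nat.card (DoubleCoset.Quotient (F.fixingSubgroup : Set GQ)
        ((localGaloisToGlobal q).range : Set GQ)) =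
      Nat.card {v : HeightOneSpectrum (𝓞 F) // ((q : ℕ) : 𝓞 F) ∈ v.asIdeal} := by
  rw [helper4145.localGaloisToGlobal_range q]
  exact card_doubleCoset q F

theorem finite_doubleCoset_range :
    Finite (DoubleCoset.Quotient (F.fixingSubgroup : Set GQ)
      ((localGaloisToGlobal q).range : Set GQ)) := by
  rw [helper4145.localGaloisToGlobal_range q]
  exact finite_doubleCoset q F

/-- A system of representatives of the double cosets `Gal(ℚ̄/F) \\ G_ℚ / r(G_{ℚ_q})` (Mackey
shape of `helper2556`) is in bijection with the primes of `𝓞 F` over `q`. -/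
theorem card_of_isDoubleCosetReps {ι : Type*} {γ : ι → GQ}
    (hγ : helper2556.IsDoubleCosetReps F.fixingSubgroup (localGaloisToGlobal q) γ) :
    Nat.card ι = Nat.card {v : HeightOneSpectrum (𝓞 F) // ((q : ℕ) : 𝓞 F) ∈ v.asIdeal} := by
  refine card_rep_eq q F (localGaloisToGlobal q) (helper4145.localGaloisToGlobal_range q) γ ?_
  intro x
  obtain ⟨i, hi⟩ := hγ.cover x
  refine ⟨i, hi, fun j hj => ?_⟩
  obtain ⟨h, hh, d, hx⟩ := hi
  obtain ⟨h', hh', d', hx'⟩ := hj
  refine (hγ.disj i j ⟨h'⁻¹ * h, F.fixingSubgroup.mul_mem (F.fixingSubgroup.inv_mem hh') hh,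
    d * d'⁻¹, ?_⟩).symm
  have e : h' * γ j * localGaloisToGlobal q d' = h * γ i * localGaloisToGlobal q d :=
    hx'.symm.trans hx
  have e2 : γ j = h'⁻¹ * (h * γ i * localGaloisToGlobal q d) * (localGaloisToGlobal q d')⁻¹ := by
    rw [← e]; group
  rw [e2, map_mul, map_inv]
  group

/-- The canonical Mackey index set `helper2556.DoubleCosets` has as many elements as there are
primes of `𝓞 F` over `q`. -/
theorem card_mackeyDoubleCosets :
    Nat.card (helper2556.DoubleCosets F.fixingSubgroup (localGaloisToGlobal q)) =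
      Nat.card {v : HeightOneSpectrum (𝓞 F) // ((q : ℕ) : 𝓞 F) ∈ v.asIdeal} :=
  card_of_isDoubleCosetReps q F
    (helper2556.isDoubleCosetReps_doubleCosetRep F.fixingSubgroup (localGaloisToGlobal q))

theorem finite_mackeyDoubleCosets :
    Finite (helper2556.DoubleCosets F.fixingSubgroup (localGaloisToGlobal q)) := by
  haveI := finite_primesOver q F
  have hbij := bijective_placeOf_rep q F (localGaloisToGlobal q)
    (helper4145.localGaloisToGlobal_range q)
    (helper2556.doubleCosetRep F.fixingSubgroup (localGaloisToGlobal q)) (by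
      have hγ := helper2556.isDoubleCosetReps_doubleCosetRep F.fixingSubgroup
        (localGaloisToGlobal q)
      intro x
      obtain ⟨i, hi⟩ := hγ.cover x
      refine ⟨i, hi, fun j hj => ?_⟩
      obtain ⟨h, hh, d, hx⟩ := hi
      obtain ⟨h', hh', d', hx'⟩ := hj
      refine (hγ.disj i j ⟨h'⁻¹ * h, F.fixingSubgroup.mul_mem (F.fixingSubgroup.inv_mem hh') hh,
        d * d'⁻¹, ?_⟩).symm
      have e : h' * helper2556.doubleCosetRep F.fixingSubgroup (localGaloisToGlobal q) j *
          localGaloisToGlobal q d' =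
          h * helper2556.doubleCosetRep F.fixingSubgroup (localGaloisToGlobal q) i *
            localGaloisToGlobal q d := hx'.symm.trans hx
      have e2 : helper2556.doubleCosetRep F.fixingSubgroup (localGaloisToGlobal q) j =
          h'⁻¹ * (h * helper2556.doubleCosetRep F.fixingSubgroup (localGaloisToGlobal q) i *
            localGaloisToGlobal q d) * (localGaloisToGlobal q d')⁻¹ := by
        rw [← e]; group
      rw [e2, map_mul, map_inv]
      group)
  exact Finite.of_injective _ hbij.1

end Range

section RangeS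

variable (F : IntermediateField ℚ Qb) [FiniteDimensional ℚ F]

/-- **The S-count on the frozen carriers**: the total number of double cosets
`Gal(ℚ̄/F) \\ G_ℚ / range (primeLocalToGlobal p)`, `p ∈ S`, is the number of primes of `𝓞 F`
over `S`. -/
theorem sum_card_doubleCoset_range (S : Finset Nat.Primes) :
    ∑ p ∈ S, Nat.card (DoubleCoset.Quotient (F.fixingSubgroup : Set GQ)
        ((primeLocalToGlobal p).range : Set GQ)) =
      Nat.card {v : HeightOneSpectrum (𝓞 F) //
        ∃ p ∈ S, (((p : Nat.Primes) : ℕ) : 𝓞 F) ∈ v.asIdeal} := by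
  rw [← sum_card_doubleCoset F S]
  refine Finset.sum_congr rfl (fun p _ => ?_)
  rw [helper4145.primeLocalToGlobal_range p]

/-- Mackey-shape version of the S-count. -/
theorem sum_card_mackeyDoubleCosets (S : Finset Nat.Primes) :
    ∑ p ∈ S, Nat.card (helper2556.DoubleCosets F.fixingSubgroup (primeLocalToGlobal p)) =
      Nat.card {v : HeightOneSpectrum (𝓞 F) //
        ∃ p ∈ S, (((p : Nat.Primes) : ℕ) : 𝓞 F) ∈ v.asIdeal} := by
  rw [card_primesOver_finset]
  refine Finset.sum_congr rfl (fun p _ => ?_)
  haveI : Fact ((p : Nat.Primes) : ℕ).Prime := ⟨p.2⟩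
  exact card_mackeyDoubleCosets (p : ℕ) F

end RangeS

section Orbits

variable (q : ℕ) [Fact q.Prime] (F : IntermediateField ℚ Qb) [FiniteDimensional ℚ F]

/-- The place of `F` over `q` attached to a left coset `g • Gal(ℚ̄/F)`: `placeOf q F g⁻¹`. -/
noncomputable def placeOfCoset (x : GQ ⧸ F.fixingSubgroup) : HeightOneSpectrum (𝓞 F) :=
  Quotient.liftOn' x (fun g => placeOf q F g⁻¹) (by
    intro a b hab
    have hab' : a⁻¹ * b ∈ F.fixingSubgroup := QuotientGroup.leftRel_apply.mp hab
    have e : b⁻¹ = (a⁻¹ * b)⁻¹ * a⁻¹ := by group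
    show placeOf q F a⁻¹ = placeOf q F b⁻¹
    rw [e, placeOf_mul_left q F _ (F.fixingSubgroup.inv_mem hab')])

@[simp]
theorem placeOfCoset_mk (g : GQ) :
    placeOfCoset q F (QuotientGroup.mk g : GQ ⧸ F.fixingSubgroup) = placeOf q F g⁻¹ := rfl

theorem natCast_mem_placeOfCoset (x : GQ ⧸ F.fixingSubgroup) :
    ((q : ℕ) : 𝓞 F) ∈ (placeOfCoset q F x).asIdeal := by
  induction x using QuotientGroup.induction_on with
  | H g => exact natCast_mem_placeOf q F g⁻¹

theorem placeOfCoset_surjective (v : HeightOneSpectrum (𝓞 F))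
    (hv : ((q : ℕ) : 𝓞 F) ∈ v.asIdeal) : ∃ x : GQ ⧸ F.fixingSubgroup, placeOfCoset q F x = v := by
  obtain ⟨g, hg⟩ := placeOf_surjective q F v hv
  exact ⟨QuotientGroup.mk g⁻¹, by rw [placeOfCoset_mk, inv_inv, hg]⟩

/-- Two cosets define the same place iff they are in the same orbit of the decomposition group
of `padicPlace q` (acting by left multiplication). -/
theorem placeOfCoset_eq_iff (x y : GQ ⧸ F.fixingSubgroup) :
    placeOfCoset q F x = placeOfCoset q F y ↔
      ∃ d ∈ (padicPlace q).decompositionSubgroup ℚ, y = d • x := by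
  induction x using QuotientGroup.induction_on with
  | H g =>
    induction y using QuotientGroup.induction_on with
    | H g' =>
      rw [placeOfCoset_mk, placeOfCoset_mk, placeOf_eq_iff]
      constructor
      · rintro ⟨h, hh, d, hd, e⟩
        refine ⟨d⁻¹, ((padicPlace q).decompositionSubgroup ℚ).inv_mem hd, ?_⟩
        have e2 : g' = d⁻¹ * g * h⁻¹ := by
          have := congrArg (fun z => z⁻¹) e
          simp only [inv_inv, mul_inv_rev] at this
          rw [this]; group
        rw [e2]
        show (QuotientGroup.mk (d⁻¹ * g * h⁻¹) : GQ ⧸ F.fixingSubgroup) =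
          QuotientGroup.mk (d⁻¹ * g)
        rw [QuotientGroup.eq]
        have : (d⁻¹ * g * h⁻¹)⁻¹ * (d⁻¹ * g) = h := by group
        rw [this]
        exact hh
      · rintro ⟨d, hd, e⟩
        have e' : (QuotientGroup.mk g' : GQ ⧸ F.fixingSubgroup) = QuotientGroup.mk (d * g) := e
        rw [QuotientGroup.eq] at e'
        refine ⟨(g'⁻¹ * (d * g)), e', d⁻¹, ((padicPlace q).decompositionSubgroup ℚ).inv_mem hd, ?_⟩
        group

/-- Orbit form for the image of the local Galois group. -/
theorem placeOfCoset_eq_iff_local (x y : GQ ⧸ F.fixingSubgroup) :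
    placeOfCoset q F x = placeOfCoset q F y ↔
      ∃ τ : PadicAlgCl q ≃ₐ[ℚ_[q]] PadicAlgCl q, y = localGaloisToGlobal q τ • x := by
  rw [placeOfCoset_eq_iff]
  constructor
  · rintro ⟨d, hd, e⟩
    rw [← helper4145.localGaloisToGlobal_range q] at hd
    obtain ⟨τ, rfl⟩ := hd
    exact ⟨τ, e⟩
  · rintro ⟨τ, e⟩
    exact ⟨_, localGaloisToGlobal_mem_decompositionSubgroup q τ, e⟩

/-- **Orbit count**: if a group `D` acts on `G_ℚ ⧸ Gal(ℚ̄/F)` through a homomorphism
`r : D →* G_ℚ` whose range is the decomposition group of `padicPlace q`, then the orbits of `D`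
are in bijection with the primes of `𝓞 F` over `q`. -/
noncomputable def orbitsEquiv {D : Type*} [Group D] (r : D →* GQ)
    (hr : r.range = (padicPlace q).decompositionSubgroup ℚ)
    [MulAction D (GQ ⧸ F.fixingSubgroup)]
    (hact : ∀ (d : D) (x : GQ ⧸ F.fixingSubgroup), d • x = r d • x) :
    MulAction.orbitRel.Quotient D (GQ ⧸ F.fixingSubgroup) ≃
      {v : HeightOneSpectrum (𝓞 F) // ((q : ℕ) : 𝓞 F) ∈ v.asIdeal} :=
  Equiv.ofBijective
    (Quotient.lift
      (fun x => (⟨placeOfCoset q F x, natCast_mem_placeOfCoset q F x⟩ :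
        {v : HeightOneSpectrum (𝓞 F) // ((q : ℕ) : 𝓞 F) ∈ v.asIdeal}))
      (fun x y hxy => by
        apply Subtype.ext
        have hxy' : x ∈ MulAction.orbit D y := hxy
        obtain ⟨d, hd⟩ := MulAction.mem_orbit_iff.mp hxy'
        symm
        refine (placeOfCoset_eq_iff q F y x).2 ⟨r d, hr ▸ ⟨d, rfl⟩, ?_⟩
        rw [← hact, hd]))
    (by
      constructor
      · intro a b
        induction a using Quotient.inductionOn with
        | _ x =>
          induction b using Quotient.inductionOn with
          | _ y =>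
            intro hxy
            apply Quotient.sound
            obtain ⟨d, hd, e⟩ := (placeOfCoset_eq_iff q F x y).1 (congrArg Subtype.val hxy)
            rw [← hr] at hd
            obtain ⟨d', rfl⟩ := hd
            show x ∈ MulAction.orbit D y
            refine MulAction.mem_orbit_iff.mpr ⟨d'⁻¹, ?_⟩
            rw [e, ← hact, inv_smul_smul]
      · rintro ⟨v, hv⟩
        obtain ⟨x, hx⟩ := placeOfCoset_surjective q F v hv
        exact ⟨Quotient.mk _ x, Subtype.ext hx⟩)

theorem card_orbits_of_hom {D : Type*} [Group D] (r : D →* GQ)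
    (hr : r.range = (padicPlace q).decompositionSubgroup ℚ)
    [MulAction D (GQ ⧸ F.fixingSubgroup)]
    (hact : ∀ (d : D) (x : GQ ⧸ F.fixingSubgroup), d • x = r d • x) :
    Nat.card (MulAction.orbitRel.Quotient D (GQ ⧸ F.fixingSubgroup)) =
      Nat.card {v : HeightOneSpectrum (𝓞 F) // ((q : ℕ) : 𝓞 F) ∈ v.asIdeal} :=
  Nat.card_congr (orbitsEquiv q F r hr hact)

/-- Orbit count for the local Galois group acting through `localGaloisToGlobal q`. -/
theorem card_orbits_local [MulAction (PadicAlgCl q ≃ₐ[ℚ_[q]] PadicAlgCl q) (GQ ⧸ F.fixingSubgroup)]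
    (hact : ∀ (d : PadicAlgCl q ≃ₐ[ℚ_[q]] PadicAlgCl q) (x : GQ ⧸ F.fixingSubgroup),
      d • x = localGaloisToGlobal q d • x) :
    Nat.card (MulAction.orbitRel.Quotient (PadicAlgCl q ≃ₐ[ℚ_[q]] PadicAlgCl q)
        (GQ ⧸ F.fixingSubgroup)) =
      Nat.card {v : HeightOneSpectrum (𝓞 F) // ((q : ℕ) : 𝓞 F) ∈ v.asIdeal} :=
  card_orbits_of_hom q F (localGaloisToGlobal q) (helper4145.localGaloisToGlobal_range q) hact

end Orbits

end Fermat.Agent.S55.helper4727
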