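/-
S55 (Poitou–Tate), local soft layer, leaf LS-CHI part (C3)/(C4).  Author: helper1610.

The local counts for the induced module `A_F = coind_{G_F}^{G_ℚ} 𝔽_p` (and for its Tate-twisted
dual) on the frozen carriers: `π₀(A_F) = s` and `π₁(A_F) = 2 s + [F:ℚ]`, `s` = number of primes of
`F` above `S`.
-/
import Fermat.Agent.S55.helper1610_PermShapiro
import Fermat.Agent.S55.helper895_H1LocFinal
import Fermat.Agent.S55.helper4727_PlacesOrbits
import Fermat.Agent.S55.helper3071_GlobalBridge
import Fermat.Agent.S55.helper2945_SoftSpec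
import Fermat.Agent.S55.helper1408_DualTwist
import Fermat.Agent.S55.helper4039_SModField

set_option autoImplicit false

noncomputable section

namespace Fermat.Agent.S55.helper1610

open groupCohomology Module ExtCitation IsDedekindDomain NumberField

local notation "GQ" => (AlgebraicClosure ℚ ≃ₐ[ℚ] AlgebraicClosure ℚ)

/-! ## Permutation representations of the frozen local groups -/

section LocalPerm

variable (p : ℕ) [Fact p.Prime] (q : Nat.Primes)
  (A : Rep.{0, 0, 0} (ZMod p) (primeLocalGaloisGroup q))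
  {X : Type} [Finite X] [MulAction (primeLocalGaloisGroup q) X] (b : Basis X (ZMod p) A)

/-- `h¹(ℚ_q, A) = 2·#orbits + [q = p]·|X|` for a permutation representation `A = 𝔽_p[X]` of the
frozen local group whose stabilisers are open and killed by the cyclotomic character. -/
theorem finrank_continuousH1_primeLocal_perm
    (hb : ∀ (g : primeLocalGaloisGroup q) (x : X), A.ρ g (b x) = b (g • x))
    (hX : ∀ x : X, ∃ F : IntermediateField ℚ (AlgebraicClosure ℚ), FiniteDimensional ℚ F ∧
      ∀ s : primeLocalGaloisGroup q, primeLocalToGlobal q s ∈ F.fixingSubgroup → s • x = x)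
    (hχ : ∀ (s : primeLocalGaloisGroup q) (x : X), s • x = x →
      cycloChar p (primeLocalToGlobal q s) = 1) :
    Module.finrank (ZMod p) ↥(continuousH1 (primeLocalToGlobal q) A) =
      2 * Nat.card (MulAction.orbitRel.Quotient (primeLocalGaloisGroup q) X) +
        (if (q : ℕ) = p then Nat.card X else 0) := by
  classical
  have : Fintype (MulAction.orbitRel.Quotient (primeLocalGaloisGroup q) X) := Fintype.ofFinite _
  have hU : ∀ o : MulAction.orbitRel.Quotient (primeLocalGaloisGroup q) X,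
      ∃ F₀ : IntermediateField ℚ (AlgebraicClosure ℚ), FiniteDimensional ℚ F₀ ∧
        F₀.fixingSubgroup.comap (primeLocalToGlobal q) ≤ St (G := primeLocalGaloisGroup q) o := by
    intro o
    obtain ⟨F, hF, h⟩ := hX (rp _ o)
    exact ⟨F, hF, fun s hs => MulAction.mem_stabilizer_iff.2 (h s hs)⟩
  have hχ' : ∀ o : MulAction.orbitRel.Quotient (primeLocalGaloisGroup q) X,
      ∀ u ∈ St (G := primeLocalGaloisGroup q) o, cycloChar p (primeLocalToGlobal q u) = 1 :=
    fun o u hu => hχ u _ (MulAction.mem_stabilizer_iff.1 hu)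
  rw [finrank_continuousH1_perm A b (primeLocalToGlobal q) hb hX
    (fun o => helper895.finiteDimensional_continuousH1_trivial_primeLocal p q _ (hU o) (hχ' o))]
  rw [Finset.sum_congr rfl
    (fun o _ => helper895.finrank_continuousH1_trivial_primeLocal p q _ (hU o) (hχ' o))]
  rw [Finset.sum_add_distrib, Finset.sum_const, Finset.card_univ, smul_eq_mul, mul_comm,
    Nat.card_eq_fintype_card]
  congr 1
  split_ifs with h
  · exact sum_index_stabilizer _ X
  · simp

/-- Finiteness of `H¹(ℚ_q, A)` in the same situation. -/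
theorem finiteDimensional_continuousH1_primeLocal_perm
    (hb : ∀ (g : primeLocalGaloisGroup q) (x : X), A.ρ g (b x) = b (g • x))
    (hX : ∀ x : X, ∃ F : IntermediateField ℚ (AlgebraicClosure ℚ), FiniteDimensional ℚ F ∧
      ∀ s : primeLocalGaloisGroup q, primeLocalToGlobal q s ∈ F.fixingSubgroup → s • x = x)
    (hχ : ∀ (s : primeLocalGaloisGroup q) (x : X), s • x = x →
      cycloChar p (primeLocalToGlobal q s) = 1) :
    FiniteDimensional (ZMod p) ↥(continuousH1 (primeLocalToGlobal q) A) := by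
  refine finiteDimensional_continuousH1_perm A b (primeLocalToGlobal q) hb hX (fun o => ?_)
  refine helper895.finiteDimensional_continuousH1_trivial_primeLocal p q _ ?_ ?_
  · obtain ⟨F, hF, h⟩ := hX (rp _ o)
    exact ⟨F, hF, fun s hs => MulAction.mem_stabilizer_iff.2 (h s hs)⟩
  · exact fun u hu => hχ u _ (MulAction.mem_stabilizer_iff.1 hu)

end LocalPerm

/-! ## Restriction of a permutation representation of `G_ℚ` to the frozen local groups -/

section GlobalPerm

variable (p : ℕ) [Fact p.Prime] (M : Rep.{0, 0, 0} (ZMod p) GQ)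
  {X : Type} [Finite X] [MulAction GQ X] (b : Basis X (ZMod p) M) (q : Nat.Primes)

/-- The number of orbits of the frozen local group at `q` on a `G_ℚ`-set. -/
def localOrbits (X : Type) [MulAction GQ X] (q : Nat.Primes) : ℕ :=
  letI : MulAction (primeLocalGaloisGroup q) X := MulAction.compHom X (primeLocalToGlobal q)
  Nat.card (MulAction.orbitRel.Quotient (primeLocalGaloisGroup q) X)

/-- `h⁰(ℚ_q, M) = #orbits of the local group` for a permutation representation `M = 𝔽_p[X]`
of `G_ℚ`. -/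
theorem finrank_invariants_res_perm
    (hb : ∀ (g : GQ) (x : X), M.ρ g (b x) = b (g • x)) :
    Module.finrank (ZMod p) (Rep.res (primeLocalToGlobal q) M).ρ.invariants =
      localOrbits X q := by
  letI : MulAction (primeLocalGaloisGroup q) X := MulAction.compHom X (primeLocalToGlobal q)
  exact finrank_invariants_eq_card_orbits (Rep.res (primeLocalToGlobal q) M) b
    (fun g x => hb (primeLocalToGlobal q g) x)

/-- `h¹(ℚ_q, M) = 2·#orbits + [q = p]·|X|` for a permutation representation `M = 𝔽_p[X]` of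
`G_ℚ` with open stabilisers on which the cyclotomic character is trivial. -/
theorem finrank_continuousH1_res_perm
    (hb : ∀ (g : GQ) (x : X), M.ρ g (b x) = b (g • x))
    (hX : ∀ x : X, ∃ F : IntermediateField ℚ (AlgebraicClosure ℚ), FiniteDimensional ℚ F ∧
      ∀ s ∈ F.fixingSubgroup, s • x = x)
    (hχ : ∀ (s : GQ) (x : X), s • x = x → cycloChar p s = 1) :
    Module.finrank (ZMod p)
        ↥(continuousH1 (primeLocalToGlobal q) (Rep.res (primeLocalToGlobal q) M)) =
      2 * localOrbits X q + (if (q : ℕ) = p then Nat.card X else 0) := by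
  letI : MulAction (primeLocalGaloisGroup q) X := MulAction.compHom X (primeLocalToGlobal q)
  exact finrank_continuousH1_primeLocal_perm p q (Rep.res (primeLocalToGlobal q) M) b
    (fun g x => hb (primeLocalToGlobal q g) x)
    (fun x => by
      obtain ⟨F, hF, h⟩ := hX x
      exact ⟨F, hF, fun s hs => h _ hs⟩)
    (fun s x hs => hχ _ x hs)

/-- Finiteness of `H¹(ℚ_q, M)` in the same situation. -/
theorem finiteDimensional_continuousH1_res_perm
    (hb : ∀ (g : GQ) (x : X), M.ρ g (b x) = b (g • x))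
    (hX : ∀ x : X, ∃ F : IntermediateField ℚ (AlgebraicClosure ℚ), FiniteDimensional ℚ F ∧
      ∀ s ∈ F.fixingSubgroup, s • x = x)
    (hχ : ∀ (s : GQ) (x : X), s • x = x → cycloChar p s = 1) :
    FiniteDimensional (ZMod p)
      ↥(continuousH1 (primeLocalToGlobal q) (Rep.res (primeLocalToGlobal q) M)) := by
  letI : MulAction (primeLocalGaloisGroup q) X := MulAction.compHom X (primeLocalToGlobal q)
  exact finiteDimensional_continuousH1_primeLocal_perm p q (Rep.res (primeLocalToGlobal q) M) b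
    (fun g x => hb (primeLocalToGlobal q g) x)
    (fun x => by
      obtain ⟨F, hF, h⟩ := hX x
      exact ⟨F, hF, fun s hs => h _ hs⟩)
    (fun s x hs => hχ _ x hs)

end GlobalPerm

/-! ## The `G_ℚ`-set `G_ℚ ⧸ Gal(ℚ̄/F)` -/

section CosetSpace

variable (p : ℕ) [Fact p.Prime] (F : IntermediateField ℚ (AlgebraicClosure ℚ))
  [FiniteDimensional ℚ F]

omit [FiniteDimensional ℚ F] in
theorem card_quotient_fixingSubgroup :
    Nat.card (GQ ⧸ F.fixingSubgroup) = Module.finrank ℚ F := by
  have := Fermat.Agent.Lib.helper54.isGalois_Qbar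
  rw [IntermediateField.finrank_eq_fixingSubgroup_index]
  rfl

instance finite_quotient_fixingSubgroup : Finite (GQ ⧸ F.fixingSubgroup) := by
  apply Nat.finite_of_card_ne_zero
  rw [card_quotient_fixingSubgroup]
  exact Module.finrank_pos.ne'

/-- Stabilisers of points of `G_ℚ ⧸ Gal(ℚ̄/F)` are open. -/
theorem exists_level_smul_eq (x : GQ ⧸ F.fixingSubgroup) :
    ∃ F' : IntermediateField ℚ (AlgebraicClosure ℚ), FiniteDimensional ℚ F' ∧
      ∀ s ∈ F'.fixingSubgroup, s • x = x := by
  obtain ⟨F', hle, hF', hN⟩ := exists_finite_normal_level F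
  refine ⟨F', hF', fun s hs => ?_⟩
  induction x using QuotientGroup.induction_on with
  | H g =>
    show (QuotientGroup.mk (s * g) : GQ ⧸ F.fixingSubgroup) = QuotientGroup.mk g
    rw [QuotientGroup.eq]
    have h1 : g⁻¹ * s⁻¹ * g ∈ F'.fixingSubgroup := by
      have := hN.conj_mem s⁻¹ (inv_mem hs) g⁻¹
      rwa [inv_inv] at this
    have e : (s * g)⁻¹ * g = g⁻¹ * s⁻¹ * g := by group
    rw [e]
    exact IntermediateField.fixingSubgroup_antitone hle h1

omit [FiniteDimensional ℚ F] in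
/-- A character of `G_ℚ` trivial on `Gal(ℚ̄/F)` is trivial on the stabilisers of the points of
`G_ℚ ⧸ Gal(ℚ̄/F)`. -/
theorem char_eq_one_of_smul_eq {k : Type} [CommRing k] (χ : GQ →* kˣ)
    (hζ : ∀ h ∈ F.fixingSubgroup, χ h = 1) (s : GQ)
    (x : GQ ⧸ F.fixingSubgroup) (hs : s • x = x) : χ s = 1 := by
  induction x using QuotientGroup.induction_on with
  | H g =>
    have h0 : (QuotientGroup.mk (s * g) : GQ ⧸ F.fixingSubgroup) = QuotientGroup.mk g := hs
    rw [QuotientGroup.eq] at h0
    have h1 := hζ _ h0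
    rw [map_mul, map_inv, map_mul, mul_inv_rev, mul_assoc, mul_comm (χ s)⁻¹ (χ g),
      inv_mul_cancel_left, inv_eq_one] at h1
    exact h1

/-- The orbits of the frozen local group at `q` on `G_ℚ ⧸ Gal(ℚ̄/F)` are the primes of `F`
over `q`. -/
theorem localOrbits_quotient (q : Nat.Primes) :
    localOrbits (GQ ⧸ F.fixingSubgroup) q =
      Nat.card {v : HeightOneSpectrum (𝓞 F) // (((q : Nat.Primes) : ℕ) : 𝓞 F) ∈ v.asIdeal} := by
  haveI : Fact ((q : Nat.Primes) : ℕ).Prime := ⟨q.2⟩
  letI : MulAction (primeLocalGaloisGroup q) (GQ ⧸ F.fixingSubgroup) :=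
    MulAction.compHom _ (primeLocalToGlobal q)
  exact helper4727.card_orbits_of_hom (q : ℕ) F (primeLocalToGlobal q)
    (helper4145.primeLocalToGlobal_range q) (fun _ _ => rfl)

end CosetSpace

/-! ## The local numerals of a permutation module on `G_ℚ ⧸ Gal(ℚ̄/F)` -/

section Numerals

variable (p : ℕ) [Fact p.Prime] (F : IntermediateField ℚ (AlgebraicClosure ℚ))
  [FiniteDimensional ℚ F] (M : Rep.{0, 0, 0} (ZMod p) GQ)
  (b : Basis (GQ ⧸ F.fixingSubgroup) (ZMod p) M)

/-- `h⁰(ℚ_q, M) = #{primes of F over q}` for `M = 𝔽_p[G_ℚ/G_F]`. -/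
theorem finrank_invariants_res_of_permBasis
    (hb : ∀ (g : GQ) (x : GQ ⧸ F.fixingSubgroup), M.ρ g (b x) = b (g • x)) (q : Nat.Primes) :
    Module.finrank (ZMod p) (Rep.res (primeLocalToGlobal q) M).ρ.invariants =
      Nat.card {v : HeightOneSpectrum (𝓞 F) // (((q : Nat.Primes) : ℕ) : 𝓞 F) ∈ v.asIdeal} := by
  rw [finrank_invariants_res_perm p M b q hb, localOrbits_quotient]

/-- `h¹(ℚ_q, M) = 2·#{primes of F over q} + [q = p]·[F:ℚ]` for `M = 𝔽_p[G_ℚ/G_F]`, `μ_p ⊂ F`. -/
theorem finrank_continuousH1_res_of_permBasis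
    (hb : ∀ (g : GQ) (x : GQ ⧸ F.fixingSubgroup), M.ρ g (b x) = b (g • x))
    (hζ : ∀ h ∈ F.fixingSubgroup, cycloChar p h = 1) (q : Nat.Primes) :
    Module.finrank (ZMod p)
        ↥(continuousH1 (primeLocalToGlobal q) (Rep.res (primeLocalToGlobal q) M)) =
      2 * Nat.card {v : HeightOneSpectrum (𝓞 F) // (((q : Nat.Primes) : ℕ) : 𝓞 F) ∈ v.asIdeal} +
        (if (q : ℕ) = p then Module.finrank ℚ F else 0) := by
  rw [finrank_continuousH1_res_perm p M b q hb (exists_level_smul_eq F)
    (char_eq_one_of_smul_eq F (cycloChar p) hζ), localOrbits_quotient,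
    card_quotient_fixingSubgroup]

/-- Finiteness of `H¹(ℚ_q, M)` for `M = 𝔽_p[G_ℚ/G_F]`, `μ_p ⊂ F`. -/
theorem finiteDimensional_continuousH1_res_of_permBasis
    (hb : ∀ (g : GQ) (x : GQ ⧸ F.fixingSubgroup), M.ρ g (b x) = b (g • x))
    (hζ : ∀ h ∈ F.fixingSubgroup, cycloChar p h = 1) (q : Nat.Primes) :
    FiniteDimensional (ZMod p)
      ↥(continuousH1 (primeLocalToGlobal q) (Rep.res (primeLocalToGlobal q) M)) :=
  finiteDimensional_continuousH1_res_perm p M b q hb (exists_level_smul_eq F)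
    (char_eq_one_of_smul_eq F (cycloChar p) hζ)

/-- `π₀(M) = s` for `M = 𝔽_p[G_ℚ/G_F]`. -/
theorem pi0_of_permBasis
    (hb : ∀ (g : GQ) (x : GQ ⧸ F.fixingSubgroup), M.ρ g (b x) = b (g • x))
    (S : Finset Nat.Primes) :
    helper2945.pi0 S M = helper3071.nPl S F := by
  unfold helper2945.pi0 helper3071.nPl
  rw [helper4727.card_primesOver_finset F S]
  exact Finset.sum_congr rfl (fun q _ => finrank_invariants_res_of_permBasis p F M b hb q)

/-- `π₁(M) = 2 s + [F:ℚ]` for `M = 𝔽_p[G_ℚ/G_F]`, `μ_p ⊂ F` (`[F:ℚ]` only when `p ∈ S`). -/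
theorem pi1_of_permBasis
    (hb : ∀ (g : GQ) (x : GQ ⧸ F.fixingSubgroup), M.ρ g (b x) = b (g • x))
    (hζ : ∀ h ∈ F.fixingSubgroup, cycloChar p h = 1) (S : Finset Nat.Primes) :
    helper2945.pi1 S M =
      2 * helper3071.nPl S F + (if pPrime p ∈ S then Module.finrank ℚ F else 0) := by
  classical
  unfold helper2945.pi1 helper3071.nPl
  rw [helper4727.card_primesOver_finset F S,
    Finset.sum_congr rfl
      (fun q _ => finrank_continuousH1_res_of_permBasis p F M b hb hζ q),
    Finset.sum_add_distrib, ← Finset.mul_sum]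
  congr 1
  have h : ∀ q : Nat.Primes, ((q : ℕ) = p) ↔ (q = pPrime p) := fun q =>
    ⟨fun h => Subtype.ext h, fun h => by rw [h]; rfl⟩
  simp only [h]
  exact Finset.sum_ite_eq' S (pPrime p) (fun _ => Module.finrank ℚ F)

end Numerals

/-! ## The induced module `A_F = coind_{G_F}^{G_ℚ} 𝔽_p` and its Tate-twisted dual -/

section IndRep

variable (p : ℕ) [Fact p.Prime] (F : IntermediateField ℚ (AlgebraicClosure ℚ))
  [FiniteDimensional ℚ F]

omit [FiniteDimensional ℚ F] in
/-- If `F` contains a primitive `p`-th root of unity, the cyclotomic character is trivial on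
`Gal(ℚ̄/F)`. -/
theorem cycloChar_eq_one_of_hasZeta (hζ : helper3071.HasZeta p F) :
    ∀ h ∈ F.fixingSubgroup, cycloChar p h = 1 := by
  obtain ⟨ζ, hζF, hζ⟩ := hζ
  intro h hh
  rw [helper1408.cycloChar_eq_one_iff p h hζ]
  exact (IntermediateField.mem_fixingSubgroup_iff F h).1 hh ζ hζF

/-- The permuted basis of `A_F`, indexed by `G_ℚ ⧸ Gal(ℚ̄/F)`. -/
def indRepBasis : Basis (GQ ⧸ F.fixingSubgroup) (ZMod p) (helper3071.indRep p F) :=
  coindBasis (ZMod p) F.fixingSubgroup

theorem indRepBasis_ρ (g : GQ) (x : GQ ⧸ F.fixingSubgroup) :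
    (helper3071.indRep p F).ρ g (indRepBasis p F x) = indRepBasis p F (g • x) :=
  coindBasis_ρ (ZMod p) F.fixingSubgroup g x

/-- The permuted basis of `A_F' = Hom(A_F, μ_p)`, indexed by `G_ℚ ⧸ Gal(ℚ̄/F)` (`μ_p ⊂ F`). -/
def indRepDualBasis :
    Basis (GQ ⧸ F.fixingSubgroup) (ZMod p) (helper2945.dualT (helper3071.indRep p F)) :=
  dualTwistBasis (helper3071.indRep p F) (indRepBasis p F) (cycloChar p)

theorem indRepDualBasis_ρ (hζ : ∀ h ∈ F.fixingSubgroup, cycloChar p h = 1) (g : GQ)
    (x : GQ ⧸ F.fixingSubgroup) :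
    (helper2945.dualT (helper3071.indRep p F)).ρ g (indRepDualBasis p F x) =
      indRepDualBasis p F (g • x) :=
  dualTwistBasis_ρ (helper3071.indRep p F) (indRepBasis p F) (cycloChar p) (indRepBasis_ρ p F)
    (fun g x hx => char_eq_one_of_smul_eq F (cycloChar p) hζ g x hx) g x

/-- `A_F' ≅ A_F` when `μ_p ⊂ F`. -/
def indRepDualIso (hζ : ∀ h ∈ F.fixingSubgroup, cycloChar p h = 1) :
    helper2945.dualT (helper3071.indRep p F) ≅ helper3071.indRep p F :=
  dualTwistIso (helper3071.indRep p F) (indRepBasis p F) (cycloChar p) (indRepBasis_ρ p F)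
    (fun g x hx => char_eq_one_of_smul_eq F (cycloChar p) hζ g x hx)

/-- **(LC0)** `π₀(A_F) = s`. -/
theorem pi0_indRep (S : Finset Nat.Primes) :
    helper2945.pi0 S (helper3071.indRep p F) = helper3071.nPl S F :=
  pi0_of_permBasis p F _ (indRepBasis p F) (indRepBasis_ρ p F) S

/-- **(LC1)** `π₁(A_F) = 2 s + [F:ℚ]` (`μ_p ⊂ F`; the summand `[F:ℚ]` is there when `p ∈ S`). -/
theorem pi1_indRep (hζ : ∀ h ∈ F.fixingSubgroup, cycloChar p h = 1) (S : Finset Nat.Primes) :
    helper2945.pi1 S (helper3071.indRep p F) =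
      2 * helper3071.nPl S F + (if pPrime p ∈ S then Module.finrank ℚ F else 0) :=
  pi1_of_permBasis p F _ (indRepBasis p F) (indRepBasis_ρ p F) hζ S

/-- **(LC0')** `π₀(A_F') = s` (`μ_p ⊂ F`). -/
theorem pi0_dualT_indRep (hζ : ∀ h ∈ F.fixingSubgroup, cycloChar p h = 1)
    (S : Finset Nat.Primes) :
    helper2945.pi0 S (helper2945.dualT (helper3071.indRep p F)) = helper3071.nPl S F :=
  pi0_of_permBasis p F _ (indRepDualBasis p F) (indRepDualBasis_ρ p F hζ) S

/-- **(LC1')** `π₁(A_F') = 2 s + [F:ℚ]` (`μ_p ⊂ F`). -/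
theorem pi1_dualT_indRep (hζ : ∀ h ∈ F.fixingSubgroup, cycloChar p h = 1)
    (S : Finset Nat.Primes) :
    helper2945.pi1 S (helper2945.dualT (helper3071.indRep p F)) =
      2 * helper3071.nPl S F + (if pPrime p ∈ S then Module.finrank ℚ F else 0) :=
  pi1_of_permBasis p F _ (indRepDualBasis p F) (indRepDualBasis_ρ p F hζ) hζ S

/-- Per-prime forms for `A_F`. -/
theorem finrank_invariants_res_indRep (q : Nat.Primes) :
    Module.finrank (ZMod p)
        (Rep.res (primeLocalToGlobal q) (helper3071.indRep p F)).ρ.invariants =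
      Nat.card {v : HeightOneSpectrum (𝓞 F) // (((q : Nat.Primes) : ℕ) : 𝓞 F) ∈ v.asIdeal} :=
  finrank_invariants_res_of_permBasis p F _ (indRepBasis p F) (indRepBasis_ρ p F) q

theorem finrank_continuousH1_res_indRep (hζ : ∀ h ∈ F.fixingSubgroup, cycloChar p h = 1)
    (q : Nat.Primes) :
    Module.finrank (ZMod p) ↥(continuousH1 (primeLocalToGlobal q)
        (Rep.res (primeLocalToGlobal q) (helper3071.indRep p F))) =
      2 * Nat.card {v : HeightOneSpectrum (𝓞 F) // (((q : Nat.Primes) : ℕ) : 𝓞 F) ∈ v.asIdeal} +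
        (if (q : ℕ) = p then Module.finrank ℚ F else 0) :=
  finrank_continuousH1_res_of_permBasis p F _ (indRepBasis p F) (indRepBasis_ρ p F) hζ q

end IndRep

/-! ## Closed forms for the `E*(A_F) ≤ 0` assembly -/

/-- **(LC-D), closed form**: `A_F' ≅ A_F` for every number field `F ⊂ ℚ̄` containing `μ_p`. -/
theorem stmt_IndDual : ∀ {p : ℕ} [Fact p.Prime] (F : IntermediateField ℚ (AlgebraicClosure ℚ))
    [FiniteDimensional ℚ F], helper3071.HasZeta p F →
      Nonempty (helper2945.dualT (helper3071.indRep p F) ≅ helper3071.indRep p F) :=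
  fun {p} _ F _ hζ => ⟨indRepDualIso p F (cycloChar_eq_one_of_hasZeta p F hζ)⟩

/-- **(LC1), closed form**: `π₁(A_F) ≤ 2 s + [F:ℚ]` for every number field `F ⊂ ℚ̄` containing
`μ_p`. -/
theorem stmt_IndPi1 : ∀ {p : ℕ} [Fact p.Prime] (S : Finset Nat.Primes)
    (F : IntermediateField ℚ (AlgebraicClosure ℚ)) [FiniteDimensional ℚ F],
    helper3071.HasZeta p F →
      helper2945.pi1 S (helper3071.indRep p F) ≤
        2 * helper3071.nPl S F + Module.finrank ℚ F := by
  intro p _ S F _ hζ
  rw [pi1_indRep p F (cycloChar_eq_one_of_hasZeta p F hζ) S]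
  split_ifs <;> omega

/-- **(LC1), frontier form** (the body of `helper3562.Stmt_IndPi1`, verbatim): `π₁(A_F) ≤ 2 s + [F:ℚ]`
for every `S`-field `F` containing `μ_p`. -/
theorem stmt_IndPi1_frontier : ∀ {p : ℕ} [Fact p.Prime], p ≠ 2 → ∀ (S : Finset Nat.Primes),
    pPrime p ∈ S → ∀ F : IntermediateField ℚ (AlgebraicClosure ℚ),
      helper3071.IsSFieldZeta S p F →
        helper2945.pi1 S (helper3071.indRep p F) ≤
          2 * helper3071.nPl S F + Module.finrank ℚ F := by
  intro p _ _ S _ F hF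
  haveI : FiniteDimensional ℚ F := hF.unram.1
  exact stmt_IndPi1 S F hF.zeta

/-! ## (B-cov): covering an `S`-module by induced modules -/

section CoverS

/-- **(B-cov), fixed field.** If `Gal(ℚ̄/F)` acts trivially on `M`, every `m : M` is in the image
of a `G_ℚ`-map `π_m : A_F ⟶ M` (`π_m f = ∑_{xH} f(x⁻¹) • ρ(x) m`, see `coverMap_apply`). -/
theorem exists_cover_indRep (p : ℕ) [Fact p.Prime]
    (F : IntermediateField ℚ (AlgebraicClosure ℚ)) [FiniteDimensional ℚ F]
    (M : Rep.{0, 0, 0} (ZMod p) GQ) (hM : ∀ s ∈ F.fixingSubgroup, M.ρ s = 1) (m : M) :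
    ∃ π : helper3071.indRep p F ⟶ M, m ∈ LinearMap.range π.hom.toLinearMap :=
  exists_coverHom (ZMod p) F.fixingSubgroup M
    (fun h hh n => by rw [hM h hh]; rfl) m

/-- **(B-cov), cofinal form.** For an `S`-module `M` and an `S`-field `F₀` there is an `S`-field
`F ⊇ F₀` whose Galois group acts trivially on `M`; every `m : M` is then in the image of a
`G_ℚ`-map `A_F ⟶ M`. -/
theorem exists_sfield_cover {p : ℕ} [Fact p.Prime] (S : Finset Nat.Primes)
    (M : Rep.{0, 0, 0} (ZMod p) GQ) (hM : helper2945.IsSMod S M)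
    (F₀ : IntermediateField ℚ (AlgebraicClosure ℚ)) (hF₀ : F₀.IsUnramifiedOutside S) :
    ∃ F : IntermediateField ℚ (AlgebraicClosure ℚ), F₀ ≤ F ∧ F.IsUnramifiedOutside S ∧
      (∀ s ∈ F.fixingSubgroup, M.ρ s = 1) ∧
      ∀ m : M, ∃ π : helper3071.indRep p F ⟶ M, m ∈ LinearMap.range π.hom.toLinearMap := by
  haveI := hM.finite
  obtain ⟨K, hK, -, -, -, hKρ⟩ :=
    helper4039.exists_splitting_sfield (S := S) M.ρ hM.smooth hM.unram
  have hF := hF₀.sup hK
  have htriv : ∀ s ∈ (F₀ ⊔ K).fixingSubgroup, M.ρ s = 1 := fun s hs =>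
    (hKρ s).1 (IntermediateField.fixingSubgroup_antitone le_sup_right hs)
  haveI := hF.1
  exact ⟨F₀ ⊔ K, le_sup_left, hF, htriv, fun m => exists_cover_indRep p (F₀ ⊔ K) M htriv m⟩

/-- **(B-cov)** in the pointwise shape: for an `S`-module `M`, an `S`-field `F₀` and `m : M` there
are an `S`-field `F ⊇ F₀` and a `G_ℚ`-map `π : A_F ⟶ M` with `m ∈ range π`. -/
theorem exists_cover {p : ℕ} [Fact p.Prime] (S : Finset Nat.Primes)
    (M : Rep.{0, 0, 0} (ZMod p) GQ) (hM : helper2945.IsSMod S M)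
    (F₀ : IntermediateField ℚ (AlgebraicClosure ℚ)) (hF₀ : F₀.IsUnramifiedOutside S) (m : M) :
    ∃ F : IntermediateField ℚ (AlgebraicClosure ℚ), F₀ ≤ F ∧ F.IsUnramifiedOutside S ∧
      ∃ π : helper3071.indRep p F ⟶ M, m ∈ LinearMap.range π.hom.toLinearMap := by
  obtain ⟨F, h1, h2, -, h4⟩ := exists_sfield_cover S M hM F₀ hF₀
  exact ⟨F, h1, h2, h4 m⟩

end CoverS

end Fermat.Agent.S55.helper1610
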