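/-
S55 (Poitou–Tate), leaf S55-CYCLOTOWER, adapter (helper8845).

The cyclotomic `p`-tower is non-trivial at ALL places over a finite set `S` of primes
simultaneously, in the frozen vocabulary: a place of a number field over `q` is given by a pair
`(q, g)`, `g ∈ G_ℚ`, through the conjugated local map `τ ↦ g * primeLocalToGlobal q τ * g⁻¹`
(`= MulAut.conj g ∘ primeLocalToGlobal q`).
-/
import Mathlib
import Fermat.Prelude.Def_ExtEndgame_ProductionDatum
import Fermat.Agent.S55.helper8845_CycloTower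

set_option autoImplicit false

namespace Fermat.Agent.S55.helper8845

open ExtCitation

local instance isAlgebraicQbar_h8845 : Algebra.IsAlgebraic ℚ (AlgebraicClosure ℚ) :=
  AlgebraicClosure.isAlgebraic ℚ
local instance isAlgClosureQbar_h8845 : IsAlgClosure ℚ (AlgebraicClosure ℚ) :=
  ⟨inferInstance, inferInstance⟩
local instance normalQbar_h8845 : Normal ℚ (AlgebraicClosure ℚ) :=
  IsAlgClosure.normal ℚ (AlgebraicClosure ℚ)

/-- The fixing subgroup of a normal intermediate field is stable under conjugation. -/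
theorem conj_mem_fixingSubgroup_of_normal (N : IntermediateField ℚ (AlgebraicClosure ℚ))
    (hN : Normal ℚ N) (g σ : AlgebraicClosure ℚ ≃ₐ[ℚ] AlgebraicClosure ℚ) (hσ : σ ∈ N.fixingSubgroup) :
    g * σ * g⁻¹ ∈ N.fixingSubgroup := by
  rw [IntermediateField.mem_fixingSubgroup_iff] at hσ ⊢
  intro x hx
  have hmap : ∀ τ : AlgebraicClosure ℚ ≃ₐ[ℚ] AlgebraicClosure ℚ, ∀ y ∈ N, τ y ∈ N := by
    intro τ y hy
    have h := (IntermediateField.normal_iff_forall_map_le' (K := N)).1 hN τ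
    exact h ⟨y, hy, rfl⟩
  have h1 : g⁻¹ x ∈ N := hmap g⁻¹ x hx
  rw [AlgEquiv.mul_apply, AlgEquiv.mul_apply, hσ _ h1]
  exact AlgEquiv.apply_symm_apply g x

/-- **(T3) The cyclotomic `p`-tower is non-trivial at every place over `S`, uniformly.**
For a number field `K ≤ AlgebraicClosure ℚ`, an odd prime `p` and a finite set `S` of primes
(`p ∈ S` allowed) there is `m₀ ≥ 1` such that for all `m ≥ m₀`, every `q ∈ S` and every
`g ∈ G_ℚ` (i.e. every place over `q`) there is `τ` in the local Galois group at `q` whose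
`g`-conjugated image fixes `K` and all `p^m`-th roots of unity and moves every primitive
`p^(m+1)`-th root of unity. -/
theorem exists_cyclo_step_all_places {p : ℕ} (hp : p.Prime) (hp2 : p ≠ 2)
    (S : Finset Nat.Primes) (K : IntermediateField ℚ (AlgebraicClosure ℚ))
    [FiniteDimensional ℚ K] :
    ∃ m₀ : ℕ, 1 ≤ m₀ ∧ ∀ m : ℕ, m₀ ≤ m → ∀ q ∈ S,
      ∀ g : AlgebraicClosure ℚ ≃ₐ[ℚ] AlgebraicClosure ℚ, ∃ τ : primeLocalGaloisGroup q,
        g * primeLocalToGlobal q τ * g⁻¹ ∈ K.fixingSubgroup ∧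
        (∀ ζ : AlgebraicClosure ℚ, ζ ^ p ^ m = 1 →
          (g * primeLocalToGlobal q τ * g⁻¹) ζ = ζ) ∧
        ∀ ζ : AlgebraicClosure ℚ, IsPrimitiveRoot ζ (p ^ (m + 1)) →
          (g * primeLocalToGlobal q τ * g⁻¹) ζ ≠ ζ := by
  classical
  let N : IntermediateField ℚ (AlgebraicClosure ℚ) :=
    IntermediateField.normalClosure ℚ K (AlgebraicClosure ℚ)
  have hKN : K ≤ N := K.le_normalClosure
  have hNfin : FiniteDimensional ℚ N := normalClosure.is_finiteDimensional ℚ K (AlgebraicClosure ℚ)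
  have hNnorm : Normal ℚ N := normalClosure.normal ℚ K (AlgebraicClosure ℚ)
  have hex : ∀ q : Nat.Primes, ∃ m₀ : ℕ, 1 ≤ m₀ ∧ ∀ m : ℕ, m₀ ≤ m →
      ∃ τ : primeLocalGaloisGroup q,
        primeLocalToGlobal q τ ∈ N.fixingSubgroup ∧
        (∀ ζ : AlgebraicClosure ℚ, ζ ^ p ^ m = 1 → primeLocalToGlobal q τ ζ = ζ) ∧
        ∀ ζ : AlgebraicClosure ℚ, IsPrimitiveRoot ζ (p ^ (m + 1)) →
          primeLocalToGlobal q τ ζ ≠ ζ := by
    intro q
    have : Fact (q : ℕ).Prime := ⟨q.2⟩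
    exact exists_global_cyclo_step (q := (q : ℕ)) hp hp2 N
  choose f hf1 hf using hex
  refine ⟨S.sup f ⊔ 1, le_sup_right, fun m hm q hq g => ?_⟩
  have hfm : f q ≤ m := (Finset.le_sup hq).trans (le_sup_left.trans hm)
  obtain ⟨τ, hτN, hfix, hmove⟩ := hf q m hfm
  refine ⟨τ, ?_, fun ζ hζ => ?_, fun ζ hζ e => ?_⟩
  · exact IntermediateField.fixingSubgroup_antitone hKN
      (conj_mem_fixingSubgroup_of_normal N hNnorm g _ hτN)
  · have h1 : (g⁻¹ ζ) ^ p ^ m = 1 := by rw [← map_pow, hζ, map_one]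
    rw [AlgEquiv.mul_apply, AlgEquiv.mul_apply, hfix _ h1]
    exact AlgEquiv.apply_symm_apply g ζ
  · have h1 : IsPrimitiveRoot (g⁻¹ ζ) (p ^ (m + 1)) :=
      hζ.map_of_injective (g⁻¹ : AlgebraicClosure ℚ ≃ₐ[ℚ] AlgebraicClosure ℚ).injective
    apply hmove _ h1
    rw [AlgEquiv.mul_apply, AlgEquiv.mul_apply] at e
    have e2 : g⁻¹ (g (primeLocalToGlobal q τ (g⁻¹ ζ))) = g⁻¹ ζ := congrArg (fun y => g⁻¹ y) e
    rw [show g⁻¹ (g (primeLocalToGlobal q τ (g⁻¹ ζ))) = primeLocalToGlobal q τ (g⁻¹ ζ) from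
      AlgEquiv.symm_apply_apply g _] at e2
    exact e2

end Fermat.Agent.S55.helper8845
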