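import Mathlib
import Fermat.Agent.S55.helper3071_GlobalBridge
import Fermat.Agent.S55.helper8845_CycloPlaces
import Fermat.Agent.S55.helper4727_Places
import Fermat.Agent.S55.helper4039_SField

/-!
# S55, leaf GB-TOWER (backup copy, helper1615): the cyclotomic tower has few places over `S`

For an `S`-field `K ≤ ℚ̄` containing a primitive `p`-th root of unity (`p` an odd prime in `S`)
there is `j` such that `K' := K ⊔ ℚ(ζ_{p^j})` is an `S`-field, `Gal(ℚ̄/K')` is normal in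
`Gal(ℚ̄/K)` of index `p^t`, `[K':ℚ] = p^t [K:ℚ]` and `K'` has at most `p^t` primes above `S`:
`helper3071.Stmt_Tower`.

Proof by orbit counting on the frozen groups (no ideals, no `∑ e f`):

* `card_doubleCoset_mul_le_index`: if `H ≤ M`, `M` normal in `G`, and `D` contains `d` elements
  pairwise distinct modulo `M`, then `#(H \ G / D) * d ≤ [G : H]`;
* `M := ker (autToPow ξ)` (`ξ` a primitive `p^j`-th root of unity) contains `Gal(ℚ̄/K')`, and
  for every `q ∈ S` the decomposition group of `padicPlace q` contains `j - m₀` elements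
  pairwise distinct modulo `M` (`helper8845.exists_cyclo_step_all_places`);
* the number of primes of `K'` over `S` is the number of double cosets
  (`helper4727.sum_card_doubleCoset`);
* the index of `Gal(ℚ̄/K')` in `Gal(ℚ̄/K)` is a power of `p` because the image of `Gal(ℚ̄/K)`
  in `(ℤ/p^j)ˣ` consists of elements `≡ 1 mod p` (`autToPow_pow_eq_one`).
-/

set_option autoImplicit false

namespace Fermat.Agent.S55.helper1615

/-! ## Part 1: a counting lemma for double cosets -/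

/-- If `H ≤ M`, `M` normal, and `δ : Fin d → D` are pairwise distinct modulo `M`, then
`#(H \ G / D) * d ≤ [G : H]`. -/
theorem card_doubleCoset_mul_le_index {G : Type*} [Group G] (H M D : Subgroup G) [M.Normal]
    (hHM : H ≤ M) [H.FiniteIndex] {d : ℕ} (δ : Fin d → G) (hδD : ∀ i, δ i ∈ D)
    (hδ : ∀ i k, δ i * (δ k)⁻¹ ∈ M → i = k) :
    Nat.card (DoubleCoset.Quotient (H : Set G) (D : Set G)) * d ≤ H.index := by
  classical
  let Φ : DoubleCoset.Quotient (H : Set G) (D : Set G) × Fin d → G ⧸ H :=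
    fun x => ((Quotient.out x.1 * δ x.2)⁻¹ : G)
  have hΦ : Function.Injective Φ := by
    rintro ⟨x, i⟩ ⟨y, k⟩ hxy
    have h1 : Quotient.out x * δ i * ((δ k)⁻¹ * (Quotient.out y)⁻¹) ∈ H := by
      have := QuotientGroup.eq.1 hxy
      simpa [mul_assoc] using this
    have hxy' : y = x := by
      rw [← DoubleCoset.out_eq' H D y, ← DoubleCoset.out_eq' H D x, DoubleCoset.eq]
      refine ⟨_, h1, δ k * (δ i)⁻¹, D.mul_mem (hδD k) (D.inv_mem (hδD i)), ?_⟩
      group
    subst hxy'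
    have h2 : δ i * (δ k)⁻¹ ∈ M := by
      have h3 := hHM h1
      have h4 := (inferInstance : M.Normal).conj_mem _ h3 (Quotient.out y)⁻¹
      have e : (Quotient.out y)⁻¹ * (Quotient.out y * δ i * ((δ k)⁻¹ * (Quotient.out y)⁻¹))
          * (Quotient.out y)⁻¹⁻¹ = δ i * (δ k)⁻¹ := by group
      rwa [e] at h4
    rw [hδ i k h2]
  have : Finite (G ⧸ H) := Subgroup.finite_quotient_of_finiteIndex
  have h := Nat.card_le_card_of_injective Φ hΦ
  rw [Nat.card_prod, Nat.card_fin] at h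
  exact h

/-! ## Part 2: the cyclotomic character attached to a primitive root -/

section Cyclo

variable {E : Type*} [Field E] [Algebra ℚ E]

/-- Two automorphisms have the same image under `autToPow` iff they agree on the root. -/
theorem autToPow_eq_iff {n : ℕ} [NeZero n] {ξ : E} (hξ : IsPrimitiveRoot ξ n)
    (g g' : E ≃ₐ[ℚ] E) : hξ.autToPow ℚ g = hξ.autToPow ℚ g' ↔ g ξ = g' ξ := by
  constructor
  · intro h
    rw [← hξ.autToPow_spec ℚ g, ← hξ.autToPow_spec ℚ g', h]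
  · intro h
    rw [← hξ.autToPow_spec ℚ g, ← hξ.autToPow_spec ℚ g'] at h
    have h1 := hξ.pow_inj (ZMod.val_lt _) (ZMod.val_lt _) h
    exact Units.ext (ZMod.val_injective n h1)

/-- `autToPow g = 1` iff `g` fixes the root. -/
theorem autToPow_eq_one_iff {n : ℕ} [NeZero n] {ξ : E} (hξ : IsPrimitiveRoot ξ n)
    (g : E ≃ₐ[ℚ] E) : hξ.autToPow ℚ g = 1 ↔ g ξ = ξ := by
  rw [← map_one (hξ.autToPow ℚ), autToPow_eq_iff]
  rfl

/-- An automorphism fixing a primitive `p`-th root of unity acts on a primitive `p^j`-th root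
through an element of `p`-power order of `(ℤ/p^j)ˣ`. -/
theorem autToPow_pow_eq_one {p j : ℕ} (hp : p.Prime) (hj : 1 ≤ j) [NeZero (p ^ j)] {ξ ζ : E}
    (hξ : IsPrimitiveRoot ξ (p ^ j)) (hζ : IsPrimitiveRoot ζ p) (s : E ≃ₐ[ℚ] E) (hs : s ζ = ζ) :
    (hξ.autToPow ℚ s) ^ (p ^ (j - 1)) = 1 := by
  have : NeZero p := ⟨hp.ne_zero⟩
  set a : ℕ := ((hξ.autToPow ℚ s : (ZMod (p ^ j))ˣ) : ZMod (p ^ j)).val with ha
  have hsξ : s ξ = ξ ^ a := (hξ.autToPow_spec ℚ s).symm
  have hpj : p ^ j = p ^ (j - 1) * p := by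
    rw [← pow_succ]
    congr 1
    omega
  have hη : IsPrimitiveRoot (ξ ^ (p ^ (j - 1))) p :=
    hξ.pow (pow_pos hp.pos j) hpj
  set η : E := ξ ^ (p ^ (j - 1)) with hηdef
  obtain ⟨k, -, hk⟩ := hζ.eq_pow_of_pow_eq_one hη.pow_eq_one
  have hsη : s η = η := by
    rw [← hk, map_pow, hs]
  have hηa : η ^ a = η := by
    calc η ^ a = (ξ ^ a) ^ (p ^ (j - 1)) := by
          rw [hηdef, ← pow_mul, ← pow_mul, mul_comm]
      _ = s η := by rw [← hsξ, ← map_pow]
      _ = η := hsη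
  have hp1 : p - 1 + 1 = p := Nat.sub_add_cancel hp.one_lt.le
  have hη1 : η ^ (a + (p - 1)) = 1 := by
    rw [pow_add, hηa, ← pow_succ', hp1, hη.pow_eq_one]
  have hdvd0 : p ∣ a + (p - 1) := (hη.pow_eq_one_iff_dvd _).1 hη1
  have hdvd : (p : ℤ) ∣ (a : ℤ) - 1 := by
    obtain ⟨c, hc⟩ := hdvd0
    refine ⟨(c : ℤ) - 1, ?_⟩
    have hc' : ((a + (p - 1) : ℕ) : ℤ) = ((p * c : ℕ) : ℤ) := by rw [hc]
    have hp1' : ((p - 1 : ℕ) : ℤ) = (p : ℤ) - 1 := by
      have := hp.one_lt.le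
      push_cast [Nat.cast_sub this]
      ring
    push_cast at hc'
    rw [hp1'] at hc'
    linarith
  have hdvd2 := dvd_sub_pow_of_dvd_sub hdvd (j - 1)
  have hj' : j - 1 + 1 = j := by omega
  rw [hj', one_pow] at hdvd2
  apply Units.ext
  rw [Units.val_pow_eq_pow_val, Units.val_one]
  have hcast : ((hξ.autToPow ℚ s : (ZMod (p ^ j))ˣ) : ZMod (p ^ j)) = ((a : ℕ) : ZMod (p ^ j)) := by
    rw [ha, ZMod.natCast_zmod_val]
  rw [hcast]
  have h0 : (((a : ℤ) ^ p ^ (j - 1) - 1 : ℤ) : ZMod (p ^ j)) = 0 := by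
    rw [ZMod.intCast_zmod_eq_zero_iff_dvd]
    exact_mod_cast hdvd2
  push_cast at h0
  exact sub_eq_zero.1 h0

end Cyclo

/-! ## Part 3: the tower -/

section Tower

open ExtCitation IntermediateField

local notation "Qb" => AlgebraicClosure ℚ
local notation "GQ" => (AlgebraicClosure ℚ ≃ₐ[ℚ] AlgebraicClosure ℚ)

/-- `Gal(ℚ̄/K(ξ))` consists of the elements of `Gal(ℚ̄/K)` fixing `ξ`. -/
theorem mem_fixingSubgroup_sup_adjoin_iff (K : IntermediateField ℚ Qb) (ξ : Qb) (s : GQ) :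
    s ∈ (K ⊔ ℚ⟮ξ⟯).fixingSubgroup ↔ s ∈ K.fixingSubgroup ∧ s ξ = ξ := by
  rw [IntermediateField.fixingSubgroup_sup, Subgroup.mem_inf]
  refine and_congr Iff.rfl ⟨fun h => ?_, fun h => ?_⟩
  · exact (IntermediateField.mem_fixingSubgroup_iff _ _).1 h ξ
      (IntermediateField.mem_adjoin_simple_self ℚ ξ)
  · refine helper4039.mem_fixingSubgroup_adjoin (T := {ξ}) fun x hx => ?_
    rw [Set.mem_singleton_iff] at hx
    rw [hx, h]

/-- **GB-TOWER, detailed form.** -/
theorem tower_core {p : ℕ} (hp : p.Prime) (hp2 : p ≠ 2) (S : Finset Nat.Primes)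
    (hpS : ∃ q ∈ S, ((q : Nat.Primes) : ℕ) = p)
    (K : IntermediateField ℚ Qb) (hK : K.IsUnramifiedOutside S)
    (ζ : Qb) (hζK : ζ ∈ K) (hζ : IsPrimitiveRoot ζ p) :
    ∃ (K' : IntermediateField ℚ Qb) (t : ℕ), K ≤ K' ∧ K'.IsUnramifiedOutside S ∧
      (K'.fixingSubgroup.subgroupOf K.fixingSubgroup).Normal ∧
      K'.fixingSubgroup.relIndex K.fixingSubgroup = p ^ t ∧
      (∀ s ∈ K.fixingSubgroup, s ^ (p ^ t) ∈ K'.fixingSubgroup) ∧
      Module.finrank ℚ K' = p ^ t * Module.finrank ℚ K ∧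
      helper3071.nPl S K' ≤ p ^ t := by
  classical
  have : FiniteDimensional ℚ K := hK.1
  have : IsAlgClosure ℚ Qb := helper4039.isAlgClosure_Qbar
  have : IsGalois ℚ Qb := inferInstance
  have : Fact p.Prime := ⟨hp⟩
  obtain ⟨q₀, hq₀S, hq₀⟩ := hpS
  set n := Module.finrank ℚ K with hn
  have hn0 : 0 < n := Module.finrank_pos
  have hS0 : 0 < S.card := Finset.card_pos.2 ⟨q₀, hq₀S⟩
  obtain ⟨m₀, hm₀, hstep⟩ :=
    helper8845.exists_cyclo_step_all_places hp hp2 S (⊥ : IntermediateField ℚ Qb)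
  set d := S.card * n with hd
  set j := m₀ + d with hj
  have hj1 : 1 ≤ j := by omega
  have : NeZero (p ^ j) := ⟨pow_ne_zero _ hp.ne_zero⟩
  obtain ⟨ξ, hξ⟩ : ∃ ξ : Qb, IsPrimitiveRoot ξ (p ^ j) :=
    HasEnoughRootsOfUnity.exists_primitiveRoot Qb (p ^ j)
  -- the field `K' = K(ξ)` and the three facts we use about it
  obtain ⟨K', hK'def⟩ : ∃ K' : IntermediateField ℚ Qb, K' = K ⊔ ℚ⟮ξ⟯ := ⟨_, rfl⟩
  have hKK' : K ≤ K' := hK'def ▸ le_sup_left
  have hmem : ∀ s : GQ, s ∈ K'.fixingSubgroup ↔ s ∈ K.fixingSubgroup ∧ s ξ = ξ := by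
    intro s
    rw [hK'def]
    exact mem_fixingSubgroup_sup_adjoin_iff K ξ s
  have hK' : K'.IsUnramifiedOutside S := by
    rw [hK'def]
    refine helper4039.isUnramifiedOutside_sup_adjoin_of_pow_eq_one hK (m := p ^ j) ?_
      hξ.pow_eq_one
    intro q hq
    have h1 : (q : ℕ) = p := (Nat.prime_dvd_prime_iff_eq q.2 hp).1 (q.2.dvd_of_dvd_pow hq)
    have h2 : q = q₀ := Subtype.ext (h1.trans hq₀.symm)
    rw [h2]
    exact hq₀S
  clear hK'def
  have : FiniteDimensional ℚ K' := hK'.1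
  -- the character of `Gal(ℚ̄/K)`
  let f : K.fixingSubgroup →* (ZMod (p ^ j))ˣ := (hξ.autToPow ℚ).comp K.fixingSubgroup.subtype
  have hf : ∀ s : K.fixingSubgroup, f s = hξ.autToPow ℚ (s : GQ) := fun _ => rfl
  have hker : K'.fixingSubgroup.subgroupOf K.fixingSubgroup = f.ker := by
    ext s
    rw [Subgroup.mem_subgroupOf, MonoidHom.mem_ker, hmem, hf, autToPow_eq_one_iff]
    exact ⟨fun h => h.2, fun h => ⟨s.2, h⟩⟩
  have hpg : IsPGroup p f.range := by
    rintro ⟨_, ⟨s, rfl⟩⟩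
    refine ⟨j - 1, Subtype.ext ?_⟩
    have hsζ : (s : GQ) ζ = ζ := (IntermediateField.mem_fixingSubgroup_iff _ _).1 s.2 ζ hζK
    exact autToPow_pow_eq_one hp hj1 hξ hζ (s : GQ) hsζ
  have : Finite f.range := Finite.of_injective (fun x : f.range => (x : (ZMod (p ^ j))ˣ))
    Subtype.val_injective
  obtain ⟨t, ht⟩ := (IsPGroup.iff_card).1 hpg
  have hrel : K'.fixingSubgroup.relIndex K.fixingSubgroup = p ^ t := by
    rw [Subgroup.relIndex, hker, Subgroup.index_ker, ht]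
  have hle : K'.fixingSubgroup ≤ K.fixingSubgroup :=
    IntermediateField.fixingSubgroup_antitone hKK'
  have hfin : Module.finrank ℚ K' = p ^ t * Module.finrank ℚ K := by
    rw [IntermediateField.finrank_eq_fixingSubgroup_index Qb K',
      IntermediateField.finrank_eq_fixingSubgroup_index Qb K, ← hrel]
    exact (Subgroup.relIndex_mul_index hle).symm
  have hidx : K'.fixingSubgroup.index = p ^ t * n := by
    rw [← IntermediateField.finrank_eq_fixingSubgroup_index Qb K', hfin]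
  have hpt : 0 < p ^ t := pow_pos hp.pos t
  have : K'.fixingSubgroup.FiniteIndex := ⟨by rw [hidx]; positivity⟩
  have hM : K'.fixingSubgroup ≤ (hξ.autToPow ℚ).ker := fun s hs =>
    MonoidHom.mem_ker.2 ((autToPow_eq_one_iff hξ s).2 ((hmem s).1 hs).2)
  -- the count at one prime
  have hcount : ∀ q ∈ S,
      Nat.card (DoubleCoset.Quotient (K'.fixingSubgroup : Set GQ)
        ((primeLocalPlace q).decompositionSubgroup ℚ : Set GQ)) * d ≤ p ^ t * n := by
    intro q hq
    have hτ : ∀ i : Fin d, ∃ τ : primeLocalGaloisGroup q,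
        (∀ ζ' : Qb, ζ' ^ p ^ (m₀ + (i : ℕ)) = 1 → primeLocalToGlobal q τ ζ' = ζ') ∧
        ∀ ζ' : Qb, IsPrimitiveRoot ζ' (p ^ (m₀ + (i : ℕ) + 1)) →
          primeLocalToGlobal q τ ζ' ≠ ζ' := by
      intro i
      obtain ⟨τ, -, h1, h2⟩ := hstep (m₀ + (i : ℕ)) (Nat.le_add_right _ _) q hq 1
      refine ⟨τ, fun ζ' hζ' => ?_, fun ζ' hζ' => ?_⟩
      · simpa using h1 ζ' hζ'
      · simpa using h2 ζ' hζ'
    choose τ hτ1 hτ2 using hτ
    have key : ∀ i k : Fin d, (i : ℕ) < (k : ℕ) →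
        primeLocalToGlobal q (τ i) ξ ≠ primeLocalToGlobal q (τ k) ξ := by
      intro i k hik heq
      have hi : m₀ + (i : ℕ) + 1 ≤ j := by
        have := i.2
        omega
      obtain ⟨e, he⟩ : ∃ e : ℕ, j = e + (m₀ + (i : ℕ) + 1) :=
        ⟨j - (m₀ + (i : ℕ) + 1), by omega⟩
      have hpe : p ^ j = p ^ e * p ^ (m₀ + (i : ℕ) + 1) := by
        rw [← pow_add, ← he]
      have hη : IsPrimitiveRoot (ξ ^ p ^ e) (p ^ (m₀ + (i : ℕ) + 1)) :=
        hξ.pow (pow_pos hp.pos j) hpe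
      have h1 : primeLocalToGlobal q (τ k) (ξ ^ p ^ e) = ξ ^ p ^ e := by
        apply hτ1 k
        rw [hη.pow_eq_one_iff_dvd]
        exact pow_dvd_pow p (by omega)
      apply hτ2 i _ hη
      rw [map_pow, heq, ← map_pow, h1]
    have hdist : ∀ i k : Fin d,
        primeLocalToGlobal q (τ i) * (primeLocalToGlobal q (τ k))⁻¹ ∈ (hξ.autToPow ℚ).ker →
          i = k := by
      intro i k h
      have h' : hξ.autToPow ℚ (primeLocalToGlobal q (τ i))
          = hξ.autToPow ℚ (primeLocalToGlobal q (τ k)) := by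
        rw [MonoidHom.mem_ker, map_mul, map_inv, mul_inv_eq_one] at h
        exact h
      have heq := (autToPow_eq_iff hξ _ _).1 h'
      rcases lt_trichotomy (i : ℕ) (k : ℕ) with hlt | heq' | hgt
      · exact absurd heq (key i k hlt)
      · exact Fin.ext heq'
      · exact absurd heq.symm (key k i hgt)
    have hD : ∀ i : Fin d,
        primeLocalToGlobal q (τ i) ∈ (primeLocalPlace q).decompositionSubgroup ℚ := by
      intro i
      have : Fact ((q : Nat.Primes) : ℕ).Prime := ⟨q.2⟩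
      exact localGaloisToGlobal_mem_decompositionSubgroup (q : ℕ) (τ i)
    have h := card_doubleCoset_mul_le_index K'.fixingSubgroup (hξ.autToPow ℚ).ker
      ((primeLocalPlace q).decompositionSubgroup ℚ) hM
      (fun i => primeLocalToGlobal q (τ i)) hD hdist
    rwa [hidx] at h
  -- summation over `S`
  have hsum : helper3071.nPl S K' =
      ∑ q ∈ S, Nat.card (DoubleCoset.Quotient (K'.fixingSubgroup : Set GQ)
        ((primeLocalPlace q).decompositionSubgroup ℚ : Set GQ)) :=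
    (helper4727.sum_card_doubleCoset K' S).symm
  have hnPl : helper3071.nPl S K' ≤ p ^ t := by
    rw [hsum]
    have h1 : (∑ q ∈ S, Nat.card (DoubleCoset.Quotient (K'.fixingSubgroup : Set GQ)
        ((primeLocalPlace q).decompositionSubgroup ℚ : Set GQ))) * d ≤ p ^ t * d := by
      rw [Finset.sum_mul]
      calc _ ≤ ∑ _q ∈ S, p ^ t * n := Finset.sum_le_sum hcount
        _ = p ^ t * d := by
          rw [Finset.sum_const, smul_eq_mul, hd]
          ring
    have hd0 : 0 < d := Nat.mul_pos hS0 hn0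
    exact Nat.le_of_mul_le_mul_right h1 hd0
  refine ⟨K', t, hKK', hK', ?_, hrel, ?_, hfin, hnPl⟩
  · rw [hker]
    exact MonoidHom.normal_ker f
  · intro s hs
    have h1 : (⟨f ⟨s, hs⟩, ⟨⟨s, hs⟩, rfl⟩⟩ : f.range) ^ Nat.card f.range = 1 := pow_card_eq_one'
    have h2 : f (⟨s, hs⟩ ^ (p ^ t)) = 1 := by
      rw [map_pow, ← ht]
      exact congrArg Subtype.val h1
    have h3 : (⟨s, hs⟩ ^ (p ^ t) : K.fixingSubgroup) ∈ f.ker := MonoidHom.mem_ker.2 h2
    rw [← hker, Subgroup.mem_subgroupOf] at h3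
    exact h3

/-- **GB-TOWER** in the shape of the global-bridge Spec: `helper3071.Stmt_Tower`. -/
theorem stmt_Tower : helper3071.Stmt_Tower := by
  intro S p F h
  obtain ⟨ζ, hζF, hζ⟩ := h.zeta
  obtain ⟨K', t, hle, hunr, hnorm, -, -, hfin, hn⟩ :=
    tower_core h.prime h.odd S h.mem F h.unram ζ hζF hζ
  exact ⟨K', t, hunr, ⟨hle, hnorm, hfin⟩, hn⟩

end Tower

end Fermat.Agent.S55.helper1615
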