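/-
S55, local core, formal part (helper164): `(LB1)` and `(LB2)` from the norm index of
Kummer `C_p`-layers alone.

Mathlib only, independent of every framework file.  Everything lives in
`Fermat.Agent.S55.helper164`.

## Mathematical content

`F` runs over the local fields containing `μ_p`, `V F = F^×/p`, `B F = H²(G_F, μ_p)` and
`s F a b = χ_a ∪ δ b` is the symbol.  The abstract inputs are

* `alt`      : `s F a a = 0`                      (`a = N(α)`, `p` odd);
* `rankOne`  : for `a ≠ 0` the map `s F a` has rank exactly one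
               (`s F a b = 0 ↔ b ∈ N F(a^{1/p})^×` and the norm index is `p`);
* `ker_le`   : `s F a b = 0 → b` is a norm from `F(a^{1/p})`;
* `bk2`      : a class killed by restriction to `F(a^{1/p})` is a symbol `s F a b`;
* `cor_res`  : `cor ∘ res = p = 0`;
* `proj`     : `cor (s (res x) β) = s x (N β)`     (projection formula);
* `ker_r`    : `F^× ∩ F(a^{1/p})^{×p} = ⟨a⟩ F^{×p}` (Kummer theory);
* `two`      : `dim F^×/p ≥ 2`.

Conclusions:

* `exists_line` / `symbol_eq_of_ne` : all symbols of `F` lie on one line, and the pairing is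
  nondegenerate on both sides (`left_nondeg`, `right_nondeg`)  — this is `(LB2)`;
* `SymbolData.IsSystem.symbol_of_split` : a class split by a finite tower of Kummer steps is a
  symbol;
* `SymbolData.IsSystem.exists_spanning_of_split` : if any two classes of `B K` become split
  after an injective restriction (restriction to a Sylow field), then `B K` is spanned by one
  vector — this is `(LB1)`.

No unramified classes, no invariant map, no inequality `|Br(L/K)| ≤ [L:K]` is used.
-/
import Mathlib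

set_option autoImplicit false

open Module

namespace Fermat.Agent.S55.helper164

/-! ### Rank one maps -/

section RankOne

variable {k V B : Type*} [Field k] [AddCommGroup V] [Module k V] [AddCommGroup B] [Module k B]

/-- A linear map of rank exactly one, in elementary form: some value is nonzero and every
value is a multiple of it. -/
def RankOne (f : V →ₗ[k] B) : Prop :=
  ∃ b₀, f b₀ ≠ 0 ∧ ∀ b, ∃ c : k, f b = c • f b₀

/-- In a rank one map every nonzero value spans the image. -/
theorem RankOne.exists_smul {f : V →ₗ[k] B} (hf : RankOne f) {b₁ : V} (h₁ : f b₁ ≠ 0) (b : V) :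
    ∃ c : k, f b = c • f b₁ := by
  obtain ⟨b₀, _, hall⟩ := hf
  obtain ⟨c₁, hc₁⟩ := hall b₁
  obtain ⟨c, hc⟩ := hall b
  have hc₁0 : c₁ ≠ 0 := by
    rintro rfl
    exact h₁ (by rw [hc₁, zero_smul])
  refine ⟨c * c₁⁻¹, ?_⟩
  rw [hc, hc₁, smul_smul, mul_assoc, inv_mul_cancel₀ hc₁0, mul_one]

/-- The `finrank` form of rank one. -/
theorem rankOne_of_finrank_range {f : V →ₗ[k] B} (h : finrank k (LinearMap.range f) = 1) :
    RankOne f := by
  obtain ⟨v, hv0, hv⟩ := finrank_eq_one_iff'.1 h
  obtain ⟨b₀, hb₀⟩ := v.2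
  refine ⟨b₀, ?_, fun b => ?_⟩
  · intro h0
    apply hv0
    apply Subtype.ext
    rw [← hb₀, h0]
    rfl
  · obtain ⟨c, hc⟩ := hv ⟨f b, LinearMap.mem_range_self f b⟩
    refine ⟨c, ?_⟩
    have := congrArg Subtype.val hc
    simp only [Submodule.coe_smul] at this
    rw [← this, hb₀]

/-- Rank one from: the kernel is a hyperplane (it misses `b₀` and together with `b₀` it spans). -/
theorem rankOne_of_ker {f : V →ₗ[k] B} (b₀ : V) (h₀ : f b₀ ≠ 0)
    (h : ∀ b, ∃ c : k, f (b - c • b₀) = 0) : RankOne f := by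
  refine ⟨b₀, h₀, fun b => ?_⟩
  obtain ⟨c, hc⟩ := h b
  refine ⟨c, ?_⟩
  rw [map_sub, map_smul, sub_eq_zero] at hc
  exact hc

end RankOne

/-! ### The one-line lemma -/

section OneLine

variable {k V B : Type*} [Field k] [AddCommGroup V] [Module k V] [AddCommGroup B] [Module k B]
  (s : V →ₗ[k] V →ₗ[k] B)

/-- An alternating bilinear map is antisymmetric. -/
theorem antisymm_of_alt (halt : ∀ a, s a a = 0) (a b : V) : s a b = - s b a := by
  have h := halt (a + b)
  simp only [map_add, LinearMap.add_apply, halt, zero_add, add_zero] at h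
  exact eq_neg_of_add_eq_zero_right h

variable {s}

/-- Two rank one rows have a common column on which both are nonzero. -/
theorem exists_common_ne_zero {a a' : V} (ha : RankOne (s a)) (ha' : RankOne (s a')) :
    ∃ b, s a b ≠ 0 ∧ s a' b ≠ 0 := by
  obtain ⟨b₁, h₁, -⟩ := ha
  obtain ⟨b₂, h₂, -⟩ := ha'
  by_cases h12 : s a' b₁ = 0
  · by_cases h21 : s a b₂ = 0
    · refine ⟨b₁ + b₂, ?_, ?_⟩
      · rw [map_add, h21, add_zero]; exact h₁
      · rw [map_add, h12, zero_add]; exact h₂
    · exact ⟨b₂, h21, h₂⟩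
  · exact ⟨b₁, h₁, h12⟩

/-- **One-line lemma.** If `s` is alternating and every nonzero row has rank one, then any two
nonzero rows have the same image. -/
theorem symbol_eq_of_ne (halt : ∀ a, s a a = 0) (hrk : ∀ a, a ≠ 0 → RankOne (s a))
    {a a' : V} (ha : a ≠ 0) (ha' : a' ≠ 0) (y : V) : ∃ b, s a y = s a' b := by
  obtain ⟨b, hb, hb'⟩ := exists_common_ne_zero (hrk a ha) (hrk a' ha')
  have hb0 : b ≠ 0 := by
    rintro rfl
    exact hb (map_zero _)
  have hba : s b a ≠ 0 := by
    rw [antisymm_of_alt s halt b a]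
    exact neg_ne_zero.2 hb
  have hba' : s b a' ≠ 0 := by
    rw [antisymm_of_alt s halt b a']
    exact neg_ne_zero.2 hb'
  -- `s b a' = c • s b a` with `c ≠ 0`
  obtain ⟨c, hc⟩ := (hrk b hb0).exists_smul hba a'
  have hc0 : c ≠ 0 := by
    rintro rfl
    exact hba' (by rw [hc, zero_smul])
  have hc' : s a' b = c • s a b := by
    rw [antisymm_of_alt s halt a' b, hc, antisymm_of_alt s halt a b, smul_neg]
  obtain ⟨t, ht⟩ := (hrk a ha).exists_smul hb y
  refine ⟨(t * c⁻¹) • b, ?_⟩
  rw [map_smul, hc', smul_smul, mul_assoc, inv_mul_cancel₀ hc0, mul_one, ht]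

/-- All symbols lie on one line. -/
theorem exists_line (halt : ∀ a, s a a = 0) (hrk : ∀ a, a ≠ 0 → RankOne (s a)) :
    ∃ v : B, ∀ a b, ∃ c : k, s a b = c • v := by
  by_cases hV : ∃ a₀ : V, a₀ ≠ 0
  · obtain ⟨a₀, ha₀⟩ := hV
    obtain ⟨b₀, hb₀, hall⟩ := hrk a₀ ha₀
    refine ⟨s a₀ b₀, fun a b => ?_⟩
    by_cases ha : a = 0
    · exact ⟨0, by rw [ha, map_zero, LinearMap.zero_apply, zero_smul]⟩
    · obtain ⟨b', hb'⟩ := symbol_eq_of_ne halt hrk ha ha₀ b
      obtain ⟨c, hc⟩ := hall b'
      exact ⟨c, by rw [hb', hc]⟩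
  · refine ⟨0, fun a b => ⟨0, ?_⟩⟩
    have ha : a = 0 := by
      by_contra h
      exact hV ⟨a, h⟩
    rw [ha, map_zero, LinearMap.zero_apply, zero_smul]

/-- Left nondegeneracy. -/
theorem left_nondeg (hrk : ∀ a, a ≠ 0 → RankOne (s a)) {a : V} (h : ∀ b, s a b = 0) : a = 0 := by
  by_contra ha
  obtain ⟨b₀, hb₀, -⟩ := hrk a ha
  exact hb₀ (h b₀)

/-- Right nondegeneracy. -/
theorem right_nondeg (halt : ∀ a, s a a = 0) (hrk : ∀ a, a ≠ 0 → RankOne (s a)) {b : V}
    (h : ∀ a, s a b = 0) : b = 0 :=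
  left_nondeg hrk fun a => by rw [antisymm_of_alt s halt b a, h a, neg_zero]

/-- Two nonzero rows with nested kernels are proportional. -/
theorem exists_smul_eq_of_ker_le (halt : ∀ a, s a a = 0) (hrk : ∀ a, a ≠ 0 → RankOne (s a))
    {a z : V} (ha : a ≠ 0) (hker : ∀ b, s a b = 0 → s z b = 0) : ∃ c : k, z = c • a := by
  by_cases hz : z = 0
  · exact ⟨0, by rw [hz, zero_smul]⟩
  obtain ⟨b₀, hb₀, hall⟩ := hrk a ha
  obtain ⟨b', hb'⟩ := symbol_eq_of_ne halt hrk hz ha b₀
  obtain ⟨c, hc⟩ := hall b'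
  refine ⟨c, ?_⟩
  have hzero : ∀ b, s (z - c • a) b = 0 := by
    intro b
    obtain ⟨t, ht⟩ := hall b
    have h1 : s a (b - t • b₀) = 0 := by rw [map_sub, map_smul, ht, sub_self]
    have h2 := hker _ h1
    rw [map_sub, map_smul, sub_eq_zero] at h2
    rw [map_sub, LinearMap.sub_apply, map_smul, LinearMap.smul_apply, h2, hb', hc, ht, smul_smul,
      smul_smul, mul_comm, sub_self]
  exact sub_eq_zero.1 (left_nondeg hrk hzero)

end OneLine

/-! ### Symbol systems and the tower theorem -/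

section Tower

variable (k : Type*) [Field k] (𝔽 : Type*) (V B : 𝔽 → Type*)
  [∀ F, AddCommGroup (V F)] [∀ F, Module k (V F)] [∀ F, AddCommGroup (B F)] [∀ F, Module k (B F)]

/-- The data of a symbol system: fields `F : 𝔽`, Kummer groups `V F`, Brauer-type groups `B F`,
symbols, and for every class `a` the step `F ⊆ ext F a = F(a^{1/p})` with its restriction,
corestriction, restriction of Kummer classes and norm. -/
structure SymbolData where
  /-- the symbol `s F a b = χ_a ∪ δ b` -/
  s : ∀ F, V F →ₗ[k] V F →ₗ[k] B F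
  /-- the Kummer step `F(a^{1/p})` -/
  ext : ∀ F, V F → 𝔽
  /-- restriction `B F → B F(a^{1/p})` -/
  res : ∀ F (a : V F), B F →ₗ[k] B (ext F a)
  /-- corestriction `B F(a^{1/p}) → B F` -/
  cor : ∀ F (a : V F), B (ext F a) →ₗ[k] B F
  /-- restriction of Kummer classes `F^×/p → F(a^{1/p})^×/p` -/
  r : ∀ F (a : V F), V F →ₗ[k] V (ext F a)
  /-- the norm `F(a^{1/p})^×/p → F^×/p` -/
  nu : ∀ F (a : V F), V (ext F a) →ₗ[k] V F

variable {k 𝔽 V B}

/-- The axioms of a symbol system (see the header of this file). -/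
structure SymbolData.IsSystem (D : SymbolData k 𝔽 V B) : Prop where
  alt : ∀ F a, D.s F a a = 0
  rankOne : ∀ F a, a ≠ 0 → RankOne (D.s F a)
  ker_le : ∀ F a, a ≠ 0 → ∀ b, D.s F a b = 0 → ∃ β, D.nu F a β = b
  bk2 : ∀ F a, a ≠ 0 → ∀ α, D.res F a α = 0 → ∃ b, α = D.s F a b
  cor_res : ∀ F a, a ≠ 0 → ∀ α, D.cor F a (D.res F a α) = 0
  proj : ∀ F a, a ≠ 0 → ∀ x β,
    D.cor F a (D.s (D.ext F a) (D.r F a x) β) = D.s F x (D.nu F a β)
  ker_r : ∀ F a, a ≠ 0 → ∀ x, D.r F a x = 0 → ∃ c : k, x = c • a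
  two : ∀ F (a : V F), ∃ x : V F, ∀ c : k, x ≠ c • a

/-- `Split F α`: the class `α` dies after a finite tower of Kummer steps. -/
inductive SymbolData.Split (D : SymbolData k 𝔽 V B) : ∀ F, B F → Prop
  | zero (F : 𝔽) : SymbolData.Split D F 0
  | step (F : 𝔽) (a : V F) (ha : a ≠ 0) (α : B F)
      (h : SymbolData.Split D (D.ext F a) (D.res F a α)) : SymbolData.Split D F α

namespace SymbolData.IsSystem

variable {D : SymbolData k 𝔽 V B} (h : D.IsSystem)
include h

/-- `(LB2)`: all symbols of `F` lie on one line. -/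
theorem exists_line (F : 𝔽) : ∃ v : B F, ∀ a b, ∃ c : k, D.s F a b = c • v :=
  helper164.exists_line (h.alt F) (h.rankOne F)

/-- `(LB2)`: left nondegeneracy of the symbol. -/
theorem left_nondeg (F : 𝔽) {a : V F} (ha : ∀ b, D.s F a b = 0) : a = 0 :=
  helper164.left_nondeg (h.rankOne F) ha

/-- `(LB2)`: right nondegeneracy of the symbol. -/
theorem right_nondeg (F : 𝔽) {b : V F} (hb : ∀ a, D.s F a b = 0) : b = 0 :=
  helper164.right_nondeg (h.alt F) (h.rankOne F) hb

/-- Corestriction is injective on the symbols of `F(a^{1/p})`: a symbol upstairs with zero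
corestriction vanishes. -/
theorem symbol_eq_zero_of_cor_eq_zero (F : 𝔽) {a : V F} (ha : a ≠ 0) (x y : V (D.ext F a))
    (hcor : D.cor F a (D.s (D.ext F a) x y) = 0) : D.s (D.ext F a) x y = 0 := by
  by_contra hne
  have hx : x ≠ 0 := by
    rintro rfl
    exact hne (by rw [map_zero, LinearMap.zero_apply])
  -- a class `z` of `F` independent of `a`
  obtain ⟨z, hz⟩ := h.two F a
  have hw : D.r F a z ≠ 0 := by
    intro h0
    obtain ⟨c, hc⟩ := h.ker_r F a ha z h0
    exact hz c hc
  -- rewrite the symbol with first entry `r z`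
  obtain ⟨β, hβ⟩ := symbol_eq_of_ne (h.alt _) (h.rankOne _) hx hw y
  rw [hβ] at hcor hne
  rw [h.proj F a ha] at hcor
  by_cases hall : ∀ β', D.s F z (D.nu F a β') = 0
  · -- then `ker (s a) ≤ ker (s z)`, so `z` is a multiple of `a`
    have hker : ∀ b, D.s F a b = 0 → D.s F z b = 0 := by
      intro b hb
      obtain ⟨β', rfl⟩ := h.ker_le F a ha b hb
      exact hall β'
    obtain ⟨c, hc⟩ := exists_smul_eq_of_ker_le (h.alt F) (h.rankOne F) ha hker
    exact hz c hc
  · -- then `cor` is injective on the line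
    push Not at hall
    obtain ⟨β', hβ'⟩ := hall
    rw [← h.proj F a ha] at hβ'
    have hne' : D.s (D.ext F a) (D.r F a z) β' ≠ 0 := by
      intro h0
      exact hβ' (by rw [h0, map_zero])
    obtain ⟨t, ht⟩ := (h.rankOne _ _ hw).exists_smul hne' β
    have ht0 : t = 0 := by
      by_contra ht0
      apply hβ'
      have := hcor
      rw [← h.proj F a ha, ht, map_smul] at this
      exact (smul_eq_zero.1 this).resolve_left ht0
    exact hne (by rw [ht, ht0, zero_smul])

/-- **Tower theorem.** A class split by a finite tower of Kummer steps is a symbol. -/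
theorem symbol_of_split {F : 𝔽} {α : B F} (hα : D.Split F α) : ∃ x y, α = D.s F x y := by
  induction hα with
  | zero F => exact ⟨0, 0, by simp⟩
  | step F a ha α _ ih =>
    obtain ⟨x, y, hxy⟩ := ih
    have hres : D.res F a α = 0 := by
      rw [hxy]
      apply h.symbol_eq_zero_of_cor_eq_zero F ha
      rw [← hxy]
      exact h.cor_res F a ha α
    obtain ⟨b, hb⟩ := h.bk2 F a ha α hres
    exact ⟨a, b, hb⟩

/-- A split class lies on the symbol line. -/
theorem exists_smul_of_split (F : 𝔽) : ∃ v : B F, ∀ α, D.Split F α → ∃ c : k, α = c • v := by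
  obtain ⟨v, hv⟩ := h.exists_line F
  refine ⟨v, fun α hα => ?_⟩
  obtain ⟨x, y, rfl⟩ := h.symbol_of_split hα
  exact hv x y

/-- `(LB1)`: if any two classes of `B K` become split after an injective linear map to some
`B K'` (restriction to a Sylow field of a common splitting field), then `B K` is spanned by one
vector. -/
theorem exists_spanning_of_split {K : 𝔽}
    (hK : ∀ α α' : B K, ∃ (K' : 𝔽) (ρ : B K →ₗ[k] B K'), Function.Injective ρ ∧
      D.Split K' (ρ α) ∧ D.Split K' (ρ α')) :
    ∃ v : B K, ∀ α, ∃ c : k, α = c • v := by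
  by_cases h0 : ∃ α₀ : B K, α₀ ≠ 0
  · obtain ⟨α₀, hα₀⟩ := h0
    refine ⟨α₀, fun α => ?_⟩
    obtain ⟨K', ρ, hρ, hs₀, hs⟩ := hK α₀ α
    obtain ⟨v, hv⟩ := h.exists_smul_of_split K'
    obtain ⟨c₀, hc₀⟩ := hv _ hs₀
    obtain ⟨c, hc⟩ := hv _ hs
    have hc₀0 : c₀ ≠ 0 := by
      rintro rfl
      rw [zero_smul] at hc₀
      exact hα₀ (hρ (by rw [hc₀, map_zero]))
    refine ⟨c * c₀⁻¹, hρ ?_⟩
    rw [map_smul, hc, hc₀, smul_smul, mul_assoc, inv_mul_cancel₀ hc₀0, mul_one]
  · push Not at h0
    exact ⟨0, fun α => ⟨0, by rw [h0 α, smul_zero]⟩⟩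

/-- `(LB1)` in `finrank` form. -/
theorem finrank_le_one_of_split {K : 𝔽}
    (hK : ∀ α α' : B K, ∃ (K' : 𝔽) (ρ : B K →ₗ[k] B K'), Function.Injective ρ ∧
      D.Split K' (ρ α) ∧ D.Split K' (ρ α')) :
    finrank k (B K) ≤ 1 := by
  obtain ⟨v, hv⟩ := h.exists_spanning_of_split hK
  exact finrank_le_one v fun w => by
    obtain ⟨c, hc⟩ := hv w
    exact ⟨c, hc.symm⟩

end SymbolData.IsSystem

end Tower

end Fermat.Agent.S55.helper164
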