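/-
S55-TR2 (backup copy, board #879): the Sylow step at cochain level.

If the restriction of a 2-cocycle `f` of `G` to a finite-index subgroup `H` is a coboundary,
then `H.index • f` is a coboundary.  Proof by coset normalisation and averaging of the cocycle
identity over `G ⧸ H`; the primitive is canonical enough to be right-invariant under every
normal subgroup `U ≤ H` under which `f` and the given primitive on `H` are right-invariant.
-/
import Mathlib

set_option autoImplicit false

namespace Fermat.Agent.S55.helper353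

open groupCohomology

variable {G A : Type*} [Group G] [AddCommGroup A] [DistribMulAction G A]

/-- The inhomogeneous coboundary of a `1`-cochain. -/
def dOne (x : G → A) : G × G → A := fun p => p.1 • x p.2 - x (p.1 * p.2) + x p.1

lemma dOne_def (x : G → A) (g h : G) : dOne x (g, h) = g • x h - x (g * h) + x g := rfl

lemma isCocycle₂_dOne (x : G → A) : IsCocycle₂ (dOne x) := by
  intro g h j
  simp only [dOne_def, smul_add, smul_sub, mul_smul, mul_assoc]
  abel

/-- For a `2`-cocycle, `f (1, k)` does not depend on `k`. -/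
lemma cocycle_one_left (f : G × G → A) (hf : IsCocycle₂ f) (k : G) : f (1, k) = f (1, 1) := by
  have h := hf 1 1 k
  simp only [one_mul, one_smul] at h
  exact (add_left_cancel h).symm

/-- A normal subgroup under which a `2`-cocycle is right-invariant in both variables fixes all
values of the cocycle. -/
lemma smul_eq_of_rightInv (f : G × G → A) (hf : IsCocycle₂ f) (U : Subgroup G) (hU : U.Normal)
    (hfU : ∀ g g' : G, ∀ s ∈ U, ∀ s' ∈ U, f (g * s, g' * s') = f (g, g'))
    (s : G) (hs : s ∈ U) (g h : G) : s • f (g, h) = f (g, h) := by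
  have h1 := hf s g h
  have e1 : f (s * g, h) = f (g, h) := by
    have : s * g = g * (g⁻¹ * s * g) := by group
    rw [this]
    have hmem : g⁻¹ * s * g ∈ U := by
      have := hU.conj_mem s hs g⁻¹
      simpa using this
    have := hfU g h _ hmem 1 U.one_mem
    simpa using this
  have e2 : ∀ k : G, f (s, k) = f (1, 1) := by
    intro k
    have := hfU 1 k s hs 1 U.one_mem
    simp only [one_mul, mul_one] at this
    rw [this, cocycle_one_left f hf]
  rw [e1, e2 g, e2 (g * h)] at h1
  exact (add_right_cancel h1).symm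

/-- If `y` is right-`U`-invariant with `U`-fixed values (`U` normal), then `dOne y` is
right-`U`-invariant in both variables. -/
lemma dOne_rightInv (y : G → A) (U : Subgroup G) (hU : U.Normal)
    (hy : ∀ g : G, ∀ s ∈ U, y (g * s) = y g) (hfix : ∀ s ∈ U, ∀ g : G, s • y g = y g)
    (g g' s : G) (hs : s ∈ U) (s' : G) (hs' : s' ∈ U) :
    dOne y (g * s, g' * s') = dOne y (g, g') := by
  simp only [dOne_def]
  have e1 : y (g' * s') = y g' := hy g' s' hs'
  have e2 : y (g * s) = y g := hy g s hs
  have e3 : y (g * s * (g' * s')) = y (g * g') := by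
    have : g * s * (g' * s') = g * g' * ((g'⁻¹ * s * g') * s') := by group
    rw [this]
    have hmem : g'⁻¹ * s * g' ∈ U := by
      have := hU.conj_mem s hs g'⁻¹
      simpa using this
    exact hy _ _ (U.mul_mem hmem hs')
  rw [e1, e2, e3, mul_smul, hfix s hs]

/-- Averaging step: a `2`-cocycle vanishing on `G × H` is killed by `H.index` up to an explicit
coboundary. -/
theorem exists_primitive_of_vanish (H : Subgroup G) [H.FiniteIndex] (f : G × G → A)
    (hf : IsCocycle₂ f) (h0 : ∀ g : G, ∀ h ∈ H, f (g, h) = 0) :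
    ∃ x : G → A, (∀ g h : G, g • x h - x (g * h) + x g = H.index • f (g, h)) ∧
      ∀ g g' : G, (∀ k : G, f (g, k) = f (g', k)) → x g = x g' := by
  classical
  let _ : Fintype (G ⧸ H) := H.fintypeQuotientOfFiniteIndex
  have hconst : ∀ g k h : G, h ∈ H → f (g, k * h) = f (g, k) := by
    intro g k h hh
    have := hf g k h
    rw [h0 (g * k) h hh, h0 k h hh, smul_zero, zero_add, zero_add] at this
    exact this.symm
  have hcoset : ∀ g k k' : G, (k : G ⧸ H) = (k' : G ⧸ H) → f (g, k) = f (g, k') := by
    intro g k k' hk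
    have hmem : k⁻¹ * k' ∈ H := QuotientGroup.eq.mp hk
    have := hconst g k (k⁻¹ * k') hmem
    rw [mul_inv_cancel_left] at this
    exact this.symm
  refine ⟨fun g => ∑ c : G ⧸ H, f (g, c.out), ?_, ?_⟩
  · intro g h
    have hsum : ∑ c : G ⧸ H, (f (g * h, c.out) + f (g, h))
        = ∑ c : G ⧸ H, (g • f (h, c.out) + f (g, h * c.out)) :=
      Finset.sum_congr rfl fun c _ => hf g h c.out
    rw [Finset.sum_add_distrib, Finset.sum_add_distrib, Finset.sum_const, Finset.card_univ,
      ← Finset.smul_sum] at hsum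
    have hperm : ∑ c : G ⧸ H, f (g, h * c.out) = ∑ c : G ⧸ H, f (g, c.out) := by
      rw [← Equiv.sum_comp (MulAction.toPerm h : Equiv.Perm (G ⧸ H))
        (fun c : G ⧸ H => f (g, c.out))]
      refine Finset.sum_congr rfl fun c _ => ?_
      apply hcoset
      rw [MulAction.toPerm_apply, QuotientGroup.out_eq']
      conv_rhs => rw [← QuotientGroup.out_eq' c]
      rfl
    rw [hperm] at hsum
    have hidx : H.index = Fintype.card (G ⧸ H) := by
      rw [Subgroup.index_eq_card, Nat.card_eq_fintype_card]
    show g • ∑ c : G ⧸ H, f (h, c.out) - ∑ c : G ⧸ H, f (g * h, c.out)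
      + ∑ c : G ⧸ H, f (g, c.out) = H.index • f (g, h)
    rw [hidx, sub_add_eq_add_sub, sub_eq_iff_eq_add']
    exact hsum.symm
  · intro g g' hgg
    exact Finset.sum_congr rfl fun c _ => hgg c.out

/-- **Sylow step in degree 2** (cochain level, with level clause).  If the restriction of a
`2`-cocycle `f` to a finite-index subgroup `H` is the coboundary of `u`, then `H.index • f` is
the coboundary of some `v : G → A`; moreover `v` is right-invariant under every normal subgroup
`U ≤ H` under which `f` (in both variables) and `u` are right-invariant. -/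
theorem index_smul_isCoboundary₂_of_res (H : Subgroup G) [H.FiniteIndex] (f : G × G → A)
    (hf : IsCocycle₂ f) (u : H → A)
    (hu : ∀ a b : H, a • u b - u (a * b) + u a = f (a, b)) :
    ∃ v : G → A, (∀ g h : G, g • v h - v (g * h) + v g = H.index • f (g, h)) ∧
      ∀ U : Subgroup G, U.Normal → U ≤ H →
        (∀ g g' : G, ∀ s ∈ U, ∀ s' ∈ U, f (g * s, g' * s') = f (g, g')) →
        (∀ a s : H, (s : G) ∈ U → u (a * s) = u a) → ∀ g : G, ∀ s ∈ U, v (g * s) = v g := by
  classical
  -- Step 1: extend `u` by zero and subtract its coboundary.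
  set ut : G → A := fun g => if h : g ∈ H then u ⟨g, h⟩ else 0 with hut
  have ut_mem : ∀ (g : G) (hg : g ∈ H), ut g = u ⟨g, hg⟩ := fun g hg => by
    simp only [hut, dif_pos hg]
  have ut_not_mem : ∀ g : G, g ∉ H → ut g = 0 := fun g hg => by
    simp only [hut, dif_neg hg]
  set f1 : G × G → A := fun p => f p - dOne ut p with hf1
  have f1c : IsCocycle₂ f1 := by
    intro g h j
    have h1 := hf g h j
    have h2 := isCocycle₂_dOne ut g h j
    simp only [hf1, smul_sub]
    rw [sub_add_sub_comm, sub_add_sub_comm, h1, h2]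
  have f1H : ∀ a b : G, a ∈ H → b ∈ H → f1 (a, b) = 0 := by
    intro a b ha hb
    have := hu ⟨a, ha⟩ ⟨b, hb⟩
    simp only [hf1, dOne_def]
    rw [ut_mem b hb, ut_mem a ha, ut_mem (a * b) (H.mul_mem ha hb)]
    rw [sub_eq_zero]
    exact this.symm
  -- Step 2: coset normalisation.
  set z : G → A := fun g => f1 ((g : G ⧸ H).out, ((g : G ⧸ H).out)⁻¹ * g) with hz
  set f2 : G × G → A := fun p => f1 p + dOne z p with hf2
  have f2c : IsCocycle₂ f2 := by
    intro g h j
    have h1 := f1c g h j
    have h2 := isCocycle₂_dOne z g h j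
    simp only [hf2, smul_add]
    rw [add_add_add_comm, h1, h2, add_add_add_comm]
  have out_mem : ∀ g : G, ((g : G ⧸ H).out)⁻¹ * g ∈ H := fun g =>
    QuotientGroup.eq.mp (QuotientGroup.out_eq' (g : G ⧸ H))
  have f2H : ∀ g : G, ∀ h' ∈ H, f2 (g, h') = 0 := by
    intro g h' hh'
    have hz1 : z h' = 0 := by
      simp only [hz]
      have hm := out_mem h'
      refine f1H _ _ ?_ hm
      have : ((h' : G ⧸ H).out) = h' * (((h' : G ⧸ H).out)⁻¹ * h')⁻¹ := by group
      rw [this]
      exact H.mul_mem hh' (H.inv_mem hm)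
    have hq : ((g * h' : G) : G ⧸ H) = (g : G ⧸ H) := QuotientGroup.mk_mul_of_mem g hh'
    have hz2 : z (g * h') = f1 ((g : G ⧸ H).out, ((g : G ⧸ H).out)⁻¹ * g * h') := by
      simp only [hz]
      rw [hq, mul_assoc]
    have hc := f1c ((g : G ⧸ H).out) (((g : G ⧸ H).out)⁻¹ * g) h'
    rw [mul_inv_cancel_left, f1H _ _ (out_mem g) hh', smul_zero, zero_add] at hc
    simp only [hf2, dOne_def]
    rw [hz1, hz2, smul_zero, ← hc]
    simp only [hz]
    abel
  -- Step 3: averaging.
  obtain ⟨x, hx, hxinv⟩ := exists_primitive_of_vanish H f2 f2c f2H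
  refine ⟨fun g => x g + H.index • (ut g - z g), ?_, ?_⟩
  · intro g h
    have key : f (g, h) = f2 (g, h) + (dOne ut (g, h) - dOne z (g, h)) := by
      simp only [hf2, hf1]
      abel
    have e := hx g h
    show g • (x h + H.index • (ut h - z h)) - (x (g * h) + H.index • (ut (g * h) - z (g * h)))
      + (x g + H.index • (ut g - z g)) = H.index • f (g, h)
    rw [key, nsmul_add, ← e]
    simp only [dOne_def, smul_add, smul_sub, smul_comm g H.index]
    abel
  · intro U hU hUH hfU huU
    -- `U` fixes the values of `u`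
    have ufix : ∀ s ∈ U, ∀ g : G, s • ut g = ut g := by
      intro s hs g
      by_cases hg : g ∈ H
      · have hsH : s ∈ H := hUH hs
        have h1 := hu ⟨s, hsH⟩ ⟨g, hg⟩
        have h2 := hu 1 ⟨g, hg⟩
        have e1 : u (⟨s, hsH⟩ * ⟨g, hg⟩) = u ⟨g, hg⟩ := by
          have hmem : g⁻¹ * s * g ∈ U := by
            have := hU.conj_mem s hs g⁻¹
            simpa using this
          have := huU ⟨g, hg⟩ ⟨g⁻¹ * s * g, hUH hmem⟩ hmem
          rw [← this]
          congr 1
          apply Subtype.ext
          simp only [Subgroup.coe_mul]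
          group
        have e2 : u ⟨s, hsH⟩ = u 1 := by
          have := huU 1 ⟨s, hsH⟩ hs
          rw [one_mul] at this
          exact this
        have e3 : f (s, g) = f (1, g) := by
          have := hfU 1 g s hs 1 U.one_mem
          simpa using this
        rw [e1, e2] at h1
        rw [one_smul, one_mul, sub_self, zero_add] at h2
        simp only [Subgroup.coe_one] at h2
        have h1' : s • u ⟨g, hg⟩ - u ⟨g, hg⟩ + u 1 = f (s, g) := h1
        rw [e3, ← h2] at h1'
        have h3 : s • u ⟨g, hg⟩ = u ⟨g, hg⟩ := sub_eq_zero.mp (add_eq_right.mp h1')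
        rw [ut_mem g hg]
        exact h3
      · rw [ut_not_mem g hg, smul_zero]
    have utinv : ∀ g : G, ∀ s ∈ U, ut (g * s) = ut g := by
      intro g s hs
      have hsH : s ∈ H := hUH hs
      by_cases hg : g ∈ H
      · rw [ut_mem g hg, ut_mem (g * s) (H.mul_mem hg hsH)]
        exact huU ⟨g, hg⟩ ⟨s, hsH⟩ hs
      · have hgs : g * s ∉ H := fun hgs => hg (by
          have := H.mul_mem hgs (H.inv_mem hsH)
          simpa using this)
        rw [ut_not_mem g hg, ut_not_mem (g * s) hgs]
    have f1inv : ∀ g g' : G, ∀ s ∈ U, ∀ s' ∈ U, f1 (g * s, g' * s') = f1 (g, g') := by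
      intro g g' s hs s' hs'
      simp only [hf1]
      rw [hfU g g' s hs s' hs', dOne_rightInv ut U hU utinv ufix g g' s hs s' hs']
    have f1fix := smul_eq_of_rightInv f1 f1c U hU f1inv
    have zinv : ∀ g : G, ∀ s ∈ U, z (g * s) = z g := by
      intro g s hs
      have hq : ((g * s : G) : G ⧸ H) = (g : G ⧸ H) := QuotientGroup.mk_mul_of_mem g (hUH hs)
      simp only [hz]
      rw [hq, ← mul_assoc]
      have := f1inv ((g : G ⧸ H).out) (((g : G ⧸ H).out)⁻¹ * g) 1 U.one_mem s hs
      rw [mul_one] at this
      exact this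
    have zfix : ∀ s ∈ U, ∀ g : G, s • z g = z g := fun s hs g => f1fix s hs _ _
    have f2inv : ∀ g g' : G, ∀ s ∈ U, ∀ s' ∈ U, f2 (g * s, g' * s') = f2 (g, g') := by
      intro g g' s hs s' hs'
      simp only [hf2]
      rw [f1inv g g' s hs s' hs', dOne_rightInv z U hU zinv zfix g g' s hs s' hs']
    intro g s hs
    have hxg : x (g * s) = x g := hxinv _ _ fun k => by
      have := f2inv g k s hs 1 U.one_mem
      rw [mul_one] at this
      exact this
    simp only []
    rw [hxg, utinv g s hs, zinv g s hs]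

/-- `IsCoboundary₂` form of the Sylow step: if the restriction of a `2`-cocycle to a finite-index
subgroup `H` is a coboundary, then `H.index • f` is a coboundary. -/
theorem isCoboundary₂_index_smul_of_res (H : Subgroup G) [H.FiniteIndex] (f : G × G → A)
    (hf : IsCocycle₂ f) (hres : IsCoboundary₂ (fun p : H × H => f ((p.1 : G), (p.2 : G)))) :
    IsCoboundary₂ (H.index • f) := by
  obtain ⟨u, hu⟩ := hres
  obtain ⟨v, hv, -⟩ := index_smul_isCoboundary₂_of_res H f hf u hu
  exact ⟨v, hv⟩

/-- **Coprime corollary** (with level clause).  If `n • f` is the coboundary of `w`, the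
restriction of `f` to `H` is the coboundary of `u`, and `H.index` is coprime to `n`, then `f` is a
coboundary; the primitive is right-invariant under every normal `U ≤ H` under which `f`, `u` and
`w` are right-invariant. -/
theorem isCoboundary₂_of_res_of_coprime (H : Subgroup G) [H.FiniteIndex] (f : G × G → A)
    (hf : IsCocycle₂ f) (n : ℕ) (hn : Nat.Coprime H.index n)
    (w : G → A) (hw : ∀ g h : G, g • w h - w (g * h) + w g = n • f (g, h))
    (u : H → A) (hu : ∀ a b : H, a • u b - u (a * b) + u a = f (a, b)) :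
    ∃ v : G → A, (∀ g h : G, g • v h - v (g * h) + v g = f (g, h)) ∧
      ∀ U : Subgroup G, U.Normal → U ≤ H →
        (∀ g g' : G, ∀ s ∈ U, ∀ s' ∈ U, f (g * s, g' * s') = f (g, g')) →
        (∀ a s : H, (s : G) ∈ U → u (a * s) = u a) →
        (∀ g : G, ∀ s ∈ U, w (g * s) = w g) → ∀ g : G, ∀ s ∈ U, v (g * s) = v g := by
  obtain ⟨v0, hv0, hlev⟩ := index_smul_isCoboundary₂_of_res H f hf u hu
  obtain ⟨a, b, hab⟩ : ∃ a b : ℤ, a * (H.index : ℤ) + b * (n : ℤ) = 1 :=
    Nat.isCoprime_iff_coprime.mpr hn
  refine ⟨fun g => a • v0 g + b • w g, ?_, ?_⟩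
  · intro g h
    show g • (a • v0 h + b • w h) - (a • v0 (g * h) + b • w (g * h)) + (a • v0 g + b • w g)
      = f (g, h)
    have e1 : a • (H.index • f (g, h)) + b • (n • f (g, h)) = f (g, h) := by
      rw [← natCast_zsmul, ← natCast_zsmul, smul_smul, smul_smul, ← add_smul, hab, one_smul]
    rw [← e1, ← hv0 g h, ← hw g h]
    simp only [smul_add, smul_sub, smul_comm g a, smul_comm g b]
    abel
  · intro U hU hUH hfU huU hwU g s hs
    show a • v0 (g * s) + b • w (g * s) = a • v0 g + b • w g
    rw [hlev U hU hUH hfU huU g s hs, hwU g s hs]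

/-- **Torsion-coefficient corollary** (with level clause): if `n` kills `A` and `H.index` is
coprime to `n`, then restriction to `H` is injective on `H²`: a `2`-cocycle whose restriction to
`H` is a coboundary is a coboundary. -/
theorem isCoboundary₂_of_res_of_torsion (H : Subgroup G) [H.FiniteIndex] (f : G × G → A)
    (hf : IsCocycle₂ f) (n : ℕ) (hn : Nat.Coprime H.index n) (hA : ∀ a : A, n • a = 0)
    (u : H → A) (hu : ∀ a b : H, a • u b - u (a * b) + u a = f (a, b)) :
    ∃ v : G → A, (∀ g h : G, g • v h - v (g * h) + v g = f (g, h)) ∧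
      ∀ U : Subgroup G, U.Normal → U ≤ H →
        (∀ g g' : G, ∀ s ∈ U, ∀ s' ∈ U, f (g * s, g' * s') = f (g, g')) →
        (∀ a s : H, (s : G) ∈ U → u (a * s) = u a) → ∀ g : G, ∀ s ∈ U, v (g * s) = v g := by
  obtain ⟨v, hv, hlev⟩ := isCoboundary₂_of_res_of_coprime H f hf n hn (fun _ => 0)
    (fun g h => by simp [hA]) u hu
  exact ⟨v, hv, fun U hU hUH hfU huU => hlev U hU hUH hfU huU (fun _ _ _ => rfl)⟩

/-- **Sylow step in degree 1**: if the restriction of a `1`-cocycle `f` to a finite-index
subgroup `H` is the coboundary of `u`, then `H.index • f` is a coboundary. -/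
theorem index_smul_isCoboundary₁_of_res (H : Subgroup G) [H.FiniteIndex] (f : G → A)
    (hf : IsCocycle₁ f) (u : A) (hu : ∀ a : H, a • u - u = f a) :
    ∃ v : A, ∀ g : G, g • v - v = H.index • f g := by
  classical
  let _ : Fintype (G ⧸ H) := H.fintypeQuotientOfFiniteIndex
  obtain ⟨f', hf'⟩ : ∃ f' : G → A, ∀ g, f' g = f g - (g • u - u) := ⟨_, fun _ => rfl⟩
  have f'c : ∀ g h : G, f' (g * h) = g • f' h + f' g := by
    intro g h
    simp only [hf', hf g h, mul_smul, smul_sub]
    abel
  have f'H : ∀ h ∈ H, f' h = 0 := by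
    intro h hh
    have := hu ⟨h, hh⟩
    rw [hf', sub_eq_zero]
    exact this.symm
  have hcoset : ∀ k k' : G, (k : G ⧸ H) = (k' : G ⧸ H) → f' k = f' k' := by
    intro k k' hk
    have hmem : k⁻¹ * k' ∈ H := QuotientGroup.eq.mp hk
    have := f'c k (k⁻¹ * k')
    rw [mul_inv_cancel_left, f'H _ hmem, smul_zero, zero_add] at this
    exact this.symm
  have hgy : ∀ g : G, g • (∑ c : G ⧸ H, f' c.out)
      = (∑ c : G ⧸ H, f' c.out) - H.index • f' g := by
    intro g
    have h1 : ∑ c : G ⧸ H, f' (g * c.out) = ∑ c : G ⧸ H, (g • f' c.out + f' g) :=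
      Finset.sum_congr rfl fun c _ => f'c g c.out
    rw [Finset.sum_add_distrib, Finset.sum_const, Finset.card_univ, ← Finset.smul_sum] at h1
    have hperm : ∑ c : G ⧸ H, f' (g * c.out) = ∑ c : G ⧸ H, f' c.out := by
      rw [← Equiv.sum_comp (MulAction.toPerm g : Equiv.Perm (G ⧸ H))
        (fun c : G ⧸ H => f' c.out)]
      refine Finset.sum_congr rfl fun c _ => ?_
      apply hcoset
      rw [MulAction.toPerm_apply, QuotientGroup.out_eq']
      conv_rhs => rw [← QuotientGroup.out_eq' c]
      rfl
    have hidx : H.index = Fintype.card (G ⧸ H) := by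
      rw [Subgroup.index_eq_card, Nat.card_eq_fintype_card]
    rw [hperm] at h1
    rw [hidx]
    exact eq_sub_of_add_eq h1.symm
  refine ⟨H.index • u - ∑ c : G ⧸ H, f' c.out, fun g => ?_⟩
  have hfg : f g = f' g + (g • u - u) := by
    rw [hf']
    abel
  rw [hfg, smul_sub, hgy g, smul_comm g H.index u, nsmul_add, nsmul_sub]
  abel

/-- `IsCoboundary₁` form of the degree-1 Sylow step. -/
theorem isCoboundary₁_index_smul_of_res (H : Subgroup G) [H.FiniteIndex] (f : G → A)
    (hf : IsCocycle₁ f) (hres : IsCoboundary₁ (fun a : H => f (a : G))) :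
    IsCoboundary₁ (H.index • f) := by
  obtain ⟨u, hu⟩ := hres
  obtain ⟨v, hv⟩ := index_smul_isCoboundary₁_of_res H f hf u hu
  exact ⟨v, hv⟩

/-- Degree-1 torsion corollary: if `n` kills `A` and `H.index` is coprime to `n`, a `1`-cocycle
whose restriction to `H` is a coboundary is a coboundary. -/
theorem isCoboundary₁_of_res_of_torsion (H : Subgroup G) [H.FiniteIndex] (f : G → A)
    (hf : IsCocycle₁ f) (n : ℕ) (hn : Nat.Coprime H.index n) (hA : ∀ a : A, n • a = 0)
    (u : A) (hu : ∀ a : H, a • u - u = f a) : ∃ v : A, ∀ g : G, g • v - v = f g := by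
  obtain ⟨v0, hv0⟩ := index_smul_isCoboundary₁_of_res H f hf u hu
  obtain ⟨a, b, hab⟩ : ∃ a b : ℤ, a * (H.index : ℤ) + b * (n : ℤ) = 1 :=
    Nat.isCoprime_iff_coprime.mpr hn
  refine ⟨a • v0, fun g => ?_⟩
  have e1 : a • (H.index • f g) + b • (n • f g) = f g := by
    rw [← natCast_zsmul, ← natCast_zsmul, smul_smul, smul_smul, ← add_smul, hab, one_smul]
  rw [← e1, ← hv0 g, hA, smul_zero, add_zero, smul_comm g a, smul_sub]

section Mul

variable {M : Type*} [CommGroup M] [MulDistribMulAction G M]

/-- The `DistribMulAction` on `Additive M` induced by a `MulDistribMulAction` on `M`. -/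
@[reducible] def additiveDistribMulAction : DistribMulAction G (Additive M) where
  smul g a := Additive.ofMul (g • Additive.toMul a)
  one_smul a := by
    show Additive.ofMul ((1 : G) • Additive.toMul a) = a
    rw [one_smul]
    rfl
  mul_smul g h a := by
    show Additive.ofMul ((g * h) • Additive.toMul a) = Additive.ofMul (g • (h • Additive.toMul a))
    rw [mul_smul]
  smul_zero g := by
    show Additive.ofMul (g • (1 : M)) = 0
    rw [smul_one]
    rfl
  smul_add g a b := by
    show Additive.ofMul (g • (Additive.toMul a * Additive.toMul b))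
      = Additive.ofMul (g • Additive.toMul a * g • Additive.toMul b)
    rw [smul_mul']

/-- **Sylow step in degree 2, multiplicative coefficients** (e.g. `M = Lˣ`): if the restriction
of a multiplicative `2`-cocycle `f` to a finite-index subgroup `H` is the coboundary of `u`, then
`f ^ H.index` is a coboundary, with the same level clause as in the additive version. -/
theorem index_pow_isMulCoboundary₂_of_res (H : Subgroup G) [H.FiniteIndex] (f : G × G → M)
    (hf : IsMulCocycle₂ f) (u : H → M)
    (hu : ∀ a b : H, a • u b / u (a * b) * u a = f (a, b)) :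
    ∃ v : G → M, (∀ g h : G, g • v h / v (g * h) * v g = f (g, h) ^ H.index) ∧
      ∀ U : Subgroup G, U.Normal → U ≤ H →
        (∀ g g' : G, ∀ s ∈ U, ∀ s' ∈ U, f (g * s, g' * s') = f (g, g')) →
        (∀ a s : H, (s : G) ∈ U → u (a * s) = u a) → ∀ g : G, ∀ s ∈ U, v (g * s) = v g := by
  let _ : DistribMulAction G (Additive M) := additiveDistribMulAction
  exact index_smul_isCoboundary₂_of_res (A := Additive M) H (fun p => Additive.ofMul (f p)) hf
    (fun a => Additive.ofMul (u a)) hu

/-- `IsMulCoboundary₂` form. -/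
theorem isMulCoboundary₂_index_pow_of_res (H : Subgroup G) [H.FiniteIndex] (f : G × G → M)
    (hf : IsMulCocycle₂ f)
    (hres : IsMulCoboundary₂ (fun p : H × H => f ((p.1 : G), (p.2 : G)))) :
    IsMulCoboundary₂ (f ^ H.index) := by
  obtain ⟨u, hu⟩ := hres
  obtain ⟨v, hv, -⟩ := index_pow_isMulCoboundary₂_of_res H f hf u hu
  exact ⟨v, hv⟩

/-- **Coprime corollary, multiplicative coefficients** (with level clause): if `f ^ n` is the
coboundary of `w`, the restriction of `f` to `H` is the coboundary of `u`, and `H.index` is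
coprime to `n`, then `f` is a coboundary. -/
theorem isMulCoboundary₂_of_res_of_coprime (H : Subgroup G) [H.FiniteIndex] (f : G × G → M)
    (hf : IsMulCocycle₂ f) (n : ℕ) (hn : Nat.Coprime H.index n)
    (w : G → M) (hw : ∀ g h : G, g • w h / w (g * h) * w g = f (g, h) ^ n)
    (u : H → M) (hu : ∀ a b : H, a • u b / u (a * b) * u a = f (a, b)) :
    ∃ v : G → M, (∀ g h : G, g • v h / v (g * h) * v g = f (g, h)) ∧
      ∀ U : Subgroup G, U.Normal → U ≤ H →
        (∀ g g' : G, ∀ s ∈ U, ∀ s' ∈ U, f (g * s, g' * s') = f (g, g')) →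
        (∀ a s : H, (s : G) ∈ U → u (a * s) = u a) →
        (∀ g : G, ∀ s ∈ U, w (g * s) = w g) → ∀ g : G, ∀ s ∈ U, v (g * s) = v g := by
  let _ : DistribMulAction G (Additive M) := additiveDistribMulAction
  exact isCoboundary₂_of_res_of_coprime (A := Additive M) H (fun p => Additive.ofMul (f p)) hf
    n hn (fun g => Additive.ofMul (w g)) hw (fun a => Additive.ofMul (u a)) hu

/-- **Sylow step in degree 1, multiplicative coefficients**. -/
theorem index_pow_isMulCoboundary₁_of_res (H : Subgroup G) [H.FiniteIndex] (f : G → M)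
    (hf : IsMulCocycle₁ f) (u : M) (hu : ∀ a : H, a • u / u = f a) :
    ∃ v : M, ∀ g : G, g • v / v = f g ^ H.index := by
  let _ : DistribMulAction G (Additive M) := additiveDistribMulAction
  exact index_smul_isCoboundary₁_of_res (A := Additive M) H (fun g => Additive.ofMul (f g)) hf
    (Additive.ofMul u) hu

end Mul

end Fermat.Agent.S55.helper353
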