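/-
S55, local core (helper164): the symbol-line theorem on the level cochains of a group with a
system of levels.

`Γ` is a group with a system of levels `𝓛` (a directed family of finite-index subgroups, each
containing a normal member); for a subgroup `H` we consider the `ZMod p`-valued cochains on `H`
with trivial action which are level-constant (the shape of the frozen `IsLevelConstant₁/₂`):

* `𝓛.Chars p H` : level-constant additive characters `H → ZMod p`;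
* `𝓛.H2 p H`    : level `2`-cocycles modulo coboundaries of level `1`-cochains
                  (the shape of the frozen `continuousH2`);
* `𝓛.cup p H`   : the cup product `Chars × Chars → H2`.

`LevelSys.IsSymbolic 𝓛 p 𝒞` collects, for a hereditary class `𝒞` of open subgroups, the four
arithmetic inputs (for `Γ` a local Galois group and `𝒞` the open subgroups fixing `μ_p`):

* `rankOne` : for `χ ≠ 0` the map `ψ ↦ χ ∪ ψ` has rank one      (symbol ↔ norm, norm index `p`);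
* `norm`    : a linear "norm" `nu : Chars (ker χ) → Chars H` such that `χ ∪ ψ = 0 → ψ ∈ range nu`
              and `res α = res x ∪ β → x ∪ nu β = 0`              (projection formula);
* `bk2`     : a class killed by restriction to `ker χ` is `χ ∪ ψ`;
* `two`     : there are two independent characters.

Output (`LevelSys.IsSymbolic.finrank_H2_le_one`): `finrank (ZMod p) (𝓛.H2 p H) ≤ 1` for all `H`
in `𝒞`, and all cup products lie on one line.  Pure group theory otherwise: alternation of the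
cup product (`p` odd), characters trivial on `ker χ`, Sylow transfer (helper353) and induction
on a `p`-group.
-/
import Mathlib
import Fermat.Agent.S55.helper164_SymbolLine
import Fermat.Agent.S55.helper353_ResCor

set_option autoImplicit false

open Module

namespace Fermat.Agent.S55.helper164

/-! ### The symbol system without corestriction -/

section Tower₂

variable (k : Type*) [Field k] (𝔽 : Type*) (V B : 𝔽 → Type*)
  [∀ F, AddCommGroup (V F)] [∀ F, Module k (V F)] [∀ F, AddCommGroup (B F)] [∀ F, Module k (B F)]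

/-- The data of a symbol system without corestriction: fields `F : 𝔽`, character groups `V F`,
Brauer-type groups `B F`, symbols, and for every class `a` the step `F ⊆ ext F a` with its
restrictions and a norm map. -/
structure SymbolData₂ where
  /-- the symbol -/
  s : ∀ F, V F →ₗ[k] V F →ₗ[k] B F
  /-- the Kummer step -/
  ext : ∀ F, V F → 𝔽
  /-- restriction on `B` -/
  res : ∀ F (a : V F), B F →ₗ[k] B (ext F a)
  /-- restriction on `V` -/
  r : ∀ F (a : V F), V F →ₗ[k] V (ext F a)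
  /-- the norm on `V` -/
  nu : ∀ F (a : V F), V (ext F a) →ₗ[k] V F

variable {k 𝔽 V B}

/-- The axioms of a symbol system without corestriction: the projection formula enters only
through `pf`. -/
structure SymbolData₂.IsSystem (D : SymbolData₂ k 𝔽 V B) : Prop where
  alt : ∀ F a, D.s F a a = 0
  rankOne : ∀ F a, a ≠ 0 → RankOne (D.s F a)
  ker_le : ∀ F a, a ≠ 0 → ∀ b, D.s F a b = 0 → ∃ β, D.nu F a β = b
  bk2 : ∀ F a, a ≠ 0 → ∀ α, D.res F a α = 0 → ∃ b, α = D.s F a b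
  pf : ∀ F a, a ≠ 0 → ∀ α x β,
    D.res F a α = D.s (D.ext F a) (D.r F a x) β → D.s F x (D.nu F a β) = 0
  ker_r : ∀ F a, a ≠ 0 → ∀ x, D.r F a x = 0 → ∃ c : k, x = c • a
  two : ∀ F (a : V F), ∃ x : V F, ∀ c : k, x ≠ c • a

/-- `Split F α`: the class `α` dies after a finite tower of steps. -/
inductive SymbolData₂.Split (D : SymbolData₂ k 𝔽 V B) : ∀ F, B F → Prop
  | zero (F : 𝔽) : SymbolData₂.Split D F 0
  | step (F : 𝔽) (a : V F) (ha : a ≠ 0) (α : B F)
      (h : SymbolData₂.Split D (D.ext F a) (D.res F a α)) : SymbolData₂.Split D F α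

namespace SymbolData₂.IsSystem

variable {D : SymbolData₂ k 𝔽 V B} (h : D.IsSystem)
include h

/-- A restriction which is a symbol upstairs vanishes. -/
theorem res_eq_zero_of_res_eq_symbol (F : 𝔽) {a : V F} (ha : a ≠ 0) (α : B F)
    (x y : V (D.ext F a)) (hα : D.res F a α = D.s (D.ext F a) x y) : D.res F a α = 0 := by
  by_contra hne
  have hx : x ≠ 0 := by
    rintro rfl
    exact hne (by rw [hα, map_zero, LinearMap.zero_apply])
  obtain ⟨z, hz⟩ := h.two F a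
  have hw : D.r F a z ≠ 0 := fun h0 => by
    obtain ⟨c, hc⟩ := h.ker_r F a ha z h0
    exact hz c hc
  obtain ⟨β, hβ⟩ := symbol_eq_of_ne (h.alt _) (h.rankOne _) hx hw y
  rw [hβ] at hα
  by_cases hall : ∀ β', D.s F z (D.nu F a β') = 0
  · have hker : ∀ b, D.s F a b = 0 → D.s F z b = 0 := by
      intro b hb
      obtain ⟨β', rfl⟩ := h.ker_le F a ha b hb
      exact hall β'
    obtain ⟨c, hc⟩ := exists_smul_eq_of_ker_le (h.alt F) (h.rankOne F) ha hker
    exact hz c hc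
  · push Not at hall
    obtain ⟨β', hβ'⟩ := hall
    have hne' : D.s (D.ext F a) (D.r F a z) β' ≠ 0 := by
      intro h0
      apply hβ'
      apply h.pf F a ha 0 z β'
      rw [map_zero, h0]
    obtain ⟨t, ht⟩ := (h.rankOne _ _ hw).exists_smul hne' β
    have ht0 : t = 0 := by
      by_contra ht0
      apply hβ'
      have h1 : D.res F a α = D.s (D.ext F a) (D.r F a z) (t • β') := by
        rw [hα, ht, map_smul]
      have h2 := h.pf F a ha α z (t • β') h1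
      rw [map_smul, map_smul] at h2
      exact (smul_eq_zero.1 h2).resolve_left ht0
    exact hne (by rw [hα, ht, ht0, zero_smul])

/-- **Tower theorem.** A class split by a finite tower of steps is a symbol. -/
theorem symbol_of_split {F : 𝔽} {α : B F} (hα : D.Split F α) : ∃ x y, α = D.s F x y := by
  induction hα with
  | zero F => exact ⟨0, 0, by simp⟩
  | step F a ha α _ ih =>
    obtain ⟨x, y, hxy⟩ := ih
    obtain ⟨b, hb⟩ := h.bk2 F a ha α (h.res_eq_zero_of_res_eq_symbol F ha α x y hxy)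
    exact ⟨a, b, hb⟩

/-- A split class lies on the symbol line. -/
theorem exists_smul_of_split (F : 𝔽) : ∃ v : B F, ∀ α, D.Split F α → ∃ c : k, α = c • v := by
  obtain ⟨v, hv⟩ := helper164.exists_line (h.alt F) (h.rankOne F)
  refine ⟨v, fun α hα => ?_⟩
  obtain ⟨x, y, rfl⟩ := h.symbol_of_split hα
  exact hv x y

/-- If any two classes of `B K` become split after an injective linear map to some `B K'`, then
`B K` is spanned by one vector. -/
theorem exists_spanning_of_split {K : 𝔽}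
    (hK : ∀ α α' : B K, ∃ (K' : 𝔽) (ρ : B K →ₗ[k] B K'), Function.Injective ρ ∧
      D.Split K' (ρ α) ∧ D.Split K' (ρ α')) :
    ∃ v : B K, ∀ α, ∃ c : k, α = c • v := by
  by_cases h0 : ∃ α₀ : B K, α₀ ≠ 0
  · obtain ⟨α₀, hα₀⟩ := h0
    refine ⟨α₀, fun α => ?_⟩
    obtain ⟨K', ρ, hρ, hs₀, hs⟩ := hK α₀ α
    obtain ⟨v, hv⟩ := h.exists_smul_of_split K'
    obtain ⟨c₀, hc₀⟩ := hv _ hs₀
    obtain ⟨c, hc⟩ := hv _ hs
    have hc₀0 : c₀ ≠ 0 := by
      rintro rfl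
      rw [zero_smul] at hc₀
      exact hα₀ (hρ (by rw [hc₀, map_zero]))
    refine ⟨c * c₀⁻¹, hρ ?_⟩
    rw [map_smul, hc, hc₀, smul_smul, mul_assoc, inv_mul_cancel₀ hc₀0, mul_one]
  · push Not at h0
    exact ⟨0, fun α => ⟨0, by rw [h0 α, smul_zero]⟩⟩

end SymbolData₂.IsSystem

end Tower₂

/-! ### Level cochains on the subgroups of a group with a system of levels -/

/-- A system of levels on a group: a directed family of subgroups of finite index, each of which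
contains a normal member of the family. -/
structure LevelSys (Γ : Type*) [Group Γ] where
  /-- the predicate "is a level" -/
  P : Subgroup Γ → Prop
  nonempty : ∃ U, P U
  inf : ∀ U V, P U → P V → ∃ W, P W ∧ W ≤ U ∧ W ≤ V
  normal : ∀ U, P U → ∃ V, P V ∧ V ≤ U ∧ V.Normal
  finite : ∀ U, P U → U.FiniteIndex

/-- The coboundary of a `1`-cochain, trivial action. -/
def dTriv {G X : Type*} [Mul G] [AddCommGroup X] (c : G → X) : G × G → X :=
  fun q => c q.2 - c (q.1 * q.2) + c q.1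

/-- The cup product of two functions with values in `ZMod p`. -/
def cupFn (p : ℕ) {G : Type*} (χ ψ : G → ZMod p) : G × G → ZMod p := fun q => χ q.1 * ψ q.2

/-- Restriction of a `1`-cochain to a smaller subgroup. -/
def resFn₁ {Γ : Type*} [Group Γ] {H' H : Subgroup Γ} (h : H' ≤ H) {X : Type*} (f : H → X) :
    H' → X := fun g => f (Subgroup.inclusion h g)

/-- Restriction of a `2`-cochain to a smaller subgroup. -/
def resFn₂ {Γ : Type*} [Group Γ] {H' H : Subgroup Γ} (h : H' ≤ H) {X : Type*}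
    (f : H × H → X) : H' × H' → X :=
  fun q => f (Subgroup.inclusion h q.1, Subgroup.inclusion h q.2)

namespace LevelSys

variable {Γ : Type*} [Group Γ] (𝓛 : LevelSys Γ)

/-- A subgroup is open if it contains a level. -/
def IsOpen (H : Subgroup Γ) : Prop := ∃ N, 𝓛.P N ∧ N ≤ H

/-- Level-constancy of a function on a subgroup `H` (shape of the frozen `IsLevelConstant₁`). -/
def Lev₁ (H : Subgroup Γ) {X : Type*} (f : H → X) : Prop :=
  ∃ N, 𝓛.P N ∧ ∀ g s : H, (s : Γ) ∈ N → f (g * s) = f g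

/-- Level-constancy of a function of two variables on a subgroup `H` (shape of the frozen
`IsLevelConstant₂`). -/
def Lev₂ (H : Subgroup Γ) {X : Type*} (f : H × H → X) : Prop :=
  ∃ N, 𝓛.P N ∧ ∀ g g' s s' : H, (s : Γ) ∈ N → (s' : Γ) ∈ N → f (g * s, g' * s') = f (g, g')

variable {𝓛}

lemma IsOpen.mono {H H' : Subgroup Γ} (hH : 𝓛.IsOpen H) (h : H ≤ H') : 𝓛.IsOpen H' := by
  obtain ⟨N, hN, hNH⟩ := hH
  exact ⟨N, hN, hNH.trans h⟩

lemma isOpen_of_P {N : Subgroup Γ} (hN : 𝓛.P N) : 𝓛.IsOpen N := ⟨N, hN, le_rfl⟩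

/-- A normal level inside an open subgroup and two given levels. -/
lemma IsOpen.exists_normal_le {H : Subgroup Γ} (hH : 𝓛.IsOpen H) {N₁ N₂ : Subgroup Γ}
    (h₁ : 𝓛.P N₁) (h₂ : 𝓛.P N₂) :
    ∃ N, 𝓛.P N ∧ N.Normal ∧ N ≤ H ∧ N ≤ N₁ ∧ N ≤ N₂ := by
  obtain ⟨N₀, hN₀, hN₀H⟩ := hH
  obtain ⟨W, hW, hW0, hW1⟩ := 𝓛.inf N₀ N₁ hN₀ h₁
  obtain ⟨W', hW', hW'W, hW'2⟩ := 𝓛.inf W N₂ hW h₂
  obtain ⟨N, hN, hNW', hNn⟩ := 𝓛.normal W' hW'
  exact ⟨N, hN, hNn, (hNW'.trans hW'W).trans (hW0.trans hN₀H), (hNW'.trans hW'W).trans hW1,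
    hNW'.trans hW'2⟩

lemma lev₁_const (H : Subgroup Γ) {X : Type*} (x : X) : 𝓛.Lev₁ H (fun _ : H => x) := by
  obtain ⟨U, hU⟩ := 𝓛.nonempty
  exact ⟨U, hU, fun _ _ _ => rfl⟩

lemma Lev₁.comp {H : Subgroup Γ} {X Y : Type*} {f : H → X} (hf : 𝓛.Lev₁ H f) (φ : X → Y) :
    𝓛.Lev₁ H (fun g => φ (f g)) := by
  obtain ⟨N, hN, h⟩ := hf
  exact ⟨N, hN, fun g s hs => by
    show φ (f (g * s)) = φ (f g)
    rw [h g s hs]⟩

lemma Lev₁.map₂ {H : Subgroup Γ} {X Y Z : Type*} {f : H → X} {f' : H → Y} (hf : 𝓛.Lev₁ H f)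
    (hf' : 𝓛.Lev₁ H f') (φ : X → Y → Z) : 𝓛.Lev₁ H (fun g => φ (f g) (f' g)) := by
  obtain ⟨N, hN, h⟩ := hf
  obtain ⟨N', hN', h'⟩ := hf'
  obtain ⟨W, hW, hWN, hWN'⟩ := 𝓛.inf N N' hN hN'
  exact ⟨W, hW, fun g s hs => by
    show φ (f (g * s)) (f' (g * s)) = φ (f g) (f' g)
    rw [h g s (hWN hs), h' g s (hWN' hs)]⟩

lemma Lev₁.res {H' H : Subgroup Γ} (h : H' ≤ H) {X : Type*} {f : H → X} (hf : 𝓛.Lev₁ H f) :
    𝓛.Lev₁ H' (resFn₁ h f) := by
  obtain ⟨N, hN, hf⟩ := hf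
  refine ⟨N, hN, fun g s hs => ?_⟩
  simp only [resFn₁, map_mul]
  exact hf _ _ (by simpa using hs)

lemma Lev₂.res {H' H : Subgroup Γ} (h : H' ≤ H) {X : Type*} {f : H × H → X}
    (hf : 𝓛.Lev₂ H f) : 𝓛.Lev₂ H' (resFn₂ h f) := by
  obtain ⟨N, hN, hf⟩ := hf
  refine ⟨N, hN, fun g g' s s' hs hs' => ?_⟩
  simp only [resFn₂, map_mul]
  exact hf _ _ _ _ (by simpa using hs) (by simpa using hs')

variable (𝓛) (p : ℕ)

/-- Level `2`-cocycles on `H` with values in `ZMod p` (trivial action). -/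
def Z2 (H : Subgroup Γ) : Submodule (ZMod p) (H × H → ZMod p) where
  carrier := {f | (∀ g h j : H, f (g * h, j) + f (g, h) = f (h, j) + f (g, h * j)) ∧ 𝓛.Lev₂ H f}
  add_mem' := by
    rintro f f' ⟨hf, N, hN, hfN⟩ ⟨hf', N', hN', hfN'⟩
    obtain ⟨W, hW, hWN, hWN'⟩ := 𝓛.inf N N' hN hN'
    refine ⟨fun g h j => ?_, W, hW, fun g g' s s' hs hs' => ?_⟩
    · simp only [Pi.add_apply]
      linear_combination hf g h j + hf' g h j
    · simp only [Pi.add_apply]
      rw [hfN g g' s s' (hWN hs) (hWN hs'), hfN' g g' s s' (hWN' hs) (hWN' hs')]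
  zero_mem' := by
    obtain ⟨U, hU⟩ := 𝓛.nonempty
    exact ⟨fun _ _ _ => by simp, U, hU, fun _ _ _ _ _ _ => rfl⟩
  smul_mem' := by
    rintro c f ⟨hf, N, hN, hfN⟩
    refine ⟨fun g h j => ?_, N, hN, fun g g' s s' hs hs' => ?_⟩
    · simp only [Pi.smul_apply, smul_eq_mul]
      linear_combination c * hf g h j
    · simp only [Pi.smul_apply]
      rw [hfN g g' s s' hs hs']

/-- Coboundaries of level `1`-cochains on `H`. -/
def B2 (H : Subgroup Γ) : Submodule (ZMod p) (H × H → ZMod p) where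
  carrier := {f | ∃ c : H → ZMod p, 𝓛.Lev₁ H c ∧ f = dTriv c}
  add_mem' := by
    rintro f f' ⟨c, hc, rfl⟩ ⟨c', hc', rfl⟩
    refine ⟨c + c', hc.map₂ hc' (· + ·), ?_⟩
    funext q
    simp only [dTriv, Pi.add_apply]
    ring
  zero_mem' := ⟨0, lev₁_const H (0 : ZMod p), by funext q; simp [dTriv]⟩
  smul_mem' := by
    rintro a f ⟨c, hc, rfl⟩
    refine ⟨a • c, hc.comp (a • ·), ?_⟩
    funext q
    simp only [dTriv, Pi.smul_apply, smul_eq_mul]
    ring

/-- The second cohomology of level cochains on `H` with values in `ZMod p` (trivial action):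
the shape of the frozen `continuousH2`. -/
abbrev H2 (H : Subgroup Γ) : Type _ :=
  ↥(𝓛.Z2 p H) ⧸ (𝓛.B2 p H).comap (𝓛.Z2 p H).subtype

/-- Level-constant additive characters `H → ZMod p`. -/
def Chars (H : Subgroup Γ) : Submodule (ZMod p) (H → ZMod p) where
  carrier := {χ | (∀ g h : H, χ (g * h) = χ g + χ h) ∧ 𝓛.Lev₁ H χ}
  add_mem' := by
    rintro χ χ' ⟨hχ, hl⟩ ⟨hχ', hl'⟩
    refine ⟨fun g h => ?_, hl.map₂ hl' (· + ·)⟩
    simp only [Pi.add_apply, hχ, hχ']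
    ring
  zero_mem' := ⟨fun _ _ => by simp, lev₁_const H (0 : ZMod p)⟩
  smul_mem' := by
    rintro a χ ⟨hχ, hl⟩
    refine ⟨fun g h => ?_, hl.comp (a • ·)⟩
    simp only [Pi.smul_apply, hχ, smul_add]

variable {𝓛 p}

/-- The class of a level `2`-cocycle. -/
def cls {H : Subgroup Γ} (f : H × H → ZMod p) (hf : f ∈ 𝓛.Z2 p H) : 𝓛.H2 p H :=
  Submodule.Quotient.mk ⟨f, hf⟩

lemma cls_surjective {H : Subgroup Γ} (α : 𝓛.H2 p H) : ∃ f hf, α = cls (𝓛 := 𝓛) f hf := by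
  induction α using Submodule.Quotient.induction_on with
  | _ z => exact ⟨z.1, z.2, rfl⟩

lemma cls_eq_zero_iff {H : Subgroup Γ} {f : H × H → ZMod p} (hf : f ∈ 𝓛.Z2 p H) :
    cls f hf = 0 ↔ ∃ c : H → ZMod p, 𝓛.Lev₁ H c ∧ f = dTriv c := by
  unfold cls
  rw [Submodule.Quotient.mk_eq_zero]
  rfl

lemma cls_congr {H : Subgroup Γ} {f f' : H × H → ZMod p} (hf : f ∈ 𝓛.Z2 p H) (h : f = f') :
    cls f hf = cls f' (h ▸ hf) := by
  subst h
  rfl

lemma cls_add {H : Subgroup Γ} {f f' : H × H → ZMod p} (hf : f ∈ 𝓛.Z2 p H)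
    (hf' : f' ∈ 𝓛.Z2 p H) : cls f hf + cls f' hf' = cls (f + f') (add_mem hf hf') := rfl

lemma cls_smul {H : Subgroup Γ} (c : ZMod p) {f : H × H → ZMod p} (hf : f ∈ 𝓛.Z2 p H) :
    c • cls f hf = cls (c • f) (Submodule.smul_mem _ c hf) := rfl

/-! #### Characters -/

lemma char_mul {H : Subgroup Γ} (χ : 𝓛.Chars p H) (g h : H) :
    χ.1 (g * h) = χ.1 g + χ.1 h := χ.2.1 g h

lemma char_one {H : Subgroup Γ} (χ : 𝓛.Chars p H) : χ.1 1 = 0 := by
  have h := char_mul χ 1 1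
  rw [mul_one] at h
  exact left_eq_add.1 h

lemma char_inv {H : Subgroup Γ} (χ : 𝓛.Chars p H) (g : H) : χ.1 g⁻¹ = - χ.1 g := by
  have h := char_mul χ g g⁻¹
  rw [mul_inv_cancel, char_one χ] at h
  exact eq_neg_of_add_eq_zero_right h.symm

lemma char_pow {H : Subgroup Γ} (χ : 𝓛.Chars p H) (g : H) (n : ℕ) :
    χ.1 (g ^ n) = n * χ.1 g := by
  induction n with
  | zero => simp [char_one χ]
  | succ n ih =>
    rw [pow_succ, char_mul χ, ih]
    push_cast
    ring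

lemma char_ext {H : Subgroup Γ} {χ ψ : 𝓛.Chars p H} (h : ∀ g, χ.1 g = ψ.1 g) : χ = ψ :=
  Subtype.ext (funext h)

lemma cupFn_mem_Z2 {H : Subgroup Γ} {χ ψ : H → ZMod p} (hχ : χ ∈ 𝓛.Chars p H)
    (hψ : ψ ∈ 𝓛.Chars p H) : cupFn p χ ψ ∈ 𝓛.Z2 p H := by
  obtain ⟨hχa, N, hN, hχN⟩ := hχ
  obtain ⟨hψa, N', hN', hψN'⟩ := hψ
  obtain ⟨W, hW, hWN, hWN'⟩ := 𝓛.inf N N' hN hN'
  refine ⟨fun g h j => ?_, W, hW, fun g g' s s' hs hs' => ?_⟩
  · simp only [cupFn]
    rw [hχa, hψa]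
    ring
  · simp only [cupFn]
    rw [hχN g s (hWN hs), hψN' g' s' (hWN' hs')]

variable (𝓛 p)

/-- The cup product of two level characters, as a bilinear map to `H2`. -/
def cup (H : Subgroup Γ) : 𝓛.Chars p H →ₗ[ZMod p] 𝓛.Chars p H →ₗ[ZMod p] 𝓛.H2 p H :=
  LinearMap.mk₂ (ZMod p) (fun χ ψ => cls (cupFn p χ.1 ψ.1) (cupFn_mem_Z2 χ.2 ψ.2))
    (fun χ χ' ψ => by
      rw [cls_add]
      refine cls_congr _ ?_
      funext q
      simp only [cupFn, Submodule.coe_add, Pi.add_apply]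
      ring)
    (fun c χ ψ => by
      rw [cls_smul]
      refine cls_congr _ ?_
      funext q
      simp only [cupFn, Submodule.coe_smul, Pi.smul_apply, smul_eq_mul]
      ring)
    (fun χ ψ ψ' => by
      rw [cls_add]
      refine cls_congr _ ?_
      funext q
      simp only [cupFn, Submodule.coe_add, Pi.add_apply]
      ring)
    (fun c χ ψ => by
      rw [cls_smul]
      refine cls_congr _ ?_
      funext q
      simp only [cupFn, Submodule.coe_smul, Pi.smul_apply, smul_eq_mul]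
      ring)

variable {𝓛 p}

lemma cup_apply {H : Subgroup Γ} (χ ψ : 𝓛.Chars p H) :
    𝓛.cup p H χ ψ = cls (cupFn p χ.1 ψ.1) (cupFn_mem_Z2 χ.2 ψ.2) := rfl

/-! #### Alternation -/

lemma two_ne_zero_zmod [Fact p.Prime] (hp2 : p ≠ 2) : (2 : ZMod p) ≠ 0 := by
  intro h
  have h2 : ((2 : ℕ) : ZMod p) = 0 := by exact_mod_cast h
  rw [ZMod.natCast_eq_zero_iff] at h2
  exact hp2 ((Nat.prime_dvd_prime_iff_eq (Fact.out : p.Prime) Nat.prime_two).1 h2)

/-- The cup product is alternating for `p` odd: `χ ∪ χ = d(-χ²/2)`. -/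
theorem cup_self [Fact p.Prime] (hp2 : p ≠ 2) {H : Subgroup Γ} (χ : 𝓛.Chars p H) :
    𝓛.cup p H χ χ = 0 := by
  rw [cup_apply, cls_eq_zero_iff]
  have h2 := two_ne_zero_zmod (p := p) hp2
  refine ⟨fun g => -(2 : ZMod p)⁻¹ * χ.1 g ^ 2,
    χ.2.2.comp (fun x => -(2 : ZMod p)⁻¹ * x ^ 2), ?_⟩
  funext q
  simp only [cupFn, dTriv, char_mul χ]
  field_simp
  ring

/-! #### The kernel of a character and restriction -/

/-- The kernel of a level character of `H`, as a subgroup of `Γ`. -/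
def kerSub {H : Subgroup Γ} (χ : 𝓛.Chars p H) : Subgroup Γ where
  carrier := {g | ∃ h : g ∈ H, χ.1 ⟨g, h⟩ = 0}
  mul_mem' := by
    rintro a b ⟨ha, ha0⟩ ⟨hb, hb0⟩
    refine ⟨H.mul_mem ha hb, ?_⟩
    have := char_mul χ ⟨a, ha⟩ ⟨b, hb⟩
    rw [ha0, hb0, add_zero] at this
    exact this
  one_mem' := ⟨H.one_mem, char_one χ⟩
  inv_mem' := by
    rintro a ⟨ha, ha0⟩
    refine ⟨H.inv_mem ha, ?_⟩
    have := char_inv χ ⟨a, ha⟩
    rw [ha0, neg_zero] at this
    exact this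

lemma mem_kerSub {H : Subgroup Γ} (χ : 𝓛.Chars p H) (g : Γ) :
    g ∈ kerSub χ ↔ ∃ h : g ∈ H, χ.1 ⟨g, h⟩ = 0 := Iff.rfl

lemma kerSub_le {H : Subgroup Γ} (χ : 𝓛.Chars p H) : kerSub χ ≤ H := fun _ hg => hg.1

lemma coe_mem_kerSub {H : Subgroup Γ} (χ : 𝓛.Chars p H) (g : H) :
    (g : Γ) ∈ kerSub χ ↔ χ.1 g = 0 := ⟨fun ⟨_, h⟩ => h, fun h => ⟨g.2, h⟩⟩

lemma kerSub_isOpen {H : Subgroup Γ} (hH : 𝓛.IsOpen H) (χ : 𝓛.Chars p H) :
    𝓛.IsOpen (kerSub χ) := by
  obtain ⟨N', hN', hχN'⟩ := χ.2.2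
  obtain ⟨N, hN, -, hNH, hNN', -⟩ := hH.exists_normal_le hN' hN'
  refine ⟨N, hN, fun s hs => ⟨hNH hs, ?_⟩⟩
  have := hχN' 1 ⟨s, hNH hs⟩ (hNN' hs)
  rw [one_mul, char_one χ] at this
  exact this

lemma resFn₂_mem_Z2 {H' H : Subgroup Γ} (h : H' ≤ H) {f : H × H → ZMod p}
    (hf : f ∈ 𝓛.Z2 p H) : resFn₂ h f ∈ 𝓛.Z2 p H' := by
  obtain ⟨hc, hl⟩ := hf
  refine ⟨fun g h' j => ?_, hl.res h⟩
  simp only [resFn₂, map_mul]
  exact hc _ _ _

lemma resFn₂_dTriv {H' H : Subgroup Γ} (h : H' ≤ H) (c : H → ZMod p) :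
    resFn₂ h (dTriv c) = dTriv (resFn₁ h c) := by
  funext q
  simp only [resFn₂, dTriv, resFn₁, map_mul]

variable (𝓛 p) in
/-- Restriction of level cocycles. -/
def resZ2 {H' H : Subgroup Γ} (h : H' ≤ H) : 𝓛.Z2 p H →ₗ[ZMod p] 𝓛.Z2 p H' where
  toFun f := ⟨resFn₂ h f.1, resFn₂_mem_Z2 h f.2⟩
  map_add' _ _ := rfl
  map_smul' _ _ := rfl

variable (𝓛 p) in
/-- Restriction on `H2`. -/
def resH2 {H' H : Subgroup Γ} (h : H' ≤ H) : 𝓛.H2 p H →ₗ[ZMod p] 𝓛.H2 p H' :=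
  Submodule.mapQ _ _ (𝓛.resZ2 p h) (by
    rintro ⟨f, hf⟩ ⟨c, hc, hfc⟩
    change f = dTriv c at hfc
    subst hfc
    exact ⟨resFn₁ h c, hc.res h, resFn₂_dTriv h c⟩)

lemma resH2_cls {H' H : Subgroup Γ} (h : H' ≤ H) {f : H × H → ZMod p} (hf : f ∈ 𝓛.Z2 p H) :
    𝓛.resH2 p h (cls f hf) = cls (resFn₂ h f) (resFn₂_mem_Z2 h hf) := rfl

variable (𝓛 p) in
/-- Restriction of level characters. -/
def resChar {H' H : Subgroup Γ} (h : H' ≤ H) : 𝓛.Chars p H →ₗ[ZMod p] 𝓛.Chars p H' where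
  toFun χ := ⟨resFn₁ h χ.1, fun g g' => by
    simp only [resFn₁, map_mul]
    exact char_mul χ _ _, χ.2.2.res h⟩
  map_add' _ _ := rfl
  map_smul' _ _ := rfl

lemma resChar_apply {H' H : Subgroup Γ} (h : H' ≤ H) (χ : 𝓛.Chars p H) (g : H') :
    (𝓛.resChar p h χ).1 g = χ.1 (Subgroup.inclusion h g) := rfl

/-- A character vanishing on the kernel of a nonzero character `χ` is a multiple of `χ`. -/
theorem exists_smul_of_resChar_eq_zero [Fact p.Prime] {H : Subgroup Γ} (χ : 𝓛.Chars p H)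
    (hχ : χ ≠ 0) (x : 𝓛.Chars p H) (hx : 𝓛.resChar p (kerSub_le χ) x = 0) :
    ∃ c : ZMod p, x = c • χ := by
  have hex : ∃ σ : H, χ.1 σ ≠ 0 := by
    by_contra hcon
    push Not at hcon
    exact hχ (char_ext (fun g => by simpa using hcon g))
  obtain ⟨σ, hσ⟩ := hex
  refine ⟨x.1 σ * (χ.1 σ)⁻¹, char_ext fun g => ?_⟩
  have hn' : (((χ.1 g * (χ.1 σ)⁻¹).val : ℕ) : ZMod p) = χ.1 g * (χ.1 σ)⁻¹ :=
    ZMod.natCast_zmod_val _
  generalize (χ.1 g * (χ.1 σ)⁻¹).val = n at hn'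
  have hk : χ.1 (g * (σ ^ n)⁻¹) = 0 := by
    rw [char_mul, char_inv, char_pow, hn']
    field_simp
    ring
  have hxk : x.1 (g * (σ ^ n)⁻¹) = 0 := by
    have := congrArg (fun y : 𝓛.Chars p (kerSub χ) =>
      y.1 ⟨((g * (σ ^ n)⁻¹ : H) : Γ), (coe_mem_kerSub χ _).2 hk⟩) hx
    exact this
  rw [char_mul, char_inv, char_pow, hn'] at hxk
  show x.1 g = ((x.1 σ * (χ.1 σ)⁻¹) • χ).1 g
  simp only [Submodule.coe_smul, Pi.smul_apply, smul_eq_mul]
  linear_combination hxk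

/-! #### The symbol system of a level system -/

variable (𝓛 p) in
/-- The arithmetic inputs of the symbol-line theorem for a hereditary class `𝒞` of open
subgroups. -/
structure IsSymbolic [Fact p.Prime] (𝒞 : Subgroup Γ → Prop) : Prop where
  isOpen : ∀ H, 𝒞 H → 𝓛.IsOpen H
  her : ∀ H H', 𝒞 H → H' ≤ H → 𝓛.IsOpen H' → 𝒞 H'
  rankOne : ∀ H, 𝒞 H → ∀ χ : 𝓛.Chars p H, χ ≠ 0 → RankOne (𝓛.cup p H χ)
  norm : ∀ H, 𝒞 H → ∀ χ : 𝓛.Chars p H, χ ≠ 0 →
    ∃ nu : 𝓛.Chars p (kerSub χ) →ₗ[ZMod p] 𝓛.Chars p H,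
      (∀ ψ, 𝓛.cup p H χ ψ = 0 → ∃ β, nu β = ψ) ∧
      ∀ (α : 𝓛.H2 p H) (x : 𝓛.Chars p H) (β : 𝓛.Chars p (kerSub χ)),
        𝓛.resH2 p (kerSub_le χ) α = 𝓛.cup p (kerSub χ) (𝓛.resChar p (kerSub_le χ) x) β →
          𝓛.cup p H x (nu β) = 0
  bk2 : ∀ H, 𝒞 H → ∀ χ : 𝓛.Chars p H, χ ≠ 0 → ∀ α : 𝓛.H2 p H,
    𝓛.resH2 p (kerSub_le χ) α = 0 → ∃ ψ, α = 𝓛.cup p H χ ψ
  two : ∀ H, 𝒞 H → ∀ χ : 𝓛.Chars p H, ∃ x : 𝓛.Chars p H, ∀ c : ZMod p, x ≠ c • χ

/-- The symbol data attached to a symbolic level system. -/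
noncomputable def IsSymbolic.data [Fact p.Prime] {𝒞 : Subgroup Γ → Prop}
    (hS : IsSymbolic 𝓛 p 𝒞) :
    SymbolData₂ (ZMod p) {H : Subgroup Γ // 𝒞 H} (fun F => 𝓛.Chars p F.1)
      (fun F => 𝓛.H2 p F.1) where
  s F := 𝓛.cup p F.1
  ext F χ := ⟨kerSub χ, hS.her F.1 _ F.2 (kerSub_le χ) (kerSub_isOpen (hS.isOpen F.1 F.2) χ)⟩
  res _ χ := 𝓛.resH2 p (kerSub_le χ)
  r _ χ := 𝓛.resChar p (kerSub_le χ)
  nu F χ := open Classical in
    if h : χ ≠ 0 then Classical.choose (hS.norm F.1 F.2 χ h) else 0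

theorem IsSymbolic.isSystem [Fact p.Prime] (hp2 : p ≠ 2) {𝒞 : Subgroup Γ → Prop}
    (hS : IsSymbolic 𝓛 p 𝒞) : hS.data.IsSystem where
  alt _ χ := cup_self hp2 χ
  rankOne F χ hχ := hS.rankOne F.1 F.2 χ hχ
  ker_le F χ hχ ψ h := by
    have hnu : hS.data.nu F χ = Classical.choose (hS.norm F.1 F.2 χ hχ) := dif_pos hχ
    rw [hnu]
    exact (Classical.choose_spec (hS.norm F.1 F.2 χ hχ)).1 ψ h
  bk2 F χ hχ α h := hS.bk2 F.1 F.2 χ hχ α h
  pf F χ hχ α x β h := by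
    have hnu : hS.data.nu F χ = Classical.choose (hS.norm F.1 F.2 χ hχ) := dif_pos hχ
    rw [hnu]
    exact (Classical.choose_spec (hS.norm F.1 F.2 χ hχ)).2 α x β h
  ker_r _ χ hχ x h := exists_smul_of_resChar_eq_zero χ hχ x h
  two F χ := hS.two F.1 F.2 χ

/-! #### The Sylow step -/

/-- Restriction to an open subgroup of index prime to `p` is injective on `H2`. -/
theorem resH2_injective_of_coprime [Fact p.Prime] {H' H : Subgroup Γ} (h : H' ≤ H)
    (hH' : 𝓛.IsOpen H') (hcop : Nat.Coprime (H'.relIndex H) p) :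
    Function.Injective (𝓛.resH2 p h) := by
  rw [injective_iff_map_eq_zero]
  intro α hα
  obtain ⟨f, hf, rfl⟩ := cls_surjective α
  rw [resH2_cls, cls_eq_zero_iff] at hα
  obtain ⟨u, hul, hu⟩ := hα
  rw [cls_eq_zero_iff]
  obtain ⟨hfc, N₁, hN₁, hfN₁⟩ := hf
  obtain ⟨N₂, hN₂, huN₂⟩ := hul
  obtain ⟨N, hN, hNn, hNH', hNN₁, hNN₂⟩ := hH'.exists_normal_le hN₁ hN₂
  have := 𝓛.finite N hN
  have : H'.FiniteIndex := Subgroup.finiteIndex_of_le hNH'
  -- the trivial action of `H` on `ZMod p`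
  let : DistribMulAction H (ZMod p) :=
    { smul := fun _ a => a
      one_smul := fun _ => rfl
      mul_smul := fun _ _ _ => rfl
      smul_zero := fun _ => rfl
      smul_add := fun _ _ _ => rfl }
  have hsmul : ∀ (g : H) (a : ZMod p), g • a = a := fun _ _ => rfl
  obtain ⟨v, hv, hvl⟩ := helper353.index_smul_isCoboundary₂_of_res (H'.subgroupOf H) f
    (fun g h' j => by rw [hsmul]; exact hfc g h' j)
    (fun x => u ⟨(x.1 : Γ), Subgroup.mem_subgroupOf.1 x.2⟩)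
    (fun a b => by
      have := congrFun hu (⟨(a.1 : Γ), Subgroup.mem_subgroupOf.1 a.2⟩,
        ⟨(b.1 : Γ), Subgroup.mem_subgroupOf.1 b.2⟩)
      exact this.symm)
  have hvN : ∀ g s : H, (s : Γ) ∈ N → v (g * s) = v g := by
    intro g s hs
    refine hvl (N.subgroupOf H) (hNn.subgroupOf H) (fun x hx => ?_) ?_ ?_ g s
      (Subgroup.mem_subgroupOf.2 hs)
    · exact Subgroup.mem_subgroupOf.2 (hNH' (Subgroup.mem_subgroupOf.1 hx))
    · intro g g' s hs s' hs'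
      exact hfN₁ g g' s s' (hNN₁ (Subgroup.mem_subgroupOf.1 hs))
        (hNN₁ (Subgroup.mem_subgroupOf.1 hs'))
    · intro a s hs
      exact huN₂ ⟨(a.1 : Γ), Subgroup.mem_subgroupOf.1 a.2⟩
        ⟨(s.1 : Γ), Subgroup.mem_subgroupOf.1 s.2⟩ (hNN₂ (Subgroup.mem_subgroupOf.1 hs))
  have hidx : ((H'.relIndex H : ℕ) : ZMod p) ≠ 0 := by
    rw [Ne, ZMod.natCast_eq_zero_iff]
    exact fun hd => (Nat.Prime.coprime_iff_not_dvd (Fact.out : p.Prime)).1 hcop.symm hd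
  refine ⟨fun g => ((H'.relIndex H : ℕ) : ZMod p)⁻¹ * v g, ⟨N, hN, fun g s hs => ?_⟩, ?_⟩
  · show ((H'.relIndex H : ℕ) : ZMod p)⁻¹ * v (g * s) = ((H'.relIndex H : ℕ) : ZMod p)⁻¹ * v g
    rw [hvN g s hs]
  · funext q
    obtain ⟨g, h'⟩ := q
    have h1 := hv g h'
    rw [hsmul, nsmul_eq_mul] at h1
    have h2 : (H'.subgroupOf H).index = H'.relIndex H := rfl
    rw [h2] at h1
    simp only [dTriv]
    field_simp
    linear_combination -h1

/-- A subgroup between a normal level `N` and `H` of index prime to `p` in `H` which is a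
`p`-group modulo `N`. -/
theorem exists_sylow_between [Fact p.Prime] {N H : Subgroup Γ} (hN : 𝓛.P N) (hNn : N.Normal)
    (hNH : N ≤ H) :
    ∃ P : Subgroup Γ, N ≤ P ∧ P ≤ H ∧ Nat.Coprime (P.relIndex H) p ∧
      ∀ g ∈ P, ∃ n : ℕ, g ^ p ^ n ∈ N := by
  have := 𝓛.finite N hN
  have : (N.subgroupOf H).Normal := hNn.subgroupOf H
  have : Finite (H ⧸ N.subgroupOf H) := Subgroup.finite_quotient_of_finiteIndex
  obtain ⟨S⟩ := (Sylow.nonempty : Nonempty (Sylow p (H ⧸ N.subgroupOf H)))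
  let P' : Subgroup H := (S : Subgroup (H ⧸ N.subgroupOf H)).comap (QuotientGroup.mk' _)
  refine ⟨P'.map H.subtype, ?_, Subgroup.map_subtype_le P', ?_, ?_⟩
  · intro g hg
    refine ⟨⟨g, hNH hg⟩, ?_, rfl⟩
    show QuotientGroup.mk' (N.subgroupOf H) ⟨g, hNH hg⟩ ∈ (S : Subgroup (H ⧸ N.subgroupOf H))
    have : QuotientGroup.mk' (N.subgroupOf H) ⟨g, hNH hg⟩ = 1 :=
      (QuotientGroup.eq_one_iff _).2 (Subgroup.mem_subgroupOf.2 hg)
    rw [this]
    exact Subgroup.one_mem _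
  · have h1 : (P'.map H.subtype).relIndex H = P'.index := by
      show ((P'.map H.subtype).subgroupOf H).index = P'.index
      have : (P'.map H.subtype).subgroupOf H = P' :=
        Subgroup.comap_map_eq_self_of_injective H.subtype_injective P'
      rw [this]
    have h2 : P'.index = (S : Subgroup (H ⧸ N.subgroupOf H)).index :=
      Subgroup.index_comap_of_surjective _ (QuotientGroup.mk'_surjective _)
    rw [h1, h2]
    exact ((Nat.Prime.coprime_iff_not_dvd (Fact.out : p.Prime)).2 S.not_dvd_index).symm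
  · rintro _ ⟨g, hg, rfl⟩
    obtain ⟨n, hn⟩ := S.isPGroup' ⟨_, hg⟩
    refine ⟨n, ?_⟩
    have h3 : (QuotientGroup.mk' (N.subgroupOf H) g) ^ p ^ n = 1 := by
      have := congrArg Subtype.val hn
      simpa using this
    rw [← map_pow, QuotientGroup.mk'_apply, QuotientGroup.eq_one_iff] at h3
    have := Subgroup.mem_subgroupOf.1 h3
    simpa using this

/-- A nonzero level character trivial on `N` of a subgroup which is a nontrivial `p`-group
modulo the normal level `N`. -/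
theorem exists_char_of_pGroup [Fact p.Prime] {N Q : Subgroup Γ} (hN : 𝓛.P N) (hNn : N.Normal)
    (hNQ : N ≤ Q) (hQN : ¬ Q ≤ N) (hpow : ∀ g ∈ Q, ∃ n : ℕ, g ^ p ^ n ∈ N) :
    ∃ χ : 𝓛.Chars p Q, χ ≠ 0 ∧ N ≤ kerSub χ := by
  have hp := (Fact.out : p.Prime)
  have := 𝓛.finite N hN
  have : (N.subgroupOf Q).Normal := hNn.subgroupOf Q
  have : Finite (Q ⧸ N.subgroupOf Q) := Subgroup.finite_quotient_of_finiteIndex
  -- the quotient is a nontrivial `p`-group
  have hPG : IsPGroup p (Q ⧸ N.subgroupOf Q) := by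
    intro x
    induction x using QuotientGroup.induction_on with
    | H g =>
      obtain ⟨n, hn⟩ := hpow g g.2
      refine ⟨n, ?_⟩
      rw [← QuotientGroup.mk_pow, QuotientGroup.eq_one_iff]
      exact Subgroup.mem_subgroupOf.2 (by simpa using hn)
  have : Nontrivial (Q ⧸ N.subgroupOf Q) := by
    obtain ⟨g, hgQ, hgN⟩ := Set.not_subset.1 hQN
    refine ⟨⟨(QuotientGroup.mk (⟨g, hgQ⟩ : Q)), 1, ?_⟩⟩
    rw [Ne, QuotientGroup.eq_one_iff]
    exact fun h => hgN (Subgroup.mem_subgroupOf.1 h)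
  obtain ⟨k, hk0, hk⟩ := (hPG.nontrivial_iff_card).1 inferInstance
  -- a normal subgroup of index `p`
  obtain ⟨K, hK⟩ := Sylow.exists_subgroup_card_pow_prime (G := Q ⧸ N.subgroupOf Q) p
    (n := k - 1) (by rw [hk]; exact pow_dvd_pow p (Nat.sub_le k 1))
  have hKidx : K.index = p := by
    have h1 := K.index_mul_card
    rw [hK, hk] at h1
    have h2 : p ^ k = p * p ^ (k - 1) := by
      rw [← pow_succ']
      congr 1
      omega
    rw [h2] at h1
    exact Nat.eq_of_mul_eq_mul_right (pow_pos hp.pos _) h1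
  have : K.Normal := Subgroup.normal_of_index_eq_minFac_card (by
    rw [hKidx, hk, hp.pow_minFac (by omega)])
  have hcard : Nat.card ((Q ⧸ N.subgroupOf Q) ⧸ K) = p := by
    rw [← Subgroup.index_eq_card, hKidx]
  have hcyc : IsCyclic ((Q ⧸ N.subgroupOf Q) ⧸ K) := isCyclic_of_prime_card hcard
  let e : ((Q ⧸ N.subgroupOf Q) ⧸ K) ≃* Multiplicative (ZMod p) :=
    (zmodCyclicMulEquiv hcyc).symm.trans
      (AddEquiv.toMultiplicative (ZMod.ringEquivCongr hcard).toAddEquiv)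
  let φ : Q →* Multiplicative (ZMod p) :=
    e.toMonoidHom.comp ((QuotientGroup.mk' K).comp (QuotientGroup.mk' (N.subgroupOf Q)))
  have hφN : ∀ s : Q, (s : Γ) ∈ N → φ s = 1 := by
    intro s hs
    have : QuotientGroup.mk' (N.subgroupOf Q) s = 1 :=
      (QuotientGroup.eq_one_iff _).2 (Subgroup.mem_subgroupOf.2 hs)
    show e (QuotientGroup.mk' K (QuotientGroup.mk' (N.subgroupOf Q) s)) = 1
    rw [this, map_one, map_one]
  have hφsurj : Function.Surjective φ :=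
    e.surjective.comp ((QuotientGroup.mk'_surjective K).comp (QuotientGroup.mk'_surjective _))
  let χ : 𝓛.Chars p Q := ⟨fun g => Multiplicative.toAdd (φ g), fun g h => by
    show Multiplicative.toAdd (φ (g * h)) = _
    rw [map_mul]
    rfl, N, hN, fun g s hs => by
    show Multiplicative.toAdd (φ (g * s)) = Multiplicative.toAdd (φ g)
    rw [map_mul, hφN s hs, mul_one]⟩
  refine ⟨χ, ?_, ?_⟩
  · obtain ⟨g, hg⟩ := hφsurj (Multiplicative.ofAdd 1)
    intro h0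
    have := congrArg (fun y : 𝓛.Chars p Q => y.1 g) h0
    have h1 : Multiplicative.toAdd (φ g) = (0 : ZMod p) := this
    rw [hg] at h1
    have : Fact (1 < p) := ⟨hp.one_lt⟩
    exact one_ne_zero h1
  · intro s hs
    refine ⟨hNQ hs, ?_⟩
    show Multiplicative.toAdd (φ ⟨s, hNQ hs⟩) = 0
    rw [hφN ⟨s, hNQ hs⟩ hs]
    rfl

/-! #### The main theorem -/

/-- A class represented by a cocycle invariant under a normal level `N`, on a subgroup which is
a `p`-group modulo `N`, is split. -/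
theorem IsSymbolic.split_of_invariant [Fact p.Prime] {𝒞 : Subgroup Γ → Prop}
    (hS : IsSymbolic 𝓛 p 𝒞) (N : Subgroup Γ) (hN : 𝓛.P N) (hNn : N.Normal) :
    ∀ (m : ℕ) (Q : Subgroup Γ) (hQ : 𝒞 Q), N ≤ Q → N.relIndex Q = m →
      (∀ g ∈ Q, ∃ n : ℕ, g ^ p ^ n ∈ N) →
      ∀ (f : Q × Q → ZMod p) (hf : f ∈ 𝓛.Z2 p Q),
        (∀ g g' s s' : Q, (s : Γ) ∈ N → (s' : Γ) ∈ N → f (g * s, g' * s') = f (g, g')) →
        hS.data.Split ⟨Q, hQ⟩ (cls f hf) := by
  intro m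
  induction m using Nat.strong_induction_on with
  | _ m ih =>
    intro Q hQ hNQ hm hpow f hf hfN
    by_cases hQN : Q ≤ N
    · have h0 : cls f hf = 0 := by
        rw [cls_eq_zero_iff]
        refine ⟨fun _ => f (1, 1), lev₁_const Q _, ?_⟩
        funext q
        obtain ⟨g, g'⟩ := q
        have := hfN 1 1 g g' (hQN g.2) (hQN g'.2)
        simp only [one_mul] at this
        simp [dTriv, this]
      rw [h0]
      exact SymbolData₂.Split.zero _
    · obtain ⟨χ, hχ0, hχN⟩ := exists_char_of_pGroup hN hNn hNQ hQN hpow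
      refine SymbolData₂.Split.step (⟨Q, hQ⟩ : {H : Subgroup Γ // 𝒞 H}) χ hχ0 _ ?_
      haveI := 𝓛.finite N hN
      have hmul := Subgroup.relIndex_mul_relIndex N (kerSub χ) Q hχN (kerSub_le χ)
      have h1 : N.relIndex (kerSub χ) ≠ 0 := by
        haveI : (N.subgroupOf (kerSub χ)).FiniteIndex := inferInstance
        exact Subgroup.FiniteIndex.index_ne_zero
      have h2 : (kerSub χ).relIndex Q ≠ 0 := by
        haveI : (kerSub χ).FiniteIndex := Subgroup.finiteIndex_of_le hχN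
        haveI : ((kerSub χ).subgroupOf Q).FiniteIndex := inferInstance
        exact Subgroup.FiniteIndex.index_ne_zero
      have h3 : (kerSub χ).relIndex Q ≠ 1 := by
        rw [Ne, Subgroup.relIndex_eq_one]
        intro hle
        apply hχ0
        refine char_ext fun g => ?_
        exact (coe_mem_kerSub χ g).1 (hle g.2)
      have hlt : N.relIndex (kerSub χ) < m := by
        rw [← hm, ← hmul]
        have : 2 ≤ (kerSub χ).relIndex Q := by omega
        nlinarith [Nat.pos_of_ne_zero h1]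
      exact ih _ hlt (kerSub χ) _ hχN rfl (fun g hg => hpow g (kerSub_le χ hg))
        (resFn₂ (kerSub_le χ) f) (resFn₂_mem_Z2 _ hf)
        (fun g g' s s' hs hs' => by
          simp only [resFn₂, map_mul]
          exact hfN _ _ _ _ (by simpa using hs) (by simpa using hs'))

/-- **Symbol-line theorem for level systems.** `H2` of every subgroup in the class `𝒞` is spanned
by one vector. -/
theorem IsSymbolic.exists_spanning [Fact p.Prime] (hp2 : p ≠ 2) {𝒞 : Subgroup Γ → Prop}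
    (hS : IsSymbolic 𝓛 p 𝒞) (H : Subgroup Γ) (hH : 𝒞 H) :
    ∃ v : 𝓛.H2 p H, ∀ α : 𝓛.H2 p H, ∃ c : ZMod p, α = c • v := by
  refine (hS.isSystem hp2).exists_spanning_of_split (K := ⟨H, hH⟩) ?_
  intro α α'
  obtain ⟨f, hf, rfl⟩ := cls_surjective α
  obtain ⟨f', hf', rfl⟩ := cls_surjective α'
  obtain ⟨N₁, hN₁, hfN₁⟩ := hf.2
  obtain ⟨N₂, hN₂, hfN₂⟩ := hf'.2
  obtain ⟨N, hN, hNn, hNH, hNN₁, hNN₂⟩ := (hS.isOpen H hH).exists_normal_le hN₁ hN₂
  obtain ⟨P, hNP, hPH, hcop, hpow⟩ := exists_sylow_between (p := p) hN hNn hNH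
  have hPopen : 𝓛.IsOpen P := ⟨N, hN, hNP⟩
  have hP : 𝒞 P := hS.her H P hH hPH hPopen
  refine ⟨⟨P, hP⟩, 𝓛.resH2 p hPH, resH2_injective_of_coprime hPH hPopen hcop, ?_, ?_⟩
  · exact hS.split_of_invariant N hN hNn _ P hP hNP rfl hpow (resFn₂ hPH f)
      (resFn₂_mem_Z2 _ hf) (fun g g' s s' hs hs' => by
        simp only [resFn₂, map_mul]
        exact hfN₁ _ _ _ _ (hNN₁ (by simpa using hs)) (hNN₁ (by simpa using hs')))
  · exact hS.split_of_invariant N hN hNn _ P hP hNP rfl hpow (resFn₂ hPH f')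
      (resFn₂_mem_Z2 _ hf') (fun g g' s s' hs hs' => by
        simp only [resFn₂, map_mul]
        exact hfN₂ _ _ _ _ (hNN₂ (by simpa using hs)) (hNN₂ (by simpa using hs')))

/-- `(LB1)`, upper bound, in `finrank` form. -/
theorem IsSymbolic.finrank_H2_le_one [Fact p.Prime] (hp2 : p ≠ 2) {𝒞 : Subgroup Γ → Prop}
    (hS : IsSymbolic 𝓛 p 𝒞) (H : Subgroup Γ) (hH : 𝒞 H) :
    finrank (ZMod p) (𝓛.H2 p H) ≤ 1 := by
  obtain ⟨v, hv⟩ := hS.exists_spanning hp2 H hH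
  exact finrank_le_one v fun w => by
    obtain ⟨c, hc⟩ := hv w
    exact ⟨c, hc.symm⟩

/-- `(LB1)`, upper bound, in cochain form: a level cocycle is a multiple of any level cocycle
which is not a level coboundary, up to a level coboundary. -/
theorem IsSymbolic.exists_smul_sub_mem_B2 [Fact p.Prime] (hp2 : p ≠ 2)
    {𝒞 : Subgroup Γ → Prop} (hS : IsSymbolic 𝓛 p 𝒞) (H : Subgroup Γ) (hH : 𝒞 H)
    {f₁ f₂ : H × H → ZMod p} (hf₁ : f₁ ∈ 𝓛.Z2 p H) (hf₂ : f₂ ∈ 𝓛.Z2 p H)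
    (h₁ : f₁ ∉ 𝓛.B2 p H) : ∃ c : ZMod p, f₂ - c • f₁ ∈ 𝓛.B2 p H := by
  obtain ⟨v, hv⟩ := hS.exists_spanning hp2 H hH
  obtain ⟨c₁, hc₁⟩ := hv (cls f₁ hf₁)
  obtain ⟨c₂, hc₂⟩ := hv (cls f₂ hf₂)
  have hc₁0 : c₁ ≠ 0 := by
    rintro rfl
    rw [zero_smul, cls_eq_zero_iff] at hc₁
    exact h₁ hc₁
  refine ⟨c₂ * c₁⁻¹, ?_⟩
  have h : cls (f₂ - (c₂ * c₁⁻¹) • f₁) (sub_mem hf₂ (Submodule.smul_mem _ _ hf₁)) = 0 := by
    have e : cls (f₂ - (c₂ * c₁⁻¹) • f₁) (sub_mem hf₂ (Submodule.smul_mem _ _ hf₁))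
        = cls f₂ hf₂ - (c₂ * c₁⁻¹) • cls f₁ hf₁ := rfl
    rw [e, hc₁, hc₂, smul_smul, mul_assoc, inv_mul_cancel₀ hc₁0, mul_one, sub_self]
  exact (cls_eq_zero_iff _).1 h

end LevelSys

end Fermat.Agent.S55.helper164
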