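/-
S55, leaf GC-PROJ (helper3665): explicit corestriction (transfer) of cochains from a subgroup
of finite index and the PROJECTION FORMULA at cochain level.

Mathlib only.  Everything lives in `Fermat.Agent.S55.helper3665`.

## Content

`G` a group, `H ≤ G` of finite index, `A` a `G`-module (`DistribMulAction G A`), `t q` the
representative `Quotient.out q` of a left coset `q : G ⧸ H` and
`η_q(g) = t_{gq}⁻¹ g t_q ∈ H` (`cosetEta`).

* `transfer₁ H b g = ∑_q t_{gq} • b (η_q g)` : the transfer of a 1-cochain of `H`;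
  it maps cocycles to cocycles (`transfer₁_isCocycle₁`).
* `pf_master` : if `f` is a 2-cocycle of `G` whose restriction to `H` is
  `res χ ∪ b + d u` (with `b` a 1-cocycle of `H` and `χ` a character of `G`), then
  `[G:H] • f = χ ∪ transfer₁ b + d v` with the explicit primitive `v = pfPrim …`.
  The "multiplication by `χ g`" is an abstract additive map `X g`, so that both module-valued
  characters and `ZMod p`-valued characters acting on `p`-torsion are covered.
* level clauses: all constructions preserve right-invariance under a normal subgroup `U ≤ H`.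
-/
import Mathlib

set_option autoImplicit false

namespace Fermat.Agent.S55.helper3665

open groupCohomology

/-! ### Coset representatives -/

section Coset

variable {G : Type*} [Group G] (H : Subgroup G)

/-- The chosen representative of a left coset. -/
noncomputable def cosetRep (q : G ⧸ H) : G := Quotient.out q

theorem mk_cosetRep (q : G ⧸ H) : (QuotientGroup.mk (cosetRep H q) : G ⧸ H) = q :=
  QuotientGroup.out_eq' q

theorem cosetEta_mem (g : G) (q : G ⧸ H) :
    (cosetRep H (g • q))⁻¹ * g * cosetRep H q ∈ H := by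
  rw [mul_assoc, ← QuotientGroup.eq, mk_cosetRep]
  conv_lhs => rw [← mk_cosetRep H q]
  rfl

/-- `η_q(g) = t_{gq}⁻¹ g t_q`, an element of `H`. -/
noncomputable def cosetEta (g : G) (q : G ⧸ H) : H :=
  ⟨(cosetRep H (g • q))⁻¹ * g * cosetRep H q, cosetEta_mem H g q⟩

theorem cosetRep_mul_cosetEta (g : G) (q : G ⧸ H) :
    cosetRep H (g • q) * (cosetEta H g q : G) = g * cosetRep H q := by
  simp [cosetEta, mul_assoc]

theorem cosetEta_mul (g g' : G) (q : G ⧸ H) :
    cosetEta H (g * g') q = cosetEta H g (g' • q) * cosetEta H g' q := by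
  apply Subtype.ext
  simp [cosetEta, mul_smul, mul_assoc]

/-- A normal subgroup contained in `H` acts trivially on `G ⧸ H`. -/
theorem smul_coset_eq_of_mem_normal (U : Subgroup G) [U.Normal] (hUH : U ≤ H) {s : G}
    (hs : s ∈ U) (q : G ⧸ H) : s • q = q := by
  conv_lhs => rw [← mk_cosetRep H q]
  conv_rhs => rw [← mk_cosetRep H q]
  show (QuotientGroup.mk (s * cosetRep H q) : G ⧸ H) = QuotientGroup.mk (cosetRep H q)
  rw [QuotientGroup.eq]
  apply hUH
  have h1 : (cosetRep H q)⁻¹ * s⁻¹ * (cosetRep H q)⁻¹⁻¹ ∈ U :=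
    Subgroup.Normal.conj_mem inferInstance _ (U.inv_mem hs) _
  simpa [mul_assoc] using h1

/-- `η_q(g s) = η_q(g) · (t_q⁻¹ s t_q)` for `s` in a normal subgroup `U ≤ H`. -/
theorem cosetEta_mul_right (U : Subgroup G) [U.Normal] (hUH : U ≤ H) (g : G) {s : G}
    (hs : s ∈ U) (q : G ⧸ H) :
    ∃ s' : H, (s' : G) ∈ U ∧ cosetEta H (g * s) q = cosetEta H g q * s' := by
  have h1 : (cosetRep H q)⁻¹ * s * (cosetRep H q)⁻¹⁻¹ ∈ U :=
    Subgroup.Normal.conj_mem inferInstance _ hs _
  rw [inv_inv] at h1
  refine ⟨⟨(cosetRep H q)⁻¹ * s * cosetRep H q, hUH h1⟩, h1, ?_⟩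
  apply Subtype.ext
  simp [cosetEta, mul_smul, smul_coset_eq_of_mem_normal H U hUH hs, mul_assoc]

end Coset

/-! ### The pointwise identity -/

section Core

/-- The identity behind the projection formula, for one coset.  `X g` plays the role of
"multiplication by `χ g`"; it is additive in `g` on the `G`-stable subgroup `S`. -/
theorem core_identity {G A : Type*} [Group G] [AddCommGroup A] [DistribMulAction G A]
    (S : AddSubgroup A) (hS : ∀ (k : G) (z : A), z ∈ S → k • z ∈ S)
    (X : G → A →+ A) (hXsmul : ∀ (g k : G) (z : A), X g (k • z) = k • X g z)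
    (hXmul : ∀ (g h : G) (z : A), z ∈ S → X (g * h) z = X g z + X h z)
    (f : G × G → A) (hf : IsCocycle₂ f)
    (g g' a m n x y : G) (hax : a * x = g * m) (hmy : m * y = g' * n)
    (bx by' bxy ux uy uxy : A) (hby : by' ∈ S)
    (hbxy : bxy = x • by' + bx)
    (hfxy : f (x, y) = X x (x • by') + (x • uy - uxy + ux)) :
    f (g, g') = X g (g • m • by')
      + (g • (m • uy + X m (m • by') - f (m, y) + f (g', n))
        - (a • uxy + X a (a • bxy) - f (a, x * y) + f (g * g', n))
        + (a • ux + X a (a • bx) - f (a, x) + f (g, m))) := by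
  have h1 := hf a x y
  rw [hax] at h1
  have h2 := hf g m y
  rw [hmy] at h2
  have h3 := hf g g' n
  have hX : X (g * m) ((g * m) • by') = X g ((g * m) • by') + X m ((g * m) • by') :=
    hXmul g m _ (hS _ _ hby)
  have hX' : X (a * x) ((g * m) • by') = X a ((g * m) • by') + X x ((g * m) • by') :=
    hXmul a x _ (hS _ _ hby)
  rw [hax, hX] at hX'
  have e1 : a • f (x, y) = X x ((g * m) • by') + ((g * m) • uy - a • uxy + a • ux) := by
    rw [hfxy, smul_add, smul_add, smul_sub, ← hXsmul, smul_smul, smul_smul, hax]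
  have e2 : X a (a • bxy) = X a ((g * m) • by') + X a (a • bx) := by
    rw [hbxy, smul_add, smul_smul, hax, map_add]
  have e3 : g • (m • uy + X m (m • by') - f (m, y) + f (g', n))
      = (g * m) • uy + X m ((g * m) • by') - g • f (m, y) + g • f (g', n) := by
    rw [smul_add, smul_sub, smul_add, smul_smul, ← hXsmul, smul_smul]
  rw [e3, e2, smul_smul]
  rw [e1] at h1
  rw [← sub_eq_zero] at h1 h2 h3 hX' ⊢
  have key : f (g, g') - (X g ((g * m) • by') + ((g * m) • uy + X m ((g * m) • by') - g • f (m, y)
      + g • f (g', n) - (a • uxy + (X a ((g * m) • by') + X a (a • bx)) - f (a, x * y)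
      + f (g * g', n)) + (a • ux + X a (a • bx) - f (a, x) + f (g, m))))
      = (f (g * g', n) + f (g, g') - (g • f (g', n) + f (g, g' * n)))
        - (f (g * m, y) + f (g, m) - (g • f (m, y) + f (g, g' * n)))
        + (f (g * m, y) + f (a, x) - (X x ((g * m) • by') + ((g * m) • uy - a • uxy + a • ux)
            + f (a, x * y)))
        - (X g ((g * m) • by') + X m ((g * m) • by') - (X a ((g * m) • by') + X x ((g * m) • by'))) := by
    abel
  rw [key, h1, h2, h3, hX']
  simp

end Core

/-! ### Transfer of 1-cochains and the projection formula -/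

section Transfer

variable {G : Type*} [Group G] (H : Subgroup G) [H.FiniteIndex]
variable {A : Type*} [AddCommGroup A] [DistribMulAction G A]

attribute [local instance] Subgroup.fintypeQuotientOfFiniteIndex

/-- The transfer (corestriction) of a 1-cochain of `H` to `G`:
`(transfer₁ b)(g) = ∑_q t_{gq} • b (t_{gq}⁻¹ g t_q)`. -/
noncomputable def transfer₁ (b : H → A) (g : G) : A :=
  ∑ q : G ⧸ H, cosetRep H (g • q) • b (cosetEta H g q)

/-- One summand of the explicit primitive `pfPrim`. -/
noncomputable def pfTerm (X : G → A →+ A) (f : G × G → A) (b u : H → A) (q : G ⧸ H) (g : G) :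
    A :=
  cosetRep H (g • q) • u (cosetEta H g q)
    + X (cosetRep H (g • q)) (cosetRep H (g • q) • b (cosetEta H g q))
    - f (cosetRep H (g • q), (cosetEta H g q : G)) + f (g, cosetRep H q)

/-- The explicit primitive of the projection formula. -/
noncomputable def pfPrim (X : G → A →+ A) (f : G × G → A) (b u : H → A) (g : G) : A :=
  ∑ q : G ⧸ H, pfTerm H X f b u q g

omit [H.FiniteIndex] in
theorem pfTerm_identity (S : AddSubgroup A) (hS : ∀ (k : G) (z : A), z ∈ S → k • z ∈ S)
    (X : G → A →+ A) (hXsmul : ∀ (g k : G) (z : A), X g (k • z) = k • X g z)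
    (hXmul : ∀ (g h : G) (z : A), z ∈ S → X (g * h) z = X g z + X h z)
    (f : G × G → A) (hf : IsCocycle₂ f)
    (b u : H → A) (hb : ∀ h h' : H, b (h * h') = (h : G) • b h' + b h) (hbS : ∀ h, b h ∈ S)
    (hres : ∀ h h' : H, f ((h : G), (h' : G))
      = X h ((h : G) • b h') + ((h : G) • u h' - u (h * h') + u h))
    (g g' : G) (q : G ⧸ H) :
    f (g, g') = X g (g • cosetRep H (g' • q) • b (cosetEta H g' q))
      + (g • pfTerm H X f b u q g' - pfTerm H X f b u q (g * g')
        + pfTerm H X f b u (g' • q) g) := by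
  have h := core_identity S hS X hXsmul hXmul f hf g g' (cosetRep H (g • g' • q))
    (cosetRep H (g' • q)) (cosetRep H q) (cosetEta H g (g' • q)) (cosetEta H g' q)
    (cosetRep_mul_cosetEta H g (g' • q)) (cosetRep_mul_cosetEta H g' q)
    (b (cosetEta H g (g' • q))) (b (cosetEta H g' q))
    (b (cosetEta H g (g' • q) * cosetEta H g' q))
    (u (cosetEta H g (g' • q))) (u (cosetEta H g' q))
    (u (cosetEta H g (g' • q) * cosetEta H g' q)) (hbS _) (hb _ _) (hres _ _)
  simp only [pfTerm, mul_smul, cosetEta_mul, Subgroup.coe_mul]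
  exact h

/-- **Projection formula + `cor ∘ res = index`, cochain form.**  If the restriction to `H` of
the 2-cocycle `f` of `G` is `res χ ∪ b + d u`, then `[G:H] • f = χ ∪ transfer₁ b + d v` with
`v = pfPrim H X f b u`. -/
theorem pf_master (S : AddSubgroup A) (hS : ∀ (k : G) (z : A), z ∈ S → k • z ∈ S)
    (X : G → A →+ A) (hXsmul : ∀ (g k : G) (z : A), X g (k • z) = k • X g z)
    (hXmul : ∀ (g h : G) (z : A), z ∈ S → X (g * h) z = X g z + X h z)
    (f : G × G → A) (hf : IsCocycle₂ f)
    (b u : H → A) (hb : ∀ h h' : H, b (h * h') = (h : G) • b h' + b h) (hbS : ∀ h, b h ∈ S)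
    (hres : ∀ h h' : H, f ((h : G), (h' : G))
      = X h ((h : G) • b h') + ((h : G) • u h' - u (h * h') + u h))
    (g g' : G) :
    H.index • f (g, g') = X g (g • transfer₁ H b g')
      + (g • pfPrim H X f b u g' - pfPrim H X f b u (g * g') + pfPrim H X f b u g) := by
  have hidx : H.index • f (g, g') = ∑ _q : G ⧸ H, f (g, g') := by
    rw [Finset.sum_const, Finset.card_univ, Subgroup.index_eq_card, Nat.card_eq_fintype_card]
  have hre : pfPrim H X f b u g = ∑ q : G ⧸ H, pfTerm H X f b u (g' • q) g :=
    (Equiv.sum_comp (MulAction.toPerm g') (fun q => pfTerm H X f b u q g)).symm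
  rw [hidx, Finset.sum_congr rfl
    (fun q _ => pfTerm_identity H S hS X hXsmul hXmul f hf b u hb hbS hres g g' q)]
  rw [hre]
  simp only [transfer₁, pfPrim, Finset.smul_sum, map_sum, Finset.sum_add_distrib,
    Finset.sum_sub_distrib]

/-- The transfer of a 1-cocycle is a 1-cocycle. -/
theorem transfer₁_isCocycle₁ (b : H → A)
    (hb : ∀ h h' : H, b (h * h') = (h : G) • b h' + b h) : IsCocycle₁ (transfer₁ H b) := by
  intro g g'
  have hre : transfer₁ H b g
      = ∑ q : G ⧸ H, cosetRep H (g • g' • q) • b (cosetEta H g (g' • q)) :=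
    (Equiv.sum_comp (MulAction.toPerm g')
      (fun q => cosetRep H (g • q) • b (cosetEta H g q))).symm
  rw [hre]
  simp only [transfer₁, Finset.smul_sum, ← Finset.sum_add_distrib]
  refine Finset.sum_congr rfl fun q _ => ?_
  rw [cosetEta_mul, hb, smul_add, mul_smul g g' q, smul_smul, cosetRep_mul_cosetEta, mul_smul]

/-- The transfer of a 1-cochain takes values in any `G`-stable subgroup containing the values
of the cochain. -/
theorem transfer₁_mem (P : AddSubgroup A) (hP : ∀ (k : G) (z : A), z ∈ P → k • z ∈ P)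
    (b : H → A) (hbP : ∀ h, b h ∈ P) (g : G) : transfer₁ H b g ∈ P :=
  P.sum_mem fun _ _ => hP _ _ (hbP _)

/-- Level clause for the transfer: right-invariance under a normal subgroup `U ≤ H`. -/
theorem transfer₁_mul_right (U : Subgroup G) [U.Normal] (hUH : U ≤ H) (b : H → A)
    (hbU : ∀ h s : H, (s : G) ∈ U → b (h * s) = b h) (g : G) {s : G} (hs : s ∈ U) :
    transfer₁ H b (g * s) = transfer₁ H b g := by
  unfold transfer₁
  refine Finset.sum_congr rfl fun q _ => ?_
  obtain ⟨s', hs', he⟩ := cosetEta_mul_right H U hUH g hs q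
  rw [he, hbU _ _ hs', mul_smul, smul_coset_eq_of_mem_normal H U hUH hs]

/-- The explicit primitive takes values in any subgroup stable under `G` and the `X g` and
containing the values of `f`, `b`, `u`. -/
theorem pfPrim_mem (P : AddSubgroup A) (hP : ∀ (k : G) (z : A), z ∈ P → k • z ∈ P)
    (X : G → A →+ A) (hXP : ∀ (k : G) (z : A), z ∈ P → X k z ∈ P)
    (f : G × G → A) (b u : H → A) (hfP : ∀ x, f x ∈ P) (hbP : ∀ h, b h ∈ P)
    (huP : ∀ h, u h ∈ P) (g : G) : pfPrim H X f b u g ∈ P :=
  P.sum_mem fun _ _ => P.add_mem (P.sub_mem (P.add_mem (hP _ _ (huP _))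
    (hXP _ _ (hP _ _ (hbP _)))) (hfP _)) (hfP _)

/-- Level clause for the explicit primitive. -/
theorem pfPrim_mul_right (U : Subgroup G) [U.Normal] (hUH : U ≤ H)
    (X : G → A →+ A) (f : G × G → A) (b u : H → A)
    (hfU : ∀ g g' s s' : G, s ∈ U → s' ∈ U → f (g * s, g' * s') = f (g, g'))
    (hbU : ∀ h s : H, (s : G) ∈ U → b (h * s) = b h)
    (huU : ∀ h s : H, (s : G) ∈ U → u (h * s) = u h) (g : G) {s : G} (hs : s ∈ U) :
    pfPrim H X f b u (g * s) = pfPrim H X f b u g := by
  unfold pfPrim
  refine Finset.sum_congr rfl fun q _ => ?_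
  obtain ⟨s', hs', he⟩ := cosetEta_mul_right H U hUH g hs q
  have h1 : f (cosetRep H (g • q), ((cosetEta H g q * s' : H) : G))
      = f (cosetRep H (g • q), (cosetEta H g q : G)) := by
    have := hfU (cosetRep H (g • q)) (cosetEta H g q : G) 1 (s' : G) U.one_mem hs'
    rw [mul_one] at this
    rw [Subgroup.coe_mul]
    exact this
  have h2 : f (g * s, cosetRep H q) = f (g, cosetRep H q) := by
    have := hfU g (cosetRep H q) s 1 hs U.one_mem
    rw [mul_one] at this
    exact this
  unfold pfTerm
  rw [he, hbU _ _ hs', huU _ _ hs', mul_smul, smul_coset_eq_of_mem_normal H U hUH hs, h1, h2]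

/-! ### The other order of the cup product -/

/-- The explicit primitive for the cup product in the order `b ∪ χ`. -/
noncomputable def pfPrim' (X : G → A →+ A) (f : G × G → A) (b u : H → A) (g : G) : A :=
  pfPrim H X f (fun h => -b h) (fun h => u h - X h (b h)) g + X g (transfer₁ H b g)

theorem transfer₁_neg (b : H → A) (g : G) :
    transfer₁ H (fun h => -b h) g = -transfer₁ H b g := by
  simp [transfer₁]

/-- **Projection formula, order `b ∪ χ`.**  If the restriction to `H` of the 2-cocycle `f` of
`G` is `(h, h') ↦ χ(h') b(h) + d u`, then `[G:H] • f = (g, g') ↦ χ(g') (transfer₁ b)(g) + d v`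
with `v = pfPrim' H X f b u`. -/
theorem pf_master' (S : AddSubgroup A) (hS : ∀ (k : G) (z : A), z ∈ S → k • z ∈ S)
    (X : G → A →+ A) (hXsmul : ∀ (g k : G) (z : A), X g (k • z) = k • X g z)
    (hXmul : ∀ (g h : G) (z : A), z ∈ S → X (g * h) z = X g z + X h z)
    (f : G × G → A) (hf : IsCocycle₂ f)
    (b u : H → A) (hb : ∀ h h' : H, b (h * h') = (h : G) • b h' + b h) (hbS : ∀ h, b h ∈ S)
    (hres : ∀ h h' : H, f ((h : G), (h' : G))
      = X h' (b h) + ((h : G) • u h' - u (h * h') + u h))
    (g g' : G) :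
    H.index • f (g, g') = X g' (transfer₁ H b g)
      + (g • pfPrim' H X f b u g' - pfPrim' H X f b u (g * g') + pfPrim' H X f b u g) := by
  have hres' : ∀ h h' : H, f ((h : G), (h' : G))
      = X h ((h : G) • (-b h')) + ((h : G) • (u h' - X h' (b h'))
        - (u (h * h') - X (h * h' : H) (b (h * h'))) + (u h - X h (b h))) := by
    intro h h'
    have e1 : X (h * h' : H) (b (h * h')) = X h (b (h * h')) + X h' (b (h * h')) := by
      rw [Subgroup.coe_mul]
      exact hXmul _ _ _ (hbS _)
    rw [hres h h', e1, hb h h']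
    simp only [map_add, map_neg, smul_sub, smul_neg, hXsmul]
    abel
  have hb' : ∀ h h' : H, -b (h * h') = (h : G) • (-b h') + -b h := by
    intro h h'
    rw [hb, smul_neg]
    abel
  have hm := pf_master H S hS X hXsmul hXmul f hf (fun h => -b h)
    (fun h => u h - X h (b h)) hb' (fun h => S.neg_mem (hbS h)) hres' g g'
  have hT := transfer₁_isCocycle₁ H b hb g g'
  have hTS : ∀ k, transfer₁ H b k ∈ S := fun k => transfer₁_mem H S hS b hbS k
  have e2 : X (g * g') (transfer₁ H b (g * g'))
      = X g (transfer₁ H b (g * g')) + X g' (transfer₁ H b (g * g')) := hXmul _ _ _ (hTS _)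
  rw [hm, transfer₁_neg]
  unfold pfPrim'
  rw [e2, hT]
  simp only [map_add, map_neg, smul_neg, smul_add, hXsmul]
  abel

/-- Membership clause for `pfPrim'`. -/
theorem pfPrim'_mem (P : AddSubgroup A) (hP : ∀ (k : G) (z : A), z ∈ P → k • z ∈ P)
    (X : G → A →+ A) (hXP : ∀ (k : G) (z : A), z ∈ P → X k z ∈ P)
    (f : G × G → A) (b u : H → A) (hfP : ∀ x, f x ∈ P) (hbP : ∀ h, b h ∈ P)
    (huP : ∀ h, u h ∈ P) (g : G) : pfPrim' H X f b u g ∈ P :=
  P.add_mem (pfPrim_mem H P hP X hXP f _ _ hfP (fun h => P.neg_mem (hbP h))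
    (fun h => P.sub_mem (huP h) (hXP _ _ (hbP h))) g)
    (hXP _ _ (transfer₁_mem H P hP b hbP g))

/-- Level clause for `pfPrim'`; the character must be trivial on `U`. -/
theorem pfPrim'_mul_right (U : Subgroup G) [U.Normal] (hUH : U ≤ H)
    (S : AddSubgroup A) (hS : ∀ (k : G) (z : A), z ∈ S → k • z ∈ S)
    (X : G → A →+ A) (hXmul : ∀ (g h : G) (z : A), z ∈ S → X (g * h) z = X g z + X h z)
    (hXU : ∀ (s : G) (z : A), s ∈ U → z ∈ S → X s z = 0)
    (f : G × G → A) (b u : H → A) (hbS : ∀ h, b h ∈ S)
    (hfU : ∀ g g' s s' : G, s ∈ U → s' ∈ U → f (g * s, g' * s') = f (g, g'))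
    (hbU : ∀ h s : H, (s : G) ∈ U → b (h * s) = b h)
    (huU : ∀ h s : H, (s : G) ∈ U → u (h * s) = u h) (g : G) {s : G} (hs : s ∈ U) :
    pfPrim' H X f b u (g * s) = pfPrim' H X f b u g := by
  unfold pfPrim'
  rw [pfPrim_mul_right H U hUH X f _ _ hfU (fun h s hs => by rw [hbU h s hs]) ?_ g hs,
    transfer₁_mul_right H U hUH b hbU g hs, hXmul _ _ _ (transfer₁_mem H S hS b hbS g),
    hXU s _ hs (transfer₁_mem H S hS b hbS g), add_zero]
  intro h s hs
  rw [huU h s hs, hbU h s hs, Subgroup.coe_mul, hXmul _ _ _ (hbS h), hXU _ _ hs (hbS h), add_zero]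

/-! ### Module-valued characters -/

/-- Projection formula for a character `χ : G → R` with values in a commutative ring acting on
`A` compatibly with `G`, order `χ ∪ b`. -/
theorem pf_master_module {R : Type*} [Semiring R] [Module R A] [SMulCommClass G R A]
    (χ : G → R) (hχ : ∀ g h, χ (g * h) = χ g + χ h)
    (f : G × G → A) (hf : IsCocycle₂ f)
    (b u : H → A) (hb : ∀ h h' : H, b (h * h') = (h : G) • b h' + b h)
    (hres : ∀ h h' : H, f ((h : G), (h' : G))
      = χ h • (h : G) • b h' + ((h : G) • u h' - u (h * h') + u h)) :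
    ∃ v : G → A, ∀ g g' : G,
      H.index • f (g, g') = χ g • g • transfer₁ H b g' + (g • v g' - v (g * g') + v g) :=
  ⟨pfPrim H (fun g => DistribSMul.toAddMonoidHom A (χ g)) f b u, fun g g' =>
    pf_master H ⊤ (fun _ _ _ => AddSubgroup.mem_top _)
      (fun g => DistribSMul.toAddMonoidHom A (χ g)) (fun g k z => (smul_comm k (χ g) z).symm)
      (fun g h z _ => by
        show χ (g * h) • z = χ g • z + χ h • z
        rw [hχ, add_smul])
      f hf b u hb (fun _ => AddSubgroup.mem_top _) hres g g'⟩

/-- Projection formula for a module-valued character, order `b ∪ χ`. -/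
theorem pf_master_module' {R : Type*} [Semiring R] [Module R A] [SMulCommClass G R A]
    (χ : G → R) (hχ : ∀ g h, χ (g * h) = χ g + χ h)
    (f : G × G → A) (hf : IsCocycle₂ f)
    (b u : H → A) (hb : ∀ h h' : H, b (h * h') = (h : G) • b h' + b h)
    (hres : ∀ h h' : H, f ((h : G), (h' : G))
      = χ h' • b h + ((h : G) • u h' - u (h * h') + u h)) :
    ∃ v : G → A, ∀ g g' : G,
      H.index • f (g, g') = χ g' • transfer₁ H b g + (g • v g' - v (g * g') + v g) :=
  ⟨pfPrim' H (fun g => DistribSMul.toAddMonoidHom A (χ g)) f b u, fun g g' =>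
    pf_master' H ⊤ (fun _ _ _ => AddSubgroup.mem_top _)
      (fun g => DistribSMul.toAddMonoidHom A (χ g)) (fun g k z => (smul_comm k (χ g) z).symm)
      (fun g h z _ => by
        show χ (g * h) • z = χ g • z + χ h • z
        rw [hχ, add_smul])
      f hf b u hb (fun _ => AddSubgroup.mem_top _) hres g g'⟩

end Transfer

/-! ### Trivial action: cochains with values in a commutative ring

The carrier of level cochains with values in `ZMod p` and trivial action (the frozen
`continuousH2` of a trivial module).  No action typeclass appears in the statements. -/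

section Trivial

variable {G : Type*} [Group G] (H : Subgroup G) [H.FiniteIndex] {R : Type*} [CommRing R]

attribute [local instance] Subgroup.fintypeQuotientOfFiniteIndex

/-- The trivial action, as a local definition. -/
@[reducible] def trivAct (G R : Type*) [Monoid G] [AddMonoid R] : DistribMulAction G R where
  smul _ x := x
  one_smul _ := rfl
  mul_smul _ _ _ := rfl
  smul_zero _ := rfl
  smul_add _ _ _ := rfl

/-- The transfer of a function on `H` with values in a trivial module:
`(transferTriv b)(g) = ∑_q b (t_{gq}⁻¹ g t_q)`.  On additive characters this is the map dual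
to the group-theoretic transfer `G^ab → H^ab`. -/
noncomputable def transferTriv (b : H → R) (g : G) : R :=
  ∑ q : G ⧸ H, b (cosetEta H g q)

theorem transferTriv_eq_transfer₁ (b : H → R) (g : G) :
    transferTriv H b g = @transfer₁ G _ H _ R _ (trivAct G R) b g := rfl

theorem transferTriv_add (b b' : H → R) (g : G) :
    transferTriv H (fun h => b h + b' h) g = transferTriv H b g + transferTriv H b' g := by
  simp [transferTriv, Finset.sum_add_distrib]

theorem transferTriv_smul (c : R) (b : H → R) (g : G) :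
    transferTriv H (fun h => c * b h) g = c * transferTriv H b g := by
  simp [transferTriv, Finset.mul_sum]

/-- The transfer of an additive character is an additive character. -/
theorem transferTriv_mul (b : H → R) (hb : ∀ h h' : H, b (h * h') = b h + b h') (g g' : G) :
    transferTriv H b (g * g') = transferTriv H b g + transferTriv H b g' := by
  let _ := trivAct G R
  have h := transfer₁_isCocycle₁ H b (fun h h' => by rw [hb, add_comm]; rfl) g g'
  rw [transferTriv_eq_transfer₁, transferTriv_eq_transfer₁, transferTriv_eq_transfer₁, h,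
    add_comm]
  rfl

/-- Level clause for `transferTriv`. -/
theorem transferTriv_mul_right (U : Subgroup G) [U.Normal] (hUH : U ≤ H) (b : H → R)
    (hbU : ∀ h s : H, (s : G) ∈ U → b (h * s) = b h) (g : G) {s : G} (hs : s ∈ U) :
    transferTriv H b (g * s) = transferTriv H b g := by
  let _ := trivAct G R
  exact transfer₁_mul_right H U hUH b hbU g hs

/-- **Projection formula, trivial action, order `χ ∪ b`.**  `f` a 2-cocycle of `G` with values
in `R` (trivial action) whose restriction to `H` is `(h, h') ↦ χ(h) b(h') + (d u)(h, h')`, with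
`χ` an additive character of `G` and `b` an additive character of `H`.  Then
`[G:H] • f = (g, g') ↦ χ(g) (transferTriv b)(g') + d v`, and `v` is right-invariant under every
normal subgroup `U ≤ H` under which `f`, `b`, `u` are. -/
theorem pf_triv (χ : G → R) (hχ : ∀ g h, χ (g * h) = χ g + χ h)
    (f : G × G → R) (hf : ∀ g h j, f (g * h, j) + f (g, h) = f (h, j) + f (g, h * j))
    (b u : H → R) (hb : ∀ h h' : H, b (h * h') = b h + b h')
    (hres : ∀ h h' : H, f ((h : G), (h' : G)) = χ h * b h' + (u h' - u (h * h') + u h)) :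
    ∃ v : G → R,
      (∀ g g', H.index • f (g, g') = χ g * transferTriv H b g' + (v g' - v (g * g') + v g)) ∧
      ∀ U : Subgroup G, U.Normal → U ≤ H →
        (∀ g g' s s' : G, s ∈ U → s' ∈ U → f (g * s, g' * s') = f (g, g')) →
        (∀ h s : H, (s : G) ∈ U → b (h * s) = b h) →
        (∀ h s : H, (s : G) ∈ U → u (h * s) = u h) → ∀ g s, s ∈ U → v (g * s) = v g := by
  let _ := trivAct G R
  refine ⟨pfPrim H (fun g => DistribSMul.toAddMonoidHom R (χ g)) f b u, fun g g' => ?_,
    fun U hU hUH hfU hbU huU g s hs => ?_⟩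
  · exact pf_master H ⊤ (fun _ _ _ => AddSubgroup.mem_top _)
      (fun g => DistribSMul.toAddMonoidHom R (χ g)) (fun _ _ _ => rfl)
      (fun g h z _ => by
        show χ (g * h) * z = χ g * z + χ h * z
        rw [hχ, add_mul])
      f hf b u (fun h h' => by rw [hb, add_comm]; rfl) (fun _ => AddSubgroup.mem_top _) hres g g'
  · have := hU
    exact pfPrim_mul_right H U hUH _ f b u hfU hbU huU g hs

/-- **Projection formula, trivial action, order `b ∪ χ`.**  As `pf_triv` with the restriction
of `f` to `H` equal to `(h, h') ↦ b(h) χ(h') + (d u)(h, h')`; the conclusion is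
`[G:H] • f = (g, g') ↦ (transferTriv b)(g) χ(g') + d v`.  For the level clause `χ` must vanish
on `U`. -/
theorem pf_triv' (χ : G → R) (hχ : ∀ g h, χ (g * h) = χ g + χ h)
    (f : G × G → R) (hf : ∀ g h j, f (g * h, j) + f (g, h) = f (h, j) + f (g, h * j))
    (b u : H → R) (hb : ∀ h h' : H, b (h * h') = b h + b h')
    (hres : ∀ h h' : H, f ((h : G), (h' : G)) = b h * χ h' + (u h' - u (h * h') + u h)) :
    ∃ v : G → R,
      (∀ g g', H.index • f (g, g') = transferTriv H b g * χ g' + (v g' - v (g * g') + v g)) ∧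
      ∀ U : Subgroup G, U.Normal → U ≤ H → (∀ s ∈ U, χ s = 0) →
        (∀ g g' s s' : G, s ∈ U → s' ∈ U → f (g * s, g' * s') = f (g, g')) →
        (∀ h s : H, (s : G) ∈ U → b (h * s) = b h) →
        (∀ h s : H, (s : G) ∈ U → u (h * s) = u h) → ∀ g s, s ∈ U → v (g * s) = v g := by
  let _ := trivAct G R
  refine ⟨pfPrim' H (fun g => DistribSMul.toAddMonoidHom R (χ g)) f b u, fun g g' => ?_,
    fun U hU hUH hχU hfU hbU huU g s hs => ?_⟩
  · have h := pf_master' H ⊤ (fun _ _ _ => AddSubgroup.mem_top _)
      (fun g => DistribSMul.toAddMonoidHom R (χ g)) (fun _ _ _ => rfl)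
      (fun g h z _ => by
        show χ (g * h) * z = χ g * z + χ h * z
        rw [hχ, add_mul])
      f hf b u (fun h h' => by rw [hb, add_comm]; rfl) (fun _ => AddSubgroup.mem_top _)
      (fun h h' => by rw [hres h h', mul_comm]; rfl) g g'
    rw [h, mul_comm]
    rfl
  · have := hU
    exact pfPrim'_mul_right H U hUH ⊤ (fun _ _ _ => AddSubgroup.mem_top _) _
      (fun g h z _ => by
        show χ (g * h) * z = χ g * z + χ h * z
        rw [hχ, add_mul])
      (fun s z hs _ => by
        show χ s * z = 0
        rw [hχU s hs, zero_mul])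
      f b u (fun _ => AddSubgroup.mem_top _) hfU hbU huU g hs

end Trivial

/-! ### Kummer characters: the transfer is the norm -/

section Kummer

variable {G : Type*} [Group G] (H : Subgroup G) [H.FiniteIndex]
variable {M : Type*} [CommGroup M] [MulDistribMulAction G M]

attribute [local instance] Subgroup.fintypeQuotientOfFiniteIndex

/-- Exponents in `ZMod p` on an element killed by `p`: sums. -/
theorem pow_val_sum_of_pow_eq_one {p : ℕ} [NeZero p] {ζ : M} (hζ : ζ ^ p = 1) {ι : Type*}
    (s : Finset ι) (a : ι → ZMod p) :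
    ζ ^ (∑ i ∈ s, a i).val = ∏ i ∈ s, ζ ^ (a i).val := by
  classical
  induction s using Finset.induction_on with
  | empty => simp
  | insert i s hi ih =>
    rw [Finset.sum_insert hi, Finset.prod_insert hi, ← ih, ZMod.val_add, ← pow_add]
    exact (pow_eq_pow_mod _ hζ).symm

/-- The product of the conjugates of `η` over the chosen transversal of `G ⧸ H`
(`= N(η)` in the Galois situation). -/
noncomputable def cosetProd (η : M) : M := ∏ q : G ⧸ H, cosetRep H q • η

theorem cosetProd_pow (η : M) (n : ℕ) : cosetProd H η ^ n = cosetProd H (η ^ n) := by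
  simp [cosetProd, Finset.prod_pow, smul_pow']

/-- **The transfer of a Kummer character is the Kummer character of the norm.**  If
`h • η / η = ζ ^ ψ(h)` on `H` (with `ζ` fixed by `G` and `ζ ^ p = 1`), then
`θ = ∏_q t_q • η` satisfies `g • θ / θ = ζ ^ (transferTriv ψ)(g)` on `G`. -/
theorem kummer_transferTriv {p : ℕ} [NeZero p] (ζ η : M) (hζp : ζ ^ p = 1)
    (hζ : ∀ g : G, g • ζ = ζ) (ψ : H → ZMod p)
    (hψ : ∀ h : H, (h : G) • η / η = ζ ^ (ψ h).val) (g : G) :
    g • cosetProd H η / cosetProd H η = ζ ^ (transferTriv H ψ g).val := by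
  have h1 : ∀ q : G ⧸ H, g • cosetRep H q • η
      = cosetRep H (g • q) • η * ζ ^ (ψ (cosetEta H g q)).val := by
    intro q
    have e : (cosetEta H g q : G) • η = η * ζ ^ (ψ (cosetEta H g q)).val := by
      rw [← hψ]
      simp
    rw [smul_smul, ← cosetRep_mul_cosetEta, mul_smul, e, smul_mul', smul_pow', hζ]
  have h2 : ∏ q : G ⧸ H, cosetRep H (g • q) • η = cosetProd H η :=
    Equiv.prod_comp (MulAction.toPerm g) (fun q => cosetRep H q • η)
  have h3 : g • cosetProd H η
      = ∏ q : G ⧸ H, (cosetRep H (g • q) • η * ζ ^ (ψ (cosetEta H g q)).val) := by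
    unfold cosetProd
    rw [Finset.smul_prod']
    exact Finset.prod_congr rfl fun q _ => h1 q
  unfold transferTriv
  rw [h3, Finset.prod_mul_distrib, h2, pow_val_sum_of_pow_eq_one hζp, mul_div_cancel_left]

end Kummer

end Fermat.Agent.S55.helper3665
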