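/-
S55, local core (helper3665): the `norm` field of `helper164.LevelSys.IsSymbolic`.

For a level system `𝓛` on a group `Γ`, an open subgroup `H` and a nonzero level character
`χ : H → ZMod p`, the transfer `transferTriv` (helper3665_ProjFormula) along
`ker χ ≤ H` gives a linear map

  `symNu : 𝓛.Chars p (kerSub χ) →ₗ[ZMod p] 𝓛.Chars p H`

with

* `symNu_pf`   : the projection formula `res α = res x ∪ β → x ∪ symNu β = 0`
                 (pure group theory: `pf_triv` and `[H : ker χ] = p`);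
* `symNu_surj` : if `Γ` acts on a field `Ω` with `p`-th roots, smoothly with respect to the
                 levels, and `ψ` is the Kummer character of `β` with `β ^ p` a norm from the
                 fixed field of `ker χ`, then `ψ` lies in the range of `symNu`
                 (`kummer_transferTriv`: the transfer of a Kummer character is the Kummer
                 character of the norm);
* `isSymbolic_norm` : the `norm` field of `IsSymbolic`, verbatim, from the Kummer description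
                 of the characters and "cup product zero implies norm".
-/
import Mathlib
import Fermat.Agent.S55.helper164_LevelSymbol
import Fermat.Agent.S55.helper3665_ProjFormula

set_option autoImplicit false

namespace Fermat.Agent.S55.helper3665

open Fermat.Agent.S55.helper164 Fermat.Agent.S55.helper164.LevelSys

section SymbolicNorm

variable {Γ : Type*} [Group Γ] {𝓛 : LevelSys Γ} {p : ℕ} [Fact p.Prime]

attribute [local instance] Subgroup.fintypeQuotientOfFiniteIndex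

/-- The kernel of a level character of `H`, as a subgroup of `H`. -/
def kerIn {H : Subgroup Γ} (χ : 𝓛.Chars p H) : Subgroup H := (kerSub χ).subgroupOf H

theorem mem_kerIn {H : Subgroup Γ} (χ : 𝓛.Chars p H) (g : H) : g ∈ kerIn χ ↔ χ.1 g = 0 := by
  unfold kerIn
  rw [Subgroup.mem_subgroupOf]
  exact coe_mem_kerSub χ g

/-- A nonzero character takes the value `1`. -/
theorem exists_char_eq_one {H : Subgroup Γ} (χ : 𝓛.Chars p H) (hχ : χ ≠ 0) :
    ∃ σ : H, χ.1 σ = 1 := by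
  have hex : ∃ τ : H, χ.1 τ ≠ 0 := by
    by_contra hcon
    exact hχ (char_ext (fun g => by
      by_contra hg
      exact hcon ⟨g, hg⟩))
  obtain ⟨τ, hτ⟩ := hex
  refine ⟨τ ^ ((χ.1 τ)⁻¹).val, ?_⟩
  rw [char_pow, ZMod.natCast_zmod_val, inv_mul_cancel₀ hτ]

/-- The kernel of a nonzero character has index `p`. -/
theorem kerIn_index {H : Subgroup Γ} (χ : 𝓛.Chars p H) (hχ : χ ≠ 0) : (kerIn χ).index = p := by
  obtain ⟨σ, hσ⟩ := exists_char_eq_one χ hχ
  let φ : H →* Multiplicative (ZMod p) :=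
    { toFun := fun g => Multiplicative.ofAdd (χ.1 g)
      map_one' := by rw [char_one χ]; rfl
      map_mul' := fun g h => by rw [char_mul χ]; rfl }
  have hker : kerIn χ = φ.ker := by
    ext g
    rw [mem_kerIn, MonoidHom.mem_ker]
    exact Iff.rfl
  have hsurj : Function.Surjective φ := by
    intro a
    refine ⟨σ ^ (Multiplicative.toAdd a).val, ?_⟩
    show Multiplicative.ofAdd (χ.1 (σ ^ (Multiplicative.toAdd a).val)) = a
    rw [char_pow, hσ, mul_one, ZMod.natCast_zmod_val]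
    rfl
  rw [hker, Subgroup.index_ker, MonoidHom.range_eq_top.2 hsurj, Subgroup.card_top]
  exact (Nat.card_congr Multiplicative.toAdd).trans (Nat.card_zmod p)

theorem kerIn_finiteIndex {H : Subgroup Γ} (χ : 𝓛.Chars p H) (hχ : χ ≠ 0) :
    (kerIn χ).FiniteIndex :=
  ⟨by rw [kerIn_index χ hχ]; exact (Fact.out : p.Prime).ne_zero⟩

/-- Transport of a function on `kerSub χ` (a subgroup of `Γ`) to `kerIn χ` (a subgroup of
`H`). -/
def toKerIn {H : Subgroup Γ} (χ : 𝓛.Chars p H) {X : Type*} (b : ↥(kerSub χ) → X) :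
    ↥(kerIn χ) → X :=
  fun n => b ⟨((n : H) : Γ), Subgroup.mem_subgroupOf.1 n.2⟩

theorem toKerIn_mul {H : Subgroup Γ} (χ : 𝓛.Chars p H) (β : 𝓛.Chars p (kerSub χ))
    (n n' : ↥(kerIn χ)) : toKerIn χ β.1 (n * n') = toKerIn χ β.1 n + toKerIn χ β.1 n' :=
  char_mul β ⟨((n : H) : Γ), Subgroup.mem_subgroupOf.1 n.2⟩
    ⟨((n' : H) : Γ), Subgroup.mem_subgroupOf.1 n'.2⟩

omit [Fact p.Prime] in
theorem toKerIn_level {H : Subgroup Γ} (χ : 𝓛.Chars p H) {X : Type*} (b : ↥(kerSub χ) → X)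
    (N₂ : Subgroup Γ) (hb : ∀ g s : ↥(kerSub χ), (s : Γ) ∈ N₂ → b (g * s) = b g)
    (n s : ↥(kerIn χ)) (hs : ((s : H) : Γ) ∈ N₂) : toKerIn χ b (n * s) = toKerIn χ b n :=
  hb ⟨((n : H) : Γ), Subgroup.mem_subgroupOf.1 n.2⟩
    ⟨((s : H) : Γ), Subgroup.mem_subgroupOf.1 s.2⟩ hs

/-- The transfer of a level character of `ker χ` is a level character of `H`. -/
theorem transferTriv_toKerIn_mem {H : Subgroup Γ} (hH : 𝓛.IsOpen H) (χ : 𝓛.Chars p H)
    [(kerIn χ).FiniteIndex] (β : 𝓛.Chars p (kerSub χ)) :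
    transferTriv (kerIn χ) (toKerIn χ β.1) ∈ 𝓛.Chars p H := by
  refine ⟨fun g h => transferTriv_mul (kerIn χ) _ (toKerIn_mul χ β) g h, ?_⟩
  · obtain ⟨N₂, hN₂, hβ⟩ := β.2.2
    obtain ⟨N₀, hN₀, hN₀n, hN₀K, hN₀N₂, -⟩ := (kerSub_isOpen hH χ).exists_normal_le hN₂ hN₂
    refine ⟨N₀, hN₀, fun g s hs => ?_⟩
    have := hN₀n.subgroupOf H
    exact transferTriv_mul_right (kerIn χ) (N₀.subgroupOf H)
      (fun x hx => Subgroup.mem_subgroupOf.2 (hN₀K (Subgroup.mem_subgroupOf.1 hx))) _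
      (fun n s' hs' => toKerIn_level χ β.1 N₂ hβ n s' (hN₀N₂ (Subgroup.mem_subgroupOf.1 hs'))) g
      (Subgroup.mem_subgroupOf.2 hs)

/-- **The norm map on level characters**: the transfer along `ker χ ≤ H`. -/
noncomputable def symNu {H : Subgroup Γ} (hH : 𝓛.IsOpen H) (χ : 𝓛.Chars p H)
    [(kerIn χ).FiniteIndex] : 𝓛.Chars p (kerSub χ) →ₗ[ZMod p] 𝓛.Chars p H where
  toFun β := ⟨transferTriv (kerIn χ) (toKerIn χ β.1), transferTriv_toKerIn_mem hH χ β⟩
  map_add' β β' := Subtype.ext (funext fun g =>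
    transferTriv_add (kerIn χ) (toKerIn χ β.1) (toKerIn χ β'.1) g)
  map_smul' c β := Subtype.ext (funext fun g =>
    transferTriv_smul (kerIn χ) c (toKerIn χ β.1) g)

theorem symNu_apply {H : Subgroup Γ} (hH : 𝓛.IsOpen H) (χ : 𝓛.Chars p H)
    [(kerIn χ).FiniteIndex] (β : 𝓛.Chars p (kerSub χ)) (g : H) :
    (symNu hH χ β).1 g = transferTriv (kerIn χ) (toKerIn χ β.1) g := rfl

/-- **Projection formula for `symNu`**: if the restriction of `α` to `ker χ` is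
`res x ∪ β`, then `x ∪ symNu β = 0` (because `p • α = 0`). -/
theorem symNu_pf {H : Subgroup Γ} (hH : 𝓛.IsOpen H) (χ : 𝓛.Chars p H) (hχ : χ ≠ 0)
    [(kerIn χ).FiniteIndex] (α : 𝓛.H2 p H) (x : 𝓛.Chars p H) (β : 𝓛.Chars p (kerSub χ))
    (h : 𝓛.resH2 p (kerSub_le χ) α
      = 𝓛.cup p (kerSub χ) (𝓛.resChar p (kerSub_le χ) x) β) :
    𝓛.cup p H x (symNu hH χ β) = 0 := by
  obtain ⟨f, hf, rfl⟩ := cls_surjective α
  rw [resH2_cls, cup_apply] at h
  obtain ⟨c, hcl, hc⟩ : ∃ c : ↥(kerSub χ) → ZMod p, 𝓛.Lev₁ (kerSub χ) c ∧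
      resFn₂ (kerSub_le χ) f - cupFn p (𝓛.resChar p (kerSub_le χ) x).1 β.1 = dTriv c :=
    (Submodule.Quotient.eq _).1 h
  rw [cup_apply, cls_eq_zero_iff]
  obtain ⟨hfc, N₁, hN₁, hfN₁⟩ := hf
  obtain ⟨N₂, hN₂, hβN₂⟩ := β.2.2
  obtain ⟨N₃, hN₃, hcN₃⟩ := hcl
  obtain ⟨N₄, hN₄, -, -, hN₄N₁, hN₄N₂⟩ := (kerSub_isOpen hH χ).exists_normal_le hN₁ hN₂
  obtain ⟨N, hN, hNn, hNK, hNN₄, hNN₃⟩ := (kerSub_isOpen hH χ).exists_normal_le hN₄ hN₃
  obtain ⟨v, hv, hvl⟩ := pf_triv (kerIn χ) x.1 (fun g h => char_mul x g h) f hfc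
    (toKerIn χ β.1) (toKerIn χ c) (toKerIn_mul χ β) (fun n n' => by
      have e : f ((n : H), (n' : H)) - x.1 (n : H) * toKerIn χ β.1 n'
          = toKerIn χ c n' - toKerIn χ c (n * n') + toKerIn χ c n :=
        congrFun hc (⟨((n : H) : Γ), Subgroup.mem_subgroupOf.1 n.2⟩,
          ⟨((n' : H) : Γ), Subgroup.mem_subgroupOf.1 n'.2⟩)
      linear_combination e)
  have hvN : ∀ g s : H, (s : Γ) ∈ N → v (g * s) = v g := by
    intro g s hs
    refine hvl (N.subgroupOf H) (hNn.subgroupOf H)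
      (fun x hx => Subgroup.mem_subgroupOf.2 (hNK (Subgroup.mem_subgroupOf.1 hx))) ?_ ?_ ?_ g s
      (Subgroup.mem_subgroupOf.2 hs)
    · intro g g' s s' hs hs'
      exact hfN₁ g g' s s' (hN₄N₁ (hNN₄ (Subgroup.mem_subgroupOf.1 hs)))
        (hN₄N₁ (hNN₄ (Subgroup.mem_subgroupOf.1 hs')))
    · intro n s hs
      exact toKerIn_level χ β.1 N₂ hβN₂ n s (hN₄N₂ (hNN₄ (Subgroup.mem_subgroupOf.1 hs)))
    · intro n s hs
      exact toKerIn_level χ c N₃ hcN₃ n s (hNN₃ (Subgroup.mem_subgroupOf.1 hs))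
  refine ⟨fun g => - v g, ⟨N, hN, fun g s hs => ?_⟩, ?_⟩
  · show - v (g * s) = - v g
    rw [hvN g s hs]
  · funext q
    obtain ⟨g, g'⟩ := q
    have h1 := hv g g'
    rw [kerIn_index χ hχ, nsmul_eq_mul, CharP.cast_eq_zero, zero_mul] at h1
    show x.1 g * transferTriv (kerIn χ) (toKerIn χ β.1) g' = - v g' - - v (g * g') + - v g
    linear_combination - h1

/-- The product over the chosen transversal of `H ⧸ ker χ` of the conjugates of a
`ker χ`-invariant element is the product over the powers of any `σ` with `χ σ = 1`. -/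
theorem cosetProd_kerIn {H : Subgroup Γ} (χ : 𝓛.Chars p H) [(kerIn χ).FiniteIndex]
    {M : Type*} [CommGroup M] [MulDistribMulAction H M] (σ : H) (hσ : χ.1 σ = 1) (y : M)
    (hy : ∀ n ∈ kerIn χ, n • y = y) :
    cosetProd (kerIn χ) y = ∏ m ∈ Finset.range p, σ ^ m • y := by
  have hrep : ∀ g : H, cosetRep (kerIn χ) (QuotientGroup.mk g) • y = g • y := by
    intro g
    have h1 : g⁻¹ * cosetRep (kerIn χ) (QuotientGroup.mk g) ∈ kerIn χ :=
      QuotientGroup.eq.1 (mk_cosetRep (kerIn χ) (QuotientGroup.mk g)).symm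
    calc cosetRep (kerIn χ) (QuotientGroup.mk g) • y
        = g • (g⁻¹ * cosetRep (kerIn χ) (QuotientGroup.mk g)) • y := by
          rw [smul_smul, mul_inv_cancel_left]
      _ = g • y := by rw [hy _ h1]
  unfold cosetProd
  symm
  refine Finset.prod_bij (fun m _ => (QuotientGroup.mk (σ ^ m) : H ⧸ kerIn χ))
    (fun _ _ => Finset.mem_univ _) ?_ ?_ ?_
  · intro m hm m' hm' h
    have h1 : (σ ^ m)⁻¹ * σ ^ m' ∈ kerIn χ := QuotientGroup.eq.1 h
    rw [mem_kerIn, char_mul, char_inv, char_pow, char_pow, hσ, mul_one, mul_one] at h1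
    have h2 : (m : ZMod p) = (m' : ZMod p) := by linear_combination - h1
    have h3 := (ZMod.natCast_eq_natCast_iff' m m' p).1 h2
    rwa [Nat.mod_eq_of_lt (Finset.mem_range.1 hm), Nat.mod_eq_of_lt (Finset.mem_range.1 hm')]
      at h3
  · intro q _
    refine ⟨(χ.1 (cosetRep (kerIn χ) q)).val, Finset.mem_range.2 (ZMod.val_lt _), ?_⟩
    refine (QuotientGroup.eq.2 ?_).trans (mk_cosetRep (kerIn χ) q)
    rw [mem_kerIn, char_mul, char_inv, char_pow, hσ, mul_one, ZMod.natCast_zmod_val,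
      neg_add_cancel]
  · intro m _
    exact (hrep (σ ^ m)).symm

end SymbolicNorm

/-! ### The field part: Kummer characters -/

section Field

variable {Γ : Type*} [Group Γ] {𝓛 : LevelSys Γ} {p : ℕ} [Fact p.Prime]
variable {Ω : Type*} [Field Ω] [MulSemiringAction Γ Ω]

attribute [local instance] Subgroup.fintypeQuotientOfFiniteIndex

omit [MulSemiringAction Γ Ω] in
theorem zeta_pow_val_inj {ζ : Ω} (hζ : IsPrimitiveRoot ζ p) {a b : ZMod p}
    (h : ζ ^ a.val = ζ ^ b.val) : a = b :=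
  ZMod.val_injective p (hζ.pow_inj (ZMod.val_lt a) (ZMod.val_lt b) h)

omit [MulSemiringAction Γ Ω] in
theorem zeta_pow_val_add {ζ : Ω} (hζ : ζ ^ p = 1) (a b : ZMod p) :
    ζ ^ (a + b).val = ζ ^ a.val * ζ ^ b.val := by
  rw [ZMod.val_add, ← pow_add]
  exact (pow_eq_pow_mod _ hζ).symm

/-- Kummer exponent: if `k` fixes `η ^ p` then `k • η = ζ ^ j * η` for a unique `j : ZMod p`. -/
theorem exists_kummer_exp {ζ : Ω} (hζ : IsPrimitiveRoot ζ p) (k : Γ) (η : Ω) (hη0 : η ≠ 0)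
    (hk : k • η ^ p = η ^ p) : ∃ j : ZMod p, k • η = ζ ^ j.val * η := by
  have h1 : (k • η / η) ^ p = 1 := by
    rw [div_pow, ← smul_pow', hk, div_self (pow_ne_zero p hη0)]
  obtain ⟨i, hi, hi'⟩ := hζ.eq_pow_of_pow_eq_one h1
  refine ⟨(i : ZMod p), ?_⟩
  rw [ZMod.val_natCast_of_lt hi, hi', div_mul_cancel₀ _ hη0]

/-- **Norms are transfers.**  If `ψ` is the Kummer character of `β` on `H` and `β ^ p` is the
norm of a `ker χ`-invariant element `y`, then `ψ = symNu b` for the Kummer character `b` of a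
`p`-th root of `y` on `ker χ`. -/
theorem symNu_surj (hsm : ∀ x : Ω, ∃ N, 𝓛.P N ∧ ∀ s ∈ N, s • x = x)
    (hroot : ∀ x : Ω, ∃ y : Ω, y ^ p = x)
    {H : Subgroup Γ} (hH : 𝓛.IsOpen H) (ζ : Ω) (hζ : IsPrimitiveRoot ζ p)
    (hζH : ∀ h ∈ H, h • ζ = ζ)
    (χ : 𝓛.Chars p H) (hχ : χ ≠ 0) [(kerIn χ).FiniteIndex]
    (ψ : 𝓛.Chars p H) (β : Ω) (hβ0 : β ≠ 0)
    (hβ : ∀ h : H, (h : Γ) • β = ζ ^ (ψ.1 h).val * β)
    (y : Ω) (hy0 : y ≠ 0) (hyK : ∀ h ∈ kerSub χ, h • y = y)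
    (hyN : ∀ σ : H, χ.1 σ = 1 → ∏ m ∈ Finset.range p, (σ : Γ) ^ m • y = β ^ p) :
    ∃ b : 𝓛.Chars p (kerSub χ), symNu hH χ b = ψ := by
  have hζp : ζ ^ p = 1 := hζ.pow_eq_one
  have hζ0 : ζ ≠ 0 := hζ.ne_zero (Fact.out : p.Prime).ne_zero
  obtain ⟨η, hη⟩ := hroot y
  have hη0 : η ≠ 0 := by
    rintro rfl
    rw [zero_pow (Fact.out : p.Prime).ne_zero] at hη
    exact hy0 hη.symm
  have hex : ∀ k : ↥(kerSub χ), ∃ j : ZMod p, (k : Γ) • η = ζ ^ j.val * η := fun k =>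
    exists_kummer_exp hζ (k : Γ) η hη0 (by rw [hη]; exact hyK _ k.2)
  choose ψy hψy using hex
  have hζK : ∀ k : ↥(kerSub χ), (k : Γ) • ζ = ζ := fun k => hζH _ (kerSub_le χ k.2)
  have hadd : ∀ k k' : ↥(kerSub χ), ψy (k * k') = ψy k + ψy k' := by
    intro k k'
    apply zeta_pow_val_inj hζ
    rw [zeta_pow_val_add hζp]
    have h1 := hψy (k * k')
    rw [Subgroup.coe_mul, mul_smul, hψy k', smul_mul', smul_pow', hζK k, hψy k] at h1
    have h2 : ζ ^ (ψy (k * k')).val * η = (ζ ^ (ψy k).val * ζ ^ (ψy k').val) * η := by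
      rw [← h1]; ring
    exact mul_right_cancel₀ hη0 h2
  obtain ⟨N₀, hN₀, hN₀η⟩ := hsm η
  have hlev : ∀ k s : ↥(kerSub χ), (s : Γ) ∈ N₀ → ψy (k * s) = ψy k := by
    intro k s hs
    apply zeta_pow_val_inj hζ
    have h1 := hψy (k * s)
    rw [Subgroup.coe_mul, mul_smul, hN₀η _ hs, hψy k] at h1
    exact (mul_right_cancel₀ hη0 h1).symm
  refine ⟨⟨ψy, hadd, N₀, hN₀, hlev⟩, char_ext fun g => ?_⟩
  rw [symNu_apply]
  show transferTriv (kerIn χ) (toKerIn χ ψy) g = ψ.1 g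
  -- pass to units
  let _ : MulDistribMulAction H Ωˣ := Units.mulDistribMulActionRight
  obtain ⟨σ, hσ⟩ := exists_char_eq_one χ hχ
  let ζu : Ωˣ := Units.mk0 ζ hζ0
  let ηu : Ωˣ := Units.mk0 η hη0
  let βu : Ωˣ := Units.mk0 β hβ0
  have hζu : ∀ g : H, g • ζu = ζu := fun g => Units.ext (hζH _ g.2)
  have hζup : ζu ^ p = 1 := Units.ext (by rw [Units.val_pow_eq_pow_val]; exact hζp)
  have hK := kummer_transferTriv (kerIn χ) ζu ηu hζup hζu (toKerIn χ ψy) (fun n => by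
      rw [div_eq_iff_eq_mul]
      apply Units.ext
      rw [Units.val_mul, Units.val_pow_eq_pow_val]
      exact hψy ⟨((n : H) : Γ), Subgroup.mem_subgroupOf.1 n.2⟩) g
  have hθ : cosetProd (kerIn χ) ηu ^ p = βu ^ p := by
    rw [cosetProd_pow, cosetProd_kerIn χ σ hσ]
    · apply Units.ext
      rw [Units.coe_prod, Units.val_pow_eq_pow_val]
      refine Eq.trans (Finset.prod_congr rfl fun m _ => ?_) (hyN σ hσ)
      show ((σ ^ m : H) : Γ) • (ηu ^ p : Ωˣ).val = (σ : Γ) ^ m • y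
      rw [Units.val_pow_eq_pow_val, Subgroup.coe_pow]
      exact congrArg _ hη
    · intro n hn
      apply Units.ext
      show ((n : H) : Γ) • (ηu ^ p : Ωˣ).val = (ηu ^ p : Ωˣ).val
      rw [Units.val_pow_eq_pow_val]
      show ((n : H) : Γ) • η ^ p = η ^ p
      rw [hη]
      exact hyK _ (Subgroup.mem_subgroupOf.1 hn)
  have h1 : ((cosetProd (kerIn χ) ηu / βu : Ωˣ) : Ω) ^ p = 1 := by
    rw [← Units.val_pow_eq_pow_val, div_pow, hθ, div_self']
    rfl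
  obtain ⟨i, -, hi⟩ := hζ.eq_pow_of_pow_eq_one h1
  have hθ' : cosetProd (kerIn χ) ηu = ζu ^ i * βu := by
    have : ζu ^ i = cosetProd (kerIn χ) ηu / βu :=
      Units.ext (by rw [Units.val_pow_eq_pow_val]; exact hi)
    rw [this, div_mul_cancel]
  have hβu : g • βu = ζu ^ (ψ.1 g).val * βu :=
    Units.ext (by rw [Units.val_mul, Units.val_pow_eq_pow_val]; exact hβ g)
  rw [hθ', smul_mul', smul_pow', hζu g, mul_div_mul_left_eq_div, hβu, mul_div_cancel_right] at hK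
  apply zeta_pow_val_inj hζ
  have := congrArg Units.val hK
  rw [Units.val_pow_eq_pow_val, Units.val_pow_eq_pow_val] at this
  exact this.symm

/-- **The `norm` field of `helper164.LevelSys.IsSymbolic`** for one open subgroup `H` fixing a
primitive `p`-th root of unity `ζ` and one nonzero level character `χ` of `H`, from

* `hKum` : every level character of `H` is a Kummer character;
* `hNC`  : if `χ ∪ ψ = 0` and `ψ` is the Kummer character of `β`, then `β ^ p` is the norm of a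
           nonzero `ker χ`-invariant element (norm = product over the powers of any `σ` with
           `χ σ = 1`). -/
theorem isSymbolic_norm (𝓛 : LevelSys Γ) (p : ℕ) [Fact p.Prime]
    {Ω : Type*} [Field Ω] [MulSemiringAction Γ Ω]
    (hsm : ∀ x : Ω, ∃ N, 𝓛.P N ∧ ∀ s ∈ N, s • x = x)
    (hroot : ∀ x : Ω, ∃ y : Ω, y ^ p = x)
    (H : Subgroup Γ) (hH : 𝓛.IsOpen H) (ζ : Ω) (hζ : IsPrimitiveRoot ζ p)
    (hζH : ∀ h ∈ H, h • ζ = ζ) (χ : 𝓛.Chars p H) (hχ : χ ≠ 0)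
    (hKum : ∀ ψ : 𝓛.Chars p H, ∃ β : Ω, β ≠ 0 ∧
      ∀ h : H, (h : Γ) • β = ζ ^ (ψ.1 h).val * β)
    (hNC : ∀ (ψ : 𝓛.Chars p H) (β : Ω), β ≠ 0 →
      (∀ h : H, (h : Γ) • β = ζ ^ (ψ.1 h).val * β) → 𝓛.cup p H χ ψ = 0 →
      ∃ y : Ω, y ≠ 0 ∧ (∀ h ∈ kerSub χ, h • y = y) ∧
        ∀ σ : H, χ.1 σ = 1 → ∏ m ∈ Finset.range p, (σ : Γ) ^ m • y = β ^ p) :
    ∃ nu : 𝓛.Chars p (kerSub χ) →ₗ[ZMod p] 𝓛.Chars p H,
      (∀ ψ, 𝓛.cup p H χ ψ = 0 → ∃ β, nu β = ψ) ∧
      ∀ (α : 𝓛.H2 p H) (x : 𝓛.Chars p H) (β : 𝓛.Chars p (kerSub χ)),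
        𝓛.resH2 p (kerSub_le χ) α = 𝓛.cup p (kerSub χ) (𝓛.resChar p (kerSub_le χ) x) β →
          𝓛.cup p H x (nu β) = 0 := by
  have := kerIn_finiteIndex χ hχ
  refine ⟨symNu hH χ, fun ψ hψ => ?_, fun α x β h => symNu_pf hH χ hχ α x β h⟩
  obtain ⟨β, hβ0, hβ⟩ := hKum ψ
  obtain ⟨y, hy0, hyK, hyN⟩ := hNC ψ β hβ0 hβ hψ
  exact symNu_surj hsm hroot hH ζ hζ hζH χ hχ ψ β hβ0 hβ y hy0 hyK hyN

end Field

end Fermat.Agent.S55.helper3665
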