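/-
S55 moonshot, leaf S55-COR2 (board #1146), seat helper4848.  Mathlib only.

Explicit corestriction (transfer) in degrees 1 and 2 on inhomogeneous cochains, built from a
transversal of a finite-index subgroup `H ≤ G` (a section `t : G ⧸ H → G`, `ht : ∀ q, ↑(t q) = q`).

Notation: `hq t ht g q : H` is `(t q)⁻¹ * g * t (g⁻¹ • q)`;
`cor₁ t ht η g = ∑ q, t q • η (hq g q)`,
`cor₂ t ht c (g₁, g₂) = ∑ q, t q • c (hq g₁ q, hq g₂ (g₁⁻¹ • q))`,
`dOne x (g, h) = g • x h - x (g * h) + x g`, `cup β a b (g, h) = β (a g) (g • b h)`.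

Main results (cocycle/coboundary predicates are Mathlib's `groupCohomology.IsCocycle₁` etc.):
* (T1) `cor₂_dOne : cor₂ (dOne η) = dOne (cor₁ η)`;
  `cor₁_coboundary : cor₁ (fun h => h • x - x) = fun g => g • X - X` with `X = ∑ q, t q • x`
  (Kummer cocycles go to Kummer cocycles of the "norm" `X`).
* (T2) `isCocycle₁_cor₁`, `isCocycle₂_cor₂`, `isCoboundary₂_cor₂`.
* (T3) `cor₁_res`, `cor₂_res : cor₂ (c|H) = [G:H] • c + dOne (resPrim t c)`,
  `isCoboundary₂_card_smul_of_res`.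
* (T4) projection formulas with explicit primitives:
  `cor₂_cup_res_left : cor₂ (cup β (a|H) η) = cup β a (cor₁ η) + dOne (projPrimLeft ..)`,
  `cor₂_cup_res_right : cor₂ (cup β η (a|H)) = cup β (cor₁ η) a - dOne (projPrimRight ..)`.
* (T5) level clauses `cor₁_level`, `cor₂_level`, `resPrim_level`, `projPrimLeft_level`,
  `projPrimRight_level`: right-invariance under a normal subgroup `U ≤ H` of `G` is preserved.
* (T6) `prod_transversal_eq_norm`: for `K₁ : IntermediateField K Ω` (finite separable, `Ω`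
  algebraically closed and normal over `K`), `∏ q, t q y = algebraMap K Ω (Algebra.norm K y)`
  over any transversal of `K₁.fixingSubgroup`; `quotEquivEmb` is the underlying bijection between
  cosets and embeddings.
-/
import Mathlib

set_option autoImplicit false

namespace Fermat.Agent.S55.helper4848

open groupCohomology

section Basic

variable {G : Type*} [Group G] {H : Subgroup G}
variable (t : G ⧸ H → G) (ht : ∀ q, (t q : G ⧸ H) = q)

include ht in
theorem hq_mem (g : G) (q : G ⧸ H) : (t q)⁻¹ * g * t (g⁻¹ • q) ∈ H := by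
  rw [mul_assoc, ← QuotientGroup.eq, ht]
  have h : ((g * t (g⁻¹ • q) : G) : G ⧸ H) = g • ((t (g⁻¹ • q) : G) : G ⧸ H) := rfl
  rw [h, ht, smul_inv_smul]

/-- The element `h_q(g) = t_q⁻¹ g t_{g⁻¹ q}` of `H`. -/
def hq (g : G) (q : G ⧸ H) : H := ⟨(t q)⁻¹ * g * t (g⁻¹ • q), hq_mem t ht g q⟩

@[simp] theorem coe_hq (g : G) (q : G ⧸ H) :
    (hq t ht g q : G) = (t q)⁻¹ * g * t (g⁻¹ • q) := rfl

theorem hq_mul (g₁ g₂ : G) (q : G ⧸ H) :
    hq t ht (g₁ * g₂) q = hq t ht g₁ q * hq t ht g₂ (g₁⁻¹ • q) := by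
  apply Subtype.ext
  simp only [coe_hq, Subgroup.coe_mul, mul_inv_rev, mul_smul]
  group

theorem t_mul_hq (g : G) (q : G ⧸ H) : t q * (hq t ht g q : G) = g * t (g⁻¹ • q) := by
  simp only [coe_hq]; group

end Basic

section Cochains

variable {G : Type*} [Group G] {A : Type*} [AddCommGroup A] [DistribMulAction G A]

/-- The differential on inhomogeneous `1`-cochains: `(d x)(g, h) = g • x h - x (g h) + x g`. -/
def dOne (x : G → A) : G × G → A := fun p => p.1 • x p.2 - x (p.1 * p.2) + x p.1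

@[simp] theorem dOne_apply (x : G → A) (g h : G) : dOne x (g, h) = g • x h - x (g * h) + x g := rfl

theorem isCoboundary₂_iff_exists_dOne (f : G × G → A) :
    IsCoboundary₂ f ↔ ∃ x : G → A, f = dOne x := by
  constructor
  · rintro ⟨x, hx⟩
    exact ⟨x, funext fun ⟨g, h⟩ => (hx g h).symm⟩
  · rintro ⟨x, rfl⟩
    exact ⟨x, fun g h => rfl⟩

theorem isCoboundary₂_dOne (x : G → A) : IsCoboundary₂ (dOne x) :=
  (isCoboundary₂_iff_exists_dOne _).2 ⟨x, rfl⟩

theorem isCocycle₂_dOne (x : G → A) : IsCocycle₂ (dOne x) := by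
  intro g h j
  simp only [dOne_apply, smul_add, smul_sub, mul_smul, mul_assoc]
  abel

end Cochains

section Cor

variable {G : Type*} [Group G] {H : Subgroup G} [Fintype (G ⧸ H)]
variable (t : G ⧸ H → G) (ht : ∀ q, (t q : G ⧸ H) = q)
variable {A : Type*} [AddCommGroup A] [DistribMulAction G A]

/-- Corestriction of a `1`-cochain on `H`. -/
def cor₁ (η : H → A) : G → A := fun g => ∑ q : G ⧸ H, t q • η (hq t ht g q)

/-- Corestriction of a `2`-cochain on `H`. -/
def cor₂ (c : H × H → A) : G × G → A :=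
  fun p => ∑ q : G ⧸ H, t q • c (hq t ht p.1 q, hq t ht p.2 (p.1⁻¹ • q))

theorem cor₁_apply (η : H → A) (g : G) : cor₁ t ht η g = ∑ q : G ⧸ H, t q • η (hq t ht g q) := rfl

theorem cor₂_apply (c : H × H → A) (g₁ g₂ : G) :
    cor₂ t ht c (g₁, g₂) = ∑ q : G ⧸ H, t q • c (hq t ht g₁ q, hq t ht g₂ (g₁⁻¹ • q)) := rfl

/-- Reindexing a sum over `G ⧸ H` by translation. -/
theorem sum_smul_quot {M : Type*} [AddCommMonoid M] (g : G) (F : G ⧸ H → M) :
    ∑ q : G ⧸ H, F (g • q) = ∑ q : G ⧸ H, F q :=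
  Equiv.sum_comp (MulAction.toPerm g) F

omit [Fintype (G ⧸ H)] in
theorem t_smul_hq_smul (g : G) (q : G ⧸ H) (x : A) :
    t q • (hq t ht g q • x) = g • (t (g⁻¹ • q) • x) := by
  rw [Subgroup.smul_def, ← mul_smul, t_mul_hq, mul_smul]

/-- **(T1)** corestriction commutes with the differential. -/
theorem cor₂_dOne (η : H → A) : cor₂ t ht (dOne η) = dOne (cor₁ t ht η) := by
  funext ⟨g₁, g₂⟩
  simp only [cor₂_apply, dOne_apply, cor₁_apply]
  rw [Finset.smul_sum, ← sum_smul_quot (g₁⁻¹ : G) (fun q => g₁ • t q • η (hq t ht g₂ q)),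
    ← Finset.sum_sub_distrib, ← Finset.sum_add_distrib]
  refine Finset.sum_congr rfl fun q _ => ?_
  rw [smul_add, smul_sub, hq_mul, t_smul_hq_smul]

/-- **(T1')** corestriction of a `1`-coboundary is the coboundary of the sum of conjugates
(Kummer–norm compatibility). -/
theorem cor₁_coboundary (x : A) :
    cor₁ t ht (fun h : H => h • x - x) = fun g => g • (∑ q : G ⧸ H, t q • x) - ∑ q : G ⧸ H, t q • x := by
  funext g
  simp only [cor₁_apply]
  rw [Finset.smul_sum, ← sum_smul_quot (g⁻¹ : G) (fun q => g • t q • x), ← Finset.sum_sub_distrib]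
  refine Finset.sum_congr rfl fun q _ => ?_
  rw [smul_sub, t_smul_hq_smul]

/-- **(T2)** corestriction preserves `1`-cocycles. -/
theorem isCocycle₁_cor₁ {η : H → A} (hη : IsCocycle₁ η) : IsCocycle₁ (cor₁ t ht η) := by
  intro g₁ g₂
  simp only [cor₁_apply]
  rw [Finset.smul_sum, ← sum_smul_quot (g₁⁻¹ : G) (fun q => g₁ • t q • η (hq t ht g₂ q)),
    ← Finset.sum_add_distrib]
  refine Finset.sum_congr rfl fun q _ => ?_
  rw [hq_mul, hη, smul_add, t_smul_hq_smul]

/-- **(T2)** corestriction preserves `2`-cocycles. -/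
theorem isCocycle₂_cor₂ {c : H × H → A} (hc : IsCocycle₂ c) : IsCocycle₂ (cor₂ t ht c) := by
  intro g₁ g₂ g₃
  simp only [cor₂_apply]
  rw [Finset.smul_sum,
    ← sum_smul_quot (g₁⁻¹ : G) (fun q => g₁ • t q • c (hq t ht g₂ q, hq t ht g₃ (g₂⁻¹ • q))),
    ← Finset.sum_add_distrib, ← Finset.sum_add_distrib]
  refine Finset.sum_congr rfl fun q _ => ?_
  rw [hq_mul, hq_mul, mul_inv_rev, mul_smul, ← smul_add, hc, smul_add, t_smul_hq_smul]

/-- **(T2)** corestriction preserves `2`-coboundaries. -/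
theorem isCoboundary₂_cor₂ {c : H × H → A} (hc : IsCoboundary₂ c) :
    IsCoboundary₂ (cor₂ t ht c) := by
  obtain ⟨x, rfl⟩ := (isCoboundary₂_iff_exists_dOne c).1 hc
  rw [cor₂_dOne]
  exact isCoboundary₂_dOne _

/-! ### (T3) `cor ∘ res = index` up to explicit coboundaries -/

/-- **(T3), degree 1**: for a `1`-cocycle `a` on `G`,
`cor (a|H) g = [G:H] • a g + (g • m - m)` with `m = ∑ q, a (t q)`. -/
theorem cor₁_res {a : G → A} (ha : IsCocycle₁ a) (g : G) :
    cor₁ t ht (fun h : H => a h) g =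
      Fintype.card (G ⧸ H) • a g + (g • (∑ q : G ⧸ H, a (t q)) - ∑ q : G ⧸ H, a (t q)) := by
  simp only [cor₁_apply]
  rw [Finset.smul_sum, ← sum_smul_quot (g⁻¹ : G) (fun q => g • a (t q)), ← Finset.sum_sub_distrib,
    ← Finset.card_univ, ← Finset.sum_const, ← Finset.sum_add_distrib]
  refine Finset.sum_congr rfl fun q _ => ?_
  have h1 := ha (t q) (hq t ht g q)
  rw [t_mul_hq, ha g] at h1
  rw [eq_comm, ← sub_eq_iff_eq_add] at h1
  rw [← h1]
  abel

/-- The primitive in `cor₂_res`. -/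
def resPrim (c : G × G → A) : G → A := fun g =>
  ∑ q : G ⧸ H, (c (t q, (t q)⁻¹ * g * t (g⁻¹ • q)) - c (g, t (g⁻¹ • q)))

/-- **(T3), degree 2**: for a `2`-cocycle `c` on `G`,
`cor (c|H×H) = [G:H] • c + d ψ` with the explicit primitive `ψ = resPrim t c`. -/
theorem cor₂_res {c : G × G → A} (hc : IsCocycle₂ c) :
    cor₂ t ht (fun p : H × H => c ((p.1 : G), (p.2 : G))) =
      Fintype.card (G ⧸ H) • c + dOne (resPrim t c) := by
  funext ⟨g₁, g₂⟩
  simp only [cor₂_apply, Pi.add_apply, Pi.smul_apply, dOne_apply, resPrim, coe_hq]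
  rw [Finset.smul_sum,
    ← sum_smul_quot (g₁⁻¹ : G)
      (fun q => g₁ • (c (t q, (t q)⁻¹ * g₂ * t (g₂⁻¹ • q)) - c (g₂, t (g₂⁻¹ • q)))),
    ← Finset.sum_sub_distrib, ← Finset.sum_add_distrib, ← Finset.card_univ, ← Finset.sum_const,
    ← Finset.sum_add_distrib]
  refine Finset.sum_congr rfl fun q _ => ?_
  simp only [mul_inv_rev, mul_smul]
  set a := t q
  set b := t (g₁⁻¹ • q)
  set e := t (g₂⁻¹ • g₁⁻¹ • q)
  have h1 := hc a (a⁻¹ * g₁ * b) (b⁻¹ * g₂ * e)
  have h2 := hc g₁ b (b⁻¹ * g₂ * e)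
  have h3 := hc g₁ g₂ e
  rw [show a * (a⁻¹ * g₁ * b) = g₁ * b by group,
    show a⁻¹ * g₁ * b * (b⁻¹ * g₂ * e) = a⁻¹ * (g₁ * g₂) * e by group] at h1
  rw [show b * (b⁻¹ * g₂ * e) = g₂ * e by group] at h2
  rw [smul_sub]
  have h1' := sub_eq_zero.2 h1
  have h2' := sub_eq_zero.2 h2
  have h3' := sub_eq_zero.2 h3
  rw [← sub_eq_zero]
  have key : a • c (a⁻¹ * g₁ * b, b⁻¹ * g₂ * e) -
      (c (g₁, g₂) + (g₁ • c (b, b⁻¹ * g₂ * e) - g₁ • c (g₂, e) -
        (c (a, a⁻¹ * (g₁ * g₂) * e) - c (g₁ * g₂, e)) + (c (a, a⁻¹ * g₁ * b) - c (g₁, b)))) =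
      -(c (g₁ * b, b⁻¹ * g₂ * e) + c (a, a⁻¹ * g₁ * b) -
          (a • c (a⁻¹ * g₁ * b, b⁻¹ * g₂ * e) + c (a, a⁻¹ * (g₁ * g₂) * e))) +
        (c (g₁ * b, b⁻¹ * g₂ * e) + c (g₁, b) - (g₁ • c (b, b⁻¹ * g₂ * e) + c (g₁, g₂ * e))) -
        (c (g₁ * g₂, e) + c (g₁, g₂) - (g₁ • c (g₂, e) + c (g₁, g₂ * e))) := by
    abel
  rw [key, h1', h2', h3']
  simp

include t ht in
/-- **(T3)**: if the restriction of a `2`-cocycle to `H` is a coboundary, then `[G:H] • c` is a
coboundary. -/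
theorem isCoboundary₂_card_smul_of_res {c : G × G → A} (hc : IsCocycle₂ c)
    (hres : IsCoboundary₂ (fun p : H × H => c ((p.1 : G), (p.2 : G)))) :
    IsCoboundary₂ (Fintype.card (G ⧸ H) • c) := by
  obtain ⟨y, hy⟩ := (isCoboundary₂_iff_exists_dOne _).1 (isCoboundary₂_cor₂ t ht hres)
  rw [cor₂_res t ht hc] at hy
  refine (isCoboundary₂_iff_exists_dOne _).2 ⟨y - resPrim t c, ?_⟩
  have : Fintype.card (G ⧸ H) • c = dOne y - dOne (resPrim t c) := by
    rw [← hy]; abel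
  rw [this]
  funext ⟨g, h⟩
  simp only [Pi.sub_apply, dOne_apply, smul_sub]
  abel

end Cor

section Cup

variable {G : Type*} [Group G] {A B C : Type*} [AddCommGroup A] [AddCommGroup B] [AddCommGroup C]
  [DistribMulAction G B]

/-- Cup product of inhomogeneous `1`-cochains along a biadditive pairing:
`(a ∪ b)(g, h) = β (a g) (g • b h)`. -/
def cup (β : A →+ B →+ C) (a : G → A) (b : G → B) : G × G → C :=
  fun p => β (a p.1) (p.1 • b p.2)

@[simp] theorem cup_apply (β : A →+ B →+ C) (a : G → A) (b : G → B) (g h : G) :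
    cup β a b (g, h) = β (a g) (g • b h) := rfl

variable [DistribMulAction G A] [DistribMulAction G C]

/-- The cup product of two `1`-cocycles is a `2`-cocycle. -/
theorem isCocycle₂_cup (β : A →+ B →+ C) (hβ : ∀ (g : G) (a : A) (b : B), β (g • a) (g • b) = g • β a b)
    {a : G → A} (ha : IsCocycle₁ a) {b : G → B} (hb : IsCocycle₁ b) : IsCocycle₂ (cup β a b) := by
  intro g h j
  simp only [cup_apply]
  rw [ha g h, hb h j, ← hβ, smul_add, mul_smul]
  simp only [map_add, AddMonoidHom.add_apply]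
  abel

end Cup

section Projection

variable {G : Type*} [Group G] {H : Subgroup G} [Fintype (G ⧸ H)]
variable (t : G ⧸ H → G) (ht : ∀ q, (t q : G ⧸ H) = q)
variable {A B C : Type*} [AddCommGroup A] [AddCommGroup B] [AddCommGroup C]
  [DistribMulAction G A] [DistribMulAction G B] [DistribMulAction G C]

omit [Fintype (G ⧸ H)] in
/-- For a `1`-cocycle `a` on `G`: `t_q • a (h_q(g)) = g • a (t_{g⁻¹q}) + a g - a (t_q)`. -/
theorem t_smul_cocycle_hq {a : G → A} (ha : IsCocycle₁ a) (g : G) (q : G ⧸ H) :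
    t q • a (hq t ht g q : G) = g • a (t (g⁻¹ • q)) + a g - a (t q) := by
  have h1 := ha (t q) (hq t ht g q)
  rw [t_mul_hq, ha g] at h1
  rw [h1]
  abel

/-- The primitive in the projection formula `cor₂_cup_res_left`. -/
def projPrimLeft (β : A →+ B →+ C) (a : G → A) (η : H → B) : G → C :=
  fun g => ∑ q : G ⧸ H, β (a (t q)) (t q • η (hq t ht g q))

/-- **(T4) Projection formula**, restricted class on the left:
`cor ((a|H) ∪ η) = a ∪ cor η + d ψ` with the explicit primitive `ψ = projPrimLeft`. -/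
theorem cor₂_cup_res_left (β : A →+ B →+ C)
    (hβ : ∀ (g : G) (a : A) (b : B), β (g • a) (g • b) = g • β a b)
    {a : G → A} (ha : IsCocycle₁ a) {η : H → B} (hη : IsCocycle₁ η) :
    cor₂ t ht (cup β (fun h : H => a h) η) =
      cup β a (cor₁ t ht η) + dOne (projPrimLeft t ht β a η) := by
  funext ⟨g₁, g₂⟩
  simp only [cor₂_apply, cup_apply, Pi.add_apply, dOne_apply, cor₁_apply, projPrimLeft]
  rw [Finset.smul_sum, map_sum,
    ← sum_smul_quot (g₁⁻¹ : G) (fun q => (β (a g₁)) (g₁ • t q • η (hq t ht g₂ q))),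
    Finset.smul_sum,
    ← sum_smul_quot (g₁⁻¹ : G) (fun q => g₁ • (β (a (t q))) (t q • η (hq t ht g₂ q))),
    ← Finset.sum_sub_distrib, ← Finset.sum_add_distrib, ← Finset.sum_add_distrib]
  refine Finset.sum_congr rfl fun q _ => ?_
  rw [← hβ, t_smul_hq_smul, t_smul_cocycle_hq t ht ha, ← hβ, hq_mul, hη, smul_add, t_smul_hq_smul]
  simp only [map_add, map_sub, AddMonoidHom.add_apply, AddMonoidHom.sub_apply]
  abel

/-- The primitive in the projection formula `cor₂_cup_res_right`. -/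
def projPrimRight (β : B →+ A →+ C) (η : H → B) (a : G → A) : G → C :=
  fun g => ∑ q : G ⧸ H, β (t q • η (hq t ht g q)) (g • a (t (g⁻¹ • q)))

/-- **(T4) Projection formula**, restricted class on the right:
`cor (η ∪ (a|H)) = cor η ∪ a - d φ` with the explicit primitive `φ = projPrimRight`. -/
theorem cor₂_cup_res_right (β : B →+ A →+ C)
    (hβ : ∀ (g : G) (b : B) (a : A), β (g • b) (g • a) = g • β b a)
    {a : G → A} (ha : IsCocycle₁ a) {η : H → B} (hη : IsCocycle₁ η) :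
    cor₂ t ht (cup β η (fun h : H => a h)) =
      cup β (cor₁ t ht η) a - dOne (projPrimRight t ht β η a) := by
  funext ⟨g₁, g₂⟩
  simp only [cor₂_apply, cup_apply, Pi.sub_apply, dOne_apply, cor₁_apply, projPrimRight]
  rw [map_sum, AddMonoidHom.finsetSum_apply, Finset.smul_sum,
    ← sum_smul_quot (g₁⁻¹ : G)
      (fun q => g₁ • (β (t q • η (hq t ht g₂ q))) (g₂ • a (t (g₂⁻¹ • q)))),
    ← Finset.sum_sub_distrib, ← Finset.sum_add_distrib, ← Finset.sum_sub_distrib]
  refine Finset.sum_congr rfl fun q _ => ?_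
  rw [← hβ, Subgroup.smul_def, ← mul_smul, t_mul_hq, mul_smul, t_smul_cocycle_hq t ht ha, ← hβ,
    hq_mul, hη, smul_add, t_smul_hq_smul]
  simp only [map_add, map_sub, AddMonoidHom.add_apply, smul_add, smul_sub, mul_inv_rev, mul_smul]
  abel

end Projection

section Level

variable {G : Type*} [Group G] {H : Subgroup G} [Fintype (G ⧸ H)]
variable (t : G ⧸ H → G) (ht : ∀ q, (t q : G ⧸ H) = q)
variable {A : Type*} [AddCommGroup A] [DistribMulAction G A]

omit [Fintype (G ⧸ H)] in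
/-- A normal subgroup contained in `H` acts trivially on `G ⧸ H`. -/
theorem smul_quot_of_mem_normal {U : Subgroup G} [U.Normal] (hU : U ≤ H) {u : G} (hu : u ∈ U)
    (q : G ⧸ H) : u • q = q := by
  induction q using QuotientGroup.induction_on with
  | H x =>
    have h : u • (x : G ⧸ H) = ((u * x : G) : G ⧸ H) := rfl
    rw [h, QuotientGroup.eq]
    have : (u * x)⁻¹ * x = x⁻¹ * u⁻¹ * x := by group
    rw [this]
    have h2 : x⁻¹ * u⁻¹ * x⁻¹⁻¹ ∈ U := ‹U.Normal›.conj_mem _ (U.inv_mem hu) x⁻¹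
    rw [inv_inv] at h2
    exact hU h2

omit [Fintype (G ⧸ H)] in
/-- `h_q(g u) = h_q(g) · w` with `w ∈ U`, for `u` in a normal subgroup `U ≤ H`. -/
theorem hq_mul_normal {U : Subgroup G} [U.Normal] (hU : U ≤ H) (g : G) {u : G} (hu : u ∈ U)
    (q : G ⧸ H) :
    ∃ w : H, (w : G) ∈ U ∧ hq t ht (g * u) q = hq t ht g q * w := by
  have hq' : (g * u)⁻¹ • q = g⁻¹ • q := by
    rw [mul_inv_rev, mul_smul, smul_quot_of_mem_normal hU (U.inv_mem hu)]
  have hw : (t (g⁻¹ • q))⁻¹ * u * t (g⁻¹ • q) ∈ U := by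
    have := ‹U.Normal›.conj_mem _ hu (t (g⁻¹ • q))⁻¹
    rwa [inv_inv] at this
  refine ⟨⟨_, hU hw⟩, hw, ?_⟩
  apply Subtype.ext
  simp only [coe_hq, Subgroup.coe_mul, hq']
  group

/-- **(T5) Level clause, degree 1**: if `η` is right-invariant under a normal subgroup `U ≤ H`
of `G`, so is `cor₁ η`. -/
theorem cor₁_level {U : Subgroup G} [U.Normal] (hU : U ≤ H) {η : H → A}
    (hη : ∀ h u : H, (u : G) ∈ U → η (h * u) = η h) (g : G) {u : G} (hu : u ∈ U) :
    cor₁ t ht η (g * u) = cor₁ t ht η g := by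
  simp only [cor₁_apply]
  refine Finset.sum_congr rfl fun q _ => ?_
  obtain ⟨w, hw, e⟩ := hq_mul_normal t ht hU g hu q
  rw [e, hη _ _ hw]

/-- **(T5) Level clause, degree 2**: if `c` is right-invariant in both variables under a normal
subgroup `U ≤ H` of `G`, so is `cor₂ c`. -/
theorem cor₂_level {U : Subgroup G} [U.Normal] (hU : U ≤ H) {c : H × H → A}
    (hc : ∀ h h' u u' : H, (u : G) ∈ U → (u' : G) ∈ U → c (h * u, h' * u') = c (h, h'))
    (g g' : G) {u u' : G} (hu : u ∈ U) (hu' : u' ∈ U) :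
    cor₂ t ht c (g * u, g' * u') = cor₂ t ht c (g, g') := by
  simp only [cor₂_apply]
  refine Finset.sum_congr rfl fun q _ => ?_
  have hq' : (g * u)⁻¹ • q = g⁻¹ • q := by
    rw [mul_inv_rev, mul_smul, smul_quot_of_mem_normal hU (U.inv_mem hu)]
  obtain ⟨w, hw, e⟩ := hq_mul_normal t ht hU g hu q
  obtain ⟨w', hw', e'⟩ := hq_mul_normal t ht hU g' hu' (g⁻¹ • q)
  rw [hq', e, e', hc _ _ _ _ hw hw']

omit [DistribMulAction G A] in
/-- The explicit primitives of this file are level-constant as well: `projPrimLeft`. -/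
theorem projPrimLeft_level {B C : Type*} [AddCommGroup B] [AddCommGroup C] [DistribMulAction G B]
    (β : A →+ B →+ C) (a : G → A) {U : Subgroup G} [U.Normal] (hU : U ≤ H) {η : H → B}
    (hη : ∀ h u : H, (u : G) ∈ U → η (h * u) = η h) (g : G) {u : G} (hu : u ∈ U) :
    projPrimLeft t ht β a η (g * u) = projPrimLeft t ht β a η g := by
  simp only [projPrimLeft]
  refine Finset.sum_congr rfl fun q _ => ?_
  obtain ⟨w, hw, e⟩ := hq_mul_normal t ht hU g hu q
  rw [e, hη _ _ hw]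

omit [DistribMulAction G A] in
/-- `resPrim` is level-constant when `c` is. -/
theorem resPrim_level {U : Subgroup G} [U.Normal] (hU : U ≤ H) {c : G × G → A}
    (hc : ∀ g g' u u' : G, u ∈ U → u' ∈ U → c (g * u, g' * u') = c (g, g'))
    (g : G) {u : G} (hu : u ∈ U) :
    resPrim t c (g * u) = resPrim t c g := by
  simp only [resPrim]
  refine Finset.sum_congr rfl fun q _ => ?_
  have hq' : (g * u)⁻¹ • q = g⁻¹ • q := by
    rw [mul_inv_rev, mul_smul, smul_quot_of_mem_normal hU (U.inv_mem hu)]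
  have hw : (t (g⁻¹ • q))⁻¹ * u * t (g⁻¹ • q) ∈ U := by
    have := ‹U.Normal›.conj_mem _ hu (t (g⁻¹ • q))⁻¹
    rwa [inv_inv] at this
  rw [hq']
  have e1 : (t q)⁻¹ * (g * u) * t (g⁻¹ • q) =
      (t q)⁻¹ * g * t (g⁻¹ • q) * ((t (g⁻¹ • q))⁻¹ * u * t (g⁻¹ • q)) := by group
  have h1 := hc (t q) ((t q)⁻¹ * g * t (g⁻¹ • q)) 1 _ U.one_mem hw
  have h2 := hc g (t (g⁻¹ • q)) u 1 hu U.one_mem
  rw [mul_one] at h1 h2
  rw [e1, h1, h2]

/-- A level-constant `1`-cocycle takes values fixed by the level. -/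
theorem smul_cocycle_of_level {U : Subgroup G} [U.Normal] {a : G → A} (ha : IsCocycle₁ a)
    (hlev : ∀ g u : G, u ∈ U → a (g * u) = a g) {u : G} (hu : u ∈ U) (x : G) :
    u • a x = a x := by
  have h0 : a u = 0 := by
    have := hlev 1 u hu
    rwa [one_mul, map_one_of_isCocycle₁ ha] at this
  have h1 := ha u x
  rw [h0, add_zero] at h1
  have hw : x⁻¹ * u * x ∈ U := by
    have := ‹U.Normal›.conj_mem _ hu x⁻¹
    rwa [inv_inv] at this
  have h2 := hlev x _ hw
  rw [show x * (x⁻¹ * u * x) = u * x by group] at h2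
  rw [← h1, h2]

/-- `projPrimRight` is level-constant when `η` and the cocycle `a` are. -/
theorem projPrimRight_level {B C : Type*} [AddCommGroup B] [AddCommGroup C] [DistribMulAction G B]
    (β : B →+ A →+ C) {a : G → A} (ha : IsCocycle₁ a) {U : Subgroup G} [U.Normal] (hU : U ≤ H)
    {η : H → B} (hη : ∀ h u : H, (u : G) ∈ U → η (h * u) = η h)
    (hlev : ∀ g u : G, u ∈ U → a (g * u) = a g) (g : G) {u : G} (hu : u ∈ U) :
    projPrimRight t ht β η a (g * u) = projPrimRight t ht β η a g := by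
  simp only [projPrimRight]
  refine Finset.sum_congr rfl fun q _ => ?_
  have hq' : (g * u)⁻¹ • q = g⁻¹ • q := by
    rw [mul_inv_rev, mul_smul, smul_quot_of_mem_normal hU (U.inv_mem hu)]
  obtain ⟨w, hw, e⟩ := hq_mul_normal t ht hU g hu q
  rw [e, hη _ _ hw, hq', mul_smul, smul_cocycle_of_level ha hlev hu]

end Level

section FieldNorm

variable {K Ω : Type*} [Field K] [Field Ω] [Algebra K Ω] [Normal K Ω]
  (K₁ : IntermediateField K Ω)

/-- Restriction of an automorphism of `Ω` to an embedding of `K₁`. -/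
def resEmb (σ : Ω ≃ₐ[K] Ω) : K₁ →ₐ[K] Ω := (σ : Ω →ₐ[K] Ω).comp K₁.val

omit [Normal K Ω] in
@[simp] theorem resEmb_apply (σ : Ω ≃ₐ[K] Ω) (y : K₁) : resEmb K₁ σ y = σ (y : Ω) := rfl

omit [Normal K Ω] in
theorem resEmb_eq_iff (σ τ : Ω ≃ₐ[K] Ω) :
    resEmb K₁ σ = resEmb K₁ τ ↔ σ⁻¹ * τ ∈ K₁.fixingSubgroup := by
  rw [IntermediateField.mem_fixingSubgroup_iff]
  constructor
  · intro h x hx
    have : σ x = τ x := DFunLike.congr_fun h ⟨x, hx⟩
    rw [AlgEquiv.mul_apply, ← this]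
    exact σ.symm_apply_apply x
  · intro h
    ext y
    change σ (y : Ω) = τ (y : Ω)
    have := h (y : Ω) y.2
    rw [AlgEquiv.mul_apply] at this
    have h2 : σ (σ⁻¹ (τ (y : Ω))) = τ (y : Ω) := σ.apply_symm_apply _
    rw [this] at h2
    exact h2

theorem resEmb_surjective : Function.Surjective (resEmb K₁) := by
  intro φ
  refine ⟨AlgEquiv.ofBijective (φ.liftNormal Ω) (AlgHom.normal_bijective K Ω Ω _), ?_⟩
  ext y
  simp only [resEmb_apply, AlgEquiv.coe_ofBijective]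
  exact φ.liftNormal_commutes Ω y

/-- Left cosets of the fixing subgroup of `K₁` correspond to the embeddings of `K₁`. -/
noncomputable def quotEquivEmb : (Ω ≃ₐ[K] Ω) ⧸ K₁.fixingSubgroup ≃ (K₁ →ₐ[K] Ω) :=
  Equiv.ofBijective
    (Quotient.lift (s := QuotientGroup.leftRel K₁.fixingSubgroup) (resEmb K₁) (fun σ τ h => by
      rw [resEmb_eq_iff]; exact QuotientGroup.leftRel_apply.1 h))
    ⟨by
      intro q q'
      induction q using QuotientGroup.induction_on with
      | H σ =>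
        induction q' using QuotientGroup.induction_on with
        | H τ =>
          intro h
          exact QuotientGroup.eq.2 ((resEmb_eq_iff K₁ σ τ).1 h),
     fun φ => by
      obtain ⟨σ, rfl⟩ := resEmb_surjective K₁ φ
      exact ⟨(σ : (Ω ≃ₐ[K] Ω) ⧸ K₁.fixingSubgroup), rfl⟩⟩

theorem quotEquivEmb_mk (σ : Ω ≃ₐ[K] Ω) :
    quotEquivEmb K₁ (σ : (Ω ≃ₐ[K] Ω) ⧸ K₁.fixingSubgroup) = resEmb K₁ σ := rfl

/-- **(T6)** The product of the conjugates of `y ∈ K₁` over a transversal of the fixing subgroup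
is the field norm. -/
theorem prod_transversal_eq_norm [IsAlgClosed Ω] [FiniteDimensional K K₁] [Algebra.IsSeparable K K₁]
    [Fintype ((Ω ≃ₐ[K] Ω) ⧸ K₁.fixingSubgroup)]
    (t : (Ω ≃ₐ[K] Ω) ⧸ K₁.fixingSubgroup → (Ω ≃ₐ[K] Ω))
    (ht : ∀ q, (t q : (Ω ≃ₐ[K] Ω) ⧸ K₁.fixingSubgroup) = q) (y : K₁) :
    ∏ q, t q (y : Ω) = algebraMap K Ω (Algebra.norm K y) := by
  rw [Algebra.norm_eq_prod_embeddings K Ω y]
  refine Fintype.prod_equiv (quotEquivEmb K₁) _ _ fun q => ?_
  conv_rhs => rw [← ht q, quotEquivEmb_mk]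
  rfl

end FieldNorm

end Fermat.Agent.S55.helper4848
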