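import Mathlib

/-!
# S55 leaf LA-LB2 (helper814): Hilbert 90 in level form, the norm criterion for the Kummer
cup product (the direction needed for the nondegeneracy of the Hilbert pairing), and (LB2).

Part A: abstract Hilbert 90 (Poincare series) for a group acting on a field, cocycles that are
right-invariant under a finite-index "closed" subgroup.
Part B: abstract norm criterion.
-/

set_option autoImplicit false

namespace Fermat.Agent.S55.helper814

section Abstract

variable {G Ω : Type*} [Group G] [Field Ω] [MulSemiringAction G Ω]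

/-- **Abstract Hilbert 90** (Poincare series).  `U` is a finite-index subgroup which is closed
in the sense that an element fixing every `U`-fixed element of `Ω` lies in `U`.  Every nonvanishing
1-cocycle `c : G → Ω` which is right-`U`-invariant is a coboundary. -/
theorem exists_smul_eq_of_cocycle (U : Subgroup G) [U.FiniteIndex]
    (hU : ∀ g : G, (∀ x : Ω, (∀ s ∈ U, s • x = x) → g • x = x) → g ∈ U)
    (c : G → Ω) (hc0 : ∀ g, c g ≠ 0) (hc : ∀ g h : G, c (g * h) = c g * g • c h)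
    (hcU : ∀ g : G, ∀ s ∈ U, c (g * s) = c g) :
    ∃ γ : Ω, γ ≠ 0 ∧ ∀ g : G, c g * g • γ = γ := by
  classical
  let E : Submonoid Ω :=
    { carrier := {x | ∀ s ∈ U, s • x = x}
      mul_mem' := fun {a b} ha hb s hs => by rw [smul_mul', ha s hs, hb s hs]
      one_mem' := fun s _ => smul_one s }
  let φ : G ⧸ U → (E →* Ω) := fun q =>
    { toFun := fun x => q.out • (x : Ω)
      map_one' := smul_one _
      map_mul' := fun x y => smul_mul' _ _ _ }
  have hφ : Function.Injective φ := by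
    intro q q' h
    have h1 : q'.out⁻¹ * q.out ∈ U := by
      apply hU
      intro x hx
      have h2 : q.out • x = q'.out • x := DFunLike.congr_fun h ⟨x, hx⟩
      rw [mul_smul, h2, inv_smul_smul]
    rw [← QuotientGroup.out_eq' q, ← QuotientGroup.out_eq' q']
    exact (QuotientGroup.eq.2 h1).symm
  have hli : LinearIndependent Ω (fun q : G ⧸ U => (φ q : E → Ω)) :=
    LinearIndependent.comp (linearIndependent_monoidHom E Ω) φ hφ
  letI : Fintype (G ⧸ U) := Subgroup.fintypeQuotientOfFiniteIndex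
  obtain ⟨x, hx⟩ : ∃ x : E, ∑ q : G ⧸ U, c q.out * q.out • (x : Ω) ≠ 0 := by
    by_contra hcon
    push Not at hcon
    have h0 : ∑ q : G ⧸ U, c q.out • (φ q : E → Ω) = 0 := by
      funext x
      simpa [φ] using hcon x
    have := Fintype.linearIndependent_iff.1 hli (fun q => c q.out) h0 (QuotientGroup.mk 1)
    exact hc0 _ this
  refine ⟨∑ q : G ⧸ U, c q.out * q.out • (x : Ω), hx, fun g => ?_⟩
  set F : G → Ω := fun t => c t * t • (x : Ω) with hF
  have hFU : ∀ t : G, ∀ s ∈ U, F (t * s) = F t := by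
    intro t s hs
    simp only [hF]
    rw [hcU t s hs, mul_smul, x.2 s hs]
  have hFq : ∀ (q : G ⧸ U), F (g * q.out) = F ((g • q).out) := by
    intro q
    have h1 : g • q = QuotientGroup.mk (g * q.out) := by
      conv_lhs => rw [← QuotientGroup.out_eq' q]
      rfl
    rw [h1]
    obtain ⟨h, hh⟩ := QuotientGroup.mk_out_eq_mul U (g * q.out)
    rw [hh, hFU _ _ h.2]
  calc c g * g • ∑ q : G ⧸ U, c q.out * q.out • (x : Ω)
      = ∑ q : G ⧸ U, c g * (g • c q.out * (g * q.out) • (x : Ω)) := by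
        rw [Finset.smul_sum, Finset.mul_sum]
        refine Finset.sum_congr rfl fun q _ => ?_
        rw [smul_mul', mul_smul]
    _ = ∑ q : G ⧸ U, F (g * q.out) := by
        refine Finset.sum_congr rfl fun q _ => ?_
        simp only [hF]
        rw [hc g q.out, mul_assoc]
    _ = ∑ q : G ⧸ U, F ((g • q).out) := Finset.sum_congr rfl fun q _ => hFq q
    _ = ∑ q : G ⧸ U, F q.out :=
        Equiv.sum_comp (MulAction.toPerm g : G ⧸ U ≃ G ⧸ U) (fun q : G ⧸ U => F q.out)
    _ = _ := rfl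

lemma pow_val_add {p : ℕ} [NeZero p] {ζ : Ω} (hζ : ζ ^ p = 1) (z w : ZMod p) :
    ζ ^ (z + w).val = ζ ^ z.val * ζ ^ w.val := by
  rw [ZMod.val_add, ← pow_add, ← pow_eq_pow_mod _ hζ]

lemma pow_val_mul {p : ℕ} [NeZero p] {ζ : Ω} (hζ : ζ ^ p = 1) (z w : ZMod p) :
    ζ ^ (z * w).val = (ζ ^ z.val) ^ w.val := by
  rw [ZMod.val_mul, ← pow_mul, ← pow_eq_pow_mod _ hζ]

/-- A Kummer character is additive. -/
lemma kummer_add {p : ℕ} [Fact p.Prime] {ζ α : Ω} (hζ : IsPrimitiveRoot ζ p)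
    (hζG : ∀ g : G, g • ζ = ζ) (hα0 : α ≠ 0) {x : G → ZMod p}
    (hx : ∀ g, g • α = ζ ^ (x g).val * α) (g h : G) : x (g * h) = x g + x h := by
  have hζp : ζ ^ p = 1 := hζ.pow_eq_one
  have h1 : ζ ^ (x (g * h)).val * α = ζ ^ (x g + x h).val * α := by
    rw [← hx (g * h), mul_smul, hx h, smul_mul', smul_pow', hζG, hx g, pow_val_add hζp]
    ring
  have h2 := mul_right_cancel₀ hα0 h1
  exact ZMod.val_injective p (hζ.pow_inj (ZMod.val_lt _) (ZMod.val_lt _) h2)

lemma kummer_one {p : ℕ} [Fact p.Prime] {x : G → ZMod p}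
    (hxmul : ∀ g h, x (g * h) = x g + x h) : x 1 = 0 := by
  have := hxmul 1 1
  rw [mul_one] at this
  exact left_eq_add.1 this

lemma kummer_pow {p : ℕ} [Fact p.Prime] {x : G → ZMod p}
    (hxmul : ∀ g h, x (g * h) = x g + x h) (g : G) (k : ℕ) : x (g ^ k) = k * x g := by
  induction k with
  | zero => simpa using kummer_one hxmul
  | succ k ih => rw [pow_succ, hxmul, ih]; push_cast; ring

lemma kummer_eq_zero {p : ℕ} [Fact p.Prime] {ζ α : Ω} (hζ : IsPrimitiveRoot ζ p)
    (hα0 : α ≠ 0) {x : G → ZMod p}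
    (hx : ∀ g, g • α = ζ ^ (x g).val * α) (g : G) (hg : g • α = α) : x g = 0 := by
  have hp := (Fact.out : p.Prime)
  have h1 := hx g
  rw [hg] at h1
  have h2 : ζ ^ (x g).val = ζ ^ 0 := by
    rw [pow_zero]; exact mul_right_cancel₀ hα0 (by rw [one_mul]; exact h1.symm)
  exact (ZMod.val_eq_zero _).1 (hζ.pow_inj (ZMod.val_lt _) hp.pos h2)

/-- **Abstract norm criterion** (the direction needed for the Hilbert pairing). -/
theorem exists_prod_smul_eq_of_cup_eq (p : ℕ) [Fact p.Prime] (U : Subgroup G) [U.FiniteIndex]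
    (hU : ∀ g : G, (∀ x : Ω, (∀ s ∈ U, s • x = x) → g • x = x) → g ∈ U)
    (ζ α β : Ω) (hζ : IsPrimitiveRoot ζ p) (hζG : ∀ g : G, g • ζ = ζ)
    (hα0 : α ≠ 0) (hβ0 : β ≠ 0)
    (x y : G → ZMod p)
    (hx : ∀ g, g • α = ζ ^ (x g).val * α)
    (hy : ∀ g, g • β = ζ ^ (y g).val * β)
    (hxU : ∀ s ∈ U, x s = 0)
    (σ : G) (hσ : x σ = 1)
    (f : G → Ω) (hf0 : ∀ g, f g ≠ 0) (hfU : ∀ g, ∀ s ∈ U, f (g * s) = f g)
    (hcup : ∀ g h, ζ ^ (y g * x h).val * f (g * h) = f g * g • f h) :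
    ∃ y0 : Ω, (∀ n : G, x n = 0 → n • y0 = y0) ∧
      ∏ k ∈ Finset.range p, (σ ^ k) • y0 = β ^ p := by
  have hp := (Fact.out : p.Prime)
  have hζp : ζ ^ p = 1 := hζ.pow_eq_one
  have hζ0 : ζ ≠ 0 := hζ.ne_zero hp.ne_zero
  -- additivity of x
  have hxmul : ∀ g h, x (g * h) = x g + x h := kummer_add hζ hζG hα0 hx
  have hx1 : x 1 = 0 := kummer_one hxmul
  have hxinv : ∀ g, x g⁻¹ = - x g := by
    intro g
    have := hxmul g g⁻¹
    rw [mul_inv_cancel, hx1] at this
    exact eq_neg_of_add_eq_zero_right this.symm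
  have hxpow : ∀ k : ℕ, x (σ ^ k) = (k : ZMod p) := by
    intro k
    rw [kummer_pow hxmul, hσ, mul_one]
  -- the auxiliary cochain
  set u : G → Ω := fun g => β ^ (x g).val * (f g)⁻¹ with hu
  have hu0 : ∀ g, u g ≠ 0 := fun g => mul_ne_zero (pow_ne_zero _ hβ0) (inv_ne_zero (hf0 g))
  have hDU : ∀ g h, u g * g • u h * β ^ (x (g * h)).val
      = u (g * h) * β ^ ((x g).val + (x h).val) := by
    intro g h
    simp only [hu]
    rw [smul_mul', smul_pow', smul_inv'', hy g]
    have h1 := hcup g h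
    have h2 : (ζ ^ (y g).val * β) ^ (x h).val = ζ ^ (y g * x h).val * β ^ (x h).val := by
      rw [mul_pow, pow_val_mul hζp]
    rw [h2]
    have hf1 := hf0 g
    have hf2 : g • f h ≠ 0 := by
      rw [Ne, smul_eq_zero_iff_eq]; exact hf0 h
    have hf3 := hf0 (g * h)
    field_simp
    rw [pow_add]
    linear_combination (β ^ (x g).val * β ^ (x h).val) * h1
  have hmulN : ∀ g h, (x g = 0 ∨ x h = 0) → u (g * h) = u g * g • u h := by
    intro g h hgh
    have h1 := hDU g h
    have h2 : (x (g * h)).val = (x g).val + (x h).val := by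
      rcases hgh with h0 | h0
      · rw [hxmul, h0, zero_add, ZMod.val_zero, zero_add]
      · rw [hxmul, h0, add_zero, ZMod.val_zero, add_zero]
    rw [h2] at h1
    exact (mul_right_cancel₀ (pow_ne_zero _ hβ0) h1).symm
  -- the kernel of `x` as a subgroup
  let N : Subgroup G :=
    { carrier := {g | x g = 0}
      mul_mem' := fun {a b} ha hb => by
        show x (a * b) = 0
        rw [hxmul, show x a = 0 from ha, show x b = 0 from hb, add_zero]
      one_mem' := hx1
      inv_mem' := fun {a} ha => by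
        show x a⁻¹ = 0
        rw [hxinv, show x a = 0 from ha, neg_zero] }
  -- Hilbert 90 on `N`
  obtain ⟨γ, hγ0, hγ⟩ := exists_smul_eq_of_cocycle (G := N) (Ω := Ω) (U.subgroupOf N)
    (by
      intro n hn
      rw [Subgroup.mem_subgroupOf]
      apply hU
      intro ω hω
      exact hn ω (fun s hs => hω s (Subgroup.mem_subgroupOf.1 hs)))
    (fun n => u n) (fun n => hu0 n)
    (fun n m => hmulN n m (Or.inl n.2))
    (by
      intro n s hs
      have hs' : (s : G) ∈ U := Subgroup.mem_subgroupOf.1 hs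
      show u ((n : G) * (s : G)) = u n
      simp only [hu]
      rw [hxmul, hxU _ hs', add_zero, hfU _ _ hs'])
  set u' : G → Ω := fun g => u g * g • γ * γ⁻¹ with hu'
  have hu'N : ∀ n, x n = 0 → u' n = 1 := by
    intro n hn
    have h1 : u n * n • γ = γ := hγ ⟨n, hn⟩
    simp only [hu']
    rw [h1]; exact mul_inv_cancel₀ hγ0
  have hDU' : ∀ g h, u' g * g • u' h * β ^ (x (g * h)).val
      = u' (g * h) * β ^ ((x g).val + (x h).val) := by
    intro g h
    have h1 := hDU g h
    have hgγ : g • γ ≠ 0 := by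
      rw [Ne, smul_eq_zero_iff_eq]; exact hγ0
    simp only [hu']
    rw [smul_mul', smul_mul', smul_inv'', smul_smul]
    field_simp
    linear_combination ((g * h) • γ) * h1
  have hmulN' : ∀ g h, (x g = 0 ∨ x h = 0) → u' (g * h) = u' g * g • u' h := by
    intro g h hgh
    have h1 := hDU' g h
    have h2 : (x (g * h)).val = (x g).val + (x h).val := by
      rcases hgh with h0 | h0
      · rw [hxmul, h0, zero_add, ZMod.val_zero, zero_add]
      · rw [hxmul, h0, add_zero, ZMod.val_zero, add_zero]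
    rw [h2] at h1
    exact (mul_right_cancel₀ (pow_ne_zero _ hβ0) h1).symm
  have hfix : ∀ g n, x n = 0 → n • u' g = u' g := by
    intro g n hn
    have h1 : u' (n * g) = n • u' g := by rw [hmulN' n g (Or.inl hn), hu'N n hn, one_mul]
    have h2 : u' (n * g) = u' g := by
      have hc : x (g⁻¹ * n * g) = 0 := by rw [hxmul, hxmul, hxinv, hn]; ring
      have h3 : n * g = g * (g⁻¹ * n * g) := by group
      rw [h3, hmulN' g _ (Or.inr hc), hu'N _ hc, smul_one, mul_one]
    rw [← h1, h2]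
  refine ⟨u' σ, fun n hn => hfix σ n hn, ?_⟩
  have hprod : ∀ k : ℕ, (∏ j ∈ Finset.range k, (σ ^ j) • u' σ) * β ^ (x (σ ^ k)).val
      = u' (σ ^ k) * β ^ k := by
    intro k
    induction k with
    | zero => simp [hx1, hu'N 1 hx1]
    | succ k ih =>
      rw [Finset.prod_range_succ]
      have h1 := hDU' (σ ^ k) σ
      rw [← pow_succ, hσ, ZMod.val_one] at h1
      have hb := pow_ne_zero (x (σ ^ k)).val hβ0
      apply mul_right_cancel₀ hb
      linear_combination ((σ ^ k) • u' σ * β ^ (x (σ ^ (k + 1))).val) * ih + β ^ k * h1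
  have h1 := hprod p
  have h3 : x (σ ^ p) = 0 := by rw [hxpow]; exact ZMod.natCast_self p
  rw [h3, ZMod.val_zero, pow_zero, mul_one, hu'N _ h3, one_mul] at h1
  exact h1

/-- Skew-symmetry of the cup product of two characters, at cochain level: if `ζ ^ (x g * y h)`
is the coboundary of `f`, then `ζ ^ (y g * x h)` is the coboundary of
`g ↦ (f g)⁻¹ * ζ ^ (-(x g * y g))`. -/
lemma cup_skew {p : ℕ} [Fact p.Prime] {ζ : Ω} (hζp : ζ ^ p = 1)
    (hζG : ∀ g : G, g • ζ = ζ) {x y : G → ZMod p}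
    (hx : ∀ g h, x (g * h) = x g + x h) (hy : ∀ g h, y (g * h) = y g + y h)
    {f : G → Ω} (hf0 : ∀ g, f g ≠ 0)
    (hcup : ∀ g h, ζ ^ (x g * y h).val * f (g * h) = f g * g • f h) (g h : G) :
    ζ ^ (y g * x h).val * ((f (g * h))⁻¹ * ζ ^ (-(x (g * h) * y (g * h))).val)
      = ((f g)⁻¹ * ζ ^ (-(x g * y g)).val) * g • ((f h)⁻¹ * ζ ^ (-(x h * y h)).val) := by
  have hp := (Fact.out : p.Prime)
  have hζ0 : ζ ≠ 0 := by
    rintro rfl
    rw [zero_pow hp.ne_zero] at hζp
    exact zero_ne_one hζp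
  have key : ζ ^ (y g * x h).val * ζ ^ (-(x (g * h) * y (g * h))).val * ζ ^ (x g * y h).val
      = ζ ^ (-(x g * y g)).val * ζ ^ (-(x h * y h)).val := by
    rw [← pow_val_add hζp, ← pow_val_add hζp, ← pow_val_add hζp]
    congr 2
    rw [hx, hy]; ring
  have hgf : g • f h = ζ ^ (x g * y h).val * f (g * h) / f g := by
    rw [hcup, mul_div_cancel_left₀ _ (hf0 g)]
  have hf1 := hf0 g
  have hf3 := hf0 (g * h)
  have hz : ζ ^ (x g * y h).val ≠ 0 := pow_ne_zero _ hζ0
  rw [smul_mul', smul_inv'', smul_pow', hζG, hgf]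
  generalize ζ ^ (y g * x h).val = D at key ⊢
  generalize ζ ^ (-(x (g * h) * y (g * h))).val = E at key ⊢
  generalize ζ ^ (x g * y h).val = C at key hz ⊢
  generalize ζ ^ (-(x g * y g)).val = A at key ⊢
  generalize ζ ^ (-(x h * y h)).val = B at key ⊢
  field_simp
  linear_combination key

end Abstract

section Galois

open IntermediateField Polynomial

variable {K Ω : Type*} [Field K] [Field Ω] [Algebra K Ω]

lemma finiteIndex_fixingSubgroup (E : IntermediateField K Ω) [FiniteDimensional K E] :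
    E.fixingSubgroup.FiniteIndex := by
  have : Finite ((Ω ≃ₐ[K] Ω) ⧸ E.fixingSubgroup) := by
    let φ : (Ω ≃ₐ[K] Ω) ⧸ E.fixingSubgroup → (E →ₐ[K] Ω) :=
      fun q => (q.out : Ω →ₐ[K] Ω).comp E.val
    apply Finite.of_injective φ
    intro q q' h
    rw [← QuotientGroup.out_eq' q, ← QuotientGroup.out_eq' q']
    refine QuotientGroup.eq.2 ?_
    rw [IntermediateField.mem_fixingSubgroup_iff]
    intro x hx
    have h1 : q.out x = q'.out x := DFunLike.congr_fun h ⟨x, hx⟩
    rw [AlgEquiv.mul_apply, ← h1]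
    exact q.out.symm_apply_apply x
  exact Subgroup.finiteIndex_of_finite_quotient

lemma closed_fixingSubgroup (E : IntermediateField K Ω) (g : Ω ≃ₐ[K] Ω)
    (hg : ∀ x : Ω, (∀ s ∈ E.fixingSubgroup, s • x = x) → g • x = x) : g ∈ E.fixingSubgroup := by
  rw [IntermediateField.mem_fixingSubgroup_iff]
  intro x hx
  exact hg x (fun s hs => (IntermediateField.mem_fixingSubgroup_iff E s).1 hs x hx)

/-- Existence of the Kummer character of a `p`-th root. -/
lemma exists_kummerChar {p : ℕ} [Fact p.Prime] {ζ : K} (hζ : IsPrimitiveRoot ζ p) {a : K} {α : Ω}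
    (hα : α ^ p = algebraMap K Ω a) (hα0 : α ≠ 0) :
    ∃ x : (Ω ≃ₐ[K] Ω) → ZMod p, ∀ g, g α = algebraMap K Ω ζ ^ (x g).val * α := by
  have hp := (Fact.out : p.Prime)
  haveI : NeZero p := ⟨hp.ne_zero⟩
  have hζ' : IsPrimitiveRoot (algebraMap K Ω ζ) p :=
    hζ.map_of_injective (algebraMap K Ω).injective
  have key : ∀ g : Ω ≃ₐ[K] Ω, ∃ z : ZMod p, g α = algebraMap K Ω ζ ^ z.val * α := by
    intro g
    have h1 : (g α / α) ^ p = 1 := by
      rw [div_pow, ← map_pow, hα, AlgEquiv.commutes, div_self]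
      rw [← hα]; exact pow_ne_zero _ hα0
    obtain ⟨i, hi, hi'⟩ := hζ'.eq_pow_of_pow_eq_one h1
    refine ⟨(i : ZMod p), ?_⟩
    rw [ZMod.val_natCast_of_lt hi, hi', div_mul_cancel₀ _ hα0]
  exact ⟨fun g => (key g).choose, fun g => (key g).choose_spec⟩

/-- **Norm criterion, Galois form**: if the cup cocycle `ζ ^ (y g * x h)` of the Kummer characters
`y` of `b` and `x` of `a` is the coboundary of a level-constant nonvanishing cochain, then `b` is
a norm from `K(a^(1/p))`. -/
theorem exists_norm_eq_of_cup_eq [IsGalois K Ω] (p : ℕ) [Fact p.Prime] (ζ : K)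
    (hζ : IsPrimitiveRoot ζ p)
    (a b : K) (α β : Ω) (hα : α ^ p = algebraMap K Ω a) (hβ : β ^ p = algebraMap K Ω b)
    (hb : b ≠ 0) (ha : ∀ c : K, c ^ p ≠ a)
    (x y : (Ω ≃ₐ[K] Ω) → ZMod p)
    (hx : ∀ g, g α = algebraMap K Ω ζ ^ (x g).val * α)
    (hy : ∀ g, g β = algebraMap K Ω ζ ^ (y g).val * β)
    (f : (Ω ≃ₐ[K] Ω) → Ω) (hf0 : ∀ g, f g ≠ 0)
    (hf : ∃ E : IntermediateField K Ω, FiniteDimensional K E ∧
      ∀ g s, s ∈ E.fixingSubgroup → f (g * s) = f g)
    (hcup : ∀ g h, algebraMap K Ω ζ ^ (y g * x h).val * f (g * h) = f g * g (f h)) :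
    ∃ z : K⟮α⟯, Algebra.norm K z = b := by
  classical
  have hp := (Fact.out : p.Prime)
  set ζ' := algebraMap K Ω ζ with hζ'def
  have hζ' : IsPrimitiveRoot ζ' p := hζ.map_of_injective (algebraMap K Ω).injective
  have hζG : ∀ g : Ω ≃ₐ[K] Ω, g • ζ' = ζ' := fun g => g.commutes ζ
  have ha0 : a ≠ 0 := by
    rintro rfl
    exact ha 0 (zero_pow hp.ne_zero)
  have hα0 : α ≠ 0 := by
    rintro rfl
    rw [zero_pow hp.ne_zero] at hα
    exact ha0 ((algebraMap K Ω).injective (by rw [← hα, map_zero]))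
  have hβ0 : β ≠ 0 := by
    rintro rfl
    rw [zero_pow hp.ne_zero] at hβ
    exact hb ((algebraMap K Ω).injective (by rw [← hβ, map_zero]))
  have hxadd : ∀ g h, x (g * h) = x g + x h := fun g h => kummer_add hζ' hζG hα0 hx g h
  have hxfix : ∀ g : Ω ≃ₐ[K] Ω, g α = α → x g = 0 := fun g hg => kummer_eq_zero hζ' hα0 hx g hg
  -- an element with `x σ = 1`
  obtain ⟨σ, hσ⟩ : ∃ σ, x σ = 1 := by
    by_contra hcon
    push Not at hcon
    have hall : ∀ g, x g = 0 := by
      intro g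
      by_contra hg
      apply hcon (g ^ ((x g)⁻¹).val)
      rw [kummer_pow hxadd, ZMod.natCast_zmod_val, inv_mul_cancel₀ hg]
    have hmem : α ∈ (⊥ : IntermediateField K Ω) := by
      rw [← InfiniteGalois.fixedField_fixingSubgroup (⊥ : IntermediateField K Ω),
        IntermediateField.mem_fixedField_iff]
      intro g _
      have := hx g
      rw [hall g, ZMod.val_zero, pow_zero, one_mul] at this
      exact this
    obtain ⟨c, hc⟩ := IntermediateField.mem_bot.1 hmem
    apply ha c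
    apply (algebraMap K Ω).injective
    rw [map_pow, hc, hα]
  obtain ⟨E, hE, hfE⟩ := hf
  haveI := hE
  have hαint : IsIntegral K α := Algebra.IsIntegral.isIntegral α
  haveI : FiniteDimensional K K⟮α⟯ := adjoin.finiteDimensional hαint
  let U : Subgroup (Ω ≃ₐ[K] Ω) := (E ⊔ K⟮α⟯).fixingSubgroup
  haveI : U.FiniteIndex := finiteIndex_fixingSubgroup _
  have hUα : ∀ s ∈ U, s α = α := fun s hs =>
    (IntermediateField.mem_fixingSubgroup_iff _ s).1 hs α
      ((le_sup_right : K⟮α⟯ ≤ E ⊔ K⟮α⟯) (mem_adjoin_simple_self K α))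
  obtain ⟨y0, hy0fix, hy0prod⟩ := exists_prod_smul_eq_of_cup_eq p U (closed_fixingSubgroup _)
    ζ' α β hζ' hζG hα0 hβ0 x y hx hy (fun s hs => hxfix s (hUα s hs)) σ hσ f hf0
    (fun g s hs => hfE g s (IntermediateField.fixingSubgroup_antitone le_sup_left hs)) hcup
  -- `y0 ∈ K⟮α⟯`
  have hy0mem : y0 ∈ K⟮α⟯ := by
    rw [← InfiniteGalois.fixedField_fixingSubgroup K⟮α⟯, IntermediateField.mem_fixedField_iff]
    intro n hn
    exact hy0fix n (hxfix n ((IntermediateField.mem_fixingSubgroup_iff _ n).1 hn α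
      (mem_adjoin_simple_self K α)))
  -- `K⟮α⟯` is Galois over `K` of degree `p`
  have hnormal : Normal K K⟮α⟯ := by
    rw [normal_iff_forall_map_le']
    intro g
    rw [IntermediateField.adjoin_map, Set.image_singleton, adjoin_simple_le_iff]
    show (g : Ω →ₐ[K] Ω) α ∈ K⟮α⟯
    rw [AlgEquiv.coe_toAlgHom, hx g]
    exact mul_mem (pow_mem (IntermediateField.algebraMap_mem _ ζ) _) (mem_adjoin_simple_self K α)
  haveI : IsGalois K K⟮α⟯ := IsGalois.mk
  have hirr : Irreducible (X ^ p - C a : K[X]) := X_pow_sub_C_irreducible_of_prime hp ha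
  have hmin : minpoly K α = X ^ p - C a := by
    symm
    apply minpoly.eq_of_irreducible_of_monic hirr
    · simp [hα]
    · exact monic_X_pow_sub_C a hp.ne_zero
  have hfin : Module.finrank K K⟮α⟯ = p := by
    rw [adjoin.finrank hαint, hmin, natDegree_X_pow_sub_C]
  have hcard : Nat.card (K⟮α⟯ ≃ₐ[K] K⟮α⟯) = p := by rw [IsGalois.card_aut_eq_finrank, hfin]
  let τ : ℕ → (K⟮α⟯ ≃ₐ[K] K⟮α⟯) := fun k => AlgEquiv.restrictNormalHom K⟮α⟯ (σ ^ k)
  have hτ : ∀ (k : ℕ) (z : K⟮α⟯), ((τ k z : K⟮α⟯) : Ω) = (σ ^ k) (z : Ω) := fun k z =>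
    AlgEquiv.restrictNormal_commutes (σ ^ k) K⟮α⟯ z
  have hτinj : Set.InjOn τ (Finset.range p) := by
    intro k hk j hj hkj
    have hk' := Finset.mem_range.1 hk
    have hj' := Finset.mem_range.1 hj
    have h1 : (σ ^ k) α = (σ ^ j) α := by
      have h0 := hτ k (AdjoinSimple.gen K α)
      rw [hkj, hτ j] at h0
      exact h0.symm
    rw [hx, hx] at h1
    have h2 := mul_right_cancel₀ hα0 h1
    have h3 := ZMod.val_injective p (hζ'.pow_inj (ZMod.val_lt _) (ZMod.val_lt _) h2)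
    rw [kummer_pow hxadd, kummer_pow hxadd, hσ, mul_one, mul_one] at h3
    have h4 := congrArg ZMod.val h3
    rwa [ZMod.val_natCast_of_lt hk', ZMod.val_natCast_of_lt hj'] at h4
  have huniv : (Finset.range p).image τ = Finset.univ := by
    apply Finset.eq_univ_of_card
    rw [Finset.card_image_of_injOn hτinj, Finset.card_range, ← Nat.card_eq_fintype_card, hcard]
  have hnorm := Algebra.norm_eq_prod_automorphisms K (⟨y0, hy0mem⟩ : K⟮α⟯)
  refine ⟨⟨y0, hy0mem⟩, ?_⟩
  apply (algebraMap K Ω).injective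
  rw [← hβ, ← hy0prod, IsScalarTower.algebraMap_apply K K⟮α⟯ Ω, hnorm]
  rw [← huniv, Finset.prod_image hτinj, map_prod]
  refine Finset.prod_congr rfl fun k _ => ?_
  exact hτ k ⟨y0, hy0mem⟩

/-- **(LB2), field-theoretic form.**  `K` a field with a primitive `p`-th root of unity `ζ`,
`Ω/K` Galois containing `p`-th roots of the elements of `K`, `a ∈ K` not a `p`-th power,
`α ^ p = a`.  If not every nonzero element of `K` is a norm from `K(α)` (the local norm index
theorem), then there is an additive level-constant character `χ` of `Gal(Ω/K)` such that the cup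
cocycle `(g, h) ↦ (g α / α) ^ χ h` is not the coboundary of any level-constant `Ωˣ`-valued
1-cochain (a fortiori of any `μ_p`-valued one). -/
theorem exists_char_cup_not_coboundary [IsGalois K Ω] (p : ℕ) [Fact p.Prime] (ζ : K)
    (hζ : IsPrimitiveRoot ζ p) (a : K) (ha : ∀ c : K, c ^ p ≠ a) (α : Ω)
    (hα : α ^ p = algebraMap K Ω a)
    (hroots : ∀ b : K, ∃ β : Ω, β ^ p = algebraMap K Ω b)
    (hnorm : ∃ b : K, b ≠ 0 ∧ ∀ z : K⟮α⟯, Algebra.norm K z ≠ b) :
    ∃ χ : (Ω ≃ₐ[K] Ω) → ZMod p, (∀ g h, χ (g * h) = χ g + χ h) ∧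
      (∃ E : IntermediateField K Ω, FiniteDimensional K E ∧
        ∀ g s, s ∈ E.fixingSubgroup → χ (g * s) = χ g) ∧
      ¬ ∃ f : (Ω ≃ₐ[K] Ω) → Ωˣ,
        (∃ E : IntermediateField K Ω, FiniteDimensional K E ∧
          ∀ g s, s ∈ E.fixingSubgroup → f (g * s) = f g) ∧
        ∀ g h, ((g • f h / f (g * h) * f g : Ωˣ) : Ω) = (g α / α) ^ (χ h).val := by
  have hp := (Fact.out : p.Prime)
  obtain ⟨b, hb, hbn⟩ := hnorm
  obtain ⟨β, hβ⟩ := hroots b
  set ζ' := algebraMap K Ω ζ with hζ'def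
  have hζ' : IsPrimitiveRoot ζ' p := hζ.map_of_injective (algebraMap K Ω).injective
  have hζG : ∀ g : Ω ≃ₐ[K] Ω, g • ζ' = ζ' := fun g => g.commutes ζ
  have ha0 : a ≠ 0 := by
    rintro rfl
    exact ha 0 (zero_pow hp.ne_zero)
  have hα0 : α ≠ 0 := by
    rintro rfl
    rw [zero_pow hp.ne_zero] at hα
    exact ha0 ((algebraMap K Ω).injective (by rw [← hα, map_zero]))
  have hβ0 : β ≠ 0 := by
    rintro rfl
    rw [zero_pow hp.ne_zero] at hβ
    exact hb ((algebraMap K Ω).injective (by rw [← hβ, map_zero]))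
  obtain ⟨x, hx⟩ := exists_kummerChar hζ hα hα0
  obtain ⟨y, hy⟩ := exists_kummerChar hζ hβ hβ0
  have hxadd : ∀ g h, x (g * h) = x g + x h := fun g h => kummer_add hζ' hζG hα0 hx g h
  have hyadd : ∀ g h, y (g * h) = y g + y h := fun g h => kummer_add hζ' hζG hβ0 hy g h
  have hβint : IsIntegral K β := Algebra.IsIntegral.isIntegral β
  have hylev : ∀ g s : Ω ≃ₐ[K] Ω, s ∈ K⟮β⟯.fixingSubgroup → y (g * s) = y g := by
    intro g s hs
    have h1 : s β = β := (IntermediateField.mem_fixingSubgroup_iff _ s).1 hs β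
      (mem_adjoin_simple_self K β)
    rw [hyadd, kummer_eq_zero hζ' hβ0 hy s h1, add_zero]
  have hxlev : ∀ g s : Ω ≃ₐ[K] Ω, s ∈ K⟮α⟯.fixingSubgroup → x (g * s) = x g := by
    intro g s hs
    have h1 : s α = α := (IntermediateField.mem_fixingSubgroup_iff _ s).1 hs α
      (mem_adjoin_simple_self K α)
    rw [hxadd, kummer_eq_zero hζ' hα0 hx s h1, add_zero]
  refine ⟨y, hyadd, ⟨K⟮β⟯, adjoin.finiteDimensional hβint, hylev⟩, ?_⟩
  rintro ⟨f, ⟨E, hE, hfE⟩, hf⟩
  haveI := hE
  haveI : FiniteDimensional K K⟮α⟯ := adjoin.finiteDimensional (Algebra.IsIntegral.isIntegral α)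
  haveI : FiniteDimensional K K⟮β⟯ := adjoin.finiteDimensional hβint
  -- the relation in `Ω`
  have hcup : ∀ g h : Ω ≃ₐ[K] Ω,
      ζ' ^ (x g * y h).val * (f (g * h) : Ω) = (f g : Ω) * g • (f h : Ω) := by
    intro g h
    have h1 := hf g h
    rw [hx g, mul_div_cancel_right₀ _ hα0, ← pow_val_mul hζ'.pow_eq_one] at h1
    rw [← h1]
    simp only [Units.val_mul, Units.val_div_eq_div_val, AlgEquiv.smul_units_def, Units.coe_map,
      MonoidHom.coe_coe, AlgEquiv.smul_def]
    have := (f (g * h)).ne_zero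
    field_simp
  have hskew := cup_skew hζ'.pow_eq_one hζG hxadd hyadd (fun g => (f g).ne_zero) hcup
  obtain ⟨z, hz⟩ := exists_norm_eq_of_cup_eq p ζ hζ a b α β hα hβ hb ha x y hx hy
    (fun g => ((f g : Ω))⁻¹ * ζ' ^ (-(x g * y g)).val)
    (fun g => mul_ne_zero (inv_ne_zero (f g).ne_zero)
      (pow_ne_zero _ (hζ'.ne_zero hp.ne_zero)))
    ⟨E ⊔ K⟮α⟯ ⊔ K⟮β⟯, inferInstance, fun g s hs => by
      have hs1 : s ∈ E.fixingSubgroup :=
        IntermediateField.fixingSubgroup_antitone (le_sup_left.trans le_sup_left) hs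
      have hs2 : s ∈ K⟮α⟯.fixingSubgroup :=
        IntermediateField.fixingSubgroup_antitone (le_sup_right.trans le_sup_left) hs
      have hs3 : s ∈ K⟮β⟯.fixingSubgroup :=
        IntermediateField.fixingSubgroup_antitone le_sup_right hs
      rw [hfE g s hs1, hxlev g s hs2, hylev g s hs3]⟩
    hskew
  exact hbn z hz

end Galois

section Padic

open IntermediateField

/-- **(LB2) on the local carrier**: `K` a subextension of `PadicAlgCl l / ℚ_[l]` containing a
primitive `p`-th root of unity, `a ∈ K` not a `p`-th power, `α ^ p = a`.  Given the local norm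
index input (some nonzero `b ∈ K` is not a norm from `K(α)`), there is an additive level-constant
character `χ` of `Gal(PadicAlgCl l / K)` such that the cup cocycle `(g, h) ↦ (g α / α) ^ χ h` is
not the coboundary of a level-constant 1-cochain. -/
theorem exists_char_cup_not_coboundary_padic (l p : ℕ) [Fact l.Prime] [Fact p.Prime]
    (K : IntermediateField ℚ_[l] (PadicAlgCl l)) (ζ : K) (hζ : IsPrimitiveRoot ζ p)
    (a : K) (ha : ∀ c : K, c ^ p ≠ a) (α : PadicAlgCl l)
    (hα : α ^ p = algebraMap K (PadicAlgCl l) a)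
    (hnorm : ∃ b : K, b ≠ 0 ∧ ∀ z : K⟮α⟯, Algebra.norm K z ≠ b) :
    ∃ χ : (PadicAlgCl l ≃ₐ[K] PadicAlgCl l) → ZMod p, (∀ g h, χ (g * h) = χ g + χ h) ∧
      (∃ E : IntermediateField K (PadicAlgCl l), FiniteDimensional K E ∧
        ∀ g s, s ∈ E.fixingSubgroup → χ (g * s) = χ g) ∧
      ¬ ∃ f : (PadicAlgCl l ≃ₐ[K] PadicAlgCl l) → (PadicAlgCl l)ˣ,
        (∃ E : IntermediateField K (PadicAlgCl l), FiniteDimensional K E ∧
          ∀ g s, s ∈ E.fixingSubgroup → f (g * s) = f g) ∧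
        ∀ g h, ((g • f h / f (g * h) * f g : (PadicAlgCl l)ˣ) : PadicAlgCl l)
          = (g α / α) ^ (χ h).val := by
  have hp := (Fact.out : p.Prime)
  haveI : IsGalois K (PadicAlgCl l) := inferInstance
  exact exists_char_cup_not_coboundary p ζ hζ a ha α hα
    (fun b => IsAlgClosed.exists_pow_nat_eq _ hp.pos) hnorm

end Padic

end Fermat.Agent.S55.helper814
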