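import Mathlib
import Fermat.Agent.S55.helper6440_CyclicH2

/-!
# S55-H2KIT (helper9735): the level-form cyclic step for `H²`

Explicit cochains, abstract groups, no quotient objects: everything stays on the big group `G`
with invariance clauses, so the results apply verbatim to `G = Gal(Ω/K)` (infinite) acting on
`Ωˣ` with level-constant cochains.  Vocabulary: Mathlib's `groupCohomology.IsCocycle₂` etc. and
`cyc` / `mulCyc` of `helper6440_CyclicH2` (the cyclic-algebra cocycles).

Setting: `χ : G → ZMod n` additive, `χ s = 1`, `N = {χ = 0}`, `U ≤ N` a normal subgroup of `G`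
("the level").

* `exists_rinv_sub_dOne_inflated` (LIR): level inflation–restriction. A 2-cocycle `f`,
  right-`U`-invariant, whose restriction to `N` is the coboundary of a right-`U`-invariant cochain,
  is cohomologous through a right-`U`-invariant cochain to an `N`-inflated cocycle, provided
  `H¹(N, A) = 0` on level cocycles.
* `inflated_eq_cyc_add_dOne` (RCYC): an `N`-inflated 2-cocycle is `cyc χ a + d y` with
  `a = ∑_{j<n} f (s^j, s)` fixed by `G`.
* `exists_cyc_add_dOne_of_res` (BK2) = LIR + RCYC.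
* `cyc_nsum_eq_dOne`, `exists_norm_of_cyc_eq_dOne`, `cyc_eq_dOne_iff_norm` (BK1): `cyc χ a` is a
  (level) coboundary iff `a` is a norm `∑_{j<n} s^j • b` of an `N`-fixed `b`.
* multiplicative twins (`IsMulCocycle₂`, `mulCyc`) at the end.
-/

set_option autoImplicit false

namespace Fermat.Agent.S55.helper9735

open groupCohomology Finset

open Fermat.Agent.S55.helper6440 (carry cyc mulCyc psum)

section Basic

variable {G A : Type*} [Group G] [AddCommGroup A] [DistribMulAction G A]

/-- The coboundary of a 1-cochain. -/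
def dOne (x : G → A) : G × G → A := fun p => p.1 • x p.2 - x (p.1 * p.2) + x p.1

@[simp] lemma dOne_apply (x : G → A) (g h : G) :
    dOne x (g, h) = g • x h - x (g * h) + x g := rfl

lemma isCoboundary₂_iff (f : G × G → A) : IsCoboundary₂ f ↔ ∃ x : G → A, f = dOne x := by
  constructor
  · rintro ⟨x, hx⟩
    exact ⟨x, funext fun ⟨g, h⟩ => (hx g h).symm⟩
  · rintro ⟨x, rfl⟩
    exact ⟨x, fun g h => rfl⟩

lemma isCoboundary₂_dOne (x : G → A) : IsCoboundary₂ (dOne x) :=
  (isCoboundary₂_iff _).2 ⟨x, rfl⟩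

lemma isCocycle₂_dOne (x : G → A) : IsCocycle₂ (dOne x) := by
  intro g h j
  simp only [dOne_apply, smul_add, smul_sub, mul_smul, mul_assoc]
  abel

lemma dOne_add (x y : G → A) : dOne (x + y) = dOne x + dOne y := by
  funext ⟨g, h⟩
  simp only [dOne_apply, Pi.add_apply, smul_add]
  abel

lemma dOne_neg (x : G → A) : dOne (-x) = -dOne x := by
  funext ⟨g, h⟩
  simp only [dOne_apply, Pi.neg_apply, smul_neg]
  abel

lemma dOne_sub (x y : G → A) : dOne (x - y) = dOne x - dOne y := by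
  funext ⟨g, h⟩
  simp only [dOne_apply, Pi.sub_apply, smul_sub]
  abel

lemma dOne_zero : dOne (0 : G → A) = 0 := by
  funext ⟨g, h⟩
  simp [dOne_apply]

lemma isCocycle₂_zero : IsCocycle₂ (0 : G × G → A) := by
  intro g h j
  simp

lemma isCocycle₂_add {f f' : G × G → A} (hf : IsCocycle₂ f) (hf' : IsCocycle₂ f') :
    IsCocycle₂ (f + f') := by
  intro g h j
  simp only [Pi.add_apply, smul_add]
  linear_combination (norm := abel) hf g h j + hf' g h j

lemma isCocycle₂_neg {f : G × G → A} (hf : IsCocycle₂ f) : IsCocycle₂ (-f) := by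
  intro g h j
  simp only [Pi.neg_apply, smul_neg]
  linear_combination (norm := abel) -hf g h j

lemma isCocycle₂_sub {f f' : G × G → A} (hf : IsCocycle₂ f) (hf' : IsCocycle₂ f') :
    IsCocycle₂ (f - f') := by
  rw [sub_eq_add_neg]
  exact isCocycle₂_add hf (isCocycle₂_neg hf')

lemma isCoboundary₂_zero : IsCoboundary₂ (0 : G × G → A) :=
  (isCoboundary₂_iff _).2 ⟨0, dOne_zero.symm⟩

lemma isCoboundary₂_add {f f' : G × G → A} (hf : IsCoboundary₂ f) (hf' : IsCoboundary₂ f') :
    IsCoboundary₂ (f + f') := by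
  obtain ⟨x, rfl⟩ := (isCoboundary₂_iff _).1 hf
  obtain ⟨y, rfl⟩ := (isCoboundary₂_iff _).1 hf'
  exact (isCoboundary₂_iff _).2 ⟨x + y, (dOne_add x y).symm⟩

lemma isCoboundary₂_neg {f : G × G → A} (hf : IsCoboundary₂ f) : IsCoboundary₂ (-f) := by
  obtain ⟨x, rfl⟩ := (isCoboundary₂_iff _).1 hf
  exact (isCoboundary₂_iff _).2 ⟨-x, (dOne_neg x).symm⟩

lemma isCoboundary₂_sub {f f' : G × G → A} (hf : IsCoboundary₂ f) (hf' : IsCoboundary₂ f') :
    IsCoboundary₂ (f - f') := by
  rw [sub_eq_add_neg]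
  exact isCoboundary₂_add hf (isCoboundary₂_neg hf')

lemma isCocycle₂_of_isCoboundary₂ {f : G × G → A} (hf : IsCoboundary₂ f) : IsCocycle₂ f := by
  obtain ⟨x, rfl⟩ := (isCoboundary₂_iff _).1 hf
  exact isCocycle₂_dOne x

/-- `f (1, g) = f (1, 1)` for a 2-cocycle. -/
lemma cocycle_one_fst {f : G × G → A} (hf : IsCocycle₂ f) (g : G) : f (1, g) = f (1, 1) := by
  have := hf 1 1 g
  simp only [one_mul, one_smul] at this
  linear_combination (norm := abel) -this

/-- `f (g, 1) = g • f (1, 1)` for a 2-cocycle. -/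
lemma cocycle_one_snd {f : G × G → A} (hf : IsCocycle₂ f) (g : G) : f (g, 1) = g • f (1, 1) := by
  have := hf g 1 1
  simp only [mul_one] at this
  linear_combination (norm := abel) this

end Basic

/-! ## Transversals -/

section Transversal

variable {G : Type*} [Group G] (H : Subgroup G)

/-- A representative of the left coset `g H`. -/
noncomputable def trep (g : G) : G := (QuotientGroup.mk g : G ⧸ H).out

lemma trep_inv_mul_mem (g : G) : (trep H g)⁻¹ * g ∈ H := by
  have h : (QuotientGroup.mk (trep H g) : G ⧸ H) = QuotientGroup.mk g := by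
    unfold trep
    exact QuotientGroup.out_eq' _
  exact QuotientGroup.eq.1 h

lemma trep_mul (g : G) {h : G} (hh : h ∈ H) : trep H (g * h) = trep H g := by
  unfold trep
  congr 1
  refine QuotientGroup.eq.2 ?_
  have : (g * h)⁻¹ * g = h⁻¹ := by group
  rw [this]
  exact H.inv_mem hh

lemma trep_of_mem {h : G} (hh : h ∈ H) : trep H h = trep H 1 := by
  have := trep_mul H 1 hh
  rwa [one_mul] at this

lemma trep_one_mem : trep H 1 ∈ H := by
  have := trep_inv_mul_mem H 1
  rw [mul_one] at this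
  exact (H.inv_mem_iff).1 this

lemma eq_trep_mul (g : G) : g = trep H g * ((trep H g)⁻¹ * g) := by group

end Transversal

/-! ## Level inflation–restriction in degree 2 -/

section InfRes

variable {G A : Type*} [Group G] [AddCommGroup A] [DistribMulAction G A]

/-- **Step B.** If the restriction of the 2-cocycle `f` to the subgroup `H` is the coboundary of
`u`, then `f` is cohomologous to a cocycle vanishing on `G × H`.  The primitive is right-invariant
under every subgroup `V ≤ H` under which `u` and the second variable of `f` are. -/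
theorem exists_dOne_sub_snd_eq_zero (H : Subgroup G) {f : G × G → A} (hf : IsCocycle₂ f)
    (u : G → A) (hu : ∀ h ∈ H, ∀ h' ∈ H, h • u h' - u (h * h') + u h = f (h, h')) :
    ∃ x : G → A, (∀ (g h : G), h ∈ H → f (g, h) - dOne x (g, h) = 0) ∧
      ∀ V : Subgroup G, V ≤ H → (∀ g g' : G, ∀ v ∈ V, f (g, g' * v) = f (g, g')) →
        (∀ g : G, ∀ v ∈ V, u (g * v) = u g) → ∀ g : G, ∀ v ∈ V, x (g * v) = x g := by
  classical
  refine ⟨fun g => trep H g • u ((trep H g)⁻¹ * g) - f (trep H g, (trep H g)⁻¹ * g)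
    + u (trep H 1), fun g h hh => ?_, fun V hVH hfV huV g v hv => ?_⟩
  · set t := trep H g with ht
    set k := t⁻¹ * g with hk
    have hkH : k ∈ H := trep_inv_mul_mem H g
    have ht0 : trep H 1 ∈ H := trep_one_mem H
    have hg : g = t * k := by rw [hk]; group
    -- value at `h ∈ H`
    have hxh : trep H h • u ((trep H h)⁻¹ * h) - f (trep H h, (trep H h)⁻¹ * h) + u (trep H 1)
        = u h := by
      rw [trep_of_mem H hh]
      have h1 := hu (trep H 1) ht0 ((trep H 1)⁻¹ * h) (H.mul_mem (H.inv_mem ht0) hh)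
      rw [mul_inv_cancel_left] at h1
      linear_combination (norm := abel) h1
    -- value at `g * h`
    have hxgh : trep H (g * h) • u ((trep H (g * h))⁻¹ * (g * h))
        - f (trep H (g * h), (trep H (g * h))⁻¹ * (g * h)) + u (trep H 1)
        = t • u (k * h) - f (t, k * h) + u (trep H 1) := by
      rw [trep_mul H g hh, ← ht]
      have : t⁻¹ * (g * h) = k * h := by rw [hk]; group
      rw [this]
    have h2 := hu k hkH h hh
    have h3 := hf t k h
    have h2' : t • (k • u h) - t • u (k * h) + t • u k = t • f (k, h) := by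
      rw [← h2, smul_add, smul_sub]
    have hgk : g • u h = t • (k • u h) := by rw [hg, mul_smul]
    simp only [dOne_apply]
    rw [hxh, hxgh, hgk]
    have hfg : f (g, h) = f (t * k, h) := by rw [← hg]
    rw [hfg]
    linear_combination (norm := abel) h3 - h2'
  · have hvH : v ∈ H := hVH hv
    have e : (trep H g)⁻¹ * (g * v) = (trep H g)⁻¹ * g * v := by group
    show trep H (g * v) • u ((trep H (g * v))⁻¹ * (g * v))
        - f (trep H (g * v), (trep H (g * v))⁻¹ * (g * v)) + u (trep H 1)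
      = trep H g • u ((trep H g)⁻¹ * g) - f (trep H g, (trep H g)⁻¹ * g) + u (trep H 1)
    rw [trep_mul H g hvH, e, huV _ v hv, hfV _ _ v hv]

/-- Right invariance in the second variable of a cocycle vanishing on `G × H`. -/
lemma snd_mul_of_snd_eq_zero (H : Subgroup G) {f : G × G → A} (hf : IsCocycle₂ f)
    (hfH : ∀ (g h : G), h ∈ H → f (g, h) = 0) (g₁ g₂ : G) {h : G} (hh : h ∈ H) :
    f (g₁, g₂ * h) = f (g₁, g₂) := by
  have h1 := hf g₁ g₂ h
  rw [hfH _ h hh, hfH _ h hh, smul_zero] at h1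
  linear_combination (norm := abel) -h1

/-- **Step C.** If `H` is normal, `H¹(H, A) = 0` on the class `L` of cochains and the cocycle `f`
vanishes on `G × H`, with all `h ↦ f (h, g)` in `L`, then `f` is cohomologous, through a
right-`H`-invariant cochain, to a cocycle vanishing on `G × H` and on `H × G`. -/
theorem exists_dOne_sub_both_eq_zero (H : Subgroup G) [hN : H.Normal] (L : (G → A) → Prop)
    (H1van : ∀ φ : G → A, (∀ h ∈ H, ∀ h' ∈ H, φ (h * h') = h • φ h' + φ h) → L φ →
      ∃ a : A, ∀ h ∈ H, h • a - a = φ h)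
    {f : G × G → A} (hf : IsCocycle₂ f) (hfH : ∀ (g h : G), h ∈ H → f (g, h) = 0)
    (hL : ∀ g : G, L (fun h => f (h, g))) :
    ∃ x : G → A, (∀ (g h : G), h ∈ H → x (g * h) = x g) ∧ ∀ (g h : G), h ∈ H →
      f (g, h) - dOne x (g, h) = 0 ∧ f (h, g) - dOne x (h, g) = 0 := by
  classical
  have hinv := snd_mul_of_snd_eq_zero H hf hfH
  have hcoc : ∀ g : G, ∀ h ∈ H, ∀ h' ∈ H, f (h * h', g) = h • f (h', g) + f (h, g) := by
    intro g h hh h' hh'
    have h1 := hf h h' g
    have h2 : f (h, h' * g) = f (h, g) := by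
      have : h' * g = g * (g⁻¹ * h' * g) := by group
      rw [this]
      refine hinv h g ?_
      have := hN.conj_mem h' hh' g⁻¹
      rwa [inv_inv] at this
    rw [hfH h h' hh', h2] at h1
    linear_combination (norm := abel) h1
  choose a' ha' using fun g : G => H1van (fun h => f (h, g)) (hcoc g) (hL g)
  have ht0 : trep H 1 ∈ H := trep_one_mem H
  -- `a' (trep g)` is a primitive of `h ↦ f (h, g)` too
  have ha : ∀ g : G, ∀ h ∈ H, h • a' (trep H g) - a' (trep H g) = f (h, g) := by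
    intro g h hh
    rw [ha' (trep H g) h hh]
    conv_rhs => rw [eq_trep_mul H g]
    exact (hinv h (trep H g) (trep_inv_mul_mem H g)).symm
  have hc0 : ∀ h ∈ H, h • a' (trep H 1) = a' (trep H 1) := by
    intro h hh
    have h1 := ha' (trep H 1) h hh
    have h2 : f (h, trep H 1) = 0 := hfH h _ ht0
    rw [h2] at h1
    exact sub_eq_zero.1 h1
  refine ⟨fun g => a' (trep H g) - a' (trep H 1), fun g h hh => ?_, fun g h hh => ?_⟩
  · show a' (trep H (g * h)) - a' (trep H 1) = a' (trep H g) - a' (trep H 1)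
    rw [trep_mul H g hh]
  have hvh : a' (trep H h) - a' (trep H 1) = 0 := by rw [trep_of_mem H hh, sub_self]
  have hvgh : a' (trep H (g * h)) = a' (trep H g) := by rw [trep_mul H g hh]
  have hvhg : a' (trep H (h * g)) = a' (trep H g) := by
    have : h * g = g * (g⁻¹ * h * g) := by group
    rw [this]
    refine congrArg a' (trep_mul H g ?_)
    have := hN.conj_mem h hh g⁻¹
    rwa [inv_inv] at this
  constructor
  · simp only [dOne_apply]
    rw [hvh, hvgh, hfH g h hh, smul_zero]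
    abel
  · simp only [dOne_apply]
    rw [hvh, hvhg, smul_sub, hc0 h hh]
    have := ha g h hh
    linear_combination (norm := abel) -this

/-- **Step D.** A cocycle vanishing on `G × H` and `H × G` (`H` normal) is right `H`-invariant in
both variables and takes `H`-fixed values. -/
theorem inflated_of_both_eq_zero (H : Subgroup G) [hN : H.Normal]
    {f : G × G → A} (hf : IsCocycle₂ f) (hfH : ∀ (g h : G), h ∈ H → f (g, h) = 0)
    (hfH' : ∀ (g h : G), h ∈ H → f (h, g) = 0) :
    (∀ (g₁ g₂ h : G), h ∈ H → f (g₁, g₂ * h) = f (g₁, g₂)) ∧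
    (∀ (g₁ g₂ h : G), h ∈ H → f (g₁ * h, g₂) = f (g₁, g₂)) ∧
    (∀ (g₁ g₂ h : G), h ∈ H → h • f (g₁, g₂) = f (g₁, g₂)) := by
  have h1 : ∀ (g₁ g₂ h : G), h ∈ H → f (g₁, g₂ * h) = f (g₁, g₂) :=
    fun g₁ g₂ h hh => snd_mul_of_snd_eq_zero H hf hfH g₁ g₂ hh
  have h2 : ∀ (g₁ g₂ h : G), h ∈ H → f (g₁ * h, g₂) = f (g₁, g₂) := by
    intro g₁ g₂ h hh
    have e := hf g₁ h g₂
    rw [hfH g₁ h hh, hfH' g₂ h hh, smul_zero] at e
    have e2 : f (g₁, h * g₂) = f (g₁, g₂) := by
      have : h * g₂ = g₂ * (g₂⁻¹ * h * g₂) := by group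
      rw [this]
      refine h1 g₁ g₂ _ ?_
      have := hN.conj_mem h hh g₂⁻¹
      rwa [inv_inv] at this
    rw [e2] at e
    linear_combination (norm := abel) e
  refine ⟨h1, h2, fun g₁ g₂ h hh => ?_⟩
  have e := hf h g₁ g₂
  rw [hfH' g₁ h hh, hfH' (g₁ * g₂) h hh] at e
  have e2 : f (h * g₁, g₂) = f (g₁, g₂) := by
    have : h * g₁ = g₁ * (g₁⁻¹ * h * g₁) := by group
    rw [this]
    refine h2 g₁ g₂ _ ?_
    have := hN.conj_mem h hh g₁⁻¹
    rwa [inv_inv] at this
  rw [e2] at e
  linear_combination (norm := abel) -e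

/-- **(LIR) Level inflation–restriction in degree 2.**
`N`, `U ≤ N` normal subgroups of `G`; `P` a family of subgroups ("levels") with pairwise lower
bounds, containing `U`, such that every element of `A` is fixed by a level.  Assume `H¹(N, A) = 0`
on level cocycles.  If the 2-cocycle `f` is right-`U`-invariant and its restriction to `N` is the
coboundary of a right-`U`-invariant cochain `u`, then there is a right-`U`-invariant `x` such that
`f - d x` is `N`-inflated: right-`N`-invariant in both variables with `N`-fixed values. -/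
theorem exists_rinv_sub_dOne_inflated (N U : Subgroup G) [hN : N.Normal] [hUn : U.Normal]
    (hUN : U ≤ N) (P : Subgroup G → Prop)
    (hP : ∀ V W : Subgroup G, P V → P W → ∃ X, P X ∧ X ≤ V ⊓ W) (hPU : P U)
    (hsm : ∀ a : A, ∃ V, P V ∧ ∀ v ∈ V, v • a = a)
    (H1van : ∀ φ : G → A, (∀ h ∈ N, ∀ h' ∈ N, φ (h * h') = h • φ h' + φ h) →
      (∃ V, P V ∧ ∀ g : G, ∀ v ∈ V, φ (g * v) = φ g) → ∃ a : A, ∀ h ∈ N, h • a - a = φ h)
    {f : G × G → A} (hf : IsCocycle₂ f)
    (hfU : ∀ g g' : G, ∀ v ∈ U, ∀ v' ∈ U, f (g * v, g' * v') = f (g, g'))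
    (u : G → A) (huU : ∀ g : G, ∀ v ∈ U, u (g * v) = u g)
    (hu : ∀ h ∈ N, ∀ h' ∈ N, h • u h' - u (h * h') + u h = f (h, h')) :
    ∃ x : G → A, (∀ g : G, ∀ v ∈ U, x (g * v) = x g) ∧
      (∀ g g' : G, ∀ m ∈ N, ∀ m' ∈ N,
        f (g * m, g' * m') - dOne x (g * m, g' * m') = f (g, g') - dOne x (g, g')) ∧
      (∀ g g' : G, ∀ m ∈ N, m • (f (g, g') - dOne x (g, g')) = f (g, g') - dOne x (g, g')) := by
  classical
  obtain ⟨x₁, hx₁, hx₁V⟩ := exists_dOne_sub_snd_eq_zero N hf u hu
  have hx₁U : ∀ g : G, ∀ v ∈ U, x₁ (g * v) = x₁ g :=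
    hx₁V U hUN (fun g g' v hv => by simpa using hfU g g' 1 (one_mem _) v hv) huU
  have hf₁ : IsCocycle₂ (f - dOne x₁) := isCocycle₂_sub hf (isCocycle₂_dOne x₁)
  -- the cochains `h ↦ f₁ (h, g')` are level-constant
  have hL : ∀ g' : G, ∃ V, P V ∧ ∀ h : G, ∀ v ∈ V,
      (f - dOne x₁) (h * v, g') = (f - dOne x₁) (h, g') := by
    intro g'
    obtain ⟨V₀, hV₀, hfix⟩ := hsm (x₁ g')
    obtain ⟨W, hW, hWle⟩ := hP U V₀ hPU hV₀
    refine ⟨W, hW, fun h v hv => ?_⟩
    have hvU : v ∈ U := (hWle hv).1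
    have hvV : v ∈ V₀ := (hWle hv).2
    have e1 : f (h * v, g') = f (h, g') := by simpa using hfU h g' v hvU 1 (one_mem _)
    have e2 : (h * v) • x₁ g' = h • x₁ g' := by rw [mul_smul, hfix v hvV]
    have e3 : x₁ (h * v * g') = x₁ (h * g') := by
      have hc : h * v * g' = h * g' * (g'⁻¹ * v * g') := by group
      rw [hc]
      refine hx₁U _ _ ?_
      have := hUn.conj_mem v hvU g'⁻¹
      rwa [inv_inv] at this
    have e4 : x₁ (h * v) = x₁ h := hx₁U h v hvU
    simp only [Pi.sub_apply, dOne_apply]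
    rw [e1, e2, e3, e4]
  obtain ⟨x₂, hx₂N, hx₂⟩ := exists_dOne_sub_both_eq_zero N
    (fun φ => ∃ V, P V ∧ ∀ g : G, ∀ v ∈ V, φ (g * v) = φ g) H1van hf₁
    (fun g h hh => by simpa using hx₁ g h hh) hL
  set f₂ : G × G → A := f - dOne x₁ - dOne x₂ with hf₂def
  have hf₂ : IsCocycle₂ f₂ := isCocycle₂_sub hf₁ (isCocycle₂_dOne x₂)
  have hz1 : ∀ (g h : G), h ∈ N → f₂ (g, h) = 0 := fun g h hh => by
    simpa [hf₂def] using (hx₂ g h hh).1
  have hz2 : ∀ (g h : G), h ∈ N → f₂ (h, g) = 0 := fun g h hh => by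
    simpa [hf₂def] using (hx₂ g h hh).2
  obtain ⟨hr2, hr1, hfix⟩ := inflated_of_both_eq_zero N hf₂ hz1 hz2
  have hval : ∀ g g' : G, f (g, g') - dOne (x₁ + x₂) (g, g') = f₂ (g, g') := by
    intro g g'
    simp only [hf₂def, dOne_add, Pi.add_apply, Pi.sub_apply]
    abel
  refine ⟨x₁ + x₂, fun g v hv => ?_, fun g g' m hm m' hm' => ?_, fun g g' m hm => ?_⟩
  · simp only [Pi.add_apply]
    rw [hx₁U g v hv, hx₂N g v (hUN hv)]
  · rw [hval, hval, hr1 g _ m hm, hr2 g g' m' hm']
  · rw [hval, hfix g g' m hm]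

end InfRes

/-! ## The relative cyclic step -/

section RelCyc

variable {G A : Type*} [Group G] [AddCommGroup A] [DistribMulAction G A]
variable {n : ℕ} {χ : G → ZMod n}

lemma chi_one (hχ : ∀ g h, χ (g * h) = χ g + χ h) : χ 1 = 0 := by
  have h := hχ 1 1
  rw [mul_one] at h
  exact left_eq_add.mp h

lemma chi_inv (hχ : ∀ g h, χ (g * h) = χ g + χ h) (g : G) : χ g⁻¹ = -χ g := by
  have h := hχ g g⁻¹
  rw [mul_inv_cancel, chi_one hχ] at h
  exact eq_neg_of_add_eq_zero_right h.symm

lemma chi_pow (hχ : ∀ g h, χ (g * h) = χ g + χ h) {s : G} (hs : χ s = 1) (i : ℕ) :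
    χ (s ^ i) = (i : ZMod n) := by
  induction i with
  | zero => simp [chi_one hχ]
  | succ i ih => rw [pow_succ, hχ, ih, hs]; push_cast; rfl

lemma chi_pow_self (hχ : ∀ g h, χ (g * h) = χ g + χ h) {s : G} (hs : χ s = 1) :
    χ (s ^ n) = 0 := by
  rw [chi_pow hχ hs, ZMod.natCast_self]

lemma chi_conj (hχ : ∀ g h, χ (g * h) = χ g + χ h) (g : G) {m : G} (hm : χ m = 0) :
    χ (g⁻¹ * m * g) = 0 := by
  rw [hχ, hχ, chi_inv hχ, hm, add_zero, neg_add_cancel]

/-- The kernel of an additive character `χ : G → ZMod n`, as a subgroup. -/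
def chiKer (χ : G → ZMod n) (hχ : ∀ g h, χ (g * h) = χ g + χ h) : Subgroup G where
  carrier := {g | χ g = 0}
  mul_mem' := fun {a b} ha hb => by
    show χ (a * b) = 0
    rw [hχ, show χ a = 0 from ha, show χ b = 0 from hb, add_zero]
  one_mem' := chi_one hχ
  inv_mem' := fun {a} ha => by
    show χ a⁻¹ = 0
    rw [chi_inv hχ, show χ a = 0 from ha, neg_zero]

lemma mem_chiKer (hχ : ∀ g h, χ (g * h) = χ g + χ h) (g : G) :
    g ∈ chiKer χ hχ ↔ χ g = 0 := Iff.rfl

instance chiKer_normal (hχ : ∀ g h, χ (g * h) = χ g + χ h) : (chiKer χ hχ).Normal where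
  conj_mem := fun m hm g => by
    show χ (g * m * g⁻¹) = 0
    have := chi_conj hχ g⁻¹ (show χ m = 0 from hm)
    rwa [inv_inv] at this

variable [NeZero n]

/-- Every element is a power of `s` times an element of the kernel. -/
lemma exists_eq_pow_mul (hχ : ∀ g h, χ (g * h) = χ g + χ h) {s : G} (hs : χ s = 1) (g : G) :
    ∃ m : G, χ m = 0 ∧ g = s ^ (χ g).val * m := by
  refine ⟨(s ^ (χ g).val)⁻¹ * g, ?_, by group⟩
  rw [hχ, chi_inv hχ, chi_pow hχ hs, ZMod.natCast_zmod_val, neg_add_cancel]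

section inflated

variable (hχ : ∀ g h, χ (g * h) = χ g + χ h) {s : G} (hs : χ s = 1)
  {f : G × G → A} (hf : IsCocycle₂ f)
  (hfN : ∀ g g' m m' : G, χ m = 0 → χ m' = 0 → f (g * m, g' * m') = f (g, g'))
  (hfix : ∀ g g' m : G, χ m = 0 → m • f (g, g') = f (g, g'))

include hfix in
omit [NeZero n] in
lemma smul_psum_of_chi_eq_zero (k : ℕ) {m : G} (hm : χ m = 0) :
    m • psum s f k = psum s f k := by
  unfold psum
  rw [smul_sum]
  exact sum_congr rfl fun j _ => hfix _ _ m hm

include hχ hs hfN in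
omit [NeZero n] [DistribMulAction G A] in
lemma psum_add_period (k : ℕ) : psum s f (k + n) = psum s f k + psum s f n := by
  unfold psum
  rw [add_comm k n, sum_range_add, add_comm]
  congr 1
  refine sum_congr rfl fun j _ => ?_
  have h := hfN (s ^ j) s (s ^ n) 1 (chi_pow_self hχ hs) (chi_one hχ)
  rw [mul_one, ← pow_add, add_comm j n] at h
  exact h

include hχ hs hfN in
omit [NeZero n] [DistribMulAction G A] in
lemma psum_add_mul_period (k m : ℕ) : psum s f (k + m * n) = psum s f k + m • psum s f n := by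
  induction m with
  | zero => simp
  | succ m ih =>
    rw [add_mul, one_mul, ← add_assoc, psum_add_period hχ hs hfN, ih, succ_nsmul, add_assoc]

include hχ hs hf hfN in
omit [NeZero n] in
lemma pow_smul_psum_self (i : ℕ) : s ^ i • psum s f n = psum s f n := by
  have h1 : f (s ^ i, s ^ n) = s ^ i • (f (1, 1) - psum s f n) - (f (1, 1) - psum s f (i + n))
      + (f (1, 1) - psum s f i) :=
    helper6440.cocycle_pow_formula (ρ := DistribMulAction.toAddMonoidEnd G A) hf s i n
  have e1 : f (s ^ i, s ^ n) = s ^ i • f (1, 1) := by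
    have h := hfN (s ^ i) 1 1 (s ^ n) (chi_one hχ) (chi_pow_self hχ hs)
    rw [mul_one, one_mul] at h
    rw [h, cocycle_one_snd hf]
  rw [e1, psum_add_period hχ hs hfN, smul_sub] at h1
  linear_combination (norm := abel) h1

include hχ hs hf hfN hfix in
/-- The element `a = ∑_{j<n} f (s^j, s)` attached to an inflated 2-cocycle is `G`-fixed. -/
lemma smul_psum_self (g : G) : g • psum s f n = psum s f n := by
  obtain ⟨m, hm, hg⟩ := exists_eq_pow_mul hχ hs g
  have : g • psum s f n = (s ^ (χ g).val * m) • psum s f n := by rw [← hg]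
  rw [this, mul_smul, smul_psum_of_chi_eq_zero hfix n hm, pow_smul_psum_self hχ hs hf hfN]

include hχ hs hf hfN hfix in
/-- **(RCYC) The relative cyclic step.**  A 2-cocycle inflated from the cyclic quotient
`G / {χ = 0}` differs from the cyclic cocycle `cyc χ a`, `a = ∑_{j<n} f (s^j, s)`, by the
coboundary of `g ↦ f (1,1) - ∑_{j<(χ g).val} f (s^j, s)`. -/
theorem inflated_eq_cyc_add_dOne (g h : G) :
    f (g, h) = cyc χ (psum s f n) (g, h)
      + dOne (fun g => f (1, 1) - psum s f (χ g).val) (g, h) := by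
  obtain ⟨m, hm, hg⟩ := exists_eq_pow_mul hχ hs g
  obtain ⟨m', hm', hh⟩ := exists_eq_pow_mul hχ hs h
  have ef : f (g, h) = f (s ^ (χ g).val, s ^ (χ h).val) := by
    have h0 := hfN (s ^ (χ g).val) (s ^ (χ h).val) m m' hm hm'
    rw [← hg, ← hh] at h0
    exact h0
  have h1 : f (s ^ (χ g).val, s ^ (χ h).val)
      = s ^ (χ g).val • (f (1, 1) - psum s f (χ h).val)
        - (f (1, 1) - psum s f ((χ g).val + (χ h).val)) + (f (1, 1) - psum s f (χ g).val) :=
    helper6440.cocycle_pow_formula (ρ := DistribMulAction.toAddMonoidEnd G A) hf s _ _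
  have hc := helper6440.val_add_carry (χ g) (χ h)
  rw [← hχ] at hc
  have ep : psum s f ((χ g).val + (χ h).val)
      = psum s f (χ (g * h)).val + carry n (χ g) (χ h) • psum s f n := by
    rw [← hc, mul_comm n, psum_add_mul_period hχ hs hfN]
  have eg : g • (f (1, 1) - psum s f (χ h).val)
      = s ^ (χ g).val • (f (1, 1) - psum s f (χ h).val) := by
    have : g • (f (1, 1) - psum s f (χ h).val)
        = (s ^ (χ g).val * m) • (f (1, 1) - psum s f (χ h).val) := by rw [← hg]
    rw [this, mul_smul, smul_sub, hfix 1 1 m hm, smul_psum_of_chi_eq_zero hfix _ hm]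
  rw [ef, h1, ep, helper6440.cyc_apply, dOne_apply, eg]
  abel

end inflated

/-! ### Norms -/

section norm

variable (hχ : ∀ g h, χ (g * h) = χ g + χ h) {s : G} (hs : χ s = 1)
  {b : A} (hb : ∀ m : G, χ m = 0 → m • b = b)

omit [NeZero n] in
lemma sum_pow_smul_add (s : G) (b : A) (i k : ℕ) :
    ∑ j ∈ range (i + k), s ^ j • b
      = ∑ j ∈ range i, s ^ j • b + s ^ i • ∑ j ∈ range k, s ^ j • b := by
  rw [sum_range_add, smul_sum]
  congr 1
  exact sum_congr rfl fun j _ => by rw [pow_add, mul_smul]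

include hχ hb in
omit [NeZero n] in
lemma smul_sum_pow_smul (k : ℕ) {m : G} (hm : χ m = 0) :
    m • ∑ j ∈ range k, s ^ j • b = ∑ j ∈ range k, s ^ j • b := by
  rw [smul_sum]
  refine sum_congr rfl fun j _ => ?_
  have e : m * s ^ j = s ^ j * ((s ^ j)⁻¹ * m * s ^ j) := by group
  rw [← mul_smul, e, mul_smul, hb _ (chi_conj hχ _ hm)]

include hχ hs hb in
omit [NeZero n] in
lemma sum_pow_smul_add_mul_period (k m : ℕ) :
    ∑ j ∈ range (k + m * n), s ^ j • b
      = ∑ j ∈ range k, s ^ j • b + m • ∑ j ∈ range n, s ^ j • b := by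
  induction m with
  | zero => simp
  | succ m ih =>
    have e : k + (m + 1) * n = n + (k + m * n) := by ring
    rw [e, sum_pow_smul_add, smul_sum_pow_smul hχ hb _ (chi_pow_self hχ hs), ih, succ_nsmul]
    abel

include hχ hs hb in
/-- **(BK1, ⇐)**: the cyclic cocycle of a norm `∑_{j<n} s^j • b` (`b` fixed by the kernel) is the
coboundary of `g ↦ ∑_{j<(χ g).val} s^j • b`. -/
theorem cyc_nsum_eq_dOne (g h : G) :
    cyc χ (∑ j ∈ range n, s ^ j • b) (g, h)
      = dOne (fun g => ∑ j ∈ range (χ g).val, s ^ j • b) (g, h) := by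
  obtain ⟨m, hm, hg⟩ := exists_eq_pow_mul hχ hs g
  have hc := helper6440.val_add_carry (χ g) (χ h)
  rw [← hχ] at hc
  have h1 := sum_pow_smul_add s b (χ g).val (χ h).val
  rw [← hc, mul_comm n, sum_pow_smul_add_mul_period hχ hs hb] at h1
  have eg : g • ∑ j ∈ range (χ h).val, s ^ j • b
      = s ^ (χ g).val • ∑ j ∈ range (χ h).val, s ^ j • b := by
    have : g • ∑ j ∈ range (χ h).val, s ^ j • b
        = (s ^ (χ g).val * m) • ∑ j ∈ range (χ h).val, s ^ j • b := by rw [← hg]
    rw [this, mul_smul, smul_sum_pow_smul hχ hb _ hm]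
  rw [helper6440.cyc_apply, dOne_apply, eg]
  linear_combination (norm := abel) h1

include hχ hs in
/-- **(BK1, ⇒)**: if the cyclic cocycle `cyc χ a` is the coboundary of `x`, and the restriction of
`x` to the kernel of `χ` is the coboundary of `c`, then `a` is the norm of an element fixed by the
kernel. -/
theorem exists_norm_of_cyc_eq_dOne {a : A} (ha : ∀ m : G, χ m = 0 → m • a = a)
    (x : G → A) (hx : ∀ g h : G, dOne x (g, h) = cyc χ a (g, h))
    (c : A) (hc : ∀ h : G, χ h = 0 → x h = h • c - c) :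
    ∃ b : A, (∀ m : G, χ m = 0 → m • b = b) ∧ a = ∑ j ∈ range n, s ^ j • b := by
  by_cases hn1 : n = 1
  · refine ⟨a, ha, ?_⟩
    subst hn1
    simp
  set x' : G → A := fun g => x g - (g • c - c) with hx'def
  have hx' : ∀ g h : G, g • x' h - x' (g * h) + x' g = carry n (χ g) (χ h) • a := by
    intro g h
    have := hx g h
    rw [dOne_apply, helper6440.cyc_apply] at this
    rw [← this]
    simp only [hx'def, smul_sub, mul_smul]
    abel
  have hx0 : ∀ m : G, χ m = 0 → x' m = 0 := by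
    intro m hm
    simp only [hx'def]
    rw [hc m hm, sub_self]
  have hxr : ∀ g m : G, χ m = 0 → x' (g * m) = x' g := by
    intro g m hm
    have := hx' g m
    rw [hx0 m hm, hm, helper6440.carry_zero_right, zero_smul, smul_zero] at this
    linear_combination (norm := abel) -this
  have hxfix : ∀ m : G, χ m = 0 → m • x' s = x' s := by
    intro m hm
    have := hx' m s
    rw [hx0 m hm, hm, helper6440.carry_zero_left, zero_smul] at this
    have e : x' (m * s) = x' s := by
      have e' : m * s = s * (s⁻¹ * m * s) := by group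
      rw [e']
      exact hxr s _ (chi_conj hχ s hm)
    rw [e] at this
    linear_combination (norm := abel) this
  refine ⟨x' s, hxfix, ?_⟩
  have key : ∑ j ∈ range n, (s ^ j • x' s - x' (s ^ j * s) + x' (s ^ j))
      = ∑ j ∈ range n, carry n (j : ZMod n) 1 • a :=
    sum_congr rfl fun j _ => by rw [hx' (s ^ j) s, chi_pow hχ hs, hs]
  rw [helper6440.sum_carry_one hn1 (NeZero.ne n) a] at key
  have ht : ∑ j ∈ range n, (x' (s ^ (j + 1)) - x' (s ^ j)) = x' (s ^ n) - x' (s ^ 0) :=
    sum_range_sub (fun j => x' (s ^ j)) n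
  rw [hx0 _ (chi_pow_self hχ hs), pow_zero, hx0 _ (chi_one hχ), sub_self] at ht
  have hL : ∑ j ∈ range n, (s ^ j • x' s - x' (s ^ j * s) + x' (s ^ j))
      = ∑ j ∈ range n, s ^ j • x' s - ∑ j ∈ range n, (x' (s ^ (j + 1)) - x' (s ^ j)) := by
    rw [← sum_sub_distrib]
    refine sum_congr rfl fun j _ => ?_
    rw [pow_succ]
    abel
  rw [hL, ht, sub_zero] at key
  exact key.symm

end norm

end RelCyc

/-! ## The level-form cyclic step (additive surface) -/

section LevelCyc

variable {G A : Type*} [Group G] [AddCommGroup A] [DistribMulAction G A]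
variable {n : ℕ} [NeZero n] {χ : G → ZMod n}

/-- **(BK2) The level-form cyclic step.**  `χ : G → ZMod n` additive with `χ s = 1`; `U` a normal
subgroup of `G` inside the kernel of `χ`; `P` a family of subgroups ("levels") with pairwise lower
bounds, containing `U`, such that every element of `A` is fixed by a level; `H¹(ker χ, A) = 0` on
level cocycles.  If the 2-cocycle `f` is right-`U`-invariant and its restriction to `ker χ` is the
coboundary of a right-`U`-invariant cochain, then `f = cyc χ a + d x` with `a` fixed by `G` and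
`x` right-`U`-invariant. -/
theorem exists_cyc_add_dOne_of_res (hχ : ∀ g h, χ (g * h) = χ g + χ h) {s : G} (hs : χ s = 1)
    (U : Subgroup G) [U.Normal] (hUχ : ∀ v ∈ U, χ v = 0) (P : Subgroup G → Prop)
    (hP : ∀ V W : Subgroup G, P V → P W → ∃ X, P X ∧ X ≤ V ⊓ W) (hPU : P U)
    (hsm : ∀ a : A, ∃ V, P V ∧ ∀ v ∈ V, v • a = a)
    (H1van : ∀ φ : G → A, (∀ h h' : G, χ h = 0 → χ h' = 0 → φ (h * h') = h • φ h' + φ h) →
      (∃ V, P V ∧ ∀ g : G, ∀ v ∈ V, φ (g * v) = φ g) →
      ∃ a : A, ∀ h : G, χ h = 0 → h • a - a = φ h)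
    {f : G × G → A} (hf : IsCocycle₂ f)
    (hfU : ∀ g g' : G, ∀ v ∈ U, ∀ v' ∈ U, f (g * v, g' * v') = f (g, g'))
    (u : G → A) (huU : ∀ g : G, ∀ v ∈ U, u (g * v) = u g)
    (hu : ∀ h h' : G, χ h = 0 → χ h' = 0 → h • u h' - u (h * h') + u h = f (h, h')) :
    ∃ (a : A) (x : G → A), (∀ g : G, g • a = a) ∧ (∀ g : G, ∀ v ∈ U, x (g * v) = x g) ∧
      ∀ g h : G, f (g, h) = cyc χ a (g, h) + dOne x (g, h) := by
  obtain ⟨x, hxU, hinfl, hfix⟩ := exists_rinv_sub_dOne_inflated (chiKer χ hχ) U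
    (fun v hv => hUχ v hv) P hP hPU hsm
    (fun φ hφ hlev => by
      obtain ⟨a, ha⟩ := H1van φ (fun h h' hh hh' => hφ h hh h' hh') hlev
      exact ⟨a, fun h hh => ha h hh⟩)
    hf hfU u huU (fun h hh h' hh' => hu h h' hh hh')
  have hf₂ : IsCocycle₂ (f - dOne x) := isCocycle₂_sub hf (isCocycle₂_dOne x)
  have hN₂ : ∀ g g' m m' : G, χ m = 0 → χ m' = 0 →
      (f - dOne x) (g * m, g' * m') = (f - dOne x) (g, g') :=
    fun g g' m m' hm hm' => hinfl g g' m hm m' hm'
  have hfix₂ : ∀ g g' m : G, χ m = 0 → m • (f - dOne x) (g, g') = (f - dOne x) (g, g') :=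
    fun g g' m hm => hfix g g' m hm
  refine ⟨psum s (f - dOne x) n,
    x + fun g => (f - dOne x) (1, 1) - psum s (f - dOne x) (χ g).val,
    smul_psum_self hχ hs hf₂ hN₂ hfix₂, fun g v hv => ?_, fun g h => ?_⟩
  · simp only [Pi.add_apply]
    rw [hxU g v hv, hχ g v, hUχ v hv, add_zero]
  · have key := inflated_eq_cyc_add_dOne hχ hs hf₂ hN₂ hfix₂ g h
    rw [dOne_add, Pi.add_apply, ← add_assoc, add_right_comm, ← key, Pi.sub_apply]
    abel

/-- **(BK1) Norm criterion, level form.**  For `a` fixed by `G`: the cyclic cocycle `cyc χ a` is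
the coboundary of a level cochain iff `a` is the norm `∑_{j<n} s^j • b` of an element `b` fixed by
the kernel of `χ`.  (`H¹` vanishing is only used for `→`, and `P U` only for `←`.) -/
theorem cyc_eq_dOne_iff_norm (hχ : ∀ g h, χ (g * h) = χ g + χ h) {s : G} (hs : χ s = 1)
    (U : Subgroup G) (hUχ : ∀ v ∈ U, χ v = 0) (P : Subgroup G → Prop) (hPU : P U)
    (H1van : ∀ φ : G → A, (∀ h h' : G, χ h = 0 → χ h' = 0 → φ (h * h') = h • φ h' + φ h) →
      (∃ V, P V ∧ ∀ g : G, ∀ v ∈ V, φ (g * v) = φ g) →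
      ∃ a : A, ∀ h : G, χ h = 0 → h • a - a = φ h)
    {a : A} (ha : ∀ g : G, g • a = a) :
    (∃ x : G → A, (∃ V, P V ∧ ∀ g : G, ∀ v ∈ V, x (g * v) = x g) ∧
        ∀ g h : G, dOne x (g, h) = cyc χ a (g, h)) ↔
      ∃ b : A, (∀ m : G, χ m = 0 → m • b = b) ∧ a = ∑ j ∈ range n, s ^ j • b := by
  constructor
  · rintro ⟨x, hxlev, hx⟩
    obtain ⟨c, hc⟩ := H1van x (fun h h' hh hh' => by
      have := hx h h'
      rw [dOne_apply, helper6440.cyc_apply, hh, helper6440.carry_zero_left, zero_smul] at this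
      linear_combination (norm := abel) -this) hxlev
    exact exists_norm_of_cyc_eq_dOne hχ hs (fun m _ => ha m) x hx c (fun h hh => (hc h hh).symm)
  · rintro ⟨b, hb, rfl⟩
    refine ⟨fun g => ∑ j ∈ range (χ g).val, s ^ j • b, ⟨U, hPU, fun g v hv => ?_⟩, fun g h => ?_⟩
    · show ∑ j ∈ range (χ (g * v)).val, s ^ j • b = ∑ j ∈ range (χ g).val, s ^ j • b
      rw [hχ g v, hUχ v hv, add_zero]
    · exact (cyc_nsum_eq_dOne hχ hs hb g h).symm

end LevelCyc

/-! ## Multiplicative surface (`IsMulCocycle₂`, `mulCyc`) -/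

section Mul

variable {G M : Type*} [Group G] [CommGroup M] [MulDistribMulAction G M]

/-- The action of `G` on `Additive M` (not an instance; used locally to transport the additive
statements). -/
@[reducible] def addAct (G M : Type*) [Group G] [CommGroup M] [MulDistribMulAction G M] :
    DistribMulAction G (Additive M) :=
  DistribMulAction.compHom (Additive M) (helper6440.mulAddEnd G M)

variable {n : ℕ} [NeZero n] {χ : G → ZMod n}

/-- **(BK2), multiplicative form.**  Same statement as `exists_cyc_add_dOne_of_res` for a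
multiplicative coefficient group (e.g. `Ωˣ`): `f = mulCyc χ a * d x`. -/
theorem exists_mulCyc_mul_of_res (hχ : ∀ g h, χ (g * h) = χ g + χ h) {s : G} (hs : χ s = 1)
    (U : Subgroup G) [U.Normal] (hUχ : ∀ v ∈ U, χ v = 0) (P : Subgroup G → Prop)
    (hP : ∀ V W : Subgroup G, P V → P W → ∃ X, P X ∧ X ≤ V ⊓ W) (hPU : P U)
    (hsm : ∀ a : M, ∃ V, P V ∧ ∀ v ∈ V, v • a = a)
    (H1van : ∀ φ : G → M, (∀ h h' : G, χ h = 0 → χ h' = 0 → φ (h * h') = h • φ h' * φ h) →
      (∃ V, P V ∧ ∀ g : G, ∀ v ∈ V, φ (g * v) = φ g) →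
      ∃ a : M, ∀ h : G, χ h = 0 → h • a / a = φ h)
    {f : G × G → M} (hf : IsMulCocycle₂ f)
    (hfU : ∀ g g' : G, ∀ v ∈ U, ∀ v' ∈ U, f (g * v, g' * v') = f (g, g'))
    (u : G → M) (huU : ∀ g : G, ∀ v ∈ U, u (g * v) = u g)
    (hu : ∀ h h' : G, χ h = 0 → χ h' = 0 → h • u h' / u (h * h') * u h = f (h, h')) :
    ∃ (a : M) (x : G → M), (∀ g : G, g • a = a) ∧ (∀ g : G, ∀ v ∈ U, x (g * v) = x g) ∧
      ∀ g h : G, f (g, h) = mulCyc χ a (g, h) * (g • x h / x (g * h) * x g) := by
  let _ : DistribMulAction G (Additive M) := addAct G M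
  obtain ⟨a, x, ha, hxU, hfx⟩ := exists_cyc_add_dOne_of_res (A := Additive M) hχ hs U hUχ P hP hPU
    (fun a => hsm (Additive.toMul a))
    (fun φ hφ hlev => H1van (fun g => Additive.toMul (φ g)) hφ hlev)
    (f := fun p => Additive.ofMul (f p)) hf hfU (fun g => Additive.ofMul (u g)) huU hu
  exact ⟨Additive.toMul a, fun g => Additive.toMul (x g), ha, hxU, hfx⟩

/-- **(BK1), multiplicative form.**  For `a` fixed by `G`: `mulCyc χ a` is the coboundary of a
level cochain iff `a = ∏_{j<n} s^j • b` for some `b` fixed by the kernel of `χ`. -/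
theorem mulCyc_eq_iff_norm (hχ : ∀ g h, χ (g * h) = χ g + χ h) {s : G} (hs : χ s = 1)
    (U : Subgroup G) (hUχ : ∀ v ∈ U, χ v = 0) (P : Subgroup G → Prop) (hPU : P U)
    (H1van : ∀ φ : G → M, (∀ h h' : G, χ h = 0 → χ h' = 0 → φ (h * h') = h • φ h' * φ h) →
      (∃ V, P V ∧ ∀ g : G, ∀ v ∈ V, φ (g * v) = φ g) →
      ∃ a : M, ∀ h : G, χ h = 0 → h • a / a = φ h)
    {a : M} (ha : ∀ g : G, g • a = a) :
    (∃ x : G → M, (∃ V, P V ∧ ∀ g : G, ∀ v ∈ V, x (g * v) = x g) ∧
        ∀ g h : G, g • x h / x (g * h) * x g = mulCyc χ a (g, h)) ↔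
      ∃ b : M, (∀ m : G, χ m = 0 → m • b = b) ∧ a = ∏ j ∈ range n, s ^ j • b := by
  let _ : DistribMulAction G (Additive M) := addAct G M
  have key := cyc_eq_dOne_iff_norm (A := Additive M) hχ hs U hUχ P hPU
    (fun φ hφ hlev => H1van (fun g => Additive.toMul (φ g)) hφ hlev)
    (a := Additive.ofMul a) ha
  constructor
  · rintro ⟨x, hxlev, hx⟩
    obtain ⟨b, hb, hab⟩ := key.1 ⟨fun g => Additive.ofMul (x g), hxlev, hx⟩
    exact ⟨Additive.toMul b, hb, hab⟩
  · rintro ⟨b, hb, hab⟩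
    obtain ⟨x, hxlev, hx⟩ := key.2 ⟨Additive.ofMul b, hb, hab⟩
    exact ⟨fun g => Additive.toMul (x g), hxlev, hx⟩

end Mul

end Fermat.Agent.S55.helper9735
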