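/-
S55, local core (helper164): the level system of a Galois group is symbolic, given the norm index
and the power index in intrinsic form.

`Ω/K` a Galois extension (possibly infinite), `Γ = Ω ≃ₐ[K] Ω`, levels = fixing subgroups of finite
subextensions (`galLevels K Ω`), `ζ` a primitive `p`-th root of unity, `p` odd, `Ω` closed under
`p`-th roots.  For a hereditary class `𝒞` of open subgroups fixing `ζ`, `GalSymbolHyp` collects

* `normIdx` : for a level character `χ` of `H` with `χ σ = 1`, the group of norms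
              `∏_{j<p} σ^j • y` (`y` fixed by `ker χ`) has index exactly `p` in `(Ωˣ)^H`;
* `powIdx`  : `(Ωˣ)^H` has two classes independent modulo `p`-th powers.

Output: `LevelSys.IsSymbolic (galLevels K Ω) p 𝒞`, hence by `helper164_LevelSymbol`
`finrank (ZMod p) (H2 p H) ≤ 1` for every `H` in `𝒞`.

Ingredients: level Hilbert 90 (helper814, abstract Poincaré series), Kummer theory in level form,
the level cyclic step (helper9735: `mulCyc_eq_iff_norm`, `exists_mulCyc_mul_of_res`), explicit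
corestriction with projection formula (helper4848).
-/
import Mathlib
import Fermat.Agent.S55.helper164_LevelSymbol
import Fermat.Agent.S55.helper9735_H2Kit
import Fermat.Agent.S55.helper4848_Cores
import Fermat.Agent.S55.helper814_LB2
import Fermat.Agent.S55.helper3665_SymbolicNorm

set_option autoImplicit false

open Module Finset

namespace Fermat.Agent.S55.helper164

open Fermat.Agent.S55.helper6440 (carry mulCyc)

/-! ### The level system of a Galois group -/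

section GalLevels

variable (K Ω : Type*) [Field K] [Field Ω] [Algebra K Ω] [IsGalois K Ω]

/-- The levels of `Gal(Ω/K)`: the fixing subgroups of the finite subextensions. -/
def galLevels : LevelSys (Ω ≃ₐ[K] Ω) where
  P N := ∃ E : IntermediateField K Ω, FiniteDimensional K E ∧ N = E.fixingSubgroup
  nonempty := ⟨_, ⊥, inferInstance, rfl⟩
  inf := by
    rintro _ _ ⟨E, hE, rfl⟩ ⟨E', hE', rfl⟩
    have := hE
    have := hE'
    exact ⟨_, ⟨E ⊔ E', IntermediateField.finiteDimensional_sup E E', rfl⟩,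
      IntermediateField.fixingSubgroup_antitone le_sup_left,
      IntermediateField.fixingSubgroup_antitone le_sup_right⟩
  normal := by
    rintro _ ⟨E, hE, rfl⟩
    have := hE
    have hG : IsGalois K (IntermediateField.normalClosure K E Ω) :=
      isGalois_iff.2 ⟨inferInstance, normalClosure.normal K (↥E) Ω⟩
    exact ⟨_, ⟨IntermediateField.normalClosure K E Ω, inferInstance, rfl⟩,
      IntermediateField.fixingSubgroup_antitone (IntermediateField.le_normalClosure E),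
      inferInstance⟩
  finite := by
    rintro _ ⟨E, hE, rfl⟩
    have := hE
    exact helper814.finiteIndex_fixingSubgroup E

end GalLevels

lemma LevelSys.Lev₁.of_injective {Γ : Type*} [Group Γ] {𝓛 : LevelSys Γ} {H : Subgroup Γ}
    {X Y : Type*} {f : H → X} {φ : X → Y} (hφ : Function.Injective φ)
    (hf : 𝓛.Lev₁ H (fun g => φ (f g))) : 𝓛.Lev₁ H f := by
  obtain ⟨N, hN, h⟩ := hf
  exact ⟨N, hN, fun g s hs => hφ (h g s hs)⟩

/-! ### The exponential `ZMod p → μ_p` -/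

section Exp

variable {Ω : Type*} [Field Ω] {p : ℕ} [Fact p.Prime]

/-- `a ↦ ζ ^ a` for `a : ZMod p`. -/
def expZ (ζ : Ωˣ) (a : ZMod p) : Ωˣ := ζ ^ a.val

lemma expZ_zero (ζ : Ωˣ) : expZ ζ (0 : ZMod p) = 1 := by simp [expZ]

variable {ζ : Ωˣ} (hζ : IsPrimitiveRoot ζ p)
include hζ

lemma expZ_add (a b : ZMod p) : expZ ζ (a + b) = expZ ζ a * expZ ζ b := by
  unfold expZ
  rw [← pow_add, ZMod.val_add, ← pow_eq_pow_mod _ hζ.pow_eq_one]

lemma expZ_neg (a : ZMod p) : expZ ζ (-a) = (expZ ζ a)⁻¹ := by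
  rw [eq_inv_iff_mul_eq_one, ← expZ_add hζ, neg_add_cancel, expZ_zero]

lemma expZ_sub (a b : ZMod p) : expZ ζ (a - b) = expZ ζ a / expZ ζ b := by
  rw [sub_eq_add_neg, expZ_add hζ, expZ_neg hζ, div_eq_mul_inv]

lemma expZ_natCast_mul (n : ℕ) (a : ZMod p) : expZ ζ ((n : ZMod p) * a) = expZ ζ a ^ n := by
  induction n with
  | zero => rw [Nat.cast_zero, zero_mul, expZ_zero, pow_zero]
  | succ n ih => rw [Nat.cast_succ, add_mul, one_mul, expZ_add hζ, ih, pow_succ]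

lemma expZ_mul (a b : ZMod p) : expZ ζ (a * b) = expZ ζ b ^ a.val := by
  conv_lhs => rw [← ZMod.natCast_zmod_val a]
  exact expZ_natCast_mul hζ _ _

lemma expZ_injective : Function.Injective (expZ ζ : ZMod p → Ωˣ) := by
  intro a b h
  exact ZMod.val_injective p (hζ.pow_inj (ZMod.val_lt a) (ZMod.val_lt b) h)

lemma expZ_pow_p (a : ZMod p) : expZ ζ a ^ p = 1 := by
  unfold expZ
  rw [← pow_mul, mul_comm, pow_mul, hζ.pow_eq_one, one_pow]

lemma exists_expZ_eq {y : Ωˣ} (hy : y ^ p = 1) : ∃ a : ZMod p, expZ ζ a = y := by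
  have hζ' : IsPrimitiveRoot (ζ : Ω) p := IsPrimitiveRoot.coe_units_iff.2 hζ
  have hy' : (y : Ω) ^ p = 1 := by
    rw [← Units.val_pow_eq_pow_val, hy, Units.val_one]
  obtain ⟨i, hi, h⟩ := hζ'.eq_pow_of_pow_eq_one hy'
  refine ⟨(i : ZMod p), Units.ext ?_⟩
  rw [expZ, ZMod.val_natCast_of_lt hi, Units.val_pow_eq_pow_val, h]

end Exp

/-! ### Hilbert 90 and Kummer theory on the subgroups of a Galois group -/

section Galois

variable {K Ω : Type*} [Field K] [Field Ω] [Algebra K Ω] [IsGalois K Ω] {p : ℕ} [Fact p.Prime]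
  {ζ : Ωˣ} {H : Subgroup (Ω ≃ₐ[K] Ω)}

/-- The orbit map of a unit is level-constant. -/
lemma lev₁_smul (H : Subgroup (Ω ≃ₐ[K] Ω)) (β : Ωˣ) :
    (galLevels K Ω).Lev₁ H (fun g : H => g • β) := by
  have hint : IsIntegral K (β : Ω) := Algebra.IsIntegral.isIntegral _
  have hfd : FiniteDimensional K (IntermediateField.adjoin K {(β : Ω)}) := IntermediateField.adjoin.finiteDimensional hint
  refine ⟨_, ⟨IntermediateField.adjoin K {(β : Ω)}, hfd, rfl⟩, fun g s hs => ?_⟩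
  have hs' : (s : Ω ≃ₐ[K] Ω) (β : Ω) = β :=
    (IntermediateField.mem_fixingSubgroup_iff _ _).1 hs _
      (IntermediateField.mem_adjoin_simple_self K _)
  have hs'' : s • β = β := Units.ext hs'
  show (g * s) • β = g • β
  rw [mul_smul, hs'']

/-- **Hilbert 90** for level cocycles on a subgroup of `Gal(Ω/K)`. -/
theorem hilbert90_sub (c : H → Ωˣ) (hc : ∀ g h : H, c (g * h) = c g * g • c h)
    (hl : (galLevels K Ω).Lev₁ H c) : ∃ γ : Ωˣ, ∀ g : H, c g * g • γ = γ := by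
  obtain ⟨N, ⟨E, hE, rfl⟩, hcN⟩ := hl
  have := hE
  have := helper814.finiteIndex_fixingSubgroup E
  obtain ⟨γ, hγ0, hγ⟩ := helper814.exists_smul_eq_of_cocycle (G := H) (Ω := Ω)
    (E.fixingSubgroup.subgroupOf H)
    (fun g hg => Subgroup.mem_subgroupOf.2 (helper814.closed_fixingSubgroup E g
      (fun x hx => hg x (fun s hs => hx s (Subgroup.mem_subgroupOf.1 hs)))))
    (fun g => (c g : Ω)) (fun g => (c g).ne_zero)
    (fun g h => by rw [hc, Units.val_mul]; rfl)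
    (fun g s hs => by rw [hcN g s (Subgroup.mem_subgroupOf.1 hs)])
  exact ⟨Units.mk0 γ hγ0, fun g => Units.ext (hγ g)⟩

/-- Hilbert 90 on the kernel of a character, in the shape consumed by the cyclic step. -/
theorem hilbert90_ker (χ : (galLevels K Ω).Chars p H) (φ : H → Ωˣ)
    (hφ : ∀ h h' : H, χ.1 h = 0 → χ.1 h' = 0 → φ (h * h') = h • φ h' * φ h)
    (hl : (galLevels K Ω).Lev₁ H φ) : ∃ a : Ωˣ, ∀ h : H, χ.1 h = 0 → h • a / a = φ h := by
  obtain ⟨γ, hγ⟩ := hilbert90_sub (H := LevelSys.kerSub χ)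
    (resFn₁ (LevelSys.kerSub_le χ) φ)
    (fun g h => by
      have := hφ (Subgroup.inclusion (LevelSys.kerSub_le χ) g)
        (Subgroup.inclusion (LevelSys.kerSub_le χ) h) g.2.2 h.2.2
      simp only [resFn₁, map_mul]
      rw [this, mul_comm]
      rfl)
    (hl.res _)
  refine ⟨γ⁻¹, fun h hh => ?_⟩
  have := hγ ⟨(h : Ω ≃ₐ[K] Ω), (LevelSys.coe_mem_kerSub χ h).2 hh⟩
  have e : resFn₁ (LevelSys.kerSub_le χ) φ ⟨(h : Ω ≃ₐ[K] Ω), (LevelSys.coe_mem_kerSub χ h).2 hh⟩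
      = φ h := rfl
  rw [e] at this
  have e2 : (⟨(h : Ω ≃ₐ[K] Ω), (LevelSys.coe_mem_kerSub χ h).2 hh⟩ : LevelSys.kerSub χ) • γ
      = h • γ := rfl
  rw [e2] at this
  rw [smul_inv', inv_div_inv, div_eq_iff_eq_mul]
  exact this.symm

variable (hζ : IsPrimitiveRoot ζ p) (hfix : ∀ g ∈ H, g • ζ = ζ)
include hfix

omit [IsGalois K Ω] in
lemma smul_expZ (g : H) (a : ZMod p) : g • expZ ζ a = expZ ζ a := by
  unfold expZ
  rw [smul_pow']
  congr 1
  exact hfix g g.2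

include hζ

/-- A `μ_p`-valued `2`-cochain which is the coboundary of a level cochain with values in `Ωˣ` is
the coboundary of a level cochain with values in `μ_p`. -/
theorem exists_zmod_primitive (hroot : ∀ x : Ωˣ, ∃ y : Ωˣ, y ^ p = x)
    (F : H × H → Ωˣ) (hF : ∀ q, F q ^ p = 1) (x : H → Ωˣ)
    (hx : (galLevels K Ω).Lev₁ H x)
    (hxF : ∀ g h : H, g • x h / x (g * h) * x g = F (g, h)) :
    ∃ c : H → ZMod p, (galLevels K Ω).Lev₁ H c ∧
      ∀ g h : H, expZ ζ (c h - c (g * h) + c g) = F (g, h) := by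
  -- `x ^ p` is a level cocycle
  have hcoc : ∀ g h : H, x (g * h) ^ p = x g ^ p * g • x h ^ p := by
    intro g h
    have h1 := hF (g, h)
    rw [← hxF g h, mul_pow, div_pow, ← smul_pow'] at h1
    rw [← mul_one (x (g * h) ^ p), ← h1]
    simp [mul_comm, mul_left_comm, div_eq_mul_inv]
  obtain ⟨γ, hγ⟩ := hilbert90_sub (fun g => x g ^ p) hcoc (hx.comp (· ^ p))
  obtain ⟨δ, hδ⟩ := hroot γ
  -- the corrected cochain has values in `μ_p`
  have hx'p : ∀ g : H, (x g * (g • δ / δ)) ^ p = 1 := by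
    intro g
    rw [mul_pow, div_pow, ← smul_pow', hδ, ← mul_div_assoc, hγ g, div_self']
  choose c hc using fun g => exists_expZ_eq hζ (hx'p g)
  refine ⟨c, ?_, fun g h => ?_⟩
  · apply LevelSys.Lev₁.of_injective (expZ_injective hζ)
    have h1 := hx.map₂ (lev₁_smul H δ) (fun a b => a * (b / δ))
    have e : (fun g : H => expZ ζ (c g)) = fun g : H => x g * (g • δ / δ) := funext hc
    rw [e]
    exact h1
  · rw [expZ_add hζ, expZ_sub hζ, ← smul_expZ hfix g (c h), hc, hc, hc, ← hxF g h,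
      smul_mul', smul_div', ← mul_smul]
    generalize g • x h = A
    generalize (g * h) • δ = B
    generalize g • δ = C
    generalize x (g * h) = D
    generalize x g = G
    apply Units.ext
    simp only [Units.val_mul, Units.val_div_eq_div_val]
    field_simp

end Galois

/-! ### Kummer theory in level form -/

section Kummer

variable {K Ω : Type*} [Field K] [Field Ω] [Algebra K Ω] [IsGalois K Ω] {p : ℕ} [Fact p.Prime]
  {ζ : Ωˣ} {H : Subgroup (Ω ≃ₐ[K] Ω)}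

/-- Every unit is fixed by a level. -/
lemma exists_level_fix (β : Ωˣ) :
    ∃ N, (galLevels K Ω).P N ∧ ∀ s ∈ N, s • β = β := by
  have hint : IsIntegral K (β : Ω) := Algebra.IsIntegral.isIntegral _
  have hfd : FiniteDimensional K (IntermediateField.adjoin K {(β : Ω)}) :=
    IntermediateField.adjoin.finiteDimensional hint
  refine ⟨_, ⟨IntermediateField.adjoin K {(β : Ω)}, hfd, rfl⟩, fun s hs => Units.ext ?_⟩
  exact (IntermediateField.mem_fixingSubgroup_iff _ _).1 hs _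
    (IntermediateField.mem_adjoin_simple_self K _)

/-- The levels of a subgroup `H`, as subgroups of `H`. -/
def subLev (H : Subgroup (Ω ≃ₐ[K] Ω)) (V : Subgroup H) : Prop :=
  ∃ N, (galLevels K Ω).P N ∧ V = N.subgroupOf H

lemma subLev_iff_lev₁ {X : Type*} (x : H → X) :
    (∃ V, subLev H V ∧ ∀ g : H, ∀ v ∈ V, x (g * v) = x g) ↔ (galLevels K Ω).Lev₁ H x := by
  constructor
  · rintro ⟨_, ⟨N, hN, rfl⟩, h⟩
    exact ⟨N, hN, fun g s hs => h g s (Subgroup.mem_subgroupOf.2 hs)⟩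
  · rintro ⟨N, hN, h⟩
    exact ⟨_, ⟨N, hN, rfl⟩, fun g v hv => h g v (Subgroup.mem_subgroupOf.1 hv)⟩

lemma exists_subLev_ker (χ : (galLevels K Ω).Chars p H) :
    ∃ U : Subgroup H, subLev H U ∧ ∀ v ∈ U, χ.1 v = 0 := by
  obtain ⟨N, hN, h⟩ := χ.2.2
  refine ⟨N.subgroupOf H, ⟨N, hN, rfl⟩, fun v hv => ?_⟩
  have := h 1 v (Subgroup.mem_subgroupOf.1 hv)
  rwa [one_mul, LevelSys.char_one] at this

lemma comm_group_aux {M : Type*} [CommGroup M] (A B C a b c : M) :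
    A / a / (B / b) * (C / c) = A / B * C / (a / b * c) := by
  simp only [div_eq_mul_inv, mul_inv_rev, inv_inv, mul_comm, mul_left_comm, mul_assoc]

/-- Every level character is a Kummer character. -/
theorem exists_kummer_gen (hζ : IsPrimitiveRoot ζ p) (hfix : ∀ g ∈ H, g • ζ = ζ)
    (χ : (galLevels K Ω).Chars p H) :
    ∃ α : Ωˣ, ∀ g : H, g • α = expZ ζ (χ.1 g) * α := by
  obtain ⟨γ, hγ⟩ := hilbert90_sub (fun g : H => expZ ζ (χ.1 g))
    (fun g h => by rw [LevelSys.char_mul, expZ_add hζ, smul_expZ hfix])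
    (χ.2.2.comp (expZ ζ))
  refine ⟨γ⁻¹, fun g => ?_⟩
  have := hγ g
  rw [smul_inv', eq_mul_inv_iff_mul_eq, inv_mul_eq_iff_eq_mul, mul_comm]
  exact this.symm

/-- The Kummer character of a `p`-th root of an `H`-fixed unit. -/
theorem exists_kummer_char (hζ : IsPrimitiveRoot ζ p) (hfix : ∀ g ∈ H, g • ζ = ζ)
    (β : Ωˣ) (hβ : ∀ g : H, g • β ^ p = β ^ p) :
    ∃ ψ : (galLevels K Ω).Chars p H, ∀ g : H, g • β = expZ ζ (ψ.1 g) * β := by
  have h1 : ∀ g : H, (g • β / β) ^ p = 1 := fun g => by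
    rw [div_pow, ← smul_pow', hβ g, div_self']
  choose ψ hψ using fun g => exists_expZ_eq hζ (h1 g)
  have hψ' : ∀ g : H, g • β = expZ ζ (ψ g) * β := fun g => by
    rw [hψ g, div_mul_cancel]
  refine ⟨⟨ψ, fun g h => expZ_injective hζ ?_, ?_⟩, hψ'⟩
  · rw [expZ_add hζ, hψ (g * h), mul_smul, hψ' h, smul_mul', smul_expZ hfix, hψ' g,
      ← mul_assoc, mul_div_assoc, div_self', mul_one, mul_comm]
  · apply LevelSys.Lev₁.of_injective (expZ_injective hζ)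
    have e : (fun g : H => expZ ζ (ψ g)) = fun g : H => g • β / β := funext hψ
    rw [e]
    exact (lev₁_smul H β).comp (· / β)

omit [IsGalois K Ω] in
/-- The coboundary of `g ↦ β ^ χ(g)` for a Kummer generator `β`. -/
lemma dpow_char (hζ : IsPrimitiveRoot ζ p) (χ : H → ZMod p)
    (hχ : ∀ g h, χ (g * h) = χ g + χ h) (ψ : H → ZMod p) (β : Ωˣ)
    (hβ : ∀ g : H, g • β = expZ ζ (ψ g) * β) (g h : H) :
    g • β ^ (χ h).val / β ^ (χ (g * h)).val * β ^ (χ g).val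
      = expZ ζ (ψ g * χ h) * mulCyc χ (β ^ p) (g, h) := by
  have key : β ^ (χ h).val * β ^ (χ g).val
      = β ^ (χ (g * h)).val * β ^ (p * carry p (χ g) (χ h)) := by
    rw [← pow_add, ← pow_add, hχ, helper6440.val_add_carry, add_comm]
  rw [smul_pow', hβ g, mul_pow, helper6440.mulCyc_apply, ← pow_mul, mul_comm (ψ g) (χ h),
    expZ_mul hζ, mul_div_assoc, mul_assoc, div_mul_eq_mul_div, key, mul_div_cancel_left]

/-- **Symbol and norm, I.**  If the symbol `ψ ∪ χ` vanishes, then `β ^ p` (`β` a Kummer generator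
of `ψ`) is a norm from the kernel of `χ`. -/
theorem norm_of_cup_eq_zero (hζ : IsPrimitiveRoot ζ p) (hfix : ∀ g ∈ H, g • ζ = ζ)
    (χ ψ : (galLevels K Ω).Chars p H) (σ : H) (hσ : χ.1 σ = 1)
    (β : Ωˣ) (hβ : ∀ g : H, g • β = expZ ζ (ψ.1 g) * β)
    (h0 : (galLevels K Ω).cup p H ψ χ = 0) :
    ∃ y : Ωˣ, (∀ m : H, χ.1 m = 0 → m • y = y) ∧ β ^ p = ∏ j ∈ range p, σ ^ j • y := by
  rw [LevelSys.cup_apply, LevelSys.cls_eq_zero_iff] at h0
  obtain ⟨c, hc, hcf⟩ := h0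
  have hb : ∀ g : H, g • β ^ p = β ^ p := fun g => by
    rw [smul_pow', hβ g, mul_pow, expZ_pow_p hζ, one_mul]
  obtain ⟨U, hPU, hUχ⟩ := exists_subLev_ker χ
  refine (helper9735.mulCyc_eq_iff_norm (χ := χ.1) (LevelSys.char_mul χ) hσ U hUχ (subLev H) hPU
    (fun φ hφ hlev => hilbert90_ker χ φ hφ ((subLev_iff_lev₁ φ).1 hlev)) hb).1
    ⟨fun g => β ^ (χ.1 g).val / expZ ζ (c g),
      (subLev_iff_lev₁ _).2 (χ.2.2.map₂ hc (fun a b => β ^ a.val / expZ ζ b)), fun g h => ?_⟩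
  have hcgh : ψ.1 g * χ.1 h = c h - c (g * h) + c g := congrFun hcf (g, h)
  show g • (β ^ (χ.1 h).val / expZ ζ (c h)) / (β ^ (χ.1 (g * h)).val / expZ ζ (c (g * h)))
      * (β ^ (χ.1 g).val / expZ ζ (c g)) = mulCyc χ.1 (β ^ p) (g, h)
  rw [smul_div', smul_expZ hfix, comm_group_aux, dpow_char hζ χ.1 (LevelSys.char_mul χ) ψ.1 β hβ,
    hcgh, expZ_add hζ, expZ_sub hζ, mul_div_cancel_left]

/-- **Symbol and norm, II.**  If `β ^ p` (`β` a Kummer generator of `ψ`) is a norm from the kernel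
of `χ`, then the symbol `ψ ∪ χ` vanishes. -/
theorem cup_eq_zero_of_norm (hζ : IsPrimitiveRoot ζ p) (hfix : ∀ g ∈ H, g • ζ = ζ)
    (hroot : ∀ x : Ωˣ, ∃ y : Ωˣ, y ^ p = x)
    (χ ψ : (galLevels K Ω).Chars p H) (σ : H) (hσ : χ.1 σ = 1)
    (β : Ωˣ) (hβ : ∀ g : H, g • β = expZ ζ (ψ.1 g) * β)
    (y : Ωˣ) (hy : ∀ m : H, χ.1 m = 0 → m • y = y) (hyβ : β ^ p = ∏ j ∈ range p, σ ^ j • y) :
    (galLevels K Ω).cup p H ψ χ = 0 := by
  have hb : ∀ g : H, g • β ^ p = β ^ p := fun g => by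
    rw [smul_pow', hβ g, mul_pow, expZ_pow_p hζ, one_mul]
  obtain ⟨U, hPU, hUχ⟩ := exists_subLev_ker χ
  obtain ⟨x', hx'lev, hx'⟩ := (helper9735.mulCyc_eq_iff_norm (χ := χ.1) (LevelSys.char_mul χ) hσ
    U hUχ (subLev H) hPU
    (fun φ hφ hlev => hilbert90_ker χ φ hφ ((subLev_iff_lev₁ φ).1 hlev)) hb).2 ⟨y, hy, hyβ⟩
  have hxF : ∀ g h : H, g • (β ^ (χ.1 h).val / x' h) / (β ^ (χ.1 (g * h)).val / x' (g * h))
      * (β ^ (χ.1 g).val / x' g) = expZ ζ (cupFn p ψ.1 χ.1 (g, h)) := by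
    intro g h
    rw [smul_div', comm_group_aux, dpow_char hζ χ.1 (LevelSys.char_mul χ) ψ.1 β hβ, hx' g h,
      mul_div_cancel_right]
    rfl
  obtain ⟨c, hc, hcF⟩ := exists_zmod_primitive hζ hfix hroot
    (fun q => expZ ζ (cupFn p ψ.1 χ.1 q)) (fun q => expZ_pow_p hζ _)
    (fun g => β ^ (χ.1 g).val / x' g)
    (χ.2.2.map₂ ((subLev_iff_lev₁ x').1 hx'lev) (fun a b => β ^ a.val / b)) hxF
  rw [LevelSys.cup_apply, LevelSys.cls_eq_zero_iff]
  exact ⟨c, hc, funext fun q => expZ_injective hζ (hcF q.1 q.2).symm⟩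

end Kummer

/-! ### The symbol axioms -/

section Symbolic

lemma exists_char_eq_one {Γ : Type*} [Group Γ] {𝓛 : LevelSys Γ} {p : ℕ} [Fact p.Prime]
    {H : Subgroup Γ} (χ : 𝓛.Chars p H) (hχ : χ ≠ 0) : ∃ σ : H, χ.1 σ = 1 := by
  have hex : ∃ τ : H, χ.1 τ ≠ 0 := by
    by_contra hcon
    push Not at hcon
    exact hχ (LevelSys.char_ext (fun g => by simpa using hcon g))
  obtain ⟨τ, hτ⟩ := hex
  refine ⟨τ ^ ((χ.1 τ)⁻¹).val, ?_⟩
  rw [LevelSys.char_pow, ZMod.natCast_zmod_val, inv_mul_cancel₀ hτ]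

lemma cup_antisymm {Γ : Type*} [Group Γ] {𝓛 : LevelSys Γ} {p : ℕ} [Fact p.Prime] (hp2 : p ≠ 2)
    {H : Subgroup Γ} (χ ψ : 𝓛.Chars p H) : 𝓛.cup p H χ ψ = - 𝓛.cup p H ψ χ :=
  antisymm_of_alt (𝓛.cup p H) (LevelSys.cup_self hp2) χ ψ

lemma comm_group_aux₂ {M : Type*} [CommGroup M] (A B C X Y Z : M) :
    A * X / (B * Y) * (C * Z) = A / B * C * (X / Y * Z) := by
  simp only [div_eq_mul_inv, mul_inv_rev, mul_comm, mul_left_comm, mul_assoc]

variable {K Ω : Type*} [Field K] [Field Ω] [Algebra K Ω] [IsGalois K Ω] {p : ℕ} [Fact p.Prime]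
  {ζ : Ωˣ} {H : Subgroup (Ω ≃ₐ[K] Ω)}

/-- **Norm index**, generator form, for one subgroup `H` of `Gal(Ω/K)`: for a level character
`χ` of `H` with `χ σ = 1`, the norms `∏_{i<p} σ^i • y` of the units fixed by the kernel of `χ` have
index exactly `p` in the units fixed by `H`. -/
def NormIdx (p : ℕ) (H : Subgroup (Ω ≃ₐ[K] Ω)) : Prop :=
  ∀ χ : H → ZMod p, (∀ g h, χ (g * h) = χ g + χ h) →
    (∃ E : IntermediateField K Ω, FiniteDimensional K E ∧
      ∀ g s : H, (s : Ω ≃ₐ[K] Ω) ∈ E.fixingSubgroup → χ (g * s) = χ g) →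
    ∀ σ : H, χ σ = 1 →
    ∃ b₀ : Ωˣ, (∀ h ∈ H, h • b₀ = b₀) ∧
      (¬ ∃ y : Ωˣ, (∀ n : H, χ n = 0 → (n : Ω ≃ₐ[K] Ω) • y = y) ∧
        b₀ = ∏ i ∈ Finset.range p, ((σ : Ω ≃ₐ[K] Ω) ^ i) • y) ∧
      ∀ b : Ωˣ, (∀ h ∈ H, h • b = b) → ∃ n < p, ∃ y : Ωˣ,
        (∀ m : H, χ m = 0 → (m : Ω ≃ₐ[K] Ω) • y = y) ∧
        b * b₀ ^ n = ∏ i ∈ Finset.range p, ((σ : Ω ≃ₐ[K] Ω) ^ i) • y

/-- **Power index** for one subgroup `H` of `Gal(Ω/K)`: the units fixed by `H` have two classes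
independent modulo `p`-th powers. -/
def PowIdx (p : ℕ) (H : Subgroup (Ω ≃ₐ[K] Ω)) : Prop :=
  ∃ b₁ b₂ : Ωˣ, (∀ h ∈ H, h • b₁ = b₁) ∧ (∀ h ∈ H, h • b₂ = b₂) ∧
    ∀ i j : ℕ, (∃ c : Ωˣ, (∀ h ∈ H, h • c = c) ∧ b₁ ^ i * b₂ ^ j = c ^ p) → p ∣ i ∧ p ∣ j

/-- The rows of the symbol have rank one. -/
theorem rankOne_of_normIdx (hp2 : p ≠ 2) (hζ : IsPrimitiveRoot ζ p)
    (hfix : ∀ g ∈ H, g • ζ = ζ) (hroot : ∀ x : Ωˣ, ∃ y : Ωˣ, y ^ p = x) (hNI : NormIdx p H)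
    (χ : (galLevels K Ω).Chars p H) (hχ : χ ≠ 0) : RankOne ((galLevels K Ω).cup p H χ) := by
  obtain ⟨σ, hσ⟩ := exists_char_eq_one χ hχ
  obtain ⟨b₀, hb₀, hnn, hall⟩ := hNI χ.1 (LevelSys.char_mul χ)
    (by obtain ⟨N, ⟨E, hE, rfl⟩, h⟩ := χ.2.2; exact ⟨E, hE, h⟩) σ hσ
  obtain ⟨β₀, hβ₀⟩ := hroot b₀
  obtain ⟨ψ₀, hψ₀⟩ := exists_kummer_char hζ hfix β₀ (fun g => by rw [hβ₀]; exact hb₀ g g.2)
  refine rankOne_of_ker ψ₀ ?_ (fun ψ => ?_)
  · intro h0
    rw [cup_antisymm hp2, neg_eq_zero] at h0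
    obtain ⟨y, hy, hyβ⟩ := norm_of_cup_eq_zero hζ hfix χ ψ₀ σ hσ β₀ hψ₀ h0
    exact hnn ⟨y, fun n hn => hy n hn, by rw [← hβ₀, hyβ]; rfl⟩
  · obtain ⟨β, hβ⟩ := exists_kummer_gen hζ hfix ψ
    have hb : ∀ h ∈ H, h • β ^ p = β ^ p := fun h hh => by
      have := hβ ⟨h, hh⟩
      show (⟨h, hh⟩ : H) • β ^ p = β ^ p
      rw [smul_pow', this, mul_pow, expZ_pow_p hζ, one_mul]
    obtain ⟨n, -, y, hy, hyb⟩ := hall (β ^ p) hb
    refine ⟨-(n : ZMod p), ?_⟩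
    rw [cup_antisymm hp2, neg_eq_zero]
    refine cup_eq_zero_of_norm hζ hfix hroot χ _ σ hσ (β * β₀ ^ n) (fun g => ?_) y
      (fun m hm => hy m hm) ?_
    · have e : (ψ - (-(n : ZMod p)) • ψ₀).1 g = ψ.1 g + (n : ZMod p) * ψ₀.1 g := by
        simp only [Submodule.coe_sub, Submodule.coe_smul, Pi.sub_apply, Pi.smul_apply, smul_eq_mul]
        ring
      rw [smul_mul', smul_pow', hβ g, hψ₀ g, mul_pow, e, expZ_add hζ, expZ_natCast_mul hζ]
      simp only [mul_comm, mul_left_comm, mul_assoc]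
    · rw [mul_pow, ← pow_mul, mul_comm n p, pow_mul, hβ₀, hyb]
      rfl

/-- There are two independent characters. -/
theorem two_of_powIdx (hζ : IsPrimitiveRoot ζ p) (hfix : ∀ g ∈ H, g • ζ = ζ)
    (hroot : ∀ x : Ωˣ, ∃ y : Ωˣ, y ^ p = x) (hPI : PowIdx p H)
    (χ : (galLevels K Ω).Chars p H) :
    ∃ x : (galLevels K Ω).Chars p H, ∀ c : ZMod p, x ≠ c • χ := by
  obtain ⟨b₁, b₂, hb₁, hb₂, hind⟩ := hPI
  obtain ⟨β₁, hβ₁⟩ := hroot b₁
  obtain ⟨β₂, hβ₂⟩ := hroot b₂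
  obtain ⟨ψ₁, hψ₁⟩ := exists_kummer_char hζ hfix β₁ (fun g => by rw [hβ₁]; exact hb₁ g g.2)
  obtain ⟨ψ₂, hψ₂⟩ := exists_kummer_char hζ hfix β₂ (fun g => by rw [hβ₂]; exact hb₂ g g.2)
  by_contra hcon
  push Not at hcon
  obtain ⟨c₁, hc₁⟩ := hcon ψ₁
  obtain ⟨c₂, hc₂⟩ := hcon ψ₂
  have key : ∀ i j : ℕ, (i : ZMod p) * c₁ + (j : ZMod p) * c₂ = 0 → p ∣ i ∧ p ∣ j := by
    intro i j hij
    refine hind i j ⟨β₁ ^ i * β₂ ^ j, fun h hh => ?_, ?_⟩
    · show (⟨h, hh⟩ : H) • (β₁ ^ i * β₂ ^ j) = _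
      have e1 : ψ₁.1 ⟨h, hh⟩ = c₁ * χ.1 ⟨h, hh⟩ := by rw [hc₁]; rfl
      have e2 : ψ₂.1 ⟨h, hh⟩ = c₂ * χ.1 ⟨h, hh⟩ := by rw [hc₂]; rfl
      have e3 : expZ ζ ((i : ZMod p) * ψ₁.1 ⟨h, hh⟩) * expZ ζ ((j : ZMod p) * ψ₂.1 ⟨h, hh⟩)
          = 1 := by
        have e4 : (i : ZMod p) * (c₁ * χ.1 ⟨h, hh⟩) + (j : ZMod p) * (c₂ * χ.1 ⟨h, hh⟩) = 0 := by
          linear_combination χ.1 ⟨h, hh⟩ * hij
        rw [← expZ_add hζ, e1, e2, e4, expZ_zero]
      rw [smul_mul', smul_pow', smul_pow', hψ₁, hψ₂, mul_pow, mul_pow, ← expZ_natCast_mul hζ,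
        ← expZ_natCast_mul hζ, mul_mul_mul_comm, e3, one_mul]
    · rw [mul_pow, ← pow_mul, ← pow_mul, mul_comm i p, mul_comm j p, pow_mul, pow_mul, hβ₁, hβ₂]
  by_cases h1 : c₁ = 0
  · have := (key 1 0 (by simp [h1])).1
    exact (Fact.out : p.Prime).one_lt.ne' (Nat.dvd_one.1 this)
  · have := (key c₂.val (-c₁).val (by rw [ZMod.natCast_zmod_val, ZMod.natCast_zmod_val]; ring)).2
    have h0 : (-c₁).val = 0 := Nat.eq_zero_of_dvd_of_lt this (ZMod.val_lt _)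
    rw [ZMod.val_eq_zero, neg_eq_zero] at h0
    exact h1 h0

lemma subLev_inf (V W : Subgroup H) (hV : subLev H V) (hW : subLev H W) :
    ∃ X, subLev H X ∧ X ≤ V ⊓ W := by
  obtain ⟨N, hN, rfl⟩ := hV
  obtain ⟨N', hN', rfl⟩ := hW
  obtain ⟨M, hM, hMN, hMN'⟩ := (galLevels K Ω).inf N N' hN hN'
  exact ⟨M.subgroupOf H, ⟨M, hM, rfl⟩,
    le_inf (Subgroup.comap_mono hMN) (Subgroup.comap_mono hMN')⟩

lemma subLev_fix (H : Subgroup (Ω ≃ₐ[K] Ω)) (a : Ωˣ) :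
    ∃ V, subLev H V ∧ ∀ v ∈ V, v • a = a := by
  obtain ⟨N, hN, h⟩ := exists_level_fix (K := K) a
  exact ⟨N.subgroupOf H, ⟨N, hN, rfl⟩, fun v hv => h v (Subgroup.mem_subgroupOf.1 hv)⟩

/-- A class dying on the kernel of `χ` is a symbol `χ ∪ ψ`. -/
theorem bk2_of_galois (hp2 : p ≠ 2) (hζ : IsPrimitiveRoot ζ p)
    (hfix : ∀ g ∈ H, g • ζ = ζ) (hroot : ∀ x : Ωˣ, ∃ y : Ωˣ, y ^ p = x)
    (hH : (galLevels K Ω).IsOpen H)
    (χ : (galLevels K Ω).Chars p H) (hχ : χ ≠ 0) (α : (galLevels K Ω).H2 p H)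
    (hα : (galLevels K Ω).resH2 p (LevelSys.kerSub_le χ) α = 0) :
    ∃ ψ, α = (galLevels K Ω).cup p H χ ψ := by
  classical
  obtain ⟨σ, hσ⟩ := exists_char_eq_one χ hχ
  obtain ⟨f, hf, rfl⟩ := LevelSys.cls_surjective α
  rw [LevelSys.resH2_cls, LevelSys.cls_eq_zero_iff] at hα
  obtain ⟨c₀, hc₀, hfc₀⟩ := hα
  have hf' := hf
  obtain ⟨hfcoc, Nf, hNf, hfN⟩ := hf'
  obtain ⟨Nc, hNc, hcN⟩ := hc₀
  obtain ⟨Nχ, hNχ, hχN⟩ := χ.2.2
  obtain ⟨W, hW, hWf, hWc⟩ := (galLevels K Ω).inf Nf Nc hNf hNc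
  obtain ⟨N, hN, hNn, hNH, hNW, hNχ'⟩ := hH.exists_normal_le hW hNχ
  -- the multiplicative cocycle
  have hFcoc : groupCohomology.IsMulCocycle₂ (fun q : H × H => expZ ζ (f q)) := by
    intro g h j
    show expZ ζ (f (g * h, j)) * expZ ζ (f (g, h))
      = g • expZ ζ (f (h, j)) * expZ ζ (f (g, h * j))
    rw [smul_expZ hfix, ← expZ_add hζ, ← expZ_add hζ, hfcoc]
  let u : H → Ωˣ := fun g => if hg : χ.1 g = 0 then
    expZ ζ (c₀ ⟨(g : Ω ≃ₐ[K] Ω), (LevelSys.coe_mem_kerSub χ g).2 hg⟩) else 1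
  have hUχ : ∀ v ∈ N.subgroupOf H, χ.1 v = 0 := by
    intro v hv
    have := hχN 1 v (hNχ' (Subgroup.mem_subgroupOf.1 hv))
    rwa [one_mul, LevelSys.char_one] at this
  haveI : (N.subgroupOf H).Normal := hNn.subgroupOf H
  have hfU : ∀ g g' : H, ∀ v ∈ N.subgroupOf H, ∀ v' ∈ N.subgroupOf H,
      (fun q : H × H => expZ ζ (f q)) (g * v, g' * v') = (fun q : H × H => expZ ζ (f q)) (g, g') :=
    fun g g' v hv v' hv' => congrArg (expZ ζ)
      (hfN g g' v v' (hWf (hNW (Subgroup.mem_subgroupOf.1 hv)))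
        (hWf (hNW (Subgroup.mem_subgroupOf.1 hv'))))
  have huU : ∀ g : H, ∀ v ∈ N.subgroupOf H, u (g * v) = u g := by
    intro g v hv
    have hv0 := hUχ v hv
    have hgv : χ.1 (g * v) = χ.1 g := by rw [LevelSys.char_mul, hv0, add_zero]
    by_cases hg : χ.1 g = 0
    · have hgv0 : χ.1 (g * v) = 0 := hgv.trans hg
      simp only [u, dif_pos hg, dif_pos hgv0]
      congr 1
      exact hcN ⟨(g : Ω ≃ₐ[K] Ω), (LevelSys.coe_mem_kerSub χ g).2 hg⟩
        ⟨(v : Ω ≃ₐ[K] Ω), (LevelSys.coe_mem_kerSub χ v).2 hv0⟩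
        (hWc (hNW (Subgroup.mem_subgroupOf.1 hv)))
    · have hgv0 : ¬ χ.1 (g * v) = 0 := fun h => hg (hgv ▸ h)
      simp only [u, dif_neg hg, dif_neg hgv0]
  have hu : ∀ h h' : H, χ.1 h = 0 → χ.1 h' = 0 →
      h • u h' / u (h * h') * u h = (fun q : H × H => expZ ζ (f q)) (h, h') := by
    intro h h' hh hh'
    have hhh' : χ.1 (h * h') = 0 := by rw [LevelSys.char_mul, hh, hh', add_zero]
    simp only [u, dif_pos hh, dif_pos hh', dif_pos hhh']
    rw [smul_expZ hfix, ← expZ_sub hζ, ← expZ_add hζ]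
    congr 1
    have := congrFun hfc₀ (⟨(h : Ω ≃ₐ[K] Ω), (LevelSys.coe_mem_kerSub χ h).2 hh⟩,
      ⟨(h' : Ω ≃ₐ[K] Ω), (LevelSys.coe_mem_kerSub χ h').2 hh'⟩)
    exact this.symm
  obtain ⟨a, x, ha, hxU, hfx⟩ := helper9735.exists_mulCyc_mul_of_res (χ := χ.1)
    (LevelSys.char_mul χ) hσ (N.subgroupOf H) hUχ (subLev H) subLev_inf ⟨N, hN, rfl⟩
    (subLev_fix H)
    (fun φ hφ hlev => hilbert90_ker χ φ hφ ((subLev_iff_lev₁ φ).1 hlev))
    hFcoc hfU u huU hu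
  obtain ⟨α₁, hα₁⟩ := hroot a
  obtain ⟨ψ, hψ⟩ := exists_kummer_char hζ hfix α₁ (fun g => by rw [hα₁]; exact ha g)
  have hxF : ∀ g h : H, g • (α₁ ^ (χ.1 h).val * x h) / (α₁ ^ (χ.1 (g * h)).val * x (g * h))
      * (α₁ ^ (χ.1 g).val * x g) = expZ ζ (f (g, h) + cupFn p ψ.1 χ.1 (g, h)) := by
    intro g h
    rw [smul_mul', comm_group_aux₂, dpow_char hζ χ.1 (LevelSys.char_mul χ) ψ.1 α₁ hψ, hα₁,
      mul_assoc, ← hfx g h, add_comm, expZ_add hζ]
    rfl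
  obtain ⟨c, hc, hcF⟩ := exists_zmod_primitive hζ hfix hroot
    (fun q => expZ ζ (f q + cupFn p ψ.1 χ.1 q)) (fun q => expZ_pow_p hζ _)
    (fun g => α₁ ^ (χ.1 g).val * x g)
    (χ.2.2.map₂ ((subLev_iff_lev₁ x).1 ⟨N.subgroupOf H, ⟨N, hN, rfl⟩, hxU⟩)
      (fun a b => α₁ ^ a.val * b)) hxF
  refine ⟨ψ, ?_⟩
  rw [cup_antisymm hp2, eq_neg_iff_add_eq_zero, LevelSys.cup_apply, LevelSys.cls_add,
    LevelSys.cls_eq_zero_iff]
  exact ⟨c, hc, funext fun q => expZ_injective hζ (hcF q.1 q.2).symm⟩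

lemma pow_smul_eq_of_char {χ : (galLevels K Ω).Chars p H} {σ σ' : H} (hσ : χ.1 σ = 1)
    (hσ' : χ.1 σ' = 1) (y : Ωˣ) (hy : ∀ m : H, χ.1 m = 0 → m • y = y) (j : ℕ) :
    σ' ^ j • y = σ ^ j • y := by
  have h0 : χ.1 ((σ ^ j)⁻¹ * σ' ^ j) = 0 := by
    rw [LevelSys.char_mul, LevelSys.char_inv, LevelSys.char_pow, LevelSys.char_pow, hσ, hσ']
    ring
  have := hy _ h0
  rw [mul_smul, inv_smul_eq_iff] at this
  exact this

/-- Every element of `Ω` is fixed by a level. -/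
lemma exists_level_fix' (x : Ω) :
    ∃ N, (galLevels K Ω).P N ∧ ∀ s ∈ N, s • x = x := by
  have hint : IsIntegral K x := Algebra.IsIntegral.isIntegral _
  have hfd : FiniteDimensional K (IntermediateField.adjoin K {x}) :=
    IntermediateField.adjoin.finiteDimensional hint
  exact ⟨_, ⟨IntermediateField.adjoin K {x}, hfd, rfl⟩, fun s hs =>
    (IntermediateField.mem_fixingSubgroup_iff _ _).1 hs _
      (IntermediateField.mem_adjoin_simple_self K _)⟩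

/-- The norm map on characters (corestriction), with the projection formula: the `norm` axiom
(helper3665's transfer construction, fed with the Kummer generator and the norm criterion). -/
theorem norm_of_galois (hp2 : p ≠ 2) (hζ : IsPrimitiveRoot ζ p)
    (hfix : ∀ g ∈ H, g • ζ = ζ) (hroot : ∀ x : Ωˣ, ∃ y : Ωˣ, y ^ p = x)
    (hH : (galLevels K Ω).IsOpen H)
    (χ : (galLevels K Ω).Chars p H) (hχ : χ ≠ 0) :
    ∃ nu : (galLevels K Ω).Chars p (LevelSys.kerSub χ) →ₗ[ZMod p] (galLevels K Ω).Chars p H,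
      (∀ ψ, (galLevels K Ω).cup p H χ ψ = 0 → ∃ β, nu β = ψ) ∧
      ∀ (α : (galLevels K Ω).H2 p H) (x : (galLevels K Ω).Chars p H)
        (β : (galLevels K Ω).Chars p (LevelSys.kerSub χ)),
        (galLevels K Ω).resH2 p (LevelSys.kerSub_le χ) α
            = (galLevels K Ω).cup p (LevelSys.kerSub χ)
              ((galLevels K Ω).resChar p (LevelSys.kerSub_le χ) x) β →
          (galLevels K Ω).cup p H x (nu β) = 0 := by
  have hp0 : p ≠ 0 := (Fact.out : p.Prime).ne_zero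
  refine helper3665.isSymbolic_norm (galLevels K Ω) p (Ω := Ω) exists_level_fix' ?_ H hH
    (ζ : Ω) (IsPrimitiveRoot.coe_units_iff.2 hζ) (fun h hh => congrArg Units.val (hfix h hh))
    χ hχ ?_ ?_
  · intro x
    by_cases hx : x = 0
    · exact ⟨0, by rw [hx, zero_pow hp0]⟩
    · obtain ⟨y, hy⟩ := hroot (Units.mk0 x hx)
      exact ⟨(y : Ω), by rw [← Units.val_pow_eq_pow_val, hy, Units.val_mk0]⟩
  · intro ψ
    obtain ⟨α, hα⟩ := exists_kummer_gen hζ hfix ψ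
    refine ⟨(α : Ω), α.ne_zero, fun h => ?_⟩
    have := congrArg Units.val (hα h)
    rw [Units.val_mul, expZ, Units.val_pow_eq_pow_val] at this
    exact this
  · intro ψ β hβ0 hβ hcup
    obtain ⟨σ₀, hσ₀⟩ := exists_char_eq_one χ hχ
    have h0 : (galLevels K Ω).cup p H ψ χ = 0 := by
      rw [cup_antisymm hp2, hcup, neg_zero]
    have hβ' : ∀ g : H, g • Units.mk0 β hβ0 = expZ ζ (ψ.1 g) * Units.mk0 β hβ0 := by
      intro g
      apply Units.ext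
      rw [Units.val_mul, expZ, Units.val_pow_eq_pow_val]
      exact hβ g
    obtain ⟨y, hy, hyβ⟩ := norm_of_cup_eq_zero hζ hfix χ ψ σ₀ hσ₀ (Units.mk0 β hβ0) hβ' h0
    refine ⟨(y : Ω), y.ne_zero, fun h hh => ?_, fun σ hσ => ?_⟩
    · obtain ⟨hhH, hh0⟩ := hh
      exact congrArg Units.val (hy ⟨h, hhH⟩ hh0)
    · have e1 : ∏ m ∈ Finset.range p, σ ^ m • y = ∏ m ∈ Finset.range p, σ₀ ^ m • y :=
        Finset.prod_congr rfl (fun m _ => pow_smul_eq_of_char hσ₀ hσ y hy m)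
      have e2 := congrArg Units.val (hyβ.trans e1.symm)
      rw [Units.val_pow_eq_pow_val, Units.val_mk0, Units.coe_prod] at e2
      exact e2.symm

/-- The arithmetic hypotheses of the symbol-line theorem for the Galois group `Gal(Ω/K)`: a
hereditary class `𝒞` of open subgroups fixing `ζ`, with the norm index and the power index. -/
structure GalSymbolHyp (p : ℕ) (ζ : Ωˣ) (𝒞 : Subgroup (Ω ≃ₐ[K] Ω) → Prop) : Prop where
  isOpen : ∀ H, 𝒞 H → (galLevels K Ω).IsOpen H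
  her : ∀ H H', 𝒞 H → H' ≤ H → (galLevels K Ω).IsOpen H' → 𝒞 H'
  fix : ∀ H, 𝒞 H → ∀ g ∈ H, g • ζ = ζ
  normIdx : ∀ H, 𝒞 H → NormIdx p H
  powIdx : ∀ H, 𝒞 H → PowIdx p H

/-- **The level system of a Galois group is symbolic**, given the norm index and the power index
(and `ζ_p`, `p` odd, `p`-th roots in `Ω`). -/
theorem isSymbolic_of_galois (hp2 : p ≠ 2) (hζ : IsPrimitiveRoot ζ p)
    (hroot : ∀ x : Ωˣ, ∃ y : Ωˣ, y ^ p = x) {𝒞 : Subgroup (Ω ≃ₐ[K] Ω) → Prop}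
    (hyp : GalSymbolHyp p ζ 𝒞) : (galLevels K Ω).IsSymbolic p 𝒞 where
  isOpen := hyp.isOpen
  her := hyp.her
  rankOne H hH χ hχ := rankOne_of_normIdx hp2 hζ (hyp.fix H hH) hroot (hyp.normIdx H hH) χ hχ
  norm H hH χ hχ := norm_of_galois hp2 hζ (hyp.fix H hH) hroot (hyp.isOpen H hH) χ hχ
  bk2 H hH χ hχ α hα := bk2_of_galois hp2 hζ (hyp.fix H hH) hroot (hyp.isOpen H hH) χ hχ α hα
  two H hH χ := two_of_powIdx hζ (hyp.fix H hH) hroot (hyp.powIdx H hH) χ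

end Symbolic

end Fermat.Agent.S55.helper164
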