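import Mathlib
import Fermat.Prelude.Def_GroupCohomology_ContinuousUnramified

/-!
# S55, leaf BR-MUP (backup copy, helper512): the `μ_p` dictionary

Adapter between

* the **additive** frozen carriers: a rank-one `Rep (ZMod p) G` with character `χ`
  (e.g. `ofChar (cycloChar p)`, or `Rep.res r (ofChar (cycloChar p))`), its cocycles,
  coboundaries and the level-constant quotients `continuousH2 r`, `continuousH2S S`, and
* the **multiplicative** carriers used by the arithmetic leaves: `μ_p`-valued functions with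
  values in a multiplicative `G`-module `M` (e.g. `(AlgebraicClosure ℚ)ˣ`, `(PadicAlgCl l)ˣ`)
  satisfying Mathlib's `IsMulCocycle₁/₂`, `IsMulCoboundary₁/₂`-type identities.

Part A is a general additive-to-multiplicative dictionary for an injective equivariant
"exponential" `E : A → M`.  Part B specialises to `E a = ζ ^ (e a).val` (`ζ` a primitive `p`-th root
of unity with `g • ζ = ζ ^ χ g`).  Part C gives the instances: `G_ℚ` on `(AlgebraicClosure ℚ)ˣ` with
`cycloChar p`, the local groups on `(PadicAlgCl l)ˣ`, and pull-backs along group homomorphisms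
(subgroups, `Ω ≃ₐ[K] Ω`, ...).
-/

set_option autoImplicit false

open groupCohomology

namespace Fermat.Agent.S55.helper512

noncomputable section

/-! ## Part A: general additive ↔ multiplicative dictionary -/

section General

variable {k : Type} [CommRing k] {G : Type} [Group G] (A : Rep.{0} k G)
variable (M : Type*) [CommGroup M] [MulDistribMulAction G M]

/-- An injective, equivariant "exponential" from (the additive group of) a representation to a
multiplicative `G`-module. -/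
structure ExpMap where
  /-- the underlying function -/
  toFun : A → M
  map_add : ∀ a b, toFun (a + b) = toFun a * toFun b
  injective : Function.Injective toFun
  smul : ∀ (g : G) (a : A), g • toFun a = toFun (A.ρ g a)

variable {A M}

namespace ExpMap

variable (E : ExpMap A M)

theorem map_zero : E.toFun 0 = 1 := by
  have h := E.map_add 0 0
  rw [add_zero] at h
  exact (mul_eq_left.mp h.symm)

theorem map_neg (a : A) : E.toFun (-a) = (E.toFun a)⁻¹ := by
  have h := E.map_add a (-a)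
  rw [add_neg_cancel, E.map_zero] at h
  exact (inv_eq_of_mul_eq_one_right h.symm).symm

theorem map_sub (a b : A) : E.toFun (a - b) = E.toFun a / E.toFun b := by
  rw [sub_eq_add_neg, E.map_add, E.map_neg, div_eq_mul_inv]

theorem map_nsmul (n : ℕ) (a : A) : E.toFun (n • a) = E.toFun a ^ n := by
  induction n with
  | zero => simp [E.map_zero]
  | succ n ih => rw [succ_nsmul, E.map_add, ih, pow_succ]

theorem eq_iff {a b : A} : E.toFun a = E.toFun b ↔ a = b := E.injective.eq_iff

theorem eq_one_iff {a : A} : E.toFun a = 1 ↔ a = 0 := by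
  rw [← E.map_zero, E.eq_iff]

/-- A (noncomputable) inverse of the exponential, junk outside its range. -/
def log (y : M) : A := Function.invFun E.toFun y

theorem toFun_log {y : M} (hy : y ∈ Set.range E.toFun) : E.toFun (E.log y) = y :=
  Function.invFun_eq hy

theorem log_toFun (a : A) : E.log (E.toFun a) = a :=
  Function.leftInverse_invFun E.injective a

/-- Every function with values in the range of `E` is `E ∘ f` for a unique `f`. -/
theorem exists_unique_lift {X : Type*} (F : X → M) (hF : ∀ x, F x ∈ Set.range E.toFun) :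
    ∃! f : X → A, ∀ x, E.toFun (f x) = F x := by
  refine ⟨fun x => E.log (F x), fun x => E.toFun_log (hF x), fun f hf => ?_⟩
  funext x
  rw [← hf x, E.log_toFun]

/-! ### Transport of the cocycle / coboundary identities -/

theorem mem_cocycles₁_iff (f : G → A) :
    f ∈ cocycles₁ A ↔ IsMulCocycle₁ (fun g => E.toFun (f g)) := by
  rw [groupCohomology.mem_cocycles₁_iff]
  constructor
  · intro h g g'
    show E.toFun (f (g * g')) = g • E.toFun (f g') * E.toFun (f g)
    rw [h, E.map_add, E.smul]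
  · intro h g g'
    apply E.injective
    rw [E.map_add, ← E.smul]
    exact h g g'

theorem mem_cocycles₂_iff (f : G × G → A) :
    f ∈ cocycles₂ A ↔ IsMulCocycle₂ (fun x => E.toFun (f x)) := by
  rw [groupCohomology.mem_cocycles₂_iff]
  constructor
  · intro h g g' g''
    show E.toFun (f (g * g', g'')) * E.toFun (f (g, g'))
      = g • E.toFun (f (g', g'')) * E.toFun (f (g, g' * g''))
    rw [← E.map_add, h, E.map_add, E.smul]
  · intro h g g' g''
    apply E.injective
    rw [E.map_add, E.map_add, ← E.smul]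
    exact h g g' g''

/-- `d₁₂ x = f` in multiplicative form. -/
theorem d₁₂_eq_iff (x : G → A) (f : G × G → A) :
    (d₁₂ A).hom x = f ↔
      ∀ g h : G, g • E.toFun (x h) / E.toFun (x (g * h)) * E.toFun (x g) = E.toFun (f (g, h)) := by
  constructor
  · rintro rfl g h
    rw [d₁₂_hom_apply, E.map_add, E.map_sub, E.smul]
  · intro h
    funext ⟨g, g'⟩
    apply E.injective
    rw [d₁₂_hom_apply, E.map_add, E.map_sub, ← E.smul]
    exact h g g'

/-- `d₀₁ m = f` in multiplicative form. -/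
theorem d₀₁_eq_iff (m : A) (f : G → A) :
    (d₀₁ A).hom m = f ↔ ∀ g : G, g • E.toFun m / E.toFun m = E.toFun (f g) := by
  constructor
  · rintro rfl g
    rw [d₀₁_hom_apply, E.map_sub, E.smul]
  · intro h
    funext g
    apply E.injective
    rw [d₀₁_hom_apply, E.map_sub, ← E.smul]
    exact h g

/-- A function `G × G → A` is a 2-coboundary iff its exponential is the multiplicative coboundary of
a 1-cochain with values in the range of `E`. -/
theorem mem_coboundaries₂_iff (f : G × G → A) :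
    f ∈ coboundaries₂ A ↔ ∃ y : G → M, (∀ g, y g ∈ Set.range E.toFun) ∧
      ∀ g h : G, g • y h / y (g * h) * y g = E.toFun (f (g, h)) := by
  constructor
  · rintro ⟨x, hx⟩
    exact ⟨fun g => E.toFun (x g), fun g => ⟨x g, rfl⟩, (E.d₁₂_eq_iff x f).1 hx⟩
  · rintro ⟨y, hy, h⟩
    refine ⟨fun g => E.log (y g), (E.d₁₂_eq_iff _ f).2 fun g g' => ?_⟩
    simp only [E.toFun_log (hy _)]
    exact h g g'

/-- A 1-cochain is a 1-coboundary iff its exponential is `g ↦ g • y / y` for `y` in the range. -/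
theorem mem_coboundaries₁_iff (f : G → A) :
    f ∈ coboundaries₁ A ↔ ∃ y : M, y ∈ Set.range E.toFun ∧ ∀ g : G, g • y / y = E.toFun (f g) := by
  constructor
  · rintro ⟨m, hm⟩
    exact ⟨E.toFun m, ⟨m, rfl⟩, (E.d₀₁_eq_iff m f).1 hm⟩
  · rintro ⟨y, ⟨m, rfl⟩, h⟩
    exact ⟨m, (E.d₀₁_eq_iff m f).2 h⟩

end ExpMap

/-! ### Level-constancy is insensitive to composition with an injective map -/

section Level

variable {H : Type} [Group H] (r : H →* (AlgebraicClosure ℚ ≃ₐ[ℚ] AlgebraicClosure ℚ))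

theorem isLevelConstant₁_comp_iff {X Y : Type*} {φ : X → Y} (hφ : Function.Injective φ)
    (f : H → X) : IsLevelConstant₁ r (fun g => φ (f g)) ↔ IsLevelConstant₁ r f := by
  constructor
  · rintro ⟨F, hF, h⟩
    exact ⟨F, hF, fun g s hs => hφ (h g s hs)⟩
  · intro h
    exact h.comp φ

theorem isLevelConstant₂_comp_iff {X Y : Type*} {φ : X → Y} (hφ : Function.Injective φ)
    (f : H × H → X) : IsLevelConstant₂ r (fun x => φ (f x)) ↔ IsLevelConstant₂ r f := by
  constructor
  · rintro ⟨F, hF, h⟩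
    exact ⟨F, hF, fun g g' s s' hs hs' => hφ (h g g' s s' hs hs')⟩
  · intro h
    exact h.comp φ

theorem isLevelConstantS₁_comp_iff (S : Finset Nat.Primes) {X Y : Type*} {φ : X → Y}
    (hφ : Function.Injective φ) (f : (AlgebraicClosure ℚ ≃ₐ[ℚ] AlgebraicClosure ℚ) → X) :
    IsLevelConstantS₁ S (fun g => φ (f g)) ↔ IsLevelConstantS₁ S f := by
  constructor
  · rintro ⟨F, hF, h⟩
    exact ⟨F, hF, fun g s hs => hφ (h g s hs)⟩
  · intro h
    exact h.comp φ

theorem isLevelConstantS₂_comp_iff (S : Finset Nat.Primes) {X Y : Type*} {φ : X → Y}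
    (hφ : Function.Injective φ)
    (f : (AlgebraicClosure ℚ ≃ₐ[ℚ] AlgebraicClosure ℚ) × (AlgebraicClosure ℚ ≃ₐ[ℚ] AlgebraicClosure ℚ)
      → X) :
    IsLevelConstantS₂ S (fun x => φ (f x)) ↔ IsLevelConstantS₂ S f := by
  constructor
  · rintro ⟨F, hF, h⟩
    exact ⟨F, hF, fun g g' s s' hs hs' => hφ (h g g' s s' hs hs')⟩
  · intro h
    exact h.comp φ

end Level

/-! ### The multiplicative level carriers and the dictionary for `continuousH2 r` -/

section LevelCarriers

variable (r : G →* (AlgebraicClosure ℚ ≃ₐ[ℚ] AlgebraicClosure ℚ)) (E : ExpMap A M)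

/-- Multiplicative level 2-cocycles with values in the range of `E`. -/
def IsMulLevelCocycle₂ (F : G × G → M) : Prop :=
  IsMulCocycle₂ F ∧ (∀ x, F x ∈ Set.range E.toFun) ∧ IsLevelConstant₂ r F

/-- Multiplicative level 2-coboundaries: coboundaries of level 1-cochains with values in the range
of `E`. -/
def IsMulLevelCoboundary₂ (F : G × G → M) : Prop :=
  ∃ y : G → M, (∀ g, y g ∈ Set.range E.toFun) ∧ IsLevelConstant₁ r y ∧
    ∀ g h : G, g • y h / y (g * h) * y g = F (g, h)

/-- Multiplicative level 1-cocycles with values in the range of `E`. -/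
def IsMulLevelCocycle₁ (F : G → M) : Prop :=
  IsMulCocycle₁ F ∧ (∀ x, F x ∈ Set.range E.toFun) ∧ IsLevelConstant₁ r F

/-- Multiplicative 1-coboundaries of an element of the range of `E`. -/
def IsMulRangeCoboundary₁ (F : G → M) : Prop :=
  ∃ y : M, y ∈ Set.range E.toFun ∧ ∀ g : G, g • y / y = F g

theorem mem_levelCocycles₂_iff (f : G × G → A) :
    f ∈ levelCocycles₂ r A ↔ IsMulLevelCocycle₂ r E (fun x => E.toFun (f x)) := by
  rw [groupCohomology.mem_levelCocycles₂_iff, E.mem_cocycles₂_iff,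
    ← isLevelConstant₂_comp_iff r E.injective f]
  exact ⟨fun h => ⟨h.1, fun x => ⟨f x, rfl⟩, h.2⟩, fun h => ⟨h.1, h.2.2⟩⟩

theorem mem_levelCoboundaries₂_iff (f : G × G → A) :
    f ∈ levelCoboundaries₂ r A ↔ IsMulLevelCoboundary₂ r E (fun x => E.toFun (f x)) := by
  rw [groupCohomology.mem_levelCoboundaries₂_iff]
  constructor
  · rintro ⟨x, hx, hxf⟩
    exact ⟨fun g => E.toFun (x g), fun g => ⟨x g, rfl⟩, hx.comp E.toFun, (E.d₁₂_eq_iff x f).1 hxf⟩
  · rintro ⟨y, hy, hyl, h⟩
    refine ⟨fun g => E.log (y g), ?_, (E.d₁₂_eq_iff _ f).2 fun g g' => ?_⟩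
    · refine (isLevelConstant₁_comp_iff r E.injective _).1 ?_
      simpa only [E.toFun_log (hy _)] using hyl
    · simp only [E.toFun_log (hy _)]
      exact h g g'

theorem mem_levelCocycles₁_iff (c : cocycles₁ A) :
    c ∈ levelCocycles₁ r A ↔ IsMulLevelCocycle₁ r E (fun g => E.toFun (c.1 g)) := by
  rw [groupCohomology.mem_levelCocycles₁_iff]
  constructor
  · intro h
    exact ⟨(E.mem_cocycles₁_iff c.1).1 c.2, fun x => ⟨c.1 x, rfl⟩, h.comp E.toFun⟩
  · intro h
    exact (isLevelConstant₁_comp_iff r E.injective _).1 h.2.2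

/-- Every multiplicative level 2-cocycle is the exponential of a (unique) additive one. -/
theorem exists_levelCocycle₂ {F : G × G → M} (hF : IsMulLevelCocycle₂ r E F) :
    ∃ f : levelCocycles₂ r A, ∀ x, E.toFun (f.1 x) = F x := by
  obtain ⟨f, hf, -⟩ := E.exists_unique_lift F hF.2.1
  have hfun : (fun x => E.toFun (f x)) = F := funext hf
  refine ⟨⟨f, (mem_levelCocycles₂_iff r E f).2 ?_⟩, hf⟩
  rw [hfun]
  exact hF

/-- Every multiplicative level 1-cocycle is the exponential of a (unique) additive one. -/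
theorem exists_levelCocycle₁ {F : G → M} (hF : IsMulLevelCocycle₁ r E F) :
    ∃ c : cocycles₁ A, c ∈ levelCocycles₁ r A ∧ ∀ g, E.toFun (c.1 g) = F g := by
  obtain ⟨f, hf, -⟩ := E.exists_unique_lift F hF.2.1
  have hfun : (fun x => E.toFun (f x)) = F := funext hf
  have hc : f ∈ cocycles₁ A := (E.mem_cocycles₁_iff f).2 (by rw [hfun]; exact hF.1)
  refine ⟨⟨f, hc⟩, (mem_levelCocycles₁_iff r E ⟨f, hc⟩).2 ?_, hf⟩
  show IsMulLevelCocycle₁ r E (fun g => E.toFun (f g))
  rw [hfun]
  exact hF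

/-- The class of a level 2-cocycle vanishes in `continuousH2 r A` iff its exponential is a
multiplicative level coboundary. -/
theorem continuousH2π_eq_zero_iff (f : levelCocycles₂ r A) :
    continuousH2π r A f = 0 ↔ IsMulLevelCoboundary₂ r E (fun x => E.toFun (f.1 x)) := by
  rw [groupCohomology.continuousH2π_eq_zero_iff, mem_levelCoboundaries₂_iff r E]

/-- Two level 2-cocycles have the same class iff the quotient of their exponentials is a
multiplicative level coboundary. -/
theorem continuousH2π_eq_iff (f f' : levelCocycles₂ r A) :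
    continuousH2π r A f = continuousH2π r A f' ↔
      IsMulLevelCoboundary₂ r E (fun x => E.toFun (f.1 x) / E.toFun (f'.1 x)) := by
  rw [← sub_eq_zero, ← map_sub, continuousH2π_eq_zero_iff r E]
  have : (fun x => E.toFun ((f - f' : levelCocycles₂ r A).1 x))
      = fun x => E.toFun (f.1 x) / E.toFun (f'.1 x) := by
    funext x
    exact E.map_sub _ _
  rw [this]

/-- The class of a 1-cocycle vanishes in `H1 A` iff its exponential is the coboundary of an element
of the range of `E`. -/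
theorem H1π_eq_zero_iff (c : cocycles₁ A) :
    (H1π A).hom c = 0 ↔ IsMulRangeCoboundary₁ E (fun g => E.toFun (c.1 g)) := by
  rw [groupCohomology.H1π_eq_zero_iff]
  exact E.mem_coboundaries₁_iff c.1

end LevelCarriers

/-! ### The same dictionary for the global `S`-level carriers `continuousH2S S` -/

section GlobalS

variable {B : Rep.{0} k (AlgebraicClosure ℚ ≃ₐ[ℚ] AlgebraicClosure ℚ)}
variable {N : Type*} [CommGroup N] [MulDistribMulAction (AlgebraicClosure ℚ ≃ₐ[ℚ] AlgebraicClosure ℚ) N]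
variable (S : Finset Nat.Primes) (E : ExpMap B N)

/-- Multiplicative `S`-level 2-cocycles with values in the range of `E`. -/
def IsMulLevelCocycleS₂
    (F : (AlgebraicClosure ℚ ≃ₐ[ℚ] AlgebraicClosure ℚ) × (AlgebraicClosure ℚ ≃ₐ[ℚ] AlgebraicClosure ℚ)
      → N) : Prop :=
  IsMulCocycle₂ F ∧ (∀ x, F x ∈ Set.range E.toFun) ∧ IsLevelConstantS₂ S F

/-- Multiplicative `S`-level 2-coboundaries. -/
def IsMulLevelCoboundaryS₂
    (F : (AlgebraicClosure ℚ ≃ₐ[ℚ] AlgebraicClosure ℚ) × (AlgebraicClosure ℚ ≃ₐ[ℚ] AlgebraicClosure ℚ)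
      → N) : Prop :=
  ∃ y : (AlgebraicClosure ℚ ≃ₐ[ℚ] AlgebraicClosure ℚ) → N, (∀ g, y g ∈ Set.range E.toFun) ∧
    IsLevelConstantS₁ S y ∧ ∀ g h, g • y h / y (g * h) * y g = F (g, h)

/-- Multiplicative `S`-level 1-cocycles with values in the range of `E`. -/
def IsMulLevelCocycleS₁ (F : (AlgebraicClosure ℚ ≃ₐ[ℚ] AlgebraicClosure ℚ) → N) : Prop :=
  IsMulCocycle₁ F ∧ (∀ x, F x ∈ Set.range E.toFun) ∧ IsLevelConstantS₁ S F

theorem mem_levelCocyclesS₂_iff
    (f : (AlgebraicClosure ℚ ≃ₐ[ℚ] AlgebraicClosure ℚ) × (AlgebraicClosure ℚ ≃ₐ[ℚ] AlgebraicClosure ℚ)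
      → B) :
    f ∈ levelCocyclesS₂ S B ↔ IsMulLevelCocycleS₂ S E (fun x => E.toFun (f x)) := by
  rw [groupCohomology.mem_levelCocyclesS₂_iff, E.mem_cocycles₂_iff,
    ← isLevelConstantS₂_comp_iff S E.injective f]
  exact ⟨fun h => ⟨h.1, fun x => ⟨f x, rfl⟩, h.2⟩, fun h => ⟨h.1, h.2.2⟩⟩

theorem mem_levelCoboundariesS₂_iff
    (f : (AlgebraicClosure ℚ ≃ₐ[ℚ] AlgebraicClosure ℚ) × (AlgebraicClosure ℚ ≃ₐ[ℚ] AlgebraicClosure ℚ)
      → B) :
    f ∈ levelCoboundariesS₂ S B ↔ IsMulLevelCoboundaryS₂ S E (fun x => E.toFun (f x)) := by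
  rw [groupCohomology.mem_levelCoboundariesS₂_iff]
  constructor
  · rintro ⟨x, hx, hxf⟩
    exact ⟨fun g => E.toFun (x g), fun g => ⟨x g, rfl⟩, hx.comp E.toFun, (E.d₁₂_eq_iff x f).1 hxf⟩
  · rintro ⟨y, hy, hyl, h⟩
    refine ⟨fun g => E.log (y g), ?_, (E.d₁₂_eq_iff _ f).2 fun g g' => ?_⟩
    · refine (isLevelConstantS₁_comp_iff S E.injective _).1 ?_
      simpa only [E.toFun_log (hy _)] using hyl
    · simp only [E.toFun_log (hy _)]
      exact h g g'

theorem mem_levelCocyclesS₁_iff (c : cocycles₁ B) :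
    c ∈ levelCocyclesS₁ S B ↔ IsMulLevelCocycleS₁ S E (fun g => E.toFun (c.1 g)) := by
  constructor
  · intro h
    exact ⟨(E.mem_cocycles₁_iff c.1).1 c.2, fun x => ⟨c.1 x, rfl⟩,
      IsLevelConstantS₁.comp (f := c.1) h E.toFun⟩
  · intro h
    exact (isLevelConstantS₁_comp_iff S E.injective c.1).1 h.2.2

theorem exists_levelCocycleS₂
    {F : (AlgebraicClosure ℚ ≃ₐ[ℚ] AlgebraicClosure ℚ) × (AlgebraicClosure ℚ ≃ₐ[ℚ] AlgebraicClosure ℚ)
      → N} (hF : IsMulLevelCocycleS₂ S E F) :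
    ∃ f : levelCocyclesS₂ S B, ∀ x, E.toFun (f.1 x) = F x := by
  obtain ⟨f, hf, -⟩ := E.exists_unique_lift F hF.2.1
  have hfun : (fun x => E.toFun (f x)) = F := funext hf
  refine ⟨⟨f, (mem_levelCocyclesS₂_iff S E f).2 ?_⟩, hf⟩
  rw [hfun]
  exact hF

theorem continuousH2Sπ_eq_zero_iff (f : levelCocyclesS₂ S B) :
    continuousH2Sπ S B f = 0 ↔ IsMulLevelCoboundaryS₂ S E (fun x => E.toFun (f.1 x)) := by
  rw [groupCohomology.continuousH2Sπ_eq_zero_iff, mem_levelCoboundariesS₂_iff S E]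

end GlobalS

end General

/-! ## Part B: the `μ_p` exponential `a ↦ ζ ^ a.val` -/

section MuP

variable {p : ℕ} [Fact p.Prime] {G : Type} [Group G]
variable {M : Type*} [CommGroup M] [MulDistribMulAction G M]

/-- `a ↦ ζ ^ a.val` on `ZMod p`. -/
def expZ (ζ : M) (a : ZMod p) : M := ζ ^ a.val

omit [Fact p.Prime] [MulDistribMulAction G M] in
theorem expZ_apply (ζ : M) (a : ZMod p) : expZ ζ a = ζ ^ a.val := rfl

omit [MulDistribMulAction G M] in
theorem expZ_add {ζ : M} (hζ : ζ ^ p = 1) (a b : ZMod p) :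
    expZ ζ (a + b) = expZ ζ a * expZ ζ b := by
  unfold expZ
  rw [ZMod.val_add, ← pow_add]
  exact (pow_eq_pow_mod _ hζ).symm

omit [MulDistribMulAction G M] in
theorem expZ_mul {ζ : M} (hζ : ζ ^ p = 1) (a b : ZMod p) :
    expZ ζ (a * b) = expZ ζ b ^ a.val := by
  unfold expZ
  rw [ZMod.val_mul, ← pow_mul, mul_comm b.val]
  exact (pow_eq_pow_mod _ hζ).symm

omit [MulDistribMulAction G M] in
theorem expZ_natCast {ζ : M} (hζ : ζ ^ p = 1) (n : ℕ) : expZ ζ (n : ZMod p) = ζ ^ n := by
  unfold expZ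
  rw [ZMod.val_natCast]
  exact (pow_eq_pow_mod _ hζ).symm

omit [Fact p.Prime] [MulDistribMulAction G M] in
theorem expZ_pow_eq_one {ζ : M} (hζ : ζ ^ p = 1) (a : ZMod p) : expZ ζ a ^ p = 1 := by
  unfold expZ
  rw [← pow_mul, mul_comm, pow_mul, hζ, one_pow]

omit [MulDistribMulAction G M] in
theorem expZ_injective {ζ : M} (hζ : ζ ^ p = 1) (hζ1 : ζ ≠ 1) :
    Function.Injective (expZ (p := p) ζ) := by
  intro a b hab
  have hord : orderOf ζ = p := orderOf_eq_prime hζ hζ1
  unfold expZ at hab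
  rw [pow_eq_pow_iff_modEq, hord] at hab
  exact ZMod.val_injective p (Nat.ModEq.eq_of_lt_of_lt hab (ZMod.val_lt a) (ZMod.val_lt b))

theorem smul_expZ {ζ : M} (hζ : ζ ^ p = 1) {c : ZMod p} {g : G} (hg : g • ζ = ζ ^ c.val)
    (a : ZMod p) : g • expZ ζ a = expZ ζ (c * a) := by
  rw [expZ_mul hζ]
  unfold expZ
  rw [smul_pow', hg, ← pow_mul, ← pow_mul, mul_comm]

/-- The datum of a primitive `p`-th root of unity `ζ` in a multiplicative `G`-module on which `G`
acts through the character `χ`, and which generates the whole `p`-torsion. -/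
structure MuDatum (p : ℕ) [Fact p.Prime] (χ : G →* (ZMod p)ˣ) (M : Type*) [CommGroup M]
    [MulDistribMulAction G M] where
  /-- the chosen primitive `p`-th root of unity -/
  ζ : M
  pow_eq_one : ζ ^ p = 1
  ne_one : ζ ≠ 1
  smul_eq : ∀ g : G, g • ζ = ζ ^ ((χ g : (ZMod p)ˣ) : ZMod p).val
  gen : ∀ y : M, y ^ p = 1 → ∃ a : ZMod p, ζ ^ a.val = y

/-- A rank-one `Rep (ZMod p) G` on which `G` acts through the character `χ`, with a chosen
coordinate. -/
structure CharModel (A : Rep.{0} (ZMod p) G) (χ : G →* (ZMod p)ˣ) where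
  /-- the coordinate -/
  e : A ≃ₗ[ZMod p] ZMod p
  map_ρ : ∀ (g : G) (a : A), e (A.ρ g a) = ((χ g : (ZMod p)ˣ) : ZMod p) * e a

variable {χ : G →* (ZMod p)ˣ} {A : Rep.{0} (ZMod p) G}

/-- The `μ_p` exponential `a ↦ ζ ^ (e a).val` as an `ExpMap`. -/
def MuDatum.expMap (D : MuDatum p χ M) (c : CharModel A χ) : ExpMap A M where
  toFun a := expZ D.ζ (c.e a)
  map_add a b := by rw [map_add, expZ_add D.pow_eq_one]
  injective := (expZ_injective D.pow_eq_one D.ne_one).comp c.e.injective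
  smul g a := by rw [c.map_ρ, smul_expZ D.pow_eq_one (D.smul_eq g)]

theorem MuDatum.expMap_apply (D : MuDatum p χ M) (c : CharModel A χ) (a : A) :
    (D.expMap c).toFun a = D.ζ ^ (c.e a).val := rfl

theorem MuDatum.expMap_pow (D : MuDatum p χ M) (c : CharModel A χ) (a : A) :
    (D.expMap c).toFun a ^ p = 1 := expZ_pow_eq_one D.pow_eq_one _

/-- The range of the `μ_p` exponential is exactly the `p`-torsion of `M`. -/
theorem MuDatum.mem_range_expMap (D : MuDatum p χ M) (c : CharModel A χ) (y : M) :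
    y ∈ Set.range (D.expMap c).toFun ↔ y ^ p = 1 := by
  constructor
  · rintro ⟨a, rfl⟩
    exact D.expMap_pow c a
  · intro hy
    obtain ⟨a, ha⟩ := D.gen y hy
    exact ⟨c.e.symm a, by rw [D.expMap_apply, LinearEquiv.apply_symm_apply, ha]⟩

theorem MuDatum.range_expMap (D : MuDatum p χ M) (c : CharModel A χ) :
    Set.range (D.expMap c).toFun = {y : M | y ^ p = 1} :=
  Set.ext fun y => D.mem_range_expMap c y

/-- The exponential of a scalar multiple. -/
theorem MuDatum.expMap_nsmul (D : MuDatum p χ M) (c : CharModel A χ) (n : ℕ) (a : A) :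
    (D.expMap c).toFun ((n : ZMod p) • a) = (D.expMap c).toFun a ^ n := by
  rw [← (D.expMap c).map_nsmul, Nat.cast_smul_eq_nsmul]

/-! ### `μ_p`-valued multiplicative level carriers -/

section MuCarriers

variable (p)
variable (r : G →* (AlgebraicClosure ℚ ≃ₐ[ℚ] AlgebraicClosure ℚ))

/-- `μ_p`-valued multiplicative level 2-cocycles. -/
def IsMuLevelCocycle₂ (F : G × G → M) : Prop :=
  IsMulCocycle₂ F ∧ (∀ x, F x ^ p = 1) ∧ IsLevelConstant₂ r F

/-- Multiplicative coboundaries of `μ_p`-valued level 1-cochains. -/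
def IsMuLevelCoboundary₂ (F : G × G → M) : Prop :=
  ∃ y : G → M, (∀ g, y g ^ p = 1) ∧ IsLevelConstant₁ r y ∧
    ∀ g h : G, g • y h / y (g * h) * y g = F (g, h)

/-- `μ_p`-valued multiplicative level 1-cocycles. -/
def IsMuLevelCocycle₁ (F : G → M) : Prop :=
  IsMulCocycle₁ F ∧ (∀ x, F x ^ p = 1) ∧ IsLevelConstant₁ r F

/-- Multiplicative 1-coboundaries of an element of `μ_p`. -/
def IsMuCoboundary₁ (F : G → M) : Prop :=
  ∃ y : M, y ^ p = 1 ∧ ∀ g : G, g • y / y = F g

variable {p}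
variable (D : MuDatum p χ M) (c : CharModel A χ)

theorem isMulLevelCocycle₂_iff (F : G × G → M) :
    IsMulLevelCocycle₂ r (D.expMap c) F ↔ IsMuLevelCocycle₂ p r F := by
  simp only [IsMulLevelCocycle₂, IsMuLevelCocycle₂, D.mem_range_expMap c]

theorem isMulLevelCoboundary₂_iff (F : G × G → M) :
    IsMulLevelCoboundary₂ r (D.expMap c) F ↔ IsMuLevelCoboundary₂ p r F := by
  simp only [IsMulLevelCoboundary₂, IsMuLevelCoboundary₂, D.mem_range_expMap c]

theorem isMulLevelCocycle₁_iff (F : G → M) :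
    IsMulLevelCocycle₁ r (D.expMap c) F ↔ IsMuLevelCocycle₁ p r F := by
  simp only [IsMulLevelCocycle₁, IsMuLevelCocycle₁, D.mem_range_expMap c]

theorem isMulRangeCoboundary₁_iff (F : G → M) :
    IsMulRangeCoboundary₁ (D.expMap c) F ↔ IsMuCoboundary₁ p F := by
  simp only [IsMulRangeCoboundary₁, IsMuCoboundary₁, D.mem_range_expMap c]

/-- Frozen level 2-cocycles of a character module are exactly the `μ_p`-valued multiplicative
level 2-cocycles. -/
theorem mu_mem_levelCocycles₂_iff (f : G × G → A) :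
    f ∈ levelCocycles₂ r A ↔ IsMuLevelCocycle₂ p r (fun x => D.ζ ^ (c.e (f x)).val) := by
  rw [mem_levelCocycles₂_iff r (D.expMap c), isMulLevelCocycle₂_iff]
  rfl

/-- Frozen level 2-coboundaries of a character module are exactly the multiplicative coboundaries
of `μ_p`-valued level 1-cochains. -/
theorem mu_mem_levelCoboundaries₂_iff (f : G × G → A) :
    f ∈ levelCoboundaries₂ r A ↔ IsMuLevelCoboundary₂ p r (fun x => D.ζ ^ (c.e (f x)).val) := by
  rw [mem_levelCoboundaries₂_iff r (D.expMap c), isMulLevelCoboundary₂_iff]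
  rfl

/-- Every `μ_p`-valued multiplicative level 2-cocycle comes from a frozen level 2-cocycle. -/
theorem mu_exists_levelCocycle₂ {F : G × G → M} (hF : IsMuLevelCocycle₂ p r F) :
    ∃ f : levelCocycles₂ r A, ∀ x, D.ζ ^ (c.e (f.1 x)).val = F x :=
  exists_levelCocycle₂ r (D.expMap c) ((isMulLevelCocycle₂_iff r D c F).2 hF)

/-- Every `μ_p`-valued multiplicative level 1-cocycle comes from a frozen level 1-cocycle. -/
theorem mu_exists_levelCocycle₁ {F : G → M} (hF : IsMuLevelCocycle₁ p r F) :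
    ∃ z : cocycles₁ A, z ∈ levelCocycles₁ r A ∧ ∀ g, D.ζ ^ (c.e (z.1 g)).val = F g :=
  exists_levelCocycle₁ r (D.expMap c) ((isMulLevelCocycle₁_iff r D c F).2 hF)

/-- Vanishing in the frozen `continuousH2 r A` in `μ_p` terms. -/
theorem mu_continuousH2π_eq_zero_iff (f : levelCocycles₂ r A) :
    continuousH2π r A f = 0 ↔
      IsMuLevelCoboundary₂ p r (fun x => D.ζ ^ (c.e (f.1 x)).val) := by
  rw [continuousH2π_eq_zero_iff r (D.expMap c), isMulLevelCoboundary₂_iff]
  rfl

/-- Equality of classes in the frozen `continuousH2 r A` in `μ_p` terms. -/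
theorem mu_continuousH2π_eq_iff (f f' : levelCocycles₂ r A) :
    continuousH2π r A f = continuousH2π r A f' ↔
      IsMuLevelCoboundary₂ p r
        (fun x => D.ζ ^ (c.e (f.1 x)).val / D.ζ ^ (c.e (f'.1 x)).val) := by
  rw [continuousH2π_eq_iff r (D.expMap c), isMulLevelCoboundary₂_iff]
  rfl

/-- Vanishing in `H1 A` in `μ_p` terms. -/
theorem mu_H1π_eq_zero_iff (z : cocycles₁ A) :
    (H1π A).hom z = 0 ↔ IsMuCoboundary₁ p (fun g => D.ζ ^ (c.e (z.1 g)).val) := by
  rw [H1π_eq_zero_iff (D.expMap c), isMulRangeCoboundary₁_iff]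
  rfl

include D c in
/-- **Vanishing criterion.**  If every `μ_p`-valued multiplicative level 2-cocycle is a `μ_p`-level
coboundary, then the frozen `continuousH2 r A` is zero. -/
theorem continuousH2_subsingleton_of_mu
    (h : ∀ F : G × G → M, IsMuLevelCocycle₂ p r F → IsMuLevelCoboundary₂ p r F) :
    Subsingleton (continuousH2 r A) := by
  refine ⟨fun x y => ?_⟩
  obtain ⟨f, rfl⟩ := Submodule.mkQ_surjective _ x
  obtain ⟨f', rfl⟩ := Submodule.mkQ_surjective _ y
  have h0 : ∀ f : levelCocycles₂ r A, continuousH2π r A f = 0 := fun f =>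
    (mu_continuousH2π_eq_zero_iff r D c f).2 (h _ ((mu_mem_levelCocycles₂_iff r D c f.1).1 f.2))
  exact (h0 f).trans (h0 f').symm

include D c in
/-- **Rank-one criterion.**  If `F₀` is a `μ_p`-valued multiplicative level 2-cocycle that is not a
`μ_p`-level coboundary and every `μ_p`-valued multiplicative level 2-cocycle is a power of `F₀` up
to a `μ_p`-level coboundary, then the frozen `continuousH2 r A` is one-dimensional over `ZMod p`. -/
theorem finrank_continuousH2_eq_one_of_mu {F₀ : G × G → M} (h₀ : IsMuLevelCocycle₂ p r F₀)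
    (hne : ¬ IsMuLevelCoboundary₂ p r F₀)
    (hgen : ∀ F : G × G → M, IsMuLevelCocycle₂ p r F →
      ∃ n : ℕ, IsMuLevelCoboundary₂ p r (fun x => F x / F₀ x ^ n)) :
    Module.finrank (ZMod p) (continuousH2 r A) = 1 := by
  obtain ⟨f₀, hf₀⟩ := mu_exists_levelCocycle₂ r D c (A := A) h₀
  have hfun₀ : (fun x => D.ζ ^ (c.e (f₀.1 x)).val) = F₀ := funext hf₀
  refine finrank_eq_one (continuousH2π r A f₀) ?_ ?_
  · intro h
    rw [mu_continuousH2π_eq_zero_iff r D c, hfun₀] at h
    exact hne h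
  · intro w
    obtain ⟨f, rfl⟩ := Submodule.mkQ_surjective _ w
    obtain ⟨n, hn⟩ := hgen _ ((mu_mem_levelCocycles₂_iff r D c f.1).1 f.2)
    refine ⟨(n : ZMod p), ?_⟩
    rw [← map_smul]
    refine ((mu_continuousH2π_eq_iff r D c f ((n : ZMod p) • f₀)).2 ?_).symm
    have : (fun x => D.ζ ^ (c.e (f.1 x)).val / D.ζ ^ (c.e (((n : ZMod p) • f₀ :
        levelCocycles₂ r A).1 x)).val)
        = fun x => D.ζ ^ (c.e (f.1 x)).val / F₀ x ^ n := by
      funext x
      congr 1
      rw [← hf₀ x]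
      exact D.expMap_nsmul c n (f₀.1 x)
    rw [this]
    exact hn

include D c in
/-- **Converse of the rank-one criterion.**  If the frozen `continuousH2 r A` is one-dimensional,
then any `μ_p`-valued multiplicative level 2-cocycle `F₀` that is not a `μ_p`-level coboundary
generates: every other one is a power of `F₀` up to a `μ_p`-level coboundary. -/
theorem exists_pow_of_finrank_continuousH2_eq_one
    (hrank : Module.finrank (ZMod p) (continuousH2 r A) = 1) {F₀ : G × G → M}
    (h₀ : IsMuLevelCocycle₂ p r F₀) (hne : ¬ IsMuLevelCoboundary₂ p r F₀)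
    {F : G × G → M} (hF : IsMuLevelCocycle₂ p r F) :
    ∃ n : ℕ, IsMuLevelCoboundary₂ p r (fun x => F x / F₀ x ^ n) := by
  obtain ⟨f₀, hf₀⟩ := mu_exists_levelCocycle₂ r D c (A := A) h₀
  obtain ⟨f, hf⟩ := mu_exists_levelCocycle₂ r D c (A := A) hF
  have hfun₀ : (fun x => D.ζ ^ (c.e (f₀.1 x)).val) = F₀ := funext hf₀
  have hv : continuousH2π r A f₀ ≠ 0 := by
    intro h
    rw [mu_continuousH2π_eq_zero_iff r D c, hfun₀] at h
    exact hne h
  obtain ⟨a, ha⟩ := (finrank_eq_one_iff_of_nonzero' _ hv).1 hrank (continuousH2π r A f)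
  refine ⟨a.val, ?_⟩
  rw [← map_smul] at ha
  have key := (mu_continuousH2π_eq_iff r D c f (a • f₀)).1 ha.symm
  have : (fun x => D.ζ ^ (c.e (f.1 x)).val / D.ζ ^ (c.e ((a • f₀ : levelCocycles₂ r A).1 x)).val)
        = fun x => F x / F₀ x ^ a.val := by
    funext x
    rw [hf x, ← hf₀ x]
    congr 1
    have h1 := D.expMap_nsmul c a.val (f₀.1 x)
    rw [ZMod.natCast_zmod_val] at h1
    exact h1
  rw [this] at key
  exact key

end MuCarriers

end MuP

/-! ## Part C: instances -/

section Instances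

open ExtCitation

variable (p : ℕ) [Fact p.Prime]

/-! ### Character modules -/

section CharModels

variable {p}
variable {G : Type} [Group G]

/-- The frozen module `ofChar χ` is a character module (with the identity coordinate). -/
def CharModel.ofChar (χ : G →* (ZMod p)ˣ) : CharModel (ofChar (k := ZMod p) χ) χ where
  e := LinearEquiv.refl _ _
  map_ρ _ _ := rfl

/-- Restriction of a character module along a group homomorphism. -/
def CharModel.res {H : Type} [Group H] (φ : H →* G) {A : Rep.{0} (ZMod p) G} {χ : G →* (ZMod p)ˣ}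
    (c : CharModel A χ) : CharModel (Rep.res φ A) (χ.comp φ) where
  e := c.e
  map_ρ h a := c.map_ρ (φ h) a

/-- Change of the character along an equality. -/
def CharModel.congr {A : Rep.{0} (ZMod p) G} {χ χ' : G →* (ZMod p)ˣ} (c : CharModel A χ)
    (h : χ = χ') : CharModel A χ' where
  e := c.e
  map_ρ g a := by rw [← h]; exact c.map_ρ g a

/-- Pull-back of a `μ_p` datum along a group homomorphism compatible with the actions. -/
def MuDatum.comap {H : Type} [Group H] {M : Type*} [CommGroup M] [MulDistribMulAction G M]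
    [MulDistribMulAction H M] {χ : G →* (ZMod p)ˣ} (D : MuDatum p χ M) (φ : H →* G)
    (hφ : ∀ (h : H) (m : M), h • m = φ h • m) : MuDatum p (χ.comp φ) M where
  ζ := D.ζ
  pow_eq_one := D.pow_eq_one
  ne_one := D.ne_one
  smul_eq h := by rw [hφ]; exact D.smul_eq (φ h)
  gen := D.gen

/-- Restriction of a `μ_p` datum to a subgroup. -/
def MuDatum.subgroup {M : Type*} [CommGroup M] [MulDistribMulAction G M]
    {χ : G →* (ZMod p)ˣ} (D : MuDatum p χ M) (H : Subgroup G) :
    MuDatum p (χ.comp H.subtype) M :=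
  D.comap H.subtype fun _ _ => rfl

/-- Change of the character along an equality. -/
def MuDatum.congr {M : Type*} [CommGroup M] [MulDistribMulAction G M]
    {χ χ' : G →* (ZMod p)ˣ} (D : MuDatum p χ M) (h : χ = χ') : MuDatum p χ' M where
  ζ := D.ζ
  pow_eq_one := D.pow_eq_one
  ne_one := D.ne_one
  smul_eq g := by rw [← h]; exact D.smul_eq g
  gen := D.gen

/-- In a `μ_p` datum the character is determined by the action on `ζ`:
`χ g = 1` iff `g` fixes `ζ`. -/
theorem MuDatum.char_eq_one_iff {M : Type*} [CommGroup M] [MulDistribMulAction G M]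
    {χ : G →* (ZMod p)ˣ} (D : MuDatum p χ M) (g : G) : χ g = 1 ↔ g • D.ζ = D.ζ := by
  constructor
  · intro h
    rw [D.smul_eq, h, Units.val_one, ZMod.val_one, pow_one]
  · intro h
    rw [D.smul_eq] at h
    have h1 : expZ D.ζ ((χ g : (ZMod p)ˣ) : ZMod p) = expZ D.ζ (1 : ZMod p) := by
      rw [expZ_apply, expZ_apply, h, ZMod.val_one, pow_one]
    exact Units.ext (expZ_injective D.pow_eq_one D.ne_one h1)

/-- In a `μ_p` datum, `g • y = y ^ (χ g).val` for every `p`-torsion element `y`. -/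
theorem MuDatum.smul_eq_pow {M : Type*} [CommGroup M] [MulDistribMulAction G M]
    {χ : G →* (ZMod p)ˣ} (D : MuDatum p χ M) (g : G) {y : M} (hy : y ^ p = 1) :
    g • y = y ^ ((χ g : (ZMod p)ˣ) : ZMod p).val := by
  obtain ⟨a, rfl⟩ := D.gen y hy
  rw [smul_pow', D.smul_eq, ← pow_mul, ← pow_mul, mul_comm]

end CharModels

/-! ### The global instance: `G_ℚ` acting on `(AlgebraicClosure ℚ)ˣ` through `cycloChar p` -/

/-- In a domain, a primitive `p`-th root of unity (as a unit) generates the `p`-torsion units. -/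
theorem exists_pow_val_eq_of_isPrimitiveRoot {R : Type*} [CommRing R] [IsDomain R] {ζ : Rˣ}
    (hζ : IsPrimitiveRoot ζ p) (y : Rˣ) (hy : y ^ p = 1) : ∃ a : ZMod p, ζ ^ a.val = y := by
  have : NeZero p := ⟨(Fact.out : p.Prime).ne_zero⟩
  have hζ' : IsPrimitiveRoot (ζ : R) p := IsPrimitiveRoot.coe_units_iff.2 hζ
  have hy' : (y : R) ^ p = 1 := by rw [← Units.val_pow_eq_pow_val, hy, Units.val_one]
  obtain ⟨i, hi, hiy⟩ := hζ'.eq_pow_of_pow_eq_one hy'
  refine ⟨(i : ZMod p), Units.ext ?_⟩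
  rw [ZMod.val_natCast_of_lt hi, Units.val_pow_eq_pow_val, hiy]

/-- A chosen primitive `p`-th root of unity of `AlgebraicClosure ℚ`, as a unit. -/
def zetaQbar : (AlgebraicClosure ℚ)ˣ :=
  haveI : NeZero p := ⟨(Fact.out : p.Prime).ne_zero⟩
  ((HasEnoughRootsOfUnity.exists_primitiveRoot (AlgebraicClosure ℚ) p).choose_spec.isUnit
    (Fact.out : p.Prime).ne_zero).unit

theorem isPrimitiveRoot_coe_zetaQbar :
    IsPrimitiveRoot ((zetaQbar p : (AlgebraicClosure ℚ)ˣ) : AlgebraicClosure ℚ) p := by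
  have : NeZero p := ⟨(Fact.out : p.Prime).ne_zero⟩
  exact (HasEnoughRootsOfUnity.exists_primitiveRoot (AlgebraicClosure ℚ) p).choose_spec

theorem isPrimitiveRoot_zetaQbar : IsPrimitiveRoot (zetaQbar p) p :=
  IsPrimitiveRoot.coe_units_iff.1 (isPrimitiveRoot_coe_zetaQbar p)

/-- The defining property of the frozen `cycloChar p`, on `p`-torsion units of `AlgebraicClosure ℚ`. -/
theorem smul_eq_pow_cycloChar (σ : AlgebraicClosure ℚ ≃ₐ[ℚ] AlgebraicClosure ℚ)
    {t : (AlgebraicClosure ℚ)ˣ} (ht : t ^ p = 1) :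
    σ • t = t ^ ((cycloChar p σ : (ZMod p)ˣ) : ZMod p).val := by
  have : NeZero p := ⟨(Fact.out : p.Prime).ne_zero⟩
  apply Units.ext
  rw [Units.val_pow_eq_pow_val]
  exact modularCyclotomicCharacter.spec (AlgebraicClosure ℚ) (card_rootsOfUnity_eq_self p)
    (σ : AlgebraicClosure ℚ ≃+* AlgebraicClosure ℚ) (t := t) ((mem_rootsOfUnity _ _).2 ht)

/-- The defining property of the frozen `cycloChar p`, on `p`-th roots of unity of
`AlgebraicClosure ℚ`. -/
theorem apply_eq_pow_cycloChar (σ : AlgebraicClosure ℚ ≃ₐ[ℚ] AlgebraicClosure ℚ)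
    {x : AlgebraicClosure ℚ} (hx : x ^ p = 1) :
    σ x = x ^ ((cycloChar p σ : (ZMod p)ˣ) : ZMod p).val := by
  have hp0 : p ≠ 0 := (Fact.out : p.Prime).ne_zero
  have hu : IsUnit x := IsUnit.of_pow_eq_one hx hp0
  have h := smul_eq_pow_cycloChar p σ (t := hu.unit) (Units.ext (by simpa using hx))
  have h2 := congrArg (fun u : (AlgebraicClosure ℚ)ˣ => (u : AlgebraicClosure ℚ)) h
  simpa using h2

/-- The global `μ_p` datum: `G_ℚ` acts on `μ_p ⊆ (AlgebraicClosure ℚ)ˣ` through the frozen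
`cycloChar p`. -/
def globalDatum : MuDatum p (cycloChar p) (AlgebraicClosure ℚ)ˣ where
  ζ := zetaQbar p
  pow_eq_one := (isPrimitiveRoot_zetaQbar p).pow_eq_one
  ne_one := (isPrimitiveRoot_zetaQbar p).ne_one (Fact.out : p.Prime).one_lt
  smul_eq σ := smul_eq_pow_cycloChar p σ (isPrimitiveRoot_zetaQbar p).pow_eq_one
  gen y hy := exists_pow_val_eq_of_isPrimitiveRoot p (isPrimitiveRoot_zetaQbar p) y hy

/-- `cycloChar p σ = 1` iff `σ` fixes the chosen primitive `p`-th root of unity. -/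
theorem cycloChar_eq_one_iff (σ : AlgebraicClosure ℚ ≃ₐ[ℚ] AlgebraicClosure ℚ) :
    cycloChar p σ = 1 ↔ σ (zetaQbar p : AlgebraicClosure ℚ) = (zetaQbar p : AlgebraicClosure ℚ) := by
  rw [(globalDatum p).char_eq_one_iff σ]
  constructor
  · intro h
    exact congrArg (fun u : (AlgebraicClosure ℚ)ˣ => (u : AlgebraicClosure ℚ)) h
  · intro h
    exact Units.ext h

/-- `cycloChar p` is trivial on the fixing subgroup of any field containing the chosen primitive
`p`-th root of unity. -/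
theorem cycloChar_eq_one_of_mem_fixingSubgroup {F : IntermediateField ℚ (AlgebraicClosure ℚ)}
    (hζ : (zetaQbar p : AlgebraicClosure ℚ) ∈ F) {σ : AlgebraicClosure ℚ ≃ₐ[ℚ] AlgebraicClosure ℚ}
    (hσ : σ ∈ F.fixingSubgroup) : cycloChar p σ = 1 :=
  (cycloChar_eq_one_iff p σ).2 ((IntermediateField.mem_fixingSubgroup_iff F σ).1 hσ _ hζ)

/-! ### The local instances: `Gal(PadicAlgCl l / ℚ_l)` acting on `(PadicAlgCl l)ˣ` -/

section Local

variable (l : ℕ) [Fact l.Prime]

/-- The image of the chosen primitive `p`-th root of unity in `PadicAlgCl l`. -/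
def zetaLocal : (PadicAlgCl l)ˣ :=
  Units.map ((padicEmbedding l : AlgebraicClosure ℚ →ₐ[ℚ] PadicAlgCl l) :
    AlgebraicClosure ℚ →* PadicAlgCl l) (zetaQbar p)

theorem coe_zetaLocal :
    ((zetaLocal p l : (PadicAlgCl l)ˣ) : PadicAlgCl l)
      = padicEmbedding l (zetaQbar p : AlgebraicClosure ℚ) := rfl

theorem isPrimitiveRoot_zetaLocal : IsPrimitiveRoot (zetaLocal p l) p := by
  rw [← IsPrimitiveRoot.coe_units_iff, coe_zetaLocal]
  exact (isPrimitiveRoot_coe_zetaQbar p).map_of_injective (padicEmbedding l).toRingHom.injective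

/-- The local `μ_p` datum: `Gal(PadicAlgCl l / ℚ_l)` acts on `μ_p ⊆ (PadicAlgCl l)ˣ` through the
restriction of the frozen `cycloChar p` along `localGaloisToGlobal l`. -/
def localDatum :
    MuDatum p ((cycloChar p).comp (localGaloisToGlobal l)) (PadicAlgCl l)ˣ where
  ζ := zetaLocal p l
  pow_eq_one := (isPrimitiveRoot_zetaLocal p l).pow_eq_one
  ne_one := (isPrimitiveRoot_zetaLocal p l).ne_one (Fact.out : p.Prime).one_lt
  smul_eq τ := by
    apply Units.ext
    show τ (padicEmbedding l (zetaQbar p : AlgebraicClosure ℚ))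
      = ((zetaLocal p l ^ _ : (PadicAlgCl l)ˣ) : PadicAlgCl l)
    rw [← padicEmbedding_localGaloisToGlobal,
      apply_eq_pow_cycloChar p _ (by
        rw [← Units.val_pow_eq_pow_val, (isPrimitiveRoot_zetaQbar p).pow_eq_one, Units.val_one]),
      map_pow, Units.val_pow_eq_pow_val, coe_zetaLocal]
    rfl
  gen y hy := exists_pow_val_eq_of_isPrimitiveRoot p (isPrimitiveRoot_zetaLocal p l) y hy

end Local

/-! ### Relative versions: `Ω ≃ₐ[K] Ω` for an intermediate field `K` -/

section Relative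

/-- The global `μ_p` datum for `Gal(Q̄ / F)`, `F` any intermediate field. -/
def globalDatumOver (F : IntermediateField ℚ (AlgebraicClosure ℚ)) :
    MuDatum p ((cycloChar p).comp (AlgEquiv.restrictScalarsHom ℚ (S := F)
      (A := AlgebraicClosure ℚ))) (AlgebraicClosure ℚ)ˣ :=
  (globalDatum p).comap _ fun _ _ => rfl

/-- The structure map `Gal(PadicAlgCl l / K) → G_ℚ` for an intermediate field `K` of
`PadicAlgCl l / ℚ_l`. -/
def localOverToGlobal (l : ℕ) [Fact l.Prime] (K : IntermediateField ℚ_[l] (PadicAlgCl l)) :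
    (PadicAlgCl l ≃ₐ[K] PadicAlgCl l) →* (AlgebraicClosure ℚ ≃ₐ[ℚ] AlgebraicClosure ℚ) :=
  (localGaloisToGlobal l).comp (AlgEquiv.restrictScalarsHom ℚ_[l])

/-- The local `μ_p` datum for `Gal(PadicAlgCl l / K)`, `K` any intermediate field. -/
def localDatumOver (l : ℕ) [Fact l.Prime] (K : IntermediateField ℚ_[l] (PadicAlgCl l)) :
    MuDatum p ((cycloChar p).comp (localOverToGlobal l K)) (PadicAlgCl l)ˣ :=
  ((localDatum p l).comap (AlgEquiv.restrictScalarsHom ℚ_[l] (S := K)
    (A := PadicAlgCl l)) fun _ _ => rfl).congr rfl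

end Relative

/-! ### Ready-made exponentials on the frozen module `ofChar (cycloChar p)` -/

section Ready

/-- The global exponential `ofChar (cycloChar p) → (AlgebraicClosure ℚ)ˣ`, `a ↦ ζ ^ a.val`. -/
def globalExp : ExpMap (ofChar (k := ZMod p) (cycloChar p)) (AlgebraicClosure ℚ)ˣ :=
  (globalDatum p).expMap (CharModel.ofChar _)

/-- The exponential on the restriction of `ofChar (cycloChar p)` along any `r : G → G_ℚ`, for any
multiplicative `G`-module `M` with a `μ_p` datum for the character `cycloChar p ∘ r`. -/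
def resExp {G : Type} [Group G] (r : G →* (AlgebraicClosure ℚ ≃ₐ[ℚ] AlgebraicClosure ℚ))
    {M : Type*} [CommGroup M] [MulDistribMulAction G M] (D : MuDatum p ((cycloChar p).comp r) M) :
    ExpMap (Rep.res r (ofChar (k := ZMod p) (cycloChar p))) M :=
  D.expMap ((CharModel.ofChar _).res r)

/-- The local exponential on `Res (ofChar (cycloChar p))` for `Gal(PadicAlgCl l / ℚ_l)`. -/
def localExp (l : ℕ) [Fact l.Prime] :
    ExpMap (Rep.res (localGaloisToGlobal l) (ofChar (k := ZMod p) (cycloChar p))) (PadicAlgCl l)ˣ :=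
  resExp p (localGaloisToGlobal l) (localDatum p l)

/-- **Local rank-one criterion on the frozen carrier.**  `H²` of `Gal(PadicAlgCl l / ℚ_l)` with
coefficients in the frozen `Res (ofChar (cycloChar p))` is one-dimensional as soon as the
`μ_p`-valued multiplicative level `H²` is cyclic of order `p` (generated by `F₀`). -/
theorem finrank_continuousH2_local_eq_one (l : ℕ) [Fact l.Prime]
    {F₀ : (PadicAlgCl l ≃ₐ[ℚ_[l]] PadicAlgCl l) × (PadicAlgCl l ≃ₐ[ℚ_[l]] PadicAlgCl l)
      → (PadicAlgCl l)ˣ}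
    (h₀ : IsMuLevelCocycle₂ p (localGaloisToGlobal l) F₀)
    (hne : ¬ IsMuLevelCoboundary₂ p (localGaloisToGlobal l) F₀)
    (hgen : ∀ F : (PadicAlgCl l ≃ₐ[ℚ_[l]] PadicAlgCl l) × (PadicAlgCl l ≃ₐ[ℚ_[l]] PadicAlgCl l)
        → (PadicAlgCl l)ˣ, IsMuLevelCocycle₂ p (localGaloisToGlobal l) F →
      ∃ n : ℕ, IsMuLevelCoboundary₂ p (localGaloisToGlobal l) (fun x => F x / F₀ x ^ n)) :
    Module.finrank (ZMod p) (continuousH2 (localGaloisToGlobal l)
      (Rep.res (localGaloisToGlobal l) (ofChar (k := ZMod p) (cycloChar p)))) = 1 :=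
  finrank_continuousH2_eq_one_of_mu (localGaloisToGlobal l) (localDatum p l)
    ((CharModel.ofChar _).res _) h₀ hne hgen

/-- **Relative local rank-one criterion on the frozen carrier**, for `Gal(PadicAlgCl l / K)`. -/
theorem finrank_continuousH2_localOver_eq_one (l : ℕ) [Fact l.Prime]
    (K : IntermediateField ℚ_[l] (PadicAlgCl l))
    {F₀ : (PadicAlgCl l ≃ₐ[K] PadicAlgCl l) × (PadicAlgCl l ≃ₐ[K] PadicAlgCl l)
      → (PadicAlgCl l)ˣ}
    (h₀ : IsMuLevelCocycle₂ p (localOverToGlobal l K) F₀)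
    (hne : ¬ IsMuLevelCoboundary₂ p (localOverToGlobal l K) F₀)
    (hgen : ∀ F : (PadicAlgCl l ≃ₐ[K] PadicAlgCl l) × (PadicAlgCl l ≃ₐ[K] PadicAlgCl l)
        → (PadicAlgCl l)ˣ, IsMuLevelCocycle₂ p (localOverToGlobal l K) F →
      ∃ n : ℕ, IsMuLevelCoboundary₂ p (localOverToGlobal l K) (fun x => F x / F₀ x ^ n)) :
    Module.finrank (ZMod p) (continuousH2 (localOverToGlobal l K)
      (Rep.res (localOverToGlobal l K) (ofChar (k := ZMod p) (cycloChar p)))) = 1 :=
  finrank_continuousH2_eq_one_of_mu (localOverToGlobal l K) (localDatumOver p l K)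
    ((CharModel.ofChar _).res _) h₀ hne hgen

/-- The same criterion stated on the frozen local carrier `primeLocalToGlobal q` of the
Poitou-Tate statement. -/
theorem finrank_continuousH2_primeLocal_eq_one (q : Nat.Primes) :
    letI : Fact (q : ℕ).Prime := ⟨q.2⟩
    ∀ {F₀ : (PadicAlgCl (q : ℕ) ≃ₐ[ℚ_[(q : ℕ)]] PadicAlgCl (q : ℕ)) ×
        (PadicAlgCl (q : ℕ) ≃ₐ[ℚ_[(q : ℕ)]] PadicAlgCl (q : ℕ)) → (PadicAlgCl (q : ℕ))ˣ},
      IsMuLevelCocycle₂ p (localGaloisToGlobal (q : ℕ)) F₀ →
      ¬ IsMuLevelCoboundary₂ p (localGaloisToGlobal (q : ℕ)) F₀ →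
      (∀ F : (PadicAlgCl (q : ℕ) ≃ₐ[ℚ_[(q : ℕ)]] PadicAlgCl (q : ℕ)) ×
          (PadicAlgCl (q : ℕ) ≃ₐ[ℚ_[(q : ℕ)]] PadicAlgCl (q : ℕ)) → (PadicAlgCl (q : ℕ))ˣ,
        IsMuLevelCocycle₂ p (localGaloisToGlobal (q : ℕ)) F →
        ∃ n : ℕ, IsMuLevelCoboundary₂ p (localGaloisToGlobal (q : ℕ)) (fun x => F x / F₀ x ^ n)) →
      Module.finrank (ZMod p) (continuousH2 (primeLocalToGlobal q)
        (Rep.res (primeLocalToGlobal q) (ofChar (k := ZMod p) (cycloChar p)))) = 1 := by
  have : Fact (q : ℕ).Prime := ⟨q.2⟩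
  intro F₀ h₀ hne hgen
  exact finrank_continuousH2_local_eq_one p (q : ℕ) h₀ hne hgen

end Ready

/-! ### Trivial coefficients and subgroups (appended; for the `(LB1)`/`(LB2)` end adapters) -/

section TrivialCoeff

variable {p}
variable {G : Type} [Group G]

/-- The trivial module `ZMod p` is a character module for the trivial character. -/
def CharModel.trivial : CharModel (Rep.trivial (ZMod p) G (ZMod p)) (1 : G →* (ZMod p)ˣ) where
  e := LinearEquiv.refl _ _
  map_ρ _ a := by
    show a = (((1 : G →* (ZMod p)ˣ) _ : (ZMod p)ˣ) : ZMod p) * a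
    rw [MonoidHom.one_apply, Units.val_one, one_mul]

/-- The trivial module `ZMod p` is a character module for every pointwise trivial character. -/
def CharModel.trivialOfEq {χ : G →* (ZMod p)ˣ} (hχ : ∀ g, χ g = 1) :
    CharModel (Rep.trivial (ZMod p) G (ZMod p)) χ :=
  (CharModel.trivial (p := p) (G := G)).congr (MonoidHom.ext fun g => (hχ g).symm)

/-- **Rank-one criterion, trivial coefficients.**  If the character of a `μ_p` datum is trivial
(i.e. `G` fixes `μ_p`), the `μ_p`-form rank-one statement gives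
`finrank (continuousH2 r (Rep.trivial (ZMod p) G (ZMod p))) = 1`. -/
theorem finrank_continuousH2_trivial_eq_one_of_mu {M : Type*} [CommGroup M]
    [MulDistribMulAction G M] (r : G →* (AlgebraicClosure ℚ ≃ₐ[ℚ] AlgebraicClosure ℚ))
    {χ : G →* (ZMod p)ˣ} (D : MuDatum p χ M) (hχ : ∀ g, χ g = 1) {F₀ : G × G → M}
    (h₀ : IsMuLevelCocycle₂ p r F₀) (hne : ¬ IsMuLevelCoboundary₂ p r F₀)
    (hgen : ∀ F : G × G → M, IsMuLevelCocycle₂ p r F →
      ∃ n : ℕ, IsMuLevelCoboundary₂ p r (fun x => F x / F₀ x ^ n)) :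
    Module.finrank (ZMod p) (continuousH2 r (Rep.trivial (ZMod p) G (ZMod p))) = 1 :=
  finrank_continuousH2_eq_one_of_mu r D (CharModel.trivialOfEq hχ) h₀ hne hgen

variable (p)

/-- The local `μ_p` datum restricted to a subgroup `U` of `Gal(PadicAlgCl l / ℚ_l)`, with the
structure map `(localGaloisToGlobal l).comp U.subtype`. -/
def localDatumSubgroup (l : ℕ) [Fact l.Prime]
    (U : Subgroup (PadicAlgCl l ≃ₐ[ℚ_[l]] PadicAlgCl l)) :
    MuDatum p ((cycloChar p).comp ((localGaloisToGlobal l).comp U.subtype)) (PadicAlgCl l)ˣ :=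
  ((localDatum p l).subgroup U).congr rfl

/-- The global `μ_p` datum restricted to a subgroup `H` of `G_ℚ`. -/
def globalDatumSubgroup (H : Subgroup (AlgebraicClosure ℚ ≃ₐ[ℚ] AlgebraicClosure ℚ)) :
    MuDatum p ((cycloChar p).comp H.subtype) (AlgebraicClosure ℚ)ˣ :=
  (globalDatum p).subgroup H

/-- **Local rank-one criterion on a subgroup fixing `μ_p`, trivial coefficients** (the shape
`(LB1 r U)` of the local duality leaf): for `U ≤ Gal(PadicAlgCl l / ℚ_l)` on which the cyclotomic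
character is trivial and `r_U := (localGaloisToGlobal l).comp U.subtype`. -/
theorem finrank_continuousH2_local_subgroup_trivial_eq_one (l : ℕ) [Fact l.Prime]
    (U : Subgroup (PadicAlgCl l ≃ₐ[ℚ_[l]] PadicAlgCl l))
    (hU : ∀ u ∈ U, cycloChar p (localGaloisToGlobal l u) = 1)
    {F₀ : U × U → (PadicAlgCl l)ˣ}
    (h₀ : IsMuLevelCocycle₂ p ((localGaloisToGlobal l).comp U.subtype) F₀)
    (hne : ¬ IsMuLevelCoboundary₂ p ((localGaloisToGlobal l).comp U.subtype) F₀)
    (hgen : ∀ F : U × U → (PadicAlgCl l)ˣ,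
      IsMuLevelCocycle₂ p ((localGaloisToGlobal l).comp U.subtype) F →
      ∃ n : ℕ, IsMuLevelCoboundary₂ p ((localGaloisToGlobal l).comp U.subtype)
        (fun x => F x / F₀ x ^ n)) :
    Module.finrank (ZMod p) (continuousH2 ((localGaloisToGlobal l).comp U.subtype)
      (Rep.trivial (ZMod p) ↥U (ZMod p))) = 1 :=
  finrank_continuousH2_trivial_eq_one_of_mu _ (localDatumSubgroup p l U)
    (fun u => hU u u.2) h₀ hne hgen

/-- **Local rank-one criterion on a subgroup, twisted coefficients**: the same for the restriction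
of the frozen `ofChar (cycloChar p)` to an arbitrary subgroup `U`. -/
theorem finrank_continuousH2_local_subgroup_eq_one (l : ℕ) [Fact l.Prime]
    (U : Subgroup (PadicAlgCl l ≃ₐ[ℚ_[l]] PadicAlgCl l))
    {F₀ : U × U → (PadicAlgCl l)ˣ}
    (h₀ : IsMuLevelCocycle₂ p ((localGaloisToGlobal l).comp U.subtype) F₀)
    (hne : ¬ IsMuLevelCoboundary₂ p ((localGaloisToGlobal l).comp U.subtype) F₀)
    (hgen : ∀ F : U × U → (PadicAlgCl l)ˣ,
      IsMuLevelCocycle₂ p ((localGaloisToGlobal l).comp U.subtype) F →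
      ∃ n : ℕ, IsMuLevelCoboundary₂ p ((localGaloisToGlobal l).comp U.subtype)
        (fun x => F x / F₀ x ^ n)) :
    Module.finrank (ZMod p) (continuousH2 ((localGaloisToGlobal l).comp U.subtype)
      (Rep.res ((localGaloisToGlobal l).comp U.subtype) (ofChar (k := ZMod p) (cycloChar p)))) = 1 :=
  finrank_continuousH2_eq_one_of_mu _ (localDatumSubgroup p l U)
    ((CharModel.ofChar _).res _) h₀ hne hgen

end TrivialCoeff

/-! ### Global `S`-level classes in `μ_p` terms and their localisations (appended) -/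

section GlobalMu

variable {p}

/-- `μ_p`-valued multiplicative `S`-level 2-cocycles on `G_ℚ`. -/
def IsMuLevelCocycleS₂ (p : ℕ) (S : Finset Nat.Primes) {N : Type*} [CommGroup N]
    [MulDistribMulAction (AlgebraicClosure ℚ ≃ₐ[ℚ] AlgebraicClosure ℚ) N]
    (F : (AlgebraicClosure ℚ ≃ₐ[ℚ] AlgebraicClosure ℚ) × (AlgebraicClosure ℚ ≃ₐ[ℚ] AlgebraicClosure ℚ)
      → N) : Prop :=
  IsMulCocycle₂ F ∧ (∀ x, F x ^ p = 1) ∧ IsLevelConstantS₂ S F

/-- Multiplicative coboundaries of `μ_p`-valued `S`-level 1-cochains on `G_ℚ`. -/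
def IsMuLevelCoboundaryS₂ (p : ℕ) (S : Finset Nat.Primes) {N : Type*} [CommGroup N]
    [MulDistribMulAction (AlgebraicClosure ℚ ≃ₐ[ℚ] AlgebraicClosure ℚ) N]
    (F : (AlgebraicClosure ℚ ≃ₐ[ℚ] AlgebraicClosure ℚ) × (AlgebraicClosure ℚ ≃ₐ[ℚ] AlgebraicClosure ℚ)
      → N) : Prop :=
  ∃ y : (AlgebraicClosure ℚ ≃ₐ[ℚ] AlgebraicClosure ℚ) → N, (∀ g, y g ^ p = 1) ∧
    IsLevelConstantS₁ S y ∧ ∀ g h, g • y h / y (g * h) * y g = F (g, h)

variable {N : Type*} [CommGroup N]
  [MulDistribMulAction (AlgebraicClosure ℚ ≃ₐ[ℚ] AlgebraicClosure ℚ) N]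
variable {χ : (AlgebraicClosure ℚ ≃ₐ[ℚ] AlgebraicClosure ℚ) →* (ZMod p)ˣ}
  {B : Rep.{0} (ZMod p) (AlgebraicClosure ℚ ≃ₐ[ℚ] AlgebraicClosure ℚ)}
variable (S : Finset Nat.Primes) (D : MuDatum p χ N) (c : CharModel B χ)

theorem isMulLevelCocycleS₂_iff
    (F : (AlgebraicClosure ℚ ≃ₐ[ℚ] AlgebraicClosure ℚ) × (AlgebraicClosure ℚ ≃ₐ[ℚ] AlgebraicClosure ℚ)
      → N) :
    IsMulLevelCocycleS₂ S (D.expMap c) F ↔ IsMuLevelCocycleS₂ p S F := by
  simp only [IsMulLevelCocycleS₂, IsMuLevelCocycleS₂, D.mem_range_expMap c]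

theorem isMulLevelCoboundaryS₂_iff
    (F : (AlgebraicClosure ℚ ≃ₐ[ℚ] AlgebraicClosure ℚ) × (AlgebraicClosure ℚ ≃ₐ[ℚ] AlgebraicClosure ℚ)
      → N) :
    IsMulLevelCoboundaryS₂ S (D.expMap c) F ↔ IsMuLevelCoboundaryS₂ p S F := by
  simp only [IsMulLevelCoboundaryS₂, IsMuLevelCoboundaryS₂, D.mem_range_expMap c]

/-- Frozen `S`-level 2-cocycles of a character module are exactly the `μ_p`-valued multiplicative
`S`-level 2-cocycles. -/
theorem mu_mem_levelCocyclesS₂_iff
    (f : (AlgebraicClosure ℚ ≃ₐ[ℚ] AlgebraicClosure ℚ) × (AlgebraicClosure ℚ ≃ₐ[ℚ] AlgebraicClosure ℚ)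
      → B) :
    f ∈ levelCocyclesS₂ S B ↔ IsMuLevelCocycleS₂ p S (fun x => D.ζ ^ (c.e (f x)).val) := by
  rw [mem_levelCocyclesS₂_iff S (D.expMap c), isMulLevelCocycleS₂_iff]
  rfl

/-- Frozen `S`-level 2-coboundaries of a character module in `μ_p` terms. -/
theorem mu_mem_levelCoboundariesS₂_iff
    (f : (AlgebraicClosure ℚ ≃ₐ[ℚ] AlgebraicClosure ℚ) × (AlgebraicClosure ℚ ≃ₐ[ℚ] AlgebraicClosure ℚ)
      → B) :
    f ∈ levelCoboundariesS₂ S B ↔ IsMuLevelCoboundaryS₂ p S (fun x => D.ζ ^ (c.e (f x)).val) := by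
  rw [mem_levelCoboundariesS₂_iff S (D.expMap c), isMulLevelCoboundaryS₂_iff]
  rfl

/-- Every `μ_p`-valued multiplicative `S`-level 2-cocycle comes from a frozen `S`-level
2-cocycle. -/
theorem mu_exists_levelCocycleS₂
    {F : (AlgebraicClosure ℚ ≃ₐ[ℚ] AlgebraicClosure ℚ) × (AlgebraicClosure ℚ ≃ₐ[ℚ] AlgebraicClosure ℚ)
      → N} (hF : IsMuLevelCocycleS₂ p S F) :
    ∃ f : levelCocyclesS₂ S B, ∀ x, D.ζ ^ (c.e (f.1 x)).val = F x :=
  exists_levelCocycleS₂ S (D.expMap c) ((isMulLevelCocycleS₂_iff S D c F).2 hF)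

/-- Vanishing in the frozen `continuousH2S S B` in `μ_p` terms. -/
theorem mu_continuousH2Sπ_eq_zero_iff (f : levelCocyclesS₂ S B) :
    continuousH2Sπ S B f = 0 ↔
      IsMuLevelCoboundaryS₂ p S (fun x => D.ζ ^ (c.e (f.1 x)).val) := by
  rw [continuousH2Sπ_eq_zero_iff S (D.expMap c), isMulLevelCoboundaryS₂_iff]
  rfl

/-- Equality of classes in the frozen `continuousH2S S B` in `μ_p` terms. -/
theorem mu_continuousH2Sπ_eq_iff (f f' : levelCocyclesS₂ S B) :
    continuousH2Sπ S B f = continuousH2Sπ S B f' ↔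
      IsMuLevelCoboundaryS₂ p S
        (fun x => D.ζ ^ (c.e (f.1 x)).val / D.ζ ^ (c.e (f'.1 x)).val) := by
  rw [← sub_eq_zero, ← map_sub, mu_continuousH2Sπ_eq_zero_iff S D c]
  have : (fun x => D.ζ ^ (c.e ((f - f' : levelCocyclesS₂ S B).1 x)).val)
      = fun x => D.ζ ^ (c.e (f.1 x)).val / D.ζ ^ (c.e (f'.1 x)).val := by
    funext x
    exact (D.expMap c).map_sub _ _
  rw [this]

end GlobalMu

section Localisation

variable {k : Type} [CommRing k]
  {B : Rep.{0} k (AlgebraicClosure ℚ ≃ₐ[ℚ] AlgebraicClosure ℚ)}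
variable {H : Type} [Group H] (r : H →* (AlgebraicClosure ℚ ≃ₐ[ℚ] AlgebraicClosure ℚ))
variable {N' : Type*} [CommGroup N'] [MulDistribMulAction H N']
variable (S : Finset Nat.Primes)

/-- The restriction along `r` of an `S`-level 2-cocycle, as a level 2-cocycle of `Rep.res r B`. -/
def resCocycle (f : levelCocyclesS₂ S B) : levelCocycles₂ r (Rep.res r B) :=
  levelCocycles₂Map (rH := MonoidHom.id _) (rG := r) r (fun _ => rfl)
    (LinearMap.id : B →ₗ[k] Rep.res r B) (fun _ _ => rfl) (levelCocyclesS₂ToLevelCocycles₂ S B f)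

theorem resCocycle_apply (f : levelCocyclesS₂ S B) (x : H × H) :
    (resCocycle r S f).1 x = f.1 (r x.1, r x.2) := rfl

/-- The frozen localisation map on representatives. -/
theorem locRes₂S_π (f : levelCocyclesS₂ S B) :
    locRes₂S S B r (continuousH2Sπ S B f) = continuousH2π r (Rep.res r B) (resCocycle r S f) :=
  rfl

/-- The frozen localisation of a global class vanishes iff the exponential of the restricted
cocycle is a multiplicative level coboundary. -/
theorem locRes₂S_π_eq_zero_iff (E' : ExpMap (Rep.res r B) N') (f : levelCocyclesS₂ S B) :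
    locRes₂S S B r (continuousH2Sπ S B f) = 0 ↔
      IsMulLevelCoboundary₂ r E' (fun x => E'.toFun (f.1 (r x.1, r x.2))) := by
  rw [locRes₂S_π, continuousH2π_eq_zero_iff r E']
  rfl

end Localisation

section LocalisationMu

variable {p}
variable {χ : (AlgebraicClosure ℚ ≃ₐ[ℚ] AlgebraicClosure ℚ) →* (ZMod p)ˣ}
  {B : Rep.{0} (ZMod p) (AlgebraicClosure ℚ ≃ₐ[ℚ] AlgebraicClosure ℚ)}
variable {H : Type} [Group H] (r : H →* (AlgebraicClosure ℚ ≃ₐ[ℚ] AlgebraicClosure ℚ))
variable {N' : Type*} [CommGroup N'] [MulDistribMulAction H N']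
variable (S : Finset Nat.Primes)

/-- **Localisation in `μ_p` terms.**  For a character module `B` (character `χ`) of `G_ℚ`, a
structure map `r : H → G_ℚ` and a `μ_p` datum of `H` for `χ ∘ r`: the frozen localisation
`locRes₂S S B r` of the class of an `S`-level cocycle `f` vanishes iff
`(g, h) ↦ ζ ^ f (r g, r h)` is the multiplicative coboundary of a `μ_p`-valued level 1-cochain
of `H`. -/
theorem mu_locRes₂S_π_eq_zero_iff (D' : MuDatum p (χ.comp r) N') (c : CharModel B χ)
    (f : levelCocyclesS₂ S B) :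
    locRes₂S S B r (continuousH2Sπ S B f) = 0 ↔
      IsMuLevelCoboundary₂ p r (fun x => D'.ζ ^ (c.e (f.1 (r x.1, r x.2))).val) := by
  rw [locRes₂S_π_eq_zero_iff r S (D'.expMap (c.res r)), isMulLevelCoboundary₂_iff]
  rfl

variable (p)

/-- **Localisation of `H²(G_S, μ_p)` at a prime, in `μ_p` terms** (frozen carriers): the class of
the `S`-level cocycle `f` of `ofChar (cycloChar p)` is trivial at `q` iff
`(g, h) ↦ ζ_q ^ f (r_q g, r_q h)` is the coboundary of a `μ_p`-valued level 1-cochain of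
`Gal(PadicAlgCl q / ℚ_q)`, where `ζ_q = zetaLocal p q` is the image of `zetaQbar p`. -/
theorem locRes₂S_primeLocal_eq_zero_iff (q : Nat.Primes)
    (f : levelCocyclesS₂ S (ofChar (k := ZMod p) (cycloChar p))) :
    letI : Fact (q : ℕ).Prime := ⟨q.2⟩
    locRes₂S S (ofChar (k := ZMod p) (cycloChar p)) (primeLocalToGlobal q)
        (continuousH2Sπ S (ofChar (k := ZMod p) (cycloChar p)) f) = 0 ↔
      IsMuLevelCoboundary₂ p (localGaloisToGlobal (q : ℕ))
        (fun x : (PadicAlgCl (q : ℕ) ≃ₐ[ℚ_[(q : ℕ)]] PadicAlgCl (q : ℕ)) ×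
            (PadicAlgCl (q : ℕ) ≃ₐ[ℚ_[(q : ℕ)]] PadicAlgCl (q : ℕ)) =>
          zetaLocal p (q : ℕ) ^ ((CharModel.ofChar (cycloChar p)).e
            (f.1 (localGaloisToGlobal (q : ℕ) x.1, localGaloisToGlobal (q : ℕ) x.2))).val) := by
  have : Fact (q : ℕ).Prime := ⟨q.2⟩
  exact mu_locRes₂S_π_eq_zero_iff (localGaloisToGlobal (q : ℕ)) S (localDatum p (q : ℕ))
    (CharModel.ofChar (cycloChar p)) f

/-- The global statement with the same normalisation: the class of the `S`-level cocycle `f` of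
`ofChar (cycloChar p)` vanishes in the frozen `continuousH2S S` iff `(g, h) ↦ ζ ^ f (g, h)` is the
coboundary of a `μ_p`-valued `S`-level 1-cochain of `G_ℚ` (`ζ = zetaQbar p`). -/
theorem continuousH2Sπ_ofChar_eq_zero_iff
    (f : levelCocyclesS₂ S (ofChar (k := ZMod p) (cycloChar p))) :
    continuousH2Sπ S (ofChar (k := ZMod p) (cycloChar p)) f = 0 ↔
      IsMuLevelCoboundaryS₂ p S
        (fun x => zetaQbar p ^ ((CharModel.ofChar (cycloChar p)).e (f.1 x)).val) :=
  mu_continuousH2Sπ_eq_zero_iff S (globalDatum p) (CharModel.ofChar (cycloChar p)) f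

/-- The local and the global roots of unity correspond under `padicEmbedding`. -/
theorem zetaLocal_eq (l : ℕ) [Fact l.Prime] :
    zetaLocal p l = Units.map ((padicEmbedding l : AlgebraicClosure ℚ →ₐ[ℚ] PadicAlgCl l) :
      AlgebraicClosure ℚ →* PadicAlgCl l) (zetaQbar p) := rfl

/-- Powers of the local root of unity are the images of the powers of the global one. -/
theorem zetaLocal_pow (l : ℕ) [Fact l.Prime] (n : ℕ) :
    zetaLocal p l ^ n = Units.map ((padicEmbedding l : AlgebraicClosure ℚ →ₐ[ℚ] PadicAlgCl l) :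
      AlgebraicClosure ℚ →* PadicAlgCl l) (zetaQbar p ^ n) := by
  rw [map_pow]
  rfl

end LocalisationMu

end Instances

end

end Fermat.Agent.S55.helper512
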