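/-
S55 (Poitou–Tate) — LOCAL ARITHMETIC CORE (LA): carrier and closed statements.
Author: helper9554.   Mathlib only.

CARRIER.  `K` a field, `Ω` a `K`-algebra which is a field (in the application
`Ω = PadicAlgCl l` and `K : IntermediateField ℚ_[l] (PadicAlgCl l)` finite over `ℚ_[l]`),
`G := Ω ≃ₐ[K] Ω` acting on `Ωˣ` (Mathlib's `MulDistribMulAction`, `g • x = g x`).
Cochains are plain functions `G → Ωˣ`, `G × G → Ωˣ`; cocycles are Mathlib's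
`groupCohomology.IsMulCocycle₁/₂`; LEVEL = right-invariant under the fixing subgroup of a
finite subextension (the frozen shape of `groupCohomology.IsLevelConstant₁/₂`);
`μ_p`-VALUED = `f x ^ p = 1`.  So `H^i(G_K, μ_p)` is modelled without choosing a primitive
root of unity and without twisted `ZMod p`-actions, and `K` need not contain `μ_p`.

STATEMENTS (closed `Prop`s, all for one prime `p`; `(LB…)` as in team_s55_chat #62):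
* `Stmt_LB1 K Ω p`   : `H²(G_K, μ_p)` is a line (`Stmt_LB1_ne` : it is not zero,
                        `Stmt_LB1_line` : any nonzero class spans it);
* `Stmt_LB2 K Ω p`   : for `μ_p ⊆ K`: every nonzero class of `H¹(G_K, μ_p)` has a nonzero cup
                        product with some level character `G_K → ZMod p`;
* `Stmt_LB2α K Ω p`  : the same in Kummer form (`κ g = g α / α`, `α ^ p = a ∈ Kˣ ∖ Kˣᵖ`);
* `Stmt_LB5 K Ω p`   : for `μ_p ⊆ K`: a Galois `L/K` of degree `p` has a norm which is not a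
                        `p`-th power (input of "corestriction is onto" on `H²(·, μ_p)`);
* `Stmt_NormIdx`, `Stmt_NormNotOnto` : the degree-`p` norm index in the shape consumed here;
* `Stmt_Local* l p`  : the above for every finite `K/ℚ_l` inside `PadicAlgCl l`.
-/
import Mathlib

set_option autoImplicit false

namespace Fermat.Agent.S55.helper9554

open IntermediateField groupCohomology

/-! ### Level cochains -/

section Level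

variable {K Ω : Type*} [Field K] [Field Ω] [Algebra K Ω]

/-- A function on `Gal(Ω/K)` is *level* if it is right-invariant under the fixing subgroup of
a finite subextension of `Ω/K`. -/
def IsLevel₁ {X : Type*} (c : (Ω ≃ₐ[K] Ω) → X) : Prop :=
  ∃ E : IntermediateField K Ω, FiniteDimensional K E ∧
    ∀ g s : Ω ≃ₐ[K] Ω, s ∈ E.fixingSubgroup → c (g * s) = c g

/-- A function on `Gal(Ω/K) × Gal(Ω/K)` is *level* if it is right-invariant in both variables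
under the fixing subgroup of a finite subextension of `Ω/K`. -/
def IsLevel₂ {X : Type*} (f : (Ω ≃ₐ[K] Ω) × (Ω ≃ₐ[K] Ω) → X) : Prop :=
  ∃ E : IntermediateField K Ω, FiniteDimensional K E ∧
    ∀ g g' s s' : Ω ≃ₐ[K] Ω, s ∈ E.fixingSubgroup → s' ∈ E.fixingSubgroup →
      f (g * s, g' * s') = f (g, g')

theorem isLevel₁_const {X : Type*} (x : X) : IsLevel₁ (fun _ : Ω ≃ₐ[K] Ω => x) :=
  ⟨⊥, inferInstance, fun _ _ _ => rfl⟩

theorem isLevel₂_const {X : Type*} (x : X) :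
    IsLevel₂ (fun _ : (Ω ≃ₐ[K] Ω) × (Ω ≃ₐ[K] Ω) => x) :=
  ⟨⊥, inferInstance, fun _ _ _ _ _ _ => rfl⟩

theorem IsLevel₁.map₂ {X Y Z : Type*} {c : (Ω ≃ₐ[K] Ω) → X} {d : (Ω ≃ₐ[K] Ω) → Y}
    (hc : IsLevel₁ c) (hd : IsLevel₁ d) (φ : X → Y → Z) :
    IsLevel₁ (fun g => φ (c g) (d g)) := by
  obtain ⟨E, hE, h⟩ := hc
  obtain ⟨E', hE', h'⟩ := hd
  refine ⟨E ⊔ E', inferInstance, fun g s hs => ?_⟩
  have h1 : s ∈ E.fixingSubgroup := IntermediateField.fixingSubgroup_le le_sup_left hs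
  have h2 : s ∈ E'.fixingSubgroup := IntermediateField.fixingSubgroup_le le_sup_right hs
  simp only [h g s h1, h' g s h2]

theorem IsLevel₁.comp {X Y : Type*} {c : (Ω ≃ₐ[K] Ω) → X} (hc : IsLevel₁ c) (φ : X → Y) :
    IsLevel₁ (fun g => φ (c g)) := by
  obtain ⟨E, hE, h⟩ := hc
  exact ⟨E, hE, fun g s hs => by simp only [h g s hs]⟩

theorem IsLevel₂.map₂ {X Y Z : Type*} {f : (Ω ≃ₐ[K] Ω) × (Ω ≃ₐ[K] Ω) → X}
    {f' : (Ω ≃ₐ[K] Ω) × (Ω ≃ₐ[K] Ω) → Y}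
    (hf : IsLevel₂ f) (hf' : IsLevel₂ f') (φ : X → Y → Z) :
    IsLevel₂ (fun q => φ (f q) (f' q)) := by
  obtain ⟨E, hE, h⟩ := hf
  obtain ⟨E', hE', h'⟩ := hf'
  refine ⟨E ⊔ E', inferInstance, fun g g' s s' hs hs' => ?_⟩
  have h1 : s ∈ E.fixingSubgroup := IntermediateField.fixingSubgroup_le le_sup_left hs
  have h2 : s ∈ E'.fixingSubgroup := IntermediateField.fixingSubgroup_le le_sup_right hs
  have h1' : s' ∈ E.fixingSubgroup := IntermediateField.fixingSubgroup_le le_sup_left hs'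
  have h2' : s' ∈ E'.fixingSubgroup := IntermediateField.fixingSubgroup_le le_sup_right hs'
  simp only [h g g' s s' h1 h1', h' g g' s s' h2 h2']

theorem IsLevel₂.comp {X Y : Type*} {f : (Ω ≃ₐ[K] Ω) × (Ω ≃ₐ[K] Ω) → X} (hf : IsLevel₂ f)
    (φ : X → Y) : IsLevel₂ (fun q => φ (f q)) := by
  obtain ⟨E, hE, h⟩ := hf
  exact ⟨E, hE, fun g g' s s' hs hs' => by simp only [h g g' s s' hs hs']⟩

theorem IsLevel₁.mul {X : Type*} [Mul X] {c d : (Ω ≃ₐ[K] Ω) → X}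
    (hc : IsLevel₁ c) (hd : IsLevel₁ d) : IsLevel₁ (c * d) := hc.map₂ hd (· * ·)

theorem IsLevel₁.div {X : Type*} [Div X] {c d : (Ω ≃ₐ[K] Ω) → X}
    (hc : IsLevel₁ c) (hd : IsLevel₁ d) : IsLevel₁ (c / d) := hc.map₂ hd (· / ·)

theorem IsLevel₁.inv {X : Type*} [Inv X] {c : (Ω ≃ₐ[K] Ω) → X}
    (hc : IsLevel₁ c) : IsLevel₁ c⁻¹ := hc.comp (·⁻¹)

theorem IsLevel₁.pow {X : Type*} [Monoid X] {c : (Ω ≃ₐ[K] Ω) → X}
    (hc : IsLevel₁ c) (n : ℕ) : IsLevel₁ (c ^ n) := hc.comp (· ^ n)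

theorem IsLevel₂.mul {X : Type*} [Mul X] {f f' : (Ω ≃ₐ[K] Ω) × (Ω ≃ₐ[K] Ω) → X}
    (hf : IsLevel₂ f) (hf' : IsLevel₂ f') : IsLevel₂ (f * f') := hf.map₂ hf' (· * ·)

theorem IsLevel₂.div {X : Type*} [Div X] {f f' : (Ω ≃ₐ[K] Ω) × (Ω ≃ₐ[K] Ω) → X}
    (hf : IsLevel₂ f) (hf' : IsLevel₂ f') : IsLevel₂ (f / f') := hf.map₂ hf' (· / ·)

theorem IsLevel₂.inv {X : Type*} [Inv X] {f : (Ω ≃ₐ[K] Ω) × (Ω ≃ₐ[K] Ω) → X}
    (hf : IsLevel₂ f) : IsLevel₂ f⁻¹ := hf.comp (·⁻¹)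

theorem IsLevel₂.pow {X : Type*} [Monoid X] {f : (Ω ≃ₐ[K] Ω) × (Ω ≃ₐ[K] Ω) → X}
    (hf : IsLevel₂ f) (n : ℕ) : IsLevel₂ (f ^ n) := hf.comp (· ^ n)

/-- A level function is right-invariant under a *normal-closure* level as well: the level may
always be enlarged. -/
theorem IsLevel₁.exists_ge {X : Type*} {c : (Ω ≃ₐ[K] Ω) → X} (hc : IsLevel₁ c)
    (E₀ : IntermediateField K Ω) [FiniteDimensional K E₀] :
    ∃ E : IntermediateField K Ω, FiniteDimensional K E ∧ E₀ ≤ E ∧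
      ∀ g s : Ω ≃ₐ[K] Ω, s ∈ E.fixingSubgroup → c (g * s) = c g := by
  obtain ⟨E, hE, h⟩ := hc
  exact ⟨E₀ ⊔ E, inferInstance, le_sup_left, fun g s hs =>
    h g s (IntermediateField.fixingSubgroup_le le_sup_right hs)⟩

end Level

/-! ### Cocycles and coboundaries with values in `Ωˣ` and in `μ_p` -/

section Cochains

variable {K Ω : Type*} [Field K] [Field Ω] [Algebra K Ω]

/-- The multiplicative coboundary of a 1-cochain (Mathlib's `IsMulCoboundary₂` convention). -/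
def dOne (x : (Ω ≃ₐ[K] Ω) → Ωˣ) : (Ω ≃ₐ[K] Ω) × (Ω ≃ₐ[K] Ω) → Ωˣ :=
  fun q => q.1 • x q.2 / x (q.1 * q.2) * x q.1

theorem dOne_apply (x : (Ω ≃ₐ[K] Ω) → Ωˣ) (g h : Ω ≃ₐ[K] Ω) :
    dOne x (g, h) = g • x h / x (g * h) * x g := rfl

theorem isMulCoboundary₂_iff_dOne (f : (Ω ≃ₐ[K] Ω) × (Ω ≃ₐ[K] Ω) → Ωˣ) :
    IsMulCoboundary₂ f ↔ ∃ x, f = dOne x := by
  constructor
  · rintro ⟨x, hx⟩
    exact ⟨x, funext fun q => (hx q.1 q.2).symm⟩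
  · rintro ⟨x, rfl⟩
    exact ⟨x, fun _ _ => rfl⟩

theorem dOne_mul (x y : (Ω ≃ₐ[K] Ω) → Ωˣ) : dOne (x * y) = dOne x * dOne y := by
  funext q
  simp only [dOne, Pi.mul_apply, smul_mul', div_eq_mul_inv, mul_inv]
  ac_rfl

theorem dOne_one : dOne (1 : (Ω ≃ₐ[K] Ω) → Ωˣ) = 1 := by
  funext q
  simp [dOne]

theorem dOne_inv (x : (Ω ≃ₐ[K] Ω) → Ωˣ) : dOne x⁻¹ = (dOne x)⁻¹ := by
  have h := dOne_mul x x⁻¹
  rw [mul_inv_cancel, dOne_one] at h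
  exact eq_inv_of_mul_eq_one_right h.symm

theorem dOne_div (x y : (Ω ≃ₐ[K] Ω) → Ωˣ) : dOne (x / y) = dOne x / dOne y := by
  rw [div_eq_mul_inv, dOne_mul, dOne_inv, div_eq_mul_inv]

theorem dOne_pow (x : (Ω ≃ₐ[K] Ω) → Ωˣ) (n : ℕ) : dOne (x ^ n) = dOne x ^ n := by
  induction n with
  | zero => simp [dOne_one]
  | succ n ih => rw [pow_succ, dOne_mul, ih, pow_succ]

/-- `f` is a level 2-cocycle with values in `Ωˣ` ("a Brauer cocycle of `K`"). -/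
structure IsBrCocycle₂ (f : (Ω ≃ₐ[K] Ω) × (Ω ≃ₐ[K] Ω) → Ωˣ) : Prop where
  cocycle : IsMulCocycle₂ f
  level : IsLevel₂ f

/-- `f` is the coboundary of a level 1-cochain with values in `Ωˣ`. -/
def IsBrCob₂ (f : (Ω ≃ₐ[K] Ω) × (Ω ≃ₐ[K] Ω) → Ωˣ) : Prop :=
  ∃ x : (Ω ≃ₐ[K] Ω) → Ωˣ, IsLevel₁ x ∧ f = dOne x

/-- `f` is a level 2-cocycle with values in `μ_p`: a cocycle representative of a class of
`H²(G_K, μ_p)`. -/
structure IsMuCocycle₂ (p : ℕ) (f : (Ω ≃ₐ[K] Ω) × (Ω ≃ₐ[K] Ω) → Ωˣ) : Prop where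
  cocycle : IsMulCocycle₂ f
  level : IsLevel₂ f
  pow_eq_one : ∀ q, f q ^ p = 1

/-- `f` is the coboundary of a level 1-cochain with values in `μ_p`: `f` represents the zero
class of `H²(G_K, μ_p)`. -/
def IsMuCob₂ (p : ℕ) (f : (Ω ≃ₐ[K] Ω) × (Ω ≃ₐ[K] Ω) → Ωˣ) : Prop :=
  ∃ x : (Ω ≃ₐ[K] Ω) → Ωˣ, IsLevel₁ x ∧ (∀ g, x g ^ p = 1) ∧ f = dOne x

/-- `c` is a level 1-cocycle with values in `μ_p`: a cocycle representative of a class of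
`H¹(G_K, μ_p)`. -/
structure IsMuCocycle₁ (p : ℕ) (c : (Ω ≃ₐ[K] Ω) → Ωˣ) : Prop where
  cocycle : IsMulCocycle₁ c
  level : IsLevel₁ c
  pow_eq_one : ∀ g, c g ^ p = 1

/-- `c` is the coboundary of an element of `μ_p`. -/
def IsMuCob₁ (p : ℕ) (c : (Ω ≃ₐ[K] Ω) → Ωˣ) : Prop :=
  ∃ z : Ωˣ, z ^ p = 1 ∧ ∀ g, c g = g • z / z

/-- `χ` is a level additive character `G_K → ZMod p`: an element of `H¹(G_K, 𝔽_p)`. -/
structure IsLevelChar (p : ℕ) (χ : (Ω ≃ₐ[K] Ω) → ZMod p) : Prop where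
  map_mul : ∀ g h, χ (g * h) = χ g + χ h
  level : IsLevel₁ χ

theorem IsMuCob₂.isBrCob₂ {p : ℕ} {f : (Ω ≃ₐ[K] Ω) × (Ω ≃ₐ[K] Ω) → Ωˣ}
    (h : IsMuCob₂ p f) : IsBrCob₂ f := by
  obtain ⟨x, hx, -, rfl⟩ := h
  exact ⟨x, hx, rfl⟩

theorem IsMuCocycle₂.isBrCocycle₂ {p : ℕ} {f : (Ω ≃ₐ[K] Ω) × (Ω ≃ₐ[K] Ω) → Ωˣ}
    (h : IsMuCocycle₂ p f) : IsBrCocycle₂ f := ⟨h.cocycle, h.level⟩

theorem isMulCocycle₂_one : IsMulCocycle₂ (1 : (Ω ≃ₐ[K] Ω) × (Ω ≃ₐ[K] Ω) → Ωˣ) := by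
  intro g h j
  simp

theorem isMulCocycle₂_mul {f f' : (Ω ≃ₐ[K] Ω) × (Ω ≃ₐ[K] Ω) → Ωˣ}
    (hf : IsMulCocycle₂ f) (hf' : IsMulCocycle₂ f') : IsMulCocycle₂ (f * f') := by
  intro g h j
  have h1 := hf g h j
  have h2 := hf' g h j
  simp only [Pi.mul_apply, smul_mul']
  calc f (g * h, j) * f' (g * h, j) * (f (g, h) * f' (g, h))
      = (f (g * h, j) * f (g, h)) * (f' (g * h, j) * f' (g, h)) := by ac_rfl
    _ = (g • f (h, j) * f (g, h * j)) * (g • f' (h, j) * f' (g, h * j)) := by rw [h1, h2]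
    _ = g • f (h, j) * g • f' (h, j) * (f (g, h * j) * f' (g, h * j)) := by ac_rfl

theorem isMulCocycle₂_inv {f : (Ω ≃ₐ[K] Ω) × (Ω ≃ₐ[K] Ω) → Ωˣ}
    (hf : IsMulCocycle₂ f) : IsMulCocycle₂ f⁻¹ := by
  intro g h j
  have h1 := hf g h j
  simp only [Pi.inv_apply, smul_inv']
  rw [← mul_inv, ← mul_inv, h1]

theorem isMulCocycle₂_div {f f' : (Ω ≃ₐ[K] Ω) × (Ω ≃ₐ[K] Ω) → Ωˣ}
    (hf : IsMulCocycle₂ f) (hf' : IsMulCocycle₂ f') : IsMulCocycle₂ (f / f') := by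
  rw [div_eq_mul_inv]
  exact isMulCocycle₂_mul hf (isMulCocycle₂_inv hf')

theorem isMulCocycle₂_pow {f : (Ω ≃ₐ[K] Ω) × (Ω ≃ₐ[K] Ω) → Ωˣ}
    (hf : IsMulCocycle₂ f) (n : ℕ) : IsMulCocycle₂ (f ^ n) := by
  induction n with
  | zero => simpa using isMulCocycle₂_one (K := K) (Ω := Ω)
  | succ n ih => rw [pow_succ]; exact isMulCocycle₂_mul ih hf

theorem isMulCocycle₂_dOne (x : (Ω ≃ₐ[K] Ω) → Ωˣ) : IsMulCocycle₂ (dOne x) := by
  intro g h j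
  simp only [dOne, smul_mul', smul_div', mul_smul, mul_assoc]
  apply Additive.ofMul.injective
  simp only [ofMul_mul, ofMul_div]
  abel

theorem IsMuCocycle₂.mul {p : ℕ} {f f' : (Ω ≃ₐ[K] Ω) × (Ω ≃ₐ[K] Ω) → Ωˣ}
    (hf : IsMuCocycle₂ p f) (hf' : IsMuCocycle₂ p f') : IsMuCocycle₂ p (f * f') :=
  ⟨isMulCocycle₂_mul hf.cocycle hf'.cocycle, hf.level.mul hf'.level, fun q => by
    rw [Pi.mul_apply, mul_pow, hf.pow_eq_one, hf'.pow_eq_one, one_mul]⟩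

theorem IsMuCocycle₂.inv {p : ℕ} {f : (Ω ≃ₐ[K] Ω) × (Ω ≃ₐ[K] Ω) → Ωˣ}
    (hf : IsMuCocycle₂ p f) : IsMuCocycle₂ p f⁻¹ :=
  ⟨isMulCocycle₂_inv hf.cocycle, hf.level.inv, fun q => by
    rw [Pi.inv_apply, inv_pow, hf.pow_eq_one, inv_one]⟩

theorem IsMuCocycle₂.div {p : ℕ} {f f' : (Ω ≃ₐ[K] Ω) × (Ω ≃ₐ[K] Ω) → Ωˣ}
    (hf : IsMuCocycle₂ p f) (hf' : IsMuCocycle₂ p f') : IsMuCocycle₂ p (f / f') := by
  rw [div_eq_mul_inv]
  exact hf.mul hf'.inv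

theorem IsMuCocycle₂.pow {p : ℕ} {f : (Ω ≃ₐ[K] Ω) × (Ω ≃ₐ[K] Ω) → Ωˣ}
    (hf : IsMuCocycle₂ p f) (n : ℕ) : IsMuCocycle₂ p (f ^ n) :=
  ⟨isMulCocycle₂_pow hf.cocycle n, hf.level.pow n, fun q => by
    rw [Pi.pow_apply, ← pow_mul, mul_comm, pow_mul, hf.pow_eq_one, one_pow]⟩

theorem isMuCob₂_one (p : ℕ) : IsMuCob₂ p (1 : (Ω ≃ₐ[K] Ω) × (Ω ≃ₐ[K] Ω) → Ωˣ) :=
  ⟨1, isLevel₁_const 1, fun _ => by simp, dOne_one.symm⟩

theorem IsMuCob₂.mul {p : ℕ} {f f' : (Ω ≃ₐ[K] Ω) × (Ω ≃ₐ[K] Ω) → Ωˣ}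
    (hf : IsMuCob₂ p f) (hf' : IsMuCob₂ p f') : IsMuCob₂ p (f * f') := by
  obtain ⟨x, hx, hxp, rfl⟩ := hf
  obtain ⟨y, hy, hyp, rfl⟩ := hf'
  exact ⟨x * y, hx.mul hy, fun g => by rw [Pi.mul_apply, mul_pow, hxp, hyp, one_mul],
    (dOne_mul x y).symm⟩

theorem IsMuCob₂.inv {p : ℕ} {f : (Ω ≃ₐ[K] Ω) × (Ω ≃ₐ[K] Ω) → Ωˣ}
    (hf : IsMuCob₂ p f) : IsMuCob₂ p f⁻¹ := by
  obtain ⟨x, hx, hxp, rfl⟩ := hf
  exact ⟨x⁻¹, hx.inv, fun g => by rw [Pi.inv_apply, inv_pow, hxp, inv_one], (dOne_inv x).symm⟩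

theorem IsMuCob₂.div {p : ℕ} {f f' : (Ω ≃ₐ[K] Ω) × (Ω ≃ₐ[K] Ω) → Ωˣ}
    (hf : IsMuCob₂ p f) (hf' : IsMuCob₂ p f') : IsMuCob₂ p (f / f') := by
  rw [div_eq_mul_inv]
  exact hf.mul hf'.inv

theorem IsMuCob₂.pow {p : ℕ} {f : (Ω ≃ₐ[K] Ω) × (Ω ≃ₐ[K] Ω) → Ωˣ}
    (hf : IsMuCob₂ p f) (n : ℕ) : IsMuCob₂ p (f ^ n) := by
  obtain ⟨x, hx, hxp, rfl⟩ := hf
  exact ⟨x ^ n, hx.pow n, fun g => by
    rw [Pi.pow_apply, ← pow_mul, mul_comm, pow_mul, hxp, one_pow], (dOne_pow x n).symm⟩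

/-- The `p`-th power of a `μ_p`-valued cochain is trivial: `H²(G_K, μ_p)` is killed by `p`. -/
theorem IsMuCocycle₂.pow_p_eq_one {p : ℕ} {f : (Ω ≃ₐ[K] Ω) × (Ω ≃ₐ[K] Ω) → Ωˣ}
    (hf : IsMuCocycle₂ p f) : f ^ p = 1 := funext fun q => hf.pow_eq_one q

/-- The cup product `κ ∪ χ : (g, h) ↦ κ(g) ^ χ(h)` of a `μ_p`-valued 1-cochain and a
`ZMod p`-valued 1-cochain (`ZMod p` with trivial action; `(χ h).val` is the lift to `ℕ`). -/
def cupMu {p : ℕ} (κ : (Ω ≃ₐ[K] Ω) → Ωˣ) (χ : (Ω ≃ₐ[K] Ω) → ZMod p) :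
    (Ω ≃ₐ[K] Ω) × (Ω ≃ₐ[K] Ω) → Ωˣ :=
  fun q => κ q.1 ^ (χ q.2).val

/-- The cup product in the other order `χ ∪ κ : (g, h) ↦ (g • κ(h)) ^ χ(g)`. -/
def cupMu' {p : ℕ} (χ : (Ω ≃ₐ[K] Ω) → ZMod p) (κ : (Ω ≃ₐ[K] Ω) → Ωˣ) :
    (Ω ≃ₐ[K] Ω) × (Ω ≃ₐ[K] Ω) → Ωˣ :=
  fun q => (q.1 • κ q.2) ^ (χ q.1).val

/-- Exponents in `ZMod p` act on elements of `μ_p`. -/
theorem pow_val_add_of_pow_eq_one {p : ℕ} [NeZero p] {M : Type*} [Monoid M] {z : M}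
    (hz : z ^ p = 1) (a b : ZMod p) : z ^ (a + b).val = z ^ a.val * z ^ b.val := by
  rw [ZMod.val_add, ← pow_add, pow_eq_pow_mod (a.val + b.val) hz]

theorem isLevel₂_cupMu {p : ℕ} {κ : (Ω ≃ₐ[K] Ω) → Ωˣ} {χ : (Ω ≃ₐ[K] Ω) → ZMod p}
    (hκ : IsLevel₁ κ) (hχ : IsLevel₁ χ) : IsLevel₂ (cupMu κ χ) := by
  obtain ⟨E, hE, h⟩ := hκ
  obtain ⟨E', hE', h'⟩ := hχ
  refine ⟨E ⊔ E', inferInstance, fun g g' s s' hs hs' => ?_⟩
  have h1 : s ∈ E.fixingSubgroup := IntermediateField.fixingSubgroup_le le_sup_left hs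
  have h2 : s' ∈ E'.fixingSubgroup := IntermediateField.fixingSubgroup_le le_sup_right hs'
  simp only [cupMu, h g s h1, h' g' s' h2]

/-- The cup product of a class of `H¹(G_K, μ_p)` and a level character is a `μ_p`-valued level
2-cocycle. -/
theorem isMuCocycle₂_cupMu {p : ℕ} [NeZero p] {κ : (Ω ≃ₐ[K] Ω) → Ωˣ}
    {χ : (Ω ≃ₐ[K] Ω) → ZMod p} (hκ : IsMuCocycle₁ p κ) (hχ : IsLevelChar p χ) :
    IsMuCocycle₂ p (cupMu κ χ) := by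
  refine ⟨fun g h j => ?_, isLevel₂_cupMu hκ.level hχ.level, fun q => ?_⟩
  · simp only [cupMu]
    rw [hκ.cocycle g h, hχ.map_mul h j, pow_val_add_of_pow_eq_one (hκ.pow_eq_one g), mul_pow,
      smul_pow']
    apply Additive.ofMul.injective
    simp only [ofMul_mul]
    abel
  · simp only [cupMu]
    rw [← pow_mul, mul_comm, pow_mul, hκ.pow_eq_one, one_pow]

/-- The two cup products differ by inversion and the coboundary of the `μ_p`-valued level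
cochain `g ↦ κ(g) ^ (-χ(g))`: `(κ ∪ χ) * (χ ∪ κ) = d (g ↦ κ(g) ^ χ(g))⁻¹`. -/
theorem cupMu_mul_cupMu' {p : ℕ} [NeZero p] {κ : (Ω ≃ₐ[K] Ω) → Ωˣ}
    {χ : (Ω ≃ₐ[K] Ω) → ZMod p} (hκ : IsMuCocycle₁ p κ) (hχ : IsLevelChar p χ) :
    cupMu κ χ * cupMu' χ κ = dOne (fun g => (κ g ^ (χ g).val)⁻¹) := by
  funext q
  obtain ⟨g, h⟩ := q
  have hgk : (g • κ h) ^ p = 1 := by rw [← smul_pow', hκ.pow_eq_one, smul_one]
  have hmul : (g • κ h * κ g) ^ p = 1 := by rw [mul_pow, hgk, hκ.pow_eq_one, one_mul]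
  simp only [cupMu, cupMu', dOne, Pi.mul_apply, smul_inv', smul_pow']
  rw [hκ.cocycle g h, hχ.map_mul g h, pow_val_add_of_pow_eq_one hmul, mul_pow, mul_pow]
  apply Additive.ofMul.injective
  simp only [ofMul_mul, ofMul_div, ofMul_inv]
  abel

theorem isMuCob₂_cupMu_iff_cupMu' {p : ℕ} [NeZero p] {κ : (Ω ≃ₐ[K] Ω) → Ωˣ}
    {χ : (Ω ≃ₐ[K] Ω) → ZMod p} (hκ : IsMuCocycle₁ p κ) (hχ : IsLevelChar p χ) :
    IsMuCob₂ p (cupMu κ χ) ↔ IsMuCob₂ p (cupMu' χ κ) := by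
  have hy : IsMuCob₂ p (cupMu κ χ * cupMu' χ κ) := by
    rw [cupMu_mul_cupMu' hκ hχ]
    refine ⟨_, ?_, fun g => ?_, rfl⟩
    · exact hκ.level.map₂ hχ.level (fun z a => (z ^ a.val)⁻¹)
    · rw [inv_pow, ← pow_mul, mul_comm, pow_mul, hκ.pow_eq_one, one_pow, inv_one]
  constructor
  · intro h
    have := hy.div h
    rwa [mul_div_cancel_left] at this
  · intro h
    have := hy.div h
    rwa [mul_div_cancel_right] at this

end Cochains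

/-! ### The closed statements -/

section Statements

variable (K Ω : Type*) [Field K] [Field Ω] [Algebra K Ω] (p : ℕ)

/-- `(LB1, ≥)`: `H²(G_K, μ_p) ≠ 0`. -/
def Stmt_LB1_ne : Prop :=
  ∃ f₀ : (Ω ≃ₐ[K] Ω) × (Ω ≃ₐ[K] Ω) → Ωˣ, IsMuCocycle₂ p f₀ ∧ ¬ IsMuCob₂ p f₀

/-- `(LB1, ≤)`: any nonzero class of `H²(G_K, μ_p)` spans it. -/
def Stmt_LB1_line : Prop :=
  ∀ f₁ f₂ : (Ω ≃ₐ[K] Ω) × (Ω ≃ₐ[K] Ω) → Ωˣ, IsMuCocycle₂ p f₁ → IsMuCocycle₂ p f₂ →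
    ¬ IsMuCob₂ p f₁ → ∃ n : ℕ, IsMuCob₂ p (f₂ / f₁ ^ n)

/-- `(LB1)`: `H²(G_K, μ_p)` is cyclic of order `p`. -/
def Stmt_LB1 : Prop := Stmt_LB1_ne K Ω p ∧ Stmt_LB1_line K Ω p

/-- `(LB2)`, cocycle form: every class of `H¹(G_K, μ_p)` which is not zero has a nonzero cup
product with a level character `χ : G_K → ZMod p`. (Meant for `μ_p ⊆ K`.) -/
def Stmt_LB2 : Prop :=
  ∀ κ : (Ω ≃ₐ[K] Ω) → Ωˣ, IsMuCocycle₁ p κ → ¬ IsMuCob₁ p κ →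
    ∃ χ : (Ω ≃ₐ[K] Ω) → ZMod p, IsLevelChar p χ ∧ ¬ IsMuCob₂ p (cupMu κ χ)

/-- `(LB2)`, Kummer form: for `a ∈ Kˣ` not a `p`-th power in `K` and `α ^ p = a`, the Kummer
cocycle `g ↦ g α / α` has a nonzero cup product with a level character. -/
def Stmt_LB2α : Prop :=
  ∀ (a : K) (α : Ωˣ), (α : Ω) ^ p = algebraMap K Ω a → (¬ ∃ b : K, b ^ p = a) →
    ∃ χ : (Ω ≃ₐ[K] Ω) → ZMod p, IsLevelChar p χ ∧
      ¬ IsMuCob₂ p (cupMu (fun g => g • α / α) χ)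

/-- NORMIDX for degree `p`, index form: the norm group of every Galois extension `L/K` of
degree `p` inside `Ω` has index exactly `p` in `Kˣ`. -/
def Stmt_NormIdx : Prop :=
  ∀ L : IntermediateField K Ω, IsGalois K L → Module.finrank K L = p →
    (Units.map (Algebra.norm K : L →* K)).range.index = p

/-- NORMIDX for degree `p`, weakest form (all that `(LB2)` consumes): the norm of a Galois
extension `L/K` of degree `p` inside `Ω` is not onto `Kˣ`. -/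
def Stmt_NormNotOnto : Prop :=
  ∀ L : IntermediateField K Ω, IsGalois K L → Module.finrank K L = p →
    ∃ b : K, b ≠ 0 ∧ ∀ y : L, Algebra.norm K y ≠ b

/-- `(LB5)`: for every Galois extension `L/K` of degree `p` inside `Ω`, some norm from `Lˣ` is
not a `p`-th power in `K`.  (Meant for `μ_p ⊆ K`; with the projection formula and `(LB2)` it
makes corestriction `H²(G_L, μ_p) → H²(G_K, μ_p)` nonzero.) -/
def Stmt_LB5 : Prop :=
  ∀ L : IntermediateField K Ω, IsGalois K L → Module.finrank K L = p →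
    ∃ β : L, β ≠ 0 ∧ ¬ ∃ c : K, c ^ p = Algebra.norm K β

end Statements

/-! ### The local statements: every finite `K/ℚ_l` inside `PadicAlgCl l` -/

section Local

variable (l : ℕ) [Fact l.Prime] (p : ℕ)

/-- `(LB1)` for every finite extension of `ℚ_l` inside `PadicAlgCl l`. -/
def Stmt_LocalLB1 : Prop :=
  ∀ K : IntermediateField ℚ_[l] (PadicAlgCl l), FiniteDimensional ℚ_[l] K →
    Stmt_LB1 K (PadicAlgCl l) p

/-- `(LB2)` for every finite extension of `ℚ_l` inside `PadicAlgCl l` containing `μ_p`. -/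
def Stmt_LocalLB2 : Prop :=
  ∀ K : IntermediateField ℚ_[l] (PadicAlgCl l), FiniteDimensional ℚ_[l] K →
    (∃ ζ : K, IsPrimitiveRoot ζ p) → Stmt_LB2 K (PadicAlgCl l) p

/-- `(LB2)`, Kummer form, for every finite extension of `ℚ_l` inside `PadicAlgCl l`
containing `μ_p`. -/
def Stmt_LocalLB2α : Prop :=
  ∀ K : IntermediateField ℚ_[l] (PadicAlgCl l), FiniteDimensional ℚ_[l] K →
    (∃ ζ : K, IsPrimitiveRoot ζ p) → Stmt_LB2α K (PadicAlgCl l) p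

/-- `(LB5)` for every finite extension of `ℚ_l` inside `PadicAlgCl l` containing `μ_p`. -/
def Stmt_LocalLB5 : Prop :=
  ∀ K : IntermediateField ℚ_[l] (PadicAlgCl l), FiniteDimensional ℚ_[l] K →
    (∃ ζ : K, IsPrimitiveRoot ζ p) → Stmt_LB5 K (PadicAlgCl l) p

/-- NORMIDX (degree `p`, index form) for every finite extension of `ℚ_l` inside
`PadicAlgCl l`. -/
def Stmt_LocalNormIdx : Prop :=
  ∀ K : IntermediateField ℚ_[l] (PadicAlgCl l), FiniteDimensional ℚ_[l] K →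
    Stmt_NormIdx K (PadicAlgCl l) p

/-- NORMIDX (degree `p`, weakest form) for every finite extension of `ℚ_l` inside
`PadicAlgCl l`. -/
def Stmt_LocalNormNotOnto : Prop :=
  ∀ K : IntermediateField ℚ_[l] (PadicAlgCl l), FiniteDimensional ℚ_[l] K →
    Stmt_NormNotOnto K (PadicAlgCl l) p

end Local

end Fermat.Agent.S55.helper9554
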