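/-
S55 (Poitou–Tate), leaf LA-LB1-FROZEN (= LS-O1 + the `(LB1 r U)` half of LS-ADAPT).
Author: helper2353.

END ADAPTER for `(LB1)`: from the LA carrier of `helper9554_LocalSpec`
(`μ_p`-valued level 2-cocycles on `Gal(PadicAlgCl q / K)` with values in `(PadicAlgCl q)ˣ`) to the
FROZEN carriers `continuousH2 r A` consumed by the local layer.

* Part 1 (`Dict`): the dictionary.  `K` any field in a tower `ℚ_q → K → PadicAlgCl q`,
  `H` any group with `ι : H →* Gal(PadicAlgCl q / ℚ_q)` and an isomorphism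
  `e : H ≃* Gal(PadicAlgCl q / K)` compatible with `ι` (so `H = Gal(PadicAlgCl q / K)` itself,
  `H = ↥K.fixingSubgroup`, or `H = Gal(PadicAlgCl q / ℚ_q)` with `K = ℚ_q` or `K = ⊥`).
  Then `helper9554.IsLevel₁/₂` corresponds to the frozen `IsLevelConstant₁/₂ (r.comp ι)`,
  `helper9554.IsMuCocycle₂ / IsMuCob₂` to `helper512.IsMuLevelCocycle₂ / IsMuLevelCoboundary₂`,
  and `helper9554.Stmt_LB1 K (PadicAlgCl q) p` gives
  `finrank (ZMod p) (continuousH2 (r.comp ι) A) = 1` for every character model `A` of `μ_p`.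
* Part 2: open subgroups of the local Galois group are fixing subgroups of finite extensions.
* Part 3: the consumer shapes:
  `stmt_LocInv_of_LB1`, `stmt_LocInv_of_localLB1` (`helper665.Stmt_LocInv p`),
  `finrank_continuousH2_trivial_eq_one`, `exists_inv_trivial` (the `(LB1 r U)` input of LS-L2),
  `finrank_continuousH2_res_eq_one` (twisted coefficients over an open subgroup).
-/
import Mathlib
import Fermat.Prelude.Def_GroupCohomology_ContinuousUnramified
import Fermat.Agent.S55.helper4058_Krasner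
import Fermat.Agent.S55.helper512_MuP
import Fermat.Agent.S55.helper9554_LocalSpec
import Fermat.Agent.S55.helper665_LocalSpec

set_option autoImplicit false
set_option linter.unusedSectionVars false
set_option linter.style.haveILetI false

open groupCohomology ExtCitation

namespace Fermat.Agent.S55.helper2353

/-! ## Part 1. The dictionary -/

section Dict

variable {q : ℕ} [Fact q.Prime]
variable {K : Type*} [Field K] [Algebra ℚ_[q] K] [Algebra K (PadicAlgCl q)]
  [IsScalarTower ℚ_[q] K (PadicAlgCl q)]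
variable {H : Type} [Group H] (ι : H →* (PadicAlgCl q ≃ₐ[ℚ_[q]] PadicAlgCl q))
  (e : H ≃* (PadicAlgCl q ≃ₐ[K] PadicAlgCl q))
  (he : ∀ (h : H) (x : PadicAlgCl q), e h x = ι h x)

include he in
/-- Every frozen level `F` is dominated by a level `E` of `Gal(PadicAlgCl q / K)`. -/
theorem exists_level_of_global (F : IntermediateField ℚ (AlgebraicClosure ℚ))
    [FiniteDimensional ℚ F] :
    ∃ E : IntermediateField K (PadicAlgCl q), FiniteDimensional K E ∧
      ∀ h : H, e h ∈ E.fixingSubgroup → localGaloisToGlobal q (ι h) ∈ F.fixingSubgroup := by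
  obtain ⟨L, hL, hLiff⟩ := helper4058.exists_local_level_eq_comap q F
  haveI := hL
  let b : Fin (Module.finrank ℚ_[q] L) → PadicAlgCl q :=
    fun i => (Module.finBasis ℚ_[q] L i : PadicAlgCl q)
  refine ⟨IntermediateField.adjoin K (Set.range b), ?_, fun h hh => ?_⟩
  · exact IntermediateField.finiteDimensional_adjoin
      (fun x _ => (Algebra.IsIntegral.isIntegral (R := ℚ_[q]) x).tower_top)
  · refine (hLiff (ι h)).1
      (helper4058.mem_fixingSubgroup_of_fixes_finBasis L (ι h) fun i => ?_)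
    rw [← he]
    exact (IntermediateField.mem_fixingSubgroup_iff _ _).1 hh _
      (IntermediateField.subset_adjoin K _ ⟨i, rfl⟩)

include he in
/-- Every level `E` of `Gal(PadicAlgCl q / K)` is dominated by a frozen level `F`. -/
theorem exists_global_of_level (E : IntermediateField K (PadicAlgCl q))
    [FiniteDimensional K E] :
    ∃ F : IntermediateField ℚ (AlgebraicClosure ℚ), FiniteDimensional ℚ F ∧
      ∀ h : H, localGaloisToGlobal q (ι h) ∈ F.fixingSubgroup → e h ∈ E.fixingSubgroup := by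
  let b : Fin (Module.finrank K E) → PadicAlgCl q :=
    fun i => (Module.finBasis K E i : PadicAlgCl q)
  haveI : FiniteDimensional ℚ_[q] (IntermediateField.adjoin ℚ_[q] (Set.range b)) :=
    IntermediateField.finiteDimensional_adjoin
      (fun x _ => Algebra.IsIntegral.isIntegral (R := ℚ_[q]) x)
  obtain ⟨F, hF, hFimp⟩ := helper4058.exists_global_level_le_fixingSubgroup q
    (IntermediateField.adjoin ℚ_[q] (Set.range b))
  refine ⟨F, hF, fun h hh =>
    helper4058.mem_fixingSubgroup_of_fixes_finBasis E (e h) fun i => ?_⟩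
  rw [he]
  exact (IntermediateField.mem_fixingSubgroup_iff _ _).1 (hFimp _ hh) _
    (IntermediateField.subset_adjoin _ _ ⟨i, rfl⟩)

include he in
theorem isLevelConstant₁_of_isLevel₁ {X : Type*}
    {c : (PadicAlgCl q ≃ₐ[K] PadicAlgCl q) → X} (hc : helper9554.IsLevel₁ c) :
    IsLevelConstant₁ ((localGaloisToGlobal q).comp ι) (fun h => c (e h)) := by
  obtain ⟨E, hE, hc⟩ := hc
  haveI := hE
  obtain ⟨F, hF, hFimp⟩ := exists_global_of_level ι e he E
  refine ⟨F, hF, fun g s hs => ?_⟩
  show c (e (g * s)) = c (e g)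
  rw [map_mul]
  exact hc _ _ (hFimp s hs)

include he in
theorem isLevelConstant₂_of_isLevel₂ {X : Type*}
    {f : (PadicAlgCl q ≃ₐ[K] PadicAlgCl q) × (PadicAlgCl q ≃ₐ[K] PadicAlgCl q) → X}
    (hf : helper9554.IsLevel₂ f) :
    IsLevelConstant₂ ((localGaloisToGlobal q).comp ι) (fun x : H × H => f (e x.1, e x.2)) := by
  obtain ⟨E, hE, hf⟩ := hf
  haveI := hE
  obtain ⟨F, hF, hFimp⟩ := exists_global_of_level ι e he E
  refine ⟨F, hF, fun g g' s s' hs hs' => ?_⟩
  show f (e (g * s), e (g' * s')) = f (e g, e g')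
  rw [map_mul, map_mul]
  exact hf _ _ _ _ (hFimp s hs) (hFimp s' hs')

include he in
theorem isLevel₁_of_isLevelConstant₁ {X : Type*} {c : H → X}
    (hc : IsLevelConstant₁ ((localGaloisToGlobal q).comp ι) c) :
    helper9554.IsLevel₁ (fun g : PadicAlgCl q ≃ₐ[K] PadicAlgCl q => c (e.symm g)) := by
  obtain ⟨F, hF, hc⟩ := hc
  haveI := hF
  obtain ⟨E, hE, hEimp⟩ := exists_level_of_global ι e he F
  refine ⟨E, hE, fun g s hs => ?_⟩
  show c (e.symm (g * s)) = c (e.symm g)
  rw [map_mul]
  exact hc _ _ (hEimp _ (by rwa [e.apply_symm_apply]))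

include he in
theorem isLevel₂_of_isLevelConstant₂ {X : Type*} {f : H × H → X}
    (hf : IsLevelConstant₂ ((localGaloisToGlobal q).comp ι) f) :
    helper9554.IsLevel₂ (fun x : (PadicAlgCl q ≃ₐ[K] PadicAlgCl q) ×
      (PadicAlgCl q ≃ₐ[K] PadicAlgCl q) => f (e.symm x.1, e.symm x.2)) := by
  obtain ⟨F, hF, hf⟩ := hf
  haveI := hF
  obtain ⟨E, hE, hEimp⟩ := exists_level_of_global ι e he F
  refine ⟨E, hE, fun g g' s s' hs hs' => ?_⟩
  show f (e.symm (g * s), e.symm (g' * s')) = f (e.symm g, e.symm g')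
  rw [map_mul, map_mul]
  exact hf _ _ _ _ (hEimp _ (by rwa [e.apply_symm_apply]))
    (hEimp _ (by rwa [e.apply_symm_apply]))

variable [MulDistribMulAction H (PadicAlgCl q)ˣ]
  (hact : ∀ (h : H) (u : (PadicAlgCl q)ˣ), h • u = ι h • u)

include he hact in
theorem smul_eq_equiv_smul (h : H) (u : (PadicAlgCl q)ˣ) : h • u = e h • u := by
  rw [hact]
  exact Units.ext (he h u).symm

variable (p : ℕ)

include he hact in
/-- LA carrier ⟶ frozen-level carrier, cocycles. -/
theorem isMuLevelCocycle₂_of_isMuCocycle₂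
    {f : (PadicAlgCl q ≃ₐ[K] PadicAlgCl q) × (PadicAlgCl q ≃ₐ[K] PadicAlgCl q) → (PadicAlgCl q)ˣ}
    (hf : helper9554.IsMuCocycle₂ p f) :
    helper512.IsMuLevelCocycle₂ p ((localGaloisToGlobal q).comp ι)
      (fun x : H × H => f (e x.1, e x.2)) := by
  refine ⟨fun g h j => ?_, fun x => hf.pow_eq_one _, isLevelConstant₂_of_isLevel₂ ι e he hf.level⟩
  show f (e (g * h), e j) * f (e g, e h) = g • f (e h, e j) * f (e g, e (h * j))
  rw [map_mul, map_mul, smul_eq_equiv_smul ι e he hact]
  exact hf.cocycle (e g) (e h) (e j)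

include he hact in
/-- Frozen-level carrier ⟶ LA carrier, cocycles. -/
theorem isMuCocycle₂_of_isMuLevelCocycle₂ {F : H × H → (PadicAlgCl q)ˣ}
    (hF : helper512.IsMuLevelCocycle₂ p ((localGaloisToGlobal q).comp ι) F) :
    helper9554.IsMuCocycle₂ p (fun x : (PadicAlgCl q ≃ₐ[K] PadicAlgCl q) ×
      (PadicAlgCl q ≃ₐ[K] PadicAlgCl q) => F (e.symm x.1, e.symm x.2)) := by
  refine ⟨fun g h j => ?_, isLevel₂_of_isLevelConstant₂ ι e he hF.2.2, fun x => hF.2.1 _⟩
  show F (e.symm (g * h), e.symm j) * F (e.symm g, e.symm h)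
    = g • F (e.symm h, e.symm j) * F (e.symm g, e.symm (h * j))
  have h1 := hF.1 (e.symm g) (e.symm h) (e.symm j)
  rw [smul_eq_equiv_smul ι e he hact, e.apply_symm_apply] at h1
  rw [map_mul, map_mul]
  exact h1

include he hact in
/-- LA carrier ⟶ frozen-level carrier, coboundaries. -/
theorem isMuLevelCoboundary₂_of_isMuCob₂
    {f : (PadicAlgCl q ≃ₐ[K] PadicAlgCl q) × (PadicAlgCl q ≃ₐ[K] PadicAlgCl q) → (PadicAlgCl q)ˣ}
    (hf : helper9554.IsMuCob₂ p f) :
    helper512.IsMuLevelCoboundary₂ p ((localGaloisToGlobal q).comp ι)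
      (fun x : H × H => f (e x.1, e x.2)) := by
  obtain ⟨x, hxl, hxp, rfl⟩ := hf
  refine ⟨fun h => x (e h), fun g => hxp _, isLevelConstant₁_of_isLevel₁ ι e he hxl,
    fun g h => ?_⟩
  show g • x (e h) / x (e (g * h)) * x (e g) = helper9554.dOne x (e g, e h)
  rw [helper9554.dOne_apply, map_mul, smul_eq_equiv_smul ι e he hact]

include he hact in
/-- Frozen-level carrier ⟶ LA carrier, coboundaries. -/
theorem isMuCob₂_of_isMuLevelCoboundary₂ {F : H × H → (PadicAlgCl q)ˣ}
    (hF : helper512.IsMuLevelCoboundary₂ p ((localGaloisToGlobal q).comp ι) F) :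
    helper9554.IsMuCob₂ p (fun x : (PadicAlgCl q ≃ₐ[K] PadicAlgCl q) ×
      (PadicAlgCl q ≃ₐ[K] PadicAlgCl q) => F (e.symm x.1, e.symm x.2)) := by
  obtain ⟨y, hyp, hyl, hy⟩ := hF
  refine ⟨fun g => y (e.symm g), isLevel₁_of_isLevelConstant₁ ι e he hyl, fun g => hyp _,
    funext fun x => ?_⟩
  have h1 := hy (e.symm x.1) (e.symm x.2)
  rw [smul_eq_equiv_smul ι e he hact, e.apply_symm_apply, ← map_mul] at h1
  exact h1.symm

include he hact in
/-- **The engine.**  `(LB1)` on the LA carrier gives a generator of the `μ_p`-valued frozen-level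
multiplicative `H²` of `H`. -/
theorem exists_generator_of_stmt_LB1 (hLB1 : helper9554.Stmt_LB1 K (PadicAlgCl q) p) :
    ∃ F₀ : H × H → (PadicAlgCl q)ˣ,
      helper512.IsMuLevelCocycle₂ p ((localGaloisToGlobal q).comp ι) F₀ ∧
      ¬ helper512.IsMuLevelCoboundary₂ p ((localGaloisToGlobal q).comp ι) F₀ ∧
      ∀ F : H × H → (PadicAlgCl q)ˣ,
        helper512.IsMuLevelCocycle₂ p ((localGaloisToGlobal q).comp ι) F →
        ∃ n : ℕ, helper512.IsMuLevelCoboundary₂ p ((localGaloisToGlobal q).comp ι)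
          (fun x => F x / F₀ x ^ n) := by
  obtain ⟨⟨f₀, hf₀, hf₀'⟩, hline⟩ := hLB1
  refine ⟨fun x : H × H => f₀ (e x.1, e x.2),
    isMuLevelCocycle₂_of_isMuCocycle₂ ι e he hact p hf₀, fun hcob => hf₀' ?_, fun F hF => ?_⟩
  · have h1 := isMuCob₂_of_isMuLevelCoboundary₂ ι e he hact p hcob
    have h2 : (fun x : (PadicAlgCl q ≃ₐ[K] PadicAlgCl q) × (PadicAlgCl q ≃ₐ[K] PadicAlgCl q) =>
        f₀ (e (e.symm x.1), e (e.symm x.2))) = f₀ := by
      funext x
      rw [e.apply_symm_apply, e.apply_symm_apply]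
    rwa [h2] at h1
  · obtain ⟨n, hn⟩ := hline f₀ _ hf₀ (isMuCocycle₂_of_isMuLevelCocycle₂ ι e he hact p hF) hf₀'
    refine ⟨n, ?_⟩
    have h1 := isMuLevelCoboundary₂_of_isMuCob₂ ι e he hact p hn
    have h2 : (fun x : H × H =>
        ((fun y : (PadicAlgCl q ≃ₐ[K] PadicAlgCl q) × (PadicAlgCl q ≃ₐ[K] PadicAlgCl q) =>
          F (e.symm y.1, e.symm y.2)) / f₀ ^ n) (e x.1, e x.2))
        = fun x : H × H => F x / f₀ (e x.1, e x.2) ^ n := by
      funext x
      simp only [Pi.div_apply, Pi.pow_apply, e.symm_apply_apply]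
    rwa [h2] at h1

include he hact in
/-- **`(LB1)` on the frozen carrier, general form.**  For every character model `A` of `μ_p`
over `H` (in the sense of `helper512`), `(LB1)` on the LA carrier gives
`dim H²_cont(H, A) = 1` on the frozen carrier. -/
theorem finrank_continuousH2_eq_one_of_stmt_LB1 [Fact p.Prime]
    (hLB1 : helper9554.Stmt_LB1 K (PadicAlgCl q) p) {χ : H →* (ZMod p)ˣ}
    (D : helper512.MuDatum p χ (PadicAlgCl q)ˣ) {A : Rep.{0} (ZMod p) H}
    (c : helper512.CharModel A χ) :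
    Module.finrank (ZMod p) (continuousH2 ((localGaloisToGlobal q).comp ι) A) = 1 := by
  obtain ⟨F₀, h₀, hne, hgen⟩ := exists_generator_of_stmt_LB1 ι e he hact p hLB1
  exact helper512.finrank_continuousH2_eq_one_of_mu _ D c h₀ hne hgen

end Dict

/-! ## Part 2. Open subgroups are fixing subgroups of finite extensions -/

section Open

/-- A subgroup of an (infinite) Galois group containing the fixing subgroup of a finite
subextension is the fixing subgroup of a finite subextension. -/
theorem exists_fixingSubgroup_eq {k Ω : Type*} [Field k] [Field Ω] [Algebra k Ω] [IsGalois k Ω]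
    (U : Subgroup (Ω ≃ₐ[k] Ω)) (L : IntermediateField k Ω) [FiniteDimensional k L]
    (hLU : L.fixingSubgroup ≤ U) :
    ∃ K : IntermediateField k Ω, FiniteDimensional k K ∧ K.fixingSubgroup = U := by
  have hopen : IsOpen (U : Set (Ω ≃ₐ[k] Ω)) :=
    Subgroup.isOpen_mono hLU (IntermediateField.fixingSubgroup_isOpen L)
  have hclosed : IsClosed (U : Set (Ω ≃ₐ[k] Ω)) := Subgroup.isClosed_of_isOpen U hopen
  refine ⟨IntermediateField.fixedField U, ?_,
    InfiniteGalois.fixingSubgroup_fixedField ⟨U, hclosed⟩⟩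
  have hle : IntermediateField.fixedField U ≤ L := by
    have h1 := IntermediateField.fixedField_antitone hLU
    rwa [InfiniteGalois.fixedField_fixingSubgroup] at h1
  exact Module.Finite.of_injective (IntermediateField.inclusion hle).toLinearMap
    (IntermediateField.inclusion hle).injective

/-- A subgroup of the local Galois group containing the preimage of a frozen level is the fixing
subgroup of a finite extension of `ℚ_q`. -/
theorem exists_fixingSubgroup_eq_of_frozen_open (q : ℕ) [Fact q.Prime]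
    (U : Subgroup (PadicAlgCl q ≃ₐ[ℚ_[q]] PadicAlgCl q))
    (hU : ∃ F : IntermediateField ℚ (AlgebraicClosure ℚ), FiniteDimensional ℚ F ∧
      ∀ g, localGaloisToGlobal q g ∈ F.fixingSubgroup → g ∈ U) :
    ∃ K : IntermediateField ℚ_[q] (PadicAlgCl q), FiniteDimensional ℚ_[q] K ∧
      K.fixingSubgroup = U := by
  obtain ⟨F, hF, hFU⟩ := hU
  haveI := hF
  obtain ⟨L, hL, hLiff⟩ := helper4058.exists_local_level_eq_comap q F
  haveI := hL
  exact exists_fixingSubgroup_eq U L fun g hg => hFU g ((hLiff g).1 hg)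

end Open

/-! ## Part 3. The consumer shapes -/

section Consumers

variable (q : ℕ) [Fact q.Prime] (p : ℕ) [Fact p.Prime]

/-- A one-dimensional space has a bijective functional. -/
theorem exists_bijective_of_finrank_eq_one {k V : Type*} [Field k] [AddCommGroup V] [Module k V]
    (h : Module.finrank k V = 1) : ∃ inv : V →ₗ[k] k, Function.Bijective inv := by
  haveI : Module.Finite k V := Module.finite_of_finrank_pos (by omega)
  have e : V ≃ₗ[k] k := LinearEquiv.ofFinrankEq V k (by rw [h, Module.finrank_self])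
  exact ⟨e.toLinearMap, e.bijective⟩

/-- **`(LB1)` over `ℚ_q` on the frozen carrier**, from `(LB1)` on the LA carrier with
`K = ℚ_[q]` (the field itself). -/
theorem finrank_continuousH2_local_eq_one_of_LB1
    (hLB1 : helper9554.Stmt_LB1 ℚ_[q] (PadicAlgCl q) p) :
    Module.finrank (ZMod p) (continuousH2 (localGaloisToGlobal q)
      (Rep.res (localGaloisToGlobal q) (ofChar (k := ZMod p) (cycloChar p)))) = 1 := by
  have h := finrank_continuousH2_eq_one_of_stmt_LB1 (K := ℚ_[q])
    (MonoidHom.id (PadicAlgCl q ≃ₐ[ℚ_[q]] PadicAlgCl q)) (MulEquiv.refl _)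
    (fun _ _ => rfl) (fun _ _ => rfl) p hLB1 (helper512.localDatum p q)
    ((helper512.CharModel.ofChar (cycloChar p)).res (localGaloisToGlobal q))
  rwa [MonoidHom.comp_id] at h

/-- The identification `Gal(PadicAlgCl q / ℚ_q) ≃* Gal(PadicAlgCl q / ⊥)`. -/
noncomputable def botEquiv :
    (PadicAlgCl q ≃ₐ[ℚ_[q]] PadicAlgCl q) ≃*
      (PadicAlgCl q ≃ₐ[(⊥ : IntermediateField ℚ_[q] (PadicAlgCl q))] PadicAlgCl q) :=
  (Subgroup.topEquiv.symm.trans
    (MulEquiv.subgroupCongr IntermediateField.fixingSubgroup_bot.symm)).trans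
    (IntermediateField.fixingSubgroupEquiv ⊥)

theorem botEquiv_apply (h : PadicAlgCl q ≃ₐ[ℚ_[q]] PadicAlgCl q) (x : PadicAlgCl q) :
    botEquiv q h x = h x := rfl

/-- **`(LB1)` over `ℚ_q` on the frozen carrier**, from the local statement of the LA layer (at
`K = ⊥`). -/
theorem finrank_continuousH2_local_eq_one_of_localLB1 (hLB1 : helper9554.Stmt_LocalLB1 q p) :
    Module.finrank (ZMod p) (continuousH2 (localGaloisToGlobal q)
      (Rep.res (localGaloisToGlobal q) (ofChar (k := ZMod p) (cycloChar p)))) = 1 := by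
  have h := finrank_continuousH2_eq_one_of_stmt_LB1
    (K := (⊥ : IntermediateField ℚ_[q] (PadicAlgCl q)))
    (MonoidHom.id (PadicAlgCl q ≃ₐ[ℚ_[q]] PadicAlgCl q)) (botEquiv q)
    (botEquiv_apply q) (fun _ _ => rfl) p (hLB1 ⊥ inferInstance) (helper512.localDatum p q)
    ((helper512.CharModel.ofChar (cycloChar p)).res (localGaloisToGlobal q))
  rwa [MonoidHom.comp_id] at h

/-- **`(LB1)` over a finite extension `K/ℚ_q`, twisted coefficients, frozen carrier on
`↥K.fixingSubgroup`.** -/
theorem finrank_continuousH2_res_fixingSubgroup_eq_one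
    (K : IntermediateField ℚ_[q] (PadicAlgCl q))
    (hLB1 : helper9554.Stmt_LB1 K (PadicAlgCl q) p) :
    Module.finrank (ZMod p) (continuousH2 ((localGaloisToGlobal q).comp K.fixingSubgroup.subtype)
      (Rep.res ((localGaloisToGlobal q).comp K.fixingSubgroup.subtype)
        (ofChar (k := ZMod p) (cycloChar p)))) = 1 :=
  finrank_continuousH2_eq_one_of_stmt_LB1 (K := K) K.fixingSubgroup.subtype
    (IntermediateField.fixingSubgroupEquiv K) (fun _ _ => rfl) (fun _ _ => rfl) p hLB1
    (((helper512.localDatum p q).subgroup K.fixingSubgroup).congr rfl)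
    ((helper512.CharModel.ofChar (cycloChar p)).res _)

/-- The trivial module is a character model of `μ_p` over a subgroup on which the cyclotomic
character is trivial. -/
noncomputable def trivialCharModel {G : Type} [Group G] {χ : G →* (ZMod p)ˣ}
    (hχ : ∀ g, χ g = 1) : helper512.CharModel (Rep.trivial (ZMod p) G (ZMod p)) χ where
  e := LinearEquiv.refl _ _
  map_ρ g a := by
    rw [hχ g]
    simp

/-- **`(LB1)` over a finite extension `K/ℚ_q` containing `μ_p`, trivial coefficients, frozen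
carrier on `↥K.fixingSubgroup`.** -/
theorem finrank_continuousH2_trivial_fixingSubgroup_eq_one
    (K : IntermediateField ℚ_[q] (PadicAlgCl q))
    (hLB1 : helper9554.Stmt_LB1 K (PadicAlgCl q) p)
    (hχ : ∀ u ∈ K.fixingSubgroup, cycloChar p (localGaloisToGlobal q u) = 1) :
    Module.finrank (ZMod p) (continuousH2 ((localGaloisToGlobal q).comp K.fixingSubgroup.subtype)
      (Rep.trivial (ZMod p) ↥K.fixingSubgroup (ZMod p))) = 1 :=
  finrank_continuousH2_eq_one_of_stmt_LB1 (K := K) K.fixingSubgroup.subtype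
    (IntermediateField.fixingSubgroupEquiv K) (fun _ _ => rfl) (fun _ _ => rfl) p hLB1
    ((helper512.localDatum p q).subgroup K.fixingSubgroup)
    (trivialCharModel p fun g => hχ g g.2)

/-- **The `(LB1 r U)` input of LS-L2, finrank form.**  For an open subgroup `U` of the local
Galois group (`U` contains the preimage of a frozen level) on which the cyclotomic character is
trivial, `H²_cont(U, 𝔽_p)` is a line on the frozen carrier. -/
theorem finrank_continuousH2_trivial_eq_one (hLB1 : helper9554.Stmt_LocalLB1 q p)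
    (U : Subgroup (PadicAlgCl q ≃ₐ[ℚ_[q]] PadicAlgCl q))
    (hU : ∃ F : IntermediateField ℚ (AlgebraicClosure ℚ), FiniteDimensional ℚ F ∧
      ∀ g, localGaloisToGlobal q g ∈ F.fixingSubgroup → g ∈ U)
    (hχ : ∀ u ∈ U, cycloChar p (localGaloisToGlobal q u) = 1) :
    Module.finrank (ZMod p) (continuousH2 ((localGaloisToGlobal q).comp U.subtype)
      (Rep.trivial (ZMod p) ↥U (ZMod p))) = 1 := by
  obtain ⟨K, hK, rfl⟩ := exists_fixingSubgroup_eq_of_frozen_open q U hU
  exact finrank_continuousH2_trivial_fixingSubgroup_eq_one q p K (hLB1 K hK) hχ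

/-- **The `(LB1 r U)` input of LS-L2, twisted coefficients.**  For every open subgroup `U` of the
local Galois group, `H²_cont(U, μ_p)` is a line on the frozen carrier. -/
theorem finrank_continuousH2_res_eq_one (hLB1 : helper9554.Stmt_LocalLB1 q p)
    (U : Subgroup (PadicAlgCl q ≃ₐ[ℚ_[q]] PadicAlgCl q))
    (hU : ∃ F : IntermediateField ℚ (AlgebraicClosure ℚ), FiniteDimensional ℚ F ∧
      ∀ g, localGaloisToGlobal q g ∈ F.fixingSubgroup → g ∈ U) :
    Module.finrank (ZMod p) (continuousH2 ((localGaloisToGlobal q).comp U.subtype)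
      (Rep.res ((localGaloisToGlobal q).comp U.subtype)
        (ofChar (k := ZMod p) (cycloChar p)))) = 1 := by
  obtain ⟨K, hK, rfl⟩ := exists_fixingSubgroup_eq_of_frozen_open q U hU
  exact finrank_continuousH2_res_fixingSubgroup_eq_one q p K (hLB1 K hK)

/-- **The `(LB1 r U)` input of LS-L2, invariant-map form** (chat #290/#151): a bijective
(in particular injective, and nonzero) `inv_U : H²_cont(U, 𝔽_p) → 𝔽_p`. -/
theorem exists_inv_trivial (hLB1 : helper9554.Stmt_LocalLB1 q p)
    (U : Subgroup (PadicAlgCl q ≃ₐ[ℚ_[q]] PadicAlgCl q))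
    (hU : ∃ F : IntermediateField ℚ (AlgebraicClosure ℚ), FiniteDimensional ℚ F ∧
      ∀ g, localGaloisToGlobal q g ∈ F.fixingSubgroup → g ∈ U)
    (hχ : ∀ u ∈ U, cycloChar p (localGaloisToGlobal q u) = 1) :
    ∃ inv : continuousH2 ((localGaloisToGlobal q).comp U.subtype)
        (Rep.trivial (ZMod p) ↥U (ZMod p)) →ₗ[ZMod p] ZMod p, Function.Bijective inv :=
  exists_bijective_of_finrank_eq_one (finrank_continuousH2_trivial_eq_one q p hLB1 U hU hχ)

end Consumers

/-! ### The statement `Stmt_LocInv` of the local layer (`helper665_LocalSpec`) -/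

section LocInv

variable (p : ℕ) [Fact p.Prime]

/-- `(LB1)` over `ℚ_q` on the frozen carrier `primeLocalToGlobal q`, finrank form. -/
theorem finrank_continuousH2_primeLocal_eq_one_of_LB1 (q : Nat.Primes)
    (hLB1 : letI : Fact (q : ℕ).Prime := ⟨q.2⟩
      helper9554.Stmt_LB1 ℚ_[(q : ℕ)] (PadicAlgCl (q : ℕ)) p) :
    Module.finrank (ZMod p) (continuousH2 (primeLocalToGlobal q)
      (ofChar (helper665.chiLoc p q))) = 1 := by
  letI : Fact (q : ℕ).Prime := ⟨q.2⟩
  exact finrank_continuousH2_local_eq_one_of_LB1 (q : ℕ) p hLB1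

/-- `(LB1)` over `ℚ_q` on the frozen carrier `primeLocalToGlobal q`, from the local statement of
the LA layer. -/
theorem finrank_continuousH2_primeLocal_eq_one_of_localLB1 (q : Nat.Primes)
    (hLB1 : letI : Fact (q : ℕ).Prime := ⟨q.2⟩
      helper9554.Stmt_LocalLB1 (q : ℕ) p) :
    Module.finrank (ZMod p) (continuousH2 (primeLocalToGlobal q)
      (ofChar (helper665.chiLoc p q))) = 1 := by
  letI : Fact (q : ℕ).Prime := ⟨q.2⟩
  exact finrank_continuousH2_local_eq_one_of_localLB1 (q : ℕ) p hLB1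

/-- **LS-O1.**  `Stmt_LocInv p` from `(LB1)` over `ℚ_q` on the LA carrier (with `K = ℚ_[q]`). -/
theorem stmt_LocInv_of_LB1
    (hLB1 : ∀ q : Nat.Primes, letI : Fact (q : ℕ).Prime := ⟨q.2⟩
      helper9554.Stmt_LB1 ℚ_[(q : ℕ)] (PadicAlgCl (q : ℕ)) p) :
    helper665.Stmt_LocInv p := fun q =>
  exists_bijective_of_finrank_eq_one (finrank_continuousH2_primeLocal_eq_one_of_LB1 p q (hLB1 q))

/-- **LS-O1.**  `Stmt_LocInv p` from the local statement `Stmt_LocalLB1` of the LA layer. -/
theorem stmt_LocInv_of_localLB1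
    (hLB1 : ∀ q : Nat.Primes, letI : Fact (q : ℕ).Prime := ⟨q.2⟩
      helper9554.Stmt_LocalLB1 (q : ℕ) p) :
    helper665.Stmt_LocInv p := fun q =>
  exists_bijective_of_finrank_eq_one
    (finrank_continuousH2_primeLocal_eq_one_of_localLB1 p q (hLB1 q))

end LocInv

end Fermat.Agent.S55.helper2353
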