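/-
S55-TR2 (helper8868): transfer-free Sylow reduction in degrees 1 and 2, cochain level.

If the restriction of a 2-cocycle `f : G × G → A` to a finite-index subgroup `H` is a
coboundary, then `H.index • f` is a coboundary on `G`; moreover the primitive stays
level-constant.  No corestriction map is constructed: we pass to the homogeneous cochain
`F x y z = x • f (x⁻¹ * y, y⁻¹ * z)`, use an `H`-equivariant retraction `G → H`, the prism
homotopy, and average over `G ⧸ H`.
-/
import Mathlib

set_option autoImplicit false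

namespace Fermat.Agent.S55.helper8868

open groupCohomology

section Retraction

variable {G : Type*} [Group G]

/-- An `H`-equivariant retraction `G → H` (for left multiplication). -/
noncomputable def retr (H : Subgroup G) (g : G) : H :=
  ⟨g * (Quotient.out (Quotient.mk (QuotientGroup.rightRel H) g))⁻¹, by
    have h := Quotient.mk_out (s := QuotientGroup.rightRel H) g
    exact QuotientGroup.rightRel_apply.1 h⟩

lemma retr_mul (H : Subgroup G) (h : H) (g : G) : retr H (h * g) = h * retr H g := by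
  have hq : Quotient.mk (QuotientGroup.rightRel H) ((h : G) * g)
      = Quotient.mk (QuotientGroup.rightRel H) g := by
    apply Quotient.sound
    show QuotientGroup.rightRel H _ _
    rw [QuotientGroup.rightRel_apply]
    simp
  apply Subtype.ext
  simp only [retr, hq, Subgroup.coe_mul, mul_assoc]

lemma retr_mul_level (H U : Subgroup G) [hU : U.Normal] (hUH : U ≤ H) (g : G) {s : G}
    (hs : s ∈ U) : ∃ t : H, (t : G) ∈ U ∧ retr H (g * s) = retr H g * t := by
  have hq : Quotient.mk (QuotientGroup.rightRel H) (g * s)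
      = Quotient.mk (QuotientGroup.rightRel H) g := by
    apply Quotient.sound
    show QuotientGroup.rightRel H _ _
    rw [QuotientGroup.rightRel_apply]
    have : g * (g * s)⁻¹ = g * s⁻¹ * g⁻¹ := by group
    rw [this]
    exact hUH (hU.conj_mem _ (U.inv_mem hs) g)
  set r := Quotient.out (Quotient.mk (QuotientGroup.rightRel H) g) with hr
  have hmem : r * s * r⁻¹ ∈ U := hU.conj_mem _ hs r
  refine ⟨⟨r * s * r⁻¹, hUH hmem⟩, hmem, ?_⟩
  apply Subtype.ext
  simp only [retr, hq, Subgroup.coe_mul, ← hr]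
  group

end Retraction

section Homogeneous

variable {G A : Type*} [Group G] [AddCommGroup A] [DistribMulAction G A]

/-- The homogeneous 2-cochain attached to an inhomogeneous one. -/
def hom₂ (f : G × G → A) (x y z : G) : A := x • f (x⁻¹ * y, y⁻¹ * z)

lemma hom₂_smul (f : G × G → A) (g x y z : G) :
    hom₂ f (g * x) (g * y) (g * z) = g • hom₂ f x y z := by
  simp only [hom₂, mul_smul, mul_inv_rev, mul_assoc, inv_mul_cancel_left]

lemma hom₂_one (f : G × G → A) (g h : G) : hom₂ f 1 g (g * h) = f (g, h) := by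
  simp [hom₂]

lemma hom₂_cocycle {f : G × G → A} (hf : IsCocycle₂ f) (x y z w : G) :
    hom₂ f y z w - hom₂ f x z w + hom₂ f x y w - hom₂ f x y z = 0 := by
  have h := hf (x⁻¹ * y) (y⁻¹ * z) (z⁻¹ * w)
  have e1 : x⁻¹ * y * (y⁻¹ * z) = x⁻¹ * z := by group
  have e2 : y⁻¹ * z * (z⁻¹ * w) = y⁻¹ * w := by group
  rw [e1, e2] at h
  have h' := congrArg (fun a => x • a) h
  simp only [smul_add, smul_smul, mul_inv_cancel_left] at h'
  simp only [hom₂]
  rw [sub_eq_zero, sub_add_eq_add_sub, sub_eq_iff_eq_add, add_comm (x • f (x⁻¹ * y, y⁻¹ * z))]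
  rw [add_comm] at h'
  exact h'.symm ▸ (by rw [add_comm])

lemma hom₂_level {f : G × G → A} (U : Subgroup G) [hU : U.Normal]
    (hfU : ∀ g g' : G, ∀ s ∈ U, ∀ s' ∈ U, f (g * s, g' * s') = f (g, g'))
    (x y z : G) {s t : G} (hs : s ∈ U) (ht : t ∈ U) :
    hom₂ f x (y * s) (z * t) = hom₂ f x y z := by
  have e1 : x⁻¹ * (y * s) = x⁻¹ * y * s := by group
  have e2 : (y * s)⁻¹ * (z * t) = y⁻¹ * z * ((y⁻¹ * z)⁻¹ * s⁻¹ * (y⁻¹ * z) * t) := by group
  have hmem : (y⁻¹ * z)⁻¹ * s⁻¹ * (y⁻¹ * z) * t ∈ U := by
    refine U.mul_mem ?_ ht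
    have := hU.conj_mem _ (U.inv_mem hs) (y⁻¹ * z)⁻¹
    simpa using this
  simp only [hom₂]
  rw [e1, e2, hfU _ _ s hs _ hmem]

end Homogeneous

section Transfer

variable {G A : Type*} [Group G] [AddCommGroup A] [DistribMulAction G A]

/-- The `H`-equivariant 1-cochain (homogeneous form) whose coboundary is `hom₂ f`,
built from a primitive `u` of `f` on `H` via the prism homotopy. -/
noncomputable def prim (H : Subgroup G) (f : G × G → A) (u : H → A) (x y : G) : A :=
  (retr H x : G) • u ((retr H x)⁻¹ * retr H y) - hom₂ f x (retr H x) (retr H y)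
    + hom₂ f x y (retr H y)

lemma prim_smul (H : Subgroup G) (f : G × G → A) (u : H → A) (h : H) (x y : G) :
    prim H f u (h * x) (h * y) = (h : G) • prim H f u x y := by
  simp only [prim, retr_mul, Subgroup.coe_mul, hom₂_smul, smul_add, smul_sub, mul_smul,
    mul_inv_rev, mul_assoc, inv_mul_cancel_left]

lemma prim_d (H : Subgroup G) {f : G × G → A} (hf : IsCocycle₂ f) (u : H → A)
    (hu : ∀ a b : H, a • u b - u (a * b) + u a = f (a, b)) (x y z : G) :
    prim H f u y z - prim H f u x z + prim H f u x y = hom₂ f x y z := by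
  have c1 := hom₂_cocycle hf x (retr H x) (retr H y) (retr H z)
  have c2 := hom₂_cocycle hf x y (retr H y) (retr H z)
  have c3 := hom₂_cocycle hf x y z (retr H z)
  have c0 : (retr H y : G) • u ((retr H y)⁻¹ * retr H z)
      - (retr H x : G) • u ((retr H x)⁻¹ * retr H z)
      + (retr H x : G) • u ((retr H x)⁻¹ * retr H y)
      = hom₂ f (retr H x) (retr H y) (retr H z) := by
    have h := hu ((retr H x)⁻¹ * retr H y) ((retr H y)⁻¹ * retr H z)
    have e : (retr H x)⁻¹ * retr H y * ((retr H y)⁻¹ * retr H z)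
        = (retr H x)⁻¹ * retr H z := by group
    rw [e] at h
    have h' := congrArg (fun a => (retr H x : G) • a) h
    simp only [smul_add, smul_sub, Subgroup.smul_def, smul_smul, Subgroup.coe_mul,
      Subgroup.coe_inv, mul_inv_cancel_left] at h'
    simp only [hom₂]
    exact h'
  simp only [prim]
  rw [← sub_eq_zero]
  have e : (retr H y : G) • u ((retr H y)⁻¹ * retr H z) - hom₂ f y (retr H y) (retr H z)
        + hom₂ f y z (retr H z)
      - ((retr H x : G) • u ((retr H x)⁻¹ * retr H z) - hom₂ f x (retr H x) (retr H z)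
        + hom₂ f x z (retr H z))
      + ((retr H x : G) • u ((retr H x)⁻¹ * retr H y) - hom₂ f x (retr H x) (retr H y)
        + hom₂ f x y (retr H y)) - hom₂ f x y z
      = ((retr H y : G) • u ((retr H y)⁻¹ * retr H z)
          - (retr H x : G) • u ((retr H x)⁻¹ * retr H z)
          + (retr H x : G) • u ((retr H x)⁻¹ * retr H y)
          - hom₂ f (retr H x) (retr H y) (retr H z))
        + (hom₂ f (retr H x) (retr H y) (retr H z) - hom₂ f x (retr H y) (retr H z)
          + hom₂ f x (retr H x) (retr H z) - hom₂ f x (retr H x) (retr H y))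
        - (hom₂ f y (retr H y) (retr H z) - hom₂ f x (retr H y) (retr H z)
          + hom₂ f x y (retr H z) - hom₂ f x y (retr H y))
        + (hom₂ f y z (retr H z) - hom₂ f x z (retr H z) + hom₂ f x y (retr H z)
          - hom₂ f x y z) := by abel
  rw [e, c1, c2, c3, c0]
  simp

lemma prim_level (H U : Subgroup G) [hU : U.Normal] (hUH : U ≤ H) {f : G × G → A} {u : H → A}
    (hfU : ∀ g g' : G, ∀ s ∈ U, ∀ s' ∈ U, f (g * s, g' * s') = f (g, g'))
    (huU : ∀ a s : H, (s : G) ∈ U → u (a * s) = u a) (x y : G) {s : G} (hs : s ∈ U) :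
    prim H f u x (y * s) = prim H f u x y := by
  obtain ⟨t, ht, e⟩ := retr_mul_level H U hUH y hs
  simp only [prim, e]
  have h1 : (retr H x)⁻¹ * (retr H y * t) = (retr H x)⁻¹ * retr H y * t := by group
  have h2 := hom₂_level U hfU x (retr H x : G) (retr H y : G) U.one_mem ht
  have h3 := hom₂_level U hfU x y (retr H y : G) hs ht
  rw [mul_one] at h2
  rw [h1, huU _ t ht, Subgroup.coe_mul, h2, h3]

/-- The summand of the averaged cochain, as a function on `G ⧸ H`. -/
noncomputable def avgTerm (H : Subgroup G) (Φ : G → G → A)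
    (hΦ : ∀ (h : H) (x y : G), Φ (h * x) (h * y) = (h : G) • Φ x y) (x y : G) : G ⧸ H → A :=
  fun c => Quotient.liftOn' c (fun k => k • Φ (k⁻¹ * x) (k⁻¹ * y)) (by
    intro k k' hk
    have hmem : k⁻¹ * k' ∈ H := QuotientGroup.leftRel_apply.1 hk
    have e1 : k⁻¹ * x = (⟨k⁻¹ * k', hmem⟩ : H) * (k'⁻¹ * x) := by
      show k⁻¹ * x = k⁻¹ * k' * (k'⁻¹ * x)
      group
    have e2 : k⁻¹ * y = (⟨k⁻¹ * k', hmem⟩ : H) * (k'⁻¹ * y) := by
      show k⁻¹ * y = k⁻¹ * k' * (k'⁻¹ * y)
      group
    show k • Φ (k⁻¹ * x) (k⁻¹ * y) = k' • Φ (k'⁻¹ * x) (k'⁻¹ * y)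
    rw [e1, e2, hΦ, smul_smul]
    congr 1
    show k * (k⁻¹ * k') = k'
    group)

lemma avgTerm_mk (H : Subgroup G) (Φ : G → G → A)
    (hΦ : ∀ (h : H) (x y : G), Φ (h * x) (h * y) = (h : G) • Φ x y) (x y k : G) :
    avgTerm H Φ hΦ x y (k : G ⧸ H) = k • Φ (k⁻¹ * x) (k⁻¹ * y) := rfl

lemma avgTerm_smul (H : Subgroup G) (Φ : G → G → A)
    (hΦ : ∀ (h : H) (x y : G), Φ (h * x) (h * y) = (h : G) • Φ x y) (g x y : G) (c : G ⧸ H) :
    avgTerm H Φ hΦ (g * x) (g * y) c = g • avgTerm H Φ hΦ x y (g⁻¹ • c) := by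
  induction c using QuotientGroup.induction_on with
  | H k =>
    rw [MulAction.Quotient.smul_mk, avgTerm_mk, avgTerm_mk, smul_smul]
    have e1 : k⁻¹ * (g * x) = (g⁻¹ • k)⁻¹ * x := by
      simp only [smul_eq_mul]; group
    have e2 : k⁻¹ * (g * y) = (g⁻¹ • k)⁻¹ * y := by
      simp only [smul_eq_mul]; group
    have e3 : g * g⁻¹ • k = k := by simp only [smul_eq_mul]; group
    rw [e1, e2, e3]

/-- **Transfer-free Sylow reduction in degree 2.** If a 2-cocycle `f` on `G` restricts to a
coboundary `d u` on a finite-index subgroup `H`, then `H.index • f` is a coboundary `d v` on `G`.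
Moreover `v` is right-invariant under every normal subgroup `U ≤ H` of `G` under which `f` and
`u` are right-invariant (level clause). -/
theorem index_smul_isCoboundary₂_of_res (H : Subgroup G) [H.FiniteIndex] (f : G × G → A)
    (hf : IsCocycle₂ f) (u : H → A) (hu : ∀ a b : H, a • u b - u (a * b) + u a = f (a, b)) :
    ∃ v : G → A, (∀ g h : G, g • v h - v (g * h) + v g = H.index • f (g, h)) ∧
      ∀ U : Subgroup G, U.Normal → U ≤ H →
        (∀ g g' : G, ∀ s ∈ U, ∀ s' ∈ U, f (g * s, g' * s') = f (g, g')) →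
        (∀ a s : H, (s : G) ∈ U → u (a * s) = u a) → ∀ g : G, ∀ s ∈ U, v (g * s) = v g := by
  classical
  let _ : Fintype (G ⧸ H) := Fintype.ofFinite _
  have hΦ : ∀ (h : H) (x y : G), prim H f u (h * x) (h * y) = (h : G) • prim H f u x y :=
    prim_smul H f u
  set V : G → G → A := fun x y => ∑ c : G ⧸ H, avgTerm H (prim H f u) hΦ x y c with hV
  have hVsmul : ∀ g x y : G, V (g * x) (g * y) = g • V x y := by
    intro g x y
    simp only [hV, Finset.smul_sum]
    rw [Finset.sum_congr rfl (fun c _ => avgTerm_smul H (prim H f u) hΦ g x y c)]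
    exact Equiv.sum_comp (MulAction.toPerm g⁻¹ : G ⧸ H ≃ G ⧸ H)
      (fun d => g • avgTerm H (prim H f u) hΦ x y d)
  have hVd : ∀ x y z : G, V y z - V x z + V x y = H.index • hom₂ f x y z := by
    intro x y z
    simp only [hV]
    rw [← Finset.sum_sub_distrib, ← Finset.sum_add_distrib]
    have : ∀ c : G ⧸ H, avgTerm H (prim H f u) hΦ y z c - avgTerm H (prim H f u) hΦ x z c
        + avgTerm H (prim H f u) hΦ x y c = hom₂ f x y z := by
      intro c
      induction c using QuotientGroup.induction_on with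
      | H k =>
        simp only [avgTerm_mk]
        rw [← smul_sub, ← smul_add, prim_d H hf u hu, ← hom₂_smul]
        simp
    rw [Finset.sum_congr rfl fun c _ => this c, Finset.sum_const, Finset.card_univ,
      Subgroup.index_eq_card, Nat.card_eq_fintype_card]
  refine ⟨fun g => V 1 g, fun g h => ?_, ?_⟩
  · have h1 := hVd 1 g (g * h)
    rw [hom₂_one] at h1
    have h2 := hVsmul g 1 h
    rw [mul_one] at h2
    rw [← h1, h2]
  · intro U hU hUH hfU huU g s hs
    simp only [hV]
    refine Finset.sum_congr rfl fun c _ => ?_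
    induction c using QuotientGroup.induction_on with
    | H k =>
      simp only [avgTerm_mk]
      rw [← mul_assoc, prim_level H U hUH hfU huU _ _ hs]

/-- Coprime-index corollary: if moreover `p • a = 0` for all `a : A` and `H.index` is prime
to `p`, then `f` itself is a coboundary, with the same level clause. -/
theorem exists_primitive₂_of_res_of_coprime (H : Subgroup G) [H.FiniteIndex] {p : ℕ}
    (hcop : Nat.Coprime H.index p) (hA : ∀ a : A, p • a = 0) (f : G × G → A)
    (hf : IsCocycle₂ f) (u : H → A) (hu : ∀ a b : H, a • u b - u (a * b) + u a = f (a, b)) :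
    ∃ v : G → A, (∀ g h : G, g • v h - v (g * h) + v g = f (g, h)) ∧
      ∀ U : Subgroup G, U.Normal → U ≤ H →
        (∀ g g' : G, ∀ s ∈ U, ∀ s' ∈ U, f (g * s, g' * s') = f (g, g')) →
        (∀ a s : H, (s : G) ∈ U → u (a * s) = u a) → ∀ g : G, ∀ s ∈ U, v (g * s) = v g := by
  obtain ⟨v, hv, hlev⟩ := index_smul_isCoboundary₂_of_res H f hf u hu
  obtain ⟨m, n, hmn⟩ := (Nat.isCoprime_iff_coprime.2 hcop)
  refine ⟨fun g => m • v g, fun g h => ?_, fun U hU hUH hfU huU g s hs => ?_⟩
  · have h1 : g • (m • v h) = m • (g • v h) :=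
      map_zsmul (DistribSMul.toAddMonoidHom A g) m (v h)
    have h2 : (n * (p : ℤ)) • f (g, h) = 0 := by
      rw [mul_smul, natCast_zsmul, hA, smul_zero]
    calc g • (m • v h) - m • v (g * h) + m • v g
        = m • (g • v h - v (g * h) + v g) := by rw [h1, smul_add, smul_sub]
      _ = (m * (H.index : ℤ)) • f (g, h) := by rw [hv, mul_smul, natCast_zsmul]
      _ = (m * (H.index : ℤ) + n * (p : ℤ)) • f (g, h) := by rw [add_smul, h2, add_zero]
      _ = f (g, h) := by rw [hmn, one_smul]
  · show m • v (g * s) = m • v g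
    rw [hlev U hU hUH hfU huU g s hs]

/-- `IsCoboundary₂` form of `index_smul_isCoboundary₂_of_res`. -/
theorem isCoboundary₂_index_smul (H : Subgroup G) [H.FiniteIndex] {f : G × G → A}
    (hf : IsCocycle₂ f) (hres : IsCoboundary₂ (fun q : H × H => f ((q.1 : G), (q.2 : G)))) :
    IsCoboundary₂ (H.index • f) := by
  obtain ⟨u, hu⟩ := hres
  obtain ⟨v, hv, -⟩ := index_smul_isCoboundary₂_of_res H f hf u hu
  exact ⟨v, fun g h => by rw [hv]; rfl⟩

/-- `IsCoboundary₂` form of `exists_primitive₂_of_res_of_coprime`. -/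
theorem isCoboundary₂_of_res_of_coprime (H : Subgroup G) [H.FiniteIndex] {p : ℕ}
    (hcop : Nat.Coprime H.index p) (hA : ∀ a : A, p • a = 0) {f : G × G → A}
    (hf : IsCocycle₂ f) (hres : IsCoboundary₂ (fun q : H × H => f ((q.1 : G), (q.2 : G)))) :
    IsCoboundary₂ f := by
  obtain ⟨u, hu⟩ := hres
  obtain ⟨v, hv, -⟩ := exists_primitive₂_of_res_of_coprime H hcop hA f hf u hu
  exact ⟨v, hv⟩

end Transfer

section TransferOne

variable {G A : Type*} [Group G] [AddCommGroup A] [DistribMulAction G A]

/-- **Degree-1 twin.** If a 1-cocycle `c` on `G` restricts to the coboundary of `a` on a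
finite-index subgroup `H`, then `H.index • c` is a coboundary on `G`. -/
theorem index_smul_isCoboundary₁_of_res (H : Subgroup G) [H.FiniteIndex] (c : G → A)
    (hc : IsCocycle₁ c) (a : A) (ha : ∀ h : H, h • a - a = c h) :
    ∃ b : A, ∀ g : G, g • b - b = H.index • c g := by
  classical
  let _ : Fintype (G ⧸ H) := Fintype.ofFinite _
  -- homogeneous form `C x y = x • c (x⁻¹ * y)`
  set C : G → G → A := fun x y => x • c (x⁻¹ * y) with hC
  have hCsmul : ∀ g x y : G, C (g * x) (g * y) = g • C x y := by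
    intro g x y
    simp only [hC, mul_smul, mul_inv_rev, mul_assoc, inv_mul_cancel_left]
  have hCadd : ∀ x y z : G, C x z = C x y + C y z := by
    intro x y z
    have h := hc (x⁻¹ * y) (y⁻¹ * z)
    have e : x⁻¹ * y * (y⁻¹ * z) = x⁻¹ * z := by group
    rw [e] at h
    simp only [hC, h, smul_add, smul_smul, mul_inv_cancel_left]
    rw [add_comm]
  have hCH : ∀ h h' : H, C h h' = (h' : G) • a - (h : G) • a := by
    intro h h'
    have e := ha (h⁻¹ * h')
    simp only [Subgroup.smul_def, Subgroup.coe_mul, Subgroup.coe_inv] at e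
    simp only [hC]
    rw [← e, smul_sub, smul_smul, mul_inv_cancel_left]
  set φ : G → G → A := fun _ y => (retr H y : G) • a + C (retr H y) y with hφ
  have hφsmul : ∀ (h : H) (x y : G), φ (h * x) (h * y) = (h : G) • φ x y := by
    intro h x y
    simp only [hφ, retr_mul, Subgroup.coe_mul, hCsmul, smul_add, mul_smul]
  have hφd : ∀ x y : G, φ 1 y - φ 1 x = C x y := by
    intro x y
    simp only [hφ]
    have e1 := hCH (retr H x) (retr H y)
    have e2 := hCadd (retr H x) (retr H y) y
    have e3 := hCadd (retr H x) x y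
    have : (retr H y : G) • a + C (retr H y) y - ((retr H x : G) • a + C (retr H x) x)
        = ((retr H y : G) • a - (retr H x : G) • a) + C (retr H y) y - C (retr H x) x := by abel
    rw [this, ← e1, ← e2, e3]
    abel
  have hφ1 : ∀ x x' y : G, φ x y = φ x' y := fun _ _ _ => rfl
  set W : G → A := fun y => ∑ d : G ⧸ H, avgTerm H φ hφsmul 1 y d with hW
  have hterm1 : ∀ (x x' y : G) (d : G ⧸ H), avgTerm H φ hφsmul x y d = avgTerm H φ hφsmul x' y d := by
    intro x x' y d
    induction d using QuotientGroup.induction_on with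
    | H k => rfl
  have hWsmul : ∀ g y : G, W (g * y) = g • W y := by
    intro g y
    simp only [hW, Finset.smul_sum]
    rw [Finset.sum_congr rfl (fun d _ => (hterm1 1 (g * 1) (g * y) d).trans
      (avgTerm_smul H φ hφsmul g 1 y d))]
    exact Equiv.sum_comp (MulAction.toPerm g⁻¹ : G ⧸ H ≃ G ⧸ H)
      (fun d => g • avgTerm H φ hφsmul 1 y d)
  have hWd : ∀ x y : G, W y - W x = H.index • C x y := by
    intro x y
    simp only [hW]
    rw [← Finset.sum_sub_distrib]
    have : ∀ d : G ⧸ H, avgTerm H φ hφsmul 1 y d - avgTerm H φ hφsmul 1 x d = C x y := by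
      intro d
      induction d using QuotientGroup.induction_on with
      | H k =>
        simp only [avgTerm_mk]
        rw [← smul_sub, hφ1 (k⁻¹ * 1) 1 (k⁻¹ * y), hφ1 (k⁻¹ * 1) 1 (k⁻¹ * x), hφd, ← hCsmul]
        simp
    rw [Finset.sum_congr rfl fun d _ => this d, Finset.sum_const, Finset.card_univ,
      Subgroup.index_eq_card, Nat.card_eq_fintype_card]
  refine ⟨W 1, fun g => ?_⟩
  have h1 := hWd 1 g
  have h2 := hWsmul g 1
  rw [mul_one] at h2
  rw [← h2, h1]
  simp [hC]

/-- Coprime-index corollary in degree 1. -/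
theorem isCoboundary₁_of_res_of_coprime (H : Subgroup G) [H.FiniteIndex] {p : ℕ}
    (hcop : Nat.Coprime H.index p) (hA : ∀ a : A, p • a = 0) {c : G → A}
    (hc : IsCocycle₁ c) (hres : IsCoboundary₁ (fun h : H => c (h : G))) :
    IsCoboundary₁ c := by
  obtain ⟨a, ha⟩ := hres
  obtain ⟨b, hb⟩ := index_smul_isCoboundary₁_of_res H c hc a ha
  obtain ⟨m, n, hmn⟩ := (Nat.isCoprime_iff_coprime.2 hcop)
  refine ⟨m • b, fun g => ?_⟩
  have h1 : g • (m • b) = m • (g • b) := map_zsmul (DistribSMul.toAddMonoidHom A g) m b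
  have h2 : (n * (p : ℤ)) • c g = 0 := by
    rw [mul_smul, natCast_zsmul, hA, smul_zero]
  calc g • (m • b) - m • b = m • (g • b - b) := by rw [h1, smul_sub]
    _ = (m * (H.index : ℤ)) • c g := by rw [hb, mul_smul, natCast_zsmul]
    _ = (m * (H.index : ℤ) + n * (p : ℤ)) • c g := by rw [add_smul, h2, add_zero]
    _ = c g := by rw [hmn, one_smul]

end TransferOne

section Mul

variable {G M : Type*} [Group G] [CommGroup M] [MulDistribMulAction G M]

/-- The additive action on `Additive M` induced by a multiplicative distributive action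
(used only locally inside proofs). -/
@[reducible] def additiveAction (G M : Type*) [Group G] [CommGroup M] [MulDistribMulAction G M] :
    DistribMulAction G (Additive M) where
  smul g m := Additive.ofMul (g • Additive.toMul m)
  one_smul m := by
    show Additive.ofMul ((1 : G) • Additive.toMul m) = m
    rw [one_smul]; rfl
  mul_smul g h m := by
    show Additive.ofMul ((g * h) • Additive.toMul m) = Additive.ofMul (g • (h • Additive.toMul m))
    rw [mul_smul]
  smul_zero g := by
    show Additive.ofMul (g • (1 : M)) = 0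
    rw [smul_one]; rfl
  smul_add g m n := by
    show Additive.ofMul (g • (Additive.toMul m * Additive.toMul n)) = _
    rw [smul_mul']; rfl

/-- **Multiplicative twin of the degree-2 transfer-free Sylow reduction** (e.g. `M = Lˣ`). -/
theorem index_pow_isMulCoboundary₂_of_res (H : Subgroup G) [H.FiniteIndex] (f : G × G → M)
    (hf : IsMulCocycle₂ f) (u : H → M)
    (hu : ∀ a b : H, (a : G) • u b / u (a * b) * u a = f (a, b)) :
    ∃ v : G → M, (∀ g h : G, g • v h / v (g * h) * v g = f (g, h) ^ H.index) ∧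
      ∀ U : Subgroup G, U.Normal → U ≤ H →
        (∀ g g' : G, ∀ s ∈ U, ∀ s' ∈ U, f (g * s, g' * s') = f (g, g')) →
        (∀ a s : H, (s : G) ∈ U → u (a * s) = u a) → ∀ g : G, ∀ s ∈ U, v (g * s) = v g := by
  let _ : DistribMulAction G (Additive M) := additiveAction G M
  have hf' : IsCocycle₂ (fun q : G × G => Additive.ofMul (f q)) := fun g h j =>
    congrArg Additive.ofMul (hf g h j)
  have hu' : ∀ a b : H, a • Additive.ofMul (u b) - Additive.ofMul (u (a * b))
      + Additive.ofMul (u a) = Additive.ofMul (f (a, b)) := fun a b =>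
    congrArg Additive.ofMul (hu a b)
  obtain ⟨v, hv, hlev⟩ := index_smul_isCoboundary₂_of_res H
    (fun q : G × G => Additive.ofMul (f q)) hf' (fun a => Additive.ofMul (u a)) hu'
  refine ⟨fun g => Additive.toMul (v g), fun g h => ?_, fun U hU hUH hfU huU g s hs => ?_⟩
  · have := congrArg Additive.toMul (hv g h)
    rw [toMul_nsmul] at this
    exact this
  · exact congrArg Additive.toMul (hlev U hU hUH
      (fun g g' s hs s' hs' => congrArg Additive.ofMul (hfU g g' s hs s' hs'))
      (fun a s hs => congrArg Additive.ofMul (huU a s hs)) g s hs)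

/-- `IsMulCoboundary₂` form. -/
theorem isMulCoboundary₂_index_pow (H : Subgroup G) [H.FiniteIndex] {f : G × G → M}
    (hf : IsMulCocycle₂ f)
    (hres : IsMulCoboundary₂ (fun q : H × H => f ((q.1 : G), (q.2 : G)))) :
    IsMulCoboundary₂ (fun q : G × G => f q ^ H.index) := by
  obtain ⟨u, hu⟩ := hres
  obtain ⟨v, hv, -⟩ := index_pow_isMulCoboundary₂_of_res H f hf u hu
  exact ⟨v, hv⟩

/-- Coprime-index corollary, multiplicative form: if `f ^ p` is a coboundary, `f` restricted
to `H` is a coboundary and `H.index` is prime to `p`, then `f` is a coboundary. -/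
theorem isMulCoboundary₂_of_res_of_coprime (H : Subgroup G) [H.FiniteIndex] {p : ℕ}
    (hcop : Nat.Coprime H.index p) {f : G × G → M} (hf : IsMulCocycle₂ f)
    (hp : IsMulCoboundary₂ (fun q : G × G => f q ^ p))
    (hres : IsMulCoboundary₂ (fun q : H × H => f ((q.1 : G), (q.2 : G)))) :
    IsMulCoboundary₂ f := by
  obtain ⟨v, hv⟩ := isMulCoboundary₂_index_pow H hf hres
  obtain ⟨w, hw⟩ := hp
  obtain ⟨m, n, hmn⟩ := (Nat.isCoprime_iff_coprime.2 hcop)
  refine ⟨fun g => v g ^ m * w g ^ n, fun g h => ?_⟩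
  have h1 : g • (v h ^ m * w h ^ n) = (g • v h) ^ m * (g • w h) ^ n := by
    rw [smul_mul', smul_zpow', smul_zpow']
  have h2 := hv g h
  have h3 := hw g h
  simp only at h2 h3
  calc g • (v h ^ m * w h ^ n) / (v (g * h) ^ m * w (g * h) ^ n) * (v g ^ m * w g ^ n)
      = (g • v h / v (g * h) * v g) ^ m * (g • w h / w (g * h) * w g) ^ n := by
        rw [h1, mul_zpow, mul_zpow, div_zpow, div_zpow]
        rw [div_eq_mul_inv, div_eq_mul_inv, div_eq_mul_inv, mul_inv]
        simp only [mul_assoc, mul_comm, mul_left_comm]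
    _ = f (g, h) := by
        rw [h2, h3, ← zpow_natCast, ← zpow_natCast, ← zpow_mul, ← zpow_mul, ← zpow_add,
          mul_comm (H.index : ℤ), mul_comm (p : ℤ), hmn, zpow_one]

end Mul

section MathlibH2

universe u

variable {k G : Type u} [CommRing k] [Group G]

open CategoryTheory

/-- **Mathlib `H2` form.** If the restriction of `x : H²(G, A)` to a finite-index subgroup `H`
vanishes, then `(H.index : k) • x = 0`. -/
theorem index_smul_eq_zero_of_res_eq_zero (A : Rep k G) (H : Subgroup G) [H.FiniteIndex]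
    (x : H2 A) (hx : (groupCohomology.map H.subtype (𝟙 (Rep.res H.subtype A)) 2).hom x = 0) :
    (H.index : k) • x = 0 := by
  induction x using H2_induction_on with
  | h f =>
    have h1 : (groupCohomology.map H.subtype (𝟙 (Rep.res H.subtype A)) 2).hom (H2π A f)
        = H2π (Rep.res H.subtype A) (mapCocycles₂ H.subtype (𝟙 (Rep.res H.subtype A)) f) :=
      H2π_comp_map_apply (A := A) (B := Rep.res H.subtype A) H.subtype (𝟙 _) f
    rw [h1, H2π_eq_zero_iff] at hx
    obtain ⟨u, hu⟩ := hx
    let _ : DistribMulAction G A :=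
      { smul := fun g a => A.ρ g a
        one_smul := fun a => by show A.ρ 1 a = a; simp
        mul_smul := fun g h a => by show A.ρ (g * h) a = A.ρ g (A.ρ h a); simp
        smul_zero := fun g => by show A.ρ g 0 = 0; simp
        smul_add := fun g a b => by show A.ρ g (a + b) = A.ρ g a + A.ρ g b; simp }
    have hf : IsCocycle₂ (f : G × G → A) := (mem_cocycles₂_iff _).1 f.2
    have hu' : ∀ a b : H, a • u b - u (a * b) + u a = (f : G × G → A) (a, b) := by
      intro a b
      exact congrFun hu (a, b)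
    obtain ⟨v, hv, -⟩ := index_smul_isCoboundary₂_of_res H (f : G × G → A) hf u hu'
    rw [← map_smul, H2π_eq_zero_iff]
    refine ⟨v, ?_⟩
    ext ⟨g, h⟩
    have := hv g h
    show A.ρ g (v h) - v (g * h) + v g = ((H.index : k) • (f : G × G → A)) (g, h)
    rw [Pi.smul_apply, Nat.cast_smul_eq_nsmul]
    exact this

/-- If `(H.index : k)` is a unit, restriction `H²(G, A) → H²(H, A)` is injective. -/
theorem res₂_injective_of_isUnit_index (A : Rep k G) (H : Subgroup G) [H.FiniteIndex]
    (hidx : IsUnit (H.index : k)) :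
    Function.Injective (groupCohomology.map H.subtype (𝟙 (Rep.res H.subtype A)) 2).hom := by
  rw [injective_iff_map_eq_zero]
  intro x hx
  have h := index_smul_eq_zero_of_res_eq_zero A H x hx
  obtain ⟨c, hc⟩ := hidx
  have : (c⁻¹ : kˣ) • ((H.index : k) • x) = x := by
    rw [← hc, Units.smul_def, smul_smul, Units.inv_mul, one_smul]
  rw [← this, h, smul_zero]

end MathlibH2

end Fermat.Agent.S55.helper8868
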