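/-
S55-TR2 (helper8868), part 2: level-family form and the frozen-carrier adapter.

* `exists_level_primitive₂_of_res`: for a directed family `𝓛` of subgroups of `G` with normal
  refinements ("levels"), a finite-index subgroup `H` containing a level, and coefficients in a
  `k`-module on which `(H.index : k)` is invertible: a level-constant 2-cocycle on `G` whose
  restriction to `H` is the coboundary of a level-constant cochain is the coboundary of a
  level-constant cochain on `G`.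
* `continuousH2Map_subtype_injective`: on the frozen carriers, restriction
  `continuousH2 r M → continuousH2 (r.comp H.subtype) (Rep.res H.subtype M)` to an open subgroup
  `H` of finite index with `(H.index : k)` a unit is injective.
-/
import Mathlib
import Fermat.Prelude.Def_GroupCohomology_ContinuousH2Map
import Fermat.Agent.S55.helper8868_Transfer

set_option autoImplicit false

namespace Fermat.Agent.S55.helper8868

open groupCohomology

section LevelFamily

variable {G A k : Type*} [Group G] [AddCommGroup A] [DistribMulAction G A] [CommRing k]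
  [Module k A] [SMulCommClass G k A]

/-- **Level-family form of the Sylow reduction.** -/
theorem exists_level_primitive₂_of_res (𝓛 : Set (Subgroup G))
    (hdir : ∀ U ∈ 𝓛, ∀ V ∈ 𝓛, ∃ W ∈ 𝓛, W ≤ U ⊓ V)
    (hnorm : ∀ U ∈ 𝓛, ∃ W ∈ 𝓛, W ≤ U ∧ W.Normal)
    (H : Subgroup G) [H.FiniteIndex] (hH : ∃ U ∈ 𝓛, U ≤ H) (hidx : IsUnit (H.index : k))
    (f : G × G → A) (hf : IsCocycle₂ f)
    (hfl : ∃ U ∈ 𝓛, ∀ g g' : G, ∀ s ∈ U, ∀ s' ∈ U, f (g * s, g' * s') = f (g, g'))
    (u : H → A) (hu : ∀ a b : H, a • u b - u (a * b) + u a = f (a, b))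
    (hul : ∃ U ∈ 𝓛, ∀ a s : H, (s : G) ∈ U → u (a * s) = u a) :
    ∃ v : G → A, (∀ g h : G, g • v h - v (g * h) + v g = f (g, h)) ∧
      ∃ U ∈ 𝓛, ∀ g : G, ∀ s ∈ U, v (g * s) = v g := by
  obtain ⟨U₀, hU₀, hU₀H⟩ := hH
  obtain ⟨U₁, hU₁, hfU₁⟩ := hfl
  obtain ⟨U₂, hU₂, huU₂⟩ := hul
  obtain ⟨W₁, hW₁, hW₁le⟩ := hdir U₀ hU₀ U₁ hU₁
  obtain ⟨W₂, hW₂, hW₂le⟩ := hdir W₁ hW₁ U₂ hU₂
  obtain ⟨W, hW, hWle, hWn⟩ := hnorm W₂ hW₂
  have hWU₀ : W ≤ U₀ := hWle.trans (hW₂le.trans inf_le_left |>.trans (hW₁le.trans inf_le_left))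
  have hWU₁ : W ≤ U₁ := hWle.trans (hW₂le.trans inf_le_left |>.trans (hW₁le.trans inf_le_right))
  have hWU₂ : W ≤ U₂ := hWle.trans (hW₂le.trans inf_le_right)
  obtain ⟨v, hv, hlev⟩ := index_smul_isCoboundary₂_of_res H f hf u hu
  have hvW := hlev W hWn (hWU₀.trans hU₀H)
    (fun g g' s hs s' hs' => hfU₁ g g' s (hWU₁ hs) s' (hWU₁ hs'))
    (fun a s hs => huU₂ a s (hWU₂ hs))
  obtain ⟨c, hc⟩ := hidx
  refine ⟨fun g => (↑c⁻¹ : k) • v g, fun g h => ?_, W, hW, fun g s hs => ?_⟩
  · have h1 : g • ((↑c⁻¹ : k) • v h) = (↑c⁻¹ : k) • (g • v h) := smul_comm _ _ _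
    rw [h1, ← smul_sub, ← smul_add, hv, ← Nat.cast_smul_eq_nsmul k, ← hc, smul_smul,
      Units.inv_mul, one_smul]
  · show (↑c⁻¹ : k) • v (g * s) = (↑c⁻¹ : k) • v g
    rw [hvW g s hs]

end LevelFamily

section Frozen

universe u

variable {k : Type u} [CommRing k] {G : Type u} [Group G]
  (r : G →* (AlgebraicClosure ℚ ≃ₐ[ℚ] AlgebraicClosure ℚ))

/-- The family of "levels" of the frozen predicate `IsLevelConstant₁ r`: preimages under `r` of
the fixing subgroups of finite extensions of `ℚ`. -/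
def levelFamily : Set (Subgroup G) :=
  {U | ∃ F : IntermediateField ℚ (AlgebraicClosure ℚ), FiniteDimensional ℚ F ∧
    U = F.fixingSubgroup.comap r}

lemma levelFamily_directed : ∀ U ∈ levelFamily r, ∀ V ∈ levelFamily r,
    ∃ W ∈ levelFamily r, W ≤ U ⊓ V := by
  rintro U ⟨F, hF, rfl⟩ V ⟨F', hF', rfl⟩
  have := hF; have := hF'
  refine ⟨(F ⊔ F').fixingSubgroup.comap r, ⟨F ⊔ F', inferInstance, rfl⟩, ?_⟩
  intro g hg
  exact ⟨IntermediateField.fixingSubgroup_antitone le_sup_left hg,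
    IntermediateField.fixingSubgroup_antitone le_sup_right hg⟩

lemma levelFamily_normal : ∀ U ∈ levelFamily r, ∃ W ∈ levelFamily r, W ≤ U ∧ W.Normal := by
  rintro U ⟨F, hF, rfl⟩
  have : Algebra.IsAlgebraic ℚ (AlgebraicClosure ℚ) := AlgebraicClosure.isAlgebraic ℚ
  have : IsAlgClosure ℚ (AlgebraicClosure ℚ) := ⟨inferInstance, inferInstance⟩
  have : Normal ℚ (AlgebraicClosure ℚ) := IsAlgClosure.normal ℚ (AlgebraicClosure ℚ)
  have : IsGalois ℚ (AlgebraicClosure ℚ) := ⟨⟩
  have hNfd : FiniteDimensional ℚ (IntermediateField.normalClosure ℚ F (AlgebraicClosure ℚ)) :=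
    inferInstance
  have hNn : Normal ℚ (IntermediateField.normalClosure ℚ F (AlgebraicClosure ℚ)) :=
    normalClosure.normal ℚ F (AlgebraicClosure ℚ)
  have hNg : IsGalois ℚ (IntermediateField.normalClosure ℚ F (AlgebraicClosure ℚ)) := ⟨⟩
  have hNnormal :
      (IntermediateField.normalClosure ℚ F (AlgebraicClosure ℚ)).fixingSubgroup.Normal :=
    inferInstance
  refine ⟨(IntermediateField.normalClosure ℚ F (AlgebraicClosure ℚ)).fixingSubgroup.comap r,
    ⟨_, hNfd, rfl⟩, ?_, hNnormal.comap r⟩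
  intro g hg
  exact IntermediateField.fixingSubgroup_antitone F.le_normalClosure hg

lemma isLevelConstant₁_iff_levelFamily {X : Type*} (x : G → X) :
    IsLevelConstant₁ r x ↔ ∃ U ∈ levelFamily r, ∀ g : G, ∀ s ∈ U, x (g * s) = x g := by
  constructor
  · rintro ⟨F, hF, h⟩
    exact ⟨F.fixingSubgroup.comap r, ⟨F, hF, rfl⟩, fun g s hs => h g s hs⟩
  · rintro ⟨U, ⟨F, hF, rfl⟩, h⟩
    exact ⟨F, hF, fun g s hs => h g s hs⟩

lemma isLevelConstant₂_iff_levelFamily {X : Type*} (x : G × G → X) :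
    IsLevelConstant₂ r x ↔ ∃ U ∈ levelFamily r, ∀ g g' : G, ∀ s ∈ U, ∀ s' ∈ U,
      x (g * s, g' * s') = x (g, g') := by
  constructor
  · rintro ⟨F, hF, h⟩
    exact ⟨F.fixingSubgroup.comap r, ⟨F, hF, rfl⟩, fun g g' s hs s' hs' => h g g' s s' hs hs'⟩
  · rintro ⟨U, ⟨F, hF, rfl⟩, h⟩
    exact ⟨F, hF, fun g g' s s' hs hs' => h g g' s hs s' hs'⟩

/-- **Frozen-carrier form.** Restriction of `continuousH2 r M` to an open subgroup `H` of finite
index such that `(H.index : k)` is a unit is injective. -/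
theorem continuousH2Map_subtype_injective (M : Rep k G) (H : Subgroup G) [H.FiniteIndex]
    (hopen : ∃ F : IntermediateField ℚ (AlgebraicClosure ℚ), FiniteDimensional ℚ F ∧
      ∀ g : G, r g ∈ F.fixingSubgroup → g ∈ H)
    (hidx : IsUnit (H.index : k)) :
    Function.Injective (continuousH2Map (rH := r) (rG := r.comp H.subtype)
      (A := M) (B := Rep.res H.subtype M) H.subtype
      (fun _ => rfl) (LinearMap.id : M →ₗ[k] Rep.res H.subtype M) (fun _ _ => rfl)) := by
  rw [injective_iff_map_eq_zero]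
  intro x hx
  induction x using Submodule.Quotient.induction_on with
  | H f =>
    rw [← Submodule.mkQ_apply, continuousH2Map_continuousH2π, continuousH2π_eq_zero_iff] at hx
    obtain ⟨u, hul, hu⟩ := (mem_levelCoboundaries₂_iff _ _ _).1 hx
    have hfl : IsLevelConstant₂ r (f : G × G → M) := f.2.2
    let _ : DistribMulAction G M :=
      { smul := fun g a => M.ρ g a
        one_smul := fun a => by show M.ρ 1 a = a; simp
        mul_smul := fun g h a => by show M.ρ (g * h) a = M.ρ g (M.ρ h a); simp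
        smul_zero := fun g => by show M.ρ g 0 = 0; simp
        smul_add := fun g a b => by show M.ρ g (a + b) = M.ρ g a + M.ρ g b; simp }
    have : SMulCommClass G k M := ⟨fun g c a => by
      show M.ρ g (c • a) = c • M.ρ g a
      rw [map_smul]⟩
    have hf : IsCocycle₂ (f : G × G → M) := (mem_cocycles₂_iff _).1 f.2.1
    have hu' : ∀ a b : H, a • u b - u (a * b) + u a = (f : G × G → M) (a, b) := fun a b =>
      congrFun hu (a, b)
    have hH : ∃ U ∈ levelFamily r, U ≤ H := by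
      obtain ⟨F, hF, h⟩ := hopen
      exact ⟨F.fixingSubgroup.comap r, ⟨F, hF, rfl⟩, fun g hg => h g hg⟩
    have hul' : ∃ U ∈ levelFamily r, ∀ a s : H, (s : G) ∈ U → u (a * s) = u a := by
      obtain ⟨F, hF, h⟩ := hul
      exact ⟨F.fixingSubgroup.comap r, ⟨F, hF, rfl⟩, fun a s hs => h a s hs⟩
    obtain ⟨v, hv, hvl⟩ := exists_level_primitive₂_of_res (k := k) (levelFamily r)
      (levelFamily_directed r) (levelFamily_normal r) H hH hidx (f : G × G → M) hf
      ((isLevelConstant₂_iff_levelFamily r _).1 hfl) u hu' hul'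
    rw [← Submodule.mkQ_apply]
    show continuousH2π r M f = 0
    rw [continuousH2π_eq_zero_iff, mem_levelCoboundaries₂_iff]
    refine ⟨v, (isLevelConstant₁_iff_levelFamily r v).2 hvl, ?_⟩
    ext ⟨g, h⟩
    exact hv g h

end Frozen

end Fermat.Agent.S55.helper8868
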