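/-
S55 (Poitou–Tate), LOCAL layer, part of the `(LB1)` assembly (leaf LA-LB1, helper2353 = backup).

THE REDUCTION TO `μ_p ⊆ K`:  `helper9554.Stmt_LB1_line K (PadicAlgCl l) p` for an arbitrary
finite `K/ℚ_l` follows from the same statement for `K(ζ_p)`, by the prime-to-`p` transfer
(restriction to an open subgroup of index prime to `p` is injective on the frozen `continuousH2`,
`helper8868.continuousH2Map_subtype_injective`).

* Part 1: for every carrier `(H, ι, e)` of `K` (as in `helper2353_LB1Frozen`, Part 1) and every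
  character model `A` of `μ_p`:
  `Stmt_LB1_line K Ω p ↔ IsLine (ZMod p) (continuousH2 (r.comp ι) A)`,
  `Stmt_LB1_ne K Ω p ↔ ∃ c : continuousH2 (r.comp ι) A, c ≠ 0`.
* Part 2: `stmt_LB1_line_of_zeta`, `stmt_LocalLB1_line_of_zeta`, `stmt_LocalLB1_of`.
-/
import Mathlib
import Fermat.Prelude.Def_GroupCohomology_ContinuousUnramified
import Fermat.Agent.S55.helper8868_TransferLevel
import Fermat.Agent.S55.helper2353_LB1Frozen

set_option autoImplicit false
set_option linter.unusedSectionVars false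
set_option linter.style.haveILetI false

open groupCohomology ExtCitation

namespace Fermat.Agent.S55.helper2353

/-- A module in which every nonzero vector spans ("of dimension at most one"). -/
def IsLine (k V : Type*) [Semiring k] [AddCommMonoid V] [Module k V] : Prop :=
  ∀ c₁ c₂ : V, c₁ ≠ 0 → ∃ a : k, c₂ = a • c₁

/-- A module which embeds linearly into a line is a line. -/
theorem isLine_of_injective {k V W : Type*} [Semiring k] [AddCommMonoid V] [Module k V]
    [AddCommMonoid W] [Module k W] (f : V →ₗ[k] W) (hf : Function.Injective f)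
    (hW : IsLine k W) : IsLine k V := by
  intro c₁ c₂ hc₁
  obtain ⟨a, ha⟩ := hW (f c₁) (f c₂) (fun h => hc₁ (hf (by rw [h, map_zero])))
  exact ⟨a, hf (by rw [ha, map_smul])⟩

/-! ## Part 1. `(LB1)` on the LA carrier ⟷ the frozen carrier -/

section LineDict

variable {q : ℕ} [Fact q.Prime]
variable {K : Type*} [Field K] [Algebra ℚ_[q] K] [Algebra K (PadicAlgCl q)]
  [IsScalarTower ℚ_[q] K (PadicAlgCl q)]
variable {H : Type} [Group H] (ι : H →* (PadicAlgCl q ≃ₐ[ℚ_[q]] PadicAlgCl q))
  (e : H ≃* (PadicAlgCl q ≃ₐ[K] PadicAlgCl q))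
  (he : ∀ (h : H) (x : PadicAlgCl q), e h x = ι h x)
variable [MulDistribMulAction H (PadicAlgCl q)ˣ]
  (hact : ∀ (h : H) (u : (PadicAlgCl q)ˣ), h • u = ι h • u)
variable (p : ℕ) [Fact p.Prime] {χ : H →* (ZMod p)ˣ}
  (D : helper512.MuDatum p χ (PadicAlgCl q)ˣ) {A : Rep.{0} (ZMod p) H}
  (c : helper512.CharModel A χ)

include he hact D c in
/-- `Stmt_LB1_line` on the LA carrier gives: the frozen `continuousH2` is a line. -/
theorem isLine_of_stmt_LB1_line (hline : helper9554.Stmt_LB1_line K (PadicAlgCl q) p) :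
    IsLine (ZMod p) (continuousH2 ((localGaloisToGlobal q).comp ι) A) := by
  intro c₁ c₂ hc₁
  obtain ⟨f₁, rfl⟩ := Submodule.mkQ_surjective _ c₁
  obtain ⟨f₂, rfl⟩ := Submodule.mkQ_surjective _ c₂
  have hF₁ := (helper512.mu_mem_levelCocycles₂_iff ((localGaloisToGlobal q).comp ι) D c f₁.1).1
    f₁.2
  have hF₂ := (helper512.mu_mem_levelCocycles₂_iff ((localGaloisToGlobal q).comp ι) D c f₂.1).1
    f₂.2
  have hne : ¬ helper512.IsMuLevelCoboundary₂ p ((localGaloisToGlobal q).comp ι)
      (fun x => D.ζ ^ (c.e (f₁.1 x)).val) := fun h =>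
    hc₁ ((helper512.mu_continuousH2π_eq_zero_iff ((localGaloisToGlobal q).comp ι) D c f₁).2 h)
  have h1 := isMuCocycle₂_of_isMuLevelCocycle₂ ι e he hact p hF₁
  have h2 := isMuCocycle₂_of_isMuLevelCocycle₂ ι e he hact p hF₂
  have h1ne : ¬ helper9554.IsMuCob₂ p (fun x : (PadicAlgCl q ≃ₐ[K] PadicAlgCl q) ×
      (PadicAlgCl q ≃ₐ[K] PadicAlgCl q) =>
        D.ζ ^ (c.e (f₁.1 (e.symm x.1, e.symm x.2))).val) := by
    intro hcob
    have h3 := isMuLevelCoboundary₂_of_isMuCob₂ ι e he hact p hcob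
    simp only [e.symm_apply_apply] at h3
    exact hne h3
  obtain ⟨n, hn⟩ := hline _ _ h1 h2 h1ne
  have h3 := isMuLevelCoboundary₂_of_isMuCob₂ ι e he hact p hn
  simp only [Pi.div_apply, Pi.pow_apply, e.symm_apply_apply] at h3
  refine ⟨(n : ZMod p), ?_⟩
  rw [← map_smul]
  refine (helper512.mu_continuousH2π_eq_iff ((localGaloisToGlobal q).comp ι) D c f₂
    ((n : ZMod p) • f₁)).2 ?_
  have h4 : (fun x => D.ζ ^ (c.e (f₂.1 x)).val / D.ζ ^ (c.e (((n : ZMod p) • f₁ :
      levelCocycles₂ ((localGaloisToGlobal q).comp ι) A).1 x)).val)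
      = fun x => D.ζ ^ (c.e (f₂.1 x)).val / (D.ζ ^ (c.e (f₁.1 x)).val) ^ n := by
    funext x
    congr 1
    exact D.expMap_nsmul c n (f₁.1 x)
  rw [h4]
  exact h3

include he hact D c in
/-- If the frozen `continuousH2` is a line, then `Stmt_LB1_line` holds on the LA carrier. -/
theorem stmt_LB1_line_of_isLine
    (hV : IsLine (ZMod p) (continuousH2 ((localGaloisToGlobal q).comp ι) A)) :
    helper9554.Stmt_LB1_line K (PadicAlgCl q) p := by
  haveI : NeZero p := ⟨(Fact.out : p.Prime).ne_zero⟩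
  intro f₁ f₂ hf₁ hf₂ hne
  have hF₁ := isMuLevelCocycle₂_of_isMuCocycle₂ ι e he hact p hf₁
  have hF₂ := isMuLevelCocycle₂_of_isMuCocycle₂ ι e he hact p hf₂
  obtain ⟨g₁, hg₁⟩ := helper512.mu_exists_levelCocycle₂ ((localGaloisToGlobal q).comp ι) D c
    (A := A) hF₁
  obtain ⟨g₂, hg₂⟩ := helper512.mu_exists_levelCocycle₂ ((localGaloisToGlobal q).comp ι) D c
    (A := A) hF₂
  have hfun₁ : (fun x => D.ζ ^ (c.e (g₁.1 x)).val) = fun x : H × H => f₁ (e x.1, e x.2) :=
    funext hg₁
  have hc₁ : continuousH2π ((localGaloisToGlobal q).comp ι) A g₁ ≠ 0 := by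
    intro h0
    rw [helper512.mu_continuousH2π_eq_zero_iff ((localGaloisToGlobal q).comp ι) D c, hfun₁] at h0
    have h1 := isMuCob₂_of_isMuLevelCoboundary₂ ι e he hact p h0
    simp only [e.apply_symm_apply, Prod.mk.eta] at h1
    exact hne h1
  obtain ⟨a, ha⟩ := hV _ (continuousH2π ((localGaloisToGlobal q).comp ι) A g₂) hc₁
  refine ⟨a.val, ?_⟩
  rw [← map_smul] at ha
  have key := (helper512.mu_continuousH2π_eq_iff ((localGaloisToGlobal q).comp ι) D c g₂
    (a • g₁)).1 ha
  have h4 : (fun x => D.ζ ^ (c.e (g₂.1 x)).val / D.ζ ^ (c.e ((a • g₁ :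
      levelCocycles₂ ((localGaloisToGlobal q).comp ι) A).1 x)).val)
      = fun x : H × H => f₂ (e x.1, e x.2) / f₁ (e x.1, e x.2) ^ a.val := by
    funext x
    rw [hg₂ x, ← hg₁ x]
    congr 1
    have h1 := D.expMap_nsmul c a.val (g₁.1 x)
    rw [ZMod.natCast_zmod_val] at h1
    exact h1
  rw [h4] at key
  have h5 := isMuCob₂_of_isMuLevelCoboundary₂ ι e he hact p key
  simp only [e.apply_symm_apply, Prod.mk.eta] at h5
  exact h5

include he hact D c in
/-- `Stmt_LB1_line` on the LA carrier ⟷ the frozen `continuousH2` is a line. -/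
theorem stmt_LB1_line_iff_isLine :
    helper9554.Stmt_LB1_line K (PadicAlgCl q) p ↔
      IsLine (ZMod p) (continuousH2 ((localGaloisToGlobal q).comp ι) A) :=
  ⟨isLine_of_stmt_LB1_line ι e he hact p D c, stmt_LB1_line_of_isLine ι e he hact p D c⟩

include he hact D c in
/-- `Stmt_LB1_ne` on the LA carrier ⟷ the frozen `continuousH2` is nonzero. -/
theorem stmt_LB1_ne_iff_exists_ne_zero :
    helper9554.Stmt_LB1_ne K (PadicAlgCl q) p ↔
      ∃ x : continuousH2 ((localGaloisToGlobal q).comp ι) A, x ≠ 0 := by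
  constructor
  · rintro ⟨f₀, hf₀, hne⟩
    have hF₀ := isMuLevelCocycle₂_of_isMuCocycle₂ ι e he hact p hf₀
    obtain ⟨g₀, hg₀⟩ := helper512.mu_exists_levelCocycle₂ ((localGaloisToGlobal q).comp ι) D c
      (A := A) hF₀
    have hfun₀ : (fun x => D.ζ ^ (c.e (g₀.1 x)).val) = fun x : H × H => f₀ (e x.1, e x.2) :=
      funext hg₀
    refine ⟨continuousH2π ((localGaloisToGlobal q).comp ι) A g₀, fun h0 => ?_⟩
    rw [helper512.mu_continuousH2π_eq_zero_iff ((localGaloisToGlobal q).comp ι) D c, hfun₀] at h0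
    have h1 := isMuCob₂_of_isMuLevelCoboundary₂ ι e he hact p h0
    simp only [e.apply_symm_apply, Prod.mk.eta] at h1
    exact hne h1
  · rintro ⟨x, hx⟩
    obtain ⟨f, rfl⟩ := Submodule.mkQ_surjective _ x
    have hF := (helper512.mu_mem_levelCocycles₂_iff ((localGaloisToGlobal q).comp ι) D c f.1).1
      f.2
    refine ⟨_, isMuCocycle₂_of_isMuLevelCocycle₂ ι e he hact p hF, fun hcob => hx ?_⟩
    have h3 := isMuLevelCoboundary₂_of_isMuCob₂ ι e he hact p hcob
    simp only [e.symm_apply_apply] at h3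
    exact (helper512.mu_continuousH2π_eq_zero_iff ((localGaloisToGlobal q).comp ι) D c f).2 h3

end LineDict

/-! ## Part 2. Reduction of `Stmt_LB1_line` to fields containing `μ_p` -/

section Zeta

variable (q : ℕ) [Fact q.Prime] (p : ℕ) [Fact p.Prime]

/-- The chosen primitive `p`-th root of unity of `PadicAlgCl q` (as an element). -/
noncomputable def zetaElt : PadicAlgCl q := ((helper512.zetaLocal p q : (PadicAlgCl q)ˣ) :
  PadicAlgCl q)

theorem isPrimitiveRoot_zetaElt : IsPrimitiveRoot (zetaElt q p) p :=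
  IsPrimitiveRoot.coe_units_iff.2 (helper512.isPrimitiveRoot_zetaLocal p q)

/-- The field `K(ζ_p)`. -/
noncomputable def adjoinZeta (K : IntermediateField ℚ_[q] (PadicAlgCl q)) :
    IntermediateField ℚ_[q] (PadicAlgCl q) :=
  K ⊔ IntermediateField.adjoin ℚ_[q] {zetaElt q p}

theorem le_adjoinZeta (K : IntermediateField ℚ_[q] (PadicAlgCl q)) : K ≤ adjoinZeta q p K :=
  le_sup_left

theorem zetaElt_mem_adjoinZeta (K : IntermediateField ℚ_[q] (PadicAlgCl q)) :
    zetaElt q p ∈ adjoinZeta q p K :=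
  (le_sup_right : IntermediateField.adjoin ℚ_[q] {zetaElt q p} ≤ adjoinZeta q p K)
    (IntermediateField.mem_adjoin_simple_self ℚ_[q] (zetaElt q p))

instance finiteDimensional_adjoinZeta (K : IntermediateField ℚ_[q] (PadicAlgCl q))
    [FiniteDimensional ℚ_[q] K] : FiniteDimensional ℚ_[q] (adjoinZeta q p K) := by
  haveI : FiniteDimensional ℚ_[q] (IntermediateField.adjoin ℚ_[q] {zetaElt q p}) :=
    IntermediateField.adjoin.finiteDimensional
      (Algebra.IsIntegral.isIntegral (R := ℚ_[q]) (zetaElt q p))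
  exact IntermediateField.finiteDimensional_sup K _

/-- `K(ζ_p)` contains a primitive `p`-th root of unity. -/
theorem exists_isPrimitiveRoot_adjoinZeta (K : IntermediateField ℚ_[q] (PadicAlgCl q)) :
    ∃ ζ : adjoinZeta q p K, IsPrimitiveRoot ζ p :=
  ⟨⟨zetaElt q p, zetaElt_mem_adjoinZeta q p K⟩,
    IsPrimitiveRoot.coe_submonoidClass_iff.1 (isPrimitiveRoot_zetaElt q p)⟩

/-- An element of the local Galois group on which the cyclotomic character is trivial and which
fixes `K` fixes `K(ζ_p)`. -/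
theorem mem_fixingSubgroup_adjoinZeta (K : IntermediateField ℚ_[q] (PadicAlgCl q))
    (τ : PadicAlgCl q ≃ₐ[ℚ_[q]] PadicAlgCl q) (hτ : τ ∈ K.fixingSubgroup)
    (hχ : cycloChar p (localGaloisToGlobal q τ) = 1) :
    τ ∈ (adjoinZeta q p K).fixingSubgroup := by
  rw [adjoinZeta, IntermediateField.fixingSubgroup_sup]
  refine ⟨hτ, ?_⟩
  have hfix : τ • helper512.zetaLocal p q = helper512.zetaLocal p q :=
    ((helper512.localDatum p q).char_eq_one_iff τ).1 hχ
  have hfix' : τ (zetaElt q p) = zetaElt q p := congrArg Units.val hfix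
  have hle : IntermediateField.adjoin ℚ_[q] {zetaElt q p}
      ≤ IntermediateField.fixedField (Subgroup.zpowers τ) := by
    rw [IntermediateField.adjoin_simple_le_iff, IntermediateField.mem_fixedField_iff]
    intro σ hσ
    obtain ⟨n, rfl⟩ := Subgroup.mem_zpowers_iff.1 hσ
    have hmem : τ ∈ MulAction.stabilizer (PadicAlgCl q ≃ₐ[ℚ_[q]] PadicAlgCl q) (zetaElt q p) :=
      MulAction.mem_stabilizer_iff.2 hfix'
    exact MulAction.mem_stabilizer_iff.1 (Subgroup.zpow_mem _ hmem n)
  exact (IntermediateField.le_iff_le _ _).1 hle (Subgroup.mem_zpowers τ)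

/-- **The reduction step.**  `Stmt_LB1_line` for `K(ζ_p)` implies `Stmt_LB1_line` for `K`. -/
theorem stmt_LB1_line_of_zeta (K : IntermediateField ℚ_[q] (PadicAlgCl q))
    [FiniteDimensional ℚ_[q] K]
    (h : helper9554.Stmt_LB1_line (adjoinZeta q p K) (PadicAlgCl q) p) :
    helper9554.Stmt_LB1_line K (PadicAlgCl q) p := by
  -- the groups
  set U : Subgroup (PadicAlgCl q ≃ₐ[ℚ_[q]] PadicAlgCl q) := K.fixingSubgroup with hU
  have hle : (adjoinZeta q p K).fixingSubgroup ≤ U :=
    IntermediateField.fixingSubgroup_antitone (le_adjoinZeta q p K)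
  set H' : Subgroup ↥U := (adjoinZeta q p K).fixingSubgroup.subgroupOf U with hH'
  -- the character of `U`
  let χU : ↥U →* (ZMod p)ˣ := (cycloChar p).comp ((localGaloisToGlobal q).comp U.subtype)
  have hker : χU.ker ≤ H' := by
    intro u hu
    rw [hH', Subgroup.mem_subgroupOf]
    exact mem_fixingSubgroup_adjoinZeta q p K u u.2 (MonoidHom.mem_ker.1 hu)
  -- the index of `H'` divides `p - 1`
  have hdvd : H'.index ∣ p - 1 := by
    have h1 : H'.index ∣ χU.ker.index := Subgroup.index_dvd_of_le hker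
    have h2 : χU.ker.index = Nat.card χU.range := Subgroup.index_ker χU
    have h3 : Nat.card χU.range ∣ Nat.card (ZMod p)ˣ := Subgroup.card_subgroup_dvd_card _
    have h4 : Nat.card (ZMod p)ˣ = p - 1 := by
      rw [Nat.card_eq_fintype_card, ZMod.card_units]
    rw [h2] at h1
    rw [h4] at h3
    exact h1.trans h3
  have hp1 : p - 1 ≠ 0 := Nat.sub_ne_zero_of_lt (Fact.out : p.Prime).one_lt
  have hidx0 : H'.index ≠ 0 := fun h0 => hp1 (Nat.eq_zero_of_zero_dvd (h0 ▸ hdvd))
  haveI : H'.FiniteIndex := ⟨hidx0⟩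
  have hidx : IsUnit ((H'.index : ℕ) : ZMod p) := by
    rw [isUnit_iff_ne_zero, Ne, ZMod.natCast_eq_zero_iff]
    intro hpd
    have hle' : p ≤ p - 1 := Nat.le_of_dvd (Nat.pos_of_ne_zero hp1) (hpd.trans hdvd)
    have := (Fact.out : p.Prime).pos
    omega
  -- `H'` is open
  have hopen : ∃ F : IntermediateField ℚ (AlgebraicClosure ℚ), FiniteDimensional ℚ F ∧
      ∀ g : ↥U, ((localGaloisToGlobal q).comp U.subtype) g ∈ F.fixingSubgroup → g ∈ H' := by
    obtain ⟨F, hF, hFimp⟩ := helper4058.exists_global_level_le_fixingSubgroup q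
      (adjoinZeta q p K)
    exact ⟨F, hF, fun g hg => Subgroup.mem_subgroupOf.2 (hFimp _ hg)⟩
  -- the modules and the `μ_p` data
  let M : Rep.{0} (ZMod p) ↥U :=
    Rep.res ((localGaloisToGlobal q).comp U.subtype) (ofChar (k := ZMod p) (cycloChar p))
  let cM : helper512.CharModel M χU := (helper512.CharModel.ofChar (cycloChar p)).res _
  let DU : helper512.MuDatum p χU (PadicAlgCl q)ˣ :=
    ((helper512.localDatum p q).subgroup U).congr rfl
  -- the frozen `H²` of `H'` is a line
  have hline' : IsLine (ZMod p)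
      (continuousH2 ((localGaloisToGlobal q).comp (U.subtype.comp H'.subtype))
        (Rep.res H'.subtype M)) :=
    isLine_of_stmt_LB1_line (K := adjoinZeta q p K) (U.subtype.comp H'.subtype)
      ((Subgroup.subgroupOfEquivOfLe hle).trans
        (IntermediateField.fixingSubgroupEquiv (adjoinZeta q p K)))
      (fun _ _ => rfl) (fun _ _ => rfl) p (DU.subgroup H') (cM.res H'.subtype) h
  -- restriction is injective
  have hinj := helper8868.continuousH2Map_subtype_injective
    ((localGaloisToGlobal q).comp U.subtype) M H' hopen hidx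
  have hlineU : IsLine (ZMod p) (continuousH2 ((localGaloisToGlobal q).comp U.subtype) M) :=
    isLine_of_injective _ hinj hline'
  exact stmt_LB1_line_of_isLine (K := K) U.subtype (IntermediateField.fixingSubgroupEquiv K)
    (fun _ _ => rfl) (fun _ _ => rfl) p DU cM hlineU

/-- **`Stmt_LB1_line` for all finite `K/ℚ_q` from the case `μ_p ⊆ K`.** -/
theorem stmt_LocalLB1_line_of_zeta
    (h : ∀ K : IntermediateField ℚ_[q] (PadicAlgCl q), FiniteDimensional ℚ_[q] K →
      (∃ ζ : K, IsPrimitiveRoot ζ p) → helper9554.Stmt_LB1_line K (PadicAlgCl q) p)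
    (K : IntermediateField ℚ_[q] (PadicAlgCl q)) (hK : FiniteDimensional ℚ_[q] K) :
    helper9554.Stmt_LB1_line K (PadicAlgCl q) p :=
  stmt_LB1_line_of_zeta q p K
    (h (adjoinZeta q p K) inferInstance (exists_isPrimitiveRoot_adjoinZeta q p K))

/-- **`Stmt_LocalLB1` from its two halves**, the `line` half only for fields containing `μ_p`. -/
theorem stmt_LocalLB1_of
    (hline : ∀ K : IntermediateField ℚ_[q] (PadicAlgCl q), FiniteDimensional ℚ_[q] K →
      (∃ ζ : K, IsPrimitiveRoot ζ p) → helper9554.Stmt_LB1_line K (PadicAlgCl q) p)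
    (hne : ∀ K : IntermediateField ℚ_[q] (PadicAlgCl q), FiniteDimensional ℚ_[q] K →
      helper9554.Stmt_LB1_ne K (PadicAlgCl q) p) :
    helper9554.Stmt_LocalLB1 q p := fun K hK =>
  ⟨hne K hK, stmt_LocalLB1_line_of_zeta q p hline K hK⟩

end Zeta

end Fermat.Agent.S55.helper2353
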