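/-
S55, LOCAL layer (helper665): closed forms of the three local outputs and the assembly
`stmt_LocalL2_of`.  Together with `stmt_L2num_of_local`, `isL2_res`, `l3_left`, `l3_right` this is
the complete LOCAL → SOFT interface:

  Stmt_LocInvAll    : `H²(ℚ_q, μ_p)` is a line, for every prime `q` and every odd prime `p`
  Stmt_LocL2InjAll  : left kernel of (L2) trivial for every finite smooth local module
  Stmt_LocL2SurjAll : right kernel of (L2) trivial for every finite smooth local module
-/
import Mathlib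
import Fermat.Agent.S55.helper665_L2Num
import Fermat.Agent.S55.helper665_LocInv
import Fermat.Agent.S55.helper2353_LB1Frozen

set_option autoImplicit false

namespace Fermat.Agent.S55.helper665

open CategoryTheory groupCohomology ExtCitation Module

/-- `Stmt_LocInv p` for every odd prime `p`. -/
def Stmt_LocInvAll : Prop := ∀ (p : ℕ) [Fact p.Prime], p ≠ 2 → Stmt_LocInv p

/-- `Stmt_LocL2Inj p` for every odd prime `p`. -/
def Stmt_LocL2InjAll : Prop := ∀ (p : ℕ) [Fact p.Prime], p ≠ 2 → Stmt_LocL2Inj p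

/-- `Stmt_LocL2Surj p` for every odd prime `p`. -/
def Stmt_LocL2SurjAll : Prop := ∀ (p : ℕ) [Fact p.Prime], p ≠ 2 → Stmt_LocL2Surj p

/-- The local (L2) package from its three components. -/
theorem stmt_LocalL2_of (h0 : Stmt_LocInvAll) (h1 : Stmt_LocL2InjAll) (h2 : Stmt_LocL2SurjAll) :
    Stmt_LocalL2 :=
  fun p _ hp2 => ⟨h0 p hp2, h1 p hp2, h2 p hp2⟩

/-- `Stmt_LocInvAll` from the numerical form (output (ii) of the end adapter LA-LB1-FROZEN). -/
theorem stmt_LocInvAll_of_finrank
    (h : ∀ (p : ℕ) [Fact p.Prime], p ≠ 2 → ∀ q : Nat.Primes, finrank (ZMod p)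
      (continuousH2 (primeLocalToGlobal q)
        (Rep.res (primeLocalToGlobal q) (ofChar (cycloChar p)))) = 1) :
    Stmt_LocInvAll :=
  fun p _ hp2 => stmt_LocInv_of_finrank_eq_one (h p hp2)

/-- `Stmt_LocL2InjAll` from the generic shape `L2Inj` for every finite smooth local module. -/
theorem stmt_LocL2InjAll_of
    (h : ∀ (p : ℕ) [Fact p.Prime], p ≠ 2 → ∀ (q : Nat.Primes)
      (N : Rep.{0} (ZMod p) (primeLocalGaloisGroup q)), FiniteDimensional (ZMod p) N →
        helper1447.IsSmoothRep (primeLocalToGlobal q) N →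
          L2Inj (primeLocalToGlobal q) (chiLoc p q) N) :
    Stmt_LocL2InjAll :=
  fun p _ hp2 q => (stmt_L2inj_iff _ _).2 (h p hp2 q)

/-- `Stmt_LocL2InjAll` and `Stmt_LocL2SurjAll` from (L2) in the inv-form for ONE injective
invariant map at each prime (the shape in which a perfect-pairing proof naturally ends). -/
theorem stmt_LocL2_of_isL2
    (h : ∀ (p : ℕ) [Fact p.Prime], p ≠ 2 → ∀ q : Nat.Primes,
      ∃ inv : continuousH2 (primeLocalToGlobal q) (ofChar (chiLoc p q)) →ₗ[ZMod p] ZMod p,
        Function.Injective inv ∧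
          ∀ N : Rep.{0} (ZMod p) (primeLocalGaloisGroup q), FiniteDimensional (ZMod p) N →
            helper1447.IsSmoothRep (primeLocalToGlobal q) N →
              IsL2 (primeLocalToGlobal q) (chiLoc p q) inv N) :
    Stmt_LocL2InjAll ∧ Stmt_LocL2SurjAll := by
  refine ⟨fun p _ hp2 q => (stmt_L2inj_iff _ _).2 fun N hN hsm => ?_, fun p _ hp2 q N hN hsm => ?_⟩
  · obtain ⟨inv, hinv, hL2⟩ := h p hp2 q
    exact ((isL2_iff hinv N).1 (hL2 N hN hsm)).1
  · obtain ⟨inv, hinv, hL2⟩ := h p hp2 q
    exact ((isL2_iff hinv N).1 (hL2 N hN hsm)).2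

/-! ### The LA input `(LB1)` and the first link of the end-to-end chain -/

/-- The closed LA statement `(LB1)`: `H²(G_K, μ_p)` is cyclic of order `p` for every finite
extension `K` of every `ℚ_l`, `p` odd (`helper9554.Stmt_LocalLB1` for all `l`, `p`). -/
def Stmt_LB1All : Prop :=
  ∀ (l p : ℕ) [Fact l.Prime] [Fact p.Prime], p ≠ 2 → helper9554.Stmt_LocalLB1 l p

/-- `Stmt_LocInvAll` from the LA statement `(LB1)` (through the end adapter LA-LB1-FROZEN). -/
theorem stmt_LocInvAll_of_LB1All (h : Stmt_LB1All) : Stmt_LocInvAll :=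
  fun p _ hp2 => helper2353.stmt_LocInv_of_localLB1 p fun q =>
    letI : Fact (q : ℕ).Prime := ⟨q.2⟩
    h (q : ℕ) p hp2

end Fermat.Agent.S55.helper665
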