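import Fermat.Agent.S55.helper913_Chevalley

/-!
# The local norm index in prime degree from the index of `p`-th powers

`chevalley_endo`: Chevalley's formula for an abelian group with an endomorphism `σ`, `σ^p = 1`.

`norm_index_of_powIndex`: `L/K` Galois of prime degree `p`, with
`[Kˣ : Kˣᵖ] = p * |μ_p(K)| * e` and `[Lˣ : Lˣᵖ] = p * |μ_p(L)| * e^p` (`e ≠ 0`).  Then the norm
group has index `p` in `Kˣ`.  (For finite extensions of `ℚ_ℓ`: `e = p^[K:ℚ_ℓ]` if `ℓ = p`,
`e = 1` otherwise.)
-/

set_option autoImplicit false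

namespace Fermat.Agent.S55.helper913

open Polynomial

section Endo

variable {A : Type*} [AddCommGroup A]

/-- The `ℤ[X]`-module structure on `A` in which `X` acts by `σ`. -/
@[reducible] noncomputable def polyModule (σ : A →+ A) : Module ℤ[X] A :=
  Module.compHom A (Polynomial.aeval (σ.toIntLinearMap)).toRingHom

lemma polyModule_smul (σ : A →+ A) (q : ℤ[X]) (a : A) :
    letI := polyModule σ
    q • a = Polynomial.aeval (σ.toIntLinearMap) q a := rfl

lemma polyModule_X_pow_smul (σ : A →+ A) (i : ℕ) (a : A) :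
    letI := polyModule σ
    (X ^ i : ℤ[X]) • a = σ^[i] a := by
  let _ := polyModule σ
  rw [polyModule_smul, map_pow, aeval_X]
  induction i generalizing a with
  | zero => simp
  | succ i ih =>
    rw [pow_succ, Module.End.mul_apply, ih, Function.iterate_succ_apply]
    rfl

/-- **Chevalley's formula** for an abelian group `A` with an endomorphism `σ`, `σ^p = 1`. -/
theorem chevalley_endo (σ : A →+ A) {p : ℕ} (hp : p.Prime) (hσ : ∀ a, σ^[p] a = a)
    (Nσ : A →+ A) (hN : ∀ a, Nσ a = ∑ i ∈ Finset.range p, σ^[i] a)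
    (h90 : ∀ a, Nσ a = 0 → ∃ b, a = b - σ b)
    (H : AddSubgroup A) (hH : ∀ a, a ∈ H ↔ σ a = a)
    (hcA : (nsmulAddMonoidHom (α := A) p).range.index ≠ 0)
    (hkA : Nat.card (nsmulAddMonoidHom (α := A) p).ker ≠ 0)
    (hcH : (H.map (nsmulAddMonoidHom p)).relIndex H ≠ 0)
    (hkH : Nat.card ↥((nsmulAddMonoidHom (α := A) p).ker ⊓ H) ≠ 0) :
    (Nσ.range.relIndex H) ^ (p - 1) * (nsmulAddMonoidHom (α := A) p).range.index *
        Nat.card ↥((nsmulAddMonoidHom (α := A) p).ker ⊓ H) ^ p =
      ((H.map (nsmulAddMonoidHom p)).relIndex H) ^ p *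
        Nat.card (nsmulAddMonoidHom (α := A) p).ker := by
  let _ := polyModule σ
  have hXs : ∀ a : A, (X : ℤ[X]) • a = σ a := fun a => by
    have := polyModule_X_pow_smul σ 1 a
    simpa using this
  have hP : smulHom A ((p : ℕ) : ℤ[X]) = nsmulAddMonoidHom p := by
    ext a
    simp [Nat.cast_smul_eq_nsmul]
  have hD : (smulHom A Del).ker = H := by
    ext a
    simp only [AddMonoidHom.mem_ker, smulHom_apply, Del, sub_smul, one_smul, hXs, hH,
      sub_eq_zero]
    exact eq_comm
  have hNs : smulHom A (Nel p) = Nσ := by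
    ext a
    simp only [smulHom_apply, Nel, Finset.sum_smul, hN]
    exact Finset.sum_congr rfl fun i _ => polyModule_X_pow_smul σ i a
  have key := chevalley (A := A) hp (fun a => by rw [polyModule_X_pow_smul, hσ])
    (fun a ha => by
      have : Nσ a = 0 := by rw [← hNs]; exact ha
      obtain ⟨b, hb⟩ := h90 a this
      exact ⟨b, by rw [hb, Del, sub_smul, one_smul, hXs]⟩)
    (by unfold cok; rw [hP]; exact hcA) (by unfold kerc; rw [hP]; exact hkA)
    (by rw [hD, hP]; exact hcH) (by rw [hD, hP]; exact hkH)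
  unfold cok kerc at key
  rw [hD, hP, hNs] at key
  exact key

end Endo


section Field

variable {K L : Type} [Field K] [Field L] [Algebra K L] [FiniteDimensional K L] [IsGalois K L]

/-- `Kˣ → Lˣ` additively. -/
noncomputable def incl : Additive Kˣ →+ Additive Lˣ :=
  MonoidHom.toAdditive (Units.map (algebraMap K L : K →* L))

omit [FiniteDimensional K L] [IsGalois K L] in
lemma incl_injective : Function.Injective (incl (K := K) (L := L)) := by
  intro a b h
  have h' : Units.map (algebraMap K L : K →* L) a.toMul = Units.map (algebraMap K L : K →* L) b.toMul :=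
    h
  have h'' := congrArg Units.val h'
  simp only [Units.coe_map, MonoidHom.coe_coe] at h''
  exact congrArg Additive.ofMul (Units.ext ((algebraMap K L).injective h''))

/-- The norm `Lˣ → Kˣ` additively. -/
noncomputable def normAdd : Additive Lˣ →+ Additive Kˣ :=
  MonoidHom.toAdditive (Units.map (Algebra.norm K : L →* K))

/-- The automorphism `τ` on `Lˣ`, additively. -/
noncomputable def autAdd (τ : L ≃ₐ[K] L) : Additive Lˣ →+ Additive Lˣ :=
  MonoidHom.toAdditive (Units.map (τ : L →* L))

omit [FiniteDimensional K L] [IsGalois K L] in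
lemma autAdd_iterate (τ : L ≃ₐ[K] L) (i : ℕ) (a : Additive Lˣ) :
    ((autAdd τ)^[i] a).toMul.val = (τ ^ i) (a.toMul.val) := by
  induction i generalizing a with
  | zero => simp
  | succ i ih =>
    rw [Function.iterate_succ_apply', pow_succ']
    show τ (((autAdd τ)^[i] a).toMul.val) = _
    rw [ih]
    rfl


omit [FiniteDimensional K L] [IsGalois K L] in
lemma incl_nsmul_comm (p : ℕ) :
    (nsmulAddMonoidHom (α := Additive Lˣ) p).comp (incl (K := K) (L := L)) =
      (incl (K := K) (L := L)).comp (nsmulAddMonoidHom p) := by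
  ext a
  simp [map_nsmul]

end Field

section Additive

variable (G : Type*) [CommGroup G]

lemma range_nsmul_eq (p : ℕ) :
    (nsmulAddMonoidHom (α := Additive G) p).range =
      Subgroup.toAddSubgroup (powMonoidHom p : G →* G).range := by
  ext a
  simp only [AddMonoidHom.mem_range, nsmulAddMonoidHom_apply]
  constructor
  · rintro ⟨b, rfl⟩
    exact ⟨b.toMul, rfl⟩
  · rintro ⟨y, hy⟩
    exact ⟨Additive.ofMul y, hy⟩

lemma index_range_nsmul (p : ℕ) :
    (nsmulAddMonoidHom (α := Additive G) p).range.index = (powMonoidHom p : G →* G).range.index := by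
  rw [range_nsmul_eq, Subgroup.index_toAddSubgroup]

lemma card_ker_nsmul (p : ℕ) :
    Nat.card (nsmulAddMonoidHom (α := Additive G) p).ker = Nat.card (powMonoidHom p : G →* G).ker :=
  Nat.card_congr
    { toFun := fun a => ⟨a.1.toMul, a.2⟩
      invFun := fun y => ⟨Additive.ofMul y.1, y.2⟩
      left_inv := fun _ => rfl
      right_inv := fun _ => rfl }

end Additive

lemma ker_powMonoidHom_units (M : Type*) [CommMonoid M] (p : ℕ) :
    (powMonoidHom p : Mˣ →* Mˣ).ker = rootsOfUnity p M := by
  ext x
  simp [MonoidHom.mem_ker, mem_rootsOfUnity]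

section Main

variable {K L : Type} [Field K] [Field L] [Algebra K L] [FiniteDimensional K L] [IsGalois K L]

/-- **Local norm index in prime degree from the index of `p`-th powers.**
`L/K` Galois of prime degree `p`; if `[Kˣ : Kˣᵖ] = p * |μ_p(K)| * e` and
`[Lˣ : Lˣᵖ] = p * |μ_p(L)| * e^p` with `e ≠ 0`, then `[Kˣ : N_{L/K} Lˣ] = p`. -/
theorem norm_index_of_powIndex {p : ℕ} (hp : p.Prime) (hrank : Module.finrank K L = p)
    (e : ℕ) (he : e ≠ 0)
    (hK : (powMonoidHom p : Kˣ →* Kˣ).range.index = p * Nat.card (rootsOfUnity p K) * e)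
    (hL : (powMonoidHom p : Lˣ →* Lˣ).range.index = p * Nat.card (rootsOfUnity p L) * e ^ p) :
    (MonoidHom.range (Units.map (Algebra.norm K : L →* K))).index = p := by
  have : Fact p.Prime := ⟨hp⟩
  have : NeZero p := ⟨hp.ne_zero⟩
  have hcard : Nat.card (L ≃ₐ[K] L) = p := (IsGalois.card_aut_eq_finrank K L).trans hrank
  have : IsCyclic (L ≃ₐ[K] L) := isCyclic_of_prime_card hcard
  obtain ⟨τ, hτ⟩ := IsCyclic.exists_generator (α := L ≃ₐ[K] L)
  have hord : orderOf τ = p := (orderOf_eq_card_of_forall_mem_zpowers hτ).trans hcard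
  have hτp : τ ^ p = 1 := hord ▸ pow_orderOf_eq_one τ
  have hpz : (0 : ℤ) < p := by exact_mod_cast hp.pos
  set σ := autAdd τ with hσ
  set ι := incl (K := K) (L := L) with hι
  set ν := normAdd (K := K) (L := L) with hν
  -- (1) `σ^p = 1`
  have h1 : ∀ a, σ^[p] a = a := by
    intro a
    apply Additive.toMul.injective
    apply Units.ext
    rw [autAdd_iterate, hτp]
    rfl
  -- (2) the norm
  have h2 : ∀ a, (ι.comp ν) a = ∑ i ∈ Finset.range p, σ^[i] a := by
    intro a
    apply Additive.toMul.injective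
    apply Units.ext
    rw [toMul_sum, Units.coe_prod]
    have hfac : ∀ i ∈ Finset.range p, ((σ^[i] a).toMul : L) = (τ ^ i) (a.toMul.val) :=
      fun i _ => autAdd_iterate τ i a
    rw [Finset.prod_congr rfl hfac]
    show algebraMap K L (Algebra.norm K (a.toMul.val)) = _
    rw [Algebra.norm_eq_prod_automorphisms]
    symm
    apply Finset.prod_bij (fun i _ => τ ^ i)
    · intros; exact Finset.mem_univ _
    · intro i hi j hj hij
      exact pow_injOn_Iio_orderOf (by rw [hord]; exact Finset.mem_range.mp hi)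
        (by rw [hord]; exact Finset.mem_range.mp hj) hij
    · intro g _
      obtain ⟨k, rfl⟩ := Subgroup.mem_zpowers_iff.mp (hτ g)
      refine ⟨(k % p).toNat, Finset.mem_range.mpr ?_, ?_⟩
      · have h1 := Int.emod_lt_of_pos k hpz
        have h2 := Int.emod_nonneg k hpz.ne'
        omega
      · rw [← zpow_natCast, Int.toNat_of_nonneg (Int.emod_nonneg k hpz.ne'), ← hord,
          zpow_mod_orderOf]
    · intros; rfl
  -- (3) Hilbert 90
  have h3 : ∀ a, (ι.comp ν) a = 0 → ∃ b, a = b - σ b := by
    intro a ha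
    have hν0 : ν a = 0 := incl_injective (by rw [map_zero]; exact ha)
    have hn : Algebra.norm K (a.toMul.val) = 1 := by
      have h' : Units.map (Algebra.norm K : L →* K) a.toMul = 1 := hν0
      simpa using congrArg Units.val h'
    obtain ⟨y, hy⟩ := groupCohomology.exists_div_of_norm_eq_one hτ hn
    refine ⟨Additive.ofMul y, ?_⟩
    apply Additive.toMul.injective
    apply Units.ext
    rw [← hy]
    show (y : L) / τ y = ((y / Units.map (τ : L →* L) y : Lˣ) : L)
    rw [Units.val_div_eq_div_val]
    rfl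
  -- (4) the fixed points
  have h4 : ∀ a, a ∈ ι.range ↔ σ a = a := by
    intro a
    constructor
    · rintro ⟨k, rfl⟩
      apply Additive.toMul.injective
      apply Units.ext
      show τ (algebraMap K L k.toMul.val) = algebraMap K L k.toMul.val
      exact τ.commutes _
    · intro h
      have hfix : τ a.toMul.val = a.toMul.val :=
        congrArg (fun b : Additive Lˣ => b.toMul.val) h
      have hmem : τ ∈ MulAction.stabilizer (L ≃ₐ[K] L) (a.toMul.val) := hfix
      have hall : ∀ g : L ≃ₐ[K] L, g a.toMul.val = a.toMul.val := fun g =>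
        (Subgroup.zpowers_le.mpr hmem) (hτ g)
      obtain ⟨c, hc⟩ := IntermediateField.mem_bot.mp ((IsGalois.mem_bot_iff_fixed _).mpr hall)
      have hc0 : c ≠ 0 := by
        rintro rfl
        rw [map_zero] at hc
        exact a.toMul.ne_zero hc.symm
      refine ⟨Additive.ofMul (Units.mk0 c hc0), ?_⟩
      apply Additive.toMul.injective
      apply Units.ext
      exact hc
  -- the counts
  have hkL : Nat.card (rootsOfUnity p L) ≠ 0 := Nat.card_pos.ne'
  have hkK : Nat.card (rootsOfUnity p K) ≠ 0 := Nat.card_pos.ne'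
  have hcA : (nsmulAddMonoidHom (α := Additive Lˣ) p).range.index =
      p * Nat.card (rootsOfUnity p L) * e ^ p := by
    rw [index_range_nsmul, hL]
  have hkA : Nat.card (nsmulAddMonoidHom (α := Additive Lˣ) p).ker =
      Nat.card (rootsOfUnity p L) := by
    rw [card_ker_nsmul, ker_powMonoidHom_units]
  have hcH : (ι.range.map (nsmulAddMonoidHom p)).relIndex ι.range =
      p * Nat.card (rootsOfUnity p K) * e := by
    have : ι.range.map (nsmulAddMonoidHom p) =
        (nsmulAddMonoidHom (α := Additive Kˣ) p).range.map ι := by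
      rw [AddMonoidHom.map_range, AddMonoidHom.map_range, incl_nsmul_comm]
    rw [this]
    conv_lhs => rw [AddMonoidHom.range_eq_map ι]
    rw [AddSubgroup.relIndex_map_map_of_injective _ _ incl_injective,
      AddSubgroup.relIndex_top_right, index_range_nsmul, hK]
  have hkH : Nat.card ↥((nsmulAddMonoidHom (α := Additive Lˣ) p).ker ⊓ ι.range) =
      Nat.card (rootsOfUnity p K) := by
    have : (nsmulAddMonoidHom (α := Additive Lˣ) p).ker ⊓ ι.range =
        (nsmulAddMonoidHom (α := Additive Kˣ) p).ker.map ι := by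
      ext a
      simp only [AddSubgroup.mem_inf, AddMonoidHom.mem_ker, AddMonoidHom.mem_range,
        AddSubgroup.mem_map, nsmulAddMonoidHom_apply]
      constructor
      · rintro ⟨h1, k, rfl⟩
        exact ⟨k, incl_injective (by rw [map_nsmul, map_zero]; exact h1), rfl⟩
      · rintro ⟨k, hk, rfl⟩
        exact ⟨by rw [← map_nsmul, hk, map_zero], k, rfl⟩
    rw [this, ← AddSubgroup.relIndex_bot_left, ← AddSubgroup.map_bot ι,
      AddSubgroup.relIndex_map_map_of_injective _ _ incl_injective,
      AddSubgroup.relIndex_bot_left, card_ker_nsmul, ker_powMonoidHom_units]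
  have hidx : (ι.comp ν).range.relIndex ι.range =
      (MonoidHom.range (Units.map (Algebra.norm K : L →* K))).index := by
    rw [← AddMonoidHom.map_range]
    conv_lhs => rw [AddMonoidHom.range_eq_map ι]
    rw [AddSubgroup.relIndex_map_map_of_injective _ _ incl_injective,
      AddSubgroup.relIndex_top_right]
    rfl
  have key := chevalley_endo σ hp h1 (ι.comp ν) h2 h3 ι.range h4
    (by rw [hcA]; exact mul_ne_zero (mul_ne_zero hp.ne_zero hkL) (pow_ne_zero _ he))
    (by rw [hkA]; exact hkL)
    (by rw [hcH]; exact mul_ne_zero (mul_ne_zero hp.ne_zero hkK) he)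
    (by rw [hkH]; exact hkK)
  rw [hcA, hkA, hcH, hkH, hidx] at key
  set idx := (MonoidHom.range (Units.map (Algebra.norm K : L →* K))).index with hidx'
  set a := Nat.card (rootsOfUnity p L) with ha
  set h := Nat.card (rootsOfUnity p K) with hh
  obtain ⟨n, rfl⟩ : ∃ n, p = n + 1 := ⟨p - 1, by have := hp.pos; omega⟩
  simp only [Nat.add_sub_cancel] at key
  have hn : n ≠ 0 := by
    rintro rfl
    exact Nat.not_prime_one hp
  have hT : 0 < (n + 1) * a * e ^ (n + 1) * h ^ (n + 1) :=
    Nat.pos_of_ne_zero (mul_ne_zero (mul_ne_zero (mul_ne_zero (Nat.succ_ne_zero n) hkL)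
      (pow_ne_zero _ he)) (pow_ne_zero _ hkK))
  have key' : idx ^ n * ((n + 1) * a * e ^ (n + 1) * h ^ (n + 1)) =
      (n + 1) ^ n * ((n + 1) * a * e ^ (n + 1) * h ^ (n + 1)) := by
    calc idx ^ n * ((n + 1) * a * e ^ (n + 1) * h ^ (n + 1))
        = idx ^ n * ((n + 1) * a * e ^ (n + 1)) * h ^ (n + 1) := by ring
      _ = ((n + 1) * h * e) ^ (n + 1) * a := key
      _ = (n + 1) ^ n * ((n + 1) * a * e ^ (n + 1) * h ^ (n + 1)) := by
        rw [mul_pow, mul_pow, pow_succ (n + 1) n]; ring
  exact Nat.pow_left_injective hn (Nat.eq_of_mul_eq_mul_right hT key')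

end Main

end Fermat.Agent.S55.helper913

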