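import Mathlib
import Fermat.Agent.S55.helper9554_LocalSpec
import Fermat.Agent.S55.helper8235_PowIndex
import Fermat.Agent.S55.helper913_NormIndex

/-!
# S55 (helper913): the local norm index statements of `helper9554_LocalSpec`, unconditional

For every finite extension `K` of `ℚ_[l]` inside `PadicAlgCl l` and every prime `p`
(`l = p` allowed, no root of unity needed for the first two):

* `stmt_LocalNormIdx l p : helper9554.Stmt_LocalNormIdx l p` : the norm group of every Galois
  extension `L/K` of degree `p` has index exactly `p` in `Kˣ`;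
* `stmt_LocalNormNotOnto l p : helper9554.Stmt_LocalNormNotOnto l p`;
* `stmt_LocalLB5 l p : helper9554.Stmt_LocalLB5 l p` : if `μ_p ⊆ K`, some norm from `Lˣ` is not a
  `p`-th power in `K`.

Inputs: the index of `p`-th powers (`helper8235.index_range_pow_units_padic`) and the
Chevalley counting lemma (`helper913.norm_index_of_powIndex`).
-/

set_option autoImplicit false

namespace Fermat.Agent.S55.helper913

open IntermediateField

/-- **Local norm index, prime degree.**  `K ⊆ L` finite extensions of `ℚ_[l]`, `L/K` Galois of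
prime degree `p` (any `l`, wild case `l = p` included): `[Kˣ : N_{L/K} Lˣ] = p`. -/
theorem norm_index_padic (l p : ℕ) [Fact l.Prime] [Fact p.Prime] (K L : Type) [Field K] [Field L]
    [Algebra ℚ_[l] K] [FiniteDimensional ℚ_[l] K] [Algebra ℚ_[l] L] [Algebra K L]
    [IsScalarTower ℚ_[l] K L] [FiniteDimensional K L] [IsGalois K L]
    (hrank : Module.finrank K L = p) :
    (MonoidHom.range (Units.map (Algebra.norm K : L →* K))).index = p := by
  have hp := (Fact.out : p.Prime)
  have : FiniteDimensional ℚ_[l] L := Module.Finite.trans K L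
  have hfin : Module.finrank ℚ_[l] L = Module.finrank ℚ_[l] K * p := by
    rw [← hrank, Module.finrank_mul_finrank]
  refine norm_index_of_powIndex hp hrank (if l = p then p ^ Module.finrank ℚ_[l] K else 1) ?_
    (helper8235.index_range_pow_units_padic l p K) ?_
  · split_ifs
    · exact pow_ne_zero _ hp.ne_zero
    · exact one_ne_zero
  · rw [helper8235.index_range_pow_units_padic l p L, hfin]
    split_ifs
    · rw [pow_mul]
    · rw [one_pow]

/-- If the norm group is a proper subgroup of `Kˣ`, some nonzero element of `K` is not a norm. -/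
theorem exists_not_norm_of_index_ne_one {K L : Type*} [Field K] [Field L] [Algebra K L]
    [FiniteDimensional K L]
    (h : (MonoidHom.range (Units.map (Algebra.norm K : L →* K))).index ≠ 1) :
    ∃ b : K, b ≠ 0 ∧ ∀ y : L, Algebra.norm K y ≠ b := by
  have hne : MonoidHom.range (Units.map (Algebra.norm K : L →* K)) ≠ ⊤ := by
    intro htop
    rw [htop, Subgroup.index_top] at h
    exact h rfl
  obtain ⟨b, hb⟩ : ∃ b : Kˣ, b ∉ MonoidHom.range (Units.map (Algebra.norm K : L →* K)) := by
    by_contra hcon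
    push Not at hcon
    exact hne (Subgroup.eq_top_iff' _ |>.2 hcon)
  refine ⟨b, b.ne_zero, fun z hz => hb ?_⟩
  have hz0 : z ≠ 0 := by
    rintro rfl
    rw [Algebra.norm_zero] at hz
    exact b.ne_zero hz.symm
  exact ⟨Units.mk0 z hz0, Units.ext hz⟩

/-- If the norm group has index `p` while the `p`-th powers have index `≠ p`... more precisely:
if the index of the `p`-th powers does not divide the index of the norm group, then some norm of
a nonzero element is not a `p`-th power. -/
theorem exists_norm_not_pow_of_not_dvd {K L : Type*} [Field K] [Field L] [Algebra K L]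
    [FiniteDimensional K L] (p : ℕ) (hp : p ≠ 0)
    (h : ¬ (powMonoidHom p : Kˣ →* Kˣ).range.index ∣
      (MonoidHom.range (Units.map (Algebra.norm K : L →* K))).index) :
    ∃ β : L, β ≠ 0 ∧ ¬ ∃ c : K, c ^ p = Algebra.norm K β := by
  by_contra hcon
  push Not at hcon
  apply h
  apply Subgroup.index_dvd_of_le
  rintro _ ⟨y, rfl⟩
  obtain ⟨c, hc⟩ := hcon (y : L) y.ne_zero
  have hN0 : Algebra.norm K (y : L) ≠ 0 := (Units.map (Algebra.norm K : L →* K) y).ne_zero
  have hc0 : c ≠ 0 := by
    rintro rfl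
    rw [zero_pow hp] at hc
    exact hN0 hc.symm
  exact ⟨Units.mk0 c hc0, Units.ext hc⟩

section Local

variable (l p : ℕ) [Fact l.Prime] [Fact p.Prime]

/-- `helper9554.Stmt_LocalNormIdx`, unconditional. -/
theorem stmt_LocalNormIdx : helper9554.Stmt_LocalNormIdx l p := by
  intro K hK L hGal hrank
  have hp := (Fact.out : p.Prime)
  have := hK
  have := hGal
  have : FiniteDimensional K L :=
    Module.finite_of_finrank_pos (by rw [hrank]; exact hp.pos)
  exact norm_index_padic l p K L hrank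

/-- `helper9554.Stmt_LocalNormNotOnto`, unconditional. -/
theorem stmt_LocalNormNotOnto : helper9554.Stmt_LocalNormNotOnto l p := by
  intro K hK L hGal hrank
  have hp := (Fact.out : p.Prime)
  have := hK
  have := hGal
  have : FiniteDimensional K L :=
    Module.finite_of_finrank_pos (by rw [hrank]; exact hp.pos)
  apply exists_not_norm_of_index_ne_one
  rw [stmt_LocalNormIdx l p K hK L hGal hrank]
  exact hp.one_lt.ne'

/-- `helper9554.Stmt_LocalLB5`, unconditional: for `μ_p ⊆ K`, a Galois extension `L/K` of degree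
`p` has a norm which is not a `p`-th power. -/
theorem stmt_LocalLB5 : helper9554.Stmt_LocalLB5 l p := by
  intro K hK hζ L hGal hrank
  obtain ⟨ζ, hζ⟩ := hζ
  have hp := (Fact.out : p.Prime)
  have := hK
  have := hGal
  have : NeZero p := ⟨hp.ne_zero⟩
  have : FiniteDimensional K L :=
    Module.finite_of_finrank_pos (by rw [hrank]; exact hp.pos)
  apply exists_norm_not_pow_of_not_dvd p hp.ne_zero
  rw [stmt_LocalNormIdx l p K hK L hGal hrank, helper8235.index_range_pow_units_padic l p K]
  have hcard : Nat.card (rootsOfUnity p K) = p := hζ.card_rootsOfUnity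
  rw [hcard]
  intro hdvd
  have hle := Nat.le_of_dvd hp.pos hdvd
  have he : 1 ≤ (if l = p then p ^ Module.finrank ℚ_[l] K else 1) := by
    split_ifs
    · exact Nat.one_le_pow _ _ hp.pos
    · exact le_refl 1
  have h2 := hp.two_le
  nlinarith [Nat.mul_le_mul (Nat.mul_le_mul h2 h2) he]

end Local


/-- In a commutative group of exponent `p` (prime) with at least `p ^ 2` elements there are two
independent elements. -/
theorem exists_two_independent_of_card {Q : Type*} [CommGroup Q] [Finite Q] {p : ℕ} (hp : p.Prime)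
    (hexp : ∀ q : Q, q ^ p = 1) (hcard : p ^ 2 ≤ Nat.card Q) :
    ∃ q₁ q₂ : Q, ∀ i j : ℕ, q₁ ^ i * q₂ ^ j = 1 → p ∣ i ∧ p ∣ j := by
  have h1 : 1 < Nat.card Q := lt_of_lt_of_le (by nlinarith [hp.two_le]) hcard
  have : Nontrivial Q := Finite.one_lt_card_iff_nontrivial.mp h1
  have : Fact p.Prime := ⟨hp⟩
  obtain ⟨q₁, hq₁⟩ := exists_ne (1 : Q)
  have hord : ∀ q : Q, q ≠ 1 → orderOf q = p := fun q hq =>
    orderOf_eq_prime (hexp q) hq
  have hz : Nat.card (Subgroup.zpowers q₁) = p := by
    rw [Nat.card_zpowers, hord q₁ hq₁]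
  have hne : Subgroup.zpowers q₁ ≠ ⊤ := by
    intro htop
    rw [htop, Subgroup.card_top] at hz
    rw [hz] at hcard
    nlinarith [hp.two_le]
  obtain ⟨q₂, hq₂⟩ : ∃ q₂ : Q, q₂ ∉ Subgroup.zpowers q₁ := by
    by_contra hcon
    push Not at hcon
    exact hne (Subgroup.eq_top_iff' _ |>.2 hcon)
  refine ⟨q₁, q₂, fun i j hij => ?_⟩
  have hj : p ∣ j := by
    by_contra hpj
    have hcop : Nat.Coprime j p := (Nat.Coprime.symm ((Nat.Prime.coprime_iff_not_dvd hp).2 hpj))
    apply hq₂
    have hmem : q₂ ^ j ∈ Subgroup.zpowers q₁ := by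
      have : q₂ ^ j = (q₁ ^ i)⁻¹ := eq_inv_of_mul_eq_one_right hij
      rw [this]
      exact Subgroup.inv_mem _ (Subgroup.pow_mem _ (Subgroup.mem_zpowers q₁) i)
    -- `q₂ = (q₂^j)^a * (q₂^p)^b`
    have hgcd : (Nat.gcd j p : ℤ) = j * Nat.gcdA j p + p * Nat.gcdB j p := Nat.gcd_eq_gcd_ab j p
    rw [hcop] at hgcd
    have : q₂ = (q₂ ^ j) ^ (Nat.gcdA j p) * (q₂ ^ p) ^ (Nat.gcdB j p) := by
      rw [← zpow_natCast q₂ j, ← zpow_natCast q₂ p, ← zpow_mul, ← zpow_mul, ← zpow_add, ← hgcd]
      simp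
    rw [this, hexp q₂, one_zpow, mul_one]
    exact Subgroup.zpow_mem _ hmem _
  refine ⟨?_, hj⟩
  obtain ⟨m, rfl⟩ := hj
  rw [pow_mul, hexp q₂, one_pow, mul_one] at hij
  rw [← hord q₁ hq₁]
  exact orderOf_dvd_of_pow_eq_one hij

/-- **Two independent classes mod `p`-th powers** in a finite extension of `ℚ_[l]` containing
`μ_p` (from the index of `p`-th powers `p * p * e ≥ p ^ 2`). -/
theorem exists_two_independent_mod_pow (l p : ℕ) [Fact l.Prime] [Fact p.Prime] (K : Type*)
    [Field K] [Algebra ℚ_[l] K] [FiniteDimensional ℚ_[l] K] (ζ : K) (hζ : IsPrimitiveRoot ζ p) :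
    ∃ b₁ b₂ : Kˣ, ∀ i j : ℕ,
      b₁ ^ i * b₂ ^ j ∈ (powMonoidHom p : Kˣ →* Kˣ).range → p ∣ i ∧ p ∣ j := by
  have hp := (Fact.out : p.Prime)
  have : NeZero p := ⟨hp.ne_zero⟩
  set P := (powMonoidHom p : Kˣ →* Kˣ).range with hP
  have hidx := helper8235.index_range_pow_units_padic l p K
  have hcardμ : Nat.card (rootsOfUnity p K) = p := hζ.card_rootsOfUnity
  rw [hcardμ] at hidx
  have he : 1 ≤ (if l = p then p ^ Module.finrank ℚ_[l] K else 1) := by
    split_ifs
    · exact Nat.one_le_pow _ _ hp.pos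
    · exact le_refl 1
  have hcard : p ^ 2 ≤ Nat.card (Kˣ ⧸ P) := by
    rw [← Subgroup.index_eq_card, hidx, pow_two]
    exact Nat.le_mul_of_pos_right _ (by omega)
  have : Finite (Kˣ ⧸ P) := Nat.finite_of_card_ne_zero (by
    have := hp.two_le
    nlinarith)
  have hexp : ∀ q : Kˣ ⧸ P, q ^ p = 1 := by
    intro q
    induction q using QuotientGroup.induction_on with
    | H x =>
      rw [← QuotientGroup.mk_pow, QuotientGroup.eq_one_iff]
      exact ⟨x, rfl⟩
  obtain ⟨q₁, q₂, hq⟩ := exists_two_independent_of_card hp hexp hcard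
  induction q₁ using QuotientGroup.induction_on with
  | H b₁ =>
    induction q₂ using QuotientGroup.induction_on with
    | H b₂ =>
      refine ⟨b₁, b₂, fun i j hij => hq i j ?_⟩
      rw [← QuotientGroup.mk_pow, ← QuotientGroup.mk_pow, ← QuotientGroup.mk_mul,
        QuotientGroup.eq_one_iff]
      exact hij

/-- Norm index `p`, generator form: if the norm group of `L/K` has prime index `p` in `Kˣ`, then
there is a non-norm `b₀`, and every nonzero `b` is `N(z) * b₀ ^ n` up to... precisely
`N z = b * b₀ ^ n` for some `n < p`. -/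
theorem exists_generator_of_norm_index {K L : Type*} [Field K] [Field L] [Algebra K L]
    [FiniteDimensional K L] {p : ℕ} (hp : p.Prime)
    (h : (MonoidHom.range (Units.map (Algebra.norm K : L →* K))).index = p) :
    ∃ b₀ : K, b₀ ≠ 0 ∧ (∀ y : L, Algebra.norm K y ≠ b₀) ∧
      ∀ b : K, b ≠ 0 → ∃ n < p, ∃ z : L, Algebra.norm K z = b * b₀ ^ n := by
  set H := MonoidHom.range (Units.map (Algebra.norm K : L →* K)) with hH
  have hne : H ≠ ⊤ := by
    intro htop
    rw [htop, Subgroup.index_top] at h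
    exact hp.one_lt.ne h
  obtain ⟨b₀, hb₀⟩ : ∃ b : Kˣ, b ∉ H := by
    by_contra hcon
    push Not at hcon
    exact hne (Subgroup.eq_top_iff' _ |>.2 hcon)
  have hcard : Nat.card (Kˣ ⧸ H) = p := by rw [← Subgroup.index_eq_card, h]
  have : Fact p.Prime := ⟨hp⟩
  have hq₀ : (QuotientGroup.mk b₀ : Kˣ ⧸ H) ≠ 1 := by
    rwa [Ne, QuotientGroup.eq_one_iff]
  have hgen : ∀ q : Kˣ ⧸ H, q ∈ Subgroup.zpowers (QuotientGroup.mk b₀ : Kˣ ⧸ H) :=
    fun q => mem_zpowers_of_prime_card hcard hq₀
  have hord : orderOf (QuotientGroup.mk b₀ : Kˣ ⧸ H) = p := by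
    rw [← Nat.card_zpowers, ← hcard]
    exact Nat.card_congr (Equiv.subtypeUnivEquiv hgen)
  refine ⟨b₀, b₀.ne_zero, fun y hy => hb₀ ?_, fun b hb => ?_⟩
  · have hy0 : y ≠ 0 := by
      rintro rfl
      rw [Algebra.norm_zero] at hy
      exact b₀.ne_zero hy.symm
    exact ⟨Units.mk0 y hy0, Units.ext hy⟩
  · have hfin : (QuotientGroup.mk (Units.mk0 b hb)⁻¹ : Kˣ ⧸ H) ∈
        Subgroup.zpowers (QuotientGroup.mk b₀ : Kˣ ⧸ H) := hgen _
    obtain ⟨k, hk⟩ := Subgroup.mem_zpowers_iff.mp hfin
    have hpz : (0 : ℤ) < p := by exact_mod_cast hp.pos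
    have hk0 := Int.emod_nonneg k hpz.ne'
    have hk1 := Int.emod_lt_of_pos k hpz
    refine ⟨(k % p).toNat, by omega, ?_⟩
    have hn' : (QuotientGroup.mk b₀ : Kˣ ⧸ H) ^ (k % p).toNat =
        QuotientGroup.mk (Units.mk0 b hb)⁻¹ := by
      rw [← zpow_natCast, Int.toNat_of_nonneg hk0, ← hord, zpow_mod_orderOf, hk]
    have hmem : Units.mk0 b hb * b₀ ^ (k % p).toNat ∈ H := by
      rw [← QuotientGroup.eq_one_iff, QuotientGroup.mk_mul, QuotientGroup.mk_pow, hn',
        QuotientGroup.mk_inv, mul_inv_cancel]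
    obtain ⟨z, hz⟩ := hmem
    refine ⟨(z : L), ?_⟩
    have := congrArg Units.val hz
    simpa using this


/-- **Local norm index, generator form** on the `PadicAlgCl` carrier: `K` finite over `ℚ_[l]`,
`L/K` Galois of degree `p` inside `PadicAlgCl l`.  There is a non-norm `b₀ ∈ Kˣ`, and every
`b ∈ Kˣ` satisfies `b * b₀ ^ n ∈ N(Lˣ)` for some `n < p`. -/
theorem exists_generator_of_norm_padic (l p : ℕ) [Fact l.Prime] [Fact p.Prime]
    (K : IntermediateField ℚ_[l] (PadicAlgCl l)) [FiniteDimensional ℚ_[l] K]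
    (L : IntermediateField K (PadicAlgCl l)) [IsGalois K L] (hrank : Module.finrank K L = p) :
    ∃ b₀ : K, b₀ ≠ 0 ∧ (∀ y : L, Algebra.norm K y ≠ b₀) ∧
      ∀ b : K, b ≠ 0 → ∃ n < p, ∃ z : L, Algebra.norm K z = b * b₀ ^ n := by
  have hp := (Fact.out : p.Prime)
  have : FiniteDimensional K L :=
    Module.finite_of_finrank_pos (by rw [hrank]; exact hp.pos)
  exact exists_generator_of_norm_index hp
    (stmt_LocalNormIdx l p K inferInstance L inferInstance hrank)

end Fermat.Agent.S55.helper913
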