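import Mathlib
import Fermat.Agent.S55.helper913_LocalNormIdx

/-!
# S55 (helper913): the norm index of a cyclic layer in INTRINSIC form

Inputs (NI), (PI) of the symbol-line assembly of `(LB1)` (helper164), on the concrete local
carrier `Γ = Gal(PadicAlgCl l / K)`, `K` finite over `ℚ_[l]`, with no `IsGalois` /
`Algebra.norm` / `extendScalars` in the statements:

* `intrinsic_norm_index_padic` (NI): `H ≤ Γ` open, `χ : H → ZMod p` a level-constant additive
  character, `χ σ = 1`.  The `σ`-norms `∏_{i<p} σ^i • y` of the `ker χ`-fixed units have index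
  exactly `p` in the `H`-fixed units (generator form).
* `intrinsic_two_independent_padic` (PI): if `ζ_p ∈ K`, the `H`-fixed units modulo `p`-th powers
  contain two independent classes.

Reusable layers:

* `norm_relIndex_of_powIndex` : Chevalley's count in multiplicative group form
  (`τ^p = 1`, Hilbert 90, the two indices of `p`-th powers ⟹ the norm group has index `p`);
* `layer_hilbert90` : Hilbert 90 for a cyclic layer `N ⊴ ⟨σ⟩N` of any Galois extension, by the
  Lagrange resolvent and Dedekind independence (no finite Galois group is ever formed);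
* `layer_norm_generator` : the norm index for an abstract layer `(H, N, σ)` of `Gal(Ω/K)`;
* `fixingSubgroup_fixedField_of_open`, `finrank_fixedField_of_open`, `charKer` and its lemmas.
-/

set_option autoImplicit false

namespace Fermat.Agent.S55.helper913

section GroupForm

variable {B : Type*} [CommGroup B]

/-- The index of the `p`-th powers of a subgroup `S` inside `S`, in `relIndex` form. -/
lemma relIndex_map_pow (S : Subgroup B) (p : ℕ) :
    (S.map (powMonoidHom p : B →* B)).relIndex S = (powMonoidHom p : S →* S).range.index := by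
  rw [Subgroup.relIndex]
  congr 1
  ext ⟨x, hx⟩
  simp only [Subgroup.mem_subgroupOf, Subgroup.mem_map, MonoidHom.mem_range, powMonoidHom_apply]
  constructor
  · rintro ⟨y, hy, hyx⟩
    exact ⟨⟨y, hy⟩, Subtype.ext hyx⟩
  · rintro ⟨y, hy⟩
    exact ⟨y, y.2, congrArg Subtype.val hy⟩

/-- The `p`-torsion of a subgroup `S`, as a subgroup of the ambient group. -/
lemma card_ker_pow_inf (S : Subgroup B) (p : ℕ) :
    Nat.card ↥((powMonoidHom p : B →* B).ker ⊓ S) = Nat.card (powMonoidHom p : S →* S).ker :=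
  Nat.card_congr
    { toFun := fun a => ⟨⟨a.1, a.2.2⟩, Subtype.ext a.2.1⟩
      invFun := fun s => ⟨s.1.1, ⟨congrArg Subtype.val s.2, s.1.2⟩⟩
      left_inv := fun _ => rfl
      right_inv := fun _ => rfl }

lemma toAdditive_iterate (τ : B →* B) (i : ℕ) (a : Additive B) :
    (MonoidHom.toAdditive τ)^[i] a = Additive.ofMul (τ^[i] a.toMul) := by
  induction i generalizing a with
  | zero => rfl
  | succ i ih =>
    rw [Function.iterate_succ_apply, ih, Function.iterate_succ_apply]
    rfl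

/-- **Chevalley's norm index, group form.**  `B` a commutative group, `τ` an endomorphism with
`τ^p = 1` (`p` prime), `S` its subgroup of fixed points, Hilbert 90 for `τ`, and the indices of
`p`-th powers `[B : B^p] = p * #B[p] * e^p`, `[S : S^p] = p * #S[p] * e`.  Then the group of
`τ`-norms `∏_{i<p} τ^i y` has index exactly `p` in `S`. -/
theorem norm_relIndex_of_powIndex (τ : B →* B) {p : ℕ} (hp : p.Prime)
    (hτ : ∀ y, τ^[p] y = y) (S : Subgroup B) (hS : ∀ y, y ∈ S ↔ τ y = y)
    (Nm : B →* B) (hNm : ∀ y, Nm y = ∏ i ∈ Finset.range p, τ^[i] y)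
    (h90 : ∀ y, Nm y = 1 → ∃ z, y = z / τ z)
    (e : ℕ) (he : e ≠ 0)
    (hkB : Nat.card (powMonoidHom p : B →* B).ker ≠ 0)
    (hkS : Nat.card (powMonoidHom p : S →* S).ker ≠ 0)
    (hB : (powMonoidHom p : B →* B).range.index =
      p * Nat.card (powMonoidHom p : B →* B).ker * e ^ p)
    (hSi : (powMonoidHom p : S →* S).range.index =
      p * Nat.card (powMonoidHom p : S →* S).ker * e) :
    Nm.range.relIndex S = p := by
  set σ : Additive B →+ Additive B := MonoidHom.toAdditive τ with hσ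
  set ν : Additive B →+ Additive B := MonoidHom.toAdditive Nm with hν
  set H : AddSubgroup (Additive B) := Subgroup.toAddSubgroup S with hH
  have h1 : ∀ a, σ^[p] a = a := by
    intro a
    rw [hσ, toAdditive_iterate, hτ]
    rfl
  have h2 : ∀ a, ν a = ∑ i ∈ Finset.range p, σ^[i] a := by
    intro a
    apply Additive.toMul.injective
    rw [toMul_sum]
    have hfac : ∀ i ∈ Finset.range p, (σ^[i] a).toMul = τ^[i] a.toMul :=
      fun i _ => by rw [hσ, toAdditive_iterate]; rfl
    rw [Finset.prod_congr rfl hfac]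
    exact hNm a.toMul
  have h3 : ∀ a, ν a = 0 → ∃ b, a = b - σ b := by
    intro a ha
    obtain ⟨z, hz⟩ := h90 a.toMul (congrArg Additive.toMul ha)
    exact ⟨Additive.ofMul z, congrArg Additive.ofMul hz⟩
  have h4 : ∀ a, a ∈ H ↔ σ a = a := by
    intro a
    constructor
    · intro ha
      exact congrArg Additive.ofMul ((hS a.toMul).1 ha)
    · intro ha
      exact (hS a.toMul).2 (congrArg Additive.toMul ha)
  have hcA : (nsmulAddMonoidHom (α := Additive B) p).range.index =
      p * Nat.card (powMonoidHom p : B →* B).ker * e ^ p := by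
    rw [index_range_nsmul, hB]
  have hkA : Nat.card (nsmulAddMonoidHom (α := Additive B) p).ker =
      Nat.card (powMonoidHom p : B →* B).ker := card_ker_nsmul B p
  have hmap : H.map (nsmulAddMonoidHom p) =
      Subgroup.toAddSubgroup (S.map (powMonoidHom p : B →* B)) := by
    ext a
    constructor
    · rintro ⟨b, hb, rfl⟩
      exact ⟨b.toMul, hb, rfl⟩
    · rintro ⟨y, hy, hya⟩
      exact ⟨Additive.ofMul y, hy, hya⟩
  have hcH : (H.map (nsmulAddMonoidHom p)).relIndex H =
      p * Nat.card (powMonoidHom p : S →* S).ker * e := by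
    rw [hmap, hH, Subgroup.relIndex_toAddSubgroup, relIndex_map_pow, hSi]
  have hkH : Nat.card ↥((nsmulAddMonoidHom (α := Additive B) p).ker ⊓ H) =
      Nat.card (powMonoidHom p : S →* S).ker := by
    rw [← card_ker_pow_inf]
    exact Nat.card_congr
      { toFun := fun a => ⟨a.1.toMul, a.2⟩
        invFun := fun y => ⟨Additive.ofMul y.1, y.2⟩
        left_inv := fun _ => rfl
        right_inv := fun _ => rfl }
  have hidx : ν.range.relIndex H = Nm.range.relIndex S := by
    have : ν.range = Subgroup.toAddSubgroup Nm.range := by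
      ext a
      constructor
      · rintro ⟨b, rfl⟩
        exact ⟨b.toMul, rfl⟩
      · rintro ⟨y, hy⟩
        exact ⟨Additive.ofMul y, hy⟩
    rw [this, hH, Subgroup.relIndex_toAddSubgroup]
  have key := chevalley_endo σ hp h1 ν h2 h3 H h4
    (by rw [hcA]; exact mul_ne_zero (mul_ne_zero hp.ne_zero hkB) (pow_ne_zero _ he))
    (by rw [hkA]; exact hkB)
    (by rw [hcH]; exact mul_ne_zero (mul_ne_zero hp.ne_zero hkS) he)
    (by rw [hkH]; exact hkS)
  rw [hcA, hkA, hcH, hkH, hidx] at key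
  set idx := Nm.range.relIndex S with hidx'
  set a := Nat.card (powMonoidHom p : B →* B).ker with ha
  set h := Nat.card (powMonoidHom p : S →* S).ker with hh
  obtain ⟨n, rfl⟩ : ∃ n, p = n + 1 := ⟨p - 1, by have := hp.pos; omega⟩
  simp only [Nat.add_sub_cancel] at key
  have hn : n ≠ 0 := by
    rintro rfl
    exact Nat.not_prime_one hp
  have hT : 0 < (n + 1) * a * e ^ (n + 1) * h ^ (n + 1) :=
    Nat.pos_of_ne_zero (mul_ne_zero (mul_ne_zero (mul_ne_zero (Nat.succ_ne_zero n) hkB)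
      (pow_ne_zero _ he)) (pow_ne_zero _ hkS))
  have key' : idx ^ n * ((n + 1) * a * e ^ (n + 1) * h ^ (n + 1)) =
      (n + 1) ^ n * ((n + 1) * a * e ^ (n + 1) * h ^ (n + 1)) := by
    calc idx ^ n * ((n + 1) * a * e ^ (n + 1) * h ^ (n + 1))
        = idx ^ n * ((n + 1) * a * e ^ (n + 1)) * h ^ (n + 1) := by ring
      _ = ((n + 1) * h * e) ^ (n + 1) * a := key
      _ = (n + 1) ^ n * ((n + 1) * a * e ^ (n + 1) * h ^ (n + 1)) := by
        rw [mul_pow, mul_pow, pow_succ (n + 1) n]; ring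
  exact Nat.pow_left_injective hn (Nat.eq_of_mul_eq_mul_right hT key')

end GroupForm


open IntermediateField

section Layer

variable {K Ω : Type*} [Field K] [Field Ω] [Algebra K Ω]

/-- The units of `Ω` fixed by a subgroup `N` of `Gal(Ω/K)`. -/
def fixedUnits (N : Subgroup (Ω ≃ₐ[K] Ω)) : Subgroup Ωˣ where
  carrier := {u | ∀ n ∈ N, n • u = u}
  one_mem' := fun n _ => smul_one n
  mul_mem' := fun {a b} ha hb n hn => by rw [smul_mul', ha n hn, hb n hn]
  inv_mem' := fun {a} ha n hn => by rw [smul_inv', ha n hn]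

lemma mem_fixedUnits {N : Subgroup (Ω ≃ₐ[K] Ω)} {u : Ωˣ} :
    u ∈ fixedUnits N ↔ ∀ n ∈ N, n • u = u := Iff.rfl

lemma mem_fixedUnits_iff_val {N : Subgroup (Ω ≃ₐ[K] Ω)} {u : Ωˣ} :
    u ∈ fixedUnits N ↔ (u : Ω) ∈ fixedField N := by
  rw [mem_fixedUnits, mem_fixedField_iff]
  constructor
  · intro h n hn
    have := congrArg Units.val (h n hn)
    simpa [AlgEquiv.smul_units_def] using this
  · intro h n hn
    apply Units.ext
    simpa [AlgEquiv.smul_units_def] using h n hn

lemma fixedUnits_antitone {N H : Subgroup (Ω ≃ₐ[K] Ω)} (h : N ≤ H) :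
    fixedUnits H ≤ fixedUnits N := fun _ hu n hn => hu n (h hn)

/-- The fixed units of `N` are the units of the fixed field of `N`. -/
def fixedUnitsEquiv (N : Subgroup (Ω ≃ₐ[K] Ω)) : fixedUnits N ≃* (fixedField N)ˣ where
  toFun u :=
    { val := ⟨(u.1 : Ω), mem_fixedUnits_iff_val.1 u.2⟩
      inv := ⟨((u.1⁻¹ : Ωˣ) : Ω), mem_fixedUnits_iff_val.1 (inv_mem u.2)⟩
      val_inv := Subtype.ext (by simp)
      inv_val := Subtype.ext (by simp) }
  invFun v := ⟨Units.map ((fixedField N).val : fixedField N →* Ω) v,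
    mem_fixedUnits_iff_val.2 (by simp)⟩
  left_inv u := Subtype.ext (Units.ext rfl)
  right_inv v := Units.ext (Subtype.ext rfl)
  map_mul' u v := Units.ext (Subtype.ext rfl)

/-- An automorphism normalising `N` (in the weak sense `σ⁻¹ N σ ⊆ N`) preserves the fixed
units of `N`. -/
lemma smul_mem_fixedUnits {N : Subgroup (Ω ≃ₐ[K] Ω)} {σ : Ω ≃ₐ[K] Ω}
    (hconj : ∀ n ∈ N, σ⁻¹ * n * σ ∈ N) {u : Ωˣ} (hu : u ∈ fixedUnits N) :
    σ • u ∈ fixedUnits N := by
  intro n hn
  have h1 := hu _ (hconj n hn)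
  calc n • σ • u = σ • ((σ⁻¹ * n * σ) • u) := by
        rw [← mul_smul, ← mul_smul]
        congr 1
        group
    _ = σ • u := by rw [h1]

lemma pow_smul_mem_fixedUnits {N : Subgroup (Ω ≃ₐ[K] Ω)} {σ : Ω ≃ₐ[K] Ω}
    (hconj : ∀ n ∈ N, σ⁻¹ * n * σ ∈ N) {u : Ωˣ} (hu : u ∈ fixedUnits N) (i : ℕ) :
    (σ ^ i) • u ∈ fixedUnits N := by
  induction i with
  | zero => simpa using hu
  | succ i ih =>
    rw [pow_succ', mul_smul]
    exact smul_mem_fixedUnits hconj ih

/-- The action of `σ` on the fixed units of `N`. -/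
def layerAct (N : Subgroup (Ω ≃ₐ[K] Ω)) (σ : Ω ≃ₐ[K] Ω)
    (hconj : ∀ n ∈ N, σ⁻¹ * n * σ ∈ N) : fixedUnits N →* fixedUnits N where
  toFun u := ⟨σ • u.1, smul_mem_fixedUnits hconj u.2⟩
  map_one' := Subtype.ext (smul_one σ)
  map_mul' u v := Subtype.ext (smul_mul' σ u.1 v.1)

lemma layerAct_iterate (N : Subgroup (Ω ≃ₐ[K] Ω)) (σ : Ω ≃ₐ[K] Ω)
    (hconj : ∀ n ∈ N, σ⁻¹ * n * σ ∈ N) (i : ℕ) (u : fixedUnits N) :
    (((layerAct N σ hconj)^[i] u : fixedUnits N) : Ωˣ) = (σ ^ i) • (u : Ωˣ) := by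
  induction i generalizing u with
  | zero => simp
  | succ i ih =>
    rw [Function.iterate_succ_apply', pow_succ', mul_smul, ← ih]
    rfl

/-- **Hilbert 90 for a cyclic layer, intrinsic form.**  `N ≤ Gal(Ω/K)` a subgroup which is the
fixing subgroup of its fixed field, `σ` normalising `N` with `σ^p ∈ N` and `σ^i ∉ N` for
`0 < i < p`.  If `u` is an `N`-fixed unit with `∏_{i<p} σ^i u = 1`, then `u = z / σ z` for an
`N`-fixed unit `z`. -/
theorem layer_hilbert90 {p : ℕ} (hp : 0 < p) (N : Subgroup (Ω ≃ₐ[K] Ω)) (σ : Ω ≃ₐ[K] Ω)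
    (hconj : ∀ n ∈ N, σ⁻¹ * n * σ ∈ N) (hpow : σ ^ p ∈ N)
    (hfree : ∀ i, 0 < i → i < p → σ ^ i ∉ N)
    (hclosed : (fixedField N).fixingSubgroup ≤ N)
    (u : Ωˣ) (hu : u ∈ fixedUnits N) (hnorm : ∏ i ∈ Finset.range p, (σ ^ i) • u = 1) :
    ∃ z : Ωˣ, z ∈ fixedUnits N ∧ u = z / σ • z := by
  classical
  -- the partial products
  set c : ℕ → Ω := fun i => ∏ j ∈ Finset.range i, (σ ^ j) (u : Ω) with hc
  have hc0 : c 0 = 1 := by simp [hc]
  have hcp : c p = 1 := by
    have := congrArg Units.val hnorm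
    rw [Units.coe_prod] at this
    simpa [hc, AlgEquiv.smul_units_def] using this
  have hcs : ∀ i, c (i + 1) = u * σ (c i) := by
    intro i
    simp only [hc]
    rw [Finset.prod_range_succ', map_prod, pow_zero, mul_comm]
    congr 1
    refine Finset.prod_congr rfl fun j _ => ?_
    rw [pow_succ']
    rfl
  have hmemσ : ∀ (i : ℕ) (x : Ω), x ∈ fixedField N → (σ ^ i) x ∈ fixedField N := by
    intro i x hx
    by_cases hx0 : x = 0
    · subst hx0
      simp
    · have h1 : (Units.mk0 x hx0) ∈ fixedUnits N := mem_fixedUnits_iff_val.2 hx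
      have h2 := pow_smul_mem_fixedUnits hconj h1 i
      have h3 := mem_fixedUnits_iff_val.1 h2
      simpa [AlgEquiv.smul_units_def] using h3
  have huN : (u : Ω) ∈ fixedField N := mem_fixedUnits_iff_val.1 hu
  have hcN : ∀ i, c i ∈ fixedField N := fun i =>
    prod_mem fun j _ => hmemσ j _ huN
  -- the resolvent
  set R : Ω → Ω := fun θ => ∑ i ∈ Finset.range p, c i * (σ ^ i) θ with hR
  have hRN : ∀ θ ∈ fixedField N, R θ ∈ fixedField N := fun θ hθ =>
    sum_mem fun i _ => mul_mem (hcN i) (hmemσ i θ hθ)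
  have hRσ : ∀ θ ∈ fixedField N, (u : Ω) * σ (R θ) = R θ := by
    intro θ hθ
    set g : ℕ → Ω := fun i => c i * (σ ^ i) θ with hg
    have h1 : (u : Ω) * σ (R θ) = ∑ i ∈ Finset.range p, g (i + 1) := by
      simp only [hR, map_sum, Finset.mul_sum, map_mul]
      refine Finset.sum_congr rfl fun i _ => ?_
      simp only [hg]
      rw [hcs i, pow_succ', mul_assoc]
      rfl
    have h2 := Finset.sum_range_succ' g p
    have h3 := Finset.sum_range_succ g p
    have hg0 : g 0 = θ := by simp [hg, hc0]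
    have hgp : g p = θ := by
      simp only [hg, hcp, one_mul]
      exact (mem_fixedField_iff _ θ).1 hθ _ hpow
    rw [h1]
    have : ∑ i ∈ Finset.range p, g (i + 1) = ∑ i ∈ Finset.range p, g i := by
      have := h2.symm.trans h3
      rw [hg0, hgp] at this
      exact add_right_cancel this
    rw [this]
  -- a point where the resolvent does not vanish (independence of characters)
  obtain ⟨θ, hθ, hRθ⟩ : ∃ θ ∈ fixedField N, R θ ≠ 0 := by
    by_contra hcon
    push Not at hcon
    let f : Fin p → (fixedField N →* Ω) := fun i =>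
      ((σ ^ (i : ℕ) : Ω ≃ₐ[K] Ω) : Ω →* Ω).comp ((fixedField N).val : fixedField N →* Ω)
    have hfapp : ∀ (i : Fin p) (x : fixedField N), f i x = (σ ^ (i : ℕ)) (x : Ω) := fun _ _ => rfl
    have hinj : Function.Injective f := by
      intro i j hij
      by_contra hne
      wlog hlt : (i : ℕ) < j generalizing i j
      · exact this hij.symm (Ne.symm hne)
          (lt_of_le_of_ne (not_lt.1 hlt) (fun h => hne (Fin.ext h.symm)))
      apply hfree (j - i) (by omega) (by have := j.2; omega)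
      apply hclosed
      rw [IntermediateField.mem_fixingSubgroup_iff]
      intro x hx
      have h1 := DFunLike.congr_fun hij ⟨x, hx⟩
      rw [hfapp, hfapp] at h1
      have h2 : (σ ^ (j : ℕ)) x = (σ ^ (i : ℕ)) ((σ ^ ((j : ℕ) - i)) x) := by
        rw [← AlgEquiv.mul_apply, ← pow_add, Nat.add_sub_cancel' hlt.le]
      rw [h2] at h1
      exact ((σ ^ (i : ℕ)).injective h1).symm
    have hli := (linearIndependent_monoidHom (fixedField N) Ω).comp f hinj
    have hzero : ∑ i : Fin p, c (i : ℕ) • ((f i : fixedField N →* Ω) : fixedField N → Ω) = 0 := by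
      funext x
      rw [Finset.sum_apply]
      simp only [Pi.smul_apply, smul_eq_mul, Pi.zero_apply]
      have := hcon x.1 x.2
      simp only [hR] at this
      rw [← this, Finset.sum_range]
      rfl
    have hall := Fintype.linearIndependent_iff.1 hli (fun i => c (i : ℕ)) hzero ⟨0, hp⟩
    simp only [hc0] at hall
    exact one_ne_zero hall
  refine ⟨Units.mk0 (R θ) hRθ, mem_fixedUnits_iff_val.2 (hRN θ hθ), ?_⟩
  rw [eq_div_iff_mul_eq']
  apply Units.ext
  simp only [Units.val_mul, AlgEquiv.smul_units_def, Units.coe_map, MonoidHom.coe_coe,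
    Units.val_mk0]
  exact hRσ θ hθ


/-- A subgroup of prime index `p` of a commutative group: any element outside it generates the
quotient. -/
theorem exists_generator_of_index_prime {G : Type*} [CommGroup G] (R : Subgroup G) {p : ℕ}
    (hp : p.Prime) (h : R.index = p) :
    ∃ b₀ : G, b₀ ∉ R ∧ ∀ b : G, ∃ n < p, b * b₀ ^ n ∈ R := by
  have hne : R ≠ ⊤ := by
    intro htop
    rw [htop, Subgroup.index_top] at h
    exact hp.one_lt.ne h
  obtain ⟨b₀, hb₀⟩ : ∃ b : G, b ∉ R := by
    by_contra hcon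
    push Not at hcon
    exact hne (Subgroup.eq_top_iff' _ |>.2 hcon)
  have hcard : Nat.card (G ⧸ R) = p := by rw [← Subgroup.index_eq_card, h]
  have : Fact p.Prime := ⟨hp⟩
  have hq₀ : (QuotientGroup.mk b₀ : G ⧸ R) ≠ 1 := by
    rwa [Ne, QuotientGroup.eq_one_iff]
  have hgen : ∀ q : G ⧸ R, q ∈ Subgroup.zpowers (QuotientGroup.mk b₀ : G ⧸ R) :=
    fun q => mem_zpowers_of_prime_card hcard hq₀
  have hord : orderOf (QuotientGroup.mk b₀ : G ⧸ R) = p := by
    rw [← Nat.card_zpowers, ← hcard]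
    exact Nat.card_congr (Equiv.subtypeUnivEquiv hgen)
  refine ⟨b₀, hb₀, fun b => ?_⟩
  have hfin : (QuotientGroup.mk b⁻¹ : G ⧸ R) ∈
      Subgroup.zpowers (QuotientGroup.mk b₀ : G ⧸ R) := hgen _
  obtain ⟨k, hk⟩ := Subgroup.mem_zpowers_iff.mp hfin
  have hpz : (0 : ℤ) < p := by exact_mod_cast hp.pos
  have hk0 := Int.emod_nonneg k hpz.ne'
  have hk1 := Int.emod_lt_of_pos k hpz
  refine ⟨(k % p).toNat, by omega, ?_⟩
  have hn' : (QuotientGroup.mk b₀ : G ⧸ R) ^ (k % p).toNat = QuotientGroup.mk b⁻¹ := by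
    rw [← zpow_natCast, Int.toNat_of_nonneg hk0, ← hord, zpow_mod_orderOf, hk]
  rw [← QuotientGroup.eq_one_iff, QuotientGroup.mk_mul, QuotientGroup.mk_pow, hn',
    QuotientGroup.mk_inv, mul_inv_cancel]

/-- **Norm index of a cyclic layer of prime degree, intrinsic form.**  `H ≥ N` subgroups of
`Gal(Ω/K)`, `σ ∈ H` with `H = ⋃ σ^i N`, `σ^p ∈ N`, `σ^i ∉ N` for `0 < i < p`, `N` the fixing
subgroup of its fixed field.  If the indices of `p`-th powers in the two fixed fields are
`p * #μ_p * e` and `p * #μ_p * e^p`, then the group of `σ`-norms of `N`-fixed units has index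
exactly `p` in the `H`-fixed units (generator form). -/
theorem layer_norm_generator {p : ℕ} (hp : p.Prime) (H N : Subgroup (Ω ≃ₐ[K] Ω))
    (σ : Ω ≃ₐ[K] Ω) (hNH : N ≤ H) (hσH : σ ∈ H) (hconj : ∀ n ∈ N, σ⁻¹ * n * σ ∈ N)
    (hpow : σ ^ p ∈ N) (hgen : ∀ h ∈ H, ∃ i : ℕ, (σ ^ i)⁻¹ * h ∈ N)
    (hfree : ∀ i, 0 < i → i < p → σ ^ i ∉ N)
    (hclosed : (fixedField N).fixingSubgroup ≤ N)
    (e : ℕ) (he : e ≠ 0)
    (hK : (powMonoidHom p : (fixedField H)ˣ →* (fixedField H)ˣ).range.index =
      p * Nat.card (rootsOfUnity p (fixedField H)) * e)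
    (hL : (powMonoidHom p : (fixedField N)ˣ →* (fixedField N)ˣ).range.index =
      p * Nat.card (rootsOfUnity p (fixedField N)) * e ^ p) :
    ∃ b₀ : Ωˣ, b₀ ∈ fixedUnits H ∧
      (¬ ∃ y ∈ fixedUnits N, b₀ = ∏ i ∈ Finset.range p, (σ ^ i) • y) ∧
      ∀ b ∈ fixedUnits H, ∃ n < p, ∃ y ∈ fixedUnits N,
        b * b₀ ^ n = ∏ i ∈ Finset.range p, (σ ^ i) • y := by
  have : NeZero p := ⟨hp.ne_zero⟩
  set τ := layerAct N σ hconj with hτdef
  set S : Subgroup (fixedUnits N) := (fixedUnits H).subgroupOf (fixedUnits N) with hSdef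
  have hiter : ∀ (i : ℕ) (y : fixedUnits N), ((τ^[i] y : fixedUnits N) : Ωˣ) = (σ ^ i) • (y : Ωˣ) :=
    fun i y => layerAct_iterate N σ hconj i y
  let Nm : fixedUnits N →* fixedUnits N :=
    { toFun := fun y => ∏ i ∈ Finset.range p, τ^[i] y
      map_one' := by
        apply Finset.prod_eq_one
        intro i _
        exact iterate_map_one τ i
      map_mul' := fun x y => by
        rw [← Finset.prod_mul_distrib]
        exact Finset.prod_congr rfl fun i _ => iterate_map_mul τ i x y }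
  have hNm : ∀ y, Nm y = ∏ i ∈ Finset.range p, τ^[i] y := fun _ => rfl
  have hNmval : ∀ y : fixedUnits N, ((Nm y : fixedUnits N) : Ωˣ) =
      ∏ i ∈ Finset.range p, (σ ^ i) • (y : Ωˣ) := by
    intro y
    rw [hNm, Subgroup.val_finsetProd]
    exact Finset.prod_congr rfl fun i _ => hiter i y
  have h1 : ∀ y, τ^[p] y = y := by
    intro y
    apply Subtype.ext
    rw [hiter]
    exact y.2 _ hpow
  have h2 : ∀ y, y ∈ S ↔ τ y = y := by
    intro y
    rw [hSdef, Subgroup.mem_subgroupOf]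
    constructor
    · intro hy
      exact Subtype.ext (hy σ hσH)
    · intro hy h hh
      obtain ⟨i, hi⟩ := hgen h hh
      have hy' : σ • (y : Ωˣ) = y := congrArg Subtype.val hy
      have hpowfix : ∀ j : ℕ, (σ ^ j) • (y : Ωˣ) = y := by
        intro j
        induction j with
        | zero => simp
        | succ j ih => rw [pow_succ, mul_smul, hy', ih]
      have : h = σ ^ i * ((σ ^ i)⁻¹ * h) := by group
      rw [this, mul_smul, y.2 _ hi, hpowfix]
  have h3 : ∀ y, Nm y = 1 → ∃ z, y = z / τ z := by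
    intro y hy
    have hy' : ∏ i ∈ Finset.range p, (σ ^ i) • (y : Ωˣ) = 1 := by
      rw [← hNmval, hy]
      rfl
    obtain ⟨z, hz, hyz⟩ := layer_hilbert90 hp.pos N σ hconj hpow hfree hclosed y.1 y.2 hy'
    exact ⟨⟨z, hz⟩, Subtype.ext hyz⟩
  -- the counts
  have hkB : Nat.card (powMonoidHom p : fixedUnits N →* fixedUnits N).ker =
      Nat.card (rootsOfUnity p (fixedField N)) := by
    rw [← helper8235.card_ker_pow_congr (fixedUnitsEquiv N) p, ker_powMonoidHom_units]
  have hB : (powMonoidHom p : fixedUnits N →* fixedUnits N).range.index =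
      p * Nat.card (powMonoidHom p : fixedUnits N →* fixedUnits N).ker * e ^ p := by
    rw [hkB, ← helper8235.index_range_pow_congr (fixedUnitsEquiv N) p, hL]
  let eS : S ≃* (fixedField H)ˣ :=
    (Subgroup.subgroupOfEquivOfLe (fixedUnits_antitone hNH)).trans (fixedUnitsEquiv H)
  have hkS : Nat.card (powMonoidHom p : S →* S).ker =
      Nat.card (rootsOfUnity p (fixedField H)) := by
    rw [← helper8235.card_ker_pow_congr eS p, ker_powMonoidHom_units]
  have hSi : (powMonoidHom p : S →* S).range.index =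
      p * Nat.card (powMonoidHom p : S →* S).ker * e := by
    rw [hkS, ← helper8235.index_range_pow_congr eS p, hK]
  have hrel : Nm.range.relIndex S = p :=
    norm_relIndex_of_powIndex τ hp h1 S h2 Nm hNm h3 e he
      (by rw [hkB]; exact Nat.card_pos.ne') (by rw [hkS]; exact Nat.card_pos.ne') hB hSi
  -- generator form
  obtain ⟨b₀, hb₀, hall⟩ := exists_generator_of_index_prime (Nm.range.subgroupOf S) hp hrel
  refine ⟨((b₀ : fixedUnits N) : Ωˣ), b₀.2, ?_, ?_⟩
  · rintro ⟨y, hy, hby⟩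
    apply hb₀
    rw [Subgroup.mem_subgroupOf]
    refine ⟨⟨y, hy⟩, Subtype.ext ?_⟩
    rw [hNmval, hby]
  · intro b hb
    obtain ⟨n, hn, hmem⟩ := hall ⟨⟨b, fixedUnits_antitone hNH hb⟩, hb⟩
    rw [Subgroup.mem_subgroupOf] at hmem
    obtain ⟨y, hy⟩ := hmem
    refine ⟨n, hn, y.1, y.2, ?_⟩
    have hval : ((Nm y : fixedUnits N) : Ωˣ) = b * (b₀ : Ωˣ) ^ n := by
      rw [hy]
      rfl
    rw [← hval, hNmval]

end Layer


open IntermediateField

section Open

variable {K Ω : Type*} [Field K] [Field Ω] [Algebra K Ω] [IsGalois K Ω]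

/-- An open subgroup of `Gal(Ω/K)` (one containing the fixing subgroup of a finite subextension)
is the fixing subgroup of its fixed field. -/
lemma fixingSubgroup_fixedField_of_open (H : Subgroup (Ω ≃ₐ[K] Ω))
    (hH : ∃ E : IntermediateField K Ω, FiniteDimensional K E ∧ E.fixingSubgroup ≤ H) :
    (fixedField H).fixingSubgroup = H := by
  obtain ⟨E, hE, hEH⟩ := hH
  have hopen : IsOpen (H : Set (Ω ≃ₐ[K] Ω)) :=
    Subgroup.isOpen_mono hEH (IntermediateField.fixingSubgroup_isOpen E)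
  have hclosed : IsClosed (H : Set (Ω ≃ₐ[K] Ω)) := Subgroup.isClosed_of_isOpen H hopen
  exact InfiniteGalois.fixingSubgroup_fixedField ⟨H, hclosed⟩

/-- The fixed field of an open subgroup is finite over the base. -/
lemma finiteDimensional_fixedField_of_open (H : Subgroup (Ω ≃ₐ[K] Ω))
    (hH : ∃ E : IntermediateField K Ω, FiniteDimensional K E ∧ E.fixingSubgroup ≤ H) :
    FiniteDimensional K (fixedField H) := by
  obtain ⟨E, hE, hEH⟩ := hH
  have hle : fixedField H ≤ E := by
    have := IntermediateField.fixedField_antitone hEH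
    rwa [InfiniteGalois.fixedField_fixingSubgroup] at this
  exact Module.Finite.of_injective (IntermediateField.inclusion hle).toLinearMap
    (IntermediateField.inclusion hle).injective

/-- The degree of the fixed field of an open subgroup is its index. -/
lemma finrank_fixedField_of_open (H : Subgroup (Ω ≃ₐ[K] Ω))
    (hH : ∃ E : IntermediateField K Ω, FiniteDimensional K E ∧ E.fixingSubgroup ≤ H) :
    Module.finrank K (fixedField H) = H.index := by
  rw [IntermediateField.finrank_eq_fixingSubgroup_index, fixingSubgroup_fixedField_of_open H hH]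

end Open

section Char

variable {Γ : Type*} [Group Γ] {p : ℕ}

/-- The kernel of an additive character `χ : H → ZMod p` of a subgroup `H`, as a subgroup of the
ambient group. -/
def charKer (H : Subgroup Γ) (χ : H → ZMod p) (hadd : ∀ g h, χ (g * h) = χ g + χ h) :
    Subgroup Γ where
  carrier := {g | ∃ h : g ∈ H, χ ⟨g, h⟩ = 0}
  one_mem' := ⟨H.one_mem, by
    have h := hadd 1 1
    rw [mul_one] at h
    have h' : χ 1 = 0 := by simpa using h
    exact h'⟩
  mul_mem' := by
    rintro a b ⟨ha, ha0⟩ ⟨hb, hb0⟩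
    refine ⟨H.mul_mem ha hb, ?_⟩
    have := hadd ⟨a, ha⟩ ⟨b, hb⟩
    rw [ha0, hb0, add_zero] at this
    exact this
  inv_mem' := by
    rintro a ⟨ha, ha0⟩
    refine ⟨H.inv_mem ha, ?_⟩
    have h1 := hadd ⟨a, ha⟩ ⟨a⁻¹, H.inv_mem ha⟩
    have h0 : χ 1 = 0 := by
      have h := hadd 1 1
      rw [mul_one] at h
      simpa using h
    have h2 : (⟨a, ha⟩ : H) * ⟨a⁻¹, H.inv_mem ha⟩ = 1 := Subtype.ext (mul_inv_cancel a)
    rw [h2, h0, ha0, zero_add] at h1
    exact h1.symm

variable (H : Subgroup Γ) (χ : H → ZMod p) (hadd : ∀ g h, χ (g * h) = χ g + χ h)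

lemma mem_charKer {g : Γ} : g ∈ charKer H χ hadd ↔ ∃ h : g ∈ H, χ ⟨g, h⟩ = 0 := Iff.rfl

lemma charKer_le : charKer H χ hadd ≤ H := fun _ hg => hg.1

include hadd in
lemma char_one' : χ 1 = 0 := by
  have h := hadd 1 1
  rw [mul_one] at h
  simpa using h

include hadd in
lemma char_inv' (g : H) : χ g⁻¹ = - χ g := by
  have h := hadd g g⁻¹
  rw [mul_inv_cancel, char_one' H χ hadd] at h
  exact eq_neg_of_add_eq_zero_right h.symm

include hadd in
lemma char_pow' (g : H) (n : ℕ) : χ (g ^ n) = n * χ g := by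
  induction n with
  | zero => simp [char_one' H χ hadd]
  | succ n ih => rw [pow_succ, hadd, ih]; push_cast; ring

variable [Fact p.Prime] (σ : H) (hσ : χ σ = 1)

include hσ in
lemma charKer_conj : ∀ n ∈ charKer H χ hadd, (σ : Γ)⁻¹ * n * σ ∈ charKer H χ hadd := by
  rintro n ⟨hn, hn0⟩
  refine ⟨H.mul_mem (H.mul_mem (H.inv_mem σ.2) hn) σ.2, ?_⟩
  have h1 : (⟨(σ : Γ)⁻¹ * n * σ, H.mul_mem (H.mul_mem (H.inv_mem σ.2) hn) σ.2⟩ : H) =
      σ⁻¹ * ⟨n, hn⟩ * σ := rfl
  rw [h1, hadd, hadd, char_inv' H χ hadd, hn0, hσ]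
  ring

include hσ in
lemma charKer_pow : (σ : Γ) ^ p ∈ charKer H χ hadd := by
  refine ⟨H.pow_mem σ.2 p, ?_⟩
  have h1 : (⟨(σ : Γ) ^ p, H.pow_mem σ.2 p⟩ : H) = σ ^ p := rfl
  rw [h1, char_pow' H χ hadd, hσ, mul_one, ZMod.natCast_self]

include hσ in
lemma charKer_gen : ∀ h ∈ H, ∃ i : ℕ, ((σ : Γ) ^ i)⁻¹ * h ∈ charKer H χ hadd := by
  intro h hh
  have hp : p.Prime := Fact.out
  have : NeZero p := ⟨hp.ne_zero⟩
  refine ⟨(χ ⟨h, hh⟩).val, H.mul_mem (H.inv_mem (H.pow_mem σ.2 _)) hh, ?_⟩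
  have h1 : (⟨((σ : Γ) ^ (χ ⟨h, hh⟩).val)⁻¹ * h,
      H.mul_mem (H.inv_mem (H.pow_mem σ.2 _)) hh⟩ : H) = (σ ^ (χ ⟨h, hh⟩).val)⁻¹ * ⟨h, hh⟩ := rfl
  rw [h1, hadd, char_inv' H χ hadd, char_pow' H χ hadd, hσ, mul_one, ZMod.natCast_zmod_val]
  ring

include hσ in
lemma charKer_free : ∀ i : ℕ, 0 < i → i < p → (σ : Γ) ^ i ∉ charKer H χ hadd := by
  rintro i hi0 hip ⟨hi, hi'⟩
  have h1 : (⟨(σ : Γ) ^ i, hi⟩ : H) = σ ^ i := rfl
  rw [h1, char_pow' H χ hadd, hσ, mul_one, ZMod.natCast_eq_zero_iff] at hi'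
  exact absurd (Nat.le_of_dvd hi0 hi') (not_le.2 hip)

include hσ in
lemma charKer_relIndex : (charKer H χ hadd).relIndex H = p := by
  have hp : p.Prime := Fact.out
  have : NeZero p := ⟨hp.ne_zero⟩
  let f : H →* Multiplicative (ZMod p) :=
    { toFun := fun h => Multiplicative.ofAdd (χ h)
      map_one' := by rw [char_one' H χ hadd]; rfl
      map_mul' := fun g h => by rw [hadd]; rfl }
  have hker : (charKer H χ hadd).subgroupOf H = f.ker := by
    ext ⟨g, hg⟩
    rw [Subgroup.mem_subgroupOf, MonoidHom.mem_ker]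
    constructor
    · rintro ⟨_, h0⟩
      show Multiplicative.ofAdd (χ ⟨g, hg⟩) = 1
      rw [h0]
      rfl
    · intro h0
      exact ⟨hg, h0⟩
  have hsurj : Function.Surjective f := by
    intro a
    refine ⟨σ ^ (Multiplicative.toAdd a).val, ?_⟩
    show Multiplicative.ofAdd (χ (σ ^ (Multiplicative.toAdd a).val)) = a
    rw [char_pow' H χ hadd, hσ, mul_one, ZMod.natCast_zmod_val]
    rfl
  rw [Subgroup.relIndex, hker, Subgroup.index_ker, MonoidHom.range_eq_top.2 hsurj,
    Subgroup.card_top]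
  exact (Nat.card_congr Multiplicative.toAdd).trans (Nat.card_zmod p)

end Char


section Padic

variable (l p : ℕ) [Fact l.Prime] [Fact p.Prime]
  (K : IntermediateField ℚ_[l] (PadicAlgCl l)) [FiniteDimensional ℚ_[l] K]

/-- The index of `p`-th powers in the fixed field of an open subgroup `H` of
`Gal(PadicAlgCl l / K)`, with the degree expressed through the index of `H`. -/
lemma powIndex_fixedField (H : Subgroup (PadicAlgCl l ≃ₐ[K] PadicAlgCl l))
    (hH : ∃ E : IntermediateField K (PadicAlgCl l), FiniteDimensional K E ∧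
      E.fixingSubgroup ≤ H) :
    (powMonoidHom p : (fixedField H)ˣ →* (fixedField H)ˣ).range.index =
      p * Nat.card (rootsOfUnity p (fixedField H)) *
        (if l = p then p ^ (Module.finrank ℚ_[l] K * H.index) else 1) := by
  have := finiteDimensional_fixedField_of_open H hH
  have : FiniteDimensional ℚ_[l] (fixedField H) := Module.Finite.trans K (fixedField H)
  rw [helper8235.index_range_pow_units_padic l p (fixedField H),
    ← finrank_fixedField_of_open H hH, Module.finrank_mul_finrank]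

/-- **(NI), intrinsic form, on the local carrier.**  `K` finite over `ℚ_[l]` inside
`PadicAlgCl l`, `H` an open subgroup of `Gal(PadicAlgCl l / K)`, `χ : H → ZMod p` a
level-constant additive character, `σ ∈ H` with `χ σ = 1`.  The group of `σ`-norms
`∏_{i<p} σ^i y` of the `ker χ`-fixed units has index exactly `p` in the `H`-fixed units:
there is an `H`-fixed unit `b₀` which is not such a norm, and every `H`-fixed unit `b` has
`b * b₀ ^ n` a norm for some `n < p`.  All primes `l`, `p` (`l = p` and `p = 2` included). -/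
theorem intrinsic_norm_index_padic
    (H : Subgroup (PadicAlgCl l ≃ₐ[K] PadicAlgCl l))
    (hH : ∃ E : IntermediateField K (PadicAlgCl l), FiniteDimensional K E ∧
      E.fixingSubgroup ≤ H)
    (χ : H → ZMod p) (hadd : ∀ g h, χ (g * h) = χ g + χ h)
    (hlev : ∃ E : IntermediateField K (PadicAlgCl l), FiniteDimensional K E ∧
      ∀ g s : H, (s : PadicAlgCl l ≃ₐ[K] PadicAlgCl l) ∈ E.fixingSubgroup → χ (g * s) = χ g)
    (σ : H) (hσ : χ σ = 1) :
    ∃ b₀ : (PadicAlgCl l)ˣ, (∀ h ∈ H, h • b₀ = b₀) ∧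
      (¬ ∃ y : (PadicAlgCl l)ˣ,
        (∀ n : H, χ n = 0 → (n : PadicAlgCl l ≃ₐ[K] PadicAlgCl l) • y = y) ∧
        b₀ = ∏ i ∈ Finset.range p, ((σ : PadicAlgCl l ≃ₐ[K] PadicAlgCl l) ^ i) • y) ∧
      ∀ b : (PadicAlgCl l)ˣ, (∀ h ∈ H, h • b = b) → ∃ n < p, ∃ y : (PadicAlgCl l)ˣ,
        (∀ m : H, χ m = 0 → (m : PadicAlgCl l ≃ₐ[K] PadicAlgCl l) • y = y) ∧
        b * b₀ ^ n = ∏ i ∈ Finset.range p, ((σ : PadicAlgCl l ≃ₐ[K] PadicAlgCl l) ^ i) • y := by
  have hp := (Fact.out : p.Prime)
  have hGal : IsGalois K (PadicAlgCl l) := inferInstance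
  set N := charKer H χ hadd with hN
  -- `N` is open
  have hNopen : ∃ E : IntermediateField K (PadicAlgCl l), FiniteDimensional K E ∧
      E.fixingSubgroup ≤ N := by
    obtain ⟨E, hE, hEH⟩ := hH
    obtain ⟨E', hE', hχ⟩ := hlev
    refine ⟨E ⊔ E', IntermediateField.finiteDimensional_sup E E', fun s hs => ?_⟩
    have hs1 : s ∈ E.fixingSubgroup :=
      IntermediateField.fixingSubgroup_antitone le_sup_left hs
    have hs2 : s ∈ E'.fixingSubgroup :=
      IntermediateField.fixingSubgroup_antitone le_sup_right hs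
    refine ⟨hEH hs1, ?_⟩
    have := hχ 1 ⟨s, hEH hs1⟩ hs2
    rw [one_mul, char_one' H χ hadd] at this
    exact this
  have hidx : N.index = p * H.index := by
    rw [← Subgroup.relIndex_mul_index (charKer_le H χ hadd), charKer_relIndex H χ hadd σ hσ]
  have hK := powIndex_fixedField l p K H hH
  have hL := powIndex_fixedField l p K N hNopen
  have hfixH : ∀ u : (PadicAlgCl l)ˣ, u ∈ fixedUnits H ↔ ∀ h ∈ H, h • u = u := fun _ => Iff.rfl
  have hfixN : ∀ y : (PadicAlgCl l)ˣ, y ∈ fixedUnits N ↔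
      ∀ n : H, χ n = 0 → (n : PadicAlgCl l ≃ₐ[K] PadicAlgCl l) • y = y := by
    intro y
    constructor
    · intro hy n hn
      exact hy n ⟨n.2, hn⟩
    · rintro hy n ⟨hn, hn0⟩
      exact hy ⟨n, hn⟩ hn0
  obtain ⟨b₀, hb₀, hnot, hall⟩ := layer_norm_generator hp H N (σ : PadicAlgCl l ≃ₐ[K] PadicAlgCl l)
    (charKer_le H χ hadd) σ.2 (charKer_conj H χ hadd σ hσ) (charKer_pow H χ hadd σ hσ)
    (charKer_gen H χ hadd σ hσ) (charKer_free H χ hadd σ hσ)
    (fixingSubgroup_fixedField_of_open N hNopen).le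
    (if l = p then p ^ (Module.finrank ℚ_[l] K * H.index) else 1)
    (by split_ifs
        · exact pow_ne_zero _ hp.ne_zero
        · exact one_ne_zero)
    hK
    (by rw [hL, hidx]
        split_ifs
        · rw [← pow_mul]
          congr 2
          ring
        · rw [one_pow])
  refine ⟨b₀, hb₀, ?_, ?_⟩
  · rintro ⟨y, hy, hby⟩
    exact hnot ⟨y, (hfixN y).2 hy, hby⟩
  · intro b hb
    obtain ⟨n, hn, y, hy, hby⟩ := hall b hb
    exact ⟨n, hn, y, (hfixN y).1 hy, hby⟩

/-- **(PI), intrinsic form, on the local carrier.**  If `K` contains a primitive `p`-th root of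
unity, the `H`-fixed units modulo `p`-th powers of `H`-fixed units contain two independent
classes, for every open subgroup `H` of `Gal(PadicAlgCl l / K)`. -/
theorem intrinsic_two_independent_padic (ζ : K) (hζ : IsPrimitiveRoot ζ p)
    (H : Subgroup (PadicAlgCl l ≃ₐ[K] PadicAlgCl l))
    (hH : ∃ E : IntermediateField K (PadicAlgCl l), FiniteDimensional K E ∧
      E.fixingSubgroup ≤ H) :
    ∃ b₁ b₂ : (PadicAlgCl l)ˣ, (∀ h ∈ H, h • b₁ = b₁) ∧ (∀ h ∈ H, h • b₂ = b₂) ∧
      ∀ i j : ℕ, (∃ c : (PadicAlgCl l)ˣ, (∀ h ∈ H, h • c = c) ∧ b₁ ^ i * b₂ ^ j = c ^ p) →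
        p ∣ i ∧ p ∣ j := by
  have := finiteDimensional_fixedField_of_open H hH
  have : FiniteDimensional ℚ_[l] (fixedField H) := Module.Finite.trans K (fixedField H)
  have hζ' : IsPrimitiveRoot (algebraMap K (fixedField H) ζ) p :=
    hζ.map_of_injective (algebraMap K (fixedField H)).injective
  obtain ⟨b₁, b₂, hb⟩ := exists_two_independent_mod_pow l p (fixedField H) _ hζ'
  refine ⟨((fixedUnitsEquiv H).symm b₁ : (PadicAlgCl l)ˣ), ((fixedUnitsEquiv H).symm b₂ : (PadicAlgCl l)ˣ),
    ((fixedUnitsEquiv H).symm b₁).2, ((fixedUnitsEquiv H).symm b₂).2, ?_⟩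
  rintro i j ⟨c, hc, hij⟩
  apply hb i j
  refine ⟨fixedUnitsEquiv H ⟨c, hc⟩, ?_⟩
  rw [powMonoidHom_apply, ← map_pow]
  have h1 : (⟨c, hc⟩ : fixedUnits H) ^ p = (fixedUnitsEquiv H).symm b₁ ^ i * (fixedUnitsEquiv H).symm b₂ ^ j :=
    Subtype.ext hij.symm
  rw [h1, map_mul, map_pow, map_pow, MulEquiv.apply_symm_apply, MulEquiv.apply_symm_apply]

end Padic

end Fermat.Agent.S55.helper913
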