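/-
S55 (Poitou–Tate) — LOCAL ARITHMETIC CORE: the end adapter of the symbol-line route to `(LB1)`.
Author: helper9554.

`helper164_LevelSymbol` proves the line statement for `ZMod p`-valued level cochains (trivial
action) on the subgroups of a group with a system of levels.  This file is the dictionary with
the carrier of `helper9554_LocalSpec` (`μ_p`-valued multiplicative level cochains on
`Γ = Gal(Ω/K)`) when `μ_p ⊆ K`:  a `μ_p`-valued cochain is `ζ ^ (f ·).val` for a unique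
`ZMod p`-valued cochain `f`, multiplicative cocycles/coboundaries correspond to additive ones,
and levels correspond as soon as the levels of the system are the fixing subgroups of the finite
subextensions.

Main results (`Γ := Ω ≃ₐ[K] Ω`, `ζ : Ωˣ` a primitive `p`-th root of unity fixed by `Γ`,
`𝓛 : helper164.LevelSys Γ` with `𝓛.P N ↔ ∃ E finite, N = E.fixingSubgroup`):
* `isMuCocycle₂_iff_mem_Z2`, `isMuCob₂_iff_mem_B2` : the dictionary;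
* `stmt_LB1_line_of_levelSys` : the line statement on `𝓛.Z2 p ⊤ / 𝓛.B2 p ⊤` gives
  `Stmt_LB1_line K Ω p`;  `stmt_LB1_line_of_isSymbolic` : the same from
  `helper164.LevelSys.IsSymbolic 𝓛 p 𝒞` and `𝒞 ⊤`;
* `stmt_LB1_ne_iff_levelSys`, `stmt_LB1_line_iff_levelSys` : both directions.
-/
import Mathlib
import Fermat.Agent.S55.helper9554_LocalSpec
import Fermat.Agent.S55.helper164_LevelSymbol

set_option autoImplicit false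

namespace Fermat.Agent.S55.helper9554

open groupCohomology
open Fermat.Agent.S55.helper164 (LevelSys dTriv)

/-! ### The exponential `ZMod p → μ_p` -/

section ExpZ

variable {M : Type*} [CommGroup M] {p : ℕ} [Fact p.Prime]

/-- `a ↦ ζ ^ a.val`. -/
def expZ (ζ : M) (a : ZMod p) : M := ζ ^ a.val

theorem expZ_add {ζ : M} (hζ : ζ ^ p = 1) (a b : ZMod p) :
    expZ ζ (a + b) = expZ ζ a * expZ ζ b :=
  pow_val_add_of_pow_eq_one hζ a b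

theorem expZ_zero (ζ : M) : expZ ζ (0 : ZMod p) = 1 := by
  simp [expZ]

omit [Fact p.Prime] in
theorem expZ_pow_p {ζ : M} (hζ : ζ ^ p = 1) (a : ZMod p) : expZ ζ a ^ p = 1 := by
  rw [expZ, ← pow_mul, mul_comm, pow_mul, hζ, one_pow]

theorem expZ_neg {ζ : M} (hζ : ζ ^ p = 1) (a : ZMod p) : expZ ζ (-a) = (expZ ζ a)⁻¹ := by
  have h := expZ_add hζ a (-a)
  rw [add_neg_cancel, expZ_zero] at h
  exact eq_inv_of_mul_eq_one_right h.symm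

theorem expZ_sub {ζ : M} (hζ : ζ ^ p = 1) (a b : ZMod p) :
    expZ ζ (a - b) = expZ ζ a / expZ ζ b := by
  rw [sub_eq_add_neg, expZ_add hζ, expZ_neg hζ, div_eq_mul_inv]

theorem expZ_nsmul {ζ : M} (hζ : ζ ^ p = 1) (n : ℕ) (a : ZMod p) :
    expZ ζ (n • a) = expZ ζ a ^ n := by
  induction n with
  | zero => simp [expZ_zero]
  | succ n ih => rw [succ_nsmul, expZ_add hζ, ih, pow_succ]

theorem expZ_mul {ζ : M} (hζ : ζ ^ p = 1) (c a : ZMod p) :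
    expZ ζ (c * a) = expZ ζ a ^ c.val := by
  have h : c * a = c.val • a := by
    rw [nsmul_eq_mul, ZMod.natCast_zmod_val]
  rw [h, expZ_nsmul hζ]

theorem expZ_injective {ζ : M} (hζ : IsPrimitiveRoot ζ p) :
    Function.Injective (expZ (p := p) ζ) := by
  intro a b h
  have h2 := hζ.pow_inj (ZMod.val_lt a) (ZMod.val_lt b) h
  exact ZMod.val_injective p h2

end ExpZ

section ExpZField

variable {Ω : Type*} [Field Ω] {p : ℕ} [Fact p.Prime]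

/-- Every `p`-th root of unity is a power of a primitive one. -/
theorem exists_expZ_eq {ζ : Ωˣ} (hζ : IsPrimitiveRoot ζ p) {ξ : Ωˣ} (hξ : ξ ^ p = 1) :
    ∃ a : ZMod p, expZ ζ a = ξ := by
  have hζ' : IsPrimitiveRoot (ζ : Ω) p := IsPrimitiveRoot.coe_units_iff.mpr hζ
  have hξ' : (ξ : Ω) ^ p = 1 := by
    rw [← Units.val_pow_eq_pow_val, hξ, Units.val_one]
  obtain ⟨i, hi, h⟩ := hζ'.eq_pow_of_pow_eq_one hξ'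
  refine ⟨(i : ZMod p), ?_⟩
  apply Units.ext
  rw [expZ, ZMod.val_natCast, Nat.mod_eq_of_lt hi, Units.val_pow_eq_pow_val, h]

end ExpZField

/-! ### The dictionary -/

section Dictionary

variable {K Ω : Type*} [Field K] [Field Ω] [Algebra K Ω] {p : ℕ} [Fact p.Prime]

/-- The element of `↥(⊤ : Subgroup Γ)` attached to an element of `Γ`. -/
def topMk (g : Ω ≃ₐ[K] Ω) : (⊤ : Subgroup (Ω ≃ₐ[K] Ω)) := ⟨g, Subgroup.mem_top g⟩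

@[simp] theorem topMk_coe (g : (⊤ : Subgroup (Ω ≃ₐ[K] Ω))) : topMk (g : Ω ≃ₐ[K] Ω) = g := rfl

@[simp] theorem coe_topMk (g : Ω ≃ₐ[K] Ω) : ((topMk g : (⊤ : Subgroup (Ω ≃ₐ[K] Ω))) : Ω ≃ₐ[K] Ω) = g :=
  rfl

theorem topMk_mul (g h : Ω ≃ₐ[K] Ω) : topMk (g * h) = topMk g * topMk h := rfl

/-- The multiplicative `2`-cochain attached to a `ZMod p`-valued one. -/
def expCochain₂ (ζ : Ωˣ) (f : (⊤ : Subgroup (Ω ≃ₐ[K] Ω)) × (⊤ : Subgroup (Ω ≃ₐ[K] Ω)) → ZMod p) :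
    (Ω ≃ₐ[K] Ω) × (Ω ≃ₐ[K] Ω) → Ωˣ :=
  fun q => expZ ζ (f (topMk q.1, topMk q.2))

/-- The multiplicative `1`-cochain attached to a `ZMod p`-valued one. -/
def expCochain₁ (ζ : Ωˣ) (c : (⊤ : Subgroup (Ω ≃ₐ[K] Ω)) → ZMod p) : (Ω ≃ₐ[K] Ω) → Ωˣ :=
  fun g => expZ ζ (c (topMk g))

variable (𝓛 : LevelSys (Ω ≃ₐ[K] Ω))

/-- The levels of `𝓛` are the fixing subgroups of the finite subextensions. -/
def IsGaloisLevelSys : Prop :=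
  ∀ N : Subgroup (Ω ≃ₐ[K] Ω), 𝓛.P N ↔
    ∃ E : IntermediateField K Ω, FiniteDimensional K E ∧ N = E.fixingSubgroup

variable {𝓛}

theorem isLevel₁_expCochain₁_iff (h𝓛 : IsGaloisLevelSys 𝓛) {ζ : Ωˣ} (hζ : IsPrimitiveRoot ζ p)
    (c : (⊤ : Subgroup (Ω ≃ₐ[K] Ω)) → ZMod p) :
    IsLevel₁ (expCochain₁ ζ c) ↔ 𝓛.Lev₁ ⊤ c := by
  constructor
  · rintro ⟨E, hE, h⟩
    refine ⟨E.fixingSubgroup, (h𝓛 _).2 ⟨E, hE, rfl⟩, fun g s hs => ?_⟩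
    exact expZ_injective hζ (h (g : Ω ≃ₐ[K] Ω) (s : Ω ≃ₐ[K] Ω) hs)
  · rintro ⟨N, hN, h⟩
    obtain ⟨E, hE, rfl⟩ := (h𝓛 N).1 hN
    refine ⟨E, hE, fun g s hs => ?_⟩
    simp only [expCochain₁]
    rw [topMk_mul, h (topMk g) (topMk s) hs]

theorem isLevel₂_expCochain₂_iff (h𝓛 : IsGaloisLevelSys 𝓛) {ζ : Ωˣ} (hζ : IsPrimitiveRoot ζ p)
    (f : (⊤ : Subgroup (Ω ≃ₐ[K] Ω)) × (⊤ : Subgroup (Ω ≃ₐ[K] Ω)) → ZMod p) :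
    IsLevel₂ (expCochain₂ ζ f) ↔ 𝓛.Lev₂ ⊤ f := by
  constructor
  · rintro ⟨E, hE, h⟩
    refine ⟨E.fixingSubgroup, (h𝓛 _).2 ⟨E, hE, rfl⟩, fun g g' s s' hs hs' => ?_⟩
    exact expZ_injective hζ
      (h (g : Ω ≃ₐ[K] Ω) (g' : Ω ≃ₐ[K] Ω) (s : Ω ≃ₐ[K] Ω) (s' : Ω ≃ₐ[K] Ω) hs hs')
  · rintro ⟨N, hN, h⟩
    obtain ⟨E, hE, rfl⟩ := (h𝓛 N).1 hN
    refine ⟨E, hE, fun g g' s s' hs hs' => ?_⟩
    simp only [expCochain₂]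
    rw [topMk_mul, topMk_mul, h (topMk g) (topMk g') (topMk s) (topMk s') hs hs']

omit [Fact p.Prime] in
theorem smul_expZ {ζ : Ωˣ} (hfix : ∀ g : Ω ≃ₐ[K] Ω, g • ζ = ζ) (g : Ω ≃ₐ[K] Ω) (a : ZMod p) :
    g • expZ ζ a = expZ ζ a := by
  rw [expZ, smul_pow', hfix]

/-- Multiplicative cocycles correspond to additive cocycles. -/
theorem isMulCocycle₂_expCochain₂_iff {ζ : Ωˣ} (hζ : IsPrimitiveRoot ζ p)
    (hfix : ∀ g : Ω ≃ₐ[K] Ω, g • ζ = ζ)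
    (f : (⊤ : Subgroup (Ω ≃ₐ[K] Ω)) × (⊤ : Subgroup (Ω ≃ₐ[K] Ω)) → ZMod p) :
    IsMulCocycle₂ (expCochain₂ ζ f) ↔
      ∀ g h j : (⊤ : Subgroup (Ω ≃ₐ[K] Ω)), f (g * h, j) + f (g, h) = f (h, j) + f (g, h * j) := by
  have hp : ζ ^ p = 1 := hζ.pow_eq_one
  constructor
  · intro hc g h j
    have := hc (g : Ω ≃ₐ[K] Ω) (h : Ω ≃ₐ[K] Ω) (j : Ω ≃ₐ[K] Ω)
    simp only [expCochain₂, smul_expZ hfix] at this
    rw [← expZ_add hp, ← expZ_add hp] at this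
    exact expZ_injective hζ this
  · intro hc g h j
    simp only [expCochain₂, smul_expZ hfix]
    rw [← expZ_add hp, ← expZ_add hp]
    exact congrArg (expZ ζ) (hc (topMk g) (topMk h) (topMk j))

/-- The dictionary for cocycles. -/
theorem isMuCocycle₂_expCochain₂_iff (h𝓛 : IsGaloisLevelSys 𝓛) {ζ : Ωˣ}
    (hζ : IsPrimitiveRoot ζ p) (hfix : ∀ g : Ω ≃ₐ[K] Ω, g • ζ = ζ)
    (f : (⊤ : Subgroup (Ω ≃ₐ[K] Ω)) × (⊤ : Subgroup (Ω ≃ₐ[K] Ω)) → ZMod p) :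
    IsMuCocycle₂ p (expCochain₂ ζ f) ↔ f ∈ 𝓛.Z2 p ⊤ := by
  constructor
  · intro h
    exact ⟨(isMulCocycle₂_expCochain₂_iff hζ hfix f).1 h.cocycle,
      (isLevel₂_expCochain₂_iff h𝓛 hζ f).1 h.level⟩
  · rintro ⟨h1, h2⟩
    exact ⟨(isMulCocycle₂_expCochain₂_iff hζ hfix f).2 h1,
      (isLevel₂_expCochain₂_iff h𝓛 hζ f).2 h2, fun q => expZ_pow_p hζ.pow_eq_one _⟩

/-- The coboundary of an exponential cochain. -/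
theorem dOne_expCochain₁ {ζ : Ωˣ} (hζ : ζ ^ p = 1) (hfix : ∀ g : Ω ≃ₐ[K] Ω, g • ζ = ζ)
    (c : (⊤ : Subgroup (Ω ≃ₐ[K] Ω)) → ZMod p) :
    dOne (expCochain₁ ζ c) = expCochain₂ ζ (dTriv c) := by
  funext q
  simp only [dOne, expCochain₁, expCochain₂, dTriv, smul_expZ hfix]
  rw [expZ_add hζ, expZ_sub hζ]
  rfl

/-- A `μ_p`-valued `1`-cochain is an exponential cochain. -/
theorem exists_eq_expCochain₁ {ζ : Ωˣ} (hζ : IsPrimitiveRoot ζ p) (x : (Ω ≃ₐ[K] Ω) → Ωˣ)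
    (hx : ∀ g, x g ^ p = 1) :
    ∃ c : (⊤ : Subgroup (Ω ≃ₐ[K] Ω)) → ZMod p, x = expCochain₁ ζ c := by
  choose a ha using fun g => exists_expZ_eq hζ (hx g)
  exact ⟨fun g => a (g : Ω ≃ₐ[K] Ω), funext fun g => (ha g).symm⟩

/-- A `μ_p`-valued `2`-cochain is an exponential cochain. -/
theorem exists_eq_expCochain₂ {ζ : Ωˣ} (hζ : IsPrimitiveRoot ζ p)
    (F : (Ω ≃ₐ[K] Ω) × (Ω ≃ₐ[K] Ω) → Ωˣ) (hF : ∀ q, F q ^ p = 1) :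
    ∃ f : (⊤ : Subgroup (Ω ≃ₐ[K] Ω)) × (⊤ : Subgroup (Ω ≃ₐ[K] Ω)) → ZMod p,
      F = expCochain₂ ζ f := by
  choose a ha using fun q => exists_expZ_eq hζ (hF q)
  exact ⟨fun q => a ((q.1 : Ω ≃ₐ[K] Ω), (q.2 : Ω ≃ₐ[K] Ω)), funext fun q => (ha q).symm⟩

theorem expCochain₂_injective {ζ : Ωˣ} (hζ : IsPrimitiveRoot ζ p) :
    Function.Injective (expCochain₂ (K := K) (p := p) ζ) := by
  intro f f' h
  funext q
  have := congrFun h ((q.1 : Ω ≃ₐ[K] Ω), (q.2 : Ω ≃ₐ[K] Ω))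
  exact expZ_injective hζ this

/-- The dictionary for coboundaries. -/
theorem isMuCob₂_expCochain₂_iff (h𝓛 : IsGaloisLevelSys 𝓛) {ζ : Ωˣ}
    (hζ : IsPrimitiveRoot ζ p) (hfix : ∀ g : Ω ≃ₐ[K] Ω, g • ζ = ζ)
    (f : (⊤ : Subgroup (Ω ≃ₐ[K] Ω)) × (⊤ : Subgroup (Ω ≃ₐ[K] Ω)) → ZMod p) :
    IsMuCob₂ p (expCochain₂ ζ f) ↔ f ∈ 𝓛.B2 p ⊤ := by
  constructor
  · rintro ⟨x, hxl, hxp, hx⟩
    obtain ⟨c, rfl⟩ := exists_eq_expCochain₁ hζ x hxp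
    rw [dOne_expCochain₁ hζ.pow_eq_one hfix] at hx
    exact ⟨c, (isLevel₁_expCochain₁_iff h𝓛 hζ c).1 hxl, expCochain₂_injective hζ hx⟩
  · rintro ⟨c, hc, rfl⟩
    exact ⟨expCochain₁ ζ c, (isLevel₁_expCochain₁_iff h𝓛 hζ c).2 hc,
      fun g => expZ_pow_p hζ.pow_eq_one _, (dOne_expCochain₁ hζ.pow_eq_one hfix c).symm⟩

theorem expCochain₂_sub_smul {ζ : Ωˣ} (hζ : ζ ^ p = 1) (c : ZMod p)
    (f₁ f₂ : (⊤ : Subgroup (Ω ≃ₐ[K] Ω)) × (⊤ : Subgroup (Ω ≃ₐ[K] Ω)) → ZMod p) :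
    expCochain₂ ζ (f₂ - c • f₁) = expCochain₂ ζ f₂ / expCochain₂ ζ f₁ ^ c.val := by
  funext q
  simp only [expCochain₂, Pi.sub_apply, Pi.smul_apply, Pi.div_apply, Pi.pow_apply, smul_eq_mul]
  rw [expZ_sub hζ, expZ_mul hζ]

/-! ### The end adapter -/

/-- **End adapter.** If the `ZMod p`-valued level `2`-cocycles of `Γ = Gal(Ω/K)` modulo level
coboundaries form at most a line (the output of `helper164.LevelSys.IsSymbolic`), then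
`Stmt_LB1_line K Ω p` holds. -/
theorem stmt_LB1_line_of_levelSys (p : ℕ) [Fact p.Prime] (𝓛 : LevelSys (Ω ≃ₐ[K] Ω))
    (h𝓛 : ∀ N : Subgroup (Ω ≃ₐ[K] Ω), 𝓛.P N ↔
      ∃ E : IntermediateField K Ω, FiniteDimensional K E ∧ N = E.fixingSubgroup)
    (ζ : Ωˣ) (hζ : IsPrimitiveRoot ζ p) (hfix : ∀ g : Ω ≃ₐ[K] Ω, g • ζ = ζ)
    (hline : ∀ f₁ f₂ : (⊤ : Subgroup (Ω ≃ₐ[K] Ω)) × (⊤ : Subgroup (Ω ≃ₐ[K] Ω)) → ZMod p,
      f₁ ∈ 𝓛.Z2 p ⊤ → f₂ ∈ 𝓛.Z2 p ⊤ → f₁ ∉ 𝓛.B2 p ⊤ → ∃ c : ZMod p, f₂ - c • f₁ ∈ 𝓛.B2 p ⊤) :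
    Stmt_LB1_line K Ω p := by
  intro F₁ F₂ hF₁ hF₂ hne
  obtain ⟨f₁, rfl⟩ := exists_eq_expCochain₂ hζ F₁ hF₁.pow_eq_one
  obtain ⟨f₂, rfl⟩ := exists_eq_expCochain₂ hζ F₂ hF₂.pow_eq_one
  have h1 : f₁ ∈ 𝓛.Z2 p ⊤ := (isMuCocycle₂_expCochain₂_iff h𝓛 hζ hfix f₁).1 hF₁
  have h2 : f₂ ∈ 𝓛.Z2 p ⊤ := (isMuCocycle₂_expCochain₂_iff h𝓛 hζ hfix f₂).1 hF₂
  have h3 : f₁ ∉ 𝓛.B2 p ⊤ := fun h => hne ((isMuCob₂_expCochain₂_iff h𝓛 hζ hfix f₁).2 h)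
  obtain ⟨c, hc⟩ := hline f₁ f₂ h1 h2 h3
  refine ⟨c.val, ?_⟩
  rw [← expCochain₂_sub_smul hζ.pow_eq_one]
  exact (isMuCob₂_expCochain₂_iff h𝓛 hζ hfix _).2 hc

/-- **End adapter, symbolic form.** For a symbolic level system on `Γ = Gal(Ω/K)` whose levels
are the fixing subgroups of the finite subextensions and whose class `𝒞` contains `⊤`:
`Stmt_LB1_line K Ω p` (`p` odd, `μ_p ⊆ K`). -/
theorem stmt_LB1_line_of_isSymbolic (p : ℕ) [Fact p.Prime] (hp2 : p ≠ 2)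
    (𝓛 : LevelSys (Ω ≃ₐ[K] Ω))
    (h𝓛 : ∀ N : Subgroup (Ω ≃ₐ[K] Ω), 𝓛.P N ↔
      ∃ E : IntermediateField K Ω, FiniteDimensional K E ∧ N = E.fixingSubgroup)
    (ζ : Ωˣ) (hζ : IsPrimitiveRoot ζ p) (hfix : ∀ g : Ω ≃ₐ[K] Ω, g • ζ = ζ)
    {𝒞 : Subgroup (Ω ≃ₐ[K] Ω) → Prop} (hS : LevelSys.IsSymbolic 𝓛 p 𝒞) (htop : 𝒞 ⊤) :
    Stmt_LB1_line K Ω p :=
  stmt_LB1_line_of_levelSys p 𝓛 h𝓛 ζ hζ hfix fun _ _ h1 h2 h3 =>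
    hS.exists_smul_sub_mem_B2 hp2 ⊤ htop h1 h2 h3

/-- Converse of the end adapter. -/
theorem levelSys_line_of_stmt_LB1_line (p : ℕ) [Fact p.Prime] (𝓛 : LevelSys (Ω ≃ₐ[K] Ω))
    (h𝓛 : ∀ N : Subgroup (Ω ≃ₐ[K] Ω), 𝓛.P N ↔
      ∃ E : IntermediateField K Ω, FiniteDimensional K E ∧ N = E.fixingSubgroup)
    (ζ : Ωˣ) (hζ : IsPrimitiveRoot ζ p) (hfix : ∀ g : Ω ≃ₐ[K] Ω, g • ζ = ζ)
    (h : Stmt_LB1_line K Ω p)
    (f₁ f₂ : (⊤ : Subgroup (Ω ≃ₐ[K] Ω)) × (⊤ : Subgroup (Ω ≃ₐ[K] Ω)) → ZMod p)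
    (h1 : f₁ ∈ 𝓛.Z2 p ⊤) (h2 : f₂ ∈ 𝓛.Z2 p ⊤) (h3 : f₁ ∉ 𝓛.B2 p ⊤) :
    ∃ c : ZMod p, f₂ - c • f₁ ∈ 𝓛.B2 p ⊤ := by
  obtain ⟨n, hn⟩ := h (expCochain₂ ζ f₁) (expCochain₂ ζ f₂)
    ((isMuCocycle₂_expCochain₂_iff h𝓛 hζ hfix f₁).2 h1)
    ((isMuCocycle₂_expCochain₂_iff h𝓛 hζ hfix f₂).2 h2)
    (fun hc => h3 ((isMuCob₂_expCochain₂_iff h𝓛 hζ hfix f₁).1 hc))
  refine ⟨(n : ZMod p), (isMuCob₂_expCochain₂_iff h𝓛 hζ hfix _).1 ?_⟩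
  rw [expCochain₂_sub_smul hζ.pow_eq_one]
  have hpow : expCochain₂ ζ f₁ ^ (n : ZMod p).val = expCochain₂ ζ f₁ ^ n := by
    funext q
    simp only [Pi.pow_apply, ZMod.val_natCast]
    exact (pow_eq_pow_mod n (expZ_pow_p hζ.pow_eq_one _)).symm
  rw [hpow]
  exact hn

/-- `Stmt_LB1_ne` in the vocabulary of the level system. -/
theorem stmt_LB1_ne_iff_levelSys (p : ℕ) [Fact p.Prime] (𝓛 : LevelSys (Ω ≃ₐ[K] Ω))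
    (h𝓛 : ∀ N : Subgroup (Ω ≃ₐ[K] Ω), 𝓛.P N ↔
      ∃ E : IntermediateField K Ω, FiniteDimensional K E ∧ N = E.fixingSubgroup)
    (ζ : Ωˣ) (hζ : IsPrimitiveRoot ζ p) (hfix : ∀ g : Ω ≃ₐ[K] Ω, g • ζ = ζ) :
    Stmt_LB1_ne K Ω p ↔ ∃ f, f ∈ 𝓛.Z2 p ⊤ ∧ f ∉ 𝓛.B2 p ⊤ := by
  constructor
  · rintro ⟨F, hF, hne⟩
    obtain ⟨f, rfl⟩ := exists_eq_expCochain₂ hζ F hF.pow_eq_one
    exact ⟨f, (isMuCocycle₂_expCochain₂_iff h𝓛 hζ hfix f).1 hF,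
      fun h => hne ((isMuCob₂_expCochain₂_iff h𝓛 hζ hfix f).2 h)⟩
  · rintro ⟨f, hf, hne⟩
    exact ⟨expCochain₂ ζ f, (isMuCocycle₂_expCochain₂_iff h𝓛 hζ hfix f).2 hf,
      fun h => hne ((isMuCob₂_expCochain₂_iff h𝓛 hζ hfix f).1 h)⟩

end Dictionary

end Fermat.Agent.S55.helper9554
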