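/-
S55, local core (helper164): **(LB1)** on the local carrier — `H²(G_K, μ_p)` is cyclic of order
`p` for every finite extension `K` of `ℚ_l`, `p` odd (`helper9554.Stmt_LocalLB1 l p`), hence the
closed LA statement `helper665.Stmt_LB1All`.

Assembly of the symbol-line route:
* `helper164_LevelSymbol` : a symbolic level system has `H²` of dimension `≤ 1`;
* `helper164_GaloisSymbol` : the level system of `Gal(Ω/K)` is symbolic, given the norm index and
  the power index in intrinsic form (with `helper3665_SymbolicNorm` for the norm axiom);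
* `helper913_IntrinsicNI` : the norm index and the power index for local fields;
* `helper9554_LB1Adapter` : the dictionary to the `μ_p`-valued level cochains of `LocalSpec`;
* `helper2353_LB1Zeta` : descent from `K(ζ_p)` to `K`;
* `helper932_LB1Ne` : nonvanishing of `H²(G_K, μ_p)`.
-/
import Mathlib
import Fermat.Agent.S55.helper164_GaloisSymbol
import Fermat.Agent.S55.helper913_IntrinsicNI
import Fermat.Agent.S55.helper9554_LB1Adapter
import Fermat.Agent.S55.helper2353_LB1Zeta
import Fermat.Agent.S55.helper932_LB1Ne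
import Fermat.Agent.S55.helper665_LocalAsm

set_option autoImplicit false

namespace Fermat.Agent.S55.helper164

section LB1

variable (l p : ℕ) [Fact l.Prime] [Fact p.Prime]

/-- **(LB1, ≤)** for a finite extension `K` of `ℚ_l` containing `μ_p`, `p` odd: any nonzero class
of `H²(G_K, μ_p)` spans it. -/
theorem stmt_LB1_line_padic (hp2 : p ≠ 2) (K : IntermediateField ℚ_[l] (PadicAlgCl l))
    [FiniteDimensional ℚ_[l] K] (hζ : ∃ ζ : K, IsPrimitiveRoot ζ p) :
    helper9554.Stmt_LB1_line K (PadicAlgCl l) p := by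
  obtain ⟨ζ, hζ⟩ := hζ
  have hζΩ : IsPrimitiveRoot (algebraMap K (PadicAlgCl l) ζ) p :=
    hζ.map_of_injective (algebraMap K (PadicAlgCl l)).injective
  have hp0 : p ≠ 0 := (Fact.out : p.Prime).ne_zero
  have hne : algebraMap K (PadicAlgCl l) ζ ≠ 0 := hζΩ.ne_zero hp0
  have hζ' : IsPrimitiveRoot (Units.mk0 _ hne) p := IsPrimitiveRoot.coe_units_iff.1 hζΩ
  have hfix : ∀ g : PadicAlgCl l ≃ₐ[K] PadicAlgCl l, g • Units.mk0 _ hne = Units.mk0 _ hne :=
    fun g => Units.ext (g.commutes ζ)
  have hroot : ∀ x : (PadicAlgCl l)ˣ, ∃ y : (PadicAlgCl l)ˣ, y ^ p = x := by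
    intro x
    obtain ⟨y, hy⟩ := IsAlgClosed.exists_pow_nat_eq (x : PadicAlgCl l) (Nat.pos_of_ne_zero hp0)
    have hy0 : y ≠ 0 := by
      rintro rfl
      rw [zero_pow hp0] at hy
      exact x.ne_zero hy.symm
    exact ⟨Units.mk0 y hy0, Units.ext (by rw [Units.val_pow_eq_pow_val, Units.val_mk0, hy])⟩
  have hopen : ∀ H : Subgroup (PadicAlgCl l ≃ₐ[K] PadicAlgCl l),
      (galLevels K (PadicAlgCl l)).IsOpen H →
      ∃ E : IntermediateField K (PadicAlgCl l), FiniteDimensional K E ∧
        E.fixingSubgroup ≤ H := by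
    rintro H ⟨N, ⟨E, hE, rfl⟩, hNH⟩
    exact ⟨E, hE, hNH⟩
  have hyp : GalSymbolHyp p (Units.mk0 _ hne) (galLevels K (PadicAlgCl l)).IsOpen :=
    { isOpen := fun _ h => h
      her := fun _ _ _ _ h => h
      fix := fun _ _ g _ => hfix g
      normIdx := fun H hH χ hadd hlev σ hσ =>
        helper913.intrinsic_norm_index_padic l p K H (hopen H hH) χ hadd hlev σ hσ
      powIdx := fun H hH =>
        helper913.intrinsic_two_independent_padic l p K ζ hζ H (hopen H hH) }
  have hS := isSymbolic_of_galois hp2 hζ' hroot hyp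
  obtain ⟨N, hN⟩ := (galLevels K (PadicAlgCl l)).nonempty
  exact helper9554.stmt_LB1_line_of_isSymbolic p hp2 (galLevels K (PadicAlgCl l))
    (fun _ => Iff.rfl) (Units.mk0 _ hne) hζ' hfix hS ⟨N, hN, le_top⟩

/-- **(LB1)** for every finite extension of `ℚ_l` inside `PadicAlgCl l`, `p` odd:
`H²(G_K, μ_p)` is cyclic of order `p`. -/
theorem stmt_LocalLB1 (hp2 : p ≠ 2) : helper9554.Stmt_LocalLB1 l p :=
  helper2353.stmt_LocalLB1_of l p
    (fun K hK hζ => by
      haveI := hK
      exact stmt_LB1_line_padic l p hp2 K hζ)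
    (helper932.stmt_LocalLB1_ne l p)

end LB1

/-- The closed LA statement `(LB1)`. -/
theorem stmt_LB1All : helper665.Stmt_LB1All := fun l p _ _ hp2 => stmt_LocalLB1 l p hp2

end Fermat.Agent.S55.helper164
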