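/-
S55 / SOFT-A (step A of the soft squeeze), module part — helper6607.

The "extension-pair" module.  For representations `A`, `B` of `G` over a field `k`, a character
`χ : G →* kˣ`, a `χ`-equivariant bilinear form `β : A × B → k` (`β (g a) (g b) = χ g * β a b`)
and 1-cocycles `x i : G → B` (`i : Fin n`), the space `A × (Fin n → k)` with

  `g • (a, t) = (g a, fun i => χ g * t i - β (g a) (x i g))`

is a representation `extPair χ A B β x` sitting in `0 → (ofChar χ)^n → extPair → A → 0`
(it is the `χ`-twisted dual of the extension of `k^n` by `B` with classes `x i`, built directly,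
so that no biduality is needed).  This file: the definition, the projection to `A`, the
inclusions of `ofChar χ`, the `k`-linear section.
-/
import Mathlib
import Fermat.Prelude.Def_GroupCohomology_ContinuousUnramified

set_option autoImplicit false

open CategoryTheory groupCohomology

namespace Fermat.Agent.S55.helper6607

noncomputable section

variable {k G : Type} [Field k] [Group G]

/-- `β` is `χ`-equivariant: `β (g a) (g b) = χ g * β a b`. -/
def IsTwistEquivariant (χ : G →* kˣ) (A B : Rep.{0} k G) (β : A →ₗ[k] B →ₗ[k] k) : Prop :=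
  ∀ (g : G) (a : A) (b : B), β (A.ρ g a) (B.ρ g b) = (χ g : k) * β a b

section Def

variable (χ : G →* kˣ) (A B : Rep.{0} k G) (β : A →ₗ[k] B →ₗ[k] k) {n : ℕ} (x : Fin n → G → B)

/-- The linear endomorphism `(a, t) ↦ (g a, fun i => χ g * t i - β (g a) (x i g))`. -/
def extPairLin (g : G) : (A × (Fin n → k)) →ₗ[k] (A × (Fin n → k)) where
  toFun v := (A.ρ g v.1, fun i => (χ g : k) * v.2 i - β (A.ρ g v.1) (x i g))
  map_add' v w := by
    refine Prod.ext (by simp) (funext fun i => ?_)
    simp only [Prod.fst_add, Prod.snd_add, map_add, Pi.add_apply, LinearMap.add_apply]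
    ring
  map_smul' c v := by
    refine Prod.ext (by simp) (funext fun i => ?_)
    simp only [Prod.smul_fst, Prod.smul_snd, map_smul, Pi.smul_apply, LinearMap.smul_apply,
      smul_eq_mul, RingHom.id_apply]
    ring

@[simp] lemma extPairLin_apply (g : G) (v : A × (Fin n → k)) :
    extPairLin χ A B β x g v
      = (A.ρ g v.1, fun i => (χ g : k) * v.2 i - β (A.ρ g v.1) (x i g)) := rfl

variable {χ A B β x}

/-- The representation on `A × (Fin n → k)` twisted by `β` and the cocycles `x i`. -/
def extPairRepresentation (hβ : IsTwistEquivariant χ A B β) (hx : ∀ i, x i ∈ cocycles₁ B) :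
    Representation k G (A × (Fin n → k)) where
  toFun := extPairLin χ A B β x
  map_one' := by
    refine LinearMap.ext fun v => Prod.ext (by simp) (funext fun i => ?_)
    have h1 : x i 1 = 0 := cocycles₁_map_one ⟨x i, hx i⟩
    simp [h1]
  map_mul' g h := by
    refine LinearMap.ext fun v => Prod.ext (by simp) (funext fun i => ?_)
    have hc : x i (g * h) = B.ρ g (x i h) + x i g := (mem_cocycles₁_iff (x i)).1 (hx i) g h
    have hb := hβ g (A.ρ h v.1) (x i h)
    simp only [extPairLin_apply, Module.End.mul_apply, map_mul, Units.val_mul, hc, map_add, hb]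
    ring

@[simp] lemma extPairRepresentation_apply (hβ : IsTwistEquivariant χ A B β)
    (hx : ∀ i, x i ∈ cocycles₁ B) (g : G) (v : A × (Fin n → k)) :
    extPairRepresentation hβ hx g v
      = (A.ρ g v.1, fun i => (χ g : k) * v.2 i - β (A.ρ g v.1) (x i g)) := rfl

/-- The extension-pair module `N` of step A: `0 → (ofChar χ)^n → N → A → 0`. -/
abbrev extPair (hβ : IsTwistEquivariant χ A B β) (hx : ∀ i, x i ∈ cocycles₁ B) : Rep.{0} k G :=
  Rep.of (extPairRepresentation hβ hx)

variable (hβ : IsTwistEquivariant χ A B β) (hx : ∀ i, x i ∈ cocycles₁ B)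

@[simp] lemma extPair_ρ_apply (g : G) (v : A × (Fin n → k)) :
    (extPair hβ hx).ρ g v
      = (A.ρ g v.1, fun i => (χ g : k) * v.2 i - β (A.ρ g v.1) (x i g)) := rfl

/-- The projection `extPair ⟶ A`, `(a, t) ↦ a`. -/
def extPairProj : extPair hβ hx ⟶ A :=
  Rep.ofHom (ρ := extPairRepresentation hβ hx) (σ := A.ρ)
    ⟨LinearMap.fst k A (Fin n → k), fun g => LinearMap.ext fun v => by simp⟩

@[simp] lemma extPairProj_apply (v : A × (Fin n → k)) : (extPairProj hβ hx).hom v = v.1 := rfl

lemma extPairProj_surjective : Function.Surjective (extPairProj hβ hx).hom :=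
  fun a => ⟨(a, 0), rfl⟩

/-- The `i`-th inclusion `ofChar χ ⟶ extPair`, `t ↦ (0, Pi.single i t)`. -/
def extPairIncl (i : Fin n) : ofChar χ ⟶ extPair hβ hx :=
  Rep.ofHom (ρ := (Representation.trivial k G k).twist χ) (σ := extPairRepresentation hβ hx)
    ⟨(LinearMap.inr k A (Fin n → k)).comp (LinearMap.single k (fun _ : Fin n => k) i),
      fun g => LinearMap.ext fun t => Prod.ext (by simp) (funext fun j => by
        by_cases hj : j = i
        · subst hj
          simp [Representation.twist_apply_apply]
        · simp [Representation.twist_apply_apply, Pi.single_eq_of_ne hj])⟩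

@[simp] lemma extPairIncl_apply (i : Fin n) (t : k) :
    (extPairIncl hβ hx i).hom t = ((0 : A), Pi.single i t) := rfl

/-- The `k`-linear (not equivariant) section `a ↦ (a, 0)` of the projection. -/
def extPairSec : A →ₗ[k] (extPair hβ hx) := LinearMap.inl k A (Fin n → k)

@[simp] lemma extPairSec_apply (a : A) : extPairSec hβ hx a = (a, (0 : Fin n → k)) := rfl

/-- The `k`-linear (not equivariant) `i`-th coordinate `(a, t) ↦ t i`. -/
def extPairCoord (i : Fin n) : (extPair hβ hx) →ₗ[k] k :=
  (LinearMap.proj i).comp (LinearMap.snd k A (Fin n → k))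

@[simp] lemma extPairCoord_apply (i : Fin n) (v : A × (Fin n → k)) :
    extPairCoord hβ hx i v = v.2 i := rfl

/-- Decomposition of a vector: `v = sec (proj v) + ∑ i, incl i (coord i v)`. -/
lemma extPair_decomp (v : A × (Fin n → k)) :
    v = (v.1, (0 : Fin n → k)) + ∑ i, ((0 : A), Pi.single i (v.2 i)) := by
  refine Prod.ext ?_ (funext fun j => ?_)
  · simp [Prod.fst_sum]
  · simp [Prod.snd_sum, Finset.sum_apply, Pi.single_apply]

/-- Equivariance defect of the section: `g • (a, 0) = (g a, 0) - ∑ i incl i (β (g a) (x i g))`. -/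
lemma extPair_ρ_sec (g : G) (a : A) :
    (extPair hβ hx).ρ g (a, 0) = (A.ρ g a, fun i => - β (A.ρ g a) (x i g)) := by
  refine Prod.ext rfl (funext fun i => ?_)
  simp

end Def

end

end Fermat.Agent.S55.helper6607
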