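/-
S55 (Poitou–Tate), SOFT layer, leaf SOFT-A (step A of the soft squeeze) — helper166.
Part 1: the ingredients that do not involve numerics.

* `finrank_quotient_le_of_exact`: the counting lemma (pure linear algebra).
* `exists_of_h2LinS_proj_eq_zero`: exactness in the middle of
  `H²(G_S, ofChar χ)^n → H²(G_S, extPair) → H²(G_S, A)` on the frozen carriers, for the
  extension-pair module `helper6607.extPair`.
* `h2LinS_mem_sha₂`: push-forward preserves `Ш²`.
* `finrank_continuousH2_eq_of_equiv`: the local `H²` numbers are invariant under equivariant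
  linear equivalences.
* `exists_cocycles_of_sha₁`: cocycle representatives of a basis of `Ш¹`.
-/
import Mathlib
import Fermat.Prelude.Def_GroupCohomology_ContinuousUnramified
import Fermat.Agent.S55.helper2945_SoftSpec
import Fermat.Agent.S55.helper5036_EvalPush
import Fermat.Agent.S55.helper6607_ExtPair

set_option autoImplicit false

namespace Fermat.Agent.S55.helper166

open CategoryTheory Module groupCohomology ExtCitation
open Fermat.Agent.S55.helper2945 (GQ)
open Fermat.Agent.S55.helper5036 (h2LinS h2LinS_mk levelCocyclesS₂Lin coe_levelCocyclesS₂Lin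
  h2Lin h2Lin_comp locRes₂S_h2LinS)
open Fermat.Agent.S55.helper6607

noncomputable section

/-! ### The counting lemma -/

section Count

variable {k : Type*} [Field k]

/-- The counting step of the extension trick (step A of the soft squeeze), in kernel form:
if `VT ^ n → VN → VA` is exact in the middle and the maps `ι i : VT → VN` carry the subspace
`KT` into `KN`, then `dim VN/KN ≤ n · dim VT/KT + dim VA`. -/
theorem finrank_quotient_le_of_exact {VN VA VT : Type*}
    [AddCommGroup VN] [Module k VN] [AddCommGroup VA] [Module k VA] [AddCommGroup VT]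
    [Module k VT] [FiniteDimensional k VN] [FiniteDimensional k VA] [FiniteDimensional k VT]
    (KN : Submodule k VN) (KT : Submodule k VT) (β : VN →ₗ[k] VA)
    {n : ℕ} (ι : Fin n → VT →ₗ[k] VN)
    (hι : ∀ i, ∀ c ∈ KT, ι i c ∈ KN)
    (hex : ∀ z, β z = 0 → ∃ c : Fin n → VT, z = ∑ i, ι i (c i)) :
    finrank k (VN ⧸ KN) ≤ n * finrank k (VT ⧸ KT) + finrank k VA := by
  classical
  let ιq : Fin n → (VT ⧸ KT) →ₗ[k] (VN ⧸ KN) := fun i =>
    KT.mapQ KN (ι i) (fun c hc => hι i c hc)
  let Ξ : (Fin n → VT ⧸ KT) →ₗ[k] (VN ⧸ KN) := ∑ i, (ιq i).comp (LinearMap.proj i)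
  let J : Submodule k (VN ⧸ KN) := LinearMap.range Ξ
  let θ : VN →ₗ[k] (VN ⧸ KN) ⧸ J := J.mkQ.comp KN.mkQ
  have h1 : finrank k J ≤ n * finrank k (VT ⧸ KT) := by
    calc finrank k J ≤ finrank k (Fin n → VT ⧸ KT) := LinearMap.finrank_range_le Ξ
      _ = n * finrank k (VT ⧸ KT) := by
        rw [Module.finrank_pi_fintype, Finset.sum_const, Finset.card_univ, Fintype.card_fin,
          smul_eq_mul]
  have h2 := J.finrank_quotient_add_finrank
  have h3 : LinearMap.ker β ≤ LinearMap.ker θ := by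
    intro z hz
    obtain ⟨c, rfl⟩ := hex z hz
    rw [LinearMap.mem_ker, LinearMap.comp_apply, Submodule.mkQ_apply, Submodule.mkQ_apply,
      Submodule.Quotient.mk_eq_zero]
    refine ⟨fun i => Submodule.Quotient.mk (c i), ?_⟩
    simp only [Ξ, ιq, LinearMap.sum_apply, LinearMap.comp_apply, LinearMap.proj_apply,
      Submodule.mapQ_apply]
    exact (map_sum KN.mkQ _ _).symm
  have h4 := LinearMap.finrank_range_add_finrank_ker θ
  have hθ : LinearMap.range θ = ⊤ := by
    rw [LinearMap.range_eq_top]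
    exact (Submodule.mkQ_surjective J).comp (Submodule.mkQ_surjective KN)
  rw [hθ, finrank_top] at h4
  have h5 := LinearMap.finrank_range_add_finrank_ker β
  have h6 : finrank k (LinearMap.ker β) ≤ finrank k (LinearMap.ker θ) := Submodule.finrank_mono h3
  have h7 : finrank k (LinearMap.range β) ≤ finrank k VA := Submodule.finrank_le _
  omega

end Count

/-! ### Exactness in the middle of `H²(ofChar χ)^n → H²(extPair) → H²(A)` -/

section Exact

variable (S : Finset Nat.Primes) {k : Type} [Field k] {χ : GQ →* kˣ}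
  {A B : Rep.{0} k GQ} {β : A →ₗ[k] B →ₗ[k] k} {n : ℕ} {x : Fin n → GQ → B}
  (hβ : IsTwistEquivariant χ A B β) (hx : ∀ i, x i ∈ cocycles₁ B)

/-- The projection `extPair → A` as an equivariant linear map. -/
abbrev projLin : (extPair hβ hx) →ₗ[k] A := (extPairProj hβ hx).hom.toLinearMap

lemma projLin_comm (g : GQ) (v : extPair hβ hx) :
    projLin hβ hx ((extPair hβ hx).ρ g v) = A.ρ g (projLin hβ hx v) :=
  Rep.hom_comm_apply (extPairProj hβ hx) g v

/-- The `i`-th inclusion `ofChar χ → extPair` as an equivariant linear map. -/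
abbrev inclLin (i : Fin n) : (ofChar χ) →ₗ[k] (extPair hβ hx) :=
  (extPairIncl hβ hx i).hom.toLinearMap

lemma inclLin_comm (i : Fin n) (g : GQ) (t : ofChar χ) :
    inclLin hβ hx i ((ofChar χ).ρ g t) = (extPair hβ hx).ρ g (inclLin hβ hx i t) :=
  Rep.hom_comm_apply (extPairIncl hβ hx i) g t

@[simp] lemma projLin_apply (v : extPair hβ hx) : projLin hβ hx v = v.1 := rfl

@[simp] lemma inclLin_apply (i : Fin n) (t : ofChar χ) :
    inclLin hβ hx i t = ((0 : A), Pi.single i (t : k)) := rfl

/-- The correction cochain: `(g, h) ↦ β (g • u h) (x i g)` is `S`-level when `u` and `x i`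
are and `A` is trivial on an `S`-level. -/
lemma isLevelConstantS₂_corr
    (hA : ∃ F : IntermediateField ℚ (AlgebraicClosure ℚ), F.IsUnramifiedOutside S ∧
      ∀ s ∈ F.fixingSubgroup, A.ρ s = 1)
    {u : GQ → A} (hu : IsLevelConstantS₁ S u) {xi : GQ → B} (hxi : IsLevelConstantS₁ S xi) :
    IsLevelConstantS₂ S (fun q : GQ × GQ => β (A.ρ q.1 (u q.2)) (xi q.1)) := by
  obtain ⟨FA, hFA, hA1⟩ := hA
  obtain ⟨Fu, hFu, hu1⟩ := hu
  obtain ⟨Fx, hFx, hx1⟩ := hxi
  refine ⟨FA ⊔ (Fu ⊔ Fx), hFA.sup (hFu.sup hFx), fun g g' s s' hs hs' => ?_⟩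
  have hsA : s ∈ FA.fixingSubgroup := IntermediateField.fixingSubgroup_antitone le_sup_left hs
  have hsx : s ∈ Fx.fixingSubgroup :=
    IntermediateField.fixingSubgroup_antitone (le_sup_right.trans le_sup_right) hs
  have hs'u : s' ∈ Fu.fixingSubgroup :=
    IntermediateField.fixingSubgroup_antitone (le_sup_left.trans le_sup_right) hs'
  simp only
  rw [hu1 g' s' hs'u, hx1 g s hsx, map_mul, hA1 s hsA, mul_one]

theorem exists_of_h2LinS_proj_eq_zero
    (hA : ∃ F : IntermediateField ℚ (AlgebraicClosure ℚ), F.IsUnramifiedOutside S ∧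
      ∀ s ∈ F.fixingSubgroup, A.ρ s = 1)
    (hxl : ∀ i, IsLevelConstantS₁ S (x i))
    (z : continuousH2S S (extPair hβ hx))
    (hz : h2LinS S (projLin hβ hx) (projLin_comm hβ hx) z = 0) :
    ∃ c : Fin n → continuousH2S S (ofChar χ),
      z = ∑ i, h2LinS S (inclLin hβ hx i) (inclLin_comm hβ hx i) (c i) := by
  obtain ⟨zt, rfl⟩ := Submodule.mkQ_surjective _ z
  have hz' : ((levelCocyclesS₂Lin S (projLin hβ hx) (projLin_comm hβ hx) zt :
      ↥(levelCocyclesS₂ S A)) : GQ × GQ → A) ∈ levelCoboundariesS₂ S A :=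
    (continuousH2Sπ_eq_zero_iff S A _).1 hz
  obtain ⟨u, hu, hdu⟩ := (mem_levelCoboundariesS₂_iff S A _).1 hz'
  have hu2 : ∀ g h : GQ, A.ρ g (u h) - u (g * h) + u g
      = ((zt : GQ × GQ → extPair hβ hx) (g, h)).1 := by
    intro g h
    have := congrFun hdu (g, h)
    rw [d₁₂_hom_apply] at this
    exact this
  -- the `ofChar χ`-valued cocycles
  let cfun : Fin n → GQ × GQ → (ofChar χ) := fun i q =>
    ((zt : GQ × GQ → extPair hβ hx) q).2 i + β (A.ρ q.1 (u q.2)) (x i q.1)
  have hzc := (mem_cocycles₂_iff (zt : GQ × GQ → extPair hβ hx)).1 zt.2.1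
  have hcoc : ∀ i, cfun i ∈ cocycles₂ (ofChar χ) := by
    intro i
    rw [mem_cocycles₂_iff]
    intro g h j
    have h1 : ((zt : GQ × GQ → extPair hβ hx) (g * h, j)).2 i
          + ((zt : GQ × GQ → extPair hβ hx) (g, h)).2 i
        = ((χ g : k) * ((zt : GQ × GQ → extPair hβ hx) (h, j)).2 i
            - β (A.ρ g ((zt : GQ × GQ → extPair hβ hx) (h, j)).1) (x i g))
          + ((zt : GQ × GQ → extPair hβ hx) (g, h * j)).2 i :=
      congrArg (fun v : A × (Fin n → k) => v.2 i) (hzc g h j)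
    have hxc : x i (g * h) = B.ρ g (x i h) + x i g := (mem_cocycles₁_iff (x i)).1 (hx i) g h
    have hb := hβ g (A.ρ h (u j)) (x i h)
    have e1 := hu2 h j
    show ((zt : GQ × GQ → extPair hβ hx) (g * h, j)).2 i + β (A.ρ (g * h) (u j)) (x i (g * h))
        + (((zt : GQ × GQ → extPair hβ hx) (g, h)).2 i + β (A.ρ g (u h)) (x i g))
      = (χ g : k) * (((zt : GQ × GQ → extPair hβ hx) (h, j)).2 i + β (A.ρ h (u j)) (x i h))
        + (((zt : GQ × GQ → extPair hβ hx) (g, h * j)).2 i + β (A.ρ g (u (h * j))) (x i g))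
    rw [← e1] at h1
    rw [hxc, map_mul, Module.End.mul_apply, map_add, hb]
    simp only [map_add, map_sub, LinearMap.add_apply, LinearMap.sub_apply] at h1 ⊢
    linear_combination h1
  have hlev : ∀ i, IsLevelConstantS₂ S (cfun i) := by
    intro i
    have h1 : IsLevelConstantS₂ S (fun q : GQ × GQ =>
        ((zt : GQ × GQ → extPair hβ hx) q).2 i) :=
      zt.2.2.comp (fun v : A × (Fin n → k) => v.2 i)
    exact h1.add (isLevelConstantS₂_corr S hA hu (hxl i))
  let cz : Fin n → ↥(levelCocyclesS₂ S (ofChar χ)) := fun i => ⟨cfun i, hcoc i, hlev i⟩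
  refine ⟨fun i => continuousH2Sπ S (ofChar χ) (cz i), ?_⟩
  simp only [h2LinS_mk]
  rw [← map_sum, ← sub_eq_zero, ← map_sub, continuousH2Sπ_eq_zero_iff,
    mem_levelCoboundariesS₂_iff]
  refine ⟨fun g => (u g, 0), hu.comp (fun a => (a, (0 : Fin n → k))), ?_⟩
  funext ⟨g, h⟩
  rw [d₁₂_hom_apply]
  have key : ((zt - ∑ j, levelCocyclesS₂Lin S (inclLin hβ hx j) (inclLin_comm hβ hx j) (cz j) :
      ↥(levelCocyclesS₂ S (extPair hβ hx))) : GQ × GQ → extPair hβ hx) (g, h)
      = (((zt : GQ × GQ → extPair hβ hx) (g, h)).1, fun i => - β (A.ρ g (u h)) (x i g)) := by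
    rw [Submodule.coe_sub, Submodule.coe_sum, Pi.sub_apply, Finset.sum_apply]
    have hterm : ∀ c, ((levelCocyclesS₂Lin S (inclLin hβ hx c) (inclLin_comm hβ hx c) (cz c) :
        ↥(levelCocyclesS₂ S (extPair hβ hx))) : GQ × GQ → extPair hβ hx) (g, h)
        = ((0 : A), Pi.single c (cfun c (g, h))) := fun c => rfl
    rw [Finset.sum_congr rfl (fun c _ => hterm c)]
    refine Prod.ext ?_ (funext fun i => ?_)
    · rw [Prod.fst_sub, Prod.fst_sum]
      simp
    · rw [Prod.snd_sub, Prod.snd_sum, Pi.sub_apply, Finset.sum_apply]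
      simp only [Pi.single_apply, Finset.sum_ite_eq, Finset.mem_univ, if_true]
      show ((zt : GQ × GQ → extPair hβ hx) (g, h)).2 i
        - (((zt : GQ × GQ → extPair hβ hx) (g, h)).2 i + β (A.ρ g (u h)) (x i g)) = _
      ring
  rw [key]
  refine Prod.ext ?_ (funext fun i => ?_)
  · exact hu2 g h
  · simp

end Exact

/-! ### Push-forward preserves `Ш²` -/

section Sha2

variable (S : Finset Nat.Primes) {k : Type} [CommRing k] {X Y : Rep.{0} k GQ}

lemma mem_sha₂_iff' (x : continuousH2S S X) :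
    x ∈ sha₂ S X ↔ ∀ v : extArithIndex S, locRes₂S S X (extArithLoc S v) x = 0 := by
  unfold sha₂
  rw [LinearMap.mem_ker]
  exact ⟨fun h v => congrFun h v, fun h => funext h⟩

lemma h2LinS_mem_sha₂ (φ : X →ₗ[k] Y) (hφ : ∀ (g : GQ) (a : X), φ (X.ρ g a) = Y.ρ g (φ a))
    {x : continuousH2S S X} (hx : x ∈ sha₂ S X) : h2LinS S φ hφ x ∈ sha₂ S Y := by
  rw [mem_sha₂_iff'] at hx ⊢
  intro v
  rw [locRes₂S_h2LinS S (extArithLoc S v) φ hφ (fun h a => hφ (extArithLoc S v h) a), hx v,
    map_zero]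

end Sha2

/-! ### Biduality for the local `H²` numbers -/

section Bidual

variable {k : Type} [Field k] {H : Type} [Group H] (r : H →* GQ)

lemma h2Lin_id (P : Rep.{0} k H) (x : continuousH2 r P) :
    h2Lin r (LinearMap.id : P →ₗ[k] P) (fun _ _ => rfl) x = x := by
  obtain ⟨c, rfl⟩ := Submodule.mkQ_surjective _ x
  rfl

/-- An equivariant linear equivalence induces an equality of `dim H²`. -/
lemma finrank_continuousH2_eq_of_equiv {P Q : Rep.{0} k H} (e : P ≃ₗ[k] Q)
    (he : ∀ (h : H) (a : P), e (P.ρ h a) = Q.ρ h (e a)) :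
    finrank k (continuousH2 r P) = finrank k (continuousH2 r Q) := by
  have he' : ∀ (h : H) (b : Q), e.symm (Q.ρ h b) = P.ρ h (e.symm b) := by
    intro h b
    apply e.injective
    rw [he, e.apply_symm_apply, e.apply_symm_apply]
  refine LinearEquiv.finrank_eq (LinearEquiv.ofLinearMap (h2Lin r e.toLinearMap he)
    (h2Lin r e.symm.toLinearMap he') ?_ ?_)
  · refine LinearMap.ext fun x => ?_
    rw [LinearMap.comp_apply, h2Lin_comp r _ _ he' he (fun h a => by simp),
      LinearMap.id_apply]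
    have : (e.toLinearMap ∘ₗ e.symm.toLinearMap) = LinearMap.id := by ext; simp
    rw [Fermat.Agent.S55.helper5036.h2Lin_congr r this _ (fun _ _ => rfl), h2Lin_id]
  · refine LinearMap.ext fun x => ?_
    rw [LinearMap.comp_apply, h2Lin_comp r _ _ he he' (fun h a => by simp),
      LinearMap.id_apply]
    have : (e.symm.toLinearMap ∘ₗ e.toLinearMap) = LinearMap.id := by ext; simp
    rw [Fermat.Agent.S55.helper5036.h2Lin_congr r this _ (fun _ _ => rfl), h2Lin_id]

end Bidual

/-! ### Cocycle representatives of a basis of `Ш¹` -/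

section Extract

variable {k : Type} [Field k] (S : Finset Nat.Primes) (B : Rep.{0} k GQ)

/-- A 1-cocycle whose class restricts to zero along `r` is a coboundary along `r`. -/
lemma exists_of_map_H1π_eq_zero {H : Type} [Group H] (r : H →* GQ) (c : cocycles₁ B)
    (h : (groupCohomology.map r (𝟙 (Rep.res r B)) 1).hom ((H1π B).hom c) = 0) :
    ∃ m : B, ∀ h : H, (c : GQ → B) (r h) = B.ρ (r h) m - m := by
  have h1 : (H1π (Rep.res r B)).hom (mapCocycles₁ r (𝟙 (Rep.res r B)) c) = 0 := by
    rw [← h]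
    exact (H1π_comp_map_apply r (𝟙 (Rep.res r B)) c).symm
  rw [H1π_eq_zero_iff] at h1
  obtain ⟨m, hm⟩ := h1
  refine ⟨m, fun h => ?_⟩
  have := congrFun hm h
  rw [d₀₁_hom_apply] at this
  exact this.symm

/-- Cocycle representatives of a basis of `Ш¹`. -/
theorem exists_cocycles_of_sha₁ [FiniteDimensional k (sha₁ S B)] :
    ∃ x : Fin (finrank k (sha₁ S B)) → GQ → B,
      (∀ i, x i ∈ cocycles₁ B) ∧ (∀ i, IsLevelConstantS₁ S (x i)) ∧
      (∀ (c : Fin (finrank k (sha₁ S B)) → k) (b : B),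
        (∀ g, ∑ i, c i • x i g = B.ρ g b - b) → c = 0) ∧
      (∀ i (v : extArithIndex S), ∃ m : B, ∀ h,
        x i (extArithLoc S v h) = B.ρ (extArithLoc S v h) m - m) := by
  classical
  let bs := Module.finBasis k (sha₁ S B)
  have hmem : ∀ i, ((bs i : sha₁ S B) : H1 B) ∈ continuousH1S S B := fun i => (bs i).2.1
  choose c hc hcπ using fun i => (mem_continuousH1S_iff S B _).1 (hmem i)
  refine ⟨fun i => (c i : GQ → B), fun i => (c i).2, hc, ?_, ?_⟩
  · intro a b hab
    have h1 : (H1π B).hom (∑ i, a i • c i) = 0 := by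
      rw [H1π_eq_zero_iff]
      refine ⟨b, funext fun g => ?_⟩
      rw [d₀₁_hom_apply, ← hab g]
      have hsum : ((∑ i, a i • c i : cocycles₁ B) : GQ → B) = ∑ i, a i • (c i : GQ → B) := by
        show (cocycles₁ B).subtype (∑ i, a i • c i) = ∑ i, a i • (cocycles₁ B).subtype (c i)
        rw [map_sum]
        simp only [map_smul]
      rw [hsum, Finset.sum_apply]
      rfl
    rw [map_sum] at h1
    simp only [map_smul, hcπ] at h1
    have h2 : ∑ i, a i • bs i = 0 := by
      apply Subtype.ext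
      simpa using h1
    have := Fintype.linearIndependent_iff.1 bs.linearIndependent a h2
    exact funext this
  · intro i v
    have hv : (locRes (extArithLoc S) B v).hom ((bs i : sha₁ S B) : H1 B) = 0 := by
      have := (bs i).2.2
      have h0 : locTotal (extArithLoc S) B ((bs i : sha₁ S B) : H1 B) = 0 :=
        LinearMap.mem_ker.1 this
      exact congrFun h0 v
    rw [← hcπ i] at hv
    exact exists_of_map_H1π_eq_zero B (extArithLoc S v) (c i) hv

end Extract

end

end Fermat.Agent.S55.helper166
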