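/-
S55 (Poitou–Tate), SOFT layer, leaf SOFT-A (step A of the soft squeeze) — helper166.
Part 2: the numerics and the assembly  `Stmt_A ⟸ Stmt_FinOne + Stmt_B + Stmt_L2num + Stmt_ExtPair`.

For a perfect `χ`-equivariant pairing `β : A × B → k` (`χ` the mod `p` cyclotomic character) of
S-modules with `r₂(A) + h⁰(B) = π₀(B)`, and cocycles `x₁, …, x_n` representing a basis of
`Ш¹(B)`, the extension-pair module `N = extPair β x` sits in `0 → T^n → N → A → 0`
(`T = ofChar χ`), and

* `r₂(N) + h⁰(N') = π₂(N) = π₀(N')`  (`Stmt_B`, `Stmt_L2num` for `N`),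
* `h⁰(N') = h⁰(B)`, `π₀(N') = π₀(B) + n·|S|`  (`Stmt_ExtPair`: the `x i` are independent globally
  and trivial locally),
* `r₂(T) + 1 = |S|`,
* `r₂(N) ≤ n·r₂(T) + h²(A)`  (middle exactness at `H²` + counting),

whence `n ≤ h²(A) - r₂(A) = a₂(A)`.
-/
import Mathlib
import Fermat.Prelude.Def_GroupCohomology_ContinuousUnramified
import Fermat.Agent.S55.helper2945_SoftSpec
import Fermat.Agent.S55.helper5036_EvalPush
import Fermat.Agent.S55.helper6607_ExtPair
import Fermat.Agent.S55.helper1408_DualTwist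
import Fermat.Agent.S55.helper4039_SModField
import Fermat.Agent.S55.helper8412_DualClosed
import Fermat.Agent.S55.helper166_StmtAExact

set_option autoImplicit false

namespace Fermat.Agent.S55.helper166

open CategoryTheory Module groupCohomology ExtCitation
open Fermat.Agent.S55.helper2945
open Fermat.Agent.S55.helper5036 (h2LinS)
open Fermat.Agent.S55.helper6607

noncomputable section

variable {p : ℕ} [Fact p.Prime]

/-! ### Biduality for `π₂` and the other half of `Stmt_L2num` -/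

/-- `π₂(M'') = π₂(M)`. -/
theorem pi2_dualT_dualT (S : Finset Nat.Primes) (X : Rep.{0} (ZMod p) GQ)
    [FiniteDimensional (ZMod p) X] : pi2 S (dualT (dualT X)) = pi2 S X := by
  unfold pi2
  refine Finset.sum_congr rfl fun q _ => ?_
  exact (finrank_continuousH2_eq_of_equiv (primeLocalToGlobal q)
    (P := Rep.res (primeLocalToGlobal q) X)
    (Q := Rep.res (primeLocalToGlobal q) (dualT (dualT X)))
    (Module.evalEquiv (ZMod p) X) (fun h a =>
      Rep.hom_comm_apply (Fermat.Agent.S55.helper1408.dualTwistDualTwistIso (cycloChar p) X).hom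
        (primeLocalToGlobal q h) a)).symm

/-- The companion of `Stmt_L2num`: `π₂(M) = π₀(M')`. -/
theorem pi2_eq_pi0_dualT_of (hL : Stmt_L2num) (hp2 : p ≠ 2) (S : Finset Nat.Primes)
    (hpS : pPrime p ∈ S) (X : Rep.{0} (ZMod p) GQ) (hX : IsSMod S X) :
    pi2 S X = pi0 S (dualT X) := by
  have := hX.finite
  rw [← pi2_dualT_dualT S X]
  exact hL hp2 S hpS (dualT X) (Fermat.Agent.S55.helper8412.isSMod_dualT S hpS X hX)

/-! ### The module `T = ofChar (cycloChar p)` -/

/-- `μ_p` is an S-module when `p ∈ S`. -/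
theorem isSMod_ofChar_cycloChar (S : Finset Nat.Primes) (hpS : pPrime p ∈ S) :
    IsSMod S (ofChar (cycloChar p)) := by
  refine ⟨inferInstanceAs (FiniteDimensional (ZMod p) (ZMod p)), fun m => ?_, ?_⟩
  · obtain ⟨F, hF, hFs⟩ := Fermat.Agent.S55.helper1408.exists_level_cycloChar p
    refine ⟨F, hF, fun s hs => ?_⟩
    show ((Representation.trivial (ZMod p) GQ (ZMod p)).twist (cycloChar p)) s m = m
    rw [Representation.twist_apply_apply, hFs s hs]
    simp
  · intro q hq Av hAv g hg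
    have h1 : cycloChar p g = 1 :=
      Fermat.Agent.S55.helper4039.cycloChar_eq_one_of_mem_inertia_of_not_mem p hpS hq hAv hg
    refine LinearMap.ext fun m => ?_
    show ((Representation.trivial (ZMod p) GQ (ZMod p)).twist (cycloChar p)) g m = m
    rw [Representation.twist_apply_apply, h1]
    simp

/-- `T' = Hom(μ_p, μ_p)` is the trivial module. -/
theorem dualT_ofChar_ρ (g : GQ) : (dualT (ofChar (cycloChar p))).ρ g = 1 := by
  refine LinearMap.ext fun φ => LinearMap.ext fun a => ?_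
  rw [Fermat.Agent.S55.helper1408.dualTwist_ρ_apply_apply]
  show ((cycloChar p g : (ZMod p)ˣ) : ZMod p)
    * φ (((Representation.trivial (ZMod p) GQ (ZMod p)).twist (cycloChar p)) g⁻¹ a) = φ a
  rw [Representation.twist_apply_apply, map_smul, smul_eq_mul, ← mul_assoc, ← Units.val_mul,
    ← map_mul, mul_inv_cancel, map_one, Units.val_one, one_mul]
  rfl

theorem finrank_invariants_of_forall_eq_one {k G V : Type*} [Field k] [Group G] [AddCommGroup V]
    [Module k V] (ρ : Representation k G V) (h : ∀ g, ρ g = 1) :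
    finrank k ρ.invariants = finrank k V := by
  have : ρ.invariants = ⊤ := by
    rw [eq_top_iff]
    intro v _
    rw [Representation.mem_invariants]
    intro g
    rw [h g]
    rfl
  rw [this, finrank_top]

theorem finrank_dualT_ofChar :
    finrank (ZMod p) (dualT (ofChar (cycloChar p))) = 1 := by
  show finrank (ZMod p) (Module.Dual (ZMod p) (ZMod p)) = 1
  rw [Subspace.dual_finrank_eq, finrank_self]

theorem h0_dualT_ofChar : h0 (dualT (ofChar (cycloChar p))) = 1 := by
  unfold h0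
  rw [finrank_invariants_of_forall_eq_one _ dualT_ofChar_ρ, finrank_dualT_ofChar]

theorem pi0_dualT_ofChar (S : Finset Nat.Primes) :
    pi0 S (dualT (ofChar (cycloChar p))) = S.card := by
  unfold pi0
  have : ∀ q ∈ S, finrank (ZMod p) (Representation.invariants
      (Rep.res (primeLocalToGlobal q) (dualT (ofChar (cycloChar p)))).ρ) = 1 := by
    intro q _
    rw [finrank_invariants_of_forall_eq_one _
      (fun h => dualT_ofChar_ρ (primeLocalToGlobal q h))]
    exact finrank_dualT_ofChar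
  rw [Finset.sum_congr rfl this, Finset.sum_const, smul_eq_mul, mul_one]

/-- `r₂(μ_p) = |S| - 1`. -/
theorem r2_ofChar_add_one (hB : Stmt_B) (hL : Stmt_L2num) (hp2 : p ≠ 2)
    (S : Finset Nat.Primes) (hpS : pPrime p ∈ S) :
    r2 S (ofChar (cycloChar p)) + 1 = S.card := by
  have hT := isSMod_ofChar_cycloChar S hpS
  have h1 := (hB hp2 S hpS _ hT).1
  rw [pi2_eq_pi0_dualT_of hL hp2 S hpS _ hT, pi0_dualT_ofChar, h0_dualT_ofChar] at h1
  exact h1

/-! ### The extension-pair input -/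

/-- The facts about the extension-pair module `N = extPair β x` used by step A, for a perfect
`χ`-equivariant pairing `β : A × B → 𝔽_p` of S-modules and `S`-level cocycles `x i` of `B` which
are independent modulo coboundaries and are coboundaries at every `q ∈ S`:
`N` is an S-module, `h⁰(N') = h⁰(B)` and `π₀(N') = π₀(B) + n·|S|`. -/
def Stmt_ExtPair : Prop :=
  ∀ {p : ℕ} [Fact p.Prime], p ≠ 2 → ∀ (S : Finset Nat.Primes), pPrime p ∈ S →
    ∀ (A B : Rep.{0, 0, 0} (ZMod p) GQ), IsSMod S A → IsSMod S B →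
    ∀ (β : A →ₗ[ZMod p] B →ₗ[ZMod p] ZMod p) (hβ : IsTwistEquivariant (cycloChar p) A B β),
      (∀ f : Module.Dual (ZMod p) A, ∃ b : B, ∀ a, β a b = f a) →
      (∀ b : B, (∀ a, β a b = 0) → b = 0) →
    ∀ (n : ℕ) (x : Fin n → GQ → B) (hx : ∀ i, x i ∈ cocycles₁ B),
      (∀ i, IsLevelConstantS₁ S (x i)) →
      (∀ (c : Fin n → ZMod p) (b : B), (∀ g, ∑ i, c i • x i g = B.ρ g b - b) → c = 0) →
      (∀ (i : Fin n) (q : Nat.Primes), q ∈ S → ∃ m : B, ∀ h,
        x i (primeLocalToGlobal q h) = B.ρ (primeLocalToGlobal q h) m - m) →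
      IsSMod S (extPair hβ hx) ∧ h0 (dualT (extPair hβ hx)) = h0 B ∧
        pi0 S (dualT (extPair hβ hx)) = pi0 S B + n * S.card

/-! ### Step A for a perfect pairing -/

/-- **Step A**, general form: for a perfect `χ`-equivariant pairing `β : A × B → 𝔽_p` of
S-modules with `r₂(A) + h⁰(B) = π₀(B)`, `dim Ш¹(B) ≤ dim Ш²(A)`. -/
theorem a1_le_a2_of_pairing (hF : Stmt_FinOne) (hB : Stmt_B) (hL : Stmt_L2num)
    (hE : Stmt_ExtPair) (hp2 : p ≠ 2) (S : Finset Nat.Primes) (hpS : pPrime p ∈ S)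
    (A B : Rep.{0, 0, 0} (ZMod p) GQ) (hA : IsSMod S A) (hBm : IsSMod S B)
    (β : A →ₗ[ZMod p] B →ₗ[ZMod p] ZMod p) (hβ : IsTwistEquivariant (cycloChar p) A B β)
    (hsurj : ∀ f : Module.Dual (ZMod p) A, ∃ b : B, ∀ a, β a b = f a)
    (hinj : ∀ b : B, (∀ a, β a b = 0) → b = 0)
    (hnum : r2 S A + h0 B = pi0 S B) : a1 S B ≤ a2 S A := by
  have hfdA := hA.finite
  have hfd1 : FiniteDimensional (ZMod p) (continuousH1S S B) := (hF hp2 S hpS B hBm).1
  have hfd : FiniteDimensional (ZMod p) (sha₁ S B) :=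
    Submodule.finiteDimensional_of_le (inf_le_left : sha₁ S B ≤ continuousH1S S B)
  obtain ⟨x, hx, hxl, hind, hloc⟩ := exists_cocycles_of_sha₁ S B
  obtain ⟨hN, hN0, hNpi⟩ := hE hp2 S hpS A B hA hBm β hβ hsurj hinj _ x hx hxl hind
    (fun i q hq => hloc i (Sum.inr ⟨q, hq⟩))
  have hT := isSMod_ofChar_cycloChar (p := p) S hpS
  have hfdN : FiniteDimensional (ZMod p) (continuousH2S S (extPair hβ hx)) :=
    (hF hp2 S hpS _ hN).2
  have hfdA2 : FiniteDimensional (ZMod p) (continuousH2S S A) := (hF hp2 S hpS A hA).2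
  have hfdT : FiniteDimensional (ZMod p) (continuousH2S S (ofChar (cycloChar p))) :=
    (hF hp2 S hpS _ hT).2
  -- numerics for `N`
  have hBN := (hB hp2 S hpS _ hN).1
  rw [pi2_eq_pi0_dualT_of hL hp2 S hpS _ hN, hN0, hNpi] at hBN
  have hr2T := r2_ofChar_add_one hB hL hp2 S hpS
  -- the count
  obtain ⟨K, hK, -, -, -, hKρ, -, -⟩ :=
    Fermat.Agent.S55.helper4039.exists_galois_sfield_trivializing_rep p hpS A hA.smooth hA.unram
  have hcount : r2 S (extPair hβ hx) ≤
      finrank (ZMod p) (sha₁ S B) * r2 S (ofChar (cycloChar p)) + h2 S A :=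
    finrank_quotient_le_of_exact (sha₂ S (extPair hβ hx)) (sha₂ S (ofChar (cycloChar p)))
      (h2LinS S (projLin hβ hx) (projLin_comm hβ hx))
      (fun i => h2LinS S (inclLin hβ hx i) (inclLin_comm hβ hx i))
      (fun i c hc => h2LinS_mem_sha₂ S _ _ hc)
      (exists_of_h2LinS_proj_eq_zero S hβ hx ⟨K, hK, hKρ⟩ hxl)
  have hA2 := a2_add_r2 S A
  have hmul : finrank (ZMod p) (sha₁ S B) * S.card
      = finrank (ZMod p) (sha₁ S B) * r2 S (ofChar (cycloChar p))
        + finrank (ZMod p) (sha₁ S B) := by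
    rw [← hr2T]
    ring
  unfold a1
  generalize finrank (ZMod p) (sha₁ S B) * r2 S (ofChar (cycloChar p)) = X at hcount hmul
  generalize finrank (ZMod p) (sha₁ S B) * S.card = Y at hBN hmul
  omega

/-! ### The two instances and `Stmt_A` -/

/-- The evaluation pairing `M × M' → 𝔽_p`, `(m, φ) ↦ φ m`. -/
abbrev evalL (M : Rep.{0, 0, 0} (ZMod p) GQ) : M →ₗ[ZMod p] (dualT M) →ₗ[ZMod p] ZMod p :=
  Module.Dual.eval (ZMod p) M

/-- The evaluation pairing `M' × M → 𝔽_p`, `(φ, m) ↦ φ m`. -/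
abbrev evalR (M : Rep.{0, 0, 0} (ZMod p) GQ) : (dualT M) →ₗ[ZMod p] M →ₗ[ZMod p] ZMod p :=
  LinearMap.id

theorem ρ_inv_ρ (M : Rep.{0, 0, 0} (ZMod p) GQ) (g : GQ) (m : M) :
    M.ρ g⁻¹ (M.ρ g m) = m := by
  rw [← Module.End.mul_apply, ← map_mul, inv_mul_cancel, map_one, Module.End.one_apply]

theorem isTwistEquivariant_evalL (M : Rep.{0, 0, 0} (ZMod p) GQ) :
    IsTwistEquivariant (cycloChar p) M (dualT M) (evalL M) := by
  intro g m φ
  show (dualT M).ρ g φ (M.ρ g m) = _
  rw [Fermat.Agent.S55.helper1408.dualTwist_ρ_apply_apply, ρ_inv_ρ]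
  rfl

theorem isTwistEquivariant_evalR (M : Rep.{0, 0, 0} (ZMod p) GQ) :
    IsTwistEquivariant (cycloChar p) (dualT M) M (evalR M) := by
  intro g φ m
  show (dualT M).ρ g φ (M.ρ g m) = _
  rw [Fermat.Agent.S55.helper1408.dualTwist_ρ_apply_apply, ρ_inv_ρ]
  rfl

/-- **SOFT-A**: `helper2945.Stmt_A` from finiteness, step B, the numerical (L2) and the
extension-pair input. -/
theorem stmt_A_of (hF : Stmt_FinOne) (hB : Stmt_B) (hL : Stmt_L2num) (hE : Stmt_ExtPair) :
    Stmt_A := by
  intro p _ hp2 S hpS M hM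
  have hfd := hM.finite
  have hM' := Fermat.Agent.S55.helper8412.isSMod_dualT S hpS M hM
  obtain ⟨hB1, hB2⟩ := hB hp2 S hpS M hM
  constructor
  · refine a1_le_a2_of_pairing hF hB hL hE hp2 S hpS M (dualT M) hM hM' (evalL M)
      (isTwistEquivariant_evalL M) (fun f => ⟨f, fun a => rfl⟩)
      (fun b hb => LinearMap.ext hb) ?_
    rw [hB1]
    exact pi2_eq_pi0_dualT_of hL hp2 S hpS M hM
  · refine a1_le_a2_of_pairing hF hB hL hE hp2 S hpS (dualT M) M hM' hM (evalR M)
      (isTwistEquivariant_evalR M) (fun f => ?_)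
      (fun m hm => (Module.forall_dual_apply_eq_zero_iff (ZMod p) m).1 hm) ?_
    · refine ⟨(Module.evalEquiv (ZMod p) M).symm f, fun φ => ?_⟩
      have := congrArg (fun e : Module.Dual (ZMod p) (Module.Dual (ZMod p) M) => e φ)
        ((Module.evalEquiv (ZMod p) M).apply_symm_apply f)
      exact this
    · rw [hB2]
      exact hL hp2 S hpS M hM

end

end Fermat.Agent.S55.helper166
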