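/-
S55 / SOFT-A (step A of the soft squeeze), (N2) — helper6607.

Invariants of the `χ`-twisted dual of the extension-pair module `N = extPair hβ hx`
(see `helper6607_ExtPair.lean`) under restriction along any `r : H →* G`:

  `invariants (Rep.res r (N.dualTwist χ)) ≃ {(b, l) : B × (Fin n → k) |
      ∀ h, ∑ i, l i • x i (r h) = b - (r h) • b}`

provided `b ↦ β (·, b)` is a bijection `B → Dual A`.  Corollaries:
* global: if the classes of the `x i` are linearly independent, the invariants are those of `B`;
* local: if every `x i ∘ r` is a coboundary, they are `invariants (res r B) × k^n`.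
-/
import Mathlib
import Fermat.Prelude.Def_GroupCohomology_ContinuousUnramified
import Fermat.Agent.S55.helper6607_ExtPair

set_option autoImplicit false

open CategoryTheory groupCohomology Module

namespace Fermat.Agent.S55.helper6607

noncomputable section

variable {k G : Type} [Field k] [Group G]

/-- Invariants of a restricted twisted dual, in terms of functionals:
`φ` is invariant iff `φ (g v) = χ g * φ v` for all `g = r h`. -/
lemma mem_invariants_comp_dual_twist_iff {H : Type} [Group H] (r : H →* G) (χ : G →* kˣ)
    (M : Rep.{0} k G) (φ : Module.Dual k M) :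
    φ ∈ Representation.invariants ((M.ρ.dual.twist χ).comp r)
      ↔ ∀ (h : H) (v : M), φ (M.ρ (r h) v) = (χ (r h) : k) * φ v := by
  rw [Representation.mem_invariants]
  constructor
  · intro hφ h v
    have h1 := congrArg (fun ψ : Module.Dual k M => ψ (M.ρ (r h) v)) (hφ h)
    simp only [MonoidHom.comp_apply, Representation.twist_apply_apply, Representation.dual_apply,
      LinearMap.smul_apply, Module.Dual.transpose_apply, LinearMap.comp_apply, smul_eq_mul] at h1
    rw [← Module.End.mul_apply, ← map_mul, inv_mul_cancel, map_one, Module.End.one_apply] at h1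
    exact h1.symm
  · intro hφ h
    refine LinearMap.ext fun v => ?_
    simp only [MonoidHom.comp_apply, Representation.twist_apply_apply, Representation.dual_apply,
      LinearMap.smul_apply, Module.Dual.transpose_apply, LinearMap.comp_apply, smul_eq_mul]
    have h2 := hφ h (M.ρ (r h)⁻¹ v)
    rw [← Module.End.mul_apply, ← map_mul, mul_inv_cancel, map_one, Module.End.one_apply] at h2
    exact h2.symm

section Inv

variable {χ : G →* kˣ} {A B : Rep.{0} k G} {β : A →ₗ[k] B →ₗ[k] k} {n : ℕ} {x : Fin n → G → B}
  (hβ : IsTwistEquivariant χ A B β) (hx : ∀ i, x i ∈ cocycles₁ B)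

variable (β) (n) in
/-- The functional `(a, t) ↦ β a b + ∑ i, l i * t i` attached to `(b, l)`. -/
def pairFunctional : (B × (Fin n → k)) →ₗ[k] Module.Dual k (A × (Fin n → k)) :=
  LinearMap.coprod
    ((LinearMap.lcomp k k (LinearMap.fst k A (Fin n → k))).comp β.flip)
    ((LinearMap.lcomp k k (LinearMap.snd k A (Fin n → k))).comp
      (Fintype.linearCombination k (LinearMap.proj (R := k) (φ := fun _ : Fin n => k))))

@[simp] lemma pairFunctional_apply (w : B × (Fin n → k)) (v : A × (Fin n → k)) :
    pairFunctional β n w v = β v.1 w.1 + ∑ i, w.2 i * v.2 i := by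
  simp [pairFunctional, Fintype.linearCombination_apply]

variable (x) in
/-- The pairs `(b, l)` with `∑ i, l i • x i (r h) = b - (r h) • b` for all `h`. -/
def invPairs {H : Type} [Group H] (r : H →* G) : Submodule k (B × (Fin n → k)) where
  carrier := {w | ∀ h : H, ∑ i, w.2 i • x i (r h) = w.1 - B.ρ (r h) w.1}
  add_mem' {w w'} hw hw' h := by
    simp only [Prod.fst_add, Prod.snd_add, Pi.add_apply, add_smul, Finset.sum_add_distrib,
      hw h, hw' h, map_add]
    abel
  zero_mem' h := by simp
  smul_mem' c w hw h := by
    simp only [Prod.smul_fst, Prod.smul_snd, Pi.smul_apply, smul_eq_mul, mul_smul,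
      ← Finset.smul_sum, hw h, map_smul, smul_sub]

lemma mem_invPairs_iff {H : Type} [Group H] (r : H →* G) (w : B × (Fin n → k)) :
    w ∈ invPairs x r ↔ ∀ h : H, ∑ i, w.2 i • x i (r h) = w.1 - B.ρ (r h) w.1 := Iff.rfl

include hβ in
/-- Key computation: the functional of `(b, l)` is `r`-invariant for the twisted dual of the
extension-pair module iff `(b, l) ∈ invPairs x r` (left-nondegeneracy of `β` in `B` needed
for `→`). -/
lemma pairFunctional_mem_invariants_iff {H : Type} [Group H] (r : H →* G)
    (hinj : ∀ b : B, (∀ a : A, β a b = 0) → b = 0) (w : B × (Fin n → k)) :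
    pairFunctional β n w ∈ Representation.invariants
        (((extPair hβ hx).ρ.dual.twist χ).comp r)
      ↔ w ∈ invPairs x r := by
  rw [mem_invariants_comp_dual_twist_iff, mem_invPairs_iff]
  have key : ∀ (h : H) (v : A × (Fin n → k)),
      pairFunctional β n w ((extPair hβ hx).ρ (r h) v) - (χ (r h) : k) * pairFunctional β n w v
        = β (A.ρ (r h) v.1) (w.1 - B.ρ (r h) w.1 - ∑ i, w.2 i • x i (r h)) := by
    intro h v
    rw [pairFunctional_apply, pairFunctional_apply, extPair_ρ_apply]
    simp only [map_sub, map_sum, map_smul, smul_eq_mul, hβ (r h) v.1 w.1, mul_sub,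
      Finset.sum_sub_distrib, Finset.mul_sum, mul_add]
    have : ∀ i, w.2 i * ((χ (r h) : k) * v.2 i) = (χ (r h) : k) * (w.2 i * v.2 i) := fun i => by ring
    simp only [this]
    ring
  constructor
  · intro hinv h
    have h0 : w.1 - B.ρ (r h) w.1 - ∑ i, w.2 i • x i (r h) = 0 := by
      apply hinj
      intro a
      have := key h ((A.ρ (r h)⁻¹ a), 0)
      rw [hinv h, sub_self] at this
      simp only at this
      rw [← Module.End.mul_apply, ← map_mul, mul_inv_cancel, map_one, Module.End.one_apply] at this
      exact this.symm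
    exact (sub_eq_zero.1 h0).symm
  · intro hw h v
    have := key h v
    rw [hw h, sub_self, map_zero, sub_eq_zero] at this
    exact this

/-- `pairFunctional` is injective when `β` is left-nondegenerate in `B`. -/
lemma pairFunctional_injective (hinj : ∀ b : B, (∀ a : A, β a b = 0) → b = 0) :
    Function.Injective (pairFunctional β n) := by
  rw [← LinearMap.ker_eq_bot, LinearMap.ker_eq_bot']
  intro w hw
  have h1 : w.1 = 0 := hinj _ fun a => by
    have := congrArg (fun φ : Module.Dual k (A × (Fin n → k)) => φ (a, 0)) hw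
    simpa using this
  have h2 : w.2 = 0 := funext fun j => by
    have := congrArg (fun φ : Module.Dual k (A × (Fin n → k)) => φ (0, Pi.single j 1)) hw
    simpa [Pi.single_apply] using this
  exact Prod.ext h1 h2

/-- `pairFunctional` is surjective when every functional on `A` is `β (·, b)`. -/
lemma pairFunctional_surjective (hsurj : ∀ f : Module.Dual k A, ∃ b : B, ∀ a, β a b = f a) :
    Function.Surjective (pairFunctional β n) := by
  intro φ
  obtain ⟨b, hb⟩ := hsurj (φ.comp (LinearMap.inl k A (Fin n → k)))
  refine ⟨(b, fun i => φ (0, Pi.single i 1)), LinearMap.ext fun v => ?_⟩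
  rw [pairFunctional_apply]
  have hv : v = (v.1, (0 : Fin n → k)) + ∑ i, v.2 i • ((0 : A), (Pi.single i 1 : Fin n → k)) := by
    refine Prod.ext ?_ (funext fun j => ?_)
    · simp [Prod.fst_sum]
    · simp [Prod.snd_sum, Finset.sum_apply, Pi.single_apply]
  conv_rhs => rw [hv]
  rw [map_add, map_sum]
  simp only [map_smul, smul_eq_mul]
  rw [hb v.1]
  simp only [LinearMap.comp_apply, LinearMap.inl_apply]
  congr 1
  exact Finset.sum_congr rfl fun i _ => mul_comm _ _

include hβ in
/-- **(N2)** The `r`-invariants of the twisted dual of the extension-pair module are the pairs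
`(b, l)` with `∑ i, l i • x i (r h) = b - (r h) b`. -/
def invPairsEquiv {H : Type} [Group H] (r : H →* G)
    (hinj : ∀ b : B, (∀ a : A, β a b = 0) → b = 0)
    (hsurj : ∀ f : Module.Dual k A, ∃ b : B, ∀ a, β a b = f a) :
    invPairs x r ≃ₗ[k]
      Representation.invariants (((extPair hβ hx).ρ.dual.twist χ).comp r) :=
  LinearEquiv.ofBijective
    ((pairFunctional β n).restrict (p := invPairs x r)
      (q := Representation.invariants (((extPair hβ hx).ρ.dual.twist χ).comp r))
      fun w hw => (pairFunctional_mem_invariants_iff hβ hx r hinj w).2 hw)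
    ⟨fun w w' h => Subtype.ext (pairFunctional_injective hinj (congrArg Subtype.val h)),
      fun φ => by
        obtain ⟨w, hw⟩ := pairFunctional_surjective (n := n) hsurj φ.1
        exact ⟨⟨w, (pairFunctional_mem_invariants_iff hβ hx r hinj w).1 (hw ▸ φ.2)⟩,
          Subtype.ext hw⟩⟩

/-- Global shape: if no nontrivial combination of the `x i ∘ r` is a coboundary, `invPairs`
is `invariants (res r B)` (embedded as `(b, 0)`). -/
def invPairsEquivOfIndep {H : Type} [Group H] (r : H →* G)
    (hind : ∀ (l : Fin n → k) (b : B), (∀ h : H, ∑ i, l i • x i (r h) = b - B.ρ (r h) b) → l = 0) :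
    invPairs x r ≃ₗ[k] Representation.invariants (B.ρ.comp r) where
  toFun w := ⟨w.1.1, by
    have hl : w.1.2 = 0 := hind w.1.2 w.1.1 w.2
    rw [Representation.mem_invariants]
    intro h
    have := w.2 h
    rw [hl] at this
    simp only [Pi.zero_apply, zero_smul, Finset.sum_const_zero] at this
    exact (sub_eq_zero.1 this.symm).symm⟩
  map_add' _ _ := rfl
  map_smul' _ _ := rfl
  invFun b := ⟨(b.1, 0), fun h => by
    have := (Representation.mem_invariants _ _).1 b.2 h
    simp only [Pi.zero_apply, zero_smul, Finset.sum_const_zero]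
    rw [eq_comm, sub_eq_zero]
    exact this.symm⟩
  left_inv w := by
    have hl : w.1.2 = 0 := hind w.1.2 w.1.1 w.2
    exact Subtype.ext (Prod.ext rfl hl.symm)
  right_inv _ := rfl

/-- Local shape: if every `x i ∘ r` is the coboundary of `m i`, `invPairs` is
`invariants (res r B) × k^n` via `(b, l) ↦ (b + ∑ i, l i • m i, l)`. -/
def invPairsEquivOfSplit {H : Type} [Group H] (r : H →* G) (m : Fin n → B)
    (hm : ∀ (i : Fin n) (h : H), x i (r h) = B.ρ (r h) (m i) - m i) :
    invPairs x r ≃ₗ[k] (Representation.invariants (B.ρ.comp r) × (Fin n → k)) where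
  toFun w := (⟨w.1.1 + ∑ i, w.1.2 i • m i, by
    rw [Representation.mem_invariants]
    intro h
    have := w.2 h
    simp only [hm, smul_sub, Finset.sum_sub_distrib] at this
    simp only [MonoidHom.comp_apply, map_add, map_sum, map_smul]
    rw [← sub_eq_zero]
    rw [← sub_eq_zero] at this
    rw [← this]
    abel⟩, w.1.2)
  map_add' w w' := by
    refine Prod.ext (Subtype.ext ?_) rfl
    simp only [Submodule.coe_add, Prod.fst_add, Prod.snd_add, Pi.add_apply, add_smul,
      Finset.sum_add_distrib]
    abel
  map_smul' c w := by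
    refine Prod.ext (Subtype.ext ?_) rfl
    simp only [Submodule.coe_smul, Prod.smul_fst, Prod.smul_snd, Pi.smul_apply, smul_eq_mul,
      mul_smul, ← Finset.smul_sum, smul_add, RingHom.id_apply]
  invFun u := ⟨(u.1.1 - ∑ i, u.2 i • m i, u.2), fun h => by
    have := (Representation.mem_invariants _ _).1 u.1.2 h
    simp only [MonoidHom.comp_apply] at this
    simp only [hm, smul_sub, Finset.sum_sub_distrib, map_sub, map_sum, map_smul, this]
    abel⟩
  left_inv w := by
    refine Subtype.ext (Prod.ext ?_ rfl)
    simp
  right_inv u := by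
    refine Prod.ext (Subtype.ext ?_) rfl
    simp


/-! ### Dimension corollaries -/

include hβ in
/-- **(N2), independent case**, for any `r : H →* G`. -/
theorem finrank_invariants_comp_of_indep {H : Type} [Group H] (r : H →* G)
    (hinj : ∀ b : B, (∀ a : A, β a b = 0) → b = 0)
    (hsurj : ∀ f : Module.Dual k A, ∃ b : B, ∀ a, β a b = f a)
    (hind : ∀ (l : Fin n → k) (b : B), (∀ h : H, ∑ i, l i • x i (r h) = b - B.ρ (r h) b) → l = 0) :
    finrank k (Representation.invariants (((extPair hβ hx).ρ.dual.twist χ).comp r))
      = finrank k (Representation.invariants (B.ρ.comp r)) :=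
  ((invPairsEquiv hβ hx r hinj hsurj).symm.trans (invPairsEquivOfIndep r hind)).finrank_eq

include hβ in
/-- **(N2), split case**, for any `r : H →* G`. -/
theorem finrank_invariants_comp_of_split [FiniteDimensional k B] {H : Type} [Group H] (r : H →* G)
    (hinj : ∀ b : B, (∀ a : A, β a b = 0) → b = 0)
    (hsurj : ∀ f : Module.Dual k A, ∃ b : B, ∀ a, β a b = f a)
    (hsplit : ∀ i : Fin n, ∃ m : B, ∀ h : H, x i (r h) = B.ρ (r h) m - m) :
    finrank k (Representation.invariants (((extPair hβ hx).ρ.dual.twist χ).comp r))
      = finrank k (Representation.invariants (B.ρ.comp r)) + n := by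
  choose m hm using hsplit
  rw [((invPairsEquiv hβ hx r hinj hsurj).symm.trans (invPairsEquivOfSplit r m hm)).finrank_eq,
    Module.finrank_prod, Module.finrank_fin_fun]

include hβ in
/-- **(N2), global form** on `Rep` carriers: if the `x i` are independent modulo coboundaries,
`h⁰(N') = h⁰(B)`. -/
theorem finrank_invariants_dualTwist_extPair
    (hinj : ∀ b : B, (∀ a : A, β a b = 0) → b = 0)
    (hsurj : ∀ f : Module.Dual k A, ∃ b : B, ∀ a, β a b = f a)
    (hind : ∀ (l : Fin n → k) (b : B), (∀ g : G, ∑ i, l i • x i g = b - B.ρ g b) → l = 0) :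
    finrank k ((extPair hβ hx).dualTwist χ).ρ.invariants = finrank k B.ρ.invariants :=
  finrank_invariants_comp_of_indep hβ hx (MonoidHom.id G) hinj hsurj hind

include hβ in
/-- **(N2), local form** on `Rep` carriers: if every `x i ∘ r` is a coboundary,
`h⁰(res r N') = h⁰(res r B) + n`. -/
theorem finrank_invariants_res_dualTwist_extPair [FiniteDimensional k B] {H : Type} [Group H]
    (r : H →* G)
    (hinj : ∀ b : B, (∀ a : A, β a b = 0) → b = 0)
    (hsurj : ∀ f : Module.Dual k A, ∃ b : B, ∀ a, β a b = f a)
    (hsplit : ∀ i : Fin n, ∃ m : B, ∀ h : H, x i (r h) = B.ρ (r h) m - m) :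
    finrank k (Rep.res r ((extPair hβ hx).dualTwist χ)).ρ.invariants
      = finrank k (Rep.res r B).ρ.invariants + n :=
  finrank_invariants_comp_of_split hβ hx r hinj hsurj hsplit

include hx in
/-- Linear independence of the classes of the `x i` in `H¹(G, B)` gives the cochain-level
independence hypothesis of the global form. -/
theorem indep_of_linearIndependent_H1
    (h : LinearIndependent k (fun i : Fin n => (H1π B).hom ⟨x i, hx i⟩)) :
    ∀ (l : Fin n → k) (b : B), (∀ g : G, ∑ i, l i • x i g = b - B.ρ g b) → l = 0 := by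
  intro l b hb
  rw [Fintype.linearIndependent_iff] at h
  refine funext fun i => h l ?_ i
  have h1 : ∑ i, l i • (H1π B).hom ⟨x i, hx i⟩
      = (H1π B).hom (∑ i, l i • (⟨x i, hx i⟩ : cocycles₁ B)) := by
    rw [map_sum]
    exact Finset.sum_congr rfl fun i _ => (map_smul _ _ _).symm
  rw [h1, H1π_eq_zero_iff]
  refine ⟨-b, funext fun g => ?_⟩
  rw [d₀₁_hom_apply]
  have h2 : ((∑ i, l i • (⟨x i, hx i⟩ : cocycles₁ B) : cocycles₁ B) : G → B) g
      = ∑ i, l i • x i g := by
    have h3 : ((∑ i, l i • (⟨x i, hx i⟩ : cocycles₁ B) : cocycles₁ B) : G → B)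
        = ∑ i, l i • x i := by
      show (cocycles₁ B).subtype (∑ i, l i • (⟨x i, hx i⟩ : cocycles₁ B)) = _
      rw [map_sum]
      exact Finset.sum_congr rfl fun i _ => rfl
    rw [h3, Finset.sum_apply]
    exact Finset.sum_congr rfl fun i _ => rfl
  rw [h2, hb g, map_neg]
  abel

/-! ### Variants in the shapes consumed by the step-A assembly -/

/-- `B` is finite-dimensional when `A` is and `β` is left-nondegenerate in `B`. -/
theorem finiteDimensional_of_pairing [FiniteDimensional k A]
    (hinj : ∀ b : B, (∀ a : A, β a b = 0) → b = 0) : FiniteDimensional k B := by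
  refine FiniteDimensional.of_injective β.flip ?_
  rw [← LinearMap.ker_eq_bot, LinearMap.ker_eq_bot']
  intro b hb
  exact hinj b fun a => by
    have := congrArg (fun f : Module.Dual k A => f a) hb
    simpa using this

include hβ in
/-- **(N2g)**: global form with the independence hypothesis written with `B.ρ g b - b`. -/
theorem finrank_invariants_dualTwist_extPair'
    (hsurj : ∀ f : Module.Dual k A, ∃ b : B, ∀ a, β a b = f a)
    (hinj : ∀ b : B, (∀ a : A, β a b = 0) → b = 0)
    (hind : ∀ (c : Fin n → k) (b : B), (∀ g : G, ∑ i, c i • x i g = B.ρ g b - b) → c = 0) :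
    finrank k (Representation.invariants ((extPair hβ hx).dualTwist χ).ρ)
      = finrank k (Representation.invariants B.ρ) :=
  finrank_invariants_dualTwist_extPair hβ hx hinj hsurj fun l b hb =>
    hind l (-b) fun g => by rw [hb g, map_neg]; abel

include hβ in
/-- **(N2l)**: local form assuming only that `A` is finite-dimensional. -/
theorem finrank_invariants_res_dualTwist_extPair' [FiniteDimensional k A] {H : Type} [Group H]
    (r : H →* G)
    (hsurj : ∀ f : Module.Dual k A, ∃ b : B, ∀ a, β a b = f a)
    (hinj : ∀ b : B, (∀ a : A, β a b = 0) → b = 0)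
    (hloc : ∀ i : Fin n, ∃ m : B, ∀ h : H, x i (r h) = B.ρ (r h) m - m) :
    finrank k (Representation.invariants (Rep.res r ((extPair hβ hx).dualTwist χ)).ρ)
      = finrank k (Representation.invariants (Rep.res r B).ρ) + n := by
  have : FiniteDimensional k B := finiteDimensional_of_pairing hinj
  exact finrank_invariants_res_dualTwist_extPair hβ hx r hinj hsurj hloc

end Inv

end

end Fermat.Agent.S55.helper6607
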