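/-
S55 / SOFT-A (step A of the soft squeeze), (N1) — helper6607.

The extension-pair module `extPair hβ hx` over `G_ℚ` stays in the class of the frozen
statement: finite-dimensional, smooth (`hsm` shape), unramified outside `S` (`hMur` shape),
when `A` is, `χ` is, and the cocycles `x i` are level-constant (resp. `S`-level-constant).
Also: the mod `p` cyclotomic character `cycloChar p` is smooth and trivial on inertia at
every prime `q ≠ p`; hence `isSMod_extPair` and `isSMod_ofChar` in `helper2945.IsSMod` form.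
-/
import Mathlib
import Fermat.Prelude.Def_GroupCohomology_ContinuousUnramified
import Fermat.Agent.S55.helper6607_ExtPair
import Fermat.Agent.S55.helper2945_SoftSpec
import Fermat.Agent.S05.helper4205_Inertia
import Fermat.Agent.S14.helper2197_Kummer

set_option autoImplicit false

open CategoryTheory groupCohomology Module ExtCitation

namespace Fermat.Agent.S55.helper6607

local notation "Qb" => AlgebraicClosure ℚ
local notation "GQ" => (AlgebraicClosure ℚ ≃ₐ[ℚ] AlgebraicClosure ℚ)

noncomputable section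

section General

variable {k : Type} [Field k] {χ : GQ →* kˣ} {A B : Rep.{0} k GQ} {β : A →ₗ[k] B →ₗ[k] k}
  {n : ℕ} {x : Fin n → GQ → B}
  (hβ : IsTwistEquivariant χ A B β) (hx : ∀ i, x i ∈ cocycles₁ B)

/-- **(N1a)** finite-dimensionality. -/
instance extPair_finiteDimensional [FiniteDimensional k A] :
    FiniteDimensional k (extPair hβ hx) :=
  inferInstanceAs (FiniteDimensional k (A × (Fin n → k)))

include hx in
/-- A level-constant cocycle vanishes on its level. -/
lemma cocycle_eq_zero_of_level {i : Fin n} {F : IntermediateField ℚ Qb}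
    (hF : ∀ g s : GQ, s ∈ F.fixingSubgroup → x i (g * s) = x i g) {s : GQ}
    (hs : s ∈ F.fixingSubgroup) : x i s = 0 := by
  have h1 := hF 1 s hs
  rw [one_mul] at h1
  rw [h1]
  exact cocycles₁_map_one ⟨x i, hx i⟩

/-- **(N1b)** smoothness in the `hsm` shape of the frozen statement. -/
theorem extPair_smooth
    (hA : ∀ a : A, ∃ F : IntermediateField ℚ Qb, FiniteDimensional ℚ F ∧
      ∀ s ∈ F.fixingSubgroup, A.ρ s a = a)
    (hχ : ∃ F : IntermediateField ℚ Qb, FiniteDimensional ℚ F ∧
      ∀ s ∈ F.fixingSubgroup, χ s = 1)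
    (hxl : ∀ i, IsLevelConstant₁ (MonoidHom.id GQ) (x i)) :
    ∀ v : extPair hβ hx, ∃ F : IntermediateField ℚ Qb, FiniteDimensional ℚ F ∧
      ∀ s ∈ F.fixingSubgroup, (extPair hβ hx).ρ s v = v := by
  intro v
  obtain ⟨F1, hF1, h1⟩ := hA v.1
  obtain ⟨F2, hF2, h2⟩ := hχ
  choose F3 hF3 h3 using hxl
  have := hF1
  have := hF2
  have : ∀ i, FiniteDimensional ℚ (F3 i) := hF3
  refine ⟨F1 ⊔ F2 ⊔ ⨆ i, F3 i, inferInstance, fun s hs => ?_⟩
  have hs1 : s ∈ F1.fixingSubgroup :=
    IntermediateField.fixingSubgroup_antitone (le_sup_left.trans le_sup_left) hs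
  have hs2 : s ∈ F2.fixingSubgroup :=
    IntermediateField.fixingSubgroup_antitone (le_sup_right.trans le_sup_left) hs
  have hs3 : ∀ i, s ∈ (F3 i).fixingSubgroup := fun i =>
    IntermediateField.fixingSubgroup_antitone ((le_iSup F3 i).trans le_sup_right) hs
  have hx0 : ∀ i, x i s = 0 := fun i =>
    cocycle_eq_zero_of_level hx (fun g t ht => h3 i g t ht) (hs3 i)
  rw [extPair_ρ_apply]
  refine Prod.ext (h1 s hs1) (funext fun i => ?_)
  simp [h2 s hs2, hx0 i]

/-- **(N1c)** unramifiedness outside `S` in the `hMur` shape of the frozen statement. -/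
theorem extPair_unramified (S : Finset Nat.Primes)
    (hA : ∀ q : Nat.Primes, q ∉ S → ∀ V : ValuationSubring Qb, V.LiesOverPrime (q : ℕ) →
      ∀ g ∈ V.inertiaSubgroupIn ℚ, A.ρ g = 1)
    (hχ : ∀ q : Nat.Primes, q ∉ S → ∀ V : ValuationSubring Qb, V.LiesOverPrime (q : ℕ) →
      ∀ g ∈ V.inertiaSubgroupIn ℚ, χ g = 1)
    (hxl : ∀ i, IsLevelConstantS₁ S (x i)) :
    ∀ q : Nat.Primes, q ∉ S → ∀ V : ValuationSubring Qb, V.LiesOverPrime (q : ℕ) →
      ∀ g ∈ V.inertiaSubgroupIn ℚ, (extPair hβ hx).ρ g = 1 := by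
  intro q hq V hV g hg
  have hx0 : ∀ i, x i g = 0 := fun i => by
    obtain ⟨F, hF, hc⟩ := hxl i
    exact cocycle_eq_zero_of_level hx hc (hF.2 q hq V hV hg)
  refine LinearMap.ext fun v => ?_
  rw [extPair_ρ_apply, hA q hq V hV g hg, hχ q hq V hV g hg]
  refine Prod.ext rfl (funext fun i => ?_)
  simp [hx0 i]

end General

section Cyclo

variable (p : ℕ) [Fact p.Prime]

/-- The mod `p` cyclotomic character is trivial on the fixing subgroup of `ℚ(ζ_p)`. -/
theorem cycloChar_smooth :
    ∃ F : IntermediateField ℚ Qb, FiniteDimensional ℚ F ∧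
      ∀ s ∈ F.fixingSubgroup, cycloChar p s = 1 := by
  obtain ⟨ζ, hζ⟩ := HasEnoughRootsOfUnity.exists_primitiveRoot Qb p
  have hint : IsIntegral ℚ ζ := (S14.helper2197.isAlgebraic_Qb.isAlgebraic ζ).isIntegral
  refine ⟨IntermediateField.adjoin ℚ {ζ}, IntermediateField.adjoin.finiteDimensional hint,
    fun s hs => ?_⟩
  have h1 : s ζ = ζ := (S14.helper2197.mem_fixingSubgroup_adjoin_iff s ζ).1 hs
  exact (S14.helper2197.mem_ker_iff p s hζ).2 h1

/-- The mod `p` cyclotomic character is trivial on inertia at every prime `q ≠ p`. -/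
theorem cycloChar_eq_one_of_mem_inertia {q : ℕ} (hq : q.Prime) (hqp : q ≠ p)
    (V : ValuationSubring Qb) (hV : V.LiesOverPrime q) (g : GQ)
    (hg : g ∈ V.inertiaSubgroupIn ℚ) : cycloChar p g = 1 := by
  have hp : p.Prime := Fact.out
  obtain ⟨ζ, hζ⟩ := HasEnoughRootsOfUnity.exists_primitiveRoot Qb p
  have hζp : ζ ^ p = 1 := hζ.pow_eq_one
  have hζV : ζ ∈ V := by
    rcases V.mem_or_inv_mem ζ with h | h
    · exact h
    · have h1 : ζ = ζ⁻¹ ^ (p - 1) := by
        have h2 : ζ * ζ ^ (p - 1) = 1 := by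
          rw [← pow_succ', Nat.sub_add_cancel hp.one_lt.le, hζp]
        rw [inv_pow]
        exact eq_inv_of_mul_eq_one_left h2
      rw [h1]
      exact pow_mem h _
  -- the polynomial `X ^ p - 1` over `V`
  set a : V := ⟨ζ, hζV⟩ with ha
  have hap : a ^ p = 1 := Subtype.ext (by simpa using hζp)
  have hnd : ¬ q ∣ p := fun h => hqp ((Nat.prime_dvd_prime_iff_eq hq hp).1 h)
  have hpu : IsUnit ((p : ℕ) : V) := by
    rw [ValuationSubring.valuation_eq_one_iff]
    have := S05.helper4205.valuation_natCast_eq_one (A := V) hq hV hnd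
    simpa using this
  have hau : IsUnit a := IsUnit.of_pow_eq_one hap hp.ne_zero
  have key : g ζ = ζ := by
    have := S05.helper4205.apply_eq_self_of_simple_root (K := ℚ) (A := V) (σ := g) hg
      (Polynomial.X ^ p - 1 : Polynomial V) ?_ a ?_ ?_
    · exact this
    · intro i
      rw [Polynomial.coeff_sub, Polynomial.coeff_X_pow, Polynomial.coeff_one]
      split_ifs <;> simp
    · simp [hap]
    · simp only [Polynomial.derivative_sub, Polynomial.derivative_X_pow, Polynomial.derivative_one,
        sub_zero, Polynomial.eval_mul, Polynomial.eval_pow, Polynomial.eval_X, Polynomial.eval_C]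
      exact hpu.mul (hau.pow _)
  exact (S14.helper2197.mem_ker_iff p g hζ).2 key

/-- `cycloChar p` is trivial on inertia outside any `S ∋ p` (the `hχ` input of
`extPair_unramified`). -/
theorem cycloChar_unramified (S : Finset Nat.Primes) (hpS : pPrime p ∈ S) :
    ∀ q : Nat.Primes, q ∉ S → ∀ V : ValuationSubring Qb, V.LiesOverPrime (q : ℕ) →
      ∀ g ∈ V.inertiaSubgroupIn ℚ, cycloChar p g = 1 := by
  intro q hq V hV g hg
  refine cycloChar_eq_one_of_mem_inertia p q.2 ?_ V hV g hg
  intro h
  apply hq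
  have : q = pPrime p := Subtype.ext h
  rw [this]
  exact hpS

end Cyclo

section SMod

variable {p : ℕ} [Fact p.Prime] {S : Finset Nat.Primes}
  {A B : Rep.{0, 0, 0} (ZMod p) GQ} {β : A →ₗ[ZMod p] B →ₗ[ZMod p] ZMod p}
  {n : ℕ} {x : Fin n → GQ → B}

/-- **(N1)** in `helper2945.IsSMod` form: the extension-pair module of an `S`-module by
`S`-level cocycles is an `S`-module. -/
theorem isSMod_extPair (hβ : IsTwistEquivariant (cycloChar p) A B β)
    (hx : ∀ i, x i ∈ cocycles₁ B) (hA : helper2945.IsSMod S A) (hpS : pPrime p ∈ S)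
    (hxl : ∀ i, IsLevelConstantS₁ S (x i)) : helper2945.IsSMod S (extPair hβ hx) := by
  have := hA.finite
  exact
    { finite := extPair_finiteDimensional hβ hx
      smooth := extPair_smooth hβ hx hA.smooth (cycloChar_smooth p)
        (fun i => (hxl i).isLevelConstant₁)
      unram := extPair_unramified hβ hx S hA.unram (cycloChar_unramified p S hpS) hxl }

/-- `μ_p = ofChar (cycloChar p)` is an `S`-module when `p ∈ S`. -/
theorem isSMod_ofChar (hpS : pPrime p ∈ S) :
    helper2945.IsSMod S (ofChar (k := ZMod p) (cycloChar p)) where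
  finite := inferInstanceAs (FiniteDimensional (ZMod p) (ZMod p))
  smooth := fun m => by
    obtain ⟨F, hF, h⟩ := cycloChar_smooth p
    refine ⟨F, hF, fun s hs => ?_⟩
    show ((cycloChar p s : (ZMod p)ˣ) : ZMod p) • (Representation.trivial (ZMod p) GQ (ZMod p) s) m
      = m
    rw [h s hs]
    simp
  unram := fun q hq V hV g hg => by
    refine LinearMap.ext fun m => ?_
    show ((cycloChar p g : (ZMod p)ˣ) : ZMod p) • (Representation.trivial (ZMod p) GQ (ZMod p) g) m
      = m
    rw [cycloChar_unramified p S hpS q hq V hV g hg]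
    simp

end SMod

end

end Fermat.Agent.S55.helper6607
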