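/-
S55 (Poitou–Tate), SOFT layer, leaf SOFT-A — helper166.
Part 3: `helper166.Stmt_ExtPair` is PROVED (from helper6607's (N1) `isSMod_extPair` and (N2)
`finrank_invariants_dualTwist_extPair'`, `finrank_invariants_res_dualTwist_extPair'`), hence

  `stmt_A : Stmt_FinOne → Stmt_B → Stmt_L2num → helper2945.Stmt_A`.
-/
import Mathlib
import Fermat.Prelude.Def_GroupCohomology_ContinuousUnramified
import Fermat.Agent.S55.helper166_StmtA
import Fermat.Agent.S55.helper6607_ExtPairInv
import Fermat.Agent.S55.helper6607_ExtPairSMod

set_option autoImplicit false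

namespace Fermat.Agent.S55.helper166

open CategoryTheory Module groupCohomology ExtCitation
open Fermat.Agent.S55.helper2945
open Fermat.Agent.S55.helper6607

/-- The extension-pair input of step A (helper6607's (N1) + (N2)). -/
theorem stmt_ExtPair : Stmt_ExtPair := by
  intro p _ _ S hpS A B hA _ β hβ hsurj hinj n x hx hxl hind hloc
  have := hA.finite
  refine ⟨isSMod_extPair hβ hx hA hpS hxl, ?_, ?_⟩
  · exact finrank_invariants_dualTwist_extPair' hβ hx hsurj hinj hind
  · unfold pi0
    rw [Finset.sum_congr rfl (fun q hq =>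
      finrank_invariants_res_dualTwist_extPair' hβ hx (primeLocalToGlobal q) hsurj hinj
        (fun i => hloc i q hq)), Finset.sum_add_distrib, Finset.sum_const, smul_eq_mul,
      mul_comm]

/-- **SOFT-A**: `helper2945.Stmt_A` from finiteness, step B and the numerical (L2). -/
theorem stmt_A (hF : Stmt_FinOne) (hB : Stmt_B) (hL : Stmt_L2num) : Stmt_A :=
  stmt_A_of hF hB hL stmt_ExtPair

end Fermat.Agent.S55.helper166
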