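/-
S55 (Poitou–Tate), leaf NF-GR-WEAK2R (backup copy, helper1809).

Weak reciprocity gives the invariant system `(R)`:

* `exists_inv_system` (abstract linear algebra): for finitely many lines `V q`, a linear map
  `loc : H → Π q, V q` such that no class is supported at exactly one index (`hW`) and whose
  range has codimension `≤ 1` (`hE`) admits injective functionals `inv q : V q → k` with
  `∑ q, inv q (loc z q) = 0`.
* `codim_descent` (abstract): the codimension of the range of the localisation map can only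
  drop along a morphism of coefficients whose local push-forwards are onto.
* `traceHom` : the `G`-map `coind_H^G k ⟶ k(χ)`, `f ↦ ∑_{gH} χ(g) f(g⁻¹)` (`χ` trivial on the
  finite index subgroup `H`), which is nonzero (`traceHom_ne_zero`).
* `stmt_R_of_weak` : on the frozen carriers, `Stmt_GR p S` (weak reciprocity, "no class is
  nontrivial at exactly one prime of `S`") + `helper665.Stmt_LocInv p` + `π₂(μ_p) ≤ r₂(μ_p) + 1`
  give the invariant system `Stmt_R p S` (the body of `helper15.Stmt_R`).
* `codim_T_of_ind` : `π₂(μ_p) ≤ r₂(μ_p) + 1` over `ℚ` follows from the same bound for ONE induced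
  module `coind_{G_F}^{G_ℚ} 𝔽_p`, `F` an `S`-field on whose group `cycloChar p` is trivial, by
  un-normalised descent along `traceHom` (local surjectivity from `helper665.Stmt_LocL2Surj` and
  `helper665.Stmt_LocInv`).
* `stmt_R_of_field` : the two combined, with the codimension input in the shape of
  `helper3071.gb_gc` (`nPl S F ≤ r₂(A_F) + 1`) and the Mackey count `π₂(A_F) ≤ nPl S F`.
-/
import Mathlib
import Fermat.Prelude.Def_GroupCohomology_ContinuousUnramified
import Fermat.Agent.S55.helper665_LocInv
import Fermat.Agent.S55.helper1702_FiniteH2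
import Fermat.Agent.S55.helper6525_Arch
import Fermat.Agent.S55.helper4039_SModField

set_option autoImplicit false

namespace Fermat.Agent.S55.helper1809

open CategoryTheory groupCohomology ExtCitation Module

local notation "GQ" => (AlgebraicClosure ℚ ≃ₐ[ℚ] AlgebraicClosure ℚ)

/-! ## Part A: linear algebra -/

section LinAlg

variable {k : Type*} [Field k]

/-- A nonzero linear functional on `ι → k` kills a hyperplane of dimension `card ι - 1`. -/
theorem finrank_ker_functional {ι : Type*} [Fintype ι] (lam : (ι → k) →ₗ[k] k) (h : lam ≠ 0) :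
    finrank k (LinearMap.ker lam) + 1 = Fintype.card ι := by
  have hsurj : Function.Surjective lam := by
    obtain ⟨v, hv⟩ : ∃ v, lam v ≠ 0 := by
      by_contra hcon
      exact h (LinearMap.ext fun v => not_not.1 fun hv => hcon ⟨v, hv⟩)
    intro c
    exact ⟨(c * (lam v)⁻¹) • v, by rw [map_smul, smul_eq_mul, inv_mul_cancel_right₀ hv]⟩
  have h1 := lam.finrank_range_add_finrank_ker
  rw [LinearMap.range_eq_top.2 hsurj, finrank_top, finrank_self, finrank_fintype_fun_eq_card] at h1
  omega

/-- **Weak reciprocity ⟹ invariant system.** -/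
theorem exists_inv_system {ι : Type*} [Fintype ι] {V : ι → Type*} [∀ q, AddCommGroup (V q)]
    [∀ q, Module k (V q)] (e : ∀ q, V q →ₗ[k] k) (he : ∀ q, Function.Bijective (e q))
    {H : Type*} [AddCommGroup H] [Module k H] (loc : ∀ q, H →ₗ[k] V q)
    (hW : ∀ (z : H) (q₀ : ι), (∀ q, q ≠ q₀ → loc q z = 0) → loc q₀ z = 0)
    (hE : Fintype.card ι ≤
      finrank k (LinearMap.range (LinearMap.pi fun q => (e q).comp (loc q))) + 1) :
    ∃ inv : ∀ q, V q →ₗ[k] k, (∀ q, Function.Injective (inv q)) ∧
      ∀ z, ∑ q, inv q (loc q z) = 0 := by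
  classical
  set L : H →ₗ[k] (ι → k) := LinearMap.pi fun q => (e q).comp (loc q) with hL
  -- no basis vector lies in the range
  have hsingle : ∀ q₀ : ι, Pi.single q₀ (1 : k) ∉ LinearMap.range L := by
    rintro q₀ ⟨z, hz⟩
    have hq : ∀ q, q ≠ q₀ → loc q z = 0 := by
      intro q hq
      apply (he q).1
      have := congrFun hz q
      rw [map_zero]
      simpa [hL, Pi.single_apply, hq] using this
    have h0 := hW z q₀ hq
    have := congrFun hz q₀
    simp [hL, h0] at this
  rcases isEmpty_or_nonempty ι with hι | ⟨⟨q₁⟩⟩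
  · exact ⟨e, fun q => (he q).1, fun z => by simp⟩
  -- a nonzero functional vanishing on the range
  have hlt : LinearMap.range L < ⊤ := by
    refine lt_top_iff_ne_top.2 fun htop => hsingle q₁ ?_
    rw [htop]; trivial
  obtain ⟨lam, hlam, hle⟩ := Submodule.exists_le_ker_of_lt_top _ hlt
  have hker := finrank_ker_functional lam hlam
  have heq : LinearMap.range L = LinearMap.ker lam := by
    apply Submodule.eq_of_le_of_finrank_le hle
    omega
  have hc : ∀ q, lam (Pi.single q 1) ≠ 0 := by
    intro q h0
    apply hsingle q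
    rw [heq]
    exact h0
  refine ⟨fun q => lam (Pi.single q 1) • e q, fun q => ?_, fun z => ?_⟩
  · intro x y hxy
    apply (he q).1
    simpa [hc q] using hxy
  · have hz : lam (L z) = 0 := hle ⟨z, rfl⟩
    rw [LinearMap.pi_apply_eq_sum_univ lam (L z)] at hz
    rw [← hz]
    refine Finset.sum_congr rfl fun q _ => ?_
    have : (fun j => if q = j then (1 : k) else 0) = Pi.single q 1 := by
      funext j
      rw [Pi.single_apply]
      simp [eq_comm]
    rw [this]
    simp [hL, mul_comm]

/-- **Descent of the codimension bound.** If `π q : VN q → VT q` are surjective and compatible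
with the localisation maps, then
`∑ dim VT q - rank locT ≤ ∑ dim VN q - rank locN` (written without subtraction). -/
theorem codim_descent {ι : Type*} [Fintype ι] {VN VT : ι → Type*}
    [∀ q, AddCommGroup (VN q)] [∀ q, Module k (VN q)] [∀ q, AddCommGroup (VT q)]
    [∀ q, Module k (VT q)] [∀ q, FiniteDimensional k (VN q)]
    {HN HT : Type*} [AddCommGroup HN] [Module k HN] [AddCommGroup HT] [Module k HT]
    (locN : HN →ₗ[k] ∀ q, VN q) (locT : HT →ₗ[k] ∀ q, VT q) (πH : HN →ₗ[k] HT)
    (π : ∀ q, VN q →ₗ[k] VT q) (hπ : ∀ q, Function.Surjective (π q))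
    (hnat : ∀ z q, locT (πH z) q = π q (locN z q)) :
    (∑ q, finrank k (VT q)) + finrank k (LinearMap.range locN) ≤
      (∑ q, finrank k (VN q)) + finrank k (LinearMap.range locT) := by
  classical
  have hfT : ∀ q, FiniteDimensional k (VT q) := fun q =>
    Module.Finite.of_surjective (π q) (hπ q)
  set P : (∀ q, VN q) →ₗ[k] (∀ q, VT q) := LinearMap.pi fun q => (π q).comp (LinearMap.proj q)
    with hP
  have hPsurj : Function.Surjective P := by
    intro y
    choose x hx using fun q => hπ q (y q)
    exact ⟨x, funext fun q => hx q⟩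
  have hmap : LinearMap.range locN ≤ (LinearMap.range locT).comap P := by
    rintro _ ⟨z, rfl⟩
    exact ⟨πH z, funext fun q => hnat z q⟩
  set Q := Submodule.mapQ (LinearMap.range locN) (LinearMap.range locT) P hmap with hQ
  have hQsurj : Function.Surjective Q := by
    intro y
    obtain ⟨y, rfl⟩ := Submodule.mkQ_surjective _ y
    obtain ⟨x, rfl⟩ := hPsurj y
    exact ⟨Submodule.Quotient.mk x, rfl⟩
  have h1 := LinearMap.finrank_le_finrank_of_surjective hQsurj
  have h2 := (LinearMap.range locN).finrank_quotient_add_finrank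
  have h3 := (LinearMap.range locT).finrank_quotient_add_finrank
  rw [finrank_pi_fintype] at h2 h3
  omega

/-- The rank of a map into a product is the dimension of the quotient by the common kernel. -/
theorem finrank_quotient_eq_finrank_range_pi {ι : Type*} {V : ι → Type*}
    [∀ q, AddCommGroup (V q)] [∀ q, Module k (V q)] {H : Type*} [AddCommGroup H] [Module k H]
    (loc : ∀ q, H →ₗ[k] V q) (N : Submodule k H) (hN : ∀ x, x ∈ N ↔ ∀ q, loc q x = 0) :
    finrank k (H ⧸ N) = finrank k (LinearMap.range (LinearMap.pi loc)) := by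
  have hker : LinearMap.ker (LinearMap.pi loc) = N := by
    ext x
    rw [LinearMap.mem_ker, hN]
    exact ⟨fun h q => congrFun h q, fun h => funext h⟩
  exact ((Submodule.quotEquivOfEq _ _ hker.symm).trans
    (LinearMap.quotKerEquivRange _)).finrank_eq

/-- Variant of `finrank_quotient_eq_finrank_range_pi` read through injective maps. -/
theorem finrank_quotient_eq_finrank_range_pi_comp {ι : Type*} {V W : ι → Type*}
    [∀ q, AddCommGroup (V q)] [∀ q, Module k (V q)] [∀ q, AddCommGroup (W q)]
    [∀ q, Module k (W q)] {H : Type*} [AddCommGroup H] [Module k H]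
    (loc : ∀ q, H →ₗ[k] V q) (e : ∀ q, V q →ₗ[k] W q) (he : ∀ q, Function.Injective (e q))
    (N : Submodule k H) (hN : ∀ x, x ∈ N ↔ ∀ q, loc q x = 0) :
    finrank k (H ⧸ N) =
      finrank k (LinearMap.range (LinearMap.pi fun q => (e q).comp (loc q))) := by
  refine finrank_quotient_eq_finrank_range_pi (fun q => (e q).comp (loc q)) N fun x => ?_
  rw [hN]
  refine forall_congr' fun q => ?_
  constructor
  · intro h
    show e q (loc q x) = 0
    rw [h, map_zero]
  · intro h
    apply he q
    rw [map_zero]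
    exact h

/-- A linear map into a line which is not identically zero is surjective. -/
theorem surjective_of_ne_zero_of_line {V W : Type*} [AddCommGroup V] [Module k V]
    [AddCommGroup W] [Module k W] (e : W →ₗ[k] k) (he : Function.Injective e) (g : V →ₗ[k] W)
    (hg : ∃ z, g z ≠ 0) : Function.Surjective g := by
  obtain ⟨z, hz⟩ := hg
  have hez : e (g z) ≠ 0 := fun h => hz (he (by rw [h, map_zero]))
  intro y
  refine ⟨(e y * (e (g z))⁻¹) • z, he ?_⟩
  rw [map_smul, map_smul, smul_eq_mul, inv_mul_cancel_right₀ hez]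

end LinAlg

/-! ## Part B: the trace map `coind_H^G k ⟶ k(χ)` -/

section Trace

variable {k : Type} [Field k] {G : Type} [Group G] (H : Subgroup G) (χ : G →* kˣ)

/-- The co-unit `coind_H^G res_H M ⟶ M` (sum over the cosets), as a morphism. -/
noncomputable def avgHom [Fintype (G ⧸ H)] (M : Rep.{0, 0, 0} k G) :
    Rep.coind H.subtype (Rep.res H.subtype M) ⟶ M :=
  Rep.ofHom ⟨helper5178.avg H M, fun x => by
    apply LinearMap.ext
    intro f
    exact helper5178.avg_smul H M x f⟩

/-- `k` with the trivial action of `H` maps identically to the restriction of `k(χ)` when `χ` is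
trivial on `H`. -/
noncomputable def trivToRes (hχ : ∀ s ∈ H, χ s = 1) :
    Rep.trivial k ↥H k ⟶ Rep.res H.subtype (ofChar χ) :=
  Rep.ofHom ⟨LinearMap.id, fun h => by
    apply LinearMap.ext
    intro a
    show a = ((χ (h : G) : kˣ) : k) • a
    rw [hχ _ h.2, Units.val_one, one_smul]⟩

/-- The trace map `coind_H^G k ⟶ k(χ)`, `f ↦ ∑_{gH} χ(g) f(g⁻¹)`, for `χ` trivial on `H`. -/
noncomputable def traceHom [Fintype (G ⧸ H)] (hχ : ∀ s ∈ H, χ s = 1) :
    Rep.coind H.subtype (Rep.trivial k ↥H k) ⟶ ofChar χ :=
  Rep.coindMap H.subtype (trivToRes H χ hχ) ≫ avgHom H (ofChar χ)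

open Classical in
/-- The indicator function of `H`, an element of `coind_H^G k`. -/
noncomputable def indicatorH : Rep.coind H.subtype (Rep.trivial k ↥H k) :=
  ⟨fun g => if g ∈ H then (1 : k) else 0, fun h g => by
    show (if (h : G) * g ∈ H then (1 : k) else 0) = if g ∈ H then (1 : k) else 0
    rw [H.mul_mem_cancel_left h.2]⟩

/-- The trace of the indicator function of `H` is `1`. -/
theorem traceHom_indicatorH [Fintype (G ⧸ H)] (hχ : ∀ s ∈ H, χ s = 1) :
    (traceHom H χ hχ).hom (indicatorH H) = (1 : k) := by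
  classical
  show helper5178.avg H (ofChar χ)
    ((Rep.coindMap H.subtype (trivToRes H χ hχ)).hom (indicatorH H)) = (1 : k)
  simp only [helper5178.avg, LinearMap.sum_apply]
  rw [Finset.sum_eq_single (QuotientGroup.mk 1 : G ⧸ H)]
  · rw [helper5178.avgQ_mk, map_one, inv_one]
    show (if (1 : G) ∈ H then (1 : k) else 0) = 1
    rw [if_pos H.one_mem]
  · intro q _ hq
    induction q using QuotientGroup.induction_on with
    | H g =>
      rw [helper5178.avgQ_mk]
      have hg : g⁻¹ ∉ H := fun hmem => hq (by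
        rw [QuotientGroup.eq]
        simpa using H.inv_mem hmem)
      have h0 : ((Rep.coindMap H.subtype (trivToRes H χ hχ)).hom (indicatorH H)).1 g⁻¹ = 0 := by
        show (if g⁻¹ ∈ H then (1 : k) else 0) = 0
        rw [if_neg hg]
      rw [h0, map_zero]
  · intro h
    exact absurd (Finset.mem_univ _) h

/-- The trace map is not zero. -/
theorem traceHom_ne_zero [Fintype (G ⧸ H)] (hχ : ∀ s ∈ H, χ s = 1) : traceHom H χ hχ ≠ 0 := by
  intro h0
  have h1 := traceHom_indicatorH H χ hχ
  rw [h0] at h1
  exact zero_ne_one h1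

end Trace

/-! ## Part C: the frozen carriers -/

section Nat

variable {k : Type} [CommRing k] (S : Finset Nat.Primes) {A B : Rep.{0, 0, 0} k GQ}

/-- Naturality of the frozen localisation map in the coefficients. -/
theorem locRes₂S_H2SMap {H : Type} [Group H] (f : H →* GQ) (φ : A ⟶ B)
    (z : continuousH2S S A) :
    locRes₂S S B f (helper1702.H2SMap S φ z) =
      continuousH2MapHom f ((Rep.resFunctor f).map φ) (locRes₂S S A f z) := by
  obtain ⟨c, rfl⟩ := Submodule.mkQ_surjective _ z
  rfl

end Nat

section Frozen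

variable {p : ℕ} [Fact p.Prime] (S : Finset Nat.Primes)

/-- The local carrier `H²(ℚ_q, M)` (frozen `continuousH2` along `primeLocalToGlobal q`). -/
abbrev LocH2 (M : Rep.{0, 0, 0} (ZMod p) GQ) (q : Nat.Primes) : Type :=
  continuousH2 (primeLocalToGlobal q) (Rep.res (primeLocalToGlobal q) M)

/-- Total localisation at the primes of `S` on the frozen carriers. -/
noncomputable def locS (M : Rep.{0, 0, 0} (ZMod p) GQ) :
    continuousH2S S M →ₗ[ZMod p] ∀ q : ↥S, LocH2 M q.1 :=
  LinearMap.pi fun q => locRes₂S S M (primeLocalToGlobal q.1)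

/-- `r₂` is the rank of the localisation at the primes of `S`, read through any family of
injective maps out of the local `H²`'s (odd `p`: the archimedean place is invisible). -/
theorem r2_eq_finrank_range_of_injective (hp2 : p ≠ 2) (M : Rep.{0, 0, 0} (ZMod p) GQ)
    {W : ↥S → Type*} [∀ q, AddCommGroup (W q)] [∀ q, Module (ZMod p) (W q)]
    (e : ∀ q : ↥S, LocH2 M q.1 →ₗ[ZMod p] W q) (he : ∀ q, Function.Injective (e q)) :
    helper2945.r2 S M = finrank (ZMod p) (LinearMap.range
      (LinearMap.pi fun q : ↥S => (e q).comp (locRes₂S S M (primeLocalToGlobal q.1)))) := by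
  have h := finrank_quotient_eq_finrank_range_pi_comp (k := ZMod p)
    (V := fun q : ↥S => LocH2 M q.1)
    (fun q : ↥S => locRes₂S S M (primeLocalToGlobal q.1)) e he (sha₂ S M)
    (helper6525.mem_sha₂_iff hp2 S M)
  exact h

/-- `r₂` is the rank of `locS`. -/
theorem r2_eq_finrank_range (hp2 : p ≠ 2) (M : Rep.{0, 0, 0} (ZMod p) GQ) :
    helper2945.r2 S M = finrank (ZMod p) (LinearMap.range (locS S M)) := by
  have h := finrank_quotient_eq_finrank_range_pi (k := ZMod p)
    (V := fun q : ↥S => LocH2 M q.1)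
    (fun q : ↥S => locRes₂S S M (primeLocalToGlobal q.1)) (sha₂ S M)
    (helper6525.mem_sha₂_iff hp2 S M)
  exact h

/-- `π₂` as a sum over the subtype `↥S`. -/
theorem pi2_eq_sum (M : Rep.{0, 0, 0} (ZMod p) GQ) :
    helper2945.pi2 S M = ∑ q : ↥S, finrank (ZMod p) (LocH2 M q.1) := by
  unfold helper2945.pi2
  rw [← Finset.sum_coe_sort S (fun q => finrank (ZMod p) (LocH2 M q))]

/-- **Weak reciprocity** (shape of chat #197): no class of `H²(G_S, μ_p)` is nontrivial at
exactly one prime of `S`. -/
def Stmt_GR (p : ℕ) [Fact p.Prime] (S : Finset Nat.Primes) : Prop :=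
  ∀ z : continuousH2S S (ofChar (k := ZMod p) (cycloChar p)), ∀ l0 ∈ S,
    (∀ l ∈ S, l ≠ l0 →
      locRes₂S S (ofChar (k := ZMod p) (cycloChar p)) (primeLocalToGlobal l) z = 0) →
    locRes₂S S (ofChar (k := ZMod p) (cycloChar p)) (primeLocalToGlobal l0) z = 0

/-- **The invariant system (R)** (shape of chat #325; the body of `helper15.Stmt_R`): injective
invariant maps on the local `H²(ℚ_q, μ_p)`, `q ∈ S`, with the sum formula on `H²(G_S, μ_p)`. -/
def Stmt_R (p : ℕ) [Fact p.Prime] (S : Finset Nat.Primes) : Prop :=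
  ∃ inv : ∀ q : ↥S, LocH2 (ofChar (k := ZMod p) (cycloChar p)) q.1 →ₗ[ZMod p] ZMod p,
    (∀ q, Function.Injective (inv q)) ∧
    ∀ z : continuousH2S S (ofChar (k := ZMod p) (cycloChar p)),
      ∑ q : ↥S, inv q
        (locRes₂S S (ofChar (k := ZMod p) (cycloChar p)) (primeLocalToGlobal q.1) z) = 0

/-- **Weak reciprocity + (LB1) + codimension `≤ 1` give the invariant system.** -/
theorem stmt_R_of_weak (hp2 : p ≠ 2) (hGR : Stmt_GR p S) (hLoc : helper665.Stmt_LocInv p)
    (hcodim : helper2945.pi2 S (ofChar (k := ZMod p) (cycloChar p)) ≤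
      helper2945.r2 S (ofChar (k := ZMod p) (cycloChar p)) + 1) : Stmt_R p S := by
  classical
  choose e he using fun q : ↥S => hLoc q.1
  refine exists_inv_system (V := fun q : ↥S => LocH2 (ofChar (k := ZMod p) (cycloChar p)) q.1)
    e he (fun q => locRes₂S S (ofChar (k := ZMod p) (cycloChar p)) (primeLocalToGlobal q.1))
    ?_ ?_
  · intro z q₀ h
    exact hGR z q₀.1 q₀.2 fun l hl hne => h ⟨l, hl⟩ fun heq => hne (congrArg Subtype.val heq)
  · have h1 : helper2945.pi2 S (ofChar (k := ZMod p) (cycloChar p)) = Fintype.card ↥S := by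
      rw [pi2_eq_sum,
        Finset.sum_congr rfl fun q _ => helper665.finrank_eq_one_of_stmt_LocInv hLoc q.1]
      simp
    have h2 := r2_eq_finrank_range_of_injective S hp2 (ofChar (k := ZMod p) (cycloChar p)) e
      (fun q => (he q).1)
    omega

/-- **Descent of the codimension bound on the frozen carriers.** If `π : N ⟶ T` induces
surjections on the local `H²`'s at the primes of `S`, then `π₂(N) ≤ r₂(N) + 1` implies
`π₂(T) ≤ r₂(T) + 1`. -/
theorem codim_descent_frozen (hp2 : p ≠ 2) {N T : Rep.{0, 0, 0} (ZMod p) GQ} (π : N ⟶ T)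
    (hfin : ∀ q : ↥S, FiniteDimensional (ZMod p) (LocH2 N q.1))
    (hsurj : ∀ q : ↥S, Function.Surjective (continuousH2MapHom (primeLocalToGlobal q.1)
      ((Rep.resFunctor (primeLocalToGlobal q.1)).map π)))
    (hN : helper2945.pi2 S N ≤ helper2945.r2 S N + 1) :
    helper2945.pi2 S T ≤ helper2945.r2 S T + 1 := by
  have hnat : ∀ (z : continuousH2S S N) (q : ↥S),
      locS S T (helper1702.H2SMap S π z) q =
        continuousH2MapHom (primeLocalToGlobal q.1)
          ((Rep.resFunctor (primeLocalToGlobal q.1)).map π) (locS S N z q) :=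
    fun z q => locRes₂S_H2SMap S (primeLocalToGlobal q.1) π z
  have key := codim_descent (VN := fun q : ↥S => LocH2 N q.1) (VT := fun q : ↥S => LocH2 T q.1)
    (locS S N) (locS S T) (helper1702.H2SMap S π)
    (fun q : ↥S => continuousH2MapHom (primeLocalToGlobal q.1)
      ((Rep.resFunctor (primeLocalToGlobal q.1)).map π)) hsurj hnat
  rw [← pi2_eq_sum, ← pi2_eq_sum, ← r2_eq_finrank_range S hp2, ← r2_eq_finrank_range S hp2] at key
  omega

/-- The induced module `coind_{G_F}^{G_ℚ} 𝔽_p` of an `S`-field is a discrete `G_ℚ`-module. -/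
theorem smooth_indRep {F : IntermediateField ℚ (AlgebraicClosure ℚ)}
    (hF : F.IsUnramifiedOutside S) (m : helper3071.indRep p F) :
    ∃ F' : IntermediateField ℚ (AlgebraicClosure ℚ), FiniteDimensional ℚ F' ∧
      ∀ s ∈ F'.fixingSubgroup, (helper3071.indRep p F).ρ s m = m := by
  obtain ⟨F', hle, hF', -, hnorm⟩ := helper4039.exists_normal_ge hF
  refine ⟨F', hF'.1, fun s hs => ?_⟩
  have h1 := helper5178.coind_ρ_eq_one F.fixingSubgroup F'.fixingSubgroup
    (IntermediateField.fixingSubgroup_antitone hle) (helper3071.trivF p F) (fun n hn => rfl) hs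
  rw [h1]
  rfl

/-- **Codimension `≤ 1` over `ℚ` for `μ_p` from ONE induced module.** `F` is an `S`-field on
whose Galois group the cyclotomic character is trivial (i.e. `ζ_p ∈ F`). -/
theorem codim_T_of_ind (hp2 : p ≠ 2) {F : IntermediateField ℚ (AlgebraicClosure ℚ)}
    (hF : F.IsUnramifiedOutside S) (hχ : ∀ s ∈ F.fixingSubgroup, cycloChar p s = 1)
    (hLoc : helper665.Stmt_LocInv p) (hSurj : helper665.Stmt_LocL2Surj p)
    (hfin : ∀ q ∈ S, FiniteDimensional (ZMod p) (LocH2 (helper3071.indRep p F) q))
    (hN : helper2945.pi2 S (helper3071.indRep p F) ≤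
      helper2945.r2 S (helper3071.indRep p F) + 1) :
    helper2945.pi2 S (ofChar (k := ZMod p) (cycloChar p)) ≤
      helper2945.r2 S (ofChar (k := ZMod p) (cycloChar p)) + 1 := by
  classical
  have : FiniteDimensional ℚ F := hF.1
  have := helper4039.finiteIndex_fixingSubgroup F
  have : Finite (GQ ⧸ F.fixingSubgroup) := Subgroup.finite_quotient_of_finiteIndex
  let _ : Fintype (GQ ⧸ F.fixingSubgroup) := Fintype.ofFinite _
  have hπ : traceHom F.fixingSubgroup (cycloChar p) hχ ≠ 0 := traceHom_ne_zero _ _ hχ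
  have hNfin : Module.Finite (ZMod p) (helper3071.indRep p F) :=
    helper5178.finite_coind F.fixingSubgroup (helper3071.trivF p F)
  refine codim_descent_frozen S hp2 (traceHom F.fixingSubgroup (cycloChar p) hχ)
    (fun q => hfin q.1 q.2) (fun q => ?_) hN
  obtain ⟨inv, hinv⟩ := hLoc q.1
  refine surjective_of_ne_zero_of_line inv hinv.1 _ ?_
  by_contra hcon
  have hzero : ∀ z, continuousH2MapHom (primeLocalToGlobal q.1)
      ((Rep.resFunctor (primeLocalToGlobal q.1)).map
        (traceHom F.fixingSubgroup (cycloChar p) hχ)) z = 0 :=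
    fun z => not_not.1 fun hz => hcon ⟨z, hz⟩
  have h0 := hSurj q.1 (Rep.res (primeLocalToGlobal q.1) (helper3071.indRep p F)) inferInstance
    (helper665.isSmoothRep_res q.1 _ (smooth_indRep S hF))
    ((Rep.resFunctor (primeLocalToGlobal q.1)).map (traceHom F.fixingSubgroup (cycloChar p) hχ))
    hzero
  apply hπ
  apply Rep.hom_ext
  ext x
  have h1 := congrArg (fun φ : Rep.res (primeLocalToGlobal q.1) (helper3071.indRep p F) ⟶
    ofChar (helper665.chiLoc p q.1) => φ.hom x) h0
  exact h1

/-- `cycloChar p` is trivial on the Galois group of a field containing a primitive `p`-th root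
of unity. -/
theorem cycloChar_eq_one_of_hasZeta {F : IntermediateField ℚ (AlgebraicClosure ℚ)}
    (hζ : helper3071.HasZeta p F) : ∀ s ∈ F.fixingSubgroup, cycloChar p s = 1 := by
  obtain ⟨ζ, hζF, hprim⟩ := hζ
  have : NeZero p := ⟨(Fact.out : p.Prime).ne_zero⟩
  intro s hs
  rw [helper4039.cycloChar_eq_one_iff]
  intro ξ hξ
  obtain ⟨i, -, rfl⟩ := hprim.eq_pow_of_pow_eq_one hξ
  rw [map_pow]
  congr 1
  exact (IntermediateField.mem_fixingSubgroup_iff F s).1 hs ζ hζF

/-- **The invariant system from weak reciprocity and the field-level `(G-E)` for ONE field.**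
The codimension input is in the shape of `helper3071.gb_gc` (`hGE`), together with the local
count `π₂(A_F) ≤ nPl S F` (`hpi`, Mackey + (L2)). -/
theorem stmt_R_of_field (hp2 : p ≠ 2) {F : IntermediateField ℚ (AlgebraicClosure ℚ)}
    (hF : F.IsUnramifiedOutside S) (hζ : helper3071.HasZeta p F)
    (hGR : Stmt_GR p S) (hLoc : helper665.Stmt_LocInv p) (hSurj : helper665.Stmt_LocL2Surj p)
    (hfin : ∀ q ∈ S, FiniteDimensional (ZMod p) (LocH2 (helper3071.indRep p F) q))
    (hpi : helper2945.pi2 S (helper3071.indRep p F) ≤ helper3071.nPl S F)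
    (hGE : helper3071.nPl S F ≤ finrank (ZMod p)
      (continuousH2S S (helper3071.indRep p F) ⧸ sha₂ S (helper3071.indRep p F)) + 1) :
    Stmt_R p S :=
  stmt_R_of_weak S hp2 hGR hLoc
    (codim_T_of_ind S hp2 hF (cycloChar_eq_one_of_hasZeta hζ) hLoc hSurj hfin (hpi.trans hGE))

end Frozen

end Fermat.Agent.S55.helper1809
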