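import Mathlib
import Fermat.Prelude.Def_GroupCohomology_ContinuousUnramified
import Fermat.Agent.S55.helper3071_GlobalBridge
import Fermat.Agent.S55.helper3071_GBTransport
import Fermat.Agent.S55.helper62_GBShapiro
import Fermat.Agent.S55.helper1826_GECount

/-!
# S55 GLOBAL BRIDGE, composition theorems (helper3071)

The outputs of the GB layer on the frozen carriers, from its closed Props
(`helper3071_GlobalBridge`), with Shapiro discharged by `helper62.stmt_Shapiro`:

* `stmt_FieldGE_of` : `(G-E)` by counting (`helper1826.ge_count_core_deg`) from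
  `Stmt_FieldFin`, `Stmt_FieldLower`, `Stmt_FieldUpper`, `Stmt_Chi2Sub`, `Stmt_Tower`;
* `gb_base` : for every `S`-field `F ∋ μ_p`, `A_F = coind_F 𝔽_p` has finite-dimensional
  `continuousH1S`, `continuousH2S`, `h⁰ = 1` and `2 (a₂ + s) + [F:ℚ] ≤ 2 h¹`
  (the global input of the base case `E*(A_F) ≤ 0`);
* `gb_gc` : `s ≤ r₂(A_F) + 1` (the input of the `(GC)` descent), `r₂` in the quotient form of
  `helper2945.r2`.
-/

set_option autoImplicit false
set_option maxHeartbeats 400000
set_option synthInstance.maxHeartbeats 400000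

open CategoryTheory groupCohomology ExtCitation

noncomputable section

namespace Fermat.Agent.S55.helper3071

/-- An `S`-field containing an `S`-field with `μ_p` is again one. -/
theorem IsSFieldZeta.of_le {S : Finset Nat.Primes} {p : ℕ}
    {F K : IntermediateField ℚ (AlgebraicClosure ℚ)} (h : IsSFieldZeta S p F) (hFK : F ≤ K)
    (hK : K.IsUnramifiedOutside S) : IsSFieldZeta S p K where
  prime := h.prime
  odd := h.odd
  mem := h.mem
  unram := hK
  zeta := by
    obtain ⟨ζ, hζ, hprim⟩ := h.zeta
    exact ⟨ζ, hFK hζ, hprim⟩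

/-- **(G-E) by counting**: the composition theorem of NF-GE-COUNT on the GB carriers. -/
theorem stmt_FieldGE_of (hFin : Stmt_FieldFin) (hLow : Stmt_FieldLower)
    (hUp : Stmt_FieldUpper) (hChi : Stmt_Chi2Sub) (hTow : Stmt_Tower) : Stmt_FieldGE := by
  intro S p F hF
  have : Fact p.Prime := ⟨hF.prime⟩
  obtain ⟨K', t, hK'S, hGal, hs⟩ := hTow S p F hF
  have hK' : IsSFieldZeta S p K' := hF.of_le hGal.1 hK'S
  have hC := hLow S p F hF
  have hB := hUp S p K' hK'
  have hD := hChi S p F K' t hF hK'S hGal
  unfold FieldLower at hC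
  unfold FieldUpper at hB
  unfold Chi2Sub at hD
  have hcore : Module.finrank (ZMod p) (fieldSha2 S p F) + nPl S F ≤
      Module.finrank (ZMod p) (fieldH2 S p F) + 1 :=
    helper1826.ge_count_core_deg (n := p ^ t) (dK := Module.finrank ℚ F)
      (dK' := Module.finrank ℚ K') (by omega) (by omega) hD hGal.2.2 hs
  have := (hFin S p F hF).2
  exact helper1826.corank_le_one_of_count (fieldSha2 S p F) hcore

/-- **GB output 1** (global input of the base case `E*(A_F) ≤ 0`): for an `S`-field `F ∋ μ_p`
and `A_F = coind_F 𝔽_p`: finiteness of `H¹_S`, `H²_S`, `h⁰ = 1`, and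
`2 (a₂(A_F) + s) + [F:ℚ] ≤ 2 h¹_S(A_F)`. -/
theorem gb_base (hFin : Stmt_FieldFin) (hLow : Stmt_FieldLower) (S : Finset Nat.Primes) (p : ℕ)
    (F : IntermediateField ℚ (AlgebraicClosure ℚ)) (hF : IsSFieldZeta S p F) :
    Module.Finite (ZMod p) (continuousH1S S (indRep p F)) ∧
    Module.Finite (ZMod p) (continuousH2S S (indRep p F)) ∧
    Module.finrank (ZMod p) (indRep p F).ρ.invariants = 1 ∧
    2 * (Module.finrank (ZMod p) (sha₂ S (indRep p F)) + nPl S F) + Module.finrank ℚ F ≤
      2 * Module.finrank (ZMod p) (continuousH1S S (indRep p F)) := by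
  obtain ⟨h1, h2⟩ := helper62.stmt_Shapiro S p F hF.prime hF.unram
  have hfin := hFin S p F hF
  exact ⟨h1.finite hfin, h2.finite hfin, finrank_invariants_indRep p F hF.prime,
    fieldLower_indRep hF.prime h1 h2 hfin (hLow S p F hF)⟩

/-- **GB output 2** (input of the `(GC)` descent): the localisation map on
`H²_S(coind_F 𝔽_p)` has rank at least `s - 1`. -/
theorem gb_gc (hFin : Stmt_FieldFin) (hGE : Stmt_FieldGE) (S : Finset Nat.Primes) (p : ℕ)
    (F : IntermediateField ℚ (AlgebraicClosure ℚ)) (hF : IsSFieldZeta S p F) :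
    nPl S F ≤
      Module.finrank (ZMod p) (continuousH2S S (indRep p F) ⧸ sha₂ S (indRep p F)) + 1 := by
  obtain ⟨-, h2⟩ := helper62.stmt_Shapiro S p F hF.prime hF.unram
  exact fieldGE_indRep hF.prime h2 (hFin S p F hF) (hGE S p F hF)

/-- The two exact finrank identities of Shapiro, for consumers that need equalities. -/
theorem gb_finrank_eq (S : Finset Nat.Primes) (p : ℕ)
    (F : IntermediateField ℚ (AlgebraicClosure ℚ)) (hp : p.Prime)
    (hF : F.IsUnramifiedOutside S) :
    Module.finrank (ZMod p) (continuousH1S S (indRep p F)) =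
        Module.finrank (ZMod p) (fieldH1 S p F) ∧
      Module.finrank (ZMod p) (continuousH2S S (indRep p F)) =
        Module.finrank (ZMod p) (fieldH2 S p F) := by
  obtain ⟨h1, h2⟩ := helper62.stmt_Shapiro S p F hp hF
  exact ⟨h1.finrank_eq, h2.finrank_eq⟩

end Fermat.Agent.S55.helper3071
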