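/-
S55 (Poitou–Tate), leaf NF-GR-WEAK2R, closed form (helper1809).

`stmt_R_closed` : the ledger Prop `helper15.Stmt_R` (the invariant system `(R)` for every odd `p`
and every `S ∋ p`) from

* `Stmt_GRAll` : weak reciprocity ("no class of `H²(G_S, μ_p)` is nontrivial at exactly one
  prime of `S`") for every odd `p` and every `S ∋ p`;
* `helper665.Stmt_LocalL2` : the local (L2) package (`H²(ℚ_q, μ_p)` is a line + both kernels);
* `helper3071.Stmt_FieldFin`, `helper3071.Stmt_FieldGE` : finiteness and `(G-E)` of the field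
  layer (used for ONE `S`-field containing `μ_p`).

The codimension bound `π₂(μ_p) ≤ r₂(μ_p) + 1` over `ℚ` is `stmt_CodimQ_of`.
-/
import Mathlib
import Fermat.Agent.S55.helper1809_WeakRecip
import Fermat.Agent.S55.helper15_StmtC
import Fermat.Agent.S55.helper1127_IndCount
import Fermat.Agent.S55.helper3071_GBAssembly

set_option autoImplicit false

namespace Fermat.Agent.S55.helper1809

open CategoryTheory groupCohomology ExtCitation Module

local notation "GQ" => (AlgebraicClosure ℚ ≃ₐ[ℚ] AlgebraicClosure ℚ)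

/-- Weak reciprocity for every odd `p` and every `S ∋ p` (closed form of `Stmt_GR`). -/
def Stmt_GRAll : Prop :=
  ∀ {p : ℕ} [Fact p.Prime], p ≠ 2 → ∀ (S : Finset Nat.Primes), pPrime p ∈ S → Stmt_GR p S

/-- Codimension `≤ 1` over `ℚ` of the localisation map on `H²(G_S, μ_p)`, for every odd `p` and
every `S ∋ p` (i.e. `(G-E)` for `K = ℚ`, `M = μ_p`). -/
def Stmt_CodimQ : Prop :=
  ∀ {p : ℕ} [Fact p.Prime], p ≠ 2 → ∀ (S : Finset Nat.Primes), pPrime p ∈ S →
    helper2945.pi2 S (ofChar (k := ZMod p) (cycloChar p)) ≤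
      helper2945.r2 S (ofChar (k := ZMod p) (cycloChar p)) + 1

/-- For `p ∈ S` there is an `S`-field containing `μ_p`. -/
theorem exists_isSFieldZeta {p : ℕ} [Fact p.Prime] (hp2 : p ≠ 2) (S : Finset Nat.Primes)
    (hpS : pPrime p ∈ S) :
    ∃ F : IntermediateField ℚ (AlgebraicClosure ℚ), helper3071.IsSFieldZeta S p F := by
  obtain ⟨K, hK, -, -, -, -, -, hroots⟩ :=
    helper4039.exists_galois_sfield_trivializing p hpS
      (Representation.trivial (ZMod p) GQ (ZMod p))
      (fun _ => ⟨⊥, inferInstance, fun _ _ => rfl⟩) (fun _ _ _ _ _ _ => rfl)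
  exact ⟨K, helper1127.isSFieldZeta_of_roots S K hp2 hpS hK hroots⟩

/-- **Codimension `≤ 1` over `ℚ` for `μ_p`** from the local (L2) package and the field layer
(`(G-E)` for one `S`-field containing `μ_p`). -/
theorem stmt_CodimQ_of (hL : helper665.Stmt_LocalL2) (hFin : helper3071.Stmt_FieldFin)
    (hGE : helper3071.Stmt_FieldGE) : Stmt_CodimQ := by
  intro p _ hp2 S hpS
  obtain ⟨F, hF⟩ := exists_isSFieldZeta hp2 S hpS
  obtain ⟨h0, -, h2⟩ := hL p hp2
  have hpi := helper1127.pi2_indRep_le_nPl S F hL hp2 hF.unram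
  have hge := helper3071.gb_gc hFin hGE S p F hF
  exact codim_T_of_ind S hp2 hF.unram (cycloChar_eq_one_of_hasZeta hF.zeta) h0 h2
    (fun q _ => helper665.finiteDimensional_continuousH2_res hL hp2 S _
      (helper1127.isSMod_indRep S F hF.unram) q)
    (hpi.trans hge)

/-- **The invariant system from weak reciprocity, (LB1) and codimension `≤ 1`.** -/
theorem stmt_R_of_codim (hGR : Stmt_GRAll) (hL : helper665.Stmt_LocalL2) (hC : Stmt_CodimQ) :
    helper15.Stmt_R :=
  fun {p} _ hp2 S hpS => stmt_R_of_weak S hp2 (hGR hp2 S hpS) (hL p hp2).1 (hC hp2 S hpS)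

/-- **The ledger Prop `helper15.Stmt_R` from weak reciprocity**, the local (L2) package and the
field layer. -/
theorem stmt_R_closed (hGR : Stmt_GRAll) (hL : helper665.Stmt_LocalL2)
    (hFin : helper3071.Stmt_FieldFin) (hGE : helper3071.Stmt_FieldGE) : helper15.Stmt_R :=
  stmt_R_of_codim hGR hL (stmt_CodimQ_of hL hFin hGE)

end Fermat.Agent.S55.helper1809
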