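import Mathlib

set_option autoImplicit false

noncomputable section

namespace Fermat.Agent.S55.helper304

open groupCohomology

section General

variable {K Ω : Type*} [Field K] [Field Ω] [Algebra K Ω]

/-- A function on the Galois group of `Ω/K` is *level-constant* when it is right-invariant under
the fixing subgroup of a finite subextension. -/
def IsLevel {X : Type*} (c : (Ω ≃ₐ[K] Ω) → X) : Prop :=
  ∃ E : IntermediateField K Ω, FiniteDimensional K E ∧
    ∀ g s : Ω ≃ₐ[K] Ω, s ∈ E.fixingSubgroup → c (g * s) = c g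

lemma isLevel_const {X : Type*} (x : X) : IsLevel (K := K) (Ω := Ω) (fun _ => x) :=
  ⟨⊥, inferInstance, fun _ _ _ => rfl⟩

lemma IsLevel.comp {X Y : Type*} {c : (Ω ≃ₐ[K] Ω) → X} (hc : IsLevel c) (φ : X → Y) :
    IsLevel (φ ∘ c) := by
  obtain ⟨E, hE, h⟩ := hc
  exact ⟨E, hE, fun g s hs => by simp only [Function.comp_apply, h g s hs]⟩

lemma IsLevel.mul {X : Type*} [Mul X] {c c' : (Ω ≃ₐ[K] Ω) → X} (hc : IsLevel c)
    (hc' : IsLevel c') : IsLevel (c * c') := by
  obtain ⟨E, hE, h⟩ := hc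
  obtain ⟨E', hE', h'⟩ := hc'
  have := hE; have := hE'
  refine ⟨E ⊔ E', inferInstance, fun g s hs => ?_⟩
  simp only [Pi.mul_apply]
  rw [h g s (IntermediateField.fixingSubgroup_antitone le_sup_left hs),
    h' g s (IntermediateField.fixingSubgroup_antitone le_sup_right hs)]

lemma IsLevel.inv {X : Type*} [Inv X] {c : (Ω ≃ₐ[K] Ω) → X} (hc : IsLevel c) :
    IsLevel (c⁻¹) := hc.comp (·⁻¹)

lemma IsLevel.add {X : Type*} [Add X] {c c' : (Ω ≃ₐ[K] Ω) → X} (hc : IsLevel c)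
    (hc' : IsLevel c') : IsLevel (c + c') := by
  obtain ⟨E, hE, h⟩ := hc
  obtain ⟨E', hE', h'⟩ := hc'
  have := hE; have := hE'
  refine ⟨E ⊔ E', inferInstance, fun g s hs => ?_⟩
  simp only [Pi.add_apply]
  rw [h g s (IntermediateField.fixingSubgroup_antitone le_sup_left hs),
    h' g s (IntermediateField.fixingSubgroup_antitone le_sup_right hs)]

lemma IsLevel.neg {X : Type*} [Neg X] {c : (Ω ≃ₐ[K] Ω) → X} (hc : IsLevel c) :
    IsLevel (-c) := hc.comp (-·)

/-- Every `K`-embedding of an intermediate field into a normal extension `Ω` extends to an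
automorphism of `Ω`. -/
lemma exists_algEquiv_extending [Normal K Ω] (E : IntermediateField K Ω) (φ : E →ₐ[K] Ω) :
    ∃ g : Ω ≃ₐ[K] Ω, ∀ x : E, g x = φ x := by
  let ψ : Ω →ₐ[K] Ω := φ.liftNormal Ω
  have hb : Function.Bijective ψ := Algebra.IsAlgebraic.algHom_bijective ψ
  refine ⟨AlgEquiv.ofBijective ψ hb, fun x => ?_⟩
  exact φ.liftNormal_commutes Ω x

lemma exists_sum_mul_ne_zero (E : IntermediateField K Ω) [FiniteDimensional K E]
    (C : (E →ₐ[K] Ω) → Ω) (hC : ∃ φ, C φ ≠ 0) :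
    ∃ z : E, ∑ φ : E →ₐ[K] Ω, C φ * φ z ≠ 0 := by
  by_contra h
  push Not at h
  have hli := linearIndependent_toLinearMap K E Ω
  rw [Fintype.linearIndependent_iff] at hli
  obtain ⟨φ, hφ⟩ := hC
  refine hφ (hli C ?_ φ)
  ext z
  simpa using h z

/-- **Hilbert 90 in level form** for a (possibly infinite) normal extension: a level-constant
multiplicative 1-cocycle of `Gal(Ω/K)` with values in `Ωˣ` is a coboundary. -/
theorem level_hilbert90 [Normal K Ω] (c : (Ω ≃ₐ[K] Ω) → Ωˣ) (hc : IsMulCocycle₁ c)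
    (hl : IsLevel c) : IsMulCoboundary₁ c := by
  classical
  obtain ⟨E, hE, hEc⟩ := hl
  have := hE
  choose ext hext using exists_algEquiv_extending (K := K) (Ω := Ω) E
  have hwd : ∀ g g' : Ω ≃ₐ[K] Ω, (∀ x : E, g x = g' x) → c g = c g' := by
    intro g g' h
    have hs : g⁻¹ * g' ∈ E.fixingSubgroup := by
      rw [IntermediateField.mem_fixingSubgroup_iff]
      intro x hx
      have := h ⟨x, hx⟩
      simp only [AlgEquiv.mul_apply]
      rw [← this]
      exact g.symm_apply_apply x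
    have := hEc g (g⁻¹ * g') hs
    rw [mul_inv_cancel_left] at this
    exact this.symm
  let C : (E →ₐ[K] Ω) → Ω := fun φ => (c (ext φ) : Ω)
  obtain ⟨z, hz⟩ : ∃ z : E, ∑ φ : E →ₐ[K] Ω, C φ * φ z ≠ 0 :=
    exists_sum_mul_ne_zero E C ⟨E.val, Units.ne_zero _⟩
  set β := ∑ φ : E →ₐ[K] Ω, C φ * φ z with hβ
  have key : ∀ g : Ω ≃ₐ[K] Ω, (c g : Ω) * g β = β := by
    intro g
    let e : (E →ₐ[K] Ω) ≃ (E →ₐ[K] Ω) :=
      { toFun := fun φ => (g : Ω →ₐ[K] Ω).comp φ
        invFun := fun φ => ((g⁻¹ : Ω ≃ₐ[K] Ω) : Ω →ₐ[K] Ω).comp φ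
        left_inv := fun φ => by
          ext x
          simp
        right_inv := fun φ => by
          ext x
          simp }
    rw [hβ, map_sum, Finset.mul_sum, ← Equiv.sum_comp e (fun φ => C φ * φ z)]
    refine Finset.sum_congr rfl fun φ _ => ?_
    have h1 : c (ext (e φ)) = c (g * ext φ) := hwd _ _ (fun x => by
      rw [hext, AlgEquiv.mul_apply, hext]; rfl)
    have h2 : c (g * ext φ) = g • c (ext φ) * c g := hc g (ext φ)
    simp only [C, map_mul, h1, h2, Units.val_mul]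
    have h3 : ((g • c (ext φ) : Ωˣ) : Ω) = g (c (ext φ) : Ω) := rfl
    rw [h3]
    have h4 : (e φ) z = g (φ z) := rfl
    rw [h4]
    ring
  have hβ0 : β ≠ 0 := hz
  refine ⟨(Units.mk0 β hβ0)⁻¹, fun g => ?_⟩
  ext
  have hk := key g
  have h5 : ((g • (Units.mk0 β hβ0)⁻¹ : Ωˣ) : Ω) = g (β⁻¹) := rfl
  rw [Units.val_div_eq_div_val, h5, map_inv₀]
  simp only [Units.val_inv_eq_inv_val, Units.val_mk0]
  have hg0 : g β ≠ 0 := by
    intro h0
    rw [h0, mul_zero] at hk
    exact hβ0 hk.symm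
  rw [inv_div_inv, div_eq_iff hg0]
  exact hk.symm

end General

section Kummer

variable (K Ω : Type*) [Field K] [Field Ω] [Algebra K Ω] (n : ℕ)

/-- The group of `μ_n`-valued level-constant multiplicative 1-cocycles of `Gal(Ω/K)` on `Ωˣ`. -/
def levelZ1 : Subgroup ((Ω ≃ₐ[K] Ω) → Ωˣ) where
  carrier := {c | IsMulCocycle₁ c ∧ IsLevel c ∧ ∀ g, c g ^ n = 1}
  mul_mem' := by
    rintro c c' ⟨hc, hl, hn⟩ ⟨hc', hl', hn'⟩
    refine ⟨fun g h => ?_, hl.mul hl', fun g => ?_⟩
    · simp only [Pi.mul_apply, hc g h, hc' g h, smul_mul']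
      exact mul_mul_mul_comm _ _ _ _
    · simp only [Pi.mul_apply, mul_pow, hn g, hn' g, mul_one]
  one_mem' := ⟨fun g h => by simp, isLevel_const 1, fun g => by simp⟩
  inv_mem' := by
    rintro c ⟨hc, hl, hn⟩
    refine ⟨fun g h => ?_, hl.inv, fun g => ?_⟩
    · simp only [Pi.inv_apply, hc g h, mul_inv, smul_inv']
    · simp only [Pi.inv_apply, inv_pow, hn g, inv_one]

variable {K Ω n} in
lemma mem_levelZ1_iff (c : (Ω ≃ₐ[K] Ω) → Ωˣ) :
    c ∈ levelZ1 K Ω n ↔ IsMulCocycle₁ c ∧ IsLevel c ∧ ∀ g, c g ^ n = 1 := Iff.rfl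

/-- The units of `Ω` whose `n`-th power lies in `K`. -/
def radGroup : Subgroup Ωˣ :=
  (Units.map (algebraMap K Ω : K →* Ω)).range.comap (powMonoidHom n)

variable {K Ω n} in
lemma mem_radGroup_iff (b : Ωˣ) :
    b ∈ radGroup K Ω n ↔ ∃ a : Kˣ, Units.map (algebraMap K Ω : K →* Ω) a = b ^ n := Iff.rfl

/-- The Kummer cochain `g ↦ g b / b`. -/
def kummerFun (b : Ωˣ) : (Ω ≃ₐ[K] Ω) → Ωˣ := fun g => g • b / b

variable {Ω} in
lemma kummerFun_apply (b : Ωˣ) (g : Ω ≃ₐ[K] Ω) : kummerFun K Ω b g = g • b / b := rfl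

variable {Ω} in
lemma kummerFun_mul (b b' : Ωˣ) : kummerFun K Ω (b * b') = kummerFun K Ω b * kummerFun K Ω b' := by
  funext g
  simp only [kummerFun_apply, Pi.mul_apply, smul_mul']
  exact mul_div_mul_comm _ _ _ _

lemma kummerFun_one : kummerFun K Ω 1 = 1 := by
  funext g
  simp [kummerFun_apply]

variable {Ω} in
lemma isMulCocycle₁_kummerFun (b : Ωˣ) : IsMulCocycle₁ (kummerFun K Ω b) := by
  intro g h
  simp only [kummerFun_apply, smul_div', mul_smul]
  rw [div_mul_div_cancel]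

variable {K Ω} in
lemma smul_units_map_algebraMap (g : Ω ≃ₐ[K] Ω) (a : Kˣ) :
    g • Units.map (algebraMap K Ω : K →* Ω) a = Units.map (algebraMap K Ω : K →* Ω) a := by
  ext
  exact g.commutes a

variable {K Ω n} in
lemma kummerFun_pow_eq_one {b : Ωˣ} (hb : b ∈ radGroup K Ω n) (g : Ω ≃ₐ[K] Ω) :
    kummerFun K Ω b g ^ n = 1 := by
  obtain ⟨a, ha⟩ := (mem_radGroup_iff b).1 hb
  rw [kummerFun_apply, div_pow, ← smul_pow', ← ha, smul_units_map_algebraMap, div_self']

variable {Ω} in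
lemma isLevel_kummerFun [Algebra.IsAlgebraic K Ω] (b : Ωˣ) : IsLevel (kummerFun K Ω b) := by
  refine ⟨IntermediateField.adjoin K {(b : Ω)},
    IntermediateField.adjoin.finiteDimensional (Algebra.IsIntegral.isIntegral (b : Ω)),
    fun g s hs => ?_⟩
  have hsb : s • b = b := by
    ext
    exact (IntermediateField.mem_fixingSubgroup_iff _ _).1 hs (b : Ω)
      (IntermediateField.mem_adjoin_simple_self K (b : Ω))
  simp only [kummerFun_apply, mul_smul, hsb]

/-- The Kummer cocycle map on the radical group. -/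
def kummerCocycleHom [Algebra.IsAlgebraic K Ω] : radGroup K Ω n →* levelZ1 K Ω n where
  toFun b := ⟨kummerFun K Ω b, isMulCocycle₁_kummerFun K _, isLevel_kummerFun K _,
    kummerFun_pow_eq_one b.2⟩
  map_one' := Subtype.ext (kummerFun_one K Ω)
  map_mul' _ _ := Subtype.ext (kummerFun_mul K _ _)

variable {K Ω n} in
lemma kummerCocycleHom_apply [Algebra.IsAlgebraic K Ω] (b : radGroup K Ω n) (g : Ω ≃ₐ[K] Ω) :
    (kummerCocycleHom K Ω n b : (Ω ≃ₐ[K] Ω) → Ωˣ) g = g • (b : Ωˣ) / b := rfl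

variable {K Ω} in
/-- A unit fixed by the whole Galois group comes from the base field. -/
lemma exists_units_map_eq_of_fixed [IsGalois K Ω] (x : Ωˣ) (hx : ∀ g : Ω ≃ₐ[K] Ω, g • x = x) :
    ∃ d : Kˣ, Units.map (algebraMap K Ω : K →* Ω) d = x := by
  have hmem : (x : Ω) ∈ (⊥ : IntermediateField K Ω) := by
    rw [InfiniteGalois.mem_bot_iff_fixed]
    intro g
    exact congrArg Units.val (hx g)
  obtain ⟨d, hd⟩ := IntermediateField.mem_bot.1 hmem
  have hd0 : d ≠ 0 := by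
    rintro rfl
    rw [map_zero] at hd
    exact x.ne_zero hd.symm
  exact ⟨Units.mk0 d hd0, Units.ext hd⟩

/-- **Kummer surjectivity**: every `μ_n`-valued level 1-cocycle is `g ↦ g b / b` with `b ^ n ∈ K`. -/
theorem kummerCocycleHom_surjective [IsGalois K Ω] :
    Function.Surjective (kummerCocycleHom K Ω n) := by
  rintro ⟨c, hc, hl, hn⟩
  obtain ⟨b, hb⟩ := level_hilbert90 c hc hl
  have hbn : ∀ g : Ω ≃ₐ[K] Ω, g • (b ^ n) = b ^ n := by
    intro g
    have h1 := hn g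
    rw [← hb g, div_pow, ← smul_pow', div_eq_one] at h1
    exact h1
  obtain ⟨a, ha⟩ := exists_units_map_eq_of_fixed (b ^ n) hbn
  refine ⟨⟨b, a, ha⟩, Subtype.ext ?_⟩
  funext g
  exact hb g

/-- The coboundaries of `n`-th roots of unity inside the level cocycles. -/
def levelB1 [Algebra.IsAlgebraic K Ω] : Subgroup (levelZ1 K Ω n) :=
  ((rootsOfUnity n Ω).subgroupOf (radGroup K Ω n)).map (kummerCocycleHom K Ω n)

end Kummer

section KummerMap

variable (K Ω : Type*) [Field K] [Field Ω] [Algebra K Ω] (n : ℕ)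

instance instCommGroupLevelZ1 : CommGroup (levelZ1 K Ω n) := Subgroup.toCommGroup _

/-- `H¹_level(Gal(Ω/K), μ_n)`: level cocycles with values in `μ_n` modulo coboundaries of
`n`-th roots of unity. -/
def levelH1 [Algebra.IsAlgebraic K Ω] : Type _ := levelZ1 K Ω n ⧸ levelB1 K Ω n

instance instCommGroupLevelH1 [Algebra.IsAlgebraic K Ω] : CommGroup (levelH1 K Ω n) :=
  QuotientGroup.Quotient.commGroup (levelB1 K Ω n)

/-- The class map. -/
def levelH1mk [Algebra.IsAlgebraic K Ω] : levelZ1 K Ω n →* levelH1 K Ω n :=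
  QuotientGroup.mk' (levelB1 K Ω n)

lemma levelH1mk_surjective [Algebra.IsAlgebraic K Ω] : Function.Surjective (levelH1mk K Ω n) :=
  QuotientGroup.mk'_surjective _

variable {K Ω n} in
lemma levelH1mk_eq_one_iff [Algebra.IsAlgebraic K Ω] (c : levelZ1 K Ω n) :
    levelH1mk K Ω n c = 1 ↔ c ∈ levelB1 K Ω n :=
  QuotientGroup.eq_one_iff c

variable {K Ω n} in
lemma levelH1mk_eq_iff [Algebra.IsAlgebraic K Ω] (c c' : levelZ1 K Ω n) :
    levelH1mk K Ω n c = levelH1mk K Ω n c' ↔ c⁻¹ * c' ∈ levelB1 K Ω n :=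
  QuotientGroup.eq

variable {K Ω n} in
/-- The class of a Kummer cocycle only depends on the `n`-th power of the radical. -/
lemma mk_kummerCocycleHom_eq_of_pow_eq [Algebra.IsAlgebraic K Ω] {b b' : radGroup K Ω n}
    (h : (b : Ωˣ) ^ n = (b' : Ωˣ) ^ n) :
    levelH1mk K Ω n (kummerCocycleHom K Ω n b) = levelH1mk K Ω n (kummerCocycleHom K Ω n b') := by
  rw [levelH1mk_eq_iff, ← map_inv, ← map_mul]
  refine ⟨b⁻¹ * b', ?_, rfl⟩
  rw [SetLike.mem_coe, Subgroup.mem_subgroupOf, mem_rootsOfUnity]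
  simp [mul_pow, h]

variable (hroots : ∀ a : Kˣ, ∃ α : Ωˣ, α ^ n = Units.map (algebraMap K Ω : K →* Ω) a)

/-- A chosen `n`-th root of `a`. -/
def kummerRoot (a : Kˣ) : radGroup K Ω n :=
  ⟨(hroots a).choose, a, (hroots a).choose_spec.symm⟩

lemma kummerRoot_pow (a : Kˣ) :
    ((kummerRoot K Ω n hroots a : radGroup K Ω n) : Ωˣ) ^ n =
      Units.map (algebraMap K Ω : K →* Ω) a :=
  (hroots a).choose_spec

/-- The **Kummer map** `Kˣ → H¹_level(Gal(Ω/K), μ_n)`. -/
def kummerMap [Algebra.IsAlgebraic K Ω] : Kˣ →* levelH1 K Ω n where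
  toFun a := levelH1mk K Ω n (kummerCocycleHom K Ω n (kummerRoot K Ω n hroots a))
  map_one' := by
    have := mk_kummerCocycleHom_eq_of_pow_eq (b := kummerRoot K Ω n hroots 1) (b' := 1)
      (by simp [kummerRoot_pow])
    rw [this, map_one, map_one]
  map_mul' a a' := by
    have := mk_kummerCocycleHom_eq_of_pow_eq (b := kummerRoot K Ω n hroots (a * a'))
      (b' := kummerRoot K Ω n hroots a * kummerRoot K Ω n hroots a')
      (by simp [kummerRoot_pow, mul_pow])
    rw [this, map_mul, map_mul]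

variable {K Ω n} in
lemma kummerMap_eq_mk [Algebra.IsAlgebraic K Ω] (a : Kˣ) (b : radGroup K Ω n)
    (hb : (b : Ωˣ) ^ n = Units.map (algebraMap K Ω : K →* Ω) a) :
    kummerMap K Ω n hroots a = levelH1mk K Ω n (kummerCocycleHom K Ω n b) :=
  mk_kummerCocycleHom_eq_of_pow_eq (by rw [kummerRoot_pow, hb])

theorem kummerMap_surjective [IsGalois K Ω] : Function.Surjective (kummerMap K Ω n hroots) := by
  intro x
  obtain ⟨c, rfl⟩ := levelH1mk_surjective K Ω n x
  obtain ⟨b, rfl⟩ := kummerCocycleHom_surjective K Ω n c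
  obtain ⟨a, ha⟩ := (mem_radGroup_iff _).1 b.2
  exact ⟨a, kummerMap_eq_mk hroots a b ha.symm⟩

theorem kummerMap_ker [IsGalois K Ω] :
    (kummerMap K Ω n hroots).ker = (powMonoidHom n : Kˣ →* Kˣ).range := by
  refine Subgroup.ext fun a => ?_
  rw [MonoidHom.mem_ker]
  constructor
  · intro h
    have h1 : kummerCocycleHom K Ω n (kummerRoot K Ω n hroots a) ∈ levelB1 K Ω n :=
      (levelH1mk_eq_one_iff _).1 h
    obtain ⟨ζ, hζ, hζe⟩ := h1
    rw [SetLike.mem_coe, Subgroup.mem_subgroupOf, mem_rootsOfUnity] at hζ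
    have hfix : ∀ g : Ω ≃ₐ[K] Ω,
        g • (((kummerRoot K Ω n hroots a : radGroup K Ω n) : Ωˣ) / (ζ : Ωˣ)) =
          ((kummerRoot K Ω n hroots a : radGroup K Ω n) : Ωˣ) / (ζ : Ωˣ) := by
      intro g
      have h2 := congrFun (congrArg Subtype.val hζe) g
      rw [kummerCocycleHom_apply, kummerCocycleHom_apply, div_eq_div_iff_mul_eq_mul] at h2
      rw [smul_div', div_eq_div_iff_mul_eq_mul, ← h2, mul_comm]
    obtain ⟨d, hd⟩ := exists_units_map_eq_of_fixed _ hfix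
    refine ⟨d, ?_⟩
    apply Units.map_injective (f := (algebraMap K Ω : K →* Ω)) (algebraMap K Ω).injective
    rw [powMonoidHom_apply, map_pow, hd, div_pow, hζ, div_one, kummerRoot_pow]
  · rintro ⟨d, rfl⟩
    have hmem : Units.map (algebraMap K Ω : K →* Ω) d ∈ radGroup K Ω n :=
      (mem_radGroup_iff _).2 ⟨d ^ n, by rw [map_pow]⟩
    rw [kummerMap_eq_mk hroots (powMonoidHom n d) ⟨_, hmem⟩ (by rw [powMonoidHom_apply, map_pow]),
      levelH1mk_eq_one_iff]
    have : kummerCocycleHom K Ω n ⟨_, hmem⟩ = 1 := by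
      apply Subtype.ext
      funext g
      rw [kummerCocycleHom_apply, smul_units_map_algebraMap, div_self']
      rfl
    rw [this]
    exact one_mem _

/-- **Kummer theory in level form**: `Kˣ/(Kˣ)ⁿ ≃ H¹_level(Gal(Ω/K), μ_n)`, with no root of unity
assumed in `K`. -/
def kummerEquiv [IsGalois K Ω] :
    Kˣ ⧸ (powMonoidHom n : Kˣ →* Kˣ).range ≃* levelH1 K Ω n :=
  (QuotientGroup.quotientMulEquivOfEq (kummerMap_ker K Ω n hroots).symm).trans
    (QuotientGroup.quotientKerEquivOfSurjective _ (kummerMap_surjective K Ω n hroots))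

end KummerMap

section Characters

variable (K Ω : Type*) [Field K] [Field Ω] [Algebra K Ω] (n : ℕ)

/-- Level-constant additive characters `Gal(Ω/K) → ZMod n`. -/
def levelAddChar : AddSubgroup ((Ω ≃ₐ[K] Ω) → ZMod n) where
  carrier := {f | (∀ g h, f (g * h) = f g + f h) ∧ IsLevel f}
  add_mem' := by
    rintro f f' ⟨hf, hl⟩ ⟨hf', hl'⟩
    refine ⟨fun g h => ?_, hl.add hl'⟩
    simp only [Pi.add_apply, hf g h, hf' g h]
    exact add_add_add_comm _ _ _ _
  zero_mem' := ⟨fun g h => by simp, isLevel_const 0⟩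
  neg_mem' := by
    rintro f ⟨hf, hl⟩
    refine ⟨fun g h => ?_, hl.neg⟩
    simp only [Pi.neg_apply, hf g h, neg_add]

variable {K Ω n} in
lemma mem_levelAddChar_iff (f : (Ω ≃ₐ[K] Ω) → ZMod n) :
    f ∈ levelAddChar K Ω n ↔ (∀ g h, f (g * h) = f g + f h) ∧ IsLevel f := Iff.rfl

variable {K Ω n} in
/-- If the `n`-th roots of unity of `Ω` are Galois-fixed, the root-of-unity coboundaries are
trivial. -/
lemma levelB1_eq_bot [Algebra.IsAlgebraic K Ω]
    (hμ : ∀ ξ : Ωˣ, ξ ^ n = 1 → ∀ g : Ω ≃ₐ[K] Ω, g • ξ = ξ) : levelB1 K Ω n = ⊥ := by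
  rw [eq_bot_iff]
  rintro c ⟨ξ, hξ, rfl⟩
  rw [SetLike.mem_coe, Subgroup.mem_subgroupOf, mem_rootsOfUnity] at hξ
  rw [Subgroup.mem_bot]
  apply Subtype.ext
  funext g
  rw [kummerCocycleHom_apply, hμ _ hξ g, div_self']
  rfl

variable {K Ω n} in
lemma levelH1mk_bijective [Algebra.IsAlgebraic K Ω]
    (hμ : ∀ ξ : Ωˣ, ξ ^ n = 1 → ∀ g : Ω ≃ₐ[K] Ω, g • ξ = ξ) :
    Function.Bijective (levelH1mk K Ω n) := by
  refine ⟨fun c c' h => ?_, levelH1mk_surjective K Ω n⟩
  rw [levelH1mk_eq_iff, levelB1_eq_bot hμ, Subgroup.mem_bot, inv_mul_eq_one] at h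
  exact h

variable {K Ω n} in
/-- A primitive `n`-th root of unity in `K`: all `n`-th roots of unity of `Ω` are fixed. -/
lemma smul_eq_of_pow_eq_one [NeZero n] {ζ : K} (hζ : IsPrimitiveRoot ζ n) (ξ : Ωˣ)
    (hξ : ξ ^ n = 1) (g : Ω ≃ₐ[K] Ω) : g • ξ = ξ := by
  have hζΩ : IsPrimitiveRoot (algebraMap K Ω ζ) n :=
    hζ.map_of_injective (algebraMap K Ω).injective
  have hξ' : (ξ : Ω) ^ n = 1 := by
    rw [← Units.val_pow_eq_pow_val, hξ, Units.val_one]
  obtain ⟨i, -, hi⟩ := hζΩ.eq_pow_of_pow_eq_one hξ'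
  ext
  change g (ξ : Ω) = ξ
  rw [← hi, map_pow, g.commutes]

variable {K Ω n} in
/-- With a primitive `n`-th root of unity in `K`, `μ_n`-valued level cocycles are the same as
level-constant additive characters with values in `ZMod n`. -/
theorem card_levelAddChar_eq_card_levelZ1 [NeZero n] {ζ : K} (hζ : IsPrimitiveRoot ζ n) :
    Nat.card (levelAddChar K Ω n) = Nat.card (levelZ1 K Ω n) := by
  have hζΩ : IsPrimitiveRoot (algebraMap K Ω ζ) n :=
    hζ.map_of_injective (algebraMap K Ω).injective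
  have hu : IsPrimitiveRoot (hζΩ.isUnit (NeZero.ne n)).unit n := by
    rw [← IsPrimitiveRoot.coe_units_iff]
    exact hζΩ
  set ζu : Ωˣ := (hζΩ.isUnit (NeZero.ne n)).unit with hζu
  let E : ZMod n ≃+ Additive (Subgroup.zpowers ζu) := hu.zmodEquivZPowers
  have hfix : ∀ (x : Subgroup.zpowers ζu) (g : Ω ≃ₐ[K] Ω), g • (x : Ωˣ) = x := by
    intro x g
    have hx : (x : Ωˣ) ∈ rootsOfUnity n Ω := by
      rw [← hu.zpowers_eq]
      exact x.2
    exact smul_eq_of_pow_eq_one hζ _ ((mem_rootsOfUnity _ _).1 hx) g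
  have hpow : ∀ x : Subgroup.zpowers ζu, (x : Ωˣ) ^ n = 1 := by
    intro x
    have hx : (x : Ωˣ) ∈ rootsOfUnity n Ω := by
      rw [← hu.zpowers_eq]
      exact x.2
    exact (mem_rootsOfUnity _ _).1 hx
  let Φ : levelAddChar K Ω n → levelZ1 K Ω n := fun f =>
    ⟨fun g => ((E ((f : (Ω ≃ₐ[K] Ω) → ZMod n) g)).toMul : Ωˣ), by
      obtain ⟨f, hf, hl⟩ := f
      refine ⟨fun g h => ?_, hl.comp (fun z => ((E z).toMul : Ωˣ)), fun g => hpow _⟩
      change ((E (f (g * h))).toMul : Ωˣ) = g • ((E (f h)).toMul : Ωˣ) * ((E (f g)).toMul : Ωˣ)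
      rw [hfix, hf g h, map_add, toMul_add, Subgroup.coe_mul, mul_comm]⟩
  refine Nat.card_eq_of_bijective Φ ⟨fun f f' h => ?_, fun c => ?_⟩
  · apply Subtype.ext
    funext g
    have h1 := congrFun (congrArg Subtype.val h) g
    change ((E ((f : (Ω ≃ₐ[K] Ω) → ZMod n) g)).toMul : Ωˣ) =
      ((E ((f' : (Ω ≃ₐ[K] Ω) → ZMod n) g)).toMul : Ωˣ) at h1
    exact E.injective (Additive.toMul.injective (Subtype.ext h1))
  · obtain ⟨c, hc, hl, hn⟩ := c
    have hmem : ∀ g, c g ∈ Subgroup.zpowers ζu := by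
      intro g
      rw [hu.zpowers_eq]
      exact (mem_rootsOfUnity _ _).2 (hn g)
    have hadd : ∀ g h, E.symm (Additive.ofMul ⟨c (g * h), hmem _⟩) =
        E.symm (Additive.ofMul ⟨c g, hmem g⟩) + E.symm (Additive.ofMul ⟨c h, hmem h⟩) := by
      intro g h
      rw [← map_add]
      congr 1
      apply Additive.toMul.injective
      apply Subtype.ext
      change c (g * h) = c g * c h
      rw [hc g h, hfix ⟨c h, hmem h⟩ g, mul_comm]
    refine ⟨⟨fun g => E.symm (Additive.ofMul ⟨c g, hmem g⟩), hadd,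
      hl.comp (fun z => if hz : z ∈ Subgroup.zpowers ζu then E.symm (Additive.ofMul ⟨z, hz⟩)
        else 0) |> fun h => ?_⟩, ?_⟩
    · obtain ⟨F, hF, hFc⟩ := h
      refine ⟨F, hF, fun g s hs => ?_⟩
      have := hFc g s hs
      simp only [Function.comp_apply, dif_pos (hmem _)] at this
      exact this
    · apply Subtype.ext
      funext g
      change ((E (E.symm (Additive.ofMul ⟨c g, hmem g⟩))).toMul : Ωˣ) = c g
      rw [E.apply_symm_apply]
      rfl

/-- **Count of level characters** (`μ_n ⊂ K`): the level-constant characters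
`Gal(Ω/K) → ZMod n` are in bijection with `Kˣ/(Kˣ)ⁿ`. -/
theorem card_levelAddChar [IsGalois K Ω] [NeZero n] {ζ : K} (hζ : IsPrimitiveRoot ζ n)
    (hroots : ∀ a : Kˣ, ∃ α : Ωˣ, α ^ n = Units.map (algebraMap K Ω : K →* Ω) a) :
    Nat.card (levelAddChar K Ω n) = Nat.card (Kˣ ⧸ (powMonoidHom n : Kˣ →* Kˣ).range) := by
  rw [card_levelAddChar_eq_card_levelZ1 hζ,
    Nat.card_eq_of_bijective _ (levelH1mk_bijective (fun ξ hξ g => smul_eq_of_pow_eq_one hζ ξ hξ g)),
    Nat.card_congr (kummerEquiv K Ω n hroots).toEquiv]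

variable {K Ω n} in
/-- In an algebraically closed field every unit has an `n`-th root (`n ≠ 0`). -/
lemma exists_units_pow_eq_of_isAlgClosed [IsAlgClosed Ω] (hn : n ≠ 0) (a : Kˣ) :
    ∃ α : Ωˣ, α ^ n = Units.map (algebraMap K Ω : K →* Ω) a := by
  obtain ⟨z, hz⟩ := IsAlgClosed.exists_pow_nat_eq (algebraMap K Ω a) (Nat.pos_of_ne_zero hn)
  have hz0 : z ≠ 0 := by
    rintro rfl
    rw [zero_pow hn] at hz
    exact (Units.map (algebraMap K Ω : K →* Ω) a).ne_zero hz.symm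
  exact ⟨Units.mk0 z hz0, Units.ext hz⟩

end Characters

section Local

/-- **Local `h¹`** (`μ_p ⊂ K`): for `K` finite over `ℚ_l` containing a primitive `p`-th root of
unity and `Ω` an algebraic closure, the level-constant characters `Gal(Ω/K) → ZMod p` number
`p ^ (2 + [K : ℚ_l]·[l = p])`, given the index of `p`-th powers in `Kˣ`. -/
theorem card_levelAddChar_local (l p : ℕ) [Fact l.Prime] [Fact p.Prime]
    (K : Type*) [Field K] [Algebra ℚ_[l] K] (Ω : Type*) [Field Ω] [Algebra K Ω]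
    [IsAlgClosure K Ω] {ζ : K} (hζ : IsPrimitiveRoot ζ p)
    (hpow : Nat.card (Kˣ ⧸ (powMonoidHom p : Kˣ →* Kˣ).range) =
      p * Nat.card (rootsOfUnity p K) * (if l = p then p ^ Module.finrank ℚ_[l] K else 1)) :
    Nat.card (levelAddChar K Ω p) = p ^ (2 + if l = p then Module.finrank ℚ_[l] K else 0) := by
  have : CharZero K := charZero_of_injective_algebraMap (algebraMap ℚ_[l] K).injective
  have : IsGalois K Ω := IsAlgClosure.isGalois K Ω
  have : IsAlgClosed Ω := IsAlgClosure.isAlgClosed K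
  have : NeZero p := ⟨(Fact.out : p.Prime).ne_zero⟩
  rw [card_levelAddChar K Ω p hζ
    (exists_units_pow_eq_of_isAlgClosed (Fact.out : p.Prime).ne_zero), hpow,
    hζ.card_rootsOfUnity]
  split_ifs
  · ring
  · ring

end Local

end Fermat.Agent.S55.helper304
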