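import Mathlib
import Fermat.Prelude.Def_GroupCohomology_ContinuousUnramified
import Fermat.Agent.S55.helper698_LocTop
import Fermat.Agent.S55.helper8235_PowIndex
import Fermat.Agent.S55.helper304_LocalH1

set_option autoImplicit false

noncomputable section

namespace Fermat.Agent.S55.helper304

open groupCohomology IntermediateField

section Frozen

variable (l : ℕ) [Fact l.Prime] (K : IntermediateField ℚ_[l] (PadicAlgCl l))

/-- The localisation map of the open subgroup `G_K = K.fixingSubgroup` of the frozen local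
Galois group. -/
abbrev rK : ↥K.fixingSubgroup →* (AlgebraicClosure ℚ ≃ₐ[ℚ] AlgebraicClosure ℚ) :=
  (localGaloisToGlobal l).comp K.fixingSubgroup.subtype

/-- Frozen level-constancy on `G_K` (through number fields and `localGaloisToGlobal`) is the
Krull level-constancy on `Gal(PadicAlgCl l / K)`. -/
theorem isLevelConstant₁_rK_iff [FiniteDimensional ℚ_[l] K] {X : Type*}
    (f : ↥K.fixingSubgroup → X) :
    IsLevelConstant₁ (rK l K) f ↔ IsLevel (f ∘ (fixingSubgroupEquiv K).symm) := by
  constructor
  · rintro ⟨F, hF, h⟩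
    have := hF
    obtain ⟨E0, hE0, hE0F⟩ := helper698.exists_localField_fixingSubgroup_le l F
    have := hE0
    obtain ⟨α, hα⟩ := Field.exists_primitive_element ℚ_[l] E0
    refine ⟨K⟮(α : PadicAlgCl l)⟯,
      IntermediateField.adjoin.finiteDimensional (Algebra.IsIntegral.isIntegral _),
      fun g s hs => ?_⟩
    have hsα : s (α : PadicAlgCl l) = α :=
      (IntermediateField.mem_fixingSubgroup_iff _ _).1 hs _
        (IntermediateField.mem_adjoin_simple_self K _)
    have hτ : (((fixingSubgroupEquiv K).symm s : ↥K.fixingSubgroup) :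
        PadicAlgCl l ≃ₐ[ℚ_[l]] PadicAlgCl l) ∈ E0.fixingSubgroup := by
      rw [IntermediateField.mem_fixingSubgroup_iff]
      intro k hk
      have hk' : k ∈ ℚ_[l]⟮(α : PadicAlgCl l)⟯ := by
        have hmap : (ℚ_[l]⟮α⟯).map E0.val = ℚ_[l]⟮(α : PadicAlgCl l)⟯ := by
          rw [IntermediateField.adjoin_map, Set.image_singleton]; rfl
        rw [← hmap, hα, IntermediateField.mem_map]
        exact ⟨⟨k, hk⟩, IntermediateField.mem_top, rfl⟩
      exact helper698.algEquiv_apply_eq_of_mem_adjoin_simple _ hsα hk'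
    have := h ((fixingSubgroupEquiv K).symm g) ((fixingSubgroupEquiv K).symm s) (hE0F _ hτ)
    simp only [Function.comp_apply, map_mul]
    exact this
  · rintro ⟨E, hE, h⟩
    have := hE
    have hfin : FiniteDimensional ℚ_[l] (E.restrictScalars ℚ_[l]) :=
      Module.Finite.trans (R := ℚ_[l]) (A := K) (M := E)
    obtain ⟨F, hF, hFE⟩ :=
      helper698.exists_numberField_comap_fixingSubgroup_le l (E.restrictScalars ℚ_[l])
    refine ⟨F, hF, fun g s hs => ?_⟩
    have hs' : fixingSubgroupEquiv K s ∈ E.fixingSubgroup := by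
      rw [IntermediateField.mem_fixingSubgroup_iff]
      intro x hx
      exact (IntermediateField.mem_fixingSubgroup_iff _ _).1 (hFE _ hs) x hx
    have := h (fixingSubgroupEquiv K g) (fixingSubgroupEquiv K s) hs'
    simp only [Function.comp_apply, ← map_mul, MulEquiv.symm_apply_apply] at this
    exact this

end Frozen

section Count

variable (l p : ℕ) [Fact l.Prime] [Fact p.Prime] (K : IntermediateField ℚ_[l] (PadicAlgCl l))
  [FiniteDimensional ℚ_[l] K]

/-- The trivial coefficient module `ZMod p` of `G_K`. -/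
abbrev trivK : Rep (ZMod p) ↥K.fixingSubgroup := Rep.trivial (ZMod p) ↥K.fixingSubgroup (ZMod p)

omit [FiniteDimensional ℚ_[l] K] in
lemma trivK_cocycle_iff (f : ↥K.fixingSubgroup → ZMod p) :
    f ∈ cocycles₁ (trivK l p K) ↔ ∀ g h, f (g * h) = f g + f h := by
  rw [mem_cocycles₁_iff]
  refine forall₂_congr fun g h => ?_
  rw [add_comm]
  rfl

/-- **Local `h¹` on the frozen carrier** (`μ_p ⊂ K`): `continuousH1` of the trivial module of the
open subgroup `G_K` of the frozen local Galois group has `p ^ (2 + [K : ℚ_l]·[l = p])`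
elements. -/
theorem card_continuousH1_trivK {ζ : K} (hζ : IsPrimitiveRoot ζ p) :
    Nat.card (continuousH1 (rK l K) (trivK l p K)) =
      p ^ (2 + if l = p then Module.finrank ℚ_[l] K else 0) := by
  have : IsAlgClosure K (PadicAlgCl l) := ⟨inferInstance, inferInstance⟩
  rw [← card_levelAddChar_local l p K (PadicAlgCl l) hζ (helper8235.card_units_quot_pow l p K)]
  symm
  have hcoc : ∀ f : levelAddChar K (PadicAlgCl l) p,
      (fun h : ↥K.fixingSubgroup => (f : (PadicAlgCl l ≃ₐ[K] PadicAlgCl l) → ZMod p)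
        (fixingSubgroupEquiv K h)) ∈ cocycles₁ (trivK l p K) := by
    intro f
    rw [trivK_cocycle_iff]
    intro g h
    rw [map_mul]
    exact f.2.1 _ _
  have hlev : ∀ f : levelAddChar K (PadicAlgCl l) p,
      IsLevelConstant₁ (rK l K) (fun h : ↥K.fixingSubgroup =>
        (f : (PadicAlgCl l ≃ₐ[K] PadicAlgCl l) → ZMod p) (fixingSubgroupEquiv K h)) := by
    intro f
    rw [isLevelConstant₁_rK_iff]
    have : ((fun h : ↥K.fixingSubgroup => (f : (PadicAlgCl l ≃ₐ[K] PadicAlgCl l) → ZMod p)
        (fixingSubgroupEquiv K h)) ∘ (fixingSubgroupEquiv K).symm) =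
        (f : (PadicAlgCl l ≃ₐ[K] PadicAlgCl l) → ZMod p) := by
      funext g
      simp
    rw [this]
    exact f.2.2
  let Ψ : levelAddChar K (PadicAlgCl l) p → continuousH1 (rK l K) (trivK l p K) := fun f =>
    ⟨(H1π (trivK l p K)).hom ⟨_, hcoc f⟩,
      (mem_continuousH1_iff _ _ _).2 ⟨⟨_, hcoc f⟩, hlev f, rfl⟩⟩
  refine Nat.card_eq_of_bijective Ψ ⟨fun f f' h => ?_, fun x => ?_⟩
  · have h1 : (H1π (trivK l p K)).hom ⟨_, hcoc f⟩ = (H1π (trivK l p K)).hom ⟨_, hcoc f'⟩ :=
      congrArg Subtype.val h
    rw [H1π_eq_iff, coboundaries₁_eq_bot_of_isTrivial, Submodule.mem_bot, sub_eq_zero] at h1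
    apply Subtype.ext
    funext g
    have h2 := congrFun h1 ((fixingSubgroupEquiv K).symm g)
    change (f : (PadicAlgCl l ≃ₐ[K] PadicAlgCl l) → ZMod p)
        (fixingSubgroupEquiv K ((fixingSubgroupEquiv K).symm g)) =
      (f' : (PadicAlgCl l ≃ₐ[K] PadicAlgCl l) → ZMod p)
        (fixingSubgroupEquiv K ((fixingSubgroupEquiv K).symm g)) at h2
    rwa [MulEquiv.apply_symm_apply] at h2
  · obtain ⟨x, hx⟩ := x
    obtain ⟨c, hc, rfl⟩ := (mem_continuousH1_iff _ _ _).1 hx
    have hc2 : ∀ g h, (c : ↥K.fixingSubgroup → ZMod p) (g * h) =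
        (c : ↥K.fixingSubgroup → ZMod p) g + (c : ↥K.fixingSubgroup → ZMod p) h :=
      (trivK_cocycle_iff l p K _).1 c.2
    refine ⟨⟨(c : ↥K.fixingSubgroup → ZMod p) ∘ (fixingSubgroupEquiv K).symm, ?_, ?_⟩, ?_⟩
    · intro g h
      simp only [Function.comp_apply, map_mul]
      exact hc2 _ _
    · exact (isLevelConstant₁_rK_iff l K _).1 hc
    · apply Subtype.ext
      change (H1π (trivK l p K)).hom _ = (H1π (trivK l p K)).hom c
      congr 1

/-- **Local `h¹` on the frozen carrier**, dimension form. -/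
theorem finrank_continuousH1_trivK {ζ : K} (hζ : IsPrimitiveRoot ζ p) :
    Module.finrank (ZMod p) (continuousH1 (rK l K) (trivK l p K)) =
      2 + if l = p then Module.finrank ℚ_[l] K else 0 := by
  have hp : p.Prime := Fact.out
  have hcard := card_continuousH1_trivK l p K hζ
  have hfin : Finite (continuousH1 (rK l K) (trivK l p K)) := by
    apply Nat.finite_of_card_ne_zero
    rw [hcard]
    exact pow_ne_zero _ hp.ne_zero
  have hmf : Module.Finite (ZMod p) (continuousH1 (rK l K) (trivK l p K)) := Module.Finite.of_finite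
  have h2 := Module.natCard_eq_pow_finrank (K := ZMod p)
    (V := continuousH1 (rK l K) (trivK l p K))
  rw [hcard, Nat.card_zmod] at h2
  exact (Nat.pow_right_injective hp.two_le h2).symm

/-- The module `continuousH1` of the trivial module of `G_K` is finite-dimensional. -/
theorem finiteDimensional_continuousH1_trivK {ζ : K} (hζ : IsPrimitiveRoot ζ p) :
    FiniteDimensional (ZMod p) (continuousH1 (rK l K) (trivK l p K)) := by
  have hp : p.Prime := Fact.out
  have hfin : Finite (continuousH1 (rK l K) (trivK l p K)) := by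
    apply Nat.finite_of_card_ne_zero
    rw [card_continuousH1_trivK l p K hζ]
    exact pow_ne_zero _ hp.ne_zero
  exact Module.Finite.of_finite

end Count

end Fermat.Agent.S55.helper304
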