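import Mathlib
import Fermat.Agent.S55.helper814_LB2
import Fermat.Agent.S55.helper8235_PowIndex
import Fermat.Agent.S55.helper913_NormIndex

/-!
# S55 leaf LA-LB2 (helper814), final form: (LB2) for finite extensions of `ℚ_[l]` inside
`PadicAlgCl l`, unconditional.

The norm-index hypothesis of `helper814_LB2` is discharged from the index of `p`-th powers
(`helper8235.index_range_pow_units_padic`) and the Chevalley/Tate counting lemma
(`helper913.norm_index_of_powIndex`).
-/

set_option autoImplicit false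

namespace Fermat.Agent.S55.helper814

open IntermediateField Polynomial

section KummerExt

variable {K Ω : Type*} [Field K] [Field Ω] [Algebra K Ω] [IsGalois K Ω]

/-- `[K(a^(1/p)) : K] = p` when `a` is not a `p`-th power. -/
lemma finrank_adjoin_root {p : ℕ} (hp : p.Prime) {a : K} (ha : ∀ c : K, c ^ p ≠ a) {α : Ω}
    (hα : α ^ p = algebraMap K Ω a) : Module.finrank K K⟮α⟯ = p := by
  have hαint : IsIntegral K α := Algebra.IsIntegral.isIntegral α
  have hirr : Irreducible (X ^ p - C a : K[X]) := X_pow_sub_C_irreducible_of_prime hp ha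
  have hmin : minpoly K α = X ^ p - C a := by
    symm
    apply minpoly.eq_of_irreducible_of_monic hirr
    · simp [hα]
    · exact monic_X_pow_sub_C a hp.ne_zero
  rw [adjoin.finrank hαint, hmin, natDegree_X_pow_sub_C]

/-- `K(a^(1/p)) / K` is Galois when `K` contains a primitive `p`-th root of unity. -/
lemma isGalois_adjoin_root {p : ℕ} [Fact p.Prime] {ζ : K} (hζ : IsPrimitiveRoot ζ p) {a : K}
    {α : Ω} (hα : α ^ p = algebraMap K Ω a) (hα0 : α ≠ 0) : IsGalois K K⟮α⟯ := by
  obtain ⟨x, hx⟩ := exists_kummerChar hζ hα hα0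
  have hnormal : Normal K K⟮α⟯ := by
    rw [normal_iff_forall_map_le']
    intro g
    rw [IntermediateField.adjoin_map, Set.image_singleton, adjoin_simple_le_iff]
    show (g : Ω →ₐ[K] Ω) α ∈ K⟮α⟯
    rw [AlgEquiv.coe_toAlgHom, hx g]
    exact mul_mem (pow_mem (IntermediateField.algebraMap_mem _ ζ) _) (mem_adjoin_simple_self K α)
  exact IsGalois.mk

end KummerExt

section Padic

/-- **Local norm index, weakest form**: for `K` finite over `ℚ_[l]` with a primitive `p`-th root of
unity and `a ∈ K` not a `p`-th power, some nonzero `b ∈ K` is not a norm from `K(a^(1/p))`. -/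
theorem exists_not_norm_padic (l p : ℕ) [Fact l.Prime] [Fact p.Prime]
    (K : IntermediateField ℚ_[l] (PadicAlgCl l)) [FiniteDimensional ℚ_[l] K] (ζ : K)
    (hζ : IsPrimitiveRoot ζ p) (a : K) (ha : ∀ c : K, c ^ p ≠ a) (α : PadicAlgCl l)
    (hα : α ^ p = algebraMap K (PadicAlgCl l) a) :
    ∃ b : K, b ≠ 0 ∧ ∀ z : K⟮α⟯, Algebra.norm K z ≠ b := by
  have hp := (Fact.out : p.Prime)
  have ha0 : a ≠ 0 := by
    rintro rfl
    exact ha 0 (zero_pow hp.ne_zero)
  have hα0 : α ≠ 0 := by
    rintro rfl
    rw [zero_pow hp.ne_zero] at hα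
    exact ha0 ((algebraMap K (PadicAlgCl l)).injective (by rw [← hα, map_zero]))
  haveI : IsGalois K K⟮α⟯ := isGalois_adjoin_root hζ hα hα0
  have hrank : Module.finrank K K⟮α⟯ = p := finrank_adjoin_root hp ha hα
  haveI : FiniteDimensional K K⟮α⟯ := adjoin.finiteDimensional (Algebra.IsIntegral.isIntegral α)
  haveI : FiniteDimensional ℚ_[l] K⟮α⟯ := Module.Finite.trans K K⟮α⟯
  have hK := helper8235.index_range_pow_units_padic l p K
  have hL := helper8235.index_range_pow_units_padic l p K⟮α⟯
  have hfin : Module.finrank ℚ_[l] K⟮α⟯ = Module.finrank ℚ_[l] K * p := by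
    rw [← hrank, Module.finrank_mul_finrank]
  have hidx : (MonoidHom.range (Units.map (Algebra.norm K : K⟮α⟯ →* K))).index = p := by
    refine helper913.norm_index_of_powIndex hp hrank
      (if l = p then p ^ Module.finrank ℚ_[l] K else 1) ?_ hK ?_
    · split_ifs
      · exact pow_ne_zero _ hp.ne_zero
      · exact one_ne_zero
    · rw [hL, hfin]
      split_ifs
      · rw [pow_mul]
      · rw [one_pow]
  -- an element outside the norm group
  have hne : MonoidHom.range (Units.map (Algebra.norm K : K⟮α⟯ →* K)) ≠ ⊤ := by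
    intro htop
    rw [htop, Subgroup.index_top] at hidx
    exact hp.one_lt.ne hidx
  obtain ⟨b, hb⟩ : ∃ b : Kˣ, b ∉ MonoidHom.range (Units.map (Algebra.norm K : K⟮α⟯ →* K)) := by
    by_contra hcon
    push Not at hcon
    exact hne (Subgroup.eq_top_iff' _ |>.2 hcon)
  refine ⟨b, b.ne_zero, fun z hz => hb ?_⟩
  have hz0 : z ≠ 0 := by
    rintro rfl
    rw [Algebra.norm_zero] at hz
    exact b.ne_zero hz.symm
  exact ⟨Units.mk0 z hz0, Units.ext hz⟩

/-- **(LB2), unconditional, on the local carrier.**  `K` a finite extension of `ℚ_[l]` inside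
`PadicAlgCl l` containing a primitive `p`-th root of unity, `a ∈ K` not a `p`-th power,
`α ^ p = a`.  There is an additive level-constant character `χ : Gal(PadicAlgCl l / K) → ZMod p`
such that the cup cocycle `(g, h) ↦ (g α / α) ^ χ h` is not the coboundary of any level-constant
`(PadicAlgCl l)ˣ`-valued 1-cochain (a fortiori of any `μ_p`-valued one): the Hilbert pairing is
nondegenerate. -/
theorem LB2_padic (l p : ℕ) [Fact l.Prime] [Fact p.Prime]
    (K : IntermediateField ℚ_[l] (PadicAlgCl l)) [FiniteDimensional ℚ_[l] K] (ζ : K)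
    (hζ : IsPrimitiveRoot ζ p) (a : K) (ha : ∀ c : K, c ^ p ≠ a) (α : PadicAlgCl l)
    (hα : α ^ p = algebraMap K (PadicAlgCl l) a) :
    ∃ χ : (PadicAlgCl l ≃ₐ[K] PadicAlgCl l) → ZMod p, (∀ g h, χ (g * h) = χ g + χ h) ∧
      (∃ E : IntermediateField K (PadicAlgCl l), FiniteDimensional K E ∧
        ∀ g s, s ∈ E.fixingSubgroup → χ (g * s) = χ g) ∧
      ¬ ∃ f : (PadicAlgCl l ≃ₐ[K] PadicAlgCl l) → (PadicAlgCl l)ˣ,
        (∃ E : IntermediateField K (PadicAlgCl l), FiniteDimensional K E ∧
          ∀ g s, s ∈ E.fixingSubgroup → f (g * s) = f g) ∧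
        ∀ g h, ((g • f h / f (g * h) * f g : (PadicAlgCl l)ˣ) : PadicAlgCl l)
          = (g α / α) ^ (χ h).val :=
  exists_char_cup_not_coboundary_padic l p K ζ hζ a ha α hα
    (exists_not_norm_padic l p K ζ hζ a ha α hα)

end Padic

end Fermat.Agent.S55.helper814
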