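import Mathlib
import Fermat.Agent.S55.helper9554_LocalSpec
import Fermat.Agent.S55.helper814_LB2Final

/-!
# S55 local arithmetic core: the closed statements of `helper9554_LocalSpec` proved (helper814)

* `stmt_LocalNormIdx`      : `helper9554.Stmt_LocalNormIdx l p`     (degree-`p` norm index)
* `stmt_LocalNormNotOnto`  : `helper9554.Stmt_LocalNormNotOnto l p`
* `stmt_LocalLB2α`         : `helper9554.Stmt_LocalLB2α l p`        ((LB2), Kummer form)
* `stmt_LocalLB2`          : `helper9554.Stmt_LocalLB2 l p`         ((LB2), cocycle form)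
* `stmt_LocalLB5`          : `helper9554.Stmt_LocalLB5 l p`         (a norm which is not a `p`-th power)

all for primes `l`, `p` (including `l = p` and `p = 2`), unconditionally.
-/

set_option autoImplicit false

namespace Fermat.Agent.S55.helper814

open IntermediateField groupCohomology
open Fermat.Agent.S55.helper9554

/-- **NORMIDX, degree `p`, index form**, for every finite `K/ℚ_l` inside `PadicAlgCl l`. -/
theorem stmt_LocalNormIdx (l p : ℕ) [Fact l.Prime] [Fact p.Prime] : Stmt_LocalNormIdx l p := by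
  intro K hK L hL hrank
  have hp := (Fact.out : p.Prime)
  haveI := hK
  haveI := hL
  haveI : FiniteDimensional K L :=
    Module.finite_of_finrank_pos (by rw [hrank]; exact hp.pos)
  haveI : FiniteDimensional ℚ_[l] L := Module.Finite.trans K L
  have hKi := helper8235.index_range_pow_units_padic l p K
  have hLi := helper8235.index_range_pow_units_padic l p L
  have hfin : Module.finrank ℚ_[l] L = Module.finrank ℚ_[l] K * p := by
    rw [← hrank, Module.finrank_mul_finrank]
  refine helper913.norm_index_of_powIndex hp hrank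
    (if l = p then p ^ Module.finrank ℚ_[l] K else 1) ?_ hKi ?_
  · split_ifs
    · exact pow_ne_zero _ hp.ne_zero
    · exact one_ne_zero
  · rw [hLi, hfin]
    split_ifs
    · rw [pow_mul]
    · rw [one_pow]

/-- **NORMIDX, degree `p`, weakest form**. -/
theorem stmt_LocalNormNotOnto (l p : ℕ) [Fact l.Prime] [Fact p.Prime] :
    Stmt_LocalNormNotOnto l p := by
  intro K hK L hL hrank
  have hp := (Fact.out : p.Prime)
  haveI : FiniteDimensional K L :=
    Module.finite_of_finrank_pos (by rw [hrank]; exact hp.pos)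
  have hidx := stmt_LocalNormIdx l p K hK L hL hrank
  have hne : (Units.map (Algebra.norm K : L →* K)).range ≠ ⊤ := by
    intro htop
    rw [htop, Subgroup.index_top] at hidx
    exact hp.one_lt.ne hidx
  obtain ⟨b, hb⟩ : ∃ b : Kˣ, b ∉ (Units.map (Algebra.norm K : L →* K)).range := by
    by_contra hcon
    push Not at hcon
    exact hne (Subgroup.eq_top_iff' _ |>.2 hcon)
  refine ⟨b, b.ne_zero, fun z hz => hb ?_⟩
  have hz0 : z ≠ 0 := by
    rintro rfl
    rw [Algebra.norm_zero] at hz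
    exact b.ne_zero hz.symm
  exact ⟨Units.mk0 z hz0, Units.ext hz⟩

/-- **(LB2), Kummer form**, for every finite `K/ℚ_l` inside `PadicAlgCl l` containing `μ_p`. -/
theorem stmt_LocalLB2α (l p : ℕ) [Fact l.Prime] [Fact p.Prime] : Stmt_LocalLB2α l p := by
  rintro K hK ⟨ζ, hζ⟩ a α hα hna
  haveI := hK
  obtain ⟨χ, hχadd, hχlev, hχ⟩ := LB2_padic l p K ζ hζ a
    (fun c hc => hna ⟨c, hc⟩) (α : PadicAlgCl l) hα
  refine ⟨χ, ⟨hχadd, hχlev⟩, ?_⟩
  rintro ⟨x, hxlev, -, hx⟩
  refine hχ ⟨x, hxlev, fun g h => ?_⟩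
  have h1 := congrFun hx (g, h)
  simp only [cupMu, dOne] at h1
  rw [← h1]
  simp only [Units.val_pow_eq_pow_val, Units.val_div_eq_div_val, AlgEquiv.smul_units_def,
    Units.coe_map, MonoidHom.coe_coe]

/-- **(LB2), cocycle form**, for every finite `K/ℚ_l` inside `PadicAlgCl l` containing `μ_p`:
every nonzero class of `H¹(G_K, μ_p)` has a nonzero cup product with a level character. -/
theorem stmt_LocalLB2 (l p : ℕ) [Fact l.Prime] [Fact p.Prime] : Stmt_LocalLB2 l p := by
  intro K hK hζ κ hκ hκn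
  have hp := (Fact.out : p.Prime)
  haveI := hK
  -- Hilbert 90 in level form
  obtain ⟨E, hE, hEκ⟩ := hκ.level
  haveI := hE
  haveI : E.fixingSubgroup.FiniteIndex := finiteIndex_fixingSubgroup E
  obtain ⟨γ, hγ0, hγ⟩ := exists_smul_eq_of_cocycle (G := PadicAlgCl l ≃ₐ[K] PadicAlgCl l)
    (Ω := PadicAlgCl l) E.fixingSubgroup (closed_fixingSubgroup E)
    (fun g => (κ g : PadicAlgCl l)) (fun g => (κ g).ne_zero)
    (fun g h => by
      have h1 := congrArg Units.val (hκ.cocycle g h)
      simp only [Units.val_mul, AlgEquiv.smul_units_def, Units.coe_map, MonoidHom.coe_coe] at h1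
      rw [h1, mul_comm]
      rfl)
    (fun g s hs => by rw [hEκ g s hs])
  set α : (PadicAlgCl l)ˣ := (Units.mk0 γ hγ0)⁻¹ with hαdef
  have hκα : κ = fun g => g • α / α := by
    funext g
    apply Units.ext
    have h1 : (κ g : PadicAlgCl l) * g γ = γ := hγ g
    have hgγ : g γ ≠ 0 := by
      rw [Ne, map_eq_zero_iff g g.injective]
      exact hγ0
    simp only [hαdef, Units.val_div_eq_div_val, AlgEquiv.smul_units_def, Units.coe_map,
      MonoidHom.coe_coe, Units.val_inv_eq_inv_val, Units.val_mk0, map_inv₀]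
    field_simp
    exact h1
  -- `α ^ p ∈ K`
  have hfix : ∀ g : PadicAlgCl l ≃ₐ[K] PadicAlgCl l,
      g ((α : PadicAlgCl l) ^ p) = (α : PadicAlgCl l) ^ p := by
    intro g
    have h1 : (κ g : PadicAlgCl l) ^ p = 1 := by
      rw [← Units.val_pow_eq_pow_val, hκ.pow_eq_one, Units.val_one]
    have h2 : (κ g : PadicAlgCl l) = g (α : PadicAlgCl l) / (α : PadicAlgCl l) := by
      rw [hκα]
      simp only [Units.val_div_eq_div_val, AlgEquiv.smul_units_def, Units.coe_map,
        MonoidHom.coe_coe]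
    rw [h2, div_pow, div_eq_one_iff_eq (pow_ne_zero _ α.ne_zero)] at h1
    rw [map_pow, h1]
  have hmem : (α : PadicAlgCl l) ^ p ∈ (⊥ : IntermediateField K (PadicAlgCl l)) := by
    rw [← InfiniteGalois.fixedField_fixingSubgroup (⊥ : IntermediateField K (PadicAlgCl l)),
      IntermediateField.mem_fixedField_iff]
    intro g _
    exact hfix g
  obtain ⟨a, ha⟩ := IntermediateField.mem_bot.1 hmem
  have hna : ¬ ∃ b : K, b ^ p = a := by
    rintro ⟨b, hb⟩
    apply hκn
    have hb0 : algebraMap K (PadicAlgCl l) b ≠ 0 := by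
      intro h0
      have h1 : (α : PadicAlgCl l) ^ p = 0 := by
        rw [← ha, ← hb, map_pow, h0, zero_pow hp.ne_zero]
      exact pow_ne_zero _ α.ne_zero h1
    refine ⟨α / Units.mk0 _ hb0, ?_, fun g => ?_⟩
    · apply Units.ext
      rw [Units.val_pow_eq_pow_val, Units.val_div_eq_div_val, Units.val_mk0, div_pow, ← ha,
        ← map_pow, hb, Units.val_one, div_self]
      rw [ha]
      exact pow_ne_zero _ α.ne_zero
    · rw [hκα]
      apply Units.ext
      simp only [Units.val_div_eq_div_val, AlgEquiv.smul_units_def, Units.coe_map,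
        MonoidHom.coe_coe, Units.val_mk0, map_div₀, AlgEquiv.commutes]
      have := α.ne_zero
      field_simp
  obtain ⟨χ, hχ, hχn⟩ := stmt_LocalLB2α l p K hK hζ a α ha.symm hna
  exact ⟨χ, hχ, by rw [hκα]; exact hχn⟩

/-- **(LB5)**: for `K ⊇ μ_p` finite over `ℚ_l` and `L/K` Galois of degree `p`, some norm from
`Lˣ` is not a `p`-th power in `K`. -/
theorem stmt_LocalLB5 (l p : ℕ) [Fact l.Prime] [Fact p.Prime] : Stmt_LocalLB5 l p := by
  rintro K hK ⟨ζ, hζ⟩ L hL hrank
  have hp := (Fact.out : p.Prime)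
  haveI := hK
  haveI : NeZero p := ⟨hp.ne_zero⟩
  have hidx := stmt_LocalNormIdx l p K hK L hL hrank
  have hKi := helper8235.index_range_pow_units_padic l p K
  haveI : FiniteDimensional K L :=
    Module.finite_of_finrank_pos (by rw [hrank]; exact hp.pos)
  have hμ : Nat.card (rootsOfUnity p K) = p := hζ.card_rootsOfUnity
  by_contra hcon
  push Not at hcon
  -- every norm is a `p`-th power: the norm group is contained in the group of `p`-th powers
  have hle : (Units.map (Algebra.norm K : L →* K)).range ≤ (powMonoidHom p : Kˣ →* Kˣ).range := by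
    rintro _ ⟨β, rfl⟩
    obtain ⟨c, hc⟩ := hcon (β : L) β.ne_zero
    have hc0 : c ≠ 0 := by
      rintro rfl
      rw [zero_pow hp.ne_zero] at hc
      have h1 : Algebra.norm K (β : L) ≠ 0 := by
        rw [Ne, Algebra.norm_eq_zero_iff]
        exact β.ne_zero
      exact h1 hc.symm
    refine ⟨Units.mk0 c hc0, Units.ext ?_⟩
    simp only [powMonoidHom_apply, Units.val_pow_eq_pow_val, Units.val_mk0, Units.coe_map]
    exact hc
  have hdvd := Subgroup.index_dvd_of_le hle
  rw [hidx, hKi, hμ] at hdvd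
  -- `p * p * e ∣ p` is impossible
  have he : 0 < (if l = p then p ^ Module.finrank ℚ_[l] K else 1) := by
    split_ifs
    · exact pow_pos hp.pos _
    · exact one_pos
  have h1 : p * p * (if l = p then p ^ Module.finrank ℚ_[l] K else 1) ≤ p :=
    Nat.le_of_dvd hp.pos hdvd
  have h2 : p * p ≤ p * p * (if l = p then p ^ Module.finrank ℚ_[l] K else 1) :=
    Nat.le_mul_of_pos_right _ he
  have h3 : p * 2 ≤ p * p := Nat.mul_le_mul_left p hp.two_le
  have h4 := hp.pos
  omega

/-! ### The exact norm index on the Kummer carrier `K⟮α⟯` (export for the symbol-line route) -/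

/-- **Exact local norm index for a Kummer extension**: `K` finite over `ℚ_l` inside
`PadicAlgCl l` with a primitive `p`-th root of unity, `a ∈ K` not a `p`-th power, `α ^ p = a`:
the norm group of `K⟮α⟯ / K` has index exactly `p` in `Kˣ`. -/
theorem norm_index_adjoin_root_padic (l p : ℕ) [Fact l.Prime] [Fact p.Prime]
    (K : IntermediateField ℚ_[l] (PadicAlgCl l)) [FiniteDimensional ℚ_[l] K] (ζ : K)
    (hζ : IsPrimitiveRoot ζ p) (a : K) (ha : ∀ c : K, c ^ p ≠ a) (α : PadicAlgCl l)
    (hα : α ^ p = algebraMap K (PadicAlgCl l) a) :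
    (Units.map (Algebra.norm K : K⟮α⟯ →* K)).range.index = p := by
  have hp := (Fact.out : p.Prime)
  have ha0 : a ≠ 0 := by
    rintro rfl
    exact ha 0 (zero_pow hp.ne_zero)
  have hα0 : α ≠ 0 := by
    rintro rfl
    rw [zero_pow hp.ne_zero] at hα
    exact ha0 ((algebraMap K (PadicAlgCl l)).injective (by rw [← hα, map_zero]))
  exact stmt_LocalNormIdx l p K inferInstance K⟮α⟯ (isGalois_adjoin_root hζ hα hα0)
    (finrank_adjoin_root hp ha hα)

/-- A subgroup of prime index `p` in a commutative group: any element outside it generates the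
quotient, so every element becomes a member after multiplication by a power `< p` of it. -/
theorem exists_mul_pow_mem_of_index_eq_prime {A : Type*} [CommGroup A] (N : Subgroup A) {p : ℕ}
    [Fact p.Prime] (hN : N.index = p) {b₀ : A} (hb₀ : b₀ ∉ N) (b : A) :
    ∃ n < p, b * b₀ ^ n ∈ N := by
  have hp := (Fact.out : p.Prime)
  have hcard : Nat.card (A ⧸ N) = p := by rw [← Subgroup.index_eq_card]; exact hN
  have hx : (QuotientGroup.mk b₀ : A ⧸ N) ≠ 1 := by
    rw [Ne, QuotientGroup.eq_one_iff]; exact hb₀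
  have htop : Subgroup.zpowers (QuotientGroup.mk b₀ : A ⧸ N) = ⊤ :=
    zpowers_eq_top_of_prime_card hcard hx
  have hmem : (QuotientGroup.mk b : A ⧸ N)⁻¹ ∈ Subgroup.zpowers (QuotientGroup.mk b₀ : A ⧸ N) := by
    rw [htop]; exact Subgroup.mem_top _
  obtain ⟨k, hk⟩ := Subgroup.mem_zpowers_iff.1 hmem
  have hord : orderOf (QuotientGroup.mk b₀ : A ⧸ N) = p := by
    have h1 := orderOf_dvd_natCard (QuotientGroup.mk b₀ : A ⧸ N)
    rw [hcard] at h1
    rcases (Nat.dvd_prime hp).1 h1 with h | h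
    · exact absurd (orderOf_eq_one_iff.1 h) hx
    · exact h
  have hpz : (0 : ℤ) < p := by exact_mod_cast hp.pos
  refine ⟨(k % p).toNat, ?_, ?_⟩
  · have h1 := Int.emod_lt_of_pos k hpz
    have h2 := Int.emod_nonneg k hpz.ne'
    omega
  · rw [← QuotientGroup.eq_one_iff, QuotientGroup.mk_mul, QuotientGroup.mk_pow, ← zpow_natCast,
      Int.toNat_of_nonneg (Int.emod_nonneg k hpz.ne'), ← hord, zpow_mod_orderOf, hk,
      mul_inv_cancel]

/-- The norm index in "generator" form: there is a non-norm `b₀`, and every nonzero `b ∈ K`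
becomes a norm from `K⟮α⟯` after multiplication by a power `b₀ ^ n`, `n < p`. -/
theorem exists_norm_generator_padic (l p : ℕ) [Fact l.Prime] [Fact p.Prime]
    (K : IntermediateField ℚ_[l] (PadicAlgCl l)) [FiniteDimensional ℚ_[l] K] (ζ : K)
    (hζ : IsPrimitiveRoot ζ p) (a : K) (ha : ∀ c : K, c ^ p ≠ a) (α : PadicAlgCl l)
    (hα : α ^ p = algebraMap K (PadicAlgCl l) a) :
    ∃ b₀ : K, b₀ ≠ 0 ∧ (∀ z : K⟮α⟯, Algebra.norm K z ≠ b₀) ∧
      ∀ b : K, b ≠ 0 → ∃ n < p, ∃ z : K⟮α⟯, Algebra.norm K z = b * b₀ ^ n := by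
  have hidx := norm_index_adjoin_root_padic l p K ζ hζ a ha α hα
  obtain ⟨b₀, hb₀, hb₀n⟩ := exists_not_norm_padic l p K ζ hζ a ha α hα
  refine ⟨b₀, hb₀, hb₀n, fun b hb => ?_⟩
  have hb₀' : Units.mk0 b₀ hb₀ ∉ (Units.map (Algebra.norm K : K⟮α⟯ →* K)).range := by
    rintro ⟨z, hz⟩
    exact hb₀n (z : K⟮α⟯) (by simpa using congrArg Units.val hz)
  obtain ⟨n, hn, ⟨z, hz⟩⟩ := exists_mul_pow_mem_of_index_eq_prime _ hidx hb₀' (Units.mk0 b hb)
  exact ⟨n, hn, (z : K⟮α⟯), by simpa using congrArg Units.val hz⟩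

/-! ### `(LB1, ≥)` over a base containing `μ_p` (part (B-2) of the `LB1_ne` leaf) -/

/-- A finite extension of `ℚ_l` has a nonzero element which is not a `p`-th power (the index of
the `p`-th powers in `Kˣ` is a multiple of `p`). -/
theorem exists_not_pow_padic (l p : ℕ) [Fact l.Prime] [Fact p.Prime]
    (K : Type*) [Field K] [Algebra ℚ_[l] K] [FiniteDimensional ℚ_[l] K] :
    ∃ a : K, a ≠ 0 ∧ ¬ ∃ b : K, b ^ p = a := by
  have hp := (Fact.out : p.Prime)
  have hKi := helper8235.index_range_pow_units_padic l p K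
  obtain ⟨a, ha⟩ : ∃ a : Kˣ, a ∉ (powMonoidHom p : Kˣ →* Kˣ).range := by
    by_contra hcon
    push Not at hcon
    have htop : (powMonoidHom p : Kˣ →* Kˣ).range = ⊤ := (Subgroup.eq_top_iff' _).2 hcon
    rw [htop, Subgroup.index_top] at hKi
    have h1 : p ∣ 1 := by
      rw [hKi, mul_assoc]
      exact dvd_mul_right _ _
    exact hp.one_lt.ne' (Nat.dvd_one.1 h1)
  refine ⟨(a : K), a.ne_zero, ?_⟩
  rintro ⟨b, hb⟩
  have hb0 : b ≠ 0 := by
    rintro rfl
    rw [zero_pow hp.ne_zero] at hb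
    exact a.ne_zero hb.symm
  exact ha ⟨Units.mk0 b hb0, Units.ext (by simpa using hb)⟩

/-- The Kummer cochain `g ↦ g α / α` of a `p`-th root `α` of an element of `K` is a level
`μ_p`-valued 1-cocycle. -/
theorem isMuCocycle₁_kummer {K Ω : Type*} [Field K] [Field Ω] [Algebra K Ω]
    [Algebra.IsAlgebraic K Ω] (p : ℕ) (a : K) (α : Ωˣ)
    (hα : (α : Ω) ^ p = algebraMap K Ω a) :
    IsMuCocycle₁ p (fun g : Ω ≃ₐ[K] Ω => g • α / α) := by
  refine ⟨fun g h => ?_, ?_, fun g => ?_⟩
  · simp only [mul_smul, smul_div']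
    rw [div_mul_div_cancel]
  · haveI : FiniteDimensional K K⟮(α : Ω)⟯ :=
      IntermediateField.adjoin.finiteDimensional (Algebra.IsIntegral.isIntegral (α : Ω))
    refine ⟨K⟮(α : Ω)⟯, inferInstance, fun g s hs => ?_⟩
    have hsα : s • α = α := by
      apply Units.ext
      have h1 : s (α : Ω) = (α : Ω) :=
        (IntermediateField.mem_fixingSubgroup_iff _ s).1 hs (α : Ω)
          (IntermediateField.mem_adjoin_simple_self K (α : Ω))
      simpa [AlgEquiv.smul_units_def] using h1
    simp only [mul_smul, hsα]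
  · apply Units.ext
    have hg : g ((α : Ω) ^ p) = (α : Ω) ^ p := by rw [hα, AlgEquiv.commutes]
    simp only [Units.val_pow_eq_pow_val, Units.val_div_eq_div_val, AlgEquiv.smul_units_def,
      Units.coe_map, MonoidHom.coe_coe, Units.val_one]
    rw [div_pow, ← map_pow, hg, div_self (pow_ne_zero _ α.ne_zero)]

/-- **`(LB1, ≥)` over a base containing `μ_p`**: for `K` finite over `ℚ_l` inside `PadicAlgCl l`
with a primitive `p`-th root of unity, `H²(G_K, μ_p) ≠ 0`.  (The class is the cup product of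
the Kummer class of a non-`p`-th power with a character from `(LB2)`.)  Covers `p = 2` with
`ζ = -1`. -/
theorem stmt_LB1_ne_of_zeta (l p : ℕ) [Fact l.Prime] [Fact p.Prime]
    (K : IntermediateField ℚ_[l] (PadicAlgCl l)) [FiniteDimensional ℚ_[l] K]
    (ζ : K) (hζ : IsPrimitiveRoot ζ p) : Stmt_LB1_ne K (PadicAlgCl l) p := by
  have hp := (Fact.out : p.Prime)
  haveI : NeZero p := ⟨hp.ne_zero⟩
  obtain ⟨a, ha0, hna⟩ := exists_not_pow_padic l p K
  obtain ⟨α, hα⟩ := IsAlgClosed.exists_pow_nat_eq (algebraMap K (PadicAlgCl l) a) hp.pos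
  have hα0 : α ≠ 0 := by
    rintro rfl
    rw [zero_pow hp.ne_zero] at hα
    exact ha0 ((algebraMap K (PadicAlgCl l)).injective (by rw [← hα, map_zero]))
  obtain ⟨χ, hχ, hχn⟩ := stmt_LocalLB2α l p K inferInstance ⟨ζ, hζ⟩ a (Units.mk0 α hα0) hα hna
  exact ⟨_, isMuCocycle₂_cupMu (isMuCocycle₁_kummer p a (Units.mk0 α hα0) hα) hχ, hχn⟩

/-- `(LB1, ≥)` for `p = 2` and every finite `K/ℚ_l` inside `PadicAlgCl l` (`ζ = -1`). -/
theorem stmt_LB1_ne_two (l : ℕ) [Fact l.Prime]
    (K : IntermediateField ℚ_[l] (PadicAlgCl l)) [FiniteDimensional ℚ_[l] K] :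
    Stmt_LB1_ne K (PadicAlgCl l) 2 := by
  haveI : Fact (Nat.Prime 2) := ⟨Nat.prime_two⟩
  refine stmt_LB1_ne_of_zeta l 2 K (-1) ?_
  have h := IsPrimitiveRoot.neg_one (R := K) 0 (by decide)
  simpa using h

end Fermat.Agent.S55.helper814
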