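/-
S55 (Poitou–Tate) — leaf LS-ADAPT, `(LB2 r U)` half (helper357).

The non-degeneracy input `(LB2 r U)` of the local duality step LS-L2 on the FROZEN carrier:
for an open subgroup `U` of the frozen local Galois group `Γ_l = Gal(PadicAlgCl l / ℚ_l)` on
which the cyclotomic character is trivial (`μ_p ⊆` the fixed field of `U`), with structure map
`r_U = (localGaloisToGlobal l).comp U.subtype`, every nonzero level-constant additive character
`a : U → ZMod p` has a cup product `(g, h) ↦ a g * b h` with some level-constant additive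
character `b` which is NOT a level coboundary, i.e. is nonzero in
`continuousH2 r_U (Rep.trivial (ZMod p) U (ZMod p))`.

Pure glue, no new mathematics:
* `helper895.exists_intermediateField_fixingSubgroup_eq` : `U = K.fixingSubgroup`, `K/ℚ_l` finite;
* `helper512.localDatumSubgroup` / `MuDatum.char_eq_one_iff` : `ζ_p ∈ K`;
* `helper304.isLevelConstant₁_rK_iff` : frozen level-constancy on `G_K` = Krull level-constancy;
* `helper512.mu_mem_levelCoboundaries₂_iff` : frozen level coboundaries of the trivial module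
  = coboundaries of `μ_p`-valued level 1-cochains;
* `helper814.stmt_LocalLB2` : the arithmetic statement `(LB2)` for `K ⊇ μ_p` finite over `ℚ_l`.
-/
import Mathlib
import Fermat.Prelude.Def_GroupCohomology_ContinuousUnramified
import Fermat.Agent.S55.helper512_MuP
import Fermat.Agent.S55.helper9554_LocalSpec
import Fermat.Agent.S55.helper814_LocalSpecLB2
import Fermat.Agent.S55.helper304_LocalH1Frozen
import Fermat.Agent.S55.helper895_H1LocFinal

set_option autoImplicit false

open groupCohomology IntermediateField ExtCitation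

namespace Fermat.Agent.S55.helper357

noncomputable section

section Cup

variable {k : Type} [CommRing k] {G : Type} [Group G]
  (r : G →* (AlgebraicClosure ℚ ≃ₐ[ℚ] AlgebraicClosure ℚ))

/-- The cup product `(g, h) ↦ a g * b h` of two level-constant additive characters is a frozen
level 2-cocycle of the trivial module. -/
theorem cup_mem_levelCocycles₂ {a b : G → k} (ha : ∀ g h, a (g * h) = a g + a h)
    (hb : ∀ g h, b (g * h) = b g + b h) (hla : IsLevelConstant₁ r a)
    (hlb : IsLevelConstant₁ r b) :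
    (fun x : G × G => a x.1 * b x.2) ∈ levelCocycles₂ r (Rep.trivial k G k) := by
  refine ⟨?_, ?_⟩
  · refine (mem_cocycles₂_iff (A := Rep.trivial k G k) _).2 fun g h j => ?_
    show a (g * h) * b j + a g * b h = a h * b j + a g * b (h * j)
    rw [ha, hb]
    ring
  · obtain ⟨F, hF, h⟩ := hla
    obtain ⟨F', hF', h'⟩ := hlb
    have := hF
    have := hF'
    refine ⟨F ⊔ F', inferInstance, fun g g' s s' hs hs' => ?_⟩
    show a (g * s) * b (g' * s') = a g * b g'
    rw [h g s (IntermediateField.fixingSubgroup_antitone le_sup_left hs),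
      h' g' s' (IntermediateField.fixingSubgroup_antitone le_sup_right hs')]

/-- From the "not a level coboundary" form of `(LB2)` to the "`inv`" form of the local duality
step: if `inv` is injective on `continuousH2 r (trivial)` and `inv (a ∪ b) = 0` for every
level-constant additive character `b`, then `a = 0`. -/
theorem eq_zero_of_inv_cup_eq_zero {a : G → k} (ha : ∀ g h, a (g * h) = a g + a h)
    (hla : IsLevelConstant₁ r a)
    (hLB2 : a ≠ 0 → ∃ b : G → k, (∀ g h, b (g * h) = b g + b h) ∧ IsLevelConstant₁ r b ∧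
      (fun x : G × G => a x.1 * b x.2) ∉ levelCoboundaries₂ r (Rep.trivial k G k))
    (inv : continuousH2 r (Rep.trivial k G k) →ₗ[k] k) (hinv : Function.Injective inv)
    (hvan : ∀ (b : G → k) (hb : ∀ g h, b (g * h) = b g + b h) (hlb : IsLevelConstant₁ r b),
      inv (continuousH2π r (Rep.trivial k G k)
        ⟨_, cup_mem_levelCocycles₂ r ha hb hla hlb⟩) = 0) :
    a = 0 := by
  by_contra h0
  obtain ⟨b, hb, hlb, hn⟩ := hLB2 h0
  apply hn
  have h1 := hvan b hb hlb
  rw [← map_zero inv] at h1
  exact (continuousH2π_eq_zero_iff r _ _).1 (hinv h1)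

end Cup

section KForm

variable (l p : ℕ) [Fact l.Prime] [Fact p.Prime]
  (K : IntermediateField ℚ_[l] (PadicAlgCl l))

/-- If the cyclotomic character is trivial on `G_K = K.fixingSubgroup`, the chosen primitive
`p`-th root of unity `helper512.zetaLocal p l` of `PadicAlgCl l` lies in `K`. -/
theorem zetaLocal_mem
    (hχ : ∀ u ∈ K.fixingSubgroup, cycloChar p (localGaloisToGlobal l u) = 1) :
    ((helper512.zetaLocal p l : (PadicAlgCl l)ˣ) : PadicAlgCl l) ∈ K := by
  rw [← InfiniteGalois.fixedField_fixingSubgroup K, IntermediateField.mem_fixedField_iff]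
  intro u hu
  have h1 : u • (helper512.localDatum p l).ζ = (helper512.localDatum p l).ζ :=
    ((helper512.localDatum p l).char_eq_one_iff u).1 (hχ u hu)
  have h2 := congrArg (fun v : (PadicAlgCl l)ˣ => (v : PadicAlgCl l)) h1
  exact h2

/-- Elements of `Gal(PadicAlgCl l / K)` fix `ζ_p` when it lies in `K`. -/
theorem smul_zetaLocal_of_mem
    (hmem : ((helper512.zetaLocal p l : (PadicAlgCl l)ˣ) : PadicAlgCl l) ∈ K)
    (g : PadicAlgCl l ≃ₐ[K] PadicAlgCl l) :
    g • helper512.zetaLocal p l = helper512.zetaLocal p l := by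
  apply Units.ext
  exact g.commutes ⟨_, hmem⟩

/-- Elements of `Gal(PadicAlgCl l / K)` fix every `p`-torsion unit when `ζ_p ∈ K`. -/
theorem smul_eq_self_of_pow_eq_one
    (hmem : ((helper512.zetaLocal p l : (PadicAlgCl l)ˣ) : PadicAlgCl l) ∈ K)
    (g : PadicAlgCl l ≃ₐ[K] PadicAlgCl l) {z : (PadicAlgCl l)ˣ} (hz : z ^ p = 1) :
    g • z = z := by
  obtain ⟨c, rfl⟩ := (helper512.localDatum p l).gen z hz
  show g • (helper512.zetaLocal p l ^ c.val) = helper512.zetaLocal p l ^ c.val
  rw [smul_pow', smul_zetaLocal_of_mem l p K hmem]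

/-- The two actions on units agree under `fixingSubgroupEquiv`. -/
theorem fixingSubgroupEquiv_symm_smul (g : PadicAlgCl l ≃ₐ[K] PadicAlgCl l)
    (y : (PadicAlgCl l)ˣ) : ((fixingSubgroupEquiv K).symm g) • y = g • y :=
  Units.ext rfl

/-- **`(LB2)` on the frozen carrier, `G_K` form.**  For `K/ℚ_l` finite with the cyclotomic
character trivial on `G_K = K.fixingSubgroup`: every nonzero level-constant additive character
`a : G_K → ZMod p` has a cup product with a level-constant additive character `b` which is not a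
frozen level coboundary of the trivial module `ZMod p`. -/
theorem lb2_fixingSubgroup [FiniteDimensional ℚ_[l] K]
    (hχ : ∀ u ∈ K.fixingSubgroup, cycloChar p (localGaloisToGlobal l u) = 1)
    (a : ↥K.fixingSubgroup → ZMod p) (ha : ∀ g h, a (g * h) = a g + a h)
    (hl : IsLevelConstant₁ ((localGaloisToGlobal l).comp K.fixingSubgroup.subtype) a)
    (h0 : a ≠ 0) :
    ∃ b : ↥K.fixingSubgroup → ZMod p, (∀ g h, b (g * h) = b g + b h) ∧
      IsLevelConstant₁ ((localGaloisToGlobal l).comp K.fixingSubgroup.subtype) b ∧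
      (fun x : ↥K.fixingSubgroup × ↥K.fixingSubgroup => a x.1 * b x.2) ∉
        levelCoboundaries₂ ((localGaloisToGlobal l).comp K.fixingSubgroup.subtype)
          (Rep.trivial (ZMod p) ↥K.fixingSubgroup (ZMod p)) := by
  have hp : p.Prime := Fact.out
  have : NeZero p := ⟨hp.ne_zero⟩
  have hζp : helper512.zetaLocal p l ^ p = 1 := (helper512.localDatum p l).pow_eq_one
  have hζ1 : helper512.zetaLocal p l ≠ 1 := (helper512.localDatum p l).ne_one
  have hmem := zetaLocal_mem l p K hχ
  have hprimK : ∃ ζ' : K, IsPrimitiveRoot ζ' p :=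
    ⟨⟨_, hmem⟩, IsPrimitiveRoot.coe_submonoidClass_iff.1
      (IsPrimitiveRoot.coe_units_iff.2 (helper512.isPrimitiveRoot_zetaLocal p l))⟩
  have hLB2 : helper9554.Stmt_LB2 K (PadicAlgCl l) p :=
    helper814.stmt_LocalLB2 l p K inferInstance hprimK
  -- the `μ_p`-valued class of `a`
  have hκ : helper9554.IsMuCocycle₁ p (fun g : PadicAlgCl l ≃ₐ[K] PadicAlgCl l =>
      helper512.expZ (helper512.zetaLocal p l) (a ((fixingSubgroupEquiv K).symm g))) := by
    refine ⟨fun g h => ?_, ?_, fun g => helper512.expZ_pow_eq_one hζp _⟩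
    · show helper512.expZ (helper512.zetaLocal p l) (a ((fixingSubgroupEquiv K).symm (g * h)))
        = g • helper512.expZ (helper512.zetaLocal p l) (a ((fixingSubgroupEquiv K).symm h))
          * helper512.expZ (helper512.zetaLocal p l) (a ((fixingSubgroupEquiv K).symm g))
      rw [smul_eq_self_of_pow_eq_one l p K hmem g (helper512.expZ_pow_eq_one hζp _), map_mul, ha,
        helper512.expZ_add hζp, mul_comm]
    · exact ((helper304.isLevelConstant₁_rK_iff l K a).1 hl).comp
        (helper512.expZ (helper512.zetaLocal p l))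
  have hκn : ¬ helper9554.IsMuCob₁ p (fun g : PadicAlgCl l ≃ₐ[K] PadicAlgCl l =>
      helper512.expZ (helper512.zetaLocal p l) (a ((fixingSubgroupEquiv K).symm g))) := by
    rintro ⟨z, hz, hzκ⟩
    apply h0
    funext u
    have h1 : helper512.expZ (helper512.zetaLocal p l)
        (a ((fixingSubgroupEquiv K).symm (fixingSubgroupEquiv K u)))
        = fixingSubgroupEquiv K u • z / z := hzκ (fixingSubgroupEquiv K u)
    rw [smul_eq_self_of_pow_eq_one l p K hmem _ hz, div_self', MulEquiv.symm_apply_apply] at h1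
    have h2 : helper512.expZ (helper512.zetaLocal p l) (a u)
        = helper512.expZ (helper512.zetaLocal p l) (0 : ZMod p) := by
      rw [h1, helper512.expZ_apply, ZMod.val_zero, pow_zero]
    exact helper512.expZ_injective hζp hζ1 h2
  obtain ⟨χ, hχc, hχn⟩ := hLB2 _ hκ hκn
  refine ⟨fun u => χ (fixingSubgroupEquiv K u), fun g h => ?_, ?_, ?_⟩
  · show χ (fixingSubgroupEquiv K (g * h))
      = χ (fixingSubgroupEquiv K g) + χ (fixingSubgroupEquiv K h)
    rw [map_mul, hχc.map_mul]
  · refine (helper304.isLevelConstant₁_rK_iff l K _).2 ?_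
    have hcomp : (fun u => χ (fixingSubgroupEquiv K u)) ∘ (fixingSubgroupEquiv K).symm = χ := by
      funext g
      simp
    rw [hcomp]
    exact hχc.level
  · intro hcob
    apply hχn
    obtain ⟨y, hyp, hyl, hy⟩ := (helper512.mu_mem_levelCoboundaries₂_iff _
      (helper512.localDatumSubgroup p l K.fixingSubgroup)
      (helper512.CharModel.trivialOfEq (fun u => hχ u u.2)) _).1 hcob
    refine ⟨fun g => y ((fixingSubgroupEquiv K).symm g),
      (helper304.isLevelConstant₁_rK_iff l K y).1 hyl, fun g => hyp _, ?_⟩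
    funext ⟨g, h⟩
    have h3 := hy ((fixingSubgroupEquiv K).symm g) ((fixingSubgroupEquiv K).symm h)
    rw [fixingSubgroupEquiv_symm_smul, ← map_mul] at h3
    show helper512.expZ (helper512.zetaLocal p l) (a ((fixingSubgroupEquiv K).symm g)) ^ (χ h).val
      = g • y ((fixingSubgroupEquiv K).symm h) / y ((fixingSubgroupEquiv K).symm (g * h))
        * y ((fixingSubgroupEquiv K).symm g)
    rw [h3, ← helper512.expZ_mul hζp]
    show helper512.expZ (helper512.zetaLocal p l) (χ h * a ((fixingSubgroupEquiv K).symm g))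
      = helper512.expZ (helper512.zetaLocal p l)
          (a ((fixingSubgroupEquiv K).symm g)
            * χ (fixingSubgroupEquiv K ((fixingSubgroupEquiv K).symm h)))
    rw [MulEquiv.apply_symm_apply, mul_comm]

end KForm

section UForm

variable (l p : ℕ) [Fact l.Prime] [Fact p.Prime]

/-- **`(LB2 r U)` on the frozen carrier, Krull-open form.**  `U` an open subgroup of
`Γ_l = Gal(PadicAlgCl l / ℚ_l)` (it contains the fixing subgroup of a finite `E/ℚ_l`) on which
the cyclotomic character is trivial. -/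
theorem lb2_of_open (U : Subgroup (PadicAlgCl l ≃ₐ[ℚ_[l]] PadicAlgCl l))
    (hU : ∃ E : IntermediateField ℚ_[l] (PadicAlgCl l),
      FiniteDimensional ℚ_[l] E ∧ E.fixingSubgroup ≤ U)
    (hχ : ∀ u ∈ U, cycloChar p (localGaloisToGlobal l u) = 1)
    (a : ↥U → ZMod p) (ha : ∀ g h, a (g * h) = a g + a h)
    (hl : IsLevelConstant₁ ((localGaloisToGlobal l).comp U.subtype) a) (h0 : a ≠ 0) :
    ∃ b : ↥U → ZMod p, (∀ g h, b (g * h) = b g + b h) ∧
      IsLevelConstant₁ ((localGaloisToGlobal l).comp U.subtype) b ∧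
      (fun x : ↥U × ↥U => a x.1 * b x.2) ∉
        levelCoboundaries₂ ((localGaloisToGlobal l).comp U.subtype)
          (Rep.trivial (ZMod p) ↥U (ZMod p)) := by
  obtain ⟨K, hK, rfl, -⟩ := helper895.exists_intermediateField_fixingSubgroup_eq U hU
  exact lb2_fixingSubgroup l p K hχ a ha hl h0

/-- **`(LB2 r U)` on the frozen carrier** (the shape of team_s55_chat #290/#364): `U` contains
the preimage under `r = localGaloisToGlobal l` of the fixing subgroup of a number field, and the
cyclotomic character is trivial on `U`; `r_U = r.comp U.subtype`. -/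
theorem lb2_frozen (U : Subgroup (PadicAlgCl l ≃ₐ[ℚ_[l]] PadicAlgCl l))
    (hU : ∃ F : IntermediateField ℚ (AlgebraicClosure ℚ), FiniteDimensional ℚ F ∧
      ∀ τ : PadicAlgCl l ≃ₐ[ℚ_[l]] PadicAlgCl l,
        localGaloisToGlobal l τ ∈ F.fixingSubgroup → τ ∈ U)
    (hχ : ∀ u ∈ U, cycloChar p (localGaloisToGlobal l u) = 1)
    (a : ↥U → ZMod p) (ha : ∀ g h, a (g * h) = a g + a h)
    (hl : IsLevelConstant₁ ((localGaloisToGlobal l).comp U.subtype) a) (h0 : a ≠ 0) :
    ∃ b : ↥U → ZMod p, (∀ g h, b (g * h) = b g + b h) ∧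
      IsLevelConstant₁ ((localGaloisToGlobal l).comp U.subtype) b ∧
      (fun x : ↥U × ↥U => a x.1 * b x.2) ∉
        levelCoboundaries₂ ((localGaloisToGlobal l).comp U.subtype)
          (Rep.trivial (ZMod p) ↥U (ZMod p)) := by
  obtain ⟨F, hF, hFU⟩ := hU
  have := hF
  obtain ⟨E, hE, hEF⟩ := helper698.exists_localField_fixingSubgroup_le l F
  exact lb2_of_open l p U ⟨E, hE, fun τ hτ => hFU τ (hEF τ hτ)⟩ hχ a ha hl h0

/-- `(LB2 r U)` with openness in `comap` form (`helper5550.IsLevelOpen` shape; the same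
convention as `helper895.finrank_continuousH1_trivial_of_levelOpen`). -/
theorem lb2_of_levelOpen (U : Subgroup (PadicAlgCl l ≃ₐ[ℚ_[l]] PadicAlgCl l))
    (hU : ∃ F₀ : IntermediateField ℚ (AlgebraicClosure ℚ), FiniteDimensional ℚ F₀ ∧
      F₀.fixingSubgroup.comap (localGaloisToGlobal l) ≤ U)
    (hχ : ∀ u ∈ U, cycloChar p (localGaloisToGlobal l u) = 1)
    (a : ↥U → ZMod p) (ha : ∀ g h, a (g * h) = a g + a h)
    (hl : IsLevelConstant₁ ((localGaloisToGlobal l).comp U.subtype) a) (h0 : a ≠ 0) :
    ∃ b : ↥U → ZMod p, (∀ g h, b (g * h) = b g + b h) ∧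
      IsLevelConstant₁ ((localGaloisToGlobal l).comp U.subtype) b ∧
      (fun x : ↥U × ↥U => a x.1 * b x.2) ∉
        levelCoboundaries₂ ((localGaloisToGlobal l).comp U.subtype)
          (Rep.trivial (ZMod p) ↥U (ZMod p)) := by
  obtain ⟨F, hF, hFU⟩ := hU
  exact lb2_frozen l p U ⟨F, hF, fun τ hτ => hFU hτ⟩ hχ a ha hl h0

/-- **`(LB2 r U)`, `inv` form** (the shape consumed by the four-lemma step of LS-L2): for any
injective functional `inv` on `continuousH2 r_U (trivial)`, a level-constant additive character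
`a` all of whose cup products `a ∪ b` are killed by `inv` is zero. -/
theorem lb2_frozen_inv (U : Subgroup (PadicAlgCl l ≃ₐ[ℚ_[l]] PadicAlgCl l))
    (hU : ∃ F : IntermediateField ℚ (AlgebraicClosure ℚ), FiniteDimensional ℚ F ∧
      ∀ τ : PadicAlgCl l ≃ₐ[ℚ_[l]] PadicAlgCl l,
        localGaloisToGlobal l τ ∈ F.fixingSubgroup → τ ∈ U)
    (hχ : ∀ u ∈ U, cycloChar p (localGaloisToGlobal l u) = 1)
    (inv : continuousH2 ((localGaloisToGlobal l).comp U.subtype)
      (Rep.trivial (ZMod p) ↥U (ZMod p)) →ₗ[ZMod p] ZMod p) (hinv : Function.Injective inv)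
    (a : ↥U → ZMod p) (ha : ∀ g h, a (g * h) = a g + a h)
    (hl : IsLevelConstant₁ ((localGaloisToGlobal l).comp U.subtype) a)
    (hvan : ∀ (b : ↥U → ZMod p) (hb : ∀ g h, b (g * h) = b g + b h)
      (hlb : IsLevelConstant₁ ((localGaloisToGlobal l).comp U.subtype) b),
      inv (continuousH2π ((localGaloisToGlobal l).comp U.subtype)
        (Rep.trivial (ZMod p) ↥U (ZMod p))
        ⟨_, cup_mem_levelCocycles₂ _ ha hb hl hlb⟩) = 0) :
    a = 0 :=
  eq_zero_of_inv_cup_eq_zero _ ha hl (lb2_frozen l p U hU hχ a ha hl) inv hinv hvan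

end UForm

section PrimeLocal

variable (p : ℕ) [Fact p.Prime]

/-- **`(LB2 r U)` on the frozen local datum at a prime `q`** (`primeLocalToGlobal q`), for a
subgroup `U` (e.g. a stabiliser of a point of `G_ℚ ⧸ G_F`) containing the preimage of the fixing
subgroup of a number field, on which the cyclotomic character is trivial. -/
theorem lb2_primeLocal (q : Nat.Primes) (U : Subgroup (primeLocalGaloisGroup q))
    (hU : ∃ F₀ : IntermediateField ℚ (AlgebraicClosure ℚ), FiniteDimensional ℚ F₀ ∧
      F₀.fixingSubgroup.comap (primeLocalToGlobal q) ≤ U)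
    (hχ : ∀ u ∈ U, cycloChar p (primeLocalToGlobal q u) = 1)
    (a : ↥U → ZMod p) (ha : ∀ g h, a (g * h) = a g + a h)
    (hl : IsLevelConstant₁ ((primeLocalToGlobal q).comp U.subtype) a) (h0 : a ≠ 0) :
    ∃ b : ↥U → ZMod p, (∀ g h, b (g * h) = b g + b h) ∧
      IsLevelConstant₁ ((primeLocalToGlobal q).comp U.subtype) b ∧
      (fun x : ↥U × ↥U => a x.1 * b x.2) ∉
        levelCoboundaries₂ ((primeLocalToGlobal q).comp U.subtype)
          (Rep.trivial (ZMod p) ↥U (ZMod p)) :=
  haveI : Fact (q : ℕ).Prime := ⟨q.2⟩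
  lb2_of_levelOpen (q : ℕ) p U hU hχ a ha hl h0

/-- The same with the openness hypothesis in pointwise form. -/
theorem lb2_primeLocal' (q : Nat.Primes) (U : Subgroup (primeLocalGaloisGroup q))
    (hU : ∃ F : IntermediateField ℚ (AlgebraicClosure ℚ), FiniteDimensional ℚ F ∧
      ∀ τ : primeLocalGaloisGroup q, primeLocalToGlobal q τ ∈ F.fixingSubgroup → τ ∈ U)
    (hχ : ∀ u ∈ U, cycloChar p (primeLocalToGlobal q u) = 1)
    (a : ↥U → ZMod p) (ha : ∀ g h, a (g * h) = a g + a h)
    (hl : IsLevelConstant₁ ((primeLocalToGlobal q).comp U.subtype) a) (h0 : a ≠ 0) :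
    ∃ b : ↥U → ZMod p, (∀ g h, b (g * h) = b g + b h) ∧
      IsLevelConstant₁ ((primeLocalToGlobal q).comp U.subtype) b ∧
      (fun x : ↥U × ↥U => a x.1 * b x.2) ∉
        levelCoboundaries₂ ((primeLocalToGlobal q).comp U.subtype)
          (Rep.trivial (ZMod p) ↥U (ZMod p)) := by
  obtain ⟨F, hF, hFU⟩ := hU
  exact lb2_primeLocal p q U ⟨F, hF, fun τ hτ => hFU τ hτ⟩ hχ a ha hl h0

/-- `(LB2 r U)`, `inv` form, on the frozen local datum at a prime `q`. -/
theorem lb2_primeLocal_inv (q : Nat.Primes) (U : Subgroup (primeLocalGaloisGroup q))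
    (hU : ∃ F₀ : IntermediateField ℚ (AlgebraicClosure ℚ), FiniteDimensional ℚ F₀ ∧
      F₀.fixingSubgroup.comap (primeLocalToGlobal q) ≤ U)
    (hχ : ∀ u ∈ U, cycloChar p (primeLocalToGlobal q u) = 1)
    (inv : continuousH2 ((primeLocalToGlobal q).comp U.subtype)
      (Rep.trivial (ZMod p) ↥U (ZMod p)) →ₗ[ZMod p] ZMod p) (hinv : Function.Injective inv)
    (a : ↥U → ZMod p) (ha : ∀ g h, a (g * h) = a g + a h)
    (hl : IsLevelConstant₁ ((primeLocalToGlobal q).comp U.subtype) a)
    (hvan : ∀ (b : ↥U → ZMod p) (hb : ∀ g h, b (g * h) = b g + b h)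
      (hlb : IsLevelConstant₁ ((primeLocalToGlobal q).comp U.subtype) b),
      inv (continuousH2π ((primeLocalToGlobal q).comp U.subtype)
        (Rep.trivial (ZMod p) ↥U (ZMod p))
        ⟨_, cup_mem_levelCocycles₂ _ ha hb hl hlb⟩) = 0) :
    a = 0 :=
  eq_zero_of_inv_cup_eq_zero _ ha hl (lb2_primeLocal p q U hU hχ a ha hl) inv hinv hvan

end PrimeLocal

end

end Fermat.Agent.S55.helper357
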