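import Fermat.Agent.S55.helper2113_L2Inj
import Fermat.Agent.S55.helper665_LocalAsm
import Fermat.Agent.S55.helper357_LSAdapt

/-!
# S55 / LS-L2: the injective half of local duality in the LOCAL-spec shapes

End adapter from `helper2113.l2Inj` (Shapiro-free injectivity of
`H²(G, X) → Hom(Hom_G(X, μ), H²(G, μ))`) to the closed statements of `helper665_LocalSpec`:

* `l2Inj_localSpec` : `helper665.L2Inj r χ N` for any `(G, r, χ)` from `LB1`, `LB2`;
* `stmt_LocL2Inj_of_localLB1` : `helper665.Stmt_LocL2Inj p` from `helper9554.Stmt_LocalLB1`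
  (the `(LB2)` input is unconditional: `helper357.lb2_primeLocal'`);
* `stmt_LocL2InjAll_of_LB1All` : `helper665.Stmt_LB1All → helper665.Stmt_LocL2InjAll`.
-/

set_option autoImplicit false

open CategoryTheory groupCohomology ExtCitation

namespace Fermat.Agent.S55.helper2113

/-- `helper665.L2Inj` for a finite-dimensional smooth module, from `LB1`, `LB2` on the open
subgroups on which the character is trivial and `H²(G, 𝔽_p(χ)) ≠ 0`. -/
theorem l2Inj_localSpec {p : ℕ} [Fact p.Prime] {G : Type} [Group G] (r : G →* GalQ)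
    (χ : G →* (ZMod p)ˣ) (hχ : helper1447.IsLevelChar r χ)
    (h1 : ∀ U : Subgroup G, IsOpenSub r U → (∀ u ∈ U, χ u = 1) →
      LB1 (ZMod p) (r.comp U.subtype))
    (h2 : ∀ U : Subgroup G, IsOpenSub r U → (∀ u ∈ U, χ u = 1) →
      LB2 (ZMod p) (r.comp U.subtype))
    (hnz : Nontrivial (continuousH2 r (ofChar χ)))
    (N : Rep.{0} (ZMod p) G) (hN : FiniteDimensional (ZMod p) N)
    (hsm : helper1447.IsSmoothRep r N) : helper665.L2Inj r χ N :=
  fun z hz => l2Inj r χ hχ h1 h2 hnz N hsm z hz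

/-- **`Stmt_LocL2Inj p`** (left kernel of (L2) trivial for every finite smooth module over every
local Galois group) from the LA statement `(LB1)`. -/
theorem stmt_LocL2Inj_of_localLB1 (p : ℕ) [Fact p.Prime]
    (hLB1 : ∀ q : Nat.Primes, letI : Fact (q : ℕ).Prime := ⟨q.2⟩
      helper9554.Stmt_LocalLB1 (q : ℕ) p) : helper665.Stmt_LocL2Inj p := by
  intro q
  refine (helper665.stmt_L2inj_iff _ _).2 fun N hN hsm => ?_
  have : Fact (q : ℕ).Prime := ⟨q.2⟩
  refine l2Inj_localSpec (primeLocalToGlobal q) (helper665.chiLoc p q)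
    (helper665.isLevelChar_chiLoc p q) ?_ ?_ ?_ N hN hsm
  · intro U hU hχ
    obtain ⟨inv, hinv⟩ := helper2353.exists_inv_trivial (q : ℕ) p (hLB1 q) U hU hχ
    exact ⟨inv, hinv.1⟩
  · intro U hU hχ a ha hl h0
    exact helper357.lb2_primeLocal' p q U hU hχ a ha hl h0
  · exact Module.nontrivial_of_finrank_pos (R := ZMod p) (by
      rw [helper2353.finrank_continuousH2_primeLocal_eq_one_of_localLB1 p q (hLB1 q)]
      exact one_pos)

/-- **`Stmt_LocL2InjAll`** from the closed LA statement `Stmt_LB1All`. -/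
theorem stmt_LocL2InjAll_of_LB1All (h : helper665.Stmt_LB1All) : helper665.Stmt_LocL2InjAll :=
  fun p _ hp2 => stmt_LocL2Inj_of_localLB1 p fun q =>
    letI : Fact (q : ℕ).Prime := ⟨q.2⟩
    h (q : ℕ) p hp2

end Fermat.Agent.S55.helper2113
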