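/-
S55 / LOCAL layer (LS-L2-SURJ, helper2690): the RIGHT kernel of local duality (L2) is free once
the LEFT kernel is known.

`helper665.L2Surj r χ N` ("a `G`-map `φ : N → k(χ)` inducing zero on `continuousH2 r` is zero")
is derived, for every finite-dimensional smooth `N` over ANY group `G` with a level map `r`,
from `helper665.L2Inj` for the single module `R = coind_V^G k` (`V` a normal level subgroup
fixing `N` and killing `χ`) and `H²(V, k) ≠ 0`:

* Shapiro (`helper5550.shapiroH2Map_surjective`) gives `z₀ ≠ 0` in `continuousH2 r R`;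
* `L2Inj` for `R` gives `ψ : R ⟶ k(χ)` with `ψ_* z₀ ≠ 0`;
* the adjunction `coind_V^G ⊣ res` (finite index) factors `ψ = f ≫ φ` for some `f : R ⟶ N`
  as soon as `φ ≠ 0` (`exists_comp_eq`), hence `φ_* (f_* z₀) = ψ_* z₀ ≠ 0`.

No Sylow reduction, no corestriction, no invariant map, no dimension count.

Closed forms: `stmt_LocL2Surj_of_inj : Stmt_LocL2Inj p → Stmt_LocH2ne p → Stmt_LocL2Surj p`,
`stmt_LocL2Surj_of_inj_of_localLB1` (with `(LB1)` of the LA layer through `helper2353`), and on
the closed Props of `helper665_LocalAsm`: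
`stmt_LocL2SurjAll_of_inj : Stmt_LocL2InjAll → Stmt_LB1All → Stmt_LocL2SurjAll`,
`stmt_LocalL2_of_inj : Stmt_LocL2InjAll → Stmt_LB1All → Stmt_LocalL2`.
-/
import Mathlib
import Fermat.Prelude.Def_GroupCohomology_ContinuousUnramified
import Fermat.Agent.S55.helper665_LocalSpec
import Fermat.Agent.S55.helper5550_ShapiroLevel
import Fermat.Agent.S55.helper5178_Sylow
import Fermat.Agent.S55.helper2353_LB1Frozen
import Fermat.Agent.S55.helper665_LocalAsm

set_option autoImplicit false

open CategoryTheory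

noncomputable section

namespace Fermat.Agent.S55.helper2690

open groupCohomology ExtCitation

section Generic

variable {k G : Type} [Field k] [Group G]
variable (r : G →* (AlgebraicClosure ℚ ≃ₐ[ℚ] AlgebraicClosure ℚ)) (χ : G →* kˣ)

/-- Functoriality of the frozen push-forward on `continuousH2`. -/
lemma mapHom_comp {A B C : Rep.{0} k G} (f : A ⟶ B) (g : B ⟶ C) (z : continuousH2 r A) :
    continuousH2MapHom r (f ≫ g) z = continuousH2MapHom r g (continuousH2MapHom r f z) := by
  obtain ⟨c, rfl⟩ := Submodule.mkQ_surjective _ z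
  rfl

/-- The `V`-map `k → res N`, `c ↦ c • n`, for a vector `n` fixed by `V`. -/
def fixedHom (N : Rep.{0} k G) (V : Subgroup G) (n : N) (hn : ∀ v ∈ V, N.ρ v n = n) :
    Rep.trivial k V k ⟶ Rep.res V.subtype N :=
  Rep.ofHom
    ⟨LinearMap.toSpanSingleton k N n, fun v => by
      apply LinearMap.ext
      intro c
      show (c • n : N) = N.ρ (v : G) (c • n)
      rw [map_smul, hn v v.2]⟩

open Classical in
/-- Lifting through a nonzero functional: if `V` (of finite index) fixes `N` pointwise and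
`φ : N ⟶ k(χ)` is nonzero, every `G`-map `coind_V^G k ⟶ k(χ)` factors through `φ`. -/
theorem exists_comp_eq (N : Rep.{0} k G) (V : Subgroup G) [V.FiniteIndex]
    (hVN : ∀ v ∈ V, ∀ n : N, N.ρ v n = n) (φ : N ⟶ ofChar χ) (hφ : φ ≠ 0)
    (ψ : Rep.coind V.subtype (Rep.trivial k V k) ⟶ ofChar χ) :
    ∃ f : Rep.coind V.subtype (Rep.trivial k V k) ⟶ N, f ≫ φ = ψ := by
  let adj := Rep.coindResAdjunction.{0, 0, 0} k V
  let u := adj.homEquiv (Rep.trivial k V k) (ofChar χ) ψ
  obtain ⟨n₀, hn₀⟩ : ∃ n₀ : N, φ.hom n₀ ≠ 0 := by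
    by_contra h
    push Not at h
    apply hφ
    ext n
    exact h n
  let t : k := u.hom (1 : k)
  let n : N := (t / φ.hom n₀ : k) • n₀
  have hn : φ.hom n = t := by
    show φ.hom ((t / φ.hom n₀ : k) • n₀) = t
    rw [map_smul]
    exact div_mul_cancel₀ t hn₀
  refine ⟨(adj.homEquiv _ N).symm (fixedHom N V n (fun v hv => hVN v hv n)), ?_⟩
  apply (adj.homEquiv (Rep.trivial k V k) (ofChar χ)).injective
  rw [Adjunction.homEquiv_naturality_right, Equiv.apply_symm_apply]
  ext
  show φ.hom ((1 : k) • n) = t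
  rw [one_smul]
  exact hn

/-- **(L2), right kernel, from the left kernel for ONE coinduced module.**  If `V ≤ G` of finite
index fixes `N` pointwise, the pairing `H²(R) × Hom_G(R, k(χ)) → H²(k(χ))` has trivial left kernel
for the single module `R = coind_V^G k`, and `H²(R) ≠ 0`, then a `G`-map `N → k(χ)` inducing zero
on `continuousH2 r` vanishes. -/
theorem l2Surj_of_coind (N : Rep.{0} k G) (V : Subgroup G) [V.FiniteIndex]
    (hVN : ∀ v ∈ V, ∀ n : N, N.ρ v n = n)
    (hInj : helper665.L2Inj r χ (Rep.coind V.subtype (Rep.trivial k V k)))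
    (hne : ∃ z : continuousH2 r (Rep.coind V.subtype (Rep.trivial k V k)), z ≠ 0) :
    helper665.L2Surj r χ N := by
  intro φ hφ
  by_contra hφ0
  obtain ⟨z₀, hz₀⟩ := hne
  obtain ⟨ψ, hψ⟩ : ∃ ψ : Rep.coind V.subtype (Rep.trivial k V k) ⟶ ofChar χ,
      continuousH2MapHom r ψ z₀ ≠ 0 := by
    by_contra h
    push Not at h
    exact hz₀ (hInj z₀ h)
  obtain ⟨f, hf⟩ := exists_comp_eq χ N V hVN φ hφ0 ψ
  apply hψ
  rw [← hf, mapHom_comp]
  exact hφ _

/-- The preimage of the fixing subgroup of a number field has finite index. -/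
theorem finiteIndex_comap_fixingSubgroup (F : IntermediateField ℚ (AlgebraicClosure ℚ))
    [FiniteDimensional ℚ F] : (F.fixingSubgroup.comap r).FiniteIndex := by
  have hG : IsGalois ℚ (AlgebraicClosure ℚ) :=
    haveI : IsAlgClosure ℚ (AlgebraicClosure ℚ) := ⟨inferInstance, AlgebraicClosure.isAlgebraic ℚ⟩
    inferInstance
  have h0 : F.fixingSubgroup.index ≠ 0 := by
    rw [← IntermediateField.finrank_eq_fixingSubgroup_index]
    exact Module.finrank_pos.ne'
  refine ⟨?_⟩
  rw [Subgroup.index_comap]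
  exact fun h => h0 (Subgroup.index_eq_zero_of_relIndex_eq_zero h)

/-- **(L2): the right kernel is trivial as soon as the left kernels are.**  For a
finite-dimensional smooth `N`: if (L2)-injectivity holds for the finite smooth modules of `G`
and `H²(V, k) ≠ 0` for the normal level subgroups `V` on which `χ` is trivial, then a `G`-map
`N → k(χ)` inducing zero on `continuousH2 r` vanishes.  No Sylow reduction, no corestriction. -/
theorem l2Surj_of_l2Inj (N : Rep.{0} k G) [FiniteDimensional k N]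
    (hN : helper1447.IsSmoothRep r N) (hχ : helper1447.IsLevelChar r χ)
    (hInj : ∀ R : Rep.{0} k G, FiniteDimensional k R → helper1447.IsSmoothRep r R →
      helper665.L2Inj r χ R)
    (hne : ∀ F : IntermediateField ℚ (AlgebraicClosure ℚ), FiniteDimensional ℚ F →
      (F.fixingSubgroup.comap r).Normal → (∀ s : G, r s ∈ F.fixingSubgroup → χ s = 1) →
      ∃ z : continuousH2 (r.comp (F.fixingSubgroup.comap r).subtype)
        (Rep.trivial k ↥(F.fixingSubgroup.comap r) k), z ≠ 0) :
    helper665.L2Surj r χ N := by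
  obtain ⟨F₁, hF₁, h1⟩ := hN.exists_level
  obtain ⟨F₂, hF₂, h2⟩ := hχ
  have := hF₁
  have := hF₂
  obtain ⟨F, hF, hle, hn⟩ := helper5550.exists_normal_level (F₁ ⊔ F₂)
  have := hF
  set V : Subgroup G := F.fixingSubgroup.comap r with hV
  have hVn : V.Normal := hn.comap r
  have hVfi : V.FiniteIndex := finiteIndex_comap_fixingSubgroup r F
  have hV1 : ∀ v ∈ V, r v ∈ F₁.fixingSubgroup := fun v hv =>
    IntermediateField.fixingSubgroup_antitone (le_sup_left.trans hle) hv
  have hV2 : ∀ v ∈ V, r v ∈ F₂.fixingSubgroup := fun v hv =>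
    IntermediateField.fixingSubgroup_antitone (le_sup_right.trans hle) hv
  have hopen : helper5550.IsLevelOpen r V := ⟨F, hF, le_refl _⟩
  -- the coinduced module is finite-dimensional and smooth
  have hRfd : FiniteDimensional k (Rep.coind V.subtype (Rep.trivial k V k)) :=
    helper5178.finite_coind V (Rep.trivial k V k)
  have hRsm : helper1447.IsSmoothRep r (Rep.coind V.subtype (Rep.trivial k V k)) := by
    intro x
    refine ⟨F, hF, fun s hs => ?_⟩
    have h := helper5178.coind_ρ_eq_one V V (le_refl V) (Rep.trivial k V k)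
      (fun _ _ => rfl) (n := s) hs
    rw [h]
    rfl
  -- nonvanishing of its `H²`, by Shapiro
  obtain ⟨z', hz'⟩ := hne F hF hVn (fun s hs => h2 s (hV2 s hs))
  obtain ⟨z, hz⟩ := helper5550.shapiroH2Map_surjective (N := Rep.trivial k V k) hopen z'
  have hz0 : z ≠ 0 := by
    rintro rfl
    rw [map_zero] at hz
    exact hz' hz.symm
  exact l2Surj_of_coind r χ N V (fun v hv n => h1 v (hV1 v hv) n)
    (hInj _ hRfd hRsm) ⟨z, hz0⟩

end Generic

/-! ### Closed statements at the primes -/

section Closed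

variable (p : ℕ) [Fact p.Prime]

/-- **Nonvanishing half of `(LB1 r U)`**: `H²(V, 𝔽_p) ≠ 0` on the frozen carrier for the normal
level subgroups `V = r_q⁻¹(Gal(ℚ̄/F))` of the local Galois groups on which the cyclotomic
character is trivial. -/
def Stmt_LocH2ne : Prop :=
  ∀ (q : Nat.Primes) (F : IntermediateField ℚ (AlgebraicClosure ℚ)), FiniteDimensional ℚ F →
    (F.fixingSubgroup.comap (primeLocalToGlobal q)).Normal →
    (∀ s : primeLocalGaloisGroup q, primeLocalToGlobal q s ∈ F.fixingSubgroup →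
      helper665.chiLoc p q s = 1) →
    ∃ z : continuousH2
        ((primeLocalToGlobal q).comp (F.fixingSubgroup.comap (primeLocalToGlobal q)).subtype)
        (Rep.trivial (ZMod p) ↥(F.fixingSubgroup.comap (primeLocalToGlobal q)) (ZMod p)), z ≠ 0

variable {p}

/-- **`Stmt_LocL2Surj` from `Stmt_LocL2Inj`** and the nonvanishing of `H²` of the open subgroups:
the right kernel of local duality (L2) costs nothing once the left kernel is known. -/
theorem stmt_LocL2Surj_of_inj (h1 : helper665.Stmt_LocL2Inj p) (h2 : Stmt_LocH2ne p) :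
    helper665.Stmt_LocL2Surj p := by
  intro q N hN hsm
  have := hN
  exact l2Surj_of_l2Inj (primeLocalToGlobal q) (helper665.chiLoc p q) N hsm
    (helper665.isLevelChar_chiLoc p q)
    ((helper665.stmt_L2inj_iff _ _).1 (h1 q)) (h2 q)

/-- `Stmt_LocH2ne` from the LA statement `(LB1)` (through `helper2353_LB1Frozen`). -/
theorem stmt_LocH2ne_of_localLB1
    (hLB1 : ∀ q : Nat.Primes, letI : Fact (q : ℕ).Prime := ⟨q.2⟩
      helper9554.Stmt_LocalLB1 (q : ℕ) p) : Stmt_LocH2ne p := by
  intro q F hF _ hχ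
  let _ : Fact (q : ℕ).Prime := ⟨q.2⟩
  have h := helper2353.finrank_continuousH2_trivial_eq_one (q : ℕ) p (hLB1 q)
    (F.fixingSubgroup.comap (localGaloisToGlobal (q : ℕ))) ⟨F, hF, fun g hg => hg⟩
    (fun u hu => hχ u hu)
  by_contra hall
  push Not at hall
  have hsub : Subsingleton (continuousH2
      ((localGaloisToGlobal (q : ℕ)).comp
        (F.fixingSubgroup.comap (localGaloisToGlobal (q : ℕ))).subtype)
      (Rep.trivial (ZMod p) ↥(F.fixingSubgroup.comap (localGaloisToGlobal (q : ℕ))) (ZMod p))) :=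
    ⟨fun a b => (hall a).trans (hall b).symm⟩
  rw [Module.finrank_zero_of_subsingleton] at h
  exact zero_ne_one h

/-- **`Stmt_LocL2Surj` from `Stmt_LocL2Inj` and the LA statement `(LB1)`.** -/
theorem stmt_LocL2Surj_of_inj_of_localLB1 (h1 : helper665.Stmt_LocL2Inj p)
    (hLB1 : ∀ q : Nat.Primes, letI : Fact (q : ℕ).Prime := ⟨q.2⟩
      helper9554.Stmt_LocalLB1 (q : ℕ) p) : helper665.Stmt_LocL2Surj p :=
  stmt_LocL2Surj_of_inj h1 (stmt_LocH2ne_of_localLB1 hLB1)

/-- **`Stmt_LocL2SurjAll ⟸ Stmt_LocL2InjAll ∧ Stmt_LB1All`** (closed Props of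
`helper665_LocalAsm`). -/
theorem stmt_LocL2SurjAll_of_inj (h1 : helper665.Stmt_LocL2InjAll) (hLB1 : helper665.Stmt_LB1All) :
    helper665.Stmt_LocL2SurjAll :=
  fun p _ hp2 => stmt_LocL2Surj_of_inj_of_localLB1 (h1 p hp2) fun q =>
    letI : Fact (q : ℕ).Prime := ⟨q.2⟩
    hLB1 (q : ℕ) p hp2

/-- **The local (L2) package from (L2)-injectivity and `(LB1)` alone.** -/
theorem stmt_LocalL2_of_inj (h1 : helper665.Stmt_LocL2InjAll) (hLB1 : helper665.Stmt_LB1All) :
    helper665.Stmt_LocalL2 :=
  helper665.stmt_LocalL2_of (helper665.stmt_LocInvAll_of_LB1All hLB1) h1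
    (stmt_LocL2SurjAll_of_inj h1 hLB1)

end Closed

end Fermat.Agent.S55.helper2690
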