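/-
S55 / NF-CLH2 on the GB carrier (helper324): `rk_p Cl_S(F) ≤ h²(G_{F,S}, 𝔽_p)`.

For an `S`-field `F ∋ ζ_p` (`p ∈ S`), `T_k := {x ∈ Fˣ | p^k ∣ ord_v x for all v ∉ S}`:
to `x ∈ T_k`, `α ^ (p^k) = x`, attach `b_g := (g α / α)^(1/p)` and the `ZMod p`-valued
`S`-level 2-cocycle `c_x` of `V_F = F.fixingSubgroup` with `ζ ^ c_x(g,h) = b_g · g(b_h) / b_{gh}`.

* `hilbert90_fixing`      : Hilbert 90 on `V_F` at finite level (resolvent), `γ` in the level field;
* `div_mem_of_class_eq`   : `[c_x] = [c_y]` in `fieldH2` implies `x / y ∈ T_{k+1} · Fˣ^(p^k)`;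
* `exists_root_class`, `root_class_eq` : the abstract ideal-side count (helper9292's setting);
* `clSRank_le_finrank_fieldH2`, `fieldUpper_of_finite`, `stmt_FieldUpper_of`.
-/
import Mathlib
import Fermat.Agent.S55.helper324_FieldH1

set_option autoImplicit false

namespace Fermat.Agent.S55.helper324

open IntermediateField groupCohomology
open Fermat.Agent.S55.helper3071

local notation "Qbar" => AlgebraicClosure ℚ
local notation "GQ" => (AlgebraicClosure ℚ ≃ₐ[ℚ] AlgebraicClosure ℚ)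

section H90

variable {F M : IntermediateField ℚ Qbar}

/-- **Hilbert 90 on `V_F`, finite level.** A multiplicative 1-cocycle `w : V_F → Qbar^×` which is
right-invariant under the fixing subgroup of a finite extension `M ⊇ F` is of the form
`g ↦ g γ / γ` with `γ ∈ M`. -/
theorem hilbert90_fixing [FiniteDimensional ℚ M] (hFM : F ≤ M)
    (w : ↥F.fixingSubgroup → Qbar) (hw0 : ∀ g, w g ≠ 0)
    (hw : ∀ g h : ↥F.fixingSubgroup, w (g * h) = w g * (g : GQ) (w h))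
    (hinv : ∀ g s : ↥F.fixingSubgroup, (s : GQ) ∈ M.fixingSubgroup → w (g * s) = w g) :
    ∃ γ : Qbar, γ ≠ 0 ∧ γ ∈ M ∧ ∀ g : ↥F.fixingSubgroup, (g : GQ) γ = w g * γ := by
  classical
  set H : Subgroup ↥F.fixingSubgroup := M.fixingSubgroup.subgroupOf F.fixingSubgroup with hH
  have hfinQ : Finite (↥F.fixingSubgroup ⧸ H) := finite_quot_fixing F M
  let _ : Fintype (↥F.fixingSubgroup ⧸ H) := Fintype.ofFinite _
  have hw1 : w 1 = 1 := by
    have h := hw 1 1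
    rw [mul_one, OneMemClass.coe_one, AlgEquiv.one_apply] at h
    have h0 := hw0 1
    exact (mul_eq_left₀ h0).1 h.symm
  -- the summand
  let f : Qbar → ↥F.fixingSubgroup → Qbar := fun θ τ => (w τ)⁻¹ * (τ : GQ) θ
  have hf_inv : ∀ θ ∈ M, ∀ (τ s : ↥F.fixingSubgroup), s ∈ H → f θ (τ * s) = f θ τ := by
    intro θ hθ τ s hs
    have hs' : (s : GQ) ∈ M.fixingSubgroup := hs
    simp only [f]
    rw [hinv τ s hs', Subgroup.coe_mul, AlgEquiv.mul_apply, fix_of_mem hs' hθ]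
  have hout : ∀ (τ : ↥F.fixingSubgroup), ∃ h : ↥F.fixingSubgroup, h ∈ H ∧
      (Quotient.out (QuotientGroup.mk τ : ↥F.fixingSubgroup ⧸ H)) = τ * h := by
    intro τ
    obtain ⟨h, hh⟩ := QuotientGroup.mk_out_eq_mul H τ
    exact ⟨h, h.2, hh⟩
  -- equivariance of the summand
  have hf_eq : ∀ θ, ∀ (σ τ : ↥F.fixingSubgroup),
      (σ : GQ) (f θ τ) = w σ * f θ (σ * τ) := by
    intro θ σ τ
    simp only [f]
    rw [map_mul, map_inv₀, hw σ τ, Subgroup.coe_mul, AlgEquiv.mul_apply]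
    have h1 := hw0 σ
    have h2 : (σ : GQ) (w τ) ≠ 0 := (map_ne_zero _).2 (hw0 τ)
    field_simp
  -- the resolvent
  let A : Qbar → Qbar := fun θ => ∑ c : ↥F.fixingSubgroup ⧸ H, f θ (Quotient.out c)
  have hA_eq : ∀ θ ∈ M, ∀ σ : ↥F.fixingSubgroup, (σ : GQ) (A θ) = w σ * A θ := by
    intro θ hθ σ
    simp only [A]
    rw [map_sum, Finset.mul_sum]
    rw [← Equiv.sum_comp (MulAction.toPerm σ : Equiv.Perm (↥F.fixingSubgroup ⧸ H))
      (fun c => w σ * f θ (Quotient.out c))]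
    refine Finset.sum_congr rfl fun c _ => ?_
    rw [hf_eq θ σ (Quotient.out c)]
    congr 1
    have hc : (MulAction.toPerm σ : Equiv.Perm (↥F.fixingSubgroup ⧸ H)) c
        = QuotientGroup.mk (σ * Quotient.out c) := by
      conv_lhs => rw [← QuotientGroup.out_eq' c]
      rfl
    rw [hc]
    obtain ⟨h, hh, hout'⟩ := hout (σ * Quotient.out c)
    rw [hout', hf_inv θ hθ _ h hh]
  -- nonvanishing by independence of characters
  have hne : ∃ θ ∈ M, A θ ≠ 0 := by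
    by_contra hcon
    simp only [not_exists, not_and, not_not] at hcon
    let φ : (↥F.fixingSubgroup ⧸ H) → (↥M →* Qbar) := fun c =>
      (((Quotient.out c : ↥F.fixingSubgroup) : GQ) : Qbar →* Qbar).comp
        ((M.val : ↥M →ₐ[ℚ] Qbar) : ↥M →* Qbar)
    have hφ : Function.Injective φ := by
      intro c c' hcc
      rw [← QuotientGroup.out_eq' c, ← QuotientGroup.out_eq' c']
      refine QuotientGroup.eq.2 ?_
      refine Subgroup.mem_subgroupOf.2 ?_
      rw [IntermediateField.mem_fixingSubgroup_iff]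
      intro x hx
      have := DFunLike.congr_fun hcc ⟨x, hx⟩
      simp only [φ, MonoidHom.comp_apply] at this
      rw [Subgroup.coe_mul, Subgroup.coe_inv, AlgEquiv.mul_apply]
      rw [AlgEquiv.aut_inv, AlgEquiv.symm_apply_eq]
      exact this.symm
    have hli := (linearIndependent_monoidHom (↥M) Qbar).comp φ hφ
    have h0 := Fintype.linearIndependent_iff.1 hli
      (fun c => (w (Quotient.out c))⁻¹) (by
        funext θ
        have := hcon (θ : Qbar) θ.2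
        simp only [A, f] at this
        simp only [Function.comp_apply, Finset.sum_apply, Pi.smul_apply, smul_eq_mul, Pi.zero_apply]
        exact this)
    exact inv_ne_zero (hw0 _) (h0 (QuotientGroup.mk 1))
  obtain ⟨θ, hθ, hAθ⟩ := hne
  refine ⟨A θ, hAθ, ?_, hA_eq θ hθ⟩
  refine mem_of_fixed fun σ hσ => ?_
  have hσF : σ ∈ F.fixingSubgroup := IntermediateField.fixingSubgroup_antitone hFM hσ
  have h1 := hA_eq θ hθ ⟨σ, hσF⟩
  have h2 : w (⟨σ, hσF⟩ : ↥F.fixingSubgroup) = 1 := by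
    have := hinv 1 ⟨σ, hσF⟩ hσ
    rw [one_mul] at this
    rw [this, hw1]
  rw [h2, one_mul] at h1
  exact h1

end H90

section Cocycle

variable {p : ℕ} [Fact p.Prime]

/-- `b_g`: the chosen `p`-th root of `g α / α`. -/
noncomputable def bOf (p : ℕ) [Fact p.Prime] (α : Qbar) (g : GQ) : Qbar := rootOf p (g α / α)

theorem bOf_pow (α : Qbar) (g : GQ) : bOf p α g ^ p = g α / α := rootOf_pow _

theorem bOf_ne_zero {α : Qbar} (hα : α ≠ 0) (g : GQ) : bOf p α g ≠ 0 :=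
  rootOf_ne_zero (div_ne_zero ((map_ne_zero g).2 hα) hα)

theorem bOf_congr {α : Qbar} {g g' : GQ} (h : g α = g' α) : bOf p α g = bOf p α g' := by
  rw [bOf, bOf, h]

/-- The coboundary `b_g · g(b_h) / b_{gh}` (a `p`-th root of unity). -/
noncomputable def dbOf (p : ℕ) [Fact p.Prime] (α : Qbar) (g h : GQ) : Qbar :=
  bOf p α g * g (bOf p α h) / bOf p α (g * h)

theorem dbOf_pow {α : Qbar} (hα : α ≠ 0) (g h : GQ) : dbOf p α g h ^ p = 1 := by
  rw [dbOf, div_pow, mul_pow, ← map_pow, bOf_pow, bOf_pow, bOf_pow, map_div₀, AlgEquiv.mul_apply]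
  have h1 : g α ≠ 0 := (map_ne_zero g).2 hα
  have h2 : g (h α) ≠ 0 := (map_ne_zero g).2 ((map_ne_zero h).2 hα)
  field_simp

theorem dbOf_cocycle {α : Qbar} (hα : α ≠ 0) (g h j : GQ) :
    dbOf p α (g * h) j * dbOf p α g h = g (dbOf p α h j) * dbOf p α g (h * j) := by
  simp only [dbOf, map_div₀, map_mul, AlgEquiv.mul_apply, mul_assoc]
  have h1 := bOf_ne_zero (p := p) hα (g * h)
  have h2 := bOf_ne_zero (p := p) hα (g * (h * j))
  have h3 : g (bOf p α (h * j)) ≠ 0 := (map_ne_zero g).2 (bOf_ne_zero hα (h * j))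
  field_simp

open Classical in
/-- The exponent `c(g,h) : ZMod p` with `ζ ^ c(g,h) = b_g · g(b_h) / b_{gh}`. -/
noncomputable def cOf (ζ α : Qbar) (g h : GQ) : ZMod p :=
  if H : ∃ j : ZMod p, ζ ^ j.val = dbOf p α g h then H.choose else 0

theorem cOf_spec {ζ : Qbar} (hζ : IsPrimitiveRoot ζ p) {α : Qbar} (hα : α ≠ 0) (g h : GQ) :
    ζ ^ (cOf (p := p) ζ α g h).val = dbOf p α g h := by
  have H : ∃ j : ZMod p, ζ ^ j.val = dbOf p α g h := exists_zpow_val_eq hζ (dbOf_pow hα g h)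
  rw [cOf, dif_pos H]
  exact H.choose_spec

theorem cOf_eq_of {ζ : Qbar} (hζ : IsPrimitiveRoot ζ p) {α : Qbar} (hα : α ≠ 0) {g h : GQ}
    {j : ZMod p} (hj : ζ ^ j.val = dbOf p α g h) : cOf (p := p) ζ α g h = j :=
  zpow_val_inj hζ ((cOf_spec hζ hα g h).trans hj.symm)

/-- The `ZMod p`-valued 2-cochain on `V_F` attached to `α`. -/
noncomputable def cF (F : IntermediateField ℚ Qbar) (ζ α : Qbar) :
    ↥F.fixingSubgroup × ↥F.fixingSubgroup → ZMod p :=
  fun gh => cOf ζ α (gh.1 : GQ) (gh.2 : GQ)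

variable {F : IntermediateField ℚ Qbar} {ζ : Qbar}

theorem cF_cocycle (hζ : IsPrimitiveRoot ζ p) (hζF : ζ ∈ F) {α : Qbar} (hα : α ≠ 0)
    (g h j : ↥F.fixingSubgroup) :
    cF (p := p) F ζ α (g * h, j) + cF F ζ α (g, h) = cF F ζ α (h, j) + cF F ζ α (g, h * j) := by
  apply zpow_val_inj hζ
  rw [zpow_val_add hζ, zpow_val_add hζ]
  simp only [cF]
  rw [cOf_spec hζ hα, cOf_spec hζ hα, cOf_spec hζ hα, cOf_spec hζ hα]
  have h1 := dbOf_cocycle (p := p) hα (g : GQ) (h : GQ) (j : GQ)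
  have hfix : (g : GQ) (dbOf p α (h : GQ) (j : GQ)) = dbOf p α (h : GQ) (j : GQ) := by
    rw [← cOf_spec hζ hα, map_pow, fix_of_mem g.2 hζF]
  rw [hfix] at h1
  exact h1

theorem cF_mem_cocycles₂ (hζ : IsPrimitiveRoot ζ p) (hζF : ζ ∈ F) {α : Qbar} (hα : α ≠ 0) :
    (cF (p := p) F ζ α : ↥F.fixingSubgroup × ↥F.fixingSubgroup → (trivF p F))
      ∈ cocycles₂ (trivF p F) := by
  rw [mem_cocycles₂_iff]
  intro g h j
  exact cF_cocycle hζ hζF hα g h j

end Cocycle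

section Level

variable {S : Finset Nat.Primes} {p : ℕ} [Fact p.Prime] {F : IntermediateField ℚ Qbar} {ζ : Qbar}

/-- An `n`-th root of unity lies in any field containing a primitive one. -/
theorem mem_of_pow_eq_one {L : IntermediateField ℚ Qbar} {n : ℕ} (hn : 0 < n) {ξ : Qbar}
    (hξ : IsPrimitiveRoot ξ n) (hξL : ξ ∈ L) {y : Qbar} (hy : y ^ n = 1) : y ∈ L := by
  have : NeZero n := ⟨hn.ne'⟩
  obtain ⟨i, -, rfl⟩ := hξ.eq_pow_of_pow_eq_one hy
  exact pow_mem hξL i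

omit [Fact (Nat.Prime p)] in
theorem div_pow_eq_one {α : Qbar} (hα : α ≠ 0) {k : ℕ} (hαF : α ^ (p ^ k) ∈ F)
    (g : ↥F.fixingSubgroup) : ((g : GQ) α / α) ^ (p ^ k) = 1 := by
  rw [div_pow, ← map_pow, fix_of_mem g.2 hαF, div_self (pow_ne_zero _ hα)]

theorem bOf_pow_eq_one {α : Qbar} (hα : α ≠ 0) {k : ℕ} (hαF : α ^ (p ^ k) ∈ F)
    (g : ↥F.fixingSubgroup) : bOf p α (g : GQ) ^ (p ^ (k + 1)) = 1 := by
  rw [pow_succ', pow_mul, bOf_pow, div_pow_eq_one hα hαF g]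

/-- `c_α` is an `S`-level cochain, with level any `S`-field containing `α` and `μ_{p^(k+1)}`. -/
theorem cF_isLevS₂ (hζ : IsPrimitiveRoot ζ p) {α : Qbar} (hα : α ≠ 0) {k : ℕ}
    (hαF : α ^ (p ^ k) ∈ F) {ξ : Qbar} (hξ : IsPrimitiveRoot ξ (p ^ (k + 1)))
    {L : IntermediateField ℚ Qbar} (hL : L.IsUnramifiedOutside S) (hαL : α ∈ L) (hξL : ξ ∈ L) :
    IsLevS₂ S F.fixingSubgroup.subtype (cF (p := p) F ζ α) := by
  have hpos : 0 < p ^ (k + 1) := pow_pos (Fact.out : p.Prime).pos _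
  have hbL : ∀ g : ↥F.fixingSubgroup, bOf p α (g : GQ) ∈ L := fun g =>
    mem_of_pow_eq_one hpos hξ hξL (bOf_pow_eq_one hα hαF g)
  have hgαL : ∀ g : ↥F.fixingSubgroup, (g : GQ) α ∈ L := by
    intro g
    have h1 : (g : GQ) α / α ∈ L := mem_of_pow_eq_one hpos hξ hξL (by
      rw [pow_succ, pow_mul, div_pow_eq_one hα hαF g, one_pow])
    have h2 : (g : GQ) α = (g : GQ) α / α * α := by field_simp
    rw [h2]
    exact mul_mem h1 hαL
  refine ⟨L, hL, fun g g' s s' hs hs' => ?_⟩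
  have hs1 : (s : GQ) ∈ L.fixingSubgroup := hs
  have hs1' : (s' : GQ) ∈ L.fixingSubgroup := hs'
  show cOf ζ α ((g * s : ↥F.fixingSubgroup) : GQ) ((g' * s' : ↥F.fixingSubgroup) : GQ)
    = cOf ζ α (g : GQ) (g' : GQ)
  refine cOf_eq_of hζ hα ?_
  rw [cOf_spec hζ hα]
  simp only [dbOf, Subgroup.coe_mul]
  have e1 : bOf p α ((g : GQ) * (s : GQ)) = bOf p α (g : GQ) :=
    bOf_congr (by rw [AlgEquiv.mul_apply, fix_of_mem hs1 hαL])
  have e2 : bOf p α ((g' : GQ) * (s' : GQ)) = bOf p α (g' : GQ) :=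
    bOf_congr (by rw [AlgEquiv.mul_apply, fix_of_mem hs1' hαL])
  have e3 : bOf p α ((g : GQ) * (s : GQ) * ((g' : GQ) * (s' : GQ)))
      = bOf p α ((g : GQ) * (g' : GQ)) :=
    bOf_congr (by
      simp only [AlgEquiv.mul_apply]
      rw [fix_of_mem hs1' hαL, fix_of_mem hs1 (hgαL g')])
  rw [e1, e2, e3, AlgEquiv.mul_apply, fix_of_mem hs1 (hbL g')]

/-- The class of `c_α` in `fieldH2 S p F`. -/
noncomputable def clsOf (S : Finset Nat.Primes) (hζ : IsPrimitiveRoot ζ p) (hζF : ζ ∈ F)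
    {α : Qbar} (hα : α ≠ 0)
    (hlev : IsLevS₂ S F.fixingSubgroup.subtype (cF (p := p) F ζ α)) : fieldH2 S p F :=
  relH2Sπ S F.fixingSubgroup.subtype (trivF p F)
    ⟨cF F ζ α, ⟨cF_mem_cocycles₂ hζ hζF hα, hlev⟩⟩

/-- Equal classes differ by the coboundary of an `S`-level 1-cochain. -/
theorem exists_of_clsOf_eq (hζ : IsPrimitiveRoot ζ p) (hζF : ζ ∈ F) {α β : Qbar} (hα : α ≠ 0)
    (hβ : β ≠ 0) (hlevα : IsLevS₂ S F.fixingSubgroup.subtype (cF (p := p) F ζ α))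
    (hlevβ : IsLevS₂ S F.fixingSubgroup.subtype (cF (p := p) F ζ β))
    (h : clsOf S hζ hζF hα hlevα = clsOf S hζ hζF hβ hlevβ) :
    ∃ e : ↥F.fixingSubgroup → ZMod p, IsLevS₁ S F.fixingSubgroup.subtype e ∧
      ∀ g h : ↥F.fixingSubgroup,
        cF (p := p) F ζ α (g, h) - cF F ζ β (g, h) = e h - e (g * h) + e g := by
  have h1 := (Submodule.Quotient.eq _).1 h
  rw [Submodule.mem_comap] at h1
  obtain ⟨e, he, hde⟩ := (mem_relB2S_iff S F.fixingSubgroup.subtype (trivF p F) _).1 h1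
  refine ⟨e, he, fun g h => ?_⟩
  have h2 := congrFun hde (g, h)
  rw [d₁₂_hom_apply] at h2
  exact h2.symm

end Level

section Kernel

open Fermat.Agent.S55.helper9292 Fermat.Agent.Lib.helper54
open scoped NumberField

attribute [local instance] numberField_intermediate

variable {S : Finset Nat.Primes} {p : ℕ} [Fact p.Prime] {F : IntermediateField ℚ Qbar}
  [FiniteDimensional ℚ F] {ζ : Qbar}

omit [Fact (Nat.Prime p)] in
/-- `F(α)` is an `S`-field when `α ^ (p^k) = x ∈ T_k`. -/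
theorem isUnramifiedOutside_root (hF : F.IsUnramifiedOutside S)
    (hpS : ∀ q : Nat.Primes, (q : ℕ) ∣ p → q ∈ S) (k : ℕ) {x : (↥F)ˣ}
    (hx : x ∈ kumS (𝓞 F) F (SF F S : Set (IsDedekindDomain.HeightOneSpectrum (𝓞 F))) (p ^ k))
    {α : Qbar} (hα : α ^ (p ^ k) = ((x : ↥F) : Qbar)) :
    (F ⊔ IntermediateField.adjoin ℚ {α}).IsUnramifiedOutside S := by
  have hαF : α ^ (p ^ k) ∈ F := by rw [hα]; exact (x : ↥F).2
  have hnS : ∀ q : Nat.Primes, (q : ℕ) ∣ p ^ k → q ∈ S := fun q hq =>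
    hpS q (q.2.dvd_of_dvd_pow hq)
  have hloc := (mem_kumS_SF_iff F S (p ^ k) x).1 hx
  refine Fermat.Agent.S55.helper4709.isUnramifiedOutside_sup_adjoin_root hF (p ^ k) hnS α hαF ?_
  intro q hq A hA
  obtain ⟨c, hc⟩ := hloc q hq A hA
  refine ⟨((c : ↥F) : Qbar), (c : ↥F).2, unit_coe_ne_zero c, ?_⟩
  have h1 : algebraMap (↥F) Qbar ((x : ↥F) / (c : ↥F) ^ (p ^ k))
      = α ^ (p ^ k) / ((c : ↥F) : Qbar) ^ (p ^ k) := by
    rw [map_div₀, map_pow, hα]
    rfl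
  rw [← h1]
  exact hc

/-- **The kernel computation.** If the classes of `c_α`, `c_β` (`α^(p^k) = x`, `β^(p^k) = y`,
`x, y ∈ T_k`) differ by the coboundary of an `S`-level cochain, then
`x / y ∈ T_{k+1} · Fˣ^(p^k)`. -/
theorem div_mem_of_coboundary (hF : F.IsUnramifiedOutside S)
    (hpS : ∀ q : Nat.Primes, (q : ℕ) ∣ p → q ∈ S)
    (hζ : IsPrimitiveRoot ζ p) (hζF : ζ ∈ F) (k : ℕ) {x y : (↥F)ˣ}
    (hx : x ∈ kumS (𝓞 F) F (SF F S : Set (IsDedekindDomain.HeightOneSpectrum (𝓞 F))) (p ^ k))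
    (hy : y ∈ kumS (𝓞 F) F (SF F S : Set (IsDedekindDomain.HeightOneSpectrum (𝓞 F))) (p ^ k))
    {α β : Qbar} (hα : α ^ (p ^ k) = ((x : ↥F) : Qbar)) (hβ : β ^ (p ^ k) = ((y : ↥F) : Qbar))
    (e : ↥F.fixingSubgroup → ZMod p) (he : IsLevS₁ S F.fixingSubgroup.subtype e)
    (hd : ∀ g h : ↥F.fixingSubgroup,
      cF (p := p) F ζ α (g, h) - cF F ζ β (g, h) = e h - e (g * h) + e g) :
    x / y ∈ kumS (𝓞 F) F (SF F S : Set (IsDedekindDomain.HeightOneSpectrum (𝓞 F))) (p ^ (k + 1))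
      ⊔ powSub (↥F)ˣ (p ^ k) := by
  have hp0 : p ≠ 0 := (Fact.out : p.Prime).ne_zero
  have hα0 : α ≠ 0 := by
    intro h0
    rw [h0, zero_pow (pow_ne_zero k hp0)] at hα
    exact unit_coe_ne_zero x hα.symm
  have hβ0 : β ≠ 0 := by
    intro h0
    rw [h0, zero_pow (pow_ne_zero k hp0)] at hβ
    exact unit_coe_ne_zero y hβ.symm
  have hαF : α ^ (p ^ k) ∈ F := by rw [hα]; exact (x : ↥F).2
  have hβF : β ^ (p ^ k) ∈ F := by rw [hβ]; exact (y : ↥F).2
  have hζ0 : ∀ n : ℕ, ζ ^ n ≠ 0 := fun n => pow_ne_zero _ (hζ.ne_zero hp0)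
  obtain ⟨Le, hLe, heinv⟩ := he
  -- the level field
  have hLα := isUnramifiedOutside_root hF hpS k hx hα
  have hLβ := isUnramifiedOutside_root hF hpS k hy hβ
  have hM : ((F ⊔ IntermediateField.adjoin ℚ {α}) ⊔ (F ⊔ IntermediateField.adjoin ℚ {β})
      ⊔ Le).IsUnramifiedOutside S := (hLα.sup hLβ).sup hLe
  set M : IntermediateField ℚ Qbar :=
    (F ⊔ IntermediateField.adjoin ℚ {α}) ⊔ (F ⊔ IntermediateField.adjoin ℚ {β}) ⊔ Le with hMdef
  have hfinM : FiniteDimensional ℚ ↥M := hM.1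
  have hFM : F ≤ M := le_trans le_sup_left (le_trans le_sup_left le_sup_left)
  have hαM : α ∈ M :=
    (le_trans (le_trans le_sup_right le_sup_left) le_sup_left :
      IntermediateField.adjoin ℚ {α} ≤ M) (IntermediateField.mem_adjoin_simple_self ℚ α)
  have hβM : β ∈ M :=
    (le_trans (le_trans le_sup_right le_sup_right) le_sup_left :
      IntermediateField.adjoin ℚ {β} ≤ M) (IntermediateField.mem_adjoin_simple_self ℚ β)
  have hLeM : Le ≤ M := le_sup_right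
  -- the 1-cocycle
  let w : ↥F.fixingSubgroup → Qbar := fun g =>
    bOf p α (g : GQ) / (bOf p β (g : GQ) * ζ ^ (e g).val)
  have hw0 : ∀ g, w g ≠ 0 := fun g =>
    div_ne_zero (bOf_ne_zero hα0 _) (mul_ne_zero (bOf_ne_zero hβ0 _) (hζ0 _))
  have hw : ∀ g h : ↥F.fixingSubgroup, w (g * h) = w g * (g : GQ) (w h) := by
    intro g h
    have hrel : cF (p := p) F ζ α (g, h) + e (g * h) = cF F ζ β (g, h) + e h + e g := by
      have := hd g h
      linear_combination this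
    have hrel2 := congrArg (fun j : ZMod p => ζ ^ j.val) hrel
    simp only [zpow_val_add hζ] at hrel2
    simp only [cF] at hrel2
    rw [cOf_spec hζ hα0, cOf_spec hζ hβ0] at hrel2
    simp only [dbOf] at hrel2
    simp only [w]
    rw [map_div₀, map_mul, map_pow, fix_of_mem g.2 hζF, Subgroup.coe_mul]
    have n1 := bOf_ne_zero (p := p) hα0 ((g : GQ) * (h : GQ))
    have n2 := bOf_ne_zero (p := p) hβ0 ((g : GQ) * (h : GQ))
    have n3 := bOf_ne_zero (p := p) hβ0 (g : GQ)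
    have n4 : (g : GQ) (bOf p β (h : GQ)) ≠ 0 := (map_ne_zero _).2 (bOf_ne_zero hβ0 _)
    have n5 := hζ0 (e (g * h)).val
    have n6 := hζ0 (e g).val
    have n7 := hζ0 (e h).val
    have key : bOf p α (g : GQ) * (g : GQ) (bOf p α (h : GQ)) * ζ ^ (e (g * h)).val
          * bOf p β ((g : GQ) * (h : GQ))
        = bOf p β (g : GQ) * (g : GQ) (bOf p β (h : GQ)) * ζ ^ (e h).val * ζ ^ (e g).val
          * bOf p α ((g : GQ) * (h : GQ)) := by
      have h3 := congrArg (fun t : Qbar =>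
        t * (bOf p α ((g : GQ) * (h : GQ)) * bOf p β ((g : GQ) * (h : GQ)))) hrel2
      have l : bOf p α (g : GQ) * (g : GQ) (bOf p α (h : GQ)) / bOf p α ((g : GQ) * (h : GQ))
            * ζ ^ (e (g * h)).val
            * (bOf p α ((g : GQ) * (h : GQ)) * bOf p β ((g : GQ) * (h : GQ)))
          = bOf p α (g : GQ) * (g : GQ) (bOf p α (h : GQ)) * ζ ^ (e (g * h)).val
            * bOf p β ((g : GQ) * (h : GQ)) := by
        field_simp
      have r : bOf p β (g : GQ) * (g : GQ) (bOf p β (h : GQ)) / bOf p β ((g : GQ) * (h : GQ))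
            * ζ ^ (e h).val * ζ ^ (e g).val
            * (bOf p α ((g : GQ) * (h : GQ)) * bOf p β ((g : GQ) * (h : GQ)))
          = bOf p β (g : GQ) * (g : GQ) (bOf p β (h : GQ)) * ζ ^ (e h).val * ζ ^ (e g).val
            * bOf p α ((g : GQ) * (h : GQ)) := by
        field_simp
      rw [l, r] at h3
      exact h3
    rw [div_mul_div_comm, div_eq_div_iff (mul_ne_zero n2 n5)
      (mul_ne_zero (mul_ne_zero n3 n6) (mul_ne_zero n4 n7))]
    linear_combination (-1 : Qbar) * key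
  have hinv : ∀ g s : ↥F.fixingSubgroup, (s : GQ) ∈ M.fixingSubgroup → w (g * s) = w g := by
    intro g s hs
    have e1 : bOf p α ((g * s : ↥F.fixingSubgroup) : GQ) = bOf p α (g : GQ) :=
      bOf_congr (by rw [Subgroup.coe_mul, AlgEquiv.mul_apply, fix_of_mem hs hαM])
    have e2 : bOf p β ((g * s : ↥F.fixingSubgroup) : GQ) = bOf p β (g : GQ) :=
      bOf_congr (by rw [Subgroup.coe_mul, AlgEquiv.mul_apply, fix_of_mem hs hβM])
    have e3 : e (g * s) = e g :=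
      heinv g s (IntermediateField.fixingSubgroup_antitone hLeM hs)
    simp only [w]
    rw [e1, e2, e3]
  obtain ⟨γ, hγ0, hγM, hγ⟩ := hilbert90_fixing hFM w hw0 hw hinv
  -- `f0 = γ^p β / α ∈ F`
  have hf0F : γ ^ p * β / α ∈ F := by
    refine mem_of_fixed fun σ hσ => ?_
    have h1 := hγ ⟨σ, hσ⟩
    simp only [w] at h1
    have hb1 := bOf_pow (p := p) α σ
    have hb2 := bOf_pow (p := p) β σ
    have hz : (ζ ^ (e ⟨σ, hσ⟩).val) ^ p = 1 := by
      rw [← pow_mul, mul_comm, pow_mul, hζ.pow_eq_one, one_pow]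
    have n3 := bOf_ne_zero (p := p) hβ0 σ
    have n6 := hζ0 (e ⟨σ, hσ⟩).val
    have n8 : σ α ≠ 0 := (map_ne_zero _).2 hα0
    have n9 : σ β ≠ 0 := (map_ne_zero _).2 hβ0
    have h2 : σ γ ^ p = (σ α / α) / (σ β / β) * γ ^ p := by
      rw [h1, mul_pow, div_pow, mul_pow, hb1, hb2, hz, mul_one]
    rw [map_div₀, map_mul, map_pow, h2]
    field_simp
  have hf00 : γ ^ p * β / α ≠ 0 :=
    div_ne_zero (mul_ne_zero (pow_ne_zero _ hγ0) hβ0) hα0
  have hf0ne : (⟨γ ^ p * β / α, hf0F⟩ : ↥F) ≠ 0 := fun h => hf00 (congrArg Subtype.val h)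
  -- `z = (x / y) * f0^(p^k) = γ^(p^(k+1))`
  have hzval : γ ^ (p ^ (k + 1))
      = (((x / y * (Units.mk0 (⟨γ ^ p * β / α, hf0F⟩ : ↥F) hf0ne) ^ (p ^ k) : (↥F)ˣ) : ↥F) : Qbar) := by
    have h1 : (((x / y * (Units.mk0 (⟨γ ^ p * β / α, hf0F⟩ : ↥F) hf0ne) ^ (p ^ k) : (↥F)ˣ) : ↥F) : Qbar)
        = ((x : ↥F) : Qbar) / ((y : ↥F) : Qbar) * (γ ^ p * β / α) ^ (p ^ k) := by
      push_cast
      rfl
    rw [h1, ← hα, ← hβ, pow_succ', pow_mul, div_pow, mul_pow]
    have n1 := pow_ne_zero (p ^ k) hα0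
    have n2 := pow_ne_zero (p ^ k) hβ0
    field_simp
  have hz : x / y * (Units.mk0 (⟨γ ^ p * β / α, hf0F⟩ : ↥F) hf0ne) ^ (p ^ k)
      ∈ kumS (𝓞 F) F (SF F S : Set (IsDedekindDomain.HeightOneSpectrum (𝓞 F))) (p ^ (k + 1)) := by
    rw [mem_kumS_SF_iff]
    have hnS : ∀ q : Nat.Primes, (q : ℕ) ∣ p ^ (k + 1) → q ∈ S := fun q hq =>
      hpS q (q.2.dvd_of_dvd_pow hq)
    have hγF : γ ^ (p ^ (k + 1)) ∈ F := by
      rw [hzval]
      exact Subtype.property _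
    have hsub : F ⊔ IntermediateField.adjoin ℚ {γ} ≤ M :=
      sup_le hFM (IntermediateField.adjoin_le_iff.2 (Set.singleton_subset_iff.2 hγM))
    have h1 := (Fermat.Agent.S55.helper4709.isUnramifiedOutside_sup_adjoin_root_iff hF
      (p ^ (k + 1)) hnS γ hγF hγ0).1 (hM.of_le hsub)
    intro q hq A hA
    obtain ⟨b, hbF, hb0, hv⟩ := h1 q hq A hA
    have hbne : (⟨b, hbF⟩ : ↥F) ≠ 0 := fun h => hb0 (congrArg Subtype.val h)
    refine ⟨Units.mk0 ⟨b, hbF⟩ hbne, ?_⟩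
    have h2 : algebraMap (↥F) Qbar
        (((x / y * (Units.mk0 (⟨γ ^ p * β / α, hf0F⟩ : ↥F) hf0ne) ^ (p ^ k) : (↥F)ˣ) : ↥F)
          / ((Units.mk0 (⟨b, hbF⟩ : ↥F) hbne : (↥F)ˣ) : ↥F) ^ (p ^ (k + 1)))
        = γ ^ (p ^ (k + 1)) / b ^ (p ^ (k + 1)) := by
      rw [map_div₀, map_pow, hzval]
      rfl
    rw [h2]
    exact hv
  have hxy : x / y = (x / y * (Units.mk0 (⟨γ ^ p * β / α, hf0F⟩ : ↥F) hf0ne) ^ (p ^ k))
      * ((Units.mk0 (⟨γ ^ p * β / α, hf0F⟩ : ↥F) hf0ne)⁻¹) ^ (p ^ k) := by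
    rw [inv_pow, mul_inv_cancel_right]
  rw [hxy]
  exact Subgroup.mul_mem _ (Subgroup.mem_sup_left hz)
    (Subgroup.mem_sup_right (mem_powSub.mpr ⟨_, rfl⟩))

end Kernel

section Abstract

open Fermat.Agent.S55.helper9292

variable {A I : Type*} [CommGroup A] [CommGroup I] (π : A →* I) (T : Subgroup I)

/-- Every class of `I / (π(A) · T · Iᵖ)` has a representative `J` whose `p^k`-th power is
`π(x) · t` (`k` the `p`-adic valuation of `#(I / π(A) · T)`). -/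
theorem exists_root_class (p : ℕ) [Fact p.Prime] [Finite (I ⧸ (π.range ⊔ T))] :
    ∃ k : ℕ, ∀ J0 : I, ∃ (J : I) (x : A),
      π x * (J ^ (p ^ k))⁻¹ ∈ T ∧ J0 * J⁻¹ ∈ powSub I p := by
  have hm : Nat.card (I ⧸ (π.range ⊔ T)) ≠ 0 := Nat.card_pos.ne'
  obtain ⟨a, m', hm', hmeq⟩ :=
    Nat.exists_eq_pow_mul_and_not_dvd hm p (Fact.out : p.Prime).ne_one
  have hcop : Nat.Coprime m' p :=
    ((Nat.Prime.coprime_iff_not_dvd (Fact.out : p.Prime)).2 hm').symm
  obtain ⟨u, -, hu⟩ := Nat.exists_mul_mod_eq_one_of_coprime hcop (Fact.out : p.Prime).one_lt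
  refine ⟨a, fun J0 => ?_⟩
  have hw : m' * u = 1 + p * (m' * u / p) := by
    have := Nat.mod_add_div (m' * u) p
    omega
  have hJ0m : J0 ^ (Nat.card (I ⧸ (π.range ⊔ T))) ∈ π.range ⊔ T := by
    rw [← QuotientGroup.eq_one_iff, QuotientGroup.mk_pow]
    exact pow_card_eq_one'
  have hJp : (J0 ^ (m' * u)) ^ (p ^ a) ∈ π.range ⊔ T := by
    have h1 : (J0 ^ (m' * u)) ^ (p ^ a) = (J0 ^ (Nat.card (I ⧸ (π.range ⊔ T)))) ^ u := by
      rw [hmeq, ← pow_mul, ← pow_mul]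
      congr 1
      ring
    rw [h1]
    exact Subgroup.pow_mem _ hJ0m u
  obtain ⟨y, ⟨x, rfl⟩, t, ht, hyt⟩ := Subgroup.mem_sup.mp hJp
  refine ⟨J0 ^ (m' * u), x, ?_, ?_⟩
  · rw [← hyt, mul_inv, mul_inv_cancel_left]
    exact T.inv_mem ht
  · rw [mem_powSub]
    refine ⟨(J0 ^ (m' * u / p))⁻¹, ?_⟩
    have h2 : J0 ^ (m' * u) = J0 * (J0 ^ (m' * u / p)) ^ p := by
      conv_lhs => rw [hw]
      rw [pow_add, pow_one, pow_mul, ← pow_mul, ← pow_mul, mul_comm p]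
    rw [h2, mul_inv, mul_inv_cancel_left, inv_pow]

variable {π T}

/-- If `x / y ∈ Kum(n·m) · Aⁿ` then the `n`-th roots of the ideals of `x`, `y` agree modulo
`π(A) · T · Iᵐ`. -/
theorem root_class_eq (n m : ℕ) (hT : ∀ z : I, z ^ n ∈ T → z ∈ T) {x y : A} {Jx Jy : I}
    (hx : π x * (Jx ^ n)⁻¹ ∈ T) (hy : π y * (Jy ^ n)⁻¹ ∈ T)
    (hxy : x / y ∈ kumSub π T (n * m) ⊔ powSub A n) :
    Jx / Jy ∈ π.range ⊔ T ⊔ powSub I m := by
  obtain ⟨z, hz, c, hc, hzc⟩ := Subgroup.mem_sup.mp hxy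
  obtain ⟨a, rfl⟩ := mem_powSub.mp hc
  obtain ⟨t, ht, l, hl, htl⟩ := Subgroup.mem_sup.mp (Subgroup.mem_comap.mp hz)
  obtain ⟨L, rfl⟩ := mem_powSub.mp hl
  have hx' : (QuotientGroup.mk Jx : I ⧸ T) ^ n = QuotientGroup.mk (π x) := by
    rw [← QuotientGroup.mk_pow, QuotientGroup.eq, mul_comm]
    exact hx
  have hy' : (QuotientGroup.mk Jy : I ⧸ T) ^ n = QuotientGroup.mk (π y) := by
    rw [← QuotientGroup.mk_pow, QuotientGroup.eq, mul_comm]
    exact hy
  have hz' : (QuotientGroup.mk (π z) : I ⧸ T) = (QuotientGroup.mk L) ^ (n * m) := by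
    rw [← htl, QuotientGroup.mk_mul, (QuotientGroup.eq_one_iff t).2 ht, one_mul,
      QuotientGroup.mk_pow]
  have hxyz : x = y * (z * a ^ n) := by
    rw [hzc, mul_div_cancel]
  have key : (Jx / (Jy * L ^ m * π a)) ^ n ∈ T := by
    rw [← QuotientGroup.eq_one_iff, QuotientGroup.mk_pow, QuotientGroup.mk_div,
      QuotientGroup.mk_mul, QuotientGroup.mk_mul, QuotientGroup.mk_pow, div_pow, mul_pow, mul_pow,
      hx', hy', hxyz, map_mul, map_mul, map_pow, QuotientGroup.mk_mul, QuotientGroup.mk_mul,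
      QuotientGroup.mk_pow, hz', ← pow_mul, mul_comm m n, mul_assoc, div_self']
  have h1 := hT _ key
  have h2 : Jx / Jy = (Jx / (Jy * L ^ m * π a)) * π a * L ^ m := by
    rw [div_mul_eq_mul_div, div_mul_eq_mul_div, div_eq_div_iff_mul_eq_mul]
    ac_rfl
  rw [h2]
  exact Subgroup.mul_mem _ (Subgroup.mem_sup_left (Subgroup.mul_mem _ (Subgroup.mem_sup_right h1)
    (Subgroup.mem_sup_left ⟨a, rfl⟩))) (Subgroup.mem_sup_right (mem_powSub.mpr ⟨L, rfl⟩))

end Abstract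

section Final

open Fermat.Agent.S55.helper9292 Fermat.Agent.Lib.helper54
open scoped NumberField

attribute [local instance] numberField_intermediate

variable {S : Finset Nat.Primes} {p : ℕ} {F : IntermediateField ℚ Qbar}

theorem dvd_mem_of_isSFieldZeta (h : IsSFieldZeta S p F) :
    ∀ q : Nat.Primes, (q : ℕ) ∣ p → q ∈ S := by
  obtain ⟨q0, hq0S, hq0⟩ := h.mem
  intro q hq
  have h1 : (q : ℕ) = p := (Nat.prime_dvd_prime_iff_eq q.2 h.prime).1 hq
  have h2 : q = q0 := Subtype.ext (h1.trans hq0.symm)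
  rw [h2]
  exact hq0S

/-- **`Cl_S(F)/p` injects into `H²(G_{F,S}, 𝔽_p)`** (as sets). -/
theorem card_ClSModP_le_card_fieldH2 [FiniteDimensional ℚ F] (h : IsSFieldZeta S p F)
    [Finite (fieldH2 S p F)] :
    Nat.card (ClSModP (𝓞 F) F (SF F S : Set (IsDedekindDomain.HeightOneSpectrum (𝓞 F))) p)
      ≤ Nat.card (fieldH2 S p F) := by
  have : Fact p.Prime := ⟨h.prime⟩
  have hp0 : p ≠ 0 := h.prime.ne_zero
  obtain ⟨ζ, hζF, hζ⟩ := h.zeta
  have hpS := dvd_mem_of_isSFieldZeta h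
  obtain ⟨k, hk⟩ := exists_root_class (toPrincipalIdeal (𝓞 F) F)
    (suppSub (K := F) (SF F S : Set (IsDedekindDomain.HeightOneSpectrum (𝓞 F)))) p
  choose J x hJx hJ using hk
  have hpk : 0 < p ^ (k + 1) := pow_pos h.prime.pos _
  have : NeZero (p ^ (k + 1)) := ⟨hpk.ne'⟩
  obtain ⟨ξ, hξ⟩ := HasEnoughRootsOfUnity.exists_primitiveRoot Qbar (p ^ (k + 1))
  have hxT : ∀ J0, x J0 ∈ kumS (𝓞 F) F
      (SF F S : Set (IsDedekindDomain.HeightOneSpectrum (𝓞 F))) (p ^ k) := by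
    intro J0
    rw [kumS, Subgroup.mem_comap]
    have h1 : toPrincipalIdeal (𝓞 F) F (x J0)
        = (toPrincipalIdeal (𝓞 F) F (x J0) * (J J0 ^ (p ^ k))⁻¹) * J J0 ^ (p ^ k) := by
      rw [inv_mul_cancel_right]
    rw [h1]
    exact Subgroup.mul_mem _ (Subgroup.mem_sup_left (hJx J0))
      (Subgroup.mem_sup_right (mem_powSub.mpr ⟨_, rfl⟩))
  have hroot : ∀ J0, ∃ α : Qbar, α ^ (p ^ k) = ((x J0 : ↥F) : Qbar) := fun J0 =>
    IsAlgClosed.exists_pow_nat_eq _ (pow_pos h.prime.pos k)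
  choose α hα using hroot
  have hα0 : ∀ J0, α J0 ≠ 0 := by
    intro J0 h0
    have h1 := hα J0
    rw [h0, zero_pow (pow_ne_zero k hp0)] at h1
    exact unit_coe_ne_zero (x J0) h1.symm
  have hαF : ∀ J0, α J0 ^ (p ^ k) ∈ F := by
    intro J0
    rw [hα J0]
    exact (x J0 : ↥F).2
  have hlev : ∀ J0, IsLevS₂ S F.fixingSubgroup.subtype (cF (p := p) F ζ (α J0)) := by
    intro J0
    have hL1 := isUnramifiedOutside_root h.unram hpS k (hxT J0) (hα J0)
    have hnS : ∀ q : Nat.Primes, (q : ℕ) ∣ p ^ (k + 1) → q ∈ S := fun q hq =>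
      hpS q (q.2.dvd_of_dvd_pow hq)
    have hL2 := Fermat.Agent.S55.helper4709.isUnramifiedOutside_sup_adjoin_rootOfUnity hL1
      (p ^ (k + 1)) hnS ξ hξ.pow_eq_one
    refine cF_isLevS₂ hζ (hα0 J0) (hαF J0) hξ hL2 ?_ ?_
    · exact (le_trans le_sup_right le_sup_left :
        IntermediateField.adjoin ℚ {α J0} ≤ _) (IntermediateField.mem_adjoin_simple_self ℚ _)
    · exact (le_sup_right : IntermediateField.adjoin ℚ {ξ} ≤ _)
        (IntermediateField.mem_adjoin_simple_self ℚ _)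
  refine Nat.card_le_card_of_injective
    (fun q : ClSModP (𝓞 F) F (SF F S : Set (IsDedekindDomain.HeightOneSpectrum (𝓞 F))) p =>
      clsOf S hζ hζF (hα0 (Quotient.out q)) (hlev (Quotient.out q))) ?_
  intro q q' hqq
  obtain ⟨e, he, hd⟩ := exists_of_clsOf_eq hζ hζF (hα0 _) (hα0 _) (hlev _) (hlev _) hqq
  have hdiv := div_mem_of_coboundary h.unram hpS hζ hζF k (hxT (Quotient.out q))
    (hxT (Quotient.out q')) (hα (Quotient.out q)) (hα (Quotient.out q')) e he hd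
  have hJJ := root_class_eq (π := toPrincipalIdeal (𝓞 F) F)
    (T := suppSub (K := F) (SF F S : Set (IsDedekindDomain.HeightOneSpectrum (𝓞 F))))
    (p ^ k) p (suppSub_saturated _ (pow_ne_zero k hp0)) (hJx (Quotient.out q))
    (hJx (Quotient.out q')) (by rw [← pow_succ]; exact hdiv)
  have hq : ∀ q : ClSModP (𝓞 F) F (SF F S : Set (IsDedekindDomain.HeightOneSpectrum (𝓞 F))) p,
      (QuotientGroup.mk (J (Quotient.out q)) :
        ClSModP (𝓞 F) F (SF F S : Set (IsDedekindDomain.HeightOneSpectrum (𝓞 F))) p) = q := by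
    intro q
    conv_rhs => rw [← QuotientGroup.out_eq' q]
    rw [QuotientGroup.eq]
    have h1 := hJ (Quotient.out q)
    rw [mul_comm] at h1
    exact Subgroup.mem_sup_right h1
  rw [← hq q, ← hq q', QuotientGroup.eq]
  have h2 := Subgroup.inv_mem _ hJJ
  rw [inv_div, div_eq_mul_inv, mul_comm] at h2
  exact h2

/-- **NF-CLH2 on the GB carrier**: `rk_p Cl_S(F) ≤ h²(G_{F,S}, 𝔽_p)`. -/
theorem clSRank_le_finrank_fieldH2 [FiniteDimensional ℚ F] (h : IsSFieldZeta S p F)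
    [Module.Finite (ZMod p) (fieldH2 S p F)] :
    clSRank (𝓞 F) F (SF F S : Set (IsDedekindDomain.HeightOneSpectrum (𝓞 F))) p
      ≤ Module.finrank (ZMod p) (fieldH2 S p F) := by
  have : Fact p.Prime := ⟨h.prime⟩
  have : Finite (fieldH2 S p F) := Module.finite_of_finite (ZMod p)
  have h1 := card_ClSModP_le_card_fieldH2 h
  rw [card_ClSModP, clSModCard_eq_pow,
    Module.natCard_eq_pow_finrank (K := ZMod p) (V := fieldH2 S p F), Nat.card_zmod] at h1
  exact (Nat.pow_le_pow_iff_right h.prime.one_lt).1 h1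

/-- `FieldUpper` for an `S`-field containing `μ_p` with finite `H²`. -/
theorem fieldUpper_of_finite (h : IsSFieldZeta S p F)
    (hfin : Module.Finite (ZMod p) (fieldH2 S p F)) : FieldUpper S p F := by
  have : FiniteDimensional ℚ ↥F := h.unram.1
  have h1 := two_mul_finrank_fieldH1 h
  have h2 := clSRank_le_finrank_fieldH2 h
  unfold FieldUpper
  omega

/-- `Stmt_FieldUpper` follows from `Stmt_FieldFin`. -/
theorem stmt_FieldUpper_of (hFin : Stmt_FieldFin) : Stmt_FieldUpper :=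
  fun S p F h => fieldUpper_of_finite h (hFin S p F h).2

/-- `Stmt_FieldFin` follows from the finiteness of `fieldH2` alone (the `H¹` half is
`finite_fieldH1`). -/
theorem stmt_FieldFin_of
    (h2 : ∀ (S : Finset Nat.Primes) (p : ℕ) (F : IntermediateField ℚ Qbar),
      IsSFieldZeta S p F → Module.Finite (ZMod p) (fieldH2 S p F)) : Stmt_FieldFin :=
  fun S p F h =>
    ⟨by
      have : FiniteDimensional ℚ ↥F := h.unram.1
      exact finite_fieldH1 h, h2 S p F h⟩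

/-- `FieldLower` from the Hasse bound `a₂ ≤ rk_p Cl_S(F)` (with `c = clSRank`). -/
theorem fieldLower_of_sha2_le [FiniteDimensional ℚ F] (h : IsSFieldZeta S p F)
    (hsha : Module.finrank (ZMod p) (fieldSha2 S p F)
      ≤ clSRank (𝓞 F) F (SF F S : Set (IsDedekindDomain.HeightOneSpectrum (𝓞 F))) p) :
    FieldLower S p F := by
  have h1 := two_mul_finrank_fieldH1 h
  unfold FieldLower
  omega

end Final

end Fermat.Agent.S55.helper324
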