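/-
S55 (Poitou–Tate), SOFT layer, leaf SOFT-E: the devissage `E*(M) ≤ 0` for every `S`-module.
Author: helper613.

`E*(M) = χ(M) + χ(M') - ∑_{q ∈ S} χ_q(M)` with `χ = h⁰ - h¹ + h²` (global, on the frozen carriers)
and `χ_q` the local Euler characteristic.  `helper2945.Stmt_E` says `E*(M) ≤ 0` (in `ℕ`-form).

This file proves `Stmt_E` from the other soft statements and four closed `Prop`s:

* `Stmt_ChiSub`     : `χ(B) ≤ χ(A) + χ(C)` on short exact sequences of `S`-modules (truncated
                      long exact sequence);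
* `Stmt_ChiSplit`   : `χ(A) + χ(C) ≤ χ(B)` when the sequence has an equivariant section;
* `Stmt_ChiLocAdd`  : `∑_q χ_q` is additive on short exact sequences of `S`-modules (local long
                      exact sequence + right exactness of the local `H²`);
* `Stmt_EStarBase`  : `E*(coind_F 𝔽_p) ≤ 0` for every `S`-field `F` containing `μ_p`.

The proof is the Sylow devissage `helper5178.sylow_devissage` applied to `P M := E*(M) ≤ 0`:
closure under extensions is subadditivity of `E*`; closure under direct summands uses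
additivity on split sequences together with `E* ≥ 0`, which is step D of the squeeze
(`eStar_ge`, from `Stmt_Fin`, `Stmt_A`, `Stmt_B`, `Stmt_C`, `Stmt_L2num`).
-/
import Mathlib
import Fermat.Prelude.Def_GroupCohomology_ContinuousUnramified
import Fermat.Agent.S55.helper2945_SoftSpec
import Fermat.Agent.S55.helper5178_Sylow
import Fermat.Agent.S55.helper4039_SModField
import Fermat.Agent.S55.helper1408_DualTwist
import Fermat.Agent.S55.helper8412_DualClosed
import Fermat.Agent.S55.helper3071_GlobalBridge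

set_option autoImplicit false

noncomputable section

namespace Fermat.Agent.S55.helper613

open CategoryTheory Module groupCohomology ExtCitation
open Fermat.Agent.S55.helper2945

/-! ## The statements -/

/-- `E*(M) ≤ 0` in `ℕ`-form: the body of `helper2945.Stmt_E`. -/
def EStarLe {p : ℕ} [Fact p.Prime] (S : Finset Nat.Primes) (M : Rep.{0, 0, 0} (ZMod p) GQ) :
    Prop :=
  h0 M + h2 S M + h0 (dualT M) + h2 S (dualT M) + pi1 S M ≤
    h1 S M + h1 S (dualT M) + pi0 S M + pi2 S M

/-- Subadditivity of the global truncated Euler characteristic `χ = h⁰ - h¹ + h²` on short exact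
sequences of `S`-modules: `χ(B) ≤ χ(A) + χ(C)` (in `ℕ`-form). -/
def Stmt_ChiSub : Prop :=
  ∀ {p : ℕ} [Fact p.Prime], p ≠ 2 → ∀ (S : Finset Nat.Primes), pPrime p ∈ S →
    ∀ (A B C : Rep.{0, 0, 0} (ZMod p) GQ) (f : A ⟶ B) (g : B ⟶ C),
      IsSMod S A → IsSMod S B → IsSMod S C →
      Function.Injective f.hom → Function.Surjective g.hom → Function.Exact f.hom g.hom →
      h0 B + h1 S A + h1 S C + h2 S B ≤ h0 A + h0 C + h1 S B + h2 S A + h2 S C

/-- Superadditivity of the global truncated Euler characteristic on split short exact sequences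
of `S`-modules: `χ(A) + χ(C) ≤ χ(B)` if `g` has an equivariant section (in `ℕ`-form). -/
def Stmt_ChiSplit : Prop :=
  ∀ {p : ℕ} [Fact p.Prime], p ≠ 2 → ∀ (S : Finset Nat.Primes), pPrime p ∈ S →
    ∀ (A B C : Rep.{0, 0, 0} (ZMod p) GQ) (f : A ⟶ B) (g : B ⟶ C) (s : C ⟶ B),
      IsSMod S A → IsSMod S B → IsSMod S C →
      Function.Injective f.hom → Function.Exact f.hom g.hom → (∀ c, g.hom (s.hom c) = c) →
      h0 A + h0 C + h1 S B + h2 S A + h2 S C ≤ h0 B + h1 S A + h1 S C + h2 S B

/-- Additivity of the sum of the local Euler characteristics `∑_{q ∈ S} (h⁰_q - h¹_q + h²_q)` on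
short exact sequences of `S`-modules (in `ℕ`-form). -/
def Stmt_ChiLocAdd : Prop :=
  ∀ {p : ℕ} [Fact p.Prime], p ≠ 2 → ∀ (S : Finset Nat.Primes), pPrime p ∈ S →
    ∀ (A B C : Rep.{0, 0, 0} (ZMod p) GQ) (f : A ⟶ B) (g : B ⟶ C),
      IsSMod S A → IsSMod S B → IsSMod S C →
      Function.Injective f.hom → Function.Surjective g.hom → Function.Exact f.hom g.hom →
      pi0 S A + pi2 S A + pi0 S C + pi2 S C + pi1 S B = pi1 S A + pi1 S C + pi0 S B + pi2 S B

/-- The base case of the devissage: `E*(coind_F 𝔽_p) ≤ 0` for every `S`-field `F` containing the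
`p`-th roots of unity. -/
def Stmt_EStarBase : Prop :=
  ∀ {p : ℕ} [Fact p.Prime], p ≠ 2 → ∀ (S : Finset Nat.Primes), pPrime p ∈ S →
    ∀ F : IntermediateField ℚ (AlgebraicClosure ℚ), helper3071.IsSFieldZeta S p F →
      EStarLe S (helper3071.indRep p F)

/-! ## Step D: `E* ≥ 0` -/

/-- Step D of the squeeze: `E*(M) ≥ 0` for every `S`-module, from steps A, B, C and the numerical
form of (L2). -/
theorem eStar_ge (hFin : Stmt_Fin) (hA : Stmt_A) (hB : Stmt_B) (hC : Stmt_C) (hL : Stmt_L2num)
    {p : ℕ} [Fact p.Prime] (hp2 : p ≠ 2) (S : Finset Nat.Primes) (hpS : pPrime p ∈ S)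
    (M : Rep.{0, 0, 0} (ZMod p) GQ) (hM : IsSMod S M) :
    h1 S M + h1 S (dualT M) + pi0 S M + pi2 S M ≤
      h0 M + h2 S M + h0 (dualT M) + h2 S (dualT M) + pi1 S M := by
  obtain ⟨f1, f2, f3, f4⟩ := hFin hp2 S hpS M hM
  obtain ⟨hA1, hA2⟩ := hA hp2 S hpS M hM
  obtain ⟨hB1, hB2⟩ := hB hp2 S hpS M hM
  have hC' := hC hp2 S hpS M hM
  have hL' := hL hp2 S hpS M hM
  have e1 := a1_add_r1 S M
  have e2 := a2_add_r2 S M
  have e3 := a1_add_r1 S (dualT M)
  have e4 := a2_add_r2 S (dualT M)
  omega

/-! ## The zero module -/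

section Zero

variable {p : ℕ} [Fact p.Prime] (S : Finset Nat.Primes)

theorem h0_eq_zero_of_subsingleton {G : Type} [Group G] (A : Rep.{0, 0, 0} (ZMod p) G)
    [Subsingleton A] : finrank (ZMod p) (Representation.invariants A.ρ) = 0 := by
  have : Subsingleton ↥(Representation.invariants A.ρ) :=
    ⟨fun x y => Subtype.ext (Subsingleton.elim _ _)⟩
  exact finrank_zero_of_subsingleton

theorem h2_eq_zero_of_subsingleton (A : Rep.{0, 0, 0} (ZMod p) GQ) [Subsingleton A] :
    h2 S A = 0 := by
  have h1 : Subsingleton ↥(levelCocyclesS₂ S A) :=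
    ⟨fun x y => Subtype.ext (funext fun t => Subsingleton.elim _ _)⟩
  have h2 : Subsingleton (continuousH2S S A) :=
    (Submodule.mkQ_surjective _).subsingleton
  exact finrank_zero_of_subsingleton

theorem subsingleton_dualT (A : Rep.{0, 0, 0} (ZMod p) GQ) [Subsingleton A] :
    Subsingleton (dualT A) :=
  ⟨fun φ ψ => LinearMap.ext fun a => by
    rw [Subsingleton.elim a 0]
    exact (map_zero φ).trans (map_zero ψ).symm⟩

theorem pi1_eq_zero_of_subsingleton (A : Rep.{0, 0, 0} (ZMod p) GQ) [Subsingleton A] :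
    pi1 S A = 0 := by
  unfold pi1
  refine Finset.sum_eq_zero fun q _ => ?_
  have hsub : Subsingleton ↥(continuousH1 (primeLocalToGlobal q)
      (Rep.res (primeLocalToGlobal q) A)) := by
    refine ⟨fun x y => Subtype.ext ?_⟩
    obtain ⟨c, -, hc⟩ := (mem_continuousH1_iff _ _ _).1 x.2
    obtain ⟨c', -, hc'⟩ := (mem_continuousH1_iff _ _ _).1 y.2
    have hcc : c = c' := Subtype.ext (funext fun t => Subsingleton.elim (α := A) _ _)
    rw [← hc, ← hc', hcc]
  exact finrank_zero_of_subsingleton

theorem eStarLe_of_subsingleton (A : Rep.{0, 0, 0} (ZMod p) GQ) (hA : Subsingleton A) :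
    EStarLe S A := by
  have hA' : Subsingleton (dualT A) := subsingleton_dualT A
  have e1 : h0 A = 0 := h0_eq_zero_of_subsingleton A
  have e2 : h2 S A = 0 := h2_eq_zero_of_subsingleton S A
  have e3 : h0 (dualT A) = 0 := h0_eq_zero_of_subsingleton (dualT A)
  have e4 : h2 S (dualT A) = 0 := h2_eq_zero_of_subsingleton S (dualT A)
  have e5 : pi1 S A = 0 := pi1_eq_zero_of_subsingleton S A
  unfold EStarLe
  omega

end Zero

/-! ## Split sequences: a retraction of the injection -/

/-- In a short exact sequence `0 → X → B → A → 0` with an equivariant section `i` of `π`, the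
injection `j` has an equivariant retraction. -/
theorem exists_retraction_of_section {k G : Type} [CommRing k] [Group G]
    {A B X : Rep.{0, 0, 0} k G} (j : X ⟶ B) (π : B ⟶ A) (i : A ⟶ B)
    (hj : Function.Injective j.hom) (hex : Function.Exact j.hom π.hom)
    (hπi : ∀ a, π.hom (i.hom a) = a) : ∃ r : B ⟶ X, j ≫ r = 𝟙 X := by
  have hker : ∀ b : B, ∃ x : X, j.hom x = b - i.hom (π.hom b) := fun b =>
    (hex _).1 (by rw [map_sub, hπi, sub_self])
  choose r₀ hr₀ using hker
  have hadd : ∀ b b' : B, r₀ (b + b') = r₀ b + r₀ b' := fun b b' => hj (by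
    rw [map_add, hr₀, hr₀, hr₀, map_add, map_add]; abel)
  have hsmul : ∀ (c : k) (b : B), r₀ (c • b) = c • r₀ b := fun c b => hj (by
    rw [map_smul, hr₀, hr₀, map_smul, map_smul, smul_sub])
  let rl : B →ₗ[k] X :=
    { toFun := r₀
      map_add' := hadd
      map_smul' := hsmul }
  have hint : ∀ (g : G) (b : B), rl (B.ρ g b) = X.ρ g (rl b) := fun g b => hj (by
    show j.hom (r₀ (B.ρ g b)) = j.hom (X.ρ g (r₀ b))
    rw [Rep.hom_comm_apply, hr₀, hr₀, Rep.hom_comm_apply, Rep.hom_comm_apply, map_sub])
  refine ⟨Rep.ofHom (rl.intertwiningMap_of_isIntertwiningMap B.ρ X.ρ hint), ?_⟩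
  apply Rep.hom_ext
  apply Representation.IntertwiningMap.ext
  apply LinearMap.ext
  intro x
  apply hj
  show j.hom (r₀ (j.hom x)) = j.hom x
  rw [hr₀]
  have h0 : π.hom (j.hom x) = 0 := (hex _).2 ⟨x, rfl⟩
  rw [h0, map_zero, sub_zero]

/-! ## The devissage -/

/-- A finite-dimensional module trivialised by a field unramified outside `S` is an `S`-module. -/
theorem isSMod_of_trivial {p : ℕ} [Fact p.Prime] (S : Finset Nat.Primes)
    {K : IntermediateField ℚ (AlgebraicClosure ℚ)} (hK : K.IsUnramifiedOutside S)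
    (A : Rep.{0, 0, 0} (ZMod p) GQ) (hfin : Module.Finite (ZMod p) A)
    (hA : ∀ n ∈ K.fixingSubgroup, A.ρ n = 1) : IsSMod S A :=
  ⟨hfin, fun m => ⟨K, hK.1, fun s hs => by rw [hA s hs]; rfl⟩,
    fun q hq Av hAv g hg => hA g (hK.2 q hq Av hAv hg)⟩

/-- If the `p ^ n`-th power of `h` has trivial mod `p` cyclotomic character, so has `h`. -/
theorem cycloChar_eq_one_of_pow_mem {p : ℕ} [Fact p.Prime] {h : GQ} {n : ℕ}
    (hn : cycloChar p (h ^ p ^ n) = 1) : cycloChar p h = 1 := by
  rw [map_pow] at hn
  apply Units.ext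
  have h1 : ((cycloChar p h : (ZMod p)ˣ) : ZMod p) ^ p ^ n = 1 := by
    rw [← Units.val_pow_eq_pow_val, hn]
    rfl
  rw [ZMod.pow_card_pow] at h1
  exact h1

/-- **SOFT-E.** `helper2945.Stmt_E` (`E*(M) ≤ 0` for every `S`-module `M`) by Sylow devissage,
from the soft statements A, B, C, (L2)-numerical, finiteness, sub/super-additivity of the global
Euler characteristic, additivity of the local one, and the base case `E*(coind_F 𝔽_p) ≤ 0`. -/
theorem stmt_E_of (hFin : Stmt_Fin) (hA : Stmt_A) (hB : Stmt_B) (hC : Stmt_C) (hL : Stmt_L2num)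
    (hSub : Stmt_ChiSub) (hSplit : Stmt_ChiSplit) (hLoc : Stmt_ChiLocAdd)
    (hBase : Stmt_EStarBase) : Stmt_E := by
  intro p _ hp2 S hpS M hM
  have hp : p.Prime := Fact.out
  have := hM.finite
  obtain ⟨K, hK, -, hKn, hKfi, hKM, hKχ, hKζ⟩ :=
    helper4039.exists_galois_sfield_trivializing_rep p hpS M hM.smooth hM.unram
  have hKfd := hK.1
  obtain ⟨ζ, hζ⟩ := helper4039.exists_isPrimitiveRoot_Qbar p
  have hmem : ∃ q ∈ S, ((q : Nat.Primes) : ℕ) = p := ⟨pPrime p, hpS, rfl⟩
  -- `S`-modules from triviality on `Gal(ℚbar/K)`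
  have hS : ∀ A : Rep.{0, 0, 0} (ZMod p) GQ, Module.Finite (ZMod p) A →
      (∀ n ∈ K.fixingSubgroup, A.ρ n = 1) → IsSMod S A :=
    fun A hfin hA => isSMod_of_trivial S hK A hfin hA
  have hS' : ∀ A : Rep.{0, 0, 0} (ZMod p) GQ, IsSMod S A → IsSMod S (dualT A) :=
    fun A hA => helper8412.isSMod_dualT S hpS A hA
  have key : EStarLe S M := by
    refine helper5178.sylow_devissage K.fixingSubgroup (fun A => EStarLe S A)
      (fun A hA => eStarLe_of_subsingleton S A hA) ?_ ?_ ?_ M hKM
    · -- extensions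
      intro A B C f g hAf hBf hCf hAN hBN hCN hf hg hex hPA hPC
      have sA := hS A hAf hAN
      have sB := hS B hBf hBN
      have sC := hS C hCf hCN
      have h1 := hSub hp2 S hpS A B C f g sA sB sC hf hg hex
      obtain ⟨hinj', hex', hsurj'⟩ :=
        helper1408.dualTwistMap_shortExact (cycloChar p) f g hf hex hg
      have h2 := hSub hp2 S hpS (dualT C) (dualT B) (dualT A)
        (helper1408.dualTwistMap (cycloChar p) g) (helper1408.dualTwistMap (cycloChar p) f)
        (hS' C sC) (hS' B sB) (hS' A sA) hinj' hsurj' hex'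
      have h3 := hLoc hp2 S hpS A B C f g sA sB sC hf hg hex
      unfold EStarLe at hPA hPC ⊢
      omega
    · -- direct summands
      intro A B X j π i hAf hBf hXf hAN hBN hXN hj hex hπi hPB
      have sA := hS A hAf hAN
      have sB := hS B hBf hBN
      have sX := hS X hXf hXN
      have hπ : Function.Surjective π.hom := fun a => ⟨i.hom a, hπi a⟩
      obtain ⟨r, hr⟩ := exists_retraction_of_section j π i hj hex hπi
      have h1 := hSplit hp2 S hpS X B A j π i sX sB sA hj hex hπi
      obtain ⟨hinj', hex', hsurj'⟩ :=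
        helper1408.dualTwistMap_shortExact (cycloChar p) j π hj hex hπ
      have hsec : ∀ c, (helper1408.dualTwistMap (cycloChar p) j).hom
          ((helper1408.dualTwistMap (cycloChar p) r).hom c) = c := by
        intro c
        have h := helper1408.dualTwistMap_comp_eq_id (cycloChar p) j r hr
        have h' := congrArg (fun φ : dualT X ⟶ dualT X => φ.hom c) h
        exact h'
      have h2 := hSplit hp2 S hpS (dualT A) (dualT B) (dualT X)
        (helper1408.dualTwistMap (cycloChar p) π) (helper1408.dualTwistMap (cycloChar p) j)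
        (helper1408.dualTwistMap (cycloChar p) r)
        (hS' A sA) (hS' B sB) (hS' X sX) hinj' hex' hsec
      have h3 := hLoc hp2 S hpS X B A j π sX sB sA hj hπ hex
      have h4 := eStar_ge hFin hA hB hC hL hp2 S hpS X sX
      unfold EStarLe at hPB ⊢
      omega
    · -- permutation modules
      intro H hKH hHp _
      have hFH : (IntermediateField.fixedField H).fixingSubgroup = H :=
        helper4039.fixingSubgroup_fixedField_of_le hKH
      have hFK : IntermediateField.fixedField H ≤ K := helper4039.fixedField_le_of_le hKH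
      have hFS : (IntermediateField.fixedField H).IsUnramifiedOutside S := hK.of_le hFK
      have hζF : ζ ∈ IntermediateField.fixedField H := by
        rw [IntermediateField.mem_fixedField_iff]
        intro h hh
        obtain ⟨n, hn⟩ := hHp h hh
        have h1 : cycloChar p h = 1 := cycloChar_eq_one_of_pow_mem (hKχ _ hn)
        exact (helper4039.cycloChar_eq_one_iff p h).1 h1 ζ hζ.pow_eq_one
      have hbase := hBase hp2 S hpS (IntermediateField.fixedField H)
        ⟨hp, hp2, hmem, hFS, ζ, hζF, hζ⟩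
      revert hbase
      show EStarLe S (Rep.coind
          (IntermediateField.fixedField H).fixingSubgroup.subtype
          (Rep.trivial (ZMod p) (IntermediateField.fixedField H).fixingSubgroup (ZMod p))) →
        EStarLe S (Rep.coind H.subtype (Rep.trivial (ZMod p) H (ZMod p)))
      rw [hFH]
      exact id
  exact key

end Fermat.Agent.S55.helper613
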