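/-
S55 (Poitou–Tate), soft layer: ISO TRANSPORT on the frozen carriers.  Author: helper9763.

Every frozen carrier of S55 (invariants, `continuousH1 r`, `continuousH2 r`, `continuousH1S S`,
`continuousH2S S`, `sha₁ S`, `sha₂ S`, the ranges of the total localisation maps) is transported
along an isomorphism of representations `e : A ≅ B`, by an explicit linear equivalence.
Consequently every numerical invariant of the soft squeeze is invariant under `Rep` isomorphisms.

Main declarations (namespace `Fermat.Agent.S55.helper9763`):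
* generic (`G : Type u`, `r : G →* G_ℚ`): `invariantsEquiv`, `H1Equiv`, `continuousH1Equiv`,
  `continuousH2Equiv`;
* global (`S : Finset Nat.Primes`): `continuousH1SEquiv`, `continuousH2SMap`, `continuousH2SEquiv`,
  `locRes₂S_continuousH2SMap` (naturality), `sha₂Equiv`, `sha₁Equiv`, `rangeLocTotal₂SEquiv`,
  `locTotalImageEquiv`, `resIso`;
* numerical corollaries `finrank_*_eq_of_iso`.
-/
import Mathlib
import Fermat.Prelude.Def_GroupCohomology_ContinuousUnramified

set_option autoImplicit false

namespace Fermat.Agent.S55.helper9763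

open CategoryTheory Module groupCohomology ExtCitation

universe u

noncomputable section

/-! ### Generic part: any group `G` with a level map `r : G →* G_ℚ` -/

section Generic

variable {k G : Type u} [CommRing k] [Group G] {A B C : Rep k G}

/-- The map induced on invariants by a morphism of representations. -/
def invariantsMap (φ : A ⟶ B) : A.ρ.invariants →ₗ[k] B.ρ.invariants :=
  (φ.hom.toLinearMap.restrict (p := A.ρ.invariants) (q := B.ρ.invariants)) fun a ha g => by
    have := Rep.hom_comm_apply φ g a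
    rw [ha g] at this
    exact this.symm

@[simp] lemma invariantsMap_coe (φ : A ⟶ B) (a : A.ρ.invariants) :
    (invariantsMap φ a : B) = φ.hom (a : A) := rfl

/-- Invariants are transported along an isomorphism of representations. -/
def invariantsEquiv (e : A ≅ B) : A.ρ.invariants ≃ₗ[k] B.ρ.invariants where
  __ := invariantsMap e.hom
  invFun := invariantsMap e.inv
  left_inv a := Subtype.ext (by simp)
  right_inv b := Subtype.ext (by simp)

/-- The map induced on `H¹` by a morphism of representations, as a linear map. -/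
def H1Map (φ : A ⟶ B) : H1 A →ₗ[k] H1 B :=
  (groupCohomology.map (MonoidHom.id G) φ 1).hom

lemma H1Map_H1π (φ : A ⟶ B) (c : cocycles₁ A) :
    H1Map φ ((H1π A).hom c) = (H1π B).hom ((mapCocycles₁ (MonoidHom.id G) φ).hom c) := by
  simp [H1Map]

lemma coe_mapCocycles₁_id (φ : A ⟶ B) (c : cocycles₁ A) :
    ((mapCocycles₁ (MonoidHom.id G) φ).hom c : G → B) = fun g => φ.hom ((c : G → A) g) := by
  rw [coe_mapCocycles₁]
  rfl

lemma H1Map_id (x : H1 A) : H1Map (𝟙 A) x = x := by
  simp [H1Map]

lemma H1Map_comp (φ : A ⟶ B) (ψ : B ⟶ C) (x : H1 A) :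
    H1Map (φ ≫ ψ) x = H1Map ψ (H1Map φ x) := by
  simp [H1Map, groupCohomology.map_id_comp]

/-- `H¹` is transported along an isomorphism of representations. -/
def H1Equiv (e : A ≅ B) : H1 A ≃ₗ[k] H1 B where
  __ := H1Map e.hom
  invFun := H1Map e.inv
  left_inv x := by
    show H1Map e.inv (H1Map e.hom x) = x
    rw [← H1Map_comp, e.hom_inv_id, H1Map_id]
  right_inv x := by
    show H1Map e.hom (H1Map e.inv x) = x
    rw [← H1Map_comp, e.inv_hom_id, H1Map_id]

@[simp] lemma H1Equiv_apply (e : A ≅ B) (x : H1 A) : H1Equiv e x = H1Map e.hom x := rfl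

@[simp] lemma H1Equiv_symm_apply (e : A ≅ B) (x : H1 B) : (H1Equiv e).symm x = H1Map e.inv x := rfl

variable (r : G →* (AlgebraicClosure ℚ ≃ₐ[ℚ] AlgebraicClosure ℚ))

lemma H1Map_mem_continuousH1 (φ : A ⟶ B) {x : H1 A} (hx : x ∈ continuousH1 r A) :
    H1Map φ x ∈ continuousH1 r B := by
  obtain ⟨c, hc, rfl⟩ := (mem_continuousH1_iff r A x).1 hx
  rw [H1Map_H1π]
  refine H1π_mem_continuousH1 r B ?_
  rw [coe_mapCocycles₁_id]
  exact hc.comp (fun a => φ.hom a)

lemma map_H1Equiv_continuousH1 (e : A ≅ B) :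
    (continuousH1 r A).map (H1Equiv e).toLinearMap = continuousH1 r B := by
  apply le_antisymm
  · rintro _ ⟨x, hx, rfl⟩
    exact H1Map_mem_continuousH1 r e.hom hx
  · intro y hy
    exact ⟨H1Map e.inv y, H1Map_mem_continuousH1 r e.inv hy, (H1Equiv e).apply_symm_apply y⟩

/-- The level-continuous `H¹` is transported along an isomorphism of representations. -/
def continuousH1Equiv (e : A ≅ B) : continuousH1 r A ≃ₗ[k] continuousH1 r B :=
  ((H1Equiv e).submoduleMap (continuousH1 r A)).trans
    (LinearEquiv.ofEq _ _ (map_H1Equiv_continuousH1 r e))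

@[simp] lemma continuousH1Equiv_coe (e : A ≅ B) (x : continuousH1 r A) :
    (continuousH1Equiv r e x : H1 B) = H1Map e.hom (x : H1 A) := rfl

lemma continuousH2MapHom_id (x : continuousH2 r A) : continuousH2MapHom r (𝟙 A) x = x := by
  obtain ⟨c, rfl⟩ := Submodule.mkQ_surjective _ x
  rfl

lemma continuousH2MapHom_comp (φ : A ⟶ B) (ψ : B ⟶ C) (x : continuousH2 r A) :
    continuousH2MapHom r (φ ≫ ψ) x = continuousH2MapHom r ψ (continuousH2MapHom r φ x) := by
  obtain ⟨c, rfl⟩ := Submodule.mkQ_surjective _ x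
  rfl

/-- The level-continuous `H²` is transported along an isomorphism of representations. -/
def continuousH2Equiv (e : A ≅ B) : continuousH2 r A ≃ₗ[k] continuousH2 r B where
  __ := continuousH2MapHom r e.hom
  invFun := continuousH2MapHom r e.inv
  left_inv x := by
    show continuousH2MapHom r e.inv (continuousH2MapHom r e.hom x) = x
    rw [← continuousH2MapHom_comp, e.hom_inv_id, continuousH2MapHom_id]
  right_inv x := by
    show continuousH2MapHom r e.hom (continuousH2MapHom r e.inv x) = x
    rw [← continuousH2MapHom_comp, e.inv_hom_id, continuousH2MapHom_id]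

@[simp] lemma continuousH2Equiv_apply (e : A ≅ B) (x : continuousH2 r A) :
    continuousH2Equiv r e x = continuousH2MapHom r e.hom x := rfl

end Generic

/-! ### Global part: the `S`-ramified carriers over `G_ℚ` -/

section Global

variable {k : Type} [CommRing k] (S : Finset Nat.Primes)
  {A B C : Rep k (AlgebraicClosure ℚ ≃ₐ[ℚ] AlgebraicClosure ℚ)}

local notation "GQ" => (AlgebraicClosure ℚ ≃ₐ[ℚ] AlgebraicClosure ℚ)

/-- Restriction of an isomorphism of representations along a group homomorphism. -/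
abbrev resIso {H : Type} [Group H] (f : H →* GQ) (e : A ≅ B) : Rep.res f A ≅ Rep.res f B :=
  (Rep.resFunctor f).mapIso e

lemma H1Map_mem_continuousH1S (φ : A ⟶ B) {x : H1 A} (hx : x ∈ continuousH1S S A) :
    H1Map φ x ∈ continuousH1S S B := by
  obtain ⟨c, hc, rfl⟩ := (mem_continuousH1S_iff S A x).1 hx
  rw [H1Map_H1π]
  refine (mem_continuousH1S_iff S B _).2 ⟨_, ?_, rfl⟩
  rw [coe_mapCocycles₁_id]
  exact hc.comp (fun a => φ.hom a)

lemma map_H1Equiv_continuousH1S (e : A ≅ B) :
    (continuousH1S S A).map (H1Equiv e).toLinearMap = continuousH1S S B := by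
  apply le_antisymm
  · rintro _ ⟨x, hx, rfl⟩
    exact H1Map_mem_continuousH1S S e.hom hx
  · intro y hy
    exact ⟨H1Map e.inv y, H1Map_mem_continuousH1S S e.inv hy, (H1Equiv e).apply_symm_apply y⟩

/-- `H¹(G_S, -)` (the frozen `continuousH1S`) is transported along an isomorphism. -/
def continuousH1SEquiv (e : A ≅ B) : continuousH1S S A ≃ₗ[k] continuousH1S S B :=
  ((H1Equiv e).submoduleMap (continuousH1S S A)).trans
    (LinearEquiv.ofEq _ _ (map_H1Equiv_continuousH1S S e))

@[simp] lemma continuousH1SEquiv_coe (e : A ≅ B) (x : continuousH1S S A) :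
    (continuousH1SEquiv S e x : H1 B) = H1Map e.hom (x : H1 A) := rfl

/-- Post-composition with a morphism of representations on `S`-level 2-cocycles. -/
def levelCocyclesS₂Map (φ : A ⟶ B) : ↥(levelCocyclesS₂ S A) →ₗ[k] ↥(levelCocyclesS₂ S B) :=
  (cochainsPullPush₂ (MonoidHom.id GQ) φ.hom.toLinearMap).restrict fun _ hx =>
    ⟨cochainsPullPush₂_mem_cocycles₂ (MonoidHom.id GQ) φ.hom.toLinearMap
        (fun g a => Rep.hom_comm_apply φ g a) hx.1,
      (hx.2.comp (fun a => φ.hom a) :)⟩

@[simp] lemma levelCocyclesS₂Map_coe (φ : A ⟶ B) (c : ↥(levelCocyclesS₂ S A)) (x : GQ × GQ) :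
    (levelCocyclesS₂Map S φ c : GQ × GQ → B) x = φ.hom ((c : GQ × GQ → A) x) := rfl

/-- The map induced on `H²(G_S, -)` (the frozen `continuousH2S`) by a morphism. -/
def continuousH2SMap (φ : A ⟶ B) : continuousH2S S A →ₗ[k] continuousH2S S B :=
  Submodule.mapQ _ _ (levelCocyclesS₂Map S φ) fun c hc => by
    simp only [Submodule.mem_comap, Submodule.subtype_apply] at hc ⊢
    obtain ⟨y, hy, hyc⟩ := (mem_levelCoboundariesS₂_iff S A _).1 hc
    refine (mem_levelCoboundariesS₂_iff S B _).2
      ⟨cochainsPullPush₁ (MonoidHom.id GQ) φ.hom.toLinearMap y, (hy.comp (fun a => φ.hom a) :), ?_⟩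
    rw [← cochainsPullPush₂_d₁₂ (MonoidHom.id GQ) φ.hom.toLinearMap
      (fun g a => Rep.hom_comm_apply φ g a) y, hyc]
    rfl

@[simp] lemma continuousH2SMap_mk (φ : A ⟶ B) (c : ↥(levelCocyclesS₂ S A)) :
    continuousH2SMap S φ (continuousH2Sπ S A c) = continuousH2Sπ S B (levelCocyclesS₂Map S φ c) :=
  rfl

lemma continuousH2SMap_id (x : continuousH2S S A) : continuousH2SMap S (𝟙 A) x = x := by
  obtain ⟨c, rfl⟩ := Submodule.mkQ_surjective _ x
  rfl

lemma continuousH2SMap_comp (φ : A ⟶ B) (ψ : B ⟶ C) (x : continuousH2S S A) :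
    continuousH2SMap S (φ ≫ ψ) x = continuousH2SMap S ψ (continuousH2SMap S φ x) := by
  obtain ⟨c, rfl⟩ := Submodule.mkQ_surjective _ x
  rfl

/-- `H²(G_S, -)` (the frozen `continuousH2S`) is transported along an isomorphism. -/
def continuousH2SEquiv (e : A ≅ B) : continuousH2S S A ≃ₗ[k] continuousH2S S B where
  __ := continuousH2SMap S e.hom
  invFun := continuousH2SMap S e.inv
  left_inv x := by
    show continuousH2SMap S e.inv (continuousH2SMap S e.hom x) = x
    rw [← continuousH2SMap_comp, e.hom_inv_id, continuousH2SMap_id]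
  right_inv x := by
    show continuousH2SMap S e.hom (continuousH2SMap S e.inv x) = x
    rw [← continuousH2SMap_comp, e.inv_hom_id, continuousH2SMap_id]

@[simp] lemma continuousH2SEquiv_apply (e : A ≅ B) (x : continuousH2S S A) :
    continuousH2SEquiv S e x = continuousH2SMap S e.hom x := rfl

@[simp] lemma continuousH2SEquiv_symm_apply (e : A ≅ B) (x : continuousH2S S B) :
    (continuousH2SEquiv S e).symm x = continuousH2SMap S e.inv x := rfl

/-- Naturality of the frozen localisation map `locRes₂S` in the coefficient module. -/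
lemma locRes₂S_continuousH2SMap {H : Type} [Group H] (f : H →* GQ) (φ : A ⟶ B)
    (x : continuousH2S S A) :
    locRes₂S S B f (continuousH2SMap S φ x) =
      continuousH2MapHom f ((Rep.resFunctor f).map φ) (locRes₂S S A f x) := by
  obtain ⟨c, rfl⟩ := Submodule.mkQ_surjective _ x
  rfl

lemma continuousH2SMap_mem_sha₂ (φ : A ⟶ B) {x : continuousH2S S A} (hx : x ∈ sha₂ S A) :
    continuousH2SMap S φ x ∈ sha₂ S B := by
  rw [sha₂, LinearMap.mem_ker] at hx ⊢
  funext v
  have hv : locRes₂S S A (extArithLoc S v) x = 0 := congrFun hx v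
  rw [locTotal₂S_apply, locRes₂S_continuousH2SMap, hv, map_zero]
  rfl

lemma map_continuousH2SEquiv_sha₂ (e : A ≅ B) :
    (sha₂ S A).map (continuousH2SEquiv S e).toLinearMap = sha₂ S B := by
  apply le_antisymm
  · rintro _ ⟨x, hx, rfl⟩
    exact continuousH2SMap_mem_sha₂ S e.hom hx
  · intro y hy
    exact ⟨continuousH2SMap S e.inv y, continuousH2SMap_mem_sha₂ S e.inv hy,
      (continuousH2SEquiv S e).apply_symm_apply y⟩

/-- `Ш²_S` is transported along an isomorphism of representations. -/
def sha₂Equiv (e : A ≅ B) : sha₂ S A ≃ₗ[k] sha₂ S B :=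
  ((continuousH2SEquiv S e).submoduleMap (sha₂ S A)).trans
    (LinearEquiv.ofEq _ _ (map_continuousH2SEquiv_sha₂ S e))

@[simp] lemma sha₂Equiv_coe (e : A ≅ B) (x : sha₂ S A) :
    (sha₂Equiv S e x : continuousH2S S B) = continuousH2SMap S e.hom (x : continuousH2S S A) := rfl

end Global

/-! ### Localisation on `H¹` and the Tate–Shafarevich group `Ш¹_S` -/

section LocH1

variable {k : Type u} [Field k] {Γ : Type u} [Group Γ]
  {ι : Type u} {Γv : ι → Type u} [∀ v, Group (Γv v)]
  (loc : ∀ v, Γv v →* Γ) {A B : Rep k Γ}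

/-- Naturality of the localisation map on `H¹` in the coefficient module. -/
lemma locRes_H1Map (φ : A ⟶ B) (v : ι) (x : H1 A) :
    (locRes loc B v).hom (H1Map φ x) =
      H1Map ((Rep.resFunctor (loc v)).map φ) ((locRes loc A v).hom x) := by
  induction x using H1_induction_on with
  | h c =>
    simp only [H1Map]
    erw [H1π_comp_map_apply, H1π_comp_map_apply, H1π_comp_map_apply, H1π_comp_map_apply]
    exact congrArg _ (Subtype.ext (funext fun g => rfl))

end LocH1

section GlobalField

variable {K : Type} [Field K] (S : Finset Nat.Primes)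
  {A B : Rep K (AlgebraicClosure ℚ ≃ₐ[ℚ] AlgebraicClosure ℚ)}

lemma H1Map_mem_sha₁ (φ : A ⟶ B) {x : H1 A} (hx : x ∈ sha₁ S A) : H1Map φ x ∈ sha₁ S B := by
  rw [sha₁, Submodule.mem_inf, LinearMap.mem_ker] at hx ⊢
  refine ⟨H1Map_mem_continuousH1S S φ hx.1, ?_⟩
  funext v
  have hv : (locRes (extArithLoc S) A v).hom x = 0 := congrFun hx.2 v
  rw [locTotal_apply, locRes_H1Map, hv, map_zero]
  rfl

lemma map_H1Equiv_sha₁ (e : A ≅ B) :
    (sha₁ S A).map (H1Equiv e).toLinearMap = sha₁ S B := by
  apply le_antisymm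
  · rintro _ ⟨x, hx, rfl⟩
    exact H1Map_mem_sha₁ S e.hom hx
  · intro y hy
    exact ⟨H1Map e.inv y, H1Map_mem_sha₁ S e.inv hy, (H1Equiv e).apply_symm_apply y⟩

/-- `Ш¹_S` is transported along an isomorphism of representations. -/
def sha₁Equiv (e : A ≅ B) : sha₁ S A ≃ₗ[K] sha₁ S B :=
  ((H1Equiv e).submoduleMap (sha₁ S A)).trans (LinearEquiv.ofEq _ _ (map_H1Equiv_sha₁ S e))

@[simp] lemma sha₁Equiv_coe (e : A ≅ B) (x : sha₁ S A) :
    (sha₁Equiv S e x : H1 B) = H1Map e.hom (x : H1 A) := rfl

/-- The product of the local `H¹`'s is transported along an isomorphism. -/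
def locTotalH1Equiv (e : A ≅ B) :
    (∀ v, H1 (Rep.res (extArithLoc S v) A)) ≃ₗ[K] (∀ v, H1 (Rep.res (extArithLoc S v) B)) :=
  LinearEquiv.piCongrRight fun v => H1Equiv (resIso (extArithLoc S v) e)

lemma locTotalH1Equiv_locTotal (e : A ≅ B) (x : H1 A) :
    locTotalH1Equiv S e (locTotal (extArithLoc S) A x) =
      locTotal (extArithLoc S) B (H1Map e.hom x) := by
  funext v
  exact (locRes_H1Map (extArithLoc S) e.hom v x).symm

lemma map_locTotalH1Equiv_image (e : A ≅ B) :
    ((continuousH1S S A).map (locTotal (extArithLoc S) A)).map (locTotalH1Equiv S e).toLinearMap =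
      (continuousH1S S B).map (locTotal (extArithLoc S) B) := by
  apply le_antisymm
  · rintro _ ⟨_, ⟨x, hx, rfl⟩, rfl⟩
    exact ⟨H1Map e.hom x, H1Map_mem_continuousH1S S e.hom hx,
      (locTotalH1Equiv_locTotal S e x).symm⟩
  · rintro _ ⟨y, hy, rfl⟩
    refine ⟨locTotal (extArithLoc S) A (H1Map e.inv y),
      ⟨H1Map e.inv y, H1Map_mem_continuousH1S S e.inv hy, rfl⟩, ?_⟩
    show locTotalH1Equiv S e (locTotal (extArithLoc S) A (H1Map e.inv y)) = _
    rw [locTotalH1Equiv_locTotal]
    exact congrArg _ ((H1Equiv e).apply_symm_apply y)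

/-- The image of `H¹(G_S, -)` under the total localisation map is transported along an
isomorphism of representations (so its dimension `r₁` is an isomorphism invariant). -/
def locTotalImageEquiv (e : A ≅ B) :
    ((continuousH1S S A).map (locTotal (extArithLoc S) A)) ≃ₗ[K]
      ((continuousH1S S B).map (locTotal (extArithLoc S) B)) :=
  ((locTotalH1Equiv S e).submoduleMap _).trans
    (LinearEquiv.ofEq _ _ (map_locTotalH1Equiv_image S e))

end GlobalField

/-! ### The range of the total localisation map on `H²` -/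

section GlobalRange

variable {k : Type} [CommRing k] (S : Finset Nat.Primes)
  {A B : Rep k (AlgebraicClosure ℚ ≃ₐ[ℚ] AlgebraicClosure ℚ)}

/-- The product of the local `H²`'s is transported along an isomorphism. -/
def locTotalH2Equiv (e : A ≅ B) :
    (∀ v : extArithIndex S, continuousH2 (extArithLoc S v) (Rep.res (extArithLoc S v) A)) ≃ₗ[k]
      (∀ v : extArithIndex S, continuousH2 (extArithLoc S v) (Rep.res (extArithLoc S v) B)) :=
  LinearEquiv.piCongrRight fun v =>
    continuousH2Equiv (extArithLoc S v) (resIso (extArithLoc S v) e)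

lemma locTotalH2Equiv_locTotal₂S (e : A ≅ B) (x : continuousH2S S A) :
    locTotalH2Equiv S e (locTotal₂S S A x) = locTotal₂S S B (continuousH2SMap S e.hom x) := by
  funext v
  exact (locRes₂S_continuousH2SMap S (extArithLoc S v) e.hom x).symm

lemma map_locTotalH2Equiv_range (e : A ≅ B) :
    (LinearMap.range (locTotal₂S S A)).map (locTotalH2Equiv S e).toLinearMap =
      LinearMap.range (locTotal₂S S B) := by
  apply le_antisymm
  · rintro _ ⟨_, ⟨x, rfl⟩, rfl⟩
    exact ⟨continuousH2SMap S e.hom x, (locTotalH2Equiv_locTotal₂S S e x).symm⟩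
  · rintro _ ⟨y, rfl⟩
    refine ⟨locTotal₂S S A (continuousH2SMap S e.inv y), ⟨_, rfl⟩, ?_⟩
    show locTotalH2Equiv S e (locTotal₂S S A (continuousH2SMap S e.inv y)) = _
    rw [locTotalH2Equiv_locTotal₂S]
    exact congrArg _ ((continuousH2SEquiv S e).apply_symm_apply y)

/-- The range of the total localisation map on `H²(G_S, -)` is transported along an isomorphism
of representations (so its dimension `r₂` is an isomorphism invariant). -/
def rangeLocTotal₂SEquiv (e : A ≅ B) :
    LinearMap.range (locTotal₂S S A) ≃ₗ[k] LinearMap.range (locTotal₂S S B) :=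
  ((locTotalH2Equiv S e).submoduleMap _).trans
    (LinearEquiv.ofEq _ _ (map_locTotalH2Equiv_range S e))

end GlobalRange

end

end Fermat.Agent.S55.helper9763
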