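/-
S55 (Poitou–Tate), SOFT layer, leaf SOFT-ESTAR: the base case `E*(coind_F 𝔽_p) ≤ 0` of the
devissage of `helper613_StmtE`.  Author: helper3562.

`stmt_EStarBase_of` proves the closed statement `helper613.Stmt_EStarBase` from the global bridge
statements `helper3071.Stmt_FieldFin`, `helper3071.Stmt_FieldLower`, the soft statements
`helper2945.Stmt_B`, `helper2945.Stmt_L2num`, and two closed statements on the induced module
`A_F = coind_F 𝔽_p` of an `S`-field `F ∋ ζ_p`:

* `Stmt_IndDual` : `A_F' ≅ A_F` (`A_F' = A_F.dualTwist (cycloChar p)`);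
* `Stmt_IndPi1`  : `π₁(A_F) ≤ 2 s + [F:ℚ]` (`s` = number of places of `F` above `S`).

Integer core (`eStarLe_of_selfDual`): with `h² = a₂ + r₂`, `Stmt_B` (`r₂(A) + h⁰(A') = π₂(A)`,
`r₂(A') + h⁰(A) = π₂(A')`) and `Stmt_L2num` (`π₂(A') = π₀(A)`) the inequality `E*(A) ≤ 0` is
equivalent to `a₂(A) + a₂(A') + π₁(A) ≤ h¹(A) + h¹(A')`; for `A ≅ A'` the invariance of the frozen
carriers under isomorphisms (`helper9763_IsoTransport`) reduces it to `2 a₂(A) + π₁(A) ≤ 2 h¹(A)`,
which for `A = A_F` is `helper3071.fieldLower_indRep` together with `Stmt_IndPi1`.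
-/
import Mathlib
import Fermat.Prelude.Def_GroupCohomology_ContinuousUnramified
import Fermat.Agent.S55.helper2945_SoftSpec
import Fermat.Agent.S55.helper9763_IsoTransport
import Fermat.Agent.S55.helper3071_GBTransport
import Fermat.Agent.S55.helper62_GBShapiro
import Fermat.Agent.S55.helper1702_FinTop
import Fermat.Agent.S55.helper613_StmtE
import Fermat.Agent.S55.helper1610_LocalCount

set_option autoImplicit false

namespace Fermat.Agent.S55.helper3562

open CategoryTheory Module groupCohomology ExtCitation
open Fermat.Agent.S55.helper2945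

/-- **(LC-D)** The induced module of a number field containing `μ_p` is isomorphic to its
Tate-twisted dual (a permutation module is self-dual, and the cyclotomic character is trivial on
`Gal(ℚ̄/F)`). -/
def Stmt_IndDual : Prop :=
  ∀ {p : ℕ} [Fact p.Prime] (F : IntermediateField ℚ (AlgebraicClosure ℚ))
    [FiniteDimensional ℚ F], helper3071.HasZeta p F →
      Nonempty (dualT (helper3071.indRep p F) ≅ helper3071.indRep p F)

/-- **(LC1)** The local count `π₁(coind_F 𝔽_p) ≤ 2 s + [F:ℚ]` for an `S`-field `F` containing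
`μ_p` (Mackey + Shapiro at the places above `S` + the local `h¹` formula). -/
def Stmt_IndPi1 : Prop :=
  ∀ {p : ℕ} [Fact p.Prime], p ≠ 2 → ∀ (S : Finset Nat.Primes), pPrime p ∈ S →
    ∀ F : IntermediateField ℚ (AlgebraicClosure ℚ), helper3071.IsSFieldZeta S p F →
      pi1 S (helper3071.indRep p F) ≤ 2 * helper3071.nPl S F + Module.finrank ℚ F

/-- The integer core of the base case: if `A' ≅ A`, the global `H²` of `A` is finite and
`2 a₂(A) + π₁(A) ≤ 2 h¹(A)`, then `E*(A) ≤ 0` (given steps B and (L2)-numerical). -/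
theorem eStarLe_of_selfDual (hB : Stmt_B) (hL : Stmt_L2num)
    {p : ℕ} [Fact p.Prime] (hp2 : p ≠ 2) (S : Finset Nat.Primes) (hpS : pPrime p ∈ S)
    (A : Rep.{0, 0, 0} (ZMod p) GQ) (hA : IsSMod S A) (e : dualT A ≅ A)
    [FiniteDimensional (ZMod p) (continuousH2S S A)]
    (hcount : 2 * a2 S A + pi1 S A ≤ 2 * h1 S A) :
    helper613.EStarLe S A := by
  have f4 : FiniteDimensional (ZMod p) (continuousH2S S (dualT A)) :=
    Module.Finite.equiv (helper9763.continuousH2SEquiv S e).symm
  obtain ⟨hB1, hB2⟩ := hB hp2 S hpS A hA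
  have hL' := hL hp2 S hpS A hA
  have e2 := a2_add_r2 S A
  have e4 := a2_add_r2 S (dualT A)
  have k1 : h1 S (dualT A) = h1 S A := (helper9763.continuousH1SEquiv S e).finrank_eq
  have k2 : a2 S (dualT A) = a2 S A := (helper9763.sha₂Equiv S e).finrank_eq
  unfold helper613.EStarLe
  omega

/-- **SOFT-ESTAR.** The base case `helper613.Stmt_EStarBase` of the devissage of `Stmt_E`, from
the global bridge (finiteness and the lower field count), steps B and (L2)-numerical, the
self-duality of the induced module and the local `π₁` count. -/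
theorem stmt_EStarBase_of (hFF : helper3071.Stmt_FieldFin) (hFL : helper3071.Stmt_FieldLower)
    (hB : Stmt_B) (hL : Stmt_L2num) (hD : Stmt_IndDual) (hP1 : Stmt_IndPi1) :
    helper613.Stmt_EStarBase := by
  intro p _ hp2 S hpS F hF
  have hp : p.Prime := Fact.out
  have hFfin : FiniteDimensional ℚ F := hF.unram.1
  obtain ⟨sh1, sh2⟩ := helper62.stmt_Shapiro S p F hp hF.unram
  have hfin := hFF S p F hF
  have hlow := hFL S p F hF
  have hM : IsSMod S (helper3071.indRep p F) := helper1702.isSMod_indRep S F hF.unram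
  obtain ⟨e⟩ := hD F hF.zeta
  have f2 : FiniteDimensional (ZMod p) (continuousH2S S (helper3071.indRep p F)) :=
    sh2.finite hfin
  have key := helper3071.fieldLower_indRep hp sh1 sh2 hfin hlow
  have hpi := hP1 hp2 S hpS F hF
  refine eStarLe_of_selfDual hB hL hp2 S hpS (helper3071.indRep p F) hM e ?_
  unfold a2 h1
  omega

/-! ### The two closed statements on the induced module are theorems (helper1610) -/

/-- `Stmt_IndDual` holds (`helper1610.stmt_IndDual`: a permutation module is self-dual, the
cyclotomic character is trivial on `Gal(ℚ̄/F)`). -/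
theorem stmt_IndDual : Stmt_IndDual :=
  fun F _ hζ => helper1610.stmt_IndDual F hζ

/-- `Stmt_IndPi1` holds (`helper1610.stmt_IndPi1`: Mackey + the local `h¹` formula). -/
theorem stmt_IndPi1 : Stmt_IndPi1 := by
  intro p _ _ S _ F hF
  have hFfin : FiniteDimensional ℚ F := hF.unram.1
  exact helper1610.stmt_IndPi1 S F hF.zeta

/-- **SOFT-ESTAR, final form.** The base case `helper613.Stmt_EStarBase` from the global bridge
(finiteness and the lower field count) and steps B and (L2)-numerical only. -/
theorem stmt_EStarBase (hFF : helper3071.Stmt_FieldFin) (hFL : helper3071.Stmt_FieldLower)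
    (hB : Stmt_B) (hL : Stmt_L2num) : helper613.Stmt_EStarBase :=
  stmt_EStarBase_of hFF hFL hB hL stmt_IndDual stmt_IndPi1

end Fermat.Agent.S55.helper3562
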