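import Fermat.Agent.S55.helper1838_LocalChi
import Fermat.Agent.S55.helper7486_LevelCoh

/-!
# S55, leaf LS-CHI (helper1838): additivity of the local Euler characteristic

`chiLoc r B = chiLoc r A + chiLoc r C` for EVERY short exact sequence `0 → A → B → C → 0`
(`helper7486.SES`) of finite-dimensional smooth representations, on the frozen carriers
(`invariants`, `continuousH1 r`, `continuousH2 r`), from

* the truncated long exact sequence of `helper7486_LevelCoh` for a level system `𝓛` which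
  computes the frozen level-constancy along `r` (`IsFrame r 𝓛`: the two `iff`s
  `𝓛.Is₁ f ↔ IsLevelConstant₁ r f`, `𝓛.Is₂ f ↔ IsLevelConstant₂ r f`), and
* right exactness of `H²`, which comes from local duality `IsL2` for `B` and `C`.
-/

set_option autoImplicit false

open CategoryTheory groupCohomology Module

namespace Fermat.Agent.S55.helper1838

open Fermat.Agent.S55.helper7486

universe u

variable {k G : Type u} [Field k] [Group G]
  (r : G →* (AlgebraicClosure ℚ ≃ₐ[ℚ] AlgebraicClosure ℚ)) (𝓛 : Levels G)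

/-- The level system `𝓛` computes the frozen level-constancy along `r`. -/
structure IsFrame : Prop where
  is₁ : ∀ {X : Type u} (f : G → X), 𝓛.Is₁ f ↔ IsLevelConstant₁ r f
  is₂ : ∀ {X : Type u} (f : G × G → X), 𝓛.Is₂ f ↔ IsLevelConstant₂ r f

variable {r 𝓛}

theorem IsFrame.Z2_eq (h : IsFrame r 𝓛) (N : Rep.{u, u, u} k G) :
    Z2 𝓛 N = levelCocycles₂ r N := by
  ext f
  rw [mem_Z2, mem_levelCocycles₂_iff, h.is₂]

theorem IsFrame.B2_eq (h : IsFrame r 𝓛) (N : Rep.{u, u, u} k G) :
    B2 𝓛 N = levelCoboundaries₂ r N := by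
  ext f
  rw [mem_B2, mem_levelCoboundaries₂_iff]
  constructor
  · rintro ⟨x, hx, hxf⟩
    exact ⟨x, (h.is₁ x).1 hx, hxf⟩
  · rintro ⟨x, hx, hxf⟩
    exact ⟨x, (h.is₁ x).2 hx, hxf⟩

/-- The level `H²` of `helper7486` for a frame is the frozen `continuousH2 r`. -/
noncomputable def IsFrame.lh2Equiv (h : IsFrame r 𝓛) (N : Rep.{u, u, u} k G) :
    LH2 𝓛 N ≃ₗ[k] continuousH2 r N :=
  Submodule.Quotient.equiv _ _ (LinearEquiv.ofEq _ _ (h.Z2_eq N)) (by
    apply le_antisymm
    · rintro x ⟨y, hy, rfl⟩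
      change ((LinearEquiv.ofEq _ _ (h.Z2_eq N) y : ↥(levelCocycles₂ r N)) : G × G → N)
        ∈ levelCoboundaries₂ r N
      rw [← h.B2_eq N]
      exact hy
    · intro x hx
      refine ⟨(LinearEquiv.ofEq _ _ (h.Z2_eq N)).symm x, ?_, LinearEquiv.apply_symm_apply _ _⟩
      change (((LinearEquiv.ofEq _ _ (h.Z2_eq N)).symm x : ↥(Z2 𝓛 N)) : G × G → N) ∈ B2 𝓛 N
      rw [h.B2_eq N]
      exact hx)

theorem IsFrame.lh2Equiv_mk (h : IsFrame r 𝓛) (N : Rep.{u, u, u} k G) (z : ↥(Z2 𝓛 N)) :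
    h.lh2Equiv N (LH2.mk 𝓛 N z) = continuousH2π r N (LinearEquiv.ofEq _ _ (h.Z2_eq N) z) := rfl

/-- The class map from level 1-cocycles onto the frozen `continuousH1 r N`. -/
noncomputable def IsFrame.lh1Proj (h : IsFrame r 𝓛) (N : Rep.{u, u, u} k G) :
    ↥(Z1 𝓛 N) →ₗ[k] ↥(continuousH1 r N) where
  toFun z := ⟨(H1π N).hom ⟨(z : G → N), z.2.1⟩,
    (mem_continuousH1_iff r N _).2 ⟨⟨(z : G → N), z.2.1⟩, (h.is₁ _).1 z.2.2, rfl⟩⟩
  map_add' z w := Subtype.ext (map_add (H1π N).hom ⟨(z : G → N), z.2.1⟩ ⟨(w : G → N), w.2.1⟩)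
  map_smul' c z := Subtype.ext (map_smul (H1π N).hom c ⟨(z : G → N), z.2.1⟩)

theorem IsFrame.lh1Proj_surjective (h : IsFrame r 𝓛) (N : Rep.{u, u, u} k G) :
    Function.Surjective (h.lh1Proj N) := by
  rintro ⟨x, hx⟩
  obtain ⟨c, hc, rfl⟩ := (mem_continuousH1_iff r N x).1 hx
  exact ⟨⟨(c : G → N), c.2, (h.is₁ _).2 hc⟩, Subtype.ext rfl⟩

theorem IsFrame.ker_lh1Proj (h : IsFrame r 𝓛) (N : Rep.{u, u, u} k G) :
    LinearMap.ker (h.lh1Proj N) = (coboundaries₁ N).comap (Z1 𝓛 N).subtype := by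
  ext z
  rw [LinearMap.mem_ker, Submodule.mem_comap]
  constructor
  · intro hz
    have hz' : (H1π N).hom ⟨(z : G → N), z.2.1⟩ = 0 := congrArg Subtype.val hz
    exact (H1π_eq_zero_iff _).1 hz'
  · intro hz
    apply Subtype.ext
    exact (H1π_eq_zero_iff (⟨(z : G → N), z.2.1⟩ : cocycles₁ N)).2 hz

/-- The level `H¹` of `helper7486` for a frame is the frozen `continuousH1 r`. -/
noncomputable def IsFrame.lh1Equiv (h : IsFrame r 𝓛) (N : Rep.{u, u, u} k G) :
    LH1 𝓛 N ≃ₗ[k] ↥(continuousH1 r N) :=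
  (Submodule.quotEquivOfEq _ _ (h.ker_lh1Proj N).symm).trans
    ((h.lh1Proj N).quotKerEquivOfSurjective (h.lh1Proj_surjective N))

/-- For a frame, `chiLoc r` is the Euler characteristic `helper7486.chi 𝓛`. -/
theorem IsFrame.chiLoc_eq_chi (h : IsFrame r 𝓛) (N : Rep.{u, u, u} k G) :
    chiLoc r N = chi 𝓛 N := by
  unfold chiLoc chi
  rw [(h.lh1Equiv N).finrank_eq, (h.lh2Equiv N).finrank_eq]

/-- The surjection of a short exact sequence as a morphism of representations. -/
noncomputable def sesψHom {A B C : Rep.{u, u, u} k G} (E : SES A B C) : B ⟶ C :=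
  Rep.ofHom (ρ := B.ρ) (σ := C.ρ) ⟨E.ψ, fun g => by ext b; exact E.hψ g b⟩

/-- Surjectivity of `H²(B) → H²(C)` on the `helper7486` carrier from the frozen carrier. -/
theorem IsFrame.H2ψ_surjective (h : IsFrame r 𝓛) {A B C : Rep.{u, u, u} k G} (E : SES A B C)
    (hs : Function.Surjective (continuousH2MapHom r (sesψHom E))) :
    Function.Surjective (E.H2ψ 𝓛) := by
  have key : ∀ w : LH2 𝓛 B,
      h.lh2Equiv C (E.H2ψ 𝓛 w) = continuousH2MapHom r (sesψHom E) (h.lh2Equiv B w) := by
    intro w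
    obtain ⟨z, rfl⟩ := LH2.mk_surjective w
    rfl
  intro y
  obtain ⟨x, hx⟩ := hs (h.lh2Equiv C y)
  refine ⟨(h.lh2Equiv B).symm x, (h.lh2Equiv C).injective ?_⟩
  rw [key, LinearEquiv.apply_symm_apply, hx]

/-- **(L) Additivity of the local Euler characteristic** on the frozen carriers, for every short
exact sequence of finite-dimensional representations with `B` smooth, given local duality
`IsL2` for `B` and `C` (right exactness of `H²`) and finite-dimensionality of the `H¹`'s and of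
`H²(A)`. -/
theorem chiLoc_eq_add_of_ses (h : IsFrame r 𝓛) {A B C : Rep.{u, u, u} k G} (E : SES A B C)
    (hB : 𝓛.Smooth B) [FiniteDimensional k B] [FiniteDimensional k C]
    [FiniteDimensional k (continuousH1 r A)] [FiniteDimensional k (continuousH1 r B)]
    [FiniteDimensional k (continuousH1 r C)] [FiniteDimensional k (continuousH2 r A)]
    {χ : G →* kˣ} {inv : continuousH2 r (ofChar χ) →ₗ[k] k}
    (hLB : IsL2 r χ inv B) (hLC : IsL2 r χ inv C) :
    chiLoc r B = chiLoc r A + chiLoc r C := by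
  have : FiniteDimensional k (continuousH2 r B) := finiteDimensional_continuousH2_of_isL2 hLB
  have : FiniteDimensional k (LH1 𝓛 A) := LinearEquiv.finiteDimensional (h.lh1Equiv A).symm
  have : FiniteDimensional k (LH1 𝓛 B) := LinearEquiv.finiteDimensional (h.lh1Equiv B).symm
  have : FiniteDimensional k (LH1 𝓛 C) := LinearEquiv.finiteDimensional (h.lh1Equiv C).symm
  have : FiniteDimensional k (LH2 𝓛 A) := LinearEquiv.finiteDimensional (h.lh2Equiv A).symm
  have : FiniteDimensional k (LH2 𝓛 B) := LinearEquiv.finiteDimensional (h.lh2Equiv B).symm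
  rw [h.chiLoc_eq_chi, h.chiLoc_eq_chi, h.chiLoc_eq_chi]
  exact E.chi_eq_of_surjective hB
    (h.H2ψ_surjective E (continuousH2MapHom_surjective_of_isL2 (sesψHom E) E.surj hLB hLC))

/-- Sub-additivity of `chiLoc` (no duality needed), frozen carriers. -/
theorem chiLoc_le_add_of_ses (h : IsFrame r 𝓛) {A B C : Rep.{u, u, u} k G} (E : SES A B C)
    (hB : 𝓛.Smooth B) [FiniteDimensional k B] [FiniteDimensional k C]
    [FiniteDimensional k (continuousH1 r A)] [FiniteDimensional k (continuousH1 r B)]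
    [FiniteDimensional k (continuousH1 r C)] [FiniteDimensional k (continuousH2 r A)]
    [FiniteDimensional k (continuousH2 r B)] [FiniteDimensional k (continuousH2 r C)] :
    chiLoc r B ≤ chiLoc r A + chiLoc r C := by
  have : FiniteDimensional k (LH1 𝓛 A) := LinearEquiv.finiteDimensional (h.lh1Equiv A).symm
  have : FiniteDimensional k (LH1 𝓛 B) := LinearEquiv.finiteDimensional (h.lh1Equiv B).symm
  have : FiniteDimensional k (LH1 𝓛 C) := LinearEquiv.finiteDimensional (h.lh1Equiv C).symm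
  have : FiniteDimensional k (LH2 𝓛 A) := LinearEquiv.finiteDimensional (h.lh2Equiv A).symm
  have : FiniteDimensional k (LH2 𝓛 B) := LinearEquiv.finiteDimensional (h.lh2Equiv B).symm
  have : FiniteDimensional k (LH2 𝓛 C) := LinearEquiv.finiteDimensional (h.lh2Equiv C).symm
  rw [h.chiLoc_eq_chi, h.chiLoc_eq_chi, h.chiLoc_eq_chi]
  exact E.chi_le hB

end Fermat.Agent.S55.helper1838
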