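/-
S55 (Poitou–Tate), SOFT layer, leaf SOFT-CHILOCADD.  Author: helper5215.

`helper613.Stmt_ChiLocAdd` — additivity of the sum of the local Euler characteristics
`∑_{q ∈ S} (h⁰_q - h¹_q + h²_q)` on short exact sequences of `S`-modules — from the closed local
package `helper665.Stmt_LocalL2`.

Nothing is re-proved here: for every prime `q` the statement is
`helper1838.chiLoc_eq_add_of_ses` (truncated long exact sequence of `helper7486_LevelCoh` +
right exactness of the local `H²` from local duality) for the level system
`helper2598.localLevels (primeLocalToGlobal q)`, with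

* the frame property `helper2598.localLevels_is₁_iff` / `localLevels_is₂_iff`,
* smoothness of the restriction of a smooth global module,
* local duality `helper665.isL2_res` (with the invariant map of `Stmt_LocInv`),
* finiteness of the local `H¹` (`helper895.finite_continuousH1_res_of_smooth`) and of the
  local `H²` (`helper665.finrank_continuousH2_res`).
-/
import Mathlib
import Fermat.Prelude.Def_GroupCohomology_ContinuousUnramified
import Fermat.Agent.S55.helper613_StmtE
import Fermat.Agent.S55.helper1838_LocalChiAdd
import Fermat.Agent.S55.helper2598_Frame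
import Fermat.Agent.S55.helper665_L2Num
import Fermat.Agent.S55.helper895_H1LocFinal

set_option autoImplicit false

namespace Fermat.Agent.S55.helper5215

open CategoryTheory Module groupCohomology ExtCitation
open Fermat.Agent.S55.helper2945

/-- The local level system along `r` computes the frozen level-constancy along `r`: it is a
frame in the sense of `helper1838`. -/
theorem isFrame_localLevels {G : Type} [Group G] (r : G →* GQ) :
    helper1838.IsFrame r (helper2598.localLevels r) :=
  ⟨fun f => helper2598.localLevels_is₁_iff r f, fun f => helper2598.localLevels_is₂_iff r f⟩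

/-- The restriction along `r` of a global module with open stabilisers is smooth for the local
level system along `r`. -/
theorem smooth_res_localLevels {p : ℕ} [Fact p.Prime] {H : Type} [Group H] (r : H →* GQ)
    (M : Rep.{0, 0, 0} (ZMod p) GQ)
    (hsm : ∀ m : M, ∃ F : IntermediateField ℚ (AlgebraicClosure ℚ), FiniteDimensional ℚ F ∧
      ∀ s ∈ F.fixingSubgroup, M.ρ s m = m) :
    (helper2598.localLevels r).Smooth (Rep.res r M) := by
  unfold helper2598.localLevels
  rw [helper2598.fieldLevels_smooth_iff]
  intro a
  obtain ⟨F, hF, h⟩ := hsm a
  exact ⟨F, hF, fun s hs => h (r s) hs⟩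

/-- Additivity of the local Euler characteristic at one prime `q`, for a short exact sequence of
`S`-modules, from the local (L2) package. -/
theorem chiLoc_res_eq_add (hLoc : helper665.Stmt_LocalL2) {p : ℕ} [Fact p.Prime] (hp2 : p ≠ 2)
    (S : Finset Nat.Primes) (A B C : Rep.{0, 0, 0} (ZMod p) GQ) (f : A ⟶ B) (g : B ⟶ C)
    (hA : IsSMod S A) (hB : IsSMod S B) (hC : IsSMod S C)
    (hf : Function.Injective f.hom) (hg : Function.Surjective g.hom)
    (hex : Function.Exact f.hom g.hom) (q : Nat.Primes) :
    helper1838.chiLoc (primeLocalToGlobal q) (Rep.res (primeLocalToGlobal q) B) =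
      helper1838.chiLoc (primeLocalToGlobal q) (Rep.res (primeLocalToGlobal q) A) +
        helper1838.chiLoc (primeLocalToGlobal q) (Rep.res (primeLocalToGlobal q) C) := by
  obtain ⟨h0, h1, h2⟩ := hLoc p hp2
  have := hA.finite
  have := hB.finite
  have := hC.finite
  obtain ⟨inv, hinv⟩ := h0 q
  have fA1 : FiniteDimensional (ZMod p)
      (continuousH1 (primeLocalToGlobal q) (Rep.res (primeLocalToGlobal q) A)) := by
    have := helper895.finite_continuousH1_res_of_smooth p q A hA.smooth
    exact Module.Finite.of_finite
  have fB1 : FiniteDimensional (ZMod p)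
      (continuousH1 (primeLocalToGlobal q) (Rep.res (primeLocalToGlobal q) B)) := by
    have := helper895.finite_continuousH1_res_of_smooth p q B hB.smooth
    exact Module.Finite.of_finite
  have fC1 : FiniteDimensional (ZMod p)
      (continuousH1 (primeLocalToGlobal q) (Rep.res (primeLocalToGlobal q) C)) := by
    have := helper895.finite_continuousH1_res_of_smooth p q C hC.smooth
    exact Module.Finite.of_finite
  have fA2 : FiniteDimensional (ZMod p)
      (continuousH2 (primeLocalToGlobal q) (Rep.res (primeLocalToGlobal q) A)) :=
    (helper665.finrank_continuousH2_res h0 h1 h2 q A hA.smooth).1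
  have lB : helper1838.IsL2 (primeLocalToGlobal q) (helper665.chiLoc p q) inv
      (Rep.res (primeLocalToGlobal q) B) := by
    have h := helper665.isL2_res h1 h2 q hinv.1 B hB.smooth
    exact helper1838.isL2_of_hom _ _ _ h.1 h.2
  have lC : helper1838.IsL2 (primeLocalToGlobal q) (helper665.chiLoc p q) inv
      (Rep.res (primeLocalToGlobal q) C) := by
    have h := helper665.isL2_res h1 h2 q hinv.1 C hC.smooth
    exact helper1838.isL2_of_hom _ _ _ h.1 h.2
  exact helper1838.chiLoc_eq_add_of_ses (isFrame_localLevels (primeLocalToGlobal q))
    ((helper7486.SES.ofHom f g hf hg hex).res (primeLocalToGlobal q))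
    (smooth_res_localLevels (primeLocalToGlobal q) B hB.smooth) lB lC

/-- **SOFT-CHILOCADD.** `helper613.Stmt_ChiLocAdd` (the sum over `q ∈ S` of the local Euler
characteristics is additive on short exact sequences of `S`-modules) from the closed local
package `helper665.Stmt_LocalL2`. -/
theorem stmt_ChiLocAdd_of_local (hLoc : helper665.Stmt_LocalL2) : helper613.Stmt_ChiLocAdd := by
  intro p _ hp2 S _ A B C f g hA hB hC hf hg hex
  have key : ∀ q ∈ S,
      finrank (ZMod p) (Representation.invariants (Rep.res (primeLocalToGlobal q) A).ρ) +
        finrank (ZMod p)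
          (continuousH2 (primeLocalToGlobal q) (Rep.res (primeLocalToGlobal q) A)) +
        finrank (ZMod p) (Representation.invariants (Rep.res (primeLocalToGlobal q) C).ρ) +
        finrank (ZMod p)
          (continuousH2 (primeLocalToGlobal q) (Rep.res (primeLocalToGlobal q) C)) +
        finrank (ZMod p)
          (continuousH1 (primeLocalToGlobal q) (Rep.res (primeLocalToGlobal q) B)) =
      finrank (ZMod p)
          (continuousH1 (primeLocalToGlobal q) (Rep.res (primeLocalToGlobal q) A)) +
        finrank (ZMod p)
          (continuousH1 (primeLocalToGlobal q) (Rep.res (primeLocalToGlobal q) C)) +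
        finrank (ZMod p) (Representation.invariants (Rep.res (primeLocalToGlobal q) B).ρ) +
        finrank (ZMod p)
          (continuousH2 (primeLocalToGlobal q) (Rep.res (primeLocalToGlobal q) B)) := by
    intro q _
    have h := chiLoc_res_eq_add hLoc hp2 S A B C f g hA hB hC hf hg hex q
    unfold helper1838.chiLoc at h
    omega
  unfold pi0 pi1 pi2
  simp only [← Finset.sum_add_distrib]
  exact Finset.sum_congr rfl key

end Fermat.Agent.S55.helper5215
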