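/-
S55 (Poitou–Tate), SOFT layer, leaf SOFT-E: the two global inputs of the devissage
`helper613.stmt_E_of`, discharged.  Author: helper613.

* `stmt_ChiSub_of`   : `Stmt_Fin → Stmt_ChiSub`   (`χ(B) ≤ χ(A) + χ(C)` on short exact sequences);
* `stmt_ChiSplit_of` : `Stmt_Fin → Stmt_ChiSplit` (`χ(A) + χ(C) ≤ χ(B)` on split sequences).

Both are the truncated long exact sequence of `helper7486_LevelCoh` (`SES.chi_le`,
`SES.chi_eq_of_section`) for the level system `helper2598.globalLevels S`, transported to the
frozen carriers by `helper2598.LH1equivS`, `helper2598.LH2equivS`; smoothness of an `S`-module is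
`helper235.smooth_globalLevels`.  Finite-dimensionality of the frozen carriers is `Stmt_Fin`.
-/
import Mathlib
import Fermat.Prelude.Def_GroupCohomology_ContinuousUnramified
import Fermat.Agent.S55.helper613_StmtE
import Fermat.Agent.S55.helper7486_LevelCoh
import Fermat.Agent.S55.helper2598_Frame
import Fermat.Agent.S55.helper235_FrameMaps

set_option autoImplicit false

noncomputable section

namespace Fermat.Agent.S55.helper613

open CategoryTheory Module groupCohomology ExtCitation
open Fermat.Agent.S55.helper2945 Fermat.Agent.S55.helper7486 Fermat.Agent.S55.helper2598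

/-- The truncated Euler characteristic of the level cohomology for the global `S`-levels, in
terms of the numerals of the soft spec. -/
theorem chi_globalLevels {p : ℕ} [Fact p.Prime] (S : Finset Nat.Primes)
    (M : Rep.{0, 0, 0} (ZMod p) GQ) :
    chi (globalLevels S) M = (h0 M : ℤ) - h1 S M + h2 S M := by
  unfold chi h0 h1 h2
  rw [(LH1equivS S M).finrank_eq, (LH2equivS S M).finrank_eq]

/-- Finite-dimensionality of the level cohomology from that of the frozen carriers. -/
theorem finiteDimensional_LH1_globalLevels {p : ℕ} [Fact p.Prime] (S : Finset Nat.Primes)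
    (M : Rep.{0, 0, 0} (ZMod p) GQ) (h : FiniteDimensional (ZMod p) (continuousH1S S M)) :
    FiniteDimensional (ZMod p) (LH1 (globalLevels S) M) :=
  LinearEquiv.finiteDimensional (LH1equivS S M).symm

theorem finiteDimensional_LH2_globalLevels {p : ℕ} [Fact p.Prime] (S : Finset Nat.Primes)
    (M : Rep.{0, 0, 0} (ZMod p) GQ) (h : FiniteDimensional (ZMod p) (continuousH2S S M)) :
    FiniteDimensional (ZMod p) (LH2 (globalLevels S) M) :=
  LinearEquiv.finiteDimensional (LH2equivS S M).symm

/-- **`Stmt_ChiSub`**: subadditivity of the global truncated Euler characteristic. -/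
theorem stmt_ChiSub_of (hFin : Stmt_Fin) : Stmt_ChiSub := by
  intro p _ hp2 S hpS A B C f g hA hB hC hf hg hex
  obtain ⟨a1, a2, -, -⟩ := hFin hp2 S hpS A hA
  obtain ⟨b1, b2, -, -⟩ := hFin hp2 S hpS B hB
  obtain ⟨c1, c2, -, -⟩ := hFin hp2 S hpS C hC
  have := hA.finite
  have := hB.finite
  have := hC.finite
  have sB : (globalLevels S).Smooth B := helper235.smooth_globalLevels S B hB.smooth hB.unram
  have := finiteDimensional_LH1_globalLevels S A a1
  have := finiteDimensional_LH1_globalLevels S B b1
  have := finiteDimensional_LH1_globalLevels S C c1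
  have := finiteDimensional_LH2_globalLevels S A a2
  have := finiteDimensional_LH2_globalLevels S B b2
  have := finiteDimensional_LH2_globalLevels S C c2
  have key := (SES.ofHom f g hf hg hex).chi_le (𝓛 := globalLevels S) sB
  rw [chi_globalLevels, chi_globalLevels, chi_globalLevels] at key
  omega

/-- **`Stmt_ChiSplit`**: additivity of the global truncated Euler characteristic on split
sequences (only the inequality `χ(A) + χ(C) ≤ χ(B)` is recorded in the statement). -/
theorem stmt_ChiSplit_of (hFin : Stmt_Fin) : Stmt_ChiSplit := by
  intro p _ hp2 S hpS A B C f g s hA hB hC hf hex hgs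
  obtain ⟨a1, a2, -, -⟩ := hFin hp2 S hpS A hA
  obtain ⟨b1, b2, -, -⟩ := hFin hp2 S hpS B hB
  obtain ⟨c1, c2, -, -⟩ := hFin hp2 S hpS C hC
  have := hA.finite
  have := hB.finite
  have := hC.finite
  have hg : Function.Surjective g.hom := fun c => ⟨s.hom c, hgs c⟩
  have sB : (globalLevels S).Smooth B := helper235.smooth_globalLevels S B hB.smooth hB.unram
  have := finiteDimensional_LH1_globalLevels S A a1
  have := finiteDimensional_LH1_globalLevels S B b1
  have := finiteDimensional_LH1_globalLevels S C c1
  have := finiteDimensional_LH2_globalLevels S A a2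
  have := finiteDimensional_LH2_globalLevels S B b2
  have key := (SES.ofHom f g hf hg hex).chi_eq_of_section (𝓛 := globalLevels S) sB
    s.hom.toLinearMap (fun γ c => Rep.hom_comm_apply s γ c) hgs
  rw [chi_globalLevels, chi_globalLevels, chi_globalLevels] at key
  omega

end Fermat.Agent.S55.helper613
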