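/-
S55 (Poitou–Tate), INTEGRATION LEDGER (architect helper2945).

This file is the machine-checked FRONTIER of the S55 project: it composes every landed
hypothesis-passing theorem that concludes one of the SOFT Props of `helper2945_SoftSpec` and
states the frozen S55 statement from the Props that are still open.  It is re-issued (same
theorem name `s55_of_frontier`, fewer hypotheses) each time an assembly lands; when the
structure `Frontier` has a proof on main the body of `Fermat/Agent/S55.lean` is one `exact`.

Current frontier (v7): TWO open Props.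
* `shaHasse : helper9826.Stmt_ShaHasse` — chain [G-H]: a `μ_p`-valued `S`-level 2-cocycle of
    `Gal(ℚ̄/F)` that is trivial at all places above `S` is the coboundary of a `ℚ̄ˣ`-valued
    `S`-level cochain (Hasse principle + local triviality off `S`).
* `grAll    : helper1809.Stmt_GRAll`    — chain [G-R]: weak reciprocity over `ℚ` (no class of
    `H²(G_S, μ_p)` is nontrivial at exactly one prime of `S`).

DISCHARGED (all theorems on main):
* chain [LOC]: `helper665.Stmt_LocalL2` — `localL2` below (`helper164.stmt_LB1All`,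
  `helper2113.stmt_LocL2InjAll_of_LB1All`, `helper2690.stmt_LocalL2_of_inj`).
* `helper1919.Stmt_GH` from `shaHasse` (`helper9826.stmt_GH_of`); field layer
  `Stmt_FieldFin/Lower/Upper/Chi2Sub/Tower/GE` (`helper1702`, `helper1919`, `helper324`,
  `helper1161`, `helper1615`, `helper1826`).
* `helper15.Stmt_R` from `grAll` (`helper1809.stmt_R_closed`).
* SOFT-B: `Stmt_B` (`helper1127.stmt_B_of`, the (GC) descent).
* `Stmt_DualClosed`, `Stmt_Fin`, `Stmt_FinOne`, `Stmt_L2num`, `Stmt_C`, `Stmt_A`, `Stmt_E`
  (`helper8412`, `helper1702`, `helper665`, `helper15`, `helper166`/`helper6607`, `helper613`,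
  `helper5215`, `helper3562`, `helper1610`).
-/
import Mathlib
import Fermat.Agent.S55.helper2945_SoftSpec
import Fermat.Agent.S55.helper665_L2Num
import Fermat.Agent.S55.helper15_StmtC
import Fermat.Agent.S55.helper1702_FinTop
import Fermat.Agent.S55.helper166_StmtAClosed
import Fermat.Agent.S55.helper613_StmtE
import Fermat.Agent.S55.helper613_ChiGlobal
import Fermat.Agent.S55.helper5215_ChiLocAdd
import Fermat.Agent.S55.helper3562_EStar
import Fermat.Agent.S55.helper1610_LocalCount
import Fermat.Agent.S55.helper1919_Sha2Bound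
import Fermat.Agent.S55.helper9826_Sha2Field
import Fermat.Agent.S55.helper164_LB1
import Fermat.Agent.S55.helper2113_L2InjLoc
import Fermat.Agent.S55.helper2690_L2Surj
import Fermat.Agent.S55.helper1809_WeakRecipClosed
import Fermat.Agent.S55.helper1826_GEField
import Fermat.Agent.S55.helper324_ClH2
import Fermat.Agent.S55.helper1161_Chi2Sub
import Fermat.Agent.S55.helper1615_Tower
import Fermat.Agent.S55.helper1127_GC

set_option autoImplicit false

namespace Fermat.Agent.S55.helper2945

open CategoryTheory Module groupCohomology ExtCitation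

/-- **Chain [LOC] is closed**: the local duality package is a theorem. -/
theorem localL2 : helper665.Stmt_LocalL2 :=
  helper2690.stmt_LocalL2_of_inj
    (helper2113.stmt_LocL2InjAll_of_LB1All helper164.stmt_LB1All) helper164.stmt_LB1All

/-- The numerical form of (L2) is a theorem. -/
theorem stmt_L2num : Stmt_L2num := helper665.stmt_L2num_of_local localL2

/-- The open Props of the S55 project (frontier v7), bundled. -/
structure Frontier : Prop where
  /-- [G-H] Hasse principle for `μ_p`-valued `S`-level 2-cocycles of `S`-fields containing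
  `μ_p`. -/
  shaHasse : helper9826.Stmt_ShaHasse
  /-- [G-R] weak reciprocity over `ℚ`. -/
  grAll : helper1809.Stmt_GRAll

namespace Frontier

variable (h : Frontier)
include h

theorem stmt_GH : helper1919.Stmt_GH := helper9826.stmt_GH_of h.shaHasse

theorem stmt_FieldSha2Fin : helper1702.Stmt_FieldSha2Fin :=
  helper1919.stmt_FieldSha2Fin_of h.stmt_GH

theorem stmt_FieldFin : helper3071.Stmt_FieldFin :=
  helper1702.stmt_FieldFin_of h.stmt_FieldSha2Fin localL2

theorem stmt_FieldLower : helper3071.Stmt_FieldLower := helper1919.stmt_FieldLower_of h.stmt_GH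

theorem stmt_FieldGE : helper3071.Stmt_FieldGE :=
  helper1826.stmt_FieldGE_of h.stmt_FieldFin h.stmt_FieldLower
    (helper324.stmt_FieldUpper_of h.stmt_FieldFin) (helper1161.stmt_Chi2Sub_of h.stmt_FieldFin)
    helper1615.stmt_Tower

theorem stmt_R : helper15.Stmt_R :=
  helper1809.stmt_R_closed h.grAll localL2 h.stmt_FieldFin h.stmt_FieldGE

theorem stmt_Fin : Stmt_Fin := helper1702.stmt_Fin_of_fieldFin h.stmt_FieldFin

theorem stmt_FinOne : Stmt_FinOne := helper1702.stmt_FinOne_of_fieldFin h.stmt_FieldFin

theorem stmt_C : Stmt_C := helper15.stmt_C_of_local h.stmt_R localL2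

theorem stmt_B : Stmt_B :=
  helper1127.stmt_B_of localL2 h.stmt_R h.stmt_FieldFin h.stmt_FieldGE

theorem stmt_A : Stmt_A := helper166.stmt_A h.stmt_FinOne h.stmt_B stmt_L2num

theorem stmt_EStarBase : helper613.Stmt_EStarBase :=
  helper3562.stmt_EStarBase h.stmt_FieldFin h.stmt_FieldLower h.stmt_B stmt_L2num

theorem stmt_E : Stmt_E :=
  helper613.stmt_E_of h.stmt_Fin h.stmt_A h.stmt_B h.stmt_C stmt_L2num
    (helper613.stmt_ChiSub_of h.stmt_Fin) (helper613.stmt_ChiSplit_of h.stmt_Fin)
    (helper5215.stmt_ChiLocAdd_of_local localL2) h.stmt_EStarBase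

end Frontier

/-- **Frontier v7.** The frozen S55 statement from the two Props that are still open. -/
theorem s55_of_frontier (h : Frontier)
    {p : ℕ} [Fact p.Prime] (hp2 : p ≠ 2) (S : Finset Nat.Primes) (hpS : pPrime p ∈ S)
    (M : Rep (ZMod p) (AlgebraicClosure ℚ ≃ₐ[ℚ] AlgebraicClosure ℚ))
    [FiniteDimensional (ZMod p) M]
    (hsm : ∀ m : M, ∃ F : IntermediateField ℚ (AlgebraicClosure ℚ), FiniteDimensional ℚ F ∧
      ∀ s ∈ F.fixingSubgroup, M.ρ s m = m)
    (hMur : ∀ q : Nat.Primes, q ∉ S → ∀ A : ValuationSubring (AlgebraicClosure ℚ),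
      A.LiesOverPrime (q : ℕ) → ∀ g ∈ A.inertiaSubgroupIn ℚ, M.ρ g = 1) :
    ∃ B : sha₁ S (M.dualTwist (cycloChar p)) →ₗ[ZMod p] sha₂ S M →ₗ[ZMod p] ZMod p,
      (∀ y, (∀ x, B y x = 0) → y = 0) ∧ (∀ x, (∀ y, B y x = 0) → x = 0) :=
  s55_of_soft h.stmt_Fin h.stmt_A h.stmt_B h.stmt_C stmt_L2num h.stmt_E hp2 S hpS M hsm hMur

end Fermat.Agent.S55.helper2945
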