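/-
S55 / NF-GR-UNR (backup copy, seat helper1401): the Frobenius carry invariant.

At a prime `l` outside `S`, the cyclic normal form `M = a ^ carry * d e` of a root-of-unity
valued 2-cocycle with `e` of `S`-level forces `ord_m(l) ∣ v_l(a)`.

* `carry_invariant` : the abstract telescoping identity (A).
* `frobenius_apply_primitiveRoot`, `frobenius_pow_apply_primitiveRoot_iff` : Frobenius on roots
  of unity of order prime to `l` (B).
* `valuation_map_eq_of_mem_decompositionSubgroup` : the decomposition group preserves the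
  valuation.
* `orderOf_dvd_padicValRat_of_cyclic_normal_form` : the consumer theorem (C).
-/
import Mathlib
import Fermat.Prelude.Def_GroupCohomology_ContinuousUnramified
import Fermat.Agent.Lib.helper54_Frobenius
import Fermat.Agent.Lib.helper54_LocalSplit2

set_option autoImplicit false

namespace Fermat.Agent.S55.helper1401

open Fermat.Agent.Lib.helper54
open scoped Pointwise

/-! ## (A) the abstract carry invariant -/

section Abstract

variable {Gam A V : Type*} [Group Gam] [CommGroup A] [MulDistribMulAction Gam A] [CommGroup V]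

/-- A "mod `d` additive" function with values `< d` vanishes at `1`. -/
theorem index_one_eq_zero {d : ℕ} (X : Gam → ℕ) (hXlt : ∀ g, X g < d)
    (hXadd : ∀ g h, X (g * h) ≡ X g + X h [MOD d]) : X 1 = 0 := by
  have h1 := hXadd 1 1
  rw [mul_one] at h1
  have h2 : X 1 + 0 ≡ X 1 + X 1 [MOD d] := by simpa using h1
  have h3 : 0 ≡ X 1 [MOD d] := Nat.ModEq.add_left_cancel' (X 1) h2
  have h4 : d ∣ X 1 := (Nat.modEq_zero_iff_dvd).mp h3.symm
  exact Nat.eq_zero_of_dvd_of_lt h4 (hXlt 1)

/-- The carry `X g + X h - X (g h)` is a multiple of `d`, and no truncation occurs. -/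
theorem carry_spec {d : ℕ} (X : Gam → ℕ) (hXlt : ∀ g, X g < d)
    (hXadd : ∀ g h, X (g * h) ≡ X g + X h [MOD d]) (g h : Gam) :
    d * ((X g + X h - X (g * h)) / d) + X (g * h) = X g + X h := by
  have h1 : X (g * h) ≤ X g + X h := by
    have h2 := hXadd g h
    unfold Nat.ModEq at h2
    rw [Nat.mod_eq_of_lt (hXlt _)] at h2
    rw [h2]
    exact Nat.mod_le _ _
  have h3 : d ∣ X g + X h - X (g * h) := (Nat.modEq_iff_dvd' h1).mp (hXadd g h)
  rw [Nat.mul_div_cancel' h3]
  omega

/-- **(A) Carry invariant.**  If `M (g,h) = a ^ carry(g,h) * (g • e h) * e g / e (g h)`, where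
`carry` is the carry of a "mod `d`" index function `X`, and `phi ^ f` has index `0` and is not
seen by `e`, then for every `phi`-invariant homomorphism `v` to a torsion-free group killing the
values `M (phi ^ i, phi)`, `i < f`, one has `v a ^ X phi * v (e phi) ^ d = 1`. -/
theorem carry_invariant [IsMulTorsionFree V] {d : ℕ} (X : Gam → ℕ) (hXlt : ∀ g, X g < d)
    (hXadd : ∀ g h, X (g * h) ≡ X g + X h [MOD d])
    (a : A) (e : Gam → A) (M : Gam × Gam → A)
    (hM : ∀ g h, M (g, h) = a ^ ((X g + X h - X (g * h)) / d) * (g • e h) * e g / e (g * h))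
    (phi : Gam) {f : ℕ} (hf : 0 < f) (hXf : X (phi ^ f) = 0) (hef : e (phi ^ f) = e 1)
    (v : A →* V) (hv : ∀ y, v (phi • y) = v y) (hvM : ∀ i < f, v (M (phi ^ i, phi)) = 1) :
    v a ^ X phi * v (e phi) ^ d = 1 := by
  have hvpow : ∀ (i : ℕ) (y : A), v (phi ^ i • y) = v y := by
    intro i
    induction i with
    | zero => intro y; simp
    | succ i ih => intro y; rw [pow_succ, mul_smul, ih, hv]
  -- the partial products
  have key : ∀ i ≤ f, v a ^ (i * X phi) * v (e phi) ^ (d * i) * v (e 1) ^ d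
      = v a ^ X (phi ^ i) * v (e (phi ^ i)) ^ d := by
    intro i
    induction i with
    | zero =>
      intro _
      rw [pow_zero, index_one_eq_zero X hXlt hXadd]
      simp
    | succ i ih =>
      intro hi
      have hi' : i < f := hi
      have h1 := hvM i hi'
      rw [hM, ← pow_succ] at h1
      have hc := carry_spec X hXlt hXadd (phi ^ i) phi
      rw [← pow_succ] at hc
      set c := (X (phi ^ i) + X phi - X (phi ^ (i + 1))) / d with hcdef
      have h2 : v a ^ c * v (e phi) * v (e (phi ^ i)) = v (e (phi ^ (i + 1))) := by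
        rw [map_div, map_mul, map_mul, map_pow, hvpow, div_eq_one] at h1
        exact h1
      have ih' := ih hi'.le
      have h3 : v (e (phi ^ (i + 1))) ^ d
          = v a ^ (d * c) * v (e phi) ^ d * v (e (phi ^ i)) ^ d := by
        rw [← h2, mul_pow, mul_pow, ← pow_mul, mul_comm c d]
      rw [h3]
      have h4 : v a ^ X (phi ^ (i + 1)) * (v a ^ (d * c) * v (e phi) ^ d * v (e (phi ^ i)) ^ d)
          = v a ^ X phi * v (e phi) ^ d * (v a ^ X (phi ^ i) * v (e (phi ^ i)) ^ d) := by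
        have h5 : v a ^ X (phi ^ (i + 1)) * v a ^ (d * c) = v a ^ X (phi ^ i) * v a ^ X phi := by
          rw [← pow_add, ← pow_add]
          congr 1
          omega
        calc v a ^ X (phi ^ (i + 1)) * (v a ^ (d * c) * v (e phi) ^ d * v (e (phi ^ i)) ^ d)
            = (v a ^ X (phi ^ (i + 1)) * v a ^ (d * c)) * v (e phi) ^ d * v (e (phi ^ i)) ^ d := by
              simp only [mul_assoc]
          _ = (v a ^ X (phi ^ i) * v a ^ X phi) * v (e phi) ^ d * v (e (phi ^ i)) ^ d := by
              rw [h5]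
          _ = v a ^ X phi * v (e phi) ^ d * (v a ^ X (phi ^ i) * v (e (phi ^ i)) ^ d) := by
              simp only [mul_assoc, mul_left_comm, mul_comm]
      rw [h4, ← ih']
      have h6 : v a ^ ((i + 1) * X phi) = v a ^ X phi * v a ^ (i * X phi) := by
        rw [← pow_add]
        congr 1
        ring
      have h7 : v (e phi) ^ (d * (i + 1)) = v (e phi) ^ d * v (e phi) ^ (d * i) := by
        rw [← pow_add]
        congr 1
        ring
      rw [h6, h7]
      simp only [mul_assoc, mul_left_comm]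
  have hfin := key f le_rfl
  rw [hXf, hef, pow_zero, one_mul] at hfin
  have h8 : (v a ^ X phi * v (e phi) ^ d) ^ f = 1 := by
    have h9 : v a ^ (f * X phi) * v (e phi) ^ (d * f) = 1 := by
      exact mul_right_cancel (hfin.trans (one_mul _).symm)
    rw [mul_pow, ← pow_mul, ← pow_mul, mul_comm (X phi) f]
    exact h9
  exact (pow_left_injective hf.ne').eq_iff.mp (by rw [h8, one_pow])

end Abstract


/-! ## Valuation subrings of `ℚ̄`: roots of unity, decomposition group, Frobenius -/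

section Valuation

local notation "Qb" => AlgebraicClosure ℚ
local notation "GQ" => (AlgebraicClosure ℚ ≃ₐ[ℚ] AlgebraicClosure ℚ)

/-- Torsion elements have valuation `1`. -/
theorem valuation_eq_one_of_pow_eq_one (A : ValuationSubring Qb) {x : Qb} {n : ℕ} (hn : n ≠ 0)
    (hx : x ^ n = 1) : A.valuation x = 1 := by
  have hx0 : x ≠ 0 := by
    rintro rfl
    rw [zero_pow hn] at hx
    exact zero_ne_one hx
  have hv0 : A.valuation x ≠ 0 := by rwa [Ne, map_eq_zero]
  have h : (Units.mk0 _ hv0) ^ n = 1 := by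
    apply Units.ext
    rw [Units.val_pow_eq_pow_val, Units.val_mk0, Units.val_one, ← map_pow, hx, map_one]
  have h2 := (pow_eq_one_iff_left hn).mp h
  have h3 := congrArg Units.val h2
  rwa [Units.val_mk0, Units.val_one] at h3

/-- Elements of the decomposition group map `A` into itself. -/
theorem map_mem_of_mem_decompositionSubgroup (A : ValuationSubring Qb) {σ : GQ}
    (hσ : σ ∈ A.decompositionSubgroup ℚ) {x : Qb} (hx : x ∈ A) : σ x ∈ A := by
  have h1 : σ • A = A := MulAction.mem_stabilizer_iff.mp hσ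
  have h2 : σ x ∈ σ • A := by
    rw [ValuationSubring.mem_pointwise_smul_iff_inv_smul_mem]
    simpa using hx
  rwa [h1] at h2

theorem valuation_map_le_one_iff (A : ValuationSubring Qb) {σ : GQ}
    (hσ : σ ∈ A.decompositionSubgroup ℚ) (x : Qb) :
    A.valuation (σ x) ≤ 1 ↔ A.valuation x ≤ 1 := by
  rw [A.valuation_le_one_iff, A.valuation_le_one_iff]
  constructor
  · intro h
    have := map_mem_of_mem_decompositionSubgroup A (inv_mem hσ) h
    simpa using this
  · exact fun h => map_mem_of_mem_decompositionSubgroup A hσ h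

theorem valuation_map_lt_one_iff (A : ValuationSubring Qb) {σ : GQ}
    (hσ : σ ∈ A.decompositionSubgroup ℚ) (x : Qb) :
    A.valuation (σ x) < 1 ↔ A.valuation x < 1 := by
  by_cases hx : x = 0
  · subst hx; simp
  have hσx : σ x ≠ 0 := by simpa using hx
  have h := valuation_map_le_one_iff A hσ x⁻¹
  rw [map_inv₀, map_inv₀, map_inv₀] at h
  have e1 : ∀ y : Qb, y ≠ 0 → ((A.valuation y)⁻¹ ≤ 1 ↔ 1 ≤ A.valuation y) := by
    intro y hy
    have hv0 : A.valuation y ≠ 0 := by rwa [Ne, map_eq_zero]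
    exact inv_le_one₀ (zero_lt_iff.mpr hv0)
  rw [e1 _ hσx, e1 _ hx] at h
  rw [← not_le, ← not_le, h]

/-- **The decomposition group preserves the valuation** (orbit argument; no hypothesis on
ramification). -/
theorem valuation_map_eq_of_mem_decompositionSubgroup (A : ValuationSubring Qb) {σ : GQ}
    (hσ : σ ∈ A.decompositionSubgroup ℚ) (y : Qb) : A.valuation (σ y) = A.valuation y := by
  -- key claim: `v (σ y / y) < 1` is impossible
  have claim : ∀ (τ : GQ), τ ∈ A.decompositionSubgroup ℚ → ∀ z : Qb, z ≠ 0 →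
      ¬ A.valuation (τ z / z) < 1 := by
    intro τ hτ z hz hlt
    -- a power of `τ` fixes `z`
    obtain ⟨n, hn, hfix⟩ : ∃ n : ℕ, 0 < n ∧ (τ ^ n) z = z := by
      have halg : Algebra.IsAlgebraic ℚ Qb := AlgebraicClosure.isAlgebraic ℚ
      have hint : IsIntegral ℚ z := (halg.isAlgebraic z).isIntegral
      have hfin : ((minpoly ℚ z).rootSet Qb).Finite := Polynomial.rootSet_finite _ _
      have hmaps : Set.MapsTo (fun i : ℕ => (τ ^ i) z) Set.univ ((minpoly ℚ z).rootSet Qb) := by
        intro i _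
        rw [Polynomial.mem_rootSet_of_ne (minpoly.ne_zero hint)]
        rw [Polynomial.aeval_algEquiv]
        simp [minpoly.aeval]
      obtain ⟨i, -, j, -, hij, heq⟩ :=
        Set.infinite_univ.exists_ne_map_eq_of_mapsTo hmaps hfin
      have aux : ∀ i j : ℕ, i < j → (τ ^ i) z = (τ ^ j) z → ∃ n : ℕ, 0 < n ∧ (τ ^ n) z = z := by
        intro i j hlt' h
        refine ⟨j - i, by omega, ?_⟩
        have hj : j = i + (j - i) := by omega
        rw [hj, pow_add] at h
        have h' : (τ ^ i) z = (τ ^ i) ((τ ^ (j - i)) z) := h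
        exact ((τ ^ i).injective h').symm
      rcases lt_or_gt_of_ne hij with h | h
      · exact aux i j h heq
      · exact aux j i h heq.symm
    set w : ℕ → Qb := fun i => (τ ^ i) (τ z / z) with hw
    have hwlt : ∀ i, A.valuation (w i) < 1 := fun i =>
      (valuation_map_lt_one_iff A (pow_mem hτ i) _).mpr hlt
    have hprod : ∏ i ∈ Finset.range n, w i = 1 := by
      have h1 : ∀ i, w i = (τ ^ (i + 1)) z / (τ ^ i) z := by
        intro i
        rw [hw]
        simp only [map_div₀]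
        rw [pow_succ]
        rfl
      have h0 : ∀ i : ℕ, (τ ^ i) z ≠ 0 := fun i =>
        (map_ne_zero_iff _ (τ ^ i).injective).mpr hz
      have htel : ∀ k : ℕ, ∏ i ∈ Finset.range k, w i = (τ ^ k) z / z := by
        intro k
        induction k with
        | zero => simp [div_self hz]
        | succ k ih =>
          rw [Finset.prod_range_succ, ih, h1 k, div_mul_div_comm, mul_comm,
            mul_div_mul_right _ _ (h0 k)]
      rw [htel n, hfix, div_self hz]
    have h2 := congrArg A.valuation hprod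
    rw [map_prod, map_one] at h2
    obtain ⟨k, rfl⟩ : ∃ k, n = k + 1 := ⟨n - 1, by omega⟩
    rw [Finset.prod_range_succ] at h2
    have h3 : ∏ i ∈ Finset.range k, A.valuation (w i) ≤ 1 :=
      Finset.prod_le_one' (fun i _ => (hwlt i).le)
    have h4 : (∏ i ∈ Finset.range k, A.valuation (w i)) * A.valuation (w k) < 1 :=
      lt_of_le_of_lt (mul_le_of_le_one_left' h3) (hwlt k)
    rw [h2] at h4
    exact lt_irrefl _ h4
  by_cases hy : y = 0
  · subst hy; simp
  have hσy : σ y ≠ 0 := by simpa using hy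
  have hv0 : A.valuation y ≠ 0 := by rwa [Ne, map_eq_zero]
  have hvσ0 : A.valuation (σ y) ≠ 0 := by rwa [Ne, map_eq_zero]
  have c1 := claim σ hσ y hy
  have c2 := claim σ⁻¹ (inv_mem hσ) (σ y) hσy
  have e2 : σ⁻¹ (σ y) = y := by simp
  rw [e2] at c2
  rw [map_div₀, not_lt] at c1 c2
  have h1 : A.valuation y ≤ A.valuation (σ y) := by
    have := (one_le_div₀ (zero_lt_iff.mpr hv0)).mp c1
    exact this
  have h2 : A.valuation (σ y) ≤ A.valuation y := by
    have := (one_le_div₀ (zero_lt_iff.mpr hvσ0)).mp c2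
    exact this
  exact le_antisymm h2 h1

end Valuation


/-! ## (B) Frobenius on roots of unity of order prime to `l` -/

section Frobenius

local notation "Qb" => AlgebraicClosure ℚ
local notation "GQ" => (AlgebraicClosure ℚ ≃ₐ[ℚ] AlgebraicClosure ℚ)

/-- Two `m`-th roots of unity congruent modulo the maximal ideal of `A` are equal, as soon as
`m` is a unit of `A`. -/
theorem eq_of_valuation_sub_lt_one (A : ValuationSubring Qb) {m : ℕ}
    (hm : A.valuation ((m : ℕ) : Qb) = 1) {ζ : Qb} (hζ : IsPrimitiveRoot ζ m) {x y : Qb}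
    (hx : x ^ m = 1) (hy : y ^ m = 1) (h : A.valuation (x - y) < 1) : x = y := by
  by_contra hne
  have hm0 : m ≠ 0 := by
    rintro rfl
    simp at hm
  have : NeZero m := ⟨hm0⟩
  have hy0 : y ≠ 0 := by
    rintro rfl
    rw [zero_pow hm0] at hy
    exact zero_ne_one hy
  have hω : (x / y) ^ m = 1 := by rw [div_pow, hx, hy, div_one]
  have hω1 : x / y ≠ 1 := fun h1 => hne ((div_eq_one_iff_eq hy0).mp h1)
  obtain ⟨i, hi, hiω⟩ := hζ.eq_pow_of_pow_eq_one hω
  have hi0 : i ≠ 0 := by
    rintro rfl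
    exact hω1 (by rw [← hiω, pow_zero])
  obtain ⟨n, rfl⟩ : ∃ n, m = n + 1 := ⟨m - 1, by omega⟩
  have hprod := hζ.prod_one_sub_pow_eq_order
  have hmem : i - 1 ∈ Finset.range n := by rw [Finset.mem_range]; omega
  rw [← Finset.mul_prod_erase _ _ hmem] at hprod
  have hi' : i - 1 + 1 = i := by omega
  rw [hi', hiω] at hprod
  have hval := congrArg A.valuation hprod
  rw [map_mul, map_prod] at hval
  have hcast : A.valuation ((n : Qb) + 1) = 1 := by
    have : (((n + 1 : ℕ) : ℕ) : Qb) = (n : Qb) + 1 := by push_cast; ring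
    rw [← this]; exact hm
  rw [hcast] at hval
  have hle : ∏ k ∈ (Finset.range n).erase (i - 1), A.valuation (1 - ζ ^ (k + 1)) ≤ 1 := by
    refine Finset.prod_le_one' (fun k _ => ?_)
    have h1 : A.valuation (ζ ^ (k + 1)) = 1 :=
      valuation_eq_one_of_pow_eq_one A hm0
        (by rw [← pow_mul, mul_comm, pow_mul, hζ.pow_eq_one, one_pow])
    calc A.valuation (1 - ζ ^ (k + 1))
        ≤ max (A.valuation 1) (A.valuation (ζ ^ (k + 1))) := Valuation.map_sub _ _ _
      _ = 1 := by rw [map_one, h1, max_self]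
  have hge : 1 ≤ A.valuation (1 - x / y) := by
    rw [← hval]
    exact mul_le_of_le_one_right' hle
  have hyv : A.valuation y = 1 := valuation_eq_one_of_pow_eq_one A hm0 hy
  have hxy : A.valuation (x - y) = A.valuation (1 - x / y) := by
    have e : x - y = -(y * (1 - x / y)) := by field_simp; ring
    rw [e, Valuation.map_neg, map_mul, hyv, one_mul]
  rw [hxy] at h
  exact absurd h (not_lt.mpr hge)

/-- **(B1)** A Frobenius element at a valuation subring over `l` raises roots of unity of order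
prime to `l` to the `l`-th power. -/
theorem frobenius_apply_primitiveRoot {l m : ℕ} (hl : l.Prime) (hlm : ¬ l ∣ m)
    (A : ValuationSubring Qb) (hA : A.LiesOverPrime l) {phi : GQ} (hphi : A.IsFrobeniusAt phi l)
    {ζ : Qb} (hζ : IsPrimitiveRoot ζ m) : phi ζ = ζ ^ l := by
  have hm0 : m ≠ 0 := by
    rintro rfl
    exact hlm (dvd_zero l)
  have hmv : A.valuation ((m : ℕ) : Qb) = 1 := by
    have h1 := valuation_intCast_eq_one hl A hA (m : ℤ) (by exact_mod_cast hlm)
    simpa using h1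
  have hζA : ζ ∈ A := by
    rw [← A.valuation_le_one_iff]
    exact (valuation_eq_one_of_pow_eq_one A hm0 hζ.pow_eq_one).le
  have hσ := hphi.mem_decompositionSubgroup
  have h1 := hphi.smul_residue_eq (IsLocalRing.residue A ⟨ζ, hζA⟩)
  rw [← IsLocalRing.ResidueField.residue_smul, ← map_pow, ← sub_eq_zero, ← map_sub,
    IsLocalRing.residue_eq_zero_iff] at h1
  have h2 : A.valuation (phi ζ - ζ ^ l) < 1 := by
    rw [← A.mem_nonunits_iff]
    exact ValuationSubring.coe_mem_nonunits_iff.mpr h1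
  refine eq_of_valuation_sub_lt_one A hmv hζ ?_ ?_ h2
  · rw [← map_pow, hζ.pow_eq_one, map_one]
  · rw [← pow_mul, mul_comm, pow_mul, hζ.pow_eq_one, one_pow]

/-- **(B2)** `phi ^ j` fixes a primitive `m`-th root of unity iff `ord_m(l) ∣ j`. -/
theorem frobenius_pow_apply_primitiveRoot_iff {l m : ℕ} (hl : l.Prime) (hlm : ¬ l ∣ m)
    (A : ValuationSubring Qb) (hA : A.LiesOverPrime l) {phi : GQ} (hphi : A.IsFrobeniusAt phi l)
    {ζ : Qb} (hζ : IsPrimitiveRoot ζ m) (j : ℕ) :
    (phi ^ j) ζ = ζ ↔ orderOf ((l : ℕ) : ZMod m) ∣ j := by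
  have h1 := frobenius_apply_primitiveRoot hl hlm A hA hphi hζ
  have h2 : ∀ j : ℕ, (phi ^ j) ζ = ζ ^ (l ^ j) := by
    intro j
    induction j with
    | zero => simp
    | succ j ih =>
      rw [pow_succ', AlgEquiv.mul_apply, ih, map_pow, h1, ← pow_mul, ← pow_succ']
  rw [h2 j, orderOf_dvd_iff_pow_eq_one]
  have h3 : ζ ^ (l ^ j) = ζ ↔ ζ ^ (l ^ j) = ζ ^ 1 := by rw [pow_one]
  have hζ0 : ζ ≠ 0 := by
    rintro rfl
    have hm0 : m ≠ 0 := by
      rintro rfl
      exact hlm (dvd_zero l)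
    have := hζ.pow_eq_one
    rw [zero_pow hm0] at this
    exact zero_ne_one this
  have h4 : (Units.mk0 ζ hζ0) ^ (l ^ j) = (Units.mk0 ζ hζ0) ^ 1 ↔ l ^ j ≡ 1 [MOD m] := by
    rw [pow_eq_pow_iff_modEq]
    have h5 : orderOf (Units.mk0 ζ hζ0) = m := by
      rw [← orderOf_units, Units.val_mk0]
      exact hζ.eq_orderOf.symm
    rw [h5]
  have h6 : ζ ^ (l ^ j) = ζ ^ 1 ↔ (Units.mk0 ζ hζ0) ^ (l ^ j) = (Units.mk0 ζ hζ0) ^ 1 := by
    rw [Units.ext_iff, Units.val_pow_eq_pow_val, Units.val_pow_eq_pow_val, Units.val_mk0]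
  rw [h3, h6, h4, ← ZMod.natCast_eq_natCast_iff]
  push_cast
  rfl

end Frobenius


/-! ## (C) the consumer theorem on `G_ℚ` -/

section Consumer

local notation "Qb" => AlgebraicClosure ℚ
local notation "GQ" => (AlgebraicClosure ℚ ≃ₐ[ℚ] AlgebraicClosure ℚ)

/-- The valuation of a natural number at a valuation subring over `l`. -/
theorem valuation_natCast_eq_pow {l : ℕ} (hl : l.Prime) (A : ValuationSubring Qb)
    (hA : A.LiesOverPrime l) {N : ℕ} (hN : N ≠ 0) :
    A.valuation ((N : ℕ) : Qb) = A.valuation ((l : ℕ) : Qb) ^ padicValNat l N := by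
  have : Fact l.Prime := ⟨hl⟩
  obtain ⟨k, u, hu, rfl⟩ := Nat.exists_eq_pow_mul_and_not_dvd hN l hl.ne_one
  have hu0 : u ≠ 0 := by
    rintro rfl
    exact hu (dvd_zero l)
  have h1 : padicValNat l (l ^ k * u) = k := by
    rw [padicValNat.mul (pow_ne_zero k hl.ne_zero) hu0, padicValNat.prime_pow,
      padicValNat.eq_zero_of_not_dvd hu, add_zero]
  have h2 : A.valuation ((u : ℕ) : Qb) = 1 := by
    have := valuation_intCast_eq_one hl A hA (u : ℤ) (by exact_mod_cast hu)
    simpa using this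
  rw [h1]
  push_cast
  rw [map_mul, map_pow, h2, mul_one]

/-- The valuation of a rational number at a valuation subring over `l`. -/
theorem valuation_ratCast_eq_zpow {l : ℕ} (hl : l.Prime) (A : ValuationSubring Qb)
    (hA : A.LiesOverPrime l) {a : ℚ} (ha : a ≠ 0) :
    A.valuation ((a : ℚ) : Qb) = A.valuation ((l : ℕ) : Qb) ^ padicValRat l a := by
  have hπ0 : A.valuation ((l : ℕ) : Qb) ≠ 0 := valuation_natCast_ne_zero hl A
  have hnum : a.num ≠ 0 := Rat.num_ne_zero.mpr ha
  have hnat : a.num.natAbs ≠ 0 := Int.natAbs_ne_zero.mpr hnum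
  have h1 : A.valuation ((a.num : ℤ) : Qb)
      = A.valuation ((l : ℕ) : Qb) ^ padicValNat l a.num.natAbs := by
    rw [← valuation_natCast_eq_pow hl A hA hnat]
    rcases Int.natAbs_eq a.num with h | h
    · conv_lhs => rw [h]
      simp
    · conv_lhs => rw [h]
      rw [Int.cast_neg, Valuation.map_neg]
      simp
  have h2 : A.valuation ((a.den : ℕ) : Qb)
      = A.valuation ((l : ℕ) : Qb) ^ padicValNat l a.den :=
    valuation_natCast_eq_pow hl A hA a.den_nz
  have h3 : ((a : ℚ) : Qb) = ((a.num : ℤ) : Qb) / ((a.den : ℕ) : Qb) := by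
    conv_lhs => rw [← Rat.num_div_den a]
    push_cast
    rfl
  rw [h3, map_div₀, h1, h2]
  have h4 : padicValRat l a = (padicValNat l a.num.natAbs : ℤ) - (padicValNat l a.den : ℤ) := rfl
  rw [h4, zpow_sub₀ hπ0, zpow_natCast, zpow_natCast]

/-- **(C) Consumer theorem** (units form).  Let `q ∉ S`, `ζ` a primitive `m`-th root of unity
with `q ∤ m`, `X : G_ℚ → ℕ` an index function modulo `d` detecting the stabiliser of `ζ`, `F` a
finite Galois extension of `ℚ` unramified outside `S`, `e : G_ℚ → ℚ̄ˣ` of level `F` with values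
in `F`.  If `M (g,h) = a ^ carry(g,h) * g(e h) * e g / e (g h)` takes only roots of unity as
values, then `ord_m(q) ∣ v_q(a)`. -/
theorem orderOf_dvd_padicValRat_of_cyclic_normal_form
    (S : Finset Nat.Primes) (q : Nat.Primes) (hqS : q ∉ S)
    {m : ℕ} (hqm : ¬ (q : ℕ) ∣ m) {ζ : Qb} (hζ : IsPrimitiveRoot ζ m)
    {d : ℕ} (X : GQ → ℕ) (hXlt : ∀ g, X g < d)
    (hXadd : ∀ g h, X (g * h) ≡ X g + X h [MOD d])
    (hXζ : ∀ g, X g = 0 ↔ g ζ = ζ)
    (a : Qbˣ) (a₀ : ℚ) (ha : (a : Qb) = ((a₀ : ℚ) : Qb))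
    (F : IntermediateField ℚ Qb) [IsGalois ℚ F] (hFS : F.IsUnramifiedOutside S)
    (e : GQ → Qbˣ) (heF : ∀ g, ((e g : Qbˣ) : Qb) ∈ F)
    (helev : ∀ g t, t ∈ F.fixingSubgroup → e (g * t) = e g)
    (M : GQ × GQ → Qbˣ) (hMroot : ∀ x, ∃ n : ℕ, n ≠ 0 ∧ M x ^ n = 1)
    (hM : ∀ g h, M (g, h) = a ^ ((X g + X h - X (g * h)) / d) * (g • e h) * e g / e (g * h)) :
    (orderOf (((q : ℕ) : ℕ) : ZMod m) : ℤ) ∣ padicValRat (q : ℕ) a₀ := by
  have hl : (q : ℕ).Prime := q.2
  set l : ℕ := (q : ℕ) with hldef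
  have ha₀ : a₀ ≠ 0 := by
    rintro rfl
    rw [Rat.cast_zero] at ha
    exact a.ne_zero ha
  have : FiniteDimensional ℚ F := hFS.1
  obtain ⟨A, hA⟩ := exists_liesOverPrime hl
  obtain ⟨phi, hphi⟩ := exists_isFrobeniusAt hl A hA
  have hI : A.inertiaSubgroupIn ℚ ≤ F.fixingSubgroup := hFS.2 q hqS A hA
  have hm0 : m ≠ 0 := by
    rintro rfl
    exact hqm (dvd_zero _)
  -- a power of `phi` fixes `F`
  obtain ⟨f₁, hf₁, hf₁F⟩ : ∃ f₁ : ℕ, 0 < f₁ ∧ phi ^ f₁ ∈ F.fixingSubgroup := by
    refine ⟨orderOf (AlgEquiv.restrictNormalHom (F := ℚ) (K₁ := Qb) F phi), orderOf_pos _, ?_⟩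
    rw [IntermediateField.mem_fixingSubgroup_iff]
    intro x hx
    have h1 := AlgEquiv.restrictNormal_commutes
      (phi ^ orderOf (AlgEquiv.restrictNormalHom (F := ℚ) (K₁ := Qb) F phi)) F ⟨x, hx⟩
    have h2 : (phi ^ orderOf (AlgEquiv.restrictNormalHom (F := ℚ) (K₁ := Qb) F phi)).restrictNormal F
        = 1 := by
      have h3 := pow_orderOf_eq_one (AlgEquiv.restrictNormalHom (F := ℚ) (K₁ := Qb) F phi)
      rw [← map_pow] at h3
      exact h3
    rw [h2] at h1
    exact h1.symm
  -- the order of `l` modulo `m` is positive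
  set o := orderOf ((l : ℕ) : ZMod m) with hodef
  have ho : 0 < o := by
    have hcop : Nat.Coprime l m := (Nat.Prime.coprime_iff_not_dvd hl).mpr hqm
    have h1 := Nat.ModEq.pow_totient hcop
    have h2 : ((l : ℕ) : ZMod m) ^ m.totient = 1 := by
      have := (ZMod.natCast_eq_natCast_iff _ _ m).mpr h1
      simpa using this
    exact Nat.pos_of_dvd_of_pos (orderOf_dvd_of_pow_eq_one h2)
      (Nat.totient_pos.mpr (Nat.pos_of_ne_zero hm0))
  have hB := frobenius_pow_apply_primitiveRoot_iff hl hqm A hA hphi hζ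
  -- the exponent `f`
  have hf : 0 < f₁ * o := Nat.mul_pos hf₁ ho
  have hfF : phi ^ (f₁ * o) ∈ F.fixingSubgroup := by
    rw [pow_mul]
    exact pow_mem hf₁F o
  have hXf : X (phi ^ (f₁ * o)) = 0 := by
    rw [hXζ, hB]
    exact dvd_mul_left o f₁
  have hef : e (phi ^ (f₁ * o)) = e 1 := by
    have := helev 1 _ hfF
    rwa [one_mul] at this
  -- the valuation as a homomorphism to a torsion-free group
  let v : Qbˣ →* (A.ValueGroup)ˣ := Units.map (A.valuation.toMonoidWithZeroHom.toMonoidHom)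
  have hvval : ∀ y : Qbˣ, ((v y : (A.ValueGroup)ˣ) : A.ValueGroup) = A.valuation (y : Qb) :=
    fun y => rfl
  have hv : ∀ y : Qbˣ, v (phi • y) = v y := by
    intro y
    apply Units.ext
    rw [hvval, hvval]
    exact valuation_map_eq_of_mem_decompositionSubgroup A hphi.mem_decompositionSubgroup _
  have hvM : ∀ i < f₁ * o, v (M (phi ^ i, phi)) = 1 := by
    intro i _
    obtain ⟨n, hn, hMn⟩ := hMroot (phi ^ i, phi)
    have h1 : v (M (phi ^ i, phi)) ^ n = 1 := by rw [← map_pow, hMn, map_one]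
    exact (pow_eq_one_iff_left hn).mp h1
  have hmain := carry_invariant X hXlt hXadd a e M hM phi hf hXf hef v hv hvM
  have hmain' := congrArg Units.val hmain
  rw [Units.val_mul, Units.val_pow_eq_pow_val, Units.val_pow_eq_pow_val, hvval, hvval,
    Units.val_one, ha] at hmain'
  -- valuations are powers of `π = v(l)`
  set π := A.valuation ((l : ℕ) : Qb) with hπdef
  have hπ0 : π ≠ 0 := valuation_natCast_ne_zero hl A
  have hπ1 : π < 1 := valuation_natCast_lt_one A hA
  obtain ⟨k, hk⟩ := exists_zpow_valuation_eq F hl A hA hI (e phi : Qb) (heF phi) (e phi).ne_zero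
  rw [valuation_ratCast_eq_zpow hl A hA ha₀, hk, ← zpow_natCast, ← zpow_natCast, ← zpow_mul,
    ← zpow_mul, ← zpow_add₀ hπ0] at hmain'
  have hzero : padicValRat l a₀ * (X phi : ℤ) + k * (d : ℤ) = 0 := by
    have hinj := zpow_right_injective₀ (zero_lt_iff.mpr hπ0) hπ1.ne
    apply hinj
    simp only
    rw [hmain', zpow_zero]
  -- translate: `o ∣ j ↔ d ∣ j * X phi`
  have hX1 : X 1 = 0 := index_one_eq_zero X hXlt hXadd
  have hXpow : ∀ j : ℕ, X (phi ^ j) ≡ j * X phi [MOD d] := by
    intro j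
    induction j with
    | zero => rw [pow_zero, hX1, zero_mul]
    | succ j ih =>
      rw [pow_succ]
      have h1 := hXadd (phi ^ j) phi
      have h2 : X (phi ^ j) + X phi ≡ j * X phi + X phi [MOD d] := Nat.ModEq.add_right _ ih
      have h3 : j * X phi + X phi = (j + 1) * X phi := by ring
      rw [h3] at h2
      exact h1.trans h2
  have hiff : ∀ j : ℕ, d ∣ j * X phi → o ∣ j := by
    intro j hj
    rw [← hB j, ← hXζ]
    have h1 : X (phi ^ j) ≡ 0 [MOD d] := (hXpow j).trans ((Nat.modEq_zero_iff_dvd).mpr hj)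
    exact Nat.eq_zero_of_dvd_of_lt ((Nat.modEq_zero_iff_dvd).mp h1) (hXlt _)
  have hdvd : (d : ℤ) ∣ padicValRat l a₀ * (X phi : ℤ) :=
    ⟨-k, by linear_combination hzero⟩
  rw [Int.natCast_dvd, Int.natAbs_mul, Int.natAbs_natCast] at hdvd
  exact Int.natCast_dvd.mpr (hiff _ hdvd)

/-- **(C) Consumer theorem** (field-valued cochains).  Same statement as
`orderOf_dvd_padicValRat_of_cyclic_normal_form` with `e`, `M` valued in `ℚ̄` (nonzero values)
and the Galois action written as function application. -/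
theorem orderOf_dvd_padicValRat_of_cyclic_normal_form'
    (S : Finset Nat.Primes) (q : Nat.Primes) (hqS : q ∉ S)
    {m : ℕ} (hqm : ¬ (q : ℕ) ∣ m) {ζ : Qb} (hζ : IsPrimitiveRoot ζ m)
    {d : ℕ} (X : GQ → ℕ) (hXlt : ∀ g, X g < d)
    (hXadd : ∀ g h, X (g * h) ≡ X g + X h [MOD d])
    (hXζ : ∀ g, X g = 0 ↔ g ζ = ζ)
    (a₀ : ℚ) (ha₀ : a₀ ≠ 0)
    (F : IntermediateField ℚ Qb) [IsGalois ℚ F] (hFS : F.IsUnramifiedOutside S)
    (e : GQ → Qb) (he0 : ∀ g, e g ≠ 0) (heF : ∀ g, e g ∈ F)
    (helev : ∀ g t, t ∈ F.fixingSubgroup → e (g * t) = e g)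
    (M : GQ × GQ → Qb) (hMroot : ∀ x, ∃ n : ℕ, n ≠ 0 ∧ M x ^ n = 1)
    (hM : ∀ g h, M (g, h)
      = ((a₀ : ℚ) : Qb) ^ ((X g + X h - X (g * h)) / d) * g (e h) * e g / e (g * h)) :
    (orderOf (((q : ℕ) : ℕ) : ZMod m) : ℤ) ∣ padicValRat (q : ℕ) a₀ := by
  have ha0 : ((a₀ : ℚ) : Qb) ≠ 0 := by exact_mod_cast ha₀
  have hM0 : ∀ x, M x ≠ 0 := by
    intro x hx
    obtain ⟨n, hn, hMn⟩ := hMroot x
    rw [hx, zero_pow hn] at hMn
    exact zero_ne_one hMn
  refine orderOf_dvd_padicValRat_of_cyclic_normal_form S q hqS hqm hζ X hXlt hXadd hXζ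
    (Units.mk0 _ ha0) a₀ rfl F hFS (fun g => Units.mk0 (e g) (he0 g)) heF ?_
    (fun x => Units.mk0 (M x) (hM0 x)) ?_ ?_
  · intro g t ht
    apply Units.ext
    exact helev g t ht
  · intro x
    obtain ⟨n, hn, hMn⟩ := hMroot x
    refine ⟨n, hn, ?_⟩
    apply Units.ext
    rw [Units.val_pow_eq_pow_val, Units.val_mk0, hMn, Units.val_one]
  · intro g h
    apply Units.ext
    rw [Units.val_mk0, hM g h]
    simp [Units.val_div_eq_div_val]

end Consumer

end Fermat.Agent.S55.helper1401
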