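import Mathlib
import Fermat.Prelude.Def_GroupCohomology_ContinuousUnramified
import Fermat.Agent.S55.helper698_LocTop
import Fermat.Agent.S55.helper512_MuP
import Fermat.Agent.S55.helper9554_LocalSpec

/-!
# S55 / BR-OPENSUB (backup copy, helper1110)

Open subgroups of a Galois group are Galois groups of finite subextensions, with matching
levels.

* Part (A): abstract (possibly infinite) Galois extension `Ω/k`.
* Part (A'): transport of levels between `K₀.fixingSubgroup` and `Ω ≃ₐ[K₀] Ω`.
* Part (B): the frozen local carrier `Γ_q = PadicAlgCl q ≃ₐ[ℚ_[q]] PadicAlgCl q` with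
  `r = localGaloisToGlobal q`.
-/

set_option autoImplicit false

noncomputable section

namespace Fermat.Agent.S55.helper1110

open IntermediateField

/-! ## Part (A): abstract Galois theory above a finite level -/

section Abstract

variable {k Ω : Type*} [Field k] [Field Ω] [Algebra k Ω]

/-- A subgroup of `Gal(Ω/k)` containing the fixing subgroup of a finite subextension is open
for the Krull topology. -/
theorem isOpen_of_fixingSubgroup_le {U : Subgroup (Ω ≃ₐ[k] Ω)} {K : IntermediateField k Ω}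
    [FiniteDimensional k K] (h : K.fixingSubgroup ≤ U) : IsOpen (U : Set (Ω ≃ₐ[k] Ω)) :=
  Subgroup.isOpen_mono h K.fixingSubgroup_isOpen

variable [IsGalois k Ω]

/-- (A1) A subgroup above a finite level is the fixing subgroup of its fixed field. -/
theorem fixingSubgroup_fixedField_of_le {U : Subgroup (Ω ≃ₐ[k] Ω)} {K : IntermediateField k Ω}
    [FiniteDimensional k K] (h : K.fixingSubgroup ≤ U) :
    (fixedField U).fixingSubgroup = U := by
  have hcl : IsClosed (U : Set (Ω ≃ₐ[k] Ω)) := U.isClosed_of_isOpen (isOpen_of_fixingSubgroup_le h)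
  exact InfiniteGalois.fixingSubgroup_fixedField ⟨U, hcl⟩

/-- (A2) Its fixed field is contained in the level field. -/
theorem fixedField_le_of_le {U : Subgroup (Ω ≃ₐ[k] Ω)} {K : IntermediateField k Ω}
    (h : K.fixingSubgroup ≤ U) : fixedField U ≤ K := by
  have h1 : fixedField U ≤ fixedField K.fixingSubgroup := fixedField_antitone h
  rwa [InfiniteGalois.fixedField_fixingSubgroup] at h1

/-- (A2') Hence the fixed field is finite over `k`. -/
theorem finiteDimensional_fixedField_of_le {U : Subgroup (Ω ≃ₐ[k] Ω)} {K : IntermediateField k Ω}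
    [FiniteDimensional k K] (h : K.fixingSubgroup ≤ U) : FiniteDimensional k (fixedField U) :=
  FiniteDimensional.of_injective (IntermediateField.inclusion (fixedField_le_of_le h)).toLinearMap
    (IntermediateField.inclusion_injective (fixedField_le_of_le h))

/-- (A3) The index of a subgroup above a finite level is the degree of its fixed field. -/
theorem index_eq_finrank_fixedField {U : Subgroup (Ω ≃ₐ[k] Ω)} {K : IntermediateField k Ω}
    [FiniteDimensional k K] (h : K.fixingSubgroup ≤ U) :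
    U.index = Module.finrank k (fixedField U) := by
  rw [IntermediateField.finrank_eq_fixingSubgroup_index, fixingSubgroup_fixedField_of_le h]

/-- (A) packaged: a subgroup above a finite level `K` is `K₀.fixingSubgroup` for a (unique)
subfield `K₀ ≤ K`, finite over `k`, of degree the index of the subgroup. -/
theorem exists_eq_fixingSubgroup_of_le {U : Subgroup (Ω ≃ₐ[k] Ω)} {K : IntermediateField k Ω}
    [FiniteDimensional k K] (h : K.fixingSubgroup ≤ U) :
    ∃ K₀ : IntermediateField k Ω, K₀ ≤ K ∧ FiniteDimensional k K₀ ∧ U = K₀.fixingSubgroup ∧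
      U.index = Module.finrank k K₀ :=
  ⟨fixedField U, fixedField_le_of_le h, finiteDimensional_fixedField_of_le h,
    (fixingSubgroup_fixedField_of_le h).symm, index_eq_finrank_fixedField h⟩

/-- Uniqueness of the field in (A). -/
theorem eq_fixedField_of_eq_fixingSubgroup {U : Subgroup (Ω ≃ₐ[k] Ω)} {K₀ : IntermediateField k Ω}
    (h : U = K₀.fixingSubgroup) : K₀ = fixedField U := by
  rw [h, InfiniteGalois.fixedField_fixingSubgroup]

/-- A subgroup above a finite level has finite index. -/
theorem finiteIndex_of_fixingSubgroup_le {U : Subgroup (Ω ≃ₐ[k] Ω)} {K : IntermediateField k Ω}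
    [FiniteDimensional k K] (h : K.fixingSubgroup ≤ U) : U.FiniteIndex := by
  have := finiteDimensional_fixedField_of_le h
  refine ⟨?_⟩
  rw [index_eq_finrank_fixedField h]
  exact Module.finrank_pos.ne'

/-- The fixing subgroup of a finite subextension has index its degree (restatement of the Mathlib
lemma in the direction used by consumers). -/
theorem index_fixingSubgroup (K₀ : IntermediateField k Ω) :
    K₀.fixingSubgroup.index = Module.finrank k K₀ := by
  rw [IntermediateField.finrank_eq_fixingSubgroup_index]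

end Abstract

/-! ## Part (A'): the Galois group over an intermediate field, and transport of levels -/

section Restrict

variable {k Ω : Type*} [Field k] [Field Ω] [Algebra k Ω]

/-- Restriction of scalars `Gal(Ω/K₀) → Gal(Ω/k)` as a group homomorphism
(Mathlib's `AlgEquiv.restrictScalarsHom`, with the intermediate field explicit). -/
def resHom (K₀ : IntermediateField k Ω) : (Ω ≃ₐ[K₀] Ω) →* (Ω ≃ₐ[k] Ω) :=
  AlgEquiv.restrictScalarsHom k

theorem resHom_eq_restrictScalarsHom (K₀ : IntermediateField k Ω) :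
    resHom K₀ = AlgEquiv.restrictScalarsHom k := rfl

@[simp] theorem resHom_apply (K₀ : IntermediateField k Ω) (σ : Ω ≃ₐ[K₀] Ω) (x : Ω) :
    resHom K₀ σ x = σ x := rfl

theorem resHom_injective (K₀ : IntermediateField k Ω) : Function.Injective (resHom K₀) := by
  intro σ τ h
  ext x
  have := DFunLike.congr_fun h x
  simpa using this

theorem resHom_mem_fixingSubgroup (K₀ : IntermediateField k Ω) (σ : Ω ≃ₐ[K₀] Ω) :
    resHom K₀ σ ∈ K₀.fixingSubgroup := by
  rw [IntermediateField.mem_fixingSubgroup_iff]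
  intro x hx
  exact σ.commutes ⟨x, hx⟩

/-- `resHom K₀` is the inverse of Mathlib's `fixingSubgroupEquiv K₀` followed by the inclusion. -/
theorem resHom_eq (K₀ : IntermediateField k Ω) :
    resHom K₀ = K₀.fixingSubgroup.subtype.comp
      (IntermediateField.fixingSubgroupEquiv K₀).symm.toMonoidHom := rfl

theorem resHom_fixingSubgroupEquiv (K₀ : IntermediateField k Ω) (σ : K₀.fixingSubgroup) :
    resHom K₀ (IntermediateField.fixingSubgroupEquiv K₀ σ) = σ := by
  ext x
  rfl

theorem fixingSubgroupEquiv_symm_coe (K₀ : IntermediateField k Ω) (σ : Ω ≃ₐ[K₀] Ω) :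
    (((IntermediateField.fixingSubgroupEquiv K₀).symm σ : K₀.fixingSubgroup) : Ω ≃ₐ[k] Ω) =
      resHom K₀ σ := rfl

theorem range_resHom (K₀ : IntermediateField k Ω) : (resHom K₀).range = K₀.fixingSubgroup := by
  ext σ
  constructor
  · rintro ⟨τ, rfl⟩
    exact resHom_mem_fixingSubgroup K₀ τ
  · intro hσ
    exact ⟨IntermediateField.fixingSubgroupEquiv K₀ ⟨σ, hσ⟩,
      resHom_fixingSubgroupEquiv K₀ ⟨σ, hσ⟩⟩

/-- Levels of `Gal(Ω/K₀)` are the traces of the levels of `Gal(Ω/k)` containing `K₀`. -/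
theorem comap_resHom_fixingSubgroup_restrictScalars (K₀ : IntermediateField k Ω)
    (E : IntermediateField K₀ Ω) :
    (E.restrictScalars k).fixingSubgroup.comap (resHom K₀) = E.fixingSubgroup := by
  ext σ
  simp only [Subgroup.mem_comap, IntermediateField.mem_fixingSubgroup_iff,
    IntermediateField.mem_restrictScalars, resHom_apply]

/-- The trace on `Gal(Ω/K₀)` of an arbitrary level `L` of `Gal(Ω/k)` is the level `L·K₀`. -/
theorem comap_resHom_fixingSubgroup (K₀ L : IntermediateField k Ω) :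
    L.fixingSubgroup.comap (resHom K₀) =
      (IntermediateField.extendScalars (le_sup_right : K₀ ≤ L ⊔ K₀)).fixingSubgroup := by
  rw [← comap_resHom_fixingSubgroup_restrictScalars, IntermediateField.extendScalars_restrictScalars,
    IntermediateField.fixingSubgroup_sup]
  ext σ
  simp only [Subgroup.mem_comap, Subgroup.mem_inf, resHom_mem_fixingSubgroup, and_true]

/-- A level of `Gal(Ω/K₀)` finite over `K₀` is finite over `k` when `K₀` is. -/
theorem finiteDimensional_restrictScalars (K₀ : IntermediateField k Ω) [FiniteDimensional k K₀]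
    (E : IntermediateField K₀ Ω) [FiniteDimensional K₀ E] :
    FiniteDimensional k (E.restrictScalars k) := by
  have h : FiniteDimensional k E := Module.Finite.trans K₀ E
  exact h

/-- The compositum `L·K₀` is finite over `K₀` when `L` is finite over `k`. -/
theorem finiteDimensional_extendScalars_sup (K₀ L : IntermediateField k Ω) [FiniteDimensional k K₀]
    [FiniteDimensional k L] :
    FiniteDimensional K₀ (IntermediateField.extendScalars (le_sup_right : K₀ ≤ L ⊔ K₀)) := by
  have h1 : FiniteDimensional k (IntermediateField.extendScalars (le_sup_right : K₀ ≤ L ⊔ K₀)) := by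
    have h2 : FiniteDimensional k (L ⊔ K₀ : IntermediateField k Ω) := inferInstance
    exact h2
  exact FiniteDimensional.right k K₀ _

/-- Generic transport of a "there is a level such that …" statement between `Gal(Ω/k)`-levels
pulled back along `resHom K₀` and `Gal(Ω/K₀)`-levels. -/
theorem exists_level_resHom_iff (K₀ : IntermediateField k Ω) [FiniteDimensional k K₀]
    (P : Subgroup (Ω ≃ₐ[K₀] Ω) → Prop) :
    (∃ L : IntermediateField k Ω, FiniteDimensional k L ∧
        P (L.fixingSubgroup.comap (resHom K₀))) ↔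
      ∃ E : IntermediateField K₀ Ω, FiniteDimensional K₀ E ∧ P E.fixingSubgroup := by
  constructor
  · rintro ⟨L, hL, h⟩
    have := hL
    exact ⟨_, finiteDimensional_extendScalars_sup K₀ L, by rwa [← comap_resHom_fixingSubgroup]⟩
  · rintro ⟨E, hE, h⟩
    have := hE
    exact ⟨E.restrictScalars k, finiteDimensional_restrictScalars K₀ E,
      by rwa [comap_resHom_fixingSubgroup_restrictScalars]⟩

/-- Level-constancy of a 1-cochain on `Gal(Ω/K₀)`: levels over `k` pulled back vs levels over
`K₀`. -/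
theorem exists_level_const₁_resHom_iff (K₀ : IntermediateField k Ω) [FiniteDimensional k K₀]
    {X : Type*} (c : (Ω ≃ₐ[K₀] Ω) → X) :
    (∃ L : IntermediateField k Ω, FiniteDimensional k L ∧
        ∀ g s : Ω ≃ₐ[K₀] Ω, resHom K₀ s ∈ L.fixingSubgroup → c (g * s) = c g) ↔
      ∃ E : IntermediateField K₀ Ω, FiniteDimensional K₀ E ∧
        ∀ g s : Ω ≃ₐ[K₀] Ω, s ∈ E.fixingSubgroup → c (g * s) = c g :=
  exists_level_resHom_iff K₀ (fun H => ∀ g s : Ω ≃ₐ[K₀] Ω, s ∈ H → c (g * s) = c g)

/-- Level-constancy of a 2-cochain on `Gal(Ω/K₀)`: levels over `k` pulled back vs levels over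
`K₀`. -/
theorem exists_level_const₂_resHom_iff (K₀ : IntermediateField k Ω) [FiniteDimensional k K₀]
    {X : Type*} (c : (Ω ≃ₐ[K₀] Ω) × (Ω ≃ₐ[K₀] Ω) → X) :
    (∃ L : IntermediateField k Ω, FiniteDimensional k L ∧
        ∀ g g' s s' : Ω ≃ₐ[K₀] Ω, resHom K₀ s ∈ L.fixingSubgroup →
          resHom K₀ s' ∈ L.fixingSubgroup → c (g * s, g' * s') = c (g, g')) ↔
      ∃ E : IntermediateField K₀ Ω, FiniteDimensional K₀ E ∧
        ∀ g g' s s' : Ω ≃ₐ[K₀] Ω, s ∈ E.fixingSubgroup → s' ∈ E.fixingSubgroup →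
          c (g * s, g' * s') = c (g, g') :=
  exists_level_resHom_iff K₀
    (fun H => ∀ g g' s s' : Ω ≃ₐ[K₀] Ω, s ∈ H → s' ∈ H → c (g * s, g' * s') = c (g, g'))

end Restrict

/-! ## Part (B): the frozen local carrier `Γ_q = Gal(PadicAlgCl q / ℚ_[q])` -/

section Local

variable (q : ℕ) [Fact q.Prime]

/-- A subgroup `U` of the local Galois group is *`r`-open* when it contains the preimage under
`r = localGaloisToGlobal q` of the fixing subgroup of a number field.  (This is
`IsLevelOpen (localGaloisToGlobal q) U` of `helper5550_ShapiroLevel`, by definitional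
unfolding.) -/
def IsROpen (U : Subgroup (PadicAlgCl q ≃ₐ[ℚ_[q]] PadicAlgCl q)) : Prop :=
  ∃ F : IntermediateField ℚ (AlgebraicClosure ℚ), FiniteDimensional ℚ F ∧
    F.fixingSubgroup.comap (localGaloisToGlobal q) ≤ U

variable {q}

/-- (B0) `r`-open ⇔ contains the fixing subgroup of a finite extension of `ℚ_[q]`. -/
theorem isROpen_iff_exists_le {U : Subgroup (PadicAlgCl q ≃ₐ[ℚ_[q]] PadicAlgCl q)} :
    IsROpen q U ↔ ∃ K : IntermediateField ℚ_[q] (PadicAlgCl q), FiniteDimensional ℚ_[q] K ∧
      K.fixingSubgroup ≤ U := by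
  constructor
  · rintro ⟨F, hF, h⟩
    have := hF
    obtain ⟨K, hK, hKF⟩ := helper698.exists_localField_fixingSubgroup_le q F
    exact ⟨K, hK, fun τ hτ => h (hKF τ hτ)⟩
  · rintro ⟨K, hK, h⟩
    have := hK
    obtain ⟨F, hF, hFK⟩ := helper698.exists_numberField_comap_fixingSubgroup_le q K
    exact ⟨F, hF, fun τ hτ => h (hFK τ hτ)⟩

/-- `r`-open ⇔ open for the Krull topology. -/
theorem isROpen_iff_isOpen {U : Subgroup (PadicAlgCl q ≃ₐ[ℚ_[q]] PadicAlgCl q)} :
    IsROpen q U ↔ IsOpen (U : Set (PadicAlgCl q ≃ₐ[ℚ_[q]] PadicAlgCl q)) := by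
  rw [isROpen_iff_exists_le]
  constructor
  · rintro ⟨K, hK, h⟩
    have := hK
    exact isOpen_of_fixingSubgroup_le h
  · intro h
    have h1 : (U : Set (PadicAlgCl q ≃ₐ[ℚ_[q]] PadicAlgCl q)) ∈ nhds 1 := h.mem_nhds U.one_mem
    rw [krullTopology_mem_nhds_one_iff] at h1
    obtain ⟨K, hK, hKU⟩ := h1
    exact ⟨K, hK, hKU⟩

/-- The fixing subgroup of a finite extension of `ℚ_[q]` is `r`-open. -/
theorem isROpen_fixingSubgroup (K₀ : IntermediateField ℚ_[q] (PadicAlgCl q))
    [FiniteDimensional ℚ_[q] K₀] : IsROpen q K₀.fixingSubgroup :=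
  isROpen_iff_exists_le.2 ⟨K₀, inferInstance, le_rfl⟩

theorem IsROpen.mono {U V : Subgroup (PadicAlgCl q ≃ₐ[ℚ_[q]] PadicAlgCl q)} (hU : IsROpen q U)
    (h : U ≤ V) : IsROpen q V := by
  obtain ⟨F, hF, hFU⟩ := hU
  exact ⟨F, hF, hFU.trans h⟩

theorem IsROpen.inf {U V : Subgroup (PadicAlgCl q ≃ₐ[ℚ_[q]] PadicAlgCl q)} (hU : IsROpen q U)
    (hV : IsROpen q V) : IsROpen q (U ⊓ V) := by
  obtain ⟨K, hK, hKU⟩ := isROpen_iff_exists_le.1 hU
  obtain ⟨K', hK', hKV⟩ := isROpen_iff_exists_le.1 hV
  have := hK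
  have := hK'
  refine isROpen_iff_exists_le.2 ⟨K ⊔ K', inferInstance, ?_⟩
  rw [IntermediateField.fixingSubgroup_sup]
  exact inf_le_inf hKU hKV

/-- (B1) An `r`-open subgroup is the fixing subgroup of its fixed field. -/
theorem IsROpen.fixingSubgroup_fixedField {U : Subgroup (PadicAlgCl q ≃ₐ[ℚ_[q]] PadicAlgCl q)}
    (hU : IsROpen q U) : (fixedField U).fixingSubgroup = U := by
  obtain ⟨K, hK, h⟩ := isROpen_iff_exists_le.1 hU
  have := hK
  exact fixingSubgroup_fixedField_of_le h

/-- (B1) The fixed field of an `r`-open subgroup is finite over `ℚ_[q]`. -/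
theorem IsROpen.finiteDimensional_fixedField
    {U : Subgroup (PadicAlgCl q ≃ₐ[ℚ_[q]] PadicAlgCl q)} (hU : IsROpen q U) :
    FiniteDimensional ℚ_[q] (fixedField U) := by
  obtain ⟨K, hK, h⟩ := isROpen_iff_exists_le.1 hU
  have := hK
  exact finiteDimensional_fixedField_of_le h

/-- (B1) The index of an `r`-open subgroup is the degree of its fixed field. -/
theorem IsROpen.index_eq_finrank {U : Subgroup (PadicAlgCl q ≃ₐ[ℚ_[q]] PadicAlgCl q)}
    (hU : IsROpen q U) : U.index = Module.finrank ℚ_[q] (fixedField U) := by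
  obtain ⟨K, hK, h⟩ := isROpen_iff_exists_le.1 hU
  have := hK
  exact index_eq_finrank_fixedField h

theorem IsROpen.finiteIndex {U : Subgroup (PadicAlgCl q ≃ₐ[ℚ_[q]] PadicAlgCl q)}
    (hU : IsROpen q U) : U.FiniteIndex := by
  obtain ⟨K, hK, h⟩ := isROpen_iff_exists_le.1 hU
  have := hK
  exact finiteIndex_of_fixingSubgroup_le h

/-- (B1) packaged: `r`-open ⇔ fixing subgroup of a finite extension of `ℚ_[q]`. -/
theorem isROpen_iff {U : Subgroup (PadicAlgCl q ≃ₐ[ℚ_[q]] PadicAlgCl q)} :
    IsROpen q U ↔ ∃ K₀ : IntermediateField ℚ_[q] (PadicAlgCl q), FiniteDimensional ℚ_[q] K₀ ∧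
      U = K₀.fixingSubgroup := by
  constructor
  · intro hU
    exact ⟨fixedField U, hU.finiteDimensional_fixedField, hU.fixingSubgroup_fixedField.symm⟩
  · rintro ⟨K₀, hK₀, rfl⟩
    have := hK₀
    exact isROpen_fixingSubgroup K₀

/-- (B1) with the index. -/
theorem IsROpen.exists_eq_fixingSubgroup {U : Subgroup (PadicAlgCl q ≃ₐ[ℚ_[q]] PadicAlgCl q)}
    (hU : IsROpen q U) :
    ∃ K₀ : IntermediateField ℚ_[q] (PadicAlgCl q), FiniteDimensional ℚ_[q] K₀ ∧
      U = K₀.fixingSubgroup ∧ U.index = Module.finrank ℚ_[q] K₀ :=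
  ⟨fixedField U, hU.finiteDimensional_fixedField, hU.fixingSubgroup_fixedField.symm,
    hU.index_eq_finrank⟩

/-! ### Level-constant cochains on a subgroup of `Γ_q` -/

/-- (B2) Frozen level-constancy of a 1-cochain on a subgroup `U` (for the restricted map
`r ∘ U.subtype`) is right-invariance under a finite local level. -/
theorem isLevelConstant₁_comp_subtype_iff (U : Subgroup (PadicAlgCl q ≃ₐ[ℚ_[q]] PadicAlgCl q))
    {X : Type*} (f : U → X) :
    groupCohomology.IsLevelConstant₁ ((localGaloisToGlobal q).comp U.subtype) f ↔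
      ∃ L : IntermediateField ℚ_[q] (PadicAlgCl q), FiniteDimensional ℚ_[q] L ∧
        ∀ g s : U, (s : PadicAlgCl q ≃ₐ[ℚ_[q]] PadicAlgCl q) ∈ L.fixingSubgroup →
          f (g * s) = f g := by
  constructor
  · rintro ⟨F, hF, h⟩
    have := hF
    obtain ⟨K, hK, hKF⟩ := helper698.exists_localField_fixingSubgroup_le q F
    exact ⟨K, hK, fun g s hs => h g s (hKF s hs)⟩
  · rintro ⟨K, hK, h⟩
    have := hK
    obtain ⟨F, hF, hFK⟩ := helper698.exists_numberField_comap_fixingSubgroup_le q K
    exact ⟨F, hF, fun g s hs => h g s (hFK s hs)⟩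

/-- (B2) The same for 2-cochains. -/
theorem isLevelConstant₂_comp_subtype_iff (U : Subgroup (PadicAlgCl q ≃ₐ[ℚ_[q]] PadicAlgCl q))
    {X : Type*} (f : U × U → X) :
    groupCohomology.IsLevelConstant₂ ((localGaloisToGlobal q).comp U.subtype) f ↔
      ∃ L : IntermediateField ℚ_[q] (PadicAlgCl q), FiniteDimensional ℚ_[q] L ∧
        ∀ g g' s s' : U, (s : PadicAlgCl q ≃ₐ[ℚ_[q]] PadicAlgCl q) ∈ L.fixingSubgroup →
          (s' : PadicAlgCl q ≃ₐ[ℚ_[q]] PadicAlgCl q) ∈ L.fixingSubgroup →
          f (g * s, g' * s') = f (g, g') := by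
  constructor
  · rintro ⟨F, hF, h⟩
    have := hF
    obtain ⟨K, hK, hKF⟩ := helper698.exists_localField_fixingSubgroup_le q F
    exact ⟨K, hK, fun g g' s s' hs hs' => h g g' s s' (hKF s hs) (hKF s' hs')⟩
  · rintro ⟨K, hK, h⟩
    have := hK
    obtain ⟨F, hF, hFK⟩ := helper698.exists_numberField_comap_fixingSubgroup_le q K
    exact ⟨F, hF, fun g g' s s' hs hs' => h g g' s s' (hFK s hs) (hFK s' hs')⟩

/-- Every finite level can be enlarged to a finite Galois level inside a given `r`-open
subgroup. -/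
theorem IsROpen.exists_normal_level_ge {U : Subgroup (PadicAlgCl q ≃ₐ[ℚ_[q]] PadicAlgCl q)}
    (hU : IsROpen q U) (L : IntermediateField ℚ_[q] (PadicAlgCl q)) [FiniteDimensional ℚ_[q] L] :
    ∃ L' : IntermediateField ℚ_[q] (PadicAlgCl q), L ≤ L' ∧ FiniteDimensional ℚ_[q] L' ∧
      Normal ℚ_[q] L' ∧ L'.fixingSubgroup ≤ U := by
  obtain ⟨K, hK, hKU⟩ := isROpen_iff_exists_le.1 hU
  have := hK
  obtain ⟨L', hle, hfd, hn⟩ := helper698.exists_finite_normal_ge q (L ⊔ K)
  exact ⟨L', le_sup_left.trans hle, hfd, hn,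
    (IntermediateField.fixingSubgroup_antitone (le_sup_right.trans hle)).trans hKU⟩

/-- (B2') On an `r`-open subgroup the level can be taken Galois over `ℚ_[q]` and inside `U`. -/
theorem IsROpen.isLevelConstant₁_iff {U : Subgroup (PadicAlgCl q ≃ₐ[ℚ_[q]] PadicAlgCl q)}
    (hU : IsROpen q U) {X : Type*} (f : U → X) :
    groupCohomology.IsLevelConstant₁ ((localGaloisToGlobal q).comp U.subtype) f ↔
      ∃ L : IntermediateField ℚ_[q] (PadicAlgCl q), FiniteDimensional ℚ_[q] L ∧
        Normal ℚ_[q] L ∧ L.fixingSubgroup ≤ U ∧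
        ∀ g s : U, (s : PadicAlgCl q ≃ₐ[ℚ_[q]] PadicAlgCl q) ∈ L.fixingSubgroup →
          f (g * s) = f g := by
  rw [isLevelConstant₁_comp_subtype_iff]
  constructor
  · rintro ⟨L, hL, h⟩
    have := hL
    obtain ⟨L', hle, hfd, hn, hLU⟩ := hU.exists_normal_level_ge L
    exact ⟨L', hfd, hn, hLU,
      fun g s hs => h g s (IntermediateField.fixingSubgroup_antitone hle hs)⟩
  · rintro ⟨L, hL, _, _, h⟩
    exact ⟨L, hL, h⟩

/-- (B2') for 2-cochains. -/
theorem IsROpen.isLevelConstant₂_iff {U : Subgroup (PadicAlgCl q ≃ₐ[ℚ_[q]] PadicAlgCl q)}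
    (hU : IsROpen q U) {X : Type*} (f : U × U → X) :
    groupCohomology.IsLevelConstant₂ ((localGaloisToGlobal q).comp U.subtype) f ↔
      ∃ L : IntermediateField ℚ_[q] (PadicAlgCl q), FiniteDimensional ℚ_[q] L ∧
        Normal ℚ_[q] L ∧ L.fixingSubgroup ≤ U ∧
        ∀ g g' s s' : U, (s : PadicAlgCl q ≃ₐ[ℚ_[q]] PadicAlgCl q) ∈ L.fixingSubgroup →
          (s' : PadicAlgCl q ≃ₐ[ℚ_[q]] PadicAlgCl q) ∈ L.fixingSubgroup →
          f (g * s, g' * s') = f (g, g') := by
  rw [isLevelConstant₂_comp_subtype_iff]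
  constructor
  · rintro ⟨L, hL, h⟩
    have := hL
    obtain ⟨L', hle, hfd, hn, hLU⟩ := hU.exists_normal_level_ge L
    exact ⟨L', hfd, hn, hLU, fun g g' s s' hs hs' => h g g' s s'
      (IntermediateField.fixingSubgroup_antitone hle hs)
      (IntermediateField.fixingSubgroup_antitone hle hs')⟩
  · rintro ⟨L, hL, _, _, h⟩
    exact ⟨L, hL, h⟩

/-! ### Transport to the Galois group of the fixed field -/

variable (q) in
/-- The frozen-style restriction map `Gal(PadicAlgCl q / K₀) → G_ℚ` for an intermediate field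
`K₀` of `PadicAlgCl q / ℚ_[q]`. -/
def localToGlobalOver (K₀ : IntermediateField ℚ_[q] (PadicAlgCl q)) :
    (PadicAlgCl q ≃ₐ[K₀] PadicAlgCl q) →* (AlgebraicClosure ℚ ≃ₐ[ℚ] AlgebraicClosure ℚ) :=
  (localGaloisToGlobal q).comp (AlgEquiv.restrictScalarsHom ℚ_[q])

theorem localToGlobalOver_eq_comp_resHom (K₀ : IntermediateField ℚ_[q] (PadicAlgCl q)) :
    localToGlobalOver q K₀ = (localGaloisToGlobal q).comp (resHom K₀) := rfl

/-- `localToGlobalOver` is `localOverToGlobal` of `helper512_MuP`. -/
theorem localToGlobalOver_eq_localOverToGlobal (K₀ : IntermediateField ℚ_[q] (PadicAlgCl q)) :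
    localToGlobalOver q K₀ = helper512.localOverToGlobal q K₀ := rfl

theorem localToGlobalOver_apply (K₀ : IntermediateField ℚ_[q] (PadicAlgCl q))
    (σ : PadicAlgCl q ≃ₐ[K₀] PadicAlgCl q) :
    localToGlobalOver q K₀ σ = localGaloisToGlobal q (resHom K₀ σ) := rfl

theorem localToGlobalOver_injective (K₀ : IntermediateField ℚ_[q] (PadicAlgCl q)) :
    Function.Injective (localToGlobalOver q K₀) :=
  (helper698.localGaloisToGlobal_injective q).comp (resHom_injective K₀)

/-- `localToGlobalOver` is the restricted map `r ∘ subtype` read through Mathlib's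
`fixingSubgroupEquiv`. -/
theorem localToGlobalOver_eq (K₀ : IntermediateField ℚ_[q] (PadicAlgCl q)) :
    localToGlobalOver q K₀ = ((localGaloisToGlobal q).comp K₀.fixingSubgroup.subtype).comp
      (IntermediateField.fixingSubgroupEquiv K₀).symm.toMonoidHom := rfl

/-- (B3) Frozen level-constancy on `Gal(PadicAlgCl q / K₀)` is right-invariance under the fixing
subgroup of a finite extension of `K₀` (the carrier used by the local-arithmetic leaves). -/
theorem isLevelConstant₁_localToGlobalOver_iff (K₀ : IntermediateField ℚ_[q] (PadicAlgCl q))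
    [FiniteDimensional ℚ_[q] K₀] {X : Type*} (c : (PadicAlgCl q ≃ₐ[K₀] PadicAlgCl q) → X) :
    groupCohomology.IsLevelConstant₁ (localToGlobalOver q K₀) c ↔
      ∃ E : IntermediateField K₀ (PadicAlgCl q), FiniteDimensional K₀ E ∧
        ∀ g s : PadicAlgCl q ≃ₐ[K₀] PadicAlgCl q, s ∈ E.fixingSubgroup → c (g * s) = c g := by
  rw [← exists_level_const₁_resHom_iff]
  constructor
  · rintro ⟨F, hF, h⟩
    have := hF
    obtain ⟨K, hK, hKF⟩ := helper698.exists_localField_fixingSubgroup_le q F
    exact ⟨K, hK, fun g s hs => h g s (hKF _ hs)⟩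
  · rintro ⟨K, hK, h⟩
    have := hK
    obtain ⟨F, hF, hFK⟩ := helper698.exists_numberField_comap_fixingSubgroup_le q K
    exact ⟨F, hF, fun g s hs => h g s (hFK _ hs)⟩

/-- (B3) for 2-cochains. -/
theorem isLevelConstant₂_localToGlobalOver_iff (K₀ : IntermediateField ℚ_[q] (PadicAlgCl q))
    [FiniteDimensional ℚ_[q] K₀] {X : Type*}
    (c : (PadicAlgCl q ≃ₐ[K₀] PadicAlgCl q) × (PadicAlgCl q ≃ₐ[K₀] PadicAlgCl q) → X) :
    groupCohomology.IsLevelConstant₂ (localToGlobalOver q K₀) c ↔
      ∃ E : IntermediateField K₀ (PadicAlgCl q), FiniteDimensional K₀ E ∧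
        ∀ g g' s s' : PadicAlgCl q ≃ₐ[K₀] PadicAlgCl q, s ∈ E.fixingSubgroup →
          s' ∈ E.fixingSubgroup → c (g * s, g' * s') = c (g, g') := by
  rw [← exists_level_const₂_resHom_iff]
  constructor
  · rintro ⟨F, hF, h⟩
    have := hF
    obtain ⟨K, hK, hKF⟩ := helper698.exists_localField_fixingSubgroup_le q F
    exact ⟨K, hK, fun g g' s s' hs hs' => h g g' s s' (hKF _ hs) (hKF _ hs')⟩
  · rintro ⟨K, hK, h⟩
    have := hK
    obtain ⟨F, hF, hFK⟩ := helper698.exists_numberField_comap_fixingSubgroup_le q K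
    exact ⟨F, hF, fun g g' s s' hs hs' => h g g' s s' (hFK _ hs) (hFK _ hs')⟩

end Local

/-! ### Level-constancy along a group isomorphism -/

section Iso

universe u

variable {G G' : Type u} [Group G] [Group G']

/-- Level-constancy of 1-cochains is transported along a group isomorphism. -/
theorem isLevelConstant₁_comp_mulEquiv
    (r : G →* (AlgebraicClosure ℚ ≃ₐ[ℚ] AlgebraicClosure ℚ)) (e : G' ≃* G) {X : Type*}
    (f : G → X) :
    groupCohomology.IsLevelConstant₁ (r.comp e.toMonoidHom) (f ∘ e) ↔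
      groupCohomology.IsLevelConstant₁ r f := by
  constructor
  · rintro ⟨F, hF, h⟩
    refine ⟨F, hF, fun g s hs => ?_⟩
    have := h (e.symm g) (e.symm s) (by simpa using hs)
    simpa using this
  · rintro ⟨F, hF, h⟩
    exact ⟨F, hF, fun g s hs => by simpa using h (e g) (e s) hs⟩

/-- Level-constancy of 2-cochains is transported along a group isomorphism. -/
theorem isLevelConstant₂_comp_mulEquiv
    (r : G →* (AlgebraicClosure ℚ ≃ₐ[ℚ] AlgebraicClosure ℚ)) (e : G' ≃* G) {X : Type*}
    (f : G × G → X) :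
    groupCohomology.IsLevelConstant₂ (r.comp e.toMonoidHom) (fun x : G' × G' => f (e x.1, e x.2)) ↔
      groupCohomology.IsLevelConstant₂ r f := by
  constructor
  · rintro ⟨F, hF, h⟩
    refine ⟨F, hF, fun g g' s s' hs hs' => ?_⟩
    have := h (e.symm g) (e.symm g') (e.symm s) (e.symm s') (by simpa using hs) (by simpa using hs')
    simpa using this
  · rintro ⟨F, hF, h⟩
    exact ⟨F, hF, fun g g' s s' hs hs' => by simpa using h (e g) (e g') (e s) (e s') hs hs'⟩

end Iso

section LocalTransport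

variable {q : ℕ} [Fact q.Prime]

/-- (B4) A 1-cochain on `K₀.fixingSubgroup ≤ Γ_q` is frozen-level-constant iff, read on
`Gal(PadicAlgCl q / K₀)` through `fixingSubgroupEquiv`, it is right-invariant under the fixing
subgroup of a finite extension of `K₀`. -/
theorem isLevelConstant₁_fixingSubgroup_iff (K₀ : IntermediateField ℚ_[q] (PadicAlgCl q))
    [FiniteDimensional ℚ_[q] K₀] {X : Type*} (f : K₀.fixingSubgroup → X) :
    groupCohomology.IsLevelConstant₁ ((localGaloisToGlobal q).comp K₀.fixingSubgroup.subtype) f ↔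
      ∃ E : IntermediateField K₀ (PadicAlgCl q), FiniteDimensional K₀ E ∧
        ∀ g s : PadicAlgCl q ≃ₐ[K₀] PadicAlgCl q, s ∈ E.fixingSubgroup →
          f ((IntermediateField.fixingSubgroupEquiv K₀).symm (g * s)) =
            f ((IntermediateField.fixingSubgroupEquiv K₀).symm g) := by
  rw [← isLevelConstant₁_comp_mulEquiv _ (IntermediateField.fixingSubgroupEquiv K₀).symm]
  exact isLevelConstant₁_localToGlobalOver_iff K₀
    (f ∘ (IntermediateField.fixingSubgroupEquiv K₀).symm)

/-- (B4) for 2-cochains. -/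
theorem isLevelConstant₂_fixingSubgroup_iff (K₀ : IntermediateField ℚ_[q] (PadicAlgCl q))
    [FiniteDimensional ℚ_[q] K₀] {X : Type*}
    (f : K₀.fixingSubgroup × K₀.fixingSubgroup → X) :
    groupCohomology.IsLevelConstant₂ ((localGaloisToGlobal q).comp K₀.fixingSubgroup.subtype) f ↔
      ∃ E : IntermediateField K₀ (PadicAlgCl q), FiniteDimensional K₀ E ∧
        ∀ g g' s s' : PadicAlgCl q ≃ₐ[K₀] PadicAlgCl q, s ∈ E.fixingSubgroup →
          s' ∈ E.fixingSubgroup →
          f ((IntermediateField.fixingSubgroupEquiv K₀).symm (g * s),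
              (IntermediateField.fixingSubgroupEquiv K₀).symm (g' * s')) =
            f ((IntermediateField.fixingSubgroupEquiv K₀).symm g,
              (IntermediateField.fixingSubgroupEquiv K₀).symm g') := by
  rw [← isLevelConstant₂_comp_mulEquiv _ (IntermediateField.fixingSubgroupEquiv K₀).symm]
  exact isLevelConstant₂_localToGlobalOver_iff K₀
    (fun x => f ((IntermediateField.fixingSubgroupEquiv K₀).symm x.1,
      (IntermediateField.fixingSubgroupEquiv K₀).symm x.2))

/-- The isomorphism of an `r`-open subgroup with the Galois group of its fixed field. -/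
def IsROpen.mulEquiv {U : Subgroup (PadicAlgCl q ≃ₐ[ℚ_[q]] PadicAlgCl q)} (hU : IsROpen q U) :
    U ≃* (PadicAlgCl q ≃ₐ[fixedField U] PadicAlgCl q) :=
  (MulEquiv.subgroupCongr hU.fixingSubgroup_fixedField.symm).trans
    (IntermediateField.fixingSubgroupEquiv (fixedField U))

theorem IsROpen.resHom_mulEquiv {U : Subgroup (PadicAlgCl q ≃ₐ[ℚ_[q]] PadicAlgCl q)}
    (hU : IsROpen q U) (σ : U) :
    resHom (fixedField U) (hU.mulEquiv σ) = (σ : PadicAlgCl q ≃ₐ[ℚ_[q]] PadicAlgCl q) := by
  ext x
  rfl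

theorem IsROpen.mulEquiv_symm_coe {U : Subgroup (PadicAlgCl q ≃ₐ[ℚ_[q]] PadicAlgCl q)}
    (hU : IsROpen q U) (σ : PadicAlgCl q ≃ₐ[fixedField U] PadicAlgCl q) :
    ((hU.mulEquiv.symm σ : U) : PadicAlgCl q ≃ₐ[ℚ_[q]] PadicAlgCl q) =
      resHom (fixedField U) σ := by
  rw [← hU.resHom_mulEquiv, MulEquiv.apply_symm_apply]

/-- The restricted frozen map on an `r`-open subgroup is `localToGlobalOver` of its fixed field,
read through `IsROpen.mulEquiv`. -/
theorem IsROpen.localToGlobalOver_comp_mulEquiv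
    {U : Subgroup (PadicAlgCl q ≃ₐ[ℚ_[q]] PadicAlgCl q)} (hU : IsROpen q U) :
    (localToGlobalOver q (fixedField U)).comp hU.mulEquiv.toMonoidHom =
      (localGaloisToGlobal q).comp U.subtype := by
  ext σ : 1
  change localGaloisToGlobal q (resHom (fixedField U) (hU.mulEquiv σ)) = localGaloisToGlobal q σ
  rw [hU.resHom_mulEquiv]

/-- (B5) For an arbitrary `r`-open `U`: frozen level-constancy of a 1-cochain on `U` is
right-invariance, on `Gal(PadicAlgCl q / fixedField U)`, under the fixing subgroup of a finite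
extension of the fixed field. -/
theorem IsROpen.isLevelConstant₁_iff_mulEquiv
    {U : Subgroup (PadicAlgCl q ≃ₐ[ℚ_[q]] PadicAlgCl q)} (hU : IsROpen q U) {X : Type*}
    (f : U → X) :
    groupCohomology.IsLevelConstant₁ ((localGaloisToGlobal q).comp U.subtype) f ↔
      ∃ E : IntermediateField (fixedField U) (PadicAlgCl q),
        FiniteDimensional (fixedField U) E ∧
        ∀ g s : PadicAlgCl q ≃ₐ[fixedField U] PadicAlgCl q, s ∈ E.fixingSubgroup →
          f (hU.mulEquiv.symm (g * s)) = f (hU.mulEquiv.symm g) := by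
  have := hU.finiteDimensional_fixedField
  rw [← isLevelConstant₁_comp_mulEquiv _ hU.mulEquiv.symm]
  have h2 : ((localGaloisToGlobal q).comp U.subtype).comp hU.mulEquiv.symm.toMonoidHom =
      localToGlobalOver q (fixedField U) := by
    rw [← hU.localToGlobalOver_comp_mulEquiv]
    ext σ : 1
    simp
  rw [h2]
  exact isLevelConstant₁_localToGlobalOver_iff (fixedField U) (f ∘ hU.mulEquiv.symm)

/-- (B5) for 2-cochains. -/
theorem IsROpen.isLevelConstant₂_iff_mulEquiv
    {U : Subgroup (PadicAlgCl q ≃ₐ[ℚ_[q]] PadicAlgCl q)} (hU : IsROpen q U) {X : Type*}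
    (f : U × U → X) :
    groupCohomology.IsLevelConstant₂ ((localGaloisToGlobal q).comp U.subtype) f ↔
      ∃ E : IntermediateField (fixedField U) (PadicAlgCl q),
        FiniteDimensional (fixedField U) E ∧
        ∀ g g' s s' : PadicAlgCl q ≃ₐ[fixedField U] PadicAlgCl q, s ∈ E.fixingSubgroup →
          s' ∈ E.fixingSubgroup →
          f (hU.mulEquiv.symm (g * s), hU.mulEquiv.symm (g' * s')) =
            f (hU.mulEquiv.symm g, hU.mulEquiv.symm g') := by
  have := hU.finiteDimensional_fixedField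
  rw [← isLevelConstant₂_comp_mulEquiv _ hU.mulEquiv.symm]
  have h2 : ((localGaloisToGlobal q).comp U.subtype).comp hU.mulEquiv.symm.toMonoidHom =
      localToGlobalOver q (fixedField U) := by
    rw [← hU.localToGlobalOver_comp_mulEquiv]
    ext σ : 1
    simp
  rw [h2]
  exact isLevelConstant₂_localToGlobalOver_iff (fixedField U)
    (fun x => f (hU.mulEquiv.symm x.1, hU.mulEquiv.symm x.2))

end LocalTransport

/-! ### Adapters on the carriers already on main

`helper9554.IsLevel₁/₂` (the local-arithmetic level carrier on `Gal(Ω/K)`) against the frozen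
`IsLevelConstant₁/₂` for `helper512.localOverToGlobal l K` and for the restricted map
`r ∘ K.fixingSubgroup.subtype`. -/

section Adapters

variable (l : ℕ) [Fact l.Prime] (K : IntermediateField ℚ_[l] (PadicAlgCl l))
  [FiniteDimensional ℚ_[l] K]

/-- Frozen level-constancy for `localOverToGlobal l K` is the LA level predicate `IsLevel₁`. -/
theorem isLevelConstant₁_localOverToGlobal_iff {X : Type*}
    (c : (PadicAlgCl l ≃ₐ[K] PadicAlgCl l) → X) :
    groupCohomology.IsLevelConstant₁ (helper512.localOverToGlobal l K) c ↔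
      helper9554.IsLevel₁ c :=
  isLevelConstant₁_localToGlobalOver_iff K c

/-- Frozen level-constancy for `localOverToGlobal l K` is the LA level predicate `IsLevel₂`. -/
theorem isLevelConstant₂_localOverToGlobal_iff {X : Type*}
    (c : (PadicAlgCl l ≃ₐ[K] PadicAlgCl l) × (PadicAlgCl l ≃ₐ[K] PadicAlgCl l) → X) :
    groupCohomology.IsLevelConstant₂ (helper512.localOverToGlobal l K) c ↔
      helper9554.IsLevel₂ c :=
  isLevelConstant₂_localToGlobalOver_iff K c

/-- Frozen level-constancy on `G_K = K.fixingSubgroup ≤ Γ_l` read on `Gal(PadicAlgCl l / K)`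
is `IsLevel₁`. -/
theorem isLevelConstant₁_fixingSubgroup_iff_isLevel₁ {X : Type*} (f : K.fixingSubgroup → X) :
    groupCohomology.IsLevelConstant₁ ((localGaloisToGlobal l).comp K.fixingSubgroup.subtype) f ↔
      helper9554.IsLevel₁ (fun g => f ((IntermediateField.fixingSubgroupEquiv K).symm g)) :=
  isLevelConstant₁_fixingSubgroup_iff K f

/-- Frozen level-constancy of 2-cochains on `G_K = K.fixingSubgroup ≤ Γ_l` read on
`Gal(PadicAlgCl l / K)` is `IsLevel₂`. -/
theorem isLevelConstant₂_fixingSubgroup_iff_isLevel₂ {X : Type*}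
    (f : K.fixingSubgroup × K.fixingSubgroup → X) :
    groupCohomology.IsLevelConstant₂ ((localGaloisToGlobal l).comp K.fixingSubgroup.subtype) f ↔
      helper9554.IsLevel₂ (fun x : (PadicAlgCl l ≃ₐ[K] PadicAlgCl l) ×
          (PadicAlgCl l ≃ₐ[K] PadicAlgCl l) =>
        f ((IntermediateField.fixingSubgroupEquiv K).symm x.1,
          (IntermediateField.fixingSubgroupEquiv K).symm x.2)) :=
  isLevelConstant₂_fixingSubgroup_iff K f

end Adapters

end Fermat.Agent.S55.helper1110
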