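/-
S55 (Poitou–Tate), leaf S55-CYCLOTOWER (helper8845).

The cyclotomic `p`-tower is locally non-trivial at every prime `q` (`q = p` allowed):
for a finite extension `L` of `ℚ_[q]` inside `PadicAlgCl q` and an odd prime `p`, for all
large `m` there is `τ ∈ Gal(PadicAlgCl q / L)` fixing every `p^m`-th root of unity and moving
every primitive `p^(m+1)`-th root of unity.  Global-facing form: the same for a number field
`K ≤ AlgebraicClosure ℚ` through `localGaloisToGlobal q`.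

Proof: (a) pure field theory: if `σ` fixes `ζ^(p^2)` and moves `ζ^p` (`ζ` a primitive
`p^(m+2)`-th root of unity, `m ≥ 1`, `p` odd), then `σ^p` fixes `ζ^p` and moves `ζ`;
(b) a finite extension of `ℚ_[q]` inside `PadicAlgCl q` contains only finitely many `p`-power
roots of unity (distinct ones are at distance `≥ ‖p‖`; closed balls of a finite-dimensional
normed `ℚ_[q]`-space are compact).
-/
import Mathlib
import Fermat.Prelude.Def_GaloisRep_CompletionBridge

set_option autoImplicit false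

namespace Fermat.Agent.S55.helper8845

/-! ## (a) the tower step: pure field theory -/

/-- If `a ≡ 1 mod p^m` but `a ≢ 1 mod p^(m+1)` (`p` odd, `m ≥ 1`), then `a^p ≡ 1 mod p^(m+1)`
and `a^p ≢ 1 mod p^(m+2)`. -/
theorem pow_prime_modEq {p : ℕ} (hp : p.Prime) (hp2 : p ≠ 2) {m : ℕ} (hm : 1 ≤ m) {a : ℕ}
    (h1 : a ≡ 1 [MOD p ^ m]) (h2 : ¬ a ≡ 1 [MOD p ^ (m + 1)]) :
    a ^ p ≡ 1 [MOD p ^ (m + 1)] ∧ ¬ a ^ p ≡ 1 [MOD p ^ (m + 2)] := by
  have : Fact p.Prime := ⟨hp⟩
  have hodd : Odd p := hp.odd_of_ne_two hp2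
  have hpm : 2 ≤ p ^ m := by
    calc 2 ≤ p := hp.two_le
      _ = p ^ 1 := (pow_one p).symm
      _ ≤ p ^ m := Nat.pow_le_pow_right hp.pos hm
  have ha0 : a ≠ 0 := by
    rintro rfl
    have := (Nat.modEq_iff_dvd' (Nat.zero_le 1)).1 h1
    have := Nat.le_of_dvd one_pos this
    omega
  have ha1 : a ≠ 1 := by
    rintro rfl
    exact h2 rfl
  have hlt : 1 < a := by omega
  have hd1 : p ^ m ∣ a - 1 := (Nat.modEq_iff_dvd' hlt.le).1 h1.symm
  have hd2 : ¬ p ^ (m + 1) ∣ a - 1 := fun h => h2 ((Nat.modEq_iff_dvd' hlt.le).2 h).symm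
  have hpa1 : p ∣ a - 1 := (dvd_pow_self p (by omega : m ≠ 0)).trans hd1
  have hpa : ¬ p ∣ a := by
    intro h
    have : p ∣ 1 := by
      have h3 : p ∣ a - (a - 1) := Nat.dvd_sub h hpa1
      have h4 : a - (a - 1) = 1 := by omega
      rwa [h4] at h3
    exact hp.one_lt.ne' (Nat.dvd_one.1 this)
  have hne : a - 1 ≠ 0 := by omega
  have hval : padicValNat p (a - 1) = m := by
    have h3 : m ≤ padicValNat p (a - 1) := (padicValNat_dvd_iff_le hne).1 hd1
    have h4 : ¬ m + 1 ≤ padicValNat p (a - 1) := fun h => hd2 ((padicValNat_dvd_iff_le hne).2 h)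
    omega
  have hkey : padicValNat p (a ^ p - 1) = m + 1 := by
    have := padicValNat.pow_sub_pow (p := p) hodd hlt (by simpa using hpa1) hpa hp.ne_zero
    rw [one_pow, hval, padicValNat_self] at this
    exact this
  have hap : 1 < a ^ p := Nat.one_lt_pow hp.ne_zero hlt
  have hne' : a ^ p - 1 ≠ 0 := by omega
  refine ⟨((Nat.modEq_iff_dvd' hap.le).2 ?_).symm, fun h => ?_⟩
  · exact (padicValNat_dvd_iff_le hne').2 hkey.ge
  · have := (padicValNat_dvd_iff_le hne').1 ((Nat.modEq_iff_dvd' hap.le).1 h.symm)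
    omega

/-- Powers of a primitive root of unity in a domain agree iff the exponents are congruent. -/
theorem isPrimitiveRoot_pow_eq_pow_iff {Ω : Type*} [CommRing Ω] [IsDomain Ω] {k : ℕ} {ζ : Ω}
    (h : IsPrimitiveRoot ζ k) (hk : k ≠ 0) (i j : ℕ) : ζ ^ i = ζ ^ j ↔ i ≡ j [MOD k] := by
  obtain ⟨u, rfl⟩ := h.isUnit hk
  have hu : IsPrimitiveRoot u k := IsPrimitiveRoot.coe_units_iff.1 h
  rw [← Units.val_pow_eq_pow_val, ← Units.val_pow_eq_pow_val, Units.val_inj,
    pow_eq_pow_iff_modEq, ← hu.eq_orderOf]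

/-- **Tower step.** Let `ζ` be a primitive `p^(m+2)`-th root of unity (`p` odd, `m ≥ 1`).  If `σ`
fixes `ζ^(p^2)` and moves `ζ^p`, then `σ^p` fixes `ζ^p` and moves `ζ`. -/
theorem tower_step {K Ω : Type*} [Field K] [Field Ω] [Algebra K Ω] {p : ℕ} (hp : p.Prime)
    (hp2 : p ≠ 2) {m : ℕ} (hm : 1 ≤ m) {ζ : Ω} (hζ : IsPrimitiveRoot ζ (p ^ (m + 2)))
    (σ : Ω ≃ₐ[K] Ω) (hfix : σ (ζ ^ p ^ 2) = ζ ^ p ^ 2) (hmove : σ (ζ ^ p) ≠ ζ ^ p) :
    (σ ^ p) (ζ ^ p) = ζ ^ p ∧ (σ ^ p) ζ ≠ ζ := by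
  have hk : p ^ (m + 2) ≠ 0 := pow_ne_zero _ hp.ne_zero
  have : NeZero (p ^ (m + 2)) := ⟨hk⟩
  obtain ⟨a, -, ha⟩ := hζ.eq_pow_of_pow_eq_one
    (show (σ ζ) ^ p ^ (m + 2) = 1 by rw [← map_pow, hζ.pow_eq_one, map_one])
  have hpow : ∀ k : ℕ, (σ ^ k) ζ = ζ ^ a ^ k := by
    intro k
    induction k with
    | zero => simp
    | succ k ih =>
      rw [pow_succ, AlgEquiv.mul_apply, ← ha, map_pow, ih, ← pow_mul, pow_succ]
  -- congruences for `a`
  have h1 : a ≡ 1 [MOD p ^ m] := by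
    have e : ζ ^ (a * p ^ 2) = ζ ^ (1 * p ^ 2) := by
      rw [one_mul, pow_mul, ha, ← map_pow, hfix]
    have := (isPrimitiveRoot_pow_eq_pow_iff hζ hk _ _).1 e
    rw [pow_add] at this
    exact Nat.ModEq.mul_right_cancel' (pow_ne_zero 2 hp.ne_zero) this
  have h2 : ¬ a ≡ 1 [MOD p ^ (m + 1)] := by
    intro h
    apply hmove
    have : a * p ≡ 1 * p [MOD p ^ (m + 1) * p] := Nat.ModEq.mul_right' p h
    rw [← pow_succ] at this
    have e := (isPrimitiveRoot_pow_eq_pow_iff hζ hk _ _).2 this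
    rw [one_mul, pow_mul, ha] at e
    rw [map_pow, e]
  obtain ⟨h3, h4⟩ := pow_prime_modEq hp hp2 hm h1 h2
  constructor
  · rw [map_pow, hpow, ← pow_mul]
    have : a ^ p * p ≡ 1 * p [MOD p ^ (m + 1) * p] := Nat.ModEq.mul_right' p h3
    rw [← pow_succ] at this
    have e := (isPrimitiveRoot_pow_eq_pow_iff hζ hk _ _).2 this
    rw [e, one_mul]
  · rw [hpow]
    intro e
    apply h4
    have e' : ζ ^ a ^ p = ζ ^ 1 := by rw [e, pow_one]
    exact (isPrimitiveRoot_pow_eq_pow_iff hζ hk _ _).1 e'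

/-! ## (b) finitely many `p`-power roots of unity in a finite extension of `ℚ_[q]` -/

section Finiteness

variable (q : ℕ) [Fact q.Prime]

theorem norm_eq_one_of_pow_eq_one {x : PadicAlgCl q} {n : ℕ} (hn : n ≠ 0) (h : x ^ n = 1) :
    ‖x‖ = 1 := by
  have h' := congrArg norm h
  rw [norm_pow, norm_one] at h'
  exact (pow_eq_one_iff_of_nonneg (norm_nonneg _) hn).1 h'

theorem norm_geom_sum_le_one {x : PadicAlgCl q} (hx : ‖x‖ ≤ 1) (n : ℕ) :
    ‖∑ i ∈ Finset.range n, x ^ i‖ ≤ 1 :=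
  IsUltrametricDist.norm_sum_le_of_forall_le_of_nonneg zero_le_one
    (fun i _ => by rw [norm_pow]; exact pow_le_one₀ (norm_nonneg _) hx)

theorem norm_pow_sub_one_le {x : PadicAlgCl q} (hx : ‖x‖ ≤ 1) (n : ℕ) :
    ‖x ^ n - 1‖ ≤ ‖x - 1‖ := by
  rw [← geom_sum_mul, norm_mul]
  exact mul_le_of_le_one_left (norm_nonneg _) (norm_geom_sum_le_one q hx n)

/-- A nontrivial `p`-th root of unity in `PadicAlgCl q` is at distance `≥ ‖p‖` from `1`. -/
theorem norm_prime_le_of_prime_root {p : ℕ} (hp : p.Prime) {η : PadicAlgCl q} (h1 : η ^ p = 1)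
    (hne : η ≠ 1) : ‖(p : PadicAlgCl q)‖ ≤ ‖η - 1‖ := by
  have hη : ‖η‖ ≤ 1 := (norm_eq_one_of_pow_eq_one q hp.ne_zero h1).le
  have hsum : ∑ i ∈ Finset.range p, η ^ i = 0 := by
    have h := geom_sum_mul η p
    rw [h1, sub_self] at h
    exact (mul_eq_zero.1 h).resolve_right (sub_ne_zero.2 hne)
  have key : (p : PadicAlgCl q)
      = -(∑ i ∈ Finset.range p, ∑ k ∈ Finset.range i, η ^ k) * (η - 1) := by
    rw [neg_mul, Finset.sum_mul]
    simp_rw [geom_sum_mul]
    rw [Finset.sum_sub_distrib, hsum]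
    simp
  rw [key, norm_mul, norm_neg]
  refine mul_le_of_le_one_left (norm_nonneg _) ?_
  exact IsUltrametricDist.norm_sum_le_of_forall_le_of_nonneg zero_le_one
    (fun i _ => norm_geom_sum_le_one q hη i)

/-- A nontrivial `p`-power root of unity in `PadicAlgCl q` is at distance `≥ ‖p‖` from `1`. -/
theorem norm_prime_le_of_ppow_root {p : ℕ} (hp : p.Prime) :
    ∀ (n : ℕ) {ω : PadicAlgCl q}, ω ^ p ^ n = 1 → ω ≠ 1 → ‖(p : PadicAlgCl q)‖ ≤ ‖ω - 1‖ := by
  intro n
  induction n with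
  | zero =>
    intro ω h hne
    rw [pow_zero, pow_one] at h
    exact absurd h hne
  | succ n ih =>
    intro ω h hne
    by_cases h1 : ω ^ p = 1
    · exact norm_prime_le_of_prime_root q hp h1 hne
    · have hω : ‖ω‖ ≤ 1 :=
        (norm_eq_one_of_pow_eq_one q (pow_ne_zero _ hp.ne_zero) h).le
      have h' : (ω ^ p) ^ p ^ n = 1 := by rw [← pow_mul, ← pow_succ']; exact h
      exact (ih h' h1).trans (norm_pow_sub_one_le q hω p)

/-- Distinct `p`-power roots of unity in `PadicAlgCl q` are at distance `≥ ‖p‖`. -/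
theorem norm_prime_le_dist_ppow_roots {p : ℕ} (hp : p.Prime) {ζ ζ' : PadicAlgCl q} {n n' : ℕ}
    (h : ζ ^ p ^ n = 1) (h' : ζ' ^ p ^ n' = 1) (hne : ζ ≠ ζ') :
    ‖(p : PadicAlgCl q)‖ ≤ ‖ζ - ζ'‖ := by
  have hζ'0 : ζ' ≠ 0 := by
    rintro rfl
    rw [zero_pow (pow_ne_zero _ hp.ne_zero)] at h'
    exact zero_ne_one h'
  have hn' : ‖ζ'‖ = 1 := norm_eq_one_of_pow_eq_one q (pow_ne_zero _ hp.ne_zero) h'
  have e : ζ - ζ' = ζ' * (ζ * ζ'⁻¹ - 1) := by field_simp
  have hω : (ζ * ζ'⁻¹) ^ p ^ (n + n') = 1 := by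
    rw [mul_pow, inv_pow, pow_add, pow_mul, h, one_pow, mul_comm (p ^ n), pow_mul, h', one_pow,
      inv_one, mul_one]
  have hω1 : ζ * ζ'⁻¹ ≠ 1 := by
    intro h1
    apply hne
    field_simp at h1
    exact h1
  rw [e, norm_mul, hn', one_mul]
  exact norm_prime_le_of_ppow_root q hp _ hω hω1

/-- A totally bounded, uniformly separated set is finite. -/
theorem finite_of_totallyBounded_of_separated {α : Type*} [PseudoMetricSpace α] {s : Set α}
    (hs : TotallyBounded s) {δ : ℝ} (hδ : 0 < δ)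
    (hsep : ∀ x ∈ s, ∀ y ∈ s, x ≠ y → δ ≤ dist x y) : s.Finite := by
  obtain ⟨t, ht, hcov⟩ := Metric.totallyBounded_iff.1 hs (δ / 2) (half_pos hδ)
  have hex : ∀ x : s, ∃ c ∈ t, (x : α) ∈ Metric.ball c (δ / 2) := by
    intro x
    have := hcov x.2
    simpa [Set.mem_iUnion] using this
  choose f hft hfb using hex
  have hinj : Function.Injective f := by
    intro x y hxy
    by_contra hne
    have h1 := hfb x
    have h2 := hfb y
    rw [hxy] at h1
    rw [Metric.mem_ball] at h1 h2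
    have h3 : dist (x : α) y < δ := by
      calc dist (x : α) y ≤ dist (x : α) (f y) + dist (f y) y := dist_triangle _ _ _
        _ < δ / 2 + δ / 2 := by rw [dist_comm (f y)]; exact add_lt_add h1 h2
        _ = δ := add_halves δ
    have h4 := hsep x x.2 y y.2 (fun h => hne (Subtype.ext h))
    linarith
  have : Finite t := ht
  have : Finite s := Finite.of_injective (fun x => (⟨f x, hft x⟩ : t))
    (fun x y hxy => hinj (by simpa using hxy))
  exact Set.toFinite s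

/-- **Finiteness.** A finite extension of `ℚ_[q]` inside `PadicAlgCl q` contains only finitely
many `p`-power roots of unity (any primes `p`, `q`). -/
theorem finite_ppow_roots {p : ℕ} (hp : p.Prime) (L : IntermediateField ℚ_[q] (PadicAlgCl q))
    [FiniteDimensional ℚ_[q] L] :
    {ζ : PadicAlgCl q | ζ ∈ L ∧ ∃ n : ℕ, ζ ^ p ^ n = 1}.Finite := by
  have hproper : ProperSpace L := FiniteDimensional.proper ℚ_[q] L
  have hcomp : IsCompact ((fun x : L => (x : PadicAlgCl q)) '' Metric.closedBall (0 : L) 1) :=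
    (isCompact_closedBall (0 : L) 1).image continuous_subtype_val
  have hsub : {ζ : PadicAlgCl q | ζ ∈ L ∧ ∃ n : ℕ, ζ ^ p ^ n = 1}
      ⊆ (fun x : L => (x : PadicAlgCl q)) '' Metric.closedBall (0 : L) 1 := by
    rintro ζ ⟨hζL, n, hn⟩
    refine ⟨⟨ζ, hζL⟩, ?_, rfl⟩
    rw [mem_closedBall_zero_iff]
    exact (norm_eq_one_of_pow_eq_one q (pow_ne_zero _ hp.ne_zero) hn).le
  have hp0 : (0 : ℝ) < ‖(p : PadicAlgCl q)‖ :=
    norm_pos_iff.2 (Nat.cast_ne_zero.2 hp.ne_zero)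
  refine finite_of_totallyBounded_of_separated (hcomp.totallyBounded.subset hsub) hp0 ?_
  rintro x ⟨-, n, hn⟩ y ⟨-, n', hn'⟩ hne
  rw [dist_eq_norm]
  exact norm_prime_le_dist_ppow_roots q hp hn hn' hne

end Finiteness

/-! ## (T1) the local cyclotomic tower -/

section Local

variable (p q : ℕ) [Fact q.Prime]

/-- `CycloStep p q L m`: there is `τ ∈ Gal(PadicAlgCl q / L)` fixing every `p^m`-th root of unity
and moving every primitive `p^(m+1)`-th root of unity; i.e. `L(ζ_{p^(m+1)}) / L(ζ_{p^m})` is a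
non-trivial extension. -/
def CycloStep (L : IntermediateField ℚ_[q] (PadicAlgCl q)) (m : ℕ) : Prop :=
  ∃ τ : PadicAlgCl q ≃ₐ[ℚ_[q]] PadicAlgCl q, τ ∈ L.fixingSubgroup ∧
    (∀ ζ : PadicAlgCl q, ζ ^ p ^ m = 1 → τ ζ = ζ) ∧
    ∀ ζ : PadicAlgCl q, IsPrimitiveRoot ζ (p ^ (m + 1)) → τ ζ ≠ ζ

variable {p q}

theorem exists_isPrimitiveRoot_padicAlgCl (hp : p.Prime) (n : ℕ) :
    ∃ ξ : PadicAlgCl q, IsPrimitiveRoot ξ (p ^ n) := by
  have : NeZero (p ^ n) := ⟨pow_ne_zero _ hp.ne_zero⟩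
  exact HasEnoughRootsOfUnity.exists_primitiveRoot (PadicAlgCl q) (p ^ n)

/-- Once the tower moves, it moves forever (`p` odd, `m ≥ 1`). -/
theorem CycloStep.succ (hp : p.Prime) (hp2 : p ≠ 2) {L : IntermediateField ℚ_[q] (PadicAlgCl q)}
    {m : ℕ} (hm : 1 ≤ m) (h : CycloStep p q L m) : CycloStep p q L (m + 1) := by
  obtain ⟨τ, hτL, hfix, hmove⟩ := h
  obtain ⟨ξ, hξ⟩ := exists_isPrimitiveRoot_padicAlgCl (q := q) hp (m + 2)
  have hk : 0 < p ^ (m + 2) := pow_pos hp.pos _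
  have hξp : IsPrimitiveRoot (ξ ^ p) (p ^ (m + 1)) :=
    IsPrimitiveRoot.pow hk hξ (by rw [pow_succ, mul_comm])
  have h1 : τ (ξ ^ p ^ 2) = ξ ^ p ^ 2 := by
    apply hfix
    rw [← pow_mul, ← pow_add, add_comm]
    exact hξ.pow_eq_one
  have h2 : τ (ξ ^ p) ≠ ξ ^ p := hmove _ hξp
  obtain ⟨h3, h4⟩ := tower_step hp hp2 hm hξ τ h1 h2
  refine ⟨τ ^ p, Subgroup.pow_mem _ hτL p, ?_, ?_⟩
  · intro ζ hζ
    have : NeZero (p ^ (m + 1)) := ⟨pow_ne_zero _ hp.ne_zero⟩
    obtain ⟨i, -, rfl⟩ := hξp.eq_pow_of_pow_eq_one hζ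
    rw [map_pow, h3]
  · intro ζ hζ e
    have : NeZero (p ^ (m + 1 + 1)) := ⟨pow_ne_zero _ hp.ne_zero⟩
    obtain ⟨i, -, rfl⟩ := hζ.eq_pow_of_pow_eq_one hξ.pow_eq_one
    apply h4
    rw [map_pow, e]

/-- **(T1) Local cyclotomic tower.** For a finite extension `L` of `ℚ_[q]` inside `PadicAlgCl q`
and an odd prime `p` (`q = p` allowed), `L(ζ_{p^(m+1)}) / L(ζ_{p^m})` is non-trivial for all
large `m`. -/
theorem exists_local_cyclo_step (hp : p.Prime) (hp2 : p ≠ 2)
    (L : IntermediateField ℚ_[q] (PadicAlgCl q)) [FiniteDimensional ℚ_[q] L] :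
    ∃ m₀ : ℕ, 1 ≤ m₀ ∧ ∀ m : ℕ, m₀ ≤ m → CycloStep p q L m := by
  suffices hex : ∃ m₀ : ℕ, 1 ≤ m₀ ∧ CycloStep p q L m₀ by
    obtain ⟨m₀, hm₀, h⟩ := hex
    refine ⟨m₀, hm₀, fun m hm => ?_⟩
    induction m, hm using Nat.le_induction with
    | base => exact h
    | succ m hm ih => exact ih.succ hp hp2 (hm₀.trans hm)
  by_contra hcon
  have hno : ∀ m : ℕ, 1 ≤ m → ¬ CycloStep p q L m := fun m hm h => hcon ⟨m, hm, h⟩
  -- adjoin the `p`-th roots of unity
  let R : Finset (PadicAlgCl q) := Polynomial.nthRootsFinset p (1 : PadicAlgCl q)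
  have hfinR : FiniteDimensional ℚ_[q]
      (IntermediateField.adjoin ℚ_[q] (R : Set (PadicAlgCl q))) :=
    IntermediateField.finiteDimensional_adjoin (fun x _ => Algebra.IsIntegral.isIntegral x)
  let L1 : IntermediateField ℚ_[q] (PadicAlgCl q) :=
    L ⊔ IntermediateField.adjoin ℚ_[q] (R : Set (PadicAlgCl q))
  have hfinL1 : FiniteDimensional ℚ_[q] L1 := IntermediateField.finiteDimensional_sup _ _
  have hLL1 : L ≤ L1 := le_sup_left
  -- all `p`-power roots of unity lie in `L1`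
  have hall : ∀ m : ℕ, 1 ≤ m → ∀ ζ : PadicAlgCl q, ζ ^ p ^ m = 1 → ζ ∈ L1 := by
    intro m hm
    induction m, hm using Nat.le_induction with
    | base =>
      intro ζ hζ
      rw [pow_one] at hζ
      have : ζ ∈ (R : Set (PadicAlgCl q)) :=
        Finset.mem_coe.2 ((Polynomial.mem_nthRootsFinset hp.pos _).2 hζ)
      exact (le_sup_right : _ ≤ L1) (IntermediateField.subset_adjoin _ _ this)
    | succ m hm ih =>
      intro ζ hζ
      by_contra hζL1
      apply hno m hm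
      have hnot : ¬ ∀ τ ∈ L1.fixingSubgroup, τ ζ = ζ := by
        intro h
        apply hζL1
        rw [← InfiniteGalois.fixedField_fixingSubgroup L1]
        exact (IntermediateField.mem_fixedField_iff _ _).2 h
      push Not at hnot
      obtain ⟨τ, hτ, hτζ⟩ := hnot
      refine ⟨τ, IntermediateField.fixingSubgroup_antitone hLL1 hτ, ?_, ?_⟩
      · intro ζ' hζ'
        exact (IntermediateField.mem_fixingSubgroup_iff _ _).1 hτ ζ' (ih ζ' hζ')
      · intro ζ' hζ' e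
        have : NeZero (p ^ (m + 1)) := ⟨pow_ne_zero _ hp.ne_zero⟩
        obtain ⟨i, -, rfl⟩ := hζ'.eq_pow_of_pow_eq_one hζ
        apply hτζ
        rw [map_pow, e]
  -- but there are infinitely many of them
  have hfin := finite_ppow_roots q hp L1
  choose ξ hξ using fun n : ℕ => exists_isPrimitiveRoot_padicAlgCl (q := q) hp (n + 1)
  have hinj : Function.Injective ξ := by
    intro n n' h
    have h1 := (hξ n).eq_orderOf
    have h2 := (hξ n').eq_orderOf
    rw [h] at h1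
    have h3 : p ^ (n + 1) = p ^ (n' + 1) := h1.trans h2.symm
    have := Nat.pow_right_injective hp.two_le h3
    omega
  have hmem : ∀ n : ℕ, ξ n ∈ {ζ : PadicAlgCl q | ζ ∈ L1 ∧ ∃ n : ℕ, ζ ^ p ^ n = 1} :=
    fun n => ⟨hall (n + 1) (by omega) _ (hξ n).pow_eq_one, n + 1, (hξ n).pow_eq_one⟩
  exact Set.infinite_of_injective_forall_mem hinj hmem hfin

end Local

/-! ## (T2) global-facing form, through `localGaloisToGlobal q` -/

section Global

variable {p q : ℕ} [Fact q.Prime]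

theorem padicEmbedding_injective (q : ℕ) [Fact q.Prime] :
    Function.Injective (padicEmbedding q) :=
  (padicEmbedding q).toRingHom.injective

/-- For a number field `K ≤ AlgebraicClosure ℚ` there is a finite extension `L` of `ℚ_[q]` inside
`PadicAlgCl q` with `localGaloisToGlobal q '' Gal(PadicAlgCl q / L) ≤ Gal(Qbar / K)`. -/
theorem exists_local_field_over (K : IntermediateField ℚ (AlgebraicClosure ℚ))
    [FiniteDimensional ℚ K] :
    ∃ L : IntermediateField ℚ_[q] (PadicAlgCl q), FiniteDimensional ℚ_[q] L ∧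
      ∀ τ : PadicAlgCl q ≃ₐ[ℚ_[q]] PadicAlgCl q, τ ∈ L.fixingSubgroup →
        localGaloisToGlobal q τ ∈ K.fixingSubgroup := by
  let b := Module.finBasis ℚ K
  let s : Set (PadicAlgCl q) := Set.range fun i => padicEmbedding q (b i : AlgebraicClosure ℚ)
  have hs : Finite s := Set.finite_range _
  refine ⟨IntermediateField.adjoin ℚ_[q] s,
    IntermediateField.finiteDimensional_adjoin (fun x _ => Algebra.IsIntegral.isIntegral x),
    fun τ hτ => ?_⟩
  rw [IntermediateField.mem_fixingSubgroup_iff] at hτ ⊢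
  have hb : ∀ i, localGaloisToGlobal q τ (b i : AlgebraicClosure ℚ)
      = (b i : AlgebraicClosure ℚ) := by
    intro i
    apply padicEmbedding_injective q
    rw [padicEmbedding_localGaloisToGlobal]
    exact hτ _ (IntermediateField.subset_adjoin _ _ ⟨i, rfl⟩)
  intro x hx
  have hrepr := b.sum_repr ⟨x, hx⟩
  have hx' : x = ∑ i, ((b.repr ⟨x, hx⟩ i : ℚ) : AlgebraicClosure ℚ)
      * (b i : AlgebraicClosure ℚ) := by
    have := congrArg (fun y : K => (y : AlgebraicClosure ℚ)) hrepr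
    simp only [AddSubmonoidClass.coe_finsetSum, Algebra.smul_def, IntermediateField.coe_mul,
      eq_ratCast, SubfieldClass.coe_ratCast] at this
    exact this.symm
  rw [hx', map_sum]
  refine Finset.sum_congr rfl fun i _ => ?_
  rw [map_mul, map_ratCast, hb]

/-- **(T2) The cyclotomic `p`-tower is locally non-trivial at `q`, global-facing form.**
For a number field `K ≤ AlgebraicClosure ℚ`, an odd prime `p` and any prime `q` (`q = p` allowed),
for all large `m` there is `τ` in the local Galois group at `q` whose image in `G_ℚ` fixes `K`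
and all `p^m`-th roots of unity and moves every primitive `p^(m+1)`-th root of unity.  So the
place of `K(ζ_{p^m})` cut out by `padicPlace q` does not split in `K(ζ_{p^(m+1)})`. -/
theorem exists_global_cyclo_step (hp : p.Prime) (hp2 : p ≠ 2)
    (K : IntermediateField ℚ (AlgebraicClosure ℚ)) [FiniteDimensional ℚ K] :
    ∃ m₀ : ℕ, 1 ≤ m₀ ∧ ∀ m : ℕ, m₀ ≤ m →
      ∃ τ : PadicAlgCl q ≃ₐ[ℚ_[q]] PadicAlgCl q,
        localGaloisToGlobal q τ ∈ K.fixingSubgroup ∧
        (∀ ζ : AlgebraicClosure ℚ, ζ ^ p ^ m = 1 → localGaloisToGlobal q τ ζ = ζ) ∧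
        ∀ ζ : AlgebraicClosure ℚ, IsPrimitiveRoot ζ (p ^ (m + 1)) →
          localGaloisToGlobal q τ ζ ≠ ζ := by
  obtain ⟨L, hL, hLK⟩ := exists_local_field_over (q := q) K
  obtain ⟨m₀, hm₀, h⟩ := exists_local_cyclo_step hp hp2 L
  refine ⟨m₀, hm₀, fun m hm => ?_⟩
  obtain ⟨τ, hτL, hfix, hmove⟩ := h m hm
  refine ⟨τ, hLK τ hτL, fun ζ hζ => ?_, fun ζ hζ e => ?_⟩
  · apply padicEmbedding_injective q
    rw [padicEmbedding_localGaloisToGlobal]
    apply hfix
    rw [← map_pow, hζ, map_one]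
  · apply hmove (padicEmbedding q ζ) (hζ.map_of_injective (padicEmbedding_injective q))
    rw [← padicEmbedding_localGaloisToGlobal, e]

end Global

end Fermat.Agent.S55.helper8845
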