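/-
S55 / NF layer, leaf NF-GR-SPLIT (helper3506): the local input "HSplit" of the (G-R) assembly.

LOCAL-RES-KILLS.  For `m` large, every level 2-cocycle of `G_{ℚ_q}` with values in `μ_p` is,
on the Galois group of `ℚ_q(ζ_{p^(m+1)})`, the coboundary of a `μ_p`-valued level 1-cochain.

* `kummer_kills`        : (LA carrier of helper9554, any `K`, `Ω`) `(LB1, ≤)` + `(LB2α)` for `K`:
                          a `μ_p`-valued level 2-cocycle of `G_K` is `d(level, μ_p-valued)` on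
                          pairs `(g, h)` with `g α = α`, for every Kummer generator
                          `α ^ p = a ∈ K ∖ K^p`.
* `kummer_kills_over`   : the same for cochains on the whole group `Gal(Ω/k)`, `K/k` finite.
* `exists_local_split`  : `K = ℚ_q(ζ_{p^m})`, `α = ζ_{p^(m+1)}`, `m ≥ m₀` (cyclotomic tower of
                          helper8845): the statement (SPL) of NF-GR, multiplicative form.
* `exists_local_split_frozen` : the same on the frozen carrier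
                          `Rep.res (localGaloisToGlobal q) (ofChar (cycloChar p))`.
* `exists_locTriv_cyclo` : global-facing form: for a level 2-cocycle `c` of
                          `ofChar (cycloChar p)` on `G_ℚ`, every `σ : G_ℚ` and `n ≥ n₀`, the
                          pull-back of `c` along `γ ↦ σ⁻¹ * localGaloisToGlobal q γ * σ` is
                          `d(u)`, `u` level, on the preimage of `Gal(Qbar/ℚ(ζ_{p^(n+1)}))`.

The only open input is `(LB1, ≤)` (`helper9554.Stmt_LB1_line`) for the finite extensions of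
`ℚ_q` containing `μ_p`; `(LB2α)` is `helper814.stmt_LocalLB2α`.

All cochains are functions on the WHOLE group, with conditions on subgroups.
-/
import Mathlib
import Fermat.Prelude.Def_GroupCohomology_ContinuousUnramified
import Fermat.Agent.S55.helper698_LocTop
import Fermat.Agent.S55.helper8845_CycloTower
import Fermat.Agent.S55.helper9554_LocalSpec
import Fermat.Agent.S55.helper814_LocalSpecLB2
import Fermat.Agent.S55.helper1110_OpenSub
import Fermat.Agent.S55.helper6706_MuP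

set_option autoImplicit false

noncomputable section

namespace Fermat.Agent.S55.helper3506

open groupCohomology ExtCitation IntermediateField
open Fermat.Agent.S55.helper9554

/-! ## Part 1. One Kummer step kills `H²(G_K, μ_p)` (LA carrier) -/

section Kummer

variable {K Ω : Type*} [Field K] [Field Ω] [Algebra K Ω] {p : ℕ}

/-- The Kummer cochain `g ↦ g α / α` of `α` with `α ^ p ∈ K` is a `μ_p`-valued level
1-cocycle. -/
theorem isMuCocycle₁_kummer (hp : p ≠ 0) (a : K) (α : Ωˣ)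
    (hα : (α : Ω) ^ p = algebraMap K Ω a) :
    IsMuCocycle₁ p (fun g : Ω ≃ₐ[K] Ω => g • α / α) := by
  refine ⟨fun g h => ?_, ?_, fun g => ?_⟩
  · simp only [mul_smul, smul_div']
    rw [div_mul_div_cancel]
  · have hint : IsIntegral K (α : Ω) :=
      ⟨Polynomial.X ^ p - Polynomial.C a, Polynomial.monic_X_pow_sub_C a hp, by simp [hα]⟩
    refine ⟨K⟮(α : Ω)⟯, IntermediateField.adjoin.finiteDimensional hint, fun g s hs => ?_⟩
    have hsα : s • α = α := by
      apply Units.ext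
      rw [AlgEquiv.smul_units_def]
      exact (IntermediateField.mem_fixingSubgroup_iff _ _).1 hs _
        (IntermediateField.mem_adjoin_simple_self K _)
    show (g * s) • α / α = g • α / α
    rw [mul_smul, hsα]
  · apply Units.ext
    simp only [Units.val_pow_eq_pow_val, Units.val_div_eq_div_val, AlgEquiv.smul_units_def,
      Units.coe_map, MonoidHom.coe_coe, Units.val_one]
    rw [div_pow, ← map_pow, hα, AlgEquiv.commutes, div_self]
    rw [← hα]
    exact pow_ne_zero _ α.ne_zero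

/-- **One Kummer step kills `H²(G_K, μ_p)`.**  If `H²(G_K, μ_p)` is at most a line (`(LB1, ≤)`)
and the Kummer class of `a ∈ K ∖ K^p` has a nonzero cup product (`(LB2α)`), then every
`μ_p`-valued level 2-cocycle of `G_K` agrees with the coboundary of a `μ_p`-valued level
1-cochain on all pairs `(g, h)` with `g α = α` (`α ^ p = a`); in particular on
`G_{K(α)} × G_{K(α)}`. -/
theorem kummer_kills [NeZero p] (hline : Stmt_LB1_line K Ω p) (hLB2 : Stmt_LB2α K Ω p)
    (a : K) (α : Ωˣ) (hα : (α : Ω) ^ p = algebraMap K Ω a) (hna : ¬ ∃ b : K, b ^ p = a)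
    {f : (Ω ≃ₐ[K] Ω) × (Ω ≃ₐ[K] Ω) → Ωˣ} (hf : IsMuCocycle₂ p f) :
    ∃ x : (Ω ≃ₐ[K] Ω) → Ωˣ, IsLevel₁ x ∧ (∀ g, x g ^ p = 1) ∧
      ∀ g h : Ω ≃ₐ[K] Ω, g (α : Ω) = α → f (g, h) = dOne x (g, h) := by
  have hκ := isMuCocycle₁_kummer (NeZero.ne p) a α hα
  obtain ⟨χ, hχ, hnc⟩ := hLB2 a α hα hna
  have hc := isMuCocycle₂_cupMu hκ hχ
  obtain ⟨n, x, hx, hxp, hfx⟩ := hline _ f hc hf hnc
  refine ⟨x, hx, hxp, fun g h hg => ?_⟩
  have h1 := congrFun hfx (g, h)
  rw [← h1]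
  have hgα : g • α = α := by
    apply Units.ext
    rw [AlgEquiv.smul_units_def]
    exact hg
  simp only [Pi.div_apply, Pi.pow_apply, cupMu, hgα, div_self', one_pow, div_one]

end Kummer

/-! ## Part 2. The same on the whole group `Gal(Ω/k)`, for `K/k` finite -/

section Over

variable {k Ω : Type*} [Field k] [Field Ω] [Algebra k Ω] {p : ℕ}

open Fermat.Agent.S55.helper1110 in
/-- **One Kummer step kills, whole-group form.**  `K/k` finite inside `Ω`, `α ^ p ∈ K` not a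
`p`-th power in `K`, `(LB1, ≤)` and `(LB2α)` for `K`.  Every `μ_p`-valued level 2-cocycle `f`
of `Gal(Ω/k)` agrees with the coboundary of a `μ_p`-valued level 1-cochain `x` of `Gal(Ω/k)`
on all pairs `(g, h)` of elements of `G_K` with `g α = α`. -/
theorem kummer_kills_over [NeZero p] (K : IntermediateField k Ω) [FiniteDimensional k K]
    (hline : Stmt_LB1_line K Ω p) (hLB2 : Stmt_LB2α K Ω p)
    (α : Ωˣ) (hαK : (α : Ω) ^ p ∈ K) (hna : ∀ b ∈ K, b ^ p ≠ (α : Ω) ^ p)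
    {f : (Ω ≃ₐ[k] Ω) × (Ω ≃ₐ[k] Ω) → Ωˣ} (hf : IsMuCocycle₂ p f) :
    ∃ x : (Ω ≃ₐ[k] Ω) → Ωˣ, IsLevel₁ x ∧ (∀ g, x g ^ p = 1) ∧
      ∀ g h : Ω ≃ₐ[k] Ω, g ∈ K.fixingSubgroup → h ∈ K.fixingSubgroup → g (α : Ω) = α →
        f (g, h) = dOne x (g, h) := by
  classical
  -- pull back to `G_K`
  set f' : (Ω ≃ₐ[K] Ω) × (Ω ≃ₐ[K] Ω) → Ωˣ := fun q => f (resHom K q.1, resHom K q.2) with hf'
  have hsmul : ∀ (g : Ω ≃ₐ[K] Ω) (u : Ωˣ), resHom K g • u = g • u := fun g u => Units.ext rfl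
  have hf'c : IsMuCocycle₂ p f' := by
    refine ⟨fun g h j => ?_, ?_, fun q => hf.pow_eq_one _⟩
    · have := hf.cocycle (resHom K g) (resHom K h) (resHom K j)
      simp only [hf', map_mul, ← hsmul]
      exact this
    · obtain ⟨L, hL, hinv⟩ := hf.level
      refine (exists_level_const₂_resHom_iff K f').1 ⟨L, hL, fun g g' s s' hs hs' => ?_⟩
      simp only [hf', map_mul]
      exact hinv _ _ _ _ hs hs'
  obtain ⟨x', hx'lev, hx'p, hx'⟩ := kummer_kills hline hLB2 ⟨(α : Ω) ^ p, hαK⟩ α rfl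
    (by
      rintro ⟨b, hb⟩
      exact hna b b.2 (by simpa using congrArg Subtype.val hb)) hf'c
  -- extend by `1` outside `G_K`
  set x : (Ω ≃ₐ[k] Ω) → Ωˣ := fun g =>
    if hg : g ∈ K.fixingSubgroup then x' (IntermediateField.fixingSubgroupEquiv K ⟨g, hg⟩) else 1
    with hx
  have hxres : ∀ g : Ω ≃ₐ[K] Ω, x (resHom K g) = x' g := by
    intro g
    have hg := resHom_mem_fixingSubgroup K g
    simp only [hx, dif_pos hg]
    congr 1
  refine ⟨x, ?_, ?_, ?_⟩
  · obtain ⟨L, hL, hinv⟩ := (exists_level_const₁_resHom_iff K x').2 hx'lev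
    have := hL
    refine ⟨L ⊔ K, inferInstance, fun g s hs => ?_⟩
    have hsL : s ∈ L.fixingSubgroup := IntermediateField.fixingSubgroup_le le_sup_left hs
    have hsK : s ∈ K.fixingSubgroup := IntermediateField.fixingSubgroup_le le_sup_right hs
    by_cases hg : g ∈ K.fixingSubgroup
    · have h1 : resHom K (IntermediateField.fixingSubgroupEquiv K ⟨g, hg⟩) = g :=
        resHom_fixingSubgroupEquiv K ⟨g, hg⟩
      have h2 : resHom K (IntermediateField.fixingSubgroupEquiv K ⟨s, hsK⟩) = s :=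
        resHom_fixingSubgroupEquiv K ⟨s, hsK⟩
      rw [← h1, ← h2, ← map_mul, hxres, hxres]
      exact hinv _ _ (by rw [h2]; exact hsL)
    · have hgs : g * s ∉ K.fixingSubgroup := fun h =>
        hg ((Subgroup.mul_mem_cancel_right _ hsK).1 h)
      simp only [hx, dif_neg hg, dif_neg hgs]
  · intro g
    by_cases hg : g ∈ K.fixingSubgroup
    · simp only [hx, dif_pos hg]
      exact hx'p _
    · simp only [hx, dif_neg hg, one_pow]
  · intro g h hg hh hgα
    have h1 : resHom K (IntermediateField.fixingSubgroupEquiv K ⟨g, hg⟩) = g :=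
      resHom_fixingSubgroupEquiv K ⟨g, hg⟩
    have h2 : resHom K (IntermediateField.fixingSubgroupEquiv K ⟨h, hh⟩) = h :=
      resHom_fixingSubgroupEquiv K ⟨h, hh⟩
    have h3 := hx' (IntermediateField.fixingSubgroupEquiv K ⟨g, hg⟩)
      (IntermediateField.fixingSubgroupEquiv K ⟨h, hh⟩) (by
        have := congrArg (fun τ : Ω ≃ₐ[k] Ω => τ (α : Ω)) h1
        simp only [resHom_apply] at this
        rw [this, hgα])
    simp only [hf', h1, h2, dOne_apply] at h3
    rw [h3, dOne_apply, ← hxres, ← hxres, ← hxres, map_mul, h1, h2, ← hsmul, h1]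

end Over

/-- An automorphism fixing a set pointwise lies in the fixing subgroup of the field generated. -/
theorem mem_fixingSubgroup_adjoin {F E : Type*} [Field F] [Field E] [Algebra F E]
    (s : Set E) (σ : E ≃ₐ[F] E) (h : ∀ x ∈ s, σ x = x) :
    σ ∈ (IntermediateField.adjoin F s).fixingSubgroup := by
  rw [IntermediateField.mem_fixingSubgroup_iff]
  intro x hx
  induction hx using IntermediateField.adjoin_induction with
  | mem x hx => exact h x hx
  | algebraMap x => exact σ.commutes x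
  | add x y _ _ hx hy => rw [map_add, hx, hy]
  | inv x _ hx => rw [map_inv₀, hx]
  | mul x y _ _ hx hy => rw [map_mul, hx, hy]

/-! ## Part 3. The local cyclotomic tower: statement (SPL) of NF-GR -/

section LocalSplit

variable {p q : ℕ} [Fact q.Prime]

/-- **(SPL), one step.**  If `ℚ_q(ζ_{p^(m+1)}) ≠ ℚ_q(ζ_{p^m})` (`m ≥ 1`), then every
`μ_p`-valued level 2-cocycle of `G_{ℚ_q}` agrees with the coboundary of a `μ_p`-valued level
1-cochain on all pairs `(g, h)` with `g` fixing the `p^(m+1)`-th roots of unity and `h` fixing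
the `p^m`-th roots of unity. -/
theorem local_split_of_cycloStep [Fact p.Prime] {m : ℕ} (hm : 1 ≤ m)
    (hstep : helper8845.CycloStep p q ⊥ m)
    (hline : ∀ K : IntermediateField ℚ_[q] (PadicAlgCl q), FiniteDimensional ℚ_[q] K →
      (∃ ζ : K, IsPrimitiveRoot ζ p) → Stmt_LB1_line K (PadicAlgCl q) p)
    {f : (PadicAlgCl q ≃ₐ[ℚ_[q]] PadicAlgCl q) × (PadicAlgCl q ≃ₐ[ℚ_[q]] PadicAlgCl q) →
      (PadicAlgCl q)ˣ}
    (hf : IsMuCocycle₂ p f) :
    ∃ x : (PadicAlgCl q ≃ₐ[ℚ_[q]] PadicAlgCl q) → (PadicAlgCl q)ˣ,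
      IsLevel₁ x ∧ (∀ g, x g ^ p = 1) ∧
      ∀ g h : PadicAlgCl q ≃ₐ[ℚ_[q]] PadicAlgCl q,
        (∀ ξ : PadicAlgCl q, ξ ^ p ^ (m + 1) = 1 → g ξ = ξ) →
        (∀ ξ : PadicAlgCl q, ξ ^ p ^ m = 1 → h ξ = ξ) →
        f (g, h) = dOne x (g, h) := by
  have hp := (Fact.out : p.Prime)
  have : NeZero p := ⟨hp.ne_zero⟩
  obtain ⟨τ, -, hτfix, hτmove⟩ := hstep
  obtain ⟨ξ, hξ⟩ := helper8845.exists_isPrimitiveRoot_padicAlgCl (q := q) hp (m + 1)
  have hξ0 : ξ ≠ 0 := hξ.ne_zero (pow_ne_zero _ hp.ne_zero)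
  have hξp : (ξ ^ p) ^ p ^ m = 1 := by
    rw [← pow_mul, ← pow_succ']
    exact hξ.pow_eq_one
  -- `K = ℚ_q(ζ_{p^m})`
  let K : IntermediateField ℚ_[q] (PadicAlgCl q) := ℚ_[q]⟮ξ ^ p⟯
  haveI : FiniteDimensional ℚ_[q] K :=
    IntermediateField.adjoin.finiteDimensional (Algebra.IsIntegral.isIntegral _)
  have hξpK : ξ ^ p ∈ K := IntermediateField.mem_adjoin_simple_self _ _
  -- `ζ = ξ ^ (p^m) ∈ K` is a primitive `p`-th root of unity
  have hζ : IsPrimitiveRoot (ξ ^ p ^ m) p := hξ.pow (pow_pos hp.pos _) (pow_succ p m)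
  have hζK : ξ ^ p ^ m ∈ K := by
    obtain ⟨m', rfl⟩ : ∃ m', m = m' + 1 := ⟨m - 1, by omega⟩
    rw [pow_succ', pow_mul]
    exact pow_mem hξpK _
  have hζ' : IsPrimitiveRoot (⟨ξ ^ p ^ m, hζK⟩ : K) p :=
    IsPrimitiveRoot.of_map_of_injective (f := algebraMap K (PadicAlgCl q)) hζ
      (FaithfulSMul.algebraMap_injective K (PadicAlgCl q))
  -- `τ` fixes `K`
  have hτK : ∀ y ∈ K, τ y = y := by
    have : τ ∈ K.fixingSubgroup := mem_fixingSubgroup_adjoin _ τ (by
      rintro x (rfl : x = ξ ^ p)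
      exact hτfix _ hξp)
    exact fun y hy => (IntermediateField.mem_fixingSubgroup_iff _ _).1 this y hy
  -- `ξ ^ p` is not a `p`-th power in `K`
  have hna : ∀ b ∈ K, b ^ p ≠ ξ ^ p := by
    intro b hb hbp
    have h1 : (b / ξ) ^ p = 1 := by rw [div_pow, hbp, div_self (pow_ne_zero _ hξ0)]
    obtain ⟨i, -, hi⟩ := hζ.eq_pow_of_pow_eq_one h1
    have hξK : ξ ∈ K := by
      have hz0 : (ξ ^ p ^ m) ^ i ≠ 0 := pow_ne_zero _ (pow_ne_zero _ hξ0)
      have hb0 : b ≠ 0 := by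
        rintro rfl
        rw [zero_div] at hi
        exact hz0 hi
      have h2 : ξ = b / (ξ ^ p ^ m) ^ i := by
        rw [hi]
        field_simp
      rw [h2]
      exact div_mem hb (pow_mem hζK _)
    exact hτmove ξ hξ (hτK ξ hξK)
  obtain ⟨x, hx, hxp, hfx⟩ := kummer_kills_over K (hline K inferInstance ⟨_, hζ'⟩)
    (helper814.stmt_LocalLB2α q p K inferInstance ⟨_, hζ'⟩) (Units.mk0 ξ hξ0) hξpK hna hf
  refine ⟨x, hx, hxp, fun g h hg hh => hfx g h ?_ ?_ ?_⟩
  · refine mem_fixingSubgroup_adjoin _ g ?_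
    rintro x (rfl : x = ξ ^ p)
    refine hg _ ?_
    rw [← pow_mul, mul_comm, pow_mul, hξ.pow_eq_one, one_pow]
  · refine mem_fixingSubgroup_adjoin _ h ?_
    rintro x (rfl : x = ξ ^ p)
    exact hh _ hξp
  · exact hg ξ hξ.pow_eq_one

/-- **(SPL) of NF-GR, multiplicative form.**  `p` odd, `q` any prime (`q = p` allowed).  There
is `m₀ ≥ 1` such that for all `m ≥ m₀` every `μ_p`-valued level 2-cocycle of `G_{ℚ_q}` is, on
the Galois group of `ℚ_q(ζ_{p^(m+1)})`, the coboundary of a `μ_p`-valued level 1-cochain.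
The only open input is `(LB1, ≤)` for the finite extensions of `ℚ_q` containing `μ_p`. -/
theorem exists_local_split [Fact p.Prime] (hp2 : p ≠ 2)
    (hline : ∀ K : IntermediateField ℚ_[q] (PadicAlgCl q), FiniteDimensional ℚ_[q] K →
      (∃ ζ : K, IsPrimitiveRoot ζ p) → Stmt_LB1_line K (PadicAlgCl q) p) :
    ∃ m₀ : ℕ, 1 ≤ m₀ ∧ ∀ m : ℕ, m₀ ≤ m →
      ∀ f : (PadicAlgCl q ≃ₐ[ℚ_[q]] PadicAlgCl q) × (PadicAlgCl q ≃ₐ[ℚ_[q]] PadicAlgCl q) →
        (PadicAlgCl q)ˣ, IsMuCocycle₂ p f →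
      ∃ x : (PadicAlgCl q ≃ₐ[ℚ_[q]] PadicAlgCl q) → (PadicAlgCl q)ˣ,
        IsLevel₁ x ∧ (∀ g, x g ^ p = 1) ∧
        ∀ g h : PadicAlgCl q ≃ₐ[ℚ_[q]] PadicAlgCl q,
          (∀ ξ : PadicAlgCl q, ξ ^ p ^ (m + 1) = 1 → g ξ = ξ) →
          (∀ ξ : PadicAlgCl q, ξ ^ p ^ m = 1 → h ξ = ξ) →
          f (g, h) = dOne x (g, h) := by
  obtain ⟨m₀, hm₀, h⟩ := helper8845.exists_local_cyclo_step (q := q) (Fact.out : p.Prime) hp2 ⊥
  exact ⟨m₀, hm₀, fun m hm f hf => local_split_of_cycloStep (hm₀.trans hm) (h m hm) hline hf⟩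

end LocalSplit

/-! ## Part 4. The frozen local carrier -/

section Frozen

variable {p q : ℕ} [Fact q.Prime] [Fact p.Prime]

/-- The conclusion of `exists_local_split` for one `m`, as a predicate: every `μ_p`-valued
level 2-cocycle of `G_{ℚ_q}` splits (by a `μ_p`-valued level cochain) over `ℚ_q(ζ_{p^(m+1)})`. -/
def LocalSplitAt (p q : ℕ) [Fact q.Prime] (m : ℕ) : Prop :=
  ∀ f : (PadicAlgCl q ≃ₐ[ℚ_[q]] PadicAlgCl q) × (PadicAlgCl q ≃ₐ[ℚ_[q]] PadicAlgCl q) →
      (PadicAlgCl q)ˣ, IsMuCocycle₂ p f →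
    ∃ x : (PadicAlgCl q ≃ₐ[ℚ_[q]] PadicAlgCl q) → (PadicAlgCl q)ˣ,
      IsLevel₁ x ∧ (∀ g, x g ^ p = 1) ∧
      ∀ g h : PadicAlgCl q ≃ₐ[ℚ_[q]] PadicAlgCl q,
        (∀ ξ : PadicAlgCl q, ξ ^ p ^ (m + 1) = 1 → g ξ = ξ) →
        (∀ ξ : PadicAlgCl q, ξ ^ p ^ m = 1 → h ξ = ξ) →
        f (g, h) = dOne x (g, h)

/-- **(SPL), frozen local carrier.**  A level 2-cocycle `c` of
`Rep.res (localGaloisToGlobal q) (ofChar (cycloChar p))` is `d(u)`, `u` level-constant, on the
Galois group of `ℚ_q(ζ_{p^(m+1)})` (on which the module is trivial). -/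
theorem LocalSplitAt.frozen {m : ℕ} (hspl : LocalSplitAt p q m)
    {c : (PadicAlgCl q ≃ₐ[ℚ_[q]] PadicAlgCl q) × (PadicAlgCl q ≃ₐ[ℚ_[q]] PadicAlgCl q) → ZMod p}
    (hc : c ∈ cocycles₂ (Rep.res (localGaloisToGlobal q) (ofChar (k := ZMod p) (cycloChar p))))
    (hlev : IsLevelConstant₂ (localGaloisToGlobal q) c) :
    ∃ u : (PadicAlgCl q ≃ₐ[ℚ_[q]] PadicAlgCl q) → ZMod p,
      IsLevelConstant₁ (localGaloisToGlobal q) u ∧
      ∀ a b : PadicAlgCl q ≃ₐ[ℚ_[q]] PadicAlgCl q,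
        (∀ ξ : PadicAlgCl q, ξ ^ p ^ (m + 1) = 1 → a ξ = ξ) →
        (∀ ξ : PadicAlgCl q, ξ ^ p ^ m = 1 → b ξ = ξ) →
        c (a, b) = u b - u (a * b) + u a := by
  have hE := helper6706.isMulEmbedding_local q p
  have hζp : helper6706.zetaPadic p q ^ p = 1 := helper6706.zetaPadic_pow q p
  have hζ1 : helper6706.zetaPadic p q ≠ 1 := helper6706.zetaPadic_ne_one q p
  have hf : IsMuCocycle₂ p (fun z => helper6706.muExp (p := p) (helper6706.zetaPadic p q) (c z)) :=
    ⟨(hE.mem_cocycles₂_iff c).1 hc,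
      (helper698.isLevelConstant₂_localGaloisToGlobal_iff q _).1
        (hlev.comp (helper6706.muExp (p := p) (helper6706.zetaPadic p q))),
      fun z => helper6706.muExp_pow_prime hζp _⟩
  obtain ⟨x, hxlev, hxp, hx⟩ := hspl _ hf
  have hrange : ∀ g, x g ∈ Set.range (helper6706.muExp (p := p) (helper6706.zetaPadic p q)) := by
    intro g
    rw [helper6706.range_muExp_zetaPadic]
    exact hxp g
  choose u hu using hrange
  refine ⟨u, ?_, fun a b ha hb => ?_⟩
  · obtain ⟨F, hF, hinv⟩ := (helper698.isLevelConstant₁_localGaloisToGlobal_iff q x).2 hxlev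
    refine ⟨F, hF, fun g s hs => helper6706.muExp_injective hζp hζ1 ?_⟩
    rw [hu, hu]
    exact hinv g s hs
  · apply helper6706.muExp_injective hζp hζ1
    have haζ : a • helper6706.zetaPadic p q = helper6706.zetaPadic p q := by
      apply Units.ext
      rw [AlgEquiv.smul_units_def]
      refine ha _ ?_
      have h1 : ((helper6706.zetaPadic p q : (PadicAlgCl q)ˣ) : PadicAlgCl q) ^ p = 1 := by
        rw [← Units.val_pow_eq_pow_val, hζp, Units.val_one]
      rw [pow_succ', pow_mul, h1, one_pow]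
    have hab : a • x b = x b := by
      rw [← hu b, helper6706.muExp_def, smul_pow', haζ]
    rw [helper6706.muExp_add hζp, helper6706.muExp_sub hζp, hu, hu, hu]
    have h1 := hx a b ha hb
    rw [dOne_apply, hab] at h1
    exact h1

end Frozen

/-! ## Part 5. Global-facing form: local triviality of `res_{ℚ(ζ_{p^(n+1)})} z` at all places
above `q` -/

section Global

variable (p : ℕ)

/-- `cycloFix p n = Gal(Qbar / ℚ(ζ_{p^(n+1)}))`: the automorphisms fixing every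
`p^(n+1)`-th root of unity. -/
def cycloFix (n : ℕ) : Subgroup (AlgebraicClosure ℚ ≃ₐ[ℚ] AlgebraicClosure ℚ) where
  carrier := {σ | ∀ ξ : AlgebraicClosure ℚ, ξ ^ p ^ (n + 1) = 1 → σ ξ = ξ}
  mul_mem' := by
    intro a b ha hb ξ hξ
    rw [AlgEquiv.mul_apply, hb ξ hξ, ha ξ hξ]
  one_mem' := fun ξ _ => rfl
  inv_mem' := by
    intro a ha ξ hξ
    rw [AlgEquiv.aut_inv]
    exact (AlgEquiv.symm_apply_eq _).2 (ha ξ hξ).symm

theorem mem_cycloFix_iff {n : ℕ} {σ : AlgebraicClosure ℚ ≃ₐ[ℚ] AlgebraicClosure ℚ} :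
    σ ∈ cycloFix p n ↔ ∀ ξ : AlgebraicClosure ℚ, ξ ^ p ^ (n + 1) = 1 → σ ξ = ξ := Iff.rfl

/-- The cyclotomic field `ℚ(ζ_{p^(n+1)})` inside `Qbar`. -/
def cycloField (n : ℕ) : IntermediateField ℚ (AlgebraicClosure ℚ) :=
  IntermediateField.adjoin ℚ {ξ : AlgebraicClosure ℚ | ξ ^ p ^ (n + 1) = 1}

theorem cycloFix_eq_fixingSubgroup (n : ℕ) :
    cycloFix p n = (cycloField p n).fixingSubgroup := by
  ext σ
  constructor
  · intro h
    exact mem_fixingSubgroup_adjoin _ σ h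
  · intro h ξ hξ
    exact (IntermediateField.mem_fixingSubgroup_iff _ _).1 h ξ
      (IntermediateField.subset_adjoin ℚ _ hξ)

/-- `cycloFix p n` is a normal subgroup (conjugation form). -/
theorem conj_mem_cycloFix_iff {n : ℕ}
    (σ τ : AlgebraicClosure ℚ ≃ₐ[ℚ] AlgebraicClosure ℚ) :
    σ⁻¹ * τ * σ ∈ cycloFix p n ↔ τ ∈ cycloFix p n := by
  constructor
  · intro h ξ hξ
    have h1 : (σ⁻¹ ξ) ^ p ^ (n + 1) = 1 := by rw [← map_pow, hξ, map_one]
    have h2 := h _ h1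
    rw [AlgEquiv.mul_apply, AlgEquiv.mul_apply] at h2
    have h3 : σ (σ⁻¹ ξ) = ξ := by
      rw [← AlgEquiv.mul_apply, mul_inv_cancel, AlgEquiv.one_apply]
    rw [h3] at h2
    have h4 := congrArg σ h2
    rw [← AlgEquiv.mul_apply, mul_inv_cancel, AlgEquiv.one_apply, h3] at h4
    exact h4
  · intro h ξ hξ
    have h1 : (σ ξ) ^ p ^ (n + 1) = 1 := by rw [← map_pow, hξ, map_one]
    rw [AlgEquiv.mul_apply, AlgEquiv.mul_apply, h _ h1, ← AlgEquiv.mul_apply, inv_mul_cancel,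
      AlgEquiv.one_apply]

instance (n : ℕ) : (cycloFix p n).Normal where
  conj_mem := by
    intro τ hτ σ
    have := (conj_mem_cycloFix_iff p (n := n) σ⁻¹ τ).2 hτ
    rwa [inv_inv] at this

theorem cycloFix_antitone {n n' : ℕ} (h : n ≤ n') : cycloFix p n' ≤ cycloFix p n := by
  intro σ hσ ξ hξ
  refine hσ ξ ?_
  obtain ⟨d, rfl⟩ := Nat.exists_eq_add_of_le h
  rw [show n + d + 1 = (n + 1) + d by ring, pow_add, pow_mul, hξ, one_pow]

/-- The local Galois group of `ℚ_q(ζ_{p^(n+1)})`: `γ` restricts into `cycloFix p n` iff it fixes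
the `p^(n+1)`-th roots of unity of `PadicAlgCl q`. -/
theorem localGaloisToGlobal_mem_cycloFix_iff {q : ℕ} [Fact q.Prime] {n : ℕ} (hp : p ≠ 0)
    (γ : PadicAlgCl q ≃ₐ[ℚ_[q]] PadicAlgCl q) :
    localGaloisToGlobal q γ ∈ cycloFix p n ↔
      ∀ x : PadicAlgCl q, x ^ p ^ (n + 1) = 1 → γ x = x := by
  constructor
  · intro h x hx
    have hint : IsIntegral ℚ x := by
      refine ⟨Polynomial.X ^ p ^ (n + 1) - 1,
        Polynomial.monic_X_pow_sub_C 1 (pow_ne_zero _ hp), ?_⟩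
      simp [hx]
    obtain ⟨z, rfl⟩ := helper698.mem_range_padicEmbedding_of_isIntegral q hint
    have hz : z ^ p ^ (n + 1) = 1 := by
      apply helper8845.padicEmbedding_injective q
      rw [map_pow, hx, map_one]
    rw [← padicEmbedding_localGaloisToGlobal, h z hz]
  · intro h ξ hξ
    apply helper8845.padicEmbedding_injective q
    rw [padicEmbedding_localGaloisToGlobal]
    apply h
    rw [← map_pow, hξ, map_one]

variable [Fact p.Prime]

/-- The cyclotomic character is invariant under conjugation. -/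
theorem cycloChar_conj (σ g : AlgebraicClosure ℚ ≃ₐ[ℚ] AlgebraicClosure ℚ) :
    cycloChar p (σ⁻¹ * g * σ) = cycloChar p g := by
  rw [map_mul, map_mul, map_inv, mul_comm, mul_inv_cancel_left]

/-- **Local triviality of `res_{ℚ(ζ_{p^(n+1)})} z` at the places above `q`** (predicate).
For every level 2-cocycle `c` of `μ_p = ofChar (cycloChar p)` on `G_ℚ` and every `σ : G_ℚ`, the
pull-back of `c` along `γ ↦ σ⁻¹ * localGaloisToGlobal q γ * σ` is the coboundary of a
level-constant `u : G_{ℚ_q} → ZMod p` on the preimage of `Gal(Qbar/ℚ(ζ_{p^(n+1)}))`. -/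
def LocTrivCyclo (q : ℕ) [Fact q.Prime] (n : ℕ) : Prop :=
  ∀ c : (AlgebraicClosure ℚ ≃ₐ[ℚ] AlgebraicClosure ℚ) ×
      (AlgebraicClosure ℚ ≃ₐ[ℚ] AlgebraicClosure ℚ) → ZMod p,
    c ∈ cocycles₂ (ofChar (k := ZMod p) (cycloChar p)) →
    IsLevelConstant₂ (MonoidHom.id (AlgebraicClosure ℚ ≃ₐ[ℚ] AlgebraicClosure ℚ)) c →
    ∀ σ : AlgebraicClosure ℚ ≃ₐ[ℚ] AlgebraicClosure ℚ,
    ∃ u : (PadicAlgCl q ≃ₐ[ℚ_[q]] PadicAlgCl q) → ZMod p,
      IsLevelConstant₁ (localGaloisToGlobal q) u ∧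
      ∀ a b : PadicAlgCl q ≃ₐ[ℚ_[q]] PadicAlgCl q,
        σ⁻¹ * localGaloisToGlobal q a * σ ∈ cycloFix p n →
        σ⁻¹ * localGaloisToGlobal q b * σ ∈ cycloFix p n →
        c (σ⁻¹ * localGaloisToGlobal q a * σ, σ⁻¹ * localGaloisToGlobal q b * σ) =
          u b - u (a * b) + u a

variable {p}

/-- (SPL) at level `m` gives the local triviality at all places above `q` of the restriction
to `ℚ(ζ_{p^(m+1)})`. -/
theorem LocalSplitAt.locTrivCyclo {q : ℕ} [Fact q.Prime] {m : ℕ} (hspl : LocalSplitAt p q m) :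
    LocTrivCyclo p q m := by
  intro c hc hlev σ
  have hp := (Fact.out : p.Prime)
  -- the conjugated pull-back is again a level cocycle of the restricted module
  set c' : (PadicAlgCl q ≃ₐ[ℚ_[q]] PadicAlgCl q) × (PadicAlgCl q ≃ₐ[ℚ_[q]] PadicAlgCl q) → ZMod p :=
    fun z => c (σ⁻¹ * localGaloisToGlobal q z.1 * σ, σ⁻¹ * localGaloisToGlobal q z.2 * σ) with hc'
  have hmul : ∀ a b : PadicAlgCl q ≃ₐ[ℚ_[q]] PadicAlgCl q,
      σ⁻¹ * localGaloisToGlobal q (a * b) * σ =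
        (σ⁻¹ * localGaloisToGlobal q a * σ) * (σ⁻¹ * localGaloisToGlobal q b * σ) := by
    intro a b
    rw [map_mul]
    group
  have hc'c : c' ∈ cocycles₂
      (Rep.res (localGaloisToGlobal q) (ofChar (k := ZMod p) (cycloChar p))) := by
    refine (mem_cocycles₂_iff
      (A := Rep.res (localGaloisToGlobal q) (ofChar (k := ZMod p) (cycloChar p))) c').2 ?_
    intro a b d
    have h1 := (mem_cocycles₂_iff (A := ofChar (k := ZMod p) (cycloChar p)) c).1 hc
      (σ⁻¹ * localGaloisToGlobal q a * σ) (σ⁻¹ * localGaloisToGlobal q b * σ)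
      (σ⁻¹ * localGaloisToGlobal q d * σ)
    simp only [hc', hmul]
    rw [h1]
    congr 1
    show ((cycloChar p (σ⁻¹ * localGaloisToGlobal q a * σ) : (ZMod p)ˣ) : ZMod p) *
        c (σ⁻¹ * localGaloisToGlobal q b * σ, σ⁻¹ * localGaloisToGlobal q d * σ) =
      ((cycloChar p (localGaloisToGlobal q a) : (ZMod p)ˣ) : ZMod p) *
        c (σ⁻¹ * localGaloisToGlobal q b * σ, σ⁻¹ * localGaloisToGlobal q d * σ)
    rw [cycloChar_conj]
  have hlev' : IsLevelConstant₂ (localGaloisToGlobal q) c' := by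
    obtain ⟨F, hF, h⟩ := hlev
    have := hF
    refine ⟨F.map (σ : AlgebraicClosure ℚ →ₐ[ℚ] AlgebraicClosure ℚ),
      LinearEquiv.finiteDimensional
        (IntermediateField.equivMap F (σ : AlgebraicClosure ℚ →ₐ[ℚ] AlgebraicClosure ℚ)).toLinearEquiv,
      fun g g' s s' hs hs' => ?_⟩
    have key : ∀ t : PadicAlgCl q ≃ₐ[ℚ_[q]] PadicAlgCl q,
        localGaloisToGlobal q t ∈
          (F.map (σ : AlgebraicClosure ℚ →ₐ[ℚ] AlgebraicClosure ℚ)).fixingSubgroup →
        σ⁻¹ * localGaloisToGlobal q t * σ ∈ F.fixingSubgroup := by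
      intro t ht
      rw [IntermediateField.mem_fixingSubgroup_iff] at ht ⊢
      intro x hx
      have h2 := ht (σ x) ((IntermediateField.mem_map _).2 ⟨x, hx, rfl⟩)
      show σ⁻¹ (localGaloisToGlobal q t (σ x)) = x
      rw [h2]
      exact σ.symm_apply_apply x
    simp only [hc', hmul]
    exact h _ _ _ _ (key s hs) (key s' hs')
  obtain ⟨u, hu, huc⟩ := hspl.frozen hc'c hlev'
  refine ⟨u, hu, fun a b ha hb => ?_⟩
  have ha' := (localGaloisToGlobal_mem_cycloFix_iff p hp.ne_zero a).1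
    ((conj_mem_cycloFix_iff p σ _).1 ha)
  have hb' := (localGaloisToGlobal_mem_cycloFix_iff p hp.ne_zero b).1
    ((conj_mem_cycloFix_iff p σ _).1 hb)
  refine huc a b ha' (fun ξ hξ => hb' ξ ?_)
  rw [pow_succ, pow_mul, hξ, one_pow]

/-- **(B) of NF-GR-SPLIT.**  `p` odd, `q` any prime.  For all large `n`, the restriction to
`ℚ(ζ_{p^(n+1)})` of every level class of `H²(G_ℚ, μ_p)` is locally trivial at every place above
`q`.  The only open input is `(LB1, ≤)` for the finite extensions of `ℚ_q` containing `μ_p`. -/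
theorem exists_locTrivCyclo (hp2 : p ≠ 2) (q : ℕ) [Fact q.Prime]
    (hline : ∀ K : IntermediateField ℚ_[q] (PadicAlgCl q), FiniteDimensional ℚ_[q] K →
      (∃ ζ : K, IsPrimitiveRoot ζ p) → Stmt_LB1_line K (PadicAlgCl q) p) :
    ∃ n₀ : ℕ, 1 ≤ n₀ ∧ ∀ n : ℕ, n₀ ≤ n → LocalSplitAt p q n ∧ LocTrivCyclo p q n := by
  obtain ⟨m₀, hm₀, h⟩ := exists_local_split (q := q) hp2 hline
  exact ⟨m₀, hm₀, fun n hn => ⟨h n hn, LocalSplitAt.locTrivCyclo (h n hn)⟩⟩

/-- **(B) for all primes of `S` at once** (frozen index type `Nat.Primes`). -/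
theorem exists_locTrivCyclo_finset (hp2 : p ≠ 2) (S : Finset Nat.Primes)
    (hline : ∀ q ∈ S, haveI : Fact (q : ℕ).Prime := ⟨q.2⟩
      ∀ K : IntermediateField ℚ_[(q : ℕ)] (PadicAlgCl (q : ℕ)),
        FiniteDimensional ℚ_[(q : ℕ)] K →
        (∃ ζ : K, IsPrimitiveRoot ζ p) → Stmt_LB1_line K (PadicAlgCl (q : ℕ)) p) :
    ∃ n₀ : ℕ, 1 ≤ n₀ ∧ ∀ n : ℕ, n₀ ≤ n → ∀ q ∈ S, haveI : Fact (q : ℕ).Prime := ⟨q.2⟩
      LocalSplitAt p (q : ℕ) n ∧ LocTrivCyclo p (q : ℕ) n := by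
  classical
  induction S using Finset.induction_on with
  | empty => exact ⟨1, le_rfl, fun n _ q hq => absurd hq (Finset.notMem_empty q)⟩
  | insert q₀ S _ ih =>
    obtain ⟨n₁, hn₁, h₁⟩ := ih (fun q hq => hline q (Finset.mem_insert_of_mem hq))
    haveI : Fact (q₀ : ℕ).Prime := ⟨q₀.2⟩
    obtain ⟨n₂, -, h₂⟩ := exists_locTrivCyclo hp2 (q₀ : ℕ) (hline q₀ (Finset.mem_insert_self _ _))
    refine ⟨max n₁ n₂, le_max_of_le_left hn₁, fun n hn q hq => ?_⟩
    rcases Finset.mem_insert.1 hq with rfl | hq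
    · exact h₂ n ((le_max_right _ _).trans hn)
    · exact h₁ n ((le_max_left _ _).trans hn) q hq

end Global

end Fermat.Agent.S55.helper3506
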