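/-
S55 / NF layer, leaf NF-GR-SPLIT part (C) (helper3506): the input "HSplit" of the (G-R)
assembly, from the local splitting of `helper3506_GRSplit` and the Hasse principle in kernel
form (`helper1919.Stmt_GH`, NF-GH) at the cyclotomic field `F = ℚ(ζ_{p^(n+1)})`.

* `isSFieldZeta_cycloField`            : `ℚ(ζ_{p^(n+1)})` is an `S`-field containing `μ_p`
                                          (`p ∈ S`).
* `resCyclo_mem_relZ2S`                 : the restriction of an `S`-level 2-cocycle of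
                                          `μ_p = ofChar (cycloChar p)` to `V = Gal(Qbar/F)` is an
                                          `S`-level 2-cocycle with TRIVIAL coefficients.
* `relH2Sπ_resCyclo_mem_fieldSha2`      : its class lies in `fieldSha2 S p F` as soon as
                                          `LocTrivCyclo p q n` holds for all `q ∈ S`.
* `isKerClass_resCyclo`                 : hence (Hasse, kernel form at `F`) `ζ ^ c` is on `V` the
                                          coboundary of an `Ω^×`-valued `S`-level 1-cochain.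
* `HSplitAt p S n`, `exists_hSplitAt`   : the consumer shape of the NF-GR assembly.
-/
import Mathlib
import Fermat.Agent.S55.helper3506_GRSplit
import Fermat.Agent.S55.helper1919_Sha2Bound
import Fermat.Agent.S55.helper4709_GlobRam2

set_option autoImplicit false

noncomputable section

namespace Fermat.Agent.S55.helper3506

open groupCohomology ExtCitation IntermediateField
open Fermat.Agent.S55.helper3071

local notation "Qb" => AlgebraicClosure ℚ

/-! ## The cyclotomic field is an `S`-field containing `μ_p` -/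

section CycloField

variable (p : ℕ) [Fact p.Prime]

theorem exists_primitiveRoot_Qbar (k : ℕ) : ∃ ξ : Qb, IsPrimitiveRoot ξ (p ^ k) := by
  have hne : NeZero (p ^ k) := ⟨pow_ne_zero _ (Fact.out : p.Prime).ne_zero⟩
  haveI : NeZero ((p ^ k : ℕ) : Qb) := ⟨Nat.cast_ne_zero.mpr (NeZero.ne _)⟩
  exact HasEnoughRootsOfUnity.exists_primitiveRoot Qb (p ^ k)

/-- `cycloField p n = ℚ(ξ)` for any primitive `p^(n+1)`-th root of unity `ξ`. -/
theorem cycloField_eq_adjoin {n : ℕ} {ξ : Qb} (hξ : IsPrimitiveRoot ξ (p ^ (n + 1))) :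
    cycloField p n = IntermediateField.adjoin ℚ {ξ} := by
  apply le_antisymm
  · rw [cycloField, IntermediateField.adjoin_le_iff]
    intro x hx
    have : NeZero (p ^ (n + 1)) := ⟨pow_ne_zero _ (Fact.out : p.Prime).ne_zero⟩
    obtain ⟨i, -, rfl⟩ := hξ.eq_pow_of_pow_eq_one hx
    exact pow_mem (IntermediateField.mem_adjoin_simple_self ℚ ξ) i
  · rw [IntermediateField.adjoin_le_iff]
    rintro x (rfl : x = ξ)
    exact IntermediateField.subset_adjoin ℚ _ hξ.pow_eq_one

theorem isUnramifiedOutside_cycloField (S : Finset Nat.Primes) (hpS : pPrime p ∈ S) (n : ℕ) :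
    (cycloField p n).IsUnramifiedOutside S := by
  obtain ⟨ξ, hξ⟩ := exists_primitiveRoot_Qbar p (n + 1)
  rw [cycloField_eq_adjoin p hξ]
  exact helper4709.isUnramifiedOutside_adjoin_primePow_rootOfUnity S p hpS (n + 1) ξ
    hξ.pow_eq_one

/-- Every `p`-th root of unity lies in `cycloField p n`. -/
theorem mem_cycloField_of_pow_eq_one (n : ℕ) {ζ : Qb} (hζ : ζ ^ p = 1) : ζ ∈ cycloField p n := by
  refine IntermediateField.subset_adjoin ℚ _ ?_
  show ζ ^ p ^ (n + 1) = 1
  rw [pow_succ', pow_mul, hζ, one_pow]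

theorem isSFieldZeta_cycloField (hp2 : p ≠ 2) (S : Finset Nat.Primes) (hpS : pPrime p ∈ S)
    (n : ℕ) : IsSFieldZeta S p (cycloField p n) where
  prime := Fact.out
  odd := hp2
  mem := ⟨pPrime p, hpS, rfl⟩
  unram := isUnramifiedOutside_cycloField p S hpS n
  zeta := by
    obtain ⟨ξ, hξ⟩ := exists_primitiveRoot_Qbar p 1
    rw [pow_one] at hξ
    exact ⟨ξ, mem_cycloField_of_pow_eq_one p n hξ.pow_eq_one, hξ⟩

/-- An automorphism fixing the `p`-th roots of unity has trivial mod `p` cyclotomic character. -/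
theorem cycloChar_eq_one_of_fixes (σ : AlgebraicClosure ℚ ≃ₐ[ℚ] AlgebraicClosure ℚ)
    (h : ∀ ζ : AlgebraicClosure ℚ, ζ ^ p = 1 → σ ζ = ζ) : cycloChar p σ = 1 := by
  haveI : NeZero p := ⟨(Fact.out : p.Prime).ne_zero⟩
  haveI : Fact (1 < p) := ⟨(Fact.out : p.Prime).one_lt⟩
  have key : (1 : ZMod p) = ((modularCyclotomicCharacter (AlgebraicClosure ℚ)
      (card_rootsOfUnity_eq_self p) (σ : AlgebraicClosure ℚ ≃+* AlgebraicClosure ℚ) : (ZMod p)ˣ) :
      ZMod p) := by
    apply modularCyclotomicCharacter.unique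
    intro t ht
    rw [ZMod.val_one, pow_one]
    have ht' : (t : AlgebraicClosure ℚ) ^ p = 1 := by
      have := (mem_rootsOfUnity p t).1 ht
      rw [← Units.val_pow_eq_pow_val, this, Units.val_one]
    exact h _ ht'
  apply Units.ext
  rw [Units.val_one]
  exact key.symm

theorem cycloChar_eq_one_of_mem_cycloFix {n : ℕ}
    {σ : AlgebraicClosure ℚ ≃ₐ[ℚ] AlgebraicClosure ℚ} (hσ : σ ∈ cycloFix p n) :
    cycloChar p σ = 1 := by
  refine cycloChar_eq_one_of_fixes p σ fun ζ hζ => hσ ζ ?_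
  rw [pow_succ', pow_mul, hζ, one_pow]

end CycloField

/-! ## Restriction to `V = Gal(Qbar/ℚ(ζ_{p^(n+1)}))` -/

section Restrict

variable {p : ℕ} [Fact p.Prime] (S : Finset Nat.Primes)

/-- Restriction of a 2-cochain on `G_ℚ` to `V = Gal(Qbar/ℚ(ζ_{p^(n+1)}))`. -/
def resCyclo (n : ℕ) (c : GQ × GQ → ZMod p) :
    (cycloField p n).fixingSubgroup × (cycloField p n).fixingSubgroup → ZMod p :=
  fun x => c ((x.1 : GQ), (x.2 : GQ))

@[simp] theorem resCyclo_apply (n : ℕ) (c : GQ × GQ → ZMod p)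
    (g k : (cycloField p n).fixingSubgroup) : resCyclo n c (g, k) = c ((g : GQ), (k : GQ)) := rfl

theorem coe_mem_cycloFix {n : ℕ} (g : (cycloField p n).fixingSubgroup) :
    (g : GQ) ∈ cycloFix p n := by
  rw [cycloFix_eq_fixingSubgroup]
  exact g.2

/-- The restriction to `V` of an `S`-level 2-cocycle of `μ_p` is an `S`-level 2-cocycle with
trivial coefficients. -/
theorem resCyclo_mem_relZ2S (n : ℕ) {c : GQ × GQ → ZMod p}
    (hc : c ∈ levelCocyclesS₂ S (ofChar (k := ZMod p) (cycloChar p))) :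
    resCyclo n c ∈ relZ2S S (cycloField p n).fixingSubgroup.subtype
      (trivF p (cycloField p n)) := by
  obtain ⟨hc1, L, hL, hinv⟩ := hc
  refine ⟨?_, L, hL, fun g g' s s' hs hs' => hinv _ _ _ _ hs hs'⟩
  refine (mem_cocycles₂_iff (A := trivF p (cycloField p n)) _).2 fun g h j => ?_
  have h1 := (mem_cocycles₂_iff (A := ofChar (k := ZMod p) (cycloChar p)) c).1 hc1
    (g : GQ) (h : GQ) (j : GQ)
  have h2 : ((ofChar (k := ZMod p) (cycloChar p)).ρ (g : GQ)) (c ((h : GQ), (j : GQ))) =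
      c ((h : GQ), (j : GQ)) := by
    show ((cycloChar p (g : GQ) : (ZMod p)ˣ) : ZMod p) * c ((h : GQ), (j : GQ)) = _
    rw [cycloChar_eq_one_of_mem_cycloFix p (coe_mem_cycloFix g), Units.val_one, one_mul]
  rw [h2] at h1
  exact h1

/-- **Local triviality ⟹ Ш².**  If `LocTrivCyclo p q n` holds for all `q ∈ S`, the class of the
restriction to `V` of every `S`-level 2-cocycle of `μ_p` lies in `fieldSha2 S p ℚ(ζ_{p^(n+1)})`. -/
theorem relH2Sπ_resCyclo_mem_fieldSha2 (n : ℕ)
    (hloc : ∀ q ∈ S, haveI : Fact (q : ℕ).Prime := ⟨q.2⟩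
      LocTrivCyclo p (q : ℕ) n)
    {c : GQ × GQ → ZMod p} (hc : c ∈ levelCocyclesS₂ S (ofChar (k := ZMod p) (cycloChar p))) :
    relH2Sπ S (cycloField p n).fixingSubgroup.subtype (trivF p (cycloField p n))
      ⟨resCyclo n c, resCyclo_mem_relZ2S S n hc⟩ ∈ fieldSha2 S p (cycloField p n) := by
  rw [mem_fieldSha2_iff]
  intro q hq g
  haveI : Fact (q : ℕ).Prime := ⟨q.2⟩
  obtain ⟨u, hu, huc⟩ := hloc q hq c hc.1 hc.2.isLevelConstant₂ g⁻¹
  simp only [inv_inv] at huc
  show continuousH2π (placeLoc (cycloField p n) q g) (trivPl p (cycloField p n) q g)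
    (relZ2SRes S (r := (cycloField p n).fixingSubgroup.subtype)
      (ρ := placeLoc (cycloField p n) q g) (placeHom (cycloField p n) q g) (fun _ => rfl)
      (LinearMap.id : ZMod p →ₗ[ZMod p] ZMod p) (fun _ _ => rfl)
      (⟨resCyclo n c, resCyclo_mem_relZ2S S n hc⟩ :
        ↥(relZ2S S (cycloField p n).fixingSubgroup.subtype (trivF p (cycloField p n))))) = 0
  rw [continuousH2π_eq_zero_iff, coe_relZ2SRes, mem_levelCoboundaries₂_iff]
  refine ⟨fun a => u (a : primeLocalGaloisGroup q), ?_, ?_⟩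
  · obtain ⟨E, hE, hinv⟩ := hu
    have := hE
    refine ⟨E.map ((g : GQ) : Qb →ₐ[ℚ] Qb),
      LinearEquiv.finiteDimensional
        (IntermediateField.equivMap E ((g : GQ) : Qb →ₐ[ℚ] Qb)).toLinearEquiv,
      fun a s hs => hinv _ _ ?_⟩
    rw [IntermediateField.mem_fixingSubgroup_iff] at hs ⊢
    intro x hx
    have h2 := hs (g x) ((IntermediateField.mem_map _).2 ⟨x, hx, rfl⟩)
    rw [placeLoc_apply] at h2
    have h3 : g (primeLocalToGlobal q (s : primeLocalGaloisGroup q) (g⁻¹ (g x))) = g x := h2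
    have h4 : g⁻¹ (g x) = x := by
      rw [← AlgEquiv.mul_apply, inv_mul_cancel, AlgEquiv.one_apply]
    rw [h4] at h3
    exact g.injective h3
  · funext ⟨a, b⟩
    have ha : g * localGaloisToGlobal (q : ℕ) (a : primeLocalGaloisGroup q) * g⁻¹ ∈
        cycloFix p n := by
      rw [cycloFix_eq_fixingSubgroup]
      exact a.2
    have hb : g * localGaloisToGlobal (q : ℕ) (b : primeLocalGaloisGroup q) * g⁻¹ ∈
        cycloFix p n := by
      rw [cycloFix_eq_fixingSubgroup]
      exact b.2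
    have h1 := huc (a : primeLocalGaloisGroup q) (b : primeLocalGaloisGroup q) ha hb
    rw [d₁₂_hom_apply]
    show u (b : primeLocalGaloisGroup q) -
          u ((a : primeLocalGaloisGroup q) * (b : primeLocalGaloisGroup q)) +
        u (a : primeLocalGaloisGroup q) =
      c (g * primeLocalToGlobal q (a : primeLocalGaloisGroup q) * g⁻¹,
        g * primeLocalToGlobal q (b : primeLocalGaloisGroup q) * g⁻¹)
    exact h1.symm

end Restrict

/-! ## The Hasse principle at `ℚ(ζ_{p^(n+1)})` and HSplit -/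

section HSplit

variable {p : ℕ} [Fact p.Prime] (S : Finset Nat.Primes)

open Fermat.Agent.S55.helper1919 in
/-- The Hasse principle in kernel form at ONE field `F` (the body of `helper1919.Stmt_GH`). -/
def GHAt (p : ℕ) (S : Finset Nat.Primes) (F : IntermediateField ℚ Qb) : Prop :=
  ∀ ζ : Qbˣ, IsPrimitiveRoot (ζ : Qb) p → ∀ x ∈ fieldSha2 S p F,
    ∃ c : ↥(relZ2S S F.fixingSubgroup.subtype (trivF p F)),
      relH2Sπ S F.fixingSubgroup.subtype (trivF p F) c = x ∧
        IsKerClass S F p ζ (c : F.fixingSubgroup × F.fixingSubgroup → ZMod p)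

theorem ghAt_of_stmt_GH (hGH : helper1919.Stmt_GH) (hp2 : p ≠ 2) (hpS : pPrime p ∈ S) (n : ℕ) :
    GHAt p S (cycloField p n) :=
  hGH S p (cycloField p n) (isSFieldZeta_cycloField p hp2 S hpS n)

open Fermat.Agent.S55.helper1919 Fermat.Agent.S55.helper6706 in
/-- **(C), kernel form.**  Local triviality at all places above `S` + the Hasse principle at
`F = ℚ(ζ_{p^(n+1)})`: for every `S`-level 2-cocycle `c` of `μ_p` on `G_ℚ`, `ζ ^ c` restricted to
`V = Gal(Qbar/F)` is the coboundary of an `Ω^×`-valued `S`-level 1-cochain. -/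
theorem isKerClass_resCyclo (hpS : pPrime p ∈ S) (n : ℕ) (hGH : GHAt p S (cycloField p n))
    (hloc : ∀ q ∈ S, haveI : Fact (q : ℕ).Prime := ⟨q.2⟩
      LocTrivCyclo p (q : ℕ) n)
    {c : GQ × GQ → ZMod p} (hc : c ∈ levelCocyclesS₂ S (ofChar (k := ZMod p) (cycloChar p)))
    (ζ : Qbˣ) (hζ : IsPrimitiveRoot (ζ : Qb) p) :
    IsKerClass S (cycloField p n) p ζ (resCyclo n c) := by
  have hζp : ζ ^ p = 1 := by
    apply Units.ext
    rw [Units.val_pow_eq_pow_val, hζ.pow_eq_one, Units.val_one]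
  obtain ⟨c', hc'x, h, hh, hhc⟩ := hGH ζ hζ _ (relH2Sπ_resCyclo_mem_fieldSha2 S n hloc hc)
  have hmem := (Submodule.Quotient.eq _).1 hc'x
  obtain ⟨w, hw, hdw⟩ := (mem_relB2S_iff S _ _ _).1 hmem
  -- `z = ζ ^ w` is an `Ω^×`-valued `S`-level cochain
  have hζF : (ζ : Qb) ∈ cycloField p n := mem_cycloField_of_pow_eq_one p n hζ.pow_eq_one
  have hz : IsOmLevel S (cycloField p n) (fun g => (muExp (p := p) ζ (w g))⁻¹) := by
    obtain ⟨L, hL, hinv⟩ := hw
    refine ⟨L ⊔ cycloField p n, hL.sup (isUnramifiedOutside_cycloField p S hpS n), fun g => ?_,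
      fun g s hs => ?_⟩
    · show (((muExp (p := p) ζ (w g))⁻¹ : Qbˣ) : Qb) ∈ L ⊔ cycloField p n
      rw [muExp_def, Units.val_inv_eq_inv_val, Units.val_pow_eq_pow_val]
      exact inv_mem (pow_mem ((le_sup_right : cycloField p n ≤ L ⊔ cycloField p n) hζF) _)
    · have hsL : (s : GQ) ∈ L.fixingSubgroup :=
        IntermediateField.fixingSubgroup_antitone le_sup_left hs
      show (muExp (p := p) ζ (w (g * s)))⁻¹ = (muExp (p := p) ζ (w g))⁻¹
      rw [hinv g s hsL]
  refine ⟨fun g => h g * (muExp (p := p) ζ (w g))⁻¹, hh.mul hz, fun g k => ?_⟩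
  -- `g` fixes `ζ`
  have hgζ : gal (g : GQ) ζ = ζ := by
    apply Units.ext
    exact (IntermediateField.mem_fixingSubgroup_iff _ _).1 g.2 _ hζF
  have hgz : gal (g : GQ) ((muExp (p := p) ζ (w k))⁻¹) = (muExp (p := p) ζ (w k))⁻¹ := by
    rw [muExp_def, map_inv, map_pow, hgζ]
  have h1 := hhc g k
  have h2 := congrFun hdw (g, k)
  rw [d₁₂_hom_apply] at h2
  have h3 : (c' : (cycloField p n).fixingSubgroup × (cycloField p n).fixingSubgroup → ZMod p)
      (g, k) = resCyclo n c (g, k) + (w k - w (g * k) + w g) := by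
    have h4 : w k - w (g * k) + w g =
        (c' : (cycloField p n).fixingSubgroup × (cycloField p n).fixingSubgroup → ZMod p) (g, k)
          - resCyclo n c (g, k) := h2
    rw [h4]
    ring
  have h5 : ζ ^ ((c' : (cycloField p n).fixingSubgroup × (cycloField p n).fixingSubgroup →
      ZMod p) (g, k)).val = muExp (p := p) ζ (resCyclo n c (g, k)) *
        (muExp (p := p) ζ (w k) / muExp (p := p) ζ (w (g * k)) * muExp (p := p) ζ (w g)) := by
    rw [← muExp_def, h3, muExp_add hζp, muExp_add hζp, muExp_sub hζp]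
  rw [h5] at h1
  rw [map_mul, hgz, ← muExp_def]
  have h6 : h g * (muExp (p := p) ζ (w g))⁻¹ * (gal (g : GQ) (h k) * (muExp (p := p) ζ (w k))⁻¹) /
      (h (g * k) * (muExp (p := p) ζ (w (g * k)))⁻¹) =
      (h g * gal (g : GQ) (h k) / h (g * k)) *
        (muExp (p := p) ζ (w k) / muExp (p := p) ζ (w (g * k)) * muExp (p := p) ζ (w g))⁻¹ := by
    simp only [div_eq_mul_inv, mul_inv, inv_inv]
    ac_rfl
  rw [h6, h1, mul_inv_cancel_right]

/-- **HSplit at level `n`** — the consumer shape of the NF-GR assembly (helper3750 #584): for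
every `S`-level 2-cocycle `c` of `μ_p = ofChar (cycloChar p)` there is an `S`-level
`h : G_ℚ → Qbarˣ` with `ζ ^ c = d h` on `Gal(Qbar/ℚ(ζ_{p^(n+1)}))`. -/
def HSplitAt (p : ℕ) [Fact p.Prime] (S : Finset Nat.Primes) (n : ℕ) : Prop :=
  ∀ c : GQ × GQ → ZMod p, c ∈ levelCocyclesS₂ S (ofChar (k := ZMod p) (cycloChar p)) →
    ∃ h : GQ → Qbˣ, IsLevelConstantS₁ S h ∧
      ∀ g g' : GQ, g ∈ cycloFix p n → g' ∈ cycloFix p n →
        g • h g' / h (g * g') * h g =
          helper6706.muExp (p := p) (helper6706.zetaQbar p) (c (g, g'))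

theorem isPrimitiveRoot_zetaQbar (p : ℕ) [Fact p.Prime] :
    IsPrimitiveRoot ((helper6706.zetaQbar p : Qbˣ) : Qb) p := by
  rw [IsPrimitiveRoot.coe_units_iff, IsPrimitiveRoot.iff_orderOf]
  exact orderOf_eq_prime (helper6706.zetaQbar_pow p) (helper6706.zetaQbar_ne_one p)

open Fermat.Agent.S55.helper1919 in
/-- `HSplitAt` from the kernel form. -/
theorem hSplitAt_of (hpS : pPrime p ∈ S) (n : ℕ) (hGH : GHAt p S (cycloField p n))
    (hloc : ∀ q ∈ S, haveI : Fact (q : ℕ).Prime := ⟨q.2⟩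
      LocTrivCyclo p (q : ℕ) n) :
    HSplitAt p S n := by
  classical
  intro c hc
  obtain ⟨h₀, ⟨L, hL, -, hinv⟩, hh₀⟩ := isKerClass_resCyclo S hpS n hGH hloc hc
    (helper6706.zetaQbar p) (isPrimitiveRoot_zetaQbar p)
  refine ⟨fun g => if hg : g ∈ (cycloField p n).fixingSubgroup then h₀ ⟨g, hg⟩ else 1,
    ⟨L ⊔ cycloField p n, hL.sup (isUnramifiedOutside_cycloField p S hpS n), fun g s hs => ?_⟩,
    fun g g' hg hg' => ?_⟩
  · have hsL : s ∈ L.fixingSubgroup := IntermediateField.fixingSubgroup_antitone le_sup_left hs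
    have hsF : s ∈ (cycloField p n).fixingSubgroup :=
      IntermediateField.fixingSubgroup_antitone le_sup_right hs
    by_cases hg : g ∈ (cycloField p n).fixingSubgroup
    · have hgs : g * s ∈ (cycloField p n).fixingSubgroup := Subgroup.mul_mem _ hg hsF
      simp only [dif_pos hg, dif_pos hgs]
      exact hinv ⟨g, hg⟩ ⟨s, hsF⟩ hsL
    · have hgs : g * s ∉ (cycloField p n).fixingSubgroup := fun h =>
        hg ((Subgroup.mul_mem_cancel_right _ hsF).1 h)
      simp only [dif_neg hg, dif_neg hgs]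
  · rw [cycloFix_eq_fixingSubgroup] at hg hg'
    have hgg' : g * g' ∈ (cycloField p n).fixingSubgroup := Subgroup.mul_mem _ hg hg'
    simp only [dif_pos hg, dif_pos hg', dif_pos hgg']
    have h1 := hh₀ ⟨g, hg⟩ ⟨g', hg'⟩
    rw [resCyclo_apply] at h1
    rw [helper6706.muExp_def, ← h1]
    have h2 : g • h₀ ⟨g', hg'⟩ = gal g (h₀ ⟨g', hg'⟩) := Units.ext rfl
    rw [h2]
    show gal g (h₀ ⟨g', hg'⟩) / h₀ (⟨g, hg⟩ * ⟨g', hg'⟩) * h₀ ⟨g, hg⟩ = _
    simp only [div_eq_mul_inv]
    ac_rfl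

/-- **(C) of NF-GR-SPLIT: HSplit.**  `p` odd, `p ∈ S`.  For all large `n`, `HSplitAt p S n`
holds, given `(LB1, ≤)` for the finite extensions of `ℚ_q ∋ μ_p`, `q ∈ S`, and the Hasse
principle in kernel form at the fields `ℚ(ζ_{p^(n+1)})`. -/
theorem exists_hSplitAt (hp2 : p ≠ 2) (hpS : pPrime p ∈ S)
    (hline : ∀ q ∈ S, haveI : Fact (q : ℕ).Prime := ⟨q.2⟩
      ∀ K : IntermediateField ℚ_[(q : ℕ)] (PadicAlgCl (q : ℕ)),
        FiniteDimensional ℚ_[(q : ℕ)] K →
        (∃ ζ : K, IsPrimitiveRoot ζ p) → helper9554.Stmt_LB1_line K (PadicAlgCl (q : ℕ)) p)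
    (hGH : ∀ n : ℕ, GHAt p S (cycloField p n)) :
    ∃ n₀ : ℕ, 1 ≤ n₀ ∧ ∀ n : ℕ, n₀ ≤ n → HSplitAt p S n := by
  obtain ⟨n₀, hn₀, h⟩ := exists_locTrivCyclo_finset hp2 S hline
  exact ⟨n₀, hn₀, fun n hn => hSplitAt_of S hpS n (hGH n) fun q hq => (h n hn q hq).2⟩

/-- The same with the closed Prop `helper1919.Stmt_GH` as hypothesis. -/
theorem exists_hSplitAt_of_stmt_GH (hp2 : p ≠ 2) (hpS : pPrime p ∈ S)
    (hline : ∀ q ∈ S, haveI : Fact (q : ℕ).Prime := ⟨q.2⟩
      ∀ K : IntermediateField ℚ_[(q : ℕ)] (PadicAlgCl (q : ℕ)),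
        FiniteDimensional ℚ_[(q : ℕ)] K →
        (∃ ζ : K, IsPrimitiveRoot ζ p) → helper9554.Stmt_LB1_line K (PadicAlgCl (q : ℕ)) p)
    (hGH : helper1919.Stmt_GH) :
    ∃ n₀ : ℕ, 1 ≤ n₀ ∧ ∀ n : ℕ, n₀ ≤ n → HSplitAt p S n :=
  exists_hSplitAt S hp2 hpS hline fun n => ghAt_of_stmt_GH S hGH hp2 hpS n

end HSplit

end Fermat.Agent.S55.helper3506
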