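/-
S55 / NF layer, leaf NF-GR-SPLIT, final forms (helper3506).

`(LB1)` is a theorem (`helper164.stmt_LB1_line_padic`), so the local statements of
`helper3506_GRSplit` are unconditional, and HSplit only depends on the Hasse principle at the
cyclotomic fields `ℚ(ζ_{p^(n+1)})` (`helper1919.Stmt_GH` / `helper9826.Stmt_ShaHasse`).

* `exists_localSplitAt`      : (SPL) unconditional, one prime `q`.
* `exists_locTrivCyclo_all`  : (B) unconditional, all `q ∈ S` with one `n₀`.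
* `exists_mem_fieldSha2`     : `res_{ℚ(ζ_{p^(n+1)})} z ∈ Ш²_S` for every `z ∈ H²(G_S, μ_p)`, `n ≥ n₀`.
* `HSplitAtZeta`, `exists_hSplitAtZeta_of_stmt_GH`, `exists_hSplitAtZeta_of_shaHasse` :
  HSplit for every primitive `p`-th root of unity `ζ`, with an explicit `S`-level field
  (consumer shape of helper4969 #670); `exists_hSplitAt_of_GH` for the `zetaQbar` shape
  (helper3750 #584).
-/
import Mathlib
import Fermat.Agent.S55.helper3506_HSplit
import Fermat.Agent.S55.helper164_LB1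
import Fermat.Agent.S55.helper9826_Sha2Field

set_option autoImplicit false

noncomputable section

namespace Fermat.Agent.S55.helper3506

open groupCohomology ExtCitation IntermediateField
open Fermat.Agent.S55.helper3071

local notation "Qb" => AlgebraicClosure ℚ

variable {p : ℕ} [Fact p.Prime]

/-- `(LB1, ≤)` in the hypothesis shape of `helper3506_GRSplit`. -/
theorem lb1_line_padic (hp2 : p ≠ 2) (q : ℕ) [Fact q.Prime] :
    ∀ K : IntermediateField ℚ_[q] (PadicAlgCl q), FiniteDimensional ℚ_[q] K →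
      (∃ ζ : K, IsPrimitiveRoot ζ p) → helper9554.Stmt_LB1_line K (PadicAlgCl q) p :=
  fun K hK hζ => by
    haveI := hK
    exact helper164.stmt_LB1_line_padic q p hp2 K hζ

/-- **(SPL), unconditional.**  `p` odd, `q` any prime: for all large `n`, every `μ_p`-valued level
2-cocycle of `G_{ℚ_q}` splits over `ℚ_q(ζ_{p^(n+1)})`, and every level class of `H²(G_ℚ, μ_p)`
restricted to `ℚ(ζ_{p^(n+1)})` is locally trivial at all places above `q`. -/
theorem exists_localSplitAt (hp2 : p ≠ 2) (q : ℕ) [Fact q.Prime] :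
    ∃ n₀ : ℕ, 1 ≤ n₀ ∧ ∀ n : ℕ, n₀ ≤ n → LocalSplitAt p q n ∧ LocTrivCyclo p q n :=
  exists_locTrivCyclo hp2 q (lb1_line_padic hp2 q)

/-- **(B), unconditional**, one `n₀` for all primes of `S`. -/
theorem exists_locTrivCyclo_all (hp2 : p ≠ 2) (S : Finset Nat.Primes) :
    ∃ n₀ : ℕ, 1 ≤ n₀ ∧ ∀ n : ℕ, n₀ ≤ n → ∀ q ∈ S, haveI : Fact (q : ℕ).Prime := ⟨q.2⟩
      LocalSplitAt p (q : ℕ) n ∧ LocTrivCyclo p (q : ℕ) n :=
  exists_locTrivCyclo_finset hp2 S fun q _ =>
    haveI : Fact (q : ℕ).Prime := ⟨q.2⟩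
    lb1_line_padic hp2 (q : ℕ)

/-- **`res_{ℚ(ζ_{p^(n+1)})}` maps `H²(G_S, μ_p)` into `Ш²_S`**, for all large `n`
(unconditional). -/
theorem exists_mem_fieldSha2 (hp2 : p ≠ 2) (S : Finset Nat.Primes) :
    ∃ n₀ : ℕ, 1 ≤ n₀ ∧ ∀ n : ℕ, n₀ ≤ n → ∀ (c : GQ × GQ → ZMod p)
      (hc : c ∈ levelCocyclesS₂ S (ofChar (k := ZMod p) (cycloChar p))),
      relH2Sπ S (cycloField p n).fixingSubgroup.subtype (trivF p (cycloField p n))
        ⟨resCyclo n c, resCyclo_mem_relZ2S S n hc⟩ ∈ fieldSha2 S p (cycloField p n) := by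
  obtain ⟨n₀, hn₀, h⟩ := exists_locTrivCyclo_all (p := p) hp2 S
  exact ⟨n₀, hn₀, fun n hn c hc =>
    relH2Sπ_resCyclo_mem_fieldSha2 S n (fun q hq => (h n hn q hq).2) hc⟩

/-- **HSplit at level `n`, for every primitive `p`-th root of unity** (consumer shape of the weak
reciprocity assembly, helper4969 #670): `ζ ^ c = d u` on `Gal(Qbar/ℚ(ζ_{p^(n+1)}))` with `u`
right-invariant under the fixing subgroup of an `S`-level field `L`. -/
def HSplitAtZeta (p : ℕ) [Fact p.Prime] (S : Finset Nat.Primes) (n : ℕ) : Prop :=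
  ∀ ζ : Qbˣ, IsPrimitiveRoot ζ p →
    ∀ c : GQ × GQ → ZMod p, c ∈ levelCocyclesS₂ S (ofChar (k := ZMod p) (cycloChar p)) →
      ∃ (L : IntermediateField ℚ Qb) (u : GQ → Qbˣ), L.IsUnramifiedOutside S ∧
        (∀ g s, s ∈ L.fixingSubgroup → u (g * s) = u g) ∧
        ∀ a b, a ∈ cycloFix p n → b ∈ cycloFix p n →
          ζ ^ (c (a, b)).val = a • u b / u (a * b) * u a

open Fermat.Agent.S55.helper1919 in
/-- From the kernel form: whole-group primitive, extended by `1` off `V`; it moreover has all its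
values in the level field. -/
theorem exists_split_of_isKerClass (S : Finset Nat.Primes) (hpS : pPrime p ∈ S) (n : ℕ)
    {c : GQ × GQ → ZMod p} (ζ : Qbˣ)
    (hker : IsKerClass S (cycloField p n) p ζ (resCyclo n c)) :
    ∃ (L : IntermediateField ℚ Qb) (u : GQ → Qbˣ), L.IsUnramifiedOutside S ∧
      (∀ g s, s ∈ L.fixingSubgroup → u (g * s) = u g) ∧ (∀ g, ((u g : Qbˣ) : Qb) ∈ L) ∧
      ∀ a b, a ∈ cycloFix p n → b ∈ cycloFix p n →
        ζ ^ (c (a, b)).val = a • u b / u (a * b) * u a := by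
  classical
  obtain ⟨h₀, ⟨L, hL, hval, hinv⟩, hh₀⟩ := hker
  refine ⟨L ⊔ cycloField p n,
    fun g => if hg : g ∈ (cycloField p n).fixingSubgroup then h₀ ⟨g, hg⟩ else 1,
    hL.sup (isUnramifiedOutside_cycloField p S hpS n), fun g s hs => ?_, fun g => ?_,
    fun g g' hg hg' => ?_⟩
  · have hsL : s ∈ L.fixingSubgroup := IntermediateField.fixingSubgroup_antitone le_sup_left hs
    have hsF : s ∈ (cycloField p n).fixingSubgroup :=
      IntermediateField.fixingSubgroup_antitone le_sup_right hs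
    by_cases hg : g ∈ (cycloField p n).fixingSubgroup
    · have hgs : g * s ∈ (cycloField p n).fixingSubgroup := Subgroup.mul_mem _ hg hsF
      simp only [dif_pos hg, dif_pos hgs]
      exact hinv ⟨g, hg⟩ ⟨s, hsF⟩ hsL
    · have hgs : g * s ∉ (cycloField p n).fixingSubgroup := fun h =>
        hg ((Subgroup.mul_mem_cancel_right _ hsF).1 h)
      simp only [dif_neg hg, dif_neg hgs]
  · by_cases hg : g ∈ (cycloField p n).fixingSubgroup
    · simp only [dif_pos hg]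
      exact (le_sup_left : L ≤ L ⊔ cycloField p n) (hval ⟨g, hg⟩)
    · simp only [dif_neg hg, Units.val_one]
      exact one_mem _
  · rw [cycloFix_eq_fixingSubgroup] at hg hg'
    have hgg' : g * g' ∈ (cycloField p n).fixingSubgroup := Subgroup.mul_mem _ hg hg'
    simp only [dif_pos hg, dif_pos hg', dif_pos hgg']
    have h1 := hh₀ ⟨g, hg⟩ ⟨g', hg'⟩
    rw [resCyclo_apply] at h1
    rw [← h1]
    have h2 : g • h₀ ⟨g', hg'⟩ = gal g (h₀ ⟨g', hg'⟩) := Units.ext rfl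
    rw [h2]
    show _ = gal g (h₀ ⟨g', hg'⟩) / h₀ (⟨g, hg⟩ * ⟨g', hg'⟩) * h₀ ⟨g, hg⟩
    simp only [div_eq_mul_inv]
    ac_rfl

/-- `HSplitAtZeta` from local triviality and the Hasse principle at `ℚ(ζ_{p^(n+1)})`. -/
theorem hSplitAtZeta_of (S : Finset Nat.Primes) (hpS : pPrime p ∈ S) (n : ℕ)
    (hGH : GHAt p S (cycloField p n))
    (hloc : ∀ q ∈ S, haveI : Fact (q : ℕ).Prime := ⟨q.2⟩
      LocTrivCyclo p (q : ℕ) n) :
    HSplitAtZeta p S n := by
  intro ζ hζ c hc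
  obtain ⟨L, u, hL, hu, -, h⟩ := exists_split_of_isKerClass S hpS n ζ
    (isKerClass_resCyclo S hpS n hGH hloc hc ζ (IsPrimitiveRoot.coe_units_iff.2 hζ))
  exact ⟨L, u, hL, hu, h⟩

/-- **HSplit, final form I**: only the Hasse principle in kernel form is assumed. -/
theorem exists_hSplitAtZeta_of_stmt_GH (hp2 : p ≠ 2) (S : Finset Nat.Primes)
    (hpS : pPrime p ∈ S) (hGH : helper1919.Stmt_GH) :
    ∃ n₀ : ℕ, 1 ≤ n₀ ∧ ∀ n : ℕ, n₀ ≤ n → HSplitAtZeta p S n := by
  obtain ⟨n₀, hn₀, h⟩ := exists_locTrivCyclo_all (p := p) hp2 S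
  exact ⟨n₀, hn₀, fun n hn => hSplitAtZeta_of S hpS n (ghAt_of_stmt_GH S hGH hp2 hpS n)
    fun q hq => (h n hn q hq).2⟩

/-- **HSplit, final form II**: from `helper9826.Stmt_ShaHasse`. -/
theorem exists_hSplitAtZeta_of_shaHasse (hp2 : p ≠ 2) (S : Finset Nat.Primes)
    (hpS : pPrime p ∈ S) (hH : helper9826.Stmt_ShaHasse) :
    ∃ n₀ : ℕ, 1 ≤ n₀ ∧ ∀ n : ℕ, n₀ ≤ n → HSplitAtZeta p S n :=
  exists_hSplitAtZeta_of_stmt_GH hp2 S hpS (helper9826.stmt_GH_of hH)

/-- The `zetaQbar` shape (`HSplitAt`, helper3750 #584), only the Hasse principle assumed. -/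
theorem exists_hSplitAt_of_GH (hp2 : p ≠ 2) (S : Finset Nat.Primes)
    (hpS : pPrime p ∈ S) (hGH : helper1919.Stmt_GH) :
    ∃ n₀ : ℕ, 1 ≤ n₀ ∧ ∀ n : ℕ, n₀ ≤ n → HSplitAt p S n :=
  exists_hSplitAt_of_stmt_GH S hp2 hpS
    (fun q _ =>
      haveI : Fact (q : ℕ).Prime := ⟨q.2⟩
      lb1_line_padic hp2 (q : ℕ)) hGH

end Fermat.Agent.S55.helper3506
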