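/-
S55 bridge leaf S55-KRASNER (helper4058): the "global levels" used by the frozen local carriers
(`IsLevelConstant₁/₂ (localGaloisToGlobal q)`) are cofinal with the honest open subgroups
`K.fixingSubgroup`, `K/ℚ_q` finite, of the local Galois group.  Prelude + Mathlib only.
-/
import Mathlib
import Fermat.Prelude.Def_GroupCohomology_ContinuousUnramified

set_option autoImplicit false

open Polynomial IntermediateField

namespace Fermat.Agent.S55.helper4058

local instance isAlgebraicQbar_h4058 : Algebra.IsAlgebraic ℚ (AlgebraicClosure ℚ) :=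
  AlgebraicClosure.isAlgebraic ℚ

variable (q : ℕ) [Fact q.Prime]

/-- A root in `PadicAlgCl q` of a nonzero rational polynomial is in the range of
`padicEmbedding q`. -/
theorem exists_padicEmbedding_eq_of_aeval_eq_zero {y : PadicAlgCl q} {g : ℚ[X]} (hg : g ≠ 0)
    (hy : aeval y g = 0) : ∃ η : AlgebraicClosure ℚ, padicEmbedding q η = y := by
  have hsp : (g.map (algebraMap ℚ (AlgebraicClosure ℚ))).Splits := IsAlgClosed.splits _
  have hne : g.map (algebraMap ℚ (AlgebraicClosure ℚ)) ≠ 0 :=
    (Polynomial.map_ne_zero_iff (algebraMap ℚ (AlgebraicClosure ℚ)).injective).2 hg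
  have hroot : ((g.map (algebraMap ℚ (AlgebraicClosure ℚ))).map
      (padicEmbedding q).toRingHom).IsRoot y := by
    rw [Polynomial.map_map]
    have hcomp : (padicEmbedding q).toRingHom.comp (algebraMap ℚ (AlgebraicClosure ℚ))
        = algebraMap ℚ (PadicAlgCl q) := Subsingleton.elim _ _
    rw [hcomp, IsRoot.def, eval_map_algebraMap]
    exact hy
  obtain ⟨η, hη⟩ := hsp.mem_range_of_isRoot hne hroot
  exact ⟨η, hη⟩

/-- The image of `AlgebraicClosure ℚ` is dense in `PadicAlgCl q`. -/
theorem exists_padicEmbedding_norm_sub_lt (x : PadicAlgCl q) {ε : ℝ} (hε : 0 < ε) :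
    ∃ η : AlgebraicClosure ℚ, ‖x - padicEmbedding q η‖ < ε := by
  have hint : IsIntegral ℚ_[q] x := Algebra.IsIntegral.isIntegral x
  set f := minpoly ℚ_[q] x with hf
  have fmon : f.Monic := minpoly.monic hint
  have fa0 : aeval x f = 0 := minpoly.aeval _ _
  have fnatdeg0 : f.natDegree ≠ 0 := (minpoly.natDegree_pos hint).ne'
  have hε' : (ε / (max ‖x‖ 1)) ^ f.natDegree / (f.natDegree + 1) > 0 := by positivity
  have hd : DenseRange (algebraMap ℚ ℚ_[q]) := Padic.denseRange_ratCast q
  obtain ⟨g, gmon, gdeg, gcoeff⟩ :=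
    exists_monic_and_natDegree_eq_and_norm_map_algebraMap_coeff_sub_lt hd fmon hε'
  obtain ⟨b, hb, hab⟩ := exists_aroots_norm_sub_lt_of_norm_coeff_sub_lt
      (L := PadicAlgCl q) hε' fa0 fmon (gmon.map _) (gdeg ▸ (g.natDegree_map _)) gcoeff
      (IsAlgClosed.splits _)
  have hab : ‖x - b‖ < ε := by
    rw [← Real.rpow_natCast, ← mul_comm_div, div_self, one_mul,
        ← Real.rpow_mul (div_pos hε (by positivity)).le, mul_inv_cancel₀] at hab
    · simpa [mul_assoc, div_mul_cancel₀ _ (by positivity : (max ‖x‖ 1) > 0).ne'] using hab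
    · simp [fnatdeg0]
    · positivity
  have hb0 : aeval b g = 0 := by
    have h1 := (Polynomial.mem_aroots.1 hb).2
    rwa [Polynomial.aeval_map_algebraMap] at h1
  obtain ⟨η, rfl⟩ := exists_padicEmbedding_eq_of_aeval_eq_zero q gmon.ne_zero hb0
  exact ⟨η, hab⟩

/-- **Krasner, pointwise form.** For every `x : PadicAlgCl q` there is an algebraic number `η`
such that every local automorphism whose global restriction fixes `η` fixes `x`. -/
theorem exists_global_witness (x : PadicAlgCl q) :
    ∃ η : AlgebraicClosure ℚ, ∀ τ : PadicAlgCl q ≃ₐ[ℚ_[q]] PadicAlgCl q,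
      localGaloisToGlobal q τ η = η → τ x = x := by
  classical
  have hint : IsIntegral ℚ_[q] x := Algebra.IsIntegral.isIntegral x
  have hsep : (minpoly ℚ_[q] x).Separable := (minpoly.irreducible hint).separable
  have sp : ((minpoly ℚ_[q] x).map (algebraMap ℚ_[q] (PadicAlgCl q))).Splits :=
    IsAlgClosed.splits _
  let S : Finset (PadicAlgCl q) := {y ∈ ((minpoly ℚ_[q] x).rootSet (PadicAlgCl q)).toFinset | y ≠ x}
  let δ : ℝ := if hS : S.Nonempty then Finset.min' (S.image fun y => ‖x - y‖)
      (Finset.image_nonempty.mpr hS) else 1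
  have norm_sub_le : ∀ x' : PadicAlgCl q, IsConjRoot ℚ_[q] x x' → x ≠ x' → δ ≤ ‖x - x'‖ := by
    intro x' conj ne
    by_cases hS : S.Nonempty <;> simp only [hS, ↓reduceDIte, δ]
    · apply Finset.min'_le (S.image fun y => ‖x - y‖) (‖x - x'‖)
      apply Finset.mem_image_of_mem
      simp only [Finset.mem_filter, Set.mem_toFinset, S]
      rw [← (isConjRoot_iff_mem_minpoly_rootSet hint)]
      exact ⟨conj, ne.symm⟩
    · simp only [ne_eq, Finset.not_nonempty_iff_eq_empty, Finset.filter_eq_empty_iff,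
        Set.mem_toFinset, not_not, S] at hS
      rw [isConjRoot_iff_mem_minpoly_rootSet hint] at conj
      exact (ne (hS conj).symm).elim
  have δpos : δ > 0 := by
    by_cases hS : S.Nonempty <;> simp only [hS, ↓reduceDIte, δ]
    · simp only [gt_iff_lt, Finset.lt_min'_iff, Finset.mem_image, forall_exists_index, and_imp,
        forall_apply_eq_imp_iff₂]
      rintro a' ha'
      simp only [Finset.mem_filter, Set.mem_toFinset, S] at ha'
      rw [norm_pos_iff, sub_ne_zero]
      exact ha'.2.symm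
    · linarith
  obtain ⟨η, hη⟩ := exists_padicEmbedding_norm_sub_lt q x δpos
  have hy : IsIntegral ℚ_[q] (padicEmbedding q η) := Algebra.IsIntegral.isIntegral _
  have hx : x ∈ ℚ_[q]⟮padicEmbedding q η⟯ :=
    IsKrasner.krasner hsep sp hy fun x' h1 h2 ↦ lt_of_lt_of_le hη (norm_sub_le x' h1 h2)
  refine ⟨η, fun τ hτ => ?_⟩
  have hfix : τ (padicEmbedding q η) = padicEmbedding q η := by
    rw [← padicEmbedding_localGaloisToGlobal, hτ]
  have hle : ℚ_[q]⟮padicEmbedding q η⟯ ≤ IntermediateField.fixedField (Subgroup.zpowers τ) := by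
    rw [IntermediateField.adjoin_simple_le_iff, IntermediateField.mem_fixedField_iff]
    rintro σ hσ
    obtain ⟨n, rfl⟩ := Subgroup.mem_zpowers_iff.1 hσ
    have hfix' : τ • (padicEmbedding q η) = padicEmbedding q η := hfix
    exact (MulAction.mem_stabilizer_iff.1
      (zpow_mem (MulAction.mem_stabilizer_iff.2 hfix') n) :)
  exact (IntermediateField.mem_fixedField_iff _ _).1 (hle hx) τ (Subgroup.mem_zpowers τ)

/-- `localGaloisToGlobal q` is injective (the image of `ℚ̄` is dense). -/
theorem localGaloisToGlobal_injective : Function.Injective (localGaloisToGlobal q) := by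
  rw [injective_iff_map_eq_one]
  intro τ hτ
  ext x
  obtain ⟨η, h⟩ := exists_global_witness q x
  simpa using h τ (by rw [hτ]; rfl)

/-- An algebra automorphism fixing a basis of a finite-dimensional intermediate field fixes the
field pointwise. -/
theorem mem_fixingSubgroup_of_fixes_finBasis {k L : Type*} [Field k] [Field L] [Algebra k L]
    (K : IntermediateField k L) [FiniteDimensional k K] (σ : L ≃ₐ[k] L)
    (h : ∀ i, σ (Module.finBasis k K i : L) = (Module.finBasis k K i : L)) :
    σ ∈ K.fixingSubgroup := by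
  rw [IntermediateField.mem_fixingSubgroup_iff]
  intro z hz
  have hrepr := (Module.finBasis k K).sum_repr ⟨z, hz⟩
  have hz' : z = ∑ i, (Module.finBasis k K).repr ⟨z, hz⟩ i • (Module.finBasis k K i : L) := by
    have h2 := congrArg (fun w : K => (w : L)) hrepr
    simp only [IntermediateField.coe_sum, IntermediateField.coe_smul] at h2
    exact h2.symm
  have hσ : σ z = ∑ i, (Module.finBasis k K).repr ⟨z, hz⟩ i • σ (Module.finBasis k K i : L) := by
    conv_lhs => rw [hz']
    simp [map_sum]
  rw [hσ]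
  conv_rhs => rw [hz']
  exact Finset.sum_congr rfl fun i _ => by rw [h i]

/-- **S55-KRASNER (1).** Global levels are cofinal: every open subgroup `K.fixingSubgroup`
(`K/ℚ_q` finite) of the local Galois group contains the preimage of a global level. -/
theorem exists_global_level_le_fixingSubgroup
    (K : IntermediateField ℚ_[q] (PadicAlgCl q)) [FiniteDimensional ℚ_[q] K] :
    ∃ F : IntermediateField ℚ (AlgebraicClosure ℚ), FiniteDimensional ℚ F ∧
      ∀ τ : PadicAlgCl q ≃ₐ[ℚ_[q]] PadicAlgCl q,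
        localGaloisToGlobal q τ ∈ F.fixingSubgroup → τ ∈ K.fixingSubgroup := by
  choose η hη using fun i => exists_global_witness q (Module.finBasis ℚ_[q] K i : PadicAlgCl q)
  refine ⟨IntermediateField.adjoin ℚ (Set.range η), ?_, fun τ hτ => ?_⟩
  · exact IntermediateField.finiteDimensional_adjoin fun x _ => Algebra.IsIntegral.isIntegral x
  · refine mem_fixingSubgroup_of_fixes_finBasis K τ fun i => hη i τ ?_
    exact (IntermediateField.mem_fixingSubgroup_iff _ _).1 hτ (η i)
      (IntermediateField.subset_adjoin ℚ _ (Set.mem_range_self i))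

/-- **S55-KRASNER (2).** Conversely the preimage of a global level is the fixing subgroup of a
finite extension of `ℚ_q`. -/
theorem exists_local_level_eq_comap
    (F : IntermediateField ℚ (AlgebraicClosure ℚ)) [FiniteDimensional ℚ F] :
    ∃ K : IntermediateField ℚ_[q] (PadicAlgCl q), FiniteDimensional ℚ_[q] K ∧
      ∀ τ : PadicAlgCl q ≃ₐ[ℚ_[q]] PadicAlgCl q,
        τ ∈ K.fixingSubgroup ↔ localGaloisToGlobal q τ ∈ F.fixingSubgroup := by
  let s : Set (PadicAlgCl q) :=
    Set.range fun i => padicEmbedding q (Module.finBasis ℚ F i : AlgebraicClosure ℚ)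
  refine ⟨IntermediateField.adjoin ℚ_[q] s, ?_, fun τ => ⟨fun hτ => ?_, fun hτ => ?_⟩⟩
  · exact IntermediateField.finiteDimensional_adjoin fun x _ => Algebra.IsIntegral.isIntegral x
  · refine mem_fixingSubgroup_of_fixes_finBasis F _ fun i => ?_
    apply (padicEmbedding q).toRingHom.injective
    show padicEmbedding q _ = padicEmbedding q _
    rw [padicEmbedding_localGaloisToGlobal]
    exact (IntermediateField.mem_fixingSubgroup_iff _ _).1 hτ _
      (IntermediateField.subset_adjoin ℚ_[q] _ (Set.mem_range_self i))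
  · have hle : IntermediateField.adjoin ℚ_[q] s ≤
        IntermediateField.fixedField (Subgroup.zpowers τ) := by
      rw [IntermediateField.adjoin_le_iff]
      rintro _ ⟨i, rfl⟩
      have hfix : τ • (padicEmbedding q (Module.finBasis ℚ F i : AlgebraicClosure ℚ))
          = padicEmbedding q (Module.finBasis ℚ F i : AlgebraicClosure ℚ) := by
        rw [show ∀ y : PadicAlgCl q, τ • y = τ y from fun _ => rfl,
          ← padicEmbedding_localGaloisToGlobal]
        congr 1
        exact (IntermediateField.mem_fixingSubgroup_iff _ _).1 hτ _ (Module.finBasis ℚ F i).2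
      rw [SetLike.mem_coe, IntermediateField.mem_fixedField_iff]
      rintro σ hσ
      obtain ⟨n, rfl⟩ := Subgroup.mem_zpowers_iff.1 hσ
      exact (MulAction.mem_stabilizer_iff.1
        (zpow_mem (MulAction.mem_stabilizer_iff.2 hfix) n) :)
    rw [IntermediateField.mem_fixingSubgroup_iff]
    intro z hz
    exact (IntermediateField.mem_fixedField_iff _ _).1 (hle hz) τ (Subgroup.mem_zpowers τ)

open groupCohomology in
/-- **S55-KRASNER (3a).** The frozen level condition on local 1-cochains is honest local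
continuity: right-invariance under an open subgroup `K.fixingSubgroup`, `K/ℚ_q` finite. -/
theorem isLevelConstant₁_localGaloisToGlobal_iff {X : Type*}
    (f : (PadicAlgCl q ≃ₐ[ℚ_[q]] PadicAlgCl q) → X) :
    IsLevelConstant₁ (localGaloisToGlobal q) f ↔
      ∃ K : IntermediateField ℚ_[q] (PadicAlgCl q), FiniteDimensional ℚ_[q] K ∧
        ∀ g s : PadicAlgCl q ≃ₐ[ℚ_[q]] PadicAlgCl q, s ∈ K.fixingSubgroup → f (g * s) = f g := by
  constructor
  · rintro ⟨F, hF, h⟩
    have := hF
    obtain ⟨K, hK, hKF⟩ := exists_local_level_eq_comap q F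
    exact ⟨K, hK, fun g s hs => h g s ((hKF s).1 hs)⟩
  · rintro ⟨K, hK, h⟩
    have := hK
    obtain ⟨F, hF, hFK⟩ := exists_global_level_le_fixingSubgroup q K
    exact ⟨F, hF, fun g s hs => h g s (hFK s hs)⟩

open groupCohomology in
/-- **S55-KRASNER (3b).** Same for 2-cochains. -/
theorem isLevelConstant₂_localGaloisToGlobal_iff {X : Type*}
    (f : (PadicAlgCl q ≃ₐ[ℚ_[q]] PadicAlgCl q) × (PadicAlgCl q ≃ₐ[ℚ_[q]] PadicAlgCl q) → X) :
    IsLevelConstant₂ (localGaloisToGlobal q) f ↔
      ∃ K : IntermediateField ℚ_[q] (PadicAlgCl q), FiniteDimensional ℚ_[q] K ∧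
        ∀ g g' s s' : PadicAlgCl q ≃ₐ[ℚ_[q]] PadicAlgCl q, s ∈ K.fixingSubgroup →
          s' ∈ K.fixingSubgroup → f (g * s, g' * s') = f (g, g') := by
  constructor
  · rintro ⟨F, hF, h⟩
    have := hF
    obtain ⟨K, hK, hKF⟩ := exists_local_level_eq_comap q F
    exact ⟨K, hK, fun g g' s s' hs hs' => h g g' s s' ((hKF s).1 hs) ((hKF s').1 hs')⟩
  · rintro ⟨K, hK, h⟩
    have := hK
    obtain ⟨F, hF, hFK⟩ := exists_global_level_le_fixingSubgroup q K
    exact ⟨F, hF, fun g g' s s' hs hs' => h g g' s s' (hFK s hs) (hFK s' hs')⟩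

/-- Smoothness transfers to the local group: a vector fixed by a global level is fixed by an
open subgroup `K.fixingSubgroup` (`K/ℚ_q` finite) of the local Galois group. -/
theorem exists_local_level_fixing {k : Type*} [CommRing k]
    {V : Type*} [AddCommGroup V] [Module k V]
    (ρ : Representation k (AlgebraicClosure ℚ ≃ₐ[ℚ] AlgebraicClosure ℚ) V) (m : V)
    (hsm : ∃ F : IntermediateField ℚ (AlgebraicClosure ℚ), FiniteDimensional ℚ F ∧
      ∀ s ∈ F.fixingSubgroup, ρ s m = m) :
    ∃ K : IntermediateField ℚ_[q] (PadicAlgCl q), FiniteDimensional ℚ_[q] K ∧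
      ∀ τ ∈ K.fixingSubgroup, ρ (localGaloisToGlobal q τ) m = m := by
  obtain ⟨F, hF, h⟩ := hsm
  have := hF
  obtain ⟨K, hK, hKF⟩ := exists_local_level_eq_comap q F
  exact ⟨K, hK, fun τ hτ => h _ ((hKF τ).1 hτ)⟩

section NatPrimes

open groupCohomology ExtCitation

/-- `primeLocalToGlobal q` is injective. -/
theorem primeLocalToGlobal_injective (q : Nat.Primes) :
    Function.Injective (primeLocalToGlobal q) :=
  haveI : Fact (q : ℕ).Prime := ⟨q.2⟩
  localGaloisToGlobal_injective (q : ℕ)

/-- **S55-KRASNER (3a)** for the frozen carrier `primeLocalToGlobal`. -/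
theorem isLevelConstant₁_primeLocalToGlobal_iff (q : Nat.Primes) {X : Type*}
    (f : primeLocalGaloisGroup q → X) :
    haveI : Fact (q : ℕ).Prime := ⟨q.2⟩
    IsLevelConstant₁ (primeLocalToGlobal q) f ↔
      ∃ K : IntermediateField ℚ_[(q : ℕ)] (PadicAlgCl (q : ℕ)), FiniteDimensional ℚ_[(q : ℕ)] K ∧
        ∀ g s : PadicAlgCl (q : ℕ) ≃ₐ[ℚ_[(q : ℕ)]] PadicAlgCl (q : ℕ),
          s ∈ K.fixingSubgroup → f (g * s) = f g :=
  haveI : Fact (q : ℕ).Prime := ⟨q.2⟩
  isLevelConstant₁_localGaloisToGlobal_iff (q : ℕ) f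

/-- **S55-KRASNER (3b)** for the frozen carrier `primeLocalToGlobal`. -/
theorem isLevelConstant₂_primeLocalToGlobal_iff (q : Nat.Primes) {X : Type*}
    (f : primeLocalGaloisGroup q × primeLocalGaloisGroup q → X) :
    haveI : Fact (q : ℕ).Prime := ⟨q.2⟩
    IsLevelConstant₂ (primeLocalToGlobal q) f ↔
      ∃ K : IntermediateField ℚ_[(q : ℕ)] (PadicAlgCl (q : ℕ)), FiniteDimensional ℚ_[(q : ℕ)] K ∧
        ∀ g g' s s' : PadicAlgCl (q : ℕ) ≃ₐ[ℚ_[(q : ℕ)]] PadicAlgCl (q : ℕ),
          s ∈ K.fixingSubgroup → s' ∈ K.fixingSubgroup → f (g * s, g' * s') = f (g, g') :=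
  haveI : Fact (q : ℕ).Prime := ⟨q.2⟩
  isLevelConstant₂_localGaloisToGlobal_iff (q : ℕ) f

end NatPrimes

end Fermat.Agent.S55.helper4058
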