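import Fermat.Agent.S55.helper1624_NormIndex

/-!
# S55 / local arithmetic core: the local norm index, normed-field and `ℚ_[l]` surfaces

* `index_norm_range_eq_finrank_of_normed`: the cyclic norm index theorem for a `NormedField L`
  which is ultrametric and proper, with a Galois invariant nontrivial norm.
* `index_norm_range_eq_finrank_padic`: for every finite cyclic extension `L/K` of finite
  extensions of `ℚ_[l]` (any types), `[Kˣ : N_{L/K} Lˣ] = [L : K]`.
* `exists_not_norm_padic`: if moreover `[L : K] > 1`, some element of `Kˣ` is not a norm.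
* `exists_norm_eq_iff_of_unramified_padic`, `exists_norm_eq_of_unit_of_unramified_padic`,
  `exists_norm_eq_iff_dvd_valuation_padic`: the norm group of an unramified cyclic extension
  (hypothesis `e = 1` only); in particular units are norms.
-/

namespace Fermat.Agent.S55.helper1624

/-- The norm of a normed field as an absolute value. -/
noncomputable def normAbs (L : Type*) [NormedField L] : AbsoluteValue L ℝ where
  toFun := norm
  map_mul' := norm_mul
  nonneg' := norm_nonneg
  eq_zero' := fun _ => norm_eq_zero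
  add_le' := norm_add_le

theorem normAbs_apply {L : Type*} [NormedField L] (x : L) : normAbs L x = ‖x‖ := rfl

/-- **Local norm index theorem**, normed-field form: `L/K` finite cyclic, `L` an ultrametric
proper normed field with nontrivial Galois invariant norm. -/
theorem index_norm_range_eq_finrank_of_normed (K L : Type*) [Field K] [NormedField L]
    [Algebra K L] [FiniteDimensional K L] [IsGalois K L] [IsCyclic (L ≃ₐ[K] L)]
    [IsUltrametricDist L] [ProperSpace L]
    (hnt : ∃ x : L, 0 < ‖x‖ ∧ ‖x‖ < 1) (hinv : ∀ (g : L ≃ₐ[K] L) (x : L), ‖g x‖ = ‖x‖) :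
    (Units.map (Algebra.norm K : L →* K)).range.index = Module.finrank K L := by
  refine index_norm_range_eq_finrank K L (normAbs L) ?_ hnt ?_ ?_ hinv
  · intro a b
    exact IsUltrametricDist.norm_add_le_max a b
  · intro u hu
    have hc : CauchySeq u := by
      rw [Metric.cauchySeq_iff]
      intro ε hε
      obtain ⟨N, hN⟩ := hu ε hε
      exact ⟨N, fun m hm n hn => by rw [dist_eq_norm]; exact hN m hm n hn⟩
    obtain ⟨x, hx⟩ := cauchySeq_tendsto_of_complete hc
    refine ⟨x, fun ε hε => ?_⟩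
    obtain ⟨N, hN⟩ := (Metric.tendsto_atTop.mp hx) ε hε
    exact ⟨N, fun n hn => by have := hN n hn; rwa [dist_eq_norm] at this⟩
  · intro ε hε
    obtain ⟨t, -, htfin, hcover⟩ := (isCompact_closedBall (0 : L) 1).finite_cover_balls hε
    refine ⟨htfin.toFinset, fun x hx => ?_⟩
    have hxmem : x ∈ Metric.closedBall (0 : L) 1 := by
      rw [Metric.mem_closedBall, dist_eq_norm, sub_zero]
      exact hx
    obtain ⟨r, hr, hxr⟩ := Set.mem_iUnion₂.mp (hcover hxmem)
    exact ⟨r, htfin.mem_toFinset.mpr hr, by rwa [Metric.mem_ball, dist_eq_norm] at hxr⟩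

/-- **Local norm index theorem** for `l`-adic fields: if `L/K` is a finite cyclic extension of
finite extensions of `ℚ_[l]`, then `[Kˣ : N_{L/K} Lˣ] = [L : K]`. -/
theorem index_norm_range_eq_finrank_padic (l : ℕ) [Fact l.Prime] (K L : Type*) [Field K]
    [Field L] [Algebra ℚ_[l] K] [Algebra ℚ_[l] L] [Algebra K L] [IsScalarTower ℚ_[l] K L]
    [FiniteDimensional ℚ_[l] L] [FiniteDimensional K L] [IsGalois K L]
    [IsCyclic (L ≃ₐ[K] L)] :
    (Units.map (Algebra.norm K : L →* K)).range.index = Module.finrank K L := by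
  let : NormedField L := spectralNorm.normedField ℚ_[l] L
  let : NormedAlgebra ℚ_[l] L := spectralNorm.normedAlgebra ℚ_[l] L
  have : ProperSpace L := FiniteDimensional.proper ℚ_[l] L
  have : IsUltrametricDist L :=
    IsUltrametricDist.isUltrametricDist_of_isNonarchimedean_norm
      (isNonarchimedean_spectralNorm (K := ℚ_[l]) (L := L))
  have hnorm : ∀ x : L, ‖x‖ = spectralNorm ℚ_[l] L x := fun x => rfl
  refine index_norm_range_eq_finrank_of_normed K L ?_ ?_
  · refine ⟨algebraMap ℚ_[l] L (l : ℚ_[l]), ?_, ?_⟩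
    · rw [hnorm, spectralNorm_extends, Padic.norm_p]
      have : (0 : ℝ) < l := by exact_mod_cast (Fact.out : l.Prime).pos
      positivity
    · rw [hnorm, spectralNorm_extends]
      exact Padic.norm_p_lt_one
  · intro g x
    rw [hnorm, hnorm]
    exact (spectralNorm_eq_of_equiv (g.restrictScalars ℚ_[l]) x).symm

/-- For a finite cyclic extension `L/K` of `l`-adic fields with `[L : K] > 1`, some element of
`Kˣ` is not a norm from `L`. -/
theorem exists_not_norm_padic (l : ℕ) [Fact l.Prime] (K L : Type*) [Field K]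
    [Field L] [Algebra ℚ_[l] K] [Algebra ℚ_[l] L] [Algebra K L] [IsScalarTower ℚ_[l] K L]
    [FiniteDimensional ℚ_[l] L] [FiniteDimensional K L] [IsGalois K L]
    [IsCyclic (L ≃ₐ[K] L)] (hdeg : 1 < Module.finrank K L) :
    ∃ b : Kˣ, ∀ y : L, Algebra.norm K y ≠ b := by
  have hidx := index_norm_range_eq_finrank_padic l K L
  by_contra hcon
  have htop : (Units.map (Algebra.norm K : L →* K)).range = ⊤ := by
    rw [eq_top_iff]
    intro b _
    by_contra hb
    apply hcon
    refine ⟨b, fun y hy => hb ?_⟩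
    have hy0 : y ≠ 0 := by
      rintro rfl
      rw [Algebra.norm_zero] at hy
      exact b.ne_zero hy.symm
    exact ⟨Units.mk0 y hy0, Units.ext hy⟩
  rw [htop, Subgroup.index_top] at hidx
  omega

/-! ## Unramified cyclic extensions of `l`-adic fields -/

section NormedHyps

variable (L : Type*) [NormedField L]

theorem normAbs_isNonarchimedean [IsUltrametricDist L] : IsNonarchimedean (normAbs L) :=
  fun a b => IsUltrametricDist.norm_add_le_max a b

theorem normAbs_complete [CompleteSpace L] :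
    ∀ u : ℕ → L, (∀ ε > 0, ∃ N, ∀ m ≥ N, ∀ n ≥ N, normAbs L (u m - u n) < ε) →
      ∃ x, ∀ ε > 0, ∃ N, ∀ n ≥ N, normAbs L (u n - x) < ε := by
  intro u hu
  have hc : CauchySeq u := by
    rw [Metric.cauchySeq_iff]
    intro ε hε
    obtain ⟨N, hN⟩ := hu ε hε
    exact ⟨N, fun m hm n hn => by rw [dist_eq_norm]; exact hN m hm n hn⟩
  obtain ⟨x, hx⟩ := cauchySeq_tendsto_of_complete hc
  refine ⟨x, fun ε hε => ?_⟩
  obtain ⟨N, hN⟩ := (Metric.tendsto_atTop.mp hx) ε hε
  exact ⟨N, fun n hn => by have := hN n hn; rwa [dist_eq_norm] at this⟩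

theorem normAbs_totallyBounded [ProperSpace L] :
    ∀ ε > 0, ∃ R : Finset L, ∀ x, normAbs L x ≤ 1 → ∃ r ∈ R, normAbs L (x - r) < ε := by
  intro ε hε
  obtain ⟨t, -, htfin, hcover⟩ := (isCompact_closedBall (0 : L) 1).finite_cover_balls hε
  refine ⟨htfin.toFinset, fun x hx => ?_⟩
  have hxmem : x ∈ Metric.closedBall (0 : L) 1 := by
    rw [Metric.mem_closedBall, dist_eq_norm, sub_zero]
    exact hx
  obtain ⟨r, hr, hxr⟩ := Set.mem_iUnion₂.mp (hcover hxmem)
  exact ⟨r, htfin.mem_toFinset.mpr hr, by rwa [Metric.mem_ball, dist_eq_norm] at hxr⟩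

end NormedHyps

/-- **Norm group of an unramified cyclic extension of `l`-adic fields**: if `L/K` is finite
cyclic and every spectral norm of `Lˣ` is the spectral norm of an element of `K` (`e = 1`), then
`x ∈ Kˣ` is a norm from `L` iff its spectral norm is an `[L : K]`-th power of a spectral norm
of `K`. -/
theorem exists_norm_eq_iff_of_unramified_padic (l : ℕ) [Fact l.Prime] (K L : Type*) [Field K]
    [Field L] [Algebra ℚ_[l] K] [Algebra ℚ_[l] L] [Algebra K L] [IsScalarTower ℚ_[l] K L]
    [FiniteDimensional ℚ_[l] L] [FiniteDimensional K L] [IsGalois K L]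
    [IsCyclic (L ≃ₐ[K] L)]
    (hunr : ∀ y : L, y ≠ 0 → ∃ c : K, spectralNorm ℚ_[l] L y = spectralNorm ℚ_[l] K c)
    (x : K) (hx : x ≠ 0) :
    (∃ y : L, Algebra.norm K y = x) ↔
      ∃ c : K, spectralNorm ℚ_[l] K x = spectralNorm ℚ_[l] K c ^ Module.finrank K L := by
  let : NormedField L := spectralNorm.normedField ℚ_[l] L
  let : NormedAlgebra ℚ_[l] L := spectralNorm.normedAlgebra ℚ_[l] L
  have : ProperSpace L := FiniteDimensional.proper ℚ_[l] L
  have : IsUltrametricDist L :=
    IsUltrametricDist.isUltrametricDist_of_isNonarchimedean_norm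
      (isNonarchimedean_spectralNorm (K := ℚ_[l]) (L := L))
  have hnorm : ∀ x : L, normAbs L x = spectralNorm ℚ_[l] L x := fun x => rfl
  have htower : ∀ c : K, normAbs L (algebraMap K L c) = spectralNorm ℚ_[l] K c := fun c => by
    rw [hnorm, ← spectralNorm.eq_of_tower]
  have hnt : ∃ x : L, 0 < normAbs L x ∧ normAbs L x < 1 := by
    refine ⟨algebraMap ℚ_[l] L (l : ℚ_[l]), ?_, ?_⟩
    · rw [hnorm, spectralNorm_extends, Padic.norm_p]
      have : (0 : ℝ) < l := by exact_mod_cast (Fact.out : l.Prime).pos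
      positivity
    · rw [hnorm, spectralNorm_extends]
      exact Padic.norm_p_lt_one
  have hinv : ∀ (g : L ≃ₐ[K] L) (x : L), normAbs L (g x) = normAbs L x := by
    intro g x
    rw [hnorm, hnorm]
    exact (spectralNorm_eq_of_equiv (g.restrictScalars ℚ_[l]) x).symm
  have key := exists_norm_eq_iff_of_unramified K L (normAbs L) (normAbs_isNonarchimedean L) hnt
    (normAbs_complete L) (normAbs_totallyBounded L) hinv
    (fun y hy => by
      obtain ⟨c, hc⟩ := hunr y hy
      exact ⟨c, by rw [htower, hnorm, hc]⟩) x hx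
  rw [key]
  constructor
  · rintro ⟨c, hc⟩
    exact ⟨c, by rw [← htower, ← htower, hc]⟩
  · rintro ⟨c, hc⟩
    exact ⟨c, by rw [htower, htower, hc]⟩

/-- In an unramified cyclic extension of `l`-adic fields every unit is a norm. -/
theorem exists_norm_eq_of_unit_of_unramified_padic (l : ℕ) [Fact l.Prime] (K L : Type*)
    [Field K] [Field L] [Algebra ℚ_[l] K] [Algebra ℚ_[l] L] [Algebra K L]
    [IsScalarTower ℚ_[l] K L] [FiniteDimensional ℚ_[l] L] [FiniteDimensional K L]
    [IsGalois K L] [IsCyclic (L ≃ₐ[K] L)]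
    (hunr : ∀ y : L, y ≠ 0 → ∃ c : K, spectralNorm ℚ_[l] L y = spectralNorm ℚ_[l] K c)
    (u : K) (hu : spectralNorm ℚ_[l] K u = 1) : ∃ y : L, Algebra.norm K y = u := by
  have hu0 : u ≠ 0 := by
    rintro rfl
    rw [spectralNorm_zero] at hu
    exact zero_ne_one hu
  refine (exists_norm_eq_iff_of_unramified_padic l K L hunr u hu0).mpr ⟨1, ?_⟩
  rw [hu, spectralNorm_one, one_pow]

/-- **Unramified norm criterion over `ℚ_[l]`**: if `L/ℚ_l` is finite cyclic and every spectral
norm of `Lˣ` is the norm of an element of `ℚ_l` (`e = 1`), then `x ∈ ℚ_lˣ` is a norm from `L`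
iff `[L : ℚ_l]` divides the valuation of `x`. -/
theorem exists_norm_eq_iff_dvd_valuation_padic (l : ℕ) [Fact l.Prime] (L : Type*) [Field L]
    [Algebra ℚ_[l] L] [FiniteDimensional ℚ_[l] L] [IsGalois ℚ_[l] L]
    [IsCyclic (L ≃ₐ[ℚ_[l]] L)]
    (hunr : ∀ y : L, y ≠ 0 → ∃ c : ℚ_[l], spectralNorm ℚ_[l] L y = ‖c‖)
    (x : ℚ_[l]) (hx : x ≠ 0) :
    (∃ y : L, Algebra.norm ℚ_[l] y = x) ↔ ((Module.finrank ℚ_[l] L : ℤ) ∣ x.valuation) := by
  have hself : ∀ c : ℚ_[l], spectralNorm ℚ_[l] ℚ_[l] c = ‖c‖ := fun c => by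
    have := spectralNorm_extends (K := ℚ_[l]) (L := ℚ_[l]) c
    rwa [Algebra.algebraMap_self_apply] at this
  have hl1 : (1 : ℝ) < l := by exact_mod_cast (Fact.out : l.Prime).one_lt
  have hl0 : (0 : ℝ) < l := by linarith
  have hinj : Function.Injective (fun k : ℤ => (l : ℝ) ^ k) :=
    zpow_right_injective₀ hl0 hl1.ne'
  rw [exists_norm_eq_iff_of_unramified_padic l ℚ_[l] L
    (fun y hy => by obtain ⟨c, hc⟩ := hunr y hy; exact ⟨c, by rw [hc, hself]⟩) x hx]
  set n := Module.finrank ℚ_[l] L with hn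
  constructor
  · rintro ⟨c, hc⟩
    rw [hself, hself] at hc
    have hc0 : c ≠ 0 := by
      rintro rfl
      rw [norm_zero, zero_pow (Module.finrank_pos).ne'] at hc
      exact (norm_pos_iff.mpr hx).ne' hc
    rw [Padic.norm_eq_zpow_neg_valuation hx, Padic.norm_eq_zpow_neg_valuation hc0,
      ← zpow_natCast, ← zpow_mul] at hc
    have := hinj hc
    exact ⟨c.valuation, by linarith⟩
  · rintro ⟨k, hk⟩
    refine ⟨(l : ℚ_[l]) ^ k, ?_⟩
    rw [hself, hself, Padic.norm_eq_zpow_neg_valuation hx, norm_zpow, Padic.norm_p,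
      ← zpow_natCast, ← zpow_mul, inv_zpow', hk]
    congr 1
    ring

end Fermat.Agent.S55.helper1624
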