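import Mathlib

/-!
# S55, sub-leaf NF-GR-NORMGRP (helper5519)

Explicit norm group of the wild cyclotomic layer `ℚ_p(ζ_{p^(m+1)})/ℚ_p` (`p` odd):

* `irreducible_cyclotomic_padic`, `finrank_cyclotomic_padic`, `isGalois_cyclotomic_padic`,
  `isCyclic_gal_cyclotomic_padic`: the extension is cyclic Galois of degree `p^m (p-1)`;
* `ker_residueChar_le_range_norm`: `<p> × (1 + p^(m+1) ℤ_p)` consists of norms (unconditional);
* `range_norm_eq_ker_residueChar`, `exists_norm_eq_iff`: given the cyclic norm index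
  `[ℚ_pˣ : N Lˣ] = [L : ℚ_p]` (hypothesis `hidx`, to be discharged by the LA-NORMIDX leaf) the norm
  group is exactly `<p> × (1 + p^(m+1) ℤ_p)`.

Mathlib only.
-/

set_option autoImplicit false

open Polynomial

namespace Fermat.Agent.S55.helper5519

variable {p : ℕ} [hp : Fact p.Prime]

theorem inv_p_lt_one : ((p : ℝ))⁻¹ < 1 := by
  apply inv_lt_one_of_one_lt₀
  exact_mod_cast hp.out.one_lt

/-- In `ℤ_[p]`, `1 + p c` is a unit. -/
theorem isUnit_one_add_p_mul (c : ℤ_[p]) : IsUnit (1 + (p : ℤ_[p]) * c) := by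
  rw [PadicInt.isUnit_iff]
  have h1 : ‖(p : ℤ_[p]) * c‖ < 1 := by
    rw [norm_mul, PadicInt.norm_p]
    have hc := PadicInt.norm_le_one c
    have hpos : (0 : ℝ) < (p : ℝ)⁻¹ := by
      have := hp.out.pos
      positivity
    calc (p : ℝ)⁻¹ * ‖c‖ ≤ (p : ℝ)⁻¹ * 1 := by gcongr
      _ < 1 := by simpa using inv_p_lt_one (p := p)
  have h2 : ‖(1 : ℤ_[p]) + (p : ℤ_[p]) * c‖ = max ‖(1 : ℤ_[p])‖ ‖(p : ℤ_[p]) * c‖ := by
    apply PadicInt.norm_add_eq_max_of_ne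
    rw [norm_one]
    exact ne_of_gt h1
  rw [h2, norm_one]
  exact max_eq_left h1.le

/-- Lifting-the-exponent in `ℤ_[p]`, `p` odd: if `p ∣ z - 1` then
`z ^ p - 1 = (z - 1) * (p * (1 + p c))`. -/
theorem pow_p_sub_one_eq (hodd : p ≠ 2) (z : ℤ_[p]) (hz : (p : ℤ_[p]) ∣ z - 1) :
    ∃ c : ℤ_[p], z ^ p - 1 = (z - 1) * (p * (1 + p * c)) := by
  obtain ⟨b, hb⟩ := hz
  have hz' : z = 1 + (p : ℤ_[p]) * b := by rw [← hb]; ring
  have hoddp : Odd p := hp.out.odd_of_ne_two hodd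
  obtain ⟨c, hc⟩ := odd_sq_dvd_geom_sum₂_sub (1 : ℤ_[p]) b hoddp
  have hsum : ∑ i ∈ Finset.range p, z ^ i = (p : ℤ_[p]) * (1 + p * c) := by
    have : ∑ i ∈ Finset.range p, z ^ i
        = ∑ i ∈ Finset.range p, (1 + (p : ℤ_[p]) * b) ^ i * 1 ^ (p - 1 - i) := by
      apply Finset.sum_congr rfl
      intro i _
      rw [hz', one_pow, mul_one]
    rw [this]
    have h2 := hc
    rw [one_pow, mul_one] at h2
    linear_combination h2
  refine ⟨c, ?_⟩
  rw [← hsum, mul_comm, geom_sum_mul]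

theorem natCast_p_ne_zero : (p : ℤ_[p]) ≠ 0 := by
  exact_mod_cast hp.out.ne_zero

/-- `p`-th roots: if `p^(k+1) ∣ x - 1` with `k ≥ 1`, `p` odd, there is `y` with `p^k ∣ y - 1`
and `y ^ p = x`. -/
theorem exists_pow_p_eq (hodd : p ≠ 2) (k : ℕ) (hk : 1 ≤ k) (x : ℤ_[p])
    (hx : (p : ℤ_[p]) ^ (k + 1) ∣ x - 1) :
    ∃ y : ℤ_[p], (p : ℤ_[p]) ^ k ∣ y - 1 ∧ y ^ p = x := by
  obtain ⟨c, hc⟩ := hx
  set a : ℤ_[p] := 1 + (p : ℤ_[p]) ^ k * c with ha
  have ha1 : a = 1 + (p : ℤ_[p]) * ((p : ℤ_[p]) ^ (k - 1) * c) := by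
    rw [ha, ← mul_assoc, ← pow_succ', Nat.sub_add_cancel hk]
  have hpa : (p : ℤ_[p]) ∣ a - 1 := ⟨(p : ℤ_[p]) ^ (k - 1) * c, by rw [ha1]; ring⟩
  have haunit : ‖a‖ = 1 := by
    rw [← PadicInt.isUnit_iff, ha1]
    exact isUnit_one_add_p_mul _
  obtain ⟨c', hc'⟩ := pow_p_sub_one_eq hodd a hpa
  have hdiff : a ^ p - x = (p : ℤ_[p]) ^ 3 * ((p : ℤ_[p]) ^ (k - 1) * (c * c')) := by
    have h1 : a - 1 = (p : ℤ_[p]) ^ k * c := by rw [ha]; ring
    have h2 : a ^ p - x = (a ^ p - 1) - (x - 1) := by ring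
    rw [h2, hc', hc, h1]
    have h3 : (p : ℤ_[p]) ^ k = (p : ℤ_[p]) ^ (k - 1) * p := by
      rw [← pow_succ, Nat.sub_add_cancel hk]
    rw [pow_succ, h3]
    ring
  let F : ℤ_[p][X] := X ^ p - C x
  have hF : aeval a F = a ^ p - x := by simp [F]
  have hF' : aeval a (derivative F) = (p : ℤ_[p]) * a ^ (p - 1) := by
    simp [F, derivative_X_pow]
  have hnF' : ‖aeval a (derivative F)‖ = (p : ℝ)⁻¹ := by
    rw [hF', norm_mul, norm_pow, haunit, one_pow, mul_one, PadicInt.norm_p]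
  have hppos : (0 : ℝ) < (p : ℝ)⁻¹ := by
    have := hp.out.pos
    positivity
  have hlt : ‖aeval a F‖ < ‖aeval a (derivative F)‖ ^ 2 := by
    rw [hnF', hF, hdiff, norm_mul, norm_pow, PadicInt.norm_p]
    have h1 : ‖(p : ℤ_[p]) ^ (k - 1) * (c * c')‖ ≤ 1 := PadicInt.norm_le_one _
    calc (p : ℝ)⁻¹ ^ 3 * ‖(p : ℤ_[p]) ^ (k - 1) * (c * c')‖ ≤ (p : ℝ)⁻¹ ^ 3 * 1 := by gcongr
      _ = (p : ℝ)⁻¹ ^ 2 * (p : ℝ)⁻¹ := by ring
      _ < (p : ℝ)⁻¹ ^ 2 * 1 := by
        have := inv_p_lt_one (p := p)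
        gcongr
      _ = (p : ℝ)⁻¹ ^ 2 := by ring
  obtain ⟨z, hz0, hza, -, -⟩ := hensels_lemma hlt
  have hzx : z ^ p = x := by
    have : aeval z F = z ^ p - x := by simp [F]
    rw [this] at hz0
    exact sub_eq_zero.mp hz0
  have hpz : (p : ℤ_[p]) ∣ z - 1 := by
    have h1 : ‖z - a‖ < 1 := lt_trans hza (by rw [hnF']; exact inv_p_lt_one)
    rw [PadicInt.norm_lt_one_iff_dvd] at h1
    have : z - 1 = (z - a) + (a - 1) := by ring
    rw [this]
    exact dvd_add h1 hpa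
  obtain ⟨c'', hc''⟩ := pow_p_sub_one_eq hodd z hpz
  refine ⟨z, ?_, hzx⟩
  have h5 : (p : ℤ_[p]) ^ (k + 1) ∣ (z - 1) * (p * (1 + p * c'')) := by
    rw [← hc'', hzx]
    exact ⟨c, hc⟩
  have h6 : (z - 1) * (p * (1 + p * c'')) = (p : ℤ_[p]) * ((z - 1) * (1 + p * c'')) := by ring
  rw [h6, pow_succ', mul_dvd_mul_iff_left natCast_p_ne_zero] at h5
  exact (IsUnit.dvd_mul_right (isUnit_one_add_p_mul c'')).mp h5

/-- Iterated `p`-th roots: if `p^m ∣ x - 1`, `m ≥ 1`, then `x` is a `p^(m-1)`-th power of some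
`y ≡ 1 mod p`. -/
theorem exists_pow_p_pow_eq (hodd : p ≠ 2) (m : ℕ) (hm : 1 ≤ m) (x : ℤ_[p])
    (hx : (p : ℤ_[p]) ^ m ∣ x - 1) :
    ∃ y : ℤ_[p], (p : ℤ_[p]) ∣ y - 1 ∧ y ^ (p ^ (m - 1)) = x := by
  induction m, hm using Nat.le_induction generalizing x with
  | base => exact ⟨x, by simpa using hx, by simp⟩
  | succ k hk ih =>
    obtain ⟨y1, hy1, hy1x⟩ := exists_pow_p_eq hodd k hk x hx
    obtain ⟨y, hy, hyy⟩ := ih y1 hy1
    refine ⟨y, hy, ?_⟩
    have : k + 1 - 1 = (k - 1) + 1 := by omega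
    rw [this, pow_succ, pow_mul, hyy, hy1x]

/-- `(p-1)`-th roots of elements `≡ 1 mod p`. -/
theorem exists_pow_p_sub_one_eq (y : ℤ_[p]) (hy : (p : ℤ_[p]) ∣ y - 1) :
    ∃ z : ℤ_[p], z ^ (p - 1) = y := by
  let F : ℤ_[p][X] := X ^ (p - 1) - C y
  have hF : aeval (1 : ℤ_[p]) F = 1 - y := by simp [F]
  have hF' : aeval (1 : ℤ_[p]) (derivative F) = ((p - 1 : ℕ) : ℤ_[p]) := by
    simp [F, derivative_X_pow]
  have hlt : ‖aeval (1 : ℤ_[p]) F‖ < ‖aeval (1 : ℤ_[p]) (derivative F)‖ ^ 2 := by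
    rw [hF, hF', PadicInt.norm_natCast_p_sub_one, one_pow, PadicInt.norm_lt_one_iff_dvd]
    have : (1 : ℤ_[p]) - y = -(y - 1) := by ring
    rw [this]
    exact (dvd_neg).mpr hy
  obtain ⟨z, hz0, -⟩ := hensels_lemma hlt
  refine ⟨z, ?_⟩
  have : aeval z F = z ^ (p - 1) - y := by simp [F]
  rw [this] at hz0
  exact sub_eq_zero.mp hz0

/-- **Roots.** For `p` odd and `m ≥ 1`, every `x ≡ 1 mod p^m` in `ℤ_[p]` is a `φ(p^m)`-th power. -/
theorem exists_pow_totient_eq (hodd : p ≠ 2) (m : ℕ) (hm : 1 ≤ m) (x : ℤ_[p])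
    (hx : (p : ℤ_[p]) ^ m ∣ x - 1) :
    ∃ z : ℤ_[p], z ^ (p ^ (m - 1) * (p - 1)) = x := by
  obtain ⟨y, hy, hyx⟩ := exists_pow_p_pow_eq hodd m hm x hx
  obtain ⟨z, hz⟩ := exists_pow_p_sub_one_eq y hy
  refine ⟨z, ?_⟩
  rw [mul_comm, pow_mul, hz, hyx]

/-- The cyclotomic polynomial `Φ_{p^(n+1)}(X + 1)` is Eisenstein at `p` over `ℤ_[p]`. -/
theorem cyclotomic_comp_isEisensteinAt_padicInt (n : ℕ) :
    ((cyclotomic (p ^ (n + 1)) ℤ_[p]).comp (X + 1)).IsEisensteinAt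
      (Ideal.span {(p : ℤ_[p])}) := by
  have hE := cyclotomic_prime_pow_comp_X_add_one_isEisensteinAt p n
  set g : ℤ[X] := (cyclotomic (p ^ (n + 1)) ℤ).comp (X + 1) with hg
  have hgm : g.Monic := by
    rw [hg, show (X + 1 : ℤ[X]) = X + C 1 by simp]
    refine (cyclotomic.monic _ ℤ).comp (monic_X_add_C 1) fun h => ?_
    rw [natDegree_X_add_C] at h
    exact zero_ne_one h.symm
  have hmap : (cyclotomic (p ^ (n + 1)) ℤ_[p]).comp (X + 1) = g.map (Int.castRingHom ℤ_[p]) := by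
    rw [hg, map_comp, map_cyclotomic]
    simp
  rw [hmap]
  have hpprime : (Ideal.span {(p : ℤ_[p])}).IsPrime :=
    (Ideal.span_singleton_prime (by exact_mod_cast hp.out.ne_zero)).2 PadicInt.prime_p
  refine Monic.isEisensteinAt_of_mem_of_notMem (hgm.map _) hpprime.ne_top (fun {i} hi => ?_) ?_
  · rw [hgm.natDegree_map] at hi
    have h1 := hE.mem hi
    rw [Ideal.submodule_span_eq, Ideal.mem_span_singleton] at h1
    rw [coeff_map, Ideal.mem_span_singleton]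
    obtain ⟨c, hc⟩ := h1
    exact ⟨(c : ℤ_[p]), by rw [hc]; simp⟩
  · have h1 := hE.notMem
    rw [Ideal.submodule_span_eq, Ideal.span_singleton_pow, Ideal.mem_span_singleton] at h1
    rw [coeff_map, Ideal.span_singleton_pow, Ideal.mem_span_singleton]
    intro h2
    apply h1
    have h3 : (p : ℤ_[p]) ^ 2 ∣ ((g.coeff 0 : ℤ) : ℤ_[p]) := by simpa using h2
    have h4 := (PadicInt.pow_p_dvd_int_iff 2 (g.coeff 0)).mp h3
    exact_mod_cast h4

/-- The cyclotomic polynomial `Φ_{p^(n+1)}` is irreducible over `ℚ_[p]`. -/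
theorem irreducible_cyclotomic_padic (n : ℕ) : Irreducible (cyclotomic (p ^ (n + 1)) ℚ_[p]) := by
  have hE := cyclotomic_comp_isEisensteinAt_padicInt (p := p) n
  set f : ℤ_[p][X] := (cyclotomic (p ^ (n + 1)) ℤ_[p]).comp (X + 1) with hf
  have hfm : f.Monic := by
    rw [hf, show (X + 1 : ℤ_[p][X]) = X + C 1 by simp]
    refine (cyclotomic.monic _ ℤ_[p]).comp (monic_X_add_C 1) fun h => ?_
    rw [natDegree_X_add_C] at h
    exact zero_ne_one h.symm
  have hpprime : (Ideal.span {(p : ℤ_[p])}).IsPrime :=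
    (Ideal.span_singleton_prime (by exact_mod_cast hp.out.ne_zero)).2 PadicInt.prime_p
  have hdeg : 0 < f.natDegree := by
    rw [hf, natDegree_comp, show (X + 1 : ℤ_[p][X]) = X + C 1 by simp, natDegree_X_add_C, mul_one,
      natDegree_cyclotomic]
    exact Nat.totient_pos.mpr (pow_pos hp.out.pos _)
  have hirr : Irreducible f := hE.irreducible hpprime hfm.isPrimitive hdeg
  have hirr2 : Irreducible (f.map (algebraMap ℤ_[p] ℚ_[p])) :=
    (hfm.irreducible_iff_irreducible_map_fraction_map).mp hirr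
  have hmap : f.map (algebraMap ℤ_[p] ℚ_[p])
      = algEquivAevalXAddC (1 : ℚ_[p]) (cyclotomic (p ^ (n + 1)) ℚ_[p]) := by
    rw [hf, map_comp, map_cyclotomic, algEquivAevalXAddC_apply]
    simp [Polynomial.comp, aeval_def]
  rw [hmap] at hirr2
  exact (MulEquiv.irreducible_iff (algEquivAevalXAddC (1 : ℚ_[p]))).mp hirr2

section Field

theorem finrank_cyclotomic_padic (m : ℕ) (L : Type*) [Field L] [Algebra ℚ_[p] L]
    [IsCyclotomicExtension {p ^ (m + 1)} ℚ_[p] L] :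
    Module.finrank ℚ_[p] L = p ^ m * (p - 1) := by
  have : NeZero (p ^ (m + 1)) := ⟨pow_ne_zero _ hp.out.ne_zero⟩
  rw [IsCyclotomicExtension.finrank L (irreducible_cyclotomic_padic m),
    Nat.totient_prime_pow_succ hp.out]

theorem isGalois_cyclotomic_padic (m : ℕ) (L : Type*) [Field L] [Algebra ℚ_[p] L]
    [IsCyclotomicExtension {p ^ (m + 1)} ℚ_[p] L] : IsGalois ℚ_[p] L :=
  IsCyclotomicExtension.isGalois {p ^ (m + 1)} ℚ_[p] L

theorem finiteDimensional_cyclotomic_padic (m : ℕ) (L : Type*) [Field L] [Algebra ℚ_[p] L]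
    [IsCyclotomicExtension {p ^ (m + 1)} ℚ_[p] L] : FiniteDimensional ℚ_[p] L :=
  have : NeZero (p ^ (m + 1)) := ⟨pow_ne_zero _ hp.out.ne_zero⟩
  IsCyclotomicExtension.finiteDimensional {p ^ (m + 1)} ℚ_[p] L

theorem isCyclic_gal_cyclotomic_padic (hodd : p ≠ 2) (m : ℕ) (L : Type*) [Field L]
    [Algebra ℚ_[p] L] [IsCyclotomicExtension {p ^ (m + 1)} ℚ_[p] L] :
    IsCyclic (L ≃ₐ[ℚ_[p]] L) := by
  have : NeZero (p ^ (m + 1)) := ⟨pow_ne_zero _ hp.out.ne_zero⟩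
  have : IsCyclic (ZMod (p ^ (m + 1)))ˣ := ZMod.isCyclic_units_of_prime_pow p hp.out hodd (m + 1)
  let e := IsCyclotomicExtension.autEquivPow L (irreducible_cyclotomic_padic (p := p) m)
  exact isCyclic_of_surjective e.symm.toMonoidHom e.symm.surjective

/-- `p` is a norm from `ℚ_p(ζ_{p^(m+1)})`, `p` odd. -/
theorem natCast_p_mem_range_norm (hodd : p ≠ 2) (m : ℕ) (L : Type*) [Field L]
    [Algebra ℚ_[p] L] [IsCyclotomicExtension {p ^ (m + 1)} ℚ_[p] L] :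
    ∃ y : L, Algebra.norm ℚ_[p] y = (p : ℚ_[p]) := by
  have : NeZero (p ^ (m + 1)) := ⟨pow_ne_zero _ hp.out.ne_zero⟩
  have hζ := IsCyclotomicExtension.zeta_spec (p ^ (m + 1)) ℚ_[p] L
  exact ⟨_, hζ.norm_sub_one_of_prime_ne_two (irreducible_cyclotomic_padic m) hodd⟩

/-- The norm of an element of the base field. -/
theorem norm_algebraMap_cyclotomic_padic (m : ℕ) (L : Type*) [Field L]
    [Algebra ℚ_[p] L] [IsCyclotomicExtension {p ^ (m + 1)} ℚ_[p] L] (u : ℚ_[p]) :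
    Algebra.norm ℚ_[p] (algebraMap ℚ_[p] L u) = u ^ (p ^ m * (p - 1)) := by
  rw [Algebra.norm_algebraMap, finrank_cyclotomic_padic m L]

end Field

theorem padic_natCast_p_ne_zero : (p : ℚ_[p]) ≠ 0 := by
  exact_mod_cast hp.out.ne_zero

/-- The unit part `x * p ^ (-v(x))` of a nonzero `p`-adic number has norm one. -/
theorem norm_mul_zpow_neg_valuation (x : ℚ_[p]) (hx : x ≠ 0) :
    ‖x * (p : ℚ_[p]) ^ (-x.valuation)‖ = 1 := by
  rw [norm_mul, norm_zpow, Padic.norm_p, Padic.norm_eq_zpow_neg_valuation hx, inv_zpow, zpow_neg,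
    inv_inv]
  have : ((p : ℝ) ^ x.valuation) ≠ 0 := zpow_ne_zero _ (by exact_mod_cast hp.out.ne_zero)
  exact inv_mul_cancel₀ this

/-- The unit part of a nonzero `p`-adic number (underlying function). -/
noncomputable def unitPartFun (x : ℚ_[p]ˣ) : ℤ_[p]ˣ :=
  PadicInt.mkUnits (norm_mul_zpow_neg_valuation (x : ℚ_[p]) x.ne_zero)

theorem coe_unitPartFun (x : ℚ_[p]ˣ) :
    (((unitPartFun x : ℤ_[p]ˣ) : ℤ_[p]) : ℚ_[p])
      = (x : ℚ_[p]) * (p : ℚ_[p]) ^ (-(x : ℚ_[p]).valuation) :=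
  PadicInt.mkUnits_eq (norm_mul_zpow_neg_valuation (x : ℚ_[p]) x.ne_zero)

theorem unitPartFun_mul (x y : ℚ_[p]ˣ) : unitPartFun (x * y) = unitPartFun x * unitPartFun y := by
  apply Units.ext
  apply PadicInt.ext
  rw [Units.val_mul, PadicInt.coe_mul, coe_unitPartFun, coe_unitPartFun, coe_unitPartFun,
    Units.val_mul, Padic.valuation_mul x.ne_zero y.ne_zero, neg_add,
    zpow_add₀ padic_natCast_p_ne_zero]
  ring

/-- The unit part of a nonzero `p`-adic number, as a homomorphism `ℚ_[p]ˣ →* ℤ_[p]ˣ`. -/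
noncomputable def unitPart : ℚ_[p]ˣ →* ℤ_[p]ˣ :=
  MonoidHom.mk' unitPartFun unitPartFun_mul

theorem coe_unitPart (x : ℚ_[p]ˣ) :
    (((unitPart x : ℤ_[p]ˣ) : ℤ_[p]) : ℚ_[p])
      = (x : ℚ_[p]) * (p : ℚ_[p]) ^ (-(x : ℚ_[p]).valuation) :=
  coe_unitPartFun x

theorem unitPart_surjective : Function.Surjective (unitPart (p := p)) := by
  intro u
  have hu : ‖((u : ℤ_[p]) : ℚ_[p])‖ = 1 := by
    rw [PadicInt.padic_norm_e_of_padicInt]; exact PadicInt.norm_units u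
  have hu0 : ((u : ℤ_[p]) : ℚ_[p]) ≠ 0 := by
    intro h; rw [h, norm_zero] at hu; exact zero_ne_one hu
  refine ⟨Units.mk0 _ hu0, ?_⟩
  apply Units.ext
  apply PadicInt.ext
  rw [coe_unitPart, Units.val_mk0]
  have hv : ((u : ℤ_[p]) : ℚ_[p]).valuation = 0 := by
    have h1 := Padic.norm_eq_zpow_neg_valuation hu0
    rw [hu] at h1
    have hp1 : (1 : ℝ) < p := by exact_mod_cast hp.out.one_lt
    have h2 : (p : ℝ) ^ (-((u : ℤ_[p]) : ℚ_[p]).valuation) = (p : ℝ) ^ (0 : ℤ) := by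
      rw [← h1, zpow_zero]
    have h3 := zpow_right_injective₀ (by positivity) hp1.ne' h2
    omega
  rw [hv]
  simp

/-- The residue character `ℚ_[p]ˣ →* (ZMod (p ^ m))ˣ`, `x ↦ (x p^{-v(x)} mod p^m)`. -/
noncomputable def residueChar (m : ℕ) : ℚ_[p]ˣ →* (ZMod (p ^ m))ˣ :=
  (Units.map (PadicInt.toZModPow (p := p) m).toMonoidHom).comp unitPart

theorem mem_ker_residueChar_iff (m : ℕ) (x : ℚ_[p]ˣ) :
    x ∈ (residueChar (p := p) m).ker ↔
      ‖(x : ℚ_[p]) * (p : ℚ_[p]) ^ (-(x : ℚ_[p]).valuation) - 1‖ ≤ (p : ℝ) ^ (-(m : ℤ)) := by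
  rw [MonoidHom.mem_ker, residueChar, MonoidHom.comp_apply, Units.ext_iff, Units.coe_map,
    Units.val_one]
  have h1 : (PadicInt.toZModPow (p := p) m).toMonoidHom ((unitPart x : ℤ_[p]ˣ) : ℤ_[p]) = 1 ↔
      ((unitPart x : ℤ_[p]ˣ) : ℤ_[p]) - 1 ∈ RingHom.ker (PadicInt.toZModPow (p := p) m) := by
    rw [RingHom.mem_ker, map_sub, map_one, sub_eq_zero]
    rfl
  rw [h1, PadicInt.ker_toZModPow, ← PadicInt.norm_le_pow_iff_mem_span_pow, PadicInt.norm_def,
    PadicInt.coe_sub, PadicInt.coe_one, coe_unitPart]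

theorem residueChar_surjective (m : ℕ) (hm : 1 ≤ m) :
    Function.Surjective (residueChar (p := p) m) := by
  have hloc : IsLocalHom (PadicInt.toZModPow (p := p) m) := by
    constructor
    intro a ha
    by_contra hna
    rw [PadicInt.not_isUnit_iff, PadicInt.norm_lt_one_iff_dvd] at hna
    obtain ⟨b, rfl⟩ := hna
    rw [map_mul, map_natCast] at ha
    have hpu : IsUnit ((p : ℕ) : ZMod (p ^ m)) := isUnit_of_mul_isUnit_left ha
    rw [ZMod.isUnit_iff_coprime] at hpu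
    have : p ∣ p ^ m := dvd_pow_self p (by omega)
    have h1 : p ∣ Nat.gcd p (p ^ m) := Nat.dvd_gcd dvd_rfl this
    rw [hpu] at h1
    exact hp.out.one_lt.ne' (Nat.dvd_one.mp h1)
  have hs := IsLocalRing.surjective_units_map_of_local_ringHom (PadicInt.toZModPow (p := p) m)
    (ZMod.ringHom_surjective _) hloc
  exact hs.comp unitPart_surjective

theorem index_ker_residueChar (m : ℕ) (hm : 1 ≤ m) :
    (residueChar (p := p) m).ker.index = p ^ (m - 1) * (p - 1) := by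
  have : NeZero (p ^ m) := ⟨pow_ne_zero _ hp.out.ne_zero⟩
  rw [Subgroup.index_ker, MonoidHom.range_eq_top.mpr (residueChar_surjective m hm),
    Nat.card_congr (Subgroup.topEquiv (G := (ZMod (p ^ m))ˣ)).toEquiv, Nat.card_eq_fintype_card,
    ZMod.card_units_eq_totient, Nat.totient_prime_pow hp.out (by omega)]

theorem mem_ker_residueChar_iff_dvd (m : ℕ) (x : ℚ_[p]ˣ) :
    x ∈ (residueChar (p := p) m).ker ↔
      (p : ℤ_[p]) ^ m ∣ ((unitPart x : ℤ_[p]ˣ) : ℤ_[p]) - 1 := by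
  rw [MonoidHom.mem_ker, residueChar, MonoidHom.comp_apply, Units.ext_iff, Units.coe_map,
    Units.val_one]
  have h1 : (PadicInt.toZModPow (p := p) m).toMonoidHom ((unitPart x : ℤ_[p]ˣ) : ℤ_[p]) = 1 ↔
      ((unitPart x : ℤ_[p]ˣ) : ℤ_[p]) - 1 ∈ RingHom.ker (PadicInt.toZModPow (p := p) m) := by
    rw [RingHom.mem_ker, map_sub, map_one, sub_eq_zero]
    rfl
  rw [h1, PadicInt.ker_toZModPow, Ideal.mem_span_singleton]

section NormGroup

/-- **Unconditional half.** Every element of `<p> × (1 + p^(m+1) ℤ_p)` is a norm from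
`ℚ_p(ζ_{p^(m+1)})`, `p` odd. -/
theorem ker_residueChar_le_range_norm (hodd : p ≠ 2) (m : ℕ) (L : Type*) [Field L]
    [Algebra ℚ_[p] L] [IsCyclotomicExtension {p ^ (m + 1)} ℚ_[p] L] :
    (residueChar (p := p) (m + 1)).ker ≤
      (Units.map (Algebra.norm ℚ_[p] : L →* ℚ_[p])).range := by
  have : FiniteDimensional ℚ_[p] L := finiteDimensional_cyclotomic_padic m L
  intro x hx
  rw [mem_ker_residueChar_iff_dvd] at hx
  obtain ⟨z, hz⟩ := exists_pow_totient_eq hodd (m + 1) (by omega) _ hx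
  rw [Nat.add_sub_cancel] at hz
  -- the `p`-part
  obtain ⟨y0, hy0⟩ := natCast_p_mem_range_norm hodd m L
  have hy0ne : y0 ≠ 0 := by
    intro h
    rw [h, Algebra.norm_zero] at hy0
    exact padic_natCast_p_ne_zero hy0.symm
  -- the unit part
  have hzne : (z : ℚ_[p]) ≠ 0 := by
    intro h
    have hz0 : z = 0 := PadicInt.coe_eq_zero.mp h
    rw [hz0, zero_pow (by
      have := hp.out.two_le
      have h1 : 0 < p ^ m := pow_pos hp.out.pos m
      have h2 : 0 < p - 1 := by omega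
      exact (Nat.mul_pos h1 h2).ne')] at hz
    exact (unitPart x).ne_zero hz.symm
  have hzL : algebraMap ℚ_[p] L (z : ℚ_[p]) ≠ 0 := by
    simpa using hzne
  refine ⟨Units.mk0 y0 hy0ne ^ ((x : ℚ_[p]).valuation) * Units.mk0 _ hzL, ?_⟩
  apply Units.ext
  rw [map_mul, map_zpow, Units.val_mul, Units.val_zpow_eq_zpow_val, Units.coe_map, Units.coe_map,
    Units.val_mk0, Units.val_mk0]
  change (Algebra.norm ℚ_[p]) y0 ^ (x : ℚ_[p]).valuation
    * (Algebra.norm ℚ_[p]) (algebraMap ℚ_[p] L (z : ℚ_[p])) = (x : ℚ_[p])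
  rw [hy0, norm_algebraMap_cyclotomic_padic m L, ← PadicInt.coe_pow, hz, coe_unitPart]
  rw [mul_comm, mul_assoc, ← zpow_add₀ padic_natCast_p_ne_zero]
  simp

/-- **Norm group of the wild cyclotomic layer.** Given the cyclic norm index
`[ℚ_pˣ : N Lˣ] = [L : ℚ_p]`, the norm group of `L = ℚ_p(ζ_{p^(m+1)})` (`p` odd) is
`<p> × (1 + p^(m+1) ℤ_p)`, the kernel of the residue character. -/
theorem range_norm_eq_ker_residueChar (hodd : p ≠ 2) (m : ℕ) (L : Type*) [Field L]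
    [Algebra ℚ_[p] L] [IsCyclotomicExtension {p ^ (m + 1)} ℚ_[p] L]
    (hidx : (Units.map (Algebra.norm ℚ_[p] : L →* ℚ_[p])).range.index
      = Module.finrank ℚ_[p] L) :
    (Units.map (Algebra.norm ℚ_[p] : L →* ℚ_[p])).range = (residueChar (p := p) (m + 1)).ker := by
  have hle := ker_residueChar_le_range_norm hodd m L
  refine le_antisymm ?_ hle
  have h1 := Subgroup.relIndex_mul_index hle
  rw [hidx, finrank_cyclotomic_padic m L, index_ker_residueChar (m + 1) (by omega),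
    Nat.add_sub_cancel] at h1
  have hpos : 0 < p ^ m * (p - 1) := by
    have := hp.out.two_le
    have h1 : 0 < p ^ m := pow_pos hp.out.pos m
    have h2 : 0 < p - 1 := by omega
    exact Nat.mul_pos h1 h2
  have h2 : (residueChar (p := p) (m + 1)).ker.relIndex
      (Units.map (Algebra.norm ℚ_[p] : L →* ℚ_[p])).range = 1 := by
    exact Nat.eq_of_mul_eq_mul_right hpos (by rw [h1, one_mul])
  exact Subgroup.relIndex_eq_one.mp h2

/-- **Norm criterion.** A nonzero `x : ℚ_[p]` is a norm from `L = ℚ_p(ζ_{p^(m+1)})` (`p` odd) iff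
its unit part `x p^{-v(x)}` is `≡ 1 mod p^(m+1)`; the hypothesis `hidx` is the cyclic norm index
`[ℚ_pˣ : N Lˣ] = [L : ℚ_p]`. -/
theorem exists_norm_eq_iff (hodd : p ≠ 2) (m : ℕ) (L : Type*) [Field L]
    [Algebra ℚ_[p] L] [IsCyclotomicExtension {p ^ (m + 1)} ℚ_[p] L]
    (hidx : (Units.map (Algebra.norm ℚ_[p] : L →* ℚ_[p])).range.index
      = Module.finrank ℚ_[p] L) (x : ℚ_[p]) (hx : x ≠ 0) :
    (∃ y : L, Algebra.norm ℚ_[p] y = x) ↔
      ‖x * (p : ℚ_[p]) ^ (-x.valuation) - 1‖ ≤ (p : ℝ) ^ (-((m + 1 : ℕ) : ℤ)) := by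
  have : FiniteDimensional ℚ_[p] L := finiteDimensional_cyclotomic_padic m L
  have hrange := range_norm_eq_ker_residueChar hodd m L hidx
  have hmem := mem_ker_residueChar_iff (p := p) (m + 1) (Units.mk0 x hx)
  rw [Units.val_mk0] at hmem
  rw [← hmem, ← hrange]
  constructor
  · rintro ⟨y, hy⟩
    have hyne : y ≠ 0 := by
      intro h
      rw [h, Algebra.norm_zero] at hy
      exact hx hy.symm
    refine ⟨Units.mk0 y hyne, ?_⟩
    apply Units.ext
    rw [Units.coe_map, Units.val_mk0, Units.val_mk0]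
    exact hy
  · rintro ⟨y, hy⟩
    refine ⟨(y : L), ?_⟩
    have := congrArg Units.val hy
    rw [Units.coe_map, Units.val_mk0] at this
    exact this

end NormGroup

end Fermat.Agent.S55.helper5519
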