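import Mathlib
import Fermat.Agent.S55.helper5519_CycloNormGroup
import Fermat.Agent.S55.helper1624_NormIndexPadic

/-!
# S55, sub-leaf NF-GR-NORMGRP, part 2 (helper5519): the elementary product formula

* `product_formula_core`: for a positive rational `a`, if the explicit local conditions
  (`CondAway p k ℓ a`: `ord_{p^k}(ℓ) ∣ v_ℓ(a)` for `ℓ ≠ p`; `CondAt p k a`: the `p`-unit part of `a`
  is `≡ 1 mod p^k`) hold at all primes but one, they hold at the last one;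
* `condAt_iff_norm_le`, `condAway_iff_valuation`: the conditions in `ℚ_[ℓ]`-language;
* `locNorm_product_formula`: abstract form for any family of local norm predicates which are
  described by these conditions;
* `cyclotomic_norm_product_formula`: a positive rational which is a norm from `ℚ_ℓ(ζ_{p^(m+1)})`
  for every prime `ℓ ≠ ℓ0` is a norm from `ℚ_{ℓ0}(ζ_{p^(m+1)})` (hypotheses: the cyclic norm
  index at `p` and the unramified norm criterion at `ℓ ≠ p`).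

Part 3 (section `Unconditional`): the cyclic norm index at `p` is discharged by
`helper1624.index_norm_range_eq_finrank_padic` (on main), so the norm group of
`ℚ_p(ζ_{p^(m+1)})/ℚ_p` is known unconditionally: `index_range_norm_cyclotomic_padic`,
`range_norm_eq_ker_residueChar'`, `exists_norm_eq_iff'`, `exists_norm_eq_iff_residueChar`,
`cyclotomic_norm_product_formula'`, and the mixed shape `arithCore_mixed` / `arithCore_cyclotomic`
asked for by the NF-GR assembly.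
-/

set_option autoImplicit false

namespace Fermat.Agent.S55.helper5519

/-- The unit of `ZMod n` attached to a natural number (`1` if not coprime to `n`). -/
noncomputable def zunit (n ℓ : ℕ) : (ZMod n)ˣ :=
  if h : Nat.Coprime ℓ n then ZMod.unitOfCoprime ℓ h else 1

theorem coe_zunit (n ℓ : ℕ) (h : Nat.Coprime ℓ n) : ((zunit n ℓ : (ZMod n)ˣ) : ZMod n) = ℓ := by
  rw [zunit, dif_pos h, ZMod.coe_unitOfCoprime]

theorem coprime_pow_of_prime_ne {p ℓ : ℕ} (hp : p.Prime) (hℓ : ℓ.Prime) (h : ℓ ≠ p) (k : ℕ) :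
    Nat.Coprime ℓ (p ^ k) :=
  Nat.Coprime.pow_right k ((Nat.coprime_primes hℓ hp).mpr h)

/-- The prime-to-`p` part of `n`, modulo `p^k`, as a product of the units `zunit ℓ`. -/
theorem ordCompl_cast_eq_prod {p : ℕ} (hp : p.Prime) (k : ℕ) (n : ℕ) (hn : n ≠ 0) (T : Finset ℕ)
    (hT : n.primeFactors.erase p ⊆ T) (hpT : p ∉ T) (hTprime : ∀ ℓ ∈ T, ℓ.Prime) :
    ((n / p ^ n.factorization p : ℕ) : ZMod (p ^ k))
      = ((∏ ℓ ∈ T, zunit (p ^ k) ℓ ^ n.factorization ℓ : (ZMod (p ^ k))ˣ) : ZMod (p ^ k)) := by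
  have h0 : n / p ^ n.factorization p ≠ 0 := (Nat.ordCompl_pos p hn).ne'
  have h1 := Nat.prod_factorization_pow_eq_self h0
  rw [Nat.factorization_ordCompl] at h1
  have hsub : (Finsupp.erase p n.factorization).support ⊆ T := by
    rw [Finsupp.support_erase, Nat.support_factorization]
    exact hT
  rw [Finsupp.prod_of_support_subset _ hsub _ (fun i _ => pow_zero i)] at h1
  rw [← h1, Nat.cast_prod, Units.coe_prod]
  apply Finset.prod_congr rfl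
  intro ℓ hℓ
  have hne : ℓ ≠ p := fun h => hpT (h ▸ hℓ)
  rw [Finsupp.erase_ne hne, Nat.cast_pow, Units.val_pow_eq_pow_val,
    coe_zunit _ _ (coprime_pow_of_prime_ne hp (hTprime ℓ hℓ) hne k)]

theorem padicValRat_eq_factorization_sub {ℓ : ℕ} (hℓ : ℓ.Prime) (a : ℚ) :
    padicValRat ℓ a = (a.num.natAbs.factorization ℓ : ℤ) - (a.den.factorization ℓ : ℤ) := by
  rw [Nat.factorization_def _ hℓ, Nat.factorization_def _ hℓ]
  rfl

/-- Local condition at a prime `ℓ ≠ p`: the order of `ℓ` modulo `p^k` divides `v_ℓ(a)`. -/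
def CondAway (p k ℓ : ℕ) (a : ℚ) : Prop :=
  ((orderOf ((ℓ : ℕ) : ZMod (p ^ k)) : ℕ) : ℤ) ∣ padicValRat ℓ a

/-- Local condition at `p`: the prime-to-`p` parts of numerator and denominator of `a` agree
modulo `p^k`. -/
def CondAt (p k : ℕ) (a : ℚ) : Prop :=
  ((a.num.natAbs / p ^ a.num.natAbs.factorization p : ℕ) : ZMod (p ^ k))
    = ((a.den / p ^ a.den.factorization p : ℕ) : ZMod (p ^ k))

theorem condAway_iff_pow_eq {p : ℕ} (hp : p.Prime) (k : ℕ) {ℓ : ℕ} (hℓ : ℓ.Prime) (hne : ℓ ≠ p)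
    (a : ℚ) :
    CondAway p k ℓ a ↔
      zunit (p ^ k) ℓ ^ a.den.factorization ℓ = zunit (p ^ k) ℓ ^ a.num.natAbs.factorization ℓ := by
  have hco := coprime_pow_of_prime_ne hp hℓ hne k
  have hord : orderOf ((ℓ : ℕ) : ZMod (p ^ k)) = orderOf (zunit (p ^ k) ℓ) := by
    rw [← coe_zunit _ _ hco, orderOf_units]
  rw [CondAway, hord, padicValRat_eq_factorization_sub hℓ, pow_eq_pow_iff_modEq, Nat.modEq_iff_dvd]

/-- **Elementary product formula.** Let `a > 0` be rational and `ℓ0` a prime. If the local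
conditions hold at every prime different from `ℓ0`, the local condition holds at `ℓ0`. -/
theorem product_formula_core {p : ℕ} (hp : p.Prime) (k : ℕ) (a : ℚ) (ha : 0 < a) (ℓ0 : ℕ)
    (hAway : ∀ ℓ : ℕ, ℓ.Prime → ℓ ≠ p → ℓ ≠ ℓ0 → CondAway p k ℓ a)
    (hAt : p ≠ ℓ0 → CondAt p k a) :
    (ℓ0.Prime → ℓ0 ≠ p → CondAway p k ℓ0 a) ∧ (ℓ0 = p → CondAt p k a) := by
  set N := a.num.natAbs with hN
  set D := a.den with hD
  have hN0 : N ≠ 0 := by
    rw [hN]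
    have : 0 < a.num := Rat.num_pos.mpr ha
    omega
  have hD0 : D ≠ 0 := a.den_nz
  set T : Finset ℕ := (N.primeFactors ∪ D.primeFactors).erase p with hTdef
  have hpT : p ∉ T := Finset.notMem_erase p _
  have hTprime : ∀ ℓ ∈ T, ℓ.Prime := by
    intro ℓ hℓ
    rw [hTdef, Finset.mem_erase, Finset.mem_union] at hℓ
    rcases hℓ.2 with h | h
    · exact Nat.prime_of_mem_primeFactors h
    · exact Nat.prime_of_mem_primeFactors h
  have hTN : N.primeFactors.erase p ⊆ T :=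
    Finset.erase_subset_erase p Finset.subset_union_left
  have hTD : D.primeFactors.erase p ⊆ T :=
    Finset.erase_subset_erase p Finset.subset_union_right
  have hPN := ordCompl_cast_eq_prod hp k N hN0 T hTN hpT hTprime
  have hPD := ordCompl_cast_eq_prod hp k D hD0 T hTD hpT hTprime
  have hAt_iff : CondAt p k a ↔
      ∏ ℓ ∈ T, zunit (p ^ k) ℓ ^ N.factorization ℓ = ∏ ℓ ∈ T, zunit (p ^ k) ℓ ^ D.factorization ℓ := by
    rw [CondAt, ← hN, ← hD, hPN, hPD]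
    exact ⟨fun h => Units.ext h, fun h => congrArg Units.val h⟩
  have hterm : ∀ ℓ ∈ T, ℓ ≠ ℓ0 →
      zunit (p ^ k) ℓ ^ N.factorization ℓ = zunit (p ^ k) ℓ ^ D.factorization ℓ := by
    intro ℓ hℓ hne0
    have hne : ℓ ≠ p := fun h => hpT (h ▸ hℓ)
    exact ((condAway_iff_pow_eq hp k (hTprime ℓ hℓ) hne a).mp
      (hAway ℓ (hTprime ℓ hℓ) hne hne0)).symm
  constructor
  · intro hℓ0 hne
    rw [condAway_iff_pow_eq hp k hℓ0 hne a, ← hN, ← hD]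
    by_cases hmem : ℓ0 ∈ T
    · have hprod := hAt_iff.mp (hAt (fun h => hne h.symm))
      rw [← Finset.mul_prod_erase T _ hmem, ← Finset.mul_prod_erase T _ hmem] at hprod
      have hrest : ∏ ℓ ∈ T.erase ℓ0, zunit (p ^ k) ℓ ^ N.factorization ℓ
          = ∏ ℓ ∈ T.erase ℓ0, zunit (p ^ k) ℓ ^ D.factorization ℓ := by
        apply Finset.prod_congr rfl
        intro ℓ hℓ
        exact hterm ℓ (Finset.mem_of_mem_erase hℓ) (Finset.ne_of_mem_erase hℓ)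
      rw [hrest] at hprod
      exact (mul_right_cancel hprod).symm
    · have hN' : N.factorization ℓ0 = 0 := by
        apply Nat.factorization_eq_zero_of_not_dvd
        intro hdvd
        apply hmem
        rw [hTdef, Finset.mem_erase, Finset.mem_union]
        exact ⟨hne, Or.inl (Nat.mem_primeFactors.mpr ⟨hℓ0, hdvd, hN0⟩)⟩
      have hD' : D.factorization ℓ0 = 0 := by
        apply Nat.factorization_eq_zero_of_not_dvd
        intro hdvd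
        apply hmem
        rw [hTdef, Finset.mem_erase, Finset.mem_union]
        exact ⟨hne, Or.inr (Nat.mem_primeFactors.mpr ⟨hℓ0, hdvd, hD0⟩)⟩
      rw [hN', hD']
  · intro h0
    rw [hAt_iff]
    apply Finset.prod_congr rfl
    intro ℓ hℓ
    exact hterm ℓ hℓ (fun h => hpT (by rw [← h0, ← h]; exact hℓ))

section Bridge

variable {p : ℕ} [hp : Fact p.Prime]

/-- The condition at `p` in `ℚ_[p]`-language. -/
theorem condAt_iff_norm_le (k : ℕ) (a : ℚ) (ha : 0 < a) :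
    CondAt p k a ↔
      ‖(a : ℚ_[p]) * (p : ℚ_[p]) ^ (-(a : ℚ_[p]).valuation) - 1‖ ≤ (p : ℝ) ^ (-(k : ℤ)) := by
  have hN0 : a.num.natAbs ≠ 0 := by
    have : 0 < a.num := Rat.num_pos.mpr ha
    omega
  have hD0 : a.den ≠ 0 := a.den_nz
  have hNN := Nat.ordProj_mul_ordCompl_eq_self a.num.natAbs p
  have hDD := Nat.ordProj_mul_ordCompl_eq_self a.den p
  have hnum : a.num = (a.num.natAbs : ℤ) := by
    have : 0 < a.num := Rat.num_pos.mpr ha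
    omega
  set N := a.num.natAbs with hN
  set D := a.den with hD
  set N' := N / p ^ N.factorization p with hN'
  set D' := D / p ^ D.factorization p with hD'
  have hp0 : (p : ℚ_[p]) ≠ 0 := padic_natCast_p_ne_zero
  have hcast : (a : ℚ_[p]) = (N : ℚ_[p]) / (D : ℚ_[p]) := by
    rw [Rat.cast_def, hnum, Int.cast_natCast]
  have hval : (a : ℚ_[p]).valuation = (N.factorization p : ℤ) - (D.factorization p : ℤ) := by
    rw [Padic.valuation_ratCast, padicValRat_eq_factorization_sub hp.out]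
  have hD'pos : 0 < D' := Nat.ordCompl_pos p hD0
  have hD'ne : (D' : ℚ_[p]) ≠ 0 := Nat.cast_ne_zero.mpr hD'pos.ne'
  have hD'norm : ‖(D' : ℚ_[p])‖ = 1 :=
    Padic.norm_natCast_eq_one_iff.mpr (Nat.coprime_ordCompl hp.out hD0)
  have hNc : (N : ℚ_[p]) = (p : ℚ_[p]) ^ N.factorization p * (N' : ℚ_[p]) := by
    have h := congrArg (Nat.cast : ℕ → ℚ_[p]) hNN
    push_cast at h
    exact h.symm
  have hDc : (D : ℚ_[p]) = (p : ℚ_[p]) ^ D.factorization p * (D' : ℚ_[p]) := by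
    have h := congrArg (Nat.cast : ℕ → ℚ_[p]) hDD
    push_cast at h
    exact h.symm
  have key : (a : ℚ_[p]) * (p : ℚ_[p]) ^ (-(a : ℚ_[p]).valuation) - 1
      = (((N' : ℤ) - (D' : ℤ) : ℤ) : ℚ_[p]) / (D' : ℚ_[p]) := by
    rw [hval, hcast, neg_sub, zpow_sub₀ hp0, zpow_natCast, zpow_natCast, hNc, hDc]
    have h1 : ((p : ℚ_[p]) ^ N.factorization p) ≠ 0 := pow_ne_zero _ hp0
    have h2 : ((p : ℚ_[p]) ^ D.factorization p) ≠ 0 := pow_ne_zero _ hp0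
    push_cast
    field_simp
  rw [key, norm_div, hD'norm, div_one, Padic.norm_int_le_pow_iff_dvd, CondAt, ← hN, ← hD,
    ← hN', ← hD']
  have h3 : ((N' : ℕ) : ZMod (p ^ k)) = ((D' : ℕ) : ZMod (p ^ k)) ↔
      (((D' : ℤ) : ZMod (p ^ k)) = ((N' : ℤ) : ZMod (p ^ k))) := by
    rw [Int.cast_natCast, Int.cast_natCast]
    exact eq_comm
  rw [h3, ZMod.intCast_eq_intCast_iff_dvd_sub]
  push_cast
  rfl

omit hp in
/-- The condition away from `p` in `ℚ_[ℓ]`-language. -/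
theorem condAway_iff_valuation (k : ℕ) (ℓ : ℕ) [Fact ℓ.Prime] (a : ℚ) :
    CondAway p k ℓ a ↔
      ((orderOf ((ℓ : ℕ) : ZMod (p ^ k)) : ℕ) : ℤ) ∣ (a : ℚ_[ℓ]).valuation := by
  rw [CondAway, Padic.valuation_ratCast]

/-- **Product formula, abstract form.** Let `IsLocNorm ℓ` be predicates on `ℚ_[ℓ]` (one for each
prime `ℓ`) such that on nonzero elements `IsLocNorm p x ↔ x p^{-v(x)} ≡ 1 mod p^k` and, for
`ℓ ≠ p`, `IsLocNorm ℓ x ↔ ord_{p^k}(ℓ) ∣ v_ℓ(x)`. Then a positive rational which satisfies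
`IsLocNorm ℓ` for all primes `ℓ ≠ ℓ0` satisfies `IsLocNorm ℓ0`. -/
theorem locNorm_product_formula (k : ℕ)
    (IsLocNorm : ∀ (ℓ : ℕ) [Fact ℓ.Prime], ℚ_[ℓ] → Prop)
    (hAt : ∀ x : ℚ_[p], x ≠ 0 →
      (IsLocNorm p x ↔ ‖x * (p : ℚ_[p]) ^ (-x.valuation) - 1‖ ≤ (p : ℝ) ^ (-(k : ℤ))))
    (hAway : ∀ (ℓ : ℕ) [Fact ℓ.Prime], ℓ ≠ p → ∀ x : ℚ_[ℓ], x ≠ 0 →
      (IsLocNorm ℓ x ↔ ((orderOf ((ℓ : ℕ) : ZMod (p ^ k)) : ℕ) : ℤ) ∣ x.valuation))
    (a : ℚ) (ha : 0 < a) (ℓ0 : ℕ) [hℓ0 : Fact ℓ0.Prime]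
    (H : ∀ (ℓ : ℕ) [Fact ℓ.Prime], ℓ ≠ ℓ0 → IsLocNorm ℓ (a : ℚ_[ℓ])) :
    IsLocNorm ℓ0 (a : ℚ_[ℓ0]) := by
  have hane : ∀ (ℓ : ℕ) [Fact ℓ.Prime], (a : ℚ_[ℓ]) ≠ 0 := by
    intro ℓ _
    exact_mod_cast ha.ne'
  have hcore := product_formula_core hp.out k a ha ℓ0
    (fun ℓ hℓ hne hne0 => by
      have : Fact ℓ.Prime := ⟨hℓ⟩
      rw [condAway_iff_valuation]
      exact (hAway ℓ hne _ (hane ℓ)).mp (H ℓ hne0))
    (fun hne => by
      rw [condAt_iff_norm_le k a ha]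
      exact (hAt _ (hane p)).mp (H p hne))
  by_cases h0 : ℓ0 = p
  · subst h0
    have h1 := hcore.2 rfl
    rw [condAt_iff_norm_le k a ha] at h1
    have h2 := (hAt _ (hane ℓ0)).mpr h1
    convert h2
  · have h1 := hcore.1 hℓ0.out h0
    rw [condAway_iff_valuation] at h1
    exact (hAway ℓ0 h0 _ (hane ℓ0)).mpr h1

end Bridge

section Cyclotomic

variable {p : ℕ} [hp : Fact p.Prime]

/-- **Product formula for the cyclotomic norm residue conditions.** Let `p` be odd. Assume the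
cyclic norm index at `p` (`hidx`) and the unramified norm criterion at the primes `ℓ ≠ p` (`hU`).
Then a positive rational number which is a norm from `ℚ_ℓ(ζ_{p^(m+1)})` for every prime `ℓ ≠ ℓ0`
is a norm from `ℚ_{ℓ0}(ζ_{p^(m+1)})`. -/
theorem cyclotomic_norm_product_formula (hodd : p ≠ 2) (m : ℕ)
    (hidx : (Units.map (Algebra.norm ℚ_[p] :
        CyclotomicField (p ^ (m + 1)) ℚ_[p] →* ℚ_[p])).range.index
      = Module.finrank ℚ_[p] (CyclotomicField (p ^ (m + 1)) ℚ_[p]))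
    (hU : ∀ (ℓ : ℕ) [Fact ℓ.Prime], ℓ ≠ p → ∀ x : ℚ_[ℓ], x ≠ 0 →
      ((∃ y : CyclotomicField (p ^ (m + 1)) ℚ_[ℓ], Algebra.norm ℚ_[ℓ] y = x) ↔
        ((orderOf ((ℓ : ℕ) : ZMod (p ^ (m + 1))) : ℕ) : ℤ) ∣ x.valuation))
    (a : ℚ) (ha : 0 < a) (ℓ0 : ℕ) [Fact ℓ0.Prime]
    (H : ∀ (ℓ : ℕ) [Fact ℓ.Prime], ℓ ≠ ℓ0 →
      ∃ y : CyclotomicField (p ^ (m + 1)) ℚ_[ℓ], Algebra.norm ℚ_[ℓ] y = (a : ℚ_[ℓ])) :
    ∃ y : CyclotomicField (p ^ (m + 1)) ℚ_[ℓ0], Algebra.norm ℚ_[ℓ0] y = (a : ℚ_[ℓ0]) := by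
  have : NeZero (p ^ (m + 1)) := ⟨pow_ne_zero _ hp.out.ne_zero⟩
  exact locNorm_product_formula (p := p) (m + 1)
    (fun ℓ _ x => ∃ y : CyclotomicField (p ^ (m + 1)) ℚ_[ℓ], Algebra.norm ℚ_[ℓ] y = x)
    (fun x hx => exists_norm_eq_iff hodd m (CyclotomicField (p ^ (m + 1)) ℚ_[p]) hidx x hx)
    (fun ℓ _ hne x hx => hU ℓ hne x hx) a ha ℓ0 (fun ℓ _ hne => H ℓ hne)

end Cyclotomic

section Unconditional

variable {p : ℕ} [hp : Fact p.Prime]

/-- The cyclic norm index of `ℚ_p(ζ_{p^(m+1)})/ℚ_p` (`p` odd), from the general local norm index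
theorem `helper1624.index_norm_range_eq_finrank_padic`. -/
theorem index_range_norm_cyclotomic_padic (hodd : p ≠ 2) (m : ℕ) (L : Type*) [Field L]
    [Algebra ℚ_[p] L] [IsCyclotomicExtension {p ^ (m + 1)} ℚ_[p] L] :
    (Units.map (Algebra.norm ℚ_[p] : L →* ℚ_[p])).range.index = Module.finrank ℚ_[p] L := by
  have : FiniteDimensional ℚ_[p] L := finiteDimensional_cyclotomic_padic m L
  have : IsGalois ℚ_[p] L := isGalois_cyclotomic_padic m L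
  have : IsCyclic (L ≃ₐ[ℚ_[p]] L) := isCyclic_gal_cyclotomic_padic hodd m L
  exact helper1624.index_norm_range_eq_finrank_padic p ℚ_[p] L

/-- **Norm group of the wild cyclotomic layer, unconditional.** For `p` odd the norm group of
`L = ℚ_p(ζ_{p^(m+1)})` is `<p> × (1 + p^(m+1) ℤ_p)`, the kernel of the residue character. -/
theorem range_norm_eq_ker_residueChar' (hodd : p ≠ 2) (m : ℕ) (L : Type*) [Field L]
    [Algebra ℚ_[p] L] [IsCyclotomicExtension {p ^ (m + 1)} ℚ_[p] L] :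
    (Units.map (Algebra.norm ℚ_[p] : L →* ℚ_[p])).range = (residueChar (p := p) (m + 1)).ker :=
  range_norm_eq_ker_residueChar hodd m L (index_range_norm_cyclotomic_padic hodd m L)

/-- **Norm criterion at `p`, unconditional.** A nonzero `x : ℚ_[p]` is a norm from
`L = ℚ_p(ζ_{p^(m+1)})` (`p` odd) iff its unit part `x p^{-v(x)}` is `≡ 1 mod p^(m+1)`. -/
theorem exists_norm_eq_iff' (hodd : p ≠ 2) (m : ℕ) (L : Type*) [Field L]
    [Algebra ℚ_[p] L] [IsCyclotomicExtension {p ^ (m + 1)} ℚ_[p] L] (x : ℚ_[p]) (hx : x ≠ 0) :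
    (∃ y : L, Algebra.norm ℚ_[p] y = x) ↔
      ‖x * (p : ℚ_[p]) ^ (-x.valuation) - 1‖ ≤ (p : ℝ) ^ (-((m + 1 : ℕ) : ℤ)) :=
  exists_norm_eq_iff hodd m L (index_range_norm_cyclotomic_padic hodd m L) x hx

/-- The same criterion in character form: `x : ℚ_[p]ˣ` is a norm from `L = ℚ_p(ζ_{p^(m+1)})` iff
`residueChar (m + 1) x = 1` (`residueChar k x = (x p^{-v(x)} mod p^k)`). -/
theorem exists_norm_eq_iff_residueChar (hodd : p ≠ 2) (m : ℕ) (L : Type*) [Field L]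
    [Algebra ℚ_[p] L] [IsCyclotomicExtension {p ^ (m + 1)} ℚ_[p] L] (x : ℚ_[p]ˣ) :
    (∃ y : L, Algebra.norm ℚ_[p] y = (x : ℚ_[p])) ↔ residueChar (p := p) (m + 1) x = 1 := by
  rw [exists_norm_eq_iff' hodd m L (x : ℚ_[p]) x.ne_zero, ← mem_ker_residueChar_iff,
    MonoidHom.mem_ker]

/-- **Product formula for the cyclotomic norm residue conditions**, with the norm index at `p`
discharged; the only remaining hypothesis is the unramified norm criterion `hU` at `ℓ ≠ p`. -/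
theorem cyclotomic_norm_product_formula' (hodd : p ≠ 2) (m : ℕ)
    (hU : ∀ (ℓ : ℕ) [Fact ℓ.Prime], ℓ ≠ p → ∀ x : ℚ_[ℓ], x ≠ 0 →
      ((∃ y : CyclotomicField (p ^ (m + 1)) ℚ_[ℓ], Algebra.norm ℚ_[ℓ] y = x) ↔
        ((orderOf ((ℓ : ℕ) : ZMod (p ^ (m + 1))) : ℕ) : ℤ) ∣ x.valuation))
    (a : ℚ) (ha : 0 < a) (ℓ0 : ℕ) [Fact ℓ0.Prime]
    (H : ∀ (ℓ : ℕ) [Fact ℓ.Prime], ℓ ≠ ℓ0 →
      ∃ y : CyclotomicField (p ^ (m + 1)) ℚ_[ℓ], Algebra.norm ℚ_[ℓ] y = (a : ℚ_[ℓ])) :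
    ∃ y : CyclotomicField (p ^ (m + 1)) ℚ_[ℓ0], Algebra.norm ℚ_[ℓ0] y = (a : ℚ_[ℓ0]) := by
  have : NeZero (p ^ (m + 1)) := ⟨pow_ne_zero _ hp.out.ne_zero⟩
  exact cyclotomic_norm_product_formula hodd m
    (index_range_norm_cyclotomic_padic hodd m (CyclotomicField (p ^ (m + 1)) ℚ_[p])) hU a ha ℓ0 H

/-- **ArithCore, mixed abstract shape** (step (5) of the NF-GR assembly). `S` a finite set of
primes containing `p`; `IsLocNorm ℓ` predicates on `ℚ_[ℓ]` which, for `ℓ ∈ S`, are described by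
the explicit conditions (`hAt` at `p`, `hAway` at `ℓ ≠ p`). If a positive rational `a` satisfies
`IsLocNorm ℓ` at all `ℓ ∈ S`, `ℓ ≠ ℓ0`, and `ord_{p^k}(ℓ) ∣ v_ℓ(a)` at all primes `ℓ ∉ S`, then it
satisfies `IsLocNorm ℓ0` (`ℓ0 ∈ S`). -/
theorem arithCore_mixed (k : ℕ) (S : Finset ℕ) (hpS : p ∈ S)
    (IsLocNorm : ∀ (ℓ : ℕ) [Fact ℓ.Prime], ℚ_[ℓ] → Prop)
    (hAt : ∀ x : ℚ_[p], x ≠ 0 →
      (IsLocNorm p x ↔ ‖x * (p : ℚ_[p]) ^ (-x.valuation) - 1‖ ≤ (p : ℝ) ^ (-(k : ℤ))))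
    (hAway : ∀ (ℓ : ℕ) [Fact ℓ.Prime], ℓ ∈ S → ℓ ≠ p → ∀ x : ℚ_[ℓ], x ≠ 0 →
      (IsLocNorm ℓ x ↔ ((orderOf ((ℓ : ℕ) : ZMod (p ^ k)) : ℕ) : ℤ) ∣ x.valuation))
    (a : ℚ) (ha : 0 < a) (ℓ0 : ℕ) [Fact ℓ0.Prime] (hℓ0 : ℓ0 ∈ S)
    (HS : ∀ (ℓ : ℕ) [Fact ℓ.Prime], ℓ ∈ S → ℓ ≠ ℓ0 → IsLocNorm ℓ (a : ℚ_[ℓ]))
    (HnS : ∀ ℓ : ℕ, ℓ.Prime → ℓ ∉ S →
      ((orderOf ((ℓ : ℕ) : ZMod (p ^ k)) : ℕ) : ℤ) ∣ padicValRat ℓ a) :
    IsLocNorm ℓ0 (a : ℚ_[ℓ0]) := by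
  classical
  have key := locNorm_product_formula (p := p) k
    (fun ℓ _ x => if ℓ ∈ S then IsLocNorm ℓ x
      else ((orderOf ((ℓ : ℕ) : ZMod (p ^ k)) : ℕ) : ℤ) ∣ x.valuation)
    (fun x hx => by rw [if_pos hpS]; exact hAt x hx)
    (fun ℓ _ hne x hx => by
      by_cases hℓS : ℓ ∈ S
      · rw [if_pos hℓS]; exact hAway ℓ hℓS hne x hx
      · rw [if_neg hℓS])
    a ha ℓ0
    (fun ℓ hℓ hne => by
      by_cases hℓS : ℓ ∈ S
      · rw [if_pos hℓS]; exact HS ℓ hℓS hne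
      · rw [if_neg hℓS, Padic.valuation_ratCast]; exact HnS ℓ hℓ.out hℓS)
  rw [if_pos hℓ0] at key
  exact key

/-- **ArithCore for the cyclotomic fields** (step (5) of the NF-GR assembly, chat #197): `p` odd,
`S ∋ p` a finite set of primes, `a > 0` rational. If `a` is a norm from `ℚ_ℓ(ζ_{p^(m+1)})` for
every `ℓ ∈ S`, `ℓ ≠ ℓ0`, and `ord_{p^(m+1)}(ℓ) ∣ v_ℓ(a)` for every prime `ℓ ∉ S`, then `a` is a norm
from `ℚ_{ℓ0}(ζ_{p^(m+1)})`. The only hypothesis left is the unramified norm criterion `hU` at the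
primes `ℓ ∈ S`, `ℓ ≠ p`. -/
theorem arithCore_cyclotomic (hodd : p ≠ 2) (m : ℕ) (S : Finset ℕ) (hpS : p ∈ S)
    (hU : ∀ (ℓ : ℕ) [Fact ℓ.Prime], ℓ ∈ S → ℓ ≠ p → ∀ x : ℚ_[ℓ], x ≠ 0 →
      ((∃ y : CyclotomicField (p ^ (m + 1)) ℚ_[ℓ], Algebra.norm ℚ_[ℓ] y = x) ↔
        ((orderOf ((ℓ : ℕ) : ZMod (p ^ (m + 1))) : ℕ) : ℤ) ∣ x.valuation))
    (a : ℚ) (ha : 0 < a) (ℓ0 : ℕ) [Fact ℓ0.Prime] (hℓ0 : ℓ0 ∈ S)
    (HS : ∀ (ℓ : ℕ) [Fact ℓ.Prime], ℓ ∈ S → ℓ ≠ ℓ0 →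
      ∃ y : CyclotomicField (p ^ (m + 1)) ℚ_[ℓ], Algebra.norm ℚ_[ℓ] y = (a : ℚ_[ℓ]))
    (HnS : ∀ ℓ : ℕ, ℓ.Prime → ℓ ∉ S →
      ((orderOf ((ℓ : ℕ) : ZMod (p ^ (m + 1))) : ℕ) : ℤ) ∣ padicValRat ℓ a) :
    ∃ y : CyclotomicField (p ^ (m + 1)) ℚ_[ℓ0], Algebra.norm ℚ_[ℓ0] y = (a : ℚ_[ℓ0]) := by
  have : NeZero (p ^ (m + 1)) := ⟨pow_ne_zero _ hp.out.ne_zero⟩
  exact arithCore_mixed (p := p) (m + 1) S hpS
    (fun ℓ _ x => ∃ y : CyclotomicField (p ^ (m + 1)) ℚ_[ℓ], Algebra.norm ℚ_[ℓ] y = x)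
    (fun x hx => exists_norm_eq_iff' hodd m (CyclotomicField (p ^ (m + 1)) ℚ_[p]) x hx)
    (fun ℓ _ hℓS hne x hx => hU ℓ hℓS hne x hx) a ha ℓ0 hℓ0
    (fun ℓ _ hℓS hne => HS ℓ hℓS hne) HnS

end Unconditional

end Fermat.Agent.S55.helper5519
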