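import Mathlib

/-!
# S55 / NF-GR-ARITH : the arithmetic kernel of the reciprocity input (G-R)

Carrier-free, Mathlib-only.  `p` is a prime, `m : ℕ`, and `L` is any number field containing a
primitive `p ^ m`-th root of unity (e.g. `ℚ(ζ_{p^m})`).

* `cycloGood_absNorm` : every nonzero ideal `I` of `𝓞 L` has absolute norm `p ^ k * ∏ l ^ e_l`
  with `l ^ e_l ≡ 1 mod p ^ m` for every prime `l ≠ p`.
* `norm_pos_of_isPrimitiveRoot` : norms from a number field with a primitive `N`-th root of unity,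
  `2 < N`, are positive.
-/

set_option linter.style.haveILetI false

namespace Fermat.Agent.S55.helper7104

open scoped NumberField

/-! ## The predicate on natural numbers -/

/-- `CycloGood p m n`: for every prime `l ≠ p`, the `l`-part `l ^ v_l(n)` of `n` is `1` in
`ZMod (p ^ m)`. -/
def CycloGood (p m n : ℕ) : Prop :=
  ∀ l : ℕ, l.Prime → l ≠ p → (l : ZMod (p ^ m)) ^ n.factorization l = 1

theorem cycloGood_one (p m : ℕ) : CycloGood p m 1 := by
  intro l _ _
  simp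

theorem CycloGood.mul {p m a b : ℕ} (ha : CycloGood p m a) (hb : CycloGood p m b)
    (ha0 : a ≠ 0) (hb0 : b ≠ 0) : CycloGood p m (a * b) := by
  intro l hl hlp
  rw [Nat.factorization_mul ha0 hb0, Finsupp.add_apply, pow_add, ha l hl hlp, hb l hl hlp,
    one_mul]

theorem cycloGood_prime_pow {p m l f : ℕ} (hl : l.Prime)
    (h : l ≠ p → (l : ZMod (p ^ m)) ^ f = 1) : CycloGood p m (l ^ f) := by
  intro l' hl' hl'p
  rw [hl.factorization_pow]
  by_cases hll : l' = l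
  · subst hll
    simpa using h hl'p
  · simp [Ne.symm hll]

/-! ## Residue fields contain the `p ^ m`-th roots of unity -/

/-- If `R` is a domain with a primitive `p ^ m`-th root of unity and `Q` is a maximal ideal with
finite residue field of characteristic `≠ p`, then `#(R ⧸ Q) ≡ 1 mod p ^ m`. -/
theorem natCard_quotient_eq_one {p m : ℕ} [Fact p.Prime] {R : Type*} [CommRing R] [IsDomain R]
    {ζ : R} (hζ : IsPrimitiveRoot ζ (p ^ m)) (Q : Ideal R) [hQ : Q.IsMaximal] [Finite (R ⧸ Q)]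
    (hpQ : (p : R) ∉ Q) : ((Nat.card (R ⧸ Q) : ℕ) : ZMod (p ^ m)) = 1 := by
  have hp : p.Prime := Fact.out
  rcases m with _ | k
  · haveI : Subsingleton (ZMod (p ^ 0)) := by
      rw [pow_zero]; infer_instance
    exact Subsingleton.elim _ _
  letI : Field (R ⧸ Q) := Ideal.Quotient.field Q
  set z : R ⧸ Q := Ideal.Quotient.mk Q ζ with hz
  have h1 : z ^ p ^ (k + 1) = 1 := by
    rw [hz, ← map_pow, hζ.pow_eq_one, map_one]
  have h2 : ¬ z ^ p ^ k = 1 := by
    intro h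
    have hη : IsPrimitiveRoot (ζ ^ p ^ k) p :=
      IsPrimitiveRoot.pow (pow_pos hp.pos _) hζ (pow_succ p k)
    have hsum := hη.geom_sum_eq_zero hp.one_lt
    have := congrArg (Ideal.Quotient.mk Q) hsum
    rw [map_sum, map_zero] at this
    simp only [map_pow] at this
    rw [← hz, h] at this
    simp only [one_pow, Finset.sum_const, Finset.card_range, nsmul_eq_mul, mul_one] at this
    apply hpQ
    rw [← Ideal.Quotient.eq_zero_iff_mem, map_natCast]
    exact this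
  have hord : orderOf z = p ^ (k + 1) := orderOf_eq_prime_pow h2 h1
  have hzu : IsUnit z := IsUnit.of_pow_eq_one h1 (pow_pos hp.pos _).ne'
  obtain ⟨u, hu⟩ := hzu
  have hordu : orderOf u = p ^ (k + 1) := by
    rw [← orderOf_units, hu, hord]
  have hdvd : p ^ (k + 1) ∣ Nat.card (R ⧸ Q) - 1 := by
    rw [← Nat.card_units, ← hordu]
    exact orderOf_dvd_natCard u
  have hpos : 1 ≤ Nat.card (R ⧸ Q) := Nat.one_le_iff_ne_zero.mpr Nat.card_pos.ne'
  obtain ⟨c, hc⟩ := hdvd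
  have : Nat.card (R ⧸ Q) = p ^ (k + 1) * c + 1 := by omega
  rw [this]
  push_cast
  have h0 : ((p : ZMod (p ^ (k + 1))) ^ (k + 1)) = 0 := by
    have := ZMod.natCast_self (p ^ (k + 1))
    push_cast at this
    exact this
  rw [h0, zero_mul, zero_add]

/-! ## Absolute norms of ideals -/

section NumberField

variable {p m : ℕ} [Fact p.Prime] {L : Type*} [Field L] [NumberField L] {ζ : L}

theorem cycloGood_absNorm_of_prime (hζ : IsPrimitiveRoot ζ (p ^ m)) (Q : Ideal (𝓞 L))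
    (hQ : Prime Q) : CycloGood p m (Ideal.absNorm Q) := by
  have hp : p.Prime := Fact.out
  haveI : NeZero (p ^ m) := ⟨pow_ne_zero _ hp.ne_zero⟩
  have hζ' : IsPrimitiveRoot hζ.toInteger (p ^ m) := hζ.toInteger_isPrimitiveRoot
  have hQ0 : Q ≠ ⊥ := hQ.ne_zero
  haveI hQp : Q.IsPrime := Ideal.isPrime_of_prime hQ
  haveI hQm : Q.IsMaximal := hQp.isMaximal hQ0
  haveI : Finite (𝓞 L ⧸ Q) := Ideal.finiteQuotientOfFreeOfNeBot Q hQ0
  letI : Field (𝓞 L ⧸ Q) := Ideal.Quotient.field Q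
  letI : Fintype (𝓞 L ⧸ Q) := Fintype.ofFinite _
  obtain ⟨n, hl, hcard⟩ := FiniteField.card (𝓞 L ⧸ Q) (ringChar (𝓞 L ⧸ Q))
  have habs : Ideal.absNorm Q = ringChar (𝓞 L ⧸ Q) ^ (n : ℕ) := by
    rw [Ideal.absNorm_apply, Submodule.cardQuot_apply, Nat.card_eq_fintype_card]
    exact hcard
  rw [habs]
  refine cycloGood_prime_pow hl (fun hlp => ?_)
  have hpQ : (p : 𝓞 L) ∉ Q := by
    intro hmem
    have h0 : ((p : ℕ) : 𝓞 L ⧸ Q) = 0 := by
      rw [← map_natCast (Ideal.Quotient.mk Q), Ideal.Quotient.eq_zero_iff_mem]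
      exact hmem
    have hdvd := (CharP.cast_eq_zero_iff (𝓞 L ⧸ Q) (ringChar (𝓞 L ⧸ Q)) p).mp h0
    exact hlp ((Nat.prime_dvd_prime_iff_eq hl hp).mp hdvd)
  have := natCard_quotient_eq_one hζ' Q hpQ
  rw [Nat.card_eq_fintype_card, hcard] at this
  exact_mod_cast this

/-- **Ideal norms in a field containing `μ_{p^m}`.** For every nonzero ideal `I` of `𝓞 L` and every
prime `l ≠ p`, `l ^ v_l(N I) ≡ 1 mod p ^ m`. -/
theorem cycloGood_absNorm (hζ : IsPrimitiveRoot ζ (p ^ m)) (I : Ideal (𝓞 L)) (hI : I ≠ ⊥) :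
    CycloGood p m (Ideal.absNorm I) := by
  revert hI
  refine UniqueFactorizationMonoid.induction_on_prime (P := fun I : Ideal (𝓞 L) =>
    I ≠ ⊥ → CycloGood p m (Ideal.absNorm I)) I ?_ ?_ ?_
  · intro h
    exact absurd Ideal.zero_eq_bot h
  · intro x hx _
    rw [Ideal.isUnit_iff.mp hx, Ideal.absNorm_top]
    exact cycloGood_one p m
  · intro a q ha hq hPa _
    have ha' : a ≠ ⊥ := ha
    rw [map_mul]
    refine (cycloGood_absNorm_of_prime hζ q hq).mul (hPa ha') ?_ ?_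
    · rw [Ne, Ideal.absNorm_eq_zero_iff]
      exact hq.ne_zero
    · rw [Ne, Ideal.absNorm_eq_zero_iff]
      exact ha'

theorem cycloGood_natAbs_norm (hζ : IsPrimitiveRoot ζ (p ^ m)) (y : 𝓞 L) (hy : y ≠ 0) :
    CycloGood p m (Algebra.norm ℤ y).natAbs := by
  rw [← Ideal.absNorm_span_singleton]
  refine cycloGood_absNorm hζ _ ?_
  rwa [Ne, Ideal.span_singleton_eq_bot]

end NumberField

/-! ## Positivity of norms -/

/-- Norms from a number field containing a primitive `N`-th root of unity, `2 < N`, are positive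
(the field is totally complex). -/
theorem norm_pos_of_isPrimitiveRoot {L : Type*} [Field L] [NumberField L] {N : ℕ} (hN : 2 < N)
    {ζ : L} (hζ : IsPrimitiveRoot ζ N) (y : L) (hy : y ≠ 0) : 0 < Algebra.norm ℚ y := by
  classical
  have hprod := Algebra.norm_eq_prod_embeddings ℚ ℂ y
  -- complex conjugation on embeddings
  let c : (L →ₐ[ℚ] ℂ) → (L →ₐ[ℚ] ℂ) := fun σ => ((starRingEnd ℂ : ℂ →+* ℂ).toRatAlgHom).comp σ
  have hc : ∀ σ x, c σ x = (starRingEnd ℂ) (σ x) := fun σ x => rfl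
  have hne : ∀ σ : L →ₐ[ℚ] ℂ, σ y ≠ 0 := fun σ => by
    rw [Ne, map_eq_zero_iff σ σ.toRingHom.injective]
    exact hy
  have hfix : ∀ σ : L →ₐ[ℚ] ℂ, c σ ≠ σ := by
    intro σ h
    have hζσ : IsPrimitiveRoot (σ ζ) N := hζ.map_of_injective σ.toRingHom.injective
    have h1 : (starRingEnd ℂ) (σ ζ) = σ ζ := by rw [← hc, h]
    have hnorm : ‖σ ζ‖ = 1 := hζσ.norm'_eq_one (by omega)
    have h2 : σ ζ * σ ζ = 1 := by
      have := Complex.mul_conj (σ ζ)
      rw [h1, Complex.normSq_eq_norm_sq, hnorm] at this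
      simpa using this
    have h3 : (σ ζ) ^ 2 = 1 := by rw [sq, h2]
    have := hζσ.dvd_of_pow_eq_one 2 h3
    have := Nat.le_of_dvd (by norm_num) this
    omega
  have key : ∏ σ : L →ₐ[ℚ] ℂ, (σ y / (‖σ y‖ : ℂ)) = 1 := by
    refine Finset.prod_involution (fun σ _ => c σ) ?_ ?_ (fun _ _ => Finset.mem_univ _) ?_
    · intro σ _
      have hn : (‖σ y‖ : ℂ) ≠ 0 := by
        rw [Ne, Complex.ofReal_eq_zero, norm_eq_zero]
        exact hne σ
      rw [hc, RCLike.norm_conj, div_mul_div_comm, Complex.mul_conj, Complex.normSq_eq_norm_sq]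
      push_cast
      rw [sq]
      exact div_self (mul_ne_zero hn hn)
    · intro σ _ _
      exact hfix σ
    · intro σ _
      ext x
      simp [hc]
  rw [Finset.prod_div_distrib, div_eq_one_iff_eq] at key
  · rw [key] at hprod
    have hpos : 0 < ∏ σ : L →ₐ[ℚ] ℂ, ‖σ y‖ :=
      Finset.prod_pos fun σ _ => norm_pos_iff.mpr (hne σ)
    have h4 : ((Algebra.norm ℚ y : ℚ) : ℂ) = ((∏ σ : L →ₐ[ℚ] ℂ, ‖σ y‖ : ℝ) : ℂ) := by
      rw [Complex.ofReal_prod, ← hprod]
      rfl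
    have h5 : ((Algebra.norm ℚ y : ℚ) : ℝ) = ∏ σ : L →ₐ[ℚ] ℂ, ‖σ y‖ := by
      exact_mod_cast h4
    have h6 : (0 : ℝ) < ((Algebra.norm ℚ y : ℚ) : ℝ) := by rw [h5]; exact hpos
    exact_mod_cast h6
  · rw [← Complex.ofReal_prod]
    rw [Ne, Complex.ofReal_eq_zero]
    exact (Finset.prod_pos fun σ _ => norm_pos_iff.mpr (hne σ)).ne'


/-! ## Conditions on rational numbers and the product formula -/

section Rational

variable (p m : ℕ)

/-- Condition at a prime `l ≠ p`: `orderOf (l mod p ^ m)` divides `v_l(a)`. -/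
def CycloCond (l : ℕ) (a : ℚ) : Prop :=
  (orderOf (l : ZMod (p ^ m)) : ℤ) ∣ padicValRat l a

variable [Fact p.Prime]

/-- Condition at `p` for `x : ℚ_[p]`: `x ∈ ⟨p⟩ × (1 + p ^ m ℤ_p)`. -/
def CycloCondP (x : ℚ_[p]) : Prop :=
  ∃ (k : ℤ) (u : ℤ_[p]ˣ), PadicInt.toZModPow m (u : ℤ_[p]) = 1 ∧
    x = (p : ℚ_[p]) ^ k * ((u : ℤ_[p]) : ℚ_[p])

theorem cycloCondP_one : CycloCondP p m 1 := ⟨0, 1, by simp, by simp⟩

theorem cycloCondP_self : CycloCondP p m (p : ℚ_[p]) := ⟨1, 1, by simp, by simp⟩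

variable {p m}

theorem CycloCondP.ne_zero {x : ℚ_[p]} (hx : CycloCondP p m x) : x ≠ 0 := by
  obtain ⟨k, u, -, rfl⟩ := hx
  have hp0 : (p : ℚ_[p]) ≠ 0 := by exact_mod_cast (Fact.out : p.Prime).ne_zero
  refine mul_ne_zero (zpow_ne_zero _ hp0) ?_
  intro h
  have := PadicInt.norm_units u
  rw [PadicInt.norm_def, h, norm_zero] at this
  exact zero_ne_one this

theorem CycloCondP.mul {x y : ℚ_[p]} (hx : CycloCondP p m x) (hy : CycloCondP p m y) :
    CycloCondP p m (x * y) := by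
  obtain ⟨k, u, hu, rfl⟩ := hx
  obtain ⟨k', u', hu', rfl⟩ := hy
  have hp0 : (p : ℚ_[p]) ≠ 0 := by exact_mod_cast (Fact.out : p.Prime).ne_zero
  refine ⟨k + k', u * u', by simp [hu, hu'], ?_⟩
  rw [zpow_add₀ hp0]
  push_cast
  ring

theorem CycloCondP.inv {x : ℚ_[p]} (hx : CycloCondP p m x) : CycloCondP p m x⁻¹ := by
  obtain ⟨k, u, hu, rfl⟩ := hx
  refine ⟨-k, u⁻¹, ?_, ?_⟩
  · have h : PadicInt.toZModPow m ((u⁻¹ : ℤ_[p]ˣ) : ℤ_[p]) * PadicInt.toZModPow m (u : ℤ_[p]) = 1 := by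
      rw [← map_mul]
      simp
    rwa [hu, mul_one] at h
  · rw [mul_inv, zpow_neg]
    congr 1
    symm
    apply eq_inv_of_mul_eq_one_left
    rw [← PadicInt.coe_mul]
    simp

theorem CycloCondP.div {x y : ℚ_[p]} (hx : CycloCondP p m x) (hy : CycloCondP p m y) :
    CycloCondP p m (x / y) := by
  rw [div_eq_mul_inv]
  exact hx.mul hy.inv

theorem CycloCondP.pow {x : ℚ_[p]} (hx : CycloCondP p m x) (n : ℕ) : CycloCondP p m (x ^ n) := by
  induction n with
  | zero => simpa using cycloCondP_one p m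
  | succ n ih => rw [pow_succ]; exact ih.mul hx

theorem CycloCondP.zpow {x : ℚ_[p]} (hx : CycloCondP p m x) (n : ℤ) : CycloCondP p m (x ^ n) := by
  cases n with
  | ofNat n => simpa using hx.pow n
  | negSucc n => rw [zpow_negSucc]; exact (hx.pow _).inv

theorem cycloCondP_natCast {n : ℕ} (hn : p.Coprime n) (h : (n : ZMod (p ^ m)) = 1) :
    CycloCondP p m (n : ℚ_[p]) := by
  have hnorm : ‖(n : ℤ_[p])‖ = 1 := PadicInt.norm_natCast_eq_one_iff.mpr hn
  obtain ⟨u, hu⟩ := PadicInt.isUnit_iff.mpr hnorm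
  refine ⟨0, u, ?_, ?_⟩
  · rw [hu, map_natCast]
    exact h
  · rw [hu]
    simp

theorem cycloCondP_unit_iff (u : ℤ_[p]ˣ) :
    CycloCondP p m ((u : ℤ_[p]) : ℚ_[p]) ↔ PadicInt.toZModPow m (u : ℤ_[p]) = 1 := by
  constructor
  · rintro ⟨k, v, hv, h⟩
    have hp1 : (1 : ℝ) < p := by exact_mod_cast (Fact.out : p.Prime).one_lt
    have hk : k = 0 := by
      have := congrArg norm h
      rw [norm_mul, Padic.norm_p_zpow, ← PadicInt.norm_def, ← PadicInt.norm_def,
        PadicInt.norm_units, PadicInt.norm_units, mul_one] at this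
      have h2 := (zpow_eq_one_iff_right₀ (by positivity) hp1.ne').mp this.symm
      omega
    rw [hk, zpow_zero, one_mul] at h
    have : (u : ℤ_[p]) = (v : ℤ_[p]) := Subtype.ext h
    rw [this]
    exact hv
  · intro h
    exact ⟨0, u, h, by simp⟩

end Rational

theorem CycloGood.natCast_ordCompl {p m n : ℕ} (h : CycloGood p m n) (hn : n ≠ 0) :
    ((n / p ^ n.factorization p : ℕ) : ZMod (p ^ m)) = 1 := by
  set n' := n / p ^ n.factorization p with hn'
  have hn'0 : n' ≠ 0 := (Nat.ordCompl_pos p hn).ne'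
  have hfac : n'.factorization = n.factorization.erase p := Nat.factorization_ordCompl n p
  conv_lhs => rw [← Nat.prod_factorization_pow_eq_self hn'0]
  rw [Finsupp.prod, Nat.cast_prod]
  refine Finset.prod_eq_one (fun l hl => ?_)
  have hlp : l.Prime := Nat.prime_of_mem_primeFactors (by simpa using hl)
  have hlne : l ≠ p := by
    rintro rfl
    rw [Finsupp.mem_support_iff, hfac, Finsupp.erase_same] at hl
    exact hl rfl
  rw [Nat.cast_pow, hfac, Finsupp.erase_ne hlne]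
  exact h l hlp hlne

section Rational2

variable {p m : ℕ}

theorem cycloGood_of_cycloCond {a : ℚ}
    (h : ∀ l : ℕ, l.Prime → l ≠ p → CycloCond p m l a) :
    CycloGood p m a.num.natAbs ∧ CycloGood p m a.den := by
  have key : ∀ l : ℕ, l.Prime → l ≠ p →
      (l : ZMod (p ^ m)) ^ padicValNat l a.num.natAbs = 1 ∧
      (l : ZMod (p ^ m)) ^ padicValNat l a.den = 1 := by
    intro l hl hlp
    have hc := h l hl hlp
    unfold CycloCond padicValRat padicValInt at hc
    have hcop : a.num.natAbs.Coprime a.den := a.reduced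
    by_cases hd : l ∣ a.den
    · have hnd : ¬ l ∣ a.num.natAbs := fun hn =>
        hl.one_lt.ne' (Nat.eq_one_of_dvd_coprimes hcop hn hd)
      have h0 : padicValNat l a.num.natAbs = 0 := padicValNat.eq_zero_of_not_dvd hnd
      rw [h0] at hc ⊢
      rw [Nat.cast_zero, zero_sub, dvd_neg, Int.natCast_dvd_natCast] at hc
      exact ⟨pow_zero _, orderOf_dvd_iff_pow_eq_one.mp hc⟩
    · have h0 : padicValNat l a.den = 0 := padicValNat.eq_zero_of_not_dvd hd
      rw [h0] at hc ⊢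
      rw [Nat.cast_zero, sub_zero, Int.natCast_dvd_natCast] at hc
      exact ⟨orderOf_dvd_iff_pow_eq_one.mp hc, pow_zero _⟩
  refine ⟨fun l hl hlp => ?_, fun l hl hlp => ?_⟩
  · rw [Nat.factorization_def _ hl]
    exact (key l hl hlp).1
  · rw [Nat.factorization_def _ hl]
    exact (key l hl hlp).2

variable [Fact p.Prime]

theorem cycloCondP_of_cycloGood {n : ℕ} (hn : n ≠ 0) (h : CycloGood p m n) :
    CycloCondP p m (n : ℚ_[p]) := by
  have hp : p.Prime := Fact.out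
  have := Nat.ordProj_mul_ordCompl_eq_self n p
  rw [← this]
  push_cast
  exact ((cycloCondP_self p m).pow _).mul
    (cycloCondP_natCast (Nat.coprime_ordCompl hp hn) (h.natCast_ordCompl hn))

/-- **Product formula, conclusion at `p`.** A positive rational satisfying the conditions at all
primes `l ≠ p` satisfies the condition at `p`. -/
theorem cycloCondP_of_forall_cycloCond {a : ℚ} (ha : 0 < a)
    (h : ∀ l : ℕ, l.Prime → l ≠ p → CycloCond p m l a) : CycloCondP p m (a : ℚ_[p]) := by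
  obtain ⟨hs, ht⟩ := cycloGood_of_cycloCond h
  have hnum : ((a.num.natAbs : ℕ) : ℤ) = a.num := Int.natAbs_of_nonneg (Rat.num_nonneg.mpr ha.le)
  have hnum0 : a.num.natAbs ≠ 0 := by
    rw [Ne, Int.natAbs_eq_zero, Rat.num_eq_zero]
    exact ha.ne'
  have : (a : ℚ_[p]) = ((a.num.natAbs : ℕ) : ℚ_[p]) / ((a.den : ℕ) : ℚ_[p]) := by
    conv_lhs => rw [← Rat.num_div_den a, ← hnum]
    rw [Rat.cast_div, Rat.cast_intCast, Rat.cast_natCast, Int.cast_natCast]
  rw [this]
  exact (cycloCondP_of_cycloGood hnum0 hs).div (cycloCondP_of_cycloGood a.den_ne_zero ht)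

theorem orderOf_dvd_of_cycloCondP_zpow {l : ℕ} (hl : l.Prime) (hlp : l ≠ p) (e : ℤ)
    (h : CycloCondP p m ((l : ℚ_[p]) ^ e)) : (orderOf (l : ZMod (p ^ m)) : ℤ) ∣ e := by
  have hp : p.Prime := Fact.out
  have hcop : p.Coprime l := (Nat.coprime_primes hp hl).mpr (Ne.symm hlp)
  have hnorm : ‖(l : ℤ_[p])‖ = 1 := PadicInt.norm_natCast_eq_one_iff.mpr hcop
  obtain ⟨w, hw⟩ := PadicInt.isUnit_iff.mpr hnorm
  -- the coercion of units
  let φ : ℤ_[p]ˣ →* ℚ_[p]ˣ := Units.map (PadicInt.Coe.ringHom : ℤ_[p] →+* ℚ_[p]).toMonoidHom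
  have hφ : ∀ v : ℤ_[p]ˣ, ((φ v : ℚ_[p]ˣ) : ℚ_[p]) = ((v : ℤ_[p]) : ℚ_[p]) := fun v => rfl
  have hwe : (((w ^ e : ℤ_[p]ˣ) : ℤ_[p]) : ℚ_[p]) = (l : ℚ_[p]) ^ e := by
    rw [← hφ, map_zpow, Units.val_zpow_eq_zpow_val, hφ, hw]
    simp
  rw [← hwe, cycloCondP_unit_iff] at h
  let θ : ℤ_[p]ˣ →* (ZMod (p ^ m))ˣ := Units.map (PadicInt.toZModPow m : ℤ_[p] →+* ZMod (p ^ m)).toMonoidHom
  have hθ : ∀ v : ℤ_[p]ˣ, ((θ v : (ZMod (p ^ m))ˣ) : ZMod (p ^ m)) = PadicInt.toZModPow m (v : ℤ_[p]) :=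
    fun v => rfl
  have h1 : θ w ^ e = 1 := by
    rw [← map_zpow]
    apply Units.ext
    rw [hθ, h]
    rfl
  have h2 := orderOf_dvd_iff_zpow_eq_one.mpr h1
  have h3 : orderOf (θ w) = orderOf (l : ZMod (p ^ m)) := by
    rw [← orderOf_units, hθ, hw, map_natCast]
  rwa [h3] at h2

/-- **Product formula, conclusion at `l₀ ≠ p`.** A positive rational satisfying the condition at
`p` and at all primes `l ∉ {p, l₀}` satisfies the condition at `l₀`. -/
theorem cycloCond_of_forall_cycloCond {a : ℚ} (ha : 0 < a) {l₀ : ℕ} (hl₀ : l₀.Prime)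
    (hl₀p : l₀ ≠ p) (hp : CycloCondP p m (a : ℚ_[p]))
    (h : ∀ l : ℕ, l.Prime → l ≠ p → l ≠ l₀ → CycloCond p m l a) : CycloCond p m l₀ a := by
  set e : ℤ := padicValRat l₀ a with he
  have hl₀0 : (l₀ : ℚ) ≠ 0 := by exact_mod_cast hl₀.ne_zero
  have hl₀pos : (0 : ℚ) < l₀ := by exact_mod_cast hl₀.pos
  set b : ℚ := a / (l₀ : ℚ) ^ e with hb
  have hbpos : 0 < b := div_pos ha (zpow_pos hl₀pos _)
  have hbc : ∀ l : ℕ, l.Prime → l ≠ p → CycloCond p m l b := by
    intro l hl hlp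
    haveI : Fact l.Prime := ⟨hl⟩
    unfold CycloCond
    rw [hb, padicValRat.div ha.ne' (zpow_ne_zero _ hl₀0), padicValRat.zpow]
    by_cases hll : l = l₀
    · subst hll
      rw [padicValRat.self hl.one_lt, mul_one, ← he, sub_self]
      exact dvd_zero _
    · have h0 : padicValRat l (l₀ : ℚ) = 0 := by
        rw [padicValRat.of_nat]
        haveI : Fact l₀.Prime := ⟨hl₀⟩
        exact_mod_cast padicValNat_primes hll
      rw [h0, mul_zero, sub_zero]
      exact h l hl hlp hll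
  have hbP := cycloCondP_of_forall_cycloCond hbpos hbc
  have hq : ((l₀ : ℚ_[p])) ^ e = (a : ℚ_[p]) / (b : ℚ_[p]) := by
    have : (l₀ : ℚ) ^ e = a / b := by
      rw [hb]
      field_simp
    rw [← Rat.cast_div, ← this]
    push_cast
    rfl
  have := hp.div hbP
  rw [← hq] at this
  exact orderOf_dvd_of_cycloCondP_zpow hl₀ hl₀p e this

end Rational2

/-! ## Norms of elements -/

section NumberField2

variable {p m : ℕ} [Fact p.Prime] {L : Type*} [Field L] [NumberField L] {ζ : L}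

/-- **Norms of elements, condition at `l ≠ p`.** -/
theorem cycloCond_norm (hζ : IsPrimitiveRoot ζ (p ^ m)) (y : L) (hy : y ≠ 0) {l : ℕ}
    (hl : l.Prime) (hlp : l ≠ p) : CycloCond p m l (Algebra.norm ℚ y) := by
  haveI : Fact l.Prime := ⟨hl⟩
  have hint : ∀ u : 𝓞 L, u ≠ 0 → CycloCond p m l (Algebra.norm ℚ (u : L)) := by
    intro u hu
    rw [← Algebra.coe_norm_int]
    unfold CycloCond
    rw [padicValRat.of_int]
    unfold padicValInt
    rw [Int.natCast_dvd_natCast, orderOf_dvd_iff_pow_eq_one, ← Nat.factorization_def _ hl]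
    exact cycloGood_natAbs_norm hζ u hu l hl hlp
  obtain ⟨u, v, hv, rfl⟩ := IsFractionRing.div_surjective (𝓞 L) y
  have hv0 : v ≠ 0 := nonZeroDivisors.ne_zero hv
  have hu0 : u ≠ 0 := by
    rintro rfl
    simp at hy
  have hnu : Algebra.norm ℚ (algebraMap (𝓞 L) L u) ≠ 0 := by
    rw [Ne, Algebra.norm_eq_zero_iff]
    simpa using hu0
  have hnv : Algebra.norm ℚ (algebraMap (𝓞 L) L v) ≠ 0 := by
    rw [Ne, Algebra.norm_eq_zero_iff]
    simpa using hv0
  unfold CycloCond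
  rw [div_eq_mul_inv, map_mul, Algebra.norm_inv, ← div_eq_mul_inv, padicValRat.div hnu hnv]
  exact dvd_sub (hint u hu0) (hint v hv0)

/-- **Norms of elements, condition at `p`.** -/
theorem cycloCondP_norm (hζ : IsPrimitiveRoot ζ (p ^ m)) (hN : 2 < p ^ m) (y : L) (hy : y ≠ 0) :
    CycloCondP p m ((Algebra.norm ℚ y : ℚ) : ℚ_[p]) :=
  cycloCondP_of_forall_cycloCond (norm_pos_of_isPrimitiveRoot hN hζ y hy)
    (fun _ hl hlp => cycloCond_norm hζ y hy hl hlp)

end NumberField2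

/-! ## Approximate norms -/

theorem padicValRat_eq_of_padicNorm_div_sub_one_lt {l : ℕ} [Fact l.Prime] {a b : ℚ} (ha : a ≠ 0)
    (hb : b ≠ 0) (h : padicNorm l (a / b - 1) < 1) : padicValRat l a = padicValRat l b := by
  have h1 : padicNorm l (a / b) = 1 := by
    have hne : padicNorm l (a / b - 1) ≠ padicNorm l 1 := by
      rw [padicNorm.one]; exact h.ne
    have := padicNorm.add_eq_max_of_ne hne
    rw [sub_add_cancel, padicNorm.one, max_eq_right h.le] at this
    exact this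
  have hab : a / b ≠ 0 := div_ne_zero ha hb
  rw [padicNorm.eq_zpow_of_nonzero hab] at h1
  have hl1 : (1 : ℚ) < l := by exact_mod_cast (Fact.out : l.Prime).one_lt
  have h2 := (zpow_eq_one_iff_right₀ (by positivity) hl1.ne').mp h1
  rw [padicValRat.div ha hb] at h2
  omega

section Approx

variable {p m : ℕ} [Fact p.Prime]

theorem cycloCondP_of_norm_sub_one_le {x : ℚ_[p]} (hm : 0 < m)
    (h : ‖x - 1‖ ≤ (p : ℝ) ^ (-(m : ℤ))) : CycloCondP p m x := by
  have hp1 : (1 : ℝ) < p := by exact_mod_cast (Fact.out : p.Prime).one_lt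
  have hlt : ‖x - 1‖ < 1 := by
    refine lt_of_le_of_lt h ?_
    rw [zpow_neg, zpow_natCast]
    exact inv_lt_one_of_one_lt₀ (one_lt_pow₀ hp1 hm.ne')
  have hx1 : ‖x‖ = 1 := by
    have hne : ‖x - 1‖ ≠ ‖(1 : ℚ_[p])‖ := by rw [norm_one]; exact hlt.ne
    have := Padic.add_eq_max_of_ne hne
    rw [sub_add_cancel, norm_one, max_eq_right hlt.le] at this
    exact this
  have hu : ((PadicInt.mkUnits hx1 : ℤ_[p]ˣ) : ℤ_[p]) = ⟨x, hx1.le⟩ := rfl
  have hxu : x = (((PadicInt.mkUnits hx1 : ℤ_[p]ˣ) : ℤ_[p]) : ℚ_[p]) := rfl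
  rw [hxu, cycloCondP_unit_iff]
  have hmem : ((PadicInt.mkUnits hx1 : ℤ_[p]ˣ) : ℤ_[p]) - 1 ∈
      Ideal.span {(p : ℤ_[p]) ^ m} := by
    rw [← PadicInt.norm_le_pow_iff_mem_span_pow, PadicInt.norm_def]
    exact h
  rw [← PadicInt.ker_toZModPow, RingHom.mem_ker, map_sub, map_one, sub_eq_zero] at hmem
  exact hmem

variable {L : Type*} [Field L] [NumberField L] {ζ : L}

/-- **Approximate norms at `l ≠ p`.** If `a` is `l`-adically close to a norm from `L`, then the
condition at `l` holds. -/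
theorem cycloCond_of_approx_norm (hζ : IsPrimitiveRoot ζ (p ^ m)) {a : ℚ} (ha : a ≠ 0) {y : L}
    (hy : y ≠ 0) {l : ℕ} (hl : l.Prime) (hlp : l ≠ p)
    (h : padicNorm l (a / Algebra.norm ℚ y - 1) < 1) : CycloCond p m l a := by
  haveI : Fact l.Prime := ⟨hl⟩
  have hn : Algebra.norm ℚ y ≠ 0 := by rwa [Ne, Algebra.norm_eq_zero_iff]
  unfold CycloCond
  rw [padicValRat_eq_of_padicNorm_div_sub_one_lt ha hn h]
  exact cycloCond_norm hζ y hy hl hlp

/-- **Approximate norms at `p`.** If `a` is `p`-adically close (to precision `p ^ m`) to a norm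
from `L`, then the condition at `p` holds.  No local norm index is used. -/
theorem cycloCondP_of_approx_norm (hζ : IsPrimitiveRoot ζ (p ^ m)) (hN : 2 < p ^ m) {a : ℚ}
    {y : L} (hy : y ≠ 0)
    (h : padicNorm p (a / Algebra.norm ℚ y - 1) ≤ (p : ℚ) ^ (-(m : ℤ))) :
    CycloCondP p m (a : ℚ_[p]) := by
  have hm : 0 < m := by
    rcases Nat.eq_zero_or_pos m with rfl | hm
    · simp at hN
    · exact hm
  have hn : Algebra.norm ℚ y ≠ 0 := by rwa [Ne, Algebra.norm_eq_zero_iff]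
  have h1 : CycloCondP p m ((a / Algebra.norm ℚ y : ℚ) : ℚ_[p]) := by
    apply cycloCondP_of_norm_sub_one_le hm
    have : (((a / Algebra.norm ℚ y : ℚ) : ℚ_[p]) - 1) = ((a / Algebra.norm ℚ y - 1 : ℚ) : ℚ_[p]) := by
      push_cast; rfl
    rw [this, Padic.eq_padicNorm]
    have h' := (Rat.cast_le (K := ℝ)).mpr h
    rw [Rat.cast_zpow, Rat.cast_natCast] at h'
    exact h'
  have h2 := (cycloCondP_norm hζ hN y hy).mul h1
  have h3 : ((Algebra.norm ℚ y : ℚ) : ℚ_[p]) * ((a / Algebra.norm ℚ y : ℚ) : ℚ_[p]) = (a : ℚ_[p]) := by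
    rw [← Rat.cast_mul]
    congr 1
    field_simp
  rwa [h3] at h2

end Approx

end Fermat.Agent.S55.helper7104
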