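import Fermat.Prelude.Def_GroupCohomology_ContinuousUnramified

/-!
# S55 / GC-CONJ (backup copy, helper9639): inner automorphisms act trivially on `H¹`, `H²`

Cochain-level statement with explicit homotopy, and the frozen-carrier corollaries:
local triviality of a class of `continuousH2S S M` (resp. of Mathlib's `H1 M`) along
`r : Γ →* G_ℚ` is equivalent to local triviality along any conjugate `r'`
(`r' (e γ) = g * r γ * g⁻¹` for a group isomorphism `e : Γ ≃* Γ'`).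
-/

set_option autoImplicit false

open CategoryTheory groupCohomology

namespace Fermat.Agent.S55.helper9639

noncomputable section

section Generic

universe u

variable {k G : Type u} [CommRing k] [Group G] (A : Rep k G)

/-- The conjugation homotopy: `h a = c (g⁻¹, g a g⁻¹) - c (a, g⁻¹)`. -/
def conjHtpy (g : G) (c : G × G → A) : G → A :=
  fun a => c (g⁻¹, g * a * g⁻¹) - c (a, g⁻¹)

/-- **Conjugation is homotopic to the identity on 2-cocycles**: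
`g⁻¹ • c (g a g⁻¹, g b g⁻¹) = c (a, b) + (d h) (a, b)` with `h = conjHtpy A g c`. -/
theorem rho_inv_conj_cocycle (g : G) {c : G × G → A} (hc : c ∈ cocycles₂ A) (a b : G) :
    A.ρ g⁻¹ (c (g * a * g⁻¹, g * b * g⁻¹)) =
      c (a, b) + (d₁₂ A).hom (conjHtpy A g c) (a, b) := by
  have hcoc := (mem_cocycles₂_iff c).1 hc
  have h1 := hcoc a b g⁻¹
  have h2 := hcoc a g⁻¹ (g * b * g⁻¹)
  have h3 := hcoc g⁻¹ (g * a * g⁻¹) (g * b * g⁻¹)
  have e1 : g⁻¹ * (g * b * g⁻¹) = b * g⁻¹ := by group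
  have e2 : g⁻¹ * (g * a * g⁻¹) = a * g⁻¹ := by group
  have e3 : g * a * g⁻¹ * (g * b * g⁻¹) = g * (a * b) * g⁻¹ := by group
  rw [e1] at h2
  rw [e2, e3] at h3
  rw [d₁₂_hom_apply]
  simp only [conjHtpy, map_sub]
  rw [← sub_eq_zero]
  have key : A.ρ g⁻¹ (c (g * a * g⁻¹, g * b * g⁻¹)) -
      (c (a, b) + (A.ρ a (c (g⁻¹, g * b * g⁻¹)) - A.ρ a (c (b, g⁻¹)) -
        (c (g⁻¹, g * (a * b) * g⁻¹) - c (a * b, g⁻¹)) +
        (c (g⁻¹, g * a * g⁻¹) - c (a, g⁻¹))))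
      = - (c (a * b, g⁻¹) + c (a, b) - (A.ρ a (c (b, g⁻¹)) + c (a, b * g⁻¹)))
        + (c (a * g⁻¹, g * b * g⁻¹) + c (a, g⁻¹)
            - (A.ρ a (c (g⁻¹, g * b * g⁻¹)) + c (a, b * g⁻¹)))
        - (c (a * g⁻¹, g * b * g⁻¹) + c (g⁻¹, g * a * g⁻¹)
            - (A.ρ g⁻¹ (c (g * a * g⁻¹, g * b * g⁻¹)) + c (g⁻¹, g * (a * b) * g⁻¹))) := by
    abel
  rw [key, h1, h2, h3]
  simp

/-- Conjugated form: `c (g a g⁻¹, g b g⁻¹) = g • (c (a, b) + (d h) (a, b))`. -/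
theorem conj_cocycle (g : G) {c : G × G → A} (hc : c ∈ cocycles₂ A) (a b : G) :
    c (g * a * g⁻¹, g * b * g⁻¹) =
      A.ρ g (c (a, b) + (d₁₂ A).hom (conjHtpy A g c) (a, b)) := by
  rw [← rho_inv_conj_cocycle A g hc a b, ← Module.End.mul_apply, ← map_mul, mul_inv_cancel,
    map_one, Module.End.one_apply]

/-- Degree 1: `c (g a g⁻¹) = g • (c a - (d (g⁻¹ • c g)) a)`, i.e.
`c (g a g⁻¹) = g • c a - (g a g⁻¹) • c g + c g`. -/
theorem conj_cocycle₁ (g : G) {c : G → A} (hc : c ∈ cocycles₁ A) (a : G) :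
    c (g * a * g⁻¹) = A.ρ g (c a) - A.ρ (g * a * g⁻¹) (c g) + c g := by
  have hcoc := (mem_cocycles₁_iff c).1 hc
  have h1 := hcoc (g * a * g⁻¹) g
  have e1 : g * a * g⁻¹ * g = g * a := by group
  rw [e1, hcoc g a] at h1
  rw [sub_add_eq_add_sub, h1, add_sub_cancel_left]

/-- Transport of a primitive along conjugation (degree 2).  If `u` is a primitive of the
pullback of the 2-cocycle `c` along `r : Γ →* G` and `r' ∘ e = g (r ·) g⁻¹`, then
`γ' ↦ g • (u (e⁻¹ γ') + h (r (e⁻¹ γ')))`, `h = conjHtpy A g c`, is a primitive of the pullback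
of `c` along `r'`. -/
theorem conj_primitive₂ {Γ Γ' : Type*} [Group Γ] [Group Γ'] (r : Γ →* G) (r' : Γ' →* G)
    (e : Γ ≃* Γ') (g : G) (he : ∀ γ, r' (e γ) = g * r γ * g⁻¹)
    {c : G × G → A} (hc : c ∈ cocycles₂ A) (u : Γ → A)
    (hu : ∀ γ₁ γ₂, A.ρ (r γ₁) (u γ₂) - u (γ₁ * γ₂) + u γ₁ = c (r γ₁, r γ₂)) (γ₁ γ₂ : Γ') :
    A.ρ (r' γ₁) (A.ρ g (u (e.symm γ₂) + conjHtpy A g c (r (e.symm γ₂))))
        - A.ρ g (u (e.symm (γ₁ * γ₂)) + conjHtpy A g c (r (e.symm (γ₁ * γ₂))))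
        + A.ρ g (u (e.symm γ₁) + conjHtpy A g c (r (e.symm γ₁))) = c (r' γ₁, r' γ₂) := by
  have h1 : r' γ₁ = g * r (e.symm γ₁) * g⁻¹ := by rw [← he, MulEquiv.apply_symm_apply]
  have h2 : r' γ₂ = g * r (e.symm γ₂) * g⁻¹ := by rw [← he, MulEquiv.apply_symm_apply]
  have h3 : A.ρ (g * r (e.symm γ₁) * g⁻¹) (A.ρ g (u (e.symm γ₂) + conjHtpy A g c (r (e.symm γ₂))))
      = A.ρ g (A.ρ (r (e.symm γ₁)) (u (e.symm γ₂) + conjHtpy A g c (r (e.symm γ₂)))) := by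
    rw [← Module.End.mul_apply, ← map_mul, ← Module.End.mul_apply, ← map_mul]
    congr 2
    group
  have hmul : e.symm (γ₁ * γ₂) = e.symm γ₁ * e.symm γ₂ := map_mul _ _ _
  have hr : r (e.symm γ₁ * e.symm γ₂) = r (e.symm γ₁) * r (e.symm γ₂) := map_mul _ _ _
  rw [h1, h2, conj_cocycle A g hc, ← hu, d₁₂_hom_apply, h3, hmul, hr, ← map_sub, ← map_add]
  congr 1
  dsimp only
  simp only [map_add]
  abel

/-- Transport of a primitive along conjugation (degree 1): if `c (r γ) = (r γ) • m - m` then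
`c (r' γ') = (r' γ') • m' - m'` with `m' = g • m - c g`. -/
theorem conj_primitive₁ {Γ Γ' : Type*} [Group Γ] [Group Γ'] (r : Γ →* G) (r' : Γ' →* G)
    (e : Γ ≃* Γ') (g : G) (he : ∀ γ, r' (e γ) = g * r γ * g⁻¹)
    {c : G → A} (hc : c ∈ cocycles₁ A) (m : A)
    (hm : ∀ γ, c (r γ) = A.ρ (r γ) m - m) (γ : Γ') :
    c (r' γ) = A.ρ (r' γ) (A.ρ g m - c g) - (A.ρ g m - c g) := by
  have h1 : r' γ = g * r (e.symm γ) * g⁻¹ := by rw [← he, MulEquiv.apply_symm_apply]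
  rw [h1, conj_cocycle₁ A g hc, hm]
  have h3 : A.ρ (g * r (e.symm γ) * g⁻¹) (A.ρ g m) = A.ρ g (A.ρ (r (e.symm γ)) m) := by
    rw [← Module.End.mul_apply, ← map_mul, ← Module.End.mul_apply, ← map_mul]
    congr 2
    group
  rw [map_sub, map_sub, h3]
  abel

end Generic

section H1

universe u

variable {k G : Type u} [CommRing k] [Group G] (A : Rep k G) {Γ Γ' : Type u} [Group Γ] [Group Γ']

theorem mapCocycles₁_id_apply (r : Γ →* G) (c : cocycles₁ A) (γ : Γ) :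
    (mapCocycles₁ r (𝟙 (Rep.res r A)) c) γ = c (r γ) := rfl

/-- The restriction along `r` of the class of a 1-cocycle `c` (Mathlib's `H1`) vanishes iff
`c ∘ r` is the coboundary of an element. -/
theorem map₁_H1π_eq_zero_iff (r : Γ →* G) (c : cocycles₁ A) :
    (map r (𝟙 (Rep.res r A)) 1).hom (H1π A c) = 0 ↔ ∃ m : A, ∀ γ, c (r γ) = A.ρ (r γ) m - m := by
  have h1 : (map r (𝟙 (Rep.res r A)) 1).hom (H1π A c)
      = H1π (Rep.res r A) (mapCocycles₁ r (𝟙 (Rep.res r A)) c) :=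
    H1π_comp_map_apply r (𝟙 (Rep.res r A)) c
  rw [h1, H1π_eq_zero_iff]
  constructor
  · rintro ⟨m, hm⟩
    refine ⟨m, fun γ => ?_⟩
    have := congrFun hm γ
    rw [d₀₁_hom_apply, mapCocycles₁_id_apply] at this
    exact this.symm
  · rintro ⟨m, hm⟩
    refine ⟨m, ?_⟩
    funext γ
    rw [d₀₁_hom_apply, mapCocycles₁_id_apply]
    exact (hm γ).symm

/-- **(B1), one direction.** -/
theorem map₁_eq_zero_of_conj (r : Γ →* G) (r' : Γ' →* G) (e : Γ ≃* Γ') (g : G)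
    (he : ∀ γ, r' (e γ) = g * r γ * g⁻¹) (x : H1 A)
    (hx : (map r (𝟙 (Rep.res r A)) 1).hom x = 0) :
    (map r' (𝟙 (Rep.res r' A)) 1).hom x = 0 := by
  induction x using H1_induction_on with
  | h c =>
    rw [map₁_H1π_eq_zero_iff] at hx ⊢
    obtain ⟨m, hm⟩ := hx
    exact ⟨A.ρ g m - c g, fun γ => conj_primitive₁ A r r' e g he c.2 m hm γ⟩

/-- **(B1).**  For a class of Mathlib's `H1`, vanishing of the restriction along `r` is
equivalent to vanishing of the restriction along any conjugate `r'` of `r`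
(`r' ∘ e = g (r ·) g⁻¹`). -/
theorem map₁_eq_zero_iff_of_conj (r : Γ →* G) (r' : Γ' →* G) (e : Γ ≃* Γ') (g : G)
    (he : ∀ γ, r' (e γ) = g * r γ * g⁻¹) (x : H1 A) :
    (map r' (𝟙 (Rep.res r' A)) 1).hom x = 0 ↔ (map r (𝟙 (Rep.res r A)) 1).hom x = 0 := by
  refine ⟨fun h => ?_, map₁_eq_zero_of_conj A r r' e g he x⟩
  refine map₁_eq_zero_of_conj A r' r e.symm g⁻¹ (fun γ' => ?_) x h
  have := he (e.symm γ')
  rw [MulEquiv.apply_symm_apply] at this
  rw [this]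
  group

end H1

section Level

universe u

variable {k G : Type u} [CommRing k] [Group G]
  (ρ : G →* (AlgebraicClosure ℚ ≃ₐ[ℚ] AlgebraicClosure ℚ)) (A : Rep k G)
variable {Γ Γ' : Type u} [Group Γ] [Group Γ']

/-- If `g τ g⁻¹` fixes the translate `g(E)` then `τ` fixes `E`. -/
theorem mem_fixingSubgroup_of_conj_mem_map (E : IntermediateField ℚ (AlgebraicClosure ℚ))
    (g τ : AlgebraicClosure ℚ ≃ₐ[ℚ] AlgebraicClosure ℚ)
    (h : g * τ * g⁻¹ ∈
      (E.map (g : AlgebraicClosure ℚ →ₐ[ℚ] AlgebraicClosure ℚ)).fixingSubgroup) :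
    τ ∈ E.fixingSubgroup := by
  rw [IntermediateField.mem_fixingSubgroup_iff] at h ⊢
  intro x hx
  have h1 := h (g x) ⟨x, hx, rfl⟩
  have h2 : (g * τ * g⁻¹) (g x) = g (τ x) := by
    simp [AlgEquiv.mul_apply]
  rw [h2] at h1
  exact g.injective h1

/-- **Cochain level.**  `ρ : G →* G_ℚ` a level structure on `G`, `c` a `ρ`-level-constant
2-cocycle of `G`, `r : Γ →* G`, `r' : Γ' →* G` with `r' ∘ e = g (r ·) g⁻¹` for some `g : G`,
levels on `Γ`, `Γ'` given by `rΓ = ρ ∘ r`, `rΓ' = ρ ∘ r'`.  If the pullback of `c` along `r` is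
a level coboundary, so is the pullback along `r'`; the new primitive is
`γ' ↦ g • (u (e⁻¹ γ') + h (r (e⁻¹ γ')))`, of level `ρ(g)(F_u ⊔ F_c) ⊔ F_c`. -/
theorem pullback_mem_levelCoboundaries₂_of_conj
    (r : Γ →* G) (rΓ : Γ →* (AlgebraicClosure ℚ ≃ₐ[ℚ] AlgebraicClosure ℚ))
    (hr : ∀ γ, ρ (r γ) = rΓ γ)
    (r' : Γ' →* G) (rΓ' : Γ' →* (AlgebraicClosure ℚ ≃ₐ[ℚ] AlgebraicClosure ℚ))
    (hr' : ∀ γ, ρ (r' γ) = rΓ' γ)
    (e : Γ ≃* Γ') (g : G) (he : ∀ γ, r' (e γ) = g * r γ * g⁻¹)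
    {c : G × G → A} (hc : c ∈ cocycles₂ A) (hlc : IsLevelConstant₂ ρ c)
    (h : cochainsPullPush₂ r (LinearMap.id : A →ₗ[k] Rep.res r A) c
      ∈ levelCoboundaries₂ rΓ (Rep.res r A)) :
    cochainsPullPush₂ r' (LinearMap.id : A →ₗ[k] Rep.res r' A) c
      ∈ levelCoboundaries₂ rΓ' (Rep.res r' A) := by
  obtain ⟨u, ⟨Fu, hFu, hu⟩, hdu⟩ := (mem_levelCoboundaries₂_iff rΓ _ _).1 h
  obtain ⟨Fc, hFc, hcl⟩ := hlc
  have := hFu
  have := hFc
  refine (mem_levelCoboundaries₂_iff rΓ' _ _).2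
    ⟨fun γ' => A.ρ g (u (e.symm γ') + conjHtpy A g c (r (e.symm γ'))),
      ⟨(Fu ⊔ Fc).map ((ρ g : AlgebraicClosure ℚ ≃ₐ[ℚ] AlgebraicClosure ℚ) :
          AlgebraicClosure ℚ →ₐ[ℚ] AlgebraicClosure ℚ) ⊔ Fc, inferInstance,
        fun γ s hs => ?_⟩, ?_⟩
  · -- level-constancy
    rw [IntermediateField.fixingSubgroup_sup] at hs
    have hs1 : rΓ' s = ρ g * ρ (r (e.symm s)) * (ρ g)⁻¹ := by
      rw [← hr', ← map_inv, ← map_mul, ← map_mul, ← he, MulEquiv.apply_symm_apply]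
    have hs2 : ρ (r (e.symm s)) ∈ (Fu ⊔ Fc).fixingSubgroup :=
      mem_fixingSubgroup_of_conj_mem_map _ (ρ g) _ (hs1 ▸ hs.1)
    rw [IntermediateField.fixingSubgroup_sup] at hs2
    have hs3 : ρ (g * r (e.symm s) * g⁻¹) ∈ Fc.fixingSubgroup := by
      rw [map_mul, map_mul, map_inv, ← hs1]
      exact hs.2
    have hmul : e.symm (γ * s) = e.symm γ * e.symm s := map_mul _ _ _
    have hone : ρ 1 ∈ Fc.fixingSubgroup := by
      rw [map_one]
      exact Subgroup.one_mem _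
    show A.ρ g (u (e.symm (γ * s)) + conjHtpy A g c (r (e.symm (γ * s))))
      = A.ρ g (u (e.symm γ) + conjHtpy A g c (r (e.symm γ)))
    rw [hmul, hu _ _ (by rw [← hr]; exact hs2.1), map_mul]
    congr 2
    simp only [conjHtpy]
    have e1 : g * (r (e.symm γ) * r (e.symm s)) * g⁻¹
        = g * r (e.symm γ) * g⁻¹ * (g * r (e.symm s) * g⁻¹) := by group
    have t1 := hcl g⁻¹ (g * r (e.symm γ) * g⁻¹) 1 (g * r (e.symm s) * g⁻¹) hone hs3
    have t2 := hcl (r (e.symm γ)) g⁻¹ (r (e.symm s)) 1 hs2.2 hone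
    rw [mul_one] at t1 t2
    rw [e1, t1, t2]
  · -- the coboundary equation
    funext ⟨γ₁, γ₂⟩
    rw [d₁₂_hom_apply]
    have hu' : ∀ γ₁ γ₂ : Γ, A.ρ (r γ₁) (u γ₂) - u (γ₁ * γ₂) + u γ₁ = c (r γ₁, r γ₂) := by
      intro a b
      have := congrFun hdu (a, b)
      rw [d₁₂_hom_apply] at this
      exact this
    exact conj_primitive₂ A r r' e g he hc u hu' γ₁ γ₂

/-- Restriction of level classes along `r` (the map underlying the frozen `locRes₂S`). -/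
abbrev resH2 (r : Γ →* G) (rΓ : Γ →* (AlgebraicClosure ℚ ≃ₐ[ℚ] AlgebraicClosure ℚ))
    (hr : ∀ γ, ρ (r γ) = rΓ γ) : continuousH2 ρ A →ₗ[k] continuousH2 rΓ (Rep.res r A) :=
  continuousH2Map (rH := ρ) (rG := rΓ) (A := A) (B := Rep.res r A) r hr
    (LinearMap.id : A →ₗ[k] Rep.res r A) (fun _ _ => rfl)

theorem resH2_mk_eq_zero_iff (r : Γ →* G)
    (rΓ : Γ →* (AlgebraicClosure ℚ ≃ₐ[ℚ] AlgebraicClosure ℚ)) (hr : ∀ γ, ρ (r γ) = rΓ γ)
    (c : ↥(levelCocycles₂ ρ A)) :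
    resH2 ρ A r rΓ hr (continuousH2π ρ A c) = 0 ↔
      cochainsPullPush₂ r (LinearMap.id : A →ₗ[k] Rep.res r A) (c : G × G → A)
        ∈ levelCoboundaries₂ rΓ (Rep.res r A) := by
  rw [resH2, continuousH2Map_continuousH2π, continuousH2π_eq_zero_iff]
  rfl

/-- **(B2), level classes, one direction.** -/
theorem resH2_eq_zero_of_conj
    (r : Γ →* G) (rΓ : Γ →* (AlgebraicClosure ℚ ≃ₐ[ℚ] AlgebraicClosure ℚ))
    (hr : ∀ γ, ρ (r γ) = rΓ γ)
    (r' : Γ' →* G) (rΓ' : Γ' →* (AlgebraicClosure ℚ ≃ₐ[ℚ] AlgebraicClosure ℚ))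
    (hr' : ∀ γ, ρ (r' γ) = rΓ' γ)
    (e : Γ ≃* Γ') (g : G) (he : ∀ γ, r' (e γ) = g * r γ * g⁻¹)
    (x : continuousH2 ρ A) (hx : resH2 ρ A r rΓ hr x = 0) : resH2 ρ A r' rΓ' hr' x = 0 := by
  obtain ⟨c, rfl⟩ := Submodule.mkQ_surjective _ x
  change resH2 ρ A r' rΓ' hr' (continuousH2π ρ A c) = 0
  change resH2 ρ A r rΓ hr (continuousH2π ρ A c) = 0 at hx
  rw [resH2_mk_eq_zero_iff] at hx ⊢
  exact pullback_mem_levelCoboundaries₂_of_conj ρ A r rΓ hr r' rΓ' hr' e g he c.2.1 c.2.2 hx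

/-- **(B2), level classes.**  For a class of `continuousH2 ρ A`, vanishing of the restriction
along `r` is equivalent to vanishing of the restriction along any conjugate `r'` of `r`. -/
theorem resH2_eq_zero_iff_of_conj
    (r : Γ →* G) (rΓ : Γ →* (AlgebraicClosure ℚ ≃ₐ[ℚ] AlgebraicClosure ℚ))
    (hr : ∀ γ, ρ (r γ) = rΓ γ)
    (r' : Γ' →* G) (rΓ' : Γ' →* (AlgebraicClosure ℚ ≃ₐ[ℚ] AlgebraicClosure ℚ))
    (hr' : ∀ γ, ρ (r' γ) = rΓ' γ)
    (e : Γ ≃* Γ') (g : G) (he : ∀ γ, r' (e γ) = g * r γ * g⁻¹)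
    (x : continuousH2 ρ A) : resH2 ρ A r' rΓ' hr' x = 0 ↔ resH2 ρ A r rΓ hr x = 0 := by
  refine ⟨fun h => ?_, resH2_eq_zero_of_conj ρ A r rΓ hr r' rΓ' hr' e g he x⟩
  refine resH2_eq_zero_of_conj ρ A r' rΓ' hr' r rΓ hr e.symm g⁻¹ (fun γ' => ?_) x h
  have := he (e.symm γ')
  rw [MulEquiv.apply_symm_apply] at this
  rw [this]
  group

end Level

section Frozen

open ExtCitation

variable {k : Type} [CommRing k]
  (M : Rep k (AlgebraicClosure ℚ ≃ₐ[ℚ] AlgebraicClosure ℚ))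
variable {Γ Γ' : Type} [Group Γ] [Group Γ']

/-- The frozen `locRes₂S` is `resH2` (for the tautological level structure on `G_ℚ`) after the
forgetful map `continuousH2S S M → continuousH2 id M`. -/
theorem locRes₂S_eq_resH2_comp (S : Finset Nat.Primes)
    (r : Γ →* (AlgebraicClosure ℚ ≃ₐ[ℚ] AlgebraicClosure ℚ)) :
    locRes₂S S M r = resH2 (MonoidHom.id _) M r r (fun _ => rfl) ∘ₗ
      continuousH2SToContinuousH2 S M := rfl

/-- The restriction along `r` of the class of an `S`-level cocycle vanishes iff its pullback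
is a level coboundary. -/
theorem locRes₂S_mk_eq_zero_iff (S : Finset Nat.Primes)
    (r : Γ →* (AlgebraicClosure ℚ ≃ₐ[ℚ] AlgebraicClosure ℚ)) (c : ↥(levelCocyclesS₂ S M)) :
    locRes₂S S M r (continuousH2Sπ S M c) = 0 ↔
      cochainsPullPush₂ r (LinearMap.id : M →ₗ[k] Rep.res r M)
        (c : (AlgebraicClosure ℚ ≃ₐ[ℚ] AlgebraicClosure ℚ) ×
          (AlgebraicClosure ℚ ≃ₐ[ℚ] AlgebraicClosure ℚ) → M)
        ∈ levelCoboundaries₂ r (Rep.res r M) := by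
  have h1 : locRes₂S S M r (continuousH2Sπ S M c) =
      continuousH2π r (Rep.res r M)
        (levelCocycles₂Map (rH := MonoidHom.id _) (rG := r) (A := M) (B := Rep.res r M) r
          (fun _ => rfl) (LinearMap.id : M →ₗ[k] Rep.res r M) (fun _ _ => rfl)
          (levelCocyclesS₂ToLevelCocycles₂ S M c)) := rfl
  rw [h1, continuousH2π_eq_zero_iff]
  rfl

/-- **(B2), frozen carrier, one direction.** -/
theorem locRes₂S_eq_zero_of_conj (S : Finset Nat.Primes)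
    (r : Γ →* (AlgebraicClosure ℚ ≃ₐ[ℚ] AlgebraicClosure ℚ))
    (r' : Γ' →* (AlgebraicClosure ℚ ≃ₐ[ℚ] AlgebraicClosure ℚ)) (e : Γ ≃* Γ')
    (g : AlgebraicClosure ℚ ≃ₐ[ℚ] AlgebraicClosure ℚ) (he : ∀ γ, r' (e γ) = g * r γ * g⁻¹)
    (x : continuousH2S S M) (hx : locRes₂S S M r x = 0) : locRes₂S S M r' x = 0 :=
  resH2_eq_zero_of_conj (MonoidHom.id _) M r r (fun _ => rfl) r' r' (fun _ => rfl) e g he _ hx

/-- **(B2), frozen carrier.**  Local triviality of a class of `continuousH2S S M` along `r` is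
equivalent to local triviality along any conjugate `r'` of `r` (`r' ∘ e = g (r ·) g⁻¹`). -/
theorem locRes₂S_eq_zero_iff_of_conj (S : Finset Nat.Primes)
    (r : Γ →* (AlgebraicClosure ℚ ≃ₐ[ℚ] AlgebraicClosure ℚ))
    (r' : Γ' →* (AlgebraicClosure ℚ ≃ₐ[ℚ] AlgebraicClosure ℚ)) (e : Γ ≃* Γ')
    (g : AlgebraicClosure ℚ ≃ₐ[ℚ] AlgebraicClosure ℚ) (he : ∀ γ, r' (e γ) = g * r γ * g⁻¹)
    (x : continuousH2S S M) : locRes₂S S M r' x = 0 ↔ locRes₂S S M r x = 0 :=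
  resH2_eq_zero_iff_of_conj (MonoidHom.id _) M r r (fun _ => rfl) r' r' (fun _ => rfl) e g he _

/-- The conjugate `γ ↦ g (r γ) g⁻¹` of a homomorphism `r : Γ →* G_ℚ`. -/
abbrev conjHom (g : AlgebraicClosure ℚ ≃ₐ[ℚ] AlgebraicClosure ℚ)
    (r : Γ →* (AlgebraicClosure ℚ ≃ₐ[ℚ] AlgebraicClosure ℚ)) :
    Γ →* (AlgebraicClosure ℚ ≃ₐ[ℚ] AlgebraicClosure ℚ) :=
  (MulAut.conj g).toMonoidHom.comp r

theorem conjHom_apply (g : AlgebraicClosure ℚ ≃ₐ[ℚ] AlgebraicClosure ℚ)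
    (r : Γ →* (AlgebraicClosure ℚ ≃ₐ[ℚ] AlgebraicClosure ℚ)) (γ : Γ) :
    conjHom g r γ = g * r γ * g⁻¹ := rfl

/-- `locRes₂S` along `conjHom g r` vanishes iff `locRes₂S` along `r` does. -/
theorem locRes₂S_conjHom_eq_zero_iff (S : Finset Nat.Primes)
    (r : Γ →* (AlgebraicClosure ℚ ≃ₐ[ℚ] AlgebraicClosure ℚ))
    (g : AlgebraicClosure ℚ ≃ₐ[ℚ] AlgebraicClosure ℚ) (x : continuousH2S S M) :
    locRes₂S S M (conjHom g r) x = 0 ↔ locRes₂S S M r x = 0 :=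
  locRes₂S_eq_zero_iff_of_conj M S r (conjHom g r) (MulEquiv.refl Γ) g (fun _ => rfl) x

/-- Subgroup form: a class is locally trivial on `D` iff it is on `g D g⁻¹`. -/
theorem locRes₂S_subtype_map_conj_eq_zero_iff (S : Finset Nat.Primes)
    (D : Subgroup (AlgebraicClosure ℚ ≃ₐ[ℚ] AlgebraicClosure ℚ))
    (g : AlgebraicClosure ℚ ≃ₐ[ℚ] AlgebraicClosure ℚ) (x : continuousH2S S M) :
    locRes₂S S M (D.map (MulAut.conj g).toMonoidHom).subtype x = 0 ↔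
      locRes₂S S M D.subtype x = 0 :=
  locRes₂S_eq_zero_iff_of_conj M S D.subtype (D.map (MulAut.conj g).toMonoidHom).subtype
    ((MulAut.conj g).subgroupMap D) g (fun _ => rfl) x

/-- **(C), `sha₂`.**  A class lies in `sha₂ S M` iff it is locally trivial along every conjugate
of every local group `extArithLoc S v`. -/
theorem mem_sha₂_iff_forall_conj (S : Finset Nat.Primes) (x : continuousH2S S M) :
    x ∈ sha₂ S M ↔ ∀ (v : extArithIndex S) (g : AlgebraicClosure ℚ ≃ₐ[ℚ] AlgebraicClosure ℚ),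
      locRes₂S S M (conjHom g (extArithLoc S v)) x = 0 := by
  unfold sha₂
  rw [LinearMap.mem_ker]
  constructor
  · intro h v g
    rw [locRes₂S_conjHom_eq_zero_iff]
    exact congrFun h v
  · intro h
    funext v
    have := h v 1
    rwa [locRes₂S_conjHom_eq_zero_iff] at this

/-- **(C), `sha₁`.**  A class of `H1 A` lies in `sha₁ S A` iff it is `S`-level and its restriction
along every conjugate of every local group `extArithLoc S v` vanishes. -/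
theorem mem_sha₁_iff_forall_conj (S : Finset Nat.Primes) {K : Type} [Field K]
    (A : Rep K (AlgebraicClosure ℚ ≃ₐ[ℚ] AlgebraicClosure ℚ)) (x : H1 A) :
    x ∈ sha₁ S A ↔ x ∈ continuousH1S S A ∧
      ∀ (v : extArithIndex S) (g : AlgebraicClosure ℚ ≃ₐ[ℚ] AlgebraicClosure ℚ),
        (map (conjHom g (extArithLoc S v)) (𝟙 (Rep.res (conjHom g (extArithLoc S v)) A)) 1).hom x
          = 0 := by
  unfold sha₁
  rw [Submodule.mem_inf, LinearMap.mem_ker]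
  refine and_congr Iff.rfl ⟨fun h v g => ?_, fun h => ?_⟩
  · rw [map₁_eq_zero_iff_of_conj A (extArithLoc S v) (conjHom g (extArithLoc S v))
      (MulEquiv.refl _) g (fun _ => rfl)]
    exact congrFun h v
  · funext v
    have := h v 1
    rwa [map₁_eq_zero_iff_of_conj A (extArithLoc S v) (conjHom 1 (extArithLoc S v))
      (MulEquiv.refl _) 1 (fun _ => rfl)] at this

end Frozen

end

end Fermat.Agent.S55.helper9639
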