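/-
S55 / NF-GR (helper3750, backup seat): the weak reciprocity law (G-R) over `ℚ` on the frozen
carriers, assembled from landed bricks.

`T := ofChar (cycloChar p)` (the module `μ_p`), `S ∋ p` a finite set of primes, `p` odd.

* `exists_global_normalForm` (G) : a level-`S` 2-cocycle of `T` which is split by the cyclotomic
  layer `L = ℚ(ζ_{p^(n+1)})` is `mulCyc χ a * d e` with `a ∈ ℚ`, `a > 0`, and `e` an `S`-level
  cochain with values in an `S`-field (`χ` the cyclic character of `Gal(L/ℚ)`).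
* `local_coboundary_iff_norm` (L) : at a prime `l`, `mulCyc (χ ∘ r_l) a` is a frozen-level
  coboundary iff `a` is a norm from `ℚ_l(ζ_{p^(n+1)})`.
* `gr_weak` : "no class of `H²(G_S, μ_p)` is nontrivial at exactly one prime of `S`", from
  `HSplitAt` (splitting by the cyclotomic layer), `UnrCrit` (the unramified input), and the two
  local norm criteria `NormCritAt`, `NormCritAway`.
-/
import Mathlib
import Fermat.Prelude.Def_GroupCohomology_ContinuousUnramified
import Fermat.Agent.S55.helper3750_GalLayer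
import Fermat.Agent.S55.helper6706_MuP
import Fermat.Agent.S55.helper9639_Conj
import Fermat.Agent.S55.helper4058_Krasner
import Fermat.Agent.S55.helper4709_GlobRam2
import Fermat.Agent.S55.helper7104_CycloRec
import Fermat.Agent.S55.helper5519_CycloProduct

set_option autoImplicit false
set_option linter.unusedSectionVars false

namespace Fermat.Agent.S55.helper3750

open groupCohomology ExtCitation
open Fermat.Agent.S55.helper6440 (carry mulCyc)
open Fermat.Agent.S55.helper6706 (muExp zetaQbar zetaPadic)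

local notation "Qb" => AlgebraicClosure ℚ
local notation "GQ" => (AlgebraicClosure ℚ ≃ₐ[ℚ] AlgebraicClosure ℚ)

theorem isAlgebraic_Qb : Algebra.IsAlgebraic ℚ Qb := AlgebraicClosure.isAlgebraic ℚ

theorem isAlgClosure_Qb : IsAlgClosure ℚ Qb := ⟨inferInstance, isAlgebraic_Qb⟩

theorem isGalois_Qb : IsGalois ℚ Qb :=
  haveI := isAlgClosure_Qb
  inferInstance

theorem isIntegral_Qb : Algebra.IsIntegral ℚ Qb :=
  haveI := isAlgebraic_Qb
  inferInstance

attribute [local instance] isAlgebraic_Qb isAlgClosure_Qb isGalois_Qb isIntegral_Qb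

/-! ## Intermediate fields with their intermediate-field instances

Over `K₀ = ℚ` the default instance `Algebra ℚ ↥E` is `DivisionRing.toRatAlgebra`, which is not
reducibly equal to `E.algebra'`; the generic statements of `helper3750_GalLayer` use the latter.
The abbreviations below fix the intermediate-field instances. -/

section GenericIF

variable {K₀ Ω : Type*} [Field K₀] [Field Ω] [Algebra K₀ Ω]

/-- `Gal(E/K₀)` of an intermediate field. -/
abbrev GalIF (E : IntermediateField K₀ Ω) : Type _ := E ≃ₐ[K₀] E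

/-- `E/K₀` is Galois. -/
abbrev GaloisIF (E : IntermediateField K₀ Ω) : Prop := IsGalois K₀ E

/-- `E/K₀` is finite. -/
abbrev FinIF (E : IntermediateField K₀ Ω) : Prop := FiniteDimensional K₀ E

/-- `E/K₀` is an `m`-th cyclotomic extension. -/
abbrev CycloIF (m : ℕ) (E : IntermediateField K₀ Ω) : Prop := IsCyclotomicExtension {m} K₀ E

/-- The norm `E → K₀` of an intermediate field. -/
noncomputable abbrev normIF (E : IntermediateField K₀ Ω) : E →* K₀ := Algebra.norm K₀

variable [Algebra.IsIntegral K₀ Ω] {m : ℕ} [NeZero m] {ζ : Ω}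

theorem cycloIF_of_eq (E : IntermediateField K₀ Ω) (hζ : IsPrimitiveRoot ζ m)
    (hE : E = IntermediateField.adjoin K₀ {ζ}) : CycloIF m E := by
  subst hE
  exact IsPrimitiveRoot.intermediateField_adjoin_isCyclotomicExtension K₀ hζ

theorem galoisIF_of_eq (E : IntermediateField K₀ Ω) (hζ : IsPrimitiveRoot ζ m)
    (hE : E = IntermediateField.adjoin K₀ {ζ}) : GaloisIF E :=
  haveI := cycloIF_of_eq E hζ hE
  IsCyclotomicExtension.isGalois {m} K₀ E

theorem finIF_of_eq (E : IntermediateField K₀ Ω) (hζ : IsPrimitiveRoot ζ m)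
    (hE : E = IntermediateField.adjoin K₀ {ζ}) : FinIF E :=
  haveI := cycloIF_of_eq E hζ hE
  IsCyclotomicExtension.finiteDimensional {m} K₀ E

end GenericIF

/-! ## The cyclic character of a finite cyclic Galois subextension -/

section CycChar

variable {K₀ Ω : Type*} [Field K₀] [Field Ω] [Algebra K₀ Ω] [IsGalois K₀ Ω]
  (E : IntermediateField K₀ Ω) [FiniteDimensional K₀ E] [IsGalois K₀ E]

/-- The additive character `Gal(Ω/K₀) → Gal(E/K₀) ≃ ZMod #Gal(E/K₀)` of a finite cyclic Galois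
subextension `E`. -/
noncomputable def cycChar (hcyc : IsCyclic (GalIF E)) :
    (Ω ≃ₐ[K₀] Ω) → ZMod (Nat.card (GalIF E)) :=
  fun g => Multiplicative.toAdd ((zmodCyclicMulEquiv hcyc).symm (AlgEquiv.restrictNormalHom E g))

lemma cycChar_mul (hcyc : IsCyclic (GalIF E)) (g h : Ω ≃ₐ[K₀] Ω) :
    cycChar E hcyc (g * h) = cycChar E hcyc g + cycChar E hcyc h := by
  unfold cycChar
  rw [map_mul, map_mul]
  rfl

lemma cycChar_eq_zero_iff (hcyc : IsCyclic (GalIF E)) (g : Ω ≃ₐ[K₀] Ω) :
    cycChar E hcyc g = 0 ↔ g ∈ E.fixingSubgroup := by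
  rw [← IntermediateField.restrictNormalHom_ker E, MonoidHom.mem_ker]
  unfold cycChar
  constructor
  · intro h
    have h1 : (zmodCyclicMulEquiv hcyc).symm (AlgEquiv.restrictNormalHom E g) = 1 := h
    exact (MulEquiv.map_eq_one_iff _).1 h1
  · intro h
    rw [h, map_one]
    rfl

lemma exists_cycChar_eq_one (hcyc : IsCyclic (GalIF E)) :
    ∃ σ : Ω ≃ₐ[K₀] Ω, cycChar E hcyc σ = 1 := by
  obtain ⟨σ, hσ⟩ := AlgEquiv.restrictNormalHom_surjective (F := K₀) (K₁ := E) Ω
    (zmodCyclicMulEquiv hcyc (Multiplicative.ofAdd 1))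
  refine ⟨σ, ?_⟩
  unfold cycChar
  rw [hσ, MulEquiv.symm_apply_apply]
  rfl

end CycChar

/-! ## The cyclotomic layer `ℚ(ζ_{p^(n+1)})` -/

section Cyclo

variable (p : ℕ) [Fact p.Prime] (n : ℕ)

theorem neZero_pow : NeZero (p ^ (n + 1)) := ⟨pow_ne_zero _ (Fact.out : p.Prime).ne_zero⟩

attribute [local instance] neZero_pow

lemma exists_zetaM : ∃ ζ : Qb, IsPrimitiveRoot ζ (p ^ (n + 1)) := by
  have : NeZero ((p ^ (n + 1) : ℕ) : Qb) := ⟨Nat.cast_ne_zero.mpr (NeZero.ne _)⟩
  exact HasEnoughRootsOfUnity.exists_primitiveRoot Qb (p ^ (n + 1))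

/-- A chosen primitive `p^(n+1)`-th root of unity in `ℚ̄`. -/
noncomputable def zetaM : Qb := (exists_zetaM p n).choose

lemma zetaM_spec : IsPrimitiveRoot (zetaM p n) (p ^ (n + 1)) := (exists_zetaM p n).choose_spec

/-- The cyclotomic field `ℚ(ζ_{p^(n+1)})` inside `ℚ̄`. -/
noncomputable def cycloL : IntermediateField ℚ Qb := IntermediateField.adjoin ℚ {zetaM p n}

theorem cycloIF_cycloL : CycloIF (p ^ (n + 1)) (cycloL p n) :=
  cycloIF_of_eq _ (zetaM_spec p n) rfl

theorem finIF_cycloL : FinIF (cycloL p n) := finIF_of_eq _ (zetaM_spec p n) rfl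

theorem galoisIF_cycloL : GaloisIF (cycloL p n) := galoisIF_of_eq _ (zetaM_spec p n) rfl

theorem numberField_cycloL : NumberField (cycloL p n) :=
  { to_charZero := inferInstance, to_finiteDimensional := finIF_cycloL p n }

theorem isCyclotomicExtension_cycloL : IsCyclotomicExtension {p ^ (n + 1)} ℚ (cycloL p n) :=
  cycloIF_cycloL p n

theorem isCyclic_gal_cycloL (hp2 : p ≠ 2) : IsCyclic (GalIF (cycloL p n)) := by
  have := numberField_cycloL p n
  have := isCyclotomicExtension_cycloL p n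
  have := ZMod.isCyclic_units_of_prime_pow p (Fact.out : p.Prime) hp2 (n + 1)
  exact isCyclic_of_surjective
    (IsCyclotomicExtension.Rat.galEquivZMod (p ^ (n + 1)) (cycloL p n)).symm
    (MulEquiv.surjective _)

/-- `g` fixes `ℚ(ζ_{p^(n+1)})` iff it fixes every `p^(n+1)`-th root of unity. -/
lemma mem_fixingSubgroup_cycloL_iff (g : GQ) :
    g ∈ (cycloL p n).fixingSubgroup ↔ ∀ ζ : Qb, ζ ^ (p ^ (n + 1)) = 1 → g ζ = ζ := by
  constructor
  · intro hg ζ hζ
    obtain ⟨i, -, rfl⟩ := (zetaM_spec p n).eq_pow_of_pow_eq_one hζ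
    have h1 : g (zetaM p n) = zetaM p n :=
      (IntermediateField.mem_fixingSubgroup_iff _ _).1 hg _
        (IntermediateField.mem_adjoin_simple_self ℚ _)
    rw [map_pow, h1]
  · intro h
    exact helper4709.mem_fixingSubgroup_adjoin_singleton g _ (h _ (zetaM_spec p n).pow_eq_one)

/-- Every `p^(n+1)`-th root of unity lies in `ℚ(ζ_{p^(n+1)})`. -/
lemma rootOfUnity_mem_cycloL (ζ : Qb) (hζ : ζ ^ (p ^ (n + 1)) = 1) : ζ ∈ cycloL p n := by
  obtain ⟨i, -, rfl⟩ := (zetaM_spec p n).eq_pow_of_pow_eq_one hζ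
  exact pow_mem (IntermediateField.mem_adjoin_simple_self ℚ _) i

end Cyclo

/-! ## (G): the global normal form -/

section Global

variable (p : ℕ) [Fact p.Prime] (n : ℕ)

attribute [local instance] neZero_pow finIF_cycloL galoisIF_cycloL

/-- The cyclic character `G_ℚ → Gal(ℚ(ζ_{p^(n+1)})/ℚ) ≃ ZMod d` (`p` odd). -/
noncomputable def chiL (hp2 : p ≠ 2) : GQ → ZMod (Nat.card (GalIF (cycloL p n))) :=
  cycChar (cycloL p n) (isCyclic_gal_cycloL p n hp2)

lemma chiL_mul (hp2 : p ≠ 2) (g h : GQ) :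
    chiL p n hp2 (g * h) = chiL p n hp2 g + chiL p n hp2 h :=
  cycChar_mul _ _ g h

lemma chiL_eq_zero_iff (hp2 : p ≠ 2) (g : GQ) :
    chiL p n hp2 g = 0 ↔ ∀ ζ : Qb, ζ ^ (p ^ (n + 1)) = 1 → g ζ = ζ := by
  rw [← mem_fixingSubgroup_cycloL_iff]
  exact cycChar_eq_zero_iff _ _ g

lemma exists_chiL_eq_one (hp2 : p ≠ 2) : ∃ σ : GQ, chiL p n hp2 σ = 1 :=
  exists_cycChar_eq_one _ _

/-- **Input (HSplit)** of the assembly (leaf NF-GR-SPLIT): every level-`S` 2-cocycle of `μ_p`
becomes, on the fixing subgroup of `ℚ(ζ_{p^(n+1)})`, the coboundary of an `S`-level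
`ℚ̄ˣ`-valued cochain. -/
def HSplitAt (S : Finset Nat.Primes) : Prop :=
  ∀ c ∈ levelCocyclesS₂ S (ofChar (k := ZMod p) (cycloChar p)),
    ∃ h : GQ → Qbˣ, IsLevelConstantS₁ S h ∧
      ∀ g g' : GQ, (∀ ζ : Qb, ζ ^ (p ^ (n + 1)) = 1 → g ζ = ζ) →
        (∀ ζ : Qb, ζ ^ (p ^ (n + 1)) = 1 → g' ζ = ζ) →
        g • h g' / h (g * g') * h g = muExp (p := p) (zetaQbar p) (c (g, g'))

/-- **(G).** Global normal form of a split level-`S` cocycle. -/
theorem exists_global_normalForm (hp2 : p ≠ 2) (S : Finset Nat.Primes) (hpS : pPrime p ∈ S)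
    (c : GQ × GQ → ofChar (k := ZMod p) (cycloChar p))
    (hc : c ∈ levelCocyclesS₂ S (ofChar (k := ZMod p) (cycloChar p)))
    (h : GQ → Qbˣ) (hh : IsLevelConstantS₁ S h)
    (hrel : ∀ g g' : GQ, (∀ ζ : Qb, ζ ^ (p ^ (n + 1)) = 1 → g ζ = ζ) →
        (∀ ζ : Qb, ζ ^ (p ^ (n + 1)) = 1 → g' ζ = ζ) →
        g • h g' / h (g * g') * h g = muExp (p := p) (zetaQbar p) (c (g, g'))) :
    ∃ (a : ℚ) (b : Qbˣ) (F : IntermediateField ℚ Qb) (e : GQ → Qbˣ), 0 < a ∧
      (b : Qb) = (a : Qb) ∧ F.IsUnramifiedOutside S ∧ Normal ℚ F ∧ cycloL p n ≤ F ∧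
      (∀ g, (e g : Qb) ∈ F) ∧ (∀ g s, s ∈ F.fixingSubgroup → e (g * s) = e g) ∧
      ∀ g g', muExp (p := p) (zetaQbar p) (c (g, g')) =
        mulCyc (chiL p n hp2) b (g, g') * (g • e g' / e (g * g') * e g) := by
  classical
  obtain ⟨hcoc, hlev⟩ := ((helper6706.isMulEmbedding_global p).mem_levelCocyclesS₂_iff S c).1 hc
  obtain ⟨Fc, hFc, hMinv⟩ := hlev
  obtain ⟨Fh, hFh, hhinv⟩ := hh
  have hLS : (cycloL p n).IsUnramifiedOutside S :=
    helper4709.isUnramifiedOutside_adjoin_primePow_rootOfUnity S p hpS (n + 1) (zetaM p n)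
      (zetaM_spec p n).pow_eq_one
  have hF₀ : (Fc ⊔ Fh ⊔ cycloL p n).IsUnramifiedOutside S := (hFc.sup hFh).sup hLS
  have hF := helper4709.isUnramifiedOutside_normalClosure hF₀
  have hFfin := hF.1
  have hFn : Normal ℚ (IntermediateField.normalClosure ℚ (↥(Fc ⊔ Fh ⊔ cycloL p n)) Qb) :=
    normalClosure.normal ℚ _ Qb
  have hle : Fc ⊔ Fh ⊔ cycloL p n ≤
      IntermediateField.normalClosure ℚ (↥(Fc ⊔ Fh ⊔ cycloL p n)) Qb :=
    IntermediateField.le_normalClosure _
  have hLF := (le_sup_right : cycloL p n ≤ Fc ⊔ Fh ⊔ cycloL p n).trans hle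
  have hUc := IntermediateField.fixingSubgroup_antitone
    (((le_sup_left : Fc ≤ Fc ⊔ Fh).trans le_sup_left).trans hle)
  have hUh := IntermediateField.fixingSubgroup_antitone
    (((le_sup_right : Fh ≤ Fc ⊔ Fh).trans le_sup_left).trans hle)
  obtain ⟨σ, hσ⟩ := exists_chiL_eq_one p n hp2
  obtain ⟨a, b, hb, e, heU, heF, hdec⟩ := exists_normalForm (cycloL p n) _ hLF
    (chiL_mul p n hp2) (cycChar_eq_zero_iff _ _) hσ hcoc
    (fun g g' s hs t ht => hMinv g g' s t (hUc hs) (hUc ht)) h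
    (fun g s hs => hhinv g s (hUh hs))
    (fun g g' hg hg' => hrel g g' ((mem_fixingSubgroup_cycloL_iff p n g).1 hg)
      ((mem_fixingSubgroup_cycloL_iff p n g').1 hg'))
  have hb' : (b : Qb) = (a : Qb) := by rw [hb, eq_ratCast]
  have ha0 : a ≠ 0 := by
    rintro rfl
    rw [Rat.cast_zero] at hb'
    exact b.ne_zero hb'
  -- positivity of `a`: `a ^ p` is a norm from the cyclotomic field
  have hbfix : ∀ g : GQ, g • b = b := by
    intro g
    apply Units.ext
    show g (b : Qb) = (b : Qb)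
    rw [hb, AlgEquiv.commutes]
  have hMp : ∀ g g', muExp (p := p) (zetaQbar p) (c (g, g')) ^ p = 1 := fun g g' =>
    helper6706.muExp_pow_prime (helper6706.zetaQbar_pow p) _
  have hrel' : ∀ g g', g • (e g' ^ p)⁻¹ / (e (g * g') ^ p)⁻¹ * (e g ^ p)⁻¹ =
      mulCyc (chiL p n hp2) (b ^ p) (g, g') := by
    intro g g'
    have h1 : mulCyc (chiL p n hp2) b (g, g') ^ p * (g • e g' / e (g * g') * e g) ^ p = 1 := by
      rw [← mul_pow, ← hdec g g', hMp]
    rw [helper6440.mulCyc_apply] at h1 ⊢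
    rw [← pow_mul, mul_comm p, pow_mul]
    have h2 : g • (e g' ^ p)⁻¹ / (e (g * g') ^ p)⁻¹ * (e g ^ p)⁻¹ =
        ((g • e g' / e (g * g') * e g) ^ p)⁻¹ := by
      simp only [smul_inv', smul_pow', div_eq_mul_inv, mul_pow, inv_pow, mul_inv_rev, inv_inv,
        mul_comm, mul_left_comm]
    rw [h2]
    exact (eq_inv_of_mul_eq_one_left h1).symm
  obtain ⟨β, hβ⟩ := exists_norm_of_mulCyc_coboundary (cycloL p n) (chiL_mul p n hp2)
    (cycChar_eq_zero_iff _ _) (b ^ p) (fun g => by rw [smul_pow', hbfix])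
    (IntermediateField.normalClosure ℚ (↥(Fc ⊔ Fh ⊔ cycloL p n)) Qb)
    (fun g => (e g ^ p)⁻¹) (fun g s hs => by simp only [heU g s hs]) hrel'
  have hnorm : normIF (cycloL p n) β = a ^ p := by
    apply (algebraMap ℚ Qb).injective
    rw [hβ, Units.val_pow_eq_pow_val, hb, map_pow]
  have hβ0 : β ≠ 0 := by
    rintro rfl
    rw [Algebra.norm_zero] at hnorm
    exact pow_ne_zero p ha0 hnorm.symm
  have hζL : IsPrimitiveRoot (⟨zetaM p n, IntermediateField.mem_adjoin_simple_self ℚ _⟩ :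
      cycloL p n) (p ^ (n + 1)) :=
    IsPrimitiveRoot.coe_submonoidClass_iff.mp (zetaM_spec p n)
  have hp3 : 3 ≤ p := by
    have := (Fact.out : p.Prime).two_le
    omega
  have hN : 2 < p ^ (n + 1) := by
    have : p ≤ p ^ (n + 1) := Nat.le_self_pow (Nat.succ_ne_zero n) p
    omega
  have hNF := numberField_cycloL p n
  have hpos : 0 < normIF (cycloL p n) β := helper7104.norm_pos_of_isPrimitiveRoot hN hζL β hβ0
  rw [hnorm] at hpos
  have ha : 0 < a := ((Fact.out : p.Prime).odd_of_ne_two hp2).pow_pos_iff.mp hpos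
  exact ⟨a, b, _, e, ha, hb', hF, hFn, hLF, heF, fun g s hs => heU g s hs, hdec⟩

end Global

/-! ## (L): the local dictionary -/

section Local

variable (p : ℕ) [Fact p.Prime] (n : ℕ) (l : ℕ) [Fact l.Prime]

attribute [local instance] neZero_pow finIF_cycloL galoisIF_cycloL

theorem neZero_card_gal : NeZero (Nat.card (GalIF (cycloL p n))) := ⟨Nat.card_pos.ne'⟩

attribute [local instance] neZero_card_gal

/-- `ℚ̄ˣ → (PadicAlgCl l)ˣ` induced by the frozen embedding. -/
noncomputable def iotaU : Qbˣ →* (PadicAlgCl l)ˣ :=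
  Units.map ((padicEmbedding l : Qb →* PadicAlgCl l))

lemma zetaM_loc_spec : IsPrimitiveRoot (padicEmbedding l (zetaM p n)) (p ^ (n + 1)) :=
  (zetaM_spec p n).map_of_injective (padicEmbedding l).toRingHom.injective

/-- The local cyclotomic layer `ℚ_l(ζ_{p^(n+1)})` inside `PadicAlgCl l`. -/
noncomputable def locL : IntermediateField ℚ_[l] (PadicAlgCl l) :=
  IntermediateField.adjoin ℚ_[l] {padicEmbedding l (zetaM p n)}

theorem cycloIF_locL : CycloIF (p ^ (n + 1)) (locL p n l) :=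
  cycloIF_of_eq _ (zetaM_loc_spec p n l) rfl

theorem finIF_locL : FinIF (locL p n l) := finIF_of_eq _ (zetaM_loc_spec p n l) rfl

theorem galoisIF_locL : GaloisIF (locL p n l) := galoisIF_of_eq _ (zetaM_loc_spec p n l) rfl

attribute [local instance] finIF_locL galoisIF_locL cycloIF_locL

lemma mem_fixingSubgroup_adjoin_simple {K E : Type*} [Field K] [Field E] [Algebra K E]
    (g : E ≃ₐ[K] E) (x : E) (h : g x = x) :
    g ∈ (IntermediateField.adjoin K {x}).fixingSubgroup := by
  have hsm : g • x = x := h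
  have hle : IntermediateField.adjoin K {x} ≤ IntermediateField.fixedField (Subgroup.zpowers g) := by
    rw [IntermediateField.adjoin_le_iff]
    intro y hy
    rw [Set.mem_singleton_iff] at hy
    subst hy
    rw [SetLike.mem_coe, IntermediateField.mem_fixedField_iff]
    rintro σ hσ
    obtain ⟨k, rfl⟩ := Subgroup.mem_zpowers_iff.1 hσ
    exact (MulAction.mem_stabilizer_iff.1
      (zpow_mem (MulAction.mem_stabilizer_iff.2 hsm) k) :)
  rw [IntermediateField.mem_fixingSubgroup_iff]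
  intro z hz
  exact (IntermediateField.mem_fixedField_iff _ _).1 (hle hz) g (Subgroup.mem_zpowers g)

/-- The kernel of the restriction of the global cyclic character to the local Galois group is
the fixing subgroup of the local cyclotomic layer. -/
lemma chiL_loc_eq_zero_iff (hp2 : p ≠ 2) (g : PadicAlgCl l ≃ₐ[ℚ_[l]] PadicAlgCl l) :
    chiL p n hp2 (localGaloisToGlobal l g) = 0 ↔ g ∈ (locL p n l).fixingSubgroup := by
  rw [chiL, cycChar_eq_zero_iff]
  constructor
  · intro h
    have h1 : localGaloisToGlobal l g (zetaM p n) = zetaM p n :=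
      (IntermediateField.mem_fixingSubgroup_iff _ _).1 h _
        (IntermediateField.mem_adjoin_simple_self ℚ _)
    apply mem_fixingSubgroup_adjoin_simple
    rw [← padicEmbedding_localGaloisToGlobal, h1]
  · intro h
    apply helper4709.mem_fixingSubgroup_adjoin_singleton
    apply (padicEmbedding l).toRingHom.injective
    show padicEmbedding l (localGaloisToGlobal l g (zetaM p n)) = padicEmbedding l (zetaM p n)
    rw [padicEmbedding_localGaloisToGlobal]
    exact (IntermediateField.mem_fixingSubgroup_iff _ _).1 h _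
      (IntermediateField.mem_adjoin_simple_self _ _)

/-- **(L).** At the prime `l`: the cyclic cocycle of `a ∈ ℚ` along the restricted character is
the coboundary of a frozen-level cochain iff `a` is a norm from `ℚ_l(ζ_{p^(n+1)})`. -/
theorem local_coboundary_iff_norm (hp2 : p ≠ 2) (a : ℚ) (b : (PadicAlgCl l)ˣ)
    (hb : (b : PadicAlgCl l) = (a : PadicAlgCl l)) :
    (∃ y : (PadicAlgCl l ≃ₐ[ℚ_[l]] PadicAlgCl l) → (PadicAlgCl l)ˣ,
        IsLevelConstant₁ (localGaloisToGlobal l) y ∧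
        ∀ g h, g • y h / y (g * h) * y g =
          b ^ carry (Nat.card (GalIF (cycloL p n))) (chiL p n hp2 (localGaloisToGlobal l g))
            (chiL p n hp2 (localGaloisToGlobal l h))) ↔
      ∃ β : locL p n l, normIF (locL p n l) β = (a : ℚ_[l]) := by
  have hX : ∀ g h : PadicAlgCl l ≃ₐ[ℚ_[l]] PadicAlgCl l,
      chiL p n hp2 (localGaloisToGlobal l (g * h)) =
        chiL p n hp2 (localGaloisToGlobal l g) + chiL p n hp2 (localGaloisToGlobal l h) :=
    fun g h => by rw [map_mul, chiL_mul]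
  have hker := chiL_loc_eq_zero_iff p n l hp2
  have hbfix : ∀ g : PadicAlgCl l ≃ₐ[ℚ_[l]] PadicAlgCl l, g • b = b := by
    intro g
    apply Units.ext
    show g (b : PadicAlgCl l) = b
    rw [hb, map_ratCast]
  have hcast : algebraMap ℚ_[l] (PadicAlgCl l) (a : ℚ_[l]) = (b : PadicAlgCl l) := by
    rw [hb, map_ratCast]
  constructor
  · rintro ⟨y, hlev, hrel⟩
    obtain ⟨K, hK, hy⟩ := (helper4058.isLevelConstant₁_localGaloisToGlobal_iff l y).1 hlev
    have := hK
    obtain ⟨β, hβ⟩ := exists_norm_of_mulCyc_coboundary (locL p n l)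
      (X := fun g => chiL p n hp2 (localGaloisToGlobal l g)) hX hker b hbfix K y hy
      (fun g h => by rw [hrel, helper6440.mulCyc_apply])
    refine ⟨β, ?_⟩
    apply (algebraMap ℚ_[l] (PadicAlgCl l)).injective
    rw [hcast]
    exact hβ
  · rintro ⟨β, hβ⟩
    obtain ⟨y, hyN, hrel⟩ := exists_mulCyc_coboundary_of_norm (locL p n l)
      (X := fun g => chiL p n hp2 (localGaloisToGlobal l g)) hX hker b hbfix β
      (by rw [← hcast]; exact congrArg _ hβ)
    exact ⟨y, (helper4058.isLevelConstant₁_localGaloisToGlobal_iff l y).2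
      ⟨locL p n l, inferInstance, hyN⟩, fun g h => by rw [hrel, helper6440.mulCyc_apply]⟩

/-- **Local triviality of a class in normal form.** If the level-`S` cocycle `c` has the global
normal form `mulCyc χ a * d e`, then its pullback to the local Galois group at `l` is a frozen
level coboundary (of a `μ_p`-valued cochain) iff `a` is a norm from `ℚ_l(ζ_{p^(n+1)})`. -/
theorem pullback_mem_levelCoboundaries₂_iff (hp2 : p ≠ 2)
    (c : GQ × GQ → ofChar (k := ZMod p) (cycloChar p)) (a : ℚ) (b : Qbˣ)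
    (hb : (b : Qb) = (a : Qb)) (F : IntermediateField ℚ Qb) (hFfin : FiniteDimensional ℚ F)
    (e : GQ → Qbˣ) (heU : ∀ g s, s ∈ F.fixingSubgroup → e (g * s) = e g)
    (hdec : ∀ g g', muExp (p := p) (zetaQbar p) (c (g, g')) =
      mulCyc (chiL p n hp2) b (g, g') * (g • e g' / e (g * g') * e g)) :
    cochainsPullPush₂ (localGaloisToGlobal l)
        (LinearMap.id : ofChar (k := ZMod p) (cycloChar p) →ₗ[ZMod p]
          Rep.res (localGaloisToGlobal l) (ofChar (k := ZMod p) (cycloChar p))) c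
        ∈ levelCoboundaries₂ (localGaloisToGlobal l)
          (Rep.res (localGaloisToGlobal l) (ofChar (k := ZMod p) (cycloChar p))) ↔
      ∃ β : locL p n l, normIF (locL p n l) β = (a : ℚ_[l]) := by
  classical
  have hE := helper6706.isMulEmbedding_local l p
  have hEval : ∀ x : ZMod p, muExp (zetaPadic p l) x = iotaU l (muExp (zetaQbar p) x) :=
    fun x => helper6706.muExp_zetaPadic l x
  have heL_lev : IsLevelConstant₁ (localGaloisToGlobal l)
      (fun g => iotaU l (e (localGaloisToGlobal l g))) :=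
    ⟨F, hFfin, fun g s hs => by
      show iotaU l (e (localGaloisToGlobal l (g * s))) = iotaU l (e (localGaloisToGlobal l g))
      rw [map_mul, heU _ _ hs]⟩
  have hsmul : ∀ (g : PadicAlgCl l ≃ₐ[ℚ_[l]] PadicAlgCl l) (u : Qbˣ),
      g • iotaU l u = iotaU l (localGaloisToGlobal l g • u) :=
    fun g u => (helper6706.unitsMap_padicEmbedding_smul l g u).symm
  have hbL : ((iotaU l b : (PadicAlgCl l)ˣ) : PadicAlgCl l) = (a : PadicAlgCl l) := by
    show padicEmbedding l (b : Qb) = _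
    rw [hb, map_ratCast]
  have hkey : ∀ g h : PadicAlgCl l ≃ₐ[ℚ_[l]] PadicAlgCl l,
      muExp (zetaPadic p l) (c (localGaloisToGlobal l g, localGaloisToGlobal l h)) =
        iotaU l b ^ carry (Nat.card (GalIF (cycloL p n))) (chiL p n hp2 (localGaloisToGlobal l g))
            (chiL p n hp2 (localGaloisToGlobal l h)) *
          (g • iotaU l (e (localGaloisToGlobal l h)) / iotaU l (e (localGaloisToGlobal l (g * h))) *
            iotaU l (e (localGaloisToGlobal l g))) := by
    intro g h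
    rw [hEval, hdec, helper6440.mulCyc_apply, map_mul, map_pow, map_mul, map_div, ← hsmul, map_mul]
  rw [hE.mem_levelCoboundaries₂_iff (localGaloisToGlobal l),
    ← local_coboundary_iff_norm p n l hp2 a (iotaU l b) hbL]
  constructor
  · rintro ⟨u, -, hulev, hu⟩
    refine ⟨fun g => u g / iotaU l (e (localGaloisToGlobal l g)),
      (helper9072.isLev₁_iff_isLevelConstant₁ (localGaloisToGlobal l) _).1
        (helper9072.IsLev₁.div
          ((helper9072.isLev₁_iff_isLevelConstant₁ (localGaloisToGlobal l) u).2 hulev)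
          ((helper9072.isLev₁_iff_isLevelConstant₁ (localGaloisToGlobal l) _).2 heL_lev)),
      fun g h => ?_⟩
    have h1 : g • u h / u (g * h) * u g =
        muExp (zetaPadic p l) (c (localGaloisToGlobal l g, localGaloisToGlobal l h)) := hu g h
    rw [hkey] at h1
    rw [smul_div', div_div_div_comm, div_mul_div_comm, h1, mul_div_assoc, div_self', mul_one]
  · rintro ⟨y, hylev, hy⟩
    obtain ⟨K, hK, hyK⟩ := (helper4058.isLevelConstant₁_localGaloisToGlobal_iff l y).1 hylev
    obtain ⟨K', hK', heK⟩ := (helper4058.isLevelConstant₁_localGaloisToGlobal_iff l _).1 heL_lev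
    have hYlev : helper9072.IsLev₁ (MonoidHom.id (PadicAlgCl l ≃ₐ[ℚ_[l]] PadicAlgCl l))
        (fun g => y g * iotaU l (e (localGaloisToGlobal l g))) :=
      helper9072.IsLev₁.mul ⟨K, hK, hyK⟩ ⟨K', hK', heK⟩
    have hYrel : ∀ g h : PadicAlgCl l ≃ₐ[ℚ_[l]] PadicAlgCl l,
        g • (y h * iotaU l (e (localGaloisToGlobal l h))) /
            (y (g * h) * iotaU l (e (localGaloisToGlobal l (g * h)))) *
          (y g * iotaU l (e (localGaloisToGlobal l g))) =
        muExp (zetaPadic p l) (c (localGaloisToGlobal l g, localGaloisToGlobal l h)) := by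
      intro g h
      rw [hkey, ← hy g h, smul_mul', mul_div_mul_comm, mul_mul_mul_comm]
    obtain ⟨b', hb'lev, hb'p, hb'rel⟩ := helper9072.exists_mu_primitive_gal (p := p)
      (fun x => IsAlgClosed.exists_pow_nat_eq x (Fact.out : p.Prime).pos) hYlev
      (f := fun x => muExp (zetaPadic p l)
        (c (localGaloisToGlobal l x.1, localGaloisToGlobal l x.2))) hYrel
      (fun x => helper6706.muExp_pow_prime (helper6706.zetaPadic_pow l p) _)
    refine ⟨b', fun g => ?_, (helper4058.isLevelConstant₁_localGaloisToGlobal_iff l b').2 hb'lev,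
      fun g h => hb'rel g h⟩
    rw [helper6706.range_muExp_zetaPadic]
    exact hb'p g

end Local

/-! ## The weak reciprocity law -/

section Recip

variable (p : ℕ) [Fact p.Prime]

attribute [local instance] neZero_pow finIF_cycloL galoisIF_cycloL neZero_card_gal finIF_locL
  galoisIF_locL cycloIF_locL

/-- **(G-R), weak form**: no class of `H²(G_S, μ_p)` is nontrivial at exactly one prime of `S`. -/
def Stmt_GR (S : Finset Nat.Primes) : Prop :=
  ∀ z : continuousH2S S (ofChar (k := ZMod p) (cycloChar p)), ∀ l0 ∈ S,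
    (∀ l ∈ S, l ≠ l0 →
      locRes₂S S (ofChar (k := ZMod p) (cycloChar p)) (primeLocalToGlobal l) z = 0) →
    locRes₂S S (ofChar (k := ZMod p) (cycloChar p)) (primeLocalToGlobal l0) z = 0

/-- **Input (U)** (leaf NF-GR-UNR): a class in cyclic normal form with `S`-level data has
`ord_{p^(n+1)}(l) ∣ v_l(a)` at every prime `l ∉ S`, `l ≠ p`.  (`X` is any additive character whose
kernel is the stabiliser of the `p^(n+1)`-th roots of unity, `F` a normal `S`-field containing
these roots, `e` an `F`-valued cochain of level `F`, `Mc` a `μ_p`-valued 2-cochain.) -/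
def UnrCrit (n : ℕ) (S : Finset Nat.Primes) : Prop :=
  ∀ l : Nat.Primes, l ∉ S → (l : ℕ) ≠ p → ∀ (d : ℕ) [NeZero d] (X : GQ → ZMod d),
    (∀ g h, X (g * h) = X g + X h) →
    (∀ g, X g = 0 ↔ ∀ ζ : Qb, ζ ^ (p ^ (n + 1)) = 1 → g ζ = ζ) →
    ∀ (a : ℚ) (b : Qbˣ), (b : Qb) = (a : Qb) →
    ∀ F : IntermediateField ℚ Qb, F.IsUnramifiedOutside S → Normal ℚ F →
    (∀ ζ : Qb, ζ ^ (p ^ (n + 1)) = 1 → ζ ∈ F) →
    ∀ e : GQ → Qbˣ, (∀ g, (e g : Qb) ∈ F) → (∀ g s, s ∈ F.fixingSubgroup → e (g * s) = e g) →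
    ∀ Mc : GQ × GQ → Qbˣ, (∀ x, Mc x ^ p = 1) →
      (∀ g g', Mc (g, g') = mulCyc X b (g, g') * (g • e g' / e (g * g') * e g)) →
      ((orderOf (((l : ℕ) : ℕ) : ZMod (p ^ (n + 1))) : ℕ) : ℤ) ∣ padicValRat l a

/-- **Input (N) at `p`** (NF-GR-NORMGRP + the cyclic norm index): the norm group of a
`p^(n+1)`-th cyclotomic extension of `ℚ_p`. -/
def NormCritAt (n : ℕ) : Prop :=
  ∀ (E : Type) [Field E] [Algebra ℚ_[p] E] [IsCyclotomicExtension {p ^ (n + 1)} ℚ_[p] E]
    (x : ℚ_[p]), x ≠ 0 →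
    ((∃ y : E, Algebra.norm ℚ_[p] y = x) ↔
      ‖x * (p : ℚ_[p]) ^ (-x.valuation) - 1‖ ≤ (p : ℝ) ^ (-((n + 1 : ℕ) : ℤ)))

/-- **Input (N) away from `p`** (the unramified norm criterion): the norm group of a
`p^(n+1)`-th cyclotomic extension of `ℚ_l`, `l ≠ p`. -/
def NormCritAway (n : ℕ) : Prop :=
  ∀ (l : ℕ) [Fact l.Prime], l ≠ p →
    ∀ (E : Type) [Field E] [Algebra ℚ_[l] E] [IsCyclotomicExtension {p ^ (n + 1)} ℚ_[l] E]
      (x : ℚ_[l]), x ≠ 0 →
      ((∃ y : E, Algebra.norm ℚ_[l] y = x) ↔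
        ((orderOf ((l : ℕ) : ZMod (p ^ (n + 1))) : ℕ) : ℤ) ∣ x.valuation)

/-- **Weak reciprocity over `ℚ`** from the splitting input, the unramified input and the two
local norm criteria. -/
theorem gr_weak (hp2 : p ≠ 2) (S : Finset Nat.Primes) (hpS : pPrime p ∈ S) (n : ℕ)
    (hsplit : HSplitAt p n S) (hunr : UnrCrit p n S) (hAt : NormCritAt p n)
    (hAway : NormCritAway p n) : Stmt_GR p S := by
  classical
  intro z l0 hl0 hz
  have hl0fact : Fact ((l0 : ℕ)).Prime := ⟨l0.2⟩
  obtain ⟨c, rfl⟩ := Submodule.mkQ_surjective _ z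
  obtain ⟨h, hh, hrel⟩ := hsplit c c.2
  obtain ⟨a, b, F, e, ha, hb, hFS, hFn, hLF, heF, heU, hdec⟩ :=
    exists_global_normalForm p n hp2 S hpS c c.2 h hh hrel
  have ha0 : ∀ (ℓ : ℕ) [Fact ℓ.Prime], (a : ℚ_[ℓ]) ≠ 0 := fun ℓ _ => by
    exact_mod_cast ha.ne'
  -- `a` is a local norm at every prime different from `l0`
  have HA : ∀ (ℓ : ℕ) [Fact ℓ.Prime], ℓ ≠ (l0 : ℕ) →
      ∃ β : locL p n ℓ, normIF (locL p n ℓ) β = (a : ℚ_[ℓ]) := by
    intro ℓ hℓ hne
    obtain ⟨q, rfl⟩ : ∃ q : Nat.Primes, (q : ℕ) = ℓ := ⟨⟨ℓ, hℓ.out⟩, rfl⟩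
    by_cases hS : q ∈ S
    · have h0 := hz q hS (fun h => hne (congrArg (fun q : Nat.Primes => (q : ℕ)) h))
      have h1 := (helper9639.locRes₂S_mk_eq_zero_iff (ofChar (k := ZMod p) (cycloChar p)) S
        (primeLocalToGlobal q) c).1 h0
      exact (pullback_mem_levelCoboundaries₂_iff p n (q : ℕ) hp2 c.1 a b hb F hFS.1 e heU hdec).1 h1
    · have hℓp : (q : ℕ) ≠ p := by
        intro hqp
        have : q = pPrime p := Subtype.ext hqp
        exact hS (this ▸ hpS)
      have h1 := hunr q hS hℓp _ (chiL p n hp2) (chiL_mul p n hp2)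
        (chiL_eq_zero_iff p n hp2) a b hb F hFS hFn
        (fun ζ hζ => hLF (rootOfUnity_mem_cycloL p n ζ hζ)) e heF heU
        (fun x => muExp (p := p) (zetaQbar p) (c.1 x))
        (fun x => helper6706.muExp_pow_prime (helper6706.zetaQbar_pow p) _) hdec
      refine (hAway (q : ℕ) hℓp (locL p n (q : ℕ)) (a : ℚ_[(q : ℕ)]) (ha0 (q : ℕ))).2 ?_
      rw [Padic.valuation_ratCast]
      exact h1
  -- product formula
  have H0 := helper5519.locNorm_product_formula (p := p) (n + 1)
    (fun ℓ _ x => ∃ β : locL p n ℓ, normIF (locL p n ℓ) β = x)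
    (fun x hx => hAt (locL p n p) x hx)
    (fun ℓ _ hne x hx => hAway ℓ hne (locL p n ℓ) x hx) a ha (l0 : ℕ)
    (fun ℓ _ hne => HA ℓ hne)
  -- back to the class at `l0`
  have h2 := (pullback_mem_levelCoboundaries₂_iff p n (l0 : ℕ) hp2 c.1 a b hb F hFS.1 e
    heU hdec).2 H0
  exact (helper9639.locRes₂S_mk_eq_zero_iff (ofChar (k := ZMod p) (cycloChar p)) S
    (primeLocalToGlobal l0) c).2 h2

end Recip

end Fermat.Agent.S55.helper3750
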