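/-
S55 / NF-GR, closing glue (helper4969): weak reciprocity `helper1809.Stmt_GRAll` from the Hasse
principle.

`helper3750.gr_weak` proves the weak reciprocity law for `(p, S)` from four inputs.  This file
discharges three of them from theorems on main and reduces the fourth to the Hasse principle:

* `hSplitAt_of_split` : `helper3506.HSplitAt p S n → helper3750.HSplitAt p n S` (same statement,
  the kernel condition unfolded);
* `unrCrit` : `helper3750.UnrCrit p n S`, from the unramified criterion
  `helper1401.orderOf_dvd_padicValRat_of_cyclic_normal_form`;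
* `normCritAt`, `normCritAway` : the two local norm criteria, from `helper5519` and `helper1759`;
* `stmt_GR_of_hSplit` : `helper1809.Stmt_GR p S` from `helper3506.HSplitAt p S n`;
* `stmt_GRAll_of_stmt_GH`, `stmt_GRAll_of_shaHasse` : the closed Prop `helper1809.Stmt_GRAll`
  from `helper1919.Stmt_GH`, resp. `helper9826.Stmt_ShaHasse`.
-/
import Mathlib
import Fermat.Agent.S55.helper3750_GRAssembly
import Fermat.Agent.S55.helper3506_HSplitFinal
import Fermat.Agent.S55.helper1401_GRUnram
import Fermat.Agent.S55.helper1759_CycloArith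
import Fermat.Agent.S55.helper1809_WeakRecipClosed

set_option autoImplicit false

namespace Fermat.Agent.S55.helper4969

open groupCohomology ExtCitation

local notation "Qb" => AlgebraicClosure ℚ
local notation "GQ" => (AlgebraicClosure ℚ ≃ₐ[ℚ] AlgebraicClosure ℚ)

variable {p : ℕ} [Fact p.Prime]

/-- The splitting input of `helper3750.gr_weak` is the statement `helper3506.HSplitAt`. -/
theorem hSplitAt_of_split {S : Finset Nat.Primes} {n : ℕ} (h : helper3506.HSplitAt p S n) :
    helper3750.HSplitAt p n S := by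
  intro c hc
  obtain ⟨u, hu, hrel⟩ := h c hc
  exact ⟨u, hu, fun g g' hg hg' =>
    hrel g g' ((helper3506.mem_cycloFix_iff p).2 hg) ((helper3506.mem_cycloFix_iff p).2 hg')⟩

/-- The exponent of the `ℕ`-valued normal form is the carry of `helper6440`. -/
theorem carry_eq_val_div {d : ℕ} [NeZero d] (u v : ZMod d) :
    (u.val + v.val - (u + v).val) / d = helper6440.carry d u v := by
  have h := helper6440.val_add_carry u v
  have hd : 0 < d := Nat.pos_of_ne_zero (NeZero.ne d)
  have : u.val + v.val - (u + v).val = d * helper6440.carry d u v := by omega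
  rw [this, Nat.mul_div_cancel_left _ hd]

/-- **The unramified input of `helper3750.gr_weak`**, from the Frobenius computation
`helper1401.orderOf_dvd_padicValRat_of_cyclic_normal_form`. -/
theorem unrCrit (S : Finset Nat.Primes) (n : ℕ) : helper3750.UnrCrit p n S := by
  intro l hlS hlp d _ X hXadd hXker a b hb F hFS hFn _ e heF helev Mc hMp hM
  have hp : p.Prime := Fact.out
  have hlm : ¬ (l : ℕ) ∣ p ^ (n + 1) := by
    intro h
    exact hlp ((Nat.prime_dvd_prime_iff_eq l.2 hp).1 (l.2.dvd_of_dvd_pow h))
  obtain ⟨ζ, hζ⟩ := helper3506.exists_primitiveRoot_Qbar p (n + 1)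
  have : IsGalois ℚ F := ⟨⟩
  refine helper1401.orderOf_dvd_padicValRat_of_cyclic_normal_form S l hlS hlm hζ
    (fun g => (X g).val) (fun g => ZMod.val_lt _) ?_ ?_ b a hb F hFS e heF helev Mc
    (fun x => ⟨p, hp.ne_zero, hMp x⟩) ?_
  · intro g h
    show (X (g * h)).val ≡ (X g).val + (X h).val [MOD d]
    rw [hXadd g h, ZMod.val_add]
    exact Nat.mod_modEq _ _
  · intro g
    show (X g).val = 0 ↔ g ζ = ζ
    rw [ZMod.val_eq_zero, hXker g]
    constructor
    · intro h
      exact h ζ hζ.pow_eq_one
    · intro h ξ hξ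
      have : NeZero (p ^ (n + 1)) := ⟨pow_ne_zero _ hp.ne_zero⟩
      obtain ⟨i, -, rfl⟩ := hζ.eq_pow_of_pow_eq_one hξ
      rw [map_pow, h]
  · intro g h
    show Mc (g, h) = b ^ (((X g).val + (X h).val - (X (g * h)).val) / d) * (g • e h) * e g
      / e (g * h)
    rw [hM g h, helper6440.mulCyc_apply, hXadd g h, carry_eq_val_div]
    rw [mul_div_assoc, mul_assoc]
    congr 1
    rw [div_mul_eq_mul_div, mul_div_assoc]

/-- **The norm criterion at `p`** (input of `helper3750.gr_weak`). -/
theorem normCritAt (hp2 : p ≠ 2) (n : ℕ) : helper3750.NormCritAt p n :=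
  fun E _ _ _ x hx => helper5519.exists_norm_eq_iff' hp2 n E x hx

/-- **The norm criterion away from `p`** (input of `helper3750.gr_weak`). -/
theorem normCritAway (n : ℕ) : helper3750.NormCritAway p n :=
  fun l _ hne E _ _ _ x hx => helper1759.exists_norm_eq_iff_of_ne n l hne E x hx

/-- **Weak reciprocity for `(p, S)` from the splitting by the cyclotomic layer.** -/
theorem stmt_GR_of_hSplit (hp2 : p ≠ 2) (S : Finset Nat.Primes) (hpS : pPrime p ∈ S) (n : ℕ)
    (h : helper3506.HSplitAt p S n) : helper1809.Stmt_GR p S :=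
  helper3750.gr_weak p hp2 S hpS n (hSplitAt_of_split h) (unrCrit S n) (normCritAt hp2 n)
    (normCritAway n)

/-- **Weak reciprocity for all odd `p` and all `S ∋ p`, from the Hasse principle in kernel
form.** -/
theorem stmt_GRAll_of_stmt_GH (hGH : helper1919.Stmt_GH) : helper1809.Stmt_GRAll := by
  intro p _ hp2 S hpS
  obtain ⟨n₀, -, h⟩ := helper3506.exists_hSplitAt_of_GH hp2 S hpS hGH
  exact stmt_GR_of_hSplit hp2 S hpS n₀ (h n₀ le_rfl)

/-- **Weak reciprocity for all odd `p` and all `S ∋ p`, from `helper9826.Stmt_ShaHasse`.** -/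
theorem stmt_GRAll_of_shaHasse (hH : helper9826.Stmt_ShaHasse) : helper1809.Stmt_GRAll :=
  stmt_GRAll_of_stmt_GH (helper9826.stmt_GH_of hH)

end Fermat.Agent.S55.helper4969
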