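import Mathlib
import Fermat.Prelude.Def_GroupCohomology_ContinuousUnramified
import Fermat.Agent.S55.helper5550_Shapiro
import Fermat.Agent.S55.helper4039_SField
import Fermat.Agent.S55.helper3071_GlobalBridge

/-!
# S55 / SOFT-GC (helper1145): from the field level to the induced module, forward maps only

Vocabulary of `helper3071_GlobalBridge` (GB-SPEC): `F` a field unramified outside `S`,
`H = F.fixingSubgroup`, `fieldH2 S p F` = `S`-level `H²(H, 𝔽_p)`, `fieldRes₂ S p F q g` the
restriction to the place `g • v_q`, `fieldSha2`, `indRep p F = coind_H^{G_ℚ} 𝔽_p`.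

* `coindCocycle`, `coindClass` : the coinduced cocycle `helper5550.ind₂` of an `S`-level
  2-cocycle on `H` is an `S`-level 2-cocycle of `G_ℚ` with values in `indRep p F`
  (linear in the cocycle).
* `fieldRes₂_eq_zero_of_locRes₂S_coindClass` (KEY): if the coinduced class dies under the frozen
  `locRes₂S` at `q`, the original class dies under `fieldRes₂` at EVERY place `g • v_q`.
* `relH2Sπ_mem_fieldSha2_of_coindClass_mem_sha₂` : `coindClass c ∈ sha₂ S (indRep p F)` implies
  `[c] ∈ fieldSha2 S p F` (the `Ш²`-clause of `Sh2` on classes of the form `coindClass c`).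
* `finrank_fieldH2_quot_le` : `dim fieldH2 / fieldSha2 ≤ dim continuousH2S / sha₂` on
  `indRep p F` (the right side is `helper2945.r2 S (indRep p F)`, the rank of `locTotal₂S`);
  `tGC` : `FieldGE S p F → nPl S F ≤ dim (continuousH2S / sha₂) (indRep p F) + 1`
  (the transport (T-GC) of GB-SPEC, input (B3) of SOFT-B); closed form `stmt_TGC`.

No Shapiro injectivity, no Mackey decomposition, no normality of `H` is used.
-/

set_option autoImplicit false

universe u

open CategoryTheory

noncomputable section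

namespace Fermat.Agent.S55.helper1145

open groupCohomology ExtCitation
open Fermat.Agent.S55.helper5550
open Fermat.Agent.S55.helper3071

/-! ## A linear-algebra lemma -/

/-- If `ψ : Z → A` is surjective and `φ z ∈ P → ψ z ∈ Q`, then `dim A/Q ≤ dim B/P`. -/
theorem finrank_quot_le_of_forall_mem {k Z A B : Type*} [Field k]
    [AddCommGroup Z] [Module k Z] [AddCommGroup A] [Module k A] [AddCommGroup B] [Module k B]
    [Module.Finite k B] (φ : Z →ₗ[k] B) (ψ : Z →ₗ[k] A) (hψ : Function.Surjective ψ)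
    (P : Submodule k B) (Q : Submodule k A) (h : ∀ z, φ z ∈ P → ψ z ∈ Q) :
    Module.finrank k (A ⧸ Q) ≤ Module.finrank k (B ⧸ P) := by
  have hker : LinearMap.ker (P.mkQ ∘ₗ φ) ≤ LinearMap.ker (Q.mkQ ∘ₗ ψ) := by
    intro z hz
    rw [LinearMap.mem_ker, LinearMap.comp_apply, Submodule.mkQ_apply,
      Submodule.Quotient.mk_eq_zero] at hz ⊢
    exact h z hz
  have hfinQ : Module.Finite k (Z ⧸ LinearMap.ker (P.mkQ ∘ₗ φ)) :=
    Module.Finite.equiv (LinearMap.quotKerEquivRange (P.mkQ ∘ₗ φ)).symm
  have hsurj : Function.Surjective ((LinearMap.ker (P.mkQ ∘ₗ φ)).liftQ (Q.mkQ ∘ₗ ψ) hker) := by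
    rw [← LinearMap.range_eq_top, Submodule.range_liftQ]
    exact LinearMap.range_eq_top.2 ((Submodule.mkQ_surjective _).comp hψ)
  calc Module.finrank k (A ⧸ Q)
      ≤ Module.finrank k (Z ⧸ LinearMap.ker (P.mkQ ∘ₗ φ)) :=
        LinearMap.finrank_le_finrank_of_surjective hsurj
    _ = Module.finrank k (LinearMap.range (P.mkQ ∘ₗ φ)) :=
        (LinearMap.quotKerEquivRange (P.mkQ ∘ₗ φ)).finrank_eq
    _ ≤ Module.finrank k (B ⧸ P) := Submodule.finrank_le _

/-! ## Abstract part: coinduction of trivial-coefficient cocycles -/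

section Abstract

variable {k G : Type u} [CommRing k] [Group G] (H : Subgroup G)

/-- The trivial representation of `H` on `k`. -/
abbrev trivRep : Rep.{u} k H := Rep.trivial k H k

variable {H}

theorem trivRep_ρ (h : H) (a : k) : (trivRep (k := k) H).ρ h a = a := rfl

/-- The cocycle identity for trivial coefficients. -/
theorem cocycle_triv {b : H × H → k} (hb : b ∈ cocycles₂ (trivRep (k := k) H)) (x y z : H) :
    b (x * y, z) + b (x, y) = b (y, z) + b (x, y * z) := by
  have := (mem_cocycles₂_iff (A := trivRep (k := k) H) b).1 hb x y z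
  simpa using this

/-- The explicit homotopy for conjugation by `h ∈ H`. -/
def conjPrim (b : H × H → k) (h : H) : H → k :=
  fun a => b (h * a * h⁻¹, h) - b (h, a)

/-- Inner automorphisms act trivially on 2-cocycles up to an explicit coboundary
(trivial coefficients). -/
theorem conj_sub_eq_d {b : H × H → k} (hb : b ∈ cocycles₂ (trivRep (k := k) H)) (h x y : H) :
    b (h * x * h⁻¹, h * y * h⁻¹) - b (x, y) =
      conjPrim b h y - conjPrim b h (x * y) + conjPrim b h x := by
  have e1 := cocycle_triv hb h x y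
  have e2 := cocycle_triv hb (h * x * h⁻¹) h y
  have e3 := cocycle_triv hb (h * x * h⁻¹) (h * y * h⁻¹) h
  have a1 : h * x * h⁻¹ * h = h * x := by group
  have a2 : h * x * h⁻¹ * (h * y * h⁻¹) = h * (x * y) * h⁻¹ := by group
  have a3 : h * y * h⁻¹ * h = h * y := by group
  rw [a1] at e2
  rw [a2, a3] at e3
  simp only [conjPrim]
  linear_combination e1 - e2 + e3

variable {b : H × H → k}

/-- Evaluation of the induced cochain `ind₂ s hs b` (trivial coefficients) at a point `g` on a
pair `(x₁, x₂)` with `g x₁ g⁻¹, g x₂ g⁻¹ ∈ H`: one gets `b` conjugated by `(s g)⁻¹ ∈ H`. -/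
theorem ind₂_val_of_conj_mem (s : G → H) (hs : ∀ (h : H) (g : G), s (h * g) = h * s g)
    (b : H × H → k) (g x₁ x₂ : G) (h₁ : g * x₁ * g⁻¹ ∈ H) (h₂ : g * x₂ * g⁻¹ ∈ H) :
    (ind₂ (N := trivRep (k := k) H) s hs b (x₁, x₂)).1 g =
      b ((s g)⁻¹ * ⟨g * x₁ * g⁻¹, h₁⟩ * (s g)⁻¹⁻¹, (s g)⁻¹ * ⟨g * x₂ * g⁻¹, h₂⟩ * (s g)⁻¹⁻¹) := by
  have hs1 : s (g * x₁) = ⟨g * x₁ * g⁻¹, h₁⟩ * s g := by
    rw [← hs]
    congr 1
    simp
  have hs2 : s (g * x₁ * x₂) = ⟨g * x₁ * g⁻¹, h₁⟩ * ⟨g * x₂ * g⁻¹, h₂⟩ * s g := by
    rw [← hs]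
    congr 1
    simp [mul_assoc]
  rw [ind₂_val, hs2, hs1]
  show b _ = b _
  congr 2
  · group
  · group

/-- `ind₂` is additive. -/
theorem ind₂_add (s : G → H) (hs : ∀ (h : H) (g : G), s (h * g) = h * s g) (N : Rep.{u} k H)
    (b b' : H × H → N) : ind₂ s hs (b + b') = ind₂ s hs b + ind₂ s hs b' := by
  funext p
  apply coind_ext
  intro x
  obtain ⟨g₁, g₂⟩ := p
  show (ind₂ s hs (b + b') (g₁, g₂)).1 x = (ind₂ s hs b (g₁, g₂)).1 x + (ind₂ s hs b' (g₁, g₂)).1 x
  simp only [ind₂_val, Pi.add_apply, map_add]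

/-- `ind₂` commutes with scalars. -/
theorem ind₂_smul (s : G → H) (hs : ∀ (h : H) (g : G), s (h * g) = h * s g) (N : Rep.{u} k H)
    (a : k) (b : H × H → N) : ind₂ s hs (a • b) = a • ind₂ s hs b := by
  funext p
  apply coind_ext
  intro x
  obtain ⟨g₁, g₂⟩ := p
  show (ind₂ s hs (a • b) (g₁, g₂)).1 x = a • (ind₂ s hs b (g₁, g₂)).1 x
  simp only [ind₂_val, Pi.smul_apply, map_smul]

/-- The conjugation homotopy is right-invariant under a normal level. -/
theorem conjPrim_rinv {U : Subgroup G} [U.Normal] {b : H × H → k}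
    (hb : RInv₂ (U.subgroupOf H) b) (h : H) : RInv₁ (U.subgroupOf H) (conjPrim b h) := by
  intro a n hn
  have h1 : b (h * (a * n) * h⁻¹, h) = b (h * a * h⁻¹, h) := by
    apply hb.eq_of_mem
    · have e : (h * a * h⁻¹)⁻¹ * (h * (a * n) * h⁻¹) = h * n * h⁻¹ := by group
      rw [e]
      exact (inferInstance : (U.subgroupOf H).Normal).conj_mem n hn h
    · simp
  have h2 : b (h, a * n) = b (h, a) := by
    apply hb.eq_of_mem
    · simp
    · simpa using hn
  simp only [conjPrim, h1, h2]

end Abstract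

/-! ## Frozen carriers (GB-SPEC vocabulary) -/

section Frozen

/-- A fixed `H`-equivariant retraction `G → H`. -/
def retr {G : Type*} [Group G] (H : Subgroup G) : G → H := (exists_retraction H).choose

theorem retr_mul {G : Type*} [Group G] (H : Subgroup G) (h : H) (g : G) :
    retr H (h * g) = h * retr H g := (exists_retraction H).choose_spec.1 h g

variable (S : Finset Nat.Primes) (p : ℕ) (F : IntermediateField ℚ (AlgebraicClosure ℚ))

variable {S p F}

/-- Every `S`-level 2-cochain on `H = F.fixingSubgroup` is right-invariant under a normal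
`S`-level contained in `H` (when `F` itself is unramified outside `S`). -/
theorem exists_normal_level (hF : F.IsUnramifiedOutside S) {X : Type*}
    {c : F.fixingSubgroup × F.fixingSubgroup → X}
    (hc : IsLevS₂ S F.fixingSubgroup.subtype c) :
    ∃ L : IntermediateField ℚ (AlgebraicClosure ℚ), L.IsUnramifiedOutside S ∧
      L.fixingSubgroup.Normal ∧ L.fixingSubgroup ≤ F.fixingSubgroup ∧
      RInv₂ (L.fixingSubgroup.subgroupOf F.fixingSubgroup) c := by
  obtain ⟨L, hL, hi⟩ := hc
  obtain ⟨L', hle, hL', -, hn⟩ := Fermat.Agent.S55.helper4039.exists_normal_ge (hL.sup hF)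
  refine ⟨L', hL', hn, IntermediateField.fixingSubgroup_antitone (le_sup_right.trans hle), ?_⟩
  intro g g' s s' hs hs'
  exact hi g g' s s'
    (IntermediateField.fixingSubgroup_antitone (le_sup_left.trans hle)
      (Subgroup.mem_subgroupOf.1 hs))
    (IntermediateField.fixingSubgroup_antitone (le_sup_left.trans hle)
      (Subgroup.mem_subgroupOf.1 hs'))

/-- The coinduced cochain of an `S`-level cocycle on `H` is an `S`-level cocycle on `G_ℚ`. -/
theorem ind₂_mem_levelCocyclesS₂ (hF : F.IsUnramifiedOutside S)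
    {c : F.fixingSubgroup × F.fixingSubgroup → ZMod p}
    (hc : c ∈ relZ2S S F.fixingSubgroup.subtype (trivF p F)) :
    ind₂ (N := trivF p F) (retr F.fixingSubgroup) (retr_mul F.fixingSubgroup) c ∈
      levelCocyclesS₂ S (indRep p F) := by
  refine ⟨ind₂_mem_cocycles₂ _ _ hc.1, ?_⟩
  obtain ⟨L, hL, hn, hle, hi⟩ := exists_normal_level hF hc.2
  refine ⟨L, hL, fun g g' s s' hs hs' => ?_⟩
  have := hn
  exact ind₂_rinv (retr F.fixingSubgroup) (retr_mul F.fixingSubgroup) hle hi g g' s s' hs hs'

variable (S p F)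

/-- The coinduced cocycle as a linear map. -/
def coindCocycle (hF : F.IsUnramifiedOutside S) :
    relZ2S S F.fixingSubgroup.subtype (trivF p F) →ₗ[ZMod p] levelCocyclesS₂ S (indRep p F) where
  toFun c := ⟨ind₂ (N := trivF p F) (retr F.fixingSubgroup) (retr_mul F.fixingSubgroup) c.1,
    ind₂_mem_levelCocyclesS₂ hF c.2⟩
  map_add' c c' := Subtype.ext
    (ind₂_add (retr F.fixingSubgroup) (retr_mul F.fixingSubgroup) (trivF p F) c.1 c'.1)
  map_smul' a c := Subtype.ext
    (ind₂_smul (retr F.fixingSubgroup) (retr_mul F.fixingSubgroup) (trivF p F) a c.1)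

/-- The class in `continuousH2S S (indRep p F)` of the coinduced cocycle. -/
def coindClass (hF : F.IsUnramifiedOutside S) :
    relZ2S S F.fixingSubgroup.subtype (trivF p F) →ₗ[ZMod p] continuousH2S S (indRep p F) :=
  continuousH2Sπ S (indRep p F) ∘ₗ coindCocycle S p F hF

variable {S p F}

/-- Unfolding: the coinduced class is killed by `locRes₂S` at `q` iff the pulled-back coinduced
cocycle is the coboundary of a level-constant 1-cochain on the local Galois group. -/
theorem locRes₂S_coindClass_eq_zero_iff (hF : F.IsUnramifiedOutside S)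
    (c : relZ2S S F.fixingSubgroup.subtype (trivF p F)) (q : Nat.Primes) :
    locRes₂S S (indRep p F) (primeLocalToGlobal q) (coindClass S p F hF c) = 0 ↔
      ∃ U : primeLocalGaloisGroup q → indRep p F,
        IsLevelConstant₁ (primeLocalToGlobal q) U ∧
        ∀ τ₁ τ₂ : primeLocalGaloisGroup q,
          ind₂ (N := trivF p F) (retr F.fixingSubgroup)
            (retr_mul F.fixingSubgroup) c.1 (primeLocalToGlobal q τ₁, primeLocalToGlobal q τ₂) =
          (indRep p F).ρ (primeLocalToGlobal q τ₁) (U τ₂) - U (τ₁ * τ₂) + U τ₁ := by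
  have e : locRes₂S S (indRep p F) (primeLocalToGlobal q) (coindClass S p F hF c) =
      continuousH2π (primeLocalToGlobal q) (Rep.res (primeLocalToGlobal q) (indRep p F))
        (levelCocycles₂Map (rH := MonoidHom.id _) (rG := primeLocalToGlobal q)
          (primeLocalToGlobal q) (fun _ => rfl)
          (LinearMap.id : indRep p F →ₗ[ZMod p] Rep.res (primeLocalToGlobal q) (indRep p F))
          (fun _ _ => rfl)
          (levelCocyclesS₂ToLevelCocycles₂ S (indRep p F) (coindCocycle S p F hF c))) := rfl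
  rw [e, continuousH2π_eq_zero_iff, mem_levelCoboundaries₂_iff]
  constructor
  · rintro ⟨U, hU, hd⟩
    refine ⟨U, hU, fun τ₁ τ₂ => ?_⟩
    have := congrFun hd (τ₁, τ₂)
    rw [d₁₂_hom_apply] at this
    exact this.symm
  · rintro ⟨U, hU, hd⟩
    refine ⟨U, hU, ?_⟩
    funext ⟨τ₁, τ₂⟩
    rw [d₁₂_hom_apply]
    exact (hd τ₁ τ₂).symm

/-- Unfolding of `fieldRes₂ = 0` on a representative. -/
theorem fieldRes₂_mk_eq_zero_iff (c : relZ2S S F.fixingSubgroup.subtype (trivF p F))
    (q : Nat.Primes) (g : GQ) :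
    fieldRes₂ S p F q g (relH2Sπ S F.fixingSubgroup.subtype (trivF p F) c) = 0 ↔
      ∃ u : placeGroup F q g → ZMod p, IsLevelConstant₁ (placeLoc F q g) u ∧
        ∀ a b : placeGroup F q g,
          c.1 (placeHom F q g a, placeHom F q g b) = u b - u (a * b) + u a := by
  have e : fieldRes₂ S p F q g (relH2Sπ S F.fixingSubgroup.subtype (trivF p F) c) =
      continuousH2π (placeLoc F q g) (trivPl p F q g)
        (relZ2SRes S (r := F.fixingSubgroup.subtype) (ρ := placeLoc F q g) (placeHom F q g)
          (fun _ => rfl) (LinearMap.id : ZMod p →ₗ[ZMod p] ZMod p) (fun _ _ => rfl) c) := rfl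
  rw [e, continuousH2π_eq_zero_iff, mem_levelCoboundaries₂_iff]
  constructor
  · rintro ⟨u, hu, hd⟩
    refine ⟨u, hu, fun a b => ?_⟩
    have := congrFun hd (a, b)
    rw [d₁₂_hom_apply] at this
    exact this.symm
  · rintro ⟨u, hu, hd⟩
    refine ⟨u, hu, ?_⟩
    funext ⟨a, b⟩
    rw [d₁₂_hom_apply]
    exact (hd a b).symm

/-- **KEY (local triviality transports from the induced module to the field).**  If the
coinduced class of an `S`-level 2-cocycle `c` on `H = F.fixingSubgroup` is killed by the frozen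
localisation `locRes₂S` at `q`, then the class of `c` is killed by `fieldRes₂` at every place
`g • v_q` of `F`. -/
theorem fieldRes₂_eq_zero_of_locRes₂S_coindClass (hF : F.IsUnramifiedOutside S)
    (c : relZ2S S F.fixingSubgroup.subtype (trivF p F)) (q : Nat.Primes)
    (h0 : locRes₂S S (indRep p F) (primeLocalToGlobal q) (coindClass S p F hF c) = 0) (g : GQ) :
    fieldRes₂ S p F q g (relH2Sπ S F.fixingSubgroup.subtype (trivF p F) c) = 0 := by
  obtain ⟨U, ⟨F₁, hF₁, hU⟩, hd⟩ := (locRes₂S_coindClass_eq_zero_iff hF c q).1 h0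
  obtain ⟨L, hL, hn, hle, hi⟩ := exists_normal_level hF c.2.2
  rw [fieldRes₂_mk_eq_zero_iff]
  refine ⟨fun a => (U (a : primeLocalGaloisGroup q)).1 g -
    conjPrim c.1 (retr F.fixingSubgroup g)⁻¹ (placeHom F q g a), ?_, ?_⟩
  · -- level constancy
    have hfd1 : FiniteDimensional ℚ F₁ := hF₁
    have hfdL : FiniteDimensional ℚ L := hL.1
    have hfd1' := Fermat.Agent.S55.helper4039.finiteDimensional_iSup_map F₁
    have hn1 := Fermat.Agent.S55.helper4039.normal_fixingSubgroup_of_map_eq
      (Fermat.Agent.S55.helper4039.map_iSup_map F₁)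
    refine ⟨(⨆ τ : AlgebraicClosure ℚ ≃ₐ[ℚ] AlgebraicClosure ℚ,
      F₁.map (τ : AlgebraicClosure ℚ →ₐ[ℚ] AlgebraicClosure ℚ)) ⊔ L,
      IntermediateField.finiteDimensional_sup _ _, fun a σ hσ => ?_⟩
    have hσ' : g * primeLocalToGlobal q (σ : primeLocalGaloisGroup q) * g⁻¹ ∈
        ((⨆ τ : AlgebraicClosure ℚ ≃ₐ[ℚ] AlgebraicClosure ℚ,
          F₁.map (τ : AlgebraicClosure ℚ →ₐ[ℚ] AlgebraicClosure ℚ)) ⊔ L).fixingSubgroup := hσ
    have h1 : primeLocalToGlobal q (σ : primeLocalGaloisGroup q) ∈ F₁.fixingSubgroup := by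
      have hmem := IntermediateField.fixingSubgroup_antitone le_sup_left hσ'
      have hc := hn1.conj_mem _ hmem g⁻¹
      have e : g⁻¹ * (g * primeLocalToGlobal q (σ : primeLocalGaloisGroup q) * g⁻¹) * g⁻¹⁻¹ =
          primeLocalToGlobal q (σ : primeLocalGaloisGroup q) := by group
      rw [e] at hc
      exact IntermediateField.fixingSubgroup_antitone
        (Fermat.Agent.S55.helper4039.le_iSup_map F₁) hc
    have h2 : placeHom F q g σ ∈ L.fixingSubgroup.subgroupOf F.fixingSubgroup :=
      Subgroup.mem_subgroupOf.2 (IntermediateField.fixingSubgroup_antitone le_sup_right hσ')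
    have h3 := conjPrim_rinv hi (retr F.fixingSubgroup g)⁻¹ (placeHom F q g a)
      (placeHom F q g σ) h2
    show (U ((a : primeLocalGaloisGroup q) * (σ : primeLocalGaloisGroup q))).1 g -
        conjPrim c.1 (retr F.fixingSubgroup g)⁻¹ (placeHom F q g (a * σ)) =
      (U (a : primeLocalGaloisGroup q)).1 g -
        conjPrim c.1 (retr F.fixingSubgroup g)⁻¹ (placeHom F q g a)
    rw [hU _ _ h1, map_mul, h3]
  · intro a b
    have h1 := congrArg (fun f : indRep p F => f.1 g)
      (hd (a : primeLocalGaloisGroup q) (b : primeLocalGaloisGroup q))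
    have hL1 := ind₂_val_of_conj_mem (retr F.fixingSubgroup) (retr_mul F.fixingSubgroup) c.1 g
      (primeLocalToGlobal q (a : primeLocalGaloisGroup q))
      (primeLocalToGlobal q (b : primeLocalGaloisGroup q)) a.2 b.2
    have hR1 : ((indRep p F).ρ (primeLocalToGlobal q (a : primeLocalGaloisGroup q))
        (U (b : primeLocalGaloisGroup q))).1 g = (U (b : primeLocalGaloisGroup q)).1 g := by
      rw [coind_ρ_apply]
      have e : g * primeLocalToGlobal q (a : primeLocalGaloisGroup q) =
          ((placeHom F q g a : F.fixingSubgroup) : GQ) * g := by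
        rw [coe_placeHom]; group
      rw [e, coind_val_mul]
      rfl
    have hconj := conj_sub_eq_d c.2.1 (retr F.fixingSubgroup g)⁻¹ (placeHom F q g a)
      (placeHom F q g b)
    have h1' : (ind₂ (N := trivF p F) (retr F.fixingSubgroup) (retr_mul F.fixingSubgroup) c.1
        (primeLocalToGlobal q (a : primeLocalGaloisGroup q),
          primeLocalToGlobal q (b : primeLocalGaloisGroup q))).1 g =
        (U (b : primeLocalGaloisGroup q)).1 g -
          (U ((a : primeLocalGaloisGroup q) * (b : primeLocalGaloisGroup q))).1 g +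
          (U (a : primeLocalGaloisGroup q)).1 g := by
      rw [← hR1]
      exact h1
    rw [hL1] at h1'
    have h1'' : c.1 ((retr F.fixingSubgroup g)⁻¹ * placeHom F q g a *
          (retr F.fixingSubgroup g)⁻¹⁻¹,
        (retr F.fixingSubgroup g)⁻¹ * placeHom F q g b * (retr F.fixingSubgroup g)⁻¹⁻¹) =
        (U (b : primeLocalGaloisGroup q)).1 g -
          (U ((a : primeLocalGaloisGroup q) * (b : primeLocalGaloisGroup q))).1 g +
          (U (a : primeLocalGaloisGroup q)).1 g := h1'
    show c.1 (placeHom F q g a, placeHom F q g b) =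
      ((U (b : primeLocalGaloisGroup q)).1 g -
          conjPrim c.1 (retr F.fixingSubgroup g)⁻¹ (placeHom F q g b)) -
        ((U ((a : primeLocalGaloisGroup q) * (b : primeLocalGaloisGroup q))).1 g -
          conjPrim c.1 (retr F.fixingSubgroup g)⁻¹ (placeHom F q g (a * b))) +
        ((U (a : primeLocalGaloisGroup q)).1 g -
          conjPrim c.1 (retr F.fixingSubgroup g)⁻¹ (placeHom F q g a))
    rw [map_mul]
    linear_combination h1'' - hconj

/-- Membership in the frozen `sha₂` gives vanishing of the localisation at each `q ∈ S`. -/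
theorem locRes₂S_eq_zero_of_mem_sha₂ {M : Rep (ZMod p) GQ} {x : continuousH2S S M}
    (h : x ∈ sha₂ S M) (q : Nat.Primes) (hq : q ∈ S) :
    locRes₂S S M (primeLocalToGlobal q) x = 0 := by
  unfold sha₂ at h
  rw [LinearMap.mem_ker] at h
  exact congrFun h (Sum.inr ⟨q, hq⟩)

/-- If the coinduced class lies in the frozen `sha₂ S (indRep p F)`, the class of the cocycle
lies in `fieldSha2` (the `Ш²`-clause of `Sh2` of GB-SPEC, on classes of the form
`coindClass c`). -/
theorem relH2Sπ_mem_fieldSha2_of_coindClass_mem_sha₂ (hF : F.IsUnramifiedOutside S)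
    (c : relZ2S S F.fixingSubgroup.subtype (trivF p F))
    (h : coindClass S p F hF c ∈ sha₂ S (indRep p F)) :
    relH2Sπ S F.fixingSubgroup.subtype (trivF p F) c ∈ fieldSha2 S p F := by
  rw [mem_fieldSha2_iff]
  intro q hq g
  exact fieldRes₂_eq_zero_of_locRes₂S_coindClass hF c q
    (locRes₂S_eq_zero_of_mem_sha₂ h q hq) g

/-- **Rank comparison**: the rank `dim (fieldH2 / fieldSha2)` of the field-level localisation
`H²(G_{F,S}, 𝔽_p) → ∏_{places over S}` is at most the rank
`dim (continuousH2S / sha₂)` of the frozen total localisation on the induced module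
`indRep p F` (the quantity `helper2945.r2 S (indRep p F)` of SOFT-SPEC). -/
theorem finrank_fieldH2_quot_le [Fact p.Prime] (hF : F.IsUnramifiedOutside S)
    [Module.Finite (ZMod p) (continuousH2S S (indRep p F))] :
    Module.finrank (ZMod p) (fieldH2 S p F ⧸ fieldSha2 S p F) ≤
      Module.finrank (ZMod p) (continuousH2S S (indRep p F) ⧸ sha₂ S (indRep p F)) :=
  finrank_quot_le_of_forall_mem (coindClass S p F hF)
    (relH2Sπ S F.fixingSubgroup.subtype (trivF p F)) (Submodule.mkQ_surjective _)
    (sha₂ S (indRep p F)) (fieldSha2 S p F)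
    (fun c hc => relH2Sπ_mem_fieldSha2_of_coindClass_mem_sha₂ hF c hc)

/-- **(T-GC) of GB-SPEC**: `(G-E)` for the field `F` gives the rank bound for the frozen total
localisation on the induced module:
`#(places of F over S) ≤ dim (continuousH2S S (indRep p F) ⧸ sha₂ S (indRep p F)) + 1`. -/
theorem tGC [Fact p.Prime] (hF : F.IsUnramifiedOutside S)
    [Module.Finite (ZMod p) (continuousH2S S (indRep p F))] (hGE : FieldGE S p F) :
    nPl S F ≤
      Module.finrank (ZMod p) (continuousH2S S (indRep p F) ⧸ sha₂ S (indRep p F)) + 1 :=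
  hGE.trans (Nat.add_le_add_right (finrank_fieldH2_quot_le hF) 1)

end Frozen

/-- Closed form of (T-GC): for every `S`-field `F` containing `μ_p`, the frozen total
localisation on `coind_F 𝔽_p` has rank at least `#(places of F over S) - 1`
(rank = `dim (continuousH2S ⧸ sha₂)` = `helper2945.r2 S (indRep p F)`). -/
def Stmt_TGC : Prop :=
  ∀ (S : Finset Nat.Primes) (p : ℕ) (F : IntermediateField ℚ (AlgebraicClosure ℚ)),
    IsSFieldZeta S p F →
      nPl S F ≤
        Module.finrank (ZMod p) (continuousH2S S (indRep p F) ⧸ sha₂ S (indRep p F)) + 1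

/-- Finiteness of `H²(G_S, coind_F 𝔽_p)` on the frozen carrier (an instance of FIN of SOFT-SPEC:
`indRep p F` is a finite `S`-module when `F` is a finite `S`-field). -/
def Stmt_IndFin : Prop :=
  ∀ (S : Finset Nat.Primes) (p : ℕ) (F : IntermediateField ℚ (AlgebraicClosure ℚ)),
    IsSFieldZeta S p F → Module.Finite (ZMod p) (continuousH2S S (indRep p F))

/-- (T-GC) from `(G-E)` at the field level. -/
theorem stmt_TGC (hGE : Stmt_FieldGE) (hfin : Stmt_IndFin) : Stmt_TGC := by
  intro S p F hF
  have : Fact p.Prime := ⟨hF.prime⟩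
  have := hfin S p F hF
  exact tGC hF.unram (hGE S p F hF)

end Fermat.Agent.S55.helper1145
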