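import Mathlib
import Fermat.Prelude.Def_GroupCohomology_ContinuousUnramified
import Fermat.Agent.S55.helper62_GBShapiro
import Fermat.Agent.S55.helper665_L2Num
import Fermat.Agent.S55.helper6525_Arch
import Fermat.Agent.S55.helper5178_Sylow
import Fermat.Agent.S55.helper4039_SField
import Fermat.Agent.S55.helper4039_SModField
import Fermat.Agent.S55.helper324_FieldH1

/-!
# S55 / GB layer (helper1145): finiteness of `fieldH2` from finiteness of `fieldSha2`

The orphan input (1b) of the `(G-E)`-by-counting assembly (`helper3071.Stmt_FieldFin`), proved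
through the induced module (no place-by-place analysis on the field side):

* `indRep_ρ_eq_one_of_mem`, `isSMod_indRep` : `indRep p F = coind_{G_F}^{G_ℚ} 𝔽_p` is an
  `S`-module (`helper2945.IsSMod`) when `F` is unramified outside `S`;
* `finite_continuousH2S_of_sha₂` : for every `S`-module `M`, `continuousH2S S M` is finite as
  soon as `sha₂ S M` is (the quotient injects into the finite product of the local `H²`'s;
  local finiteness is `helper665.finiteDimensional_continuousH2_res`, the archimedean factor
  vanishes by `helper6525`);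
* `finite_sha₂_indRep` : `sha₂ S (indRep p F)` is finite if `fieldSha2 S p F` is (Shapiro);
* `finite_fieldH2_of_fieldSha2` : `Module.Finite (fieldH2 S p F)` from
  `Module.Finite (fieldSha2 S p F)`;
* `stmt_FieldFin_of` : `helper3071.Stmt_FieldFin` from the local package and finiteness of
  `fieldSha2` (closed Prop `Stmt_FieldSha2Fin`).
-/

set_option autoImplicit false

open CategoryTheory

noncomputable section

namespace Fermat.Agent.S55.helper1145

open groupCohomology ExtCitation
open Fermat.Agent.S55.helper5550
open Fermat.Agent.S55.helper3071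

section Ind

variable {S : Finset Nat.Primes} {p : ℕ} {F : IntermediateField ℚ (AlgebraicClosure ℚ)}

/-- The elements of a normal level `G_N ≤ G_F` act trivially on `indRep p F`. -/
theorem indRep_ρ_eq_one_of_mem {N : IntermediateField ℚ (AlgebraicClosure ℚ)} (hFN : F ≤ N)
    (hn : N.fixingSubgroup.Normal) (s : GQ) (hs : s ∈ N.fixingSubgroup) :
    (indRep p F).ρ s = 1 := by
  refine LinearMap.ext fun f => ?_
  apply Subtype.ext
  funext x
  rw [coind_ρ_apply]
  have hmem : x * s * x⁻¹ ∈ F.fixingSubgroup :=
    IntermediateField.fixingSubgroup_antitone hFN (hn.conj_mem s hs x)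
  have e : x * s = ((⟨x * s * x⁻¹, hmem⟩ : F.fixingSubgroup) : GQ) * x := by
    simp
  rw [e, coind_val_mul]
  rfl

/-- `indRep p F` is an `S`-module when `F` is unramified outside `S`. -/
theorem isSMod_indRep [Fact p.Prime] (hF : F.IsUnramifiedOutside S) :
    helper2945.IsSMod S (indRep p F) := by
  obtain ⟨N, hFN, hN, -, hnorm⟩ := Fermat.Agent.S55.helper4039.exists_normal_ge hF
  have hfd : FiniteDimensional ℚ F := hF.1
  have hfi : F.fixingSubgroup.FiniteIndex :=
    Fermat.Agent.S55.helper4039.finiteIndex_fixingSubgroup F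
  refine ⟨Fermat.Agent.S55.helper5178.finite_coind F.fixingSubgroup (trivF p F),
    fun m => ⟨N, hN.1, fun s hs => ?_⟩, fun q hq A hA g hg => ?_⟩
  · rw [indRep_ρ_eq_one_of_mem hFN hnorm s hs]
    rfl
  · exact indRep_ρ_eq_one_of_mem hFN hnorm g (hN.2 q hq A hA hg)

end Ind

section General

variable {S : Finset Nat.Primes} {p : ℕ} [Fact p.Prime]

/-- For an `S`-module `M` (odd `p`), `H²(G_S, M)` is finite as soon as `Ш²_S(M)` is: the
quotient injects into the finite product of the local `H²`'s. -/
theorem finite_continuousH2S_of_sha₂ (hL : Fermat.Agent.S55.helper665.Stmt_LocalL2) (hp2 : p ≠ 2)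
    {M : Rep.{0, 0, 0} (ZMod p) GQ} (hM : helper2945.IsSMod S M)
    (hsha : Module.Finite (ZMod p) (sha₂ S M)) :
    Module.Finite (ZMod p) (continuousH2S S M) := by
  have hfinloc : ∀ v : extArithIndex S,
      Finite (continuousH2 (extArithLoc S v) (Rep.res (extArithLoc S v) M)) := by
    rintro (v | q)
    · have hs : Subsingleton (continuousH2 archimedeanLoc (Rep.res archimedeanLoc M)) :=
        ⟨fun a b => by
          rw [Fermat.Agent.S55.helper6525.continuousH2_archimedean_eq_zero hp2 M a,
            Fermat.Agent.S55.helper6525.continuousH2_archimedean_eq_zero hp2 M b]⟩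
      exact (inferInstance : Finite (continuousH2 archimedeanLoc (Rep.res archimedeanLoc M)))
    · have hfd := Fermat.Agent.S55.helper665.finiteDimensional_continuousH2_res hL hp2 S M hM q.1
      exact (Module.finite_of_finite (ZMod p) :
        Finite (continuousH2 (primeLocalToGlobal q.1) (Rep.res (primeLocalToGlobal q.1) M)))
  have hpi : Finite (∀ v : extArithIndex S,
      continuousH2 (extArithLoc S v) (Rep.res (extArithLoc S v) M)) := Pi.finite
  have hq : Finite (continuousH2S S M ⧸ sha₂ S M) := by
    refine Finite.of_injective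
      (fun x : continuousH2S S M ⧸ sha₂ S M =>
        locTotal₂S S M (Function.surjInv (Submodule.mkQ_surjective (sha₂ S M)) x)) ?_
    intro x y hxy
    have hx := Function.surjInv_eq (Submodule.mkQ_surjective (sha₂ S M)) x
    have hy := Function.surjInv_eq (Submodule.mkQ_surjective (sha₂ S M)) y
    rw [← hx, ← hy]
    refine (Submodule.Quotient.eq _).2 ?_
    unfold sha₂
    rw [LinearMap.mem_ker]
    funext v
    have hv := congrFun hxy v
    show locRes₂S S M (extArithLoc S v)
        (Function.surjInv (Submodule.mkQ_surjective (sha₂ S M)) x -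
          Function.surjInv (Submodule.mkQ_surjective (sha₂ S M)) y) = 0
    rw [map_sub, sub_eq_zero]
    exact hv
  have hq' : Module.Finite (ZMod p) (continuousH2S S M ⧸ sha₂ S M) := Module.Finite.of_finite
  exact Module.Finite.of_submodule_quotient (sha₂ S M)

end General

section Field

variable {S : Finset Nat.Primes} {p : ℕ} [Fact p.Prime]
  {F : IntermediateField ℚ (AlgebraicClosure ℚ)}

/-- `Ш²_S` of the induced module is finite if `fieldSha2` is (Shapiro is injective and maps
`sha₂` into `fieldSha2`). -/
theorem finite_sha₂_indRep (hF : F.IsUnramifiedOutside S)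
    (hsha : Module.Finite (ZMod p) (fieldSha2 S p F)) :
    Module.Finite (ZMod p) (sha₂ S (indRep p F)) := by
  have hmem : ∀ x ∈ sha₂ S (indRep p F),
      Fermat.Agent.S55.helper62.shapiroH2SMap S F (trivF p F) x ∈ fieldSha2 S p F :=
    fun x hx => Fermat.Agent.S55.helper62.shapiroH2SMap_mem_fieldSha2 S p F x hx
  have hinj : Function.Injective
      ((Fermat.Agent.S55.helper62.shapiroH2SMap S F (trivF p F)).restrict hmem) := by
    intro x y hxy
    apply Subtype.ext
    apply Fermat.Agent.S55.helper62.shapiroH2SMap_injective S F (trivF p F) hF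
    exact congrArg Subtype.val hxy
  exact Module.Finite.of_injective _ hinj

/-- **(1b)**: `H²(G_{F,S}, 𝔽_p)` is finite as soon as `Ш²_S(F, 𝔽_p)` is (odd `p`, local (L2)
package). -/
theorem finite_fieldH2_of_fieldSha2 (hL : Fermat.Agent.S55.helper665.Stmt_LocalL2) (hp2 : p ≠ 2)
    (hF : F.IsUnramifiedOutside S) (hsha : Module.Finite (ZMod p) (fieldSha2 S p F)) :
    Module.Finite (ZMod p) (fieldH2 S p F) := by
  have h1 := finite_sha₂_indRep hF hsha
  have h2 : Module.Finite (ZMod p) (continuousH2S S (indRep p F)) :=
    finite_continuousH2S_of_sha₂ hL hp2 (isSMod_indRep hF) h1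
  exact Module.Finite.equiv (Fermat.Agent.S55.helper62.shapiroH2SEquiv S F (trivF p F) hF)

end Field

/-- Closed form: `Ш²_S(F, 𝔽_p)` is finite for every `S`-field containing `μ_p`. -/
def Stmt_FieldSha2Fin : Prop :=
  ∀ (S : Finset Nat.Primes) (p : ℕ) (F : IntermediateField ℚ (AlgebraicClosure ℚ)),
    IsSFieldZeta S p F → Module.Finite (ZMod p) (fieldSha2 S p F)

/-- `helper3071.Stmt_FieldFin` from the local package and finiteness of `fieldSha2`. -/
theorem stmt_FieldFin_of (hL : Fermat.Agent.S55.helper665.Stmt_LocalL2)
    (hsha : Stmt_FieldSha2Fin) : Stmt_FieldFin := by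
  intro S p F hF
  have : Fact p.Prime := ⟨hF.prime⟩
  have hfd : FiniteDimensional ℚ F := hF.unram.1
  exact ⟨Fermat.Agent.S55.helper324.finite_fieldH1 hF,
    finite_fieldH2_of_fieldSha2 hL hF.odd hF.unram (hsha S p F hF)⟩

end Fermat.Agent.S55.helper1145
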