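import Mathlib

/-!
# Inflation–restriction in degree 2 (S55 finite-group-cohomology kit)

For a group `G`, a normal subgroup `S` and `A : Rep k G` with `H¹(S, A) = 0`, the sequence
`0 ⟶ H²(G ⧸ S, A^S) ⟶ H²(G, A) ⟶ H²(S, A)` is exact.  Direct cochain proof.
-/

set_option autoImplicit false

namespace Fermat.Agent.S55.helper1151

open CategoryTheory groupCohomology Rep

universe u

variable {k G : Type u} [CommRing k] [Group G] {A : Rep.{u} k G} {S : Subgroup G} [S.Normal]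

section cochain

omit [S.Normal] in
/-- The cocycle identity in the form used below. -/
lemma cocycle_id {c : G × G → A} (hc : c ∈ cocycles₂ A) (g h j : G) :
    c (g * h, j) + c (g, h) = A.ρ g (c (h, j)) + c (g, h * j) :=
  (mem_cocycles₂_iff c).1 hc g h j

lemma mk_mul_mem_left {n : G} (hn : n ∈ S) (g : G) : ((n * g : G) : G ⧸ S) = (g : G ⧸ S) := by
  rw [QuotientGroup.eq]
  have := Subgroup.Normal.conj_mem' ‹S.Normal› n⁻¹ (S.inv_mem hn) g
  simpa [mul_assoc] using this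

omit [S.Normal] in
lemma mk_mul_mem_right {n : G} (hn : n ∈ S) (g : G) : ((g * n : G) : G ⧸ S) = (g : G ⧸ S) := by
  rw [QuotientGroup.eq]
  simpa using S.inv_mem hn

/-! ### Step 3: descent of a cocycle vanishing on `S × G` and `G × S` -/

omit [S.Normal] in
lemma snd_mul_right {c : G × G → A} (hc : c ∈ cocycles₂ A)
    (h2 : ∀ g, ∀ n ∈ S, c (g, n) = 0) (g h : G) {n : G} (hn : n ∈ S) :
    c (g, h * n) = c (g, h) := by
  have := cocycle_id hc g h n
  rw [h2 _ n hn, h2 _ n hn, map_zero, zero_add, zero_add] at this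
  exact this.symm

lemma fst_mul_right {c : G × G → A} (hc : c ∈ cocycles₂ A)
    (h1 : ∀ n ∈ S, ∀ g, c (n, g) = 0) (h2 : ∀ g, ∀ n ∈ S, c (g, n) = 0)
    (g h : G) {n : G} (hn : n ∈ S) :
    c (g * n, h) = c (g, h) := by
  have := cocycle_id hc g n h
  rw [h2 _ n hn, h1 n hn, map_zero, zero_add, add_zero] at this
  rw [this]
  have e : n * h = h * (h⁻¹ * n * h) := by group
  rw [e]
  exact snd_mul_right hc h2 g h (Subgroup.Normal.conj_mem' ‹S.Normal› n hn h)

lemma rho_eq_self {c : G × G → A} (hc : c ∈ cocycles₂ A)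
    (h1 : ∀ n ∈ S, ∀ g, c (n, g) = 0) (h2 : ∀ g, ∀ n ∈ S, c (g, n) = 0)
    (g h : G) {n : G} (hn : n ∈ S) :
    A.ρ n (c (g, h)) = c (g, h) := by
  have := cocycle_id hc n g h
  rw [h1 n hn, h1 n hn, add_zero, add_zero] at this
  rw [← this]
  have e : n * g = g * (g⁻¹ * n * g) := by group
  rw [e]
  exact fst_mul_right hc h1 h2 g h (Subgroup.Normal.conj_mem' ‹S.Normal› n hn g)

lemma eq_of_mk_eq {c : G × G → A} (hc : c ∈ cocycles₂ A)
    (h1 : ∀ n ∈ S, ∀ g, c (n, g) = 0) (h2 : ∀ g, ∀ n ∈ S, c (g, n) = 0)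
    {g g' h h' : G} (hg : (g : G ⧸ S) = g') (hh : (h : G ⧸ S) = h') :
    c (g, h) = c (g', h') := by
  have eg : g' = g * (g⁻¹ * g') := by group
  have eh : h' = h * (h⁻¹ * h') := by group
  rw [eg, eh, fst_mul_right hc h1 h2 _ _ (QuotientGroup.eq.1 hg),
    snd_mul_right hc h2 _ _ (QuotientGroup.eq.1 hh)]

/-- The descended cochain `G ⧸ S × G ⧸ S → A^S`. -/
noncomputable def descend₂ (c : G × G → A)
    (hinv : ∀ g h, ∀ n ∈ S, A.ρ n (c (g, h)) = c (g, h)) :
    (G ⧸ S) × (G ⧸ S) → (A.quotientToInvariants S) :=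
  fun p => ⟨c (p.1.out, p.2.out), fun n => hinv _ _ n.1 n.2⟩

lemma descend₂_mk {c : G × G → A} (hc : c ∈ cocycles₂ A)
    (h1 : ∀ n ∈ S, ∀ g, c (n, g) = 0) (h2 : ∀ g, ∀ n ∈ S, c (g, n) = 0) (g h : G) :
    ((descend₂ c (fun g h _ hn => rho_eq_self hc h1 h2 g h hn)
      ((g : G ⧸ S), (h : G ⧸ S)) : A.quotientToInvariants S) : A) = c (g, h) :=
  eq_of_mk_eq hc h1 h2 (QuotientGroup.out_eq' _) (QuotientGroup.out_eq' _)

lemma descend₂_mem_cocycles₂ {c : G × G → A} (hc : c ∈ cocycles₂ A)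
    (h1 : ∀ n ∈ S, ∀ g, c (n, g) = 0) (h2 : ∀ g, ∀ n ∈ S, c (g, n) = 0) :
    descend₂ c (fun g h _ hn => rho_eq_self hc h1 h2 g h hn) ∈
      cocycles₂ (A.quotientToInvariants S) := by
  rw [mem_cocycles₂_iff]
  intro q r s
  induction q using QuotientGroup.induction_on with | @H g =>
  induction r using QuotientGroup.induction_on with | @H h =>
  induction s using QuotientGroup.induction_on with | @H j =>
  apply Subtype.ext
  have := cocycle_id hc g h j
  simp only [← QuotientGroup.mk_mul]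
  have e : ((((A.ρ.quotientToInvariants S) (g : G ⧸ S))
      (descend₂ c (fun g h _ hn => rho_eq_self hc h1 h2 g h hn) ((h : G ⧸ S), (j : G ⧸ S))) :
        A.quotientToInvariants S) : A) = A.ρ g (c (h, j)) := by
    exact congrArg (A.ρ g) (descend₂_mk hc h1 h2 h j)
  rw [Submodule.coe_add, Submodule.coe_add, e, descend₂_mk hc h1 h2, descend₂_mk hc h1 h2,
    descend₂_mk hc h1 h2]
  exact this

/-! ### Step 0: kill the cocycle on `S × S` -/

omit [S.Normal] in
lemma exists_cob_vanish_sub (c : G × G → A) (β₀ : S → A)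
    (h : ∀ s t : S, c (s.1, t.1) = A.ρ s.1 (β₀ t) - β₀ (s * t) + β₀ s) :
    ∃ β : G → A, ∀ n ∈ S, ∀ m ∈ S, (c - (d₁₂ A).hom β) (n, m) = 0 := by
  classical
  refine ⟨fun g => if hg : g ∈ S then β₀ ⟨g, hg⟩ else 0, fun n hn m hm => ?_⟩
  have := h ⟨n, hn⟩ ⟨m, hm⟩
  simp only [Pi.sub_apply, d₁₂_hom_apply, hn, hm, S.mul_mem hn hm, dif_pos]
  rw [this, sub_eq_zero]
  rfl

/-! ### Step 1: kill the cocycle on `S × G` -/

lemma exists_cob_vanish_left {c : G × G → A} (hc : c ∈ cocycles₂ A)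
    (h0 : ∀ n ∈ S, ∀ m ∈ S, c (n, m) = 0) :
    ∃ β : G → A, ∀ n ∈ S, ∀ g, (c + (d₁₂ A).hom β) (n, g) = 0 := by
  refine ⟨fun g => c (g * ((g : G ⧸ S).out)⁻¹, (g : G ⧸ S).out), fun n hn g => ?_⟩
  have ht : ((g : G ⧸ S).out : G ⧸ S) = g := QuotientGroup.out_eq' _
  have hng : ((n * g : G) : G ⧸ S) = g := mk_mul_mem_left hn g
  have hn1 : ((n : G ⧸ S).out) ∈ S := by
    have h' : ((n : G ⧸ S).out : G ⧸ S) = n := QuotientGroup.out_eq' _
    exact (QuotientGroup.eq_one_iff _).1 (h'.trans ((QuotientGroup.eq_one_iff n).2 hn))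
  simp only [Pi.add_apply, d₁₂_hom_apply]
  rw [hng]
  generalize (g : G ⧸ S).out = t at ht
  have hm : g * t⁻¹ ∈ S := by
    have h' : t⁻¹ * g ∈ S := QuotientGroup.eq.1 ht
    have := Subgroup.Normal.conj_mem ‹S.Normal› _ h' t
    simpa [mul_assoc] using this
  have key := cocycle_id hc n (g * t⁻¹) t
  rw [h0 n hn _ hm] at key
  have e1 : g * t⁻¹ * t = g := by group
  have e2 : n * g * t⁻¹ = n * (g * t⁻¹) := by group
  rw [e1, add_zero] at key
  rw [e2, key, h0 _ (S.mul_mem hn (S.inv_mem hn1)) _ hn1]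
  abel

/-! ### Step 2: kill the cocycle on `G × S`, using `H¹(S, A) = 0` -/

omit [S.Normal] in
lemma fst_mul_left {c : G × G → A} (hc : c ∈ cocycles₂ A)
    (h1 : ∀ n ∈ S, ∀ g, c (n, g) = 0) {n : G} (hn : n ∈ S) (g h : G) :
    c (n * g, h) = A.ρ n (c (g, h)) := by
  have := cocycle_id hc n g h
  rwa [h1 n hn, h1 n hn, add_zero, add_zero] at this

lemma twisted_mem_cocycles₁ {c : G × G → A} (hc : c ∈ cocycles₂ A)
    (h1 : ∀ n ∈ S, ∀ g, c (n, g) = 0) (g : G) :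
    (fun m : S => A.ρ g⁻¹ (c (g, m.1))) ∈ cocycles₁ (res S.subtype A) := by
  rw [mem_cocycles₁_iff]
  intro m n
  have key := cocycle_id hc g m.1 n.1
  rw [h1 m.1 m.2, map_zero, zero_add] at key
  have e : g * m.1 = (g * m.1 * g⁻¹) * g := by group
  have hconj : g * m.1 * g⁻¹ ∈ S := Subgroup.Normal.conj_mem ‹S.Normal› _ m.2 g
  rw [e, fst_mul_left hc h1 hconj] at key
  show A.ρ g⁻¹ (c (g, m.1 * n.1)) = A.ρ m.1 (A.ρ g⁻¹ (c (g, n.1))) + A.ρ g⁻¹ (c (g, m.1))
  rw [← key, map_add, ← Module.End.mul_apply, ← map_mul, ← Module.End.mul_apply, ← map_mul]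
  congr 3
  group

omit [S.Normal] in
lemma prop_mul_right {c : G × G → A} (hc : c ∈ cocycles₂ A)
    (h1 : ∀ n ∈ S, ∀ g, c (n, g) = 0) {g : G} {y : A}
    (hP : ∀ m ∈ S, c (g, m) = A.ρ (g * m) y - A.ρ g y) {n : G} (hn : n ∈ S) :
    ∀ m ∈ S, c (g * n, m) = A.ρ (g * n * m) y - A.ρ (g * n) y := by
  intro m hm
  have key := cocycle_id hc g n m
  rw [h1 n hn, map_zero, zero_add, hP n hn, hP _ (S.mul_mem hn hm)] at key
  rw [eq_sub_of_add_eq key, mul_assoc]
  abel

lemma exists_cob_vanish_right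
    (hH1 : ∀ f ∈ cocycles₁ (res S.subtype A), f ∈ coboundaries₁ (res S.subtype A))
    {c : G × G → A} (hc : c ∈ cocycles₂ A) (h1 : ∀ n ∈ S, ∀ g, c (n, g) = 0) :
    ∃ β : G → A, (∀ n ∈ S, ∀ g, (c + (d₁₂ A).hom β) (n, g) = 0) ∧
      (∀ g, ∀ n ∈ S, (c + (d₁₂ A).hom β) (g, n) = 0) := by
  -- for each `g`, a primitive `y`
  have hy : ∀ g : G, ∃ y : A, ∀ m ∈ S, c (g, m) = A.ρ (g * m) y - A.ρ g y := by
    intro g
    obtain ⟨y, hy⟩ := hH1 _ (twisted_mem_cocycles₁ hc h1 g)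
    refine ⟨y, fun m hm => ?_⟩
    have := congrFun hy ⟨m, hm⟩
    rw [d₀₁_hom_apply] at this
    have h2 : A.ρ g⁻¹ (c (g, m)) = A.ρ m y - y := this.symm
    have h3 := congrArg (A.ρ g) h2
    rw [← Module.End.mul_apply, ← map_mul, mul_inv_cancel, map_one, Module.End.one_apply,
      map_sub, ← Module.End.mul_apply, ← map_mul] at h3
    exact h3
  choose Y0 hY0 using hy
  -- a choice depending only on the coset
  let Y : G ⧸ S → A := fun q => Y0 q.out
  have hY : ∀ g : G, ∀ m ∈ S, c (g, m) = A.ρ (g * m) (Y g) - A.ρ g (Y g) := by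
    intro g
    have ht : ((g : G ⧸ S).out : G ⧸ S) = g := QuotientGroup.out_eq' _
    have e : g = (g : G ⧸ S).out * (((g : G ⧸ S).out)⁻¹ * g) := by group
    have := prop_mul_right hc h1 (hY0 (g : G ⧸ S).out) (QuotientGroup.eq.1 ht)
    rw [← e] at this
    exact this
  have hY1 : ∀ m ∈ S, A.ρ m (Y ((1 : G) : G ⧸ S)) = Y ((1 : G) : G ⧸ S) := by
    intro m hm
    have := hY 1 m hm
    rw [h1 1 S.one_mem, one_mul, map_one, Module.End.one_apply] at this
    exact (sub_eq_zero.1 this.symm)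
  let Z : G ⧸ S → A := fun q => Y q - Y ((1 : G) : G ⧸ S)
  have hZ1 : Z ((1 : G) : G ⧸ S) = 0 := sub_self _
  have hZ : ∀ g : G, ∀ m ∈ S, c (g, m) = A.ρ (g * m) (Z g) - A.ρ g (Z g) := by
    intro g m hm
    show c (g, m) = A.ρ (g * m) (Y g - Y ((1 : G) : G ⧸ S)) - A.ρ g (Y g - Y ((1 : G) : G ⧸ S))
    rw [map_sub, map_sub, hY g m hm]
    simp only [map_mul, Module.End.mul_apply]
    rw [hY1 m hm]
    abel
  have hZS : ∀ n ∈ S, Z (n : G ⧸ S) = 0 := by
    intro n hn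
    rw [(QuotientGroup.eq_one_iff n).2 hn]
    exact hZ1
  refine ⟨fun g => A.ρ g (Z g), fun n hn g => ?_, fun g n hn => ?_⟩
  · simp only [Pi.add_apply, d₁₂_hom_apply]
    rw [h1 n hn, mk_mul_mem_left hn g, hZS n hn, map_zero, ← Module.End.mul_apply, ← map_mul]
    abel
  · simp only [Pi.add_apply, d₁₂_hom_apply]
    rw [hZ g n hn, mk_mul_mem_right hn g, hZS n hn, map_zero, map_zero]
    abel

/-! ### The cocycle-level inflation–restriction statement -/

/-- If `H¹(S, A) = 0` and the 2-cocycle `c` of `G` restricts to a coboundary on `S`, then `c` is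
cohomologous to the inflation of a 2-cocycle of `G ⧸ S` with values in `A^S`. -/
theorem exists_inf_add_cob
    (hH1 : ∀ f ∈ cocycles₁ (res S.subtype A), f ∈ coboundaries₁ (res S.subtype A))
    {c : G × G → A} (hc : c ∈ cocycles₂ A)
    (hres : ∃ β₀ : S → A, ∀ s t : S, c (s.1, t.1) = A.ρ s.1 (β₀ t) - β₀ (s * t) + β₀ s) :
    ∃ (cbar : cocycles₂ (A.quotientToInvariants S)) (β : G → A), ∀ g h : G,
      c (g, h) = ((cbar ((g : G ⧸ S), (h : G ⧸ S)) : A.quotientToInvariants S) : A)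
        + (d₁₂ A).hom β (g, h) := by
  obtain ⟨β₀, hβ₀⟩ := hres
  obtain ⟨b0, hb0⟩ := exists_cob_vanish_sub c β₀ hβ₀
  have hc0 : c - (d₁₂ A).hom b0 ∈ cocycles₂ A := sub_mem hc (d₁₂_apply_mem_cocycles₂ b0)
  obtain ⟨b1, hb1⟩ := exists_cob_vanish_left hc0 hb0
  have hc1 : c - (d₁₂ A).hom b0 + (d₁₂ A).hom b1 ∈ cocycles₂ A :=
    add_mem hc0 (d₁₂_apply_mem_cocycles₂ b1)
  obtain ⟨b2, hb2, hb2'⟩ := exists_cob_vanish_right hH1 hc1 hb1
  have hc2 : c - (d₁₂ A).hom b0 + (d₁₂ A).hom b1 + (d₁₂ A).hom b2 ∈ cocycles₂ A :=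
    add_mem hc1 (d₁₂_apply_mem_cocycles₂ b2)
  refine ⟨⟨_, descend₂_mem_cocycles₂ hc2 hb2 hb2'⟩, b0 - b1 - b2, fun g h => ?_⟩
  rw [cocycles₂.coe_mk, descend₂_mk hc2 hb2 hb2', map_sub, map_sub]
  simp only [Pi.add_apply, Pi.sub_apply]
  abel

/-- If `H¹(S, A) = 0` and the inflation of the 2-cocycle `cbar` of `G ⧸ S` is a coboundary,
then `cbar` is a coboundary. -/
theorem mem_coboundaries₂_of_inf_cob
    (hH1 : ∀ f ∈ cocycles₁ (res S.subtype A), f ∈ coboundaries₁ (res S.subtype A))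
    (cbar : cocycles₂ (A.quotientToInvariants S)) (β : G → A)
    (hβ : ∀ g h : G, ((cbar ((g : G ⧸ S), (h : G ⧸ S)) : A.quotientToInvariants S) : A)
      = A.ρ g (β h) - β (g * h) + β g) :
    (cbar : (G ⧸ S) × (G ⧸ S) → A.quotientToInvariants S) ∈
      coboundaries₂ (A.quotientToInvariants S) := by
  set a₀ : A := ((cbar (((1 : G) : G ⧸ S), ((1 : G) : G ⧸ S)) : A.quotientToInvariants S) : A)
    with ha₀_def
  have ha₀ : ∀ n ∈ S, A.ρ n a₀ = a₀ := fun n hn =>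
    (cbar (((1 : G) : G ⧸ S), ((1 : G) : G ⧸ S))).2 ⟨n, hn⟩
  have hS : ∀ n ∈ S, ((n : G) : G ⧸ S) = ((1 : G) : G ⧸ S) := fun n hn =>
    (QuotientGroup.eq_one_iff n).2 hn
  -- `β - a₀` is a 1-cocycle on `S`
  have hcoc : (fun n : S => β n.1 - a₀) ∈ cocycles₁ (res S.subtype A) := by
    rw [mem_cocycles₁_iff]
    intro n m
    have := hβ n.1 m.1
    rw [hS n.1 n.2, hS m.1 m.2] at this
    show β (n.1 * m.1) - a₀ = A.ρ n.1 (β m.1 - a₀) + (β n.1 - a₀)
    rw [map_sub, ha₀ n.1 n.2]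
    rw [← ha₀_def] at this
    rw [this]
    abel
  obtain ⟨y, hy⟩ := hH1 _ hcoc
  have hy' : ∀ n ∈ S, β n = A.ρ n y - y + a₀ := by
    intro n hn
    have := congrFun hy ⟨n, hn⟩
    rw [d₀₁_hom_apply] at this
    have h2 : A.ρ n y - y = β n - a₀ := this
    rw [h2]; abel
  -- the corrected primitive
  let γ : G → A := fun g => β g - (A.ρ g y - y)
  have hγ : ∀ g h : G, ((cbar ((g : G ⧸ S), (h : G ⧸ S)) : A.quotientToInvariants S) : A)
      = A.ρ g (γ h) - γ (g * h) + γ g := by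
    intro g h
    show _ = A.ρ g (β h - (A.ρ h y - y)) - (β (g * h) - (A.ρ (g * h) y - y)) + (β g - (A.ρ g y - y))
    rw [hβ g h]
    simp only [map_sub, map_mul, Module.End.mul_apply]
    abel
  have hγS : ∀ n ∈ S, γ n = a₀ := by
    intro n hn
    show β n - (A.ρ n y - y) = a₀
    rw [hy' n hn]; abel
  have hγr : ∀ g : G, ∀ n ∈ S, γ (g * n) = γ g := by
    intro g n hn
    have h1 := hγ g n
    have h2 : ((cbar ((g : G ⧸ S), ((n : G) : G ⧸ S)) : A.quotientToInvariants S) : A)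
        = A.ρ g a₀ := by
      rw [hS n hn]
      exact congrArg Subtype.val (cocycles₂_map_one_snd cbar (g : G ⧸ S))
    rw [h2, hγS n hn] at h1
    calc γ (g * n) = γ g - ((A.ρ g a₀ - γ (g * n) + γ g) - A.ρ g a₀) := by abel
      _ = γ g := by rw [← h1]; abel
  have hγl : ∀ n ∈ S, ∀ h : G, A.ρ n (γ h) = γ h := by
    intro n hn h
    have h1 := hγ n h
    have h2 : ((cbar (((n : G) : G ⧸ S), (h : G ⧸ S)) : A.quotientToInvariants S) : A) = a₀ := by
      rw [hS n hn]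
      exact congrArg Subtype.val (cocycles₂_map_one_fst cbar (h : G ⧸ S))
    rw [h2, hγS n hn] at h1
    have e : n * h = h * (h⁻¹ * n * h) := by group
    rw [e, hγr h _ (Subgroup.Normal.conj_mem' ‹S.Normal› n hn h)] at h1
    calc A.ρ n (γ h) = γ h + ((A.ρ n (γ h) - γ h + a₀) - a₀) := by abel
      _ = γ h := by rw [← h1]; abel
  let γbar : G ⧸ S → A.quotientToInvariants S := fun q => ⟨γ q.out, fun n => hγl n.1 n.2 _⟩
  have hγbar : ∀ g : G, ((γbar (g : G ⧸ S) : A.quotientToInvariants S) : A) = γ g := by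
    intro g
    have ht : ((g : G ⧸ S).out : G ⧸ S) = g := QuotientGroup.out_eq' _
    have e : (g : G ⧸ S).out = g * (g⁻¹ * (g : G ⧸ S).out) := by group
    show γ (g : G ⧸ S).out = γ g
    rw [e]
    exact hγr g _ (QuotientGroup.eq.1 ht.symm)
  refine ⟨γbar, funext fun p => ?_⟩
  obtain ⟨q, r⟩ := p
  induction q using QuotientGroup.induction_on with | @H g =>
  induction r using QuotientGroup.induction_on with | @H h =>
  apply Subtype.ext
  rw [d₁₂_hom_apply]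
  simp only [← QuotientGroup.mk_mul]
  have e : ((((A.ρ.quotientToInvariants S) (g : G ⧸ S)) (γbar (h : G ⧸ S)) :
      A.quotientToInvariants S) : A) = A.ρ g (γ h) := congrArg (A.ρ g) (hγbar h)
  rw [Submodule.coe_add, Submodule.coe_sub, e, hγbar, hγbar]
  exact (hγ g h).symm

end cochain

/-! ### Statements on `H²` -/

section H2

variable {H : Type u} [Group H] {B : Rep.{u} k H}

/-- The map induced on `H²` by the trivial homomorphism is zero. -/
theorem map₂_one (φ : res (1 : H →* G) A ⟶ B) : map (1 : H →* G) φ 2 = 0 := by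
  rw [← cancel_epi (H2π _), H2π_comp_map, Limits.comp_zero]
  ext x
  rw [ModuleCat.comp_apply]
  refine (H2π_eq_zero_iff _).2 ⟨fun _ => φ.hom (x (1, 1)), funext fun p => ?_⟩
  rw [d₁₂_hom_apply]
  have hinv : B.ρ p.1 (φ.hom (x (1, 1))) = φ.hom (x (1, 1)) := by
    have := hom_comm_apply φ p.1 (x (1, 1))
    simpa using this.symm
  rw [hinv, sub_self, zero_add]
  rfl

variable (A S)

/-- The short complex `H²(G ⧸ S, A^S) ⟶ H²(G, A) ⟶ H²(S, A)` (degree-2 analogue of Mathlib's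
`groupCohomology.H1InfRes`). -/
noncomputable def H2InfRes : ShortComplex (ModuleCat k) where
  X₁ := groupCohomology (A.quotientToInvariants S) 2
  X₂ := groupCohomology A 2
  X₃ := groupCohomology (res S.subtype A) 2
  f := map (QuotientGroup.mk' S) (ofHom <| A.ρ.quotientToInvariants_lift S) 2
  g := map S.subtype (𝟙 _) 2
  zero := by rw [← map_comp, Category.comp_id,
    groupCohomology.congr (QuotientGroup.mk'_comp_subtype S) (fun f φ => map f φ 2), map₂_one]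

variable {A S}

omit [S.Normal] in
/-- `H¹(S, A) = 0` in cocycle form. -/
lemma cocycles₁_le_coboundaries₁_of_H1_eq_zero
    (hH1 : ∀ x : H1 (res S.subtype A), x = 0) :
    ∀ f ∈ cocycles₁ (res S.subtype A), f ∈ coboundaries₁ (res S.subtype A) :=
  fun f hf => (H1π_eq_zero_iff (⟨f, hf⟩ : cocycles₁ (res S.subtype A))).1 (hH1 _)

/-- If `H¹(S, A) = 0`, the inflation map `H²(G ⧸ S, A^S) ⟶ H²(G, A)` is injective. -/
theorem H2InfRes_f_injective (hH1 : ∀ x : H1 (res S.subtype A), x = 0) :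
    Function.Injective (H2InfRes A S).f := by
  rw [injective_iff_map_eq_zero]
  intro x hx
  induction x using H2_induction_on with | @h x =>
  have hx' : H2π A (mapCocycles₂ (QuotientGroup.mk' S)
      (ofHom <| A.ρ.quotientToInvariants_lift S) x) = 0 := by
    rw [← H2π_comp_map_apply]; exact hx
  obtain ⟨β, hβ⟩ := (H2π_eq_zero_iff _).1 hx'
  refine (H2π_eq_zero_iff _).2
    (mem_coboundaries₂_of_inf_cob (cocycles₁_le_coboundaries₁_of_H1_eq_zero hH1) x β
      fun g h => ?_)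
  have := congrFun hβ (g, h)
  rw [d₁₂_hom_apply] at this
  exact this.symm

/-- If `H¹(S, A) = 0`, the inflation map `H²(G ⧸ S, A^S) ⟶ H²(G, A)` is a monomorphism. -/
theorem H2InfRes_f_mono (hH1 : ∀ x : H1 (res S.subtype A), x = 0) : Mono (H2InfRes A S).f :=
  (ModuleCat.mono_iff_injective _).2 (H2InfRes_f_injective hH1)

/-- If `H¹(S, A) = 0`, the short complex `H²(G ⧸ S, A^S) ⟶ H²(G, A) ⟶ H²(S, A)` is exact. -/
theorem H2InfRes_exact (hH1 : ∀ x : H1 (res S.subtype A), x = 0) : (H2InfRes A S).Exact := by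
  rw [ShortComplex.moduleCat_exact_iff_ker_sub_range]
  intro x hx
  induction x using H2_induction_on with | @h x =>
  have hx' : H2π (res S.subtype A) (mapCocycles₂ S.subtype (𝟙 (res S.subtype A)) x) = 0 := by
    rw [← H2π_comp_map_apply]; exact hx
  obtain ⟨β₀, hβ₀⟩ := (H2π_eq_zero_iff _).1 hx'
  obtain ⟨cbar, β, h⟩ := exists_inf_add_cob (cocycles₁_le_coboundaries₁_of_H1_eq_zero hH1)
    x.2 ⟨β₀, fun s t => by
      have := congrFun hβ₀ (s, t)
      rw [d₁₂_hom_apply] at this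
      exact this.symm⟩
  refine ⟨H2π _ cbar, ?_⟩
  have e : (H2InfRes A S).f (H2π _ cbar) = H2π A (mapCocycles₂ (QuotientGroup.mk' S)
      (ofHom <| A.ρ.quotientToInvariants_lift S) cbar) := H2π_comp_map_apply _ _ _
  rw [e]
  refine (H2π_eq_iff _ _).2 ⟨-β, funext fun p => ?_⟩
  obtain ⟨g, j⟩ := p
  rw [map_neg]
  have := h g j
  simp only [Pi.neg_apply, Pi.sub_apply]
  rw [show (x : G × G → A) (g, j) = _ from this]
  show _ = ((cbar ((g : G ⧸ S), (j : G ⧸ S)) : A.quotientToInvariants S) : A) - _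
  abel

end H2

end Fermat.Agent.S55.helper1151
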