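import Mathlib

/-!
# Inflation-restriction in degree 2 (S55-INFRES2, helper1535)

For `A : Rep k G`, `S` a normal subgroup of `G` such that every 1-cocycle of `S` with values in
`A` is a coboundary (`H¹(S, A) = 0`), the sequence

`0 ⟶ H²(G ⧸ S, A^S) ⟶ H²(G, A) ⟶ H²(S, A)`

is exact.  Mathlib only has the degree one statement (`groupCohomology.H1InfRes`).
The proof is a direct cocycle computation with explicit primitives.
-/

set_option autoImplicit false

universe u

namespace Fermat.Agent.S55.helper1535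

open CategoryTheory groupCohomology Rep

variable {k G : Type u} [CommRing k] [Group G] (A : Rep k G) (S : Subgroup G)

section CosetRep

/-- The chosen representative of the coset `g S`. -/
noncomputable def cosetRep (g : G) : G := (QuotientGroup.mk g : G ⧸ S).out

lemma cosetRep_spec (g : G) : ∃ s : G, s ∈ S ∧ cosetRep S g = g * s := by
  obtain ⟨h, hh⟩ := QuotientGroup.mk_out_eq_mul S g
  exact ⟨h.1, h.2, hh⟩

lemma cosetRep_mul_mem (g : G) {s : G} (hs : s ∈ S) : cosetRep S (g * s) = cosetRep S g := by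
  unfold cosetRep
  congr 1
  exact (QuotientGroup.mk_mul_of_mem g hs)

lemma cosetRep_inv_mul_mem (g : G) : (cosetRep S g)⁻¹ * g ∈ S := by
  obtain ⟨s, hs, h⟩ := cosetRep_spec S g
  rw [h, mul_inv_rev, inv_mul_cancel_right]
  exact S.inv_mem hs

lemma cosetRep_mem_of_mem {s : G} (hs : s ∈ S) : cosetRep S s ∈ S := by
  obtain ⟨t, ht, h⟩ := cosetRep_spec S s
  rw [h]
  exact S.mul_mem hs ht

lemma cosetRep_of_mem {s : G} (hs : s ∈ S) : cosetRep S s = cosetRep S 1 := by
  have := cosetRep_mul_mem S 1 hs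
  rwa [one_mul] at this

lemma cosetRep_mem_mul [S.Normal] (g : G) {s : G} (hs : s ∈ S) :
    cosetRep S (s * g) = cosetRep S g := by
  have h : s * g = g * (g⁻¹ * s * g) := by group
  rw [h]
  exact cosetRep_mul_mem S g (Subgroup.Normal.conj_mem' ‹_› s hs g)

end CosetRep

section Core

/-- Extension by zero of a cochain on `S`. -/
noncomputable def extendZero (φ₀ : S → A) : G → A := by
  classical exact fun g => if h : g ∈ S then φ₀ ⟨g, h⟩ else 0

lemma extendZero_of_mem (φ₀ : S → A) {g : G} (h : g ∈ S) : extendZero A S φ₀ g = φ₀ ⟨g, h⟩ := by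
  unfold extendZero
  exact dif_pos h

variable {A}

/-- Stage 0: if `c` restricted to `S × S` is the coboundary of `φ₀`, then `c - d (extendZero φ₀)`
vanishes on `S × S`. -/
theorem stage0 {c : G × G → A} (φ₀ : S → A)
    (hφ₀ : ∀ s t : S, c (s.1, t.1) = A.ρ s.1 (φ₀ t) - φ₀ (s * t) + φ₀ s)
    {s t : G} (hs : s ∈ S) (ht : t ∈ S) :
    (c - (d₁₂ A).hom (extendZero A S φ₀)) (s, t) = 0 := by
  have h := hφ₀ ⟨s, hs⟩ ⟨t, ht⟩
  simp only [Pi.sub_apply, d₁₂_hom_apply]
  rw [extendZero_of_mem A S φ₀ hs, extendZero_of_mem A S φ₀ ht,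
    extendZero_of_mem A S φ₀ (S.mul_mem hs ht)]
  rw [h]
  exact sub_self _

/-- The primitive of stage B. -/
noncomputable def psi1 (c : G × G → A) : G → A :=
  fun g => - c (cosetRep S g, (cosetRep S g)⁻¹ * g)

/-- Stage B: if the 2-cocycle `c` vanishes on `S × S` then `c - d (psi1 c)` vanishes on
`G × S`. -/
theorem stageB {c : G × G → A} (hc : c ∈ cocycles₂ A)
    (h0 : ∀ s ∈ S, ∀ t ∈ S, c (s, t) = 0) (g : G) {s : G} (hs : s ∈ S) :
    (c - (d₁₂ A).hom (psi1 S c)) (g, s) = 0 := by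
  have hZ := (mem_cocycles₂_iff c).1 hc (cosetRep S g) ((cosetRep S g)⁻¹ * g) s
  rw [mul_inv_cancel_left, h0 _ (cosetRep_inv_mul_mem S g) _ hs, map_zero, zero_add] at hZ
  simp only [Pi.sub_apply, d₁₂_hom_apply, psi1]
  rw [cosetRep_mul_mem S g hs, h0 _ (cosetRep_mem_of_mem S hs) _ (cosetRep_inv_mul_mem S s)]
  rw [neg_zero, map_zero, zero_sub, neg_neg, ← mul_assoc, ← hZ]
  abel

/-- A 2-cocycle vanishing on `G × S` is right `S`-invariant in the second variable. -/
theorem snd_mul_mem_of_vanish {c : G × G → A} (hc : c ∈ cocycles₂ A)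
    (h1 : ∀ g : G, ∀ s ∈ S, c (g, s) = 0) (g h : G) {s : G} (hs : s ∈ S) :
    c (g, h * s) = c (g, h) := by
  have hZ := (mem_cocycles₂_iff c).1 hc g h s
  rw [h1 _ s hs, h1 _ s hs, map_zero, zero_add, zero_add] at hZ
  exact hZ.symm

/-- For a 2-cocycle vanishing on `G × S`, the map `s ↦ c (s, g)` is a 1-cocycle on `S`. -/
theorem fst_cocycle_of_vanish [S.Normal] {c : G × G → A} (hc : c ∈ cocycles₂ A)
    (h1 : ∀ g : G, ∀ s ∈ S, c (g, s) = 0) (g : G) {s t : G} (ht : t ∈ S) :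
    c (s * t, g) = A.ρ s (c (t, g)) + c (s, g) := by
  have hZ := (mem_cocycles₂_iff c).1 hc s t g
  rw [h1 _ t ht, add_zero] at hZ
  have h : t * g = g * (g⁻¹ * t * g) := by group
  rw [hZ, h, snd_mul_mem_of_vanish S hc h1 s g (Subgroup.Normal.conj_mem' ‹_› t ht g)]

/-- A choice of primitives of the 1-cocycles `s ↦ c (s, g)`. -/
noncomputable def prim (c : G × G → A)
    (h : ∀ g : G, ∃ a : A, ∀ s ∈ S, c (s, g) = A.ρ s a - a) : G → A :=
  fun g => (h g).choose

lemma prim_spec (c : G × G → A)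
    (h : ∀ g : G, ∃ a : A, ∀ s ∈ S, c (s, g) = A.ρ s a - a) (g : G) {s : G} (hs : s ∈ S) :
    c (s, g) = A.ρ s (prim S c h g) - prim S c h g :=
  (h g).choose_spec s hs

/-- The primitive of stage C. -/
noncomputable def psi2 (c : G × G → A)
    (h : ∀ g : G, ∃ a : A, ∀ s ∈ S, c (s, g) = A.ρ s a - a) : G → A :=
  fun g => prim S c h (cosetRep S g) - prim S c h (cosetRep S 1)

lemma psi2_mul_mem (c : G × G → A)
    (h : ∀ g : G, ∃ a : A, ∀ s ∈ S, c (s, g) = A.ρ s a - a) (g : G) {s : G} (hs : s ∈ S) :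
    psi2 S c h (g * s) = psi2 S c h g := by
  unfold psi2
  rw [cosetRep_mul_mem S g hs]

lemma psi2_mem_mul [S.Normal] (c : G × G → A)
    (h : ∀ g : G, ∃ a : A, ∀ s ∈ S, c (s, g) = A.ρ s a - a) (g : G) {s : G} (hs : s ∈ S) :
    psi2 S c h (s * g) = psi2 S c h g := by
  unfold psi2
  rw [cosetRep_mem_mul S g hs]

lemma psi2_of_mem (c : G × G → A)
    (h : ∀ g : G, ∃ a : A, ∀ s ∈ S, c (s, g) = A.ρ s a - a) {s : G} (hs : s ∈ S) :
    psi2 S c h s = 0 := by
  unfold psi2
  rw [cosetRep_of_mem S hs, sub_self]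

lemma psi2_spec {c : G × G → A} (hc : c ∈ cocycles₂ A)
    (h1 : ∀ g : G, ∀ s ∈ S, c (g, s) = 0)
    (h : ∀ g : G, ∃ a : A, ∀ s ∈ S, c (s, g) = A.ρ s a - a) (g : G) {s : G} (hs : s ∈ S) :
    A.ρ s (psi2 S c h g) - psi2 S c h g = c (s, g) := by
  unfold psi2
  have e1 := prim_spec S c h (cosetRep S g) hs
  have e2 := prim_spec S c h (cosetRep S 1) hs
  obtain ⟨t, ht, hgt⟩ := cosetRep_spec S g
  have e4 : c (s, cosetRep S g) = c (s, g) := by
    rw [hgt, snd_mul_mem_of_vanish S hc h1 s g ht]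
  rw [e4] at e1
  rw [h1 _ _ (cosetRep_mem_of_mem S S.one_mem)] at e2
  have e3 : A.ρ s (prim S c h (cosetRep S 1)) = prim S c h (cosetRep S 1) :=
    (sub_eq_zero.1 e2.symm)
  rw [map_sub, e1, e3]
  abel

/-- Stage C: if the 2-cocycle `c` vanishes on `G × S` and each 1-cocycle `s ↦ c (s, g)` on `S`
is a coboundary, then `c - d (psi2 c)` vanishes on `G × S` and on `S × G`. -/
theorem stageC [S.Normal] {c : G × G → A} (hc : c ∈ cocycles₂ A)
    (h1 : ∀ g : G, ∀ s ∈ S, c (g, s) = 0)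
    (h : ∀ g : G, ∃ a : A, ∀ s ∈ S, c (s, g) = A.ρ s a - a) :
    (∀ g : G, ∀ s ∈ S, (c - (d₁₂ A).hom (psi2 S c h)) (g, s) = 0) ∧
    (∀ s ∈ S, ∀ g : G, (c - (d₁₂ A).hom (psi2 S c h)) (s, g) = 0) := by
  refine ⟨fun g s hs => ?_, fun s hs g => ?_⟩
  · simp only [Pi.sub_apply, d₁₂_hom_apply]
    rw [h1 g s hs, psi2_of_mem S c h hs, psi2_mul_mem S c h g hs, map_zero]
    abel
  · simp only [Pi.sub_apply, d₁₂_hom_apply]
    rw [psi2_of_mem S c h hs, psi2_mem_mul S c h g hs, add_zero, psi2_spec S hc h1 h g hs,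
      sub_self]

/-- A 2-cocycle vanishing on `G × S` and `S × G` is inflated: it is right `S`-invariant in both
variables and takes values in the `S`-invariants. -/
theorem invariance_of_vanish [S.Normal] {c : G × G → A} (hc : c ∈ cocycles₂ A)
    (h1 : ∀ g : G, ∀ s ∈ S, c (g, s) = 0) (h2 : ∀ s ∈ S, ∀ g : G, c (s, g) = 0) :
    (∀ g h : G, ∀ s ∈ S, c (g, h * s) = c (g, h)) ∧
    (∀ g h : G, ∀ s ∈ S, c (g * s, h) = c (g, h)) ∧
    (∀ g h : G, ∀ s ∈ S, A.ρ s (c (g, h)) = c (g, h)) := by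
  have i1 : ∀ g h : G, ∀ s ∈ S, c (g, h * s) = c (g, h) :=
    fun g h s hs => snd_mul_mem_of_vanish S hc h1 g h hs
  have i2 : ∀ g h : G, ∀ s ∈ S, c (g * s, h) = c (g, h) := by
    intro g h s hs
    have hZ := (mem_cocycles₂_iff c).1 hc g s h
    rw [h1 g s hs, h2 s hs h, map_zero, add_zero, zero_add] at hZ
    have e : s * h = h * (h⁻¹ * s * h) := by group
    rw [hZ, e, i1 g h _ (Subgroup.Normal.conj_mem' ‹_› s hs h)]
  refine ⟨i1, i2, fun g h s hs => ?_⟩
  have hZ := (mem_cocycles₂_iff c).1 hc s g h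
  rw [h2 s hs g, h2 s hs (g * h), add_zero, add_zero] at hZ
  have e : s * g = g * (g⁻¹ * s * g) := by group
  rw [← hZ, e, i2 g h _ (Subgroup.Normal.conj_mem' ‹_› s hs g)]

/-- **Cochain-level inflation-restriction in degree 2.**  If the restriction of the 2-cocycle `c`
to `S × S` is a coboundary and every 1-cocycle on `S` is a coboundary, then `c` differs by an
explicit coboundary `d ψ` from a cocycle vanishing on `G × S` and on `S × G`. -/
theorem exists_vanish_of_res_coboundary [S.Normal] {c : G × G → A} (hc : c ∈ cocycles₂ A)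
    (hS : ∀ f : S → A, (∀ s t : S, f (s * t) = A.ρ s.1 (f t) + f s) →
      ∃ a : A, ∀ s : S, f s = A.ρ s.1 a - a)
    (φ₀ : S → A)
    (hφ₀ : ∀ s t : S, c (s.1, t.1) = A.ρ s.1 (φ₀ t) - φ₀ (s * t) + φ₀ s) :
    ∃ ψ : G → A, (∀ g : G, ∀ s ∈ S, (c - (d₁₂ A).hom ψ) (g, s) = 0) ∧
      (∀ s ∈ S, ∀ g : G, (c - (d₁₂ A).hom ψ) (s, g) = 0) := by
  set c0 : G × G → A := c - (d₁₂ A).hom (extendZero A S φ₀) with hc0
  have hc0m : c0 ∈ cocycles₂ A := Submodule.sub_mem _ hc (d₁₂_apply_mem_cocycles₂ _)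
  have h0 : ∀ s ∈ S, ∀ t ∈ S, c0 (s, t) = 0 := fun s hs t ht => stage0 S φ₀ hφ₀ hs ht
  set c1 : G × G → A := c0 - (d₁₂ A).hom (psi1 S c0) with hc1
  have hc1m : c1 ∈ cocycles₂ A := Submodule.sub_mem _ hc0m (d₁₂_apply_mem_cocycles₂ _)
  have h1 : ∀ g : G, ∀ s ∈ S, c1 (g, s) = 0 := fun g s hs => stageB S hc0m h0 g hs
  have hex : ∀ g : G, ∃ a : A, ∀ s ∈ S, c1 (s, g) = A.ρ s a - a := by
    intro g
    obtain ⟨a, ha⟩ := hS (fun s => c1 (s.1, g))
      (fun s t => fst_cocycle_of_vanish S hc1m h1 g t.2)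
    exact ⟨a, fun s hs => ha ⟨s, hs⟩⟩
  obtain ⟨k1, k2⟩ := stageC S hc1m h1 hex
  have key : ∀ p2 : G → A,
      c - (d₁₂ A).hom (extendZero A S φ₀ + psi1 S c0 + p2) = c1 - (d₁₂ A).hom p2 := by
    intro p2
    rw [hc1, hc0, map_add, map_add]
    abel
  refine ⟨extendZero A S φ₀ + psi1 S c0 + psi2 S c1 hex, ?_, ?_⟩
  · intro g s hs
    rw [key]
    exact k1 g s hs
  · intro s hs g
    rw [key]
    exact k2 s hs g

end Core

section Descend

variable {A} [S.Normal]

/-- Descend a cochain with values in the `S`-invariants to `G ⧸ S`. -/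
noncomputable def descend (c : G × G → A)
    (hinv : ∀ g h : G, ∀ s ∈ S, A.ρ s (c (g, h)) = c (g, h)) :
    (G ⧸ S) × (G ⧸ S) → A.quotientToInvariants S :=
  fun x => ⟨c (x.1.out, x.2.out), fun s => hinv _ _ s.1 s.2⟩

lemma descend_mk (c : G × G → A)
    (hinv : ∀ g h : G, ∀ s ∈ S, A.ρ s (c (g, h)) = c (g, h))
    (i1 : ∀ g h : G, ∀ s ∈ S, c (g, h * s) = c (g, h))
    (i2 : ∀ g h : G, ∀ s ∈ S, c (g * s, h) = c (g, h)) (g h : G) :
    (descend S c hinv (QuotientGroup.mk g, QuotientGroup.mk h)).1 = c (g, h) := by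
  obtain ⟨s, hs⟩ := QuotientGroup.mk_out_eq_mul S g
  obtain ⟨t, ht⟩ := QuotientGroup.mk_out_eq_mul S h
  change c ((QuotientGroup.mk g : G ⧸ S).out, (QuotientGroup.mk h : G ⧸ S).out) = c (g, h)
  rw [hs, ht, i1 _ _ _ t.2, i2 _ _ _ s.2]

lemma descend_mem_cocycles₂ {c : G × G → A} (hc : c ∈ cocycles₂ A)
    (hinv : ∀ g h : G, ∀ s ∈ S, A.ρ s (c (g, h)) = c (g, h))
    (i1 : ∀ g h : G, ∀ s ∈ S, c (g, h * s) = c (g, h))
    (i2 : ∀ g h : G, ∀ s ∈ S, c (g * s, h) = c (g, h)) :
    descend S c hinv ∈ cocycles₂ (A.quotientToInvariants S) := by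
  rw [mem_cocycles₂_iff]
  intro g h j
  induction g using QuotientGroup.induction_on with | @H g =>
  induction h using QuotientGroup.induction_on with | @H h =>
  induction j using QuotientGroup.induction_on with | @H j =>
  apply Subtype.ext
  have hZ := (mem_cocycles₂_iff c).1 hc g h j
  rw [← QuotientGroup.mk_mul, ← QuotientGroup.mk_mul]
  change (descend S c hinv (QuotientGroup.mk (g * h), QuotientGroup.mk j)).1 +
      (descend S c hinv (QuotientGroup.mk g, QuotientGroup.mk h)).1 =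
    A.ρ g (descend S c hinv (QuotientGroup.mk h, QuotientGroup.mk j)).1 +
      (descend S c hinv (QuotientGroup.mk g, QuotientGroup.mk (h * j))).1
  rw [descend_mk S c hinv i1 i2, descend_mk S c hinv i1 i2, descend_mk S c hinv i1 i2,
    descend_mk S c hinv i1 i2]
  exact hZ

end Descend

section Main

variable [S.Normal]

/-- Cocycle-level form of `H¹(S, A) = 0`: every 1-cocycle of `S` with values in `A` is a
coboundary. -/
def H1ResVanishes : Prop :=
  ∀ f : S → A, (∀ s t : S, f (s * t) = A.ρ s.1 (f t) + f s) →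
    ∃ a : A, ∀ s : S, f s = A.ρ s.1 a - a

omit [S.Normal] in
lemma h1ResVanishes_of_subsingleton (h : Subsingleton (H1 (res S.subtype A))) :
    H1ResVanishes A S := by
  intro f hf
  have hfm : f ∈ cocycles₁ (res S.subtype A) := (mem_cocycles₁_iff (A := res S.subtype A) f).2 hf
  have h0 : H1π (res S.subtype A) ⟨f, hfm⟩ = 0 := Subsingleton.elim _ _
  obtain ⟨a, ha⟩ := (H1π_eq_zero_iff (A := res S.subtype A) ⟨f, hfm⟩).1 h0
  exact ⟨a, fun s => (congr_fun ha s).symm⟩

/-- The inflation map `H²(G ⧸ S, A^S) ⟶ H²(G, A)`. -/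
noncomputable abbrev inflation₂ : H2 (A.quotientToInvariants S) ⟶ H2 A :=
  map (QuotientGroup.mk' S) (ofHom <| A.ρ.quotientToInvariants_lift S) 2

/-- The restriction map `H²(G, A) ⟶ H²(S, A)`. -/
noncomputable abbrev restriction₂ : H2 A ⟶ H2 (res S.subtype A) :=
  map S.subtype (𝟙 (res S.subtype A)) 2

lemma inflation₂_H2π_coe (x : cocycles₂ (A.quotientToInvariants S)) (g h : G) :
    (mapCocycles₂ (QuotientGroup.mk' S) (ofHom <| A.ρ.quotientToInvariants_lift S) x :
      G × G → A) (g, h) = (x (QuotientGroup.mk g, QuotientGroup.mk h)).1 := rfl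

omit [S.Normal] in
lemma restriction₂_H2π_coe (x : cocycles₂ A) (s t : S) :
    (mapCocycles₂ S.subtype (𝟙 (res S.subtype A)) x : S × S → A) (s, t) = x (s.1, t.1) := rfl

lemma quotientToInvariants_ρ_mk_coe (g : G) (a : A.quotientToInvariants S) :
    ((A.quotientToInvariants S).ρ (QuotientGroup.mk g) a).1 = A.ρ g a.1 := rfl

/-- Cocycle-level injectivity of inflation: if the inflation of `x ∈ Z²(G ⧸ S, A^S)` is the
coboundary of `φ` and `H¹(S, A) = 0`, then `x` is a coboundary. -/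
theorem mem_coboundaries₂_of_inflation (hS : H1ResVanishes A S)
    (x : cocycles₂ (A.quotientToInvariants S)) (φ : G → A)
    (hφ : ∀ g h : G, A.ρ g (φ h) - φ (g * h) + φ g =
      (x (QuotientGroup.mk g, QuotientGroup.mk h)).1) :
    (x : (G ⧸ S) × (G ⧸ S) → A.quotientToInvariants S) ∈
      coboundaries₂ (A.quotientToInvariants S) := by
  -- the invariant element `a₀ = x (1, 1)`
  have ha₀ : ∀ s ∈ S, A.ρ s (x (1, 1)).1 = (x (1, 1)).1 := fun s hs => (x (1, 1)).2 ⟨s, hs⟩
  have hx1 : ∀ s ∈ S, ∀ t ∈ S, (x (QuotientGroup.mk s, QuotientGroup.mk t)).1 = (x (1, 1)).1 := by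
    intro s hs t ht
    rw [(QuotientGroup.eq_one_iff s).2 hs, (QuotientGroup.eq_one_iff t).2 ht]
  -- `φ - a₀` is a 1-cocycle on `S`
  obtain ⟨b, hb⟩ := hS (fun s => φ s.1 - (x (1, 1)).1) (by
    intro s t
    have h1 := hφ s.1 t.1
    rw [hx1 s.1 s.2 t.1 t.2] at h1
    have h2 := ha₀ s.1 s.2
    simp only [Subgroup.coe_mul, map_sub, h2]
    rw [← h1]
    abel)
  -- the corrected primitive
  set ψ : G → A := fun g => φ g - (A.ρ g b - b) with hψ
  have hE : ∀ g h : G, A.ρ g (ψ h) - ψ (g * h) + ψ g =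
      (x (QuotientGroup.mk g, QuotientGroup.mk h)).1 := by
    intro g h
    rw [← hφ g h]
    simp only [hψ, map_sub, map_mul, Module.End.mul_apply]
    abel
  have hP1 : ∀ s ∈ S, ψ s = (x (1, 1)).1 := by
    intro s hs
    have := hb ⟨s, hs⟩
    simp only at this
    simp only [hψ]
    rw [← this]
    abel
  have hP2 : ∀ g : G, ∀ s ∈ S, ψ (g * s) = ψ g := by
    intro g s hs
    have h1 := hE g s
    rw [(QuotientGroup.eq_one_iff s).2 hs, cocycles₂_map_one_snd x (QuotientGroup.mk g),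
      quotientToInvariants_ρ_mk_coe, hP1 s hs] at h1
    have h2 : ψ g - ψ (g * s) = 0 := by
      rw [← sub_eq_zero] at h1
      rw [← h1]
      abel
    exact (sub_eq_zero.1 h2).symm
  have hP3 : ∀ g : G, ∀ s ∈ S, A.ρ s (ψ g) = ψ g := by
    intro g s hs
    have h1 := hE s g
    rw [(QuotientGroup.eq_one_iff s).2 hs, cocycles₂_map_one_fst x (QuotientGroup.mk g),
      hP1 s hs] at h1
    have e : s * g = g * (g⁻¹ * s * g) := by group
    rw [e, hP2 g _ (Subgroup.Normal.conj_mem' ‹_› s hs g)] at h1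
    have h2 : A.ρ s (ψ g) - ψ g = 0 := by
      rw [← sub_eq_zero] at h1
      rw [← h1]
      abel
    exact sub_eq_zero.1 h2
  -- descend `ψ`
  let ψbar : G ⧸ S → A.quotientToInvariants S := fun y => ⟨ψ y.out, fun s => hP3 _ s.1 s.2⟩
  have hψbar : ∀ g : G, (ψbar (QuotientGroup.mk g)).1 = ψ g := by
    intro g
    obtain ⟨s, hs⟩ := QuotientGroup.mk_out_eq_mul S g
    change ψ (QuotientGroup.mk g : G ⧸ S).out = ψ g
    rw [hs, hP2 g _ s.2]
  refine ⟨ψbar, ?_⟩
  funext ⟨y, z⟩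
  induction y using QuotientGroup.induction_on with | @H g =>
  induction z using QuotientGroup.induction_on with | @H h =>
  apply Subtype.ext
  rw [d₁₂_hom_apply]
  change A.ρ g (ψbar (QuotientGroup.mk h)).1 - (ψbar (QuotientGroup.mk (g * h))).1 +
    (ψbar (QuotientGroup.mk g)).1 = (x (QuotientGroup.mk g, QuotientGroup.mk h)).1
  rw [hψbar, hψbar, hψbar, hE]

/-- **Inflation is injective on `H²`** when `H¹(S, A) = 0`. -/
theorem inflation₂_injective (hS : H1ResVanishes A S) :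
    Function.Injective (inflation₂ A S) := by
  rw [injective_iff_map_eq_zero]
  intro x hx
  induction x using H2_induction_on with | @h x =>
  rw [H2π_comp_map_apply] at hx
  obtain ⟨φ, hφ⟩ := (H2π_eq_zero_iff _).1 hx
  refine (H2π_eq_zero_iff _).2 (mem_coboundaries₂_of_inflation A S hS x φ fun g h => ?_)
  have := congr_fun hφ (g, h)
  rw [d₁₂_hom_apply] at this
  exact this

/-- Cocycle-level exactness: a 2-cocycle of `G` whose restriction to `S` is a coboundary is
cohomologous to the inflation of a 2-cocycle of `G ⧸ S` with values in `A^S`, when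
`H¹(S, A) = 0`. -/
theorem exists_inflation_of_res_coboundary (hS : H1ResVanishes A S) (x : cocycles₂ A)
    (φ₀ : S → A)
    (hφ₀ : ∀ s t : S, x (s.1, t.1) = A.ρ s.1 (φ₀ t) - φ₀ (s * t) + φ₀ s) :
    ∃ (y : cocycles₂ (A.quotientToInvariants S)) (ψ : G → A), ∀ g h : G,
      x (g, h) = (y (QuotientGroup.mk g, QuotientGroup.mk h)).1 +
        (A.ρ g (ψ h) - ψ (g * h) + ψ g) := by
  obtain ⟨ψ, k1, k2⟩ := exists_vanish_of_res_coboundary S x.2 hS φ₀ hφ₀
  have hc' : (x : G × G → A) - (d₁₂ A).hom ψ ∈ cocycles₂ A :=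
    Submodule.sub_mem _ x.2 (d₁₂_apply_mem_cocycles₂ _)
  obtain ⟨i1, i2, hinv⟩ := invariance_of_vanish S hc' k1 k2
  refine ⟨⟨descend S _ hinv, descend_mem_cocycles₂ S hc' hinv i1 i2⟩, ψ, fun g h => ?_⟩
  change x (g, h) = (descend S _ hinv (QuotientGroup.mk g, QuotientGroup.mk h)).1 + _
  rw [descend_mk S _ hinv i1 i2, Pi.sub_apply, d₁₂_hom_apply]
  abel

/-- **Exactness of inflation-restriction at `H²(G, A)`** when `H¹(S, A) = 0`: a class killed by
restriction to `S` is inflated from `G ⧸ S`. -/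
theorem exists_inflation₂_eq_of_restriction₂_eq_zero (hS : H1ResVanishes A S) (x : H2 A)
    (hx : restriction₂ A S x = 0) : ∃ y : H2 (A.quotientToInvariants S), inflation₂ A S y = x := by
  induction x using H2_induction_on with | @h x =>
  rw [H2π_comp_map_apply] at hx
  obtain ⟨φ₀, hφ₀⟩ := (H2π_eq_zero_iff _).1 hx
  obtain ⟨y, ψ, hy⟩ := exists_inflation_of_res_coboundary A S hS x φ₀ (fun s t => by
    have := congr_fun hφ₀ (s, t)
    rw [d₁₂_hom_apply] at this
    exact this.symm)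
  refine ⟨H2π _ y, ?_⟩
  rw [H2π_comp_map_apply, H2π_eq_iff]
  refine ⟨-ψ, ?_⟩
  funext ⟨g, h⟩
  rw [d₁₂_hom_apply, Pi.sub_apply, inflation₂_H2π_coe, hy g h]
  simp only [Pi.neg_apply, map_neg]
  abel

/-- The composite restriction ∘ inflation vanishes on `H²`. -/
theorem restriction₂_inflation₂ (y : H2 (A.quotientToInvariants S)) :
    restriction₂ A S (inflation₂ A S y) = 0 := by
  induction y using H2_induction_on with | @h y =>
  rw [H2π_comp_map_apply, H2π_comp_map_apply, H2π_eq_zero_iff]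
  refine ⟨fun _ => (y (1, 1)).1, ?_⟩
  funext ⟨s, t⟩
  rw [d₁₂_hom_apply, restriction₂_H2π_coe, inflation₂_H2π_coe,
    (QuotientGroup.eq_one_iff s.1).2 s.2, (QuotientGroup.eq_one_iff t.1).2 t.2]
  have : (res S.subtype A).ρ s (y (1, 1)).1 = (y (1, 1)).1 := (y (1, 1)).2 s
  change (res S.subtype A).ρ s (y (1, 1)).1 - (y (1, 1)).1 + (y (1, 1)).1 = _
  rw [this]
  abel

/-- The short complex `H²(G ⧸ S, A^S) ⟶ H²(G, A) ⟶ H²(S, A)`. -/
@[simps X₁ X₂ X₃ f g]
noncomputable def H2InfRes : ShortComplex (ModuleCat k) where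
  X₁ := groupCohomology (A.quotientToInvariants S) 2
  X₂ := groupCohomology A 2
  X₃ := groupCohomology (res S.subtype A) 2
  f := inflation₂ A S
  g := restriction₂ A S
  zero := by
    ext y
    exact restriction₂_inflation₂ A S y

/-- The inflation map `H²(G ⧸ S, A^S) ⟶ H²(G, A)` is a monomorphism when `H¹(S, A) = 0`. -/
theorem H2InfRes_mono (hS : H1ResVanishes A S) : Mono (H2InfRes A S).f :=
  (ModuleCat.mono_iff_injective _).2 (inflation₂_injective A S hS)

/-- Given a `G`-representation `A` and a normal subgroup `S ≤ G` with `H¹(S, A) = 0`, the short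
complex `H²(G ⧸ S, A^S) ⟶ H²(G, A) ⟶ H²(S, A)` is exact. -/
theorem H2InfRes_exact (hS : H1ResVanishes A S) : (H2InfRes A S).Exact := by
  rw [ShortComplex.moduleCat_exact_iff_ker_sub_range]
  intro x hx
  obtain ⟨y, hy⟩ := exists_inflation₂_eq_of_restriction₂_eq_zero A S hS x (LinearMap.mem_ker.1 hx)
  exact ⟨y, hy⟩

/-- Version with the hypothesis `H¹(S, A) = 0` stated on Mathlib's `H1`. -/
theorem H2InfRes_exact_of_subsingleton (h : Subsingleton (H1 (res S.subtype A))) :
    (H2InfRes A S).Exact :=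
  H2InfRes_exact A S (h1ResVanishes_of_subsingleton A S h)

theorem H2InfRes_mono_of_subsingleton (h : Subsingleton (H1 (res S.subtype A))) :
    Mono (H2InfRes A S).f :=
  H2InfRes_mono A S (h1ResVanishes_of_subsingleton A S h)

end Main

section Card

/-- Counting lemma for a sequence exact in the middle. -/
theorem finite_and_card_le_of_exact {X Y Z : Type*} [AddCommGroup X] [AddCommGroup Y]
    [AddCommGroup Z] [Finite X] [Finite Z] (f : X →+ Y) (g : Y →+ Z)
    (h : ∀ y : Y, g y = 0 → ∃ x : X, f x = y) :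
    Finite Y ∧ Nat.card Y ≤ Nat.card X * Nat.card Z := by
  classical
  -- a section of `g` on its range
  let σ : Z → Y := fun z => if hz : ∃ y : Y, g y = z then hz.choose else 0
  have hσ : ∀ y : Y, g (σ (g y)) = g y := by
    intro y
    have hz : ∃ y' : Y, g y' = g y := ⟨y, rfl⟩
    simp only [σ, dif_pos hz]
    exact hz.choose_spec
  have hk : ∀ y : Y, ∃ x : X, f x = y - σ (g y) := fun y => h _ (by rw [map_sub, hσ, sub_self])
  let F : Y → X × Z := fun y => ((hk y).choose, g y)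
  have hF : Function.Injective F := by
    intro y y' hyy'
    have h1 : (hk y).choose = (hk y').choose := congrArg Prod.fst hyy'
    have h2 : g y = g y' := congrArg Prod.snd hyy'
    have e1 := (hk y).choose_spec
    have e2 := (hk y').choose_spec
    rw [h1, e2, h2] at e1
    exact sub_left_injective e1.symm
  have : Finite Y := Finite.of_injective F hF
  refine ⟨inferInstance, ?_⟩
  have := Nat.card_le_card_of_injective F hF
  rwa [Nat.card_prod] at this

variable [S.Normal]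

/-- **Cardinality bound from inflation-restriction**: if `H¹(S, A) = 0` and both
`H²(G ⧸ S, A^S)` and `H²(S, A)` are finite, then `H²(G, A)` is finite and
`|H²(G, A)| ≤ |H²(G ⧸ S, A^S)| * |H²(S, A)|`. -/
theorem finite_H2_and_card_le (hS : H1ResVanishes A S)
    [Finite (H2 (A.quotientToInvariants S))] [Finite (H2 (res S.subtype A))] :
    Finite (H2 A) ∧
      Nat.card (H2 A) ≤
        Nat.card (H2 (A.quotientToInvariants S)) * Nat.card (H2 (res S.subtype A)) :=
  finite_and_card_le_of_exact (inflation₂ A S).hom.toAddMonoidHom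
    (restriction₂ A S).hom.toAddMonoidHom
    (fun x hx => exists_inflation₂_eq_of_restriction₂_eq_zero A S hS x hx)

/-- If moreover `H²(S, A) = 0` then inflation `H²(G ⧸ S, A^S) ⟶ H²(G, A)` is bijective. -/
theorem inflation₂_bijective_of_subsingleton (hS : H1ResVanishes A S)
    (h2 : Subsingleton (H2 (res S.subtype A))) : Function.Bijective (inflation₂ A S) :=
  ⟨inflation₂_injective A S hS, fun x =>
    exists_inflation₂_eq_of_restriction₂_eq_zero A S hS x (Subsingleton.elim _ _)⟩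

end Card

end Fermat.Agent.S55.helper1535

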