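import Fermat.Agent.S55.helper1624_NormIndexPadic
import Fermat.Agent.S55.helper5519_CycloProduct

/-!
# S55: the wild cyclotomic layer `ℚ_p(ζ_{p^(m+1)})/ℚ_p`, unconditional forms

The hypothesis `hidx` of `helper5519` (cyclic norm index of `ℚ_p(ζ_{p^(m+1)})/ℚ_p`) is discharged
by `index_norm_range_eq_finrank_padic`.
-/

namespace Fermat.Agent.S55.helper1624

variable {p : ℕ} [hp : Fact p.Prime]

/-- The norm index of `ℚ_p(ζ_{p^(m+1)})/ℚ_p` (`p` odd) equals the degree. -/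
theorem index_norm_cyclotomic_padic (hodd : p ≠ 2) (m : ℕ) (L : Type*) [Field L]
    [Algebra ℚ_[p] L] [IsCyclotomicExtension {p ^ (m + 1)} ℚ_[p] L] :
    (Units.map (Algebra.norm ℚ_[p] : L →* ℚ_[p])).range.index = Module.finrank ℚ_[p] L := by
  have := helper5519.finiteDimensional_cyclotomic_padic (p := p) m L
  have := helper5519.isGalois_cyclotomic_padic (p := p) m L
  have := helper5519.isCyclic_gal_cyclotomic_padic (p := p) hodd m L
  exact index_norm_range_eq_finrank_padic p ℚ_[p] L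

/-- **Norm group of the wild cyclotomic layer**, unconditional: the norm group of
`L = ℚ_p(ζ_{p^(m+1)})` (`p` odd) is the kernel of the residue character. -/
theorem range_norm_cyclotomic_padic (hodd : p ≠ 2) (m : ℕ) (L : Type*) [Field L]
    [Algebra ℚ_[p] L] [IsCyclotomicExtension {p ^ (m + 1)} ℚ_[p] L] :
    (Units.map (Algebra.norm ℚ_[p] : L →* ℚ_[p])).range =
      (helper5519.residueChar (p := p) (m + 1)).ker :=
  helper5519.range_norm_eq_ker_residueChar hodd m L (index_norm_cyclotomic_padic hodd m L)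

/-- **Norm criterion**, unconditional: a nonzero `x : ℚ_[p]` is a norm from
`L = ℚ_p(ζ_{p^(m+1)})` (`p` odd) iff its unit part is `≡ 1 mod p^(m+1)`. -/
theorem exists_norm_cyclotomic_padic_iff (hodd : p ≠ 2) (m : ℕ) (L : Type*) [Field L]
    [Algebra ℚ_[p] L] [IsCyclotomicExtension {p ^ (m + 1)} ℚ_[p] L] (x : ℚ_[p]) (hx : x ≠ 0) :
    (∃ y : L, Algebra.norm ℚ_[p] y = x) ↔
      ‖x * (p : ℚ_[p]) ^ (-x.valuation) - 1‖ ≤ (p : ℝ) ^ (-((m + 1 : ℕ) : ℤ)) :=
  helper5519.exists_norm_eq_iff hodd m L (index_norm_cyclotomic_padic hodd m L) x hx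

/-- **Product formula for the cyclotomic norm residue conditions**, with the cyclic norm index at
`p` discharged: only the unramified norm criterion at the primes `ℓ ≠ p` remains a hypothesis. -/
theorem cyclotomic_norm_product_formula' (hodd : p ≠ 2) (m : ℕ)
    (hU : ∀ (ℓ : ℕ) [Fact ℓ.Prime], ℓ ≠ p → ∀ x : ℚ_[ℓ], x ≠ 0 →
      ((∃ y : CyclotomicField (p ^ (m + 1)) ℚ_[ℓ], Algebra.norm ℚ_[ℓ] y = x) ↔
        ((orderOf ((ℓ : ℕ) : ZMod (p ^ (m + 1))) : ℕ) : ℤ) ∣ x.valuation))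
    (a : ℚ) (ha : 0 < a) (ℓ0 : ℕ) [Fact ℓ0.Prime]
    (H : ∀ (ℓ : ℕ) [Fact ℓ.Prime], ℓ ≠ ℓ0 →
      ∃ y : CyclotomicField (p ^ (m + 1)) ℚ_[ℓ], Algebra.norm ℚ_[ℓ] y = (a : ℚ_[ℓ])) :
    ∃ y : CyclotomicField (p ^ (m + 1)) ℚ_[ℓ0], Algebra.norm ℚ_[ℓ0] y = (a : ℚ_[ℓ0]) :=
  helper5519.cyclotomic_norm_product_formula hodd m
    (index_norm_cyclotomic_padic hodd m (CyclotomicField (p ^ (m + 1)) ℚ_[p])) hU a ha ℓ0 H

end Fermat.Agent.S55.helper1624
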