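import Mathlib

/-!
# S55 / local arithmetic core: abstract index counting behind the local norm index

Pure group theory (Mathlib only).  `A` is a commutative group with two endomorphisms `D`, `N`
(think `D x = σ x / x`, `N x = ∏ σ^i x` for a generator `σ` of a cyclic group acting on `A`)
such that `D ∘ N = 1 = N ∘ D`.

* `herbrand_transfer`: for a subgroup `W` of finite index stable under `D` and `N`,
  `[ker D : N A] * [ker N ∩ W : D W] = [ker N : D A] * [ker D ∩ W : N W]`
  (the Herbrand quotient does not change on passing to a finite-index subgroup).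
* `relIndex_sup_zpowers`: `[V₀ ⟨t⟩ : V₀ ⟨t^n⟩] = n` when no nontrivial power of `t` lies in `V₀`.
* `abstract_norm_index`: if `ker N = D A` ("Hilbert 90"), `V` is a subgroup with trivial Tate
  cohomology (`h0`, `h1`), `t` is a fixed element with `N t = t ^ n` no power of which lies in `V`,
  and `V ⟨t⟩` has finite index, then `[ker D : N A] = n`.
-/

namespace Fermat.Agent.S55.helper7678

open Subgroup

variable {A : Type*} [CommGroup A]

/-- `[A : W] = [f A : f W] * [ker f : ker f ∩ W]` (as natural numbers, `0` meaning infinite). -/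
theorem index_eq_relIndex_map_mul (f : A →* A) (W : Subgroup A) :
    W.index = (W.map f).relIndex f.range * W.relIndex f.ker := by
  have h1 : (W.map f).relIndex f.range = (W ⊔ f.ker).index := by
    rw [MonoidHom.range_eq_map, relIndex_map_map, top_sup_eq, relIndex_top_right]
  have h2 : W.relIndex (W ⊔ f.ker) = W.relIndex f.ker := relIndex_sup_left f.ker W
  have h3 : W.relIndex (W ⊔ f.ker) * (W ⊔ f.ker).index = W.index :=
    relIndex_mul_index le_sup_left
  rw [h1, ← h2, mul_comm, h3]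

/-- Invariance of the Herbrand quotient under passage to a finite-index stable subgroup,
in cross-multiplied form. -/
theorem herbrand_transfer (D N : A →* A) (hDN : ∀ x, D (N x) = 1) (hND : ∀ x, N (D x) = 1)
    (W : Subgroup A) (hW : W.index ≠ 0) (hWD : W.map D ≤ W) (hWN : W.map N ≤ W) :
    N.range.relIndex D.ker * (W.map D).relIndex (N.ker ⊓ W) =
      D.range.relIndex N.ker * (W.map N).relIndex (D.ker ⊓ W) := by
  have hNr : N.range ≤ D.ker := by
    rintro _ ⟨x, rfl⟩; exact hDN x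
  have hDr : D.range ≤ N.ker := by
    rintro _ ⟨x, rfl⟩; exact hND x
  have hWNr : W.map N ≤ N.range := by
    rintro _ ⟨x, -, rfl⟩; exact ⟨x, rfl⟩
  have hWDr : W.map D ≤ D.range := by
    rintro _ ⟨x, -, rfl⟩; exact ⟨x, rfl⟩
  -- the two towers below `ker D`
  have t1 : (W.map N).relIndex N.range * N.range.relIndex D.ker = (W.map N).relIndex D.ker :=
    relIndex_mul_relIndex _ _ _ hWNr hNr
  have t2 : (W.map N).relIndex (D.ker ⊓ W) * W.relIndex D.ker = (W.map N).relIndex D.ker := by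
    have := relIndex_mul_relIndex (W.map N) (D.ker ⊓ W) D.ker
      (le_inf (hWNr.trans hNr) hWN) inf_le_left
    rwa [inf_relIndex_left] at this
  -- the two towers below `ker N`
  have t3 : (W.map D).relIndex D.range * D.range.relIndex N.ker = (W.map D).relIndex N.ker :=
    relIndex_mul_relIndex _ _ _ hWDr hDr
  have t4 : (W.map D).relIndex (N.ker ⊓ W) * W.relIndex N.ker = (W.map D).relIndex N.ker := by
    have := relIndex_mul_relIndex (W.map D) (N.ker ⊓ W) N.ker
      (le_inf (hWDr.trans hDr) hWD) inf_le_left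
    rwa [inf_relIndex_left] at this
  have eN := index_eq_relIndex_map_mul N W
  have eD := index_eq_relIndex_map_mul D W
  -- abbreviations
  set x0 := N.range.relIndex D.ker
  set x1 := D.range.relIndex N.ker
  set w0 := (W.map N).relIndex (D.ker ⊓ W)
  set w1 := (W.map D).relIndex (N.ker ⊓ W)
  set aN := (W.map N).relIndex N.range
  set bN := W.relIndex N.ker
  set aD := (W.map D).relIndex D.range
  set bD := W.relIndex D.ker
  have key : x0 * w1 * W.index = x1 * w0 * W.index := by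
    calc x0 * w1 * W.index = (aN * x0) * (w1 * bN) := by rw [eN]; ring
      _ = (w0 * bD) * (aD * x1) := by rw [t1, t4, t2, t3]
      _ = x1 * w0 * W.index := by rw [eD]; ring
  exact Nat.eq_of_mul_eq_mul_right (Nat.pos_of_ne_zero hW) key

/-- `[V₀⟨t⟩ : V₀⟨t^n⟩] = n` if no nontrivial power of `t` lies in `V₀`. -/
theorem relIndex_sup_zpowers (V₀ : Subgroup A) (t : A) (n : ℕ) (hn : 0 < n)
    (ht : ∀ k : ℤ, t ^ k ∈ V₀ → k = 0) :
    (V₀ ⊔ zpowers (t ^ n)).relIndex (V₀ ⊔ zpowers t) = n := by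
  set H' := V₀ ⊔ zpowers (t ^ n) with hH'
  have hker : (QuotientGroup.mk' H').ker = H' := QuotientGroup.ker_mk' H'
  have h1 : H'.relIndex (V₀ ⊔ zpowers t) = Nat.card ((V₀ ⊔ zpowers t).map (QuotientGroup.mk' H')) := by
    conv_lhs => rw [← hker]
    exact relIndex_ker _ _
  have h2 : (V₀ ⊔ zpowers t).map (QuotientGroup.mk' H') = zpowers (QuotientGroup.mk' H' t) := by
    rw [Subgroup.map_sup, MonoidHom.map_zpowers]
    have : V₀.map (QuotientGroup.mk' H') = ⊥ := by
      rw [eq_bot_iff]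
      rintro _ ⟨v, hv, rfl⟩
      rw [Subgroup.mem_bot, ← MonoidHom.mem_ker, hker]
      exact le_sup_left (a := V₀) hv
    rw [this, bot_sup_eq]
  rw [h1, h2, Nat.card_zpowers, orderOf_eq_iff hn]
  constructor
  · rw [← map_pow, ← MonoidHom.mem_ker, hker]
    exact le_sup_right (b := zpowers (t ^ n)) (mem_zpowers _)
  · intro m hm hm0 h
    rw [← map_pow, ← MonoidHom.mem_ker, hker, hH', Subgroup.mem_sup] at h
    obtain ⟨v, hv, z, hz, hvz⟩ := h
    obtain ⟨j, rfl⟩ := mem_zpowers_iff.mp hz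
    have hv' : t ^ ((m : ℤ) - n * j) = v := by
      rw [zpow_sub, zpow_natCast, ← hvz, zpow_mul, zpow_natCast]
      simp
    have := ht _ (hv' ▸ hv)
    have hdvd : (n : ℤ) ∣ m := ⟨j, by omega⟩
    have hle := Int.le_of_dvd (by exact_mod_cast hm0) hdvd
    omega

/-- Abstract local norm index: `[ker D : N A] = n`. -/
theorem abstract_norm_index (D N : A →* A) (hDN : ∀ x, D (N x) = 1) (hND : ∀ x, N (D x) = 1)
    (hH90 : N.ker ≤ D.range) (V : Subgroup A) (t : A) (n : ℕ) (hn : 0 < n)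
    (hfin : (V ⊔ zpowers t).index ≠ 0)
    (hVD : V.map D ≤ V) (hVN : V.map N ≤ V)
    (hDt : D t = 1) (hNt : N t = t ^ n)
    (ht : ∀ k : ℤ, t ^ k ∈ V → k = 0)
    (h0 : ∀ x ∈ V, D x = 1 → ∃ y ∈ V, N y = x)
    (h1 : ∀ x ∈ V, N x = 1 → ∃ y ∈ V, D y = x) :
    N.range.relIndex D.ker = n := by
  set W := V ⊔ zpowers t with hWdef
  have hDz : ∀ k : ℤ, D (t ^ k) = 1 := fun k => by rw [map_zpow, hDt, one_zpow]
  have hNz : ∀ k : ℤ, N (t ^ k) = t ^ ((n : ℤ) * k) := fun k => by
    rw [map_zpow, hNt, ← zpow_natCast, ← zpow_mul]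
  have hWD : W.map D ≤ W := by
    rintro _ ⟨w, hw, rfl⟩
    obtain ⟨v, hv, z, hz, rfl⟩ := Subgroup.mem_sup.mp hw
    obtain ⟨k, rfl⟩ := mem_zpowers_iff.mp hz
    rw [map_mul, hDz, mul_one]
    exact le_sup_left (a := V) (hVD ⟨v, hv, rfl⟩)
  have hWN : W.map N ≤ W := by
    rintro _ ⟨w, hw, rfl⟩
    obtain ⟨v, hv, z, hz, rfl⟩ := Subgroup.mem_sup.mp hw
    obtain ⟨k, rfl⟩ := mem_zpowers_iff.mp hz
    rw [map_mul, hNz]
    exact Subgroup.mul_mem _ (le_sup_left (a := V) (hVN ⟨v, hv, rfl⟩))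
      (le_sup_right (b := zpowers t) (zpow_mem (mem_zpowers t) _))
  have key := herbrand_transfer D N hDN hND W hfin hWD hWN
  have hx1 : D.range.relIndex N.ker = 1 := relIndex_eq_one.mpr hH90
  have hw1 : (W.map D).relIndex (N.ker ⊓ W) = 1 := by
    rw [relIndex_eq_one]
    rintro w ⟨hwN, hwW⟩
    obtain ⟨v, hv, z, hz, rfl⟩ := Subgroup.mem_sup.mp hwW
    obtain ⟨k, rfl⟩ := mem_zpowers_iff.mp hz
    have hN1 : N v * t ^ ((n : ℤ) * k) = 1 := by
      have := MonoidHom.mem_ker.mp hwN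
      rwa [map_mul, hNz] at this
    have hk : (n : ℤ) * k = 0 := by
      apply ht
      have : t ^ ((n : ℤ) * k) = (N v)⁻¹ := eq_inv_of_mul_eq_one_right hN1
      rw [this]
      exact inv_mem (hVN ⟨v, hv, rfl⟩)
    have hk0 : k = 0 := by
      rcases mul_eq_zero.mp hk with h | h
      · exact absurd (by exact_mod_cast h) hn.ne'
      · exact h
    subst hk0
    rw [zpow_zero, mul_one]
    have hNv : N v = 1 := by simpa using hN1
    obtain ⟨y, hy, rfl⟩ := h1 v hv hNv
    exact ⟨y, le_sup_left (a := V) hy, rfl⟩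
  have hmapN : W.map N = (V ⊓ D.ker) ⊔ zpowers (t ^ n) := by
    rw [hWdef, Subgroup.map_sup, MonoidHom.map_zpowers, hNt]
    congr 1
    apply le_antisymm
    · rintro _ ⟨v, hv, rfl⟩
      exact ⟨hVN ⟨v, hv, rfl⟩, hDN v⟩
    · rintro x ⟨hxV, hxD⟩
      obtain ⟨y, hy, rfl⟩ := h0 x hxV hxD
      exact ⟨y, hy, rfl⟩
  have hkerW : D.ker ⊓ W = (V ⊓ D.ker) ⊔ zpowers t := by
    apply le_antisymm
    · rintro w ⟨hwD, hwW⟩
      obtain ⟨v, hv, z, hz, rfl⟩ := Subgroup.mem_sup.mp hwW
      obtain ⟨k, rfl⟩ := mem_zpowers_iff.mp hz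
      have hDv : D v = 1 := by
        have := MonoidHom.mem_ker.mp hwD
        rwa [map_mul, hDz, mul_one] at this
      exact Subgroup.mul_mem _ (le_sup_left (a := V ⊓ D.ker) ⟨hv, hDv⟩)
        (le_sup_right (b := zpowers t) (zpow_mem (mem_zpowers t) _))
    · apply sup_le
      · rintro v ⟨hv, hvD⟩
        exact ⟨hvD, le_sup_left (a := V) hv⟩
      · rw [zpowers_le]
        exact ⟨hDt, le_sup_right (b := zpowers t) (mem_zpowers t)⟩
  have hw0 : (W.map N).relIndex (D.ker ⊓ W) = n := by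
    rw [hmapN, hkerW]
    exact relIndex_sup_zpowers _ t n hn (fun k hk => ht k hk.1)
  rw [hx1, hw1, hw0, mul_one, one_mul] at key
  exact key

end Fermat.Agent.S55.helper7678
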