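import Fermat.Agent.S55.helper1624_NormIndexLattice
import Fermat.Agent.S55.helper7678_NormIndexAbs

/-!
# S55 / local arithmetic core: the local norm index for finite cyclic extensions

Mathlib only (plus the abstract index count `helper7678.abstract_norm_index`).

`L/K` is a finite cyclic Galois extension and `v : AbsoluteValue L ℝ` is a nontrivial
nonarchimedean absolute value on `L` which is complete, has totally bounded unit ball and is
Galois invariant (all three passed as explicit hypotheses about `v`; no topology, no integer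
ring, no discrete valuation ring).  Then

  `[Kˣ : N_{L/K} Lˣ] = [L : K]`   (`index_norm_range_eq_finrank`).

In particular, if `[L : K] > 1` some element of `Kˣ` is not a norm (`exists_not_norm`).

If moreover `e = 1` (every value of `v` on `Lˣ` is a value on `Kˣ`), the norm group is the set of
elements whose absolute value is an `[L : K]`-th power in the value group of `K`
(`exists_norm_eq_iff_of_unramified`); in particular every unit of `K` is a norm
(`exists_norm_eq_of_unit_of_unramified`).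
-/

set_option linter.unusedSectionVars false

namespace Fermat.Agent.S55.helper1624

section Good

/-- A radius `r` is *good* for the constants `A = v θ` and `B` (the coordinate bound) if the
lattice `lat r` behaves like a small ideal: products of two elements land in `lat (r / 2)`. -/
def Good (A B r : ℝ) : Prop := 0 < r ∧ r * A < 1 ∧ B * ((r * A) * (r * A)) ≤ r / 2

theorem Good.half {A B r : ℝ} (hA : 0 < A) (h : Good A B r) : Good A B (r / 2) := by
  obtain ⟨h0, h1, h2⟩ := h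
  refine ⟨by positivity, ?_, ?_⟩
  · have : r / 2 * A ≤ r * A := by
      have : 0 ≤ r * A := by positivity
      linarith
    linarith
  · have : B * ((r / 2 * A) * (r / 2 * A)) = B * ((r * A) * (r * A)) / 4 := by ring
    rw [this]
    linarith

theorem Good.div_pow {A B r : ℝ} (hA : 0 < A) (h : Good A B r) (j : ℕ) :
    Good A B (r / 2 ^ j) := by
  induction j with
  | zero => simpa using h
  | succ j ih =>
    have := ih.half hA
    rwa [div_div, ← pow_succ] at this

theorem exists_good {A B : ℝ} (hA : 0 < A) (hB : 0 < B) : ∃ r, Good A B r := by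
  have hd : 0 < 2 * A + 2 * B * A ^ 2 + 1 := by positivity
  refine ⟨1 / (2 * A + 2 * B * A ^ 2 + 1), by positivity, ?_, ?_⟩
  · rw [one_div, inv_mul_lt_iff₀ hd]
    nlinarith [sq_nonneg A, mul_pos hB (pow_pos hA 2)]
  · have h1 : B * ((1 / (2 * A + 2 * B * A ^ 2 + 1) * A) * (1 / (2 * A + 2 * B * A ^ 2 + 1) * A)) =
        (B * A ^ 2 / (2 * A + 2 * B * A ^ 2 + 1)) * (1 / (2 * A + 2 * B * A ^ 2 + 1)) := by
      field_simp
    have h2 : B * A ^ 2 / (2 * A + 2 * B * A ^ 2 + 1) ≤ 1 / 2 := by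
      rw [div_le_iff₀ hd]
      nlinarith [sq_nonneg A, mul_pos hB (pow_pos hA 2)]
    rw [h1]
    have h3 : 0 ≤ 1 / (2 * A + 2 * B * A ^ 2 + 1) := by positivity
    calc (B * A ^ 2 / (2 * A + 2 * B * A ^ 2 + 1)) * (1 / (2 * A + 2 * B * A ^ 2 + 1))
        ≤ 1 / 2 * (1 / (2 * A + 2 * B * A ^ 2 + 1)) := mul_le_mul_of_nonneg_right h2 h3
      _ = 1 / (2 * A + 2 * B * A ^ 2 + 1) / 2 := by ring

end Good

section Steps2

variable (K : Type*) {L : Type*} [Field K] [Field L] [Algebra K L] [FiniteDimensional K L]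
  [IsGalois K L]
variable (v : AbsoluteValue L ℝ)

variable {v} in
theorem lat_of_le {B : ℝ} (hB0 : 0 < B)
    (hB : ∀ (x : L) (σ : L ≃ₐ[K] L), v (algebraMap K L (coord K x σ)) ≤ B * v x) {z : L} {s : ℝ}
    (h : v z ≤ s) : z ∈ lat K v (B * s) :=
  fun σ => (hB z σ).trans (mul_le_mul_of_nonneg_left h hB0.le)

variable {v} in
theorem lat_of_small {B : ℝ} (hB0 : 0 < B)
    (hB : ∀ (x : L) (σ : L ≃ₐ[K] L), v (algebraMap K L (coord K x σ)) ≤ B * v x) {r : ℝ}
    (hr : Good (v (theta K)) B r) {z : L}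
    (h : v z ≤ (r * v (theta K)) * (r * v (theta K))) : z ∈ lat K v (r / 2) :=
  lat_mono hr.2.2 (lat_of_le K hB0 hB h)

variable {v} in
theorem nmG_dg (g : L ≃ₐ[K] L) {z : L} (hz : z ≠ 0) : nmG K (dg g z) = 1 := by
  have h0 : nmG K z ≠ 0 := by
    rw [nmG]
    exact Finset.prod_ne_zero_iff.mpr (fun σ _ => (map_ne_zero σ).mpr hz)
  rw [dg, nmG_mul, nmG_galois, nmG_inv, mul_inv_cancel₀ h0]

/-- Additive Hilbert 90 on the normal-basis lattice, with control of the solution. -/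
theorem exists_sub_eq (hna : IsNonarchimedean v) (g : L ≃ₐ[K] L)
    (hg : ∀ τ, τ ∈ Subgroup.zpowers g) {ρ : ℝ} (hρ : 0 ≤ ρ) {x : L} (hx : x ∈ lat K v ρ)
    (hsum : ∑ σ : L ≃ₐ[K] L, coord K x σ = 0) : ∃ y ∈ lat K v ρ, g y - y = x := by
  classical
  set m := orderOf g with hm
  set α : ℕ → K := fun i => coord K x (g ^ i) with hα
  have hxsum : x = ∑ i ∈ Finset.range m, α i • (g ^ i) (theta K) := by
    conv_lhs => rw [← sum_coord K x]
    exact sum_univ_eq_sum_range g hg (fun σ => coord K x σ • σ (theta K))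
  have hαsum : ∑ i ∈ Finset.range m, α i = 0 := by
    rw [← hsum]
    exact (sum_univ_eq_sum_range g hg (fun σ => coord K x σ)).symm
  refine ⟨∑ i ∈ Finset.range m, α i • ∑ j ∈ Finset.range i, (g ^ j) (theta K), ?_, ?_⟩
  · apply lat_sum hna hρ
    intro i _
    rw [Finset.smul_sum]
    apply lat_sum hna hρ
    intro j _
    have : α i • (g ^ j) (theta K) = (g ^ j) (α i • theta K) := by rw [map_smul]
    rw [this]
    exact lat_galois (lat_smul_theta hρ (hx _)) _
  · rw [map_sum, ← Finset.sum_sub_distrib]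
    have key : ∀ i ∈ Finset.range m,
        g (α i • ∑ j ∈ Finset.range i, (g ^ j) (theta K)) -
          α i • ∑ j ∈ Finset.range i, (g ^ j) (theta K) =
        α i • (g ^ i) (theta K) - α i • theta K := by
      intro i _
      rw [map_smul, ← smul_sub, ← smul_sub, map_sum, ← Finset.sum_sub_distrib]
      congr 1
      have h1 : ∀ j, g ((g ^ j) (theta K)) - (g ^ j) (theta K) =
          (g ^ (j + 1)) (theta K) - (g ^ j) (theta K) := by
        intro j; rw [pow_succ']; rfl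
      simp_rw [h1]
      rw [Finset.sum_range_sub (fun j => (g ^ j) (theta K))]
      simp
    rw [Finset.sum_congr rfl key, Finset.sum_sub_distrib, ← hxsum, ← Finset.sum_smul, hαsum,
      zero_smul, sub_zero]

theorem step_identity {F : Type*} [Field F] (x y T gy : F) (h : 1 + gy ≠ 0)
    (hgy : gy = y + x - T) :
    (1 + x) * ((1 + gy) * (1 + y)⁻¹)⁻¹ - 1 = T + x * y - (T + x * y) * gy * (1 + gy)⁻¹ := by
  have e1 : (1 + x) * ((1 + gy) * (1 + y)⁻¹)⁻¹ - 1 = (T + x * y) * (1 + gy)⁻¹ := by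
    have : (1 + x) * (1 + y) - (1 + gy) = T + x * y := by rw [hgy]; ring
    rw [← this]
    field_simp
  have e2 : T + x * y - (T + x * y) * gy * (1 + gy)⁻¹ = (T + x * y) * (1 + gy)⁻¹ := by
    field_simp
    ring
  rw [e1, e2]

/-- One approximation step for the norm: a Galois-fixed element of `1 + lat ρ` is a norm from
`1 + lat ρ` up to a fixed element of `1 + lat (ρ / 2)`. -/
theorem norm_step (hna : IsNonarchimedean v)
    (hinv : ∀ (g : L ≃ₐ[K] L) (x : L), v (g x) = v x) {B : ℝ} (hB0 : 0 < B)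
    (hB : ∀ (x : L) (σ : L ≃ₐ[K] L), v (algebraMap K L (coord K x σ)) ≤ B * v x) {ρ : ℝ}
    (hρ : Good (v (theta K)) B ρ) {u : L} (hu : u - 1 ∈ lat K v ρ)
    (hfix : ∀ τ : L ≃ₐ[K] L, τ u = u) :
    ∃ w : L, w - 1 ∈ lat K v ρ ∧ (∀ τ : L ≃ₐ[K] L, τ (u * (nmG K w)⁻¹) = u * (nmG K w)⁻¹) ∧
      u * (nmG K w)⁻¹ - 1 ∈ lat K v (ρ / 2) := by
  set x := u - 1 with hx
  set a := coord K x 1 with ha
  have hcoord : ∀ σ : L ≃ₐ[K] L, coord K x σ = a := by
    intro σ
    have h1 : σ x = x := by rw [hx, map_sub, map_one, hfix]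
    have := coord_galois K σ σ x
    rwa [h1, inv_mul_cancel] at this
  have hxa : x = trG K (a • theta K) := by
    rw [trG]
    conv_lhs => rw [← sum_coord K x]
    refine Finset.sum_congr rfl (fun σ _ => ?_)
    rw [hcoord σ, map_smul]
  have hva : v (algebraMap K L a) ≤ ρ := hu 1
  set w : L := 1 + a • theta K with hw
  have hw1 : w - 1 = a • theta K := by rw [hw]; ring
  have hwlat : w - 1 ∈ lat K v ρ := by rw [hw1]; exact lat_smul_theta hρ.1.le hva
  have ht : v (a • theta K) ≤ ρ * v (theta K) := by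
    rw [Algebra.smul_def, v.map_mul]
    exact mul_le_mul_of_nonneg_right hva (v.nonneg _)
  have hwunit : v w = 1 := v_one_add v hna (lt_of_le_of_lt ht hρ.2.1)
  have hN := nmG_one_add K hna hinv (mul_nonneg hρ.1.le (v.nonneg _)) hρ.2.1.le ht
  rw [← hxa, ← hw] at hN
  have hNunit : v (nmG K w) = 1 := v_nmG_unit K hinv hwunit
  have hN0 : nmG K w ≠ 0 := v.pos_iff.mp (by rw [hNunit]; exact one_pos)
  refine ⟨w, hwlat, fun τ => by rw [map_mul, map_inv₀, galois_nmG, hfix], ?_⟩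
  have : u * (nmG K w)⁻¹ - 1 = -(nmG K w - 1 - x) * (nmG K w)⁻¹ := by
    rw [hx]; field_simp; ring
  rw [this]
  apply lat_of_small K hB0 hB hρ
  rw [v.map_mul, v.map_neg, map_inv₀, hNunit, inv_one, mul_one]
  exact hN

/-- One approximation step for `z ↦ g z / z`: a norm-one element of `1 + lat ρ` is of the form
`g w / w` with `w ∈ 1 + lat ρ` up to a norm-one element of `1 + lat (ρ / 2)`. -/
theorem dg_step (hna : IsNonarchimedean v)
    (hinv : ∀ (g : L ≃ₐ[K] L) (x : L), v (g x) = v x) {B : ℝ} (hB0 : 0 < B)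
    (hB : ∀ (x : L) (σ : L ≃ₐ[K] L), v (algebraMap K L (coord K x σ)) ≤ B * v x)
    (g : L ≃ₐ[K] L) (hg : ∀ τ, τ ∈ Subgroup.zpowers g) {ρ : ℝ}
    (hρ : Good (v (theta K)) B ρ) {u : L} (hu : u - 1 ∈ lat K v ρ) (hN : nmG K u = 1) :
    ∃ w : L, w - 1 ∈ lat K v ρ ∧ nmG K (u * (dg g w)⁻¹) = 1 ∧
      u * (dg g w)⁻¹ - 1 ∈ lat K v (ρ / 2) := by
  classical
  have hA0 : 0 ≤ v (theta K) := v.nonneg _
  have hρA0 : 0 ≤ ρ * v (theta K) := mul_nonneg hρ.1.le hA0
  set x := u - 1 with hx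
  have hu' : u = 1 + x := by rw [hx]; ring
  have hxv : v x ≤ ρ * v (theta K) := v_le_of_coord_le K v hna hinv hρ.1.le hu
  have htr : v (trG K x) ≤ (ρ * v (theta K)) * (ρ * v (theta K)) := by
    have := nmG_one_add K hna hinv hρA0 hρ.2.1.le hxv
    rwa [← hu', hN, sub_self, zero_sub, v.map_neg] at this
  set s := ∑ σ : L ≃ₐ[K] L, coord K x σ with hs
  have hsv : v (algebraMap K L s) ≤ ρ / 2 := by
    have h1 := hB (trG K x) 1
    rw [coord_trG] at h1
    exact h1.trans ((mul_le_mul_of_nonneg_left htr hB0.le).trans hρ.2.2)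
  have hρ2 : ρ / 2 ≤ ρ := by linarith [hρ.1]
  have hsθ : s • theta K ∈ lat K v (ρ / 2) := lat_smul_theta (by linarith [hρ.1]) hsv
  set x' := x - s • theta K with hx'
  have hx'lat : x' ∈ lat K v ρ := lat_sub hna hu (lat_mono hρ2 hsθ)
  have hx'sum : ∑ σ : L ≃ₐ[K] L, coord K x' σ = 0 := by
    have h2 : ∀ σ : L ≃ₐ[K] L, coord K x' σ = coord K x σ - if (1 : L ≃ₐ[K] L) = σ then s else 0 := by
      intro σ
      have h1 : theta K (L := L) = (1 : L ≃ₐ[K] L) (theta K) := rfl
      rw [hx', coord_sub, coord_smul, h1, coord_basis]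
      split_ifs <;> simp
    simp_rw [h2]
    rw [Finset.sum_sub_distrib, ← hs]
    simp
  obtain ⟨y, hylat, hy⟩ := exists_sub_eq K v hna g hg hρ.1.le hx'lat hx'sum
  have hyv : v y ≤ ρ * v (theta K) := v_le_of_coord_le K v hna hinv hρ.1.le hylat
  set w := 1 + y with hw
  have hwunit : v w = 1 := v_one_add v hna (lt_of_le_of_lt hyv hρ.2.1)
  have hw0 : w ≠ 0 := v.pos_iff.mp (by rw [hwunit]; exact one_pos)
  have hgw : g w = 1 + g y := by rw [hw, map_add, map_one]
  have hgwunit : v (1 + g y) = 1 := by rw [← hgw, hinv]; exact hwunit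
  have hgw0 : 1 + g y ≠ 0 := v.pos_iff.mp (by rw [hgwunit]; exact one_pos)
  have hgy : g y = y + x - s • theta K := by
    have : g y = x' + y := by rw [← hy]; ring
    rw [this, hx']; ring
  refine ⟨w, by rw [hw, add_sub_cancel_left]; exact hylat, ?_, ?_⟩
  · rw [nmG_mul, nmG_inv, hN, one_mul, nmG_dg K g hw0, inv_one]
  · have key : u * (dg g w)⁻¹ - 1 =
        s • theta K + x * y - (s • theta K + x * y) * g y * (1 + g y)⁻¹ := by
      rw [dg, hgw, hu', hw]
      exact step_identity x y (s • theta K) (g y) hgw0 hgy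
    rw [key]
    have hxy : v (x * y) ≤ (ρ * v (theta K)) * (ρ * v (theta K)) := by
      rw [v.map_mul]
      exact mul_le_mul hxv hyv (v.nonneg _) hρA0
    have hT : v (s • theta K) ≤ ρ * v (theta K) := by
      rw [Algebra.smul_def, v.map_mul]
      exact mul_le_mul_of_nonneg_right (hsv.trans hρ2) hA0
    have hTxy : v (s • theta K + x * y) ≤ ρ * v (theta K) := by
      refine (hna _ _).trans (max_le hT (hxy.trans ?_))
      calc (ρ * v (theta K)) * (ρ * v (theta K)) ≤ (ρ * v (theta K)) * 1 :=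
            mul_le_mul_of_nonneg_left hρ.2.1.le hρA0
        _ = ρ * v (theta K) := mul_one _
    refine lat_sub hna (lat_add hna hsθ (lat_of_small K hB0 hB hρ hxy)) ?_
    apply lat_of_small K hB0 hB hρ
    rw [v.map_mul, v.map_mul, map_inv₀, hgwunit, inv_one, mul_one, hinv]
    exact mul_le_mul hTxy hyv (v.nonneg _) hρA0

end Steps2

section Approx

variable (K : Type*) {L : Type*} [Field K] [Field L] [Algebra K L] [FiniteDimensional K L]
  [IsGalois K L]
variable (v : AbsoluteValue L ℝ)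

theorem lat_mul_sub_one (hna : IsNonarchimedean v)
    (hinv : ∀ (g : L ≃ₐ[K] L) (x : L), v (g x) = v x) {B : ℝ} (hB0 : 0 < B)
    (hB : ∀ (x : L) (σ : L ≃ₐ[K] L), v (algebraMap K L (coord K x σ)) ≤ B * v x) {r : ℝ}
    (hr : Good (v (theta K)) B r) {z z' : L} (hz : z - 1 ∈ lat K v r)
    (hz' : z' - 1 ∈ lat K v r) : z * z' - 1 ∈ lat K v r := by
  have h1 : z * z' - 1 = (z - 1) + (z' - 1) + (z - 1) * (z' - 1) := by ring
  rw [h1]
  have hv := v_le_of_coord_le K v hna hinv hr.1.le hz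
  have hv' := v_le_of_coord_le K v hna hinv hr.1.le hz'
  refine lat_add hna (lat_add hna hz hz')
    (lat_mono (by linarith [hr.1]) (lat_of_small K hB0 hB hr ?_))
  rw [v.map_mul]
  exact mul_le_mul hv hv' (v.nonneg _) (mul_nonneg hr.1.le (v.nonneg _))

theorem v_eq_one_of_lat (hna : IsNonarchimedean v)
    (hinv : ∀ (g : L ≃ₐ[K] L) (x : L), v (g x) = v x) {B : ℝ} {r : ℝ}
    (hr : Good (v (theta K)) B r) {z : L} (hz : z - 1 ∈ lat K v r) : v z = 1 :=
  v_eq_one_of_sub_one_lt v hna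
    (lt_of_le_of_lt (v_le_of_coord_le K v hna hinv hr.1.le hz) hr.2.1)

theorem lat_inv_sub_one (hna : IsNonarchimedean v)
    (hinv : ∀ (g : L ≃ₐ[K] L) (x : L), v (g x) = v x) {B : ℝ} (hB0 : 0 < B)
    (hB : ∀ (x : L) (σ : L ≃ₐ[K] L), v (algebraMap K L (coord K x σ)) ≤ B * v x) {r : ℝ}
    (hr : Good (v (theta K)) B r) {z : L} (hz : z - 1 ∈ lat K v r) :
    z⁻¹ - 1 ∈ lat K v r := by
  have hunit := v_eq_one_of_lat K v hna hinv hr hz
  have hz0 : z ≠ 0 := v.pos_iff.mp (by rw [hunit]; exact one_pos)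
  have h1 : z⁻¹ - 1 = -(z - 1) + (z - 1) * (z - 1) * z⁻¹ := by field_simp; ring
  rw [h1]
  have hv := v_le_of_coord_le K v hna hinv hr.1.le hz
  refine lat_add hna (lat_neg hz) (lat_mono (by linarith [hr.1]) (lat_of_small K hB0 hB hr ?_))
  rw [v.map_mul, v.map_mul, map_inv₀, hunit, inv_one, mul_one]
  exact mul_le_mul hv hv (v.nonneg _) (mul_nonneg hr.1.le (v.nonneg _))

/-- Successive approximation on the lattices `1 + lat (r / 2 ^ j)`. -/
theorem lattice_approx (hna : IsNonarchimedean v)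
    (hcomplete : ∀ u : ℕ → L, (∀ ε > 0, ∃ N, ∀ m ≥ N, ∀ n ≥ N, v (u m - u n) < ε) →
      ∃ x, ∀ ε > 0, ∃ N, ∀ n ≥ N, v (u n - x) < ε)
    (hinv : ∀ (g : L ≃ₐ[K] L) (x : L), v (g x) = v x) {B : ℝ} (hB0 : 0 < B)
    (hB : ∀ (x : L) (σ : L ≃ₐ[K] L), v (algebraMap K L (coord K x σ)) ≤ B * v x) {r : ℝ}
    (hr : Good (v (theta K)) B r)
    (φ : L → L) (hφmul : ∀ z z', φ (z * z') = φ z * φ z')
    (hφunit : ∀ z, v z = 1 → v (φ z) = 1)
    (hφlip : ∀ z z', v z = 1 → v z' = 1 → v (φ z - φ z') ≤ v (z - z'))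
    (P : L → Prop)
    (hstep : ∀ ρ, Good (v (theta K)) B ρ → ∀ u : L, u - 1 ∈ lat K v ρ → P u →
      ∃ w : L, w - 1 ∈ lat K v ρ ∧ P (u * (φ w)⁻¹) ∧ u * (φ w)⁻¹ - 1 ∈ lat K v (ρ / 2))
    {u : L} (hu : u - 1 ∈ lat K v r) (hP : P u) : ∃ w : L, w - 1 ∈ lat K v r ∧ φ w = u := by
  have hA : 0 < v (theta K) := v.pos (theta_ne_zero K)
  have hgood := fun j => hr.div_pow hA j
  have key := successive_approx v hna hcomplete (fun j => {z : L | z - 1 ∈ lat K v (r / 2 ^ j)})
    (fun j => r / 2 ^ j * v (theta K))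
    (fun j => (hgood j).2.1) ?_ (fun j z hz => v_le_of_coord_le K v hna hinv (hgood j).1.le hz)
    ?_ ?_ ?_ ?_ φ hφmul hφunit hφlip P ?_ (u := u) ?_ hP
  · obtain ⟨w, hw, hw2⟩ := key
    refine ⟨w, ?_, hw2⟩
    simpa using hw
  · intro ε hε
    obtain ⟨J, hJ⟩ := exists_pow_lt_of_lt_one hε (by norm_num : (1 / 2 : ℝ) < 1)
    refine ⟨J, fun j hj => ?_⟩
    have h1 : (1 / 2 : ℝ) ^ j ≤ (1 / 2) ^ J :=
      pow_le_pow_of_le_one (by norm_num) (by norm_num) hj
    have h2 : r / 2 ^ j * v (theta K) = (r * v (theta K)) * (1 / 2) ^ j := by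
      rw [one_div, inv_pow]; ring
    rw [h2]
    calc (r * v (theta K)) * (1 / 2) ^ j ≤ 1 * (1 / 2) ^ J :=
          mul_le_mul hr.2.1.le h1 (by positivity) (by norm_num)
      _ < ε := by rw [one_mul]; exact hJ
  · show (1 : L) - 1 ∈ lat K v (r / 2 ^ 0)
    rw [sub_self]; exact lat_zero (hgood 0).1.le
  · intro z hz z' hz'
    simp only [pow_zero, div_one, Set.mem_ofPred_eq] at hz hz' ⊢
    exact lat_mul_sub_one K v hna hinv hB0 hB hr hz hz'
  · intro j z hz
    simp only [pow_zero, div_one, Set.mem_ofPred_eq] at hz ⊢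
    exact lat_mono (div_le_self hr.1.le (one_le_pow₀ (by norm_num))) hz
  · intro s z hs hlim
    simp only [pow_zero, div_one, Set.mem_ofPred_eq] at hs ⊢
    obtain ⟨J₀, hJ₀⟩ := hlim (r / B) (div_pos hr.1 hB0)
    have h1 : s J₀ - z ∈ lat K v r := by
      have := lat_of_le K hB0 hB (hJ₀ J₀ le_rfl).le
      have e : B * (r / B) = r := by field_simp
      rwa [e] at this
    have h2 : z - 1 = (s J₀ - 1) - (s J₀ - z) := by ring
    rw [h2]
    exact lat_sub hna (hs J₀) h1
  · intro j u hu hPu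
    obtain ⟨w, hw, hPw, hw2⟩ := hstep _ (hgood j) u hu hPu
    refine ⟨w, hw, hPw, ?_⟩
    show u * (φ w)⁻¹ - 1 ∈ lat K v (r / 2 ^ (j + 1))
    rwa [div_div, ← pow_succ] at hw2
  · show u - 1 ∈ lat K v (r / 2 ^ 0)
    simpa using hu

end Approx

section Hilbert90

theorem prod_univ_eq_prod_range {G M : Type*} [Group G] [Fintype G] [CommMonoid M] (g : G)
    (hg : ∀ x, x ∈ Subgroup.zpowers g) (f : G → M) :
    ∏ σ : G, f σ = ∏ i ∈ Finset.range (orderOf g), f (g ^ i) := by
  symm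
  apply Finset.prod_bij (fun i _ => g ^ i)
  · intros; exact Finset.mem_univ _
  · intro i hi j hj h
    exact pow_injOn_Iio_orderOf (by simpa using hi) (by simpa using hj) h
  · intro σ _
    obtain ⟨k, hk⟩ := (Submonoid.mem_powers_iff σ g).mp (mem_powers_iff_mem_zpowers.mpr (hg σ))
    exact ⟨k % orderOf g, Finset.mem_range.mpr (Nat.mod_lt _ (orderOf_pos g)),
      by rw [pow_mod_orderOf, hk]⟩
  · intros; rfl

/-- **Hilbert 90** for a finite cyclic extension (universe polymorphic, elementary proof by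
independence of characters): if `∏ σ, σ u = 1` then `u * g y = y` for some `y ≠ 0`. -/
theorem hilbert90_cyclic {K L : Type*} [Field K] [Field L] [Algebra K L]
    [FiniteDimensional K L] (g : L ≃ₐ[K] L) (hg : ∀ τ, τ ∈ Subgroup.zpowers g) {u : L}
    (hu : nmG K u = 1) : ∃ y : L, y ≠ 0 ∧ u * g y = y := by
  classical
  set n := orderOf g with hn
  have hn0 : 0 < n := orderOf_pos g
  have hprod : ∏ i ∈ Finset.range n, (g ^ i) u = 1 := by
    rw [← hu, nmG]
    exact (prod_univ_eq_prod_range g hg (fun σ => σ u)).symm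
  set a : ℕ → L := fun i => ∏ j ∈ Finset.range i, (g ^ j) u with ha
  have ha0 : a 0 = 1 := by simp [ha]
  have han : a n = 1 := hprod
  have hasucc : ∀ i, a (i + 1) = u * g (a i) := by
    intro i
    simp only [ha]
    rw [Finset.prod_range_succ', map_prod, pow_zero, mul_comm, AlgEquiv.one_apply]
    congr 1
    refine Finset.prod_congr rfl (fun k _ => ?_)
    rw [pow_succ']
    rfl
  have hy : ∀ c : L, u * g (∑ i ∈ Finset.range n, a i * (g ^ i) c) =
      ∑ i ∈ Finset.range n, a i * (g ^ i) c := by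
    intro c
    have h1 : u * g (∑ i ∈ Finset.range n, a i * (g ^ i) c) =
        ∑ i ∈ Finset.range n, a (i + 1) * (g ^ (i + 1)) c := by
      rw [map_sum, Finset.mul_sum]
      refine Finset.sum_congr rfl (fun i _ => ?_)
      rw [map_mul, hasucc, ← mul_assoc, pow_succ']
      rfl
    have h2 := Finset.sum_range_succ' (fun i => a i * (g ^ i) c) n
    have h3 := Finset.sum_range_succ (fun i => a i * (g ^ i) c) n
    have h4 : a n * (g ^ n) c = a 0 * (g ^ 0) c := by
      rw [han, ha0, hn, pow_orderOf_eq_one, pow_zero]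
    rw [h1]
    have h5 : ∑ i ∈ Finset.range n, a (i + 1) * (g ^ (i + 1)) c + a 0 * (g ^ 0) c =
        ∑ i ∈ Finset.range n, a i * (g ^ i) c + a n * (g ^ n) c := by
      rw [← h2, ← h3]
    rw [h4] at h5
    exact add_right_cancel h5
  by_contra hne
  have hzero : ∀ c : L, ∑ i ∈ Finset.range n, a i * (g ^ i) c = 0 := by
    intro c
    by_contra h
    exact hne ⟨_, h, hy c⟩
  have hli : LinearIndependent L
      (fun i : Fin n => ((((g ^ (i : ℕ) : L ≃ₐ[K] L) : L ≃* L) : L →* L) : L → L)) := by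
    have h1 := linearIndependent_monoidHom L L
    have hinj : Function.Injective
        (fun i : Fin n => (((g ^ (i : ℕ) : L ≃ₐ[K] L) : L ≃* L) : L →* L)) := by
      intro i j hij
      have h2 : g ^ (i : ℕ) = g ^ (j : ℕ) := by
        ext x
        exact DFunLike.congr_fun hij x
      exact Fin.ext (pow_injOn_Iio_orderOf (Set.mem_Iio.mpr i.2) (Set.mem_Iio.mpr j.2) h2)
    exact h1.comp _ hinj
  have hsum : ∑ i : Fin n, a i • ((((g ^ (i : ℕ) : L ≃ₐ[K] L) : L ≃* L) : L →* L) : L → L) = 0 := by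
    funext c
    rw [Finset.sum_apply, Pi.zero_apply, ← hzero c,
      ← Fin.sum_univ_eq_sum_range (fun i => a i * (g ^ i) c) n]
    rfl
  have := Fintype.linearIndependent_iff.mp hli (fun i => a i) hsum ⟨0, hn0⟩
  rw [ha0] at this
  exact one_ne_zero this

end Hilbert90

section Main

variable (K : Type*) {L : Type*} [Field K] [Field L] [Algebra K L] [FiniteDimensional K L]
  [IsGalois K L]
variable (v : AbsoluteValue L ℝ)

/-- The subgroup `1 + lat r` of `Lˣ`. -/
def unitLat (hna : IsNonarchimedean v)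
    (hinv : ∀ (g : L ≃ₐ[K] L) (x : L), v (g x) = v x) {B : ℝ} (hB0 : 0 < B)
    (hB : ∀ (x : L) (σ : L ≃ₐ[K] L), v (algebraMap K L (coord K x σ)) ≤ B * v x) {r : ℝ}
    (hr : Good (v (theta K)) B r) : Subgroup Lˣ where
  carrier := {u | (u : L) - 1 ∈ lat K v r}
  mul_mem' := fun {a b} ha hb => by
    show ((a * b : Lˣ) : L) - 1 ∈ lat K v r
    rw [Units.val_mul]
    exact lat_mul_sub_one K v hna hinv hB0 hB hr ha hb
  one_mem' := by
    show ((1 : Lˣ) : L) - 1 ∈ lat K v r
    rw [Units.val_one, sub_self]; exact lat_zero hr.1.le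
  inv_mem' := fun {a} ha => by
    show ((a⁻¹ : Lˣ) : L) - 1 ∈ lat K v r
    rw [Units.val_inv_eq_inv_val]
    exact lat_inv_sub_one K v hna hinv hB0 hB hr ha

/-- The inclusion `Kˣ → Lˣ`. -/
noncomputable def iotaU : Kˣ →* Lˣ := Units.map (algebraMap K L : K →* L)

/-- The norm as an endomorphism of `Lˣ`. -/
noncomputable def normEnd : Lˣ →* Lˣ :=
  (iotaU K).comp (Units.map (Algebra.norm K : L →* K))

variable {K} in
/-- `u ↦ g u / u` as an endomorphism of `Lˣ`. -/
noncomputable def dgEnd (g : L ≃ₐ[K] L) : Lˣ →* Lˣ :=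
  Units.map ((g : L ≃* L) : L →* L) / MonoidHom.id Lˣ

theorem coe_iotaU (a : Kˣ) : ((iotaU K a : Lˣ) : L) = algebraMap K L a := rfl

theorem coe_normEnd (u : Lˣ) : ((normEnd K u : Lˣ) : L) = nmG K (u : L) :=
  (nmG_eq_algebraMap_norm K _).symm

variable {K} in
theorem coe_dgEnd (g : L ≃ₐ[K] L) (u : Lˣ) : ((dgEnd g u : Lˣ) : L) = dg g (u : L) := by
  rw [dgEnd, MonoidHom.div_apply, Units.val_div_eq_div_val, dg, div_eq_mul_inv]
  rfl

variable {K} in
theorem fixed_of_generator (g : L ≃ₐ[K] L) (hg : ∀ τ, τ ∈ Subgroup.zpowers g) {x : L}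
    (h : g x = x) (τ : L ≃ₐ[K] L) : τ x = x := by
  have hmem : g ∈ MulAction.stabilizer (L ≃ₐ[K] L) x := h
  exact (Subgroup.zpowers_le.mpr hmem) (hg τ)

variable {K} in
theorem fixed_of_dgEnd_eq_one (g : L ≃ₐ[K] L) {u : Lˣ} (h : dgEnd g u = 1) : g (u : L) = u := by
  have := congrArg Units.val h
  rw [coe_dgEnd, dg, Units.val_one] at this
  exact eq_of_mul_inv_eq_one this

theorem exists_zpow_mul_mem {t : L} (h0 : 0 < v t) (h1 : v t < 1) {x : L} (hx : x ≠ 0) :
    ∃ k : ℤ, v t < v (x * t ^ k) ∧ v (x * t ^ k) ≤ 1 := by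
  have hxpos : 0 < v x := v.pos hx
  obtain ⟨n, hn1, hn2⟩ := exists_mem_Ioc_zpow hxpos ((one_lt_inv₀ h0).mpr h1)
  have hvz : v (x * t ^ (n + 1)) = v x * v t ^ (n + 1) := by rw [v.map_mul, map_zpow₀]
  have hpos : 0 < v t ^ (n + 1) := zpow_pos h0 _
  refine ⟨n + 1, ?_, ?_⟩
  · rw [hvz]
    have h3 : (v t ^ n)⁻¹ < v x := by rwa [← inv_zpow]
    have : v t ^ (n + 1) = v t ^ n * v t := zpow_add_one₀ h0.ne' n
    calc v t = (v t ^ n)⁻¹ * v t ^ (n + 1) := by
          rw [this, ← mul_assoc, inv_mul_cancel₀ (zpow_pos h0 n).ne', one_mul]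
      _ < v x * v t ^ (n + 1) := mul_lt_mul_of_pos_right h3 hpos
  · rw [hvz]
    have : v x ≤ (v t ^ (n + 1))⁻¹ := by rwa [← inv_zpow]
    calc v x * v t ^ (n + 1) ≤ (v t ^ (n + 1))⁻¹ * v t ^ (n + 1) :=
          mul_le_mul_of_nonneg_right this hpos.le
      _ = 1 := inv_mul_cancel₀ hpos.ne'

/-- `(1 + lat r) · ⟨t⟩` has finite index in `Lˣ` as soon as `v t < 1`. -/
theorem unitLat_sup_zpowers_index_ne_zero (hna : IsNonarchimedean v)
    (htb : ∀ ε > 0, ∃ R : Finset L, ∀ x, v x ≤ 1 → ∃ r ∈ R, v (x - r) < ε)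
    (hinv : ∀ (g : L ≃ₐ[K] L) (x : L), v (g x) = v x) {B : ℝ} (hB0 : 0 < B)
    (hB : ∀ (x : L) (σ : L ≃ₐ[K] L), v (algebraMap K L (coord K x σ)) ≤ B * v x) {r : ℝ}
    (hr : Good (v (theta K)) B r) (t : Lˣ) (ht1 : v (t : L) < 1) :
    (unitLat K v hna hinv hB0 hB hr ⊔ Subgroup.zpowers t).index ≠ 0 := by
  classical
  set W := unitLat K v hna hinv hB0 hB hr ⊔ Subgroup.zpowers t with hW
  have hvt : 0 < v (t : L) := v.pos t.ne_zero
  set ε := v (t : L) * min 1 (r / B) with hε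
  have hεpos : 0 < ε := mul_pos hvt (lt_min one_pos (div_pos hr.1 hB0))
  obtain ⟨R, hR⟩ := htb ε hεpos
  let f : R → Lˣ ⧸ W := fun ρ =>
    if h : (ρ : L) = 0 then 1 else QuotientGroup.mk (Units.mk0 (ρ : L) h)
  have hf : Function.Surjective f := by
    intro q
    obtain ⟨x, rfl⟩ := QuotientGroup.mk_surjective q
    obtain ⟨k, hk1, hk2⟩ := exists_zpow_mul_mem v hvt ht1 x.ne_zero
    obtain ⟨ρ, hρR, hρ⟩ := hR _ hk2
    set x₁ : L := (x : L) * (t : L) ^ k with hx₁
    have hx₁pos : 0 < v x₁ := lt_trans hvt hk1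
    have hlt : v (x₁ - ρ) < v x₁ := by
      refine lt_of_lt_of_le hρ (le_trans ?_ hk1.le)
      calc ε ≤ v (t : L) * 1 := mul_le_mul_of_nonneg_left (min_le_left _ _) hvt.le
        _ = v (t : L) := mul_one _
    have hvρ : v ρ = v x₁ := v_eq_of_sub_lt v hna hlt
    have hρ0 : ρ ≠ 0 := v.pos_iff.mp (by rw [hvρ]; exact hx₁pos)
    refine ⟨⟨ρ, hρR⟩, ?_⟩
    simp only [f, dif_neg hρ0]
    rw [QuotientGroup.eq]
    have hmem : (Units.mk0 ρ hρ0)⁻¹ * (x * t ^ k) ∈ unitLat K v hna hinv hB0 hB hr := by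
      show (((Units.mk0 ρ hρ0)⁻¹ * (x * t ^ k) : Lˣ) : L) - 1 ∈ lat K v r
      have e : (((Units.mk0 ρ hρ0)⁻¹ * (x * t ^ k) : Lˣ) : L) - 1 = (x₁ - ρ) * ρ⁻¹ := by
        simp only [Units.val_mul, Units.val_inv_eq_inv_val, Units.val_mk0,
          Units.val_zpow_eq_zpow_val]
        rw [hx₁]; field_simp
      rw [e]
      have hle : v ((x₁ - ρ) * ρ⁻¹) ≤ r / B := by
        rw [v.map_mul, map_inv₀, hvρ, ← div_eq_mul_inv, div_le_iff₀ hx₁pos]
        calc v (x₁ - ρ) ≤ ε := hρ.le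
          _ ≤ v (t : L) * (r / B) := mul_le_mul_of_nonneg_left (min_le_right _ _) hvt.le
          _ = r / B * v (t : L) := mul_comm _ _
          _ ≤ r / B * v x₁ := mul_le_mul_of_nonneg_left hk1.le (div_pos hr.1 hB0).le
      have := lat_of_le K hB0 hB hle
      have e2 : B * (r / B) = r := by field_simp
      rwa [e2] at this
    have e3 : (Units.mk0 ρ hρ0)⁻¹ * x = ((Units.mk0 ρ hρ0)⁻¹ * (x * t ^ k)) * t ^ (-k) := by
      rw [zpow_neg, mul_assoc, mul_assoc, mul_inv_cancel, mul_one]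
    rw [e3]
    exact Subgroup.mul_mem_sup hmem (Subgroup.zpow_mem_zpowers t (-k))
  have : Finite (Lˣ ⧸ W) := Finite.of_surjective f hf
  exact Subgroup.index_ne_zero_of_finite

end Main

/-- **Local norm index theorem** for finite cyclic extensions, in absolute-value form:
if `L/K` is finite cyclic and `v` is a nontrivial nonarchimedean absolute value on `L` which is
complete, has totally bounded unit ball and is Galois invariant, then
`[Kˣ : N_{L/K} Lˣ] = [L : K]`. -/
theorem index_norm_range_eq_finrank (K L : Type*) [Field K] [Field L] [Algebra K L]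
    [FiniteDimensional K L] [IsGalois K L] [IsCyclic (L ≃ₐ[K] L)] (v : AbsoluteValue L ℝ)
    (hna : IsNonarchimedean v) (hnt : ∃ x : L, 0 < v x ∧ v x < 1)
    (hcomplete : ∀ u : ℕ → L, (∀ ε > 0, ∃ N, ∀ m ≥ N, ∀ n ≥ N, v (u m - u n) < ε) →
      ∃ x, ∀ ε > 0, ∃ N, ∀ n ≥ N, v (u n - x) < ε)
    (htb : ∀ ε > 0, ∃ R : Finset L, ∀ x, v x ≤ 1 → ∃ r ∈ R, v (x - r) < ε)
    (hinv : ∀ (g : L ≃ₐ[K] L) (x : L), v (g x) = v x) :
    (Units.map (Algebra.norm K : L →* K)).range.index = Module.finrank K L := by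
  classical
  obtain ⟨g, hg⟩ := IsCyclic.exists_generator (α := L ≃ₐ[K] L)
  obtain ⟨B, hB0, hB⟩ := exists_coord_bound K v hna hinv
  have hA : 0 < v (theta K : L) := v.pos (theta_ne_zero K)
  obtain ⟨r, hr⟩ := exists_good hA hB0
  set V : Subgroup Lˣ := unitLat K v hna hinv hB0 hB hr with hV
  have hVmem : ∀ u : Lˣ, u ∈ V ↔ (u : L) - 1 ∈ lat K v r := fun u => Iff.rfl
  -- the element `t`
  obtain ⟨x₀, hx₀, hx₀1⟩ := hnt
  have hx₀ne : x₀ ≠ 0 := v.pos_iff.mp hx₀
  set t₀ : Kˣ := Units.mk0 (Algebra.norm K x₀) (Algebra.norm_ne_zero_iff.mpr hx₀ne) with ht₀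
  set t : Lˣ := iotaU K t₀ with ht
  have hcard : Fintype.card (L ≃ₐ[K] L) ≠ 0 := Fintype.card_ne_zero
  have hvt : v (t : L) = v x₀ ^ Fintype.card (L ≃ₐ[K] L) := by
    rw [ht, coe_iotaU, ht₀, Units.val_mk0, ← nmG_eq_algebraMap_norm, v_nmG K hinv]
  have hvt1 : v (t : L) < 1 := by rw [hvt]; exact pow_lt_one₀ hx₀.le hx₀1 hcard
  have hvt0 : 0 < v (t : L) := v.pos t.ne_zero
  -- facts about `D` and `N`
  have hDι : ∀ a : Kˣ, dgEnd g (iotaU K a) = 1 := by
    intro a
    apply Units.ext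
    rw [coe_dgEnd, coe_iotaU, dg, AlgEquiv.commutes, Units.val_one]
    exact mul_inv_cancel₀ ((map_ne_zero _).mpr a.ne_zero)
  have hDN : ∀ x, dgEnd g (normEnd K x) = 1 := fun x => hDι _
  have hND : ∀ x, normEnd K (dgEnd g x) = 1 := by
    intro x
    apply Units.ext
    rw [coe_normEnd, coe_dgEnd, nmG_dg K g x.ne_zero, Units.val_one]
  have hH90 : (normEnd K).ker ≤ (dgEnd g).range := by
    intro u hu
    have h1 : nmG K (u : L) = 1 := by
      have := congrArg Units.val (MonoidHom.mem_ker.mp hu)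
      rwa [coe_normEnd, Units.val_one] at this
    obtain ⟨y, hy0, hy⟩ := hilbert90_cyclic g hg h1
    have hgy0 : g y ≠ 0 := (map_ne_zero g).mpr hy0
    refine ⟨Units.mk0 y⁻¹ (inv_ne_zero hy0), Units.ext ?_⟩
    rw [coe_dgEnd, dg, Units.val_mk0, map_inv₀, inv_inv]
    calc (g y)⁻¹ * y = (g y)⁻¹ * ((u : L) * g y) := by rw [hy]
      _ = (u : L) := by field_simp
  have hVD : V.map (dgEnd g) ≤ V := by
    rintro _ ⟨u, hu, rfl⟩
    have h1 : Units.map ((g : L ≃* L) : L →* L) u ∈ V := by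
      rw [hVmem]
      have : ((Units.map ((g : L ≃* L) : L →* L) u : Lˣ) : L) - 1 = g ((u : L) - 1) := by
        rw [map_sub, map_one]; rfl
      rw [this]
      exact lat_galois hu g
    exact V.div_mem h1 hu
  have hVN : V.map (normEnd K) ≤ V := by
    rintro _ ⟨u, hu, rfl⟩
    have h1 : normEnd K u = ∏ σ : L ≃ₐ[K] L, Units.map ((σ : L ≃* L) : L →* L) u := by
      apply Units.ext
      rw [coe_normEnd, nmG, Units.coe_prod]
      rfl
    rw [h1]
    refine Subgroup.prod_mem V (fun σ _ => ?_)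
    rw [hVmem]
    have : ((Units.map ((σ : L ≃* L) : L →* L) u : Lˣ) : L) - 1 = σ ((u : L) - 1) := by
      rw [map_sub, map_one]; rfl
    rw [this]
    exact lat_galois hu σ
  have hNt : normEnd K t = t ^ Module.finrank K L := by
    apply Units.ext
    rw [coe_normEnd, nmG_eq_algebraMap_norm, ht, coe_iotaU, Algebra.norm_algebraMap,
      Units.val_pow_eq_pow_val, coe_iotaU, map_pow]
  have htV : ∀ k : ℤ, t ^ k ∈ V → k = 0 := by
    intro k hk
    have h1 : v ((t ^ k : Lˣ) : L) = 1 := v_eq_one_of_lat K v hna hinv hr ((hVmem _).mp hk)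
    rw [Units.val_zpow_eq_zpow_val, map_zpow₀] at h1
    exact (zpow_eq_one_iff_right₀ hvt0.le hvt1.ne).mp h1
  have h0 : ∀ x ∈ V, dgEnd g x = 1 → ∃ y ∈ V, normEnd K y = x := by
    intro x hx hDx
    have hfix := fixed_of_generator g hg (fixed_of_dgEnd_eq_one g hDx)
    obtain ⟨w, hw, hwx⟩ := lattice_approx K v hna hcomplete hinv hB0 hB hr (nmG K) (nmG_mul K)
      (fun z hz => v_nmG_unit K hinv hz) (fun z z' hz hz' => nmG_lipschitz K hna hinv hz hz')
      (fun u => ∀ τ : L ≃ₐ[K] L, τ u = u)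
      (fun ρ hρ u hu hPu => norm_step K v hna hinv hB0 hB hρ hu hPu) ((hVmem x).mp hx) hfix
    have hw0 : w ≠ 0 :=
      v.pos_iff.mp (by rw [v_eq_one_of_lat K v hna hinv hr hw]; exact one_pos)
    exact ⟨Units.mk0 w hw0, hw, Units.ext (by rw [coe_normEnd, Units.val_mk0, hwx])⟩
  have h1 : ∀ x ∈ V, normEnd K x = 1 → ∃ y ∈ V, dgEnd g y = x := by
    intro x hx hNx
    have hN1 : nmG K (x : L) = 1 := by
      have := congrArg Units.val hNx
      rwa [coe_normEnd, Units.val_one] at this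
    obtain ⟨w, hw, hwx⟩ := lattice_approx K v hna hcomplete hinv hB0 hB hr (dg g) (dg_mul g)
      (fun z hz => v_dg_unit hinv g hz) (fun z z' hz hz' => dg_lipschitz hna hinv g hz hz')
      (fun u => nmG K u = 1)
      (fun ρ hρ u hu hPu => dg_step K v hna hinv hB0 hB g hg hρ hu hPu) ((hVmem x).mp hx) hN1
    have hw0 : w ≠ 0 :=
      v.pos_iff.mp (by rw [v_eq_one_of_lat K v hna hinv hr hw]; exact one_pos)
    exact ⟨Units.mk0 w hw0, hw, Units.ext (by rw [coe_dgEnd, Units.val_mk0, hwx])⟩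
  have hfin := unitLat_sup_zpowers_index_ne_zero K v hna htb hinv hB0 hB hr t hvt1
  have key := helper7678.abstract_norm_index (dgEnd g) (normEnd K) hDN hND hH90 V t
    (Module.finrank K L) Module.finrank_pos hfin hVD hVN (hDι t₀) hNt htV h0 h1
  -- transport to `Kˣ`
  have hker : (dgEnd g).ker = (iotaU K).range := by
    ext u
    constructor
    · intro hu
      obtain ⟨a, ha⟩ := (IsGalois.mem_range_algebraMap_iff_fixed (u : L)).mpr
        (fixed_of_generator g hg (fixed_of_dgEnd_eq_one g (MonoidHom.mem_ker.mp hu)))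
      have ha0 : a ≠ 0 := by
        rintro rfl
        rw [map_zero] at ha
        exact u.ne_zero ha.symm
      exact ⟨Units.mk0 a ha0, Units.ext ha⟩
    · rintro ⟨a, rfl⟩
      exact MonoidHom.mem_ker.mpr (hDι a)
  have hinj : Function.Injective (iotaU K (L := L)) :=
    Units.map_injective (algebraMap K L).injective
  have hrange : (normEnd K).range =
      (Units.map (Algebra.norm K : L →* K)).range.map (iotaU K) :=
    (MonoidHom.map_range _ _).symm
  rw [hrange, hker, MonoidHom.range_eq_map (iotaU K),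
    Subgroup.relIndex_map_map_of_injective _ _ hinj, Subgroup.relIndex_top_right] at key
  exact key

/-- If moreover `[L : K] > 1`, some element of `Kˣ` is not a norm from `L`. -/
theorem exists_not_norm (K L : Type*) [Field K] [Field L] [Algebra K L]
    [FiniteDimensional K L] [IsGalois K L] [IsCyclic (L ≃ₐ[K] L)] (v : AbsoluteValue L ℝ)
    (hna : IsNonarchimedean v) (hnt : ∃ x : L, 0 < v x ∧ v x < 1)
    (hcomplete : ∀ u : ℕ → L, (∀ ε > 0, ∃ N, ∀ m ≥ N, ∀ n ≥ N, v (u m - u n) < ε) →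
      ∃ x, ∀ ε > 0, ∃ N, ∀ n ≥ N, v (u n - x) < ε)
    (htb : ∀ ε > 0, ∃ R : Finset L, ∀ x, v x ≤ 1 → ∃ r ∈ R, v (x - r) < ε)
    (hinv : ∀ (g : L ≃ₐ[K] L) (x : L), v (g x) = v x) (hdeg : 1 < Module.finrank K L) :
    ∃ b : Kˣ, ∀ y : L, Algebra.norm K y ≠ b := by
  have hidx := index_norm_range_eq_finrank K L v hna hnt hcomplete htb hinv
  by_contra hcon
  have htop : (Units.map (Algebra.norm K : L →* K)).range = ⊤ := by
    rw [eq_top_iff]
    intro b _
    by_contra hb
    apply hcon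
    refine ⟨b, fun y hy => hb ?_⟩
    have hy0 : y ≠ 0 := by
      rintro rfl
      rw [Algebra.norm_zero] at hy
      exact b.ne_zero hy.symm
    exact ⟨Units.mk0 y hy0, Units.ext hy⟩
  rw [htop, Subgroup.index_top] at hidx
  omega

/-- The norm residue group `Kˣ / N_{L/K} Lˣ` has exactly `[L : K]` elements. -/
theorem card_quotient_norm_range (K L : Type*) [Field K] [Field L] [Algebra K L]
    [FiniteDimensional K L] [IsGalois K L] [IsCyclic (L ≃ₐ[K] L)] (v : AbsoluteValue L ℝ)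
    (hna : IsNonarchimedean v) (hnt : ∃ x : L, 0 < v x ∧ v x < 1)
    (hcomplete : ∀ u : ℕ → L, (∀ ε > 0, ∃ N, ∀ m ≥ N, ∀ n ≥ N, v (u m - u n) < ε) →
      ∃ x, ∀ ε > 0, ∃ N, ∀ n ≥ N, v (u n - x) < ε)
    (htb : ∀ ε > 0, ∃ R : Finset L, ∀ x, v x ≤ 1 → ∃ r ∈ R, v (x - r) < ε)
    (hinv : ∀ (g : L ≃ₐ[K] L) (x : L), v (g x) = v x) :
    Nat.card (Kˣ ⧸ (Units.map (Algebra.norm K : L →* K)).range) = Module.finrank K L :=
  index_norm_range_eq_finrank K L v hna hnt hcomplete htb hinv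

/-! ## Unramified cyclic extensions: the norm group from the index theorem -/

section Unramified

/-- Two subgroups `H ≤ W` of the same finite index coincide. -/
theorem eq_of_le_of_index_eq {G : Type*} [Group G] {H W : Subgroup G} (hle : H ≤ W)
    (hidx : H.index = W.index) (h0 : H.index ≠ 0) : H = W := by
  have h1 := Subgroup.relIndex_mul_index hle
  have h2 : H.relIndex W = 1 := by
    rw [← hidx] at h1
    exact Nat.eq_of_mul_eq_mul_right (Nat.pos_of_ne_zero h0) (by rw [h1, one_mul])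
  exact le_antisymm hle (Subgroup.relIndex_eq_one.mp h2)

variable (K : Type*) {L : Type*} [Field K] [Field L] [Algebra K L]
variable (v : AbsoluteValue L ℝ)

/-- The restriction of an absolute value of `L` to `K`. -/
noncomputable def resAbs : AbsoluteValue K ℝ := v.comp (algebraMap K L).injective

theorem resAbs_apply (x : K) : resAbs K v x = v (algebraMap K L x) := rfl

/-- The unit ball of `K` is totally bounded if that of `L` is. -/
theorem totallyBounded_resAbs (hna : IsNonarchimedean v)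
    (htb : ∀ ε > 0, ∃ R : Finset L, ∀ x, v x ≤ 1 → ∃ r ∈ R, v (x - r) < ε) :
    ∀ ε > 0, ∃ R : Finset K, ∀ x, resAbs K v x ≤ 1 → ∃ r ∈ R, resAbs K v (x - r) < ε := by
  classical
  intro ε hε
  obtain ⟨R, hR⟩ := htb ε hε
  let pick : L → K := fun r =>
    if h : ∃ x : K, v (algebraMap K L x - r) < ε then h.choose else 0
  refine ⟨R.image pick, fun x hx => ?_⟩
  obtain ⟨r, hr, hxr⟩ := hR (algebraMap K L x) hx
  have hex : ∃ x : K, v (algebraMap K L x - r) < ε := ⟨x, hxr⟩
  refine ⟨pick r, Finset.mem_image_of_mem _ hr, ?_⟩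
  have hp : v (algebraMap K L (pick r) - r) < ε := by
    simp only [pick, dif_pos hex]
    exact hex.choose_spec
  rw [resAbs_apply, map_sub]
  have : algebraMap K L x - algebraMap K L (pick r) =
      (algebraMap K L x - r) - (algebraMap K L (pick r) - r) := by ring
  rw [this]
  exact lt_of_le_of_lt (na_sub v hna _ _) (max_lt hxr hp)

end Unramified

/-- **Norm group of an unramified cyclic extension**, absolute-value form.  Let `L/K` be finite
cyclic with `v` as in `index_norm_range_eq_finrank`, and assume `e = 1`, i.e. every value of `v`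
on `Lˣ` is a value on `Kˣ`.  Then `x ∈ Kˣ` is a norm from `L` iff its absolute value is an
`[L : K]`-th power in the value group of `K`. -/
theorem exists_norm_eq_iff_of_unramified (K L : Type*) [Field K] [Field L] [Algebra K L]
    [FiniteDimensional K L] [IsGalois K L] [IsCyclic (L ≃ₐ[K] L)] (v : AbsoluteValue L ℝ)
    (hna : IsNonarchimedean v) (hnt : ∃ x : L, 0 < v x ∧ v x < 1)
    (hcomplete : ∀ u : ℕ → L, (∀ ε > 0, ∃ N, ∀ m ≥ N, ∀ n ≥ N, v (u m - u n) < ε) →
      ∃ x, ∀ ε > 0, ∃ N, ∀ n ≥ N, v (u n - x) < ε)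
    (htb : ∀ ε > 0, ∃ R : Finset L, ∀ x, v x ≤ 1 → ∃ r ∈ R, v (x - r) < ε)
    (hinv : ∀ (g : L ≃ₐ[K] L) (x : L), v (g x) = v x)
    (hunr : ∀ y : L, y ≠ 0 → ∃ c : K, v y = v (algebraMap K L c))
    (x : K) (hx : x ≠ 0) :
    (∃ y : L, Algebra.norm K y = x) ↔
      ∃ c : K, v (algebraMap K L x) = v (algebraMap K L c) ^ Module.finrank K L := by
  classical
  set n := Module.finrank K L with hn
  have hn0 : 0 < n := Module.finrank_pos
  have hidx := index_norm_range_eq_finrank K L v hna hnt hcomplete htb hinv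
  have hvN : ∀ y : L, v (algebraMap K L (Algebra.norm K y)) = v y ^ n := by
    intro y
    rw [← nmG_eq_algebraMap_norm, v_nmG K hinv, hn, ← IsGalois.card_aut_eq_finrank,
      Nat.card_eq_fintype_card]
  constructor
  · rintro ⟨y, rfl⟩
    have hy : y ≠ 0 := by
      rintro rfl
      exact hx (Algebra.norm_zero)
    obtain ⟨c, hc⟩ := hunr y hy
    exact ⟨c, by rw [hvN, hc]⟩
  · rintro ⟨c, hc⟩
    set w := resAbs K v with hw
    have hwna : IsNonarchimedean w := fun a b => by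
      rw [hw, resAbs_apply, resAbs_apply, resAbs_apply, map_add]
      exact hna _ _
    have hwnt : ∃ x : K, 0 < w x ∧ w x < 1 := by
      obtain ⟨x₀, hx₀, hx₀1⟩ := hnt
      refine ⟨Algebra.norm K x₀, ?_, ?_⟩
      · rw [hw, resAbs_apply, hvN]; exact pow_pos hx₀ n
      · rw [hw, resAbs_apply, hvN]; exact pow_lt_one₀ hx₀.le hx₀1 hn0.ne'
    obtain ⟨ϖ, hϖ0, hϖ1, hϖmax⟩ :=
      exists_uniformizer w hwna hwnt (totallyBounded_resAbs K v hna htb)
    have hϖne : ϖ ≠ 0 := w.pos_iff.mp hϖ0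
    have hord : ∀ x : Kˣ, ∃ k : ℤ, w (x : K) = w ϖ ^ k :=
      fun x => exists_zpow_eq w hϖ0 hϖ1 hϖmax x.ne_zero
    choose ord hordspec using hord
    have hinj : Function.Injective (fun k : ℤ => w ϖ ^ k) := zpow_right_injective₀ hϖ0 hϖ1.ne
    have hord_eq : ∀ (x : Kˣ) (k : ℤ), w (x : K) = w ϖ ^ k → ord x = k := by
      intro x k hk
      apply hinj
      show w ϖ ^ ord x = w ϖ ^ k
      rw [← hordspec, hk]
    have hord_mul : ∀ x y : Kˣ, ord (x * y) = ord x + ord y := by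
      intro x y
      apply hord_eq
      rw [Units.val_mul, w.map_mul, hordspec x, hordspec y, zpow_add₀ hϖ0.ne']
    have hord_one : ord 1 = 0 := hord_eq 1 0 (by simp)
    have hwc : ∀ (c : K) (hc0 : c ≠ 0), w c = w ϖ ^ ord (Units.mk0 c hc0) :=
      fun c hc0 => hordspec (Units.mk0 c hc0)
    have : NeZero n := ⟨hn0.ne'⟩
    let g : Kˣ →* Multiplicative (ZMod n) :=
      { toFun := fun x => Multiplicative.ofAdd ((ord x : ℤ) : ZMod n)
        map_one' := by rw [hord_one]; simp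
        map_mul' := fun x y => by rw [hord_mul, Int.cast_add, ofAdd_add] }
    have hg : ∀ x : Kˣ, x ∈ g.ker ↔ ((n : ℤ) ∣ ord x) := by
      intro x
      rw [MonoidHom.mem_ker, ← ZMod.intCast_zmod_eq_zero_iff_dvd]
      exact Iff.rfl
    have hgsurj : Function.Surjective g := by
      intro t
      refine ⟨Units.mk0 ϖ hϖne ^ (Multiplicative.toAdd t).val, ?_⟩
      have h1 : ord (Units.mk0 ϖ hϖne ^ (Multiplicative.toAdd t).val) =
          ((Multiplicative.toAdd t).val : ℤ) := by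
        apply hord_eq
        rw [Units.val_pow_eq_pow_val, Units.val_mk0, map_pow, zpow_natCast]
      show Multiplicative.ofAdd ((ord (Units.mk0 ϖ hϖne ^ (Multiplicative.toAdd t).val) : ℤ) :
        ZMod n) = t
      rw [h1, Int.cast_natCast, ZMod.natCast_zmod_val]
      rfl
    have hgidx : g.ker.index = n := by
      rw [Subgroup.index_ker, MonoidHom.range_eq_top.mpr hgsurj, Subgroup.card_top]
      exact (Nat.card_congr Multiplicative.toAdd).trans (Nat.card_zmod n)
    have hle : (Units.map (Algebra.norm K : L →* K)).range ≤ g.ker := by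
      rintro _ ⟨y, rfl⟩
      rw [hg]
      obtain ⟨c, hc⟩ := hunr (y : L) y.ne_zero
      have hc0 : c ≠ 0 := by
        rintro rfl
        rw [map_zero, v.map_zero] at hc
        exact (v.pos y.ne_zero).ne' hc
      have h1 : ord (Units.map (Algebra.norm K : L →* K) y) = n * ord (Units.mk0 c hc0) := by
        apply hord_eq
        calc w ((Units.map (Algebra.norm K : L →* K) y : Kˣ) : K)
            = v (algebraMap K L (Algebra.norm K (y : L))) := rfl
          _ = v (y : L) ^ n := hvN _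
          _ = w c ^ n := by rw [hc]; rfl
          _ = (w ϖ ^ ord (Units.mk0 c hc0)) ^ n := by rw [hwc c hc0]
          _ = w ϖ ^ ((n : ℤ) * ord (Units.mk0 c hc0)) := by
              rw [← zpow_natCast, ← zpow_mul, mul_comm]
      rw [h1]
      exact dvd_mul_right _ _
    have hH : (Units.map (Algebra.norm K : L →* K)).range = g.ker :=
      eq_of_le_of_index_eq hle (by rw [hidx, hgidx]) (by rw [hidx]; exact hn0.ne')
    have hc0 : c ≠ 0 := by
      rintro rfl
      rw [map_zero, v.map_zero, zero_pow hn0.ne'] at hc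
      exact (v.pos ((map_ne_zero _).mpr hx)).ne' hc
    have hxmem : Units.mk0 x hx ∈ g.ker := by
      rw [hg]
      have h1 : ord (Units.mk0 x hx) = n * ord (Units.mk0 c hc0) := by
        apply hord_eq
        calc w ((Units.mk0 x hx : Kˣ) : K) = v (algebraMap K L x) := rfl
          _ = w c ^ n := by rw [hc]; rfl
          _ = (w ϖ ^ ord (Units.mk0 c hc0)) ^ n := by rw [hwc c hc0]
          _ = w ϖ ^ ((n : ℤ) * ord (Units.mk0 c hc0)) := by
              rw [← zpow_natCast, ← zpow_mul, mul_comm]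
      rw [h1]
      exact dvd_mul_right _ _
    rw [← hH] at hxmem
    obtain ⟨y, hy⟩ := hxmem
    exact ⟨(y : L), by simpa using congrArg Units.val hy⟩

/-- In an unramified cyclic extension every unit is a norm (absolute-value form). -/
theorem exists_norm_eq_of_unit_of_unramified (K L : Type*) [Field K] [Field L] [Algebra K L]
    [FiniteDimensional K L] [IsGalois K L] [IsCyclic (L ≃ₐ[K] L)] (v : AbsoluteValue L ℝ)
    (hna : IsNonarchimedean v) (hnt : ∃ x : L, 0 < v x ∧ v x < 1)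
    (hcomplete : ∀ u : ℕ → L, (∀ ε > 0, ∃ N, ∀ m ≥ N, ∀ n ≥ N, v (u m - u n) < ε) →
      ∃ x, ∀ ε > 0, ∃ N, ∀ n ≥ N, v (u n - x) < ε)
    (htb : ∀ ε > 0, ∃ R : Finset L, ∀ x, v x ≤ 1 → ∃ r ∈ R, v (x - r) < ε)
    (hinv : ∀ (g : L ≃ₐ[K] L) (x : L), v (g x) = v x)
    (hunr : ∀ y : L, y ≠ 0 → ∃ c : K, v y = v (algebraMap K L c))
    (u : K) (hu : v (algebraMap K L u) = 1) : ∃ y : L, Algebra.norm K y = u := by
  have hu0 : u ≠ 0 := by
    rintro rfl
    rw [map_zero, v.map_zero] at hu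
    exact zero_ne_one hu
  refine (exists_norm_eq_iff_of_unramified K L v hna hnt hcomplete htb hinv hunr u hu0).mpr
    ⟨1, ?_⟩
  rw [hu, map_one, v.map_one, one_pow]

end Fermat.Agent.S55.helper1624
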