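import Mathlib

/-!
# S55 / local arithmetic core: normal-basis lattices and successive approximation

Mathlib only.  `L` is a field with a nonarchimedean absolute value `v : AbsoluteValue L ℝ`
(no topology, no integer ring: completeness and compactness are passed as explicit hypotheses
about `v` where needed).

* `successive_approx`: the successive approximation principle for a multiplicative map.
* `coord`, `theta`, `lat`: coordinates with respect to the normal basis of a finite Galois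
  extension `L/K` and the lattices `{x | all coordinates have absolute value ≤ r}`.
* `nmG`, `trG`, `dg`: norm, trace and `z ↦ g z / z` as maps `L → L`, with their basic estimates.
-/

set_option linter.unusedSectionVars false

namespace Fermat.Agent.S55.helper1624

section AbsVal

variable {L : Type*} [Field L] (v : AbsoluteValue L ℝ)

theorem na_sub (hna : IsNonarchimedean v) (a b : L) : v (a - b) ≤ max (v a) (v b) := by
  have := hna a (-b)
  rwa [← sub_eq_add_neg, v.map_neg] at this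

theorem v_eq_of_sub_lt (hna : IsNonarchimedean v) {x r : L} (h : v (x - r) < v x) : v r = v x := by
  apply le_antisymm
  · have h1 : v r ≤ max (v x) (v (x - r)) := by
      have := na_sub v hna x (x - r)
      rwa [sub_sub_cancel] at this
    exact h1.trans (max_le le_rfl h.le)
  · have h1 : v x ≤ max (v (x - r)) (v r) := by
      have := hna (x - r) r
      rwa [sub_add_cancel] at this
    rcases le_max_iff.mp h1 with h2 | h2
    · exact absurd h2 (not_le.mpr h)
    · exact h2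

/-- If `v a < 1` then `v (1 + a) = 1`. -/
theorem v_one_add (hna : IsNonarchimedean v) {a : L} (h : v a < 1) : v (1 + a) = 1 := by
  have h1 : v ((1 + a) - 1) < v 1 := by simpa using h
  have := v_eq_of_sub_lt v hna (x := 1) (r := 1 + a) (by
    have : (1 : L) - (1 + a) = -a := by ring
    rw [this, v.map_neg, v.map_one]; exact h)
  rw [this, v.map_one]

/-- A nontrivial nonarchimedean absolute value with totally bounded unit ball has a uniformizer. -/
theorem exists_uniformizer (hna : IsNonarchimedean v) (hnt : ∃ x : L, 0 < v x ∧ v x < 1)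
    (htb : ∀ ε > 0, ∃ R : Finset L, ∀ x, v x ≤ 1 → ∃ r ∈ R, v (x - r) < ε) :
    ∃ ϖ : L, 0 < v ϖ ∧ v ϖ < 1 ∧ ∀ x, v x < 1 → v x ≤ v ϖ := by
  classical
  obtain ⟨x₀, hx₀, hx₀1⟩ := hnt
  obtain ⟨R, hR⟩ := htb (v x₀) hx₀
  set S := R.filter (fun r => v x₀ ≤ v r ∧ v r < 1) with hS
  have key : ∀ x, v x₀ ≤ v x → v x < 1 → ∃ r ∈ S, v r = v x := by
    intro x hx hx1
    obtain ⟨r, hrR, hr⟩ := hR x hx1.le
    have := v_eq_of_sub_lt v hna (lt_of_lt_of_le hr hx)
    exact ⟨r, by rw [hS, Finset.mem_filter]; exact ⟨hrR, by rw [this]; exact ⟨hx, hx1⟩⟩, this⟩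
  have hSne : S.Nonempty := by
    obtain ⟨r, hr, _⟩ := key x₀ le_rfl hx₀1
    exact ⟨r, hr⟩
  obtain ⟨ϖ, hϖS, hϖmax⟩ := Finset.exists_max_image S v hSne
  have hϖ := (Finset.mem_filter.mp (hS ▸ hϖS)).2
  refine ⟨ϖ, lt_of_lt_of_le hx₀ hϖ.1, hϖ.2, fun x hx => ?_⟩
  by_cases hxx : v x₀ ≤ v x
  · obtain ⟨r, hr, hrx⟩ := key x hxx hx
    rw [← hrx]; exact hϖmax r hr
  · exact (not_le.mp hxx).le.trans hϖ.1

/-- With a uniformizer, every nonzero element has absolute value an integral power. -/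
theorem exists_zpow_eq {ϖ : L} (h0 : 0 < v ϖ) (h1 : v ϖ < 1)
    (hmax : ∀ x, v x < 1 → v x ≤ v ϖ) {x : L} (hx : x ≠ 0) : ∃ k : ℤ, v x = v ϖ ^ k := by
  have hxpos : 0 < v x := v.pos hx
  obtain ⟨n, hn1, hn2⟩ := exists_mem_Ioc_zpow hxpos ((one_lt_inv₀ h0).mpr h1)
  refine ⟨-(n + 1), ?_⟩
  have hϖ0 : ϖ ≠ 0 := v.pos_iff.mp h0
  set z := x * ϖ ^ (n + 1) with hz
  have hvz : v z = v x * v ϖ ^ (n + 1) := by rw [hz, v.map_mul, map_zpow₀]
  have hpos : 0 < v ϖ ^ (n + 1) := zpow_pos h0 _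
  have hz1 : v z ≤ 1 := by
    rw [hvz]
    have : v x ≤ (v ϖ ^ (n + 1))⁻¹ := by rwa [← inv_zpow]
    calc v x * v ϖ ^ (n + 1) ≤ (v ϖ ^ (n + 1))⁻¹ * v ϖ ^ (n + 1) :=
          mul_le_mul_of_nonneg_right this hpos.le
      _ = 1 := inv_mul_cancel₀ hpos.ne'
  have hz2 : v ϖ < v z := by
    rw [hvz]
    have h3 : (v ϖ ^ n)⁻¹ < v x := by rwa [← inv_zpow]
    have : v ϖ ^ (n + 1) = v ϖ ^ n * v ϖ := zpow_add_one₀ h0.ne' n
    calc v ϖ = (v ϖ ^ n)⁻¹ * v ϖ ^ (n + 1) := by
          rw [this, ← mul_assoc, inv_mul_cancel₀ (zpow_pos h0 n).ne', one_mul]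
      _ < v x * v ϖ ^ (n + 1) := mul_lt_mul_of_pos_right h3 hpos
  have hz3 : v z = 1 := by
    rcases lt_or_eq_of_le hz1 with h | h
    · exact absurd (hmax z h) (not_le.mpr hz2)
    · exact h
  rw [zpow_neg]
  rw [hvz] at hz3
  exact eq_inv_of_mul_eq_one_left hz3


/-- If `v (z - 1) < 1` then `v z = 1`. -/
theorem v_eq_one_of_sub_one_lt (hna : IsNonarchimedean v) {z : L} (h : v (z - 1) < 1) :
    v z = 1 := by
  have h1 : v ((1 : L) - z) < v 1 := by rw [v.map_one, v.map_sub]; exact h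
  have := v_eq_of_sub_lt v hna h1
  rw [this, v.map_one]

/-- **Successive approximation** in a complete nonarchimedean field. -/
theorem successive_approx (hna : IsNonarchimedean v)
    (hcomplete : ∀ u : ℕ → L, (∀ ε > 0, ∃ N, ∀ m ≥ N, ∀ n ≥ N, v (u m - u n) < ε) →
      ∃ x, ∀ ε > 0, ∃ N, ∀ n ≥ N, v (u n - x) < ε)
    (D : ℕ → Set L) (c : ℕ → ℝ)
    (hc1 : ∀ j, c j < 1) (hc0 : ∀ ε > 0, ∃ J, ∀ j ≥ J, c j < ε)
    (hD1 : ∀ j, ∀ z ∈ D j, v (z - 1) ≤ c j)
    (hDone : (1 : L) ∈ D 0)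
    (hDmul : ∀ z ∈ D 0, ∀ z' ∈ D 0, z * z' ∈ D 0)
    (hDmono : ∀ j, D j ⊆ D 0)
    (hDclosed : ∀ (s : ℕ → L) (z : L), (∀ J, s J ∈ D 0) →
      (∀ ε > 0, ∃ J₀, ∀ J ≥ J₀, v (s J - z) < ε) → z ∈ D 0)
    (φ : L → L) (hφmul : ∀ z z', φ (z * z') = φ z * φ z')
    (hφunit : ∀ z, v z = 1 → v (φ z) = 1)
    (hφlip : ∀ z z', v z = 1 → v z' = 1 → v (φ z - φ z') ≤ v (z - z'))
    (P : L → Prop)
    (hstep : ∀ j, ∀ u ∈ D j, P u → ∃ w ∈ D j, P (u * (φ w)⁻¹) ∧ u * (φ w)⁻¹ ∈ D (j + 1))
    {u : L} (hu : u ∈ D 0) (hP : P u) : ∃ w ∈ D 0, φ w = u := by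
  classical
  have hunit : ∀ j, ∀ z ∈ D j, v z = 1 := fun j z hz =>
    v_eq_one_of_sub_one_lt v hna (lt_of_le_of_lt (hD1 j z hz) (hc1 j))
  choose! wf hwf using hstep
  let us : ℕ → L := fun j => Nat.rec u (fun j uj => uj * (φ (wf j uj))⁻¹) j
  have us_zero : us 0 = u := rfl
  have us_succ : ∀ j, us (j + 1) = us j * (φ (wf j (us j)))⁻¹ := fun j => rfl
  have hus : ∀ j, us j ∈ D j ∧ P (us j) := by
    intro j
    induction j with
    | zero => exact ⟨hu, hP⟩
    | succ j ih =>
      rw [us_succ]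
      exact ⟨(hwf j (us j) ih.1 ih.2).2.2, (hwf j (us j) ih.1 ih.2).2.1⟩
  let ws : ℕ → L := fun j => wf j (us j)
  have hws : ∀ j, ws j ∈ D j := fun j => (hwf j (us j) (hus j).1 (hus j).2).1
  let W : ℕ → L := fun J => ∏ j ∈ Finset.range J, ws j
  have W_succ : ∀ J, W (J + 1) = W J * ws J := fun J => Finset.prod_range_succ _ _
  have hW : ∀ J, W J ∈ D 0 := by
    intro J
    induction J with
    | zero => simpa [W] using hDone
    | succ J ih => rw [W_succ]; exact hDmul _ ih _ (hDmono J (hws J))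
  have hWunit : ∀ J, v (W J) = 1 := fun J => hunit 0 _ (hW J)
  have hφ1 : φ 1 = 1 := by
    have h1 : φ 1 = φ 1 * φ 1 := by simpa using hφmul 1 1
    have h2 : φ 1 ≠ 0 := by
      intro h
      have := hφunit 1 v.map_one
      rw [h, v.map_zero] at this
      exact zero_ne_one this
    exact (mul_eq_left₀ h2).mp h1.symm
  have hφws : ∀ j, φ (ws j) ≠ 0 := by
    intro j h
    have := hφunit (ws j) (hunit j _ (hws j))
    rw [h, v.map_zero] at this
    exact zero_ne_one this
  have hrel : ∀ J, u = us J * φ (W J) := by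
    intro J
    induction J with
    | zero => simp [W, hφ1, us_zero]
    | succ J ih =>
      rw [us_succ, W_succ, hφmul]
      have : us J * (φ (ws J))⁻¹ * (φ (W J) * φ (ws J)) = us J * φ (W J) := by
        field_simp [hφws J]
      rw [show wf J (us J) = ws J from rfl, this]
      exact ih
  have hdiff : ∀ J, v (W (J + 1) - W J) ≤ c J := by
    intro J
    have : W (J + 1) - W J = W J * (ws J - 1) := by rw [W_succ]; ring
    rw [this, v.map_mul, hWunit, one_mul]
    exact hD1 J _ (hws J)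
  have hcauchy : ∀ ε > 0, ∃ N, ∀ m ≥ N, ∀ n ≥ N, v (W m - W n) < ε := by
    intro ε hε
    obtain ⟨N, hN⟩ := hc0 ε hε
    have key : ∀ m ≥ N, v (W m - W N) < ε := by
      intro m hm
      induction m, hm using Nat.le_induction with
      | base => simpa using hε
      | succ m hm ih =>
        have : W (m + 1) - W N = (W (m + 1) - W m) + (W m - W N) := by ring
        rw [this]
        exact lt_of_le_of_lt (hna _ _) (max_lt (lt_of_le_of_lt (hdiff m) (hN m hm)) ih)
    refine ⟨N, fun m hm n hn => ?_⟩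
    have : W m - W n = (W m - W N) - (W n - W N) := by ring
    rw [this]
    exact lt_of_le_of_lt (na_sub v hna _ _) (max_lt (key m hm) (key n hn))
  obtain ⟨Wl, hWl⟩ := hcomplete W hcauchy
  have hWlD : Wl ∈ D 0 := hDclosed W Wl hW hWl
  have hWlunit : v Wl = 1 := hunit 0 _ hWlD
  refine ⟨Wl, hWlD, ?_⟩
  by_contra hne
  have hε : 0 < v (φ Wl - u) := v.pos (sub_ne_zero.mpr hne)
  obtain ⟨J₁, hJ₁⟩ := hWl _ hε
  obtain ⟨J₂, hJ₂⟩ := hc0 _ hε
  set J := max J₁ J₂ with hJ
  have h1 : v (φ Wl - φ (W J)) < v (φ Wl - u) := by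
    refine lt_of_le_of_lt (hφlip _ _ hWlunit (hWunit J)) ?_
    rw [v.map_sub]
    exact hJ₁ J (le_max_left _ _)
  have h2 : v (φ (W J) - u) < v (φ Wl - u) := by
    have : φ (W J) - u = φ (W J) * (1 - us J) := by
      conv_lhs => rw [hrel J]
      ring
    rw [this, v.map_mul, hφunit _ (hWunit J), one_mul, v.map_sub]
    exact lt_of_le_of_lt (hD1 J _ (hus J).1) (hJ₂ J (le_max_right _ _))
  have h3 : φ Wl - u = (φ Wl - φ (W J)) + (φ (W J) - u) := by ring
  have := lt_of_le_of_lt (hna (φ Wl - φ (W J)) (φ (W J) - u)) (max_lt h1 h2)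
  rw [← h3] at this
  exact lt_irrefl _ this


theorem v_sum_le (hna : IsNonarchimedean v) {ι : Type*} (s : Finset ι) (f : ι → L) {C : ℝ}
    (hC : 0 ≤ C) (h : ∀ i ∈ s, v (f i) ≤ C) : v (∑ i ∈ s, f i) ≤ C := by
  classical
  induction s using Finset.induction_on with
  | empty => simpa using hC
  | insert a s ha ih =>
    rw [Finset.sum_insert ha]
    exact (hna _ _).trans (max_le (h a (Finset.mem_insert_self a s))
      (ih fun i hi => h i (Finset.mem_insert_of_mem hi)))


theorem prod_one_add_sub (hna : IsNonarchimedean v) {ι : Type*} (s : Finset ι) (f : ι → L)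
    {t : ℝ} (ht0 : 0 ≤ t) (ht1 : t ≤ 1) (hf : ∀ i ∈ s, v (f i) ≤ t) :
    v (∏ i ∈ s, (1 + f i) - 1 - ∑ i ∈ s, f i) ≤ t * t := by
  classical
  induction s using Finset.induction_on with
  | empty => simpa using mul_nonneg ht0 ht0
  | insert a s ha ih =>
    have ih' := ih (fun i hi => hf i (Finset.mem_insert_of_mem hi))
    have hS : v (∑ i ∈ s, f i) ≤ t :=
      v_sum_le v hna s f ht0 (fun i hi => hf i (Finset.mem_insert_of_mem hi))
    have hfa : v (f a) ≤ t := hf a (Finset.mem_insert_self a s)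
    rw [Finset.prod_insert ha, Finset.sum_insert ha]
    set P := ∏ i ∈ s, (1 + f i)
    set S := ∑ i ∈ s, f i
    have : (1 + f a) * P - 1 - (f a + S) = (P - 1 - S) + (f a * S + f a * (P - 1 - S)) := by ring
    rw [this]
    refine (hna _ _).trans (max_le ih' ((hna _ _).trans (max_le ?_ ?_)))
    · rw [v.map_mul]
      exact mul_le_mul hfa hS (v.nonneg _) ht0
    · rw [v.map_mul]
      calc v (f a) * v (P - 1 - S) ≤ t * (t * t) := mul_le_mul hfa ih' (v.nonneg _) ht0
        _ ≤ 1 * (t * t) := mul_le_mul_of_nonneg_right ht1 (mul_nonneg ht0 ht0)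
        _ = t * t := one_mul _

theorem prod_sub_prod_le (hna : IsNonarchimedean v) {ι : Type*} (s : Finset ι) (f f' : ι → L)
    {δ : ℝ} (hδ : 0 ≤ δ) (hf : ∀ i ∈ s, v (f i) = 1) (hf' : ∀ i ∈ s, v (f' i) = 1)
    (h : ∀ i ∈ s, v (f i - f' i) ≤ δ) : v (∏ i ∈ s, f i - ∏ i ∈ s, f' i) ≤ δ := by
  classical
  induction s using Finset.induction_on with
  | empty => simpa using hδ
  | insert a s ha ih =>
    have ih' := ih (fun i hi => hf i (Finset.mem_insert_of_mem hi))
      (fun i hi => hf' i (Finset.mem_insert_of_mem hi))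
      (fun i hi => h i (Finset.mem_insert_of_mem hi))
    rw [Finset.prod_insert ha, Finset.prod_insert ha]
    have hP' : v (∏ i ∈ s, f' i) = 1 := by
      rw [map_prod]
      exact Finset.prod_eq_one (fun i hi => hf' i (Finset.mem_insert_of_mem hi))
    set P := ∏ i ∈ s, f i
    set P' := ∏ i ∈ s, f' i
    have : f a * P - f' a * P' = f a * (P - P') + (f a - f' a) * P' := by ring
    rw [this]
    refine (hna _ _).trans (max_le ?_ ?_)
    · rw [v.map_mul, hf a (Finset.mem_insert_self a s), one_mul]; exact ih'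
    · rw [v.map_mul, hP', mul_one]; exact h a (Finset.mem_insert_self a s)


end AbsVal

section Cyclic

theorem sum_univ_eq_sum_range {G M : Type*} [Group G] [Fintype G] [AddCommMonoid M] (g : G)
    (hg : ∀ x, x ∈ Subgroup.zpowers g) (f : G → M) :
    ∑ σ : G, f σ = ∑ i ∈ Finset.range (orderOf g), f (g ^ i) := by
  symm
  apply Finset.sum_bij (fun i _ => g ^ i)
  · intros; exact Finset.mem_univ _
  · intro i hi j hj h
    exact pow_injOn_Iio_orderOf (by simpa using hi) (by simpa using hj) h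
  · intro σ _
    obtain ⟨k, hk⟩ := (Submonoid.mem_powers_iff σ g).mp (mem_powers_iff_mem_zpowers.mpr (hg σ))
    exact ⟨k % orderOf g, Finset.mem_range.mpr (Nat.mod_lt _ (orderOf_pos g)),
      by rw [pow_mod_orderOf, hk]⟩
  · intros; rfl

end Cyclic

section Lattice

variable (K : Type*) {L : Type*} [Field K] [Field L] [Algebra K L] [FiniteDimensional K L]
  [IsGalois K L]
variable (v : AbsoluteValue L ℝ)

/-- The coordinate of `x` with respect to the normal basis. -/
noncomputable def coord (x : L) (σ : L ≃ₐ[K] L) : K := (IsGalois.normalBasis K L).repr x σ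

/-- The generator of the normal basis. -/
noncomputable def theta : L := IsGalois.normalBasis K L 1

theorem nb_apply (σ : L ≃ₐ[K] L) : IsGalois.normalBasis K L σ = σ (theta K) :=
  IsGalois.normalBasis_apply σ

theorem sum_coord (x : L) : ∑ σ : L ≃ₐ[K] L, coord K x σ • σ (theta K) = x := by
  have := (IsGalois.normalBasis K L).sum_repr x
  simpa [coord, nb_apply] using this

theorem theta_ne_zero : theta K (L := L) ≠ 0 := (IsGalois.normalBasis K L).ne_zero 1


/-- Coordinates are bounded by the absolute value. -/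
theorem exists_coord_bound (hna : IsNonarchimedean v)
    (hinv : ∀ (g : L ≃ₐ[K] L) (x : L), v (g x) = v x) :
    ∃ B : ℝ, 0 < B ∧ ∀ (x : L) (σ : L ≃ₐ[K] L), v (algebraMap K L (coord K x σ)) ≤ B * v x := by
  classical
  set Bf := Algebra.traceForm K L with hBf
  have hB : Bf.Nondegenerate := traceForm_nondegenerate K L
  have hsymm : Bf.IsSymm := Algebra.traceForm_isSymm K
  set b := IsGalois.normalBasis K L with hb
  set d := Bf.dualBasis hB b with hd
  have key : ∀ (x : L) (σ : L ≃ₐ[K] L), coord K x σ = Algebra.trace K L (x * d σ) := by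
    intro x σ
    have h1 : b = Bf.dualBasis hB d := (LinearMap.BilinForm.dualBasis_dualBasis hB hsymm b).symm
    rw [coord, ← hb, h1, LinearMap.BilinForm.dualBasis_repr_apply, hBf, Algebra.traceForm_apply]
  refine ⟨∑ σ : L ≃ₐ[K] L, v (d σ) + 1, by positivity, fun x σ => ?_⟩
  rw [key, trace_eq_sum_automorphisms]
  have hle : v (d σ) ≤ ∑ σ : L ≃ₐ[K] L, v (d σ) + 1 := by
    have := Finset.single_le_sum (f := fun σ : L ≃ₐ[K] L => v (d σ))
      (fun i _ => v.nonneg _) (Finset.mem_univ σ)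
    linarith
  apply v_sum_le v hna
  · exact mul_nonneg (by positivity) (v.nonneg x)
  · intro τ _
    rw [hinv, v.map_mul, mul_comm]
    exact mul_le_mul_of_nonneg_right hle (v.nonneg x)

/-- The absolute value is bounded by the coordinates. -/
theorem v_le_of_coord_le (hna : IsNonarchimedean v)
    (hinv : ∀ (g : L ≃ₐ[K] L) (x : L), v (g x) = v x) {x : L} {r : ℝ} (hr : 0 ≤ r)
    (h : ∀ σ : L ≃ₐ[K] L, v (algebraMap K L (coord K x σ)) ≤ r) : v x ≤ r * v (theta K) := by
  conv_lhs => rw [← sum_coord K x]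
  apply v_sum_le v hna
  · exact mul_nonneg hr (v.nonneg _)
  · intro σ _
    rw [Algebra.smul_def, v.map_mul, hinv]
    exact mul_le_mul_of_nonneg_right (h σ) (v.nonneg _)


theorem coord_add (x y : L) (σ : L ≃ₐ[K] L) : coord K (x + y) σ = coord K x σ + coord K y σ := by
  simp [coord]

theorem coord_neg (x : L) (σ : L ≃ₐ[K] L) : coord K (-x) σ = - coord K x σ := by
  simp [coord]

theorem coord_sub (x y : L) (σ : L ≃ₐ[K] L) : coord K (x - y) σ = coord K x σ - coord K y σ := by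
  simp [coord]

theorem coord_zero (σ : L ≃ₐ[K] L) : coord K (0 : L) σ = 0 := by
  simp [coord]

theorem coord_smul (a : K) (x : L) (σ : L ≃ₐ[K] L) : coord K (a • x) σ = a * coord K x σ := by
  simp [coord]

theorem coord_sum {ι : Type*} (s : Finset ι) (f : ι → L) (σ : L ≃ₐ[K] L) :
    coord K (∑ i ∈ s, f i) σ = ∑ i ∈ s, coord K (f i) σ := by
  simp [coord]

theorem coord_basis (τ σ : L ≃ₐ[K] L) [DecidableEq (L ≃ₐ[K] L)] :
    coord K (τ (theta K)) σ = if τ = σ then 1 else 0 := by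
  rw [coord, ← nb_apply, Module.Basis.repr_self, Finsupp.single_apply]

/-- Galois action permutes the coordinates. -/
theorem coord_galois (τ σ : L ≃ₐ[K] L) (x : L) : coord K (τ x) σ = coord K x (τ⁻¹ * σ) := by
  classical
  conv_lhs => rw [← sum_coord K x]
  rw [map_sum, coord_sum]
  have : ∀ ρ : L ≃ₐ[K] L, coord K (τ (coord K x ρ • ρ (theta K))) σ =
      if ρ = τ⁻¹ * σ then coord K x ρ else 0 := by
    intro ρ
    rw [map_smul, coord_smul]
    have h1 : τ (ρ (theta K)) = (τ * ρ) (theta K) := rfl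
    rw [h1, coord_basis]
    by_cases h : ρ = τ⁻¹ * σ
    · subst h; simp
    · have : ¬ τ * ρ = σ := fun h' => h (by rw [← h']; group)
      simp [h, this]
  simp_rw [this]
  simp

/-- The lattice of elements all of whose normal-basis coordinates have absolute value `≤ r`. -/
def lat (r : ℝ) : Set L := {x | ∀ σ : L ≃ₐ[K] L, v (algebraMap K L (coord K x σ)) ≤ r}

variable {K v}

theorem lat_zero {r : ℝ} (hr : 0 ≤ r) : (0 : L) ∈ lat K v r := by
  intro σ; simpa [coord_zero] using hr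

theorem lat_mono {r r' : ℝ} (h : r ≤ r') {x : L} (hx : x ∈ lat K v r) : x ∈ lat K v r' :=
  fun σ => (hx σ).trans h

theorem lat_add (hna : IsNonarchimedean v) {r : ℝ} {x y : L} (hx : x ∈ lat K v r)
    (hy : y ∈ lat K v r) : x + y ∈ lat K v r := by
  intro σ
  rw [coord_add, map_add]
  exact (hna _ _).trans (max_le (hx σ) (hy σ))

theorem lat_neg {r : ℝ} {x : L} (hx : x ∈ lat K v r) : -x ∈ lat K v r := by
  intro σ
  rw [coord_neg, map_neg, v.map_neg]
  exact hx σ

theorem lat_sub (hna : IsNonarchimedean v) {r : ℝ} {x y : L} (hx : x ∈ lat K v r)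
    (hy : y ∈ lat K v r) : x - y ∈ lat K v r := by
  rw [sub_eq_add_neg]; exact lat_add hna hx (lat_neg hy)

theorem lat_galois {r : ℝ} {x : L} (hx : x ∈ lat K v r) (τ : L ≃ₐ[K] L) : τ x ∈ lat K v r := by
  intro σ
  rw [coord_galois]
  exact hx _

theorem lat_sum (hna : IsNonarchimedean v) {r : ℝ} (hr : 0 ≤ r) {ι : Type*} (s : Finset ι)
    (f : ι → L) (h : ∀ i ∈ s, f i ∈ lat K v r) : ∑ i ∈ s, f i ∈ lat K v r := by
  intro σ
  rw [coord_sum, map_sum]
  exact v_sum_le v hna s _ hr (fun i hi => h i hi σ)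

theorem lat_smul_theta {r : ℝ} (hr : 0 ≤ r) {a : K} (ha : v (algebraMap K L a) ≤ r) :
    a • theta K ∈ lat K v r := by
  classical
  intro σ
  have h1 : theta K (L := L) = (1 : L ≃ₐ[K] L) (theta K) := rfl
  rw [coord_smul, h1, coord_basis]
  split_ifs
  · simpa using ha
  · simpa using hr

end Lattice

section Steps

variable (K : Type*) {L : Type*} [Field K] [Field L] [Algebra K L] [FiniteDimensional K L]
  [IsGalois K L]
variable (v : AbsoluteValue L ℝ)

/-- The trace as a sum over the Galois group (with values in `L`). -/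
noncomputable def trG (x : L) : L := ∑ σ : L ≃ₐ[K] L, σ x

/-- The norm as a product over the Galois group (with values in `L`). -/
noncomputable def nmG (z : L) : L := ∏ σ : L ≃ₐ[K] L, σ z

theorem nmG_mul (z z' : L) : nmG K (z * z') = nmG K z * nmG K z' := by
  simp [nmG, Finset.prod_mul_distrib]

theorem nmG_inv (z : L) : nmG K z⁻¹ = (nmG K z)⁻¹ := by
  simp [nmG, Finset.prod_inv_distrib]

theorem nmG_one : nmG K (1 : L) = 1 := by simp [nmG]

theorem galois_nmG (τ : L ≃ₐ[K] L) (z : L) : τ (nmG K z) = nmG K z := by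
  rw [nmG, map_prod]
  exact Fintype.prod_equiv (Equiv.mulLeft τ) _ _ (fun σ => rfl)

theorem nmG_galois (τ : L ≃ₐ[K] L) (z : L) : nmG K (τ z) = nmG K z := by
  rw [nmG, nmG]
  exact Fintype.prod_equiv (Equiv.mulRight τ) _ _ (fun σ => rfl)

theorem nmG_eq_algebraMap_norm (z : L) : nmG K z = algebraMap K L (Algebra.norm K z) :=
  (Algebra.norm_eq_prod_automorphisms K z).symm

variable {v} in
theorem v_nmG (hinv : ∀ (g : L ≃ₐ[K] L) (x : L), v (g x) = v x) (z : L) :
    v (nmG K z) = v z ^ Fintype.card (L ≃ₐ[K] L) := by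
  rw [nmG, map_prod]
  simp [hinv, Finset.prod_const, Finset.card_univ]

variable {v} in
theorem v_nmG_unit (hinv : ∀ (g : L ≃ₐ[K] L) (x : L), v (g x) = v x) {z : L} (hz : v z = 1) :
    v (nmG K z) = 1 := by
  rw [v_nmG K hinv, hz, one_pow]

theorem coord_trG (x : L) (σ : L ≃ₐ[K] L) : coord K (trG K x) σ = ∑ ρ : L ≃ₐ[K] L, coord K x ρ := by
  rw [trG, coord_sum]
  simp_rw [coord_galois]
  exact Fintype.sum_equiv ((Equiv.inv _).trans (Equiv.mulRight σ)) _ _ (fun τ => rfl)

variable {v} in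
theorem nmG_one_add (hna : IsNonarchimedean v)
    (hinv : ∀ (g : L ≃ₐ[K] L) (x : L), v (g x) = v x) {x : L} {t : ℝ} (ht0 : 0 ≤ t)
    (ht1 : t ≤ 1) (hx : v x ≤ t) : v (nmG K (1 + x) - 1 - trG K x) ≤ t * t := by
  have : nmG K (1 + x) = ∏ σ : L ≃ₐ[K] L, (1 + σ x) := by simp [nmG]
  rw [this, trG]
  exact prod_one_add_sub v hna _ _ ht0 ht1 (fun σ _ => by rw [hinv]; exact hx)

variable {v} in
theorem nmG_lipschitz (hna : IsNonarchimedean v)
    (hinv : ∀ (g : L ≃ₐ[K] L) (x : L), v (g x) = v x) {z z' : L} (hz : v z = 1)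
    (hz' : v z' = 1) : v (nmG K z - nmG K z') ≤ v (z - z') := by
  rw [nmG, nmG]
  refine prod_sub_prod_le v hna _ _ _ (v.nonneg _) (fun σ _ => by rw [hinv]; exact hz)
    (fun σ _ => by rw [hinv]; exact hz') (fun σ _ => ?_)
  rw [← map_sub, hinv]

variable {K}

/-- The map `z ↦ g z / z`. -/
noncomputable def dg (g : L ≃ₐ[K] L) (z : L) : L := g z * z⁻¹

theorem dg_mul (g : L ≃ₐ[K] L) (z z' : L) : dg g (z * z') = dg g z * dg g z' := by
  simp only [dg, map_mul, mul_inv]; ring

variable {v} in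
theorem v_dg_unit (hinv : ∀ (g : L ≃ₐ[K] L) (x : L), v (g x) = v x) (g : L ≃ₐ[K] L) {z : L}
    (hz : v z = 1) : v (dg g z) = 1 := by
  rw [dg, v.map_mul, hinv, map_inv₀, hz, inv_one, mul_one]

variable {v} in
theorem dg_lipschitz (hna : IsNonarchimedean v)
    (hinv : ∀ (g : L ≃ₐ[K] L) (x : L), v (g x) = v x) (g : L ≃ₐ[K] L) {z z' : L} (hz : v z = 1)
    (hz' : v z' = 1) : v (dg g z - dg g z') ≤ v (z - z') := by
  have hz0 : z ≠ 0 := v.pos_iff.mp (by rw [hz]; exact one_pos)
  have hz0' : z' ≠ 0 := v.pos_iff.mp (by rw [hz']; exact one_pos)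
  have : dg g z - dg g z' = (g (z - z') * z' - g z' * (z - z')) * (z * z')⁻¹ := by
    simp only [dg, map_sub]
    field_simp
    ring
  rw [this, v.map_mul, map_inv₀, v.map_mul, hz, hz', mul_one, inv_one, mul_one]
  refine (na_sub v hna _ _).trans (max_le ?_ ?_)
  · rw [v.map_mul, hinv, hz', mul_one]
  · rw [v.map_mul, hinv, hz', one_mul]

end Steps

end Fermat.Agent.S55.helper1624
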