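/-
S55 / NF core, helper1641: discharge of the auxiliary interface Props of the Hasse-norm chain
from the landed S14 modules (no new mathematics, only the adapters nobody owned):

* `kummer_tame`        : tame Kummer decomposition law at ONE place `v ∤ p` with `p ∣ ord_v b`
                         (no hypothesis at the places over `p`), from `helper4373`;
* `exists_kummer_sigma`: for `E / F` Galois of degree `p`, `β ^ p = a`, `a` not a `p`-th power:
                         some `σ ∈ Gal(E/F)` acts on `β` through a primitive `p`-th root of `1`;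
* `stmt_KummerFacts`, `stmt_KummerFacts'` : `helper4783.Stmt_KummerFacts F E p a`;
* `stmt_KummerLaw`, `stmt_KummerLaw'`     : `helper1980.Stmt_KummerLaw F E p b`;
* `stmt_ApproxN`       : `helper1980.Stmt_ApproxN F`;
* `stmt_LocPowOpen`    : `helper1980.Stmt_LocPowOpen F p`;
* `hasse_norm_kummer`  : the Hasse norm theorem for `E = F(a^(1/p))`, `p` odd, `ζ_p ∈ F`, with the
                         local non-norm statement `helper4783.Stmt_LocNonNorm F E` as ONLY
                         remaining hypothesis (Tate count, S-unit norm index, Kummer facts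
                         discharged from main).
-/
import Mathlib
import Fermat.Agent.S14.helper6582_M5KummerDict
import Fermat.Agent.S14.helper4204_LocalPow
import Fermat.Agent.S14.helper3036_M5SUnitIdx
import Fermat.Agent.S55.helper1892_TateChain
import Fermat.Agent.S55.helper4783_HasseNorm
import Fermat.Agent.S55.helper1980_HasseSpec

set_option autoImplicit false

open IsDedekindDomain NumberField WithZero

namespace Fermat.Agent.S55.helper1641

open Fermat.Agent.S14.helper2613 (ordAt)
open Fermat.Agent.S14.helper1892 (LocPowN LocPow)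
open Fermat.Agent.S14.helper165 (Split)
open Fermat.Agent.S14

section Kummer

variable (F E : Type) [Field F] [NumberField F] [Field E] [NumberField E] [Algebra F E]
  [IsGalois F E]

/-- **Tame Kummer law at one place.**  `E / F` Galois of prime degree `p`, `ζ_p ∈ F`,
`β ^ p = b`, `σ β = ζ β`.  At a place `v ∤ p` with `p ∣ ord_v b` the extension is unramified, and
`v` splits completely as soon as `b` is a local `p`-th power at `v`.  (No hypothesis at the places
over `p`.) -/
theorem kummer_tame {p : ℕ} (hp : p.Prime) (hdeg : Module.finrank F E = p) {ζ : F}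
    (hζ : IsPrimitiveRoot ζ p) (b : Fˣ) (β : E) (hβ : β ^ p = algebraMap F E (b : F))
    (σ : Gal(E/F)) (hσ : σ β = algebraMap F E ζ * β)
    (v : HeightOneSpectrum (𝓞 F)) (hpv : (p : 𝓞 F) ∉ v.asIdeal) (hd : (p : ℤ) ∣ ordAt v b) :
    v.asIdeal.ramificationIdxIn (𝓞 E) = 1 ∧ (LocPow p v b → Split F E v) := by
  have hGal := helper4373.isGaloisGroup_ringOfIntegers F E
  have hG : Nat.card Gal(E/F) = p := (helper4373.card_gal_eq_finrank F E).trans hdeg
  obtain ⟨c, b₂, hb₂, hb₂v⟩ := helper6582.exists_integer_unit_mul_pow hp.pos v b hd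
  obtain ⟨ζ', β', hζ', hβ', hσ'⟩ :=
    helper6582.exists_integral_kummer F E hp.pos hζ b β hβ σ hσ c b₂ hb₂
  have hb₂u : algebraMap (𝓞 F) F b₂ = ((b * c ^ p : Fˣ) : F) := by
    rw [hb₂]
    simp
  have hsplit_def : Split F E v ↔ (v.asIdeal.primesOver (𝓞 E)).ncard = p := by
    unfold helper165.Split
    rw [hdeg]
  have hζv : ζ' - 1 ∉ v.asIdeal := helper6582.zeta_sub_one_not_mem hp v.asIdeal hζ' hpv
  have : v.asIdeal.IsMaximal := v.isMaximal
  refine ⟨helper4373.kummer_unramified (G := Gal(E/F)) hp hG v.asIdeal hζ' hζv hσ' hβ' hb₂v,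
    fun hL => ?_⟩
  rw [hsplit_def]
  have hL' : LocPow p v (b * c ^ p) := helper1892.locPow_mul hL (helper1892.locPow_pow p v c)
  obtain ⟨y, hy⟩ :=
    helper6582.exists_pow_sub_mem_pow_of_locPow hp.pos v (b * c ^ p) b₂ hb₂u hL' 1
  rw [pow_one] at hy
  exact (helper4373.kummer_split_iff (G := Gal(E/F)) hp hG v.asIdeal hζ' hζv hσ' hβ'
    hb₂v).mpr ⟨y, hy⟩

/-- In a Galois extension `E / F` of prime degree `p` with `ζ_p ∈ F`, if `β ^ p = a` with `a` not
a `p`-th power in `F`, some `σ ∈ Gal(E/F)` multiplies `β` by a primitive `p`-th root of unity of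
`F`. -/
theorem exists_kummer_sigma {p : ℕ} (hp : p.Prime) (hdeg : Module.finrank F E = p) {ζ : F}
    (hζ : IsPrimitiveRoot ζ p) (a : Fˣ) (ha : ¬ ∃ y : Fˣ, a = y ^ p) (β : E)
    (hβ : β ^ p = algebraMap F E (a : F)) :
    ∃ (ζ' : F) (σ : Gal(E/F)), IsPrimitiveRoot ζ' p ∧ σ β = algebraMap F E ζ' * β := by
  have : Fact p.Prime := ⟨hp⟩
  have hG : Nat.card Gal(E/F) = p := (helper4373.card_gal_eq_finrank F E).trans hdeg
  have hβ0 : β ≠ 0 := by
    rintro rfl
    rw [zero_pow hp.ne_zero] at hβ
    exact a.ne_zero ((algebraMap F E).injective (by rw [← hβ, map_zero]))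
  -- a nontrivial element of the Galois group
  have hnt : Nontrivial Gal(E/F) := by
    have : Finite Gal(E/F) := Nat.finite_of_card_ne_zero (by rw [hG]; exact hp.ne_zero)
    rw [← Finite.one_lt_card_iff_nontrivial, hG]
    exact hp.one_lt
  obtain ⟨σ, hσ1⟩ := exists_ne (1 : Gal(E/F))
  have htop : Subgroup.zpowers σ = ⊤ := zpowers_eq_top_of_prime_card hG hσ1
  -- `σ` moves `β`
  have hmove : σ β ≠ β := by
    intro hfix
    have hall : ∀ τ : Gal(E/F), τ β = β := by
      intro τ
      have hτ : τ ∈ Subgroup.zpowers σ := htop ▸ Subgroup.mem_top τ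
      have hstab : Subgroup.zpowers σ ≤ MulAction.stabilizer Gal(E/F) β := by
        rw [Subgroup.zpowers_le]
        exact hfix
      exact hstab hτ
    obtain ⟨y, hy⟩ := (IsGalois.mem_bot_iff_fixed β).mpr hall
    have hy0 : y ≠ 0 := by
      rintro rfl
      rw [map_zero] at hy
      exact hβ0 hy.symm
    apply ha
    refine ⟨Units.mk0 y hy0, Units.ext ?_⟩
    apply (algebraMap F E).injective
    rw [← hβ, ← hy]
    simp
  -- the ratio is a nontrivial `p`-th root of unity
  set η : E := σ β / β with hη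
  have hηp : η ^ p = 1 := by
    rw [hη, div_pow, ← map_pow, hβ, AlgEquiv.commutes, div_self]
    rw [← hβ]
    exact pow_ne_zero _ hβ0
  have hη1 : η ≠ 1 := by
    intro h
    apply hmove
    rw [hη, div_eq_one_iff_eq hβ0] at h
    exact h
  have hζE : IsPrimitiveRoot (algebraMap F E ζ) p :=
    hζ.map_of_injective (algebraMap F E).injective
  have : NeZero p := ⟨hp.ne_zero⟩
  obtain ⟨i, hip, hi⟩ := hζE.eq_pow_of_pow_eq_one hηp
  have hi0 : i ≠ 0 := by
    rintro rfl
    rw [pow_zero] at hi
    exact hη1 hi.symm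
  have hcop : Nat.Coprime i p :=
    Nat.Coprime.symm ((Nat.Prime.coprime_iff_not_dvd hp).2
      (Nat.not_dvd_of_pos_of_lt (Nat.pos_of_ne_zero hi0) hip))
  refine ⟨ζ ^ i, σ, hζ.pow_of_coprime i hcop, ?_⟩
  rw [map_pow, hi, hη, div_mul_cancel₀ _ hβ0]

/-- `helper4783.Stmt_KummerFacts` for a Kummer extension with explicit Kummer data. -/
theorem stmt_KummerFacts {p : ℕ} (hp : p.Prime) (hdeg : Module.finrank F E = p) {ζ : F}
    (hζ : IsPrimitiveRoot ζ p) (a : Fˣ) (β : E) (hβ : β ^ p = algebraMap F E (a : F))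
    (σ : Gal(E/F)) (hσ : σ β = algebraMap F E ζ * β) : helper4783.Stmt_KummerFacts F E p a := by
  intro v hpv hva
  refine kummer_tame F E hp hdeg hζ a β hβ σ hσ v hpv ?_
  have h0 : ordAt v a = 0 := by
    unfold ordAt
    rw [hva, log_one]
  rw [h0]
  exact dvd_zero _

/-- `helper4783.Stmt_KummerFacts F E p a` for `E = F(a^(1/p))`: only a `p`-th root `β ∈ E` of the
non-`p`-th-power `a` is needed. -/
theorem stmt_KummerFacts' {p : ℕ} (hp : p.Prime) (hdeg : Module.finrank F E = p)
    (hζ : ∃ ζ : F, IsPrimitiveRoot ζ p) (a : Fˣ) (ha : ¬ ∃ y : Fˣ, a = y ^ p) (β : E)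
    (hβ : β ^ p = algebraMap F E (a : F)) : helper4783.Stmt_KummerFacts F E p a := by
  obtain ⟨ζ, hζ⟩ := hζ
  obtain ⟨ζ', σ, hζ', hσ⟩ := exists_kummer_sigma F E hp hdeg hζ a ha β hβ
  exact stmt_KummerFacts F E hp hdeg hζ' a β hβ σ hσ

/-- `helper1980.Stmt_KummerLaw` for a Kummer extension with explicit Kummer data. -/
theorem stmt_KummerLaw {p : ℕ} (hp : p.Prime) (hdeg : Module.finrank F E = p) {ζ : F}
    (hζ : IsPrimitiveRoot ζ p) (b : Fˣ) (β : E) (hβ : β ^ p = algebraMap F E (b : F))
    (σ : Gal(E/F)) (hσ : σ β = algebraMap F E ζ * β) : helper1980.Stmt_KummerLaw F E p b := by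
  intro v hpv hord
  refine kummer_tame F E hp hdeg hζ b β hβ σ hσ v hpv ?_
  rw [hord]
  exact dvd_zero _

/-- `helper1980.Stmt_KummerLaw F E p b` for `E = F(b^(1/p))`. -/
theorem stmt_KummerLaw' {p : ℕ} (hp : p.Prime) (hdeg : Module.finrank F E = p)
    (hζ : ∃ ζ : F, IsPrimitiveRoot ζ p) (b : Fˣ) (hb : ¬ ∃ y : Fˣ, b = y ^ p) (β : E)
    (hβ : β ^ p = algebraMap F E (b : F)) : helper1980.Stmt_KummerLaw F E p b := by
  obtain ⟨ζ, hζ⟩ := hζ
  obtain ⟨ζ', σ, hζ', hσ⟩ := exists_kummer_sigma F E hp hdeg hζ b hb β hβ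
  exact stmt_KummerLaw F E hp hdeg hζ' b β hβ σ hσ

/-- **Hasse norm theorem for a Kummer extension** `E = F(a^(1/p))` of odd prime degree `p`
(`ζ_p ∈ F`): an element of `Fˣ` which is a local norm at every finite place is a norm.  The only
remaining hypothesis is the local non-norm statement at the non-split places
(`helper4783.Stmt_LocNonNorm F E`); Tate's count, the `S`-unit norm index and the Kummer facts
are discharged from the landed S14 / S55 modules. -/
theorem hasse_norm_kummer {p : ℕ} (hp : p.Prime) (hodd : p ≠ 2) (hdeg : Module.finrank F E = p)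
    (hζ : ∃ ζ : F, IsPrimitiveRoot ζ p) (a : Fˣ) (ha : ¬ ∃ y : Fˣ, a = y ^ p) (β : E)
    (hβ : β ^ p = algebraMap F E (a : F)) (hNN : helper4783.Stmt_LocNonNorm F E)
    (b : Fˣ) (hb : ∀ v : HeightOneSpectrum (𝓞 F), helper4783.LocNorm F E v b) :
    b ∈ (helper165.normHom F E).range :=
  helper4783.hasse_norm F E hp hdeg hζ a ha (stmt_KummerFacts' F E hp hdeg hζ a ha β hβ)
    (Fermat.Agent.S55.helper1892.stmt_TateCount_of_sUnitNormIndex F p hp hodd hζ
      (fun E' _ _ _ _ hdeg' => helper3036.sUnitNormIndex F E' p hp hodd hζ hdeg'))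
    (helper3036.sUnitNormIndex F E p hp hodd hζ hdeg) hNN b hb

end Kummer

section Approx

variable (F : Type) [Field F] [NumberField F]

/-- Elements `≡ 1` to precision `N` at `v` are closed under multiplication. -/
theorem valuation_mul_sub_one_le (v : HeightOneSpectrum (𝓞 F)) (N : ℕ) {a b : F}
    (ha : v.valuation F (a - 1) ≤ exp (-(N : ℤ))) (hb : v.valuation F (b - 1) ≤ exp (-(N : ℤ))) :
    v.valuation F (a * b - 1) ≤ exp (-(N : ℤ)) := by
  have hN1 : exp (-(N : ℤ)) ≤ (1 : ℤᵐ⁰) := by
    rw [← exp_zero, exp_le_exp]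
    omega
  have ha1 : v.valuation F a ≤ 1 := by
    have h := (v.valuation F).map_add (a - 1) 1
    rw [sub_add_cancel, map_one] at h
    exact h.trans (max_le (ha.trans hN1) le_rfl)
  have e : a * b - 1 = a * (b - 1) + (a - 1) := by ring
  rw [e]
  refine ((v.valuation F).map_add _ _).trans (max_le ?_ ha)
  rw [map_mul]
  exact (mul_le_of_le_one_left' ha1).trans hb

/-- **`helper1980.Stmt_ApproxN`**: simultaneous multiplicative approximation of finitely many
elements of `Fˣ` at finitely many places (from the two-point form `helper4783.exists_approx_at`). -/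
theorem stmt_ApproxN : helper1980.Stmt_ApproxN F := by
  classical
  intro S x N
  have h : ∀ w : HeightOneSpectrum (𝓞 F), ∃ z : Fˣ,
      (∀ v ∈ S.erase w, v.valuation F ((z : F) - 1) ≤ exp (-(N : ℤ))) ∧
        w.valuation F ((z : F) / (x w : F) - 1) ≤ exp (-(N : ℤ)) := fun w =>
    helper4783.exists_approx_at (S.erase w) w (Finset.notMem_erase w S) (x w) N
  choose z hz1 hz2 using h
  refine ⟨∏ w ∈ S, z w, fun v hv => ?_⟩
  have e : ((∏ w ∈ S, z w : Fˣ) : F) / (x v : F)
      = ((z v : F) / (x v : F)) * ∏ w ∈ S.erase v, (z w : F) := by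
    rw [Units.coe_prod, ← Finset.mul_prod_erase S (fun w => (z w : F)) hv]
    ring
  rw [e]
  refine valuation_mul_sub_one_le F v N (hz2 v) ?_
  refine Finset.prod_induction (fun w => (z w : F))
    (fun u => v.valuation F (u - 1) ≤ exp (-(N : ℤ)))
    (fun a b ha hb => valuation_mul_sub_one_le F v N ha hb) (by simp) ?_
  intro w hw
  have hwv : w ≠ v := Finset.ne_of_mem_erase hw
  exact hz1 w v (Finset.mem_erase.mpr ⟨hwv.symm, hv⟩)

/-- **`helper1980.Stmt_LocPowOpen`** (Hensel for `p`-th powers, completion-free), from the landed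
S14 leaf `helper4204.locPow_of_valuation_sub_one_le`. -/
theorem stmt_LocPowOpen {p : ℕ} (hp : p.Prime) : helper1980.Stmt_LocPowOpen F p :=
  fun v => ⟨2 * helper4204.ordP v p + 1, fun _ hx =>
    helper4204.locPow_of_valuation_sub_one_le v hp (by omega) hx⟩

end Approx

end Fermat.Agent.S55.helper1641
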