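/-
S55-SYMBOL (helper2554): cyclic-algebra / Kummer-symbol criterion with explicit
level-constant cochains on the automorphism group of an arbitrary field extension.

Setting: `K ⊆ Ω` fields, `G = Ω ≃ₐ[K] Ω`, cochains are plain functions on `G`,
level-constancy has the shape of the frozen `IsLevelConstant₁`.
-/
import Mathlib

set_option autoImplicit false

namespace Fermat.Agent.S55.helper2554

open Finset

variable {K Ω : Type*} [Field K] [Field Ω] [Algebra K Ω]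

/-- Level-constancy of a 1-cochain on `Ω ≃ₐ[K] Ω` (the shape of the frozen
`IsLevelConstant₁`): right-invariance under the fixing subgroup of a finite subextension. -/
def IsLevel {X : Type*} (f : (Ω ≃ₐ[K] Ω) → X) : Prop :=
  ∃ E : IntermediateField K Ω, FiniteDimensional K E ∧
    ∀ g s : Ω ≃ₐ[K] Ω, s ∈ E.fixingSubgroup → f (g * s) = f g

lemma IsLevel.comp {X Y : Type*} {f : (Ω ≃ₐ[K] Ω) → X} (hf : IsLevel f) (φ : X → Y) :
    IsLevel (fun g => φ (f g)) := by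
  obtain ⟨E, hE, h⟩ := hf
  exact ⟨E, hE, fun g s hs => by show φ (f (g * s)) = φ (f g); rw [h g s hs]⟩

lemma IsLevel.map₂ {X Y Z : Type*} {f : (Ω ≃ₐ[K] Ω) → X} {f' : (Ω ≃ₐ[K] Ω) → Y}
    (hf : IsLevel f) (hf' : IsLevel f') (φ : X → Y → Z) :
    IsLevel (fun g => φ (f g) (f' g)) := by
  obtain ⟨E, hE, h⟩ := hf
  obtain ⟨E', hE', h'⟩ := hf'
  have := hE; have := hE'
  refine ⟨E ⊔ E', IntermediateField.finiteDimensional_sup E E', fun g s hs => ?_⟩
  show φ (f (g * s)) (f' (g * s)) = φ (f g) (f' g)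
  rw [h g s (IntermediateField.fixingSubgroup_antitone le_sup_left hs),
    h' g s (IntermediateField.fixingSubgroup_antitone le_sup_right hs)]

lemma isLevel_const {X : Type*} (x : X) : IsLevel (fun _ : Ω ≃ₐ[K] Ω => x) :=
  ⟨⊥, inferInstance, fun _ _ _ => rfl⟩

/-- `g ↦ g γ` is level-constant when `γ` is algebraic over `K`. -/
lemma isLevel_apply {γ : Ω} (hγ : IsIntegral K γ) : IsLevel (fun g : Ω ≃ₐ[K] Ω => g γ) := by
  refine ⟨IntermediateField.adjoin K {γ}, IntermediateField.adjoin.finiteDimensional hγ,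
    fun g s hs => ?_⟩
  have hmem : γ ∈ IntermediateField.adjoin K {γ} :=
    IntermediateField.mem_adjoin_simple_self K γ
  have : s γ = γ := by
    have := (IntermediateField.mem_fixingSubgroup_iff _ s).1 hs γ hmem
    simpa using this
  show (g * s) γ = g γ
  rw [AlgEquiv.mul_apply, this]

/-- Two automorphisms with the same restriction to the level field take the same value. -/
lemma IsLevel.eq_of_eqOn {X : Type*} {f : (Ω ≃ₐ[K] Ω) → X} {E : IntermediateField K Ω}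
    (h : ∀ g s : Ω ≃ₐ[K] Ω, s ∈ E.fixingSubgroup → f (g * s) = f g)
    {g g' : Ω ≃ₐ[K] Ω} (hgg' : ∀ x ∈ E, g x = g' x) : f g = f g' := by
  have hs : g⁻¹ * g' ∈ E.fixingSubgroup := by
    rw [IntermediateField.mem_fixingSubgroup_iff]
    intro x hx
    show (g⁻¹ * g') x = x
    rw [AlgEquiv.mul_apply, ← hgg' x hx]
    exact g.symm_apply_apply x
  have := h g (g⁻¹ * g') hs
  rw [mul_inv_cancel_left] at this
  exact this.symm

/-- **Hilbert 90 for level-constant cocycles**, restricted to a subgroup `H` of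
`Ω ≃ₐ[K] Ω` (Poincaré series + Dedekind independence of characters). -/
theorem hilbert90_level (H : Subgroup (Ω ≃ₐ[K] Ω)) (w : (Ω ≃ₐ[K] Ω) → Ω)
    (hw0 : ∀ g, w g ≠ 0) (hlev : IsLevel w)
    (hcoc : ∀ τ ∈ H, ∀ h ∈ H, w (τ * h) = τ (w h) * w τ) :
    ∃ x : Ω, x ≠ 0 ∧ ∀ τ ∈ H, w τ * τ x = x := by
  classical
  obtain ⟨E, hE, hinv⟩ := hlev
  have := hE
  -- restriction of automorphisms to `E`
  let res : (Ω ≃ₐ[K] Ω) → (E →ₐ[K] Ω) := fun g => (g : Ω →ₐ[K] Ω).comp E.val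
  have hwres : ∀ g g', res g = res g' → w g = w g' := by
    intro g g' h
    apply IsLevel.eq_of_eqOn hinv
    intro x hx
    exact DFunLike.congr_fun h ⟨x, hx⟩
  -- representatives
  let T : (E →ₐ[K] Ω) → Prop := fun φ => ∃ h ∈ H, res h = φ
  let rep : (E →ₐ[K] Ω) → (Ω ≃ₐ[K] Ω) := fun φ => if h : T φ then h.choose else 1
  have hrepH : ∀ φ, T φ → rep φ ∈ H := fun φ h => by
    simp only [rep, dif_pos h]; exact h.choose_spec.1
  have hrepres : ∀ φ, T φ → res (rep φ) = φ := fun φ h => by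
    simp only [rep, dif_pos h]; exact h.choose_spec.2
  let a : (E →ₐ[K] Ω) → Ω := fun φ => if T φ then w (rep φ) else 0
  -- nonvanishing of some Poincaré sum
  have hex : ∃ c : E, ∑ φ : E →ₐ[K] Ω, a φ * φ c ≠ 0 := by
    by_contra hcon
    simp only [not_exists, not_not] at hcon
    have hli : LinearIndependent Ω (fun φ : E →ₐ[K] Ω => ((φ : E →* Ω) : E → Ω)) :=
      (linearIndependent_monoidHom E Ω).comp (fun φ : E →ₐ[K] Ω => (φ : E →* Ω))
        (fun φ ψ h => by ext x; exact DFunLike.congr_fun h x)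
    have h0 := Fintype.linearIndependent_iff.1 hli a (by
      funext c
      simp only [Finset.sum_apply, Pi.smul_apply, smul_eq_mul, Pi.zero_apply]
      exact hcon c)
    have hT1 : T (res 1) := ⟨1, H.one_mem, rfl⟩
    have := h0 (res 1)
    simp only [a, if_pos hT1] at this
    exact hw0 _ this
  obtain ⟨c, hc⟩ := hex
  refine ⟨_, hc, fun τ hτ => ?_⟩
  -- the bijection φ ↦ τ ∘ φ
  let e : (E →ₐ[K] Ω) ≃ (E →ₐ[K] Ω) :=
    { toFun := fun φ => (τ : Ω →ₐ[K] Ω).comp φ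
      invFun := fun φ => ((τ⁻¹ : Ω ≃ₐ[K] Ω) : Ω →ₐ[K] Ω).comp φ
      left_inv := fun φ => by
        ext x
        show τ⁻¹ (τ (φ x)) = φ x
        exact τ.symm_apply_apply _
      right_inv := fun φ => by
        ext x
        show τ (τ⁻¹ (φ x)) = φ x
        exact τ.apply_symm_apply _ }
  have hkey : ∀ φ, w τ * τ (a φ) = a (e φ) := by
    intro φ
    by_cases hφ : T φ
    · have hT' : T (e φ) := by
        obtain ⟨h, hh, rfl⟩ := hφ
        exact ⟨τ * h, H.mul_mem hτ hh, rfl⟩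
      simp only [a, if_pos hφ, if_pos hT']
      rw [mul_comm, ← hcoc τ hτ _ (hrepH φ hφ)]
      apply hwres
      rw [hrepres _ hT']
      show (τ : Ω →ₐ[K] Ω).comp (res (rep φ)) = _
      rw [hrepres φ hφ]
      rfl
    · have hT' : ¬ T (e φ) := by
        rintro ⟨h, hh, hres'⟩
        refine hφ ⟨τ⁻¹ * h, H.mul_mem (H.inv_mem hτ) hh, ?_⟩
        ext x
        have h1 : h (x : Ω) = τ (φ x) := DFunLike.congr_fun hres' x
        show τ⁻¹ (h (x : Ω)) = φ x
        rw [h1]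
        exact τ.symm_apply_apply _
      simp only [a, if_neg hφ, if_neg hT', map_zero, mul_zero]
  rw [map_sum, Finset.mul_sum, ← Equiv.sum_comp e (fun φ => a φ * φ c)]
  apply Finset.sum_congr rfl
  intro φ _
  rw [map_mul, ← mul_assoc, hkey φ]
  rfl

section Symbol

variable {p : ℕ} [Fact p.Prime]

section chi

variable (χ : (Ω ≃ₐ[K] Ω) → ZMod p) (hχ : ∀ g h, χ (g * h) = χ g + χ h)
include hχ

lemma chi_one : χ 1 = 0 := by
  have h := hχ 1 1
  rw [mul_one] at h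
  exact left_eq_add.mp h

lemma chi_inv (g : Ω ≃ₐ[K] Ω) : χ g⁻¹ = - χ g := by
  have h := hχ g g⁻¹
  rw [mul_inv_cancel, chi_one χ hχ] at h
  exact eq_neg_of_add_eq_zero_right h.symm

lemma chi_pow (g : Ω ≃ₐ[K] Ω) (n : ℕ) : χ (g ^ n) = n * χ g := by
  induction n with
  | zero => simp [chi_one χ hχ]
  | succ n ih => rw [pow_succ, hχ, ih]; push_cast; ring

/-- The kernel of an additive character, as a subgroup. -/
def chiKer : Subgroup (Ω ≃ₐ[K] Ω) where
  carrier := {g | χ g = 0}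
  mul_mem' := fun {a b} ha hb => by
    show χ (a * b) = 0
    rw [hχ, show χ a = 0 from ha, show χ b = 0 from hb, add_zero]
  one_mem' := chi_one χ hχ
  inv_mem' := fun {a} ha => by
    show χ a⁻¹ = 0
    rw [chi_inv χ hχ, show χ a = 0 from ha, neg_zero]

lemma mem_chiKer (g : Ω ≃ₐ[K] Ω) : g ∈ chiKer χ hχ ↔ χ g = 0 := Iff.rfl

lemma chi_val_add (g h : Ω ≃ₐ[K] Ω) :
    (χ g).val + (χ h).val = (χ (g * h)).val + p * (((χ g).val + (χ h).val) / p) := by
  have : NeZero p := ⟨(Fact.out : p.Prime).ne_zero⟩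
  rw [hχ, ZMod.val_add, Nat.mod_add_div]

/-- Two automorphisms with the same character value agree on elements fixed by the kernel. -/
lemma apply_eq_of_chi_eq {y : Ω} (hy : ∀ s, χ s = 0 → s y = y) {g g' : Ω ≃ₐ[K] Ω}
    (h : χ g = χ g') : g y = g' y := by
  have hs : χ (g'⁻¹ * g) = 0 := by rw [hχ, chi_inv χ hχ, h, neg_add_cancel]
  have := hy _ hs
  rw [AlgEquiv.mul_apply] at this
  calc g y = g' (g'⁻¹ (g y)) := (g'.apply_symm_apply _).symm
    _ = g' y := by rw [this]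

end chi

/-- **Symbol criterion, direction "coboundary ⟹ norm".**
If the symbol cochain `(g, h) ↦ (g β / β) ^ χ(h)` (`β ^ p = b ∈ K`) is the coboundary of a
level-constant nonvanishing cochain `f`, then `b` is a norm from the fixed field of `ker χ`:
there is `y` fixed by `ker χ` with `∏_{i<p} σ^i y = b`. -/
theorem symbol_coboundary_imp_norm
    (χ : (Ω ≃ₐ[K] Ω) → ZMod p) (hχ : ∀ g h, χ (g * h) = χ g + χ h) (hχlev : IsLevel χ)
    (σ : Ω ≃ₐ[K] Ω) (hσ : χ σ = 1)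
    (b : K) (hb : b ≠ 0) (β : Ω) (hβ : β ^ p = algebraMap K Ω b)
    (f : (Ω ≃ₐ[K] Ω) → Ω) (hf0 : ∀ g, f g ≠ 0) (hflev : IsLevel f)
    (hf : ∀ g h, (g β / β) ^ (χ h).val = g (f h) * (f (g * h))⁻¹ * f g) :
    ∃ y : Ω, (∀ s, χ s = 0 → s y = y) ∧ ∏ i ∈ range p, (σ ^ i) y = algebraMap K Ω b := by
  have hp : p.Prime := Fact.out
  have : NeZero p := ⟨hp.ne_zero⟩
  have : Fact (1 < p) := ⟨hp.one_lt⟩
  have hB0 : algebraMap K Ω b ≠ 0 := (map_ne_zero (algebraMap K Ω)).2 hb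
  have hβ0 : β ≠ 0 := by
    rintro rfl
    rw [zero_pow hp.ne_zero] at hβ
    exact hB0 hβ.symm
  -- the cochain `w = β^χ / f` with `d w = b^ε`
  let w : (Ω ≃ₐ[K] Ω) → Ω := fun g => β ^ (χ g).val / f g
  have hw0 : ∀ g, w g ≠ 0 := fun g => div_ne_zero (pow_ne_zero _ hβ0) (hf0 g)
  have hwlev : IsLevel w := IsLevel.map₂ hχlev hflev (fun a x => β ^ a.val / x)
  have hR : ∀ g h, g (w h) * w g
      = algebraMap K Ω b ^ (((χ g).val + (χ h).val) / p) * w (g * h) := by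
    intro g h
    have h1 : g β ^ (χ h).val = β ^ (χ h).val * (g (f h) * (f (g * h))⁻¹ * f g) := by
      rw [← hf g h, div_pow, mul_div_cancel₀ _ (pow_ne_zero _ hβ0)]
    have hgf : g (f h) ≠ 0 := (map_ne_zero g).2 (hf0 h)
    have h2 : β ^ (χ h).val * β ^ (χ g).val
        = algebraMap K Ω b ^ (((χ g).val + (χ h).val) / p) * β ^ (χ (g * h)).val := by
      have e : β ^ ((χ g).val + (χ h).val)
          = β ^ ((χ (g * h)).val + p * (((χ g).val + (χ h).val) / p)) :=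
        congrArg (fun n => β ^ n) (chi_val_add χ hχ g h)
      rw [← pow_add, add_comm, e, pow_add, pow_mul, hβ, mul_comm]
    have hfg := hf0 g
    have hfgh := hf0 (g * h)
    calc g (w h) * w g = (β ^ (χ h).val * β ^ (χ g).val) * (f (g * h))⁻¹ := by
          simp only [w]
          rw [map_div₀, map_pow, h1]
          field_simp
      _ = _ := by
          rw [h2]
          simp only [w]
          ring
  -- Hilbert 90 on the kernel of χ
  have hcocH : ∀ τ ∈ chiKer χ hχ, ∀ h ∈ chiKer χ hχ, w (τ * h) = τ (w h) * w τ := by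
    intro τ hτ h hh
    have := hR τ h
    rw [(mem_chiKer χ hχ τ).1 hτ, (mem_chiKer χ hχ h).1 hh] at this
    simpa using this.symm
  obtain ⟨x, hx0, hx⟩ := hilbert90_level (chiKer χ hχ) w hw0 hwlev hcocH
  let w' : (Ω ≃ₐ[K] Ω) → Ω := fun g => w g * g x / x
  have hgx : ∀ g : Ω ≃ₐ[K] Ω, g x ≠ 0 := fun g => (map_ne_zero g).2 hx0
  have hw'0 : ∀ g, w' g ≠ 0 := fun g => div_ne_zero (mul_ne_zero (hw0 g) (hgx g)) hx0
  have hR' : ∀ g h, g (w' h) * w' g
      = algebraMap K Ω b ^ (((χ g).val + (χ h).val) / p) * w' (g * h) := by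
    intro g h
    have := hgx g
    calc g (w' h) * w' g = (g (w h) * w g) * (g (h x) / x) := by
          simp only [w', map_div₀, map_mul]
          field_simp
      _ = _ := by
          rw [hR g h]
          simp only [w', AlgEquiv.mul_apply]
          ring
  have h1' : ∀ τ, χ τ = 0 → w' τ = 1 := by
    intro τ hτ
    simp only [w']
    rw [hx τ hτ, div_self hx0]
  have h2' : ∀ g h, χ h = 0 → w' (g * h) = w' g := by
    intro g h hh
    have := hR' g h
    rw [h1' h hh, hh, ZMod.val_zero, add_zero, Nat.div_eq_of_lt (ZMod.val_lt _), pow_zero,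
      one_mul, map_one, one_mul] at this
    exact this.symm
  have h3' : ∀ g h, χ h = 0 → h (w' g) = w' g := by
    intro g h hh
    have := hR' h g
    rw [h1' h hh, hh, ZMod.val_zero, zero_add, Nat.div_eq_of_lt (ZMod.val_lt _), pow_zero,
      one_mul, mul_one] at this
    rw [this]
    have hconj : χ (g⁻¹ * h * g) = 0 := by
      rw [hχ, hχ, chi_inv χ hχ, hh, add_zero, neg_add_cancel]
    have := h2' g (g⁻¹ * h * g) hconj
    rw [← this]
    congr 1
    group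
  refine ⟨w' σ, fun s hs => h3' σ s hs, ?_⟩
  -- the norm computation
  have hstep : ∀ i ∈ range p, (σ ^ i) (w' σ) * w' (σ ^ i)
      = algebraMap K Ω b ^ ((i + 1) / p) * w' (σ ^ (i + 1)) := by
    intro i hi
    have := hR' (σ ^ i) σ
    rw [chi_pow χ hχ, hσ, mul_one, ZMod.val_natCast_of_lt (mem_range.1 hi), ZMod.val_one,
      ← pow_succ] at this
    exact this
  have hprod := Finset.prod_congr rfl hstep
  rw [Finset.prod_mul_distrib, Finset.prod_mul_distrib] at hprod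
  have hB : ∏ i ∈ range p, algebraMap K Ω b ^ ((i + 1) / p) = algebraMap K Ω b := by
    rw [Finset.prod_eq_single (p - 1)]
    · rw [Nat.sub_add_cancel hp.one_lt.le, Nat.div_self hp.pos, pow_one]
    · intro i hi hne
      have hi' := mem_range.1 hi
      rw [Nat.div_eq_of_lt (by omega), pow_zero]
    · intro h
      exact absurd (mem_range.2 (Nat.sub_lt hp.pos one_pos)) h
  have hshift : ∏ i ∈ range p, w' (σ ^ (i + 1)) = ∏ i ∈ range p, w' (σ ^ i) := by
    have e1 := Finset.prod_range_succ (fun i => w' (σ ^ i)) p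
    have e2 := Finset.prod_range_succ' (fun i => w' (σ ^ i)) p
    have hσp : w' (σ ^ p) = 1 := h1' _ (by rw [chi_pow χ hχ, hσ, mul_one, ZMod.natCast_self])
    have hσ0 : w' (σ ^ 0) = 1 := h1' _ (by rw [pow_zero, chi_one χ hχ])
    rw [hσp, mul_one] at e1
    rw [hσ0, mul_one] at e2
    rw [← e2, e1]
  rw [hB, hshift] at hprod
  have hP : ∏ i ∈ range p, w' (σ ^ i) ≠ 0 := Finset.prod_ne_zero_iff.2 fun i _ => hw'0 _
  exact mul_right_cancel₀ hP hprod

/-- **Symbol criterion, direction "norm ⟹ coboundary".**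
If `b = ∏_{i<p} σ^i y` with `y` fixed by `ker χ`, and `Ω` contains a `p`-th root `γ` of
`∏_{j<p} (σ^j y)^j` (automatic when `Ω` is closed under `p`-th roots), then the symbol cochain
`(g, h) ↦ (g β / β) ^ χ(h)` is the coboundary of a level-constant cochain with values in the
`p`-th roots of unity. -/
theorem norm_imp_symbol_coboundary
    (χ : (Ω ≃ₐ[K] Ω) → ZMod p) (hχ : ∀ g h, χ (g * h) = χ g + χ h) (hχlev : IsLevel χ)
    (σ : Ω ≃ₐ[K] Ω) (hσ : χ σ = 1)
    (b : K) (hb : b ≠ 0) (β : Ω) (hβ : β ^ p = algebraMap K Ω b)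
    (y : Ω) (hy : ∀ s, χ s = 0 → s y = y)
    (hN : ∏ i ∈ range p, (σ ^ i) y = algebraMap K Ω b)
    (γ : Ω) (hγ : γ ^ p = ∏ j ∈ range p, ((σ ^ j) y) ^ j) (hγint : IsIntegral K γ) :
    ∃ f : (Ω ≃ₐ[K] Ω) → Ω, (∀ g, f g ^ p = 1) ∧ IsLevel f ∧
      ∀ g h, (g β / β) ^ (χ h).val = g (f h) * (f (g * h))⁻¹ * f g := by
  have hp : p.Prime := Fact.out
  have : NeZero p := ⟨hp.ne_zero⟩
  have : Fact (1 < p) := ⟨hp.one_lt⟩
  have hB0 : algebraMap K Ω b ≠ 0 := (map_ne_zero (algebraMap K Ω)).2 hb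
  have hβ0 : β ≠ 0 := by
    rintro rfl
    rw [zero_pow hp.ne_zero] at hβ
    exact hB0 hβ.symm
  have hy0 : y ≠ 0 := by
    rintro rfl
    simp only [map_zero, Finset.prod_const, card_range, zero_pow hp.ne_zero] at hN
    exact hB0 hN.symm
  have hσy0 : ∀ g : Ω ≃ₐ[K] Ω, g y ≠ 0 := fun g => (map_ne_zero g).2 hy0
  -- action on the conjugates of `y`
  have hS : ∀ (g : Ω ≃ₐ[K] Ω) (n : ℕ), g ((σ ^ n) y) = (σ ^ ((χ g).val + n)) y := by
    intro g n
    rw [← AlgEquiv.mul_apply]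
    apply apply_eq_of_chi_eq χ hχ hy
    rw [hχ, chi_pow χ hχ, chi_pow χ hχ, hσ]
    push_cast
    rw [ZMod.natCast_zmod_val]
    ring
  have hσB : ∀ g : Ω ≃ₐ[K] Ω, g (algebraMap K Ω b) = algebraMap K Ω b := fun g => g.commutes b
  have hNshift : ∀ n e : ℕ, ∏ j ∈ range (p * e), (σ ^ (n + j)) y = algebraMap K Ω b ^ e := by
    intro n e
    induction e with
    | zero => simp
    | succ e ih =>
      rw [Nat.mul_succ, Finset.prod_range_add, ih, pow_succ]
      congr 1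
      have : ∀ j ∈ range p, (σ ^ (n + (p * e + j))) y = (σ ^ (n + p * e)) ((σ ^ j) y) := by
        intro j _
        rw [← add_assoc, pow_add, AlgEquiv.mul_apply]
      rw [Finset.prod_congr rfl this, ← map_prod, hN, hσB]
  -- the cochains `v`, `u`, `w`
  let v : (Ω ≃ₐ[K] Ω) → Ω := fun g => ∏ j ∈ range (χ g).val, (σ ^ j) y
  have hv0 : ∀ g, v g ≠ 0 := fun g => Finset.prod_ne_zero_iff.2 fun j _ => hσy0 _
  have hV : ∀ g h, g (v h) * v g
      = algebraMap K Ω b ^ (((χ g).val + (χ h).val) / p) * v (g * h) := by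
    intro g h
    have e1 : g (v h) = ∏ j ∈ range (χ h).val, (σ ^ ((χ g).val + j)) y := by
      simp only [v]
      rw [map_prod]
      exact Finset.prod_congr rfl fun j _ => hS g j
    have e2 : v g * g (v h) = ∏ j ∈ range ((χ g).val + (χ h).val), (σ ^ j) y := by
      rw [e1, Finset.prod_range_add]
    have e3 : ∏ j ∈ range ((χ g).val + (χ h).val), (σ ^ j) y
        = ∏ j ∈ range ((χ (g * h)).val + p * (((χ g).val + (χ h).val) / p)), (σ ^ j) y :=
      congrArg (fun n => ∏ j ∈ range n, (σ ^ j) y) (chi_val_add χ hχ g h)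
    rw [mul_comm, e2, e3, Finset.prod_range_add, hNshift, mul_comm]
  have hpow2 : ∀ g h : Ω ≃ₐ[K] Ω, β ^ (χ h).val * β ^ (χ g).val
      = algebraMap K Ω b ^ (((χ g).val + (χ h).val) / p) * β ^ (χ (g * h)).val := by
    intro g h
    have e : β ^ ((χ g).val + (χ h).val)
        = β ^ ((χ (g * h)).val + p * (((χ g).val + (χ h).val) / p)) :=
      congrArg (fun n => β ^ n) (chi_val_add χ hχ g h)
    rw [← pow_add, add_comm, e, pow_add, pow_mul, hβ, mul_comm]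
  let w : (Ω ≃ₐ[K] Ω) → Ω := fun g => β ^ (χ g).val / v g
  have hw0 : ∀ g, w g ≠ 0 := fun g => div_ne_zero (pow_ne_zero _ hβ0) (hv0 g)
  have hW : ∀ g h, g (w h) * w g = (g β / β) ^ (χ h).val * w (g * h) := by
    intro g h
    have hgv : g (v h) ≠ 0 := (map_ne_zero g).2 (hv0 h)
    have hvg := hv0 g
    have hvgh := hv0 (g * h)
    have hBe : algebraMap K Ω b ^ (((χ g).val + (χ h).val) / p) ≠ 0 := pow_ne_zero _ hB0
    have hβh : β ^ (χ h).val ≠ 0 := pow_ne_zero _ hβ0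
    have hV' := hV g h
    have hP' := hpow2 g h
    calc g (w h) * w g = g β ^ (χ h).val * β ^ (χ g).val / (g (v h) * v g) := by
          simp only [w]
          rw [map_div₀, map_pow]
          field_simp
      _ = (g β / β) ^ (χ h).val * (β ^ (χ h).val * β ^ (χ g).val) / (g (v h) * v g) := by
          rw [div_pow]
          field_simp
      _ = (g β / β) ^ (χ h).val * w (g * h) := by
          rw [hV', hP']
          simp only [w]
          field_simp
  -- the correction term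
  obtain ⟨c, hc⟩ : ∃ c : Ω, c = ∏ j ∈ range p, ((σ ^ j) y) ^ j := ⟨_, rfl⟩
  rw [← hc] at hγ
  have hc0 : c ≠ 0 := by
    rw [hc]
    exact Finset.prod_ne_zero_iff.2 fun j _ => pow_ne_zero _ (hσy0 _)
  have hγ0 : γ ≠ 0 := by
    rintro rfl
    rw [zero_pow hp.ne_zero] at hγ
    exact hc0 hγ.symm
  have hσp : (σ ^ p) y = y := hy _ (by rw [chi_pow χ hχ, hσ, mul_one, ZMod.natCast_self])
  have hBshift : ∏ j ∈ range p, (σ ^ (j + 1)) y = algebraMap K Ω b := by
    have e1 := Finset.prod_range_succ (fun i => (σ ^ i) y) p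
    have e2 := Finset.prod_range_succ' (fun i => (σ ^ i) y) p
    rw [hσp, hN] at e1
    rw [pow_zero, AlgEquiv.one_apply, e1] at e2
    exact (mul_right_cancel₀ hy0 e2).symm
  have hC1 : σ c * algebraMap K Ω b = c * y ^ p := by
    have e0 : σ c = ∏ j ∈ range p, ((σ ^ (j + 1)) y) ^ j := by
      rw [hc, map_prod]
      refine Finset.prod_congr rfl fun j _ => ?_
      rw [map_pow, ← AlgEquiv.mul_apply, ← pow_succ']
    have e1 := Finset.prod_range_succ (fun i => ((σ ^ i) y) ^ i) p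
    have e2 := Finset.prod_range_succ' (fun i => ((σ ^ i) y) ^ i) p
    rw [hσp] at e1
    rw [pow_zero, mul_one, e1] at e2
    rw [e0]
    conv_lhs => rw [← hBshift]
    rw [← Finset.prod_mul_distrib, hc, e2]
    exact Finset.prod_congr rfl fun j _ => (pow_succ _ _).symm
  have hC2 : ∀ m : ℕ, (σ ^ m) c * algebraMap K Ω b ^ m = c * ∏ j ∈ range m, ((σ ^ j) y) ^ p := by
    intro m
    induction m with
    | zero => simp
    | succ m ih =>
      have e : (σ ^ (m + 1)) c * algebraMap K Ω b ^ (m + 1)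
          = σ ((σ ^ m) c * algebraMap K Ω b ^ m) * algebraMap K Ω b := by
        rw [map_mul, map_pow, hσB, pow_succ', AlgEquiv.mul_apply, pow_succ]
        ring
      rw [e, ih, map_mul, map_prod, Finset.prod_range_succ', pow_zero, AlgEquiv.one_apply]
      have e' : ∀ j ∈ range m, σ (((σ ^ j) y) ^ p) = ((σ ^ (j + 1)) y) ^ p := by
        intro j _
        rw [map_pow, ← AlgEquiv.mul_apply, ← pow_succ']
      rw [Finset.prod_congr rfl e']
      calc σ c * (∏ j ∈ range m, ((σ ^ (j + 1)) y) ^ p) * algebraMap K Ω b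
          = (σ c * algebraMap K Ω b) * ∏ j ∈ range m, ((σ ^ (j + 1)) y) ^ p := by ring
        _ = _ := by rw [hC1]; ring
  have hC3 : ∀ s, χ s = 0 → s c = c := by
    intro s hs
    rw [hc, map_prod]
    refine Finset.prod_congr rfl fun j _ => ?_
    rw [map_pow, hS s j, hs, ZMod.val_zero, zero_add]
  have hC4 : ∀ g : Ω ≃ₐ[K] Ω, g c * algebraMap K Ω b ^ (χ g).val = c * v g ^ p := by
    intro g
    have e : g c = (σ ^ (χ g).val) c := by
      apply apply_eq_of_chi_eq χ hχ hC3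
      rw [chi_pow χ hχ, hσ, mul_one, ZMod.natCast_zmod_val]
    rw [e, hC2]
    simp only [v]
    rw [Finset.prod_pow]
  refine ⟨fun g => w g * g γ / γ, fun g => ?_, ?_, fun g h => ?_⟩
  · -- `p`-th power is one
    have hgc : g γ ^ p = g c := by rw [← map_pow, hγ]
    have hwp : w g ^ p = algebraMap K Ω b ^ (χ g).val / v g ^ p := by
      simp only [w]
      rw [div_pow, ← pow_mul, mul_comm, pow_mul, hβ]
    have hvp : v g ^ p ≠ 0 := pow_ne_zero _ (hv0 g)
    rw [div_pow, mul_pow, hgc, hwp, hγ]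
    rw [div_mul_eq_mul_div, mul_comm, hC4 g]
    field_simp
  · exact IsLevel.map₂
      (hχlev.comp (fun a : ZMod p => β ^ a.val / ∏ j ∈ range a.val, (σ ^ j) y))
      (isLevel_apply hγint) (fun a x => a * x / γ)
  · have hgγ : g γ ≠ 0 := (map_ne_zero g).2 hγ0
    have hghγ : g (h γ) ≠ 0 := (map_ne_zero g).2 ((map_ne_zero h).2 hγ0)
    have hwgh := hw0 (g * h)
    have hW' := hW g h
    show _ = g (w h * h γ / γ) * (w (g * h) * (g * h) γ / γ)⁻¹ * (w g * g γ / γ)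
    rw [map_div₀, map_mul, AlgEquiv.mul_apply]
    calc (g β / β) ^ (χ h).val = (g β / β) ^ (χ h).val * w (g * h) * (w (g * h))⁻¹ := by
          field_simp
      _ = g (w h) * w g * (w (g * h))⁻¹ := by rw [hW']
      _ = _ := by field_simp

/-! ### `ZMod p`-valued forms -/

/-- `a ↦ ζ ^ a.val`, the identification of `ZMod p` with the `p`-th roots of unity
attached to `ζ`. -/
def zpw (ζ : Ω) (a : ZMod p) : Ω := ζ ^ a.val

section zpw

variable {ζ : Ω}

lemma zpw_add (hζ : ζ ^ p = 1) (a b : ZMod p) : zpw ζ (a + b) = zpw ζ a * zpw ζ b := by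
  have : NeZero p := ⟨(Fact.out : p.Prime).ne_zero⟩
  unfold zpw
  rw [ZMod.val_add, ← pow_add, ← pow_eq_pow_mod _ hζ]

lemma zpw_zero : zpw ζ (0 : ZMod p) = 1 := by
  unfold zpw
  rw [ZMod.val_zero, pow_zero]

omit [Fact p.Prime] in
lemma zpw_pow_p (hζ : ζ ^ p = 1) (a : ZMod p) : zpw ζ a ^ p = 1 := by
  unfold zpw
  rw [← pow_mul, mul_comm, pow_mul, hζ, one_pow]

lemma zpw_ne_zero (hζ : ζ ^ p = 1) (a : ZMod p) : zpw ζ a ≠ 0 := by
  intro h
  have := zpw_pow_p hζ a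
  rw [h, zero_pow (Fact.out : p.Prime).ne_zero] at this
  exact zero_ne_one this

lemma zpw_neg (hζ : ζ ^ p = 1) (a : ZMod p) : zpw ζ (-a) = (zpw ζ a)⁻¹ := by
  have h := zpw_add hζ a (-a)
  rw [add_neg_cancel, zpw_zero] at h
  exact eq_inv_of_mul_eq_one_right h.symm

lemma zpw_mul (hζ : ζ ^ p = 1) (a b : ZMod p) : zpw ζ (a * b) = zpw ζ a ^ b.val := by
  have : NeZero p := ⟨(Fact.out : p.Prime).ne_zero⟩
  unfold zpw
  rw [ZMod.val_mul, ← pow_mul, ← pow_eq_pow_mod _ hζ]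

lemma zpw_injective (hζ : IsPrimitiveRoot ζ p) : Function.Injective (zpw (p := p) ζ) := by
  have : NeZero p := ⟨(Fact.out : p.Prime).ne_zero⟩
  intro a b h
  exact ZMod.val_injective p (hζ.pow_inj (ZMod.val_lt a) (ZMod.val_lt b) h)

lemma exists_zpw (hζ : IsPrimitiveRoot ζ p) {x : Ω} (hx : x ^ p = 1) :
    ∃ a : ZMod p, zpw ζ a = x := by
  have : NeZero p := ⟨(Fact.out : p.Prime).ne_zero⟩
  obtain ⟨i, hi, rfl⟩ := hζ.eq_pow_of_pow_eq_one hx
  exact ⟨(i : ZMod p), by unfold zpw; rw [ZMod.val_natCast_of_lt hi]⟩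

/-- The action of an automorphism on `ζ ^ a` through its cyclotomic exponent. -/
lemma apply_zpw (hζ : ζ ^ p = 1) (g : Ω ≃ₐ[K] Ω) (c : ZMod p) (hc : g ζ = ζ ^ c.val)
    (a : ZMod p) : g (zpw ζ a) = zpw ζ (c * a) := by
  rw [zpw_mul hζ]
  unfold zpw
  rw [map_pow, hc]

end zpw

/-- **Symbol criterion, `ZMod p`-valued form, "coboundary ⟹ norm".**
`ζ` a primitive `p`-th root of unity in `Ω`, `cyc` its cyclotomic exponent, `k` the Kummer
exponent of `β` (`β ^ p = b`). If `(g, h) ↦ k g * χ h` is the (twisted) coboundary of a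
level-constant `F : G → ZMod p`, then `b` is a norm from the fixed field of `ker χ`. -/
theorem symbol_zmod_coboundary_imp_norm
    (χ : (Ω ≃ₐ[K] Ω) → ZMod p) (hχ : ∀ g h, χ (g * h) = χ g + χ h) (hχlev : IsLevel χ)
    (σ : Ω ≃ₐ[K] Ω) (hσ : χ σ = 1)
    (b : K) (hb : b ≠ 0) (β : Ω) (hβ : β ^ p = algebraMap K Ω b)
    (ζ : Ω) (hζ : IsPrimitiveRoot ζ p)
    (cyc : (Ω ≃ₐ[K] Ω) → ZMod p) (hcyc : ∀ g, g ζ = ζ ^ (cyc g).val)
    (k : (Ω ≃ₐ[K] Ω) → ZMod p) (hk : ∀ g, g β = ζ ^ (k g).val * β)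
    (F : (Ω ≃ₐ[K] Ω) → ZMod p) (hFlev : IsLevel F)
    (hF : ∀ g h, k g * χ h = cyc g * F h - F (g * h) + F g) :
    ∃ y : Ω, (∀ s, χ s = 0 → s y = y) ∧ ∏ i ∈ range p, (σ ^ i) y = algebraMap K Ω b := by
  have hp : p.Prime := Fact.out
  have hζ1 : ζ ^ p = 1 := hζ.pow_eq_one
  have hβ0 : β ≠ 0 := by
    rintro rfl
    rw [zero_pow hp.ne_zero] at hβ
    exact (map_ne_zero (algebraMap K Ω)).2 hb hβ.symm
  refine symbol_coboundary_imp_norm χ hχ hχlev σ hσ b hb β hβ (fun g => zpw ζ (F g))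
    (fun g => zpw_ne_zero hζ1 _) (hFlev.comp (zpw ζ)) (fun g h => ?_)
  have e1 : g β / β = zpw ζ (k g) := by
    rw [hk g, mul_div_cancel_right₀ _ hβ0]
    rfl
  rw [e1, ← zpw_mul hζ1, hF g h, apply_zpw hζ1 g (cyc g) (hcyc g), sub_eq_add_neg,
    zpw_add hζ1, zpw_add hζ1, zpw_neg hζ1]

/-- **Symbol criterion, `ZMod p`-valued form, "norm ⟹ coboundary".** -/
theorem norm_imp_symbol_zmod_coboundary
    (χ : (Ω ≃ₐ[K] Ω) → ZMod p) (hχ : ∀ g h, χ (g * h) = χ g + χ h) (hχlev : IsLevel χ)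
    (σ : Ω ≃ₐ[K] Ω) (hσ : χ σ = 1)
    (b : K) (hb : b ≠ 0) (β : Ω) (hβ : β ^ p = algebraMap K Ω b)
    (ζ : Ω) (hζ : IsPrimitiveRoot ζ p)
    (cyc : (Ω ≃ₐ[K] Ω) → ZMod p) (hcyc : ∀ g, g ζ = ζ ^ (cyc g).val)
    (k : (Ω ≃ₐ[K] Ω) → ZMod p) (hk : ∀ g, g β = ζ ^ (k g).val * β)
    (y : Ω) (hy : ∀ s, χ s = 0 → s y = y)
    (hN : ∏ i ∈ range p, (σ ^ i) y = algebraMap K Ω b)
    (γ : Ω) (hγ : γ ^ p = ∏ j ∈ range p, ((σ ^ j) y) ^ j) (hγint : IsIntegral K γ) :
    ∃ F : (Ω ≃ₐ[K] Ω) → ZMod p, IsLevel F ∧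
      ∀ g h, k g * χ h = cyc g * F h - F (g * h) + F g := by
  have hp : p.Prime := Fact.out
  have hζ1 : ζ ^ p = 1 := hζ.pow_eq_one
  have hβ0 : β ≠ 0 := by
    rintro rfl
    rw [zero_pow hp.ne_zero] at hβ
    exact (map_ne_zero (algebraMap K Ω)).2 hb hβ.symm
  obtain ⟨f, hfp, hflev, hf⟩ :=
    norm_imp_symbol_coboundary χ hχ hχlev σ hσ b hb β hβ y hy hN γ hγ hγint
  have hinv : ∀ g, zpw ζ (Function.invFun (zpw (p := p) ζ) (f g)) = f g := fun g =>
    Function.invFun_eq (exists_zpw hζ (hfp g))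
  refine ⟨fun g => Function.invFun (zpw (p := p) ζ) (f g), hflev.comp _, fun g h => ?_⟩
  apply zpw_injective hζ
  have e1 : g β / β = zpw ζ (k g) := by
    rw [hk g, mul_div_cancel_right₀ _ hβ0]
    rfl
  rw [sub_eq_add_neg, zpw_add hζ1, zpw_add hζ1, zpw_neg hζ1, zpw_mul hζ1, ← e1, hf g h,
    ← apply_zpw hζ1 g (cyc g) (hcyc g), hinv, hinv, hinv]

/-! ### Existence and basic properties of cyclotomic and Kummer exponents -/

/-- The cyclotomic exponent of `ζ`. -/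
lemma exists_cycExp {ζ : Ω} (hζ : IsPrimitiveRoot ζ p) :
    ∃ cyc : (Ω ≃ₐ[K] Ω) → ZMod p, ∀ g, g ζ = ζ ^ (cyc g).val := by
  have hex : ∀ g : Ω ≃ₐ[K] Ω, ∃ a : ZMod p, zpw ζ a = g ζ := fun g =>
    exists_zpw hζ (by rw [← map_pow, hζ.pow_eq_one, map_one])
  choose cyc hcyc using hex
  exact ⟨cyc, fun g => (hcyc g).symm⟩

/-- The Kummer exponent of a `p`-th root `β` of `b ∈ Kˣ`. -/
lemma exists_kummerExp {ζ : Ω} (hζ : IsPrimitiveRoot ζ p) (b : K) (hb : b ≠ 0) (β : Ω)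
    (hβ : β ^ p = algebraMap K Ω b) :
    ∃ k : (Ω ≃ₐ[K] Ω) → ZMod p, ∀ g, g β = ζ ^ (k g).val * β := by
  have hp : p.Prime := Fact.out
  have hB0 : algebraMap K Ω b ≠ 0 := (map_ne_zero (algebraMap K Ω)).2 hb
  have hβ0 : β ≠ 0 := by
    rintro rfl
    rw [zero_pow hp.ne_zero] at hβ
    exact hB0 hβ.symm
  have hex : ∀ g : Ω ≃ₐ[K] Ω, ∃ a : ZMod p, zpw ζ a = g β / β := fun g =>
    exists_zpw hζ (by rw [div_pow, ← map_pow, hβ, g.commutes, div_self hB0])
  choose k hk using hex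
  refine ⟨k, fun g => ?_⟩
  have := hk g
  unfold zpw at this
  rw [this, div_mul_cancel₀ _ hβ0]

/-- The Kummer exponent is a (twisted) cocycle. -/
lemma kummerExp_mul {ζ : Ω} (hζ : IsPrimitiveRoot ζ p) {β : Ω} (hβ0 : β ≠ 0)
    (cyc : (Ω ≃ₐ[K] Ω) → ZMod p) (hcyc : ∀ g, g ζ = ζ ^ (cyc g).val)
    (k : (Ω ≃ₐ[K] Ω) → ZMod p) (hk : ∀ g, g β = ζ ^ (k g).val * β) (g h : Ω ≃ₐ[K] Ω) :
    k (g * h) = cyc g * k h + k g := by
  have hζ1 : ζ ^ p = 1 := hζ.pow_eq_one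
  apply zpw_injective hζ
  have e1 : (g * h) β = zpw ζ (k (g * h)) * β := hk (g * h)
  have e2 : (g * h) β = zpw ζ (cyc g * k h) * zpw ζ (k g) * β := by
    rw [AlgEquiv.mul_apply, hk h, map_mul, hk g, ← apply_zpw hζ1 g (cyc g) (hcyc g)]
    unfold zpw
    ring
  rw [zpw_add hζ1]
  exact mul_right_cancel₀ hβ0 (e1.symm.trans e2)

/-- The Kummer exponent is level-constant. -/
lemma isLevel_kummerExp {ζ : Ω} (hζ : IsPrimitiveRoot ζ p) {β : Ω} (hβ0 : β ≠ 0)
    (hβint : IsIntegral K β)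
    (k : (Ω ≃ₐ[K] Ω) → ZMod p) (hk : ∀ g, g β = ζ ^ (k g).val * β) : IsLevel k := by
  have e : k = fun g : Ω ≃ₐ[K] Ω => Function.invFun (zpw (p := p) ζ) (g β / β) := by
    funext g
    have : g β / β = zpw ζ (k g) := by
      rw [hk g, mul_div_cancel_right₀ _ hβ0]
      rfl
    rw [this]
    exact (Function.leftInverse_invFun (zpw_injective hζ) (k g)).symm
  rw [e]
  exact (isLevel_apply hβint).comp (fun x => Function.invFun (zpw (p := p) ζ) (x / β))

/-- The cyclotomic exponent is level-constant (for `ζ` integral over `K`). -/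
lemma isLevel_cycExp {ζ : Ω} (hζ : IsPrimitiveRoot ζ p) (hζint : IsIntegral K ζ)
    (cyc : (Ω ≃ₐ[K] Ω) → ZMod p) (hcyc : ∀ g, g ζ = ζ ^ (cyc g).val) : IsLevel cyc := by
  have e : cyc = fun g : Ω ≃ₐ[K] Ω => Function.invFun (zpw (p := p) ζ) (g ζ) := by
    funext g
    have : g ζ = zpw ζ (cyc g) := hcyc g
    rw [this]
    exact (Function.leftInverse_invFun (zpw_injective hζ) (cyc g)).symm
  rw [e]
  exact (isLevel_apply hζint).comp (fun x => Function.invFun (zpw (p := p) ζ) x)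

/-- A nonzero additive character takes the value `1`. -/
lemma exists_chi_eq_one (χ : (Ω ≃ₐ[K] Ω) → ZMod p) (hχ : ∀ g h, χ (g * h) = χ g + χ h)
    {g : Ω ≃ₐ[K] Ω} (hg : χ g ≠ 0) : ∃ σ, χ σ = 1 :=
  ⟨g ^ ((χ g)⁻¹).val, by rw [chi_pow χ hχ, ZMod.natCast_zmod_val, inv_mul_cancel₀ hg]⟩

/-- **Hilbert symbol criterion** (`μ_p ⊆ K`, i.e. `ζ` fixed by all automorphisms).
`α ^ p = a`, `β ^ p = b`, `ka`, `kb` their Kummer exponents, `σ α = ζ α`.
If the cup product cochain `(g, h) ↦ kb g * ka h` is the coboundary of a level-constant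
`F : G → ZMod p` (untwisted, since `μ_p ⊆ K`), then `b` is a norm from `K(α)`: there is `y`
fixed by the stabiliser of `α` with `∏_{i<p} σ^i y = b`. -/
theorem hilbert_symbol_coboundary_imp_norm
    (ζ : Ω) (hζ : IsPrimitiveRoot ζ p) (hζK : ∀ g : Ω ≃ₐ[K] Ω, g ζ = ζ)
    (a b : K) (ha : a ≠ 0) (hb : b ≠ 0) (α β : Ω)
    (hα : α ^ p = algebraMap K Ω a) (hβ : β ^ p = algebraMap K Ω b)
    (ka kb : (Ω ≃ₐ[K] Ω) → ZMod p)
    (hka : ∀ g, g α = ζ ^ (ka g).val * α) (hkb : ∀ g, g β = ζ ^ (kb g).val * β)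
    (σ : Ω ≃ₐ[K] Ω) (hσ : ka σ = 1)
    (F : (Ω ≃ₐ[K] Ω) → ZMod p) (hFlev : IsLevel F)
    (hF : ∀ g h, kb g * ka h = F h - F (g * h) + F g) :
    ∃ y : Ω, (∀ s : Ω ≃ₐ[K] Ω, s α = α → s y = y) ∧
      ∏ i ∈ range p, (σ ^ i) y = algebraMap K Ω b := by
  have hp : p.Prime := Fact.out
  have : Fact (1 < p) := ⟨hp.one_lt⟩
  have hα0 : α ≠ 0 := by
    rintro rfl
    rw [zero_pow hp.ne_zero] at hα
    exact (map_ne_zero (algebraMap K Ω)).2 ha hα.symm
  have hαint : IsIntegral K α := IsIntegral.of_pow hp.pos (hα ▸ isIntegral_algebraMap)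
  have hcyc : ∀ g : Ω ≃ₐ[K] Ω, g ζ = ζ ^ ((fun _ => 1 : (Ω ≃ₐ[K] Ω) → ZMod p) g).val := by
    intro g
    rw [hζK g, ZMod.val_one, pow_one]
  have hadd : ∀ g h, ka (g * h) = ka g + ka h := by
    intro g h
    rw [kummerExp_mul hζ hα0 (fun _ => 1) hcyc ka hka g h, one_mul, add_comm]
  obtain ⟨y, hy, hN⟩ := symbol_zmod_coboundary_imp_norm ka hadd
    (isLevel_kummerExp hζ hα0 hαint ka hka) σ hσ b hb β hβ ζ hζ (fun _ => 1) hcyc kb hkb F hFlev
    (fun g h => by rw [hF g h, one_mul])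
  refine ⟨y, fun s hs => hy s ?_, hN⟩
  apply zpw_injective hζ
  have h1 := hka s
  rw [hs] at h1
  have h2 : zpw ζ (ka s) * α = 1 * α := by rw [one_mul]; exact h1.symm
  rw [zpw_zero]
  exact mul_right_cancel₀ hα0 h2

/-- **Hilbert symbol criterion**, converse direction (needs `p`-th roots in `Ω`). -/
theorem norm_imp_hilbert_symbol_coboundary
    (hΩ : ∀ x : Ω, ∃ z : Ω, z ^ p = x) [Algebra.IsAlgebraic K Ω]
    (ζ : Ω) (hζ : IsPrimitiveRoot ζ p) (hζK : ∀ g : Ω ≃ₐ[K] Ω, g ζ = ζ)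
    (a b : K) (ha : a ≠ 0) (hb : b ≠ 0) (α β : Ω)
    (hα : α ^ p = algebraMap K Ω a) (hβ : β ^ p = algebraMap K Ω b)
    (ka kb : (Ω ≃ₐ[K] Ω) → ZMod p)
    (hka : ∀ g, g α = ζ ^ (ka g).val * α) (hkb : ∀ g, g β = ζ ^ (kb g).val * β)
    (σ : Ω ≃ₐ[K] Ω) (hσ : ka σ = 1)
    (y : Ω) (hy : ∀ s : Ω ≃ₐ[K] Ω, s α = α → s y = y)
    (hN : ∏ i ∈ range p, (σ ^ i) y = algebraMap K Ω b) :
    ∃ F : (Ω ≃ₐ[K] Ω) → ZMod p, IsLevel F ∧ ∀ g h, kb g * ka h = F h - F (g * h) + F g := by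
  have hp : p.Prime := Fact.out
  have : Fact (1 < p) := ⟨hp.one_lt⟩
  have hα0 : α ≠ 0 := by
    rintro rfl
    rw [zero_pow hp.ne_zero] at hα
    exact (map_ne_zero (algebraMap K Ω)).2 ha hα.symm
  have hαint : IsIntegral K α := IsIntegral.of_pow hp.pos (hα ▸ isIntegral_algebraMap)
  have hcyc : ∀ g : Ω ≃ₐ[K] Ω, g ζ = ζ ^ ((fun _ => 1 : (Ω ≃ₐ[K] Ω) → ZMod p) g).val := by
    intro g
    rw [hζK g, ZMod.val_one, pow_one]
  have hadd : ∀ g h, ka (g * h) = ka g + ka h := by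
    intro g h
    rw [kummerExp_mul hζ hα0 (fun _ => 1) hcyc ka hka g h, one_mul, add_comm]
  obtain ⟨γ, hγ⟩ := hΩ (∏ j ∈ range p, ((σ ^ j) y) ^ j)
  have hy' : ∀ s, ka s = 0 → s y = y := by
    intro s hs
    apply hy
    rw [hka s, hs, ZMod.val_zero, pow_zero, one_mul]
  obtain ⟨F, hFlev, hF⟩ := norm_imp_symbol_zmod_coboundary ka hadd
    (isLevel_kummerExp hζ hα0 hαint ka hka) σ hσ b hb β hβ ζ hζ (fun _ => 1) hcyc kb hkb y hy' hN
    γ hγ (Algebra.IsIntegral.isIntegral γ)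
  exact ⟨F, hFlev, fun g h => by rw [hF g h, one_mul]⟩

end Symbol

end Fermat.Agent.S55.helper2554
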