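/-
S55 / LA layer (helper932): `H²(G_K, μ_p) ≠ 0` on the LocalSpec carrier, i.e.
`helper9554.Stmt_LB1_ne K (PadicAlgCl l) p` for every finite `K/ℚ_l` (no root of unity in `K`).

(A) General (any Galois `Ω/K`): for a Galois subextension `L/K` of prime degree `p` there is a
    surjective level character `χ : Gal(Ω/K) → ZMod p` with kernel `L.fixingSubgroup`; elements
    fixed by `ker χ` lie in `L` and `∏_{i<p} σ^i y = N_{L/K} y`; hence, for `b ∈ Kˣ` not a norm
    from `L` and `β ^ p = b`, the cup cochain `(g, h) ↦ (g β / β) ^ χ(h)` is a `μ_p`-valued level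
    2-cocycle which is not the coboundary of a `μ_p`-valued level 1-cochain.
(B) Existence of a Galois extension of degree `p` of every finite `K/ℚ_l` inside `PadicAlgCl l`.
(C) `stmt_LocalLB1_ne`.
-/
import Mathlib
import Fermat.Agent.S55.helper9554_LocalSpec
import Fermat.Agent.S55.helper2554_Symbol
import Fermat.Agent.S55.helper913_LocalNormIdx
import Fermat.Agent.S55.helper8845_CycloTower
import Fermat.Agent.S55.helper814_LB2Final

set_option autoImplicit false

namespace Fermat.Agent.S55.helper932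

open Finset IntermediateField groupCohomology
open Fermat.Agent.S55.helper9554

/-! ## (A) The character of a Galois subextension of prime degree -/

section General

variable {K Ω : Type*} [Field K] [Field Ω] [Algebra K Ω] [IsGalois K Ω]
variable {p : ℕ} [Fact p.Prime]

/-- The data attached to a Galois subextension `L/K` of degree `p`: a surjective additive
character of `Gal(Ω/K)` with kernel `L.fixingSubgroup`. -/
theorem exists_char_of_degree_p (L : IntermediateField K Ω) [IsGalois K L]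
    (hrank : Module.finrank K L = p) :
    ∃ χ : (Ω ≃ₐ[K] Ω) → ZMod p, (∀ g h, χ (g * h) = χ g + χ h) ∧
      (∀ s, χ s = 0 ↔ s ∈ L.fixingSubgroup) ∧ ∃ σ, χ σ = 1 := by
  have hp : p.Prime := Fact.out
  have : NeZero p := ⟨hp.ne_zero⟩
  have hfin : FiniteDimensional K L :=
    Module.finite_of_finrank_pos (by rw [hrank]; exact hp.pos)
  have hcard : Nat.card (L ≃ₐ[K] L) = p := (IsGalois.card_aut_eq_finrank K L).trans hrank
  have hcard' : Nat.card (Multiplicative (ZMod p)) = p := by
    rw [Nat.card_congr Multiplicative.toAdd, Nat.card_zmod]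
  let e : (L ≃ₐ[K] L) ≃* Multiplicative (ZMod p) := mulEquivOfPrimeCardEq hcard hcard'
  let χ₀ : (Ω ≃ₐ[K] Ω) →* Multiplicative (ZMod p) :=
    e.toMonoidHom.comp (AlgEquiv.restrictNormalHom L)
  have hker : ∀ s : Ω ≃ₐ[K] Ω, χ₀ s = 1 ↔ s ∈ L.fixingSubgroup := by
    intro s
    rw [← L.restrictNormalHom_ker, MonoidHom.mem_ker]
    show e (AlgEquiv.restrictNormalHom L s) = 1 ↔ _
    exact e.map_eq_one_iff
  refine ⟨fun g => Multiplicative.toAdd (χ₀ g), fun g h => ?_, fun s => ?_, ?_⟩
  · show Multiplicative.toAdd (χ₀ (g * h)) = _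
    rw [map_mul]
    rfl
  · rw [← hker s]
    exact Iff.rfl
  · obtain ⟨σ, hσ⟩ := (e.surjective.comp (AlgEquiv.restrictNormalHom_surjective Ω))
      (Multiplicative.ofAdd 1)
    refine ⟨σ, ?_⟩
    show Multiplicative.toAdd (χ₀ σ) = 1
    have : χ₀ σ = Multiplicative.ofAdd 1 := hσ
    rw [this]
    rfl

omit [IsGalois K Ω] in
/-- **Norm bridge** for a Galois subextension `L/K` of degree `p` with character `χ`
(`χ σ = 1`): the product of the `σ^i y`, `i < p`, is the norm of `y ∈ L`. -/
theorem prod_pow_apply_eq_norm_of_char (L : IntermediateField K Ω) [IsGalois K L]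
    (hrank : Module.finrank K L = p) (χ : (Ω ≃ₐ[K] Ω) → ZMod p)
    (hχ : ∀ g h, χ (g * h) = χ g + χ h) (hker : ∀ s, χ s = 0 ↔ s ∈ L.fixingSubgroup)
    (σ : Ω ≃ₐ[K] Ω) (hσ : χ σ = 1) (y : L) :
    ∏ i ∈ range p, (σ ^ i) (y : Ω) = algebraMap K Ω (Algebra.norm K y) := by
  classical
  have hp : p.Prime := Fact.out
  have : NeZero p := ⟨hp.ne_zero⟩
  have hfin : FiniteDimensional K L :=
    Module.finite_of_finrank_pos (by rw [hrank]; exact hp.pos)
  set τ : L ≃ₐ[K] L := AlgEquiv.restrictNormalHom L σ with hτdef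
  have hτ : ∀ (i : ℕ) (x : L), ((τ ^ i) x : Ω) = (σ ^ i) (x : Ω) := by
    intro i x
    rw [hτdef, ← map_pow]
    exact AlgEquiv.restrictNormal_commutes (σ ^ i) L x
  have hinj : Set.InjOn (fun i : ℕ => τ ^ i) (range p : Finset ℕ) := by
    intro i hi j hj hij
    have hij' : AlgEquiv.restrictNormalHom L (σ ^ i) = AlgEquiv.restrictNormalHom L (σ ^ j) := by
      rw [map_pow, map_pow]
      exact hij
    have hmem : (σ ^ j)⁻¹ * σ ^ i ∈ L.fixingSubgroup := by
      rw [← L.restrictNormalHom_ker, MonoidHom.mem_ker, map_mul, map_inv, hij', inv_mul_cancel]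
    have h0 := (hker _).2 hmem
    rw [hχ, Fermat.Agent.S55.helper2554.chi_inv χ hχ, Fermat.Agent.S55.helper2554.chi_pow χ hχ,
      Fermat.Agent.S55.helper2554.chi_pow χ hχ, hσ, mul_one, mul_one] at h0
    have h1 : (i : ZMod p) = (j : ZMod p) := by linear_combination h0
    have h2 := (ZMod.natCast_eq_natCast_iff' i j p).1 h1
    rw [Nat.mod_eq_of_lt (mem_range.1 hi), Nat.mod_eq_of_lt (mem_range.1 hj)] at h2
    exact h2
  have h := Algebra.norm_eq_prod_automorphisms K y
  have himg : (range p).image (fun i : ℕ => τ ^ i) = Finset.univ := by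
    apply Finset.eq_univ_of_card
    rw [Finset.card_image_of_injOn hinj, card_range, ← Nat.card_eq_fintype_card,
      IsGalois.card_aut_eq_finrank, hrank]
  rw [← himg, Finset.prod_image hinj] at h
  have h2 := congrArg (algebraMap L Ω) h
  rw [← IsScalarTower.algebraMap_apply, map_prod] at h2
  rw [h2]
  exact Finset.prod_congr rfl fun i _ => (hτ i y).symm

/-- **`H²(G_K, μ_p) ≠ 0` from one non-norm.**  If `L/K` is a Galois subextension of `Ω/K` of
prime degree `p`, `b ∈ Kˣ` is not a norm from `L` and `β ^ p = b`, then the cup product of the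
Kummer cocycle `g ↦ g β / β` with the character of `L` is a `μ_p`-valued level 2-cocycle which
is not the coboundary of a `μ_p`-valued level 1-cochain (not even of an `Ωˣ`-valued one). -/
theorem exists_cup_not_isBrCob₂_of_degree_p (L : IntermediateField K Ω) [IsGalois K L]
    (hrank : Module.finrank K L = p) {b : K} (hb : b ≠ 0)
    (hN : ∀ y : L, Algebra.norm K y ≠ b) (β : Ωˣ) (hβ : (β : Ω) ^ p = algebraMap K Ω b) :
    ∃ χ : (Ω ≃ₐ[K] Ω) → ZMod p, IsLevelChar p χ ∧ (∃ σ, χ σ = 1) ∧
      (∀ s, χ s = 0 ↔ s ∈ L.fixingSubgroup) ∧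
      IsMuCocycle₁ p (fun g : Ω ≃ₐ[K] Ω => g • β / β) ∧
      IsMuCocycle₂ p (cupMu (fun g : Ω ≃ₐ[K] Ω => g • β / β) χ) ∧
      ¬ IsBrCob₂ (cupMu (fun g : Ω ≃ₐ[K] Ω => g • β / β) χ) := by
  have hp : p.Prime := Fact.out
  have : NeZero p := ⟨hp.ne_zero⟩
  have hfin : FiniteDimensional K L :=
    Module.finite_of_finrank_pos (by rw [hrank]; exact hp.pos)
  obtain ⟨χ, hχ, hker, σ, hσ⟩ := exists_char_of_degree_p L hrank
  have hχlev : IsLevel₁ χ :=
    ⟨L, hfin, fun g s hs => by rw [hχ, (hker s).2 hs, add_zero]⟩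
  have hχchar : IsLevelChar p χ := ⟨hχ, hχlev⟩
  have hβint : IsIntegral K (β : Ω) := by
    refine ⟨Polynomial.X ^ p - Polynomial.C b, Polynomial.monic_X_pow_sub_C b hp.ne_zero, ?_⟩
    simp [hβ]
  have hκ : IsMuCocycle₁ p (fun g : Ω ≃ₐ[K] Ω => g • β / β) := by
    refine ⟨fun g h => ?_, ?_, fun g => ?_⟩
    · apply Units.ext
      simp only [Units.val_div_eq_div_val, AlgEquiv.smul_units_def, Units.coe_map,
        MonoidHom.coe_coe, Units.val_mul, AlgEquiv.mul_apply, map_div₀]
      have h1 : (β : Ω) ≠ 0 := β.ne_zero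
      have h2 : g (β : Ω) ≠ 0 := (map_ne_zero g).2 h1
      field_simp
    · refine ⟨K⟮(β : Ω)⟯, IntermediateField.adjoin.finiteDimensional hβint, fun g s hs => ?_⟩
      have hmem : (β : Ω) ∈ K⟮(β : Ω)⟯ := mem_adjoin_simple_self K (β : Ω)
      have hsβ : s (β : Ω) = β := by
        have := (IntermediateField.mem_fixingSubgroup_iff _ s).1 hs _ hmem
        simpa using this
      apply Units.ext
      simp only [Units.val_div_eq_div_val, AlgEquiv.smul_units_def, Units.coe_map,
        MonoidHom.coe_coe, AlgEquiv.mul_apply, hsβ]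
    · apply Units.ext
      simp only [Units.val_div_eq_div_val, AlgEquiv.smul_units_def, Units.coe_map,
        MonoidHom.coe_coe, Units.val_pow_eq_pow_val, Units.val_one]
      rw [div_pow, ← map_pow, hβ, AlgEquiv.commutes, div_self]
      exact (map_ne_zero (algebraMap K Ω)).2 hb
  refine ⟨χ, hχchar, ⟨σ, hσ⟩, hker, hκ, isMuCocycle₂_cupMu hκ hχchar, ?_⟩
  rintro ⟨x, hxlev, hx⟩
  obtain ⟨y, hy, hprod⟩ := Fermat.Agent.S55.helper2554.symbol_coboundary_imp_norm χ hχ hχlev σ hσ
    b hb (β : Ω) hβ (fun g => (x g : Ω)) (fun g => (x g).ne_zero) (hxlev.comp _)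
    (fun g h => by
      have h1 := congrArg Units.val (congrFun hx (g, h))
      simp only [cupMu, dOne, Units.val_pow_eq_pow_val, Units.val_div_eq_div_val,
        AlgEquiv.smul_units_def, Units.coe_map, MonoidHom.coe_coe, Units.val_mul] at h1
      rw [h1, div_eq_mul_inv])
  have hyL : y ∈ L := by
    rw [← InfiniteGalois.fixedField_fixingSubgroup L, IntermediateField.mem_fixedField_iff]
    intro s hs
    exact hy s ((hker s).2 hs)
  have h := prod_pow_apply_eq_norm_of_char L hrank χ hχ hker σ hσ ⟨y, hyL⟩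
  exact hN ⟨y, hyL⟩ ((algebraMap K Ω).injective (h.symm.trans hprod))

/-- `Stmt_LB1_ne` from a Galois subextension of degree `p` with a non-norm that has a `p`-th
root in `Ω`. -/
theorem stmt_LB1_ne_of_degree_p (L : IntermediateField K Ω) [IsGalois K L]
    (hrank : Module.finrank K L = p) {b : K} (hb : b ≠ 0)
    (hN : ∀ y : L, Algebra.norm K y ≠ b) {β : Ω} (hβ : β ^ p = algebraMap K Ω b) :
    Stmt_LB1_ne K Ω p := by
  have hp : p.Prime := Fact.out
  have hβ0 : β ≠ 0 := by
    rintro rfl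
    rw [zero_pow hp.ne_zero] at hβ
    exact (map_ne_zero (algebraMap K Ω)).2 hb hβ.symm
  obtain ⟨χ, -, -, -, -, hcoc, hncob⟩ :=
    exists_cup_not_isBrCob₂_of_degree_p L hrank hb hN (Units.mk0 β hβ0) hβ
  exact ⟨_, hcoc, fun h => hncob h.isBrCob₂⟩

end General

/-! ## (B) Existence of a Galois extension of degree `p` -/

section GroupTheory

/-- A finite commutative group whose order is divisible by the prime `p` has a (normal)
subgroup of index `p`. -/
theorem exists_subgroup_index_eq_prime_of_comm {G : Type*} [Group G] [Finite G]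
    (hcomm : ∀ a b : G, a * b = b * a) {p : ℕ} [Fact p.Prime] (hdvd : p ∣ Nat.card G) :
    ∃ H : Subgroup G, H.Normal ∧ H.index = p := by
  classical
  have hp : p.Prime := Fact.out
  have : NeZero p := ⟨hp.ne_zero⟩
  let _ : CommGroup G := { (inferInstance : Group G) with mul_comm := hcomm }
  obtain ⟨ι, _, n, hn, ⟨e⟩⟩ := CommGroup.equiv_prod_multiplicative_zmod_of_finite G
  have hn0 : ∀ i, NeZero (n i) := fun i => ⟨by have := hn i; omega⟩
  have hcard : Nat.card G = ∏ i, n i := by
    rw [Nat.card_congr e.toEquiv, Nat.card_pi]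
    refine Finset.prod_congr rfl fun i _ => ?_
    rw [Nat.card_congr Multiplicative.toAdd, Nat.card_zmod]
  rw [hcard] at hdvd
  obtain ⟨i, -, hi⟩ := (Prime.dvd_finsetProd_iff hp.prime _).1 hdvd
  let f : G →* Multiplicative (ZMod p) :=
    (AddMonoidHom.toMultiplicative (ZMod.castHom hi (ZMod p)).toAddMonoidHom).comp
      ((Pi.evalMonoidHom (fun i => Multiplicative (ZMod (n i))) i).comp e.toMonoidHom)
  have hf : Function.Surjective f := by
    intro y
    obtain ⟨z, hz⟩ := ZMod.castHom_surjective hi (Multiplicative.toAdd y)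
    obtain ⟨w, hw⟩ := e.surjective (Pi.mulSingle i (Multiplicative.ofAdd z))
    refine ⟨w, ?_⟩
    show Multiplicative.ofAdd (ZMod.castHom hi (ZMod p) (Multiplicative.toAdd (e w i))) = y
    rw [hw, Pi.mulSingle_eq_same, toAdd_ofAdd, hz, ofAdd_toAdd]
  refine ⟨f.ker, inferInstance, ?_⟩
  rw [Subgroup.index_ker, MonoidHom.range_eq_top.2 hf, Nat.card_congr Subgroup.topEquiv.toEquiv,
    Nat.card_congr Multiplicative.toAdd, Nat.card_zmod]

end GroupTheory

section Existence

variable (l : ℕ) [Fact l.Prime] {p : ℕ} [Fact p.Prime]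

/-- Kummer case: if `K` contains a primitive `p`-th root of unity, `K(a^{1/p})` is Galois of
degree `p` for a non-`p`-th-power `a` (which exists by the index of `p`-th powers). -/
theorem exists_galois_degree_p_of_primitiveRoot
    (K : IntermediateField ℚ_[l] (PadicAlgCl l)) [FiniteDimensional ℚ_[l] K] (ζ : K)
    (hζ : IsPrimitiveRoot ζ p) :
    ∃ L : IntermediateField K (PadicAlgCl l), IsGalois K L ∧ Module.finrank K L = p := by
  have hp : p.Prime := Fact.out
  have hidx := helper8235.index_range_pow_units_padic l p K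
  have hne : (powMonoidHom p : Kˣ →* Kˣ).range ≠ ⊤ := by
    intro htop
    rw [htop, Subgroup.index_top, mul_assoc] at hidx
    exact hp.one_lt.ne' (Nat.eq_one_of_mul_eq_one_right hidx.symm)
  obtain ⟨u, hu⟩ : ∃ u : Kˣ, u ∉ (powMonoidHom p : Kˣ →* Kˣ).range := by
    by_contra hcon
    exact hne (eq_top_iff.2 fun u _ => not_not.1 (not_exists.1 hcon u))
  have ha : ∀ c : K, c ^ p ≠ (u : K) := by
    intro c hc
    have hc0 : c ≠ 0 := by
      rintro rfl
      rw [zero_pow hp.ne_zero] at hc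
      exact u.ne_zero hc.symm
    exact hu ⟨Units.mk0 c hc0, Units.ext hc⟩
  obtain ⟨α, hα⟩ := IsAlgClosed.exists_pow_nat_eq (algebraMap K (PadicAlgCl l) (u : K)) hp.pos
  have hα0 : α ≠ 0 := by
    rintro rfl
    rw [zero_pow hp.ne_zero] at hα
    exact (map_ne_zero (algebraMap K (PadicAlgCl l))).2 u.ne_zero hα.symm
  exact ⟨K⟮α⟯, helper814.isGalois_adjoin_root hζ hα hα0, helper814.finrank_adjoin_root hp ha hα⟩

/-- Cyclotomic case (`p` odd): the degree-`p` layer of `K(ζ_{p^(m+1)}) / K`, `m` large. -/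
theorem exists_galois_degree_p_of_ne_two (hp2 : p ≠ 2)
    (K : IntermediateField ℚ_[l] (PadicAlgCl l)) [FiniteDimensional ℚ_[l] K] :
    ∃ L : IntermediateField K (PadicAlgCl l), IsGalois K L ∧ Module.finrank K L = p := by
  classical
  have hp : p.Prime := Fact.out
  obtain ⟨m, hm1, hstep⟩ := helper8845.exists_local_cyclo_step (q := l) hp hp2 K
  obtain ⟨τ₀, hτ₀K, hfix, hmove⟩ := hstep m le_rfl
  obtain ⟨ζ, hζ⟩ := helper8845.exists_isPrimitiveRoot_padicAlgCl (q := l) hp (m + 1)
  -- `τ₀` as a `K`-automorphism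
  let τ : PadicAlgCl l ≃ₐ[K] PadicAlgCl l := IntermediateField.fixingSubgroupEquiv K ⟨τ₀, hτ₀K⟩
  have hτ : ∀ x, τ x = τ₀ x := fun x => rfl
  have hn0 : NeZero (p ^ (m + 1)) := ⟨pow_ne_zero _ hp.ne_zero⟩
  -- the cyclotomic field
  let M : IntermediateField K (PadicAlgCl l) := K⟮ζ⟯
  have hcyc : IsCyclotomicExtension {p ^ (m + 1)} K M :=
    hζ.intermediateField_adjoin_isCyclotomicExtension K
  have hgal : IsGalois K M := IsCyclotomicExtension.isGalois {p ^ (m + 1)} K M
  have hfinM : FiniteDimensional K M := IsCyclotomicExtension.finiteDimensional {p ^ (m + 1)} K M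
  have hcomm : ∀ a b : M ≃ₐ[K] M, a * b = b * a := fun a b =>
    (IsCyclotomicExtension.isMulCommutative {p ^ (m + 1)} K M).is_comm.comm a b
  -- `τ ^ p` fixes `ζ`
  have hζ0 : ζ ≠ 0 := hζ.ne_zero (pow_ne_zero _ hp.ne_zero)
  have hηp : (τ ζ / ζ) ^ p = 1 := by
    have h1 : τ (ζ ^ p) = ζ ^ p := by
      rw [hτ]
      apply hfix
      rw [← pow_mul, ← pow_succ']
      exact hζ.pow_eq_one
    rw [div_pow, ← map_pow, h1, div_self (pow_ne_zero _ hζ0)]
  have hτη : τ (τ ζ / ζ) = τ ζ / ζ := by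
    rw [hτ (τ ζ / ζ)]
    apply hfix
    obtain ⟨k, rfl⟩ : ∃ k, m = k + 1 := ⟨m - 1, by omega⟩
    rw [pow_succ', pow_mul, hηp, one_pow]
  have hτζ : τ ζ = (τ ζ / ζ) * ζ := by rw [div_mul_cancel₀ _ hζ0]
  have hpow : ∀ k : ℕ, (τ ^ k) ζ = (τ ζ / ζ) ^ k * ζ := by
    intro k
    induction k with
    | zero => simp
    | succ k ih =>
      rw [pow_succ', AlgEquiv.mul_apply, ih, map_mul, map_pow, hτη, pow_succ]
      rw [mul_assoc, ← hτζ]
  have hτpζ : (τ ^ p) ζ = ζ := by rw [hpow, hηp, one_mul]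
  have hτζne : τ ζ ≠ ζ := by
    rw [hτ]
    exact hmove ζ hζ
  -- restriction to `M`
  have hζM : ζ ∈ M := mem_adjoin_simple_self K ζ
  let τM : M ≃ₐ[K] M := AlgEquiv.restrictNormalHom M τ
  have hτM1 : τM ≠ 1 := by
    intro h
    have hmem : τ ∈ M.fixingSubgroup := by
      rw [← M.restrictNormalHom_ker, MonoidHom.mem_ker]
      exact h
    have := (IntermediateField.mem_fixingSubgroup_iff _ τ).1 hmem ζ hζM
    exact hτζne (by simpa using this)
  have hτMp : τM ^ p = 1 := by
    have hle : M ≤ IntermediateField.fixedField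
        (MulAction.stabilizer (PadicAlgCl l ≃ₐ[K] PadicAlgCl l) ζ) := by
      rw [adjoin_simple_le_iff, IntermediateField.mem_fixedField_iff]
      intro g hg
      exact MulAction.mem_stabilizer_iff.1 hg
    have hmem : τ ^ p ∈ M.fixingSubgroup := by
      rw [IntermediateField.mem_fixingSubgroup_iff]
      intro x hx
      exact (IntermediateField.mem_fixedField_iff _ x).1 (hle hx) (τ ^ p)
        (MulAction.mem_stabilizer_iff.2 hτpζ)
    have h1 : AlgEquiv.restrictNormalHom M (τ ^ p) = 1 := by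
      rw [← MonoidHom.mem_ker, M.restrictNormalHom_ker]
      exact hmem
    rw [← h1, map_pow]
  have hord : orderOf τM = p := orderOf_eq_prime hτMp hτM1
  have hdvd : p ∣ Nat.card (M ≃ₐ[K] M) := hord ▸ orderOf_dvd_natCard τM
  obtain ⟨H, hHn, hHidx⟩ := exists_subgroup_index_eq_prime_of_comm hcomm hdvd
  have := hHn
  have hL₀rank : Module.finrank K (IntermediateField.fixedField H) = p := by
    rw [IntermediateField.finrank_eq_fixingSubgroup_index,
      IntermediateField.fixingSubgroup_fixedField, hHidx]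
  have hL₀gal : IsGalois K (IntermediateField.fixedField H) := inferInstance
  refine ⟨IntermediateField.lift (IntermediateField.fixedField H),
    IsGalois.of_algEquiv (IntermediateField.liftAlgEquiv (IntermediateField.fixedField H)), ?_⟩
  rw [← hL₀rank]
  exact (IntermediateField.liftAlgEquiv
    (IntermediateField.fixedField H)).toLinearEquiv.finrank_eq.symm

/-- **Every finite extension `K` of `ℚ_l` has a Galois extension of degree `p`** inside
`PadicAlgCl l` (`l = p` and `p = 2` allowed, no root of unity assumed in `K`). -/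
theorem exists_galois_degree_p
    (K : IntermediateField ℚ_[l] (PadicAlgCl l)) [FiniteDimensional ℚ_[l] K] :
    ∃ L : IntermediateField K (PadicAlgCl l), IsGalois K L ∧ Module.finrank K L = p := by
  by_cases hp2 : p = 2
  · subst hp2
    exact exists_galois_degree_p_of_primitiveRoot l K (-1)
      (IsPrimitiveRoot.neg_one 0 (by norm_num))
  · exact exists_galois_degree_p_of_ne_two l hp2 K

end Existence

/-! ## (C) `H²(G_K, μ_p) ≠ 0` for every finite `K/ℚ_l` -/

/-- **`(LB1, ≥)` on the local carrier**: for every finite extension `K` of `ℚ_l` inside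
`PadicAlgCl l` (no root of unity assumed) there is a `μ_p`-valued level 2-cocycle of
`Gal(PadicAlgCl l / K)` which is not the coboundary of a `μ_p`-valued level 1-cochain. -/
theorem stmt_LocalLB1_ne (l p : ℕ) [Fact l.Prime] [Fact p.Prime] :
    ∀ K : IntermediateField ℚ_[l] (PadicAlgCl l), FiniteDimensional ℚ_[l] K →
      Stmt_LB1_ne K (PadicAlgCl l) p := by
  intro K hK
  have := hK
  have hp : p.Prime := Fact.out
  obtain ⟨L, hL, hrank⟩ := exists_galois_degree_p l (p := p) K
  have := hL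
  obtain ⟨b, hb, hN⟩ := helper913.stmt_LocalNormNotOnto l p K hK L hL hrank
  obtain ⟨β, hβ⟩ := IsAlgClosed.exists_pow_nat_eq (algebraMap K (PadicAlgCl l) b) hp.pos
  exact stmt_LB1_ne_of_degree_p L hrank hb hN hβ

/-- **Every finite extension `K` of `ℚ_l` has a surjective level character
`Gal(PadicAlgCl l / K) → ZMod p`** (all primes `l`, `p`; no root of unity assumed in `K`);
its kernel is the fixing subgroup of a Galois extension `L/K` of degree `p`. -/
theorem exists_levelChar_eq_one (l p : ℕ) [Fact l.Prime] [Fact p.Prime]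
    (K : IntermediateField ℚ_[l] (PadicAlgCl l)) [FiniteDimensional ℚ_[l] K] :
    ∃ (L : IntermediateField K (PadicAlgCl l)) (χ : (PadicAlgCl l ≃ₐ[K] PadicAlgCl l) → ZMod p),
      IsGalois K L ∧ Module.finrank K L = p ∧ IsLevelChar p χ ∧
      (∀ s, χ s = 0 ↔ s ∈ L.fixingSubgroup) ∧ ∃ σ, χ σ = 1 := by
  have hp : p.Prime := Fact.out
  obtain ⟨L, hL, hrank⟩ := exists_galois_degree_p l (p := p) K
  have := hL
  have hfin : FiniteDimensional K L :=
    Module.finite_of_finrank_pos (by rw [hrank]; exact hp.pos)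
  obtain ⟨χ, hχ, hker, σ, hσ⟩ := exists_char_of_degree_p L hrank
  exact ⟨L, χ, hL, hrank, ⟨hχ, L, hfin, fun g s hs => by rw [hχ, (hker s).2 hs, add_zero]⟩,
    hker, σ, hσ⟩

/-- Every finite extension `K` of `ℚ_l` has a nonzero level character
`Gal(PadicAlgCl l / K) → ZMod p`. -/
theorem exists_levelChar_ne_zero (l p : ℕ) [Fact l.Prime] [Fact p.Prime]
    (K : IntermediateField ℚ_[l] (PadicAlgCl l)) [FiniteDimensional ℚ_[l] K] :
    ∃ χ : (PadicAlgCl l ≃ₐ[K] PadicAlgCl l) → ZMod p, IsLevelChar p χ ∧ ∃ g, χ g ≠ 0 := by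
  have hp : p.Prime := Fact.out
  have : Fact (1 < p) := ⟨hp.one_lt⟩
  obtain ⟨L, χ, -, -, hχ, -, σ, hσ⟩ := exists_levelChar_eq_one l p K
  exact ⟨χ, hχ, σ, by rw [hσ]; exact one_ne_zero⟩

end Fermat.Agent.S55.helper932
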