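/-
S55 (Poitou–Tate), LOCAL layer: the last link `(LB1)-line for μ_p ⊆ K` ⟹ `helper665.Stmt_LB1All`.

`Stmt_LB1LineZeta` is the ONE arithmetic statement the LOCAL chain still needs from the
symbol-line assembly (helper164 / helper814 / helper8827): for every odd prime `p`, every prime `l`
and every finite `K/ℚ_l` inside `PadicAlgCl l` containing a primitive `p`-th root of unity, the
`μ_p`-valued level `2`-cocycles of `G_K` form at most a line modulo level coboundaries.

`stmt_LB1All_of_lineZeta` composes it with
* `helper932.stmt_LocalLB1_ne` (`H²(G_K, μ_p) ≠ 0`, unconditional), and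
* `helper2353.stmt_LocalLB1_of` (descent from `K(ζ_p)` to `K` by the prime-to-`p` transfer),
and ends in `helper665.Stmt_LB1All` verbatim.
-/
import Mathlib
import Fermat.Agent.S55.helper2353_LB1Zeta
import Fermat.Agent.S55.helper932_LB1Ne
import Fermat.Agent.S55.helper665_LocalAsm
import Fermat.Agent.S55.helper164_LB1

set_option autoImplicit false

namespace Fermat.Agent.S55.helper2353

/-- `(LB1)`-line for local fields containing `μ_p`, `p` odd: the remaining arithmetic input of the
LOCAL chain, in closed form. -/
def Stmt_LB1LineZeta : Prop :=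
  ∀ (l p : ℕ) [Fact l.Prime] [Fact p.Prime], p ≠ 2 →
    ∀ K : IntermediateField ℚ_[l] (PadicAlgCl l), FiniteDimensional ℚ_[l] K →
      (∃ ζ : K, IsPrimitiveRoot ζ p) → helper9554.Stmt_LB1_line K (PadicAlgCl l) p

/-- `helper665.Stmt_LB1All` from the line statement for fields containing `μ_p`. -/
theorem stmt_LB1All_of_lineZeta (h : Stmt_LB1LineZeta) : helper665.Stmt_LB1All :=
  fun l p _ _ hp2 => stmt_LocalLB1_of l p (h l p hp2) (helper932.stmt_LocalLB1_ne l p)

/-- The invariant half of the local package from the line statement. -/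
theorem stmt_LocInvAll_of_lineZeta (h : Stmt_LB1LineZeta) : helper665.Stmt_LocInvAll :=
  helper665.stmt_LocInvAll_of_LB1All (stmt_LB1All_of_lineZeta h)

/-- **`Stmt_LB1LineZeta` is a theorem**: the symbol-line assembly of helper164
(`helper164.stmt_LB1_line_padic`, from `helper164_GaloisSymbol`, `helper913_IntrinsicNI`,
`helper9554_LB1Adapter`).  So `helper665.Stmt_LB1All` (`helper164.stmt_LB1All`) and
`helper665.Stmt_LocInvAll` (`stmt_LocInvAll` below) hold unconditionally. -/
theorem stmt_LB1LineZeta : Stmt_LB1LineZeta := fun l p _ _ hp2 K hK hζ =>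
  @helper164.stmt_LB1_line_padic l p _ _ hp2 K hK hζ

/-- `H²(ℚ_q, μ_p)` is a line for every prime `q` and every odd prime `p`, unconditionally. -/
theorem stmt_LocInvAll : helper665.Stmt_LocInvAll :=
  stmt_LocInvAll_of_lineZeta stmt_LB1LineZeta

end Fermat.Agent.S55.helper2353
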