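/-
S55, local layer closed (helper164): the local package `helper665.Stmt_LocalL2` (local invariant,
local duality (L2) injective and surjective, at every prime, `p` odd) is an unconditional theorem.

* `helper164_LB1`        : `(LB1)`, i.e. `helper665.Stmt_LB1All` (symbol-line route);
* `helper2113_L2InjLoc`  : `Stmt_LB1All → Stmt_LocL2InjAll`;
* `helper2690_L2Surj`    : `Stmt_LocL2InjAll → Stmt_LB1All → Stmt_LocalL2`.
-/
import Mathlib
import Fermat.Agent.S55.helper164_LB1
import Fermat.Agent.S55.helper2353_LB1All
import Fermat.Agent.S55.helper2113_L2InjLoc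
import Fermat.Agent.S55.helper2690_L2Surj

set_option autoImplicit false

namespace Fermat.Agent.S55.helper164

/-- The line half of `(LB1)` for local fields containing `μ_p`, in the ledger shape. -/
theorem stmt_LB1LineZeta : helper2353.Stmt_LB1LineZeta := fun l p _ _ hp2 K hK hζ => by
  haveI := hK
  exact stmt_LB1_line_padic l p hp2 K hζ

/-- **The local package** of the Poitou–Tate project: closed. -/
theorem stmt_LocalL2 : helper665.Stmt_LocalL2 :=
  helper2690.stmt_LocalL2_of_inj (helper2113.stmt_LocL2InjAll_of_LB1All stmt_LB1All) stmt_LB1All

end Fermat.Agent.S55.helper164
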