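/-
S55, GB layer glue (helper1720): `helper1145.Stmt_IndFin` from `helper3071.Stmt_FieldFin` and the
Shapiro equivalence in degree 2 (`helper62.stmt_Shapiro`), hence `helper1145.Stmt_TGC` from
`Stmt_FieldGE` and `Stmt_FieldFin` alone.
-/
import Mathlib
import Fermat.Agent.S55.helper3071_GlobalBridge
import Fermat.Agent.S55.helper62_GBShapiro
import Fermat.Agent.S55.helper1145_CoindGC

set_option autoImplicit false

namespace Fermat.Agent.S55.helper1720

open Fermat.Agent.S55

/-- Finiteness of `H²(G_S, coind_F 𝔽_p)` on the frozen carrier from the field-level finiteness,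
through the Shapiro equivalence in degree 2. -/
theorem stmt_IndFin_of_fieldFin (hFin : helper3071.Stmt_FieldFin) : helper1145.Stmt_IndFin := by
  intro S p F hF
  obtain ⟨-, Φ, -⟩ := helper62.stmt_Shapiro S p F hF.prime hF.unram
  have h2 : Module.Finite (ZMod p) (helper3071.fieldH2 S p F) := (hFin S p F hF).2
  exact Module.Finite.equiv Φ.symm

/-- `(T-GC)` from `(G-E)` and finiteness at the field level. -/
theorem stmt_TGC_of_field (hGE : helper3071.Stmt_FieldGE) (hFin : helper3071.Stmt_FieldFin) :
    helper1145.Stmt_TGC :=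
  helper1145.stmt_TGC hGE (stmt_IndFin_of_fieldFin hFin)

end Fermat.Agent.S55.helper1720
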