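import Mathlib
import Fermat.Agent.S55.helper7604_Unram

/-
S55 / NF-GR-ARITH, local part at a prime `q` different from the conductor (helper1759).

For a prime `q` and a modulus `N` with `q ∤ N`, and ANY field `E` with
`[Algebra ℚ_[q] E] [IsCyclotomicExtension {N} ℚ_[q] E]` (so `E = ℚ_q(ζ_N)`):

* `finrank_eq_orderOf` : `Module.finrank ℚ_[q] E = orderOf (q : ZMod N)`;
* `exists_norm_eq_iff` : a nonzero `x : ℚ_[q]` is a norm from `E` iff
  `orderOf (q : ZMod N)` divides `x.valuation`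
  (variants: unit form `ZMod.unitOfCoprime q _ ^ x.valuation = 1`, rational form with
  `padicValRat`, prime power conductor).

The proof is purely local.  `E` carries the spectral norm; the Galois group acts by isometries,
the value group is discrete, the residue field is finite and the inertia group is trivial
(roots of unity of order prime to `q` stay distinct modulo the maximal ideal), so
`helper7604.UnramSetting ℚ_[q] E` holds and the norm group is read off from `helper7604`'s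
theorem on unramified extensions.  The degree is computed elementwise in the residue field:
every `ζ ^ (q ^ j)` is a conjugate of `ζ` (the minimal polynomial has Frobenius-fixed residue
coefficients) and every conjugate of `ζ` is some `ζ ^ (q ^ j)` (the Frobenius-orbit polynomial
has residue coefficients in the prime field).
-/

namespace Fermat.Agent.S55.helper1759

open Polynomial Finset

section Generic

variable {q : ℕ} [Fact q.Prime] {L : Type*} [NormedField L] [NormedAlgebra ℚ_[q] L]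
  [IsUltrametricDist L] [FiniteDimensional ℚ_[q] L]

omit [IsUltrametricDist L] [FiniteDimensional ℚ_[q] L] in
theorem norm_algebraMap_padic (x : ℚ_[q]) : ‖algebraMap ℚ_[q] L x‖ = ‖x‖ :=
  norm_algebraMap' L x

omit [IsUltrametricDist L] in
theorem norm_algEquiv_padic (σ : L ≃ₐ[ℚ_[q]] L) (x : L) : ‖σ x‖ = ‖x‖ := by
  rw [NormedAlgebra.norm_eq_spectralNorm ℚ_[q], NormedAlgebra.norm_eq_spectralNorm ℚ_[q] x]
  exact (spectralNorm_eq_of_equiv σ x).symm

omit [IsUltrametricDist L] in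
theorem exists_finset_residue (q : ℕ) [Fact q.Prime] {L : Type*} [NormedField L]
    [NormedAlgebra ℚ_[q] L] [FiniteDimensional ℚ_[q] L] :
    ∃ T : Finset L, ∀ x : L, ‖x‖ ≤ 1 → ∃ t ∈ T, ‖x - t‖ < 1 := by
  have : ProperSpace L := FiniteDimensional.proper ℚ_[q] L
  have hc : IsCompact (Metric.closedBall (0 : L) 1) := isCompact_closedBall 0 1
  obtain ⟨t, -, htf, ht⟩ := hc.finite_cover_balls (e := 1) one_pos
  refine ⟨htf.toFinset, fun x hx => ?_⟩
  have hx' : x ∈ Metric.closedBall (0 : L) 1 := by simpa using hx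
  obtain ⟨y, hy, hxy⟩ := Set.mem_iUnion₂.1 (ht hx')
  exact ⟨y, htf.mem_toFinset.2 hy, by simpa [dist_eq_norm] using hxy⟩

omit [IsUltrametricDist L] in
theorem exists_zpow_eq_norm_pow [IsGalois ℚ_[q] L] (x : L) (hx : x ≠ 0) :
    ∃ v : ℤ, ‖x‖ ^ Module.finrank ℚ_[q] L = (q : ℝ) ^ (-v) := by
  have h1 := helper7604.norm_prod_gal (K := ℚ_[q]) (L := L) norm_algEquiv_padic x
  rw [norm_algebraMap_padic] at h1
  have hN : Algebra.norm ℚ_[q] x ≠ 0 := by
    rwa [Ne, Algebra.norm_eq_zero_iff]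
  exact ⟨_, by rw [← h1, Padic.norm_eq_zpow_neg_valuation hN]⟩

omit [IsUltrametricDist L] in
theorem exists_disc [IsGalois ℚ_[q] L] :
    ∃ ϖ : L, 0 < ‖ϖ‖ ∧ ‖ϖ‖ < 1 ∧ ∀ x : L, x ≠ 0 → ∃ m : ℤ, ‖x‖ = ‖ϖ‖ ^ m := by
  classical
  set n := Module.finrank ℚ_[q] L with hn
  have hn0 : n ≠ 0 := Module.finrank_pos.ne'
  have hq1 : (1 : ℝ) < q := by exact_mod_cast (Fact.out : q.Prime).one_lt
  have hq0 : (0 : ℝ) < q := by linarith
  have hex : ∃ j : ℕ, 0 < j ∧ ∃ x : L, ‖x‖ ^ n = (q : ℝ) ^ (-(j : ℤ)) := by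
    refine ⟨n, Nat.pos_of_ne_zero hn0, algebraMap ℚ_[q] L q, ?_⟩
    rw [norm_algebraMap_padic, Padic.norm_p, inv_pow, zpow_neg, zpow_natCast]
  set d := Nat.find hex with hd
  obtain ⟨hd0, ϖ, hϖ⟩ := Nat.find_spec hex
  have hϖpos : 0 < ‖ϖ‖ := by
    rcases (norm_nonneg ϖ).eq_or_lt with h | h
    · rw [← h, zero_pow hn0] at hϖ
      exact absurd hϖ (zpow_pos hq0 _).ne
    · exact h
  have hϖlt : ‖ϖ‖ < 1 := by
    by_contra hge
    have h1 : 1 ≤ ‖ϖ‖ ^ n := one_le_pow₀ (not_lt.1 hge)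
    have h2 : (q : ℝ) ^ (-(d : ℤ)) < 1 :=
      zpow_lt_one_of_neg₀ hq1 (by omega)
    rw [hϖ] at h1
    exact absurd h1 (not_le.2 h2)
  refine ⟨ϖ, hϖpos, hϖlt, fun x hx => ?_⟩
  obtain ⟨v, hv⟩ := exists_zpow_eq_norm_pow (q := q) x hx
  have hdZ : (0 : ℤ) < d := by exact_mod_cast hd0
  set m := v / d with hm
  set r := v % d with hr
  have hvmr : v = d * m + r := (Int.mul_ediv_add_emod v d).symm
  have hr0 : 0 ≤ r := Int.emod_nonneg v hdZ.ne'
  have hrd : r < d := Int.emod_lt_of_pos v hdZ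
  have hy : ‖x / ϖ ^ m‖ ^ n = (q : ℝ) ^ (-r) := by
    rw [norm_div, norm_zpow, div_pow, hv, ← zpow_natCast (‖ϖ‖ ^ m) n, ← zpow_mul,
      mul_comm m (n : ℤ), zpow_mul, zpow_natCast, hϖ, ← zpow_mul, ← zpow_sub₀ hq0.ne']
    congr 1
    rw [hvmr]; ring
  have hr_eq : r = 0 := by
    by_contra hne
    have hrpos : 0 < r := lt_of_le_of_ne hr0 (Ne.symm hne)
    have hlt : r.toNat < d := by
      have : (r.toNat : ℤ) < d := by rw [Int.toNat_of_nonneg hr0]; exact hrd
      exact_mod_cast this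
    refine Nat.find_min hex hlt ⟨?_, x / ϖ ^ m, ?_⟩
    · have : (0 : ℤ) < r.toNat := by rw [Int.toNat_of_nonneg hr0]; exact hrpos
      exact_mod_cast this
    · rw [hy, Int.toNat_of_nonneg hr0]
  rw [hr_eq, neg_zero, zpow_zero] at hy
  have hy1 : ‖x / ϖ ^ m‖ = 1 := (pow_eq_one_iff_of_nonneg (norm_nonneg _) hn0).1 hy
  refine ⟨m, ?_⟩
  rw [norm_div, norm_zpow] at hy1
  exact (div_eq_one_iff_eq (zpow_ne_zero _ hϖpos.ne')).1 hy1

end Generic


section CharFrob

variable {k : Type*} [Field k] (q : ℕ) [Fact q.Prime] [CharP k q]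

/-- A polynomial with Frobenius-fixed coefficients: the `q^j`-th powers of a root are roots. -/
theorem eval_pow_char_pow_eq_zero (Q : k[X]) (hQ : ∀ i, Q.coeff i ^ q = Q.coeff i) {z : k}
    (hz : Q.eval z = 0) (j : ℕ) : Q.eval (z ^ (q ^ j)) = 0 := by
  have hmap : Q.map (frobenius k q) = Q := by
    ext i; rw [coeff_map, frobenius_def, hQ]
  induction j with
  | zero => simpa using hz
  | succ j ih =>
    rw [pow_succ, pow_mul, ← frobenius_def, ← hmap, eval_map, eval₂_at_apply, ih, map_zero]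

/-- The coefficients of the Frobenius-orbit polynomial are Frobenius-fixed. -/
theorem coeff_orbit_pow (z : k) {f : ℕ} (hz : z ^ (q ^ f) = z) (i : ℕ) :
    (∏ j ∈ range f, (X - C (z ^ (q ^ j)))).coeff i ^ q =
      (∏ j ∈ range f, (X - C (z ^ (q ^ j)))).coeff i := by
  have hmap : (∏ j ∈ range f, (X - C (z ^ (q ^ j)))).map (frobenius k q) =
      ∏ j ∈ range f, (X - C (z ^ (q ^ j))) := by
    rw [Polynomial.map_prod]
    have h1 : ∀ j, (X - C (z ^ (q ^ j))).map (frobenius k q) = X - C (z ^ (q ^ (j + 1))) := by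
      intro j
      rw [Polynomial.map_sub, map_X, map_C, frobenius_def, ← pow_mul, ← pow_succ]
    simp only [h1]
    have h2 := Finset.prod_range_succ (fun j => (X - C (z ^ (q ^ j)) : k[X])) f
    have h3 := Finset.prod_range_succ' (fun j => (X - C (z ^ (q ^ j)) : k[X])) f
    rw [h3, hz, pow_zero, pow_one] at h2
    exact mul_right_cancel₀ (X_sub_C_ne_zero z) h2
  conv_rhs => rw [← hmap]
  rw [coeff_map, frobenius_def]

/-- Frobenius-fixed elements of a field of characteristic `q` are images of integers. -/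
theorem mem_range_intCast_of_pow_eq {c : k} (hc : c ^ q = c) :
    c ∈ Set.range (Int.castRingHom k) := by
  have h := (Subfield.mem_bot_iff_pow_eq_self k q).2 hc
  let _ := ZMod.algebra k q
  rw [Subfield.bot_eq_of_zMod_algebra q] at h
  obtain ⟨t, rfl⟩ := h
  refine ⟨(t.val : ℤ), ?_⟩
  rw [eq_intCast, Int.cast_natCast, ← map_natCast (algebraMap (ZMod q) k), ZMod.natCast_zmod_val]

end CharFrob

theorem norm_eq_one_of_pow_eq_one' {L : Type*} [NormedField L] {N : ℕ} (hN0 : N ≠ 0) {x : L}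
    (hx : x ^ N = 1) : ‖x‖ = 1 :=
  (pow_eq_one_iff_of_nonneg (norm_nonneg x) hN0).1 (by rw [← norm_pow, hx, norm_one])

section Cyclo

variable {q : ℕ} [Fact q.Prime] {L : Type*} [NormedField L] [NormedAlgebra ℚ_[q] L]
  [IsUltrametricDist L]


/-- A root of unity of order prime to `q` which is congruent to `1` is `1`. -/
theorem eq_one_of_norm_sub_one_lt {N : ℕ} (hN : ¬ q ∣ N) {η : L} (hη : η ^ N = 1)
    (h : ‖η - 1‖ < 1) : η = 1 := by
  by_contra hne
  have hN0 : N ≠ 0 := fun h0 => hN (h0 ▸ dvd_zero q)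
  have hsum : ∑ i ∈ range N, η ^ i = 0 := by
    have := geom_sum_mul η N
    rw [hη, sub_self] at this
    exact (mul_eq_zero.1 this).resolve_right (sub_ne_zero.2 hne)
  have hη1 : ‖η‖ = 1 := norm_eq_one_of_pow_eq_one' hN0 hη
  have hi : ∀ i : ℕ, ‖η ^ i - 1‖ < 1 := by
    intro i
    rw [← geom_sum_mul, norm_mul]
    have h1 : ‖∑ j ∈ range i, η ^ j‖ ≤ 1 :=
      helper7604.norm_sum_le_of_forall_le' _ _ zero_le_one
        (fun j _ => by rw [norm_pow, hη1, one_pow])
    calc ‖∑ j ∈ range i, η ^ j‖ * ‖η - 1‖ ≤ 1 * ‖η - 1‖ := by gcongr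
      _ < 1 := by rwa [one_mul]
  have hNn : ‖(N : L)‖ < 1 := by
    have : (N : L) = -∑ i ∈ range N, (η ^ i - 1) := by
      rw [sum_sub_distrib, hsum]; simp
    rw [this, norm_neg]
    exact helper7604.norm_sum_lt_of_forall_lt _ _ one_pos (fun i _ => hi i)
  have hN1 : ‖(N : L)‖ = 1 := by
    rw [← map_natCast (algebraMap ℚ_[q] L), norm_algebraMap_padic, Padic.norm_natCast_eq_one_iff]
    exact (Nat.Prime.coprime_iff_not_dvd Fact.out).2 hN
  linarith

/-- Roots of unity of order prime to `q` are distinct modulo the maximal ideal. -/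
theorem eq_of_norm_sub_lt {N : ℕ} (hN : ¬ q ∣ N) {x y : L} (hx : x ^ N = 1) (hy : y ^ N = 1)
    (h : ‖x - y‖ < 1) : x = y := by
  have hN0 : N ≠ 0 := fun h0 => hN (h0 ▸ dvd_zero q)
  have hy1 : ‖y‖ = 1 := norm_eq_one_of_pow_eq_one' hN0 hy
  have hy0 : y ≠ 0 := by rintro rfl; simp at hy1
  have h1 : x / y = 1 := eq_one_of_norm_sub_one_lt (q := q) hN (by rw [div_pow, hx, hy, div_one]) (by
    have : x / y - 1 = (x - y) / y := by field_simp
    rw [this, norm_div, hy1, div_one]; exact h)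
  exact (div_eq_one_iff_eq hy0).1 h1

/-- The residue field of `L` has characteristic `q`. -/
theorem charP_residue (q : ℕ) [Fact q.Prime] (L : Type*) [NormedField L] [NormedAlgebra ℚ_[q] L]
    [IsUltrametricDist L] : CharP (IsLocalRing.ResidueField (helper7604.ball L)) q := by
  rw [CharP.charP_iff_prime_eq_zero Fact.out,
    ← map_natCast (IsLocalRing.residue (helper7604.ball L)) q, helper7604.residue_ball_eq_zero_iff,
    Subring.coe_natCast, ← map_natCast (algebraMap ℚ_[q] L), norm_algebraMap_padic, Padic.norm_p]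
  exact inv_lt_one_of_one_lt₀ (by exact_mod_cast (Fact.out : q.Prime).one_lt)

/-- Residues of elements of `ℚ_q` are fixed by the Frobenius. -/
theorem residue_pow_of_mem_range (x : helper7604.ball L)
    (hx : (x : L) ∈ Set.range (algebraMap ℚ_[q] L)) :
    IsLocalRing.residue (helper7604.ball L) x ^ q = IsLocalRing.residue (helper7604.ball L) x := by
  have : CharP (IsLocalRing.ResidueField (helper7604.ball L)) q := charP_residue q L
  obtain ⟨c, hc⟩ := hx
  have hc1 : ‖c‖ ≤ 1 := by rw [← norm_algebraMap_padic (L := L), hc]; exact x.2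
  obtain ⟨c', rfl⟩ : ∃ c' : ℤ_[q], (c' : ℚ_[q]) = c := ⟨⟨c, hc1⟩, rfl⟩
  obtain ⟨t, -, ht⟩ := PadicInt.exists_mem_range c'
  have ht' : ‖(c' : ℚ_[q]) - (t : ℚ_[q])‖ < 1 := by
    have := (PadicInt.mem_nonunits).1 ((IsLocalRing.mem_maximalIdeal _).1 ht)
    rw [PadicInt.norm_def, PadicInt.coe_sub, PadicInt.coe_natCast] at this
    exact this
  have hres : IsLocalRing.residue (helper7604.ball L) x =
      ((t : ℕ) : IsLocalRing.ResidueField (helper7604.ball L)) := by
    rw [← map_natCast (IsLocalRing.residue (helper7604.ball L)) t, helper7604.residue_ball_eq_iff]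
    have : (x : L) - ((t : helper7604.ball L) : L) = algebraMap ℚ_[q] L ((c' : ℚ_[q]) - t) := by
      rw [map_sub, hc, map_natCast, Subring.coe_natCast]
    rw [this, norm_algebraMap_padic]; exact ht'
  rw [hres]
  exact (Subfield.mem_bot_iff_pow_eq_self _ q).1 (natCast_mem _ t)

end Cyclo


section Conj

variable {q : ℕ} [Fact q.Prime] {L : Type*} [NormedField L] [NormedAlgebra ℚ_[q] L]
  [IsUltrametricDist L]

omit [Fact q.Prime] [NormedAlgebra ℚ_[q] L] in
theorem residue_eval₂_int (R0 : ℤ[X]) (x : helper7604.ball L) :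
    IsLocalRing.residue (helper7604.ball L) (R0.eval₂ (Int.castRingHom (helper7604.ball L)) x) =
      (R0.map (Int.castRingHom (IsLocalRing.ResidueField (helper7604.ball L)))).eval
        (IsLocalRing.residue (helper7604.ball L) x) := by
  rw [hom_eval₂, eval_map, RingHom.eq_intCast' ((IsLocalRing.residue (helper7604.ball L)).comp _)]

omit [Fact q.Prime] [NormedAlgebra ℚ_[q] L] in
theorem coe_eval₂_int (R0 : ℤ[X]) (x : helper7604.ball L) :
    ((R0.eval₂ (Int.castRingHom (helper7604.ball L)) x : helper7604.ball L) : L) =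
      R0.eval₂ (Int.castRingHom L) (x : L) := by
  have := hom_eval₂ R0 (Int.castRingHom (helper7604.ball L)) (helper7604.ball L).subtype x
  rw [RingHom.eq_intCast' ((helper7604.ball L).subtype.comp _)] at this
  exact this

omit [IsUltrametricDist L] in
theorem algEquiv_eval₂_int (σ : L ≃ₐ[ℚ_[q]] L) (R0 : ℤ[X]) (x : L) :
    σ (R0.eval₂ (Int.castRingHom L) x) = R0.eval₂ (Int.castRingHom L) (σ x) := by
  have := hom_eval₂ R0 (Int.castRingHom L) (σ : L →+* L) x
  rw [RingHom.eq_intCast' ((σ : L →+* L).comp _)] at this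
  exact this

variable [FiniteDimensional ℚ_[q] L]

/-- Every conjugate over `ℚ_q` of a root of unity `ζ` of order prime to `q` is `ζ ^ (q ^ j)`. -/
theorem exists_pow_eq_algEquiv {N : ℕ} (hN : ¬ q ∣ N) {ζ : L} (hζ : ζ ^ N = 1) {f : ℕ}
    (hf : 0 < f) (hqf : ζ ^ (q ^ f) = ζ) (σ : L ≃ₐ[ℚ_[q]] L) : ∃ j < f, σ ζ = ζ ^ (q ^ j) := by
  classical
  have hN0 : N ≠ 0 := fun h0 => hN (h0 ▸ dvd_zero q)
  have hζ1 : ‖ζ‖ = 1 := norm_eq_one_of_pow_eq_one' hN0 hζ
  have hk : CharP (IsLocalRing.ResidueField (helper7604.ball L)) q := charP_residue q L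
  set res := IsLocalRing.residue (helper7604.ball L) with hres
  set ζb : helper7604.ball L := ⟨ζ, hζ1.le⟩ with hζb
  set σb : helper7604.ball L :=
    ⟨σ ζ, by rw [helper7604.mem_ball_iff, norm_algEquiv_padic]; exact hζ1.le⟩ with hσb
  have hzf : res ζb ^ (q ^ f) = res ζb := by
    rw [← map_pow]; congr 1; exact Subtype.ext hqf
  obtain ⟨R0, hR0⟩ := (mem_lifts _).1 ((lifts_iff_coeff_lifts
    (∏ j ∈ range f, (X - C (res ζb ^ (q ^ j))))).2 (fun i =>
      mem_range_intCast_of_pow_eq q (coeff_orbit_pow q (res ζb) hzf i)))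
  have h1 : res (R0.eval₂ (Int.castRingHom _) ζb) = 0 := by
    rw [residue_eval₂_int, hR0, eval_prod]
    exact Finset.prod_eq_zero (Finset.mem_range.2 hf) (by simp [hres])
  have h2 : ‖R0.eval₂ (Int.castRingHom L) ζ‖ < 1 := by
    rw [helper7604.residue_ball_eq_zero_iff, coe_eval₂_int] at h1; exact h1
  have h3 : res (R0.eval₂ (Int.castRingHom _) σb) = 0 := by
    rw [helper7604.residue_ball_eq_zero_iff, coe_eval₂_int]
    show ‖R0.eval₂ (Int.castRingHom L) (σ ζ)‖ < 1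
    rw [← algEquiv_eval₂_int, norm_algEquiv_padic]; exact h2
  rw [residue_eval₂_int, hR0, eval_prod, Finset.prod_eq_zero_iff] at h3
  obtain ⟨j, hj, hj0⟩ := h3
  refine ⟨j, Finset.mem_range.1 hj, ?_⟩
  have h4 : res σb = res (ζb ^ (q ^ j)) := by
    rw [map_pow]; simpa [sub_eq_zero] using hj0
  rw [helper7604.residue_ball_eq_iff] at h4
  exact eq_of_norm_sub_lt (q := q) hN (by rw [← map_pow, hζ, map_one])
    (by rw [← pow_mul, mul_comm, pow_mul, hζ, one_pow]) h4

/-- Every `ζ ^ (q ^ j)` is a conjugate over `ℚ_q` of the root of unity `ζ` (of order prime to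
`q`). -/
theorem exists_algEquiv_eq_pow [IsGalois ℚ_[q] L] {N : ℕ} (hN : ¬ q ∣ N) {ζ : L}
    (hζ : ζ ^ N = 1) (j : ℕ) : ∃ σ : L ≃ₐ[ℚ_[q]] L, σ ζ = ζ ^ (q ^ j) := by
  classical
  have hN0 : N ≠ 0 := fun h0 => hN (h0 ▸ dvd_zero q)
  have hζ1 : ‖ζ‖ = 1 := norm_eq_one_of_pow_eq_one' hN0 hζ
  have hk : CharP (IsLocalRing.ResidueField (helper7604.ball L)) q := charP_residue q L
  set res := IsLocalRing.residue (helper7604.ball L) with hres
  set ζb : helper7604.ball L := ⟨ζ, hζ1.le⟩ with hζb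
  let ζc : (L ≃ₐ[ℚ_[q]] L) → helper7604.ball L := fun σ =>
    ⟨σ ζ, by rw [helper7604.mem_ball_iff, norm_algEquiv_padic]; exact hζ1.le⟩
  set Pb : (helper7604.ball L)[X] := ∏ σ : L ≃ₐ[ℚ_[q]] L, (X - C (ζc σ)) with hPb
  have hPL : Pb.map (helper7604.ball L).subtype = ∏ σ : L ≃ₐ[ℚ_[q]] L, (X - C (σ ζ)) := by
    rw [hPb, Polynomial.map_prod]
    refine Finset.prod_congr rfl (fun σ _ => ?_)
    rw [Polynomial.map_sub, map_X, map_C]; rfl
  have hinv : ∀ (τ : L ≃ₐ[ℚ_[q]] L) (i : ℕ), τ (Pb.coeff i : L) = (Pb.coeff i : L) := by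
    intro τ i
    have h1 : (Pb.coeff i : L) = (∏ σ : L ≃ₐ[ℚ_[q]] L, (X - C (σ ζ))).coeff i := by
      rw [← hPL, coeff_map]; rfl
    have h2 : (∏ σ : L ≃ₐ[ℚ_[q]] L, (X - C (σ ζ))).map (τ : L →+* L) =
        ∏ σ : L ≃ₐ[ℚ_[q]] L, (X - C (σ ζ)) := by
      rw [Polynomial.map_prod]
      simp only [Polynomial.map_sub, map_X, map_C]
      exact Fintype.prod_equiv (Equiv.mulLeft τ) _ _ (fun σ => rfl)
    rw [h1]
    conv_rhs => rw [← h2]
    rw [coeff_map]; rfl
  have hfix : ∀ i, res (Pb.coeff i) ^ q = res (Pb.coeff i) := fun i =>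
    residue_pow_of_mem_range _
      ((IsGalois.mem_range_algebraMap_iff_fixed _).2 (fun τ => hinv τ i))
  have hroot : (Pb.map res).eval (res ζb) = 0 := by
    rw [hPb, Polynomial.map_prod, eval_prod]
    refine Finset.prod_eq_zero (Finset.mem_univ (1 : L ≃ₐ[ℚ_[q]] L)) ?_
    rw [Polynomial.map_sub, map_X, map_C, eval_sub, eval_X, eval_C, sub_eq_zero]
    rfl
  have h5 := eval_pow_char_pow_eq_zero q (Pb.map res)
    (fun i => by rw [coeff_map]; exact hfix i) hroot j
  rw [hPb, Polynomial.map_prod, eval_prod, Finset.prod_eq_zero_iff] at h5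
  obtain ⟨σ, -, hσ⟩ := h5
  refine ⟨σ, ?_⟩
  have h3 : res (ζc σ) = res (ζb ^ (q ^ j)) := by
    rw [Polynomial.map_sub, map_X, map_C, eval_sub, eval_X, eval_C, sub_eq_zero] at hσ
    rw [map_pow]; exact hσ.symm
  rw [helper7604.residue_ball_eq_iff] at h3
  exact eq_of_norm_sub_lt (q := q) hN (by rw [← map_pow, hζ, map_one])
    (by rw [← pow_mul, mul_comm, pow_mul, hζ, one_pow]) h3

end Conj

section Main

variable {q : ℕ} [Fact q.Prime] {L : Type*} [NormedField L] [NormedAlgebra ℚ_[q] L]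
  [IsUltrametricDist L]

omit [Fact q.Prime] [NormedAlgebra ℚ_[q] L] [IsUltrametricDist L] in
theorem pow_eq_pow_iff_zmod {N : ℕ} {ζ : L} (hζ : IsPrimitiveRoot ζ N) (hN0 : N ≠ 0) (a b : ℕ) :
    ζ ^ a = ζ ^ b ↔ (a : ZMod N) = (b : ZMod N) := by
  rw [(hζ.isOfFinOrder hN0).pow_eq_pow_iff_modEq, ← hζ.eq_orderOf, ZMod.natCast_eq_natCast_iff]

/-- Trivial inertia for the cyclotomic extension of `ℚ_q` of conductor prime to `q`. -/
theorem inertia_trivial (N : ℕ) [NeZero N] (hN : ¬ q ∣ N) [IsCyclotomicExtension {N} ℚ_[q] L]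
    (σ : L ≃ₐ[ℚ_[q]] L) (h : ∀ x : L, ‖x‖ ≤ 1 → ‖σ x - x‖ < 1) : σ = 1 := by
  have hζ := IsCyclotomicExtension.zeta_spec N ℚ_[q] L
  set ζ := IsCyclotomicExtension.zeta N ℚ_[q] L with hζdef
  have hζ1 : ‖ζ‖ = 1 := norm_eq_one_of_pow_eq_one' (NeZero.ne N) hζ.pow_eq_one
  have h1 : σ ζ = ζ := eq_of_norm_sub_lt (q := q) hN (by rw [← map_pow, hζ.pow_eq_one, map_one])
    hζ.pow_eq_one (h ζ hζ1.le)
  have htop := IsCyclotomicExtension.adjoin_primitive_root_eq_top (A := ℚ_[q]) hζ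
  have h2 : (σ : L →ₐ[ℚ_[q]] L) = AlgHom.id ℚ_[q] L :=
    AlgHom.ext_of_adjoin_eq_top htop (by
      intro x hx
      rw [Set.mem_singleton_iff] at hx
      subst hx
      simpa using h1)
  exact AlgEquiv.ext (fun x => by simpa using DFunLike.congr_fun h2 x)

variable [FiniteDimensional ℚ_[q] L]

/-- **Degree of the unramified cyclotomic extension**, normed form. -/
theorem finrank_eq_orderOf_normed (N : ℕ) [NeZero N] (hN : ¬ q ∣ N)
    [IsCyclotomicExtension {N} ℚ_[q] L] :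
    Module.finrank ℚ_[q] L = orderOf (q : ZMod N) := by
  classical
  have : IsGalois ℚ_[q] L := IsCyclotomicExtension.isGalois {N} ℚ_[q] L
  have hN0 : N ≠ 0 := NeZero.ne N
  have hζ := IsCyclotomicExtension.zeta_spec N ℚ_[q] L
  set ζ := IsCyclotomicExtension.zeta N ℚ_[q] L with hζdef
  have hcop : q.Coprime N := (Nat.Prime.coprime_iff_not_dvd Fact.out).2 hN
  set u : (ZMod N)ˣ := ZMod.unitOfCoprime q hcop with hu
  set χ := hζ.autToPow ℚ_[q] with hχ
  have hχinj : Function.Injective χ := IsPrimitiveRoot.autToPow_injective ℚ_[q] hζ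
  have key : ∀ (σ : L ≃ₐ[ℚ_[q]] L) (j : ℕ), σ ζ = ζ ^ (q ^ j) ↔ χ σ = u ^ j := by
    intro σ j
    rw [← hζ.autToPow_spec ℚ_[q] σ, pow_eq_pow_iff_zmod hζ hN0, ZMod.natCast_zmod_val,
      Units.ext_iff, Units.val_pow_eq_pow_val, ZMod.coe_unitOfCoprime, Nat.cast_pow]
  have hf : 0 < orderOf u := orderOf_pos u
  have hqf : ζ ^ (q ^ orderOf u) = ζ := by
    have h1 : ((q ^ orderOf u : ℕ) : ZMod N) = ((1 : ℕ) : ZMod N) := by
      rw [Nat.cast_pow, ← ZMod.coe_unitOfCoprime q hcop, ← Units.val_pow_eq_pow_val,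
        pow_orderOf_eq_one]
      simp
    have h2 := (pow_eq_pow_iff_zmod hζ hN0 _ _).2 h1
    rwa [pow_one] at h2
  have hrange : χ.range = Subgroup.zpowers u := by
    ext a
    rw [MonoidHom.mem_range, ← mem_powers_iff_mem_zpowers, Submonoid.mem_powers_iff]
    constructor
    · rintro ⟨σ, rfl⟩
      obtain ⟨j, -, hj⟩ := exists_pow_eq_algEquiv hN hζ.pow_eq_one hf hqf σ
      exact ⟨j, ((key σ j).1 hj).symm⟩
    · rintro ⟨j, rfl⟩
      obtain ⟨σ, hσ⟩ := exists_algEquiv_eq_pow hN hζ.pow_eq_one j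
      exact ⟨σ, (key σ j).1 hσ⟩
  rw [← IsGalois.card_aut_eq_finrank, Nat.card_congr (MonoidHom.ofInjective hχinj).toEquiv,
    hrange, Nat.card_zpowers, ← orderOf_units, ZMod.coe_unitOfCoprime]

/-- The cyclotomic extension of `ℚ_q` of conductor prime to `q` is an unramified setting. -/
theorem unramSetting_normed (N : ℕ) [NeZero N] (hN : ¬ q ∣ N)
    [IsCyclotomicExtension {N} ℚ_[q] L] : helper7604.UnramSetting ℚ_[q] L := by
  have : IsGalois ℚ_[q] L := IsCyclotomicExtension.isGalois {N} ℚ_[q] L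
  exact ⟨norm_algEquiv_padic, exists_disc (q := q), exists_finset_residue q, inertia_trivial N hN⟩

/-- `e = 1`: the value group of `L` is generated by `‖q‖`. -/
theorem exists_zpow_norm_prime (N : ℕ) [NeZero N] (hN : ¬ q ∣ N)
    [IsCyclotomicExtension {N} ℚ_[q] L] (x : L) (hx : x ≠ 0) :
    ∃ m : ℤ, ‖x‖ = ‖algebraMap ℚ_[q] L (q : ℚ_[q])‖ ^ m := by
  have : IsGalois ℚ_[q] L := IsCyclotomicExtension.isGalois {N} ℚ_[q] L
  have hq1 : (1 : ℝ) < q := by exact_mod_cast (Fact.out : q.Prime).one_lt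
  have hq0 : (0 : ℝ) < q := by linarith
  obtain ⟨π, hπ0, hπ1, hπ⟩ := helper7604.exists_uniformizer (unramSetting_normed (L := L) N hN)
  rw [norm_algebraMap_padic] at hπ0 hπ1
  have hπne : π ≠ 0 := norm_pos_iff.1 hπ0
  have hπv : ‖π‖ = (q : ℝ) ^ (-π.valuation) := Padic.norm_eq_zpow_neg_valuation hπne
  obtain ⟨m0, hm0⟩ := hπ (algebraMap ℚ_[q] L (q : ℚ_[q]))
    (by
      rw [Ne, map_eq_zero]
      exact_mod_cast (Fact.out : q.Prime).ne_zero)
  rw [norm_algebraMap_padic, norm_algebraMap_padic, Padic.norm_p, hπv, ← zpow_mul,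
    ← zpow_neg_one] at hm0
  have hm1 : (-1 : ℤ) = -π.valuation * m0 := zpow_right_injective₀ hq0 hq1.ne' hm0
  have hvpos : 0 < π.valuation := by
    by_contra hle
    have : (1 : ℝ) ≤ (q : ℝ) ^ (-π.valuation) :=
      one_le_zpow₀ hq1.le (by omega)
    rw [← hπv] at this
    exact absurd hπ1 (not_lt.2 this)
  have hv1 : π.valuation = 1 := by
    have h3 : π.valuation * m0 = 1 := by linarith
    exact Int.eq_one_of_mul_eq_one_right hvpos.le h3
  obtain ⟨m, hm⟩ := hπ x hx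
  refine ⟨m, ?_⟩
  rw [hm, norm_algebraMap_padic, norm_algebraMap_padic, Padic.norm_p, hπv, hv1, zpow_neg_one]

/-- **Norm group of the unramified cyclotomic extension**, normed form. -/
theorem exists_norm_eq_iff_normed (N : ℕ) [NeZero N] (hN : ¬ q ∣ N)
    [IsCyclotomicExtension {N} ℚ_[q] L] (x : ℚ_[q]) (hx : x ≠ 0) :
    (∃ y : L, Algebra.norm ℚ_[q] y = x) ↔ (orderOf (q : ZMod N) : ℤ) ∣ x.valuation := by
  have : IsGalois ℚ_[q] L := IsCyclotomicExtension.isGalois {N} ℚ_[q] L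
  have : CompleteSpace L := FiniteDimensional.complete ℚ_[q] L
  have hq1 : (1 : ℝ) < q := by exact_mod_cast (Fact.out : q.Prime).one_lt
  have hq0 : (0 : ℝ) < q := by linarith
  have h := unramSetting_normed (L := L) N hN
  rw [helper7604.exists_norm_eq_iff h (q : ℚ_[q])
    (by rw [norm_algebraMap_padic, Padic.norm_p]; positivity)
    (exists_zpow_norm_prime N hN) x hx, finrank_eq_orderOf_normed N hN]
  simp only [norm_algebraMap_padic, Padic.norm_p, Padic.norm_eq_zpow_neg_valuation hx]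
  constructor
  · rintro ⟨k, hk⟩
    rw [← zpow_neg_one, ← zpow_mul] at hk
    have := zpow_right_injective₀ hq0 hq1.ne' hk
    exact ⟨k, by linarith⟩
  · rintro ⟨k, hk⟩
    refine ⟨k, ?_⟩
    rw [← zpow_neg_one, ← zpow_mul, hk]
    congr 1; ring

end Main

section Abstract

variable (q N : ℕ) [Fact q.Prime] [NeZero N] (E : Type*) [Field E] [Algebra ℚ_[q] E]
  [IsCyclotomicExtension {N} ℚ_[q] E]

/-- **(D)** The degree of the cyclotomic extension `ℚ_q(ζ_N)/ℚ_q`, `q ∤ N`, is the order of `q`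
modulo `N`. -/
theorem finrank_eq_orderOf (hN : ¬ q ∣ N) :
    Module.finrank ℚ_[q] E = orderOf (q : ZMod N) := by
  have : FiniteDimensional ℚ_[q] E := IsCyclotomicExtension.finiteDimensional {N} ℚ_[q] E
  let : NormedField E := spectralNorm.normedField ℚ_[q] E
  let : NormedAlgebra ℚ_[q] E := spectralNorm.normedAlgebra ℚ_[q] E
  have : IsUltrametricDist E :=
    IsUltrametricDist.isUltrametricDist_of_isNonarchimedean_norm isNonarchimedean_spectralNorm
  exact finrank_eq_orderOf_normed N hN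

/-- **(T1)** The norm group of the cyclotomic extension `ℚ_q(ζ_N)/ℚ_q`, `q ∤ N`: a nonzero
`x : ℚ_q` is a norm iff the order of `q` modulo `N` divides the valuation of `x`. -/
theorem exists_norm_eq_iff (hN : ¬ q ∣ N) (x : ℚ_[q]) (hx : x ≠ 0) :
    (∃ y : E, Algebra.norm ℚ_[q] y = x) ↔ (orderOf (q : ZMod N) : ℤ) ∣ x.valuation := by
  have : FiniteDimensional ℚ_[q] E := IsCyclotomicExtension.finiteDimensional {N} ℚ_[q] E
  let : NormedField E := spectralNorm.normedField ℚ_[q] E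
  let : NormedAlgebra ℚ_[q] E := spectralNorm.normedAlgebra ℚ_[q] E
  have : IsUltrametricDist E :=
    IsUltrametricDist.isUltrametricDist_of_isNonarchimedean_norm isNonarchimedean_spectralNorm
  exact exists_norm_eq_iff_normed N hN x hx

/-- **(T1), unit form**: `x` is a norm iff `q ^ v_q(x) = 1` in `(ℤ/N)ˣ`. -/
theorem exists_norm_eq_iff_unit (hcop : q.Coprime N) (x : ℚ_[q]) (hx : x ≠ 0) :
    (∃ y : E, Algebra.norm ℚ_[q] y = x) ↔ ZMod.unitOfCoprime q hcop ^ x.valuation = 1 := by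
  rw [exists_norm_eq_iff q N E ((Nat.Prime.coprime_iff_not_dvd Fact.out).1 hcop) x hx,
    ← orderOf_dvd_iff_zpow_eq_one, ← orderOf_units, ZMod.coe_unitOfCoprime]

/-- **(T1), rational form**: a nonzero rational `a` is a norm from `E` iff the order of `q`
modulo `N` divides `padicValRat q a`. -/
theorem exists_norm_eq_ratCast_iff (hN : ¬ q ∣ N) (a : ℚ) (ha : a ≠ 0) :
    (∃ y : E, Algebra.norm ℚ_[q] y = (a : ℚ_[q])) ↔
      (orderOf (q : ZMod N) : ℤ) ∣ padicValRat q a := by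
  rw [exists_norm_eq_iff q N E hN _ (by exact_mod_cast ha), Padic.valuation_ratCast]

/-- Units of `ℚ_q` are norms from the unramified cyclotomic extension. -/
theorem exists_norm_eq_of_norm_eq_one (hN : ¬ q ∣ N) (x : ℚ_[q]) (hx : ‖x‖ = 1) :
    ∃ y : E, Algebra.norm ℚ_[q] y = x := by
  have hx0 : x ≠ 0 := by
    rintro rfl
    simp at hx
  refine (exists_norm_eq_iff q N E hN x hx0).2 ?_
  have h1 : x.valuation = 0 := by
    have hq1 : (1 : ℝ) < q := by exact_mod_cast (Fact.out : q.Prime).one_lt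
    have h2 := Padic.norm_eq_zpow_neg_valuation hx0
    rw [hx] at h2
    have h3 : (q : ℝ) ^ (0 : ℤ) = (q : ℝ) ^ (-x.valuation) := by rw [zpow_zero]; exact h2
    have := zpow_right_injective₀ (by linarith) hq1.ne' h3
    omega
  rw [h1]
  exact dvd_zero _

end Abstract

section PrimePow

variable (q p m : ℕ) [Fact q.Prime] [Fact p.Prime] (E : Type*) [Field E] [Algebra ℚ_[q] E]
  [IsCyclotomicExtension {p ^ m} ℚ_[q] E]

include p in
omit [Fact q.Prime] in
theorem not_dvd_prime_pow' (hq : q.Prime) (hqp : q ≠ p) : ¬ q ∣ p ^ m := fun h =>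
  hqp ((Nat.prime_dvd_prime_iff_eq hq Fact.out).1 (hq.dvd_of_dvd_pow h))

/-- **(D)** for a prime power conductor: `[ℚ_q(ζ_{p^m}) : ℚ_q] = orderOf (q mod p^m)`, `q ≠ p`. -/
theorem finrank_eq_orderOf_prime_pow (hqp : q ≠ p) :
    Module.finrank ℚ_[q] E = orderOf (q : ZMod (p ^ m)) := by
  have : NeZero (p ^ m) := ⟨pow_ne_zero m (Fact.out : p.Prime).ne_zero⟩
  exact finrank_eq_orderOf q (p ^ m) E (not_dvd_prime_pow' q p m Fact.out hqp)

/-- **(T1)** for a prime power conductor (`q ≠ p`): `x ≠ 0` is a norm from `ℚ_q(ζ_{p^m})` iff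
`orderOf (q mod p^m)` divides `v_q(x)`. -/
theorem exists_norm_eq_iff_prime_pow (hqp : q ≠ p) (x : ℚ_[q]) (hx : x ≠ 0) :
    (∃ y : E, Algebra.norm ℚ_[q] y = x) ↔ (orderOf (q : ZMod (p ^ m)) : ℤ) ∣ x.valuation := by
  have : NeZero (p ^ m) := ⟨pow_ne_zero m (Fact.out : p.Prime).ne_zero⟩
  exact exists_norm_eq_iff q (p ^ m) E (not_dvd_prime_pow' q p m Fact.out hqp) x hx

/-- **(T1)** for a prime power conductor, rational form (the right-hand side is
`helper7104.CycloCond p m q a` verbatim). -/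
theorem exists_norm_eq_ratCast_iff_prime_pow (hqp : q ≠ p) (a : ℚ) (ha : a ≠ 0) :
    (∃ y : E, Algebra.norm ℚ_[q] y = (a : ℚ_[q])) ↔
      (orderOf (q : ZMod (p ^ m)) : ℤ) ∣ padicValRat q a := by
  have : NeZero (p ^ m) := ⟨pow_ne_zero m (Fact.out : p.Prime).ne_zero⟩
  exact exists_norm_eq_ratCast_iff q (p ^ m) E (not_dvd_prime_pow' q p m Fact.out hqp) a ha

end PrimePow

end Fermat.Agent.S55.helper1759
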