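import Mathlib
import Fermat.Agent.S55.helper1759_CycloNormQ
import Fermat.Agent.S55.helper5519_CycloProduct

/-
S55 / NF-GR-ARITH, final arithmetic statements (helper1759).

The unramified norm criterion `hU` of `helper5519_CycloProduct` (the last hypothesis of the
cyclotomic product formula and of `arithCore_cyclotomic`) is discharged by
`helper1759.exists_norm_eq_iff_prime_pow`.  Everything here is unconditional (`p` odd).
-/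

namespace Fermat.Agent.S55.helper1759

variable {p : ℕ} [hp : Fact p.Prime]

/-- The unramified norm criterion at `ℓ ≠ p` in the exact shape of the hypothesis `hU` of
`helper5519.cyclotomic_norm_product_formula'` and `helper5519.arithCore_cyclotomic`. -/
theorem unramified_norm_criterion (k : ℕ) (ℓ : ℕ) [Fact ℓ.Prime] (hne : ℓ ≠ p) (x : ℚ_[ℓ])
    (hx : x ≠ 0) :
    (∃ y : CyclotomicField (p ^ k) ℚ_[ℓ], Algebra.norm ℚ_[ℓ] y = x) ↔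
      ((orderOf ((ℓ : ℕ) : ZMod (p ^ k)) : ℕ) : ℤ) ∣ x.valuation := by
  have : NeZero (p ^ k) := ⟨pow_ne_zero _ hp.out.ne_zero⟩
  exact exists_norm_eq_iff_prime_pow ℓ p k (CyclotomicField (p ^ k) ℚ_[ℓ]) hne x hx

/-- **Product formula for the cyclotomic norm residue conditions, unconditional** (`p` odd):
a positive rational number which is a norm from `ℚ_ℓ(ζ_{p^(m+1)})` for every prime `ℓ ≠ ℓ0` is a
norm from `ℚ_{ℓ0}(ζ_{p^(m+1)})`. -/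
theorem cyclotomic_norm_product_formula (hodd : p ≠ 2) (m : ℕ) (a : ℚ) (ha : 0 < a) (ℓ0 : ℕ)
    [Fact ℓ0.Prime]
    (H : ∀ (ℓ : ℕ) [Fact ℓ.Prime], ℓ ≠ ℓ0 →
      ∃ y : CyclotomicField (p ^ (m + 1)) ℚ_[ℓ], Algebra.norm ℚ_[ℓ] y = (a : ℚ_[ℓ])) :
    ∃ y : CyclotomicField (p ^ (m + 1)) ℚ_[ℓ0], Algebra.norm ℚ_[ℓ0] y = (a : ℚ_[ℓ0]) :=
  helper5519.cyclotomic_norm_product_formula' hodd m
    (fun ℓ _ hne x hx => unramified_norm_criterion (m + 1) ℓ hne x hx) a ha ℓ0 H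

/-- **ArithCore for the cyclotomic fields, unconditional** (step (5) of the NF-GR assembly):
`p` odd, `S ∋ p` a finite set of primes, `a > 0` rational.  If `a` is a norm from
`ℚ_ℓ(ζ_{p^(m+1)})` for every `ℓ ∈ S`, `ℓ ≠ ℓ0`, and `ord_{p^(m+1)}(ℓ) ∣ v_ℓ(a)` for every prime
`ℓ ∉ S`, then `a` is a norm from `ℚ_{ℓ0}(ζ_{p^(m+1)})`. -/
theorem arithCore_cyclotomic (hodd : p ≠ 2) (m : ℕ) (S : Finset ℕ) (hpS : p ∈ S)
    (a : ℚ) (ha : 0 < a) (ℓ0 : ℕ) [Fact ℓ0.Prime] (hℓ0 : ℓ0 ∈ S)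
    (HS : ∀ (ℓ : ℕ) [Fact ℓ.Prime], ℓ ∈ S → ℓ ≠ ℓ0 →
      ∃ y : CyclotomicField (p ^ (m + 1)) ℚ_[ℓ], Algebra.norm ℚ_[ℓ] y = (a : ℚ_[ℓ]))
    (HnS : ∀ ℓ : ℕ, ℓ.Prime → ℓ ∉ S →
      ((orderOf ((ℓ : ℕ) : ZMod (p ^ (m + 1))) : ℕ) : ℤ) ∣ padicValRat ℓ a) :
    ∃ y : CyclotomicField (p ^ (m + 1)) ℚ_[ℓ0], Algebra.norm ℚ_[ℓ0] y = (a : ℚ_[ℓ0]) :=
  helper5519.arithCore_cyclotomic hodd m S hpS
    (fun ℓ _ _ hne x hx => unramified_norm_criterion (m + 1) ℓ hne x hx) a ha ℓ0 hℓ0 HS HnS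

/-- The norm criterion at every prime of `ℚ`, for ANY cyclotomic extension `E` of `ℚ_ℓ` of
conductor `p^(m+1)` (`p` odd): at `ℓ = p` the unit part is `≡ 1 mod p^(m+1)`, at `ℓ ≠ p` the order
of `ℓ` modulo `p^(m+1)` divides the valuation. -/
theorem exists_norm_eq_iff_of_ne (m : ℕ) (ℓ : ℕ) [Fact ℓ.Prime] (hne : ℓ ≠ p) (E : Type*)
    [Field E] [Algebra ℚ_[ℓ] E] [IsCyclotomicExtension {p ^ (m + 1)} ℚ_[ℓ] E] (x : ℚ_[ℓ])
    (hx : x ≠ 0) :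
    (∃ y : E, Algebra.norm ℚ_[ℓ] y = x) ↔
      ((orderOf ((ℓ : ℕ) : ZMod (p ^ (m + 1))) : ℕ) : ℤ) ∣ x.valuation :=
  exists_norm_eq_iff_prime_pow ℓ p (m + 1) E hne x hx

end Fermat.Agent.S55.helper1759
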