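/-
S55 (Poitou–Tate), leaf FW-CHI2SUB, abstract part.  Author: helper2660.

Submultiplicativity of a subadditive Euler characteristic along a `p`-power layer:
if `H' ≤ H ≤ G`, `H'` is normal in `H` with `H/H'` a finite `p`-group, then
`χ (coind_{H'}^G 𝔽_p) ≤ [H : H'] * χ (coind_H^G 𝔽_p)` for every `χ` that is subadditive on
short exact sequences (and `≤ 0` on zero modules).  A finiteness predicate `Fin` is carried along.

Proof: `W = coind_{H'}^{H} 𝔽_p` is a unipotent `H`-module of dimension `[H : H']`; apply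
`helper5178.unipotent_induction` through the exact functor `coind_H^G`, and identify
`coind_H^G W` with `coind_{H'}^G 𝔽_p` by the bijective morphism `F ↦ (g ↦ F g 1)`.
-/
import Mathlib
import Fermat.Agent.S55.helper5178_Sylow

set_option autoImplicit false

open CategoryTheory

namespace Fermat.Agent.S55.helper2660

section Finrank

variable {k : Type} [Field k] {G : Type} [Group G] (H : Subgroup G)

/-- The coinduced module of the trivial character from `H` to `G` is the space of functions on
`G ⧸ H` (via `x ↦ x⁻¹`). -/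
noncomputable def coindTrivialEquiv :
    Representation.coindV H.subtype (Rep.trivial k H k).ρ ≃ₗ[k] (G ⧸ H → k) where
  toFun f q := f.1 (Quotient.out q)⁻¹
  map_add' _ _ := rfl
  map_smul' _ _ := rfl
  invFun φ := ⟨fun x => φ (QuotientGroup.mk x⁻¹), fun h x => by
    show φ (QuotientGroup.mk ((h : G) * x)⁻¹) = φ (QuotientGroup.mk x⁻¹)
    congr 1
    rw [QuotientGroup.eq]
    simp⟩
  left_inv f := by
    apply Subtype.ext
    funext x
    show f.1 (Quotient.out (QuotientGroup.mk x⁻¹ : G ⧸ H))⁻¹ = f.1 x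
    have hq : x * Quotient.out (QuotientGroup.mk x⁻¹ : G ⧸ H) ∈ H := by
      have := QuotientGroup.eq.1 (QuotientGroup.out_eq' (QuotientGroup.mk x⁻¹ : G ⧸ H)).symm
      simpa using this
    have e := f.2 ⟨_, H.inv_mem hq⟩ x
    have e' : ((⟨_, H.inv_mem hq⟩ : H) : G) * x =
        (Quotient.out (QuotientGroup.mk x⁻¹ : G ⧸ H))⁻¹ := by simp
    rw [← e']
    exact e
  right_inv φ := by
    funext q
    show φ (QuotientGroup.mk (Quotient.out q)⁻¹⁻¹) = φ q
    rw [inv_inv]
    congr 1
    exact QuotientGroup.out_eq' q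

/-- `dim coind_H^G 𝔽 = [G : H]`. -/
theorem finrank_coind_trivial [H.FiniteIndex] :
    Module.finrank k (Rep.coind H.subtype (Rep.trivial k H k)) = H.index := by
  classical
  have : Finite (G ⧸ H) := Subgroup.finite_quotient_of_finiteIndex
  have : Fintype (G ⧸ H) := Fintype.ofFinite _
  have h1 : Module.finrank k (Rep.coind H.subtype (Rep.trivial k H k)) =
      Module.finrank k (G ⧸ H → k) := (coindTrivialEquiv (k := k) H).finrank_eq
  rw [h1, Module.finrank_fintype_fun_eq_card, Subgroup.index_eq_card, Nat.card_eq_fintype_card]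

end Finrank

section Transitivity

variable {k : Type} [Field k] {G : Type} [Group G] (H H' : Subgroup G)

/-- The comparison map `coind_H^G (coind_{H'}^{H} 𝔽) → coind_{H'}^G 𝔽`, `F ↦ (g ↦ F g 1)`,
as a linear map. -/
noncomputable def coindCompLin (hle : H' ≤ H) :
    Representation.coindV H.subtype
        (Rep.coind (H'.subgroupOf H).subtype
          (Rep.trivial k (H'.subgroupOf H) k)).ρ →ₗ[k]
      Representation.coindV H'.subtype (Rep.trivial k H' k).ρ where
  toFun F := ⟨fun g => (F.1 g).1 1, fun h' g => by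
    have e := F.2 ⟨(h' : G), hle h'.2⟩ g
    show (F.1 ((h' : G) * g)).1 1 = (F.1 g).1 1
    have e2 : (F.1 ((h' : G) * g)).1 1 = (F.1 g).1 (1 * ⟨(h' : G), hle h'.2⟩) :=
      congrArg (fun w : Representation.coindV (H'.subgroupOf H).subtype
        (Rep.trivial k (H'.subgroupOf H) k).ρ => w.1 1) e
    rw [e2, one_mul]
    have hmem : (⟨(h' : G), hle h'.2⟩ : H) ∈ H'.subgroupOf H := Subgroup.mem_subgroupOf.2 h'.2
    have e3 := (F.1 g).2 ⟨_, hmem⟩ 1
    rw [mul_one] at e3
    exact e3⟩
  map_add' _ _ := rfl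
  map_smul' _ _ := rfl

lemma coindCompLin_apply (hle : H' ≤ H) (F) (g : G) :
    (coindCompLin (k := k) H H' hle F).1 g = (F.1 g).1 1 := rfl

/-- Values of an element of `coind_H^G (coind_{H'}^{H} 𝔽)` are determined by the values at `1`. -/
lemma coind_coind_apply (F : Representation.coindV H.subtype
      (Rep.coind (H'.subgroupOf H).subtype (Rep.trivial k (H'.subgroupOf H) k)).ρ)
    (g : G) (x : H) : (F.1 g).1 x = (F.1 ((x : G) * g)).1 1 := by
  have e := F.2 x g
  have e2 : (F.1 ((x : G) * g)).1 1 = (F.1 g).1 (1 * x) :=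
    congrArg (fun w : Representation.coindV (H'.subgroupOf H).subtype
      (Rep.trivial k (H'.subgroupOf H) k).ρ => w.1 1) e
  rw [e2, one_mul]

lemma coindCompLin_injective (hle : H' ≤ H) :
    Function.Injective (coindCompLin (k := k) H H' hle) := by
  intro F F' hFF
  apply Subtype.ext
  funext g
  apply Subtype.ext
  funext x
  rw [coind_coind_apply, coind_coind_apply H H' F']
  exact congrArg (fun f : Representation.coindV H'.subtype (Rep.trivial k H' k).ρ =>
    f.1 ((x : G) * g)) hFF

lemma coindCompLin_surjective (hle : H' ≤ H) :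
    Function.Surjective (coindCompLin (k := k) H H' hle) := by
  intro f
  refine ⟨⟨fun g => ⟨fun x => f.1 ((x : G) * g), fun h₁ x => ?_⟩, fun h g => ?_⟩, ?_⟩
  · show f.1 (((h₁ : H) * x : H) * g) = f.1 ((x : G) * g)
    have hmem : ((h₁ : H) : G) ∈ H' := Subgroup.mem_subgroupOf.1 h₁.2
    have e := f.2 ⟨_, hmem⟩ ((x : G) * g)
    have e' : (((h₁ : H) * x : H) : G) * g = ((⟨_, hmem⟩ : H') : G) * ((x : G) * g) := by
      simp [mul_assoc]
    rw [e']
    exact e
  · apply Subtype.ext
    funext x
    show f.1 ((x : G) * ((h : G) * g)) = f.1 (((x * h : H) : G) * g)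
    simp [mul_assoc]
  · apply Subtype.ext
    funext g
    show f.1 (((1 : H) : G) * g) = f.1 g
    simp

/-- The comparison map as a morphism of representations. -/
noncomputable def coindComp (hle : H' ≤ H) :
    Rep.coind H.subtype (Rep.coind (H'.subgroupOf H).subtype
        (Rep.trivial k (H'.subgroupOf H) k)) ⟶
      Rep.coind H'.subtype (Rep.trivial k H' k) :=
  Rep.ofHom ⟨coindCompLin (k := k) H H' hle, fun g => by
    apply LinearMap.ext
    intro F
    rfl⟩

lemma coindComp_hom_apply (hle : H' ≤ H) (F) :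
    (coindComp (k := k) H H' hle).hom F = coindCompLin (k := k) H H' hle F := rfl

end Transitivity

section Main

variable {p : ℕ} [Fact p.Prime] {G : Type} [Group G]

/-- Dimension count along a short exact sequence `0 → 𝔽_p → W → W' → 0`. -/
lemma finrank_eq_succ_of_exact {H : Type} [Group H] {W W' : Rep.{0, 0, 0} (ZMod p) H}
    (i : Rep.trivial (ZMod p) H (ZMod p) ⟶ W) (q : W ⟶ W') [Module.Finite (ZMod p) W]
    (hi : Function.Injective i.hom) (hq : Function.Surjective q.hom)
    (hex : Function.Exact i.hom q.hom) :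
    Module.finrank (ZMod p) W = Module.finrank (ZMod p) W' + 1 := by
  have h1 := LinearMap.finrank_range_add_finrank_ker q.hom.toLinearMap
  have h2 : LinearMap.ker q.hom.toLinearMap = LinearMap.range i.hom.toLinearMap := by
    ext x
    exact hex x
  have h3 : Module.finrank (ZMod p) (LinearMap.range i.hom.toLinearMap) = 1 := by
    rw [LinearMap.finrank_range_of_inj (f := i.hom.toLinearMap) hi]
    exact Module.finrank_self (ZMod p)
  have h4 : Module.finrank (ZMod p) (LinearMap.range q.hom.toLinearMap) =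
      Module.finrank (ZMod p) W' := by
    rw [LinearMap.range_eq_top.2 hq, finrank_top]
  rw [h2, h3, h4] at h1
  exact h1.symm

/-- **FW-CHI2SUB, abstract form.** Let `H' ≤ H ≤ G` with `H` of finite index in `G`, `H'` normal
of finite index in `H` and `H/H'` a `p`-group; let `N ≤ H'` be normal in `G`.  Let `χ` be an
integer-valued invariant and `Fin` a predicate of `𝔽_p`-representations of `G` such that, on
finite `N`-trivial modules, `χ` is subadditive on short exact sequences whose ends satisfy `Fin`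
(the middle then satisfies `Fin`), and zero modules satisfy `Fin` and `χ ≤ 0`.  Then
`Fin (coind_H^G 𝔽_p)` implies `Fin (coind_{H'}^G 𝔽_p)` and
`χ (coind_{H'}^G 𝔽_p) ≤ [H : H'] * χ (coind_H^G 𝔽_p)`. -/
theorem chi_coind_le (N : Subgroup G) [N.Normal] (H H' : Subgroup G) [H.FiniteIndex]
    (hle : H' ≤ H) (hNH' : N ≤ H') [(H'.subgroupOf H).Normal] [(H'.subgroupOf H).FiniteIndex]
    (hpow : ∀ h : H, ∃ m : ℕ, h ^ p ^ m ∈ H'.subgroupOf H)
    (Fin : Rep.{0, 0, 0} (ZMod p) G → Prop) (χ : Rep.{0, 0, 0} (ZMod p) G → ℤ)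
    (hzero : ∀ A : Rep.{0, 0, 0} (ZMod p) G, Subsingleton A → Fin A ∧ χ A ≤ 0)
    (hsub : ∀ (A B C : Rep.{0, 0, 0} (ZMod p) G) (f : A ⟶ B) (g : B ⟶ C),
      Module.Finite (ZMod p) A → Module.Finite (ZMod p) B → Module.Finite (ZMod p) C →
      (∀ n ∈ N, A.ρ n = 1) → (∀ n ∈ N, B.ρ n = 1) → (∀ n ∈ N, C.ρ n = 1) →
      Function.Injective f.hom → Function.Surjective g.hom → Function.Exact f.hom g.hom →
      Fin A → Fin C → Fin B ∧ χ B ≤ χ A + χ C)
    (hbase : Fin (Rep.coind H.subtype (Rep.trivial (ZMod p) H (ZMod p)))) :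
    Fin (Rep.coind H'.subtype (Rep.trivial (ZMod p) H' (ZMod p))) ∧
      χ (Rep.coind H'.subtype (Rep.trivial (ZMod p) H' (ZMod p))) ≤
        ((H'.subgroupOf H).index : ℤ) *
          χ (Rep.coind H.subtype (Rep.trivial (ZMod p) H (ZMod p))) := by
  classical
  set H₁ : Subgroup H := H'.subgroupOf H with hH₁
  set W : Rep.{0, 0, 0} (ZMod p) H :=
    Rep.coind H₁.subtype (Rep.trivial (ZMod p) H₁ (ZMod p)) with hW
  set c : ℤ := χ (Rep.coind H.subtype (Rep.trivial (ZMod p) H (ZMod p))) with hc
  have hNH : N ≤ H := hNH'.trans hle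
  -- `W` is finite of dimension `[H : H']`
  have hfinTriv₁ : Module.Finite (ZMod p) (Rep.trivial (ZMod p) H₁ (ZMod p)) :=
    inferInstanceAs (Module.Finite (ZMod p) (ZMod p))
  have hfinW : Module.Finite (ZMod p) W := helper5178.finite_coind H₁ _
  have hrkW : Module.finrank (ZMod p) W = H₁.index := finrank_coind_trivial (k := ZMod p) H₁
  -- `H₁` acts trivially on `W`
  have htrivW : ∀ {n : H}, n ∈ H₁ → W.ρ n = 1 := fun {n} hn =>
    helper5178.coind_ρ_eq_one H₁ H₁ le_rfl (Rep.trivial (ZMod p) H₁ (ZMod p))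
      (fun _ _ => rfl) hn
  have hPP : helper5178.IsPPower p W := fun h => by
    obtain ⟨m, hm⟩ := hpow h
    exact ⟨m, htrivW hm⟩
  let T : Set H := {t | (t : G) ∈ N}
  have hT : ∀ t ∈ T, W.ρ t = 1 := fun t ht =>
    htrivW (Subgroup.mem_subgroupOf.2 (hNH' ht))
  -- the induction
  let Q : Rep.{0, 0, 0} (ZMod p) H → Prop := fun V =>
    Fin (Rep.coind H.subtype V) ∧
      χ (Rep.coind H.subtype V) ≤ (Module.finrank (ZMod p) V : ℤ) * c
  have hfinTriv : Module.Finite (ZMod p) (Rep.trivial (ZMod p) H (ZMod p)) :=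
    inferInstanceAs (Module.Finite (ZMod p) (ZMod p))
  have hNcoind : ∀ V : Rep.{0, 0, 0} (ZMod p) H, (∀ t ∈ T, V.ρ t = 1) →
      ∀ n ∈ N, (Rep.coind H.subtype V).ρ n = 1 := fun V hV n hn =>
    helper5178.coind_ρ_eq_one H N hNH V (fun n hn => hV ⟨n, hNH hn⟩ hn) hn
  have hQW : Q W := by
    refine helper5178.unipotent_induction T Q ?_ ?_ W hPP hT
    · intro V hV
      have hs : Subsingleton (Rep.coind H.subtype V) := helper5178.subsingleton_coind H V hV
      obtain ⟨h1, h2⟩ := hzero _ hs
      refine ⟨h1, ?_⟩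
      have : Module.finrank (ZMod p) V = 0 := Module.finrank_zero_of_subsingleton
      rw [this]
      simpa using h2
    · intro V V' i q hfV hfV' _ _ hTV hTV' hi hq hex hQV'
      obtain ⟨hF', hχ'⟩ := hQV'
      have hfA : Module.Finite (ZMod p) (Rep.coind H.subtype (Rep.trivial (ZMod p) H (ZMod p))) :=
        helper5178.finite_coind H _
      have hfB : Module.Finite (ZMod p) (Rep.coind H.subtype V) := helper5178.finite_coind H _
      have hfC : Module.Finite (ZMod p) (Rep.coind H.subtype V') := helper5178.finite_coind H _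
      obtain ⟨hFB, hχB⟩ := hsub _ _ _ (Rep.coindMap H.subtype i) (Rep.coindMap H.subtype q)
        hfA hfB hfC (hNcoind _ (fun _ _ => rfl)) (hNcoind V hTV) (hNcoind V' hTV')
        (helper5178.coindMap_injective H i hi) (helper5178.coindMap_surjective H q hq)
        (helper5178.coindMap_exact H i q hi hex) hbase hF'
      refine ⟨hFB, ?_⟩
      have hrk := finrank_eq_succ_of_exact i q hi hq hex
      rw [hrk]
      push_cast
      linarith
  obtain ⟨hFW, hχW⟩ := hQW
  -- transport along the comparison map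
  have hidx : H'.index ≠ 0 := by
    have h1 : H'.relIndex H * H.index = H'.index := Subgroup.relIndex_mul_index hle
    have h2 : H'.relIndex H ≠ 0 := Subgroup.FiniteIndex.index_ne_zero (H := H₁)
    have h3 : H.index ≠ 0 := Subgroup.FiniteIndex.index_ne_zero
    rw [← h1]
    exact Nat.mul_ne_zero h2 h3
  have : H'.FiniteIndex := ⟨hidx⟩
  have hfinTriv' : Module.Finite (ZMod p) (Rep.trivial (ZMod p) H' (ZMod p)) :=
    inferInstanceAs (Module.Finite (ZMod p) (ZMod p))
  let Z : Rep.{0, 0, 0} (ZMod p) G := Rep.trivial (ZMod p) G PUnit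
  have hZs : Subsingleton Z := inferInstanceAs (Subsingleton PUnit)
  have hZf : Module.Finite (ZMod p) Z := inferInstanceAs (Module.Finite (ZMod p) PUnit)
  obtain ⟨hFZ, hχZ⟩ := hzero Z hZs
  let g0 : Rep.coind H'.subtype (Rep.trivial (ZMod p) H' (ZMod p)) ⟶ Z :=
    Rep.ofHom ⟨0, fun g => by
      apply LinearMap.ext
      intro x
      exact Subsingleton.elim _ _⟩
  have hfA : Module.Finite (ZMod p) (Rep.coind H.subtype W) := helper5178.finite_coind H _
  have hfB : Module.Finite (ZMod p) (Rep.coind H'.subtype (Rep.trivial (ZMod p) H' (ZMod p))) :=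
    helper5178.finite_coind H' _
  obtain ⟨hFB, hχB⟩ := hsub _ _ _ (coindComp (k := ZMod p) H H' hle) g0 hfA hfB hZf
    (hNcoind W hT)
    (fun n hn => helper5178.coind_ρ_eq_one H' N hNH' _ (fun _ _ => rfl) hn)
    (fun _ _ => rfl)
    (coindCompLin_injective (k := ZMod p) H H' hle)
    (fun _ => ⟨0, Subsingleton.elim _ _⟩)
    (fun y => ⟨fun _ => coindCompLin_surjective (k := ZMod p) H H' hle y,
      fun _ => Subsingleton.elim _ _⟩)
    hFW hFZ
  refine ⟨hFB, ?_⟩
  rw [hrkW] at hχW
  linarith

end Main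

end Fermat.Agent.S55.helper2660
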