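/-
S55 (Poitou–Tate), leaf FW-CHI2SUB, frozen instantiation.  Author: helper2660.

`stmt_Chi2Sub_of_chiSub : Stmt_ChiSubS → helper3071.Stmt_FieldFin → helper3071.Stmt_Chi2Sub`:
the truncated Euler characteristic `χ₂ = 1 - h¹ + h²` of `S`-fields is submultiplicative in
`p`-power Galois layers, given that `χ = h⁰ - h¹ + h²` is subadditive on short exact sequences
of finite `S`-modules on the frozen carriers (`Stmt_ChiSubS`, the truncated long exact sequence).
-/
import Mathlib
import Fermat.Prelude.Def_GroupCohomology_ContinuousUnramified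
import Fermat.Agent.S55.helper3071_GlobalBridge
import Fermat.Agent.S55.helper62_GBShapiro
import Fermat.Agent.S55.helper1826_GEField
import Fermat.Agent.S55.helper2660_Chi2Sub

set_option autoImplicit false

open CategoryTheory groupCohomology ExtCitation

namespace Fermat.Agent.S55.helper2660

open Fermat.Agent.S55.helper3071

section Invariants

variable {k : Type} [Field k] {G : Type} [Group G] (H : Subgroup G)

/-- The invariants of `coind_H^G 𝔽` are the constant functions: `h⁰ = 1`. -/
theorem finrank_invariants_coind_trivial :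
    Module.finrank k (Representation.invariants (Rep.coind H.subtype (Rep.trivial k H k)).ρ) = 1 := by
  let e : Representation.invariants (Rep.coind H.subtype (Rep.trivial k H k)).ρ ≃ₗ[k] k :=
    { toFun := fun f => f.1.1 1
      map_add' := fun _ _ => rfl
      map_smul' := fun _ _ => rfl
      invFun := fun c => ⟨⟨fun _ => c, fun _ _ => rfl⟩, fun _ => rfl⟩
      left_inv := fun f => by
        apply Subtype.ext
        apply Subtype.ext
        funext x
        have h := congrArg (fun w : Representation.coindV H.subtype (Rep.trivial k H k).ρ => w.1 1)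
          (f.2 x)
        have h' : f.1.1 (1 * x) = f.1.1 1 := h
        rw [one_mul] at h'
        exact h'.symm
      right_inv := fun _ => rfl }
  rw [e.finrank_eq, Module.finrank_self]

end Invariants

section Frozen

variable (S : Finset Nat.Primes) {p : ℕ} [Fact p.Prime]

/-- Finiteness of `H¹(G_S, A)` and `H²(G_S, A)` on the frozen carriers. -/
def FinS (A : Rep.{0, 0, 0} (ZMod p) GQ) : Prop :=
  Module.Finite (ZMod p) (continuousH1S S A) ∧ Module.Finite (ZMod p) (continuousH2S S A)

/-- The truncated Euler characteristic `h⁰ - h¹ + h²` on the frozen carriers. -/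
noncomputable def chiS (A : Rep.{0, 0, 0} (ZMod p) GQ) : ℤ :=
  (Module.finrank (ZMod p) (Representation.invariants A.ρ) : ℤ)
    - Module.finrank (ZMod p) (continuousH1S S A) + Module.finrank (ZMod p) (continuousH2S S A)

lemma subsingleton_continuousH1S (A : Rep.{0, 0, 0} (ZMod p) GQ) [Subsingleton A] :
    Subsingleton (continuousH1S S A) := by
  refine ⟨fun x y => ?_⟩
  have key : ∀ z : continuousH1S S A, (z : H1 A) = 0 := fun z => by
    obtain ⟨c, -, hc⟩ := (mem_continuousH1S_iff S A z.1).1 z.2
    have hc0 : c = 0 := Subsingleton.elim _ _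
    rw [← hc, hc0, map_zero]
  exact Subtype.ext ((key x).trans (key y).symm)

lemma subsingleton_continuousH2S (A : Rep.{0, 0, 0} (ZMod p) GQ) [Subsingleton A] :
    Subsingleton (continuousH2S S A) := by
  refine ⟨fun x y => ?_⟩
  obtain ⟨a, rfl⟩ := Submodule.mkQ_surjective _ x
  obtain ⟨b, rfl⟩ := Submodule.mkQ_surjective _ y
  congr 1
  exact Subsingleton.elim _ _

/-- Zero modules: finite cohomology and `χ = 0`. -/
lemma finS_chiS_of_subsingleton (A : Rep.{0, 0, 0} (ZMod p) GQ) (hA : Subsingleton A) :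
    FinS S A ∧ chiS S A ≤ 0 := by
  have h1 := subsingleton_continuousH1S S A
  have h2 := subsingleton_continuousH2S S A
  refine ⟨⟨inferInstance, inferInstance⟩, ?_⟩
  unfold chiS
  rw [Module.finrank_zero_of_subsingleton, Module.finrank_zero_of_subsingleton,
    Module.finrank_zero_of_subsingleton]
  simp

end Frozen

/-- **Subadditivity of the truncated Euler characteristic on the frozen global carriers**
(the truncated long exact cohomology sequence of `S`-level cochains): for a short exact sequence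
`0 → A → B → C → 0` of finite `𝔽_p[G_ℚ]`-modules on which `Gal(ℚ̄/L)` acts trivially, `L` an
`S`-field: if `Hⁱ(G_S, A)` and `Hⁱ(G_S, C)` (`i = 1, 2`) are finite then so are `Hⁱ(G_S, B)`,
and `χ(B) ≤ χ(A) + χ(C)`. -/
def Stmt_ChiSubS : Prop :=
  ∀ (S : Finset Nat.Primes) (p : ℕ) [Fact p.Prime]
    (L : IntermediateField ℚ (AlgebraicClosure ℚ)), L.IsUnramifiedOutside S →
    ∀ (A B C : Rep.{0, 0, 0} (ZMod p) GQ) (f : A ⟶ B) (g : B ⟶ C),
      Module.Finite (ZMod p) A → Module.Finite (ZMod p) B → Module.Finite (ZMod p) C →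
      (∀ n ∈ L.fixingSubgroup, A.ρ n = 1) → (∀ n ∈ L.fixingSubgroup, B.ρ n = 1) →
      (∀ n ∈ L.fixingSubgroup, C.ρ n = 1) →
      Function.Injective f.hom → Function.Surjective g.hom → Function.Exact f.hom g.hom →
      FinS S A → FinS S C → FinS S B ∧ chiS S B ≤ chiS S A + chiS S C

section Field

variable {S : Finset Nat.Primes} {p : ℕ} {K K' : IntermediateField ℚ (AlgebraicClosure ℚ)}

/-- Shapiro (landed `helper62.stmt_Shapiro`) in numerical form. -/
lemma finS_indRep_iff [Fact p.Prime] {F : IntermediateField ℚ (AlgebraicClosure ℚ)}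
    (hF : F.IsUnramifiedOutside S) : FinS S (indRep p F) ↔ FieldFin S p F := by
  obtain ⟨⟨e1⟩, e2, -⟩ := helper62.stmt_Shapiro S p F (Fact.out) hF
  unfold FinS FieldFin
  constructor
  · rintro ⟨h1, h2⟩
    exact ⟨Module.Finite.equiv e1, Module.Finite.equiv e2⟩
  · rintro ⟨h1, h2⟩
    exact ⟨Module.Finite.equiv e1.symm, Module.Finite.equiv e2.symm⟩

lemma chiS_indRep [Fact p.Prime] {F : IntermediateField ℚ (AlgebraicClosure ℚ)}
    (hF : F.IsUnramifiedOutside S) :
    chiS S (indRep p F) = 1 - (Module.finrank (ZMod p) (fieldH1 S p F) : ℤ)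
      + Module.finrank (ZMod p) (fieldH2 S p F) := by
  obtain ⟨⟨e1⟩, e2, -⟩ := helper62.stmt_Shapiro S p F (Fact.out) hF
  unfold chiS
  rw [e1.finrank_eq, e2.finrank_eq]
  have h0 : Module.finrank (ZMod p) (Representation.invariants (indRep p F).ρ) = 1 :=
    finrank_invariants_coind_trivial (k := ZMod p) F.fixingSubgroup
  rw [h0]
  simp

/-- **FW-CHI2SUB**, one layer: for a Galois layer `K'/K` of `S`-fields of degree `p ^ t`,
finiteness of the cohomology of `K` passes to `K'`, and `χ₂(K') ≤ p ^ t * χ₂(K)`. -/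
theorem fieldFin_and_chi2Sub (hsub : Stmt_ChiSubS) (hp : p.Prime) (hK : K.IsUnramifiedOutside S)
    (hK' : K'.IsUnramifiedOutside S) {t : ℕ} (hG : IsGaloisOfDegree K K' (p ^ t))
    (hfin : FieldFin S p K) : FieldFin S p K' ∧ Chi2Sub S p K K' (p ^ t) := by
  have : Fact p.Prime := ⟨hp⟩
  obtain ⟨hKK', hnorm, hdeg⟩ := hG
  have hle : K'.fixingSubgroup ≤ K.fixingSubgroup := IntermediateField.fixingSubgroup_antitone hKK'
  have hfdK : FiniteDimensional ℚ K := hK.1
  have hposK : 0 < Module.finrank ℚ K := Module.finrank_pos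
  -- indices
  have hG' : IsGalois ℚ (AlgebraicClosure ℚ) := by
    have : Algebra.IsAlgebraic ℚ (AlgebraicClosure ℚ) := AlgebraicClosure.isAlgebraic ℚ
    have : IsAlgClosure ℚ (AlgebraicClosure ℚ) := ⟨inferInstance, inferInstance⟩
    have : Normal ℚ (AlgebraicClosure ℚ) := IsAlgClosure.normal ℚ (AlgebraicClosure ℚ)
    exact ⟨⟩
  have hidxK : K.fixingSubgroup.index ≠ 0 := by
    rw [← IntermediateField.finrank_eq_fixingSubgroup_index (AlgebraicClosure ℚ) K]
    exact hposK.ne'
  have : K.fixingSubgroup.FiniteIndex := ⟨hidxK⟩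
  have hidx : (K'.fixingSubgroup.subgroupOf K.fixingSubgroup).index = p ^ t := by
    have h1 := helper1826.finrank_eq_index_mul_finrank hKK'
    rw [hdeg] at h1
    exact (Nat.eq_of_mul_eq_mul_right hposK h1).symm
  have : (K'.fixingSubgroup.subgroupOf K.fixingSubgroup).FiniteIndex :=
    ⟨by rw [hidx]; exact pow_ne_zero _ hp.ne_zero⟩
  have := hnorm
  have hpow : ∀ h : K.fixingSubgroup, ∃ m : ℕ,
      h ^ p ^ m ∈ K'.fixingSubgroup.subgroupOf K.fixingSubgroup := fun h =>
    ⟨t, by
      have := Subgroup.pow_index_mem (K'.fixingSubgroup.subgroupOf K.fixingSubgroup) h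
      rwa [hidx] at this⟩
  -- a normal `S`-level inside `Gal(ℚ̄/K')`
  obtain ⟨L, hL, hLn, hLK', -⟩ := helper62.exists_normal_level hK' hK'
  have := hLn
  have hbase : FinS S (indRep p K) := (finS_indRep_iff hK).2 hfin
  obtain ⟨hF, hχ⟩ := chi_coind_le (p := p) L.fixingSubgroup K.fixingSubgroup K'.fixingSubgroup
    hle hLK' hpow (FinS S) (chiS S) (finS_chiS_of_subsingleton S)
    (fun A B C f g => hsub S p L hL A B C f g) hbase
  refine ⟨(finS_indRep_iff hK').1 hF, ?_⟩
  have e1 : chiS S (indRep p K') ≤ ((p ^ t : ℕ) : ℤ) * chiS S (indRep p K) := by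
    rw [← hidx]
    exact hχ
  rw [chiS_indRep hK', chiS_indRep hK] at e1
  unfold Chi2Sub
  zify
  push_cast at e1
  nlinarith [e1]

/-- **FW-CHI2SUB**: the closed Prop `Stmt_Chi2Sub` of the global bridge, from the subadditivity of
`χ` on the frozen carriers and finiteness for `S`-fields containing `μ_p`. -/
theorem stmt_Chi2Sub_of_chiSub (hsub : Stmt_ChiSubS) (hFin : Stmt_FieldFin) : Stmt_Chi2Sub := by
  intro S p K K' t hK hK' hG
  exact (fieldFin_and_chi2Sub hsub hK.prime hK.unram hK' hG (hFin S p K hK)).2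

end Field

end Fermat.Agent.S55.helper2660
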