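/-
S55 (Poitou–Tate), leaf FW-CHI2SUB, discharge of `Stmt_ChiSubS`.  Author: helper2660.

`stmt_ChiSubS : Stmt_ChiSubS` — subadditivity of `χ = h⁰ - h¹ + h²` on the frozen global carriers,
with finiteness of the middle term as part of the conclusion — from the truncated long exact
sequence `helper7486` through the frame instances `helper2598`.  Hence
`stmt_Chi2Sub_of : helper3071.Stmt_FieldFin → helper3071.Stmt_Chi2Sub`.
-/
import Mathlib
import Fermat.Prelude.Def_GroupCohomology_ContinuousUnramified
import Fermat.Agent.S55.helper7486_LevelCoh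
import Fermat.Agent.S55.helper2598_Frame
import Fermat.Agent.S55.helper2660_Chi2SubField

set_option autoImplicit false

open CategoryTheory groupCohomology ExtCitation

namespace Fermat.Agent.S55.helper2660

open Fermat.Agent.S55.helper3071 Fermat.Agent.S55.helper7486 Fermat.Agent.S55.helper2598

/-- The middle term of an exact pair with finite-dimensional ends is finite-dimensional. -/
lemma finite_of_exact {k X Y Z : Type*} [Field k] [AddCommGroup X] [Module k X]
    [AddCommGroup Y] [Module k Y] [AddCommGroup Z] [Module k Z]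
    [Module.Finite k X] [Module.Finite k Z] {f : X →ₗ[k] Y} {g : Y →ₗ[k] Z}
    (h : Function.Exact f g) : Module.Finite k Y := by
  have hker : LinearMap.ker g = LinearMap.range f := LinearMap.exact_iff.mp h
  have h1 : Module.Finite k (LinearMap.ker g) := by
    rw [hker]
    exact Module.Finite.range f
  have h2 : Module.Finite k (Y ⧸ LinearMap.ker g) :=
    Module.Finite.equiv g.quotKerEquivRange.symm
  exact Module.Finite.of_submodule_quotient (LinearMap.ker g)

/-- **Subadditivity of the truncated Euler characteristic on the frozen global carriers.** -/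
theorem stmt_ChiSubS : Stmt_ChiSubS := by
  intro S p _ L hL A B C f g hfA hfB hfC hNA hNB hNC hf hg hex hFA hFC
  let E : SES A B C := SES.ofHom f g hf hg hex
  have hB : (globalLevels S).Smooth B := fun b =>
    ⟨L.fixingSubgroup, globalLevels_P S hL, fun s hs => by rw [hNB s hs]; rfl⟩
  obtain ⟨hA1, hA2⟩ := hFA
  obtain ⟨hC1, hC2⟩ := hFC
  have iA1 : Module.Finite (ZMod p) (LH1 (globalLevels S) A) :=
    Module.Finite.equiv (LH1equivS S A).symm
  have iA2 : Module.Finite (ZMod p) (LH2 (globalLevels S) A) :=
    Module.Finite.equiv (LH2equivS S A).symm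
  have iC1 : Module.Finite (ZMod p) (LH1 (globalLevels S) C) :=
    Module.Finite.equiv (LH1equivS S C).symm
  have iC2 : Module.Finite (ZMod p) (LH2 (globalLevels S) C) :=
    Module.Finite.equiv (LH2equivS S C).symm
  have iB1 : Module.Finite (ZMod p) (LH1 (globalLevels S) B) :=
    finite_of_exact (E.exact_H1φ_H1ψ (𝓛 := globalLevels S) hB)
  have iB2 : Module.Finite (ZMod p) (LH2 (globalLevels S) B) :=
    finite_of_exact (E.exact_H2φ_H2ψ (𝓛 := globalLevels S) hB)
  have hχ := E.chi_le (𝓛 := globalLevels S) hB
  refine ⟨⟨Module.Finite.equiv (LH1equivS S B), Module.Finite.equiv (LH2equivS S B)⟩, ?_⟩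
  unfold chi at hχ
  unfold chiS
  rw [← (LH1equivS S A).finrank_eq, ← (LH2equivS S A).finrank_eq,
    ← (LH1equivS S B).finrank_eq, ← (LH2equivS S B).finrank_eq,
    ← (LH1equivS S C).finrank_eq, ← (LH2equivS S C).finrank_eq]
  exact hχ

/-- **FW-CHI2SUB**: `χ₂ = 1 - h¹ + h²` is submultiplicative in `p`-power Galois layers of
`S`-fields (closed Prop `Stmt_Chi2Sub` of the global bridge), given finiteness for `S`-fields
containing `μ_p`. -/
theorem stmt_Chi2Sub_of (hFin : Stmt_FieldFin) : Stmt_Chi2Sub :=
  stmt_Chi2Sub_of_chiSub stmt_ChiSubS hFin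

/-- Finiteness of the field cohomology goes up `p`-power Galois layers of `S`-fields, and
`χ₂(K') ≤ p ^ t * χ₂(K)` (unconditional form of `fieldFin_and_chi2Sub`). -/
theorem fieldFin_and_chi2Sub_of_layer {S : Finset Nat.Primes} {p : ℕ}
    {K K' : IntermediateField ℚ (AlgebraicClosure ℚ)} (hp : p.Prime)
    (hK : K.IsUnramifiedOutside S) (hK' : K'.IsUnramifiedOutside S) {t : ℕ}
    (hG : IsGaloisOfDegree K K' (p ^ t)) (hfin : FieldFin S p K) :
    FieldFin S p K' ∧ Chi2Sub S p K K' (p ^ t) :=
  fieldFin_and_chi2Sub stmt_ChiSubS hp hK hK' hG hfin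

end Fermat.Agent.S55.helper2660
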