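/-
S55 (Poitou–Tate), leaf NF-GE-COUNT, final wiring (helper1826).

`helper1826.stmt_FieldGE_of` (file `helper1826_GEField`) takes the five Props of the global
bridge as hypotheses.  Three of them are now theorems (modulo `Stmt_FieldFin`) on the same
carriers:

* `Stmt_Tower`      = `helper1615.stmt_Tower`,
* `Stmt_Chi2Sub`    = `helper2660.stmt_Chi2Sub_of hFin`,
* `Stmt_FieldUpper` = `helper324.stmt_FieldUpper_of hFin`,

and the remaining two follow from the kernel form `helper1919.Stmt_GH` of the Hasse principle
and the local package `helper665.Stmt_LocalL2`: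

* `Stmt_FieldFin`   = `helper1702.stmt_FieldFin_of (helper1919.stmt_FieldSha2Fin_of hGH) hL`,
* `Stmt_FieldLower` = `helper1919.stmt_FieldLower_of hGH`.

So `(G-E)` in field form, `helper3071.Stmt_FieldGE`, depends only on the two roots
`helper1919.Stmt_GH` and `helper665.Stmt_LocalL2`.
-/
import Fermat.Agent.S55.helper1826_GEField
import Fermat.Agent.S55.helper2660_ChiSubS
import Fermat.Agent.S55.helper1615_Tower
import Fermat.Agent.S55.helper324_ClH2
import Fermat.Agent.S55.helper1919_Sha2Bound
import Fermat.Agent.S55.helper1702_FinTop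

namespace Fermat.Agent.S55.helper1826

open Fermat.Agent.S55.helper3071

/-- `(G-E)` in field form from the finiteness statement and the lower bound alone: the upper
bound (`helper324`), the `χ₂`-subadditivity (`helper2660`) and the tower (`helper1615`) are
theorems. -/
theorem stmt_FieldGE_of_fin_lower (hFin : Stmt_FieldFin) (hLow : Stmt_FieldLower) :
    Stmt_FieldGE :=
  stmt_FieldGE_of hFin hLow (helper324.stmt_FieldUpper_of hFin)
    (helper2660.stmt_Chi2Sub_of hFin) helper1615.stmt_Tower

/-- `Stmt_FieldFin` from the two roots (G-H) (kernel form) and (L2). -/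
theorem stmt_FieldFin_of_roots (hGH : helper1919.Stmt_GH) (hL : helper665.Stmt_LocalL2) :
    Stmt_FieldFin :=
  helper1702.stmt_FieldFin_of (helper1919.stmt_FieldSha2Fin_of hGH) hL

/-- `(G-E)` in field form from the two roots (G-H) (kernel form) and (L2). -/
theorem stmt_FieldGE_of_roots (hGH : helper1919.Stmt_GH) (hL : helper665.Stmt_LocalL2) :
    Stmt_FieldGE :=
  stmt_FieldGE_of_fin_lower (stmt_FieldFin_of_roots hGH hL) (helper1919.stmt_FieldLower_of hGH)

end Fermat.Agent.S55.helper1826
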