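import Mathlib
import Fermat.Prelude.Def_GroupCohomology_ContinuousUnramified

/-!
# S55, leaf LS-CHI (helper1838): local Euler characteristic on the frozen carriers

* `nine_term_alt_sum` : Euler characteristic of a nine-term exact sequence (abstract).
* `chiLoc r N`        : `h⁰ - h¹ + h²` of the level-cochain cohomology of `N` along `r`.
* `IsL2 r χ inv N`    : local duality in degree 2 in the form "`(x, f) ↦ inv (f_* x)` is perfect".
* `continuousH2MapHom_surjective_of_isL2` : right exactness of `H²` from `IsL2`.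
* `finrank_continuousH2_eq_of_isL2`       : `h²(N) = dim Hom_G(N, k(χ))`.
* `chiLoc_eq_add_of_exact`                : additivity of `chiLoc` on a short exact sequence.
-/

set_option autoImplicit false

open CategoryTheory groupCohomology Module

namespace Fermat.Agent.S55.helper1838

/-! ## Abstract Euler characteristic -/

section EulerChar

variable {k : Type*} [Field k]

/-- In an exact sequence `U → V → W` the middle dimension is the sum of the two ranks. -/
theorem finrank_eq_range_add_range {U V W : Type*} [AddCommGroup U] [Module k U]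
    [AddCommGroup V] [Module k V] [AddCommGroup W] [Module k W] [FiniteDimensional k V]
    (f : U →ₗ[k] V) (g : V →ₗ[k] W) (h : Function.Exact f g) :
    finrank k V = finrank k (LinearMap.range f) + finrank k (LinearMap.range g) := by
  have h1 := LinearMap.finrank_range_add_finrank_ker g
  rw [LinearMap.exact_iff.1 h] at h1
  omega

/-- **Euler characteristic of a nine-term exact sequence** `0 → V₁ → V₂ → ⋯ → V₉`
(no exactness required at `V₉`): the alternating sum of the first eight dimensions
plus the rank of the last map vanishes. -/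
theorem nine_term_alt_sum
    {V₁ V₂ V₃ V₄ V₅ V₆ V₇ V₈ V₉ : Type*}
    [AddCommGroup V₁] [Module k V₁] [AddCommGroup V₂] [Module k V₂]
    [AddCommGroup V₃] [Module k V₃] [AddCommGroup V₄] [Module k V₄]
    [AddCommGroup V₅] [Module k V₅] [AddCommGroup V₆] [Module k V₆]
    [AddCommGroup V₇] [Module k V₇] [AddCommGroup V₈] [Module k V₈]
    [AddCommGroup V₉] [Module k V₉]
    [FiniteDimensional k V₂] [FiniteDimensional k V₃] [FiniteDimensional k V₄]
    [FiniteDimensional k V₅] [FiniteDimensional k V₆] [FiniteDimensional k V₇]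
    [FiniteDimensional k V₈]
    (f₁ : V₁ →ₗ[k] V₂) (f₂ : V₂ →ₗ[k] V₃) (f₃ : V₃ →ₗ[k] V₄) (f₄ : V₄ →ₗ[k] V₅)
    (f₅ : V₅ →ₗ[k] V₆) (f₆ : V₆ →ₗ[k] V₇) (f₇ : V₇ →ₗ[k] V₈) (f₈ : V₈ →ₗ[k] V₉)
    (h₁ : Function.Injective f₁)
    (e₂ : Function.Exact f₁ f₂) (e₃ : Function.Exact f₂ f₃) (e₄ : Function.Exact f₃ f₄)
    (e₅ : Function.Exact f₄ f₅) (e₆ : Function.Exact f₅ f₆) (e₇ : Function.Exact f₆ f₇)
    (e₈ : Function.Exact f₇ f₈) :
    (finrank k V₁ : ℤ) - finrank k V₂ + finrank k V₃ - finrank k V₄ + finrank k V₅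
      - finrank k V₆ + finrank k V₇ - finrank k V₈ + finrank k (LinearMap.range f₈) = 0 := by
  have a₁ := LinearMap.finrank_range_of_inj h₁
  have a₂ := finrank_eq_range_add_range f₁ f₂ e₂
  have a₃ := finrank_eq_range_add_range f₂ f₃ e₃
  have a₄ := finrank_eq_range_add_range f₃ f₄ e₄
  have a₅ := finrank_eq_range_add_range f₄ f₅ e₅
  have a₆ := finrank_eq_range_add_range f₅ f₆ e₆
  have a₇ := finrank_eq_range_add_range f₆ f₇ e₇
  have a₈ := finrank_eq_range_add_range f₇ f₈ e₈
  omega

end EulerChar

/-! ## The local Euler characteristic and duality in degree 2 -/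

section L2

universe u

variable {k G : Type u} [Field k] [Group G]
  (r : G →* (AlgebraicClosure ℚ ≃ₐ[ℚ] AlgebraicClosure ℚ))

/-- The Euler characteristic `h⁰ - h¹ + h²` of the level-cochain cohomology of `N` along `r`
(frozen carriers: invariants, `continuousH1 r N`, `continuousH2 r N`). -/
noncomputable def chiLoc (N : Rep k G) : ℤ :=
  (finrank k N.ρ.invariants : ℤ) - finrank k (continuousH1 r N) + finrank k (continuousH2 r N)

/-- `k`-linear maps `N → k` which are `G`-equivariant for the character `χ` on the target,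
i.e. the underlying linear maps of the morphisms `N ⟶ ofChar χ`. -/
def homChar (χ : G →* kˣ) (N : Rep k G) : Submodule k (Module.Dual k N) where
  carrier := {f | ∀ (g : G) (n : N), f (N.ρ g n) = (χ g : k) * f n}
  add_mem' := by
    intro a b ha hb g n
    simp only [LinearMap.add_apply, ha g n, hb g n, mul_add]
  zero_mem' := by
    intro g n
    simp
  smul_mem' := by
    intro c a ha g n
    simp only [LinearMap.smul_apply, ha g n, smul_eq_mul]
    ring

theorem mem_homChar {χ : G →* kˣ} {N : Rep k G} {f : Module.Dual k N} :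
    f ∈ homChar χ N ↔ ∀ (g : G) (n : N), f (N.ρ g n) = (χ g : k) * f n := Iff.rfl

/-- `homChar χ N` is the space of invariants of the frozen `N.dualTwist χ`. -/
theorem homChar_eq_invariants (χ : G →* kˣ) (N : Rep k G) :
    homChar χ N = (N.dualTwist χ).ρ.invariants := by
  ext f
  rw [mem_homChar, Representation.mem_invariants]
  constructor
  · intro h g
    rw [Rep.dualTwist_ρ_apply]
    ext n
    have := h g (N.ρ g⁻¹ n)
    rw [← Module.End.mul_apply, ← map_mul, mul_inv_cancel, map_one, Module.End.one_apply] at this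
    simp only [LinearMap.smul_apply, LinearMap.comp_apply, smul_eq_mul]
    exact this.symm
  · intro h g n
    have h1 : ((N.dualTwist χ).ρ g f) (N.ρ g n) = f (N.ρ g n) := by rw [h g]
    rw [Rep.dualTwist_ρ_apply, LinearMap.smul_apply, LinearMap.comp_apply, smul_eq_mul,
      ← Module.End.mul_apply, ← map_mul, inv_mul_cancel, map_one, Module.End.one_apply] at h1
    exact h1.symm

/-- Push-forward `continuousH2 r N → continuousH2 r (ofChar χ)` along `f ∈ homChar χ N`. -/
noncomputable def pushChar (χ : G →* kˣ) (N : Rep k G) (f : homChar χ N) :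
    continuousH2 r N →ₗ[k] continuousH2 r (ofChar χ) :=
  continuousH2Map (rH := r) (rG := r) (A := N) (B := ofChar χ) (MonoidHom.id G) (fun _ => rfl)
    (f : Module.Dual k N) (fun g a => f.2 g a)

variable {r}

theorem pushChar_mk (χ : G →* kˣ) (N : Rep k G) (f : homChar χ N) (c : ↥(levelCocycles₂ r N)) :
    pushChar r χ N f (continuousH2π r N c) = continuousH2π r (ofChar χ)
      (levelCocycles₂Map (rH := r) (rG := r) (A := N) (B := ofChar χ) (MonoidHom.id G)
        (fun _ => rfl) (f : Module.Dual k N) (fun g a => f.2 g a) c) := rfl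

theorem pushChar_add (χ : G →* kˣ) (N : Rep k G) (f g : homChar χ N) (x : continuousH2 r N) :
    pushChar r χ N (f + g) x = pushChar r χ N f x + pushChar r χ N g x := by
  obtain ⟨c, rfl⟩ := Submodule.mkQ_surjective _ x
  change continuousH2π r (ofChar χ) _ = continuousH2π r (ofChar χ) _ + continuousH2π r (ofChar χ) _
  rw [← map_add]
  congr 1

theorem pushChar_smul (χ : G →* kˣ) (N : Rep k G) (a : k) (f : homChar χ N)
    (x : continuousH2 r N) :
    pushChar r χ N (a • f) x = a • pushChar r χ N f x := by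
  obtain ⟨c, rfl⟩ := Submodule.mkQ_surjective _ x
  change continuousH2π r (ofChar χ) _ = a • continuousH2π r (ofChar χ) _
  rw [← map_smul]
  congr 1

/-- Composition of an equivariant functional with a morphism of representations. -/
def homCharComp (χ : G →* kˣ) {B C : Rep k G} (ψ : B ⟶ C) (f : homChar χ C) : homChar χ B :=
  ⟨(f : Module.Dual k C) ∘ₗ ψ.hom.toLinearMap, fun g n => by
    change (f : Module.Dual k C) (ψ.hom (B.ρ g n)) = _
    rw [Rep.hom_comm_apply]
    exact f.2 g _⟩

theorem pushChar_homCharComp (χ : G →* kˣ) {B C : Rep k G} (ψ : B ⟶ C) (f : homChar χ C)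
    (y : continuousH2 r B) :
    pushChar r χ B (homCharComp χ ψ f) y = pushChar r χ C f (continuousH2MapHom r ψ y) := by
  obtain ⟨c, rfl⟩ := Submodule.mkQ_surjective _ y
  rfl

/-- The pairing `(x, f) ↦ inv (f_* x)` between `continuousH2 r N` and `homChar χ N`. -/
noncomputable def l2Pairing (χ : G →* kˣ) (inv : continuousH2 r (ofChar χ) →ₗ[k] k)
    (N : Rep k G) : continuousH2 r N →ₗ[k] homChar χ N →ₗ[k] k :=
  LinearMap.mk₂ k (fun x f => inv (pushChar r χ N f x))
    (fun x y f => by simp only [map_add])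
    (fun a x f => by simp only [map_smul])
    (fun x f g => by simp only [pushChar_add, map_add])
    (fun a x f => by simp only [pushChar_smul, map_smul])

@[simp] theorem l2Pairing_apply (χ : G →* kˣ) (inv : continuousH2 r (ofChar χ) →ₗ[k] k)
    (N : Rep k G) (x : continuousH2 r N) (f : homChar χ N) :
    l2Pairing χ inv N x f = inv (pushChar r χ N f x) := rfl

variable (r) in
/-- **Local duality in degree 2 for `N`**, in the form "`(x, f) ↦ inv (f_* x)` is nondegenerate
on both sides" (`x : continuousH2 r N`, `f : N → k` equivariant for `χ`). -/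
def IsL2 (χ : G →* kˣ) (inv : continuousH2 r (ofChar χ) →ₗ[k] k) (N : Rep k G) : Prop :=
  (∀ x : continuousH2 r N, (∀ f : homChar χ N, inv (pushChar r χ N f x) = 0) → x = 0) ∧
  (∀ f : homChar χ N, (∀ x : continuousH2 r N, inv (pushChar r χ N f x) = 0) → f = 0)

/-- `IsL2` from its statement in terms of morphisms `N ⟶ ofChar χ` and the Prelude's
`continuousH2MapHom`. -/
theorem isL2_of_hom (χ : G →* kˣ) (inv : continuousH2 r (ofChar χ) →ₗ[k] k) (N : Rep k G)
    (hl : ∀ x : continuousH2 r N,
      (∀ F : N ⟶ ofChar χ, inv (continuousH2MapHom r F x) = 0) → x = 0)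
    (hr : ∀ F : N ⟶ ofChar χ,
      (∀ x : continuousH2 r N, inv (continuousH2MapHom r F x) = 0) → F = 0) :
    IsL2 r χ inv N := by
  have key : ∀ F : N ⟶ ofChar χ, ∃ f : homChar χ N,
      (f : Module.Dual k N) = F.hom.toLinearMap ∧
      ∀ x, pushChar r χ N f x = continuousH2MapHom r F x := by
    intro F
    refine ⟨⟨F.hom.toLinearMap, fun g n => Rep.hom_comm_apply F g n⟩, rfl, fun x => ?_⟩
    obtain ⟨c, rfl⟩ := Submodule.mkQ_surjective _ x
    rfl
  have key' : ∀ f : homChar χ N, ∃ F : N ⟶ ofChar χ,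
      F.hom.toLinearMap = (f : Module.Dual k N) ∧
      ∀ x, pushChar r χ N f x = continuousH2MapHom r F x := by
    intro f
    refine ⟨Rep.ofHom (ρ := N.ρ) (σ := (Representation.trivial k G k).twist χ)
      ⟨(f : Module.Dual k N), fun g => by ext n; exact f.2 g n⟩, rfl, fun x => ?_⟩
    obtain ⟨c, rfl⟩ := Submodule.mkQ_surjective _ x
    rfl
  refine ⟨fun x hx => hl x fun F => ?_, fun f hf => ?_⟩
  · obtain ⟨f, -, hf⟩ := key F
    rw [← hf]
    exact hx f
  · obtain ⟨F, hF, hFx⟩ := key' f
    have := hr F fun x => by rw [← hFx]; exact hf x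
    apply Subtype.ext
    rw [← hF, this]
    rfl

section Consequences

variable {χ : G →* kˣ} {inv : continuousH2 r (ofChar χ) →ₗ[k] k}

theorem l2Pairing_injective {N : Rep k G} (h : IsL2 r χ inv N) :
    Function.Injective (l2Pairing χ inv N) := by
  rw [← LinearMap.ker_eq_bot, LinearMap.ker_eq_bot']
  intro x hx
  exact h.1 x fun f => by rw [← l2Pairing_apply, hx, LinearMap.zero_apply]

/-- The flipped pairing `f ↦ (x ↦ inv (f_* x))`. -/
noncomputable def l2PairingFlip (χ : G →* kˣ) (inv : continuousH2 r (ofChar χ) →ₗ[k] k)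
    (N : Rep k G) : homChar χ N →ₗ[k] Module.Dual k (continuousH2 r N) :=
  (l2Pairing χ inv N).flip

@[simp] theorem l2PairingFlip_apply (χ : G →* kˣ) (inv : continuousH2 r (ofChar χ) →ₗ[k] k)
    (N : Rep k G) (f : homChar χ N) (x : continuousH2 r N) :
    l2PairingFlip χ inv N f x = inv (pushChar r χ N f x) := rfl

theorem l2PairingFlip_injective {N : Rep k G} (h : IsL2 r χ inv N) :
    Function.Injective (l2PairingFlip χ inv N) := by
  refine (injective_iff_map_eq_zero _).2 fun f hf => h.2 f fun x => ?_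
  rw [← l2PairingFlip_apply, hf, LinearMap.zero_apply]

/-- `IsL2` makes `continuousH2 r N` finite-dimensional (for finite-dimensional `N`). -/
theorem finiteDimensional_continuousH2_of_isL2 {N : Rep k G} [FiniteDimensional k N]
    (h : IsL2 r χ inv N) : FiniteDimensional k (continuousH2 r N) :=
  FiniteDimensional.of_injective (l2Pairing χ inv N) (l2Pairing_injective h)

/-- `IsL2` gives `h²(N) = dim Hom_G(N, k(χ))`. -/
theorem finrank_continuousH2_eq_of_isL2 {N : Rep k G} [FiniteDimensional k N]
    (h : IsL2 r χ inv N) : finrank k (continuousH2 r N) = finrank k (homChar χ N) := by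
  have := finiteDimensional_continuousH2_of_isL2 h
  apply le_antisymm
  · exact (LinearMap.finrank_le_finrank_of_injective (l2Pairing_injective h)).trans_eq
      (Subspace.dual_finrank_eq (K := k) (V := homChar χ N))
  · exact (LinearMap.finrank_le_finrank_of_injective (l2PairingFlip_injective h)).trans_eq
      (Subspace.dual_finrank_eq (K := k) (V := continuousH2 r N))

/-- `IsL2` gives `h²(N) = h⁰(N.dualTwist χ)` on the frozen carriers. -/
theorem finrank_continuousH2_eq_invariants_dualTwist {N : Rep k G} [FiniteDimensional k N]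
    (h : IsL2 r χ inv N) :
    finrank k (continuousH2 r N) = finrank k (N.dualTwist χ).ρ.invariants := by
  rw [finrank_continuousH2_eq_of_isL2 h, homChar_eq_invariants]

/-- Under `IsL2` every linear functional on `continuousH2 r N` is `x ↦ inv (f_* x)`. -/
theorem exists_homChar_of_isL2 {N : Rep k G} [FiniteDimensional k N] (h : IsL2 r χ inv N)
    (l : Module.Dual k (continuousH2 r N)) :
    ∃ f : homChar χ N, ∀ x, l x = inv (pushChar r χ N f x) := by
  have := finiteDimensional_continuousH2_of_isL2 h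
  have hfr : finrank k (homChar χ N) = finrank k (Module.Dual k (continuousH2 r N)) := by
    rw [Subspace.dual_finrank_eq, finrank_continuousH2_eq_of_isL2 h]
  have hsurj : Function.Surjective (l2PairingFlip χ inv N) := by
    exact (LinearMap.injective_iff_surjective_of_finrank_eq_finrank (K := k)
      (V := homChar χ N) (V₂ := Module.Dual k (continuousH2 r N)) hfr).1
      (l2PairingFlip_injective h)
  obtain ⟨f, hf⟩ := hsurj l
  exact ⟨f, fun x => by rw [← hf]; rfl⟩

/-- **Right exactness of `H²`** from local duality: if `ψ : B ⟶ C` is surjective and `IsL2`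
holds for `B` and `C`, the Prelude's `continuousH2MapHom r ψ` is surjective. -/
theorem continuousH2MapHom_surjective_of_isL2 {B C : Rep k G} [FiniteDimensional k C]
    (ψ : B ⟶ C) (hψ : Function.Surjective ψ.hom) (hB : IsL2 r χ inv B) (hC : IsL2 r χ inv C) :
    Function.Surjective (continuousH2MapHom r ψ) := by
  rw [← LinearMap.range_eq_top]
  by_contra hne
  obtain ⟨l, hl0, hl⟩ := Submodule.exists_le_ker_of_lt_top _ (lt_top_iff_ne_top.2 hne)
  obtain ⟨f, hf⟩ := exists_homChar_of_isL2 hC l
  have h0 : homCharComp χ ψ f = 0 := hB.2 _ fun y => by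
    rw [pushChar_homCharComp, ← hf]
    exact hl ⟨y, rfl⟩
  have hf0 : f = 0 := by
    apply Subtype.ext
    apply LinearMap.ext
    intro c
    obtain ⟨b, rfl⟩ := hψ c
    exact congrArg (fun φ : homChar χ B => (φ : Module.Dual k B) b) h0
  apply hl0
  apply LinearMap.ext
  intro x
  rw [hf x, hf0]
  change inv (pushChar r χ C 0 x) = 0
  have : pushChar r χ C 0 x = 0 := by
    have := pushChar_smul χ C (0 : k) 0 x
    rwa [zero_smul, zero_smul] at this
  rw [this, map_zero]

end Consequences

/-! ## Additivity of the local Euler characteristic -/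

/-- **Sub-additivity of `chiLoc`** from a truncated long exact sequence
`0 → H⁰A → H⁰B → H⁰C → H¹A → H¹B → H¹C → H²A → H²B → H²C` on the frozen carriers
(the maps are arbitrary linear maps; only injectivity of the first and exactness at the seven
middle terms are used). -/
theorem chiLoc_le_add_of_exact {A B C : Rep k G}
    [FiniteDimensional k B] [FiniteDimensional k C]
    [FiniteDimensional k (continuousH1 r A)] [FiniteDimensional k (continuousH1 r B)]
    [FiniteDimensional k (continuousH1 r C)] [FiniteDimensional k (continuousH2 r A)]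
    [FiniteDimensional k (continuousH2 r B)] [FiniteDimensional k (continuousH2 r C)]
    (f₁ : A.ρ.invariants →ₗ[k] B.ρ.invariants) (f₂ : B.ρ.invariants →ₗ[k] C.ρ.invariants)
    (f₃ : C.ρ.invariants →ₗ[k] continuousH1 r A) (f₄ : continuousH1 r A →ₗ[k] continuousH1 r B)
    (f₅ : continuousH1 r B →ₗ[k] continuousH1 r C) (f₆ : continuousH1 r C →ₗ[k] continuousH2 r A)
    (f₇ : continuousH2 r A →ₗ[k] continuousH2 r B) (f₈ : continuousH2 r B →ₗ[k] continuousH2 r C)
    (h₁ : Function.Injective f₁)
    (e₂ : Function.Exact f₁ f₂) (e₃ : Function.Exact f₂ f₃) (e₄ : Function.Exact f₃ f₄)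
    (e₅ : Function.Exact f₄ f₅) (e₆ : Function.Exact f₅ f₆) (e₇ : Function.Exact f₆ f₇)
    (e₈ : Function.Exact f₇ f₈) :
    chiLoc r B ≤ chiLoc r A + chiLoc r C := by
  have key := nine_term_alt_sum f₁ f₂ f₃ f₄ f₅ f₆ f₇ f₈ h₁ e₂ e₃ e₄ e₅ e₆ e₇ e₈
  have hle : finrank k (LinearMap.range f₈) ≤ finrank k (continuousH2 r C) :=
    Submodule.finrank_le _
  unfold chiLoc
  omega

/-- **Additivity of `chiLoc`** when moreover `H²B → H²C` is surjective. -/
theorem chiLoc_eq_add_of_exact {A B C : Rep k G}
    [FiniteDimensional k B] [FiniteDimensional k C]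
    [FiniteDimensional k (continuousH1 r A)] [FiniteDimensional k (continuousH1 r B)]
    [FiniteDimensional k (continuousH1 r C)] [FiniteDimensional k (continuousH2 r A)]
    [FiniteDimensional k (continuousH2 r B)]
    (f₁ : A.ρ.invariants →ₗ[k] B.ρ.invariants) (f₂ : B.ρ.invariants →ₗ[k] C.ρ.invariants)
    (f₃ : C.ρ.invariants →ₗ[k] continuousH1 r A) (f₄ : continuousH1 r A →ₗ[k] continuousH1 r B)
    (f₅ : continuousH1 r B →ₗ[k] continuousH1 r C) (f₆ : continuousH1 r C →ₗ[k] continuousH2 r A)
    (f₇ : continuousH2 r A →ₗ[k] continuousH2 r B) (f₈ : continuousH2 r B →ₗ[k] continuousH2 r C)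
    (h₁ : Function.Injective f₁)
    (e₂ : Function.Exact f₁ f₂) (e₃ : Function.Exact f₂ f₃) (e₄ : Function.Exact f₃ f₄)
    (e₅ : Function.Exact f₄ f₅) (e₆ : Function.Exact f₅ f₆) (e₇ : Function.Exact f₆ f₇)
    (e₈ : Function.Exact f₇ f₈) (h₉ : Function.Surjective f₈) :
    chiLoc r B = chiLoc r A + chiLoc r C := by
  have key := nine_term_alt_sum f₁ f₂ f₃ f₄ f₅ f₆ f₇ f₈ h₁ e₂ e₃ e₄ e₅ e₆ e₇ e₈
  have hle : finrank k (LinearMap.range f₈) = finrank k (continuousH2 r C) := by
    rw [LinearMap.range_eq_top.2 h₉, finrank_top]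
  unfold chiLoc
  omega

/-- **Additivity of `chiLoc` from local duality**: the last map is the Prelude's
`continuousH2MapHom r ψ`, whose surjectivity comes from `IsL2` for `B` and `C`. -/
theorem chiLoc_eq_add_of_exact_of_isL2 {A B C : Rep k G}
    [FiniteDimensional k B] [FiniteDimensional k C]
    [FiniteDimensional k (continuousH1 r A)] [FiniteDimensional k (continuousH1 r B)]
    [FiniteDimensional k (continuousH1 r C)] [FiniteDimensional k (continuousH2 r A)]
    {χ : G →* kˣ} {inv : continuousH2 r (ofChar χ) →ₗ[k] k}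
    (ψ : B ⟶ C) (hψ : Function.Surjective ψ.hom) (hB : IsL2 r χ inv B) (hC : IsL2 r χ inv C)
    (f₁ : A.ρ.invariants →ₗ[k] B.ρ.invariants) (f₂ : B.ρ.invariants →ₗ[k] C.ρ.invariants)
    (f₃ : C.ρ.invariants →ₗ[k] continuousH1 r A) (f₄ : continuousH1 r A →ₗ[k] continuousH1 r B)
    (f₅ : continuousH1 r B →ₗ[k] continuousH1 r C) (f₆ : continuousH1 r C →ₗ[k] continuousH2 r A)
    (f₇ : continuousH2 r A →ₗ[k] continuousH2 r B)
    (h₁ : Function.Injective f₁)
    (e₂ : Function.Exact f₁ f₂) (e₃ : Function.Exact f₂ f₃) (e₄ : Function.Exact f₃ f₄)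
    (e₅ : Function.Exact f₄ f₅) (e₆ : Function.Exact f₅ f₆) (e₇ : Function.Exact f₆ f₇)
    (e₈ : Function.Exact f₇ (continuousH2MapHom r ψ)) :
    chiLoc r B = chiLoc r A + chiLoc r C := by
  have := finiteDimensional_continuousH2_of_isL2 hB
  exact chiLoc_eq_add_of_exact f₁ f₂ f₃ f₄ f₅ f₆ f₇ (continuousH2MapHom r ψ) h₁ e₂ e₃ e₄ e₅ e₆ e₇
    e₈ (continuousH2MapHom_surjective_of_isL2 ψ hψ hB hC)

end L2

end Fermat.Agent.S55.helper1838
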