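import Fermat.Agent.S55.helper1838_LocalChiAdd
import Fermat.Agent.S55.helper2598_Frame
import Fermat.Agent.S55.helper665_L2Num
import Fermat.Agent.S55.helper895_H1LocFinal

/-!
# S55, leaf LS-CHI (helper1838): (L) additivity of the local Euler characteristics, closed form

* `isFrame_localLevels r` : `helper2598.localLevels r` computes the frozen level-constancy
  along `r`, so `chiLoc_eq_add_of_ses_local` / `chiLoc_le_add_of_ses_local` hold on the frozen
  carriers without any frame hypothesis.
* `chiLoc_res_eq_add` : for every prime `q` and every short exact sequence `0 → A → B → C → 0`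
  of `𝔽_p[G_ℚ]`-modules with `B` finite-dimensional with open stabilisers,
  `χ_q(B) = χ_q(A) + χ_q(C)` for `χ_q(M) = h⁰ - h¹ + h²` of `Rep.res (primeLocalToGlobal q) M`
  (invariants, `continuousH1`, `continuousH2`), from the local duality package
  `helper665.Stmt_LocalL2` alone (local `H¹` finiteness is `helper895`, unconditional).
* `pi_additive`, `pi_additive_of_hom` : the same summed over `q ∈ S`, in the vocabulary
  `pi0`, `pi1`, `pi2` of `helper2945_SoftSpec`, without subtraction.
-/

set_option autoImplicit false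

open CategoryTheory groupCohomology Module ExtCitation

namespace Fermat.Agent.S55.helper1838

open Fermat.Agent.S55.helper7486

local notation "GQ" => (AlgebraicClosure ℚ ≃ₐ[ℚ] AlgebraicClosure ℚ)

section Frame

universe u

variable {k G : Type u} [Field k] [Group G] (r : G →* GQ)

/-- `helper2598.localLevels r` computes the frozen level-constancy along `r`. -/
theorem isFrame_localLevels : IsFrame r (helper2598.localLevels r) :=
  ⟨fun f => helper2598.localLevels_is₁_iff r f, fun f => helper2598.localLevels_is₂_iff r f⟩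

/-- Smoothness for `helper2598.localLevels r` from the frozen open-stabiliser condition. -/
theorem smooth_localLevels (N : Rep.{u, u, u} k G)
    (hN : ∀ n : N, ∃ F : IntermediateField ℚ (AlgebraicClosure ℚ), FiniteDimensional ℚ F ∧
      ∀ s : G, r s ∈ F.fixingSubgroup → N.ρ s n = n) :
    (helper2598.localLevels r).Smooth N :=
  (helper2598.fieldLevels_smooth_iff helper2598.finClass r N).2 hN

/-- **(L) Additivity of the local Euler characteristic** on the frozen carriers: for every
short exact sequence `0 → A → B → C → 0` of finite-dimensional representations with `B`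
smooth along `r`, given local duality `IsL2` for `B` and `C` and finite-dimensionality of the
three `H¹`'s and of `H²(A)`. -/
theorem chiLoc_eq_add_of_ses_local {A B C : Rep.{u, u, u} k G} (E : SES A B C)
    (hB : ∀ b : B, ∃ F : IntermediateField ℚ (AlgebraicClosure ℚ), FiniteDimensional ℚ F ∧
      ∀ s : G, r s ∈ F.fixingSubgroup → B.ρ s b = b)
    [FiniteDimensional k B] [FiniteDimensional k C]
    [FiniteDimensional k (continuousH1 r A)] [FiniteDimensional k (continuousH1 r B)]
    [FiniteDimensional k (continuousH1 r C)] [FiniteDimensional k (continuousH2 r A)]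
    {χ : G →* kˣ} {inv : continuousH2 r (ofChar χ) →ₗ[k] k}
    (hLB : IsL2 r χ inv B) (hLC : IsL2 r χ inv C) :
    chiLoc r B = chiLoc r A + chiLoc r C :=
  chiLoc_eq_add_of_ses (isFrame_localLevels r) E (smooth_localLevels r B hB) hLB hLC

/-- Sub-additivity of the local Euler characteristic on the frozen carriers (no duality). -/
theorem chiLoc_le_add_of_ses_local {A B C : Rep.{u, u, u} k G} (E : SES A B C)
    (hB : ∀ b : B, ∃ F : IntermediateField ℚ (AlgebraicClosure ℚ), FiniteDimensional ℚ F ∧
      ∀ s : G, r s ∈ F.fixingSubgroup → B.ρ s b = b)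
    [FiniteDimensional k B] [FiniteDimensional k C]
    [FiniteDimensional k (continuousH1 r A)] [FiniteDimensional k (continuousH1 r B)]
    [FiniteDimensional k (continuousH1 r C)] [FiniteDimensional k (continuousH2 r A)]
    [FiniteDimensional k (continuousH2 r B)] [FiniteDimensional k (continuousH2 r C)] :
    chiLoc r B ≤ chiLoc r A + chiLoc r C :=
  chiLoc_le_add_of_ses (isFrame_localLevels r) E (smooth_localLevels r B hB)

/-- The (L2) predicate of the local Spec (`helper665.IsL2`) is the one used here. -/
theorem isL2_of_localSpec {χ : G →* kˣ} {inv : continuousH2 r (ofChar χ) →ₗ[k] k}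
    {N : Rep.{u, u, u} k G} (h : helper665.IsL2 r χ inv N) : IsL2 r χ inv N :=
  isL2_of_hom χ inv N h.1 h.2

end Frame

section Closed

variable {p : ℕ} [Fact p.Prime]

/-- The sub-module of a short exact sequence inherits open stabilisers. -/
theorem smooth_left_of_ses {A B C : Rep.{0, 0, 0} (ZMod p) GQ} (E : SES A B C)
    (hsm : ∀ m : B, ∃ F : IntermediateField ℚ (AlgebraicClosure ℚ), FiniteDimensional ℚ F ∧
      ∀ s ∈ F.fixingSubgroup, B.ρ s m = m) :
    ∀ m : A, ∃ F : IntermediateField ℚ (AlgebraicClosure ℚ), FiniteDimensional ℚ F ∧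
      ∀ s ∈ F.fixingSubgroup, A.ρ s m = m := by
  intro a
  obtain ⟨F, hF, h⟩ := hsm (E.φ a)
  exact ⟨F, hF, fun s hs => E.inj (by rw [E.hφ, h s hs])⟩

/-- The quotient of a short exact sequence inherits open stabilisers. -/
theorem smooth_right_of_ses {A B C : Rep.{0, 0, 0} (ZMod p) GQ} (E : SES A B C)
    (hsm : ∀ m : B, ∃ F : IntermediateField ℚ (AlgebraicClosure ℚ), FiniteDimensional ℚ F ∧
      ∀ s ∈ F.fixingSubgroup, B.ρ s m = m) :
    ∀ m : C, ∃ F : IntermediateField ℚ (AlgebraicClosure ℚ), FiniteDimensional ℚ F ∧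
      ∀ s ∈ F.fixingSubgroup, C.ρ s m = m := by
  intro c
  obtain ⟨b, rfl⟩ := E.surj c
  obtain ⟨F, hF, h⟩ := hsm b
  exact ⟨F, hF, fun s hs => by rw [← E.hψ, h s hs]⟩

/-- **(L) at a prime `q`.** `χ_q(B) = χ_q(A) + χ_q(C)` for every short exact sequence of
`𝔽_p[G_ℚ]`-modules with `B` finite-dimensional with open stabilisers, from the local duality
package `helper665.Stmt_LocalL2`. -/
theorem chiLoc_res_eq_add (hL : helper665.Stmt_LocalL2) (hp2 : p ≠ 2) (q : Nat.Primes)
    {A B C : Rep.{0, 0, 0} (ZMod p) GQ} (E : SES A B C) [FiniteDimensional (ZMod p) B]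
    (hsm : ∀ m : B, ∃ F : IntermediateField ℚ (AlgebraicClosure ℚ), FiniteDimensional ℚ F ∧
      ∀ s ∈ F.fixingSubgroup, B.ρ s m = m) :
    chiLoc (primeLocalToGlobal q) (Rep.res (primeLocalToGlobal q) B) =
      chiLoc (primeLocalToGlobal q) (Rep.res (primeLocalToGlobal q) A) +
        chiLoc (primeLocalToGlobal q) (Rep.res (primeLocalToGlobal q) C) := by
  obtain ⟨h0, h1, h2⟩ := hL p hp2
  obtain ⟨inv, hinv⟩ := h0 q
  have hsmA := smooth_left_of_ses E hsm
  have hsmC := smooth_right_of_ses E hsm
  have hfA : FiniteDimensional (ZMod p) A := FiniteDimensional.of_injective E.φ E.inj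
  have hfC : FiniteDimensional (ZMod p) C := Module.Finite.of_surjective E.ψ E.surj
  have hLA := isL2_of_localSpec _ (helper665.isL2_res h1 h2 q hinv.1 A hsmA)
  have hLB := isL2_of_localSpec _ (helper665.isL2_res h1 h2 q hinv.1 B hsm)
  have hLC := isL2_of_localSpec _ (helper665.isL2_res h1 h2 q hinv.1 C hsmC)
  have : Finite (continuousH1 (primeLocalToGlobal q) (Rep.res (primeLocalToGlobal q) A)) :=
    helper895.finite_continuousH1_res_of_smooth p q A hsmA
  have : Finite (continuousH1 (primeLocalToGlobal q) (Rep.res (primeLocalToGlobal q) B)) :=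
    helper895.finite_continuousH1_res_of_smooth p q B hsm
  have : Finite (continuousH1 (primeLocalToGlobal q) (Rep.res (primeLocalToGlobal q) C)) :=
    helper895.finite_continuousH1_res_of_smooth p q C hsmC
  have : FiniteDimensional (ZMod p)
      (continuousH1 (primeLocalToGlobal q) (Rep.res (primeLocalToGlobal q) A)) :=
    Module.Finite.of_finite
  have : FiniteDimensional (ZMod p)
      (continuousH1 (primeLocalToGlobal q) (Rep.res (primeLocalToGlobal q) B)) :=
    Module.Finite.of_finite
  have : FiniteDimensional (ZMod p)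
      (continuousH1 (primeLocalToGlobal q) (Rep.res (primeLocalToGlobal q) C)) :=
    Module.Finite.of_finite
  have : FiniteDimensional (ZMod p)
      (continuousH2 (primeLocalToGlobal q) (Rep.res (primeLocalToGlobal q) A)) :=
    finiteDimensional_continuousH2_of_isL2 hLA
  exact chiLoc_eq_add_of_ses_local (primeLocalToGlobal q) (E.res (primeLocalToGlobal q))
    (fun b => by
      obtain ⟨F, hF, h⟩ := hsm b
      exact ⟨F, hF, fun s hs => h _ hs⟩) hLB hLC

/-- `π₀ - π₁ + π₂` is the sum of the local Euler characteristics. -/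
theorem pi_eq_sum_chiLoc (S : Finset Nat.Primes) (M : Rep.{0, 0, 0} (ZMod p) GQ) :
    (helper2945.pi0 S M : ℤ) - helper2945.pi1 S M + helper2945.pi2 S M =
      ∑ q ∈ S, chiLoc (primeLocalToGlobal q) (Rep.res (primeLocalToGlobal q) M) := by
  unfold helper2945.pi0 helper2945.pi1 helper2945.pi2 chiLoc
  push_cast
  rw [Finset.sum_add_distrib, Finset.sum_sub_distrib]

/-- **(L), summed over `S`, integer form**: `(π₀ - π₁ + π₂)(B) = (…)(A) + (…)(C)`. -/
theorem pi_additive_int (hL : helper665.Stmt_LocalL2) (hp2 : p ≠ 2) (S : Finset Nat.Primes)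
    {A B C : Rep.{0, 0, 0} (ZMod p) GQ} (E : SES A B C) [FiniteDimensional (ZMod p) B]
    (hsm : ∀ m : B, ∃ F : IntermediateField ℚ (AlgebraicClosure ℚ), FiniteDimensional ℚ F ∧
      ∀ s ∈ F.fixingSubgroup, B.ρ s m = m) :
    (helper2945.pi0 S B : ℤ) - helper2945.pi1 S B + helper2945.pi2 S B =
      ((helper2945.pi0 S A : ℤ) - helper2945.pi1 S A + helper2945.pi2 S A) +
        ((helper2945.pi0 S C : ℤ) - helper2945.pi1 S C + helper2945.pi2 S C) := by
  rw [pi_eq_sum_chiLoc, pi_eq_sum_chiLoc, pi_eq_sum_chiLoc, ← Finset.sum_add_distrib]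
  exact Finset.sum_congr rfl fun q _ => chiLoc_res_eq_add hL hp2 q E hsm

/-- **(L), summed over `S`, without subtraction** (the shape consumed by the `E*`-devissage):
`π₀(B) + π₂(B) + π₁(A) + π₁(C) = π₀(A) + π₀(C) + π₂(A) + π₂(C) + π₁(B)`. -/
theorem pi_additive (hL : helper665.Stmt_LocalL2) (hp2 : p ≠ 2) (S : Finset Nat.Primes)
    {A B C : Rep.{0, 0, 0} (ZMod p) GQ} (E : SES A B C) [FiniteDimensional (ZMod p) B]
    (hsm : ∀ m : B, ∃ F : IntermediateField ℚ (AlgebraicClosure ℚ), FiniteDimensional ℚ F ∧
      ∀ s ∈ F.fixingSubgroup, B.ρ s m = m) :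
    helper2945.pi0 S B + helper2945.pi2 S B + helper2945.pi1 S A + helper2945.pi1 S C =
      helper2945.pi0 S A + helper2945.pi0 S C + helper2945.pi2 S A + helper2945.pi2 S C +
        helper2945.pi1 S B := by
  have h := pi_additive_int hL hp2 S E hsm
  omega

/-- **(L) for morphisms of representations**: `f : A ⟶ B` injective, `g : B ⟶ C` surjective,
exact in the middle, `B` an `S`-module (only finiteness and open stabilisers are used). -/
theorem pi_additive_of_hom (hL : helper665.Stmt_LocalL2) (hp2 : p ≠ 2) (S : Finset Nat.Primes)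
    {A B C : Rep.{0, 0, 0} (ZMod p) GQ} (f : A ⟶ B) (g : B ⟶ C)
    (hf : Function.Injective f.hom) (hg : Function.Surjective g.hom)
    (hex : Function.Exact f.hom g.hom) (hB : helper2945.IsSMod S B) :
    helper2945.pi0 S B + helper2945.pi2 S B + helper2945.pi1 S A + helper2945.pi1 S C =
      helper2945.pi0 S A + helper2945.pi0 S C + helper2945.pi2 S A + helper2945.pi2 S C +
        helper2945.pi1 S B :=
  haveI := hB.finite
  pi_additive hL hp2 S (SES.ofHom f g hf hg hex) hB.smooth

end Closed

end Fermat.Agent.S55.helper1838
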