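import Mathlib
import Fermat.Prelude.Def_GroupCohomology_ContinuousUnramified
import Fermat.Agent.S55.helper698_LocTop

/-!
# The image of the local Galois group is the decomposition group

For a prime `q`, the frozen map `localGaloisToGlobal q : Gal(ℚ̄_q/ℚ_q) →* Gal(ℚ̄/ℚ)` has range
EXACTLY the decomposition group of the frozen place `padicPlace q` (Prelude has `≤` only).

Proof: for `σ` in the decomposition group, the two algebra maps
`ℚ_[q] ⊗[ℚ] ℚ̄ → PadicAlgCl q`, `a ⊗ z ↦ a * ι z` and `a ⊗ z ↦ a * ι (σ z)`, have comparable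
kernels (rational approximation of the coefficients, `σ` preserves rational balls), and the first
one is onto (Krasner, `helper698_LocTop`), so `σ` extends to a `ℚ_[q]`-algebra endomorphism of
`PadicAlgCl q`, which is an automorphism because the extension is algebraic.
-/

set_option autoImplicit false

noncomputable section

namespace Fermat.Agent.S55.helper1930

open scoped TensorProduct Pointwise

variable (q : ℕ) [Fact q.Prime]

/-- An element of the decomposition group of `padicPlace q` preserves the unit ball. -/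
theorem norm_le_one_of_mem_decompositionSubgroup
    {σ : AlgebraicClosure ℚ ≃ₐ[ℚ] AlgebraicClosure ℚ}
    (hσ : σ ∈ (padicPlace q).decompositionSubgroup ℚ) {z : AlgebraicClosure ℚ}
    (hz : ‖padicEmbedding q z‖ ≤ 1) : ‖padicEmbedding q (σ z)‖ ≤ 1 := by
  have h1 : z ∈ padicPlace q := (mem_padicPlace_iff q).2 hz
  have h2 : σ • z ∈ σ • padicPlace q := ValuationSubring.smul_mem_pointwise_smul _ _ _ h1
  rw [MulAction.mem_stabilizer_iff.1 hσ] at h2
  exact (mem_padicPlace_iff q).1 h2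

/-- An element of the decomposition group of `padicPlace q` preserves every ball of rational
radius `‖r‖`, `r : ℚ`. -/
theorem norm_le_ratCast_of_mem_decompositionSubgroup
    {σ : AlgebraicClosure ℚ ≃ₐ[ℚ] AlgebraicClosure ℚ}
    (hσ : σ ∈ (padicPlace q).decompositionSubgroup ℚ) {z : AlgebraicClosure ℚ} {r : ℚ}
    (hr : r ≠ 0) (hz : ‖padicEmbedding q z‖ ≤ ‖(r : PadicAlgCl q)‖) :
    ‖padicEmbedding q (σ z)‖ ≤ ‖(r : PadicAlgCl q)‖ := by
  have hr0 : (r : PadicAlgCl q) ≠ 0 := by exact_mod_cast hr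
  have hrpos : 0 < ‖(r : PadicAlgCl q)‖ := norm_pos_iff.2 hr0
  have key : ∀ w : AlgebraicClosure ℚ,
      ‖padicEmbedding q ((r⁻¹ : ℚ) • w)‖ = ‖(r : PadicAlgCl q)‖⁻¹ * ‖padicEmbedding q w‖ := by
    intro w
    rw [Rat.smul_def, map_mul, map_ratCast, norm_mul]
    congr 1
    push_cast
    rw [norm_inv]
  have h1 : ‖padicEmbedding q ((r⁻¹ : ℚ) • z)‖ ≤ 1 := by
    rw [key, inv_mul_le_iff₀ hrpos, mul_one]
    exact hz
  have h2 := norm_le_one_of_mem_decompositionSubgroup q hσ h1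
  have h3 : σ ((r⁻¹ : ℚ) • z) = (r⁻¹ : ℚ) • σ z := by
    rw [Rat.smul_def, Rat.smul_def, map_mul, map_ratCast]
  rw [h3, key, inv_mul_le_iff₀ hrpos, mul_one] at h2
  exact h2

/-- There are nonzero rationals of arbitrarily small `q`-adic norm. -/
theorem exists_ratCast_norm_le {ε : ℝ} (hε : 0 < ε) :
    ∃ ρ : ℚ, ρ ≠ 0 ∧ ‖(ρ : PadicAlgCl q)‖ ≤ ε := by
  have hq : (q : ℝ)⁻¹ < 1 := by
    have : (1 : ℝ) < q := by exact_mod_cast (Fact.out : q.Prime).one_lt
    exact inv_lt_one_of_one_lt₀ this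
  obtain ⟨n, hn⟩ := exists_pow_lt_of_lt_one hε hq
  refine ⟨(q : ℚ) ^ n, pow_ne_zero _ (by exact_mod_cast (Fact.out : q.Prime).ne_zero), ?_⟩
  have h1 : (((q : ℚ) ^ n : ℚ) : PadicAlgCl q) = algebraMap ℚ_[q] (PadicAlgCl q) ((q : ℚ_[q]) ^ n) := by
    simp
  rw [h1, norm_algebraMap', norm_pow, Padic.norm_p]
  exact hn.le

/-- **Key lemma.** A `ℚ_[q]`-linear relation between the images of finitely many algebraic numbers
is preserved by every element of the decomposition group of `padicPlace q`. -/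
theorem sum_algebraMap_mul_padicEmbedding_eq_zero
    {σ : AlgebraicClosure ℚ ≃ₐ[ℚ] AlgebraicClosure ℚ}
    (hσ : σ ∈ (padicPlace q).decompositionSubgroup ℚ)
    (S : Finset (ℚ_[q] × AlgebraicClosure ℚ))
    (h : ∑ i ∈ S, algebraMap ℚ_[q] (PadicAlgCl q) i.1 * padicEmbedding q i.2 = 0) :
    ∑ i ∈ S, algebraMap ℚ_[q] (PadicAlgCl q) i.1 * padicEmbedding q (σ i.2) = 0 := by
  rw [← norm_eq_zero]
  refine le_antisymm (le_of_forall_pos_le_add fun ε hε => ?_) (norm_nonneg _)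
  rw [zero_add]
  obtain ⟨ρ, hρ0, hρ⟩ := exists_ratCast_norm_le q (half_pos hε)
  have hρpos : 0 < ‖(ρ : PadicAlgCl q)‖ := norm_pos_iff.2 (by exact_mod_cast hρ0)
  set M : ℝ := 1 + ∑ i ∈ S, (‖padicEmbedding q i.2‖ + ‖padicEmbedding q (σ i.2)‖) with hM
  have hMpos : 0 < M := by
    have : 0 ≤ ∑ i ∈ S, (‖padicEmbedding q i.2‖ + ‖padicEmbedding q (σ i.2)‖) :=
      Finset.sum_nonneg fun i _ => by positivity
    linarith
  set δ : ℝ := ‖(ρ : PadicAlgCl q)‖ / M with hδ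
  have hδpos : 0 < δ := div_pos hρpos hMpos
  have hδM : δ * M = ‖(ρ : PadicAlgCl q)‖ := div_mul_cancel₀ _ hMpos.ne'
  choose r hr using fun a : ℚ_[q] => Padic.rat_dense q a hδpos
  -- norm of the coefficient error
  have hcoef : ∀ a : ℚ_[q], ‖algebraMap ℚ_[q] (PadicAlgCl q) a - ((r a : ℚ) : PadicAlgCl q)‖ ≤ δ := by
    intro a
    have : algebraMap ℚ_[q] (PadicAlgCl q) a - ((r a : ℚ) : PadicAlgCl q)
        = algebraMap ℚ_[q] (PadicAlgCl q) (a - (r a : ℚ_[q])) := by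
      rw [map_sub, map_ratCast]
    rw [this, norm_algebraMap']
    exact (hr a).le
  have hsum1 : ∑ i ∈ S, ‖padicEmbedding q i.2‖ ≤ M - 1 := by
    rw [hM, add_sub_cancel_left]
    exact Finset.sum_le_sum fun i _ => le_add_of_nonneg_right (norm_nonneg _)
  have hsum2 : ∑ i ∈ S, ‖padicEmbedding q (σ i.2)‖ ≤ M - 1 := by
    rw [hM, add_sub_cancel_left]
    exact Finset.sum_le_sum fun i _ => le_add_of_nonneg_left (norm_nonneg _)
  -- the rational combination
  set w : AlgebraicClosure ℚ := ∑ i ∈ S, (r i.1) • i.2 with hw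
  have hιw : padicEmbedding q w =
      - ∑ i ∈ S, (algebraMap ℚ_[q] (PadicAlgCl q) i.1 - ((r i.1 : ℚ) : PadicAlgCl q))
          * padicEmbedding q i.2 := by
    rw [hw, map_sum]
    simp only [sub_mul, Finset.sum_sub_distrib, h, zero_sub, neg_neg, Rat.smul_def, map_mul,
      map_ratCast]
  have hισw : padicEmbedding q (σ w) =
      ∑ i ∈ S, algebraMap ℚ_[q] (PadicAlgCl q) i.1 * padicEmbedding q (σ i.2)
      - ∑ i ∈ S, (algebraMap ℚ_[q] (PadicAlgCl q) i.1 - ((r i.1 : ℚ) : PadicAlgCl q))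
          * padicEmbedding q (σ i.2) := by
    rw [hw, map_sum, map_sum]
    simp only [sub_mul, Finset.sum_sub_distrib, sub_sub_cancel, Rat.smul_def, map_mul,
      map_ratCast]
  have hbound : ∀ f : ℚ_[q] × AlgebraicClosure ℚ → PadicAlgCl q,
      ∑ i ∈ S, ‖f i‖ ≤ M - 1 →
      ‖∑ i ∈ S, (algebraMap ℚ_[q] (PadicAlgCl q) i.1 - ((r i.1 : ℚ) : PadicAlgCl q)) * f i‖
        ≤ ‖(ρ : PadicAlgCl q)‖ := by
    intro f hf
    calc ‖∑ i ∈ S, (algebraMap ℚ_[q] (PadicAlgCl q) i.1 - ((r i.1 : ℚ) : PadicAlgCl q)) * f i‖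
        ≤ ∑ i ∈ S, ‖(algebraMap ℚ_[q] (PadicAlgCl q) i.1 - ((r i.1 : ℚ) : PadicAlgCl q)) * f i‖ :=
          norm_sum_le _ _
      _ ≤ ∑ i ∈ S, δ * ‖f i‖ := Finset.sum_le_sum fun i _ => by
          rw [norm_mul]
          exact mul_le_mul_of_nonneg_right (hcoef i.1) (norm_nonneg _)
      _ = δ * ∑ i ∈ S, ‖f i‖ := by rw [Finset.mul_sum]
      _ ≤ δ * M := mul_le_mul_of_nonneg_left (by linarith) hδpos.le
      _ = ‖(ρ : PadicAlgCl q)‖ := hδM
  have h1 : ‖padicEmbedding q w‖ ≤ ‖(ρ : PadicAlgCl q)‖ := by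
    rw [hιw, norm_neg]
    exact hbound (fun i => padicEmbedding q i.2) hsum1
  have h2 : ‖padicEmbedding q (σ w)‖ ≤ ‖(ρ : PadicAlgCl q)‖ :=
    norm_le_ratCast_of_mem_decompositionSubgroup q hσ hρ0 h1
  have h3 := hbound (fun i => padicEmbedding q (σ i.2)) hsum2
  have h4 : ∑ i ∈ S, algebraMap ℚ_[q] (PadicAlgCl q) i.1 * padicEmbedding q (σ i.2) =
      padicEmbedding q (σ w) +
      ∑ i ∈ S, (algebraMap ℚ_[q] (PadicAlgCl q) i.1 - ((r i.1 : ℚ) : PadicAlgCl q))
          * padicEmbedding q (σ i.2) := by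
    rw [hισw, sub_add_cancel]
  rw [h4]
  calc _ ≤ ‖padicEmbedding q (σ w)‖ + ‖∑ i ∈ S, (algebraMap ℚ_[q] (PadicAlgCl q) i.1
          - ((r i.1 : ℚ) : PadicAlgCl q)) * padicEmbedding q (σ i.2)‖ := norm_add_le _ _
    _ ≤ ‖(ρ : PadicAlgCl q)‖ + ‖(ρ : PadicAlgCl q)‖ := add_le_add h2 h3
    _ ≤ ε := by linarith

/-- The canonical `ℚ_[q]`-algebra map `ℚ_[q] ⊗[ℚ] ℚ̄ → PadicAlgCl q`, `a ⊗ z ↦ a * ι z`. -/
def tensorMap : ℚ_[q] ⊗[ℚ] AlgebraicClosure ℚ →ₐ[ℚ_[q]] PadicAlgCl q :=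
  Algebra.TensorProduct.productLeftAlgHom (Algebra.ofId ℚ_[q] (PadicAlgCl q)) (padicEmbedding q)

@[simp] theorem tensorMap_tmul (a : ℚ_[q]) (z : AlgebraicClosure ℚ) :
    tensorMap q (a ⊗ₜ[ℚ] z) = algebraMap ℚ_[q] (PadicAlgCl q) a * padicEmbedding q z := by
  simp [tensorMap, Algebra.ofId_apply]

/-- The twisted map `a ⊗ z ↦ a * ι (σ z)`. -/
def tensorTwist (σ : AlgebraicClosure ℚ ≃ₐ[ℚ] AlgebraicClosure ℚ) :
    ℚ_[q] ⊗[ℚ] AlgebraicClosure ℚ →ₐ[ℚ_[q]] PadicAlgCl q :=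
  Algebra.TensorProduct.productLeftAlgHom (Algebra.ofId ℚ_[q] (PadicAlgCl q))
    ((padicEmbedding q).comp σ.toAlgHom)

@[simp] theorem tensorTwist_tmul (σ : AlgebraicClosure ℚ ≃ₐ[ℚ] AlgebraicClosure ℚ) (a : ℚ_[q])
    (z : AlgebraicClosure ℚ) :
    tensorTwist q σ (a ⊗ₜ[ℚ] z) = algebraMap ℚ_[q] (PadicAlgCl q) a * padicEmbedding q (σ z) := by
  simp [tensorTwist, Algebra.ofId_apply]

/-- `PadicAlgCl q` is generated, as a `ℚ_[q]`-module, by the image of `ℚ̄` (Krasner). -/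
theorem tensorMap_surjective : Function.Surjective (tensorMap q) := by
  intro x
  obtain ⟨z, hz⟩ := Fermat.Agent.S55.helper698.exists_mem_adjoin_padicEmbedding q x
  have halg : IsAlgebraic ℚ_[q] (padicEmbedding q z) := Algebra.IsAlgebraic.isAlgebraic _
  have h1 : x ∈ Algebra.adjoin ℚ_[q] {padicEmbedding q z} := by
    rw [← IntermediateField.adjoin_simple_toSubalgebra_of_isAlgebraic halg]
    exact hz
  have h2 : Algebra.adjoin ℚ_[q] {padicEmbedding q z} ≤ (tensorMap q).range := by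
    apply Algebra.adjoin_le
    intro y hy
    rw [Set.mem_singleton_iff] at hy
    subst hy
    exact ⟨(1 : ℚ_[q]) ⊗ₜ[ℚ] z, by simp⟩
  exact h2 h1

theorem ker_tensorMap_le_ker_tensorTwist
    {σ : AlgebraicClosure ℚ ≃ₐ[ℚ] AlgebraicClosure ℚ}
    (hσ : σ ∈ (padicPlace q).decompositionSubgroup ℚ) :
    RingHom.ker (tensorMap q).toRingHom ≤ RingHom.ker (tensorTwist q σ).toRingHom := by
  intro t ht
  rw [RingHom.mem_ker] at ht ⊢
  obtain ⟨S, rfl⟩ := TensorProduct.exists_finset t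
  simp only [AlgHom.toRingHom_eq_coe, RingHom.coe_coe, map_sum, tensorMap_tmul,
    tensorTwist_tmul] at ht ⊢
  exact sum_algebraMap_mul_padicEmbedding_eq_zero q hσ S ht

/-- **Every element of the decomposition group of `padicPlace q` comes from the local Galois
group.** -/
theorem exists_localGaloisToGlobal_eq
    {σ : AlgebraicClosure ℚ ≃ₐ[ℚ] AlgebraicClosure ℚ}
    (hσ : σ ∈ (padicPlace q).decompositionSubgroup ℚ) :
    ∃ τ : PadicAlgCl q ≃ₐ[ℚ_[q]] PadicAlgCl q, localGaloisToGlobal q τ = σ := by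
  let τ₀ : PadicAlgCl q →ₐ[ℚ_[q]] PadicAlgCl q :=
    AlgHom.liftOfSurjective (tensorMap q) (tensorMap_surjective q) (tensorTwist q σ)
      (ker_tensorMap_le_ker_tensorTwist q hσ)
  have hτ₀ : ∀ z : AlgebraicClosure ℚ, τ₀ (padicEmbedding q z) = padicEmbedding q (σ z) := by
    intro z
    have h1 : tensorMap q ((1 : ℚ_[q]) ⊗ₜ[ℚ] z) = padicEmbedding q z := by simp
    rw [← h1, AlgHom.liftOfSurjective_apply]
    simp
  let τ : PadicAlgCl q ≃ₐ[ℚ_[q]] PadicAlgCl q :=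
    AlgEquiv.ofBijective τ₀ (Algebra.IsAlgebraic.algHom_bijective τ₀)
  refine ⟨τ, ?_⟩
  ext z
  apply (padicEmbedding q).injective
  change padicEmbedding q (localGaloisToGlobal q τ z) = padicEmbedding q (σ z)
  rw [padicEmbedding_localGaloisToGlobal]
  exact hτ₀ z

/-- **The range of `localGaloisToGlobal q` is the decomposition group of `padicPlace q`.** -/
theorem range_localGaloisToGlobal :
    (localGaloisToGlobal q).range = (padicPlace q).decompositionSubgroup ℚ := by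
  apply le_antisymm
  · rintro _ ⟨τ, rfl⟩
    exact localGaloisToGlobal_mem_decompositionSubgroup q τ
  · intro σ hσ
    obtain ⟨τ, rfl⟩ := exists_localGaloisToGlobal_eq q hσ
    exact ⟨τ, rfl⟩

theorem mem_range_localGaloisToGlobal_iff (σ : AlgebraicClosure ℚ ≃ₐ[ℚ] AlgebraicClosure ℚ) :
    (∃ τ, localGaloisToGlobal q τ = σ) ↔ σ • padicPlace q = padicPlace q := by
  rw [← MulAction.mem_stabilizer_iff]
  constructor
  · rintro ⟨τ, rfl⟩
    exact localGaloisToGlobal_mem_decompositionSubgroup q τ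
  · exact fun h => exists_localGaloisToGlobal_eq q h

/-- The local Galois group is isomorphic, via `localGaloisToGlobal q`, to the decomposition group
of `padicPlace q`. -/
def localGaloisEquivDecomposition :
    (PadicAlgCl q ≃ₐ[ℚ_[q]] PadicAlgCl q) ≃* (padicPlace q).decompositionSubgroup ℚ :=
  MulEquiv.ofBijective
    ((localGaloisToGlobal q).codRestrict _ (localGaloisToGlobal_mem_decompositionSubgroup q))
    ⟨fun a b hab => Fermat.Agent.S55.helper698.localGaloisToGlobal_injective q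
        (congrArg Subtype.val hab),
      fun σ => by
        obtain ⟨τ, hτ⟩ := exists_localGaloisToGlobal_eq q σ.2
        exact ⟨τ, Subtype.ext hτ⟩⟩

@[simp] theorem localGaloisEquivDecomposition_apply (τ : PadicAlgCl q ≃ₐ[ℚ_[q]] PadicAlgCl q) :
    (localGaloisEquivDecomposition q τ : AlgebraicClosure ℚ ≃ₐ[ℚ] AlgebraicClosure ℚ)
      = localGaloisToGlobal q τ := rfl

end Fermat.Agent.S55.helper1930
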