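/-
S55 / NF-LOCNORM-COUNT, component (A) (seat helper1957): the block count.

`V` a finite commutative group with `x ^ p = 1` for all `x` (`p` prime), `σ : V →* V` with
`σ ^ p = id`.  Then the image of the norm `x ↦ ∏ i < p, σ^i x` has at most `|V| ^ (1/p)`
elements: `|N V| ^ p ≤ |V|`.  (Mathlib only.)
-/
import Mathlib

set_option autoImplicit false
set_option linter.style.haveILetI false

namespace Fermat.Agent.S55.helper1957

section BlockCount

open Polynomial in
/-- In characteristic `p`: `1 + X + ⋯ + X ^ (p - 1) = (X - 1) ^ (p - 1)`. -/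
theorem geom_sum_X_eq_sub_one_pow (p : ℕ) [Fact p.Prime] :
    (∑ i ∈ Finset.range p, (X : (ZMod p)[X]) ^ i) = (X - 1) ^ (p - 1) := by
  have hp : p.Prime := Fact.out
  have h1 : (X - 1 : (ZMod p)[X]) * ∑ i ∈ Finset.range p, X ^ i =
      (X - 1) * (X - 1) ^ (p - 1) := by
    rw [mul_geom_sum, ← pow_succ', Nat.sub_add_cancel hp.one_le, sub_pow_char, one_pow]
  have h2 : (X - 1 : (ZMod p)[X]) ≠ 0 := by
    have := X_sub_C_ne_zero (1 : ZMod p)
    simpa using this
  exact mul_left_cancel₀ h2 h1

/-- First isomorphism theorem for the restriction of `f` to a subgroup, as a count. -/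
theorem card_map_mul_card_ker_inf {G : Type*} [Group G] (f : G →* G) (H : Subgroup G) :
    Nat.card (H.map f) * Nat.card ↥(f.ker ⊓ H) = Nat.card H := by
  have h1 := Subgroup.card_mul_index (f.domRestrict H).ker
  rw [Subgroup.index_ker, MonoidHom.domRestrict_range, MonoidHom.ker_domRestrict] at h1
  have h2 : Nat.card ↥(f.ker.subgroupOf H) = Nat.card ↥(f.ker ⊓ H) := by
    rw [← Subgroup.inf_subgroupOf_right]
    exact Nat.card_congr (Subgroup.subgroupOfEquivOfLe inf_le_right).toEquiv
  rw [h2, mul_comm] at h1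
  exact h1

/-- The chain of images `V ⊇ D V ⊇ D² V ⊇ ⋯`. -/
def imgChain {V : Type*} [Group V] (D : V →* V) : ℕ → Subgroup V
  | 0 => ⊤
  | (i + 1) => (imgChain D i).map D

theorem mem_imgChain {V : Type*} [Group V] (D : V →* V) (i : ℕ) (x : V) :
    x ∈ imgChain D i ↔ ∃ y, D^[i] y = x := by
  induction i generalizing x with
  | zero => simp [imgChain]
  | succ i ih =>
    simp only [imgChain, Subgroup.mem_map, ih]
    constructor
    · rintro ⟨z, ⟨y, rfl⟩, rfl⟩
      exact ⟨y, Function.iterate_succ_apply' D i y⟩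
    · rintro ⟨y, rfl⟩
      exact ⟨D^[i] y, ⟨y, rfl⟩, (Function.iterate_succ_apply' D i y).symm⟩

theorem imgChain_succ_le {V : Type*} [Group V] (D : V →* V) (i : ℕ) :
    imgChain D (i + 1) ≤ imgChain D i := by
  induction i with
  | zero => exact le_top
  | succ i ih => exact Subgroup.map_mono ih

/-- **Chain count**: if `D ^ (k + 1) = 0` on a finite group then `|D ^ k V| ^ (k + 1) ≤ |V|`. -/
theorem card_range_iterate_pow_le {V : Type*} [Group V] [Finite V] (D : V →* V) (k : ℕ)
    (hD : ∀ x, D^[k + 1] x = 1) :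
    Nat.card (Set.range (D^[k])) ^ (k + 1) ≤ Nat.card V := by
  set a : ℕ → ℕ := fun i => Nat.card (imgChain D i) with ha
  set c : ℕ → ℕ := fun i => Nat.card ↥(D.ker ⊓ imgChain D i) with hc
  have hac : ∀ i, a (i + 1) * c i = a i := fun i => card_map_mul_card_ker_inf D (imgChain D i)
  have hcc : ∀ i, c (i + 1) ≤ c i := fun i =>
    Subgroup.card_le_of_le (inf_le_inf_left _ (imgChain_succ_le D i))
  have hmain : ∀ j, a (j + 1) * c j ^ (j + 1) ≤ a 0 := by
    intro j
    induction j with
    | zero => simp [hac 0]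
    | succ j ih =>
      calc a (j + 2) * c (j + 1) ^ (j + 2) = a (j + 2) * c (j + 1) * c (j + 1) ^ (j + 1) := by ring
        _ = a (j + 1) * c (j + 1) ^ (j + 1) := by rw [hac (j + 1)]
        _ ≤ a (j + 1) * c j ^ (j + 1) := by gcongr; exact hcc j
        _ ≤ a 0 := ih
  have hbot : imgChain D (k + 1) = ⊥ := by
    rw [eq_bot_iff]
    intro x hx
    obtain ⟨y, rfl⟩ := (mem_imgChain D (k + 1) x).mp hx
    exact Subgroup.mem_bot.mpr (hD y)
  have hak1 : a (k + 1) = 1 := by
    simp only [ha, hbot]
    exact Subgroup.card_bot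
  have hak : a k = c k := by rw [← hac k, hak1, one_mul]
  have ha0 : a 0 = Nat.card V := by
    simp only [ha, imgChain]
    exact Subgroup.card_top
  have hset : Nat.card (Set.range (D^[k])) = a k := by
    simp only [ha]
    apply Nat.card_congr
    exact Equiv.setCongr (by ext x; simp [mem_imgChain])
  rw [hset, hak, ← ha0]
  have := hmain k
  rwa [hak1, one_mul] at this

/-- **Block count.**  `V` finite commutative group of exponent `p` (prime), `σ` an endomorphism
with `σ ^ p = id`.  Then the image of the norm `N = 1 + σ + ⋯ + σ ^ (p - 1)` satisfies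
`|N V| ^ p ≤ |V|`. -/
theorem card_range_norm_pow_le {V : Type*} [CommGroup V] [Finite V] {p : ℕ} (hp : p.Prime)
    (hexp : ∀ x : V, x ^ p = 1) (σ : V →* V) (hσ : ∀ x, σ^[p] x = x) :
    Nat.card (Set.range fun x : V => ∏ i ∈ Finset.range p, σ^[i] x) ^ p ≤ Nat.card V := by
  have : Fact p.Prime := ⟨hp⟩
  letI : Module (ZMod p) (Additive V) := AddCommGroup.zmodModule (n := p)
    (fun x => congrArg Additive.ofMul (hexp x.toMul))
  set D : V →* V := σ / MonoidHom.id V with hDdef
  let s : Additive V →ₗ[ZMod p] Additive V := (MonoidHom.toAdditive σ).toZModLinearMap p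
  have key := congrArg (Polynomial.aeval s) (geom_sum_X_eq_sub_one_pow p)
  simp only [map_sum, map_pow, Polynomial.aeval_X, map_sub, map_one] at key
  have hs : ∀ (i : ℕ) (x : V), (s ^ i) (Additive.ofMul x) = Additive.ofMul (σ^[i] x) := by
    intro i
    induction i with
    | zero => intro x; simp
    | succ i ih =>
      intro x
      rw [pow_succ', Module.End.mul_apply, ih, Function.iterate_succ_apply']
      rfl
  have hd : ∀ (i : ℕ) (x : V), ((s - 1) ^ i) (Additive.ofMul x) = Additive.ofMul (D^[i] x) := by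
    intro i
    induction i with
    | zero => intro x; simp
    | succ i ih =>
      intro x
      rw [pow_succ', Module.End.mul_apply, ih, Function.iterate_succ_apply']
      rfl
  have hN : ∀ x : V, ∏ i ∈ Finset.range p, σ^[i] x = D^[p - 1] x := by
    intro x
    have h1 := congrArg (fun f : Module.End (ZMod p) (Additive V) => f (Additive.ofMul x)) key
    simp only [LinearMap.sum_apply, hs, hd] at h1
    rw [← ofMul_prod] at h1
    exact Additive.ofMul.injective h1
  have hDp : ∀ x : V, D^[p - 1 + 1] x = 1 := by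
    intro x
    rw [Function.iterate_succ_apply', ← hN x, hDdef, MonoidHom.div_apply, MonoidHom.id_apply,
      div_eq_one, map_prod]
    have h2 : ∀ i, σ (σ^[i] x) = σ^[i + 1] x := fun i => (Function.iterate_succ_apply' σ i x).symm
    simp only [h2]
    have h3 := Finset.prod_range_succ' (fun i => σ^[i] x) p
    have h4 := Finset.prod_range_succ (fun i => σ^[i] x) p
    rw [h4, hσ x] at h3
    simp only [Function.iterate_zero, id_eq] at h3
    exact (mul_right_cancel h3).symm
  have hfun : (fun x : V => ∏ i ∈ Finset.range p, σ^[i] x) = D^[p - 1] := funext hN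
  have := card_range_iterate_pow_le D (p - 1) hDp
  rw [hfun]
  rwa [Nat.sub_add_cancel hp.one_le] at this

end BlockCount

end Fermat.Agent.S55.helper1957
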