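/-
S55 / NF-LN (helper1980): the local first inequality in number-field language.
Bridge from the local norm index theorem (fields finite over `ℚ_ℓ` inside `PadicAlgCl ℓ`)
to places of a number field.
-/
import Mathlib

set_option autoImplicit false

open IsDedekindDomain NumberField Polynomial

namespace Fermat.Agent.S55.helper1980

noncomputable section

/-! ## Part 0: basic facts on `PadicAlgCl ℓ` -/

section PadicBasics

variable (ℓ : ℕ) [Fact ℓ.Prime]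

theorem norm_intCast_le_one (a : ℤ) : ‖(a : PadicAlgCl ℓ)‖ ≤ 1 := by
  have h : (a : PadicAlgCl ℓ) = algebraMap ℚ_[ℓ] (PadicAlgCl ℓ) (a : ℚ_[ℓ]) := by simp
  rw [h, PadicAlgCl.norm_extends]
  exact Padic.norm_int_le_one a

theorem norm_intCast_lt_one_iff (a : ℤ) : ‖(a : PadicAlgCl ℓ)‖ < 1 ↔ (ℓ : ℤ) ∣ a := by
  have h : (a : PadicAlgCl ℓ) = algebraMap ℚ_[ℓ] (PadicAlgCl ℓ) (a : ℚ_[ℓ]) := by simp
  rw [h, PadicAlgCl.norm_extends]
  exact Padic.norm_intCast_lt_one_iff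

variable {ℓ}

/-- Integral elements of `PadicAlgCl ℓ` have norm at most one. -/
theorem norm_le_one_of_isIntegral {z : PadicAlgCl ℓ} (hz : IsIntegral ℤ z) : ‖z‖ ≤ 1 := by
  by_contra hlt
  push Not at hlt
  obtain ⟨P, hP, hPz⟩ := hz
  have hsum := hP.as_sum
  have hz0 : z ≠ 0 := by
    rintro rfl
    simp at hlt
    linarith
  rw [hsum] at hPz
  simp only [eval₂_add, eval₂_pow, eval₂_X, eval₂_finsetSum, eval₂_mul, eval₂_C] at hPz
  have h1 : ‖∑ i ∈ Finset.range P.natDegree, (algebraMap ℤ (PadicAlgCl ℓ)) (P.coeff i) * z ^ i‖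
      = ‖z‖ ^ P.natDegree := by
    rw [← norm_pow, ← norm_neg]
    congr 1
    linear_combination (-1 : PadicAlgCl ℓ) * hPz
  have hdeg : P.natDegree ≠ 0 := by
    intro h0
    rw [h0] at h1
    simp at h1
  have h2 : ‖∑ i ∈ Finset.range P.natDegree, (algebraMap ℤ (PadicAlgCl ℓ)) (P.coeff i) * z ^ i‖
      ≤ ‖z‖ ^ (P.natDegree - 1) := by
    refine IsUltrametricDist.norm_sum_le_of_forall_le_of_nonneg (by positivity) ?_
    intro i hi
    rw [Finset.mem_range] at hi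
    rw [norm_mul, norm_pow]
    have ha : ‖(algebraMap ℤ (PadicAlgCl ℓ)) (P.coeff i)‖ ≤ 1 := by
      simpa using norm_intCast_le_one ℓ (P.coeff i)
    calc ‖(algebraMap ℤ (PadicAlgCl ℓ)) (P.coeff i)‖ * ‖z‖ ^ i ≤ 1 * ‖z‖ ^ i := by gcongr
      _ = ‖z‖ ^ i := one_mul _
      _ ≤ ‖z‖ ^ (P.natDegree - 1) := pow_le_pow_right₀ hlt.le (by omega)
  rw [h1] at h2
  have h3 : ‖z‖ ^ (P.natDegree - 1) < ‖z‖ ^ P.natDegree :=
    pow_lt_pow_right₀ hlt (by omega)
  linarith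

end PadicBasics

/-! ## Part A: embeddings into `PadicAlgCl ℓ` and primes of a number field -/

section Dictionary

variable {ℓ : ℕ} [Fact ℓ.Prime] {K : Type*} [Field K] [NumberField K]

omit [NumberField K] in
theorem norm_le_one_of_integer (ψ : K →+* PadicAlgCl ℓ) (x : 𝓞 K) :
    ‖ψ (algebraMap (𝓞 K) K x)‖ ≤ 1 :=
  norm_le_one_of_isIntegral (map_isIntegral_int ψ (RingOfIntegers.isIntegral_coe x))

/-- The prime ideal of `𝓞 K` cut out by an embedding `ψ : K →+* PadicAlgCl ℓ`. -/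
def primeOf (ψ : K →+* PadicAlgCl ℓ) : Ideal (𝓞 K) where
  carrier := {x | ‖ψ (algebraMap (𝓞 K) K x)‖ < 1}
  add_mem' := by
    intro a b ha hb
    change ‖ψ (algebraMap (𝓞 K) K a)‖ < 1 at ha
    change ‖ψ (algebraMap (𝓞 K) K b)‖ < 1 at hb
    change ‖ψ (algebraMap (𝓞 K) K (a + b))‖ < 1
    rw [map_add, map_add]
    exact lt_of_le_of_lt (IsUltrametricDist.norm_add_le_max _ _) (max_lt ha hb)
  zero_mem' := by
    change ‖ψ (algebraMap (𝓞 K) K 0)‖ < 1
    simp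
  smul_mem' := by
    intro c x hx
    change ‖ψ (algebraMap (𝓞 K) K x)‖ < 1 at hx
    change ‖ψ (algebraMap (𝓞 K) K (c * x))‖ < 1
    rw [map_mul, map_mul, norm_mul]
    calc ‖ψ (algebraMap (𝓞 K) K c)‖ * ‖ψ (algebraMap (𝓞 K) K x)‖
        ≤ 1 * ‖ψ (algebraMap (𝓞 K) K x)‖ := by
          gcongr
          exact norm_le_one_of_integer ψ c
      _ < 1 := by rwa [one_mul]

theorem mem_primeOf {ψ : K →+* PadicAlgCl ℓ} {x : 𝓞 K} :
    x ∈ primeOf ψ ↔ ‖ψ (algebraMap (𝓞 K) K x)‖ < 1 :=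
  Iff.rfl

theorem primeOf_isPrime (ψ : K →+* PadicAlgCl ℓ) : (primeOf ψ).IsPrime where
  ne_top' := by
    rw [Ideal.ne_top_iff_one]
    simp [mem_primeOf]
  mem_or_mem' := by
    intro x y hxy
    simp only [mem_primeOf] at hxy ⊢
    rw [map_mul, map_mul, norm_mul] at hxy
    by_contra hcon
    push Not at hcon
    have h1 := norm_le_one_of_integer ψ x
    have h2 := norm_le_one_of_integer ψ y
    have : ‖ψ (algebraMap (𝓞 K) K x)‖ * ‖ψ (algebraMap (𝓞 K) K y)‖ = 1 := by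
      rw [le_antisymm h1 hcon.1, le_antisymm h2 hcon.2, one_mul]
    linarith

variable (w : HeightOneSpectrum (𝓞 K)) {ψ : K →+* PadicAlgCl ℓ} (hψ : primeOf ψ = w.asIdeal)
include hψ

theorem norm_le_one_of_valuation_le_one {s : K} (hs : w.valuation K s ≤ 1) : ‖ψ s‖ ≤ 1 := by
  obtain ⟨n, d, hnd⟩ := w.exists_primeCompl_mul_eq_of_integer s hs
  have hd : ‖ψ (algebraMap (𝓞 K) K (d : 𝓞 K))‖ = 1 := by
    refine le_antisymm (norm_le_one_of_integer ψ _) ?_
    by_contra hlt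
    push Not at hlt
    have : (d : 𝓞 K) ∈ primeOf ψ := hlt
    rw [hψ] at this
    exact d.2 this
  have hn := norm_le_one_of_integer ψ n
  have := congrArg (fun t => ‖ψ t‖) hnd
  simp only [map_mul, norm_mul] at this
  rw [hd, mul_one] at this
  rw [this]
  exact hn

theorem norm_eq_one_of_valuation_eq_one {s : K} (hs : w.valuation K s = 1) : ‖ψ s‖ = 1 := by
  have hs0 : s ≠ 0 := by
    rintro rfl
    simp at hs
  have h1 := norm_le_one_of_valuation_le_one w hψ hs.le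
  have h2 : ‖ψ s⁻¹‖ ≤ 1 := norm_le_one_of_valuation_le_one w hψ (by rw [map_inv₀, hs, inv_one])
  rw [map_inv₀, norm_inv] at h2
  have hpos : 0 < ‖ψ s‖ := norm_pos_iff.mpr ((_root_.map_ne_zero ψ).mpr hs0)
  have h3 : 1 ≤ ‖ψ s‖ := by
    rwa [inv_le_one₀ hpos] at h2
  exact le_antisymm h1 h3

/-- Quantitative dictionary: `ord_w t ≥ N` forces `‖ψ t‖ ≤ ρ ^ N` for a fixed `ρ < 1`. -/
theorem exists_rho : ∃ ρ : ℝ, 0 < ρ ∧ ρ < 1 ∧ ∀ (t : K) (N : ℕ),
    w.valuation K t ≤ WithZero.exp (-(N : ℤ)) → ‖ψ t‖ ≤ ρ ^ N := by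
  obtain ⟨π, hπ'⟩ := w.valuation_exists_uniformizer' K
  have hπ : w.valuation K (algebraMap (𝓞 K) K π) = WithZero.exp (-1 : ℤ) := hπ'
  have hπ0 : algebraMap (𝓞 K) K π ≠ 0 := by
    intro h0
    rw [h0, map_zero] at hπ
    exact WithZero.exp_ne_zero hπ.symm
  have hπmem : π ∈ w.asIdeal := by
    rw [← w.valuation_lt_one_iff_mem (K := K), hπ, ← WithZero.exp_zero, WithZero.exp_lt_exp]
    norm_num
  have hρ1 : ‖ψ (algebraMap (𝓞 K) K π)‖ < 1 := by
    rw [← hψ] at hπmem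
    exact hπmem
  have hρ0 : 0 < ‖ψ (algebraMap (𝓞 K) K π)‖ := norm_pos_iff.mpr ((_root_.map_ne_zero ψ).mpr hπ0)
  refine ⟨‖ψ (algebraMap (𝓞 K) K π)‖, hρ0, hρ1, ?_⟩
  intro t N ht
  have h1 : w.valuation K (t / (algebraMap (𝓞 K) K π) ^ N) ≤ 1 := by
    rw [map_div₀, map_pow, hπ, ← WithZero.exp_nsmul, div_le_one₀ WithZero.exp_pos]
    simpa using ht
  have h2 := norm_le_one_of_valuation_le_one w hψ h1
  rw [map_div₀, map_pow, norm_div, norm_pow, div_le_one₀ (pow_pos hρ0 N)] at h2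
  exact h2

end Dictionary

section ExistsEmbedding

variable {K : Type*} [Field K] [NumberField K]

/-- Every prime of `𝓞 K` contains a rational prime. -/
theorem exists_prime_mem (v : HeightOneSpectrum (𝓞 K)) :
    ∃ ℓ : ℕ, ℓ.Prime ∧ ((ℓ : ℕ) : 𝓞 K) ∈ v.asIdeal := by
  have hn : ((Ideal.absNorm v.asIdeal : ℕ) : 𝓞 K) ∈ v.asIdeal := Ideal.absNorm_mem _
  have hn0 : Ideal.absNorm v.asIdeal ≠ 0 := by
    rw [Ne, Ideal.absNorm_eq_zero_iff]
    exact v.ne_bot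
  have key : ∀ n : ℕ, n ≠ 0 → ((n : ℕ) : 𝓞 K) ∈ v.asIdeal →
      ∃ ℓ : ℕ, ℓ.Prime ∧ ((ℓ : ℕ) : 𝓞 K) ∈ v.asIdeal := by
    intro n
    induction n using Nat.strong_induction_on with
    | _ n ih =>
      intro hn0 hn
      have hn1 : n ≠ 1 := by
        rintro rfl
        rw [Nat.cast_one] at hn
        exact v.isPrime.ne_top ((Ideal.eq_top_iff_one _).mpr hn)
      have hmf := Nat.minFac_prime hn1
      have hdvd := Nat.minFac_dvd n
      obtain ⟨m, hm⟩ := hdvd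
      have hm' : ((n : ℕ) : 𝓞 K) = ((n.minFac : ℕ) : 𝓞 K) * ((m : ℕ) : 𝓞 K) := by
        rw [← Nat.cast_mul, ← hm]
      rw [hm'] at hn
      rcases v.isPrime.mem_or_mem hn with h | h
      · exact ⟨_, hmf, h⟩
      · have hm0 : m ≠ 0 := by
          rintro rfl
          simp at hm
          exact hn0 hm
        have hlt : m < n := by
          have h2 := hmf.two_le
          have hmpos : 0 < m := Nat.pos_of_ne_zero hm0
          calc m < n.minFac * m := by nlinarith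
            _ = n := hm.symm
        exact ih m hlt hm0 h
  exact key _ hn0 hn

variable {ℓ : ℕ} [Fact ℓ.Prime]

/-- Every prime of `𝓞 K` over `ℓ` is cut out by an embedding of `K` into `PadicAlgCl ℓ`. -/
theorem exists_embedding_primeOf_eq (v : HeightOneSpectrum (𝓞 K))
    (hℓ : ((ℓ : ℕ) : 𝓞 K) ∈ v.asIdeal) :
    ∃ φ : K →ₐ[ℚ] PadicAlgCl ℓ, primeOf (φ : K →+* PadicAlgCl ℓ) = v.asIdeal := by
  classical
  have hsub : (v.asIdeal : Set (𝓞 K)) ⊆
      ⋃ σ ∈ ((Finset.univ : Finset (K →ₐ[ℚ] PadicAlgCl ℓ)) : Set (K →ₐ[ℚ] PadicAlgCl ℓ)),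
        (primeOf (σ : K →+* PadicAlgCl ℓ) : Set (𝓞 K)) := by
    intro x hx
    have hnorm := Algebra.norm_eq_prod_embeddings ℚ (PadicAlgCl ℓ) (algebraMap (𝓞 K) K x)
    have hdvd : (ℓ : ℤ) ∣ Algebra.norm ℤ x := by
      have h1 : ((Ideal.absNorm (Ideal.span {x}) : ℕ) : 𝓞 K) ∈ v.asIdeal :=
        (Ideal.span_le.mpr (Set.singleton_subset_iff.mpr hx)) (Ideal.absNorm_mem _)
      rw [Ideal.absNorm_span_singleton] at h1
      by_contra hnd
      have hℓp : ℓ.Prime := Fact.out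
      have hcop : Nat.Coprime ℓ (Algebra.norm ℤ x).natAbs := by
        rw [hℓp.coprime_iff_not_dvd]
        intro h
        exact hnd (Int.natCast_dvd.mpr h)
      obtain ⟨a, b, hab⟩ := Nat.isCoprime_iff_coprime.mpr hcop
      have h2 : ((a : ℤ) : 𝓞 K) * ((ℓ : ℕ) : 𝓞 K) +
          ((b : ℤ) : 𝓞 K) * (((Algebra.norm ℤ x).natAbs : ℕ) : 𝓞 K) = 1 := by
        have := congrArg (fun t : ℤ => (t : 𝓞 K)) hab
        simpa using this
      have h3 : (1 : 𝓞 K) ∈ v.asIdeal := by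
        rw [← h2]
        exact v.asIdeal.add_mem (v.asIdeal.mul_mem_left _ hℓ) (v.asIdeal.mul_mem_left _ h1)
      exact v.isPrime.ne_top ((Ideal.eq_top_iff_one _).mpr h3)
    have hlt : ‖∏ σ : K →ₐ[ℚ] PadicAlgCl ℓ, σ (algebraMap (𝓞 K) K x)‖ < 1 := by
      rw [← hnorm, ← Algebra.coe_norm_int x]
      have : (algebraMap ℚ (PadicAlgCl ℓ)) ((Algebra.norm ℤ x : ℤ) : ℚ)
          = ((Algebra.norm ℤ x : ℤ) : PadicAlgCl ℓ) := by simp
      rw [this]
      exact (norm_intCast_lt_one_iff ℓ _).mpr hdvd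
    rw [norm_prod] at hlt
    by_contra hcon
    simp only [Finset.coe_univ, Set.mem_univ, Set.iUnion_true, Set.mem_iUnion, SetLike.mem_coe,
      mem_primeOf, not_exists, not_lt] at hcon
    have h1 : (1 : ℝ) ≤ ∏ σ : K →ₐ[ℚ] PadicAlgCl ℓ, ‖σ (algebraMap (𝓞 K) K x)‖ := by
      have := Finset.prod_le_prod (s := (Finset.univ : Finset (K →ₐ[ℚ] PadicAlgCl ℓ)))
        (f := fun _ => (1 : ℝ)) (g := fun σ => ‖σ (algebraMap (𝓞 K) K x)‖)
        (fun _ _ => zero_le_one) (fun σ _ => hcon σ)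
      simpa using this
    linarith
  have φ₀ : K →ₐ[ℚ] PadicAlgCl ℓ := IsAlgClosed.lift
  obtain ⟨σ, -, hσ⟩ := (Ideal.subset_union_prime (R := 𝓞 K)
    (s := (Finset.univ : Finset (K →ₐ[ℚ] PadicAlgCl ℓ)))
    (f := fun σ => primeOf (σ : K →+* PadicAlgCl ℓ)) φ₀ φ₀
    (fun i _ _ _ => primeOf_isPrime _)).mp hsub
  exact ⟨σ, (Ideal.IsMaximal.eq_of_le v.isMaximal (primeOf_isPrime _).ne_top hσ).symm⟩

end ExistsEmbedding

/-! ## Part C: a unique prime above `v` makes the Galois group act by isometries -/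

section Isometry

variable {ℓ : ℕ} [Fact ℓ.Prime]
variable {F E : Type*} [Field F] [NumberField F] [Field E] [NumberField E] [Algebra F E]

theorem primeOf_eq_of_unique (v : HeightOneSpectrum (𝓞 F)) (W : Ideal (𝓞 E))
    (hW : v.asIdeal.primesOver (𝓞 E) = {W}) (ψ : E →+* PadicAlgCl ℓ)
    (hψ : primeOf (ψ.comp (algebraMap F E)) = v.asIdeal) : primeOf ψ = W := by
  have hmem : primeOf ψ ∈ v.asIdeal.primesOver (𝓞 E) := by
    refine ⟨primeOf_isPrime ψ, ⟨?_⟩⟩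
    ext x
    rw [← hψ, Ideal.under_def, Ideal.mem_comap, mem_primeOf, mem_primeOf, RingHom.comp_apply,
      ← IsScalarTower.algebraMap_apply (𝓞 F) F E, ← IsScalarTower.algebraMap_apply (𝓞 F) (𝓞 E) E]
  rw [hW] at hmem
  exact hmem

theorem norm_comp_algEquiv (v : HeightOneSpectrum (𝓞 F)) (W : HeightOneSpectrum (𝓞 E))
    (hW : v.asIdeal.primesOver (𝓞 E) = {W.asIdeal}) (ψ : E →+* PadicAlgCl ℓ)
    (hψ : primeOf (ψ.comp (algebraMap F E)) = v.asIdeal) (σ : E ≃ₐ[F] E) (x : E) :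
    ‖ψ (σ x)‖ = ‖ψ x‖ := by
  have h1 : primeOf ψ = W.asIdeal := primeOf_eq_of_unique v W.asIdeal hW ψ hψ
  have h2 : primeOf (ψ.comp (σ : E →+* E)) = W.asIdeal := by
    refine primeOf_eq_of_unique v W.asIdeal hW _ ?_
    rw [← hψ]
    congr 1
    ext y
    simp
  rcases eq_or_ne x 0 with rfl | hx
  · simp
  -- the auxiliary element `t = ℓ`
  have htmem : ((ℓ : ℕ) : 𝓞 E) ∈ W.asIdeal := by
    rw [← h1, mem_primeOf]
    have : ψ (algebraMap (𝓞 E) E ((ℓ : ℕ) : 𝓞 E)) = ((ℓ : ℤ) : PadicAlgCl ℓ) := by simp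
    rw [this, norm_intCast_lt_one_iff]
  have hℓ0 : ((ℓ : ℕ) : E) ≠ 0 := by
    have : (ℓ : ℕ) ≠ 0 := (Fact.out : ℓ.Prime).ne_zero
    exact_mod_cast this
  have htval : W.valuation E ((ℓ : ℕ) : E) < 1 := by
    have := (W.valuation_lt_one_iff_mem (K := E) ((ℓ : ℕ) : 𝓞 E)).mpr htmem
    simpa using this
  have htval0 : W.valuation E ((ℓ : ℕ) : E) ≠ 0 := (_root_.map_ne_zero _).mpr hℓ0
  have hxval0 : W.valuation E x ≠ 0 := (_root_.map_ne_zero _).mpr hx
  set a : ℤ := WithZero.log (W.valuation E x) with ha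
  set b : ℤ := WithZero.log (W.valuation E ((ℓ : ℕ) : E)) with hb
  have hea : W.valuation E x = WithZero.exp a := (WithZero.exp_log hxval0).symm
  have heb : W.valuation E ((ℓ : ℕ) : E) = WithZero.exp b := (WithZero.exp_log htval0).symm
  have hbneg : b < 0 := by
    rw [heb, ← WithZero.exp_zero, WithZero.exp_lt_exp] at htval
    exact htval
  obtain ⟨m, hm⟩ : ∃ m : ℕ, (m : ℤ) = -b := ⟨(-b).toNat, Int.toNat_of_nonneg (by omega)⟩
  have hm0 : m ≠ 0 := by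
    rintro rfl
    simp at hm
    omega
  set u : E := x ^ m * ((ℓ : ℕ) : E) ^ a with hu
  have huval : W.valuation E u = 1 := by
    rw [hu, map_mul, map_pow, map_zpow₀, hea, heb, ← WithZero.exp_nsmul, ← WithZero.exp_zsmul,
      ← WithZero.exp_add, ← WithZero.exp_zero, WithZero.exp_inj]
    simp only [nsmul_eq_mul, smul_eq_mul]
    rw [hm]
    ring
  have e1 : ‖ψ u‖ = 1 := norm_eq_one_of_valuation_eq_one W h1 huval
  have e2 : ‖ψ (σ u)‖ = 1 := by
    have := norm_eq_one_of_valuation_eq_one W h2 huval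
    simpa using this
  have hσu : σ u = (σ x) ^ m * ((ℓ : ℕ) : E) ^ a := by
    rw [hu, map_mul, map_pow, map_zpow₀, map_natCast]
  rw [hσu, map_mul, map_pow, map_zpow₀, norm_mul, norm_pow, norm_zpow] at e2
  rw [hu, map_mul, map_pow, map_zpow₀, norm_mul, norm_pow, norm_zpow] at e1
  have hne : ‖ψ ((ℓ : ℕ) : E)‖ ^ a ≠ 0 :=
    zpow_ne_zero _ (norm_ne_zero_iff.mpr ((_root_.map_ne_zero ψ).mpr hℓ0))
  have hpow : ‖ψ (σ x)‖ ^ m = ‖ψ x‖ ^ m := by
    have := e2.trans e1.symm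
    exact mul_right_cancel₀ hne this
  exact (pow_left_inj₀ (norm_nonneg _) (norm_nonneg _) hm0).mp hpow

end Isometry

end

end Fermat.Agent.S55.helper1980
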