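/-
S55 / NF-LN (helper1980): the local first inequality (LN) in number-field language.

`locNormProper : Stmt_LocNormProper F E` for `E / F` Galois of prime degree `p`: at a place `v`
of `F` which does not split completely in `E`, some element of `Fˣ` is not a local norm.

Proof: embed `E` in `PadicAlgCl ℓ` compatibly with `v` (file `helper1980_LocNorm`), form the
local tower `K = ℚ_ℓ(ψ F) ⊆ L = K(ψ E)` (Galois of degree `p`, norms compatible), use that
`p`-th powers are open in `K`, and conclude with the local norm index theorem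
(`helper913.stmt_LocalNormIdx`).
-/
import Mathlib
import Fermat.Agent.S55.helper1980_HasseSpec
import Fermat.Agent.S55.helper1980_LocNorm
import Fermat.Agent.S14.helper4373_KummerDecomp
import Fermat.Agent.S55.helper913_LocalNormIdx

set_option autoImplicit false

open IsDedekindDomain NumberField Polynomial IntermediateField

namespace Fermat.Agent.S55.helper1980

noncomputable section

section Generic

/-- If `B = A[β]` (power basis), a ring homomorphism `ψ : B → Ω` maps `B` into any intermediate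
field containing `ψ A` and `ψ β`. -/
theorem map_mem_of_powerBasis {A B : Type*} [Field A] [Field B] [Algebra A B]
    (pb : PowerBasis A B)
    {k Ω : Type*} [Field k] [Field Ω] [Algebra k Ω] (ψ : B →+* Ω) (K₀ : IntermediateField k Ω)
    (hA : ∀ a : A, ψ (algebraMap A B a) ∈ K₀) (hβ' : ψ pb.gen ∈ K₀) (b : B) : ψ b ∈ K₀ := by
  obtain ⟨g, rfl⟩ := pb.exists_eq_aeval' b
  rw [aeval_def, hom_eval₂, eval₂_eq_sum_range]
  exact sum_mem (fun i _ => mul_mem (hA _) (pow_mem hβ' _))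

theorem um_norm_sub_le_max {Ω : Type*} [SeminormedAddCommGroup Ω] [IsUltrametricDist Ω]
    (x y : Ω) : ‖x - y‖ ≤ max ‖x‖ ‖y‖ := by
  rw [sub_eq_add_neg]
  exact (IsUltrametricDist.norm_add_le_max x (-y)).trans (by rw [norm_neg])

/-- Ultrametric estimate for the difference of two "polynomial" sums. -/
theorem norm_sum_sub_sum_le {Ω : Type*} [NormedField Ω] [IsUltrametricDist Ω] (a b : ℕ → Ω)
    (β : Ω) (n : ℕ) {ε : ℝ} (hε : 0 ≤ ε) (h : ∀ i < n, ‖a i - b i‖ ≤ ε) :
    ‖∑ i ∈ Finset.range n, a i * β ^ i - ∑ i ∈ Finset.range n, b i * β ^ i‖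
      ≤ ε * (max 1 ‖β‖) ^ n := by
  rw [← Finset.sum_sub_distrib]
  have hB : (1 : ℝ) ≤ max 1 ‖β‖ := le_max_left _ _
  refine IsUltrametricDist.norm_sum_le_of_forall_le_of_nonneg (by positivity) ?_
  intro i hi
  rw [Finset.mem_range] at hi
  rw [← sub_mul, norm_mul, norm_pow]
  have h1 : ‖β‖ ^ i ≤ (max 1 ‖β‖) ^ n :=
    calc ‖β‖ ^ i ≤ (max 1 ‖β‖) ^ i := pow_le_pow_left₀ (norm_nonneg _) (le_max_right _ _) i
      _ ≤ (max 1 ‖β‖) ^ n := pow_le_pow_right₀ hB hi.le
  exact mul_le_mul (h i hi) h1 (by positivity) hε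

/-- Base change of the norm along compatible bases. -/
theorem norm_map_eq_of_bases {A B K L : Type*} [CommRing A] [CommRing B] [Algebra A B]
    [CommRing K] [CommRing L] [Algebra K L]
    (f : A →+* K) (g : B →+* L) (hfg : ∀ a, g (algebraMap A B a) = algebraMap K L (f a))
    {ι : Type*} [Fintype ι] [DecidableEq ι] (b : Module.Basis ι A B) (b' : Module.Basis ι K L)
    (hb : ∀ i, b' i = g (b i)) (y : B) : Algebra.norm K (g y) = f (Algebra.norm A y) := by
  rw [Algebra.norm_eq_matrix_det b', Algebra.norm_eq_matrix_det b, RingHom.map_det]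
  congr 1
  ext i j
  rw [Algebra.leftMulMatrix_eq_repr_mul, RingHom.mapMatrix_apply, Matrix.map_apply,
    Algebra.leftMulMatrix_eq_repr_mul]
  have h1 : g y * b' j = ∑ i, f (b.repr (y * b j) i) • b' i := by
    rw [hb j, ← map_mul]
    conv_lhs => rw [← b.sum_repr (y * b j)]
    rw [map_sum]
    refine Finset.sum_congr rfl (fun i _ => ?_)
    rw [Algebra.smul_def, map_mul, hfg, hb, Algebra.smul_def]
  rw [h1, b'.repr_sum_self]

end Generic

section LocalTower

variable {ℓ : ℕ} [Fact ℓ.Prime]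
variable {F E : Type*} [Field F] [Field E] [Algebra F E]
variable (ψ : E →+* PadicAlgCl ℓ) (K : IntermediateField ℚ_[ℓ] (PadicAlgCl ℓ))

/-- If the Galois group acts by isometries through `ψ` and `ψ F` is dense in `K`, then every
polynomial over `K` vanishing at `ψ θ` vanishes at all the `ψ (σ θ)`. -/
theorem aeval_conj_eq_zero
    (hiso : ∀ (σ : E ≃ₐ[F] E) (x : E), ‖ψ (σ x)‖ = ‖ψ x‖)
    (hdense : ∀ (u : K) (ε : ℝ), 0 < ε →
      ∃ a : F, ‖ψ (algebraMap F E a) - (u : PadicAlgCl ℓ)‖ ≤ ε)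
    (θ : E) (m : K[X]) (hm : aeval (ψ θ) m = 0) (σ : E ≃ₐ[F] E) :
    aeval (ψ (σ θ)) m = 0 := by
  by_contra hne
  have hpos : 0 < ‖aeval (ψ (σ θ)) m‖ := norm_pos_iff.mpr hne
  set n := m.natDegree + 1 with hn
  set B : ℝ := max 1 ‖ψ θ‖ with hB
  have hBpos : 0 < B ^ n := by positivity
  set ε : ℝ := ‖aeval (ψ (σ θ)) m‖ / (2 * B ^ n) with hε
  have hεpos : 0 < ε := by positivity
  choose a ha using fun i : ℕ => hdense (m.coeff i) ε hεpos
  set e : E := ∑ i ∈ Finset.range n, algebraMap F E (a i) * θ ^ i with he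
  have h1 : ψ e = ∑ i ∈ Finset.range n, ψ (algebraMap F E (a i)) * (ψ θ) ^ i := by
    simp [he, map_sum, map_mul, map_pow]
  have h2 : ψ (σ e) = ∑ i ∈ Finset.range n, ψ (algebraMap F E (a i)) * (ψ (σ θ)) ^ i := by
    simp [he, map_sum, map_mul, map_pow]
  have h3 : ∀ r : PadicAlgCl ℓ,
      aeval r m = ∑ i ∈ Finset.range n, ((m.coeff i : K) : PadicAlgCl ℓ) * r ^ i := by
    intro r
    rw [aeval_eq_sum_range]
    refine Finset.sum_congr rfl (fun i _ => ?_)
    rw [Algebra.smul_def]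
    rfl
  have e1 : ‖ψ e - aeval (ψ θ) m‖ ≤ ε * B ^ n := by
    rw [h1, h3]
    exact norm_sum_sub_sum_le _ _ _ n hεpos.le (fun i _ => ha i)
  have e2 : ‖ψ (σ e) - aeval (ψ (σ θ)) m‖ ≤ ε * B ^ n := by
    rw [h2, h3]
    have := norm_sum_sub_sum_le (fun i => ψ (algebraMap F E (a i)))
      (fun i => ((m.coeff i : K) : PadicAlgCl ℓ)) (ψ (σ θ)) n hεpos.le (fun i _ => ha i)
    rwa [hiso σ θ] at this
  rw [hm, sub_zero] at e1
  have e3 : ‖ψ (σ e)‖ ≤ ε * B ^ n := by rw [hiso]; exact e1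
  have e4 : ‖aeval (ψ (σ θ)) m‖ ≤ ε * B ^ n := by
    have : aeval (ψ (σ θ)) m = ψ (σ e) - (ψ (σ e) - aeval (ψ (σ θ)) m) := by ring
    rw [this]
    exact (um_norm_sub_le_max _ _).trans (max_le e3 e2)
  have e5 : ε * B ^ n = ‖aeval (ψ (σ θ)) m‖ / 2 := by
    rw [hε]
    field_simp
  linarith

/-- **The local tower.**  If the Galois group of `E / F` acts by isometries through `ψ`, and
`ψ F` is a dense subset of `K`, then `L = K(ψ E)` is Galois over `K` of degree `[E : F]` and the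
norms are compatible. -/
theorem exists_local_tower [FiniteDimensional F E] [IsGalois F E] (pb : PowerBasis F E)
    (hiso : ∀ (σ : E ≃ₐ[F] E) (x : E), ‖ψ (σ x)‖ = ‖ψ x‖)
    (hK : ∀ a : F, ψ (algebraMap F E a) ∈ K)
    (hdense : ∀ (u : K) (ε : ℝ), 0 < ε →
      ∃ a : F, ‖ψ (algebraMap F E a) - (u : PadicAlgCl ℓ)‖ ≤ ε) :
    ∃ L : IntermediateField K (PadicAlgCl ℓ), IsGalois K L ∧
      Module.finrank K L = Module.finrank F E ∧
      ∀ y : E, ∃ z : L, (z : PadicAlgCl ℓ) = ψ y ∧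
        ((Algebra.norm K z : K) : PadicAlgCl ℓ) = ψ (algebraMap F E (Algebra.norm F y)) := by
  classical
  set θ := pb.gen with hθ
  have hint : IsIntegral K (ψ θ) := by
    have : Algebra.IsAlgebraic K (PadicAlgCl ℓ) :=
      Algebra.IsAlgebraic.tower_top (K := ℚ_[ℓ]) K
    exact Algebra.IsIntegral.isIntegral _
  set m := minpoly K (ψ θ) with hm
  have hm0 : m ≠ 0 := minpoly.ne_zero hint
  have hmθ : aeval (ψ θ) m = 0 := minpoly.aeval K (ψ θ)
  have hroot : ∀ σ : E ≃ₐ[F] E, aeval (ψ (σ θ)) m = 0 :=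
    aeval_conj_eq_zero ψ K hiso hdense θ m hmθ
  -- the homomorphism `F → K`
  let φK : F →+* K := (ψ.comp (algebraMap F E)).codRestrict K hK
  -- upper bound for the degree
  have hle : m.natDegree ≤ Module.finrank F E := by
    have hdvd : m ∣ (minpoly F θ).map φK := by
      apply minpoly.dvd
      rw [aeval_def, eval₂_map]
      have : (algebraMap K (PadicAlgCl ℓ)).comp φK = ψ.comp (algebraMap F E) := by
        ext a
        rfl
      rw [this, ← hom_eval₂, ← aeval_def, minpoly.aeval, map_zero]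
    have hmonic : (minpoly F θ).Monic := minpoly.monic (IsIntegral.of_finite F θ)
    have h1 := natDegree_le_of_dvd hdvd (hmonic.map φK).ne_zero
    rw [hmonic.natDegree_map φK] at h1
    rw [pb.finrank, ← pb.natDegree_minpoly]
    exact h1
  -- root count
  let R : Finset (PadicAlgCl ℓ) := Finset.univ.image (fun σ : E ≃ₐ[F] E => ψ (σ θ))
  have hinj : Function.Injective (fun σ : E ≃ₐ[F] E => ψ (σ θ)) := by
    intro σ τ h
    have h' : σ θ = τ θ := ψ.injective h
    have h'' : (σ : E →ₐ[F] E) = (τ : E →ₐ[F] E) := pb.algHom_ext h'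
    exact AlgEquiv.coe_toAlgHom_injective h''
  have hRcard : R.card = Module.finrank F E := by
    rw [Finset.card_image_of_injective _ hinj, Finset.card_univ, ← Nat.card_eq_fintype_card,
      IsGalois.card_aut_eq_finrank]
  have hRsub : R ⊆ (m.aroots (PadicAlgCl ℓ)).toFinset := by
    intro r hr
    obtain ⟨σ, -, rfl⟩ := Finset.mem_image.mp hr
    rw [Multiset.mem_toFinset, mem_aroots]
    exact ⟨hm0, hroot σ⟩
  have hcard_le : (m.aroots (PadicAlgCl ℓ)).toFinset.card ≤ m.natDegree := by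
    calc (m.aroots (PadicAlgCl ℓ)).toFinset.card
        ≤ Multiset.card (m.aroots (PadicAlgCl ℓ)) := Multiset.toFinset_card_le _
      _ ≤ (m.map (algebraMap K (PadicAlgCl ℓ))).natDegree := card_roots' _
      _ = m.natDegree := natDegree_map _
  have hdeg : m.natDegree = Module.finrank F E := by
    have := Finset.card_le_card hRsub
    omega
  have hReq : R = (m.aroots (PadicAlgCl ℓ)).toFinset :=
    Finset.eq_of_subset_of_card_le hRsub (by omega)
  -- the field `L`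
  have hψL : ∀ y : E, ψ y ∈ K⟮ψ θ⟯ := by
    refine map_mem_of_powerBasis pb ψ K⟮ψ θ⟯ (fun a => ?_) (mem_adjoin_simple_self K (ψ θ))
    exact (K⟮ψ θ⟯).algebraMap_mem (⟨_, hK a⟩ : K)
  have hLeq : K⟮ψ θ⟯ = adjoin K (m.rootSet (PadicAlgCl ℓ)) := by
    apply le_antisymm
    · rw [adjoin_simple_le_iff]
      exact subset_adjoin K _ (mem_rootSet.mpr ⟨hm0, hmθ⟩)
    · rw [adjoin_le_iff]
      intro r hr
      rw [rootSet, ← hReq] at hr
      obtain ⟨σ, -, rfl⟩ := Finset.mem_image.mp (Finset.mem_coe.mp hr)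
      exact hψL (σ θ)
  have hfin : Module.finrank K K⟮ψ θ⟯ = Module.finrank F E := by
    rw [IntermediateField.adjoin.finrank hint, hdeg]
  have hgal : IsGalois K K⟮ψ θ⟯ := by
    rw [hLeq]
    have := adjoin_rootSet_isSplittingField (K := K) (L := PadicAlgCl ℓ) (p := m)
      (IsAlgClosed.splits _)
    exact IsGalois.of_separable_splitting_field (p := m) (minpoly.irreducible hint).separable
  refine ⟨K⟮ψ θ⟯, hgal, hfin, fun y => ?_⟩
  -- norm compatibility
  let ψL : E →+* K⟮ψ θ⟯ := ψ.codRestrict K⟮ψ θ⟯ hψL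
  refine ⟨ψL y, rfl, ?_⟩
  let pbL := IntermediateField.adjoin.powerBasis hint
  have hdim : pbL.dim = pb.dim := by
    rw [IntermediateField.adjoin.powerBasis_dim, ← hm, hdeg, pb.finrank]
  have key := norm_map_eq_of_bases φK ψL (fun a => rfl) pb.basis
    (pbL.basis.reindex (finCongr hdim)) ?_ y
  · rw [key]
    rfl
  · intro i
    rw [Module.Basis.reindex_apply, PowerBasis.coe_basis, PowerBasis.coe_basis, map_pow]
    rfl

end LocalTower


section PowOpen

variable {ℓ : ℕ} [Fact ℓ.Prime]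

/-- Automorphisms of `PadicAlgCl ℓ` over an intermediate field are isometries. -/
theorem norm_algEquiv_eq (K : IntermediateField ℚ_[ℓ] (PadicAlgCl ℓ))
    (τ : PadicAlgCl ℓ ≃ₐ[K] PadicAlgCl ℓ) (x : PadicAlgCl ℓ) : ‖τ x‖ = ‖x‖ :=
  (spectralNorm_eq_of_equiv (τ.restrictScalars ℚ_[ℓ]) x).symm

/-- The nontrivial `p`-th roots of unity stay away from `1`. -/
theorem exists_root_of_unity_gap (ℓ : ℕ) [Fact ℓ.Prime] (p : ℕ) (hp : 0 < p) :
    ∃ δ : ℝ, 0 < δ ∧ δ ≤ 1 ∧ ∀ ζ : PadicAlgCl ℓ, ζ ^ p = 1 → ζ ≠ 1 → δ ≤ ‖ζ - 1‖ := by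
  classical
  set S : Finset (PadicAlgCl ℓ) := insert 2 ((nthRootsFinset p (1 : PadicAlgCl ℓ)).erase 1)
    with hS
  have hSne : S.Nonempty := Finset.insert_nonempty _ _
  refine ⟨min 1 (S.inf' hSne (fun ζ => ‖ζ - 1‖)), ?_, min_le_left _ _, ?_⟩
  · rw [lt_min_iff, Finset.lt_inf'_iff]
    refine ⟨one_pos, fun ζ hζ => ?_⟩
    rw [norm_pos_iff, sub_ne_zero]
    rcases Finset.mem_insert.mp hζ with rfl | h
    · norm_num
    · exact (Finset.mem_erase.mp h).1
  · intro ζ hζ hζ1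
    refine (min_le_right _ _).trans (Finset.inf'_le _ ?_)
    exact Finset.mem_insert_of_mem
      (Finset.mem_erase.mpr ⟨hζ1, (mem_nthRootsFinset hp _).mpr hζ⟩)

/-- **`p`-th powers are open** in a subfield `K` of `PadicAlgCl ℓ` containing `ℚ_ℓ`
(Krasner-type argument). -/
theorem exists_delta_pow (K : IntermediateField ℚ_[ℓ] (PadicAlgCl ℓ)) (p : ℕ) (hp : 0 < p) :
    ∃ δ : ℝ, 0 < δ ∧ ∀ z : K, ‖(z : PadicAlgCl ℓ) - 1‖ < δ → ∃ k : K, k ^ p = z := by
  obtain ⟨δ₀, hδ₀, hδ₁, hgap⟩ := exists_root_of_unity_gap ℓ p hp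
  refine ⟨δ₀ ^ p, pow_pos hδ₀ p, fun z hz => ?_⟩
  set q : (PadicAlgCl ℓ)[X] := X ^ p - C (z : PadicAlgCl ℓ) with hq
  have hqm : q.Monic := monic_X_pow_sub_C _ hp.ne'
  have hqs : q.Splits := IsAlgClosed.splits q
  have hqd : q.natDegree = p := natDegree_X_pow_sub_C
  have hev : q.eval 1 = 1 - (z : PadicAlgCl ℓ) := by simp [hq]
  -- some root is close to `1`
  obtain ⟨r, hr, hr1⟩ : ∃ r ∈ q.roots, ‖1 - r‖ < δ₀ := by
    by_contra hcon
    push Not at hcon
    have h1 := hqs.eval_eq_prod_roots_of_monic hqm 1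
    have h2 : ‖q.eval 1‖ = (q.roots.map (fun r => ‖1 - r‖)).prod := by
      rw [h1]
      have := map_multiset_prod (normHom : PadicAlgCl ℓ →*₀ ℝ) (q.roots.map (fun r => 1 - r))
      rw [Multiset.map_map] at this
      exact this
    have h3 : δ₀ ^ p ≤ (q.roots.map (fun r => ‖1 - r‖)).prod := by
      have := Multiset.prod_map_le_prod_map₀ (s := q.roots) (fun _ => δ₀) (fun r => ‖1 - r‖)
        (fun _ _ => hδ₀.le) hcon
      rwa [Multiset.map_const', Multiset.prod_replicate, ← hqs.natDegree_eq_card_roots, hqd]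
        at this
    rw [hev, norm_sub_rev] at h2
    linarith
  have hrp : r ^ p = (z : PadicAlgCl ℓ) := by
    have := (mem_roots hqm.ne_zero).mp hr
    simpa [hq, sub_eq_zero] using this
  have hr1' : ‖r - 1‖ < δ₀ := by rwa [norm_sub_rev] at hr1
  have hlt : ‖r - 1‖ < 1 := lt_of_lt_of_le hr1' hδ₁
  have hrnorm : ‖r‖ = 1 := by
    have h1 : ‖r‖ ≤ 1 := by
      have := IsUltrametricDist.norm_add_le_max (r - 1) 1
      rw [sub_add_cancel, norm_one] at this
      exact this.trans (max_le hlt.le le_rfl)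
    have h2 : (1 : ℝ) ≤ ‖r‖ := by
      by_contra hcon
      push Not at hcon
      have := um_norm_sub_le_max r (r - 1)
      rw [sub_sub_cancel, norm_one] at this
      exact absurd this (not_le.mpr (max_lt hcon hlt))
    exact le_antisymm h1 h2
  have hr0 : r ≠ 0 := by
    rintro rfl
    simp at hrnorm
  -- `r` is fixed by `Gal(Ω/K)`
  have hfix : ∀ τ : PadicAlgCl ℓ ≃ₐ[K] PadicAlgCl ℓ, τ r = r := by
    intro τ
    by_contra hne
    have hτz : τ (z : PadicAlgCl ℓ) = z := τ.commutes z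
    have hζp : (τ r / r) ^ p = 1 := by
      rw [div_pow, ← map_pow, hrp, hτz, div_self]
      rw [← hrp]
      exact pow_ne_zero _ hr0
    have hζ1 : τ r / r ≠ 1 := by
      intro h
      exact hne ((div_eq_one_iff_eq hr0).mp h)
    have h1 := hgap _ hζp hζ1
    have h2 : ‖τ r / r - 1‖ = ‖τ r - r‖ := by
      rw [div_sub_one hr0, norm_div, hrnorm, div_one]
    have h3 : ‖τ r - r‖ ≤ ‖r - 1‖ := by
      have : τ r - r = τ (r - 1) - (r - 1) := by simp
      rw [this]
      exact (um_norm_sub_le_max _ _).trans (max_le (norm_algEquiv_eq K τ _).le le_rfl)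
    linarith
  have : IsAlgClosure K (PadicAlgCl ℓ) :=
    ⟨inferInstance, Algebra.IsAlgebraic.tower_top (K := ℚ_[ℓ]) K⟩
  obtain ⟨k, hk⟩ :=
    (InfiniteGalois.mem_range_algebraMap_iff_fixed (k := K) (K := PadicAlgCl ℓ) r).mpr hfix
  refine ⟨k, ?_⟩
  apply Subtype.ext
  rw [← hrp, ← hk]
  rfl

/-- Density of `φ F` in `ℚ_ℓ(φ α)`. -/
theorem exists_approx_of_mem_adjoin_simple {F : Type*} [Field F] [CharZero F]
    (φ : F →+* PadicAlgCl ℓ) (α : F) (u : PadicAlgCl ℓ) (hu : u ∈ ℚ_[ℓ]⟮φ α⟯) {ε : ℝ}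
    (hε : 0 < ε) : ∃ a : F, ‖φ a - u‖ ≤ ε := by
  have halg : IsAlgebraic ℚ_[ℓ] (φ α) := Algebra.IsAlgebraic.isAlgebraic _
  rw [← IntermediateField.mem_toSubalgebra, adjoin_simple_toSubalgebra_of_isAlgebraic halg,
    Algebra.adjoin_singleton_eq_range_aeval] at hu
  obtain ⟨g, rfl⟩ := hu
  set n := g.natDegree + 1 with hn
  set B : ℝ := max 1 ‖φ α‖ with hB
  have hBpos : 0 < B ^ n := by positivity
  choose c hc using fun i : ℕ => Padic.rat_dense ℓ (g.coeff i) (div_pos hε hBpos)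
  refine ⟨∑ i ∈ Finset.range n, (c i : F) * α ^ i, ?_⟩
  have h1 : φ (∑ i ∈ Finset.range n, (c i : F) * α ^ i)
      = ∑ i ∈ Finset.range n, algebraMap ℚ_[ℓ] (PadicAlgCl ℓ) (c i : ℚ_[ℓ]) * (φ α) ^ i := by
    simp [map_sum, map_mul, map_pow, map_ratCast]
  have h2 : aeval (φ α) g
      = ∑ i ∈ Finset.range n, algebraMap ℚ_[ℓ] (PadicAlgCl ℓ) (g.coeff i) * (φ α) ^ i := by
    rw [aeval_eq_sum_range]
    refine Finset.sum_congr rfl (fun i _ => ?_)
    rw [Algebra.smul_def]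
  change ‖φ (∑ i ∈ Finset.range n, (c i : F) * α ^ i) - aeval (φ α) g‖ ≤ ε
  rw [h1, h2]
  have h3 := norm_sum_sub_sum_le (fun i => algebraMap ℚ_[ℓ] (PadicAlgCl ℓ) (c i : ℚ_[ℓ]))
    (fun i => algebraMap ℚ_[ℓ] (PadicAlgCl ℓ) (g.coeff i)) (φ α) n (div_pos hε hBpos).le
    (fun i _ => by
      rw [← map_sub, PadicAlgCl.norm_extends, norm_sub_rev]
      exact (hc i).le)
  calc _ ≤ ε / B ^ n * B ^ n := h3
    _ = ε := by field_simp

end PowOpen

/-- Extension of an embedding to an algebraic extension. -/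
theorem exists_extension {F E : Type*} [Field F] [Field E] [Algebra F E]
    [Algebra.IsAlgebraic F E] {Ω : Type*} [Field Ω] [IsAlgClosed Ω] (φ : F →+* Ω) :
    ∃ ψ : E →+* Ω, ∀ a, ψ (algebraMap F E a) = φ a := by
  let _ := φ.toAlgebra
  let ψ' : E →ₐ[F] Ω := IsAlgClosed.lift
  exact ⟨ψ'.toRingHom, fun a => ψ'.commutes a⟩


/-! ## Assembly -/

section Assembly

open Fermat.Agent.S14.helper165 (normHom Split)

variable {F E : Type} [Field F] [NumberField F] [Field E] [NumberField E] [Algebra F E]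
  [IsGalois F E]

/-- **(LN) from the local norm theorem.** -/
theorem locNormProper_of_local {p : ℕ} (hp : p.Prime) (hdeg : Module.finrank F E = p)
    (hloc : ∀ (ℓ : ℕ) [Fact ℓ.Prime], Stmt_LocalNormNotSurj ℓ p) : Stmt_LocNormProper F E := by
  intro v hns
  -- the unique prime above `v`
  have htri := Fermat.Agent.S14.helper4373.nf_trichotomy (F := F) (E := E) hp hdeg v.asIdeal
  have hcard1 : (v.asIdeal.primesOver (𝓞 E)).ncard = 1 := by
    rcases htri with h | h | h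
    · exact absurd (h.1.trans hdeg.symm) hns
    · exact h.1
    · exact h.1
  obtain ⟨W, hW⟩ := Set.ncard_eq_one.mp hcard1
  have hWmem : W ∈ v.asIdeal.primesOver (𝓞 E) := by
    rw [hW]
    exact Set.mem_singleton W
  have hWprime : W.IsPrime := hWmem.1
  have hWover : W.LiesOver v.asIdeal := hWmem.2
  have hWne : W ≠ ⊥ := Ideal.ne_bot_of_liesOver_of_ne_bot v.ne_bot W
  let Wh : HeightOneSpectrum (𝓞 E) := ⟨W, hWprime, hWne⟩
  -- the rational prime and the embeddings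
  obtain ⟨ℓ, hℓp, hℓ⟩ := exists_prime_mem v
  have : Fact ℓ.Prime := ⟨hℓp⟩
  obtain ⟨φ₀, hφ₀⟩ := exists_embedding_primeOf_eq (ℓ := ℓ) v hℓ
  obtain ⟨ψ, hψφ⟩ := exists_extension (E := E) (φ₀ : F →+* PadicAlgCl ℓ)
  have hcomp : ψ.comp (algebraMap F E) = (φ₀ : F →+* PadicAlgCl ℓ) := RingHom.ext hψφ
  have hprime : primeOf (ψ.comp (algebraMap F E)) = v.asIdeal := by
    rw [hcomp]
    exact hφ₀
  have hiso := norm_comp_algEquiv v Wh hW ψ hprime
  -- the local field `K`
  let pbF : PowerBasis ℚ F := Field.powerBasisOfFiniteOfSeparable ℚ F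
  set K : IntermediateField ℚ_[ℓ] (PadicAlgCl ℓ) :=
    ℚ_[ℓ]⟮(φ₀ : F →+* PadicAlgCl ℓ) pbF.gen⟯ with hKdef
  have hKmem : ∀ a : F, ψ (algebraMap F E a) ∈ K := by
    intro a
    rw [hψφ]
    refine map_mem_of_powerBasis pbF (φ₀ : F →+* PadicAlgCl ℓ) K (fun q => ?_)
      (mem_adjoin_simple_self _ _) a
    have : (φ₀ : F →+* PadicAlgCl ℓ) (algebraMap ℚ F q)
        = algebraMap ℚ_[ℓ] (PadicAlgCl ℓ) (q : ℚ_[ℓ]) := by simp
    rw [this]
    exact K.algebraMap_mem _
  have hKfin : FiniteDimensional ℚ_[ℓ] K :=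
    IntermediateField.adjoin.finiteDimensional (Algebra.IsIntegral.isIntegral _)
  have hdense : ∀ (u : K) (ε : ℝ), 0 < ε →
      ∃ a : F, ‖ψ (algebraMap F E a) - (u : PadicAlgCl ℓ)‖ ≤ ε := by
    intro u ε hε
    obtain ⟨a, ha⟩ := exists_approx_of_mem_adjoin_simple (φ₀ : F →+* PadicAlgCl ℓ) pbF.gen
      (u : PadicAlgCl ℓ) u.2 hε
    exact ⟨a, by rw [hψφ]; exact ha⟩
  -- the local tower
  let pbE : PowerBasis F E := Field.powerBasisOfFiniteOfSeparable F E
  obtain ⟨L, hLgal, hLfin, hLnorm⟩ := exists_local_tower ψ K pbE hiso hKmem hdense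
  rw [hdeg] at hLfin
  have hLfd : FiniteDimensional K L :=
    Module.finite_of_finrank_pos (by rw [hLfin]; exact hp.pos)
  obtain ⟨u, hu⟩ := hloc ℓ K L hKfin hLgal hLfin
  obtain ⟨δ, hδ, hpow⟩ := exists_delta_pow K p hp.pos
  obtain ⟨ρ, hρ0, hρ1, hρ⟩ := exists_rho v hφ₀
  -- choose `x ∈ F` close to `u`
  have hu0 : ((u : K) : PadicAlgCl ℓ) ≠ 0 := by
    intro h
    exact u.ne_zero (Subtype.ext h)
  have hunorm : 0 < ‖((u : K) : PadicAlgCl ℓ)‖ := norm_pos_iff.mpr hu0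
  set δ' : ℝ := min δ 1 with hδ'
  have hδ'pos : 0 < δ' := lt_min hδ one_pos
  obtain ⟨x, hx⟩ := hdense (u : K) (δ' / 2 * ‖((u : K) : PadicAlgCl ℓ)‖) (by positivity)
  rw [hψφ] at hx
  have hx0 : x ≠ 0 := by
    rintro rfl
    rw [map_zero, zero_sub, norm_neg] at hx
    have : δ' / 2 * ‖((u : K) : PadicAlgCl ℓ)‖ < 1 * ‖((u : K) : PadicAlgCl ℓ)‖ := by
      apply mul_lt_mul_of_pos_right _ hunorm
      have := min_le_right δ 1
      linarith
    linarith
  refine ⟨Units.mk0 x hx0, fun hLN => ?_⟩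
  obtain ⟨N, hN⟩ := exists_pow_lt_of_lt_one hδ hρ1
  obtain ⟨y, hy⟩ := hLN N
  have hy' : v.valuation F (x / Algebra.norm F (y : E) - 1) ≤ WithZero.exp (-(N : ℤ)) := hy
  have h1 := hρ _ N hy'
  obtain ⟨z, hz1, hz2⟩ := hLnorm (y : E)
  rw [hψφ] at hz2
  -- elements of `K`
  have hxK : (φ₀ : F →+* PadicAlgCl ℓ) x ∈ K := by
    have := hKmem x
    rwa [hψφ] at this
  set xK : K := ⟨(φ₀ : F →+* PadicAlgCl ℓ) x, hxK⟩ with hxKdef
  set nK : K := Algebra.norm K z with hnK
  have hxK0 : xK ≠ 0 := by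
    intro h
    have : (φ₀ : F →+* PadicAlgCl ℓ) x = 0 := congrArg Subtype.val h
    exact hx0 ((_root_.map_eq_zero _).mp this)
  have hNy0 : Algebra.norm F (y : E) ≠ 0 := by
    rw [Ne, Algebra.norm_eq_zero_iff]
    exact y.ne_zero
  have hnK0 : nK ≠ 0 := by
    intro h
    have : ((nK : K) : PadicAlgCl ℓ) = 0 := by rw [h]; rfl
    rw [hz2] at this
    exact hNy0 ((_root_.map_eq_zero _).mp this)
  -- first `p`-th power
  obtain ⟨k₁, hk₁⟩ := hpow (xK / nK) (by
    have : (((xK / nK : K)) : PadicAlgCl ℓ) - 1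
        = (φ₀ : F →+* PadicAlgCl ℓ) (x / Algebra.norm F (y : E) - 1) := by
      rw [map_sub, map_div₀, map_one, ← hz2]
      rfl
    rw [this]
    exact lt_of_le_of_lt h1 hN)
  -- second `p`-th power
  obtain ⟨k₂, hk₂⟩ := hpow (xK / (u : K)) (by
    have : (((xK / (u : K) : K)) : PadicAlgCl ℓ) - 1
        = ((φ₀ : F →+* PadicAlgCl ℓ) x - ((u : K) : PadicAlgCl ℓ)) / ((u : K) : PadicAlgCl ℓ) := by
      rw [sub_div, div_self hu0]
      rfl
    rw [this, norm_div, div_lt_iff₀ hunorm]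
    calc ‖(φ₀ : F →+* PadicAlgCl ℓ) x - ((u : K) : PadicAlgCl ℓ)‖
        ≤ δ' / 2 * ‖((u : K) : PadicAlgCl ℓ)‖ := hx
      _ < δ * ‖((u : K) : PadicAlgCl ℓ)‖ := by
        apply mul_lt_mul_of_pos_right _ hunorm
        have := min_le_left δ 1
        linarith)
  have hk₂0 : k₂ ≠ 0 := by
    rintro rfl
    rw [zero_pow hp.ne_zero] at hk₂
    exact (div_ne_zero hxK0 u.ne_zero) hk₂.symm
  have hfinal : (u : K) = Algebra.norm K (z * algebraMap K L (k₁ * k₂⁻¹)) := by
    rw [map_mul, Algebra.norm_algebraMap, hLfin, mul_pow, inv_pow, hk₁, hk₂, ← hnK]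
    field_simp
  have hw0 : z * algebraMap K L (k₁ * k₂⁻¹) ≠ 0 := by
    intro h
    rw [h, Algebra.norm_zero] at hfinal
    exact u.ne_zero hfinal
  exact hu ⟨Units.mk0 _ hw0, Units.ext hfinal.symm⟩

/-- The local input, from the local norm index theorem on main (`helper913`). -/
theorem stmt_LocalNormNotSurj (ℓ p : ℕ) [Fact ℓ.Prime] (hp : p.Prime) :
    Stmt_LocalNormNotSurj ℓ p := by
  intro K L hK hGal hrank
  have : Fact p.Prime := ⟨hp⟩
  have hidx := Fermat.Agent.S55.helper913.stmt_LocalNormIdx ℓ p K hK L hGal hrank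
  by_contra hcon
  push Not at hcon
  have htop : (Units.map (Algebra.norm K : L →* K)).range = ⊤ :=
    (Subgroup.eq_top_iff' _).mpr hcon
  rw [htop, Subgroup.index_top] at hidx
  exact hp.one_lt.ne hidx

/-- **(LN), unconditional**: for `E / F` Galois of prime degree `p`, at every place of `F` which
does not split completely in `E` some element of `Fˣ` is not a local norm. -/
theorem locNormProper {p : ℕ} (hp : p.Prime) (hdeg : Module.finrank F E = p) :
    Stmt_LocNormProper F E :=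
  locNormProper_of_local hp hdeg (fun ℓ _ => stmt_LocalNormNotSurj ℓ p hp)

end Assembly

end

end Fermat.Agent.S55.helper1980
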