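/-
S55 / NF-HNT (helper1980): the Hasse norm theorem for cyclic layers of odd prime degree,
UNCONDITIONAL.  Closing line of the chain

  `helper1980.locNormProper`                (LN, file `helper1980_LocNormMain`)
  `helper4783.hasseNorm_of_locNormProper`   (counting assembly, file `helper4783_HasseNormFinal`).
-/
import Mathlib
import Fermat.Agent.S55.helper1980_LocNormMain
import Fermat.Agent.S55.helper4783_HasseNormFinal

set_option autoImplicit false

open IsDedekindDomain NumberField

namespace Fermat.Agent.S55.helper1980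

/-- **Hasse norm theorem** for a Galois extension `E / F` of number fields of odd prime degree
`p` with `ζ_p ∈ F`: an element of `Fˣ` which is a local norm at every finite place is a global
norm. -/
theorem hasseNorm {F E : Type} [Field F] [NumberField F] [Field E] [NumberField E] [Algebra F E]
    [IsGalois F E] {p : ℕ} (hp : p.Prime) (hp2 : p ≠ 2) (hdeg : Module.finrank F E = p)
    (hζ : ∃ ζ : F, IsPrimitiveRoot ζ p) : Stmt_HasseNorm F E :=
  Fermat.Agent.S55.helper4783.hasseNorm_of_locNormProper F E hp hp2 hdeg hζ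
    (locNormProper hp hdeg)

/-- Unfolded form of `hasseNorm`. -/
theorem hasseNorm' {F E : Type} [Field F] [NumberField F] [Field E] [NumberField E]
    [Algebra F E] [IsGalois F E] {p : ℕ} (hp : p.Prime) (hp2 : p ≠ 2)
    (hdeg : Module.finrank F E = p) (hζ : ∃ ζ : F, IsPrimitiveRoot ζ p) (a : Fˣ)
    (ha : ∀ (v : HeightOneSpectrum (𝓞 F)) (N : ℕ), ∃ y : Eˣ,
      v.valuation F ((a : F) / Algebra.norm F (y : E) - 1) ≤ WithZero.exp (-(N : ℤ))) :
    ∃ y : Eˣ, Algebra.norm F (y : E) = (a : F) := by
  obtain ⟨y, hy⟩ := hasseNorm hp hp2 hdeg hζ a ha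
  exact ⟨y, congrArg Units.val hy⟩

end Fermat.Agent.S55.helper1980
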