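/-
S55-INFRES2 (helper2016): inflation-restriction in degree 2.

For a group `G`, a normal subgroup `N` and a `G`-module `A` with `H¹(N, A) = 0`:
`0 → H²(G ⧸ N, A^N) → H²(G, A) → H²(N, A)` is exact.

Surface (A): function level, additive (`DistribMulAction`) and multiplicative
(`MulDistribMulAction`) versions, for arbitrary cochains.
Mathlib only.
-/
import Mathlib

set_option autoImplicit false

namespace Fermat.Agent.S55.helper2016

open groupCohomology

section Additive

variable {G A : Type*} [Group G] [AddCommGroup A] [DistribMulAction G A]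

/-- The coboundary of a 1-cochain `u : G → A`, as a function on `G × G`:
`(g, h) ↦ g • u h - u (g * h) + u g`. -/
def dOne (u : G → A) : G × G → A := fun p => p.1 • u p.2 - u (p.1 * p.2) + u p.1

@[simp] lemma dOne_apply (u : G → A) (g h : G) :
    dOne u (g, h) = g • u h - u (g * h) + u g := rfl

lemma isCocycle₂_dOne (u : G → A) : IsCocycle₂ (dOne u) := by
  intro g h j
  simp only [dOne_apply, smul_add, smul_sub, mul_smul, mul_assoc]
  abel

lemma dOne_add (u v : G → A) : dOne (u + v) = dOne u + dOne v := by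
  funext p
  obtain ⟨g, h⟩ := p
  simp only [dOne_apply, Pi.add_apply, smul_add]
  abel

lemma isCocycle₂_sub {f f' : G × G → A} (hf : IsCocycle₂ f) (hf' : IsCocycle₂ f') :
    IsCocycle₂ (f - f') := by
  intro g h j
  have h1 := hf g h j
  have h2 := hf' g h j
  simp only [Pi.sub_apply, smul_sub]
  rw [sub_add_sub_comm, h1, h2, sub_add_sub_comm]

lemma isCocycle₂_sub_dOne {f : G × G → A} (hf : IsCocycle₂ f) (u : G → A) :
    IsCocycle₂ (f - dOne u) :=
  isCocycle₂_sub hf (isCocycle₂_dOne u)

omit [DistribMulAction G A] [Group G] in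
lemma eq_of_sub_add_eq_self {a x y : A} (h : a - x + y = a) : x = y := by
  have h' : y - x = 0 := by
    have h2 : a - x + y - a = 0 := by rw [h, sub_self]
    rw [← h2]; abel
  exact (sub_eq_zero.mp h').symm

omit [DistribMulAction G A] [Group G] in
lemma eq_of_sub_add_eq_self' {c x y : A} (h : x - y + c = c) : x = y := by
  have h' : x - y = 0 := by
    have h2 : x - y + c - c = 0 := by rw [h, sub_self]
    rw [← h2]; abel
  exact sub_eq_zero.mp h'

variable (N : Subgroup G)

/-- A coset representative of `g` modulo `N`, depending only on the coset `g N`. -/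
noncomputable def cosetRep (g : G) : G := (QuotientGroup.mk g : G ⧸ N).out

lemma cosetRep_inv_mul_mem (g : G) : (cosetRep N g)⁻¹ * g ∈ N := by
  obtain ⟨h, hh⟩ := QuotientGroup.mk_out_eq_mul N g
  have : (cosetRep N g)⁻¹ * g = ((h : N) : G)⁻¹ := by
    rw [cosetRep, hh]; group
  rw [this]
  exact N.inv_mem h.2

lemma cosetRep_mul_right (g : G) {n : G} (hn : n ∈ N) : cosetRep N (g * n) = cosetRep N g := by
  unfold cosetRep
  rw [QuotientGroup.mk_mul_of_mem g hn]

lemma cosetRep_mem {n : G} (hn : n ∈ N) : cosetRep N n ∈ N := by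
  have h := cosetRep_inv_mul_mem N n
  have h2 : cosetRep N n = n * ((cosetRep N n)⁻¹ * n)⁻¹ := by group
  rw [h2]
  exact N.mul_mem hn (N.inv_mem h)

lemma cosetRep_eq_of_mem {n : G} (hn : n ∈ N) : cosetRep N n = cosetRep N 1 := by
  have := cosetRep_mul_right N 1 hn
  rwa [one_mul] at this


/-- Step 1: if the restriction of `f` to `N × N` is a coboundary, then after subtracting a
coboundary on `G` the restriction vanishes. -/
lemma exists_sub_dOne_vanish_on_sub {f : G × G → A}
    (hres : ∃ x : N → A, ∀ m n : N, (m : G) • x n - x (m * n) + x m = f ((m : G), (n : G))) :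
    ∃ u : G → A, ∀ m n : G, m ∈ N → n ∈ N → (f - dOne u) (m, n) = 0 := by
  classical
  obtain ⟨x, hx⟩ := hres
  refine ⟨fun g => if h : g ∈ N then x ⟨g, h⟩ else 0, fun m n hm hn => ?_⟩
  have hmn : m * n ∈ N := N.mul_mem hm hn
  have := hx ⟨m, hm⟩ ⟨n, hn⟩
  simp only [Pi.sub_apply, dOne_apply, dif_pos hm, dif_pos hn, dif_pos hmn]
  rw [sub_eq_zero]
  exact this.symm

/-- Step 2: a 2-cocycle vanishing on `N × N` can be modified by a coboundary so that it vanishes
on `G × N`. -/
lemma exists_sub_dOne_vanish_right {f : G × G → A} (hf : IsCocycle₂ f)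
    (h0 : ∀ m n : G, m ∈ N → n ∈ N → f (m, n) = 0) :
    ∃ u : G → A, ∀ g n : G, n ∈ N → (f - dOne u) (g, n) = 0 := by
  refine ⟨fun g => - f (cosetRep N g, (cosetRep N g)⁻¹ * g), fun g n hn => ?_⟩
  have hm : (cosetRep N g)⁻¹ * g ∈ N := cosetRep_inv_mul_mem N g
  have hun : f (cosetRep N n, (cosetRep N n)⁻¹ * n) = 0 :=
    h0 _ _ (cosetRep_mem N hn) (cosetRep_inv_mul_mem N n)
  have hc := hf (cosetRep N g) ((cosetRep N g)⁻¹ * g) n
  rw [h0 _ _ hm hn, smul_zero, zero_add, mul_inv_cancel_left] at hc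
  rw [mul_assoc] at hc
  simp only [Pi.sub_apply, dOne_apply, cosetRep_mul_right N g hn, hun, neg_zero, smul_zero]
  rw [← hc]
  abel

/-- Right invariance in the second variable of a 2-cocycle vanishing on `G × N`. -/
lemma map_mul_right_of_vanish_right {f : G × G → A} (hf : IsCocycle₂ f)
    (h0 : ∀ g n : G, n ∈ N → f (g, n) = 0) (g h : G) {n : G} (hn : n ∈ N) :
    f (g, h * n) = f (g, h) := by
  have hc := hf g h n
  rw [h0 _ _ hn, h0 _ _ hn, smul_zero, zero_add, zero_add] at hc
  exact hc.symm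

/-- Left invariance in the second variable of a 2-cocycle vanishing on `G × N`, `N` normal. -/
lemma map_mul_left_of_vanish_right [N.Normal] {f : G × G → A} (hf : IsCocycle₂ f)
    (h0 : ∀ g n : G, n ∈ N → f (g, n) = 0) (g h : G) {n : G} (hn : n ∈ N) :
    f (g, n * h) = f (g, h) := by
  have h1 : n * h = h * (h⁻¹ * n * h) := by group
  have h2 : h⁻¹ * n * h ∈ N := by
    have := Subgroup.Normal.conj_mem ‹N.Normal› n hn h⁻¹
    simpa using this
  rw [h1, map_mul_right_of_vanish_right N hf h0 g h h2]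

/-- The hypothesis `H¹(N, A) = 0` in function form. -/
def H1Vanishes (N : Subgroup G) (A : Type*) [AddCommGroup A] [DistribMulAction G A] : Prop :=
  ∀ φ : N → A, (∀ m n : N, φ (m * n) = (m : G) • φ n + φ m) →
    ∃ a : A, ∀ n : N, (n : G) • a - a = φ n

/-- Step 3: a 2-cocycle vanishing on `G × N` can be modified by a coboundary so that it vanishes
on `G × N` and on `N × G`, provided `H¹(N, A) = 0`. -/
lemma exists_sub_dOne_vanish_both [N.Normal] (hH1 : H1Vanishes N A) {f : G × G → A}
    (hf : IsCocycle₂ f) (h0 : ∀ g n : G, n ∈ N → f (g, n) = 0) :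
    ∃ u : G → A, (∀ g n : G, n ∈ N → (f - dOne u) (g, n) = 0) ∧
      (∀ n g : G, n ∈ N → (f - dOne u) (n, g) = 0) := by
  have hr := fun g h (n : G) (hn : n ∈ N) => map_mul_right_of_vanish_right N hf h0 g h hn
  have hl := fun g h (n : G) (hn : n ∈ N) => map_mul_left_of_vanish_right N hf h0 g h hn
  -- the cocycles `n ↦ f (n, h)`
  have hex : ∀ h : G, ∃ a : A, ∀ n : N, (n : G) • a - a = f ((n : G), h) := by
    intro h
    refine hH1 (fun n => f ((n : G), h)) (fun m n => ?_)
    have hc := hf (m : G) (n : G) h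
    rw [h0 _ _ n.2, add_zero] at hc
    simp only [Subgroup.coe_mul]
    rw [hc, hl _ _ _ n.2]
  choose a ha using hex
  -- make it depend on the coset only
  set b : G → A := fun h => a (cosetRep N h) with hb
  have hb1 : ∀ (h n : G), n ∈ N → n • b h - b h = f (n, h) := by
    intro h n hn
    have h1 := ha (cosetRep N h) ⟨n, hn⟩
    have h2 : h = cosetRep N h * ((cosetRep N h)⁻¹ * h) := by group
    have h3 := hr n (cosetRep N h) _ (cosetRep_inv_mul_mem N h)
    rw [← h2] at h3
    rw [h3]
    exact h1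
  have hb2 : ∀ (h n : G), n ∈ N → b (h * n) = b h := by
    intro h n hn
    simp only [hb, cosetRep_mul_right N h hn]
  have hb3 : ∀ n : G, n ∈ N → b n = b 1 := by
    intro n hn
    simp only [hb, cosetRep_eq_of_mem N hn]
  have hc1 : ∀ n : G, n ∈ N → n • b 1 = b 1 := by
    intro n hn
    have := hb1 1 n hn
    rw [h0 _ _ N.one_mem, sub_eq_zero] at this
    exact this
  refine ⟨fun h => b h - b 1, fun g n hn => ?_, fun n g hn => ?_⟩
  · simp only [Pi.sub_apply, dOne_apply, h0 g n hn, hb2 g n hn, hb3 n hn, sub_self, smul_zero]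
    abel
  · have h1 : n * g = g * (g⁻¹ * n * g) := by group
    have h2 : g⁻¹ * n * g ∈ N := by
      have := Subgroup.Normal.conj_mem ‹N.Normal› n hn g⁻¹
      simpa using this
    have h3 : b (n * g) = b g := by rw [h1, hb2 g _ h2]
    have h4 := hb1 g n hn
    simp only [Pi.sub_apply, dOne_apply, h3, hb3 n hn, sub_self, add_zero, smul_sub, hc1 n hn]
    rw [← h4]
    abel

/-- Step 4: a 2-cocycle vanishing on `G × N` and on `N × G` is right `N`-invariant in both
variables and takes `N`-invariant values. -/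
lemma invariance_of_vanish_both [N.Normal] {f : G × G → A} (hf : IsCocycle₂ f)
    (h1 : ∀ g n : G, n ∈ N → f (g, n) = 0) (h2 : ∀ n g : G, n ∈ N → f (n, g) = 0) :
    (∀ g h n : G, n ∈ N → f (g, h * n) = f (g, h)) ∧
    (∀ g h n : G, n ∈ N → f (g * n, h) = f (g, h)) ∧
    (∀ g h n : G, n ∈ N → n • f (g, h) = f (g, h)) := by
  have hr := fun g h (n : G) (hn : n ∈ N) => map_mul_right_of_vanish_right N hf h1 g h hn
  have hl := fun g h (n : G) (hn : n ∈ N) => map_mul_left_of_vanish_right N hf h1 g h hn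
  have hb : ∀ g h n : G, n ∈ N → f (g * n, h) = f (g, h) := by
    intro g h n hn
    have hc := hf g n h
    rw [h1 _ _ hn, h2 _ _ hn, smul_zero, zero_add, add_zero, hl _ _ _ hn] at hc
    exact hc
  refine ⟨hr, hb, fun g h n hn => ?_⟩
  have hc := hf n g h
  rw [h2 _ _ hn, h2 _ _ hn, add_zero, add_zero] at hc
  have h3 : n * g = g * (g⁻¹ * n * g) := by group
  have h4 : g⁻¹ * n * g ∈ N := by
    have := Subgroup.Normal.conj_mem ‹N.Normal› n hn g⁻¹
    simpa using this
  rw [h3, hb g h _ h4] at hc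
  exact hc.symm

/-- **Inflation-restriction in degree 2, exactness in the middle (function form).**
If `H¹(N, A) = 0` and the restriction to `N` of the 2-cocycle `f` on `G` is a coboundary, then
`f` is cohomologous to the inflation of a 2-cocycle `fbar` of `G ⧸ N` with values in `A^N`. -/
theorem exists_inflation_of_res_isCoboundary [N.Normal] (hH1 : H1Vanishes N A)
    {f : G × G → A} (hf : IsCocycle₂ f)
    (hres : ∃ x : N → A, ∀ m n : N, (m : G) • x n - x (m * n) + x m = f ((m : G), (n : G))) :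
    ∃ (u : G → A) (fbar : (G ⧸ N) × (G ⧸ N) → A),
      (∀ x, ∀ n ∈ N, n • fbar x = fbar x) ∧
      (∀ a b c : G, fbar (((a * b : G) : G ⧸ N), (c : G ⧸ N)) + fbar ((a : G ⧸ N), (b : G ⧸ N)) =
        a • fbar ((b : G ⧸ N), (c : G ⧸ N)) + fbar ((a : G ⧸ N), ((b * c : G) : G ⧸ N))) ∧
      ∀ g h : G, f (g, h) = fbar ((g : G ⧸ N), (h : G ⧸ N)) + (g • u h - u (g * h) + u g) := by
  obtain ⟨u1, hu1⟩ := exists_sub_dOne_vanish_on_sub N hres
  have hf1 := isCocycle₂_sub_dOne hf u1
  obtain ⟨u2, hu2⟩ := exists_sub_dOne_vanish_right N hf1 hu1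
  have hf2 := isCocycle₂_sub_dOne hf1 u2
  obtain ⟨u3, hu3, hu3'⟩ := exists_sub_dOne_vanish_both N hH1 hf2 hu2
  have hf3 := isCocycle₂_sub_dOne hf2 u3
  obtain ⟨hr, hb, hinv⟩ := invariance_of_vanish_both N hf3 hu3 hu3'
  set f3 : G × G → A := f - dOne u1 - dOne u2 - dOne u3 with hf3def
  have hout : ∀ g h : G, f3 ((g : G ⧸ N).out, (h : G ⧸ N).out) = f3 (g, h) := by
    intro g h
    obtain ⟨n, hn⟩ := QuotientGroup.mk_out_eq_mul N g
    obtain ⟨m, hm⟩ := QuotientGroup.mk_out_eq_mul N h
    rw [hn, hm, hr _ _ _ m.2, hb _ _ _ n.2]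
  refine ⟨u1 + u2 + u3, fun x => f3 (x.1.out, x.2.out), fun x n hn => hinv _ _ n hn,
    fun a b c => ?_, fun g h => ?_⟩
  · simp only [hout]
    exact hf3 a b c
  · simp only [hout]
    have h1 : dOne (u1 + u2 + u3) (g, h) = g • (u1 + u2 + u3) h - (u1 + u2 + u3) (g * h)
        + (u1 + u2 + u3) g := rfl
    rw [← h1, dOne_add, dOne_add, hf3def]
    simp only [Pi.sub_apply, Pi.add_apply]
    abel

/-- **Inflation-restriction in degree 2, injectivity of inflation (function form).**
If `H¹(N, A) = 0` and the inflation to `G` of a 2-cocycle `fbar` of `G ⧸ N` with values in `A^N`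
is a coboundary, then `fbar` is the coboundary of a 1-cochain of `G ⧸ N` with values in `A^N`. -/
theorem isCoboundary_of_inflation_isCoboundary [N.Normal] (hH1 : H1Vanishes N A)
    {fbar : (G ⧸ N) × (G ⧸ N) → A}
    (hinv : ∀ x, ∀ n ∈ N, n • fbar x = fbar x)
    (hcoc : ∀ a b c : G,
      fbar (((a * b : G) : G ⧸ N), (c : G ⧸ N)) + fbar ((a : G ⧸ N), (b : G ⧸ N)) =
        a • fbar ((b : G ⧸ N), (c : G ⧸ N)) + fbar ((a : G ⧸ N), ((b * c : G) : G ⧸ N)))
    (hb : ∃ h : G → A, ∀ g g' : G,
      g • h g' - h (g * g') + h g = fbar ((g : G ⧸ N), (g' : G ⧸ N))) :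
    ∃ hbar : G ⧸ N → A, (∀ x, ∀ n ∈ N, n • hbar x = hbar x) ∧
      ∀ g g' : G, g • hbar (g' : G ⧸ N) - hbar ((g * g' : G) : G ⧸ N) + hbar (g : G ⧸ N) =
        fbar ((g : G ⧸ N), (g' : G ⧸ N)) := by
  obtain ⟨h, hh⟩ := hb
  set c : A := fbar ((1 : G ⧸ N), (1 : G ⧸ N)) with hc
  have hcinv : ∀ n ∈ N, n • c = c := fun n hn => hinv _ n hn
  have hmk : ∀ n : G, n ∈ N → ((n : G) : G ⧸ N) = 1 := fun n hn =>
    (QuotientGroup.eq_one_iff n).2 hn
  -- `n ↦ h n - c` is a 1-cocycle on `N`
  obtain ⟨a, ha⟩ := hH1 (fun n => h (n : G) - c) (fun m n => by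
    have := hh (m : G) (n : G)
    rw [hmk _ m.2, hmk _ n.2] at this
    simp only [Subgroup.coe_mul, smul_sub, hcinv _ m.2]
    rw [← hc] at this
    have h2 : h ((m : G) * (n : G)) = (m : G) • h (n : G) + h (m : G) - c := by
      rw [← this]; abel
    rw [h2]; abel)
  -- the corrected cochain
  set h2 : G → A := fun g => h g - (g • a - a) with hh2
  have hh2d : ∀ g g' : G, g • h2 g' - h2 (g * g') + h2 g = fbar ((g : G ⧸ N), (g' : G ⧸ N)) := by
    intro g g'
    rw [← hh g g']
    simp only [hh2, smul_sub, mul_smul]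
    abel
  have hh2N : ∀ n : G, n ∈ N → h2 n = c := by
    intro n hn
    have := ha ⟨n, hn⟩
    simp only [hh2]
    rw [this]
    abel
  -- values of `fbar` on the identity coset
  have hf1 : ∀ g : G, fbar ((g : G ⧸ N), (1 : G ⧸ N)) = g • c := by
    intro g
    have := hcoc g 1 1
    simp only [mul_one, QuotientGroup.mk_one] at this
    rw [hc]
    exact add_left_cancel (a := fbar ((g : G ⧸ N), (1 : G ⧸ N))) (by rw [this, add_comm])
  have hf2 : ∀ g : G, fbar ((1 : G ⧸ N), (g : G ⧸ N)) = c := by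
    intro g
    have := hcoc 1 1 g
    simp only [mul_one, one_mul, QuotientGroup.mk_one, one_smul] at this
    rw [hc]
    exact (add_left_cancel this).symm
  have hr : ∀ g n : G, n ∈ N → h2 (g * n) = h2 g := by
    intro g n hn
    have := hh2d g n
    rw [hmk n hn, hf1 g, hh2N n hn] at this
    exact eq_of_sub_add_eq_self this
  have hl : ∀ g n : G, n ∈ N → n • h2 g = h2 g := by
    intro g n hn
    have := hh2d n g
    rw [hmk n hn, hf2 g, hh2N n hn] at this
    have h3 : n * g = g * (g⁻¹ * n * g) := by group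
    have h4 : g⁻¹ * n * g ∈ N := by
      have := Subgroup.Normal.conj_mem ‹N.Normal› n hn g⁻¹
      simpa using this
    rw [h3, hr g _ h4] at this
    exact eq_of_sub_add_eq_self' this
  have hout : ∀ g : G, h2 (g : G ⧸ N).out = h2 g := by
    intro g
    obtain ⟨n, hn⟩ := QuotientGroup.mk_out_eq_mul N g
    rw [hn, hr _ _ n.2]
  refine ⟨fun x => h2 x.out, fun x n hn => hl _ n hn, fun g g' => ?_⟩
  simp only [hout]
  exact hh2d g g'

end Additive

section Multiplicative

variable {G M : Type*} [Group G] [CommGroup M] [MulDistribMulAction G M]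

/-- The additive action on `Additive M` induced by a `MulDistribMulAction` on `M`
(a definition, not an instance). -/
@[reducible] def additiveDistribMulAction (G M : Type*) [Group G] [CommGroup M]
    [MulDistribMulAction G M] : DistribMulAction G (Additive M) where
  smul g a := Additive.ofMul (g • Additive.toMul a)
  one_smul a := by
    show Additive.ofMul ((1 : G) • Additive.toMul a) = a
    rw [one_smul]; rfl
  mul_smul g h a := by
    show Additive.ofMul ((g * h) • Additive.toMul a) =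
      Additive.ofMul (g • Additive.toMul (Additive.ofMul (h • Additive.toMul a)))
    rw [mul_smul]; rfl
  smul_zero g := by
    show Additive.ofMul (g • (1 : M)) = 0
    rw [smul_one]; rfl
  smul_add g a b := by
    show Additive.ofMul (g • (Additive.toMul a * Additive.toMul b)) =
      Additive.ofMul (g • Additive.toMul a) + Additive.ofMul (g • Additive.toMul b)
    rw [smul_mul']; rfl

/-- The hypothesis `H¹(N, M) = 0` in multiplicative function form. -/
def MulH1Vanishes (N : Subgroup G) (M : Type*) [CommGroup M] [MulDistribMulAction G M] : Prop :=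
  ∀ φ : N → M, (∀ m n : N, φ (m * n) = (m : G) • φ n * φ m) →
    ∃ a : M, ∀ n : N, (n : G) • a / a = φ n

lemma h1Vanishes_additive_of_mulH1Vanishes {N : Subgroup G} (h : MulH1Vanishes N M) :
    @H1Vanishes G _ N (Additive M) _ (additiveDistribMulAction G M) := by
  intro φ hφ
  exact h (fun n => Additive.toMul (φ n)) (fun m n => hφ m n)

variable (N : Subgroup G)

/-- **Inflation-restriction in degree 2, exactness in the middle (multiplicative form).** -/
theorem exists_inflation_of_res_isMulCoboundary [N.Normal] (hH1 : MulH1Vanishes N M)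
    {f : G × G → M} (hf : IsMulCocycle₂ f)
    (hres : ∃ x : N → M, ∀ m n : N, (m : G) • x n / x (m * n) * x m = f ((m : G), (n : G))) :
    ∃ (u : G → M) (fbar : (G ⧸ N) × (G ⧸ N) → M),
      (∀ x, ∀ n ∈ N, n • fbar x = fbar x) ∧
      (∀ a b c : G, fbar (((a * b : G) : G ⧸ N), (c : G ⧸ N)) * fbar ((a : G ⧸ N), (b : G ⧸ N)) =
        a • fbar ((b : G ⧸ N), (c : G ⧸ N)) * fbar ((a : G ⧸ N), ((b * c : G) : G ⧸ N))) ∧
      ∀ g h : G, f (g, h) = fbar ((g : G ⧸ N), (h : G ⧸ N)) * (g • u h / u (g * h) * u g) := by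
  let _ : DistribMulAction G (Additive M) := additiveDistribMulAction G M
  obtain ⟨x, hx⟩ := hres
  have key := exists_inflation_of_res_isCoboundary (A := Additive M) N
    (h1Vanishes_additive_of_mulH1Vanishes hH1)
    (f := fun p => Additive.ofMul (f p)) (fun g h j => hf g h j)
    ⟨fun n => Additive.ofMul (x n), fun m n => hx m n⟩
  obtain ⟨u, fbar, h1, h2, h3⟩ := key
  exact ⟨fun g => Additive.toMul (u g), fun p => Additive.toMul (fbar p),
    fun y n hn => h1 y n hn, fun a b c => h2 a b c, fun g h => h3 g h⟩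

/-- **Inflation-restriction in degree 2, injectivity of inflation (multiplicative form).** -/
theorem isMulCoboundary_of_inflation_isMulCoboundary [N.Normal] (hH1 : MulH1Vanishes N M)
    {fbar : (G ⧸ N) × (G ⧸ N) → M}
    (hinv : ∀ x, ∀ n ∈ N, n • fbar x = fbar x)
    (hcoc : ∀ a b c : G,
      fbar (((a * b : G) : G ⧸ N), (c : G ⧸ N)) * fbar ((a : G ⧸ N), (b : G ⧸ N)) =
        a • fbar ((b : G ⧸ N), (c : G ⧸ N)) * fbar ((a : G ⧸ N), ((b * c : G) : G ⧸ N)))
    (hb : ∃ h : G → M, ∀ g g' : G,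
      g • h g' / h (g * g') * h g = fbar ((g : G ⧸ N), (g' : G ⧸ N))) :
    ∃ hbar : G ⧸ N → M, (∀ x, ∀ n ∈ N, n • hbar x = hbar x) ∧
      ∀ g g' : G, g • hbar (g' : G ⧸ N) / hbar ((g * g' : G) : G ⧸ N) * hbar (g : G ⧸ N) =
        fbar ((g : G ⧸ N), (g' : G ⧸ N)) := by
  let _ : DistribMulAction G (Additive M) := additiveDistribMulAction G M
  obtain ⟨h, hh⟩ := hb
  have key := isCoboundary_of_inflation_isCoboundary (A := Additive M) N
    (h1Vanishes_additive_of_mulH1Vanishes hH1)
    (fbar := fun p => Additive.ofMul (fbar p)) (fun y n hn => hinv y n hn)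
    (fun a b c => hcoc a b c) ⟨fun g => Additive.ofMul (h g), fun g g' => hh g g'⟩
  obtain ⟨hbar, h1, h2⟩ := key
  exact ⟨fun y => Additive.toMul (hbar y), fun y n hn => h1 y n hn, fun g g' => h2 g g'⟩

end Multiplicative

end Fermat.Agent.S55.helper2016
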