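/-
S55-INFRES2 (helper2016), surface (B): inflation-restriction in degree 2 for Mathlib's
`groupCohomology.H2` of `Rep k G`:
`H²(G ⧸ S, A^S) ⟶ H²(G, A) ⟶ H²(S, A)` is exact and the first map is injective when
`H¹(S, A) = 0`.
-/
import Fermat.Agent.S55.helper2016_InfRes2

set_option autoImplicit false

namespace Fermat.Agent.S55.helper2016

open CategoryTheory groupCohomology Rep

universe u

variable {k G : Type u} [CommRing k] [Group G] (A : Rep k G) (S : Subgroup G) [S.Normal]

/-- The `DistribMulAction` of `G` on the underlying module of a representation (a definition,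
not an instance). -/
@[reducible] def repDistribMulAction : DistribMulAction G A.V where
  smul g a := A.ρ g a
  one_smul a := by
    show A.ρ 1 a = a
    simp
  mul_smul g h a := by
    show A.ρ (g * h) a = A.ρ g (A.ρ h a)
    simp
  smul_zero g := map_zero _
  smul_add g a b := map_add _ _ _

omit [S.Normal] in
lemma h1Vanishes_of_subsingleton_H1 [Subsingleton (H1 (res S.subtype A))] :
    @H1Vanishes G _ S A.V _ (repDistribMulAction A) := by
  intro φ hφ
  have hmem : φ ∈ cocycles₁ (res S.subtype A) := by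
    rw [mem_cocycles₁_iff]
    intro g h
    exact hφ g h
  have h0 : H1π (res S.subtype A) ⟨φ, hmem⟩ = 0 := Subsingleton.elim _ _
  rw [H1π_eq_zero_iff] at h0
  obtain ⟨a, ha⟩ := h0
  exact ⟨a, fun n => congrFun ha n⟩

/-- The inflation map `H²(G ⧸ S, A^S) ⟶ H²(G, A)`. -/
noncomputable abbrev inflH2 :
    groupCohomology (A.quotientToInvariants S) 2 ⟶ groupCohomology A 2 :=
  map (QuotientGroup.mk' S) (ofHom <| A.ρ.quotientToInvariants_lift S) 2

omit [S.Normal] in
/-- The restriction map `H²(G, A) ⟶ H²(S, A)`. -/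
noncomputable abbrev resH2 :
    groupCohomology A 2 ⟶ groupCohomology (res S.subtype A) 2 :=
  map S.subtype (𝟙 _) 2

lemma inflH2_H2π_apply (x : cocycles₂ (A.quotientToInvariants S)) :
    inflH2 A S (H2π _ x) = H2π A (mapCocycles₂ (QuotientGroup.mk' S)
      (ofHom <| A.ρ.quotientToInvariants_lift S) x) :=
  H2π_comp_map_apply (QuotientGroup.mk' S) _ x

omit [S.Normal] in
lemma resH2_H2π_apply (x : cocycles₂ A) :
    resH2 A S (H2π _ x) = H2π (res S.subtype A) (mapCocycles₂ S.subtype (𝟙 _) x) :=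
  H2π_comp_map_apply S.subtype _ x

/-- The composite `H²(G ⧸ S, A^S) ⟶ H²(G, A) ⟶ H²(S, A)` is zero. -/
lemma resH2_inflH2_apply (y : groupCohomology (A.quotientToInvariants S) 2) :
    resH2 A S (inflH2 A S y) = 0 := by
  induction y using H2_induction_on with | @h x =>
  rw [inflH2_H2π_apply, resH2_H2π_apply, H2π_eq_zero_iff]
  refine ⟨fun _ => (x (1, 1)).1, ?_⟩
  funext ⟨s, t⟩
  have hs : ((s : G) : G ⧸ S) = 1 := (QuotientGroup.eq_one_iff _).2 s.2
  have ht : ((t : G) : G ⧸ S) = 1 := (QuotientGroup.eq_one_iff _).2 t.2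
  have hinv : A.ρ (s : G) (x (1, 1)).1 = (x (1, 1)).1 := (x (1, 1)).2 s
  show A.ρ (s : G) (x (1, 1)).1 - (x (1, 1)).1 + (x (1, 1)).1 =
    (x (((s : G) : G ⧸ S), ((t : G) : G ⧸ S))).1
  rw [hs, ht, hinv]
  abel

/-- **Inflation `H²(G ⧸ S, A^S) ⟶ H²(G, A)` is injective when `H¹(S, A) = 0`.** -/
theorem inflH2_injective [Subsingleton (H1 (res S.subtype A))] :
    Function.Injective (inflH2 A S) := by
  rw [injective_iff_map_eq_zero]
  intro y hy
  induction y using H2_induction_on with | @h x =>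
  rw [inflH2_H2π_apply, H2π_eq_zero_iff] at hy
  obtain ⟨h, hh⟩ := hy
  let _ : DistribMulAction G A.V := repDistribMulAction A
  have hx := (mem_cocycles₂_iff (x : (G ⧸ S) × (G ⧸ S) → _)).1 x.2
  obtain ⟨hbar, hinv, hd⟩ := isCoboundary_of_inflation_isCoboundary (A := A.V) S
    (h1Vanishes_of_subsingleton_H1 A S)
    (fbar := fun q => (x q).1) (fun q n hn => (x q).2 ⟨n, hn⟩)
    (fun a b c => congrArg Subtype.val (hx (a : G ⧸ S) b c))
    ⟨h, fun g g' => congrFun hh (g, g')⟩
  rw [H2π_eq_zero_iff]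
  refine ⟨fun q => ⟨hbar q, fun s => hinv q s.1 s.2⟩, ?_⟩
  funext ⟨q, q'⟩
  induction q using QuotientGroup.induction_on with | @H g =>
  induction q' using QuotientGroup.induction_on with | @H g' =>
  exact Subtype.ext (hd g g')

/-- **Exactness of `H²(G ⧸ S, A^S) ⟶ H²(G, A) ⟶ H²(S, A)` when `H¹(S, A) = 0`.** -/
theorem exists_inflH2_eq_of_resH2_eq_zero [Subsingleton (H1 (res S.subtype A))]
    (y : groupCohomology A 2) (hy : resH2 A S y = 0) : ∃ z, inflH2 A S z = y := by
  induction y using H2_induction_on with | @h x =>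
  rw [resH2_H2π_apply, H2π_eq_zero_iff] at hy
  obtain ⟨v, hv⟩ := hy
  let _ : DistribMulAction G A.V := repDistribMulAction A
  have hx : IsCocycle₂ (x : G × G → A.V) := (mem_cocycles₂_iff _).1 x.2
  obtain ⟨u, fbar, hinv, hcoc, hdec⟩ := exists_inflation_of_res_isCoboundary (A := A.V) S
    (h1Vanishes_of_subsingleton_H1 A S) hx ⟨v, fun m n => congrFun hv (m, n)⟩
  have hmem : (fun q : (G ⧸ S) × (G ⧸ S) =>
      (⟨fbar q, fun s => hinv q s.1 s.2⟩ : (A.quotientToInvariants S).V)) ∈
        cocycles₂ (A.quotientToInvariants S) := by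
    rw [mem_cocycles₂_iff]
    intro a b c
    induction a using QuotientGroup.induction_on with | @H a =>
    induction b using QuotientGroup.induction_on with | @H b =>
    induction c using QuotientGroup.induction_on with | @H c =>
    exact Subtype.ext (hcoc a b c)
  refine ⟨H2π _ ⟨_, hmem⟩, ?_⟩
  rw [inflH2_H2π_apply, H2π_eq_iff]
  refine ⟨-u, ?_⟩
  funext ⟨g, h⟩
  have := hdec g h
  show A.ρ g (-u h) - (-u (g * h)) + (-u g) = fbar ((g : G ⧸ S), (h : G ⧸ S)) - x (g, h)
  rw [this]
  show A.ρ g (-u h) - (-u (g * h)) + (-u g) = fbar ((g : G ⧸ S), (h : G ⧸ S)) -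
    (fbar ((g : G ⧸ S), (h : G ⧸ S)) + (A.ρ g (u h) - u (g * h) + u g))
  rw [map_neg]
  abel

/-- The short complex `H²(G ⧸ S, A^S) ⟶ H²(G, A) ⟶ H²(S, A)`. -/
noncomputable def H2InfRes : ShortComplex (ModuleCat k) where
  X₁ := groupCohomology (A.quotientToInvariants S) 2
  X₂ := groupCohomology A 2
  X₃ := groupCohomology (res S.subtype A) 2
  f := inflH2 A S
  g := resH2 A S
  zero := by
    ext y
    exact resH2_inflH2_apply A S y

/-- The inflation map `H²(G ⧸ S, A^S) ⟶ H²(G, A)` is a monomorphism when `H¹(S, A) = 0`. -/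
instance [Subsingleton (H1 (res S.subtype A))] : Mono (H2InfRes A S).f := by
  rw [ModuleCat.mono_iff_injective]
  exact inflH2_injective A S

/-- The short complex `H²(G ⧸ S, A^S) ⟶ H²(G, A) ⟶ H²(S, A)` is exact when `H¹(S, A) = 0`. -/
theorem H2InfRes_exact [Subsingleton (H1 (res S.subtype A))] : (H2InfRes A S).Exact := by
  rw [ShortComplex.moduleCat_exact_iff_ker_sub_range]
  intro y hy
  exact exists_inflH2_eq_of_resH2_eq_zero A S y hy

end Fermat.Agent.S55.helper2016
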