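import Mathlib
import Fermat.Agent.S55.helper6440_CyclicH2
import Fermat.Agent.S55.helper3644_InfRes2

/-!
# Tower bound for `H²` of a finite `p`-group, by explicit cochains

Vocabulary of `helper6440_CyclicH2`: an action is a monoid hom `ρ : G →* AddMonoid.End A`,
`IsTwoCocycle ρ f`, `IsTwoCoboundary ρ f`, `cyc χ a (g, h) = ((χ g).val + (χ h).val) / n • a`.

Main results.

* `inflated_eq_cyc_add_coboundary`, `exists_cyc_of_inflated`: a 2-cocycle of `G` which is constant
  on cosets of `ker χ` in both variables and has `ker χ`-invariant values (`χ : G → ZMod n` additive,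
  `χ s = 1`) is `cyc χ a + d x` with `a` invariant under `G`.  (`χ` is NOT assumed injective.)
* `cyc_nsum_isTwoCoboundary_of_ker`: `cyc χ (∑_{j<n} s^j • y)` is a coboundary for `y` invariant
  under `ker χ`.
* `exists_cyc_of_res_isTwoCoboundary`: the cyclic step.  If `N = ker χ`, `H¹(N, A) = 0` and the
  restriction of a 2-cocycle `f` to `N` is a coboundary, then `f = cyc χ a + d x`, `a` invariant.
* `exists_finset_twoCocycle_reps`: the tower bound.  For `G` of order `p ^ k`, if every subgroup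
  satisfies Hilbert 90 and every `C_p`-layer has norm index at most `p` (`TowerHyp`), then there
  is a set of at most `p ^ k` functions meeting every cohomology class of 2-cocycles.
-/

namespace Fermat.Agent.S55.helper2112

open Finset groupCohomology
open Fermat.Agent.S55.helper6440

universe u v

/-- Sum of a periodic sequence. -/
lemma sum_range_periodic {A : Type*} [AddCommMonoid A] {n : ℕ} (φ : ℕ → A)
    (hφ : ∀ j, φ (j + n) = φ j) (t : ℕ) :
    ∑ j ∈ range t, φ j = (t / n) • ∑ j ∈ range n, φ j + ∑ j ∈ range (t % n), φ j := by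
  have aux : ∀ q r : ℕ, ∑ j ∈ range (q * n + r), φ j
      = q • ∑ j ∈ range n, φ j + ∑ j ∈ range r, φ j := by
    intro q r
    induction q with
    | zero => simp
    | succ q ih =>
      have e : (q + 1) * n + r = n + (q * n + r) := by ring
      have hφ' : ∀ j, φ (n + j) = φ j := fun j => by rw [add_comm]; exact hφ j
      rw [e, sum_range_add]
      simp only [hφ']
      rw [ih, succ_nsmul]
      abel
  have h := aux (t / n) (t % n)
  rwa [Nat.div_add_mod'] at h

section inflated

variable {G : Type*} {A : Type*} [Group G] [AddCommGroup A] {ρ : G →* AddMonoid.End A} {n : ℕ}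
  {χ : G → ZMod n}

lemma chi_inv (hχ : ∀ g h, χ (g * h) = χ g + χ h) (g : G) : χ g⁻¹ = - χ g := by
  have h := hχ g⁻¹ g
  rw [inv_mul_cancel, chi_one hχ] at h
  exact eq_neg_of_add_eq_zero_left h.symm

lemma chi_pow_self (hχ : ∀ g h, χ (g * h) = χ g + χ h) {s : G} (hs : χ s = 1) :
    χ (s ^ n) = 0 := by
  rw [chi_pow hχ hs, ZMod.natCast_self]

lemma chi_pow_val_inv_mul [NeZero n] (hχ : ∀ g h, χ (g * h) = χ g + χ h) {s : G} (hs : χ s = 1)
    (g : G) : χ ((s ^ (χ g).val)⁻¹ * g) = 0 := by
  rw [hχ, chi_inv hχ, chi_pow hχ hs, ZMod.natCast_zmod_val, neg_add_cancel]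

lemma rho_mul_apply (ρ : G →* AddMonoid.End A) (g h : G) (x : A) : ρ (g * h) x = ρ g (ρ h x) := by
  rw [map_mul]; rfl

/-- On an element invariant under `ker χ`, `g` acts as `s ^ (χ g).val`. -/
lemma rho_eq_rho_pow [NeZero n] (hχ : ∀ g h, χ (g * h) = χ g + χ h) {s : G} (hs : χ s = 1)
    (g : G) (x : A) (hx : ∀ m, χ m = 0 → ρ m x = x) : ρ g x = ρ (s ^ (χ g).val) x := by
  have e : ρ g x = ρ (s ^ (χ g).val * ((s ^ (χ g).val)⁻¹ * g)) x := by
    rw [mul_inv_cancel_left]
  rw [e, rho_mul_apply, hx _ (chi_pow_val_inv_mul hχ hs g)]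

/-- **Cyclic quotient, explicit form.** A 2-cocycle `f` of `G` that is constant on cosets of
`ker χ` in both variables and has `ker χ`-invariant values differs from
`cyc χ (∑_{j<n} f (s^j, s))` by the coboundary of `g ↦ f (1,1) - ∑_{j<(χ g).val} f (s^j, s)`,
and `∑_{j<n} f (s^j, s)` is invariant under `G`. -/
theorem inflated_eq_cyc_add_coboundary [NeZero n] (hχ : ∀ g h, χ (g * h) = χ g + χ h) {s : G}
    (hs : χ s = 1) {f : G × G → A} (hf : IsTwoCocycle ρ f)
    (hconst : ∀ g h m m', χ m = 0 → χ m' = 0 → f (g * m, h * m') = f (g, h))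
    (hinv : ∀ g h m, χ m = 0 → ρ m (f (g, h)) = f (g, h)) :
    (∀ g, ρ g (psum s f n) = psum s f n) ∧ ∀ g h,
      ρ g (f (1, 1) - psum s f (χ h).val) - (f (1, 1) - psum s f (χ (g * h)).val)
        + (f (1, 1) - psum s f (χ g).val) = f (g, h) - cyc χ (psum s f n) (g, h) := by
  have h1 : χ (1 : G) = 0 := chi_one hχ
  have hsn : χ (s ^ n) = 0 := chi_pow_self hχ hs
  -- periodicity of the partial sums
  have hper : ∀ t, psum s f t = (t / n) • psum s f n + psum s f (t % n) := by
    intro t
    refine sum_range_periodic (fun j => f (s ^ j, s)) (fun j => ?_) t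
    have h := hconst (s ^ j) s (s ^ n) 1 hsn h1
    rw [mul_one, ← pow_add] at h
    exact h
  -- invariance of the partial sums under the kernel
  have hPinv : ∀ k m, χ m = 0 → ρ m (psum s f k) = psum s f k := by
    intro k m hm
    simp only [psum, map_sum]
    exact sum_congr rfl fun j _ => hinv _ _ m hm
  -- `s` fixes the full sum
  have hsP : ρ s (psum s f n) = psum s f n := by
    have key := cocycle_pow_formula hf s 1 n
    have key0 := cocycle_pow_formula hf s 1 0
    have e1 : f (s ^ 1, s ^ n) = f (s ^ 1, s ^ 0) := by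
      have h := hconst (s ^ 1) 1 1 (s ^ n) h1 hsn
      rw [mul_one, one_mul] at h
      rw [h, pow_zero]
    have e2 : f (s ^ n, s) = f (s ^ 0, s) := by
      have h := hconst 1 s (s ^ n) 1 hsn h1
      rw [mul_one, one_mul] at h
      rw [h, pow_zero]
    have e3 : psum s f (1 + n) = psum s f n + psum s f 1 := by
      rw [add_comm 1 n, psum_succ, e2, ← zero_add 1, psum_succ, psum_zero, zero_add]
    rw [e1, key0, e3] at key
    simp only [pow_one, psum_zero, sub_zero, add_zero, map_sub] at key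
    linear_combination (norm := abel) key
  have hsiP : ∀ i : ℕ, ρ (s ^ i) (psum s f n) = psum s f n := by
    intro i
    induction i with
    | zero => simp
    | succ i ih => rw [pow_succ, rho_mul_apply, hsP, ih]
  refine ⟨fun g => ?_, fun g h => ?_⟩
  · rw [rho_eq_rho_pow hχ hs g _ (hPinv n), hsiP]
  · have hfgh : f (g, h) = f (s ^ (χ g).val, s ^ (χ h).val) := by
      have h' := hconst (s ^ (χ g).val) (s ^ (χ h).val) ((s ^ (χ g).val)⁻¹ * g)
        ((s ^ (χ h).val)⁻¹ * h) (chi_pow_val_inv_mul hχ hs g) (chi_pow_val_inv_mul hχ hs h)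
      rw [mul_inv_cancel_left, mul_inv_cancel_left] at h'
      exact h'
    have F := cocycle_pow_formula hf s (χ g).val (χ h).val
    have hP := hper ((χ g).val + (χ h).val)
    have hmod : ((χ g).val + (χ h).val) % n = (χ (g * h)).val := by rw [hχ, ZMod.val_add]
    have hρ : ρ g (f (1, 1) - psum s f (χ h).val)
        = ρ (s ^ (χ g).val) (f (1, 1) - psum s f (χ h).val) :=
      rho_eq_rho_pow hχ hs g _ (fun m hm => by rw [map_sub, hinv _ _ m hm, hPinv _ m hm])
    rw [hfgh, F, hρ, hP, hmod, cyc_apply]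
    unfold carry
    abel

/-- Every inflated 2-cocycle is cohomologous to `cyc χ a` with `a` invariant. -/
theorem exists_cyc_of_inflated [NeZero n] (hχ : ∀ g h, χ (g * h) = χ g + χ h) {s : G}
    (hs : χ s = 1) {f : G × G → A} (hf : IsTwoCocycle ρ f)
    (hconst : ∀ g h m m', χ m = 0 → χ m' = 0 → f (g * m, h * m') = f (g, h))
    (hinv : ∀ g h m, χ m = 0 → ρ m (f (g, h)) = f (g, h)) :
    ∃ a : A, (∀ g, ρ g a = a) ∧ IsTwoCoboundary ρ (f - cyc χ a) :=
  ⟨psum s f n, (inflated_eq_cyc_add_coboundary hχ hs hf hconst hinv).1,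
    fun g => f (1, 1) - psum s f (χ g).val,
    (inflated_eq_cyc_add_coboundary hχ hs hf hconst hinv).2⟩

/-- **Norms give coboundaries** (non-injective `χ`): for `y` invariant under `ker χ`,
`cyc χ (∑_{j<n} s^j • y)` is the coboundary of `g ↦ ∑_{j<(χ g).val} s^j • y`. -/
theorem cyc_nsum_eq_coboundary_of_ker [NeZero n] (hχ : ∀ g h, χ (g * h) = χ g + χ h) {s : G}
    (hs : χ s = 1) (y : A) (hy : ∀ m, χ m = 0 → ρ m y = y) (g h : G) :
    ρ g (nsum ρ s y (χ h).val) - nsum ρ s y (χ (g * h)).val + nsum ρ s y (χ g).val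
      = cyc χ (nsum ρ s y n) (g, h) := by
  have hsn : χ (s ^ n) = 0 := chi_pow_self hχ hs
  have hper : ∀ t, nsum ρ s y t = (t / n) • nsum ρ s y n + nsum ρ s y (t % n) := by
    intro t
    refine sum_range_periodic (fun j => ρ (s ^ j) y) (fun j => ?_) t
    show ρ (s ^ (j + n)) y = ρ (s ^ j) y
    rw [pow_add, rho_mul_apply, hy _ hsn]
  have hSinv : ∀ k m, χ m = 0 → ρ m (nsum ρ s y k) = nsum ρ s y k := by
    intro k m hm
    simp only [nsum, map_sum]
    refine sum_congr rfl fun j _ => ?_
    have e : m * s ^ j = s ^ j * ((s ^ j)⁻¹ * m * s ^ j) := by group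
    have hm' : χ ((s ^ j)⁻¹ * m * s ^ j) = 0 := by
      rw [hχ, hχ, chi_inv hχ, hm, add_zero, neg_add_cancel]
    rw [← rho_mul_apply, e, rho_mul_apply, hy _ hm']
  have hadd := nsum_add (ρ := ρ) s y (χ g).val (χ h).val
  have hP := hper ((χ g).val + (χ h).val)
  have hmod : ((χ g).val + (χ h).val) % n = (χ (g * h)).val := by rw [hχ, ZMod.val_add]
  have hρ : ρ g (nsum ρ s y (χ h).val) = ρ (s ^ (χ g).val) (nsum ρ s y (χ h).val) :=
    rho_eq_rho_pow hχ hs g _ (hSinv _)
  rw [hmod] at hP
  rw [hρ, cyc_apply]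
  unfold carry
  linear_combination (norm := abel) hP - hadd

theorem cyc_nsum_isTwoCoboundary_of_ker [NeZero n] (hχ : ∀ g h, χ (g * h) = χ g + χ h) {s : G}
    (hs : χ s = 1) (y : A) (hy : ∀ m, χ m = 0 → ρ m y = y) :
    IsTwoCoboundary ρ (cyc χ (nsum ρ s y n)) :=
  ⟨fun g => nsum ρ s y (χ g).val, fun g h => cyc_nsum_eq_coboundary_of_ker hχ hs y hy g h⟩

end inflated

section tower

variable {G : Type u} {A : Type v} [Group G] [AddCommGroup A]

lemma isTwoCocycle_sub {ρ : G →* AddMonoid.End A} {f f' : G × G → A} (hf : IsTwoCocycle ρ f)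
    (hf' : IsTwoCocycle ρ f') : IsTwoCocycle ρ (f - f') := by
  intro g h j
  have h1 := hf g h j
  have h2 := hf' g h j
  simp only [Pi.sub_apply, map_sub]
  linear_combination (norm := abel) h1 - h2

lemma isTwoCoboundary_add {ρ : G →* AddMonoid.End A} {f f' : G × G → A}
    (hf : IsTwoCoboundary ρ f) (hf' : IsTwoCoboundary ρ f') : IsTwoCoboundary ρ (f + f') := by
  obtain ⟨x, hx⟩ := hf
  obtain ⟨x', hx'⟩ := hf'
  refine ⟨fun g => x g + x' g, fun g h => ?_⟩
  have h1 := hx g h
  have h2 := hx' g h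
  simp only [Pi.add_apply, map_add]
  linear_combination (norm := abel) h1 + h2

lemma isTwoCoboundary_sub {ρ : G →* AddMonoid.End A} {f f' : G × G → A}
    (hf : IsTwoCoboundary ρ f) (hf' : IsTwoCoboundary ρ f') : IsTwoCoboundary ρ (f - f') := by
  obtain ⟨x, hx⟩ := hf
  obtain ⟨x', hx'⟩ := hf'
  refine ⟨fun g => x g - x' g, fun g h => ?_⟩
  have h1 := hx g h
  have h2 := hx' g h
  simp only [Pi.sub_apply, map_sub]
  linear_combination (norm := abel) h1 - h2

/-- **The cyclic step.** Let `N = ker χ` with `χ : G → ZMod n` additive, `χ s = 1`. If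
`H¹(N, A) = 0` and the restriction to `N` of a 2-cocycle `f` of `G` is a coboundary, then `f`
is cohomologous to `cyc χ a` for some `G`-invariant `a`. -/
theorem exists_cyc_of_res_isTwoCoboundary {n : ℕ} [NeZero n] (ρ : G →* AddMonoid.End A)
    (N : Subgroup G) [N.Normal] {χ : G → ZMod n} (hχ : ∀ g h, χ (g * h) = χ g + χ h)
    (hker : ∀ g, χ g = 0 ↔ g ∈ N) {s : G} (hs : χ s = 1)
    (hH1 : ∀ c : N → A, (∀ a b : N, c (a * b) = ρ a (c b) + c a) → ∃ x : A, ∀ a : N, ρ a x - x = c a)
    {f : G × G → A} (hf : IsTwoCocycle ρ f)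
    (hres : IsTwoCoboundary (ρ.comp N.subtype) (fun q : N × N => f (q.1, q.2))) :
    ∃ a : A, (∀ g, ρ g a = a) ∧ IsTwoCoboundary ρ (f - cyc χ a) := by
  let _ : DistribMulAction G A := DistribMulAction.compHom A ρ
  obtain ⟨y, f', hf', hff', hconst, hinv⟩ :=
    helper3644.exists_inflated_of_res_isCoboundary₂ N (fun c hc => hH1 c hc) (f := f) hf hres
  have hff'' : ∀ g h, f (g, h) = f' (g, h) + (ρ g (y h) - y (g * h) + y g) := hff'
  obtain ⟨hb, hform⟩ := inflated_eq_cyc_add_coboundary (ρ := ρ) hχ hs (f := f') hf'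
    (fun g h m m' hm hm' => hconst g h m ((hker m).1 hm) m' ((hker m').1 hm'))
    (fun g h m hm => hinv g h m ((hker m).1 hm))
  refine ⟨psum s f' n, hb, fun g => y g + (f' (1, 1) - psum s f' (χ g).val), fun g h => ?_⟩
  have h1 := hform g h
  have h2 := hff'' g h
  simp only [Pi.sub_apply, map_add]
  linear_combination (norm := abel) h1 - h2

/-- The hypotheses of the tower bound, for an action `ρ` of `G` on `A` and a prime `p`:
for every group `Γ` with an injective hom `φ : Γ →* G` (i.e. every subgroup of `G`),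
* (Hilbert 90) every 1-cocycle of `Γ` is a coboundary;
* (norm index) for every normal subgroup `N` of index `p` in `Γ` and every `σ ∉ N`, there are at
  most `p` classes of `Γ`-invariants modulo the norms `∑_{j<p} σ^j • y` of `N`-invariants `y`. -/
def TowerHyp (p : ℕ) {G : Type u} {A : Type v} [Group G] [AddCommGroup A]
    (ρ : G →* AddMonoid.End A) : Prop :=
  ∀ (Γ : Type u) [Group Γ] (φ : Γ →* G), Function.Injective φ →
    (∀ c : Γ → A, (∀ a b, c (a * b) = ρ (φ a) (c b) + c a) → ∃ x : A, ∀ a, ρ (φ a) x - x = c a) ∧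
    (∀ N : Subgroup Γ, N.Normal → N.index = p → ∀ σ : Γ, σ ∉ N → ∃ T0 : Finset A, T0.card ≤ p ∧
      ∀ b : A, (∀ a, ρ (φ a) b = b) → ∃ t ∈ T0, ∃ y : A, (∀ h ∈ N, ρ (φ h) y = y) ∧
        b = t + ∑ j ∈ range p, ρ (φ (σ ^ j)) y)

lemma TowerHyp.comp {p : ℕ} {ρ : G →* AddMonoid.End A} (hyp : TowerHyp p ρ) {H : Type u}
    [Group H] (ψ : H →* G) (hψ : Function.Injective ψ) : TowerHyp p (ρ.comp ψ) :=
  fun Γ _ φ hφ => hyp Γ (ψ.comp φ) (hψ.comp hφ)

/-- **Tower bound.** Let `G` be a group of order `p ^ k` acting on `A`. If every subgroup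
satisfies Hilbert 90 and every `C_p`-layer has norm index at most `p` (`TowerHyp`), then
`H²(G, A)` has at most `p ^ k` elements: there is a set `T` of at most `p ^ k` functions such
that every 2-cocycle differs from an element of `T` by a coboundary. -/
theorem exists_finset_twoCocycle_reps (p : ℕ) [Fact p.Prime] (k : ℕ) :
    ∀ (G : Type u) [Group G] [Finite G] (ρ : G →* AddMonoid.End A), Nat.card G = p ^ k →
      TowerHyp p ρ → ∃ T : Finset (G × G → A), T.card ≤ p ^ k ∧
        ∀ f, IsTwoCocycle ρ f → ∃ t ∈ T, IsTwoCoboundary ρ (f - t) := by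
  classical
  induction k with
  | zero =>
    intro G _ _ ρ hG _
    rw [pow_zero] at hG
    have hsub : Subsingleton G := (Nat.card_eq_one_iff_unique.mp hG).1
    refine ⟨{0}, by simp, fun f hf => ⟨0, by simp, fun _ => f (1, 1), fun a b => ?_⟩⟩
    have ha : a = 1 := Subsingleton.elim _ _
    have hb : b = 1 := Subsingleton.elim _ _
    subst ha hb
    simp
  | succ k ih =>
    intro G _ _ ρ hG hyp
    have hp : p.Prime := Fact.out
    have : NeZero p := ⟨hp.ne_zero⟩
    obtain ⟨N, hN⟩ := Sylow.exists_subgroup_card_pow_prime p (n := k) (G := G)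
      (by rw [hG]; exact pow_dvd_pow p (Nat.le_succ k))
    have hidx : N.index = p := by
      have h := N.card_mul_index
      rw [hN, hG, pow_succ] at h
      exact Nat.eq_of_mul_eq_mul_left (pow_pos hp.pos k) h
    have hNn : N.Normal := Subgroup.normal_of_index_eq_minFac_card
      (by rw [hidx, hG, Nat.pow_minFac (Nat.succ_ne_zero k), hp.minFac_eq])
    have hq : Nat.card (G ⧸ N) = p := by rw [← Subgroup.index_eq_card, hidx]
    have hz : Nat.card (Multiplicative (ZMod p)) = p := by
      rw [Nat.card_congr Multiplicative.toAdd, Nat.card_zmod]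
    let e : G ⧸ N ≃* Multiplicative (ZMod p) := mulEquivOfPrimeCardEq hq hz
    let χ : G → ZMod p := fun g => Multiplicative.toAdd (e (QuotientGroup.mk g))
    have hχ : ∀ g h, χ (g * h) = χ g + χ h := by
      intro g h
      simp only [χ, QuotientGroup.mk_mul, map_mul, toAdd_mul]
    have hker : ∀ g, χ g = 0 ↔ g ∈ N := by
      intro g
      have h0 : χ g = 0 ↔ e (QuotientGroup.mk g) = 1 := Iff.rfl
      rw [h0, map_eq_one_iff e e.injective, QuotientGroup.eq_one_iff]
    obtain ⟨σ, hσ⟩ : ∃ σ, χ σ = 1 := by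
      obtain ⟨q, hq'⟩ := e.surjective (Multiplicative.ofAdd 1)
      obtain ⟨σ, rfl⟩ := QuotientGroup.mk_surjective q
      exact ⟨σ, by simp only [χ, hq', toAdd_ofAdd]⟩
    have hσN : σ ∉ N := by
      intro h
      have h0 := (hker σ).2 h
      rw [hσ] at h0
      exact one_ne_zero h0
    -- induction hypothesis on `N`
    obtain ⟨TN, hTNcard, hTN⟩ :=
      ih N (ρ.comp N.subtype) hN (hyp.comp N.subtype N.subtype_injective)
    -- norm index for the layer `G / N`
    obtain ⟨T0, hT0card, hT0⟩ :=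
      (hyp G (MonoidHom.id G) Function.injective_id).2 N hNn hidx σ hσN
    -- Hilbert 90 on `N`
    have hH1 := (hyp N N.subtype N.subtype_injective).1
    -- the representatives
    let res : (G × G → A) → (N × N → A) := fun f q => f (q.1, q.2)
    let F : (N × N → A) → (G × G → A) := fun tN =>
      if h : ∃ f', IsTwoCocycle ρ f' ∧ IsTwoCoboundary (ρ.comp N.subtype) (res f' - tN)
      then h.choose else 0
    refine ⟨(TN ×ˢ T0).image (fun q => F q.1 + cyc χ q.2), ?_, fun f hf => ?_⟩
    · calc ((TN ×ˢ T0).image (fun q => F q.1 + cyc χ q.2)).card ≤ (TN ×ˢ T0).card := card_image_le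
        _ = TN.card * T0.card := card_product _ _
        _ ≤ p ^ k * p := Nat.mul_le_mul hTNcard hT0card
        _ = p ^ (k + 1) := (pow_succ p k).symm
    · obtain ⟨tN, htN, hb⟩ := hTN (res f) (fun a b c => hf a b c)
      have hex : ∃ f', IsTwoCocycle ρ f' ∧ IsTwoCoboundary (ρ.comp N.subtype) (res f' - tN) :=
        ⟨f, hf, hb⟩
      have hF : F tN = hex.choose := dif_pos hex
      obtain ⟨hf'c, hf'b⟩ := hex.choose_spec
      rw [← hF] at hf'c hf'b
      have hgc : IsTwoCocycle ρ (f - F tN) := isTwoCocycle_sub hf hf'c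
      have hgres : IsTwoCoboundary (ρ.comp N.subtype)
          (fun q : N × N => (f - F tN) (q.1, q.2)) := by
        have h := isTwoCoboundary_sub hb hf'b
        have e' : (fun q : N × N => (f - F tN) (q.1, q.2)) = res f - tN - (res (F tN) - tN) := by
          funext q
          simp only [res, Pi.sub_apply]
          abel
        rw [e']
        exact h
      obtain ⟨a, ha, hab⟩ := exists_cyc_of_res_isTwoCoboundary ρ N hχ hker hσ
        (fun c hc => hH1 c hc) hgc hgres
      obtain ⟨t, ht, y, hy, hbt⟩ := hT0 a ha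
      refine ⟨F tN + cyc χ t, mem_image.mpr ⟨(tN, t), mem_product.mpr ⟨htN, ht⟩, rfl⟩, ?_⟩
      have hnorm : IsTwoCoboundary ρ (cyc χ (nsum ρ σ y p)) :=
        cyc_nsum_isTwoCoboundary_of_ker hχ hσ y (fun m hm => hy m ((hker m).1 hm))
      have h := isTwoCoboundary_add hab hnorm
      have e' : f - (F tN + cyc χ t) = f - F tN - cyc χ a + cyc χ (nsum ρ σ y p) := by
        have hbt' : a = t + nsum ρ σ y p := hbt
        rw [hbt', cyc_add]
        abel
      rw [e']
      exact h

end tower

end Fermat.Agent.S55.helper2112
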