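import Mathlib

/-!
# S55 / LS-L2 (backup): homogeneous cochains, transfer and prism

Mathlib only.  Explicit low-degree (homogeneous) cochain calculus used for the Shapiro-free
descent of local duality from a group `G` to a subgroup `H` of finite index:

* `hom₁`, `hom₂` : homogenisation of inhomogeneous 1- and 2-cochains;
* `tr₁`, `tr₂`, `trHom` : transfer of `H`-equivariant homogeneous cochains / linear maps;
* `prism` : an `H`-equivariant homogeneous 2-cocycle on `G` whose restriction to `H` is a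
  coboundary is the coboundary of an explicit `H`-equivariant 1-cochain.
-/

set_option autoImplicit false
set_option linter.unusedSectionVars false

namespace Fermat.Agent.S55.helper2113

open Finset

section Defs

variable {k : Type*} [CommRing k] {G : Type*} [Group G] {A : Type*} [AddCommGroup A] [Module k A]
  (ρ : Representation k G A)

/-- Inhomogeneous coboundary of a 1-cochain (Mathlib `d₁₂` shape). -/
def dIn (b : G → A) : G × G → A := fun p => ρ p.1 (b p.2) - b (p.1 * p.2) + b p.1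

/-- Inhomogeneous 2-cocycle condition (Mathlib `mem_cocycles₂_iff` shape). -/
def IsCoc (f : G × G → A) : Prop :=
  ∀ g h j, f (g * h, j) + f (g, h) = ρ g (f (h, j)) + f (g, h * j)

/-- Homogeneous coboundary of a 1-cochain. -/
def dH (v : G → G → A) : G → G → G → A := fun x y z => v y z - v x z + v x y

/-- Homogeneous 2-cocycle condition. -/
def IsHCoc (F : G → G → G → A) : Prop :=
  ∀ x y z w, F y z w - F x z w + F x y w - F x y z = 0

/-- Homogenisation of a 1-cochain. -/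
def hom₁ (b : G → A) : G → G → A := fun x y => ρ x (b (x⁻¹ * y))

/-- Homogenisation of a 2-cochain. -/
def hom₂ (f : G × G → A) : G → G → G → A := fun x y z => ρ x (f (x⁻¹ * y, y⁻¹ * z))

/-- Dehomogenisation of a homogeneous 1-cochain. -/
def deh₁ (v : G → G → A) : G → A := fun g => v 1 g

/-- Dehomogenisation of a homogeneous 2-cochain. -/
def deh₂ (F : G → G → G → A) : G × G → A := fun p => F 1 p.1 (p.1 * p.2)

/-- Equivariance of a homogeneous 1-cochain under a subgroup. -/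
def Eqv₁ (H : Subgroup G) (v : G → G → A) : Prop :=
  ∀ h ∈ H, ∀ x y, v (h * x) (h * y) = ρ h (v x y)

/-- Equivariance of a homogeneous 2-cochain under a subgroup. -/
def Eqv₂ (H : Subgroup G) (F : G → G → G → A) : Prop :=
  ∀ h ∈ H, ∀ x y z, F (h * x) (h * y) (h * z) = ρ h (F x y z)

/-- Right invariance of a homogeneous 1-cochain under a subgroup. -/
def Inv₁ (N : Subgroup G) (v : G → G → A) : Prop :=
  ∀ x y, ∀ a ∈ N, ∀ b ∈ N, v (x * a) (y * b) = v x y

/-- Right invariance of a homogeneous 2-cochain under a subgroup. -/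
def Inv₂ (N : Subgroup G) (F : G → G → G → A) : Prop :=
  ∀ x y z, ∀ a ∈ N, ∀ b ∈ N, ∀ c ∈ N, F (x * a) (y * b) (z * c) = F x y z

/-- Right invariance of an inhomogeneous 1-cochain. -/
def InvIn₁ (N : Subgroup G) (b : G → A) : Prop := ∀ g, ∀ a ∈ N, b (g * a) = b g

/-- Right invariance of an inhomogeneous 2-cochain. -/
def InvIn₂ (N : Subgroup G) (f : G × G → A) : Prop :=
  ∀ g h, ∀ a ∈ N, ∀ b ∈ N, f (g * a, h * b) = f (g, h)

end Defs

section Translate

variable {k : Type*} [CommRing k] {G : Type*} [Group G] {A : Type*} [AddCommGroup A] [Module k A]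
  (ρ : Representation k G A)

lemma rho_mul_apply (g h : G) (a : A) : ρ (g * h) a = ρ g (ρ h a) := by
  rw [map_mul]; rfl

lemma rho_inv_self_apply (g : G) (a : A) : ρ g⁻¹ (ρ g a) = a := by
  rw [← rho_mul_apply, inv_mul_cancel, map_one]; rfl

lemma rho_self_inv_apply (g : G) (a : A) : ρ g (ρ g⁻¹ a) = a := by
  rw [← rho_mul_apply, mul_inv_cancel, map_one]; rfl

lemma hom₂_dIn (b : G → A) : hom₂ ρ (dIn ρ b) = dH (hom₁ ρ b) := by
  funext x y z
  simp only [hom₂, dIn, dH, hom₁, map_add, map_sub]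
  rw [← rho_mul_apply]
  simp [mul_assoc]

lemma isHCoc_hom₂ {f : G × G → A} (hf : IsCoc ρ f) : IsHCoc (hom₂ ρ f) := by
  intro x y z w
  have h := hf (x⁻¹ * y) (y⁻¹ * z) (z⁻¹ * w)
  have e1 : x⁻¹ * y * (y⁻¹ * z) = x⁻¹ * z := by group
  have e2 : y⁻¹ * z * (z⁻¹ * w) = y⁻¹ * w := by group
  rw [e1, e2] at h
  have h' := congrArg (ρ x) h
  simp only [map_add] at h'
  rw [← rho_mul_apply, mul_inv_cancel_left] at h'
  simp only [hom₂]
  grind

lemma eqv₂_hom₂ (f : G × G → A) (H : Subgroup G) : Eqv₂ ρ H (hom₂ ρ f) := by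
  intro h _ x y z
  simp only [hom₂]
  rw [rho_mul_apply]
  have e1 : (h * x)⁻¹ * (h * y) = x⁻¹ * y := by group
  have e2 : (h * y)⁻¹ * (h * z) = y⁻¹ * z := by group
  rw [e1, e2]

lemma eqv₁_hom₁ (b : G → A) (H : Subgroup G) : Eqv₁ ρ H (hom₁ ρ b) := by
  intro h _ x y
  simp only [hom₁]
  rw [rho_mul_apply]
  have e1 : (h * x)⁻¹ * (h * y) = x⁻¹ * y := by group
  rw [e1]

lemma deh₂_hom₂ (f : G × G → A) : deh₂ (hom₂ ρ f) = f := by
  funext ⟨g, h⟩
  simp [deh₂, hom₂]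

lemma deh₁_hom₁ (b : G → A) : deh₁ (hom₁ ρ b) = b := by
  funext g
  simp [deh₁, hom₁]

/-- Dehomogenisation commutes with the differentials on equivariant cochains. -/
lemma deh₂_dH {v : G → G → A} (hv : Eqv₁ ρ ⊤ v) : deh₂ (dH v) = dIn ρ (deh₁ v) := by
  funext ⟨g, h⟩
  have := hv g (Subgroup.mem_top g) 1 h
  rw [mul_one] at this
  simp only [deh₂, dH, dIn, deh₁, this]

end Translate

section Transfer

variable {k : Type*} [CommRing k] {G : Type*} [Group G] {A : Type*} [AddCommGroup A] [Module k A]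
  (ρ : Representation k G A) (H : Subgroup G) [Fintype (G ⧸ H)]

/-- Sums over coset representatives of right-`H`-invariant functions do not depend on the
representatives. -/
lemma sum_out_mul {B : Type*} [AddCommMonoid B] (Φ : G → B)
    (hΦ : ∀ s, ∀ h ∈ H, Φ (s * h) = Φ s) (g : G) :
    ∑ q : G ⧸ H, Φ (g * q.out) = ∑ q : G ⧸ H, Φ q.out := by
  have key : ∀ q : G ⧸ H, Φ (g * q.out) = Φ ((g • q).out) := by
    intro q
    have h1 : ((g * q.out : G) : G ⧸ H) = g • q := MulAction.Quotient.mk_smul_out H g q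
    have h2 : ((g • q).out)⁻¹ * (g * q.out) ∈ H := by
      rw [← QuotientGroup.eq, QuotientGroup.out_eq', h1]
    have h3 := hΦ ((g • q).out) _ h2
    rw [mul_inv_cancel_left] at h3
    exact h3
  rw [Finset.sum_congr rfl fun q _ => key q]
  exact Equiv.sum_comp (MulAction.toPerm g : Equiv.Perm (G ⧸ H)) (fun q : G ⧸ H => Φ q.out)

/-- Transfer of homogeneous 1-cochains. -/
noncomputable def tr₁ (v : G → G → A) : G → G → A :=
  fun x y => ∑ q : G ⧸ H, ρ q.out (v (q.out⁻¹ * x) (q.out⁻¹ * y))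

/-- Transfer of homogeneous 2-cochains. -/
noncomputable def tr₂ (F : G → G → G → A) : G → G → G → A :=
  fun x y z => ∑ q : G ⧸ H, ρ q.out (F (q.out⁻¹ * x) (q.out⁻¹ * y) (q.out⁻¹ * z))

lemma tr₂_dH (v : G → G → A) : tr₂ ρ H (dH v) = dH (tr₁ ρ H v) := by
  funext x y z
  simp only [tr₂, tr₁, dH, map_add, map_sub, Finset.sum_add_distrib, Finset.sum_sub_distrib]

lemma tr₂_add (F F' : G → G → G → A) : tr₂ ρ H (F + F') = tr₂ ρ H F + tr₂ ρ H F' := by
  funext x y z
  simp only [tr₂, Pi.add_apply, map_add, Finset.sum_add_distrib]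

lemma tr₂_sub (F F' : G → G → G → A) : tr₂ ρ H (F - F') = tr₂ ρ H F - tr₂ ρ H F' := by
  funext x y z
  simp only [tr₂, Pi.sub_apply, map_sub, Finset.sum_sub_distrib]

lemma tr₂_smul (c : k) (F : G → G → G → A) : tr₂ ρ H (c • F) = c • tr₂ ρ H F := by
  funext x y z
  simp only [tr₂, Pi.smul_apply, map_smul, Finset.smul_sum]

lemma eqv₂_tr₂ {F : G → G → G → A} (hF : Eqv₂ ρ H F) : Eqv₂ ρ ⊤ (tr₂ ρ H F) := by
  intro g _ x y z
  have hΦ : ∀ s, ∀ h ∈ H,
      ρ (s * h) (F ((s * h)⁻¹ * (g * x)) ((s * h)⁻¹ * (g * y)) ((s * h)⁻¹ * (g * z))) =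
        ρ s (F (s⁻¹ * (g * x)) (s⁻¹ * (g * y)) (s⁻¹ * (g * z))) := by
    intro s h hh
    have := hF h⁻¹ (H.inv_mem hh) (s⁻¹ * (g * x)) (s⁻¹ * (g * y)) (s⁻¹ * (g * z))
    simp only [mul_inv_rev, mul_assoc] at this ⊢
    rw [this, rho_mul_apply, rho_self_inv_apply]
  have h1 := sum_out_mul H
    (fun s => ρ s (F (s⁻¹ * (g * x)) (s⁻¹ * (g * y)) (s⁻¹ * (g * z)))) hΦ g
  simp only [tr₂, map_sum]
  rw [← h1]
  refine Finset.sum_congr rfl fun q _ => ?_
  rw [rho_mul_apply]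
  simp only [mul_inv_rev, mul_assoc, inv_mul_cancel_left]

lemma eqv₁_tr₁ {v : G → G → A} (hv : Eqv₁ ρ H v) : Eqv₁ ρ ⊤ (tr₁ ρ H v) := by
  intro g _ x y
  have hΦ : ∀ s, ∀ h ∈ H,
      ρ (s * h) (v ((s * h)⁻¹ * (g * x)) ((s * h)⁻¹ * (g * y))) =
        ρ s (v (s⁻¹ * (g * x)) (s⁻¹ * (g * y))) := by
    intro s h hh
    have := hv h⁻¹ (H.inv_mem hh) (s⁻¹ * (g * x)) (s⁻¹ * (g * y))
    simp only [mul_inv_rev, mul_assoc] at this ⊢
    rw [this, rho_mul_apply, rho_self_inv_apply]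
  have h1 := sum_out_mul H (fun s => ρ s (v (s⁻¹ * (g * x)) (s⁻¹ * (g * y)))) hΦ g
  simp only [tr₁, map_sum]
  rw [← h1]
  refine Finset.sum_congr rfl fun q _ => ?_
  rw [rho_mul_apply]
  simp only [mul_inv_rev, mul_assoc, inv_mul_cancel_left]

/-- On `G`-equivariant cochains the transfer is multiplication by the index. -/
lemma tr₂_of_eqv {F : G → G → G → A} (hF : Eqv₂ ρ ⊤ F) :
    tr₂ ρ H F = Fintype.card (G ⧸ H) • F := by
  funext x y z
  simp only [tr₂, Pi.smul_apply]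
  rw [Finset.sum_congr rfl (fun q _ => by
    rw [hF q.out⁻¹ (Subgroup.mem_top _), rho_self_inv_apply]), Finset.sum_const, Finset.card_univ]

lemma inv₂_tr₂ {N : Subgroup G} {F : G → G → G → A} (hF : Inv₂ N F) : Inv₂ N (tr₂ ρ H F) := by
  intro x y z a ha b hb c hc
  simp only [tr₂, ← mul_assoc]
  exact Finset.sum_congr rfl fun q _ => by rw [hF _ _ _ a ha b hb c hc]

lemma inv₁_tr₁ {N : Subgroup G} {v : G → G → A} (hv : Inv₁ N v) : Inv₁ N (tr₁ ρ H v) := by
  intro x y a ha b hb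
  simp only [tr₁, ← mul_assoc]
  exact Finset.sum_congr rfl fun q _ => by rw [hv _ _ a ha b hb]

variable {X : Type*} [AddCommGroup X] [Module k X] (ρX : Representation k G X)

/-- Transfer of an `H`-equivariant linear map. -/
noncomputable def trHom (ψ : X →ₗ[k] A) : X →ₗ[k] A :=
  ∑ q : G ⧸ H, (ρ q.out) ∘ₗ ψ ∘ₗ (ρX q.out⁻¹)

lemma trHom_apply (ψ : X →ₗ[k] A) (v : X) :
    trHom ρ H ρX ψ v = ∑ q : G ⧸ H, ρ q.out (ψ (ρX q.out⁻¹ v)) := by
  simp [trHom, LinearMap.sum_apply]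

lemma trHom_equivariant {ψ : X →ₗ[k] A} (hψ : ∀ h ∈ H, ∀ v, ψ (ρX h v) = ρ h (ψ v))
    (g : G) (v : X) : trHom ρ H ρX ψ (ρX g v) = ρ g (trHom ρ H ρX ψ v) := by
  have hΦ : ∀ s, ∀ h ∈ H,
      ρ (s * h) (ψ (ρX (s * h)⁻¹ (ρX g v))) = ρ s (ψ (ρX s⁻¹ (ρX g v))) := by
    intro s h hh
    rw [mul_inv_rev, rho_mul_apply ρX, hψ h⁻¹ (H.inv_mem hh), rho_mul_apply ρ,
      rho_self_inv_apply]
  have h1 := sum_out_mul H (fun s => ρ s (ψ (ρX s⁻¹ (ρX g v)))) hΦ g
  simp only [trHom_apply, map_sum]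
  rw [← h1]
  refine Finset.sum_congr rfl fun q _ => ?_
  rw [rho_mul_apply ρ, mul_inv_rev, rho_mul_apply ρX, rho_inv_self_apply]

lemma tr₂_comp (ψ : X →ₗ[k] A) {F : G → G → G → X} (hF : Eqv₂ ρX ⊤ F) :
    tr₂ ρ H (fun x y z => ψ (F x y z)) = fun x y z => trHom ρ H ρX ψ (F x y z) := by
  funext x y z
  simp only [tr₂, trHom_apply]
  exact Finset.sum_congr rfl fun q _ => by rw [hF q.out⁻¹ (Subgroup.mem_top _)]

end Transfer

section Prism

variable {k : Type*} [CommRing k] {G : Type*} [Group G] {A : Type*} [AddCommGroup A] [Module k A]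
  (ρ : Representation k G A) (H : Subgroup G)

/-- The prism cochain attached to a retraction `retr : G → H`, a primitive `w` on `H` and a
homogeneous 2-cochain `F`. -/
def prismCochain (retr : G → G) (w : G → A) (F : G → G → G → A) : G → G → A :=
  fun x y => hom₁ ρ w (retr x) (retr y) - F x (retr x) (retr y) + F x y (retr y)

/-- **Prism lemma.** An `H`-equivariant homogeneous 2-cocycle whose dehomogenised restriction to
`H` is the coboundary of `w` is the coboundary of the prism cochain. -/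
theorem prism (retr : G → G) (hr : ∀ x, retr x ∈ H) {F : G → G → G → A} (hF : IsHCoc F)
    (hFe : Eqv₂ ρ H F) (w : G → A)
    (hw : ∀ a ∈ H, ∀ b ∈ H, F 1 a (a * b) = ρ a (w b) - w (a * b) + w a) :
    F = dH (prismCochain ρ retr w F) := by
  have key : ∀ a ∈ H, ∀ b ∈ H, ∀ c ∈ H,
      F a b c = hom₁ ρ w b c - hom₁ ρ w a c + hom₁ ρ w a b := by
    intro a ha b hb c hc
    have h1 := hFe a ha 1 (a⁻¹ * b) (a⁻¹ * c)
    rw [mul_one, mul_inv_cancel_left, mul_inv_cancel_left] at h1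
    have h2 := hw (a⁻¹ * b) (H.mul_mem (H.inv_mem ha) hb) (b⁻¹ * c)
      (H.mul_mem (H.inv_mem hb) hc)
    have e : a⁻¹ * b * (b⁻¹ * c) = a⁻¹ * c := by group
    rw [e] at h2
    rw [h1, h2]
    simp only [hom₁, map_add, map_sub]
    rw [← rho_mul_apply, mul_inv_cancel_left]
  funext x y z
  have c1 := hF x (retr x) (retr y) (retr z)
  have c2 := hF x y (retr y) (retr z)
  have c3 := hF x y z (retr z)
  have k1 := key (retr x) (hr x) (retr y) (hr y) (retr z) (hr z)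
  simp only [dH, prismCochain]
  grind

lemma eqv₁_prismCochain (retr : G → G) (hrm : ∀ h ∈ H, ∀ x, retr (h * x) = h * retr x)
    (w : G → A) {F : G → G → G → A} (hFe : Eqv₂ ρ H F) :
    Eqv₁ ρ H (prismCochain ρ retr w F) := by
  intro h hh x y
  simp only [prismCochain, hrm h hh, map_add, map_sub]
  rw [eqv₁_hom₁ ρ w H h hh, hFe h hh, hFe h hh]

lemma inv₁_prismCochain (N : Subgroup G) [N.Normal] (hN : ∀ n ∈ N, ∀ a : A, ρ n a = a)
    (retr : G → G) (hr : ∀ x, retr x ∈ H)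
    (hrN : ∀ x, ∀ n ∈ N, ∃ n' ∈ N, retr (x * n) = retr x * n')
    (w : G → A) (hwN : ∀ a ∈ H, ∀ n ∈ N, w (a * n) = w a) {F : G → G → G → A}
    (hFN : Inv₂ N F) : Inv₁ N (prismCochain ρ retr w F) := by
  intro x y a ha b hb
  obtain ⟨a', ha', ea⟩ := hrN x a ha
  obtain ⟨b', hb', eb⟩ := hrN y b hb
  simp only [prismCochain, ea, eb]
  rw [hFN x (retr x) (retr y) a ha a' ha' b' hb', hFN x y (retr y) a ha b hb b' hb']
  congr 2
  simp only [hom₁]
  rw [rho_mul_apply, hN a' ha']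
  have hc : (retr x)⁻¹ * retr y ∈ H := H.mul_mem (H.inv_mem (hr x)) (hr y)
  have hm : ((retr x)⁻¹ * retr y)⁻¹ * a'⁻¹ * ((retr x)⁻¹ * retr y) * b' ∈ N := by
    refine N.mul_mem ?_ hb'
    have := Subgroup.Normal.conj_mem (inferInstance : N.Normal) a'⁻¹ (N.inv_mem ha')
      ((retr x)⁻¹ * retr y)⁻¹
    simpa using this
  have e : (retr x * a')⁻¹ * (retr y * b') =
      (retr x)⁻¹ * retr y * (((retr x)⁻¹ * retr y)⁻¹ * a'⁻¹ * ((retr x)⁻¹ * retr y) * b') := by
    group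
  rw [e, hwN _ hc _ hm]

/-- A retraction of `G` onto `H`, compatible with left multiplication by `H`. -/
noncomputable def retrOf (x : G) : G :=
  x * ((Quotient.mk'' x : Quotient (QuotientGroup.rightRel H)).out)⁻¹

lemma retrOf_mem (x : G) : retrOf H x ∈ H := by
  have := Quotient.mk_out' (s₁ := QuotientGroup.rightRel H) x
  exact QuotientGroup.rightRel_apply.1 this

lemma retrOf_mul_left {h : G} (hh : h ∈ H) (x : G) : retrOf H (h * x) = h * retrOf H x := by
  have e : (Quotient.mk'' (h * x) : Quotient (QuotientGroup.rightRel H)) = Quotient.mk'' x := by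
    apply Quotient.sound'
    rw [QuotientGroup.rightRel_apply]
    simpa using H.inv_mem hh
  simp only [retrOf, e, mul_assoc]

lemma retrOf_mul_right (N : Subgroup G) [N.Normal] (hNH : N ≤ H) (x : G) {n : G} (hn : n ∈ N) :
    ∃ n' ∈ N, retrOf H (x * n) = retrOf H x * n' := by
  have e : (Quotient.mk'' (x * n) : Quotient (QuotientGroup.rightRel H)) = Quotient.mk'' x := by
    apply Quotient.sound'
    rw [QuotientGroup.rightRel_apply]
    have := Subgroup.Normal.conj_mem (inferInstance : N.Normal) n⁻¹ (N.inv_mem hn) x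
    exact hNH (by simpa [mul_assoc] using this)
  set s := (Quotient.mk'' x : Quotient (QuotientGroup.rightRel H)).out with hs
  refine ⟨s * n * s⁻¹, Subgroup.Normal.conj_mem inferInstance n hn s, ?_⟩
  simp only [retrOf, e, ← hs]
  group

end Prism

section Levels

variable {k : Type*} [CommRing k] {G : Type*} [Group G] {A : Type*} [AddCommGroup A] [Module k A]
  (ρ : Representation k G A)

lemma dIn_add (b b' : G → A) : dIn ρ (b + b') = dIn ρ b + dIn ρ b' := by
  funext p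
  simp only [dIn, Pi.add_apply, map_add]
  abel

lemma dIn_sub (b b' : G → A) : dIn ρ (b - b') = dIn ρ b - dIn ρ b' := by
  funext p
  simp only [dIn, Pi.sub_apply, map_sub]
  abel

lemma dIn_smul (c : k) (b : G → A) : dIn ρ (c • b) = c • dIn ρ b := by
  funext p
  simp only [dIn, Pi.smul_apply, map_smul, smul_add, smul_sub]

lemma hom₂_add (f f' : G × G → A) : hom₂ ρ (f + f') = hom₂ ρ f + hom₂ ρ f' := by
  funext x y z
  simp only [hom₂, Pi.add_apply, map_add]

lemma hom₂_sub (f f' : G × G → A) : hom₂ ρ (f - f') = hom₂ ρ f - hom₂ ρ f' := by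
  funext x y z
  simp only [hom₂, Pi.sub_apply, map_sub]

lemma hom₂_smul (c : k) (f : G × G → A) : hom₂ ρ (c • f) = c • hom₂ ρ f := by
  funext x y z
  simp only [hom₂, Pi.smul_apply, map_smul]

lemma hom₂_nsmul (n : ℕ) (f : G × G → A) : hom₂ ρ (n • f) = n • hom₂ ρ f := by
  funext x y z
  simp only [hom₂, Pi.smul_apply, map_nsmul]

lemma inv₂_hom₂ (N : Subgroup G) [N.Normal] (hN : ∀ n ∈ N, ∀ a : A, ρ n a = a) {f : G × G → A}
    (hf : InvIn₂ N f) : Inv₂ N (hom₂ ρ f) := by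
  intro x y z a ha b hb c hc
  simp only [hom₂]
  rw [rho_mul_apply, hN a ha]
  have h1 : (x⁻¹ * y)⁻¹ * a⁻¹ * (x⁻¹ * y) * b ∈ N := by
    refine N.mul_mem ?_ hb
    have := Subgroup.Normal.conj_mem (inferInstance : N.Normal) a⁻¹ (N.inv_mem ha) (x⁻¹ * y)⁻¹
    simpa using this
  have h2 : (y⁻¹ * z)⁻¹ * b⁻¹ * (y⁻¹ * z) * c ∈ N := by
    refine N.mul_mem ?_ hc
    have := Subgroup.Normal.conj_mem (inferInstance : N.Normal) b⁻¹ (N.inv_mem hb) (y⁻¹ * z)⁻¹
    simpa using this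
  have e1 : (x * a)⁻¹ * (y * b) = x⁻¹ * y * ((x⁻¹ * y)⁻¹ * a⁻¹ * (x⁻¹ * y) * b) := by group
  have e2 : (y * b)⁻¹ * (z * c) = y⁻¹ * z * ((y⁻¹ * z)⁻¹ * b⁻¹ * (y⁻¹ * z) * c) := by group
  rw [e1, e2, hf _ _ _ h1 _ h2]

lemma inv₁_hom₁ (N : Subgroup G) [N.Normal] (hN : ∀ n ∈ N, ∀ a : A, ρ n a = a) {b : G → A}
    (hb : InvIn₁ N b) : Inv₁ N (hom₁ ρ b) := by
  intro x y a ha c hc
  simp only [hom₁]
  rw [rho_mul_apply, hN a ha]
  have h1 : (x⁻¹ * y)⁻¹ * a⁻¹ * (x⁻¹ * y) * c ∈ N := by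
    refine N.mul_mem ?_ hc
    have := Subgroup.Normal.conj_mem (inferInstance : N.Normal) a⁻¹ (N.inv_mem ha) (x⁻¹ * y)⁻¹
    simpa using this
  have e1 : (x * a)⁻¹ * (y * c) = x⁻¹ * y * ((x⁻¹ * y)⁻¹ * a⁻¹ * (x⁻¹ * y) * c) := by group
  rw [e1, hb _ _ h1]

omit [AddCommGroup A] [Module k A] in
lemma invIn₁_deh₁ {N : Subgroup G} {v : G → G → A} (hv : Inv₁ N v) : InvIn₁ N (deh₁ v) := by
  intro g a ha
  have := hv 1 g 1 N.one_mem a ha
  simpa [deh₁] using this

lemma invIn₂_dIn (N : Subgroup G) [N.Normal] (hN : ∀ n ∈ N, ∀ a : A, ρ n a = a) {b : G → A}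
    (hb : InvIn₁ N b) : InvIn₂ N (dIn ρ b) := by
  intro g h a ha c hc
  simp only [dIn]
  have h1 : h⁻¹ * a * h * c ∈ N := by
    refine N.mul_mem ?_ hc
    have := Subgroup.Normal.conj_mem (inferInstance : N.Normal) a ha h⁻¹
    simpa using this
  have e1 : g * a * (h * c) = g * h * (h⁻¹ * a * h * c) := by group
  rw [e1, hb _ _ h1, hb g a ha, hb h c hc, rho_mul_apply, hN a ha]

/-- Transfer followed by dehomogenisation: if the homogenisation of `x` is the coboundary of an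
`H`-equivariant cochain, then `[G : H] • x` is an inhomogeneous coboundary. -/
lemma card_smul_eq_dIn (H : Subgroup G) [Fintype (G ⧸ H)] {x : G × G → A} {v : G → G → A}
    (hv : Eqv₁ ρ H v) (h : hom₂ ρ x = dH v) :
    Fintype.card (G ⧸ H) • x = dIn ρ (deh₁ (tr₁ ρ H v)) := by
  have h1 : tr₂ ρ H (hom₂ ρ x) = Fintype.card (G ⧸ H) • hom₂ ρ x :=
    tr₂_of_eqv ρ H (eqv₂_hom₂ ρ x ⊤)
  have h2 : tr₂ ρ H (hom₂ ρ x) = dH (tr₁ ρ H v) := by rw [h, tr₂_dH]
  have h3 : deh₂ (dH (tr₁ ρ H v)) = dIn ρ (deh₁ (tr₁ ρ H v)) := deh₂_dH ρ (eqv₁_tr₁ ρ H hv)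
  rw [← h3, ← h2, h1, ← hom₂_nsmul, deh₂_hom₂]

lemma isHCoc_sub {F F' : G → G → G → A} (hF : IsHCoc F) (hF' : IsHCoc F') : IsHCoc (F - F') := by
  intro x y z w
  have h1 := hF x y z w
  have h2 := hF' x y z w
  simp only [Pi.sub_apply]
  grind

lemma isHCoc_smul (c : k) {F : G → G → G → A} (hF : IsHCoc F) : IsHCoc (c • F) := by
  intro x y z w
  have h1 := congrArg (fun a => c • a) (hF x y z w)
  simp only [Pi.smul_apply]
  simpa [smul_sub, smul_add] using h1

lemma isHCoc_comp {B : Type*} [AddCommGroup B] [Module k B] (ψ : A →ₗ[k] B)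
    {F : G → G → G → A} (hF : IsHCoc F) : IsHCoc (fun x y z => ψ (F x y z)) := by
  intro x y z w
  have h1 := congrArg ψ (hF x y z w)
  simpa [map_sub, map_add] using h1

lemma eqv₁_sub {H : Subgroup G} {v v' : G → G → A} (hv : Eqv₁ ρ H v) (hv' : Eqv₁ ρ H v') :
    Eqv₁ ρ H (v - v') := by
  intro h hh x y
  simp only [Pi.sub_apply, map_sub, hv h hh, hv' h hh]

lemma dH_sub (v v' : G → G → A) : dH (v - v') = dH v - dH v' := by
  funext x y z
  simp only [dH, Pi.sub_apply]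
  abel

/-- Dehomogenisation of an identity `c • hom₂ z = dH V` with `V` equivariant. -/
lemma smul_eq_dIn_of_hom₂_eq_dH {z : G × G → A} {V : G → G → A} (hV : Eqv₁ ρ ⊤ V) (c : k)
    (h : c • hom₂ ρ z = dH V) : c • z = dIn ρ (deh₁ V) := by
  rw [← deh₂_dH ρ hV, ← h, ← hom₂_smul, deh₂_hom₂]

end Levels

end Fermat.Agent.S55.helper2113
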