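import Fermat.Prelude.Def_GroupCohomology_ContinuousUnramified
import Fermat.Agent.S55.helper5178_Sylow
import Fermat.Agent.S55.helper2113_HomCochain

/-!
# S55 / LS-L2 (backup): injectivity half of local duality, Shapiro-free

Frozen carriers (`continuousH2 r`, `levelCocycles₂`, `levelCoboundaries₂`), generic
`r : G →* Gal(ℚ̄/ℚ)`.

* `IsOpenSub r U` : the subgroup `U` contains a level subgroup `r⁻¹(F.fixingSubgroup)`;
* `mem_levelCoboundaries₂_of_res` : restriction to an open subgroup of index invertible in `k`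
  is injective on level `H²` (transfer on homogeneous cochains);
* `descent` : injectivity of `H²(G, X) → Hom(Hom_G(X, T), H²(G, T))` from the same statement on an
  open subgroup `H` on which the character is trivial and `X` is unipotent;
* `unipotent` : the unipotent case, from `LB1` and `LB2`;
* `l2Inj` : the assembled statement.
-/

set_option autoImplicit false

open CategoryTheory groupCohomology

namespace Fermat.Agent.S55.helper2113

/-- The absolute Galois group of `ℚ`. -/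
abbrev GalQ : Type := AlgebraicClosure ℚ ≃ₐ[ℚ] AlgebraicClosure ℚ

section OpenSub

variable {G : Type} [Group G] (r : G →* GalQ)

/-- `U` contains the preimage of the fixing subgroup of a number field. -/
def IsOpenSub (U : Subgroup G) : Prop :=
  ∃ F : IntermediateField ℚ (AlgebraicClosure ℚ), FiniteDimensional ℚ F ∧
    ∀ s : G, r s ∈ F.fixingSubgroup → s ∈ U

variable {r}

lemma IsOpenSub.mono {U V : Subgroup G} (h : IsOpenSub r U) (hUV : U ≤ V) : IsOpenSub r V := by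
  obtain ⟨F, hF, h⟩ := h
  exact ⟨F, hF, fun s hs => hUV (h s hs)⟩

lemma IsOpenSub.inf {U V : Subgroup G} (hU : IsOpenSub r U) (hV : IsOpenSub r V) :
    IsOpenSub r (U ⊓ V) := by
  obtain ⟨F, hF, h⟩ := hU
  obtain ⟨F', hF', h'⟩ := hV
  have := hF; have := hF'
  exact ⟨F ⊔ F', inferInstance, fun s hs =>
    ⟨h s (IntermediateField.fixingSubgroup_antitone le_sup_left hs),
      h' s (IntermediateField.fixingSubgroup_antitone le_sup_right hs)⟩⟩

lemma isOpenSub_top : IsOpenSub r (⊤ : Subgroup G) :=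
  ⟨⊥, inferInstance, fun _ _ => Subgroup.mem_top _⟩

lemma isOpenSub_comap (F : IntermediateField ℚ (AlgebraicClosure ℚ)) [FiniteDimensional ℚ F] :
    IsOpenSub r (F.fixingSubgroup.comap r) :=
  ⟨F, inferInstance, fun _ hs => hs⟩

/-- Every open subgroup contains a normal open subgroup of finite index. -/
lemma IsOpenSub.exists_normal {U : Subgroup G} (hU : IsOpenSub r U) :
    ∃ N : Subgroup G, N.Normal ∧ N.FiniteIndex ∧ IsOpenSub r N ∧ N ≤ U := by
  obtain ⟨F, hF, h⟩ := hU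
  have := hF
  have : IsAlgClosure ℚ (AlgebraicClosure ℚ) := ⟨inferInstance, AlgebraicClosure.isAlgebraic ℚ⟩
  set E := IntermediateField.normalClosure ℚ F (AlgebraicClosure ℚ) with hE
  have hEf : FiniteDimensional ℚ E := normalClosure.is_finiteDimensional ℚ F (AlgebraicClosure ℚ)
  have hEn : Normal ℚ E := normalClosure.normal ℚ F (AlgebraicClosure ℚ)
  let φ : G →* (E ≃ₐ[ℚ] E) := (AlgEquiv.restrictNormalHom E).comp r
  have : Finite (E ≃ₐ[ℚ] E) := inferInstance
  have hker : ∀ s, s ∈ φ.ker ↔ r s ∈ E.fixingSubgroup := by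
    intro s
    rw [MonoidHom.mem_ker, ← IntermediateField.restrictNormalHom_ker E, MonoidHom.mem_ker]
    rfl
  refine ⟨φ.ker, inferInstance, inferInstance, ⟨E, hEf, fun s hs => (hker s).2 hs⟩, fun s hs => ?_⟩
  exact h s (IntermediateField.fixingSubgroup_antitone (IntermediateField.le_normalClosure F)
    ((hker s).1 hs))

lemma IsOpenSub.finiteIndex {U : Subgroup G} (hU : IsOpenSub r U) : U.FiniteIndex := by
  obtain ⟨N, _, hNf, _, hNU⟩ := hU.exists_normal
  exact Subgroup.finiteIndex_of_le hNU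

lemma isLevelConstant₁_iff_open {X : Type*} (f : G → X) :
    IsLevelConstant₁ r f ↔ ∃ N : Subgroup G, IsOpenSub r N ∧ ∀ g, ∀ s ∈ N, f (g * s) = f g := by
  constructor
  · rintro ⟨F, hF, h⟩
    have := hF
    exact ⟨F.fixingSubgroup.comap r, isOpenSub_comap F, fun g s hs => h g s hs⟩
  · rintro ⟨N, ⟨F, hF, hN⟩, h⟩
    exact ⟨F, hF, fun g s hs => h g s (hN s hs)⟩

lemma isLevelConstant₂_iff_open {X : Type*} (f : G × G → X) :
    IsLevelConstant₂ r f ↔ ∃ N : Subgroup G, IsOpenSub r N ∧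
      ∀ g g', ∀ s ∈ N, ∀ s' ∈ N, f (g * s, g' * s') = f (g, g') := by
  constructor
  · rintro ⟨F, hF, h⟩
    have := hF
    exact ⟨F.fixingSubgroup.comap r, isOpenSub_comap F, fun g g' s hs s' hs' => h g g' s s' hs hs'⟩
  · rintro ⟨N, ⟨F, hF, hN⟩, h⟩
    exact ⟨F, hF, fun g g' s s' hs hs' => h g g' s (hN s hs) s' (hN s' hs')⟩

lemma isLevelConstant₁_sub_iff (H : Subgroup G) {X : Type*} (w : H → X) :
    IsLevelConstant₁ (r.comp H.subtype) w ↔ ∃ N : Subgroup G, IsOpenSub r N ∧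
      ∀ a n : H, (n : G) ∈ N → w (a * n) = w a := by
  constructor
  · rintro ⟨F, hF, h⟩
    have := hF
    exact ⟨F.fixingSubgroup.comap r, isOpenSub_comap F, fun a n hn => h a n hn⟩
  · rintro ⟨N, ⟨F, hF, hN⟩, h⟩
    exact ⟨F, hF, fun a n hn => h a n (hN _ hn)⟩

lemma isLevelConstant₂_sub_iff (H : Subgroup G) {X : Type*} (f : H × H → X) :
    IsLevelConstant₂ (r.comp H.subtype) f ↔ ∃ N : Subgroup G, IsOpenSub r N ∧
      ∀ a b n n' : H, (n : G) ∈ N → (n' : G) ∈ N → f (a * n, b * n') = f (a, b) := by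
  constructor
  · rintro ⟨F, hF, h⟩
    have := hF
    exact ⟨F.fixingSubgroup.comap r, isOpenSub_comap F, fun a b n n' hn hn' => h a b n n' hn hn'⟩
  · rintro ⟨N, ⟨F, hF, hN⟩, h⟩
    exact ⟨F, hF, fun a b n n' hn hn' => h a b n n' (hN _ hn) (hN _ hn')⟩

end OpenSub

section Smooth

variable {k : Type} [Field k] {G : Type} [Group G] (r : G →* GalQ)

/-- Uniform smoothness: an open subgroup acts trivially. -/
def IsUSmooth (X : Rep k G) : Prop :=
  ∃ N : Subgroup G, IsOpenSub r N ∧ ∀ n ∈ N, ∀ v : X, X.ρ n v = v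

/-- A finite-dimensional smooth representation is uniformly smooth. -/
lemma isUSmooth_of_finite (X : Rep k G) [Module.Finite k X]
    (hsm : ∀ m : X, ∃ F : IntermediateField ℚ (AlgebraicClosure ℚ), FiniteDimensional ℚ F ∧
      ∀ s : G, r s ∈ F.fixingSubgroup → X.ρ s m = m) : IsUSmooth r X := by
  classical
  let b := Module.finBasis k X
  choose F hFfin hF using hsm
  let F₀ : IntermediateField ℚ (AlgebraicClosure ℚ) := ⨆ i, F (b i)
  have hF₀fin : FiniteDimensional ℚ F₀ := by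
    have : ∀ i, FiniteDimensional ℚ (F (b i)) := fun i => hFfin (b i)
    exact IntermediateField.finiteDimensional_iSup_of_finite
  refine ⟨F₀.fixingSubgroup.comap r, isOpenSub_comap F₀, fun n hn v => ?_⟩
  have h1 : X.ρ n = LinearMap.id := by
    apply b.ext
    intro i
    exact hF (b i) n (IntermediateField.fixingSubgroup_antitone (le_iSup (fun i => F (b i)) i) hn)
  rw [h1]; rfl

variable {r}

lemma mem_cocycles₂_iff_isCoc (X : Rep k G) (f : G × G → X) : f ∈ cocycles₂ X ↔ IsCoc X.ρ f :=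
  mem_cocycles₂_iff f

lemma d₁₂_eq_dIn (X : Rep k G) (b : G → X) : (d₁₂ X).hom b = dIn X.ρ b :=
  funext fun p => d₁₂_hom_apply X b p

/-- The coboundary of a level 1-cochain of a uniformly smooth representation is level. -/
lemma isLevelConstant₂_dIn {X : Rep k G} (hX : IsUSmooth r X) {b : G → X}
    (hb : IsLevelConstant₁ r b) : IsLevelConstant₂ r (dIn X.ρ b) := by
  obtain ⟨N₁, hN₁, hN₁X⟩ := hX
  obtain ⟨N₂, hN₂, hN₂b⟩ := (isLevelConstant₁_iff_open b).1 hb
  obtain ⟨N, hNn, -, hNo, hNle⟩ := (hN₁.inf hN₂).exists_normal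
  refine (isLevelConstant₂_iff_open _).2 ⟨N, hNo, ?_⟩
  exact invIn₂_dIn X.ρ N (fun n hn v => hN₁X n (hNle hn).1 v) (fun g a ha => hN₂b g a (hNle ha).2)

/-- **Restriction is injective** on level `H²` for an open subgroup whose index is invertible
in `k` (transfer on homogeneous cochains, prism lemma). -/
theorem mem_levelCoboundaries₂_of_res (H : Subgroup G) (hH : IsOpenSub r H)
    (hidx : IsUnit ((H.index : ℕ) : k)) (X : Rep k G) (hX : IsUSmooth r X)
    {x : G × G → X} (hx : x ∈ levelCocycles₂ r X)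
    (w : H → X) (hwl : IsLevelConstant₁ (r.comp H.subtype) w)
    (hw : ∀ a b : H, x ((a : G), (b : G)) = X.ρ (a : G) (w b) - w (a * b) + w a) :
    x ∈ levelCoboundaries₂ r X := by
  classical
  obtain ⟨N₁, hN₁, hN₁X⟩ := hX
  obtain ⟨N₂, hN₂, hN₂x⟩ := (isLevelConstant₂_iff_open x).1 hx.2
  obtain ⟨N₃, hN₃, hN₃w⟩ := (isLevelConstant₁_sub_iff H w).1 hwl
  obtain ⟨N, hNn, -, hNo, hNle⟩ := (((hH.inf hN₁).inf hN₂).inf hN₃).exists_normal
  have hNH : N ≤ H := fun n hn => (hNle hn).1.1.1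
  have hNX : ∀ n ∈ N, ∀ v : X, X.ρ n v = v := fun n hn v => hN₁X n (hNle hn).1.1.2 v
  have hNx : InvIn₂ N x := fun g h a ha b hb => hN₂x g h a (hNle ha).1.2 b (hNle hb).1.2
  have hNw : ∀ a n : H, (n : G) ∈ N → w (a * n) = w a := fun a n hn => hN₃w a n (hNle hn).2
  have : H.FiniteIndex := hH.finiteIndex
  have : Finite (G ⧸ H) := Subgroup.finite_quotient_of_finiteIndex
  let _ : Fintype (G ⧸ H) := Fintype.ofFinite _
  let w' : G → X := fun g => if hg : g ∈ H then w ⟨g, hg⟩ else 0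
  have hw' : ∀ a ∈ H, ∀ b ∈ H,
      hom₂ X.ρ x 1 a (a * b) = X.ρ a (w' b) - w' (a * b) + w' a := by
    intro a ha b hb
    simp only [hom₂, w', dif_pos ha, dif_pos hb, dif_pos (H.mul_mem ha hb), inv_one, one_mul,
      inv_mul_cancel_left, map_one]
    exact hw ⟨a, ha⟩ ⟨b, hb⟩
  have hw'N : ∀ a ∈ H, ∀ n ∈ N, w' (a * n) = w' a := by
    intro a ha n hn
    simp only [w', dif_pos ha, dif_pos (H.mul_mem ha (hNH hn))]
    exact hNw ⟨a, ha⟩ ⟨n, hNH hn⟩ hn
  have hFc : IsHCoc (hom₂ X.ρ x) := isHCoc_hom₂ X.ρ ((mem_cocycles₂_iff x).1 hx.1)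
  have hFe : Eqv₂ X.ρ H (hom₂ X.ρ x) := eqv₂_hom₂ X.ρ x H
  have hFN : Inv₂ N (hom₂ X.ρ x) := inv₂_hom₂ X.ρ N hNX hNx
  have hFv := prism X.ρ H (retrOf H) (retrOf_mem H) hFc hFe w' hw'
  have hve := eqv₁_prismCochain X.ρ H (retrOf H) (fun h hh x => retrOf_mul_left H hh x) w' hFe
  have hvN := inv₁_prismCochain X.ρ H N hNX (retrOf H) (retrOf_mem H)
    (fun x n hn => retrOf_mul_right H N hNH x hn) w' hw'N hFN
  have key := card_smul_eq_dIn X.ρ H hve hFv
  obtain ⟨u, hu⟩ := hidx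
  refine (mem_levelCoboundaries₂_iff r X x).2
    ⟨(↑u⁻¹ : k) • deh₁ (tr₁ X.ρ H (prismCochain X.ρ (retrOf H) w' (hom₂ X.ρ x))), ?_, ?_⟩
  · refine (isLevelConstant₁_iff_open _).2 ⟨N, hNo, fun g s hs => ?_⟩
    simp only [Pi.smul_apply]
    rw [invIn₁_deh₁ (inv₁_tr₁ X.ρ H hvN) g s hs]
  · rw [d₁₂_eq_dIn, dIn_smul, ← key]
    have hcard : (Fintype.card (G ⧸ H) : k) = (u : k) := by
      rw [hu, Subgroup.index_eq_card, Nat.card_eq_fintype_card]
    rw [← Nat.cast_smul_eq_nsmul k, smul_smul, hcard, Units.inv_mul, one_smul]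

end Smooth

section Descent

variable {k : Type} [Field k] {G : Type} [Group G] {r : G →* GalQ}

/-- **(LB1)**, upper bound: the level `H²` of the trivial representation has an injective
functional (it is at most one-dimensional). -/
def LB1 (k : Type) [Field k] {H : Type} [Group H] (rH : H →* GalQ) : Prop :=
  ∃ inv : continuousH2 rH (Rep.trivial k H k) →ₗ[k] k, Function.Injective inv

lemma res_mem_levelCocycles₂ (H : Subgroup G) (X : Rep k G) {x : G × G → X}
    (hx : x ∈ levelCocycles₂ r X) :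
    (fun p : H × H => x ((p.1 : G), (p.2 : G))) ∈
      levelCocycles₂ (r.comp H.subtype) (Rep.res H.subtype X) :=
  ⟨(mem_cocycles₂_iff _).2 fun g h j => (mem_cocycles₂_iff x).1 hx.1 g h j,
    (IsLevelConstant₂.precomp (rG := r.comp H.subtype) H.subtype (fun _ => rfl) hx.2 :)⟩

lemma comp_res_mem_levelCocycles₂ (H : Subgroup G) (X : Rep k G) {x : G × G → X}
    (hx : x ∈ levelCocycles₂ r X) (ψ : X →ₗ[k] k) (hψ : ∀ (h : H) (v : X), ψ (X.ρ (h : G) v) = ψ v) :
    (fun p : H × H => ψ (x ((p.1 : G), (p.2 : G)))) ∈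
      levelCocycles₂ (r.comp H.subtype) (Rep.trivial k H k) := by
  refine ⟨(mem_cocycles₂_iff _).2 fun g h j => ?_,
    ((IsLevelConstant₂.precomp (rG := r.comp H.subtype) H.subtype (fun _ => rfl) hx.2).comp ψ :)⟩
  have h1 := congrArg ψ ((mem_cocycles₂_iff x).1 hx.1 g h j)
  rw [map_add, map_add, hψ] at h1
  exact h1

lemma isUSmooth_ofChar (χ : G →* kˣ) (hχ : ∃ N : Subgroup G, IsOpenSub r N ∧ ∀ n ∈ N, χ n = 1) :
    IsUSmooth r (ofChar χ) := by
  obtain ⟨N, hN, h⟩ := hχ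
  refine ⟨N, hN, fun n hn v => ?_⟩
  show (χ n : k) * v = v
  rw [h n hn, Units.val_one, one_mul]

/-- **Descent.** Let `H` be an open subgroup of `G` of index invertible in `k` on which `χ` is
trivial, with `H²(H, k)` at most one-dimensional, and assume `H²(G, k(χ)) ≠ 0`.  If the
injectivity statement holds for `Res_H X` (with the trivial character), it holds for `X`. -/
theorem descent (H : Subgroup G) (hH : IsOpenSub r H) (hidx : IsUnit ((H.index : ℕ) : k))
    (χ : G →* kˣ) (hχ : ∃ N : Subgroup G, IsOpenSub r N ∧ ∀ n ∈ N, χ n = 1)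
    (hχH : ∀ h ∈ H, χ h = 1) (hLB1 : LB1 k (r.comp H.subtype))
    {z₀ : G × G → ofChar χ} (hz₀ : z₀ ∈ levelCocycles₂ r (ofChar χ))
    (hz₀' : z₀ ∉ levelCoboundaries₂ r (ofChar χ))
    (X : Rep k G) (hX : IsUSmooth r X)
    (hU : ∀ y : H × H → X, y ∈ levelCocycles₂ (r.comp H.subtype) (Rep.res H.subtype X) →
      (∀ ψ : X →ₗ[k] k, (∀ (h : H) (v : X), ψ (X.ρ (h : G) v) = ψ v) →
        (fun p : H × H => ψ (y p)) ∈
          levelCoboundaries₂ (r.comp H.subtype) (Rep.trivial k H k)) →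
      y ∈ levelCoboundaries₂ (r.comp H.subtype) (Rep.res H.subtype X))
    {x : G × G → X} (hx : x ∈ levelCocycles₂ r X)
    (hxφ : ∀ φ : X →ₗ[k] k, (∀ g v, φ (X.ρ g v) = (χ g : k) * φ v) →
      (fun p : G × G => φ (x p)) ∈ levelCoboundaries₂ r (ofChar χ)) :
    x ∈ levelCoboundaries₂ r X := by
  classical
  have hy := res_mem_levelCocycles₂ (r := r) H X hx
  suffices hres : (fun p : H × H => x ((p.1 : G), (p.2 : G))) ∈
      levelCoboundaries₂ (r.comp H.subtype) (Rep.res H.subtype X) by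
    obtain ⟨w, hwl, hw⟩ := (mem_levelCoboundaries₂_iff _ _ _).1 hres
    refine mem_levelCoboundaries₂_of_res H hH hidx X hX hx w hwl fun a b => ?_
    have := congrFun hw (a, b)
    rw [d₁₂_hom_apply] at this
    exact this.symm
  refine hU _ hy fun ψ hψ => ?_
  have hfi : H.FiniteIndex := hH.finiteIndex
  have : Finite (G ⧸ H) := Subgroup.finite_quotient_of_finiteIndex
  let _ : Fintype (G ⧸ H) := Fintype.ofFinite _
  -- the target representation
  set σ : Representation k G k := (ofChar χ).ρ with hσdef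
  have hσ : ∀ g (a : k), σ g a = (χ g : k) * a := fun g a => rfl
  have hσH : ∀ h ∈ H, ∀ a : k, σ h a = a := by
    intro h hh a
    rw [hσ, hχH h hh, Units.val_one, one_mul]
  have hT : IsUSmooth r (ofChar χ) := isUSmooth_ofChar χ hχ
  -- Step 1: transfer of `ψ`
  have hφ : ∀ g v, trHom σ H X.ρ ψ (X.ρ g v) = (χ g : k) * trHom σ H X.ρ ψ v := fun g v =>
    trHom_equivariant σ H X.ρ (fun h hh v => by rw [hσH h hh]; exact hψ ⟨h, hh⟩ v) g v
  obtain ⟨u, hul, hu⟩ := (mem_levelCoboundaries₂_iff _ _ _).1 (hxφ (trHom σ H X.ρ ψ) hφ)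
  -- Step 2: the two classes on `H`
  obtain ⟨inv, hinv⟩ := hLB1
  have hξH := comp_res_mem_levelCocycles₂ (r := r) H X hx ψ hψ
  have hζH := comp_res_mem_levelCocycles₂ (r := r) H (ofChar χ) hz₀ (LinearMap.id : k →ₗ[k] k)
    (fun h v => hσH h h.2 v)
  set ξH : H × H → k := fun p => ψ (x ((p.1 : G), (p.2 : G))) with hξHdef
  set ζH : H × H → k := fun p => z₀ ((p.1 : G), (p.2 : G)) with hζHdef
  have hb : inv (continuousH2π _ _ ⟨ζH, hζH⟩) ≠ 0 := by
    intro h0
    have h1 : ζH ∈ levelCoboundaries₂ (r.comp H.subtype) (Rep.trivial k H k) :=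
      (continuousH2π_eq_zero_iff _ _ ⟨ζH, hζH⟩).1 (hinv (h0.trans (map_zero inv).symm))
    obtain ⟨w, hwl, hw⟩ := (mem_levelCoboundaries₂_iff _ _ _).1 h1
    refine hz₀' (mem_levelCoboundaries₂_of_res H hH hidx (ofChar χ) hT hz₀ w hwl fun a b => ?_)
    have := congrFun hw (a, b)
    rw [d₁₂_hom_apply] at this
    rw [show (ofChar χ).ρ (a : G) (w b) = w b from hσH a a.2 (w b)]
    exact this.symm
  set t : k := inv (continuousH2π _ _ ⟨ξH, hξH⟩) / inv (continuousH2π _ _ ⟨ζH, hζH⟩) with ht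
  have hmem : ξH - t • ζH ∈ levelCocycles₂ (r.comp H.subtype) (Rep.trivial k H k) :=
    Submodule.sub_mem _ hξH (Submodule.smul_mem _ t hζH)
  have hdiff : ξH - t • ζH ∈ levelCoboundaries₂ (r.comp H.subtype) (Rep.trivial k H k) := by
    apply (continuousH2π_eq_zero_iff _ _ ⟨_, hmem⟩).1
    apply hinv
    rw [map_zero]
    have e : (⟨ξH - t • ζH, hmem⟩ : levelCocycles₂ (r.comp H.subtype) (Rep.trivial k H k)) =
        ⟨ξH, hξH⟩ - t • ⟨ζH, hζH⟩ := rfl
    rw [e, map_sub, map_smul, map_sub, map_smul, ht, smul_eq_mul, div_mul_cancel₀ _ hb, sub_self]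
  by_cases ht0 : t = 0
  · rw [ht0, zero_smul, sub_zero] at hdiff
    exact hdiff
  exfalso
  obtain ⟨w, hwl, hw⟩ := (mem_levelCoboundaries₂_iff _ _ _).1 hdiff
  -- a common normal open subgroup
  obtain ⟨N₁, hN₁, hN₁X⟩ := hX
  obtain ⟨N₂, hN₂, hN₂x⟩ := (isLevelConstant₂_iff_open x).1 hx.2
  obtain ⟨N₃, hN₃, hN₃w⟩ := (isLevelConstant₁_sub_iff H w).1 hwl
  obtain ⟨N₄, hN₄, hN₄T⟩ := hT
  obtain ⟨N₅, hN₅, hN₅z⟩ := (isLevelConstant₂_iff_open z₀).1 hz₀.2
  obtain ⟨N₆, hN₆, hN₆u⟩ := (isLevelConstant₁_iff_open u).1 hul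
  obtain ⟨N, hNn, -, hNo, hNle⟩ :=
    ((((((hH.inf hN₁).inf hN₂).inf hN₃).inf hN₄).inf hN₅).inf hN₆).exists_normal
  have hNH : N ≤ H := fun n hn => (hNle hn).1.1.1.1.1.1
  have hNX : ∀ n ∈ N, ∀ v : X, X.ρ n v = v := fun n hn v => hN₁X n (hNle hn).1.1.1.1.1.2 v
  have hNx : InvIn₂ N x := fun g h a ha b hb =>
    hN₂x g h a (hNle ha).1.1.1.1.2 b (hNle hb).1.1.1.1.2
  have hNw : ∀ a n : H, (n : G) ∈ N → w (a * n) = w a := fun a n hn =>
    hN₃w a n (hNle hn).1.1.1.2
  have hNσ : ∀ n ∈ N, ∀ a : k, σ n a = a := fun n hn a => hN₄T n (hNle hn).1.1.2 a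
  have hNz : InvIn₂ N z₀ := fun g h a ha b hb => hN₅z g h a (hNle ha).1.2 b (hNle hb).1.2
  have hNu : InvIn₁ N u := fun g a ha => hN₆u g a (hNle ha).2
  -- the homogeneous cochain
  set Fx : G → G → G → k := fun a b c => ψ (hom₂ X.ρ x a b c) with hFx
  set Fz : G → G → G → k := hom₂ σ z₀ with hFz
  have hΞc : IsHCoc (Fx - t • Fz) :=
    isHCoc_sub (isHCoc_comp ψ (isHCoc_hom₂ X.ρ ((mem_cocycles₂_iff x).1 hx.1)))
      (isHCoc_smul t (isHCoc_hom₂ σ ((mem_cocycles₂_iff z₀).1 hz₀.1)))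
  have hΞe : Eqv₂ σ H (Fx - t • Fz) := by
    intro h hh a b c
    simp only [Pi.sub_apply, Pi.smul_apply, hFx, hFz]
    rw [eqv₂_hom₂ X.ρ x H h hh, eqv₂_hom₂ σ z₀ H h hh, hψ ⟨h, hh⟩, hσH h hh, hσH h hh]
  have hΞN : Inv₂ N (Fx - t • Fz) := by
    intro a b c n₁ h₁ n₂ h₂ n₃ h₃
    simp only [Pi.sub_apply, Pi.smul_apply, hFx, hFz]
    rw [inv₂_hom₂ X.ρ N hNX hNx a b c n₁ h₁ n₂ h₂ n₃ h₃,
      inv₂_hom₂ σ N hNσ hNz a b c n₁ h₁ n₂ h₂ n₃ h₃]
  let w' : G → k := fun g => if hg : g ∈ H then w ⟨g, hg⟩ else 0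
  have hw' : ∀ a ∈ H, ∀ b ∈ H,
      (Fx - t • Fz) 1 a (a * b) = σ a (w' b) - w' (a * b) + w' a := by
    intro a ha b hb
    have h1 := congrFun hw (⟨a, ha⟩, ⟨b, hb⟩)
    rw [d₁₂_hom_apply] at h1
    simp only [Pi.sub_apply, Pi.smul_apply, hFx, hFz, hom₂, w', dif_pos ha, dif_pos hb,
      dif_pos (H.mul_mem ha hb), inv_one, one_mul, inv_mul_cancel_left, map_one, hσH a ha]
    exact h1.symm
  have hw'N : ∀ a ∈ H, ∀ n ∈ N, w' (a * n) = w' a := by
    intro a ha n hn
    simp only [w', dif_pos ha, dif_pos (H.mul_mem ha (hNH hn))]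
    exact hNw ⟨a, ha⟩ ⟨n, hNH hn⟩ hn
  have hΞv := prism σ H (retrOf H) (retrOf_mem H) hΞc hΞe w' hw'
  have hve := eqv₁_prismCochain σ H (retrOf H) (fun h hh x => retrOf_mul_left H hh x) w' hΞe
  have hvN := inv₁_prismCochain σ H N hNσ (retrOf H) (retrOf_mem H)
    (fun x n hn => retrOf_mul_right H N hNH x hn) w' hw'N hΞN
  set v := prismCochain σ (retrOf H) w' (Fx - t • Fz) with hv
  -- transfer
  have h1 : tr₂ σ H (Fx - t • Fz) = dH (tr₁ σ H v) := by rw [hΞv, tr₂_dH]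
  have h2 : tr₂ σ H Fx = dH (hom₁ σ u) := by
    rw [hFx, tr₂_comp σ H X.ρ ψ (eqv₂_hom₂ X.ρ x ⊤), ← hom₂_dIn, ← d₁₂_eq_dIn (ofChar χ) u, hu]
    funext a b c
    simp only [hom₂]
    exact hφ a _
  have h3 : tr₂ σ H Fz = Fintype.card (G ⧸ H) • Fz := tr₂_of_eqv σ H (eqv₂_hom₂ σ z₀ ⊤)
  have h4 : (t * (Fintype.card (G ⧸ H) : k)) • hom₂ σ z₀ = dH (hom₁ σ u - tr₁ σ H v) := by
    rw [dH_sub, ← h1, ← h2, tr₂_sub, tr₂_smul, h3, ← hFz, mul_smul, Nat.cast_smul_eq_nsmul]
    abel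
  have h5 := smul_eq_dIn_of_hom₂_eq_dH σ (eqv₁_sub σ (eqv₁_hom₁ σ u ⊤) (eqv₁_tr₁ σ H hve)) _ h4
  have hcard : (Fintype.card (G ⧸ H) : k) ≠ 0 := by
    have : (Fintype.card (G ⧸ H) : k) = ((H.index : ℕ) : k) := by
      rw [Subgroup.index_eq_card, Nat.card_eq_fintype_card]
    rw [this]
    exact hidx.ne_zero
  have hc : t * (Fintype.card (G ⧸ H) : k) ≠ 0 := mul_ne_zero ht0 hcard
  apply hz₀'
  refine (mem_levelCoboundaries₂_iff r (ofChar χ) z₀).2
    ⟨(t * (Fintype.card (G ⧸ H) : k))⁻¹ • deh₁ (hom₁ σ u - tr₁ σ H v), ?_, ?_⟩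
  · refine (isLevelConstant₁_iff_open _).2 ⟨N, hNo, fun g s hs => ?_⟩
    simp only [Pi.smul_apply, deh₁, Pi.sub_apply]
    have e1 := inv₁_hom₁ σ N hNσ hNu 1 g 1 N.one_mem s hs
    have e2 := inv₁_tr₁ σ H hvN 1 g 1 N.one_mem s hs
    rw [mul_one] at e1 e2
    rw [e1, e2]
  · rw [d₁₂_eq_dIn, dIn_smul, ← h5, smul_smul, inv_mul_cancel₀ hc, one_smul]

end Descent

section LinearAlgebra

/-- Solving `μ v + β (A v) c = 0` for `c`: `V` finite-dimensional, `μ` vanishing on `ker A`,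
`β` left-nondegenerate. -/
lemma exists_pairing_solution {k : Type*} [Field k] {V E : Type*} [AddCommGroup V] [Module k V]
    [FiniteDimensional k V] [AddCommGroup E] [Module k E] (A : V →ₗ[k] E) (μ : V →ₗ[k] k)
    (β : E →ₗ[k] E →ₗ[k] k) (hker : ∀ v, A v = 0 → μ v = 0)
    (hβ : ∀ a, (∀ c, β a c = 0) → a = 0) : ∃ c : E, ∀ v, μ v + β (A v) c = 0 := by
  let Φ : E →ₗ[k] Module.Dual k V := (LinearMap.lcomp k k A).comp β.flip
  have hΦ : ∀ c v, Φ c v = β (A v) c := fun c v => rfl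
  have hmem : -μ ∈ LinearMap.range Φ := by
    rw [← Subspace.dualCoannihilator_dualAnnihilator_eq (W := LinearMap.range Φ),
      Submodule.mem_dualAnnihilator]
    intro v hv
    rw [Submodule.mem_dualCoannihilator] at hv
    have h1 : A v = 0 := hβ (A v) fun c => by
      rw [← hΦ]
      exact hv (Φ c) ⟨c, rfl⟩
    rw [LinearMap.neg_apply, hker v h1, neg_zero]
  obtain ⟨c, hc⟩ := hmem
  refine ⟨c, fun v => ?_⟩
  rw [← hΦ, hc, LinearMap.neg_apply, add_neg_cancel]

end LinearAlgebra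

section Characters

variable {k : Type} [Field k] {H : Type} [Group H] (rH : H →* GalQ)

lemma isLevelConstant₂_of_two {X Y Z : Type*} {a : H → X} {b : H → Y}
    (ha : IsLevelConstant₁ rH a) (hb : IsLevelConstant₁ rH b) (m : X → Y → Z) :
    IsLevelConstant₂ rH (fun x : H × H => m (a x.1) (b x.2)) := by
  obtain ⟨F, hF, h⟩ := ha
  obtain ⟨F', hF', h'⟩ := hb
  have := hF; have := hF'
  refine ⟨F ⊔ F', inferInstance, fun g g' s s' hs hs' => ?_⟩
  show m (a (g * s)) (b (g' * s')) = m (a g) (b g')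
  rw [h g s (IntermediateField.fixingSubgroup_antitone le_sup_left hs),
    h' g' s' (IntermediateField.fixingSubgroup_antitone le_sup_right hs')]

/-- Invariant functionals of a representation. -/
def invFunctionals (W : Rep k H) : Submodule k (Module.Dual k W) where
  carrier := {φ | ∀ g v, φ (W.ρ g v) = φ v}
  add_mem' := fun ha hb g v => by
    rw [LinearMap.add_apply, LinearMap.add_apply, ha g v, hb g v]
  zero_mem' := fun g v => by simp
  smul_mem' := fun c a ha g v => by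
    rw [LinearMap.smul_apply, LinearMap.smul_apply, ha g v]

variable (k) in
/-- Level-constant additive characters. -/
def levelChars : Submodule k (H → k) where
  carrier := {a | (∀ g h, a (g * h) = a g + a h) ∧ IsLevelConstant₁ rH a}
  add_mem' := fun ha hb => ⟨fun g h => by
    simp only [Pi.add_apply, ha.1 g h, hb.1 g h]; ring, ha.2.add hb.2⟩
  zero_mem' := ⟨fun g h => by simp, isLevelConstant₁_const rH 0⟩
  smul_mem' := fun c a ha => ⟨fun g h => by
    simp only [Pi.smul_apply, ha.1 g h, smul_eq_mul]; ring, ha.2.comp (c • ·)⟩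

/-- The cup product cochain of two characters. -/
def cupChar (a b : H → k) : H × H → k := fun x => a x.1 * b x.2

lemma cupChar_mem_levelCocycles₂ {a b : H → k} (ha : a ∈ levelChars k rH)
    (hb : b ∈ levelChars k rH) : cupChar a b ∈ levelCocycles₂ rH (Rep.trivial k H k) := by
  refine ⟨(mem_cocycles₂_iff _).2 fun g h j => ?_, isLevelConstant₂_of_two rH ha.2 hb.2 _⟩
  show a (g * h) * b j + a g * b h = a h * b j + a g * b (h * j)
  rw [ha.1, hb.1]; ring

/-- The cup pairing of characters, with values in `k` through `inv`. -/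
noncomputable def cupPairing (inv : continuousH2 rH (Rep.trivial k H k) →ₗ[k] k) :
    levelChars k rH →ₗ[k] levelChars k rH →ₗ[k] k :=
  LinearMap.mk₂ k
    (fun a b => inv (continuousH2π rH _ ⟨cupChar a.1 b.1, cupChar_mem_levelCocycles₂ rH a.2 b.2⟩))
    (fun a a' b => by
      rw [← map_add, ← map_add]
      congr 2
      exact Subtype.ext (funext fun x => add_mul _ _ _))
    (fun c a b => by
      rw [← map_smul, ← map_smul]
      congr 2
      exact Subtype.ext (funext fun x => mul_assoc _ _ _))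
    (fun a b b' => by
      rw [← map_add, ← map_add]
      congr 2
      exact Subtype.ext (funext fun x => mul_add _ _ _))
    (fun c a b => by
      rw [← map_smul, ← map_smul]
      congr 2
      exact Subtype.ext (funext fun x => mul_left_comm _ _ _))

lemma cupPairing_apply (inv : continuousH2 rH (Rep.trivial k H k) →ₗ[k] k)
    (a b : levelChars k rH) : cupPairing rH inv a b =
      inv (continuousH2π rH _ ⟨cupChar a.1 b.1, cupChar_mem_levelCocycles₂ rH a.2 b.2⟩) := rfl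

lemma comp_mem_levelCocycles₂_trivial {W : Rep k H} {f : H × H → W}
    (hf : f ∈ levelCocycles₂ rH W) {φ : Module.Dual k W} (hφ : φ ∈ invFunctionals W) :
    (fun x : H × H => φ (f x)) ∈ levelCocycles₂ rH (Rep.trivial k H k) := by
  refine ⟨(mem_cocycles₂_iff _).2 fun g h j => ?_, (hf.2.comp φ :)⟩
  have h1 := congrArg φ ((mem_cocycles₂_iff f).1 hf.1 g h j)
  rw [map_add, map_add, hφ] at h1
  exact h1

/-- `φ ↦ inv [φ ∘ f]` on invariant functionals. -/
noncomputable def pushFunctional (inv : continuousH2 rH (Rep.trivial k H k) →ₗ[k] k)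
    {W : Rep k H} {f : H × H → W} (hf : f ∈ levelCocycles₂ rH W) :
    invFunctionals W →ₗ[k] k :=
  inv ∘ₗ continuousH2π rH (Rep.trivial k H k) ∘ₗ
    ({ toFun := fun φ => ⟨fun x => φ.1 (f x), comp_mem_levelCocycles₂_trivial rH hf φ.2⟩
       map_add' := fun _ _ => rfl
       map_smul' := fun _ _ => rfl } :
      invFunctionals W →ₗ[k] levelCocycles₂ rH (Rep.trivial k H k))

lemma pushFunctional_apply (inv : continuousH2 rH (Rep.trivial k H k) →ₗ[k] k)
    {W : Rep k H} {f : H × H → W} (hf : f ∈ levelCocycles₂ rH W) (φ : invFunctionals W) :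
    pushFunctional rH inv hf φ = inv (continuousH2π rH _
      ⟨fun x => φ.1 (f x), comp_mem_levelCocycles₂_trivial rH hf φ.2⟩) := rfl

/-- `φ ↦ φ ∘ ε` for a level 1-cocycle `ε`. -/
def charOfCocycle {W : Rep k H} {ε : H → W} (hε : ∀ g h, ε (g * h) = W.ρ g (ε h) + ε g)
    (hεl : IsLevelConstant₁ rH ε) : invFunctionals W →ₗ[k] levelChars k rH where
  toFun φ := ⟨fun g => φ.1 (ε g), fun g h => by
    show φ.1 (ε (g * h)) = φ.1 (ε g) + φ.1 (ε h)
    rw [hε, map_add, φ.2, add_comm], (hεl.comp φ.1 :)⟩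
  map_add' _ _ := rfl
  map_smul' _ _ := rfl

lemma charOfCocycle_apply {W : Rep k H} {ε : H → W} (hε : ∀ g h, ε (g * h) = W.ρ g (ε h) + ε g)
    (hεl : IsLevelConstant₁ rH ε) (φ : invFunctionals W) (g : H) :
    (charOfCocycle rH hε hεl φ).1 g = φ.1 (ε g) := rfl

end Characters

section Unipotent

variable {k : Type} [Field k] {H : Type} [Group H] (rH : H →* GalQ)

/-- **(LB2)**: left nondegeneracy of the cup product of level characters. -/
def LB2 (k : Type) [Field k] {H : Type} [Group H] (rH : H →* GalQ) : Prop :=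
  ∀ a : H → k, (∀ g h, a (g * h) = a g + a h) → IsLevelConstant₁ rH a → a ≠ 0 →
    ∃ b : H → k, (∀ g h, b (g * h) = b g + b h) ∧ IsLevelConstant₁ rH b ∧
      (fun x : H × H => a x.1 * b x.2) ∉ levelCoboundaries₂ rH (Rep.trivial k H k)

/-- Cochain-level injectivity for the trivial character: a level 2-cocycle of `W` all of whose
push-forwards along invariant functionals are level coboundaries is a level coboundary. -/
def CInjTriv (W : Rep k H) : Prop :=
  ∀ f : H × H → W, f ∈ levelCocycles₂ rH W →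
    (∀ ψ : W →ₗ[k] k, (∀ g v, ψ (W.ρ g v) = ψ v) →
      (fun x : H × H => ψ (f x)) ∈ levelCoboundaries₂ rH (Rep.trivial k H k)) →
    f ∈ levelCoboundaries₂ rH W

/-- **Unipotent step**: injectivity passes from `W'` to an extension `0 → W' → W → k → 0`. -/
theorem cInjTriv_step (hLB1 : LB1 k rH) (hLB2 : LB2 k rH) (W W' : Rep k H)
    (j : W' ⟶ W) (q : W ⟶ Rep.trivial k H k) [Module.Finite k W']
    (hWs : IsUSmooth rH W)
    (hj : Function.Injective j.hom) (hq : Function.Surjective q.hom)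
    (hex : Function.Exact j.hom q.hom) (hW' : CInjTriv rH W') : CInjTriv rH W := by
  classical
  intro f hf hfψ
  obtain ⟨inv, hinv⟩ := hLB1
  have hjc : ∀ g (a : W'), j.hom (W'.ρ g a) = W.ρ g (j.hom a) := fun g a =>
    Rep.hom_comm_apply j g a
  have hqc : ∀ g (a : W), q.hom (W.ρ g a) = q.hom a := fun g a => Rep.hom_comm_apply q g a
  have hqj : ∀ a : W', q.hom (j.hom a) = 0 := fun a => (hex _).2 ⟨a, rfl⟩
  obtain ⟨e, he⟩ := hq (1 : k)
  -- (a) a primitive of `q ∘ f`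
  obtain ⟨c, hcl, hc⟩ := (mem_levelCoboundaries₂_iff _ _ _).1 (hfψ q.hom.toLinearMap hqc)
  have hc' : ∀ g h : H, c h - c (g * h) + c g = q.hom (f (g, h)) := fun g h => by
    have := congrFun hc (g, h)
    rw [d₁₂_hom_apply] at this
    exact this
  set b₀ : H → W := fun g => c g • e with hb₀
  have hb₀l : IsLevelConstant₁ rH b₀ := (hcl.comp (· • e) :)
  set f₁ : H × H → W := f - dIn W.ρ b₀ with hf₁
  have hf₁coc : f₁ ∈ cocycles₂ W :=
    Submodule.sub_mem _ hf.1 (by rw [← d₁₂_eq_dIn]; exact d₁₂_apply_mem_cocycles₂ b₀)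
  have hf₁lev : IsLevelConstant₂ rH f₁ :=
    Submodule.sub_mem (levelCochains₂ rH W) hf.2 (isLevelConstant₂_dIn hWs hb₀l)
  have hqf₁ : ∀ x, q.hom (f₁ x) = 0 := by
    rintro ⟨g, h⟩
    simp only [hf₁, Pi.sub_apply, dIn, hb₀, map_sub, map_add, map_smul, hqc, he]
    rw [← hc' g h]
    simp
  have hpre : ∀ x, ∃ a : W', j.hom a = f₁ x := fun x => (hex (f₁ x)).1 (hqf₁ x)
  choose f' hf' using hpre
  have hf'mem : f' ∈ levelCocycles₂ rH W' := by
    refine ⟨(mem_cocycles₂_iff _).2 fun g h l => hj ?_, ?_⟩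
    · rw [map_add, map_add, hjc, hf', hf', hf', hf']
      exact (mem_cocycles₂_iff f₁).1 hf₁coc g h l
    · obtain ⟨F, hF, h⟩ := hf₁lev
      exact ⟨F, hF, fun g g' s s' hs hs' => hj (by rw [hf', hf', h g g' s s' hs hs'])⟩
  -- the cocycle `ε` of the extension
  have hpre2 : ∀ g, ∃ a : W', j.hom a = W.ρ g e - e := fun g =>
    (hex _).1 (by rw [map_sub, hqc, sub_self])
  choose ε hε using hpre2
  have hεcoc : ∀ g h, ε (g * h) = W'.ρ g (ε h) + ε g := by
    intro g h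
    apply hj
    rw [map_add, hjc, hε, hε, hε, map_sub, rho_mul_apply]
    abel
  have hεlev : IsLevelConstant₁ rH ε := by
    obtain ⟨N, hN, hNW⟩ := hWs
    refine (isLevelConstant₁_iff_open _).2 ⟨N, hN, fun g s hs => hj ?_⟩
    rw [hε, hε, rho_mul_apply, hNW s hs]
  -- linear algebra
  have hker : ∀ φ : invFunctionals W', charOfCocycle rH hεcoc hεlev φ = 0 →
      pushFunctional rH inv hf'mem φ = 0 := by
    intro φ hφ0
    have hφε : ∀ g, φ.1 (ε g) = 0 := fun g => congrFun (congrArg Subtype.val hφ0) g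
    obtain ⟨ρ₀, hρ₀⟩ := j.hom.toLinearMap.exists_leftInverse_of_injective
      (LinearMap.ker_eq_bot.2 hj)
    have hρ₀' : ∀ a, ρ₀ (j.hom a) = a := fun a => LinearMap.congr_fun hρ₀ a
    let Φ : W →ₗ[k] k := φ.1 ∘ₗ ρ₀ ∘ₗ
      (LinearMap.id - (LinearMap.toSpanSingleton k W e) ∘ₗ q.hom.toLinearMap)
    have hΦ : ∀ w, Φ w = φ.1 (ρ₀ (w - q.hom w • e)) := fun w => rfl
    have hΦj : ∀ a, Φ (j.hom a) = φ.1 a := fun a => by
      rw [hΦ, hqj, zero_smul, sub_zero, hρ₀']
    have hΦe : Φ e = 0 := by rw [hΦ, he, one_smul, sub_self, map_zero, map_zero]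
    have hΦinv : ∀ g w, Φ (W.ρ g w) = Φ w := by
      intro g w
      obtain ⟨a, ha⟩ := (hex (w - q.hom w • e)).1
        (by rw [map_sub, map_smul, he, smul_eq_mul, mul_one, sub_self])
      have h1 : W.ρ g w - q.hom (W.ρ g w) • e = j.hom (W'.ρ g a + q.hom w • ε g) := by
        rw [map_add, map_smul, hjc, hε, ha, hqc, map_sub, map_smul]
        simp only [smul_sub]
        abel
      rw [hΦ, h1, hρ₀', hΦ, ← ha, hρ₀', map_add, map_smul, φ.2, hφε, smul_zero, add_zero]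
    have h2 := hfψ Φ hΦinv
    have h3 : (fun x : H × H => Φ (f x)) = fun x => φ.1 (f' x) := by
      funext ⟨g, h⟩
      have : f (g, h) = j.hom (f' (g, h)) + dIn W.ρ b₀ (g, h) := by
        rw [hf', hf₁]
        simp
      rw [this, map_add, hΦj]
      simp only [dIn, hb₀, map_add, map_sub, map_smul, hΦinv, hΦe]
      simp
    rw [pushFunctional_apply]
    rw [h3] at h2
    rw [(continuousH2π_eq_zero_iff _ _ _).2 h2, map_zero]
  have hβ : ∀ a : levelChars k rH, (∀ b, cupPairing rH inv a b = 0) → a = 0 := by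
    intro a ha
    by_contra hne
    have hne' : a.1 ≠ 0 := fun h => hne (Subtype.ext h)
    obtain ⟨b, hb1, hb2, hb3⟩ := hLB2 a.1 a.2.1 a.2.2 hne'
    apply hb3
    have := ha ⟨b, hb1, hb2⟩
    rw [cupPairing_apply] at this
    exact (continuousH2π_eq_zero_iff _ _ _).1 (hinv (this.trans (map_zero inv).symm))
  obtain ⟨χ, hχ⟩ := exists_pairing_solution (k := k) (V := invFunctionals W')
    (E := levelChars k rH) (charOfCocycle rH hεcoc hεlev)
    (pushFunctional rH inv hf'mem) (cupPairing rH inv) hker hβ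
  -- the correction cocycle
  set δ : H × H → W' := fun x => χ.1 x.2 • ε x.1 with hδ
  have hjδ : ∀ x, j.hom (δ x) = dIn W.ρ (fun g => χ.1 g • e) x := by
    rintro ⟨g, h⟩
    simp only [hδ, dIn, map_smul, hε, χ.2.1 g h]
    simp only [smul_sub, add_smul]
    abel
  have hδmem : δ ∈ levelCocycles₂ rH W' := by
    refine ⟨(mem_cocycles₂_iff _).2 fun g h l => hj ?_,
      isLevelConstant₂_of_two rH hεlev χ.2.2 (fun a b => b • a)⟩
    rw [map_add, map_add, hjc, hjδ, hjδ, hjδ, hjδ]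
    have := d₁₂_apply_mem_cocycles₂ (A := W) (fun g => χ.1 g • e)
    rw [d₁₂_eq_dIn] at this
    exact (mem_cocycles₂_iff _).1 this g h l
  have hsum : f' + δ ∈ levelCocycles₂ rH W' := Submodule.add_mem _ hf'mem hδmem
  obtain ⟨b', hb'l, hb'⟩ := (mem_levelCoboundaries₂_iff _ _ _).1
    (hW' (f' + δ) hsum (fun ψ hψ => by
      have h1 := hχ ⟨ψ, hψ⟩
      rw [pushFunctional_apply, cupPairing_apply, ← map_add, ← map_add] at h1
      have h2 := (continuousH2π_eq_zero_iff _ _ _).1 (hinv (h1.trans (map_zero inv).symm))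
      convert h2 using 1
      funext x
      simp [hδ, cupChar, charOfCocycle_apply, mul_comm]))
  -- conclusion
  refine (mem_levelCoboundaries₂_iff _ _ _).2
    ⟨(fun g => j.hom (b' g)) - (fun g => χ.1 g • e) + b₀, ?_, ?_⟩
  · exact Submodule.add_mem (levelCochains₁ rH W)
      (Submodule.sub_mem (levelCochains₁ rH W) (hb'l.comp j.hom :) (χ.2.2.comp (· • e) :)) hb₀l
  · rw [d₁₂_eq_dIn, dIn_add, dIn_sub]
    funext x
    have h1 : dIn W.ρ (fun g => j.hom (b' g)) x = j.hom (f' x + δ x) := by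
      have := congrFun hb' x
      rw [d₁₂_hom_apply] at this
      rw [← Pi.add_apply, ← this]
      simp only [dIn, map_add, map_sub, hjc]
    simp only [Pi.add_apply, Pi.sub_apply, h1, map_add, hf', hjδ, hf₁]
    abel

end Unipotent

section Assembly

variable {p : ℕ} [Fact p.Prime]

/-- **Unipotent injectivity**: for a finite uniformly smooth `𝔽_p`-representation `W` of `H` on
which every element acts with `p`-power order, (LB1) and (LB2) for `H` give injectivity. -/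
theorem cInjTriv_of_unipotent {H : Type} [Group H] (rH : H →* GalQ)
    (hLB1 : LB1 (ZMod p) rH) (hLB2 : LB2 (ZMod p) rH) (W : Rep.{0} (ZMod p) H)
    [Module.Finite (ZMod p) W] (hW : helper5178.IsPPower p W) (hWs : IsUSmooth rH W) :
    CInjTriv rH W := by
  obtain ⟨N, hN, hNW⟩ := hWs
  refine helper5178.unipotent_induction' (p := p) (N : Set H) (fun W => CInjTriv rH W) ?_ ?_
    W hW (fun t ht => LinearMap.ext (hNW t ht))
  · intro W hsub f _ _
    refine (mem_levelCoboundaries₂_iff _ _ _).2 ⟨0, isLevelConstant₁_const rH 0, ?_⟩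
    funext x
    exact Subsingleton.elim _ _
  · intro W W' j q _ hfW' _ _ hTW _ hj hq hex hQ
    exact cInjTriv_step rH hLB1 hLB2 W W' j q
      ⟨N, hN, fun n hn v => by rw [hTW n hn]; rfl⟩ hj hq hex hQ

variable {G : Type} [Group G] (r : G →* GalQ)

/-- **(L2), injective half, cochain form.**  Let `χ` be a smooth character of `G` and assume
(LB1), (LB2) for every open subgroup on which `χ` is trivial, and `H²(G, 𝔽_p(χ)) ≠ 0`.  Then a
level 2-cocycle of a finite smooth `𝔽_p[G]`-module `X` whose push-forwards along all equivariant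
maps `X → 𝔽_p(χ)` are level coboundaries is a level coboundary. -/
theorem l2Inj_cochain (χ : G →* (ZMod p)ˣ)
    (hχ : ∃ N : Subgroup G, IsOpenSub r N ∧ ∀ n ∈ N, χ n = 1)
    (h1 : ∀ U : Subgroup G, IsOpenSub r U → (∀ u ∈ U, χ u = 1) →
      LB1 (ZMod p) (r.comp U.subtype))
    (h2 : ∀ U : Subgroup G, IsOpenSub r U → (∀ u ∈ U, χ u = 1) →
      LB2 (ZMod p) (r.comp U.subtype))
    {z₀ : G × G → ofChar χ} (hz₀ : z₀ ∈ levelCocycles₂ r (ofChar χ))
    (hz₀' : z₀ ∉ levelCoboundaries₂ r (ofChar χ))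
    (X : Rep.{0} (ZMod p) G) [Module.Finite (ZMod p) X] (hX : IsUSmooth r X)
    {x : G × G → X} (hx : x ∈ levelCocycles₂ r X)
    (hxφ : ∀ φ : X →ₗ[ZMod p] ZMod p, (∀ g v, φ (X.ρ g v) = (χ g : ZMod p) * φ v) →
      (fun y : G × G => φ (x y)) ∈ levelCoboundaries₂ r (ofChar χ)) :
    x ∈ levelCoboundaries₂ r X := by
  obtain ⟨N₁, hN₁, hN₁X⟩ := hX
  obtain ⟨N₂, hN₂, hN₂χ⟩ := hχ
  obtain ⟨N, hNn, hNfi, hNo, hNle⟩ := (hN₁.inf hN₂).exists_normal
  obtain ⟨H, hNH, hHp, hidx⟩ := helper5178.exists_sylow_preimage (p := p) N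
  have hH : IsOpenSub r H := hNo.mono hNH
  have hχH : ∀ h ∈ H, χ h = 1 := by
    intro h hh
    obtain ⟨n, hn⟩ := hHp h hh
    have e1 : χ h ^ p ^ n = 1 := by rw [← map_pow]; exact hN₂χ _ (hNle hn).2
    apply Units.ext
    have e2 : ((χ h : ZMod p)) ^ p ^ n = 1 := by
      rw [← Units.val_pow_eq_pow_val, e1, Units.val_one]
    rw [ZMod.pow_card_pow] at e2
    rw [e2, Units.val_one]
  have hunit : IsUnit ((H.index : ℕ) : ZMod p) := by
    rw [isUnit_iff_ne_zero, Ne, ZMod.natCast_eq_zero_iff]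
    exact hidx
  have hXs : IsUSmooth r X := ⟨N₁, hN₁, hN₁X⟩
  have hfin : Module.Finite (ZMod p) (Rep.res H.subtype X) :=
    inferInstanceAs (Module.Finite (ZMod p) X)
  have hPP : helper5178.IsPPower p (Rep.res H.subtype X) := by
    intro h
    obtain ⟨n, hn⟩ := hHp h h.2
    refine ⟨n, LinearMap.ext fun v => ?_⟩
    exact hN₁X _ (hNle hn).1 v
  have hresS : IsUSmooth (r.comp H.subtype) (Rep.res H.subtype X) := by
    obtain ⟨F, hF, hFN⟩ := hN₁
    exact ⟨N₁.subgroupOf H, ⟨F, hF, fun s hs => hFN _ hs⟩, fun n hn v => hN₁X _ hn v⟩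
  have hC := cInjTriv_of_unipotent (r.comp H.subtype) (h1 H hH hχH) (h2 H hH hχH)
    (Rep.res H.subtype X) hPP hresS
  exact descent H hH hunit χ ⟨N₂, hN₂, hN₂χ⟩ hχH (h1 H hH hχH) hz₀ hz₀' X hXs
    (fun y hy hψ => hC y hy fun ψ hψ' => hψ ψ hψ') hx hxφ

/-- **(L2), injective half** on the frozen carrier: for a finite-dimensional smooth
`𝔽_p[G]`-module `X`, a class `z ∈ H²(G, X)` killed by all equivariant maps `X → 𝔽_p(χ)`
vanishes. -/
theorem l2Inj (χ : G →* (ZMod p)ˣ)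
    (hχ : ∃ F : IntermediateField ℚ (AlgebraicClosure ℚ), FiniteDimensional ℚ F ∧
      ∀ s : G, r s ∈ F.fixingSubgroup → χ s = 1)
    (h1 : ∀ U : Subgroup G, IsOpenSub r U → (∀ u ∈ U, χ u = 1) →
      LB1 (ZMod p) (r.comp U.subtype))
    (h2 : ∀ U : Subgroup G, IsOpenSub r U → (∀ u ∈ U, χ u = 1) →
      LB2 (ZMod p) (r.comp U.subtype))
    (hnz : Nontrivial (continuousH2 r (ofChar χ)))
    (X : Rep (ZMod p) G) [Module.Finite (ZMod p) X]
    (hsm : ∀ m : X, ∃ F : IntermediateField ℚ (AlgebraicClosure ℚ), FiniteDimensional ℚ F ∧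
      ∀ s : G, r s ∈ F.fixingSubgroup → X.ρ s m = m)
    (z : continuousH2 r X) (hz : ∀ φ : X ⟶ ofChar χ, continuousH2MapHom r φ z = 0) : z = 0 := by
  obtain ⟨x, rfl⟩ := Submodule.mkQ_surjective _ z
  obtain ⟨y₀, hy₀⟩ := exists_ne (0 : continuousH2 r (ofChar χ))
  obtain ⟨z₀, rfl⟩ := Submodule.mkQ_surjective _ y₀
  have hz₀' : (z₀ : G × G → ofChar χ) ∉ levelCoboundaries₂ r (ofChar χ) := fun h =>
    hy₀ ((continuousH2π_eq_zero_iff r _ z₀).2 h)
  have hχ' : ∃ N : Subgroup G, IsOpenSub r N ∧ ∀ n ∈ N, χ n = 1 := by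
    obtain ⟨F, hF, h⟩ := hχ
    have := hF
    exact ⟨F.fixingSubgroup.comap r, isOpenSub_comap F, fun n hn => h n hn⟩
  refine (continuousH2π_eq_zero_iff r X x).2
    (l2Inj_cochain r χ hχ' h1 h2 z₀.2 hz₀' X (isUSmooth_of_finite r X hsm) x.2 fun φ hφ => ?_)
  have h := hz (Rep.ofHom ⟨φ, fun g => LinearMap.ext fun v => hφ g v⟩)
  exact (continuousH2π_eq_zero_iff r (ofChar χ) _).1 h

end Assembly

end Fermat.Agent.S55.helper2113
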