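import Mathlib
import Fermat.Agent.S55.helper235_FrameMaps
import Fermat.Agent.S55.helper613_StmtE

/-!
# S55: subadditivity of the global Euler characteristic on the frozen carriers (helper235)

The truncated long exact sequence of `helper7486_LevelCoh` is transported to the frozen carriers
`continuousH1S`, `continuousH2S` through the dictionary `helper2598_Frame` /
`helper235_FrameMaps`.  Output: the closed statements `helper613.Stmt_ChiSub` and
`helper613.Stmt_ChiSplit` (verbatim), from the finiteness statement `helper2945.Stmt_FinOne`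
(or `helper2945.Stmt_Fin`).
-/

set_option autoImplicit false

noncomputable section

namespace Fermat.Agent.S55.helper235

open groupCohomology CategoryTheory Module ExtCitation
open Fermat.Agent.S55.helper7486 Fermat.Agent.S55.helper2598

local notation "GQ" => (AlgebraicClosure ℚ ≃ₐ[ℚ] AlgebraicClosure ℚ)

section

variable {p : ℕ} [Fact p.Prime] (S : Finset Nat.Primes)

/-- The Euler characteristic of the level framework for `globalLevels S` is `h⁰ - h¹ + h²` of
the frozen carriers. -/
theorem chi_globalLevels (M : Rep.{0, 0, 0} (ZMod p) GQ) :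
    helper7486.chi (globalLevels S) M
      = (helper2945.h0 M : ℤ) - helper2945.h1 S M + helper2945.h2 S M := by
  unfold helper7486.chi helper2945.h0 helper2945.h1 helper2945.h2
  rw [(h1EquivS S M).finrank_eq, (LH2equivS S M).finrank_eq]

variable {S}

/-- The modules of the frozen statement are smooth for the global `S`-levels. -/
theorem smooth_of_isSMod {M : Rep.{0, 0, 0} (ZMod p) GQ} (hM : helper2945.IsSMod S M) :
    (globalLevels S).Smooth M :=
  have := hM.finite
  smooth_globalLevels S M hM.smooth hM.unram

theorem finiteDimensional_LH1_of {M : Rep.{0, 0, 0} (ZMod p) GQ}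
    (h : FiniteDimensional (ZMod p) (continuousH1S S M)) :
    FiniteDimensional (ZMod p) (LH1 (globalLevels S) M) :=
  (h1EquivS S M).symm.finiteDimensional

theorem finiteDimensional_LH2_of {M : Rep.{0, 0, 0} (ZMod p) GQ}
    (h : FiniteDimensional (ZMod p) (continuousH2S S M)) :
    FiniteDimensional (ZMod p) (LH2 (globalLevels S) M) :=
  (LH2equivS S M).symm.finiteDimensional

/-- **Subadditivity of `χ = h⁰ - h¹ + h²` on the frozen carriers**, `ℕ`-form, with the
finiteness of the six cohomology groups as hypotheses. -/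
theorem chi_sub_of_finite {A B C : Rep.{0, 0, 0} (ZMod p) GQ} (f : A ⟶ B) (g : B ⟶ C)
    [FiniteDimensional (ZMod p) B] [FiniteDimensional (ZMod p) C]
    (hB : (globalLevels S).Smooth B)
    (hf : Function.Injective f.hom) (hg : Function.Surjective g.hom)
    (hex : Function.Exact f.hom g.hom)
    (hA1 : FiniteDimensional (ZMod p) (continuousH1S S A))
    (hB1 : FiniteDimensional (ZMod p) (continuousH1S S B))
    (hC1 : FiniteDimensional (ZMod p) (continuousH1S S C))
    (hA2 : FiniteDimensional (ZMod p) (continuousH2S S A))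
    (hB2 : FiniteDimensional (ZMod p) (continuousH2S S B))
    (hC2 : FiniteDimensional (ZMod p) (continuousH2S S C)) :
    helper2945.h0 B + helper2945.h1 S A + helper2945.h1 S C + helper2945.h2 S B
      ≤ helper2945.h0 A + helper2945.h0 C + helper2945.h1 S B + helper2945.h2 S A
        + helper2945.h2 S C := by
  have := finiteDimensional_LH1_of hA1
  have := finiteDimensional_LH1_of hB1
  have := finiteDimensional_LH1_of hC1
  have := finiteDimensional_LH2_of hA2
  have := finiteDimensional_LH2_of hB2
  have := finiteDimensional_LH2_of hC2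
  have h := (SES.ofHom f g hf hg hex).chi_le (𝓛 := globalLevels S) hB
  rw [chi_globalLevels, chi_globalLevels, chi_globalLevels] at h
  omega

/-- **Additivity of `χ` on split sequences on the frozen carriers**, `ℕ`-form. -/
theorem chi_split_of_finite {A B C : Rep.{0, 0, 0} (ZMod p) GQ} (f : A ⟶ B) (g : B ⟶ C)
    (s : C ⟶ B) [FiniteDimensional (ZMod p) B] [FiniteDimensional (ZMod p) C]
    (hB : (globalLevels S).Smooth B)
    (hf : Function.Injective f.hom) (hex : Function.Exact f.hom g.hom)
    (hs : ∀ c, g.hom (s.hom c) = c)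
    (hA1 : FiniteDimensional (ZMod p) (continuousH1S S A))
    (hB1 : FiniteDimensional (ZMod p) (continuousH1S S B))
    (hC1 : FiniteDimensional (ZMod p) (continuousH1S S C))
    (hA2 : FiniteDimensional (ZMod p) (continuousH2S S A))
    (hB2 : FiniteDimensional (ZMod p) (continuousH2S S B)) :
    helper2945.h0 A + helper2945.h0 C + helper2945.h1 S B + helper2945.h2 S A
        + helper2945.h2 S C
      = helper2945.h0 B + helper2945.h1 S A + helper2945.h1 S C + helper2945.h2 S B := by
  have := finiteDimensional_LH1_of hA1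
  have := finiteDimensional_LH1_of hB1
  have := finiteDimensional_LH1_of hC1
  have := finiteDimensional_LH2_of hA2
  have := finiteDimensional_LH2_of hB2
  have hg : Function.Surjective g.hom := fun c => ⟨s.hom c, hs c⟩
  have h := (SES.ofHom f g hf hg hex).chi_eq_of_section (𝓛 := globalLevels S) hB
    s.hom.toLinearMap (fun γ c => Rep.hom_comm_apply s γ c) hs
  rw [chi_globalLevels, chi_globalLevels, chi_globalLevels] at h
  omega

end

/-- `helper613.Stmt_ChiSub` from the finiteness of the global cohomology. -/
theorem stmt_ChiSub_of_finOne (hFin : helper2945.Stmt_FinOne) : helper613.Stmt_ChiSub := by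
  intro p _ hp2 S hpS A B C f g hA hB hC hf hg hex
  have := hB.finite
  have := hC.finite
  obtain ⟨hA1, hA2⟩ := hFin hp2 S hpS A hA
  obtain ⟨hB1, hB2⟩ := hFin hp2 S hpS B hB
  obtain ⟨hC1, hC2⟩ := hFin hp2 S hpS C hC
  exact chi_sub_of_finite f g (smooth_of_isSMod hB) hf hg hex hA1 hB1 hC1 hA2 hB2 hC2

/-- `helper613.Stmt_ChiSplit` from the finiteness of the global cohomology. -/
theorem stmt_ChiSplit_of_finOne (hFin : helper2945.Stmt_FinOne) : helper613.Stmt_ChiSplit := by
  intro p _ hp2 S hpS A B C f g s hA hB hC hf hex hs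
  have := hB.finite
  have := hC.finite
  obtain ⟨hA1, hA2⟩ := hFin hp2 S hpS A hA
  obtain ⟨hB1, hB2⟩ := hFin hp2 S hpS B hB
  obtain ⟨hC1, -⟩ := hFin hp2 S hpS C hC
  exact (chi_split_of_finite f g s (smooth_of_isSMod hB) hf hex hs hA1 hB1 hC1 hA2 hB2).le

theorem finOne_of_fin (hFin : helper2945.Stmt_Fin) : helper2945.Stmt_FinOne :=
  fun hp2 S hpS M hM => ⟨(hFin hp2 S hpS M hM).1, (hFin hp2 S hpS M hM).2.1⟩

/-- `helper613.Stmt_ChiSub` from `helper2945.Stmt_Fin`. -/
theorem stmt_ChiSub_of_fin (hFin : helper2945.Stmt_Fin) : helper613.Stmt_ChiSub :=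
  stmt_ChiSub_of_finOne (finOne_of_fin hFin)

/-- `helper613.Stmt_ChiSplit` from `helper2945.Stmt_Fin`. -/
theorem stmt_ChiSplit_of_fin (hFin : helper2945.Stmt_Fin) : helper613.Stmt_ChiSplit :=
  stmt_ChiSplit_of_finOne (finOne_of_fin hFin)

end Fermat.Agent.S55.helper235
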