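/-
S55-NF-HASSEDEV (board #1240): Hasse-principle devissage in degree 2.

Step (H1) of the number-field core of S55 ("Sylow + inflation-restriction down to `C_p`
layers") as one abstract finite-group theorem, hypothesis-passing on Hilbert 90 and on the
Hasse norm theorem for `C_p`-layers.
-/
import Mathlib
import Fermat.Agent.S55.helper3644_InfRes2
import Fermat.Agent.S55.helper353_ResCor

set_option autoImplicit false

namespace Fermat.Agent.S55.helper2413

open groupCohomology

/-! ## The cyclic step (additive form) -/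

section Cyclic

variable {G A : Type*} [Group G] [AddCommGroup A] [DistribMulAction G A]

/-- Partial sums `∑_{j<m} f (s^j, s)`. -/
def cycX (f : G × G → A) (s : G) (m : ℕ) : A := ∑ j ∈ Finset.range m, f (s ^ j, s)

omit [DistribMulAction G A] in
lemma cycX_zero (f : G × G → A) (s : G) : cycX f s 0 = 0 := by simp [cycX]

omit [DistribMulAction G A] in
lemma cycX_succ (f : G × G → A) (s : G) (m : ℕ) :
    cycX f s (m + 1) = cycX f s m + f (s ^ m, s) := by
  simp [cycX, Finset.sum_range_succ]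

lemma cocycle_right_one {f : G × G → A} (hf : IsCocycle₂ f) (g : G) :
    f (g, 1) = g • f (1, 1) := by
  have h := hf g 1 1
  simp only [mul_one] at h
  exact add_right_cancel h

/-- The key identity: on powers of `s`, `f` is the coboundary of `m ↦ f (1,1) - cycX f s m`
at the level of exponents. -/
lemma cyc_key {f : G × G → A} (hf : IsCocycle₂ f) (s : G) (i k : ℕ) :
    f (s ^ i, s ^ k) = s ^ i • (f (1, 1) - cycX f s k) - (f (1, 1) - cycX f s (i + k))
      + (f (1, 1) - cycX f s i) := by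
  induction k with
  | zero =>
    rw [pow_zero, cocycle_right_one hf, cycX_zero, sub_zero, add_zero]
    abel
  | succ k ih =>
    have h := hf (s ^ i) (s ^ k) s
    rw [← pow_add, ← pow_succ] at h
    rw [← add_assoc, cycX_succ, cycX_succ, smul_sub, smul_add]
    rw [smul_sub] at ih
    linear_combination (norm := abel) ih - h

end Cyclic

section CyclicN

variable {G A : Type*} [Group G] [AddCommGroup A] [DistribMulAction G A] (N : Subgroup G)

omit [DistribMulAction G A] in
lemma cycX_add_period {f : G × G → A} {s : G} {p : ℕ} (hsp : s ^ p ∈ N)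
    (hconst : ∀ g h, ∀ n ∈ N, ∀ m ∈ N, f (g * n, h * m) = f (g, h)) (m : ℕ) :
    cycX f s (m + p) = cycX f s m + cycX f s p := by
  rw [add_comm m p, cycX, Finset.sum_range_add, add_comm]
  congr 1
  refine Finset.sum_congr rfl fun x _ => ?_
  have := hconst (s ^ x) s (s ^ p) hsp 1 N.one_mem
  rw [mul_one, ← pow_add] at this
  rw [add_comm p x]; exact this

lemma cyc_smul_gen {f : G × G → A} (hf : IsCocycle₂ f) {s : G} {p : ℕ} (hsp : s ^ p ∈ N)
    (hconst : ∀ g h, ∀ n ∈ N, ∀ m ∈ N, f (g * n, h * m) = f (g, h)) :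
    s • cycX f s p = cycX f s p := by
  have h1 := cyc_key hf s 1 p
  have h2 := hconst s 1 1 N.one_mem (s ^ p) hsp
  rw [mul_one, one_mul] at h2
  have h3 := cocycle_right_one hf s
  have h4 := cycX_add_period N hsp hconst (f := f) 1
  rw [pow_one, h2, h3, smul_sub, h4] at h1
  linear_combination (norm := abel) h1

omit [AddCommGroup A] [DistribMulAction G A] in
lemma exists_pow_inv_mul_mem [N.Normal] {p : ℕ} (hp : p.Prime) (hidx : N.index = p) {s : G}
    (hs : s ∉ N) (g : G) : ∃ k : ℕ, (s ^ k)⁻¹ * g ∈ N := by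
  have : Fact p.Prime := ⟨hp⟩
  have hcard : Nat.card (G ⧸ N) = p := by rw [← Subgroup.index_eq_card, hidx]
  have : Finite (G ⧸ N) := Nat.finite_of_card_ne_zero (by rw [hcard]; exact hp.ne_zero)
  have hs1 : (s : G ⧸ N) ≠ 1 := fun h => hs ((QuotientGroup.eq_one_iff s).1 h)
  have htop : Subgroup.zpowers (s : G ⧸ N) = ⊤ := zpowers_eq_top_of_prime_card hcard hs1
  have hmem : (g : G ⧸ N) ∈ Subgroup.zpowers (s : G ⧸ N) := by rw [htop]; trivial
  rw [← mem_powers_iff_mem_zpowers] at hmem
  obtain ⟨k, hk⟩ := hmem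
  refine ⟨k, ?_⟩
  rw [← QuotientGroup.eq]
  simpa using hk

/-- The cyclic invariant `∑_{j<p} f (s^j, s)` of an inflated cocycle is fixed by `G`. -/
lemma cyc_invariant [N.Normal] {p : ℕ} (hp : p.Prime) (hidx : N.index = p) {s : G} (hs : s ∉ N)
    {f : G × G → A} (hf : IsCocycle₂ f)
    (hconst : ∀ g h, ∀ n ∈ N, ∀ m ∈ N, f (g * n, h * m) = f (g, h))
    (hinv : ∀ g h, ∀ n ∈ N, n • f (g, h) = f (g, h)) (g : G) :
    g • cycX f s p = cycX f s p := by
  have hsp : s ^ p ∈ N := hidx ▸ N.pow_index_mem s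
  have hN : ∀ n ∈ N, n • cycX f s p = cycX f s p := by
    intro n hn
    rw [cycX, Finset.smul_sum]
    exact Finset.sum_congr rfl fun j _ => hinv _ _ n hn
  have hs1 := cyc_smul_gen N hf hsp hconst
  have hpow : ∀ k : ℕ, s ^ k • cycX f s p = cycX f s p := by
    intro k
    induction k with
    | zero => simp
    | succ k ih => rw [pow_succ, mul_smul, hs1, ih]
  obtain ⟨k, hk⟩ := exists_pow_inv_mul_mem N hp hidx hs g
  have hg : g = s ^ k * ((s ^ k)⁻¹ * g) := by group
  rw [hg, mul_smul, hN _ hk, hpow]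

/-- If an inflated cocycle is the coboundary of an `N`-coset-constant cochain `v`, its cyclic
invariant with respect to any `t` with `t ^ p ∈ N` is the `t`-norm of `v t`. -/
lemma cycX_eq_norm_of_coboundary {f : G × G → A} {t : G} {p : ℕ} (htp : t ^ p ∈ N)
    (v : G → A) (hv : ∀ g h, g • v h - v (g * h) + v g = f (g, h))
    (hvconst : ∀ g, ∀ n ∈ N, v (g * n) = v g) :
    cycX f t p = ∑ j ∈ Finset.range p, t ^ j • v t := by
  have h1 : ∀ j : ℕ, f (t ^ j, t) = t ^ j • v t - (v (t ^ (j + 1)) - v (t ^ j)) := by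
    intro j
    rw [← hv, pow_succ]; abel
  rw [cycX, Finset.sum_congr rfl (fun j _ => h1 j), Finset.sum_sub_distrib,
    Finset.sum_range_sub (fun j => v (t ^ j))]
  have h2 : v (t ^ p) = v 1 := by
    have := hvconst 1 (t ^ p) htp
    rwa [one_mul] at this
  rw [h2, pow_zero, sub_self, sub_zero]

/-- **Cyclic step.** An inflated 2-cocycle (constant on `N`-cosets, `N`-fixed values), `N` normal
of prime index `p`, whose cyclic invariant is an `s`-norm of an `N`-fixed element, is a
coboundary. -/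
theorem cyclic_isCoboundary [N.Normal] {p : ℕ} (hp : p.Prime) (hidx : N.index = p) {s : G}
    (hs : s ∉ N) {f : G × G → A} (hf : IsCocycle₂ f)
    (hconst : ∀ g h, ∀ n ∈ N, ∀ m ∈ N, f (g * n, h * m) = f (g, h))
    (hinv : ∀ g h, ∀ n ∈ N, n • f (g, h) = f (g, h))
    (b : A) (hb : ∀ n ∈ N, n • b = b)
    (hab : cycX f s p = ∑ j ∈ Finset.range p, s ^ j • b) :
    IsCoboundary₂ f := by
  classical
  have : Fact p.Prime := ⟨hp⟩
  have hsp : s ^ p ∈ N := hidx ▸ N.pow_index_mem s
  have hainv : ∀ g : G, g • cycX f s p = cycX f s p :=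
    cyc_invariant N hp hidx hs hf hconst hinv
  let Y : ℕ → A := fun m => ∑ j ∈ Finset.range m, s ^ j • b
  have hY_add : ∀ i k : ℕ, Y (i + k) = Y i + s ^ i • Y k := by
    intro i k
    simp only [Y]
    rw [Finset.sum_range_add, Finset.smul_sum]
    congr 1
    refine Finset.sum_congr rfl fun x _ => ?_
    rw [pow_add, mul_smul]
  have hYp : Y p = cycX f s p := hab.symm
  let W : ℕ → A := fun m => f (1, 1) - cycX f s m + Y m
  have hWper : Function.Periodic W p := by
    intro m
    simp only [W]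
    rw [cycX_add_period N hsp hconst, hY_add, hYp, hainv]
    abel
  have hWkey : ∀ i k : ℕ, f (s ^ i, s ^ k) = s ^ i • W k - W (i + k) + W i := by
    intro i k
    rw [cyc_key hf s i k]
    simp only [W]
    simp only [hY_add, smul_add, smul_sub]
    abel
  have hNf : ∀ m : ℕ, ∀ n ∈ N, n • cycX f s m = cycX f s m := by
    intro m n hn
    rw [cycX, Finset.smul_sum]
    exact Finset.sum_congr rfl fun j _ => hinv _ _ n hn
  have hNY : ∀ m : ℕ, ∀ n ∈ N, n • Y m = Y m := by
    intro m n hn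
    simp only [Y]
    rw [Finset.smul_sum]
    refine Finset.sum_congr rfl fun j _ => ?_
    have hmem : (s ^ j)⁻¹ * n * s ^ j ∈ N := by
      have := (inferInstance : N.Normal).conj_mem n hn (s ^ j)⁻¹
      simpa using this
    calc n • s ^ j • b = s ^ j • (((s ^ j)⁻¹ * n * s ^ j) • b) := by
          rw [← mul_smul, ← mul_smul]; congr 1; group
      _ = s ^ j • b := by rw [hb _ hmem]
  have hNW : ∀ m : ℕ, ∀ n ∈ N, n • W m = W m := by
    intro m n hn
    simp only [W]
    rw [smul_add, smul_sub, hNf m n hn, hNY m n hn, hinv 1 1 n hn]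
  have hex := exists_pow_inv_mul_mem N hp hidx hs
  choose e he using hex
  have hs1 : (s : G ⧸ N) ≠ 1 := fun h => hs ((QuotientGroup.eq_one_iff s).1 h)
  have hsp1 : (s : G ⧸ N) ^ p = 1 := by
    rw [← QuotientGroup.mk_pow]; exact (QuotientGroup.eq_one_iff _).2 hsp
  have hord : orderOf (s : G ⧸ N) = p := orderOf_eq_prime hsp1 hs1
  have hq : ∀ g : G, (g : G ⧸ N) = (s : G ⧸ N) ^ e g := by
    intro g
    rw [← QuotientGroup.mk_pow]
    exact (QuotientGroup.eq.2 (he g)).symm
  have hmod : ∀ g h : G, e (g * h) ≡ e g + e h [MOD p] := by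
    intro g h
    have h1 : (s : G ⧸ N) ^ e (g * h) = (s : G ⧸ N) ^ (e g + e h) := by
      rw [pow_add, ← hq, ← hq, ← hq]; rfl
    have h2 := pow_eq_pow_iff_modEq.1 h1
    rwa [hord] at h2
  have hWmod : ∀ a b : ℕ, a ≡ b [MOD p] → W a = W b := by
    intro a b hab'
    rw [← hWper.map_mod_nat a, ← hWper.map_mod_nat b, hab']
  refine ⟨fun g => W (e g), fun g h => ?_⟩
  have hg : g = s ^ e g * ((s ^ e g)⁻¹ * g) := by group
  have hh : h = s ^ e h * ((s ^ e h)⁻¹ * h) := by group
  have hf1 : f (g, h) = f (s ^ e g, s ^ e h) := by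
    conv_lhs => rw [hg, hh]
    exact hconst _ _ _ (he g) _ (he h)
  have hgW : g • W (e h) = s ^ e g • W (e h) := by
    conv_lhs => rw [hg]
    rw [mul_smul, hNW _ _ (he g)]
  show g • W (e h) - W (e (g * h)) + W (e g) = f (g, h)
  rw [hf1, hWkey, hgW, hWmod _ _ (hmod g h)]

end CyclicN

/-! ## Reindexing a cyclic norm -/

lemma sum_pow_smul_reindex {Γ B : Type*} [Group Γ] [AddCommGroup B] [DistribMulAction Γ B]
    {p : ℕ} (hp : p.Prime) (t : Γ) (y : B) (hty : t ^ p • y = y) {m : ℕ} (hm : ¬ p ∣ m) :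
    ∑ j ∈ Finset.range p, (t ^ m) ^ j • y = ∑ j ∈ Finset.range p, t ^ j • y := by
  have hper : Function.Periodic (fun j : ℕ => t ^ j • y) p := by
    intro j
    show t ^ (j + p) • y = t ^ j • y
    rw [pow_add, mul_smul, hty]
  have h1 : ∀ j, (t ^ m) ^ j • y = t ^ ((m * j) % p) • y := by
    intro j
    rw [← pow_mul]
    exact (hper.map_mod_nat (m * j)).symm
  rw [Finset.sum_congr rfl (fun j _ => h1 j)]
  have hinj : Set.InjOn (fun j => (m * j) % p) (Finset.range p : Set ℕ) := by
    intro i hi j hj hij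
    simp only [Finset.coe_range, Set.mem_Iio] at hi hj
    have hcop : Nat.Coprime p m := (Nat.Prime.coprime_iff_not_dvd hp).2 hm
    have h : m * i ≡ m * j [MOD p] := hij
    have h' : i ≡ j [MOD p] := Nat.ModEq.cancel_left_of_coprime hcop h
    exact Nat.ModEq.eq_of_lt_of_lt h' hi hj
  rw [← Finset.sum_image (f := fun i => t ^ i • y) hinj]
  congr 1
  apply Finset.eq_of_subset_of_card_le
  · intro x hx
    obtain ⟨j, _, rfl⟩ := Finset.mem_image.1 hx
    exact Finset.mem_range.2 (Nat.mod_lt _ hp.pos)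
  · rw [Finset.card_image_of_injOn hinj]

/-! ## Transfer of `H¹ = 0` to subgroups of subgroups -/

lemma isCoboundary₁_of_subgroup {G A : Type*} [Group G] [AddCommGroup A] [DistribMulAction G A]
    (hH1 : ∀ (H : Subgroup G) (c : H → A), IsCocycle₁ c → IsCoboundary₁ c)
    (P : Subgroup G) (K : Subgroup P) (c : K → A) (hc : IsCocycle₁ c) : IsCoboundary₁ c := by
  let e : K ≃* K.map P.subtype := K.equivMapOfInjective P.subtype P.subtype_injective
  have he : ∀ g : K.map P.subtype, (((e.symm g : K) : P) : G) = (g : G) := by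
    intro g
    have h := Subgroup.coe_equivMapOfInjective_apply K P.subtype P.subtype_injective (e.symm g)
    rw [show K.equivMapOfInjective P.subtype P.subtype_injective (e.symm g) = g from
      e.apply_symm_apply g] at h
    exact h.symm
  obtain ⟨b, hb⟩ := hH1 (K.map P.subtype) (fun h => c (e.symm h)) (by
    intro g h
    show c (e.symm (g * h)) = g • c (e.symm h) + c (e.symm g)
    rw [map_mul, hc]
    congr 1
    show (((e.symm g : K) : P) : G) • c (e.symm h) = (g : G) • c (e.symm h)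
    rw [he])
  refine ⟨b, fun n => ?_⟩
  have h := hb (e n)
  simp only [MulEquiv.symm_apply_apply] at h
  rw [← h]
  rfl

/-! ## The local cyclic step -/

section LocalStep

variable {Q A : Type*} [Group Q] [AddCommGroup A] [DistribMulAction Q A]
variable {Λ B : Type*} [Group Λ] [AddCommGroup B] [DistribMulAction Λ B]

/-- **Local cyclic step.** `K` normal of prime index `p` in `Q`, `f'` an inflated 2-cocycle of
`Q`, `ρ : Λ →* Q` a "local group", `loc : A →+ B` equivariant.  If the pulled-back cocycle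
`loc ∘ f' ∘ (ρ × ρ)` is a coboundary on `Λ` and `H¹(ρ⁻¹ K, B) = 0`, then for every `τ : Λ` with
`ρ τ ∉ K` the image of the cyclic invariant of `f'` (w.r.t. any `s ∉ K`) is the `τ`-norm of a
`ρ⁻¹ K`-fixed element of `B`. -/
theorem local_cyclic_norm (K : Subgroup Q) [K.Normal] {p : ℕ} (hp : p.Prime) (hidx : K.index = p)
    {s : Q} (hs : s ∉ K) {f' : Q × Q → A}
    (hconst : ∀ g h, ∀ n ∈ K, ∀ m ∈ K, f' (g * n, h * m) = f' (g, h))
    (hinv : ∀ g h, ∀ n ∈ K, n • f' (g, h) = f' (g, h))
    (ρ : Λ →* Q) (loc : A →+ B) (hloc : ∀ (l : Λ) (a : A), loc (ρ l • a) = l • loc a)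
    (hH1 : ∀ c : K.comap ρ → B, IsCocycle₁ c → IsCoboundary₁ c)
    (x : Λ → B) (hx : ∀ g h : Λ, g • x h - x (g * h) + x g = loc (f' (ρ g, ρ h)))
    (τ : Λ) (hτ : ρ τ ∉ K) :
    ∃ y : B, (∀ e ∈ K.comap ρ, e • y = y) ∧
      loc (cycX f' s p) = ∑ j ∈ Finset.range p, τ ^ j • y := by
  classical
  have hE : (K.comap ρ).Normal := Subgroup.Normal.comap inferInstance ρ
  -- descend the primitive
  obtain ⟨x', hx', hx'const, hx'inv⟩ := helper3644.isCoboundary₂_descend (K.comap ρ) hH1
    (f' := fun z : Λ × Λ => loc (f' (ρ z.1, ρ z.2)))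
    (fun g h n hn m hm => by
      show loc (f' (ρ (g * n), ρ (h * m))) = loc (f' (ρ g, ρ h))
      rw [map_mul, map_mul, hconst _ _ _ hn _ hm])
    (fun g h n hn => by
      show n • loc (f' (ρ g, ρ h)) = loc (f' (ρ g, ρ h))
      rw [← hloc, hinv _ _ _ hn])
    x hx
  -- the exponent `m`
  have hτp : (ρ τ) ^ p ∈ K := hidx ▸ K.pow_index_mem (ρ τ)
  obtain ⟨m, hm⟩ := exists_pow_inv_mul_mem K hp hidx hτ s
  have hpm : ¬ p ∣ m := by
    rintro ⟨c, rfl⟩
    have h1 : (ρ τ) ^ (p * c) ∈ K := by rw [pow_mul]; exact K.pow_mem hτp c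
    have h2 : s ∈ K := by
      have := K.mul_mem h1 hm
      rwa [mul_inv_cancel_left] at this
    exact hs h2
  -- `σ' := ρ (τ ^ m)` is congruent to `s` modulo `K`
  have hσs : ((ρ τ) ^ m)⁻¹ * s ∈ K := hm
  have hpowK : ∀ j : ℕ, (s ^ j)⁻¹ * ((ρ τ) ^ m) ^ j ∈ K := by
    intro j
    rw [← QuotientGroup.eq, QuotientGroup.mk_pow, QuotientGroup.mk_pow (N := K) (ρ τ ^ m)]
    congr 1
    exact (QuotientGroup.eq.2 hσs).symm
  have hτ'p : (τ ^ m) ^ p ∈ K.comap ρ := by
    show ρ ((τ ^ m) ^ p) ∈ K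
    rw [map_pow]
    exact hidx ▸ K.pow_index_mem (ρ (τ ^ m))
  have h1 := cycX_eq_norm_of_coboundary (f := fun z : Λ × Λ => loc (f' (ρ z.1, ρ z.2)))
    (K.comap ρ) hτ'p x' hx' hx'const
  have h2 : cycX (fun z : Λ × Λ => loc (f' (ρ z.1, ρ z.2))) (τ ^ m) p = loc (cycX f' s p) := by
    rw [cycX, cycX, map_sum]
    refine Finset.sum_congr rfl fun j _ => ?_
    show loc (f' (ρ ((τ ^ m) ^ j), ρ (τ ^ m))) = loc (f' (s ^ j, s))
    congr 1
    rw [map_pow, map_pow]
    have e1 : (ρ τ ^ m) ^ j = s ^ j * ((s ^ j)⁻¹ * (ρ τ ^ m) ^ j) := by group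
    have e2 : ρ τ ^ m = s * (s⁻¹ * ρ τ ^ m) := by group
    have hmem2 : s⁻¹ * ρ τ ^ m ∈ K := by
      have := K.inv_mem hσs
      rwa [mul_inv_rev, inv_inv] at this
    conv_lhs => rw [e1]
    conv_lhs => enter [1, 2]; rw [e2]
    exact hconst _ _ _ (hpowK j) _ hmem2
  have hτpE : τ ^ p ∈ K.comap ρ := by
    show ρ (τ ^ p) ∈ K
    rw [map_pow]; exact hτp
  refine ⟨x' (τ ^ m), fun e he => hx'inv _ e he, ?_⟩
  rw [← h2, h1]
  exact sum_pow_smul_reindex hp τ (x' (τ ^ m)) (hx'inv _ _ hτpE) hpm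

end LocalStep

/-! ## The devissage (additive form) -/

section Main

variable {G A : Type*} [Group G] [AddCommGroup A] [DistribMulAction G A]
variable {ι : Type*} {Γ : ι → Type*} [∀ i, Group (Γ i)] {B : ι → Type*}
  [∀ i, AddCommGroup (B i)] [∀ i, DistribMulAction (Γ i) (B i)]
variable (r : ∀ i, Γ i →* G) (loc : ∀ i, A →+ B i)

/-- Local triviality of `f` on the subgroup `H`: for every local datum `i`, the pull-back of `f`
to `(r i)⁻¹ H`, pushed to `B i`, is a coboundary. -/
def LocTrivOn (H : Subgroup G) (f : G × G → A) : Prop :=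
  ∀ i, ∃ u : Γ i → B i, ∀ γ δ : Γ i, r i γ ∈ H → r i δ ∈ H →
    γ • u δ - u (γ * δ) + u γ = loc i (f (r i γ, r i δ))

variable {r loc} in
lemma LocTrivOn.mono {H H' : Subgroup G} (h : H' ≤ H) {f : G × G → A}
    (hf : LocTrivOn r loc H f) : LocTrivOn r loc H' f := fun i =>
  let ⟨u, hu⟩ := hf i
  ⟨u, fun γ δ hγ hδ => hu γ δ (h hγ) (h hδ)⟩

/-- The Hasse norm theorem for `C_p`-layers, as a hypothesis: for `N ≤ P ≤ G`, `N` normal in
`P` of index `p`, `s ∈ P \ N`, a `P`-fixed `a : A` which is a local norm at every local datum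
(condition vacuous where `(r i)⁻¹ P = (r i)⁻¹ N`) is the `s`-norm of an `N`-fixed element. -/
def HasseNormHyp (p : ℕ) : Prop :=
  ∀ (P N : Subgroup G), N ≤ P → (∀ g ∈ P, ∀ n ∈ N, g * n * g⁻¹ ∈ N) → N.relIndex P = p →
    ∀ s ∈ P, s ∉ N → ∀ a : A, (∀ g ∈ P, g • a = a) →
      (∀ i, ∀ t : Γ i, r i t ∈ P → r i t ∉ N →
        ∃ y : B i, (∀ e : Γ i, r i e ∈ N → e • y = y) ∧
          loc i a = ∑ j ∈ Finset.range p, t ^ j • y) →
      ∃ b : A, (∀ n ∈ N, n • b = b) ∧ a = ∑ j ∈ Finset.range p, s ^ j • b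

/-- **Devissage for `p`-subgroups**: a 2-cocycle of `G` which is locally trivial on a
`p`-subgroup `P` restricts to a coboundary on `P`. -/
theorem pgroup_devissage [Finite G] {p : ℕ} (hp : p.Prime)
    (hloc : ∀ i (γ : Γ i) (a : A), loc i (r i γ • a) = γ • loc i a)
    (hH90 : ∀ (H : Subgroup G) (c : H → A), IsCocycle₁ c → IsCoboundary₁ c)
    (hH90loc : ∀ i (E : Subgroup (Γ i)) (c : E → B i), IsCocycle₁ c → IsCoboundary₁ c)
    (hHNT : HasseNormHyp r loc p)
    {f : G × G → A} (hf : IsCocycle₂ f) :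
    ∀ (n : ℕ) (P : Subgroup G), Nat.card P = p ^ n → LocTrivOn r loc P f →
      IsCoboundary₂ (fun x : P × P => f ((x.1 : G), (x.2 : G))) := by
  classical
  have hpF : Fact p.Prime := ⟨hp⟩
  intro n
  induction n with
  | zero =>
    intro P hP _
    have hsub : Subsingleton P := (Nat.card_eq_one_iff_unique.1 (by simpa using hP)).1
    refine ⟨fun _ => f (1, 1), fun g h => ?_⟩
    have hg : g = 1 := Subsingleton.elim _ _
    have hh : h = 1 := Subsingleton.elim _ _
    subst hg; subst hh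
    simp
  | succ n ih =>
    intro P hP hlt
    obtain ⟨K, hK⟩ := Sylow.exists_subgroup_card_pow_prime (G := P) p (n := n)
      (by rw [hP]; exact pow_dvd_pow p (Nat.le_succ n))
    have hKidx : K.index = p := by
      have h := K.card_mul_index
      rw [hK, hP, pow_succ] at h
      exact Nat.eq_of_mul_eq_mul_left (pow_pos hp.pos n) h
    have hKn : K.Normal := Subgroup.normal_of_index_eq_minFac_card
      (by rw [hKidx, hP, hp.pow_minFac (Nat.succ_ne_zero n)])
    obtain ⟨s, hs⟩ : ∃ s : P, s ∉ K := by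
      by_contra hcon
      have hcon' : ∀ x : P, x ∈ K := fun x => by_contra fun hx => hcon ⟨x, hx⟩
      have hKtop : K = ⊤ := by
        ext x; simp [hcon' x]
      rw [hKtop, Subgroup.index_top] at hKidx
      exact hp.one_lt.ne hKidx
    -- the image of `K` in `G`
    set N : Subgroup G := K.map P.subtype with hN
    have hNP : N ≤ P := Subgroup.map_subtype_le K
    have hNcard : Nat.card N = p ^ n := by
      rw [← hK]
      exact (Nat.card_congr
        (K.equivMapOfInjective P.subtype P.subtype_injective).toEquiv).symm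
    have hmemN : ∀ x : P, (x : G) ∈ N ↔ x ∈ K := by
      intro x
      rw [hN, Subgroup.mem_map]
      constructor
      · rintro ⟨y, hy, hxy⟩
        have hyx : y = x := Subtype.ext hxy
        rwa [← hyx]
      · intro hx
        exact ⟨x, hx, rfl⟩
    -- induction hypothesis on `N`
    obtain ⟨uN, huN⟩ := ih N hNcard (hlt.mono hNP)
    let fP : P × P → A := fun x => f ((x.1 : G), (x.2 : G))
    have hfP : IsCocycle₂ fP := fun g h j => hf g h j
    have hres : IsCoboundary₂ (fun nm : K × K => fP ((nm.1 : P), (nm.2 : P))) := by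
      refine ⟨fun k => uN ⟨((k : P) : G), (hmemN _).2 k.2⟩, fun g h => ?_⟩
      exact huN ⟨_, (hmemN _).2 g.2⟩ ⟨_, (hmemN _).2 h.2⟩
    have hH1K : ∀ c : K → A, IsCocycle₁ c → IsCoboundary₁ c :=
      isCoboundary₁_of_subgroup hH90 P K
    obtain ⟨y, f', hf', hff', hconst, hinv⟩ :=
      helper3644.exists_inflated_of_res_isCoboundary₂ K hH1K hfP hres
    have hainv : ∀ g : P, g • cycX f' s p = cycX f' s p :=
      cyc_invariant K hp hKidx hs hf' hconst hinv
    -- apply the Hasse norm hypothesis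
    have hnorm : ∃ b : A, (∀ n ∈ N, n • b = b) ∧
        cycX f' s p = ∑ j ∈ Finset.range p, (s : G) ^ j • b := by
      refine hHNT P N hNP ?_ ?_ s s.2 (fun h => hs ((hmemN s).1 h)) (cycX f' s p)
        (fun g hg => hainv ⟨g, hg⟩) ?_
      · intro g hg n hn
        obtain ⟨k, hk, rfl⟩ := Subgroup.mem_map.1 hn
        have h := hKn.conj_mem k hk ⟨g, hg⟩
        exact (hmemN _).2 h
      · rw [Subgroup.relIndex, ← hKidx]
        congr 1
        rw [hN, Subgroup.subgroupOf, Subgroup.comap_map_eq_self_of_injective P.subtype_injective]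
      · intro i t htP htN
        -- the local group and its map to `P`
        let ρ : (P.comap (r i)) →* P := (r i).subgroupComap P
        have hρ : ∀ l : P.comap (r i), ((ρ l : P) : G) = r i (l : Γ i) := fun l => rfl
        let τ : P.comap (r i) := ⟨t, htP⟩
        obtain ⟨u, hu⟩ := hlt i
        have hH1E : ∀ c : K.comap ρ → B i, IsCocycle₁ c → IsCoboundary₁ c :=
          isCoboundary₁_of_subgroup (hH90loc i) (P.comap (r i)) (K.comap ρ)
        obtain ⟨yB, hyB, hsum⟩ := local_cyclic_norm K hp hKidx hs hconst hinv ρ (loc i)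
          (fun l a => by
            show loc i (((ρ l : P) : G) • a) = (l : Γ i) • loc i a
            rw [hρ, hloc])
          hH1E
          (fun l => u (l : Γ i) - loc i (y (ρ l)))
          (fun g h => by
            have e1 := hu (g : Γ i) (h : Γ i) g.2 h.2
            have e2 := hff' (ρ g) (ρ h)
            have e3 : loc i (f' (ρ g, ρ h)) = loc i (f ((r i (g : Γ i)), (r i (h : Γ i))))
                - ((g : Γ i) • loc i (y (ρ h)) - loc i (y (ρ g * ρ h)) + loc i (y (ρ g))) := by
              have e4 : f ((r i (g : Γ i)), (r i (h : Γ i))) = f' (ρ g, ρ h)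
                  + ((r i (g : Γ i)) • y (ρ h) - y (ρ g * ρ h) + y (ρ g)) := e2
              rw [e4, map_add, map_add, map_sub, hloc]
              abel
            show (g : Γ i) • (u (h : Γ i) - loc i (y (ρ h)))
                - (u ((g : Γ i) * (h : Γ i)) - loc i (y (ρ (g * h))))
                + (u (g : Γ i) - loc i (y (ρ g))) = loc i (f' (ρ g, ρ h))
            rw [e3, ← e1, map_mul, smul_sub]
            abel)
          τ (fun h => htN ((hmemN (ρ τ)).2 h))
        refine ⟨yB, fun e he => ?_, ?_⟩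
        · have heP : r i e ∈ P := hNP he
          exact hyB ⟨e, heP⟩ ((hmemN (ρ ⟨e, heP⟩)).1 he)
        · rw [hsum]
          rfl
    obtain ⟨b, hbN, hab⟩ := hnorm
    obtain ⟨u', hu'⟩ := cyclic_isCoboundary K hp hKidx hs hf' hconst hinv b
      (fun k hk => hbN _ ((hmemN _).2 hk)) hab
    refine ⟨fun g => u' g + y g, fun g h => ?_⟩
    show g • (u' h + y h) - (u' (g * h) + y (g * h)) + (u' g + y g) = fP (g, h)
    rw [hff', ← hu', smul_add]
    abel

/-- **Hasse-principle devissage in degree 2** (additive form).  `G` finite, `A` a `G`-module,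
local data `r i : Γ i →* G`, `loc i : A →+ B i` equivariant.  Assume Hilbert 90 for all subgroups
of `G` in `A` and of `Γ i` in `B i`, and the Hasse norm theorem for `C_p`-layers
(`HasseNormHyp`).  Then a `p`-primary 2-cocycle class which is locally trivial everywhere is
trivial. -/
theorem hasse_devissage [Finite G] {p : ℕ} (hp : p.Prime)
    (hloc : ∀ i (γ : Γ i) (a : A), loc i (r i γ • a) = γ • loc i a)
    (hH90 : ∀ (H : Subgroup G) (c : H → A), IsCocycle₁ c → IsCoboundary₁ c)
    (hH90loc : ∀ i (E : Subgroup (Γ i)) (c : E → B i), IsCocycle₁ c → IsCoboundary₁ c)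
    (hHNT : HasseNormHyp r loc p)
    {f : G × G → A} (hf : IsCocycle₂ f) (k : ℕ)
    (hk : IsCoboundary₂ (fun x : G × G => p ^ k • f x))
    (hlt : ∀ i, IsCoboundary₂ (fun x : Γ i × Γ i => loc i (f (r i x.1, r i x.2)))) :
    IsCoboundary₂ f := by
  have hpF : Fact p.Prime := ⟨hp⟩
  obtain ⟨P⟩ : Nonempty (Sylow p G) := inferInstance
  obtain ⟨n, hn⟩ := IsPGroup.exists_card_eq P.isPGroup'
  have hLT : LocTrivOn r loc (P : Subgroup G) f := fun i =>
    let ⟨u, hu⟩ := hlt i
    ⟨u, fun γ δ _ _ => hu γ δ⟩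
  obtain ⟨u, hu⟩ := pgroup_devissage r loc hp hloc hH90 hH90loc hHNT hf n P hn hLT
  obtain ⟨v, hv, -⟩ := helper353.index_smul_isCoboundary₂_of_res (P : Subgroup G) f hf u hu
  obtain ⟨w, hw⟩ := hk
  have hcop : Nat.Coprime (P : Subgroup G).index (p ^ k) :=
    Nat.Coprime.pow_right k ((Nat.Prime.coprime_iff_not_dvd hp).2 P.not_dvd_index).symm
  have hbez := Nat.gcd_eq_gcd_ab (P : Subgroup G).index (p ^ k)
  rw [hcop] at hbez
  set x := Nat.gcdA (P : Subgroup G).index (p ^ k) with hx
  set z := Nat.gcdB (P : Subgroup G).index (p ^ k) with hz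
  refine ⟨fun g => x • v g + z • w g, fun g h => ?_⟩
  have e1 := hv g h
  have e2 : g • w h - w (g * h) + w g = p ^ k • f (g, h) := hw g h
  have e3 : f (g, h) = x • ((P : Subgroup G).index • f (g, h)) + z • (p ^ k • f (g, h)) := by
    rw [← natCast_zsmul, ← natCast_zsmul, smul_smul, smul_smul, ← add_smul, mul_comm x,
      mul_comm z, ← hbez]
    simp
  show g • (x • v h + z • w h) - (x • v (g * h) + z • w (g * h)) + (x • v g + z • w g) = f (g, h)
  rw [e3, ← e1, ← e2, smul_add, smul_comm g x, smul_comm g z]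
  simp only [smul_sub, smul_add]
  abel

end Main

/-! ## Multiplicative twin (`M = Lˣ`) -/

section Mul

variable {G M : Type*} [Group G] [CommGroup M] [MulDistribMulAction G M]
variable {ι : Type*} {Γ : ι → Type*} [∀ i, Group (Γ i)] {B : ι → Type*}
  [∀ i, CommGroup (B i)] [∀ i, MulDistribMulAction (Γ i) (B i)]
variable (r : ∀ i, Γ i →* G) (loc : ∀ i, M →* B i)

/-- The Hasse norm theorem for `C_p`-layers as a hypothesis, multiplicative form: for
`N ≤ P ≤ G`, `N` normal in `P` of index `p`, `s ∈ P \ N`, a `P`-fixed `a : M` which is a local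
norm at every local datum is the `s`-norm of an `N`-fixed element. -/
def MulHasseNormHyp (p : ℕ) : Prop :=
  ∀ (P N : Subgroup G), N ≤ P → (∀ g ∈ P, ∀ n ∈ N, g * n * g⁻¹ ∈ N) → N.relIndex P = p →
    ∀ s ∈ P, s ∉ N → ∀ a : M, (∀ g ∈ P, g • a = a) →
      (∀ i, ∀ t : Γ i, r i t ∈ P → r i t ∉ N →
        ∃ y : B i, (∀ e : Γ i, r i e ∈ N → e • y = y) ∧
          loc i a = ∏ j ∈ Finset.range p, t ^ j • y) →
      ∃ b : M, (∀ n ∈ N, n • b = b) ∧ a = ∏ j ∈ Finset.range p, s ^ j • b

/-- **Hasse-principle devissage in degree 2** (multiplicative form, e.g. `M = Lˣ`,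
`G = Gal(L/K)`, `Γ i = Gal(L_W/K_w)`, `B i = L_Wˣ`).  Under Hilbert 90 (global and local) and
the Hasse norm theorem for `C_p`-layers, a 2-cocycle `f` with `f ^ (p ^ k)` a coboundary which is
locally a coboundary at every local datum is a coboundary. -/
theorem mul_hasse_devissage [Finite G] {p : ℕ} (hp : p.Prime)
    (hloc : ∀ i (γ : Γ i) (a : M), loc i (r i γ • a) = γ • loc i a)
    (hH90 : ∀ (H : Subgroup G) (c : H → M), IsMulCocycle₁ c → IsMulCoboundary₁ c)
    (hH90loc : ∀ i (E : Subgroup (Γ i)) (c : E → B i), IsMulCocycle₁ c → IsMulCoboundary₁ c)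
    (hHNT : MulHasseNormHyp r loc p)
    {f : G × G → M} (hf : IsMulCocycle₂ f) (k : ℕ)
    (hk : IsMulCoboundary₂ (fun x : G × G => f x ^ p ^ k))
    (hlt : ∀ i, IsMulCoboundary₂ (fun x : Γ i × Γ i => loc i (f (r i x.1, r i x.2)))) :
    IsMulCoboundary₂ f := by
  letI instG : DistribMulAction G (Additive M) := helper3644.additiveDistribMulAction G M
  letI instΓ : ∀ i, DistribMulAction (Γ i) (Additive (B i)) :=
    fun i => helper3644.additiveDistribMulAction (Γ i) (B i)
  obtain ⟨xk, hxk⟩ := hk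
  obtain ⟨x, hx⟩ := hasse_devissage (G := G) (A := Additive M) (B := fun i => Additive (B i)) r
    (fun i => MonoidHom.toAdditive (loc i)) hp
    (fun i γ a => congrArg Additive.ofMul (hloc i γ (Additive.toMul a)))
    (fun H c hc => by
      obtain ⟨b, hb⟩ := hH90 H (fun n => Additive.toMul (c n)) (fun n m => hc n m)
      exact ⟨Additive.ofMul b, fun n => hb n⟩)
    (fun i E c hc => by
      obtain ⟨b, hb⟩ := hH90loc i E (fun n => Additive.toMul (c n)) (fun n m => hc n m)
      exact ⟨Additive.ofMul b, fun n => hb n⟩)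
    (fun P N hNP hnorm hidx s hsP hsN a ha hlocn => by
      obtain ⟨b, hb, hab⟩ := hHNT P N hNP hnorm hidx s hsP hsN (Additive.toMul a)
        (fun g hg => congrArg Additive.toMul (ha g hg))
        (fun i t htP htN => by
          obtain ⟨y, hy, hsum⟩ := hlocn i t htP htN
          refine ⟨Additive.toMul y, fun e he => congrArg Additive.toMul (hy e he), ?_⟩
          have h1 := congrArg Additive.toMul hsum
          rw [toMul_sum] at h1
          exact h1)
      refine ⟨Additive.ofMul b, fun n hn => congrArg Additive.ofMul (hb n hn), ?_⟩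
      have h2 := congrArg Additive.ofMul hab
      rw [ofMul_prod] at h2
      exact h2)
    (f := fun q => Additive.ofMul (f q)) (fun g h j => hf g h j) k
    ⟨fun g => Additive.ofMul (xk g), fun g h => by
      have h3 := congrArg Additive.ofMul (hxk g h)
      exact h3⟩
    (fun i => by
      obtain ⟨u, hu⟩ := hlt i
      exact ⟨fun g => Additive.ofMul (u g), fun g h => congrArg Additive.ofMul (hu g h)⟩)
  exact ⟨fun g => Additive.toMul (x g), fun g h => hx g h⟩

end Mul

end Fermat.Agent.S55.helper2413
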