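/-
S55-MACKEY-SH (helper2556): Mackey–Shapiro compatibility ("local triviality transports").

`G` a group, `H ≤ G`, `r : D →* G`, `σ` a representation of `H` on `A`, `γ : G`,
`D_γ = mackeySubgroup H r γ = r⁻¹(γ⁻¹ H γ)`, acting on `A` through `e ↦ σ (γ * r e * γ⁻¹)`.

For a 2-cocycle `x : G × G → coindV H.subtype σ` (coinduced action) the two 2-cochains on `D_γ`
  `loc  (e₁, e₂) = x (r e₁, r e₂) γ`                       (the `γ`-th Mackey component of `res_r x`,
                                                            evaluated at `1`),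
  `glob (e₁, e₂) = x (γ * r e₁ * γ⁻¹, γ * r e₂ * γ⁻¹) 1`   (Shapiro of `x`, pulled back along
                                                            the conjugation `D_γ → H`)
differ by the coboundary of the explicit 1-cochain `mackeyShapiroU` (`mackeyShapiro_two`).
Consequently, if `res_r x = d v` then `glob = d (mackeyShapiroW)` (`mackeyShapiro_trivial`), with
control of the level (`mackeyShapiroU_mul_right`, `mackeyShapiroW_mul_right`).

The last section restates this on the frozen carriers `continuousH2`, `continuousH2S`,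
`locRes₂S`: a class of `continuousH2S S (coind_H N)` which dies under `locRes₂S` along `r`
dies in `continuousH2` of every `D_γ` after Shapiro (`shapiroLoc_locRes₂S_eq_zero`).
-/
import Mathlib
import Fermat.Prelude.Def_GroupCohomology_ContinuousUnramified
import Fermat.Agent.S55.helper2556_Mackey

set_option autoImplicit false

namespace Fermat.Agent.S55.helper2556

open Representation

section Generic

variable {k G D : Type*} [CommRing k] [Group G] [Group D]
variable (H : Subgroup G) (r : D →* G)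
variable {A : Type*} [AddCommGroup A] [Module k A] (σ : Representation k H A)

/-- The 2-cocycle identity (Mathlib's shape of `mem_cocycles₂_iff`) for cochains with values in
the coinduced module. -/
def IsCoindCocycle₂ (x : G × G → coindV H.subtype σ) : Prop :=
  ∀ g h j : G, x (g * h, j) + x (g, h) = coind H.subtype σ g (x (h, j)) + x (g, h * j)

/-- The 1-cocycle identity (Mathlib's shape of `mem_cocycles₁_iff`) for cochains with values in
the coinduced module. -/
def IsCoindCocycle₁ (c : G → coindV H.subtype σ) : Prop :=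
  ∀ g h : G, c (g * h) = coind H.subtype σ g (c h) + c g

lemma coind_val_apply (g y : G) (f : coindV H.subtype σ) :
    (coind H.subtype σ g f).1 y = f.1 (y * g) := rfl

/-- The defining property of the coinduced module, read on `D_γ`. -/
lemma coindV_apply_mul_mackey (γ : G) (e : mackeySubgroup H r γ) (f : coindV H.subtype σ) :
    f.1 (γ * r e) = mackeyRep H r σ γ e (f.1 γ) := by
  have h := f.2 (mackeyHom H r γ e) γ
  simp only [Subgroup.coe_subtype, coe_mackeyHom, inv_mul_cancel_right] at h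
  exact h

/-- The homotopy 1-cochain: `u e = x (r e, γ⁻¹) γ - x (γ⁻¹, γ * r e * γ⁻¹) γ`. -/
def mackeyShapiroU (γ : G) (x : G × G → coindV H.subtype σ) (e : D) : A :=
  (x (r e, γ⁻¹)).1 γ - (x (γ⁻¹, γ * r e * γ⁻¹)).1 γ

/-- **Mackey–Shapiro compatibility in degree 2** (cochain level). -/
theorem mackeyShapiro_two (x : G × G → coindV H.subtype σ) (hx : IsCoindCocycle₂ H σ x) (γ : G)
    (e₁ e₂ : mackeySubgroup H r γ) :
    (x (r e₁, r e₂)).1 γ - (x (γ * r e₁ * γ⁻¹, γ * r e₂ * γ⁻¹)).1 1 =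
      mackeyRep H r σ γ e₁ (mackeyShapiroU H r σ γ x e₂)
        - mackeyShapiroU H r σ γ x ((e₁ : D) * (e₂ : D)) + mackeyShapiroU H r σ γ x e₁ := by
  have h1 := congrArg (fun f : coindV H.subtype σ => f.1 γ) (hx (r e₁) (r e₂) γ⁻¹)
  have h2 := congrArg (fun f : coindV H.subtype σ => f.1 γ) (hx (r e₁) γ⁻¹ (γ * r e₂ * γ⁻¹))
  have h3 := congrArg (fun f : coindV H.subtype σ => f.1 γ)
    (hx γ⁻¹ (γ * r e₁ * γ⁻¹) (γ * r e₂ * γ⁻¹))
  have ea : r (e₁ : D) * γ⁻¹ = γ⁻¹ * (γ * r e₁ * γ⁻¹) := by group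
  have eb : r (e₂ : D) * γ⁻¹ = γ⁻¹ * (γ * r e₂ * γ⁻¹) := by group
  have eab : γ * (r (e₁ : D) * r (e₂ : D)) * γ⁻¹ = (γ * r e₁ * γ⁻¹) * (γ * r e₂ * γ⁻¹) := by
    group
  simp only [Submodule.coe_add, Pi.add_apply, coind_val_apply] at h1 h2 h3
  rw [coindV_apply_mul_mackey H r σ γ e₁] at h1 h2
  rw [eb] at h1
  rw [ea] at h2
  rw [mul_inv_cancel] at h3
  simp only [mackeyShapiroU, map_sub, map_mul, eab]
  linear_combination (norm := abel) h1 - h2 + h3

/-- **Mackey–Shapiro compatibility in degree 1** (cochain level). -/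
theorem mackeyShapiro_one (c : G → coindV H.subtype σ) (hc : IsCoindCocycle₁ H σ c) (γ : G)
    (e : mackeySubgroup H r γ) :
    (c (r e)).1 γ - (c (γ * r e * γ⁻¹)).1 1 =
      (c γ⁻¹).1 γ - mackeyRep H r σ γ e ((c γ⁻¹).1 γ) := by
  have h1 := congrArg (fun f : coindV H.subtype σ => f.1 γ) (hc (r e) γ⁻¹)
  have h2 := congrArg (fun f : coindV H.subtype σ => f.1 γ) (hc γ⁻¹ (γ * r e * γ⁻¹))
  have ea : r (e : D) * γ⁻¹ = γ⁻¹ * (γ * r e * γ⁻¹) := by group
  simp only [Submodule.coe_add, Pi.add_apply, coind_val_apply] at h1 h2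
  rw [coindV_apply_mul_mackey H r σ γ e] at h1
  rw [ea] at h1
  rw [mul_inv_cancel] at h2
  linear_combination (norm := abel) h2 - h1

/-- The transported primitive: `w e = v e γ - u e`. -/
def mackeyShapiroW (γ : G) (x : G × G → coindV H.subtype σ) (v : D → coindV H.subtype σ)
    (e : D) : A :=
  (v e).1 γ - mackeyShapiroU H r σ γ x e

/-- **Local triviality transports through Shapiro** (degree 2, cochain level): if the
restriction of `x` along `r` is the coboundary of `v`, then the Shapiro image of `x`, pulled back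
to `D_γ` along `e ↦ γ * r e * γ⁻¹`, is the coboundary of `mackeyShapiroW`. -/
theorem mackeyShapiro_trivial (x : G × G → coindV H.subtype σ) (hx : IsCoindCocycle₂ H σ x)
    (v : D → coindV H.subtype σ)
    (hv : ∀ d₁ d₂ : D, x (r d₁, r d₂) = coind H.subtype σ (r d₁) (v d₂) - v (d₁ * d₂) + v d₁)
    (γ : G) (e₁ e₂ : mackeySubgroup H r γ) :
    (x (γ * r e₁ * γ⁻¹, γ * r e₂ * γ⁻¹)).1 1 =
      mackeyRep H r σ γ e₁ (mackeyShapiroW H r σ γ x v e₂)
        - mackeyShapiroW H r σ γ x v ((e₁ : D) * (e₂ : D)) + mackeyShapiroW H r σ γ x v e₁ := by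
  have h := mackeyShapiro_two H r σ x hx γ e₁ e₂
  have h1 := congrArg (fun f : coindV H.subtype σ => f.1 γ) (hv e₁ e₂)
  simp only [Submodule.coe_add, Submodule.coe_sub, Pi.add_apply, Pi.sub_apply,
    coind_val_apply] at h1
  rw [coindV_apply_mul_mackey H r σ γ e₁] at h1
  simp only [mackeyShapiroW, map_sub]
  linear_combination (norm := abel) h1 - h

/-- **Local triviality transports through Shapiro** (degree 1, cochain level). -/
theorem mackeyShapiro_trivial_one (c : G → coindV H.subtype σ) (hc : IsCoindCocycle₁ H σ c)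
    (f : coindV H.subtype σ)
    (hf : ∀ d : D, c (r d) = coind H.subtype σ (r d) f - f)
    (γ : G) (e : mackeySubgroup H r γ) :
    (c (γ * r e * γ⁻¹)).1 1 =
      mackeyRep H r σ γ e (f.1 γ + (c γ⁻¹).1 γ) - (f.1 γ + (c γ⁻¹).1 γ) := by
  have h := mackeyShapiro_one H r σ c hc γ e
  have h1 := congrArg (fun f : coindV H.subtype σ => f.1 γ) (hf e)
  simp only [Submodule.coe_sub, Pi.sub_apply, coind_val_apply] at h1
  rw [coindV_apply_mul_mackey H r σ γ e] at h1
  simp only [map_add]
  linear_combination (norm := abel) h1 - h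

/-- Level of the homotopy: if `x` is right-invariant under `U` in both variables, then `u` is
right-invariant under every `s` with `r s ∈ U` and `γ * r s * γ⁻¹ ∈ U`. -/
lemma mackeyShapiroU_mul_right (x : G × G → coindV H.subtype σ) (U : Subgroup G)
    (hxU : ∀ g g' s s' : G, s ∈ U → s' ∈ U → x (g * s, g' * s') = x (g, g'))
    (γ : G) (e s : D) (hs : r s ∈ U) (hs' : γ * r s * γ⁻¹ ∈ U) :
    mackeyShapiroU H r σ γ x (e * s) = mackeyShapiroU H r σ γ x e := by
  have h1 : x (r (e * s), γ⁻¹) = x (r e, γ⁻¹) := by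
    have := hxU (r e) γ⁻¹ (r s) 1 hs U.one_mem
    rwa [mul_one, ← map_mul] at this
  have h2 : x (γ⁻¹, γ * r (e * s) * γ⁻¹) = x (γ⁻¹, γ * r e * γ⁻¹) := by
    have := hxU γ⁻¹ (γ * r e * γ⁻¹) 1 (γ * r s * γ⁻¹) U.one_mem hs'
    have e' : γ * r e * γ⁻¹ * (γ * r s * γ⁻¹) = γ * r (e * s) * γ⁻¹ := by
      rw [map_mul]; group
    rwa [mul_one, e'] at this
  simp only [mackeyShapiroU, h1, h2]

/-- Level of the transported primitive. -/
lemma mackeyShapiroW_mul_right (x : G × G → coindV H.subtype σ) (v : D → coindV H.subtype σ)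
    (U : Subgroup G)
    (hxU : ∀ g g' s s' : G, s ∈ U → s' ∈ U → x (g * s, g' * s') = x (g, g'))
    (γ : G) (e s : D) (hv : v (e * s) = v e) (hs : r s ∈ U) (hs' : γ * r s * γ⁻¹ ∈ U) :
    mackeyShapiroW H r σ γ x v (e * s) = mackeyShapiroW H r σ γ x v e := by
  simp only [mackeyShapiroW, hv, mackeyShapiroU_mul_right H r σ x U hxU γ e s hs hs']

end Generic

section FixingSubgroup

variable {K L : Type*} [Field K] [Field L] [Algebra K L]

/-- `γ τ γ⁻¹` fixes `γ F` only if `τ` fixes `F`. -/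
lemma mem_fixingSubgroup_of_conj_mem_map (F : IntermediateField K L) (γ τ : L ≃ₐ[K] L)
    (h : γ * τ * γ⁻¹ ∈ (F.map (γ : L →ₐ[K] L)).fixingSubgroup) : τ ∈ F.fixingSubgroup := by
  rw [IntermediateField.mem_fixingSubgroup_iff] at h ⊢
  intro x hx
  have h1 := h (γ x) ((IntermediateField.mem_map F).2 ⟨x, hx, rfl⟩)
  have h2 : γ (τ (γ⁻¹ (γ x))) = γ x := h1
  have h3 : γ⁻¹ (γ x) = x := by
    show (γ⁻¹ * γ) x = x
    rw [inv_mul_cancel]; rfl
  rw [h3] at h2
  exact γ.injective h2

end FixingSubgroup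

section Frozen

open groupCohomology CategoryTheory

variable {k : Type} [CommRing k]
variable (H : Subgroup (AlgebraicClosure ℚ ≃ₐ[ℚ] AlgebraicClosure ℚ)) (N : Rep k H)
variable {D : Type} [Group D] (r : D →* (AlgebraicClosure ℚ ≃ₐ[ℚ] AlgebraicClosure ℚ))
variable (γ : AlgebraicClosure ℚ ≃ₐ[ℚ] AlgebraicClosure ℚ)

/-- The conjugated local map `D_γ → G_ℚ`, `e ↦ γ * r e * γ⁻¹`; it factors through `H`. -/
noncomputable def mackeyLoc : mackeySubgroup H r γ →* (AlgebraicClosure ℚ ≃ₐ[ℚ] AlgebraicClosure ℚ) :=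
  H.subtype.comp (mackeyHom H r γ)

lemma mackeyLoc_apply (e : mackeySubgroup H r γ) : mackeyLoc H r γ e = γ * r e * γ⁻¹ := rfl

/-- Evaluation at `1`, `coind_H^G N → N` (the Shapiro map on coefficients). -/
noncomputable def coindEvOne : (Rep.coind H.subtype N) →ₗ[k] N :=
  LinearMap.proj 1 ∘ₗ (Representation.coindV H.subtype N.ρ).subtype

lemma coindEvOne_apply (f : Rep.coind H.subtype N) : coindEvOne H N f = f.1 1 := rfl

/-- Equivariance of evaluation at `1` along `H ≤ G`. -/
lemma coindEvOne_ρ (h : H) (f : Rep.coind H.subtype N) :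
    coindEvOne H N ((Rep.coind H.subtype N).ρ (h : AlgebraicClosure ℚ ≃ₐ[ℚ] AlgebraicClosure ℚ) f) =
      N.ρ h (coindEvOne H N f) := by
  have h1 := f.2 h 1
  simp only [Subgroup.coe_subtype, mul_one] at h1
  show f.1 (1 * (h : AlgebraicClosure ℚ ≃ₐ[ℚ] AlgebraicClosure ℚ)) = N.ρ h (f.1 1)
  rw [one_mul]
  exact h1

/-- Equivariance of evaluation at `1` along `mackeyLoc`. -/
lemma coindEvOne_mackeyLoc (e : mackeySubgroup H r γ) (f : Rep.coind H.subtype N) :
    coindEvOne H N ((Rep.coind H.subtype N).ρ (mackeyLoc H r γ e) f) =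
      (Rep.res (mackeyHom H r γ) N).ρ e (coindEvOne H N f) :=
  coindEvOne_ρ H N (mackeyHom H r γ e) f

/-- Shapiro (evaluation at `1`) followed by restriction to `D_γ` along `e ↦ γ * r e * γ⁻¹`, on
the frozen carriers: `continuousH2 id (coind_H N) → continuousH2 (mackeyLoc) (res N)`. -/
noncomputable def shapiroLoc :
    continuousH2 (MonoidHom.id (AlgebraicClosure ℚ ≃ₐ[ℚ] AlgebraicClosure ℚ))
        (Rep.coind H.subtype N) →ₗ[k]
      continuousH2 (mackeyLoc H r γ) (Rep.res (mackeyHom H r γ) N) :=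
  continuousH2Map (rH := MonoidHom.id (AlgebraicClosure ℚ ≃ₐ[ℚ] AlgebraicClosure ℚ))
    (rG := mackeyLoc H r γ) (mackeyLoc H r γ) (fun _ => rfl) (coindEvOne H N)
    (coindEvOne_mackeyLoc H N r γ)

/-- **Local triviality transports through Shapiro**, cochain level on the frozen carriers:
a level 2-cocycle of `G_ℚ` with values in `coind_H N` whose restriction along `r` is a level
coboundary has Shapiro image whose restriction to every `D_γ` is a level coboundary. -/
theorem cochainsPullPush₂_mackeyLoc_mem_levelCoboundaries₂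
    (c : (AlgebraicClosure ℚ ≃ₐ[ℚ] AlgebraicClosure ℚ) × (AlgebraicClosure ℚ ≃ₐ[ℚ] AlgebraicClosure ℚ) →
      Rep.coind H.subtype N)
    (hc : c ∈ levelCocycles₂ (MonoidHom.id (AlgebraicClosure ℚ ≃ₐ[ℚ] AlgebraicClosure ℚ))
      (Rep.coind H.subtype N))
    (hloc : cochainsPullPush₂ r
        (LinearMap.id : (Rep.coind H.subtype N) →ₗ[k] Rep.res r (Rep.coind H.subtype N)) c ∈
      levelCoboundaries₂ r (Rep.res r (Rep.coind H.subtype N))) :
    cochainsPullPush₂ (mackeyLoc H r γ) (coindEvOne H N) c ∈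
      levelCoboundaries₂ (mackeyLoc H r γ) (Rep.res (mackeyHom H r γ) N) := by
  obtain ⟨hcoc, F₂, hF₂, hc₂⟩ := hc
  obtain ⟨v, ⟨F₁, hF₁, hv₁⟩, hv⟩ := (mem_levelCoboundaries₂_iff _ _ _).1 hloc
  have hx : IsCoindCocycle₂ H N.ρ c := (mem_cocycles₂_iff c).1 hcoc
  have hv' : ∀ d₁ d₂ : D, c (r d₁, r d₂) =
      Representation.coind H.subtype N.ρ (r d₁) (v d₂) - v (d₁ * d₂) + v d₁ := by
    intro d₁ d₂
    have := congrFun hv (d₁, d₂)
    rw [d₁₂_hom_apply] at this
    exact this.symm
  rw [mem_levelCoboundaries₂_iff]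
  refine ⟨fun e => mackeyShapiroW H r N.ρ γ c v (e : D), ?_, ?_⟩
  · haveI := hF₁; haveI := hF₂
    refine ⟨F₂ ⊔ F₂.map (γ : AlgebraicClosure ℚ →ₐ[ℚ] AlgebraicClosure ℚ) ⊔
      F₁.map (γ : AlgebraicClosure ℚ →ₐ[ℚ] AlgebraicClosure ℚ), inferInstance, ?_⟩
    intro e s hs
    have hs' : γ * r (s : D) * γ⁻¹ ∈ (F₂ ⊔ F₂.map (γ : AlgebraicClosure ℚ →ₐ[ℚ] AlgebraicClosure ℚ) ⊔
      F₁.map (γ : AlgebraicClosure ℚ →ₐ[ℚ] AlgebraicClosure ℚ)).fixingSubgroup := hs
    have ha : γ * r (s : D) * γ⁻¹ ∈ F₂.fixingSubgroup :=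
      IntermediateField.fixingSubgroup_antitone (le_sup_left.trans le_sup_left) hs'
    have hb : r (s : D) ∈ F₂.fixingSubgroup :=
      mem_fixingSubgroup_of_conj_mem_map F₂ γ _
        (IntermediateField.fixingSubgroup_antitone (le_sup_right.trans le_sup_left) hs')
    have hd : r (s : D) ∈ F₁.fixingSubgroup :=
      mem_fixingSubgroup_of_conj_mem_map F₁ γ _
        (IntermediateField.fixingSubgroup_antitone le_sup_right hs')
    show mackeyShapiroW H r N.ρ γ c v ((e : D) * (s : D)) = mackeyShapiroW H r N.ρ γ c v (e : D)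
    exact mackeyShapiroW_mul_right H r N.ρ c v F₂.fixingSubgroup
      (fun g g' s s' hs hs' => hc₂ g g' s s' hs hs') γ e s (hv₁ e s hd) hb ha
  · funext ⟨e₁, e₂⟩
    rw [d₁₂_hom_apply]
    exact (mackeyShapiro_trivial H r N.ρ c hx v hv' γ e₁ e₂).symm

/-- **Local triviality transports through Shapiro**, on classes: a class of
`continuousH2 id (coind_H N)` which dies under restriction along `r` dies under `shapiroLoc` for
every `γ`. -/
theorem shapiroLoc_eq_zero_of_res
    (y : continuousH2 (MonoidHom.id (AlgebraicClosure ℚ ≃ₐ[ℚ] AlgebraicClosure ℚ))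
      (Rep.coind H.subtype N))
    (hy : continuousH2Map (rH := MonoidHom.id (AlgebraicClosure ℚ ≃ₐ[ℚ] AlgebraicClosure ℚ))
      (rG := r) (A := Rep.coind H.subtype N) (B := Rep.res r (Rep.coind H.subtype N)) r
      (fun _ => rfl)
      (LinearMap.id : (Rep.coind H.subtype N) →ₗ[k] Rep.res r (Rep.coind H.subtype N))
      (fun _ _ => rfl) y = 0) :
    shapiroLoc H N r γ y = 0 := by
  obtain ⟨c, rfl⟩ := Submodule.mkQ_surjective _ y
  have h1 : cochainsPullPush₂ r
      (LinearMap.id : (Rep.coind H.subtype N) →ₗ[k] Rep.res r (Rep.coind H.subtype N)) c.1 ∈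
      levelCoboundaries₂ r (Rep.res r (Rep.coind H.subtype N)) :=
    (continuousH2π_eq_zero_iff r _ _).1 hy
  exact (continuousH2π_eq_zero_iff (mackeyLoc H r γ) _ _).2
    (cochainsPullPush₂_mackeyLoc_mem_levelCoboundaries₂ H N r γ c.1 c.2 h1)

/-- **The Sha clause of Shapiro in degree 2**: a class of `continuousH2S S (coind_H N)` killed by
the frozen localisation `locRes₂S` along `r` is killed by `shapiroLoc` at every `γ`, i.e. its
Shapiro image in `H²(H, N)` is locally trivial at `e ↦ γ * r e * γ⁻¹` on `D_γ = r⁻¹(γ⁻¹ H γ)`. -/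
theorem shapiroLoc_locRes₂S_eq_zero (S : Finset Nat.Primes)
    (x : continuousH2S S (Rep.coind H.subtype N))
    (hx : locRes₂S S (Rep.coind H.subtype N) r x = 0) :
    shapiroLoc H N r γ (continuousH2SToContinuousH2 S (Rep.coind H.subtype N) x) = 0 :=
  shapiroLoc_eq_zero_of_res H N r γ _ hx

end Frozen

end Fermat.Agent.S55.helper2556
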