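/-
S55 (helper2556): local numerals of the induced module `coind_{G_F}^{G_ℚ} 𝔽_p` on the frozen
carriers, by Mackey decomposition.

* Generic part (any groups): invariants and `H¹` of `Res_r Coind_H σ` through the Mackey
  components (`mackeyInvariantsEquiv`, `exists_primitive_of_mackey_components`), and the orbit
  count `∑ i, [D : D_{γ i}] = [G : H]` (`sum_index_mackeySubgroup`).
* Frozen part: for `F` a number field inside `ℚ̄` and `A_F = helper3071.indRep p F`,
  `pi0 S A_F = nPl S F` and, if `ζ_p ∈ F`, `pi1 S A_F ≤ 2 * nPl S F + [F : ℚ]`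
  (the inputs (E4), (E5) of the base case `E*(A_F) ≤ 0` of the soft squeeze).
-/
import Mathlib
import Fermat.Prelude.Def_GroupCohomology_ContinuousUnramified
import Fermat.Agent.S55.helper2556_MackeyShapiro
import Fermat.Agent.S55.helper304_LocalH1Frozen
import Fermat.Agent.S55.helper4058_Krasner
import Fermat.Agent.S55.helper4727_PlacesOrbits
import Fermat.Agent.S55.helper2945_SoftSpec
import Fermat.Agent.S55.helper3071_GlobalBridge

set_option autoImplicit false

namespace Fermat.Agent.S55.helper2556

open Representation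

section Generic

variable {k G D : Type*} [CommRing k] [Group G] [Group D]
variable (H : Subgroup G) (r : D →* G)
variable {A : Type*} [AddCommGroup A] [Module k A] (σ : Representation k H A)
variable {I : Type*} {γ : I → G}

/-- The value at `g` of a `D`-invariant element of `Res_r Coind_H σ` is invariant under the
twisted action of `D_g`. -/
lemma eval_mem_invariants_mackeyRep (g : G) (f : coindV H.subtype σ)
    (hf : ∀ d : D, coind H.subtype σ (r d) f = f) :
    f.1 g ∈ invariants (mackeyRep H r σ g) := by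
  intro e
  rw [← coindV_apply_mul_mackey H r σ g e f]
  exact congrArg (fun F : coindV H.subtype σ => F.1 g) (hf e)

variable {H r σ}

/-- The constant function on `D` with an invariant value, as an element of the coinduced module
of `D_g`. -/
def constCoind (g : G) (a : invariants (mackeyRep H r σ g)) :
    coindV (mackeySubgroup H r g).subtype (mackeyRep H r σ g) :=
  ⟨fun _ => (a : A), fun e _ => (a.2 e).symm⟩

lemma coind_mackeyInv_constCoind (hγ : IsDoubleCosetReps H r γ)
    (a : ∀ i, invariants (mackeyRep H r σ (γ i))) (d : D) :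
    coind H.subtype σ (r d) (mackeyInv hγ fun i => constCoind (γ i) (a i)) =
      mackeyInv hγ fun i => constCoind (γ i) (a i) := by
  apply mackeyMap_injective (σ := σ) hγ
  funext i
  have h : mackeyMap H r σ γ (mackeyInv hγ fun i => constCoind (γ i) (a i)) =
      fun i => constCoind (γ i) (a i) := mackeyMap_mackeyInv hγ _
  have h' := congrFun h i
  rw [mackeyMap_apply] at h'
  rw [mackeyMap_apply, mackeyMap_apply, mackeyProj_coind, h']
  rfl

lemma mackeyInv_constCoind_eval (hγ : IsDoubleCosetReps H r γ) (f : coindV H.subtype σ)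
    (hf : ∀ d : D, coind H.subtype σ (r d) f = f) :
    mackeyInv hγ (fun i => constCoind (γ i)
      ⟨f.1 (γ i), eval_mem_invariants_mackeyRep H r σ (γ i) f hf⟩) = f := by
  apply mackeyMap_injective (σ := σ) hγ
  have h : mackeyMap H r σ γ (mackeyInv hγ fun i => constCoind (γ i)
      ⟨f.1 (γ i), eval_mem_invariants_mackeyRep H r σ (γ i) f hf⟩) =
      fun i => constCoind (γ i)
        ⟨f.1 (γ i), eval_mem_invariants_mackeyRep H r σ (γ i) f hf⟩ := mackeyMap_mackeyInv hγ _
  rw [h]
  funext i
  apply Subtype.ext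
  funext d
  show f.1 (γ i) = f.1 (γ i * r d)
  exact (congrArg (fun F : coindV H.subtype σ => F.1 (γ i)) (hf d)).symm

lemma mackeyInv_constCoind_apply (hγ : IsDoubleCosetReps H r γ)
    (a : ∀ i, invariants (mackeyRep H r σ (γ i))) (i : I) :
    (mackeyInv hγ fun i => constCoind (γ i) (a i)).1 (γ i) = (a i : A) := by
  have h := mackeyInv_apply hγ (fun i => constCoind (γ i) (a i)) i 1 1
  simp only [OneMemClass.coe_one, one_mul, map_one, mul_one, Module.End.one_apply] at h
  exact h

/-- **Mackey in degree 0**: the invariants of `Res_r Coind_H σ` are the product over the double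
cosets of the invariants of the twisted representations of the `D_{γ i}`. -/
noncomputable def mackeyInvariantsEquiv (hγ : IsDoubleCosetReps H r γ) :
    invariants ((coind H.subtype σ).comp r) ≃ₗ[k] ∀ i, invariants (mackeyRep H r σ (γ i)) where
  toFun f i := ⟨(f : coindV H.subtype σ).1 (γ i),
    eval_mem_invariants_mackeyRep H r σ (γ i) f f.2⟩
  map_add' f f' := rfl
  map_smul' c f := rfl
  invFun a := ⟨mackeyInv hγ fun i => constCoind (γ i) (a i),
    fun d => coind_mackeyInv_constCoind hγ a d⟩
  left_inv f := Subtype.ext (mackeyInv_constCoind_eval hγ f.1 (fun d => f.2 d))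
  right_inv a := by
    funext i
    exact Subtype.ext (mackeyInv_constCoind_apply hγ a i)

@[simp] lemma mackeyInvariantsEquiv_apply (hγ : IsDoubleCosetReps H r γ)
    (f : invariants ((coind H.subtype σ).comp r)) (i : I) :
    ((mackeyInvariantsEquiv hγ f i : invariants (mackeyRep H r σ (γ i))) : A) =
      (f : coindV H.subtype σ).1 (γ i) := rfl

/-- **Mackey in degree 1, injectivity** (cocycle level): a 1-cocycle of `D` with values in
`Res_r Coind_H σ` whose Mackey components `e ↦ c e (γ i)` are coboundaries on the `D_{γ i}` is a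
coboundary. -/
theorem exists_primitive_of_mackey_components (hγ : IsDoubleCosetReps H r γ)
    (c : D → coindV H.subtype σ)
    (hc : ∀ d d' : D, c (d * d') = coind H.subtype σ (r d) (c d') + c d)
    (n : I → A)
    (hn : ∀ (i : I) (e : mackeySubgroup H r (γ i)),
      (c e).1 (γ i) = mackeyRep H r σ (γ i) e (n i) - n i) :
    ∃ f : coindV H.subtype σ, ∀ d : D, c d = coind H.subtype σ (r d) f - f := by
  let ψ : ∀ i, coindV (mackeySubgroup H r (γ i)).subtype (mackeyRep H r σ (γ i)) := fun i =>
    ⟨fun d => (c d).1 (γ i) + n i, by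
      intro e d
      have h1 := congrArg (fun F : coindV H.subtype σ => F.1 (γ i)) (hc e d)
      simp only [Submodule.coe_add, Pi.add_apply, coind_val_apply] at h1
      rw [coindV_apply_mul_mackey H r σ (γ i) e] at h1
      show (c ((e : D) * d)).1 (γ i) + n i = mackeyRep H r σ (γ i) e ((c d).1 (γ i) + n i)
      rw [h1, hn i e, map_add]
      abel⟩
  have hψ : ∀ (i : I) (d : D), (mackeyInv hγ ψ).1 (γ i * r d) = (c d).1 (γ i) + n i := by
    intro i d
    have h := mackeyInv_apply hγ ψ i 1 d
    simp only [OneMemClass.coe_one, one_mul, map_one, Module.End.one_apply] at h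
    exact h
  refine ⟨mackeyInv hγ ψ, fun d => ?_⟩
  apply (mackeyEquiv σ hγ).injective
  funext i
  apply Subtype.ext
  funext d'
  show (c d).1 (γ i * r d') =
    (mackeyInv hγ ψ).1 (γ i * r d' * r d) - (mackeyInv hγ ψ).1 (γ i * r d')
  have h1 := congrArg (fun F : coindV H.subtype σ => F.1 (γ i)) (hc d' d)
  simp only [Submodule.coe_add, Pi.add_apply, coind_val_apply] at h1
  rw [mul_assoc, ← map_mul, hψ, hψ, h1]
  abel

end Generic

section OrbitCount

variable {G D : Type*} [Group G] [Group D] (H : Subgroup G) (r : D →* G)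

/-- The map `D_g \ D → H \ G`, `D_g d ↦ H g r(d)`. -/
def mackeyCosetMap (g : G) :
    Quotient (QuotientGroup.rightRel (mackeySubgroup H r g)) →
      Quotient (QuotientGroup.rightRel H) :=
  Quotient.map' (fun d => g * r d) (by
    intro a b hab
    rw [QuotientGroup.rightRel_apply] at hab ⊢
    have h : g * r b * (g * r a)⁻¹ = g * r (b * a⁻¹) * g⁻¹ := by
      rw [map_mul, map_inv]; group
    rw [h]
    exact hab)

lemma mackeyCosetMap_mk (g : G) (d : D) :
    mackeyCosetMap H r g (Quotient.mk'' d) = Quotient.mk'' (g * r d) := rfl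

variable {H r} {I : Type*} {γ : I → G}

lemma mackeyCosetMap_sigma_bijective (hγ : IsDoubleCosetReps H r γ) :
    Function.Bijective
      (fun x : (Σ i, Quotient (QuotientGroup.rightRel (mackeySubgroup H r (γ i)))) =>
        mackeyCosetMap H r (γ x.1) x.2) := by
  constructor
  · rintro ⟨i, x⟩ ⟨j, y⟩ hxy
    induction x using Quotient.inductionOn' with | _ d => ?_
    induction y using Quotient.inductionOn' with | _ d' => ?_
    have h1 : (Quotient.mk'' (γ i * r d) : Quotient (QuotientGroup.rightRel H)) =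
        Quotient.mk'' (γ j * r d') := hxy
    rw [Quotient.eq''] at h1
    rw [QuotientGroup.rightRel_apply] at h1
    have hij : i = j := by
      refine hγ.disj i j ⟨γ j * r d' * (γ i * r d)⁻¹, h1, d * d'⁻¹, ?_⟩
      rw [map_mul, map_inv]; group
    subst hij
    congr 1
    rw [Quotient.eq'']
    rw [QuotientGroup.rightRel_apply]
    show γ i * r (d' * d⁻¹) * (γ i)⁻¹ ∈ H
    have h : γ i * r (d' * d⁻¹) * (γ i)⁻¹ = γ i * r d' * (γ i * r d)⁻¹ := by
      rw [map_mul, map_inv]; group
    rw [h]
    exact h1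
  · intro y
    induction y using Quotient.inductionOn' with | _ x => ?_
    obtain ⟨i, h, hh, d, rfl⟩ := hγ.cover x
    refine ⟨⟨i, Quotient.mk'' d⟩, ?_⟩
    show (Quotient.mk'' (γ i * r d) : Quotient (QuotientGroup.rightRel H)) =
      Quotient.mk'' (h * γ i * r d)
    rw [Quotient.eq'']
    rw [QuotientGroup.rightRel_apply]
    have e : h * γ i * r d * (γ i * r d)⁻¹ = h := by group
    rw [e]
    exact hh

lemma card_rightRel_eq_index (U : Subgroup G) :
    Nat.card (Quotient (QuotientGroup.rightRel U)) = U.index :=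
  Nat.card_congr (QuotientGroup.quotientRightRelEquivQuotientLeftRel U)

/-- **Orbit count**: `∑ i, [D : D_{γ i}] = [G : H]`. -/
theorem sum_index_mackeySubgroup [Fintype I] [H.FiniteIndex] (hγ : IsDoubleCosetReps H r γ) :
    ∑ i, (mackeySubgroup H r (γ i)).index = H.index := by
  haveI : Finite (Quotient (QuotientGroup.rightRel H)) :=
    Finite.of_equiv _ (QuotientGroup.quotientRightRelEquivQuotientLeftRel H).symm
  have hbij := mackeyCosetMap_sigma_bijective hγ
  haveI : ∀ i, Finite (Quotient (QuotientGroup.rightRel (mackeySubgroup H r (γ i)))) := by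
    intro i
    refine Finite.of_injective (mackeyCosetMap H r (γ i)) ?_
    intro x y hxy
    have := hbij.1 (a₁ := ⟨i, x⟩) (a₂ := ⟨i, y⟩) hxy
    exact eq_of_heq (Sigma.mk.inj this).2
  rw [← card_rightRel_eq_index H, ← Nat.card_congr (Equiv.ofBijective _ hbij), Nat.card_sigma]
  exact Finset.sum_congr rfl fun i _ => (card_rightRel_eq_index _).symm

end OrbitCount

open groupCohomology CategoryTheory

section FrozenH1

variable {k : Type} [CommRing k]
variable (H : Subgroup (AlgebraicClosure ℚ ≃ₐ[ℚ] AlgebraicClosure ℚ)) (N : Rep k H)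
variable {D : Type} [Group D] (r : D →* (AlgebraicClosure ℚ ≃ₐ[ℚ] AlgebraicClosure ℚ))
variable (γ : AlgebraicClosure ℚ ≃ₐ[ℚ] AlgebraicClosure ℚ)

/-- Evaluation at `γ`, as a morphism of representations of `D_γ`. -/
noncomputable def coindEvAt :
    Rep.res (mackeySubgroup H r γ).subtype (Rep.res r (Rep.coind H.subtype N)) ⟶
      Rep.res (mackeyHom H r γ) N :=
  Rep.ofHom (LinearMap.intertwiningMap_of_isIntertwiningMap
    (ρ := ((Representation.coind H.subtype N.ρ).comp r).comp (mackeySubgroup H r γ).subtype)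
    (σ := N.ρ.comp (mackeyHom H r γ))
    (LinearMap.proj γ ∘ₗ (Representation.coindV H.subtype N.ρ).subtype)
    (fun e f => coindV_apply_mul_mackey H r N.ρ γ e f))

lemma coindEvAt_hom_apply (f : Rep.coind H.subtype N) :
    (coindEvAt H N r γ).hom f = f.1 γ := rfl

/-- The `γ`-component of the Mackey map on `H¹`. -/
noncomputable def mackeyH1 :
    H1 (Rep.res r (Rep.coind H.subtype N)) →ₗ[k] H1 (Rep.res (mackeyHom H r γ) N) :=
  (groupCohomology.map (mackeySubgroup H r γ).subtype (coindEvAt H N r γ) 1).hom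

lemma mackeyH1_H1π (c : cocycles₁ (Rep.res r (Rep.coind H.subtype N))) :
    mackeyH1 H N r γ ((H1π _).hom c) =
      (H1π _).hom ((mapCocycles₁ (mackeySubgroup H r γ).subtype (coindEvAt H N r γ)).hom c) :=
  H1π_comp_map_apply (mackeySubgroup H r γ).subtype (coindEvAt H N r γ) c

lemma mapCocycles₁_coindEvAt_apply (c : cocycles₁ (Rep.res r (Rep.coind H.subtype N)))
    (e : mackeySubgroup H r γ) :
    ((mapCocycles₁ (mackeySubgroup H r γ).subtype (coindEvAt H N r γ)).hom c :
      mackeySubgroup H r γ → N) e = ((c : D → Rep.coind H.subtype N) (e : D)).1 γ := by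
  rw [coe_mapCocycles₁]
  rfl

/-- The Mackey components of a level-constant cocycle are level-constant (for the conjugated
structure map `mackeyLoc`). -/
theorem mackeyH1_mem_continuousH1 (x : H1 (Rep.res r (Rep.coind H.subtype N)))
    (hx : x ∈ continuousH1 r (Rep.res r (Rep.coind H.subtype N))) :
    mackeyH1 H N r γ x ∈ continuousH1 (mackeyLoc H r γ) (Rep.res (mackeyHom H r γ) N) := by
  obtain ⟨c, ⟨F₁, hF₁, hc⟩, rfl⟩ := (mem_continuousH1_iff _ _ _).1 hx
  rw [mackeyH1_H1π]
  refine (mem_continuousH1_iff _ _ _).2 ⟨_, ?_, rfl⟩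
  haveI := hF₁
  refine ⟨F₁.map (γ : AlgebraicClosure ℚ →ₐ[ℚ] AlgebraicClosure ℚ), inferInstance, ?_⟩
  intro e s hs
  have hs' : r (s : D) ∈ F₁.fixingSubgroup := mem_fixingSubgroup_of_conj_mem_map F₁ γ _ hs
  rw [mapCocycles₁_coindEvAt_apply, mapCocycles₁_coindEvAt_apply]
  have := hc (e : D) (s : D) hs'
  show ((c : D → Rep.coind H.subtype N) ((e : D) * (s : D))).1 γ = _
  rw [this]

variable {I : Type} {γs : I → (AlgebraicClosure ℚ ≃ₐ[ℚ] AlgebraicClosure ℚ)}

/-- **Mackey in degree 1 on `H¹`**: the Mackey components are jointly injective. -/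
theorem eq_zero_of_mackeyH1_eq_zero (hγ : IsDoubleCosetReps H r γs)
    (x : H1 (Rep.res r (Rep.coind H.subtype N)))
    (hx : ∀ i, mackeyH1 H N r (γs i) x = 0) : x = 0 := by
  induction x using H1_induction_on with | _ c => ?_
  have h1 : ∀ i, ∃ n : N, ∀ e : mackeySubgroup H r (γs i),
      ((c : D → Rep.coind H.subtype N) (e : D)).1 (γs i) =
        mackeyRep H r N.ρ (γs i) e n - n := by
    intro i
    have h := hx i
    rw [mackeyH1_H1π] at h
    have h2 := (H1π_eq_zero_iff _).1 h
    obtain ⟨n, hn⟩ := h2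
    refine ⟨n, fun e => ?_⟩
    have h3 := congrFun hn e
    rw [mapCocycles₁_coindEvAt_apply] at h3
    rw [← h3, d₀₁_hom_apply]
    rfl
  choose n hn using h1
  have hc : ∀ d d' : D, (c : D → Rep.coind H.subtype N) (d * d') =
      Representation.coind H.subtype N.ρ (r d) ((c : D → Rep.coind H.subtype N) d') +
        (c : D → Rep.coind H.subtype N) d := (mem_cocycles₁_iff _).1 c.2
  obtain ⟨f, hf⟩ := exists_primitive_of_mackey_components hγ
    (c : D → Rep.coind H.subtype N) hc n hn
  refine (H1π_eq_zero_iff c).2 ⟨f, ?_⟩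
  funext d
  rw [d₀₁_hom_apply]
  exact (hf d).symm

end FrozenH1

section Count

variable {k : Type} [Field k]
variable (H : Subgroup (AlgebraicClosure ℚ ≃ₐ[ℚ] AlgebraicClosure ℚ)) (N : Rep k H)
variable {D : Type} [Group D] (r : D →* (AlgebraicClosure ℚ ≃ₐ[ℚ] AlgebraicClosure ℚ))
variable {I : Type} [Fintype I] {γs : I → (AlgebraicClosure ℚ ≃ₐ[ℚ] AlgebraicClosure ℚ)}

/-- The combined Mackey map on the frozen `continuousH1`. -/
noncomputable def mackeyH1Pi (γs : I → (AlgebraicClosure ℚ ≃ₐ[ℚ] AlgebraicClosure ℚ)) :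
    continuousH1 r (Rep.res r (Rep.coind H.subtype N)) →ₗ[k]
      ∀ i, continuousH1 (mackeyLoc H r (γs i)) (Rep.res (mackeyHom H r (γs i)) N) :=
  LinearMap.pi fun i => (mackeyH1 H N r (γs i)).restrict
    (fun x hx => mackeyH1_mem_continuousH1 H N r (γs i) x hx)

omit [Fintype I] in
lemma mackeyH1Pi_injective (hγ : IsDoubleCosetReps H r γs) :
    Function.Injective (mackeyH1Pi H N r γs) := by
  rw [injective_iff_map_eq_zero]
  intro x hx
  apply Subtype.ext
  apply eq_zero_of_mackeyH1_eq_zero H N r hγ
  intro i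
  exact congrArg Subtype.val (congrFun hx i)

/-- **Mackey bound for the frozen local `H¹` of a coinduced module**. -/
theorem finrank_continuousH1_res_coind_le (hγ : IsDoubleCosetReps H r γs)
    (hfin : ∀ i, FiniteDimensional k
      (continuousH1 (mackeyLoc H r (γs i)) (Rep.res (mackeyHom H r (γs i)) N))) :
    Module.finrank k (continuousH1 r (Rep.res r (Rep.coind H.subtype N))) ≤
      ∑ i, Module.finrank k
        (continuousH1 (mackeyLoc H r (γs i)) (Rep.res (mackeyHom H r (γs i)) N)) := by
  rw [← Module.finrank_pi_fintype k]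
  exact LinearMap.finrank_le_finrank_of_injective (mackeyH1Pi_injective H N r hγ)

theorem finiteDimensional_continuousH1_res_coind (hγ : IsDoubleCosetReps H r γs)
    (hfin : ∀ i, FiniteDimensional k
      (continuousH1 (mackeyLoc H r (γs i)) (Rep.res (mackeyHom H r (γs i)) N))) :
    FiniteDimensional k (continuousH1 r (Rep.res r (Rep.coind H.subtype N))) :=
  FiniteDimensional.of_injective (mackeyH1Pi H N r γs) (mackeyH1Pi_injective H N r hγ)

/-- **Mackey count for the invariants of a coinduced trivial module**. -/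
theorem finrank_invariants_res_coind_trivial (hγ : IsDoubleCosetReps H r γs) :
    Module.finrank k (Representation.invariants
      (Rep.res r (Rep.coind H.subtype (Rep.trivial k H k))).ρ) = Fintype.card I := by
  have h1 : ∀ i, Module.finrank k
      (invariants (mackeyRep H r (Rep.trivial k H k).ρ (γs i))) = 1 := by
    intro i
    have h2 : invariants (mackeyRep H r (Rep.trivial k H k).ρ (γs i)) = ⊤ := by
      rw [eq_top_iff]
      intro x _ e
      rfl
    rw [h2, finrank_top, Module.finrank_self]
  have h3 := (mackeyInvariantsEquiv (σ := (Rep.trivial k H k).ρ) hγ).finrank_eq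
  rw [Module.finrank_pi_fintype k] at h3
  simp only [h1, Finset.sum_const, Finset.card_univ, smul_eq_mul, mul_one] at h3
  exact h3

end Count

open ExtCitation

section Local

/-- The level structures `mackeyLoc` (conjugated) and `r ∘ subtype` on `D_γ` define the same
level-constant functions. -/
lemma isLevelConstant₁_mackeyLoc_iff {D : Type} [Group D]
    (H : Subgroup (AlgebraicClosure ℚ ≃ₐ[ℚ] AlgebraicClosure ℚ))
    (r : D →* (AlgebraicClosure ℚ ≃ₐ[ℚ] AlgebraicClosure ℚ))
    (γ : AlgebraicClosure ℚ ≃ₐ[ℚ] AlgebraicClosure ℚ) {X : Type*}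
    (f : mackeySubgroup H r γ → X) :
    IsLevelConstant₁ (mackeyLoc H r γ) f ↔
      IsLevelConstant₁ (r.comp (mackeySubgroup H r γ).subtype) f := by
  constructor
  · rintro ⟨F', hF', h⟩
    haveI := hF'
    refine ⟨F'.map ((γ⁻¹ : AlgebraicClosure ℚ ≃ₐ[ℚ] AlgebraicClosure ℚ) :
      AlgebraicClosure ℚ →ₐ[ℚ] AlgebraicClosure ℚ), inferInstance, fun e s hs => h e s ?_⟩
    exact (mem_mackeySubgroup_fixingSubgroup
      (MonoidHom.id (AlgebraicClosure ℚ ≃ₐ[ℚ] AlgebraicClosure ℚ)) F' γ (r (s : D))).2 hs
  · rintro ⟨F', hF', h⟩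
    haveI := hF'
    exact ⟨F'.map (γ : AlgebraicClosure ℚ →ₐ[ℚ] AlgebraicClosure ℚ), inferInstance,
      fun e s hs => h e s (mem_fixingSubgroup_of_conj_mem_map F' γ _ hs)⟩

lemma continuousH1_mackeyLoc_eq {k : Type} [CommRing k] {D : Type} [Group D]
    (H : Subgroup (AlgebraicClosure ℚ ≃ₐ[ℚ] AlgebraicClosure ℚ))
    (r : D →* (AlgebraicClosure ℚ ≃ₐ[ℚ] AlgebraicClosure ℚ))
    (γ : AlgebraicClosure ℚ ≃ₐ[ℚ] AlgebraicClosure ℚ) (B : Rep k (mackeySubgroup H r γ)) :
    continuousH1 (mackeyLoc H r γ) B =
      continuousH1 (r.comp (mackeySubgroup H r γ).subtype) B := by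
  ext x
  rw [mem_continuousH1_iff, mem_continuousH1_iff]
  constructor
  · rintro ⟨c, hc, rfl⟩
    exact ⟨c, (isLevelConstant₁_mackeyLoc_iff H r γ _).1 hc, rfl⟩
  · rintro ⟨c, hc, rfl⟩
    exact ⟨c, (isLevelConstant₁_mackeyLoc_iff H r γ _).2 hc, rfl⟩

variable (q p : ℕ) [Fact q.Prime] [Fact p.Prime]

/-- The local `h¹` of an open subgroup `U = Gal(ℚ̄_q / K)` of the frozen local Galois group
(`μ_p ⊂ K`), in terms of the index of `U`. -/
theorem finrank_continuousH1_of_eq_fixingSubgroup
    (U : Subgroup (PadicAlgCl q ≃ₐ[ℚ_[q]] PadicAlgCl q))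
    (K : IntermediateField ℚ_[q] (PadicAlgCl q)) [FiniteDimensional ℚ_[q] K]
    (hU : U = K.fixingSubgroup) {ζ : K} (hζ : IsPrimitiveRoot ζ p) :
    FiniteDimensional (ZMod p) (continuousH1 ((localGaloisToGlobal q).comp U.subtype)
        (Rep.trivial (ZMod p) ↥U (ZMod p))) ∧
      Module.finrank (ZMod p) (continuousH1 ((localGaloisToGlobal q).comp U.subtype)
        (Rep.trivial (ZMod p) ↥U (ZMod p))) = 2 + if q = p then U.index else 0 := by
  subst hU
  have hidx : Module.finrank ℚ_[q] K = K.fixingSubgroup.index :=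
    IntermediateField.finrank_eq_fixingSubgroup_index _ K
  refine ⟨?_, ?_⟩
  · have hcard := helper304.card_continuousH1_trivK q p K hζ
    have hp : 0 < p := (Fact.out : p.Prime).pos
    haveI : Finite (continuousH1 (helper304.rK q K) (helper304.trivK q p K)) :=
      Nat.finite_of_card_ne_zero (by rw [hcard]; exact (pow_pos hp _).ne')
    exact Module.Finite.of_finite
  · rw [← hidx]
    exact helper304.finrank_continuousH1_trivK q p K hζ

end Local

section LocalInd

variable (q p : ℕ) [Fact q.Prime] [Fact p.Prime]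
variable (F : IntermediateField ℚ (AlgebraicClosure ℚ)) [FiniteDimensional ℚ F]

/-- The Mackey piece at `γ` of the local cohomology of `coind_F 𝔽_p`: finiteness and the value of
`h¹`, for `ζ_p ∈ F`. -/
theorem finrank_continuousH1_mackeyPiece (hζ : helper3071.HasZeta p F)
    (γ : AlgebraicClosure ℚ ≃ₐ[ℚ] AlgebraicClosure ℚ) :
    FiniteDimensional (ZMod p) (continuousH1
        (mackeyLoc F.fixingSubgroup (localGaloisToGlobal q) γ)
        (Rep.res (mackeyHom F.fixingSubgroup (localGaloisToGlobal q) γ)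
          (helper3071.trivF p F))) ∧
      Module.finrank (ZMod p) (continuousH1
        (mackeyLoc F.fixingSubgroup (localGaloisToGlobal q) γ)
        (Rep.res (mackeyHom F.fixingSubgroup (localGaloisToGlobal q) γ)
          (helper3071.trivF p F))) =
        2 + if q = p then
          (mackeySubgroup F.fixingSubgroup (localGaloisToGlobal q) γ).index else 0 := by
  obtain ⟨K, hK, hKmem⟩ := helper4058.exists_local_level_eq_comap q
    (F.map ((γ⁻¹ : AlgebraicClosure ℚ ≃ₐ[ℚ] AlgebraicClosure ℚ) :
      AlgebraicClosure ℚ →ₐ[ℚ] AlgebraicClosure ℚ))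
  haveI := hK
  have hU : mackeySubgroup F.fixingSubgroup (localGaloisToGlobal q) γ = K.fixingSubgroup := by
    ext τ
    rw [mem_mackeySubgroup_fixingSubgroup, hKmem]
  obtain ⟨ζ₀, hζ₀F, hζ₀⟩ := hζ
  have hζK : padicEmbedding q ((γ⁻¹ : AlgebraicClosure ℚ ≃ₐ[ℚ] AlgebraicClosure ℚ) ζ₀) ∈ K := by
    rw [← InfiniteGalois.fixedField_fixingSubgroup K, IntermediateField.mem_fixedField_iff]
    intro τ hτ
    rw [← padicEmbedding_localGaloisToGlobal]
    congr 1
    exact (IntermediateField.mem_fixingSubgroup_iff _ _).1 ((hKmem τ).1 hτ) _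
      ((IntermediateField.mem_map _).2 ⟨ζ₀, hζ₀F, rfl⟩)
  have hprim : IsPrimitiveRoot
      (⟨padicEmbedding q ((γ⁻¹ : AlgebraicClosure ℚ ≃ₐ[ℚ] AlgebraicClosure ℚ) ζ₀), hζK⟩ : K)
      p := by
    have h1 : IsPrimitiveRoot
        (padicEmbedding q ((γ⁻¹ : AlgebraicClosure ℚ ≃ₐ[ℚ] AlgebraicClosure ℚ) ζ₀)) p :=
      (hζ₀.map_of_injective (γ⁻¹ : AlgebraicClosure ℚ ≃ₐ[ℚ] AlgebraicClosure ℚ).injective
        ).map_of_injective (padicEmbedding q).toRingHom.injective
    exact IsPrimitiveRoot.of_map_of_injective (f := K.val) h1 K.val.toRingHom.injective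
  rw [continuousH1_mackeyLoc_eq]
  exact finrank_continuousH1_of_eq_fixingSubgroup q p _ K hU hprim

end LocalInd

section LocalCount

variable (q p : ℕ) [Fact q.Prime] [Fact p.Prime]
variable (F : IntermediateField ℚ (AlgebraicClosure ℚ)) [FiniteDimensional ℚ F]

lemma isGalois_Qbar' : IsGalois ℚ (AlgebraicClosure ℚ) :=
  haveI : IsAlgClosure ℚ (AlgebraicClosure ℚ) := ⟨inferInstance, AlgebraicClosure.isAlgebraic ℚ⟩
  IsAlgClosure.isGalois ℚ (AlgebraicClosure ℚ)

omit [FiniteDimensional ℚ ↥F] in
lemma index_fixingSubgroup_eq_finrank : F.fixingSubgroup.index = Module.finrank ℚ F :=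
  haveI := isGalois_Qbar'
  (IntermediateField.finrank_eq_fixingSubgroup_index _ F).symm

lemma finiteIndex_fixingSubgroup : F.fixingSubgroup.FiniteIndex :=
  ⟨by rw [index_fixingSubgroup_eq_finrank]; exact Module.finrank_pos.ne'⟩

/-- **(E4), one prime**: `h⁰(ℚ_q, coind_F 𝔽_p)` is the number of double cosets
`G_F \ G_ℚ / G_{ℚ_q}`. -/
theorem finrank_invariants_local_indRep :
    Module.finrank (ZMod p) (Representation.invariants
      (Rep.res (localGaloisToGlobal q) (helper3071.indRep p F)).ρ) =
      Nat.card (DoubleCosets F.fixingSubgroup (localGaloisToGlobal q)) := by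
  haveI := helper4727.finite_mackeyDoubleCosets q F
  haveI : Fintype (DoubleCosets F.fixingSubgroup (localGaloisToGlobal q)) := Fintype.ofFinite _
  rw [Nat.card_eq_fintype_card]
  exact finrank_invariants_res_coind_trivial F.fixingSubgroup (localGaloisToGlobal q)
    (isDoubleCosetReps_doubleCosetRep F.fixingSubgroup (localGaloisToGlobal q))

/-- **(E5), one prime**: `h¹(ℚ_q, coind_F 𝔽_p) ≤ 2 · #{w | q} + [q = p] · [F : ℚ]` for
`ζ_p ∈ F`, on the frozen carrier. -/
theorem finrank_continuousH1_local_indRep_le (hζ : helper3071.HasZeta p F) :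
    Module.finrank (ZMod p) (continuousH1 (localGaloisToGlobal q)
        (Rep.res (localGaloisToGlobal q) (helper3071.indRep p F))) ≤
      2 * Nat.card (DoubleCosets F.fixingSubgroup (localGaloisToGlobal q)) +
        if q = p then Module.finrank ℚ F else 0 := by
  haveI := helper4727.finite_mackeyDoubleCosets q F
  haveI : Fintype (DoubleCosets F.fixingSubgroup (localGaloisToGlobal q)) := Fintype.ofFinite _
  haveI := finiteIndex_fixingSubgroup F
  have hγ := isDoubleCosetReps_doubleCosetRep F.fixingSubgroup (localGaloisToGlobal q)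
  have key := fun i => finrank_continuousH1_mackeyPiece q p F hζ
    (doubleCosetRep F.fixingSubgroup (localGaloisToGlobal q) i)
  refine (finrank_continuousH1_res_coind_le F.fixingSubgroup (helper3071.trivF p F)
    (localGaloisToGlobal q) hγ (fun i => (key i).1)).trans ?_
  rw [Finset.sum_congr rfl (fun i _ => (key i).2), Finset.sum_add_distrib, Finset.sum_const,
    Finset.card_univ, smul_eq_mul, Nat.card_eq_fintype_card, mul_comm]
  refine Nat.add_le_add_left ?_ _
  split_ifs with h
  · rw [sum_index_mackeySubgroup hγ, index_fixingSubgroup_eq_finrank]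
  · simp

theorem finiteDimensional_continuousH1_local_indRep (hζ : helper3071.HasZeta p F) :
    FiniteDimensional (ZMod p) (continuousH1 (localGaloisToGlobal q)
        (Rep.res (localGaloisToGlobal q) (helper3071.indRep p F))) := by
  haveI := helper4727.finite_mackeyDoubleCosets q F
  haveI : Fintype (DoubleCosets F.fixingSubgroup (localGaloisToGlobal q)) := Fintype.ofFinite _
  exact finiteDimensional_continuousH1_res_coind F.fixingSubgroup (helper3071.trivF p F)
    (localGaloisToGlobal q)
    (isDoubleCosetReps_doubleCosetRep F.fixingSubgroup (localGaloisToGlobal q))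
    (fun i => (finrank_continuousH1_mackeyPiece q p F hζ _).1)

end LocalCount

section Numerals

variable (p : ℕ) [Fact p.Prime] (S : Finset Nat.Primes)
variable (F : IntermediateField ℚ (AlgebraicClosure ℚ)) [FiniteDimensional ℚ F]

/-- **(E4)**: `π₀(coind_F 𝔽_p) = #{places of F above S}`. -/
theorem pi0_indRep : helper2945.pi0 S (helper3071.indRep p F) = helper3071.nPl S F := by
  unfold helper2945.pi0 helper3071.nPl
  rw [← helper4727.sum_card_mackeyDoubleCosets F S]
  refine Finset.sum_congr rfl (fun q _ => ?_)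
  haveI : Fact ((q : Nat.Primes) : ℕ).Prime := ⟨q.2⟩
  exact finrank_invariants_local_indRep (q : ℕ) p F

/-- **(E5)**: `π₁(coind_F 𝔽_p) ≤ 2 · #{places of F above S} + [F : ℚ]` for `ζ_p ∈ F`. -/
theorem pi1_indRep_le (hζ : helper3071.HasZeta p F) :
    helper2945.pi1 S (helper3071.indRep p F) ≤ 2 * helper3071.nPl S F + Module.finrank ℚ F := by
  unfold helper2945.pi1 helper3071.nPl
  rw [← helper4727.sum_card_mackeyDoubleCosets F S, Finset.mul_sum]
  have h1 : ∀ q ∈ S, Module.finrank (ZMod p) (continuousH1 (primeLocalToGlobal q)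
        (Rep.res (primeLocalToGlobal q) (helper3071.indRep p F))) ≤
      2 * Nat.card (DoubleCosets F.fixingSubgroup (primeLocalToGlobal q)) +
        if q = pPrime p then Module.finrank ℚ F else 0 := by
    intro q _
    haveI : Fact ((q : Nat.Primes) : ℕ).Prime := ⟨q.2⟩
    have h := finrank_continuousH1_local_indRep_le (q : ℕ) p F hζ
    have e : ((q : ℕ) = p) ↔ q = pPrime p :=
      ⟨fun h => Subtype.ext h, fun h => congrArg Subtype.val h⟩
    simp only [e] at h
    exact h
  refine (Finset.sum_le_sum h1).trans ?_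
  rw [Finset.sum_add_distrib]
  refine Nat.add_le_add_left ?_ _
  rw [Finset.sum_ite_eq']
  split_ifs <;> simp

end Numerals

/-- The closed statement `helper3562.Stmt_IndPi1` (input (LC1) of `helper3562.stmt_EStarBase_of`),
in unfolded form: `(indPi1 : helper3562.Stmt_IndPi1)` typechecks by unfolding. -/
theorem indPi1 : ∀ {p : ℕ} [Fact p.Prime], p ≠ 2 → ∀ (S : Finset Nat.Primes), pPrime p ∈ S →
    ∀ F : IntermediateField ℚ (AlgebraicClosure ℚ), helper3071.IsSFieldZeta S p F →
      helper2945.pi1 S (helper3071.indRep p F) ≤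
        2 * helper3071.nPl S F + Module.finrank ℚ F := fun {p} _ _ S _ F hF =>
  haveI : FiniteDimensional ℚ F := hF.unram.1
  pi1_indRep_le p S F hF.zeta

end Fermat.Agent.S55.helper2556
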