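/-
S55 (Poitou–Tate), number-field core, sub-leaf NF-GE-LIFT (helper2686).

The explicit cochain identity behind the lift of a cyclic Brauer class `[χ, a]` to a
`μ_p`-valued cocycle with "unit" values (team_s55_chat #90).

Abstract setting: a group `G` acting on a commutative group `M` (`MulDistribMulAction`),
a `G`-stable subgroup `U ≤ M` (the "units outside S"), a number `p`, a function `X : G → ℕ`
with `X g < p` and `X (g * h) = (X g + X h) % p` (the lift of a character `χ : G → ℤ/p`),
an element `s : G` with `X s = 1`, a `G`-fixed element `a : M` and an element `β : M` with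

* (b1) `h • β / β ∈ U` whenever `X h = 0`;
* (b2) `a / ∏_{k<p} s^k • β ∈ U`.

With `z (g, h) = a ^ ((X g + X h) / p)` (the cyclic cocycle of `(χ, a)`),
`ρ g = (∏_{k < X g} s^k • β)⁻¹`, `θ = ∏_{k<p} (s^k • β)^k`,
`ω g = a ^ X g * ρ g ^ p * (g • θ / θ)` and `c₁ = z * dρ` we prove

* (C1) `c₁ (g, h) ∈ U`;
* (C2) `ω g ∈ U`;
* (C3) `dω = c₁ ^ p`.

Consequently, for any choice `r` of `p`-th roots on `U`, with `η g = r (ω g)⁻¹`, the cochain
`c = c₁ * dη = z * d(ρ * η)` is a 2-cocycle with `c (g, h) ^ p = 1`, cohomologous to `z` in `M`.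
A right-invariance ("level") clause is included.

Mathlib only.
-/
import Mathlib

set_option autoImplicit false

namespace Fermat.Agent.S55.helper2686

open Finset

section CommGroupTools

variable {M : Type*} [CommGroup M]

/-- a commutative-group identity used for (C3) -/
theorem cg_identity (A R R' t t1 t2 a1 a2 a3 a4 : M) (h : a1 * a2 = a3 * a4) :
    (a1 * A * (t2 / t1)) * (a2 * R * (t1 / t)) / (a3 * R' * (t2 / t)) = a4 * (A * R / R') := by
  have h1 : a1 = a3 * a4 / a2 := by rw [← h, mul_div_cancel_right]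
  subst h1
  apply Additive.ofMul.injective
  simp only [ofMul_mul, ofMul_div]
  abel

end CommGroupTools

section Periodic

variable {Q : Type*} [CommGroup Q] (B : ℕ → Q) (p : ℕ)

/-- a shifted full period has the same product -/
theorem prod_shift_period (hB : ∀ k, B (k + p) = B k) (n : ℕ) :
    ∏ k ∈ range p, B (n + k) = ∏ k ∈ range p, B k := by
  induction n with
  | zero => simp
  | succ n ih =>
    have h1 : ∏ k ∈ range (p + 1), B (n + k) = (∏ k ∈ range p, B (n + (k + 1))) * B (n + 0) :=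
      Finset.prod_range_succ' (fun k => B (n + k)) p
    have h2 : ∏ k ∈ range (p + 1), B (n + k) = (∏ k ∈ range p, B (n + k)) * B (n + p) :=
      Finset.prod_range_succ (fun k => B (n + k)) p
    have h3 : ∏ k ∈ range p, B (n + 1 + k) = ∏ k ∈ range p, B (n + (k + 1)) :=
      Finset.prod_congr rfl fun k _ => by rw [add_assoc, add_comm 1 k]
    rw [h3]
    have h4 : (∏ k ∈ range p, B (n + (k + 1))) * B n = (∏ k ∈ range p, B (n + k)) * B n := by
      rw [add_zero] at h1
      rw [← h1, h2, hB]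
    rw [mul_right_cancel h4, ih]

/-- partial products over `n + p * e` terms -/
theorem prod_range_add_period (hB : ∀ k, B (k + p) = B k) (n e : ℕ) :
    ∏ k ∈ range (n + p * e), B k = (∏ k ∈ range n, B k) * (∏ k ∈ range p, B k) ^ e := by
  induction e with
  | zero => simp
  | succ e ih =>
    rw [Nat.mul_succ, ← add_assoc, Finset.prod_range_add, ih, prod_shift_period B p hB, pow_succ,
      mul_assoc]

/-- the weighted product `Θ j = ∏_{k<p} B (k + j) ^ k` -/
theorem theta_shift_succ (hB : ∀ k, B (k + p) = B k) (j : ℕ) :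
    (∏ k ∈ range p, B (k + (j + 1)) ^ k) * (∏ k ∈ range p, B k)
      = (∏ k ∈ range p, B (k + j) ^ k) * B j ^ p := by
  have hT : ∏ k ∈ range p, B (k + (j + 1)) = ∏ k ∈ range p, B k := by
    rw [← prod_shift_period B p hB (j + 1)]
    exact Finset.prod_congr rfl fun k _ => by rw [add_comm]
  rw [← hT, ← Finset.prod_mul_distrib]
  have h1 : ∏ k ∈ range (p + 1), B (k + j) ^ k
      = (∏ k ∈ range p, B (k + 1 + j) ^ (k + 1)) * B (0 + j) ^ 0 :=
    Finset.prod_range_succ' (fun k => B (k + j) ^ k) p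
  have h2 : ∏ k ∈ range (p + 1), B (k + j) ^ k
      = (∏ k ∈ range p, B (k + j) ^ k) * B (p + j) ^ p :=
    Finset.prod_range_succ (fun k => B (k + j) ^ k) p
  have h3 : ∏ k ∈ range p, B (k + (j + 1)) ^ k * B (k + (j + 1))
      = ∏ k ∈ range p, B (k + 1 + j) ^ (k + 1) :=
    Finset.prod_congr rfl fun k _ => by rw [pow_succ, add_assoc, add_comm 1 j]
  rw [h3]
  rw [pow_zero, mul_one] at h1
  rw [← h1, h2, add_comm p j, hB]

theorem theta_shift (hB : ∀ k, B (k + p) = B k) (j : ℕ) :
    (∏ k ∈ range p, B (k + j) ^ k) * (∏ k ∈ range p, B k) ^ j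
      = (∏ k ∈ range p, B k ^ k) * (∏ k ∈ range j, B k) ^ p := by
  induction j with
  | zero => simp
  | succ j ih =>
    rw [pow_succ, ← mul_assoc, mul_right_comm, theta_shift_succ B p hB j, mul_right_comm, ih,
      Finset.prod_range_succ, mul_pow, mul_assoc]

end Periodic

section Lift

variable {G M : Type*} [Group G] [CommGroup M] [MulDistribMulAction G M]

/-- the cyclic ("carry") cochain of `(X, a)` -/
def carry (p : ℕ) (X : G → ℕ) (a : M) (g h : G) : M := a ^ ((X g + X h) / p)

/-- multiplicative coboundary of a 1-cochain -/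
def dOne (f : G → M) (g h : G) : M := g • f h * f g / f (g * h)

/-- `ρ g = (∏_{k < X g} s^k • β)⁻¹` -/
def rho (X : G → ℕ) (s : G) (β : M) (g : G) : M := (∏ k ∈ range (X g), (s ^ k) • β)⁻¹

/-- `θ = ∏_{k<p} (s^k • β)^k` -/
def theta (p : ℕ) (s : G) (β : M) : M := ∏ k ∈ range p, ((s ^ k) • β) ^ k

/-- `ω g = a ^ X g * ρ g ^ p * (g • θ / θ)` -/
def omega (p : ℕ) (X : G → ℕ) (s : G) (a β : M) (g : G) : M :=
  a ^ X g * rho X s β g ^ p * (g • theta p s β / theta p s β)

/-- `c₁ = z * dρ` -/
def cOne (p : ℕ) (X : G → ℕ) (s : G) (a β : M) (g h : G) : M :=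
  carry p X a g h * dOne (rho X s β) g h

theorem dOne_mul (f f' : G → M) (g h : G) :
    dOne (f * f') g h = dOne f g h * dOne f' g h := by
  simp only [dOne, Pi.mul_apply, smul_mul']
  apply Additive.ofMul.injective
  simp only [ofMul_mul, ofMul_div]
  abel

theorem dOne_pow (f : G → M) (n : ℕ) (g h : G) :
    dOne (fun x => f x ^ n) g h = dOne f g h ^ n := by
  simp only [dOne, smul_pow', div_pow, mul_pow]

theorem dOne_inv (f : G → M) (g h : G) :
    dOne (fun x => (f x)⁻¹) g h = (dOne f g h)⁻¹ := by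
  simp only [dOne, smul_inv']
  apply Additive.ofMul.injective
  simp only [ofMul_mul, ofMul_div, ofMul_inv]
  abel

/-- the coboundary of a 1-cochain is a 2-cocycle -/
theorem dOne_cocycle (f : G → M) (g h j : G) :
    dOne f (g * h) j * dOne f g h = g • dOne f h j * dOne f g (h * j) := by
  simp only [dOne, smul_mul', smul_div', mul_smul, mul_assoc]
  apply Additive.ofMul.injective
  simp only [ofMul_mul, ofMul_div]
  abel

variable (p : ℕ) (X : G → ℕ)

/-- (C3), with `dω` written out: pure group identity. -/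
theorem dOne_omega (hXmul : ∀ g h, X (g * h) = (X g + X h) % p)
    (s : G) (a β : M) (ha : ∀ g : G, g • a = a) (g h : G) :
    dOne (omega p X s a β) g h = cOne p X s a β g h ^ p := by
  have hk : a ^ X h * a ^ X g = a ^ X (g * h) * (a ^ ((X g + X h) / p)) ^ p := by
    rw [← pow_add, ← pow_mul, ← pow_add, hXmul g h]
    congr 1
    have := Nat.mod_add_div (X g + X h) p
    rw [Nat.mul_comm] at this
    omega
  have hsm : g • omega p X s a β h
      = a ^ X h * (g • rho X s β h) ^ p * ((g * h) • theta p s β / g • theta p s β) := by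
    simp only [omega, smul_mul', smul_pow', smul_div', ha, mul_smul]
  simp only [dOne] at *
  rw [hsm]
  simp only [omega, cOne, carry, dOne]
  rw [cg_identity _ _ _ _ _ _ _ _ _ _ hk]
  rw [mul_pow, div_pow, mul_pow]

variable {p X}

/-- the cyclic cochain is a 2-cocycle -/
theorem carry_cocycle (hp : 0 < p) (hXmul : ∀ g h, X (g * h) = (X g + X h) % p)
    (a : M) (ha : ∀ g : G, g • a = a) (g h j : G) :
    carry p X a (g * h) j * carry p X a g h = g • carry p X a h j * carry p X a g (h * j) := by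
  simp only [carry, smul_pow', ha, ← pow_add]
  congr 1
  have h1 := Nat.mod_add_div (X g + X h) p
  have h2 := Nat.mod_add_div (X (g * h) + X j) p
  have h3 := Nat.mod_add_div (X h + X j) p
  have h4 := Nat.mod_add_div (X g + X (h * j)) p
  rw [← hXmul] at h1 h2 h3 h4
  rw [mul_assoc] at h2
  have : p * ((X (g * h) + X j) / p + (X g + X h) / p)
      = p * ((X h + X j) / p + (X g + X (h * j)) / p) := by
    rw [mul_add, mul_add]
    omega
  exact Nat.eq_of_mul_eq_mul_left hp this

end Lift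

section Main

variable {G M : Type*} [Group G] [CommGroup M] [MulDistribMulAction G M]
variable (U : Subgroup M) (hU : ∀ (g : G) (u : M), u ∈ U → g • u ∈ U)
variable {p : ℕ} (hp : 0 < p) {X : G → ℕ} (hXlt : ∀ g, X g < p)
  (hXmul : ∀ g h, X (g * h) = (X g + X h) % p)
variable {s : G} (hs : X s = 1 % p)
variable {a β : M}
  (hβ1 : ∀ h : G, X h = 0 → h • β / β ∈ U)
  (hβ2 : a / ∏ k ∈ range p, (s ^ k) • β ∈ U)

include hXlt hXmul in
theorem X_one : X (1 : G) = 0 := by
  have h := hXmul 1 1
  rw [mul_one] at h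
  have hlt := hXlt 1
  have h2 : (X (1 : G) + X 1) % p = X 1 % p := by rw [← h, Nat.mod_eq_of_lt hlt]
  have h3 : X (1 : G) % p = 0 := by
    have := Nat.ModEq.add_left_cancel' (X (1 : G)) (show X (1 : G) + X 1 ≡ X 1 + 0 [MOD p] by
      simpa [Nat.ModEq] using h2)
    simpa [Nat.ModEq] using this
  rwa [Nat.mod_eq_of_lt hlt] at h3

include hXlt hXmul hs in
theorem X_pow (k : ℕ) : X (s ^ k) = k % p := by
  induction k with
  | zero => rw [pow_zero, X_one hXlt hXmul, Nat.zero_mod]
  | succ k ih => rw [pow_succ, hXmul, ih, hs, Nat.add_mod_mod, Nat.mod_add_mod]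

include hU hXlt hXmul hs hβ1 in
/-- key congruence: `g • (s^k • β) ≡ s^(k + X g) • β` modulo `U`. -/
theorem smul_pow_smul_div_mem (g : G) (k : ℕ) :
    g • (s ^ k) • β / (s ^ (k + X g)) • β ∈ U := by
  set h : G := (s ^ (k + X g))⁻¹ * (g * s ^ k) with hh
  have hgs : g * s ^ k = s ^ (k + X g) * h := by rw [hh, mul_inv_cancel_left]
  have hXh : X h = 0 := by
    have h1 : X (g * s ^ k) = (X g + k) % p := by
      rw [hXmul, X_pow hXlt hXmul hs, Nat.add_mod_mod]
    have h2 : X (s ^ (k + X g) * h) = ((k + X g) % p + X h) % p := by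
      rw [hXmul, X_pow hXlt hXmul hs]
    rw [hgs, h2, Nat.mod_add_mod, Nat.add_comm (X g) k] at h1
    have h3 : k + X g + X h ≡ k + X g + 0 [MOD p] := by simpa [Nat.ModEq] using h1
    have h4 := Nat.ModEq.add_left_cancel' _ h3
    have h5 : X h % p = 0 := by simpa [Nat.ModEq] using h4
    rwa [Nat.mod_eq_of_lt (hXlt h)] at h5
  have : g • (s ^ k) • β / (s ^ (k + X g)) • β = (s ^ (k + X g)) • (h • β / β) := by
    rw [smul_div', ← mul_smul, ← mul_smul, hgs]
  rw [this]
  exact hU _ _ (hβ1 h hXh)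

/-- the class of `s^k • β` modulo `U` -/
noncomputable def Bcl (s : G) (β : M) (k : ℕ) : M ⧸ U := QuotientGroup.mk' U ((s ^ k) • β)

include hU hXlt hXmul hs hβ1 in
theorem mk_smul_pow_smul (g : G) (k : ℕ) :
    QuotientGroup.mk' U (g • (s ^ k) • β) = Bcl U s β (k + X g) := by
  have := smul_pow_smul_div_mem U hU hXlt hXmul hs hβ1 g k
  rw [Bcl, ← div_eq_one, ← map_div]
  exact (QuotientGroup.eq_one_iff _).2 this

include hU hXlt hXmul hs hβ1 in
theorem Bcl_periodic (k : ℕ) : Bcl U s β (k + p) = Bcl U s β k := by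
  have h1 := mk_smul_pow_smul U hU hXlt hXmul hs hβ1 (s ^ p) k
  rw [X_pow hXlt hXmul hs, Nat.mod_self, add_zero, ← mul_smul, ← pow_add, add_comm] at h1
  exact h1

include hβ2 in
theorem mk_a : QuotientGroup.mk' U a = ∏ k ∈ range p, Bcl U s β k := by
  have h1 : QuotientGroup.mk' U (a / ∏ k ∈ range p, (s ^ k) • β) = 1 :=
    (QuotientGroup.eq_one_iff _).2 hβ2
  rw [map_div, div_eq_one, map_prod] at h1
  exact h1

theorem mk_rho (g : G) :
    QuotientGroup.mk' U (rho X s β g) = (∏ k ∈ range (X g), Bcl U s β k)⁻¹ := by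
  rw [rho, map_inv, map_prod]
  rfl

include hU hXlt hXmul hs hβ1 in
theorem mk_smul_rho (g h : G) :
    QuotientGroup.mk' U (g • rho X s β h) = (∏ k ∈ range (X h), Bcl U s β (X g + k))⁻¹ := by
  rw [rho, smul_inv', Finset.smul_prod', map_inv, map_prod]
  congr 1
  refine Finset.prod_congr rfl fun k _ => ?_
  rw [mk_smul_pow_smul U hU hXlt hXmul hs hβ1, add_comm]

include hU hXlt hXmul hs hβ1 hβ2 in
/-- **(C1)** the cochain `c₁ = z * dρ` takes values in `U`. -/
theorem cOne_mem (g h : G) : cOne p X s a β g h ∈ U := by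
  rw [← QuotientGroup.eq_one_iff, ← QuotientGroup.mk'_apply]
  have hB := Bcl_periodic U hU hXlt hXmul hs hβ1 (β := β)
  have hsum : X g + X h = X (g * h) + p * ((X g + X h) / p) := by
    rw [hXmul]; exact (Nat.mod_add_div _ _).symm
  have hP := prod_range_add_period (Bcl U s β) p hB (X (g * h)) ((X g + X h) / p)
  rw [← hsum, Finset.prod_range_add] at hP
  simp only [cOne, carry, dOne, map_mul, map_div, map_pow]
  rw [mk_a U hβ2, mk_rho, mk_rho, mk_smul_rho U hU hXlt hXmul hs hβ1]
  set T := ∏ k ∈ range p, Bcl U s β k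
  set P1 := ∏ k ∈ range (X g), Bcl U s β k
  set P2 := ∏ k ∈ range (X h), Bcl U s β (X g + k)
  set P3 := ∏ k ∈ range (X (g * h)), Bcl U s β k
  set e := (X g + X h) / p
  have : T ^ e = P1 * P2 / P3 := by rw [hP]; exact (mul_div_cancel_left _ _).symm
  rw [this]
  apply Additive.ofMul.injective
  simp only [ofMul_mul, ofMul_div, ofMul_inv, ofMul_one]
  abel

include hU hXlt hXmul hs hβ1 hβ2 in
/-- **(C2)** the cochain `ω` takes values in `U`. -/
theorem omega_mem (g : G) : omega p X s a β g ∈ U := by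
  rw [← QuotientGroup.eq_one_iff, ← QuotientGroup.mk'_apply]
  have hB := Bcl_periodic U hU hXlt hXmul hs hβ1 (β := β)
  have hθ : QuotientGroup.mk' U (theta p s β) = ∏ k ∈ range p, Bcl U s β k ^ k := by
    rw [theta, map_prod]
    exact Finset.prod_congr rfl fun k _ => by rw [map_pow]; rfl
  have hgθ : QuotientGroup.mk' U (g • theta p s β)
      = ∏ k ∈ range p, Bcl U s β (k + X g) ^ k := by
    rw [theta, Finset.smul_prod', map_prod]
    exact Finset.prod_congr rfl fun k _ => by
      rw [smul_pow', map_pow, mk_smul_pow_smul U hU hXlt hXmul hs hβ1]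
  have hsh := theta_shift (Bcl U s β) p hB (X g)
  simp only [omega, map_mul, map_div, map_pow]
  rw [mk_a U hβ2, mk_rho, hθ, hgθ]
  set T := ∏ k ∈ range p, Bcl U s β k
  set P1 := ∏ k ∈ range (X g), Bcl U s β k
  set Θj := ∏ k ∈ range p, Bcl U s β (k + X g) ^ k
  set Θ0 := ∏ k ∈ range p, Bcl U s β k ^ k
  have : Θj = Θ0 * P1 ^ p / T ^ X g := by rw [← hsh]; exact (mul_div_cancel_right _ _).symm
  rw [this, inv_pow]
  apply Additive.ofMul.injective
  simp only [ofMul_mul, ofMul_div, ofMul_inv, ofMul_one]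
  abel

/-! ### The root step -/

variable (r : M → M) (hr : ∀ u ∈ U, r u ^ p = u)

/-- `η g = r (ω g)⁻¹` -/
def eta (p : ℕ) (X : G → ℕ) (s : G) (a β : M) (r : M → M) (g : G) : M :=
  r (omega p X s a β g)⁻¹

/-- the lifted cochain `c = c₁ * dη` -/
def liftCochain (p : ℕ) (X : G → ℕ) (s : G) (a β : M) (r : M → M) (g h : G) : M :=
  cOne p X s a β g h * dOne (eta p X s a β r) g h

/-- `c = z * d(ρ * η)`: the lift is cohomologous (in `M`) to the cyclic cochain. -/
theorem liftCochain_eq (g h : G) :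
    liftCochain p X s a β r g h
      = carry p X a g h * dOne (rho X s β * eta p X s a β r) g h := by
  rw [liftCochain, cOne, dOne_mul, mul_assoc]

include hU hXlt hXmul hs hβ1 hβ2 hr in
/-- the lift is `μ_p`-valued -/
theorem liftCochain_pow (ha : ∀ g : G, g • a = a) (g h : G) :
    liftCochain p X s a β r g h ^ p = 1 := by
  have hη : (fun x => eta p X s a β r x ^ p) = fun x => (omega p X s a β x)⁻¹ := by
    funext x
    exact hr _ (U.inv_mem (omega_mem U hU hXlt hXmul hs hβ1 hβ2 x))
  rw [liftCochain, mul_pow, ← dOne_pow, hη, dOne_inv, dOne_omega p X hXmul s a β ha,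
    mul_inv_cancel]

include hp hXmul in
/-- the lift is a 2-cocycle -/
theorem liftCochain_cocycle (ha : ∀ g : G, g • a = a) (g h j : G) :
    liftCochain p X s a β r (g * h) j * liftCochain p X s a β r g h
      = g • liftCochain p X s a β r h j * liftCochain p X s a β r g (h * j) := by
  simp only [liftCochain_eq, smul_mul']
  have h1 := carry_cocycle hp hXmul a ha g h j
  have h2 := dOne_cocycle (rho X s β * eta p X s a β r) g h j
  calc carry p X a (g * h) j * dOne (rho X s β * eta p X s a β r) (g * h) j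
        * (carry p X a g h * dOne (rho X s β * eta p X s a β r) g h)
      = (carry p X a (g * h) j * carry p X a g h)
        * (dOne (rho X s β * eta p X s a β r) (g * h) j
          * dOne (rho X s β * eta p X s a β r) g h) := by
        rw [mul_mul_mul_comm]
    _ = (g • carry p X a h j * carry p X a g (h * j))
        * (g • dOne (rho X s β * eta p X s a β r) h j
          * dOne (rho X s β * eta p X s a β r) g (h * j)) := by rw [h1, h2]
    _ = _ := by rw [mul_mul_mul_comm]

/-- Mathlib form: the lift is an `IsMulCocycle₂`. -/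
theorem isMulCocycle₂_liftCochain (hp : 0 < p) (hXmul : ∀ g h, X (g * h) = (X g + X h) % p)
    (ha : ∀ g : G, g • a = a) :
    groupCohomology.IsMulCocycle₂ (fun x : G × G => liftCochain p X s a β r x.1 x.2) :=
  fun g h j => liftCochain_cocycle hp hXmul r ha g h j

/-! ### Level clause -/

section Level

variable (N : Subgroup G) [N.Normal]
  (hNX : ∀ n ∈ N, X n = 0)
  (hNβ : ∀ n ∈ N, ∀ k : ℕ, n • (s ^ k) • β = (s ^ k) • β)

omit [N.Normal] in
include hXlt hXmul hNX in
theorem X_mul_right_of_mem (g : G) {n : G} (hn : n ∈ N) : X (g * n) = X g := by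
  rw [hXmul, hNX n hn, add_zero, Nat.mod_eq_of_lt (hXlt g)]

omit [N.Normal] in
include hNβ in
theorem smul_theta_of_mem {n : G} (hn : n ∈ N) : n • theta p s β = theta p s β := by
  rw [theta, Finset.smul_prod']
  exact Finset.prod_congr rfl fun k _ => by rw [smul_pow', hNβ n hn]

omit [N.Normal] in
include hNβ in
theorem smul_rho_of_mem {n : G} (hn : n ∈ N) (g : G) : n • rho X s β g = rho X s β g := by
  rw [rho, smul_inv', Finset.smul_prod']
  exact congrArg _ (Finset.prod_congr rfl fun k _ => hNβ n hn k)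

omit [N.Normal] in
include hXlt hXmul hNX in
theorem rho_mul_right_of_mem (g : G) {n : G} (hn : n ∈ N) :
    rho X s β (g * n) = rho X s β g := by
  rw [rho, rho, X_mul_right_of_mem hXlt hXmul N hNX g hn]

omit [N.Normal] in
include hXlt hXmul hNX hNβ in
theorem omega_mul_right_of_mem (g : G) {n : G} (hn : n ∈ N) :
    omega p X s a β (g * n) = omega p X s a β g := by
  rw [omega, omega, X_mul_right_of_mem hXlt hXmul N hNX g hn,
    rho_mul_right_of_mem hXlt hXmul N hNX g hn, mul_smul, smul_theta_of_mem N hNβ hn]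

omit [N.Normal] in
include hXlt hXmul hNX hNβ in
theorem eta_mul_right_of_mem (g : G) {n : G} (hn : n ∈ N) :
    eta p X s a β r (g * n) = eta p X s a β r g := by
  rw [eta, eta, omega_mul_right_of_mem hXlt hXmul N hNX hNβ g hn]

omit [MulDistribMulAction G M] [N.Normal] in
include hXlt hXmul hNX in
theorem carry_mul_right_of_mem (g h : G) {n n' : G} (hn : n ∈ N) (hn' : n' ∈ N) :
    carry p X a (g * n) (h * n') = carry p X a g h := by
  rw [carry, carry, X_mul_right_of_mem hXlt hXmul N hNX g hn,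
    X_mul_right_of_mem hXlt hXmul N hNX h hn']

/-- `dOne f` is right-`N`-invariant in both variables when `f` is right-`N`-invariant with
`N`-fixed values (`N` normal). -/
theorem dOne_mul_right_of_mem (f : G → M) (hf : ∀ g, ∀ n ∈ N, f (g * n) = f g)
    (hf' : ∀ g, ∀ n ∈ N, n • f g = f g) (g h : G) {n n' : G} (hn : n ∈ N) (hn' : n' ∈ N) :
    dOne f (g * n) (h * n') = dOne f g h := by
  have h1 : g * n * (h * n') = g * h * (h⁻¹ * n * h * n') := by group
  have h2 : h⁻¹ * n * h * n' ∈ N := by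
    refine N.mul_mem ?_ hn'
    have := ‹N.Normal›.conj_mem n hn h⁻¹
    simpa using this
  rw [dOne, dOne, h1, hf _ _ h2, hf h n' hn', hf g n hn, mul_smul, hf' h n hn]

include hXlt hXmul hNX hNβ in
/-- **Level clause**: if the normal subgroup `N ≤ ker X` fixes all `s^k • β` and all the chosen
roots `η g`, then the lift is right-`N`-invariant in both variables. -/
theorem liftCochain_mul_right_of_mem
    (hNη : ∀ n ∈ N, ∀ g : G, n • eta p X s a β r g = eta p X s a β r g)
    (g h : G) {n n' : G} (hn : n ∈ N) (hn' : n' ∈ N) :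
    liftCochain p X s a β r (g * n) (h * n') = liftCochain p X s a β r g h := by
  rw [liftCochain, liftCochain, cOne, cOne, carry_mul_right_of_mem hXlt hXmul N hNX g h hn hn',
    dOne_mul_right_of_mem N (rho X s β)
      (fun g n hn => rho_mul_right_of_mem hXlt hXmul N hNX g hn)
      (fun g n hn => smul_rho_of_mem N hNβ hn g) g h hn hn',
    dOne_mul_right_of_mem N (eta p X s a β r)
      (fun g n hn => eta_mul_right_of_mem hXlt hXmul r N hNX hNβ g hn)
      (fun g n hn => hNη n hn g) g h hn hn']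

end Level

/-! ### Packaged statements for consumers -/

include hU hXlt hXmul hs hβ1 hβ2 in
/-- **Cyclic lift lemma** (packaged).  Under (b1), (b2), for any choice `r` of `p`-th roots on
`U` there are a cochain `c : G × G → M` and a 1-cochain `σ : G → M` such that `c` is a 2-cocycle,
`c ^ p = 1`, and `c = z * dσ` with `z (g, h) = a ^ ((X g + X h) / p)` the cyclic cochain of
`(X, a)`.  Level clause: for a normal subgroup `N ≤ ker X` fixing all `s^k • β` and all values of
`r` on `U`, both `c` and `σ` are right-`N`-invariant. -/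
theorem exists_cyclic_lift (hp : 0 < p) (ha : ∀ g : G, g • a = a)
    (r : M → M) (hr : ∀ u ∈ U, r u ^ p = u) :
    ∃ (c : G × G → M) (σ : G → M),
      groupCohomology.IsMulCocycle₂ c ∧ (∀ x, c x ^ p = 1) ∧
      (∀ g h, c (g, h) = a ^ ((X g + X h) / p) * (g • σ h * σ g / σ (g * h))) ∧
      ∀ (N : Subgroup G) [N.Normal], (∀ n ∈ N, X n = 0) →
        (∀ n ∈ N, ∀ k : ℕ, n • (s ^ k) • β = (s ^ k) • β) →
        (∀ n ∈ N, ∀ u ∈ U, n • r u = r u) →
        (∀ g h, ∀ n ∈ N, ∀ n' ∈ N, c (g * n, h * n') = c (g, h)) ∧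
          (∀ g, ∀ n ∈ N, σ (g * n) = σ g) ∧ (∀ g, ∀ n ∈ N, n • σ g = σ g) := by
  refine ⟨fun x => liftCochain p X s a β r x.1 x.2, rho X s β * eta p X s a β r,
    isMulCocycle₂_liftCochain r hp hXmul ha,
    fun x => liftCochain_pow U hU hXlt hXmul hs hβ1 hβ2 r hr ha x.1 x.2,
    fun g h => liftCochain_eq r g h, ?_⟩
  intro N _ hNX hNβ hNr
  have hNη : ∀ n ∈ N, ∀ g : G, n • eta p X s a β r g = eta p X s a β r g := fun n hn g =>
    hNr n hn _ (U.inv_mem (omega_mem U hU hXlt hXmul hs hβ1 hβ2 g))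
  refine ⟨fun g h n hn n' hn' =>
      liftCochain_mul_right_of_mem hXlt hXmul r N hNX hNβ hNη g h hn hn', fun g n hn => ?_,
    fun g n hn => ?_⟩
  · rw [Pi.mul_apply, Pi.mul_apply, rho_mul_right_of_mem hXlt hXmul N hNX g hn,
      eta_mul_right_of_mem hXlt hXmul r N hNX hNβ g hn]
  · rw [Pi.mul_apply, smul_mul', smul_rho_of_mem N hNβ hn, hNη n hn]

end Main

section Character

variable {G M : Type*} [Group G] [CommGroup M] [MulDistribMulAction G M]

/-- The natural-number lift of a character `χ : G →* Multiplicative (ZMod p)`. -/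
def charLift (p : ℕ) (χ : G →* Multiplicative (ZMod p)) (g : G) : ℕ :=
  (Multiplicative.toAdd (χ g)).val

theorem charLift_lt (p : ℕ) [NeZero p] (χ : G →* Multiplicative (ZMod p)) (g : G) :
    charLift p χ g < p := ZMod.val_lt _

theorem charLift_mul (p : ℕ) [NeZero p] (χ : G →* Multiplicative (ZMod p)) (g h : G) :
    charLift p χ (g * h) = (charLift p χ g + charLift p χ h) % p := by
  simp only [charLift, map_mul, toAdd_mul, ZMod.val_add]

theorem charLift_eq_zero_iff (p : ℕ) [NeZero p] (χ : G →* Multiplicative (ZMod p)) (g : G) :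
    charLift p χ g = 0 ↔ g ∈ χ.ker := by
  rw [charLift, ZMod.val_eq_zero, MonoidHom.mem_ker]
  exact ⟨fun h => by rw [← ofAdd_toAdd (χ g), h]; rfl, fun h => by rw [h]; rfl⟩

theorem charLift_of_eq_one (p : ℕ) [NeZero p] (χ : G →* Multiplicative (ZMod p)) {s : G}
    (hs : χ s = Multiplicative.ofAdd 1) : charLift p χ s = 1 % p := by
  rw [charLift, hs, toAdd_ofAdd, ZMod.val_one_eq_one_mod]

/-- **Cyclic lift lemma, character form.**  `χ : G →* Multiplicative (ZMod p)` a character,
`s` with `χ s = 1`, `a` a `G`-fixed element, `U` a `G`-stable subgroup, `β` with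
`h • β / β ∈ U` for `h ∈ ker χ` and `a / ∏_{k<p} s^k • β ∈ U`; `r` a choice of `p`-th roots on
`U`.  Then the cyclic cochain `z (g, h) = a ^ ((χ~ g + χ~ h) / p)` is cohomologous in `M` to a
2-cocycle `c` with `c ^ p = 1`. -/
theorem exists_cyclic_lift_of_char (p : ℕ) [NeZero p] (χ : G →* Multiplicative (ZMod p))
    (U : Subgroup M) (hU : ∀ (g : G) (u : M), u ∈ U → g • u ∈ U)
    {s : G} (hs : χ s = Multiplicative.ofAdd 1) {a β : M} (ha : ∀ g : G, g • a = a)
    (hβ1 : ∀ h ∈ χ.ker, h • β / β ∈ U) (hβ2 : a / ∏ k ∈ range p, (s ^ k) • β ∈ U)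
    (r : M → M) (hr : ∀ u ∈ U, r u ^ p = u) :
    ∃ (c : G × G → M) (σ : G → M),
      groupCohomology.IsMulCocycle₂ c ∧ (∀ x, c x ^ p = 1) ∧
      (∀ g h, c (g, h)
        = a ^ ((charLift p χ g + charLift p χ h) / p) * (g • σ h * σ g / σ (g * h))) ∧
      ∀ (N : Subgroup G) [N.Normal], N ≤ χ.ker →
        (∀ n ∈ N, ∀ k : ℕ, n • (s ^ k) • β = (s ^ k) • β) →
        (∀ n ∈ N, ∀ u ∈ U, n • r u = r u) →
        (∀ g h, ∀ n ∈ N, ∀ n' ∈ N, c (g * n, h * n') = c (g, h)) ∧
          (∀ g, ∀ n ∈ N, σ (g * n) = σ g) ∧ (∀ g, ∀ n ∈ N, n • σ g = σ g) := by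
  obtain ⟨c, σ, h1, h2, h3, h4⟩ := exists_cyclic_lift U hU (charLift_lt p χ) (charLift_mul p χ)
    (charLift_of_eq_one p χ hs) (fun h hh => hβ1 h ((charLift_eq_zero_iff p χ h).1 hh)) hβ2
    (Nat.pos_of_ne_zero (NeZero.ne p)) ha r hr
  exact ⟨c, σ, h1, h2, h3, fun N _ hN hNβ hNr =>
    h4 N (fun n hn => (charLift_eq_zero_iff p χ n).2 (hN hn)) hNβ hNr⟩

end Character

end Fermat.Agent.S55.helper2686
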