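import Mathlib
import Fermat.Prelude.Def_GroupCohomology_ContinuousUnramified
import Fermat.Prelude.Def_ExtEndgame_ProductionDatum
import Fermat.Agent.S55.helper698_LocTop
import Fermat.Agent.S55.helper512_MuP
import Fermat.Agent.S55.helper814_LocalSpecLB2

/-!
# S55, leaf LA-LB2-FROZEN (helper2887): `(LB2)` on the frozen carrier

End adapter for the local layer.  Input: `helper814.stmt_LocalLB2` (the cup product
`H¹(G_K, μ_p) × H¹(G_K, 𝔽_p) → H²(G_K, μ_p)` has trivial left kernel, on the carrier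
`PadicAlgCl l ≃ₐ[K] PadicAlgCl l` acting on `(PadicAlgCl l)ˣ`).  Output: the input `(LB2 r U)` of the
leaf LS-L2, verbatim on the frozen carrier `continuousH2 r_U (Rep.trivial (ZMod p) U (ZMod p))`:

for every subgroup `U` of the local Galois group `Γ_l = Gal(PadicAlgCl l / ℚ_l)` which contains a
level and on which the mod `p` cyclotomic character is trivial, and every nonzero level-constant
additive character `a : U → ZMod p`, there is a level-constant additive character `b` such that the
cup cochain `(g, h) ↦ a g * b h` is **not** a level coboundary.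

Main results (`rU := (localGaloisToGlobal l).comp U.subtype`):

* `lb2_frozen_of_open`, `lb2_frozen` : the statement above, with the level hypothesis on `U`
  in the local form (`K₀.fixingSubgroup ≤ U`, `K₀ / ℚ_l` finite) resp. the frozen global form
  (`r τ ∈ F.fixingSubgroup → τ ∈ U`, `F / ℚ` finite);
* `lb2_frozen_flip` : the same with the cup product in the other order `(g, h) ↦ b g * a h`;
* `lb2_frozen_inv` : the form with an injective `inv : continuousH2 rU T →ₗ ZMod p`;
* `lb2_primeLocal`, `lb2_primeLocal_flip`, `lb2_primeLocal_inv` : the same for `q : Nat.Primes`,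
  `primeLocalGaloisGroup q`, `primeLocalToGlobal q`;
* bricks: `exists_fixedField_data` (an open `U` with trivial cyclotomic character is
  `K.fixingSubgroup` for a finite `K / ℚ_l` containing `μ_p`), the relative level dictionary
  `isLevel₁_of_isLevelConstant₁` / `isLevelConstant₁_of_isLevel₁`, and the generic cochain
  lemmas `cupFun_mem_levelCocycles₂`, `cupFun_add_flip`.
-/

set_option autoImplicit false

namespace Fermat.Agent.S55.helper2887

open groupCohomology IntermediateField ExtCitation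
open Fermat.Agent.S55.helper9554

noncomputable section

/-! ### Generic cochain lemmas on the frozen carrier (trivial coefficients) -/

section Generic

variable {k : Type} [CommRing k] {G : Type} [Group G]
variable (r : G →* (AlgebraicClosure ℚ ≃ₐ[ℚ] AlgebraicClosure ℚ))

/-- The cup cochain `(g, h) ↦ a g * b h` of two functions `G → k`. -/
def cupFun (a b : G → k) : G × G → k := fun x => a x.1 * b x.2

omit [Group G] in
@[simp] theorem cupFun_apply (a b : G → k) (x : G × G) : cupFun a b x = a x.1 * b x.2 := rfl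

/-- The cup cochain of two level-constant additive characters is a level 2-cocycle of the
trivial representation. -/
theorem cupFun_mem_levelCocycles₂ {a b : G → k} (ha : ∀ g h, a (g * h) = a g + a h)
    (hla : IsLevelConstant₁ r a) (hb : ∀ g h, b (g * h) = b g + b h)
    (hlb : IsLevelConstant₁ r b) :
    cupFun a b ∈ levelCocycles₂ r (Rep.trivial k G k) := by
  refine (mem_levelCocycles₂_iff r _ _).2 ⟨?_, ?_⟩
  · rw [mem_cocycles₂_iff]
    intro g h j
    simp only [cupFun, ha g h, hb h j, Representation.trivial_apply]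
    ring
  · obtain ⟨F₁, hF₁, h₁⟩ := hla
    obtain ⟨F₂, hF₂, h₂⟩ := hlb
    have := hF₁; have := hF₂
    refine ⟨F₁ ⊔ F₂, inferInstance, fun g g' s s' hs hs' => ?_⟩
    simp only [cupFun]
    rw [h₁ g s (IntermediateField.fixingSubgroup_antitone le_sup_left hs),
      h₂ g' s' (IntermediateField.fixingSubgroup_antitone le_sup_right hs')]

/-- Graded commutativity at the cochain level: `a ∪ b + b ∪ a = d (-(a * b))`. -/
theorem cupFun_add_flip {a b : G → k} (ha : ∀ g h, a (g * h) = a g + a h)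
    (hb : ∀ g h, b (g * h) = b g + b h) :
    cupFun a b + cupFun b a
      = (d₁₂ (Rep.trivial k G k)).hom (fun g => -(a g * b g)) := by
  funext x
  obtain ⟨g, h⟩ := x
  rw [d₁₂_hom_apply]
  simp only [Pi.add_apply, cupFun, Representation.trivial_apply, ha g h, hb g h]
  ring

/-- The two cup cochains `a ∪ b` and `b ∪ a` of level characters are simultaneously level
coboundaries. -/
theorem cupFun_flip_mem_iff {a b : G → k} (ha : ∀ g h, a (g * h) = a g + a h)
    (hla : IsLevelConstant₁ r a) (hb : ∀ g h, b (g * h) = b g + b h)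
    (hlb : IsLevelConstant₁ r b) :
    cupFun b a ∈ levelCoboundaries₂ r (Rep.trivial k G k) ↔
      cupFun a b ∈ levelCoboundaries₂ r (Rep.trivial k G k) := by
  have hsum : cupFun a b + cupFun b a ∈ levelCoboundaries₂ r (Rep.trivial k G k) := by
    rw [cupFun_add_flip ha hb, mem_levelCoboundaries₂_iff]
    refine ⟨_, ?_, rfl⟩
    obtain ⟨F₁, hF₁, h₁⟩ := hla
    obtain ⟨F₂, hF₂, h₂⟩ := hlb
    have := hF₁; have := hF₂
    refine ⟨F₁ ⊔ F₂, inferInstance, fun g s hs => ?_⟩
    show -(a (g * s) * b (g * s)) = -(a g * b g)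
    rw [h₁ g s (IntermediateField.fixingSubgroup_antitone le_sup_left hs),
      h₂ g s (IntermediateField.fixingSubgroup_antitone le_sup_right hs)]
  constructor
  · intro h
    have := Submodule.sub_mem _ hsum h
    rwa [add_sub_cancel_right] at this
  · intro h
    have := Submodule.sub_mem _ hsum h
    rwa [add_sub_cancel_left] at this

end Generic

variable (q : ℕ) [Fact q.Prime]

/-- Restriction of `localGaloisToGlobal q` to a subgroup `U` of the local Galois group. -/
abbrev locRes (U : Subgroup (PadicAlgCl q ≃ₐ[ℚ_[q]] PadicAlgCl q)) :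
    ↥U →* (AlgebraicClosure ℚ ≃ₐ[ℚ] AlgebraicClosure ℚ) :=
  (localGaloisToGlobal q).comp U.subtype

/-! ### Towers of finite extensions -/

section Tower

variable {q}
variable (K : IntermediateField ℚ_[q] (PadicAlgCl q))

/-- A finite extension of `K` containing a given finite extension `K₁` of `ℚ_q`. -/
theorem exists_finite_over (K₁ : IntermediateField ℚ_[q] (PadicAlgCl q))
    [FiniteDimensional ℚ_[q] K₁] [FiniteDimensional ℚ_[q] K] :
    ∃ E : IntermediateField K (PadicAlgCl q), FiniteDimensional K E ∧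
      ∀ x ∈ K₁, x ∈ E := by
  refine ⟨IntermediateField.extendScalars (le_sup_left : K ≤ K ⊔ K₁), ?_, ?_⟩
  · have : FiniteDimensional ℚ_[q] ↥(K ⊔ K₁) := IntermediateField.finiteDimensional_sup K K₁
    have : FiniteDimensional ℚ_[q]
        ↥(IntermediateField.extendScalars (le_sup_left : K ≤ K ⊔ K₁)) :=
      inferInstanceAs (FiniteDimensional ℚ_[q] ↥(K ⊔ K₁))
    exact FiniteDimensional.right ℚ_[q] K _
  · intro x hx
    exact (le_sup_right : K₁ ≤ K ⊔ K₁) hx

/-- A finite extension `E` of `K` is finite over `ℚ_q`. -/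
theorem finite_restrictScalars [FiniteDimensional ℚ_[q] K]
    (E : IntermediateField K (PadicAlgCl q)) [FiniteDimensional K E] :
    FiniteDimensional ℚ_[q] ↥(E.restrictScalars ℚ_[q]) := by
  have : FiniteDimensional ℚ_[q] ↥E := FiniteDimensional.trans ℚ_[q] K E
  exact inferInstanceAs (FiniteDimensional ℚ_[q] ↥E)

end Tower

/-! ### The relative level dictionary for `U = K.fixingSubgroup ≃* Gal(PadicAlgCl q / K)` -/

section Dictionary

variable {q}
variable (K : IntermediateField ℚ_[q] (PadicAlgCl q)) [FiniteDimensional ℚ_[q] K]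

/-- **Relative level dictionary, direction 1.**  A function on `U = K.fixingSubgroup` which is
level-constant for the frozen predicate (pull-back of number-field levels along
`localGaloisToGlobal q`) is level on `Gal(PadicAlgCl q / K)` in the sense of the local spec. -/
theorem isLevel₁_of_isLevelConstant₁ {X : Type*} (f : ↥K.fixingSubgroup → X)
    (hf : IsLevelConstant₁ (locRes q K.fixingSubgroup) f) :
    IsLevel₁ (fun g : PadicAlgCl q ≃ₐ[K] PadicAlgCl q => f (K.fixingSubgroupEquiv.symm g)) := by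
  obtain ⟨F, hF, h⟩ := hf
  obtain ⟨K₁, hK₁, hK₁F⟩ := helper698.exists_localField_fixingSubgroup_le q F
  obtain ⟨E, hE, hKE⟩ := exists_finite_over K K₁
  refine ⟨E, hE, fun g s hs => ?_⟩
  show f (K.fixingSubgroupEquiv.symm (g * s)) = f (K.fixingSubgroupEquiv.symm g)
  rw [map_mul]
  refine h _ _ ?_
  refine hK₁F _ ?_
  rw [IntermediateField.mem_fixingSubgroup_iff]
  intro x hx
  exact (IntermediateField.mem_fixingSubgroup_iff E s).mp hs x (hKE x hx)

/-- **Relative level dictionary, direction 2.** -/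
theorem isLevelConstant₁_of_isLevel₁ {X : Type*}
    (c : (PadicAlgCl q ≃ₐ[K] PadicAlgCl q) → X) (hc : IsLevel₁ c) :
    IsLevelConstant₁ (locRes q K.fixingSubgroup) (fun u => c (K.fixingSubgroupEquiv u)) := by
  obtain ⟨E, hE, hf⟩ := hc
  have hfin : FiniteDimensional ℚ_[q] ↥(E.restrictScalars ℚ_[q]) := finite_restrictScalars K E
  obtain ⟨F, hF, hFE⟩ :=
    helper698.exists_numberField_comap_fixingSubgroup_le q (E.restrictScalars ℚ_[q])
  refine ⟨F, hF, fun g s hs => ?_⟩
  have hs' : (s : PadicAlgCl q ≃ₐ[ℚ_[q]] PadicAlgCl q) ∈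
      (E.restrictScalars ℚ_[q]).fixingSubgroup := hFE _ hs
  have hsE : K.fixingSubgroupEquiv s ∈ E.fixingSubgroup := by
    rw [IntermediateField.mem_fixingSubgroup_iff]
    intro x hx
    exact (IntermediateField.mem_fixingSubgroup_iff _ _).mp hs' x hx
  show c (K.fixingSubgroupEquiv (g * s)) = c (K.fixingSubgroupEquiv g)
  rw [map_mul]
  exact hf _ _ hsE

end Dictionary

/-! ### `(LB2)` on the frozen carrier for `U = K.fixingSubgroup`, `μ_p ⊆ K` -/

section Core

variable {q}
variable (p : ℕ) [Fact p.Prime]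
variable (K : IntermediateField ℚ_[q] (PadicAlgCl q)) [FiniteDimensional ℚ_[q] K]

/-- `(LB2)` on the frozen carrier for `U = K.fixingSubgroup`, `K / ℚ_q` finite containing the
`p`-th roots of unity. -/
theorem lb2_fixingSubgroup
    (hζK : ((helper512.zetaLocal p q : (PadicAlgCl q)ˣ) : PadicAlgCl q) ∈ K)
    (a : ↥K.fixingSubgroup → ZMod p) (ha : ∀ g h, a (g * h) = a g + a h)
    (hl : IsLevelConstant₁ (locRes q K.fixingSubgroup) a) (h0 : a ≠ 0) :
    ∃ b : ↥K.fixingSubgroup → ZMod p, (∀ g h, b (g * h) = b g + b h) ∧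
      IsLevelConstant₁ (locRes q K.fixingSubgroup) b ∧
      (fun x : ↥K.fixingSubgroup × ↥K.fixingSubgroup => a x.1 * b x.2) ∉
        levelCoboundaries₂ (locRes q K.fixingSubgroup)
          (Rep.trivial (ZMod p) ↥K.fixingSubgroup (ZMod p)) := by
  classical
  have hp : p.Prime := Fact.out
  have : NeZero p := ⟨hp.ne_zero⟩
  obtain ⟨Z, hZdef⟩ : ∃ Z : (PadicAlgCl q)ˣ, Z = helper512.zetaLocal p q := ⟨_, rfl⟩
  have hZK : (Z : PadicAlgCl q) ∈ K := by rw [hZdef]; exact hζK
  have hZprim : IsPrimitiveRoot Z p := by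
    rw [hZdef]; exact helper512.isPrimitiveRoot_zetaLocal p q
  have hZp : Z ^ p = 1 := hZprim.pow_eq_one
  have hZ1 : Z ≠ 1 := hZprim.ne_one hp.one_lt
  have hfix : ∀ g : PadicAlgCl q ≃ₐ[K] PadicAlgCl q, g • Z = Z := by
    intro g
    apply Units.ext
    exact g.commutes ⟨_, hZK⟩
  have hfixE : ∀ (g : PadicAlgCl q ≃ₐ[K] PadicAlgCl q) (c : ZMod p),
      g • helper512.expZ Z c = helper512.expZ Z c := by
    intro g c
    rw [helper512.expZ_apply, smul_pow', hfix]
  obtain ⟨e, he⟩ : ∃ e : ↥K.fixingSubgroup ≃* (PadicAlgCl q ≃ₐ[K] PadicAlgCl q),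
      e = K.fixingSubgroupEquiv := ⟨_, rfl⟩
  have hκ : IsMuCocycle₁ p
      (fun g : PadicAlgCl q ≃ₐ[K] PadicAlgCl q => helper512.expZ Z (a (e.symm g))) := by
    refine ⟨fun g h => ?_, ?_, fun g => helper512.expZ_pow_eq_one hZp _⟩
    · show helper512.expZ Z (a (e.symm (g * h)))
        = g • helper512.expZ Z (a (e.symm h)) * helper512.expZ Z (a (e.symm g))
      rw [map_mul, ha, helper512.expZ_add hZp, hfixE, mul_comm]
    · rw [he]
      exact (isLevel₁_of_isLevelConstant₁ K a hl).comp (helper512.expZ Z)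
  have hκ' : ¬ IsMuCob₁ p
      (fun g : PadicAlgCl q ≃ₐ[K] PadicAlgCl q => helper512.expZ Z (a (e.symm g))) := by
    rintro ⟨z, hz, hzκ⟩
    apply h0
    obtain ⟨c, hc⟩ := helper512.exists_pow_val_eq_of_isPrimitiveRoot p hZprim z hz
    have hzfix : ∀ g : PadicAlgCl q ≃ₐ[K] PadicAlgCl q, g • z = z := by
      intro g
      rw [← hc, smul_pow', hfix]
    funext u
    have h1 : helper512.expZ Z (a (e.symm (e u))) = 1 := by
      have h := hzκ (e u)
      rw [hzfix, div_self'] at h
      exact h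
    rw [MulEquiv.symm_apply_apply] at h1
    have h2 : helper512.expZ Z (a u) = helper512.expZ Z (0 : ZMod p) := by
      rw [h1, helper512.expZ_apply, ZMod.val_zero, pow_zero]
    exact helper512.expZ_injective hZp hZ1 h2
  have hζ' : ∃ ζ : K, IsPrimitiveRoot ζ p := by
    refine ⟨⟨_, hZK⟩, ?_⟩
    have hinj : Function.Injective (algebraMap K (PadicAlgCl q)) :=
      (algebraMap K (PadicAlgCl q)).injective
    refine IsPrimitiveRoot.of_map_of_injective (f := algebraMap K (PadicAlgCl q)) ?_ hinj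
    exact IsPrimitiveRoot.coe_units_iff.2 hZprim
  obtain ⟨χ, hχ, hcob⟩ := helper814.stmt_LocalLB2 q p K inferInstance hζ' _ hκ hκ'
  refine ⟨fun u => χ (e u), fun g h => ?_, ?_, ?_⟩
  · show χ (e (g * h)) = χ (e g) + χ (e h)
    rw [map_mul, hχ.map_mul]
  · rw [he]
    exact isLevelConstant₁_of_isLevel₁ K χ hχ.level
  intro hmem
  rw [mem_levelCoboundaries₂_iff] at hmem
  obtain ⟨x, hx, hdx⟩ := hmem
  apply hcob
  refine ⟨fun g => helper512.expZ Z (x (e.symm g)), ?_,
    fun g => helper512.expZ_pow_eq_one hZp _, ?_⟩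
  · rw [he]
    exact (isLevel₁_of_isLevelConstant₁ K x hx).comp (helper512.expZ Z)
  funext ⟨g, h⟩
  have hd := congrFun hdx (e.symm g, e.symm h)
  rw [d₁₂_hom_apply] at hd
  simp only [Representation.trivial_apply, MulEquiv.apply_symm_apply] at hd
  have hd' : χ h * a (e.symm g) + x (e.symm (g * h)) = x (e.symm h) + x (e.symm g) := by
    rw [map_mul]
    linear_combination -hd
  have hE := congrArg (helper512.expZ Z) hd'
  rw [helper512.expZ_add hZp, helper512.expZ_add hZp, helper512.expZ_mul hZp] at hE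
  show helper512.expZ Z (a (e.symm g)) ^ (χ h).val
    = g • helper512.expZ Z (x (e.symm h)) / helper512.expZ Z (x (e.symm (g * h)))
      * helper512.expZ Z (x (e.symm g))
  rw [hfixE, div_mul_eq_mul_div, eq_div_iff_mul_eq']
  exact hE

end Core

/-! ### Open subgroups with trivial cyclotomic character -/

section OpenSubgroup

variable (p : ℕ) [Fact p.Prime]

/-- A subgroup `U` of the local Galois group which contains a level and on which the mod `p`
cyclotomic character is trivial is the fixing subgroup of a finite extension `K / ℚ_q` containing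
the `p`-th roots of unity. -/
theorem exists_fixedField_data (U : Subgroup (PadicAlgCl q ≃ₐ[ℚ_[q]] PadicAlgCl q))
    (hU : ∃ K₀ : IntermediateField ℚ_[q] (PadicAlgCl q),
      FiniteDimensional ℚ_[q] K₀ ∧ K₀.fixingSubgroup ≤ U)
    (hχ : ∀ u ∈ U, cycloChar p (localGaloisToGlobal q u) = 1) :
    ∃ K : IntermediateField ℚ_[q] (PadicAlgCl q), FiniteDimensional ℚ_[q] K ∧
      U = K.fixingSubgroup ∧
      ((helper512.zetaLocal p q : (PadicAlgCl q)ˣ) : PadicAlgCl q) ∈ K := by
  obtain ⟨K₀, hK₀, hle⟩ := hU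
  have hopen : IsOpen (U : Set (PadicAlgCl q ≃ₐ[ℚ_[q]] PadicAlgCl q)) :=
    Subgroup.isOpen_mono hle K₀.fixingSubgroup_isOpen
  have hclosed : IsClosed (U : Set (PadicAlgCl q ≃ₐ[ℚ_[q]] PadicAlgCl q)) :=
    Subgroup.isClosed_of_isOpen U hopen
  have hfix : (IntermediateField.fixedField U).fixingSubgroup = U :=
    InfiniteGalois.fixingSubgroup_fixedField ⟨U, hclosed⟩
  have hKle : IntermediateField.fixedField U ≤ K₀ := by
    rw [← InfiniteGalois.fixedField_fixingSubgroup K₀]
    exact IntermediateField.fixedField_le hle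
  refine ⟨IntermediateField.fixedField U, ?_, hfix.symm, ?_⟩
  · exact FiniteDimensional.of_injective (IntermediateField.inclusion hKle).toLinearMap
      (IntermediateField.inclusion_injective hKle)
  · rw [IntermediateField.mem_fixedField_iff]
    intro u hu
    have h := ((helper512.localDatum p q).char_eq_one_iff u).1 (hχ u hu)
    exact congrArg Units.val h

/-- A subgroup containing the preimage of a global level contains a local level. -/
theorem exists_localLevel_of_globalLevel (U : Subgroup (PadicAlgCl q ≃ₐ[ℚ_[q]] PadicAlgCl q))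
    (hU : ∃ F : IntermediateField ℚ (AlgebraicClosure ℚ), FiniteDimensional ℚ F ∧
      ∀ τ : PadicAlgCl q ≃ₐ[ℚ_[q]] PadicAlgCl q,
        localGaloisToGlobal q τ ∈ F.fixingSubgroup → τ ∈ U) :
    ∃ K₀ : IntermediateField ℚ_[q] (PadicAlgCl q),
      FiniteDimensional ℚ_[q] K₀ ∧ K₀.fixingSubgroup ≤ U := by
  obtain ⟨F, hF, h⟩ := hU
  obtain ⟨K₀, hK₀, hK₀F⟩ := helper698.exists_localField_fixingSubgroup_le q F
  exact ⟨K₀, hK₀, fun τ hτ => h τ (hK₀F τ hτ)⟩

/-- **(LB2) on the frozen carrier**, local form of the level hypothesis on `U`.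
For a subgroup `U` of `Γ_q = Gal(PadicAlgCl q / ℚ_q)` containing `K₀.fixingSubgroup` for a finite
`K₀ / ℚ_q`, with trivial mod `p` cyclotomic character, and a nonzero level-constant additive
character `a : U → ZMod p`, some level-constant additive character `b` has
`(g, h) ↦ a g * b h` not a level coboundary. -/
theorem lb2_frozen_of_open (U : Subgroup (PadicAlgCl q ≃ₐ[ℚ_[q]] PadicAlgCl q))
    (hU : ∃ K₀ : IntermediateField ℚ_[q] (PadicAlgCl q),
      FiniteDimensional ℚ_[q] K₀ ∧ K₀.fixingSubgroup ≤ U)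
    (hχ : ∀ u ∈ U, cycloChar p (localGaloisToGlobal q u) = 1)
    (a : ↥U → ZMod p) (ha : ∀ g h, a (g * h) = a g + a h)
    (hl : IsLevelConstant₁ ((localGaloisToGlobal q).comp U.subtype) a) (h0 : a ≠ 0) :
    ∃ b : ↥U → ZMod p, (∀ g h, b (g * h) = b g + b h) ∧
      IsLevelConstant₁ ((localGaloisToGlobal q).comp U.subtype) b ∧
      (fun x : ↥U × ↥U => a x.1 * b x.2) ∉
        levelCoboundaries₂ ((localGaloisToGlobal q).comp U.subtype)
          (Rep.trivial (ZMod p) ↥U (ZMod p)) := by
  obtain ⟨K, hK, rfl, hζ⟩ := exists_fixedField_data q p U hU hχ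
  exact lb2_fixingSubgroup p K hζ a ha hl h0

/-- **(LB2) on the frozen carrier**, frozen (global) form of the level hypothesis on `U`:
the input `(LB2 r U)` of the leaf LS-L2. -/
theorem lb2_frozen (U : Subgroup (PadicAlgCl q ≃ₐ[ℚ_[q]] PadicAlgCl q))
    (hU : ∃ F : IntermediateField ℚ (AlgebraicClosure ℚ), FiniteDimensional ℚ F ∧
      ∀ τ : PadicAlgCl q ≃ₐ[ℚ_[q]] PadicAlgCl q,
        localGaloisToGlobal q τ ∈ F.fixingSubgroup → τ ∈ U)
    (hχ : ∀ u ∈ U, cycloChar p (localGaloisToGlobal q u) = 1)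
    (a : ↥U → ZMod p) (ha : ∀ g h, a (g * h) = a g + a h)
    (hl : IsLevelConstant₁ ((localGaloisToGlobal q).comp U.subtype) a) (h0 : a ≠ 0) :
    ∃ b : ↥U → ZMod p, (∀ g h, b (g * h) = b g + b h) ∧
      IsLevelConstant₁ ((localGaloisToGlobal q).comp U.subtype) b ∧
      (fun x : ↥U × ↥U => a x.1 * b x.2) ∉
        levelCoboundaries₂ ((localGaloisToGlobal q).comp U.subtype)
          (Rep.trivial (ZMod p) ↥U (ZMod p)) :=
  lb2_frozen_of_open q p U (exists_localLevel_of_globalLevel q U hU) hχ a ha hl h0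

/-- `(LB2)` on the frozen carrier with the cup product in the other order
`(g, h) ↦ b g * a h`. -/
theorem lb2_frozen_flip (U : Subgroup (PadicAlgCl q ≃ₐ[ℚ_[q]] PadicAlgCl q))
    (hU : ∃ F : IntermediateField ℚ (AlgebraicClosure ℚ), FiniteDimensional ℚ F ∧
      ∀ τ : PadicAlgCl q ≃ₐ[ℚ_[q]] PadicAlgCl q,
        localGaloisToGlobal q τ ∈ F.fixingSubgroup → τ ∈ U)
    (hχ : ∀ u ∈ U, cycloChar p (localGaloisToGlobal q u) = 1)
    (a : ↥U → ZMod p) (ha : ∀ g h, a (g * h) = a g + a h)
    (hl : IsLevelConstant₁ ((localGaloisToGlobal q).comp U.subtype) a) (h0 : a ≠ 0) :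
    ∃ b : ↥U → ZMod p, (∀ g h, b (g * h) = b g + b h) ∧
      IsLevelConstant₁ ((localGaloisToGlobal q).comp U.subtype) b ∧
      (fun x : ↥U × ↥U => b x.1 * a x.2) ∉
        levelCoboundaries₂ ((localGaloisToGlobal q).comp U.subtype)
          (Rep.trivial (ZMod p) ↥U (ZMod p)) := by
  obtain ⟨b, hb, hlb, hnot⟩ := lb2_frozen q p U hU hχ a ha hl h0
  refine ⟨b, hb, hlb, fun hmem => hnot ?_⟩
  exact (cupFun_flip_mem_iff _ ha hl hb hlb).1 hmem

/-- `(LB2)` on the frozen carrier, `inv`-form (the shape "(LB2)" of LS-L2): if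
`inv : H²(U, 𝔽_p) → 𝔽_p` is injective and `inv [a ∪ b] = 0` for every level character `b`, then
`a = 0`. -/
theorem lb2_frozen_inv (U : Subgroup (PadicAlgCl q ≃ₐ[ℚ_[q]] PadicAlgCl q))
    (hU : ∃ F : IntermediateField ℚ (AlgebraicClosure ℚ), FiniteDimensional ℚ F ∧
      ∀ τ : PadicAlgCl q ≃ₐ[ℚ_[q]] PadicAlgCl q,
        localGaloisToGlobal q τ ∈ F.fixingSubgroup → τ ∈ U)
    (hχ : ∀ u ∈ U, cycloChar p (localGaloisToGlobal q u) = 1)
    (inv : continuousH2 ((localGaloisToGlobal q).comp U.subtype)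
      (Rep.trivial (ZMod p) ↥U (ZMod p)) →ₗ[ZMod p] ZMod p)
    (hinv : Function.Injective inv)
    (a : ↥U → ZMod p) (ha : ∀ g h, a (g * h) = a g + a h)
    (hl : IsLevelConstant₁ ((localGaloisToGlobal q).comp U.subtype) a)
    (hvan : ∀ (b : ↥U → ZMod p) (hb : ∀ g h, b (g * h) = b g + b h)
      (hlb : IsLevelConstant₁ ((localGaloisToGlobal q).comp U.subtype) b),
      inv (continuousH2π ((localGaloisToGlobal q).comp U.subtype)
        (Rep.trivial (ZMod p) ↥U (ZMod p))
        ⟨cupFun a b, cupFun_mem_levelCocycles₂ _ ha hl hb hlb⟩) = 0) :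
    a = 0 := by
  by_contra h0
  obtain ⟨b, hb, hlb, hnot⟩ := lb2_frozen q p U hU hχ a ha hl h0
  apply hnot
  have h1 := hvan b hb hlb
  rw [← map_zero inv] at h1
  have h2 := hinv h1
  rw [continuousH2π_eq_zero_iff] at h2
  exact h2

end OpenSubgroup

/-! ### The same statements at `q : Nat.Primes` (frozen `primeLocalToGlobal`) -/

section Primes

variable (p : ℕ) [Fact p.Prime]

/-- **(LB2) for the frozen local datum at a prime `q`**: the input `(LB2 r U)` of LS-L2 with
`r = primeLocalToGlobal q`. -/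
theorem lb2_primeLocal (q : Nat.Primes) (U : Subgroup (primeLocalGaloisGroup q))
    (hU : ∃ F : IntermediateField ℚ (AlgebraicClosure ℚ), FiniteDimensional ℚ F ∧
      ∀ τ : primeLocalGaloisGroup q, primeLocalToGlobal q τ ∈ F.fixingSubgroup → τ ∈ U)
    (hχ : ∀ u ∈ U, cycloChar p (primeLocalToGlobal q u) = 1)
    (a : ↥U → ZMod p) (ha : ∀ g h, a (g * h) = a g + a h)
    (hl : IsLevelConstant₁ ((primeLocalToGlobal q).comp U.subtype) a) (h0 : a ≠ 0) :
    ∃ b : ↥U → ZMod p, (∀ g h, b (g * h) = b g + b h) ∧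
      IsLevelConstant₁ ((primeLocalToGlobal q).comp U.subtype) b ∧
      (fun x : ↥U × ↥U => a x.1 * b x.2) ∉
        levelCoboundaries₂ ((primeLocalToGlobal q).comp U.subtype)
          (Rep.trivial (ZMod p) ↥U (ZMod p)) :=
  haveI : Fact (q : ℕ).Prime := ⟨q.2⟩
  lb2_frozen (q : ℕ) p U hU hχ a ha hl h0

/-- `(LB2)` at a prime `q`, cup product in the other order. -/
theorem lb2_primeLocal_flip (q : Nat.Primes) (U : Subgroup (primeLocalGaloisGroup q))
    (hU : ∃ F : IntermediateField ℚ (AlgebraicClosure ℚ), FiniteDimensional ℚ F ∧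
      ∀ τ : primeLocalGaloisGroup q, primeLocalToGlobal q τ ∈ F.fixingSubgroup → τ ∈ U)
    (hχ : ∀ u ∈ U, cycloChar p (primeLocalToGlobal q u) = 1)
    (a : ↥U → ZMod p) (ha : ∀ g h, a (g * h) = a g + a h)
    (hl : IsLevelConstant₁ ((primeLocalToGlobal q).comp U.subtype) a) (h0 : a ≠ 0) :
    ∃ b : ↥U → ZMod p, (∀ g h, b (g * h) = b g + b h) ∧
      IsLevelConstant₁ ((primeLocalToGlobal q).comp U.subtype) b ∧
      (fun x : ↥U × ↥U => b x.1 * a x.2) ∉
        levelCoboundaries₂ ((primeLocalToGlobal q).comp U.subtype)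
          (Rep.trivial (ZMod p) ↥U (ZMod p)) :=
  haveI : Fact (q : ℕ).Prime := ⟨q.2⟩
  lb2_frozen_flip (q : ℕ) p U hU hχ a ha hl h0

/-- `(LB2)` at a prime `q`, `inv`-form. -/
theorem lb2_primeLocal_inv (q : Nat.Primes) (U : Subgroup (primeLocalGaloisGroup q))
    (hU : ∃ F : IntermediateField ℚ (AlgebraicClosure ℚ), FiniteDimensional ℚ F ∧
      ∀ τ : primeLocalGaloisGroup q, primeLocalToGlobal q τ ∈ F.fixingSubgroup → τ ∈ U)
    (hχ : ∀ u ∈ U, cycloChar p (primeLocalToGlobal q u) = 1)
    (inv : continuousH2 ((primeLocalToGlobal q).comp U.subtype)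
      (Rep.trivial (ZMod p) ↥U (ZMod p)) →ₗ[ZMod p] ZMod p)
    (hinv : Function.Injective inv)
    (a : ↥U → ZMod p) (ha : ∀ g h, a (g * h) = a g + a h)
    (hl : IsLevelConstant₁ ((primeLocalToGlobal q).comp U.subtype) a)
    (hvan : ∀ (b : ↥U → ZMod p) (hb : ∀ g h, b (g * h) = b g + b h)
      (hlb : IsLevelConstant₁ ((primeLocalToGlobal q).comp U.subtype) b),
      inv (continuousH2π ((primeLocalToGlobal q).comp U.subtype)
        (Rep.trivial (ZMod p) ↥U (ZMod p))
        ⟨cupFun a b, cupFun_mem_levelCocycles₂ _ ha hl hb hlb⟩) = 0) :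
    a = 0 :=
  haveI : Fact (q : ℕ).Prime := ⟨q.2⟩
  lb2_frozen_inv (q : ℕ) p U hU hχ inv hinv a ha hl hvan

end Primes

end

end Fermat.Agent.S55.helper2887
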