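/-
S55 (Poitou–Tate) by-product: the global truncated Euler characteristic
`χ(G_S, -) = h⁰ - h¹ + h²` is ADDITIVE on short exact sequences of `S`-modules.
Author: helper2906.

The truncated long exact sequence only gives `χ(B) ≤ χ(A) + χ(C)` (`helper613.Stmt_ChiSub`).
Applying it to the sequence and to its twisted dual and comparing with `E* = 0` (the equality
case of the S55 squeeze) and the additivity of the local Euler characteristics
(`helper613.Stmt_ChiLocAdd`) forces equality: this is "`cd_p(G_S) ≤ 2`" in the only form a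
Selmer count needs (`H²(G_S, B) → H²(G_S, C)` is onto).

Hypothesis-passing over the SOFT Props of `helper2945_SoftSpec` and the two closed Props of
`helper613_StmtE`; nothing here is needed for the frozen S55 statement.

* `eStar_eq`  : `E*(M) = 0` in `ℕ`-form.
* `chi_add`   : `h⁰(B) + h¹(A) + h¹(C) + h²(B) = h⁰(A) + h⁰(C) + h¹(B) + h²(A) + h²(C)`.
-/
import Mathlib
import Fermat.Agent.S55.helper613_StmtE

set_option autoImplicit false

namespace Fermat.Agent.S55.helper2906

open CategoryTheory Module groupCohomology ExtCitation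
open Fermat.Agent.S55.helper2945

/-- `E*(M) = 0`: the sum of the global Euler characteristics of `M` and `M'` is the sum of the
local Euler characteristics of `M` (in `ℕ`-form). -/
theorem eStar_eq (hFin : Stmt_Fin) (hA : Stmt_A) (hB : Stmt_B) (hC : Stmt_C) (hL : Stmt_L2num)
    (hE : Stmt_E) {p : ℕ} [Fact p.Prime] (hp2 : p ≠ 2) (S : Finset Nat.Primes)
    (hpS : pPrime p ∈ S) (M : Rep.{0, 0, 0} (ZMod p) GQ) (hM : IsSMod S M) :
    h0 M + h2 S M + h0 (dualT M) + h2 S (dualT M) + pi1 S M =
      h1 S M + h1 S (dualT M) + pi0 S M + pi2 S M :=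
  le_antisymm (hE hp2 S hpS M hM) (helper613.eStar_ge hFin hA hB hC hL hp2 S hpS M hM)

/-- **Additivity of the global truncated Euler characteristic** on short exact sequences
`0 → A → B → C → 0` of `S`-modules. -/
theorem chi_add (hFin : Stmt_Fin) (hA : Stmt_A) (hB : Stmt_B) (hC : Stmt_C) (hL : Stmt_L2num)
    (hE : Stmt_E) (hSub : helper613.Stmt_ChiSub) (hLocAdd : helper613.Stmt_ChiLocAdd)
    {p : ℕ} [Fact p.Prime] (hp2 : p ≠ 2) (S : Finset Nat.Primes) (hpS : pPrime p ∈ S)
    (A B C : Rep.{0, 0, 0} (ZMod p) GQ) (f : A ⟶ B) (g : B ⟶ C)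
    (sA : IsSMod S A) (sB : IsSMod S B) (sC : IsSMod S C)
    (hf : Function.Injective f.hom) (hg : Function.Surjective g.hom)
    (hex : Function.Exact f.hom g.hom) :
    h0 B + h1 S A + h1 S C + h2 S B = h0 A + h0 C + h1 S B + h2 S A + h2 S C := by
  have hS' : ∀ X : Rep.{0, 0, 0} (ZMod p) GQ, IsSMod S X → IsSMod S (dualT X) :=
    fun X hX => helper8412.isSMod_dualT S hpS X hX
  have k1 := hSub hp2 S hpS A B C f g sA sB sC hf hg hex
  obtain ⟨hinj', hex', hsurj'⟩ :=
    helper1408.dualTwistMap_shortExact (cycloChar p) f g hf hex hg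
  have k2 := hSub hp2 S hpS (dualT C) (dualT B) (dualT A)
    (helper1408.dualTwistMap (cycloChar p) g) (helper1408.dualTwistMap (cycloChar p) f)
    (hS' C sC) (hS' B sB) (hS' A sA) hinj' hsurj' hex'
  have k3 := hLocAdd hp2 S hpS A B C f g sA sB sC hf hg hex
  have eA := eStar_eq hFin hA hB hC hL hE hp2 S hpS A sA
  have eB := eStar_eq hFin hA hB hC hL hE hp2 S hpS B sB
  have eC := eStar_eq hFin hA hB hC hL hE hp2 S hpS C sC
  omega

end Fermat.Agent.S55.helper2906
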