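/-
S55 (Poitou–Tate) by-product for Selmer counts (S56-type consumers): the
**Greenberg–Wiles formula on the frozen carriers**.  Author: helper2906.

Hypothesis-passing over the six SOFT Props of `helper2945_SoftSpec` (all discharged by the S55
squeeze), the local package `helper665.Stmt_LocalL2` and a reciprocity invariant system
(`helper15.Stmt_R`).  Nothing here is needed for the frozen S55 statement itself.

* `finrank_comap_eq`     : `dim f⁻¹(L) = dim ker f + dim (range f ⊓ L)`.
* `gw_core`              : linear algebra. `A ≤ Π X`, `B ≤ Π Y` orthogonal for a sum of pairings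
                           `Y i × X i → k` with trivial `Y`-kernel, `dim A + dim B = ∑ dim X i`.
                           Then `B` is the exact annihilator of `A`
                           (`mem_of_forall_orth`) and for every `L ≤ Π X`:
                           `dim (A ⊓ L) + ∑ dim X i = dim (B ⊓ L^⊥) + dim A + dim L`.
* `selmer S M L`         : the Selmer group `{x ∈ H¹(G_S, M) | loc x ∈ L}` (a submodule of the
                           frozen `continuousH1S S M`), `L` ANY subspace of `Π_{q ∈ S} H¹(ℚ_q, M)`.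
* `perpTotal`            : the annihilator of `L` in `Π_{q ∈ S} H¹(ℚ_q, M')` for the sum of the
                           local cup pairings composed with the invariant maps.
* `greenbergWiles`       : `dim Sel_L(M) + h¹(M') + π₀(M) = dim Sel_{L^⊥}(M') + h⁰(M) + h²(M') + dim L`,
                           i.e. `dim Sel_L(M) - dim Sel_{L^⊥}(M') = h⁰(M) - h⁰(M') + χ(G_S, M')
                           + ∑_{q ∈ S} (dim L_q - h⁰(ℚ_q, M))`.
* `dualCond`, `perpTotal_pi`, `greenbergWiles_pi` : the same for a family of local conditions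
                           `L q ≤ H¹(ℚ_q, M)`, with the dual conditions defined intrinsically
                           (vanishing of the local cup product; no invariant map in the statement).
-/
import Mathlib
import Fermat.Agent.S55.helper15_StmtC
import Fermat.Agent.S55.helper2945_SoftSpec

set_option autoImplicit false

namespace Fermat.Agent.S55.helper2906

open Module groupCohomology ExtCitation

/-! ### Linear algebra -/

section Core

variable {k : Type*} [Field k]

/-- `dim f⁻¹(L) = dim ker f + dim (range f ⊓ L)`. -/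
theorem finrank_comap_eq {X Y : Type*} [AddCommGroup X] [Module k X] [AddCommGroup Y]
    [Module k Y] [FiniteDimensional k X] (f : X →ₗ[k] Y) (L : Submodule k Y) :
    finrank k ↥(L.comap f) = finrank k ↥(LinearMap.ker f) + finrank k ↥(LinearMap.range f ⊓ L) := by
  set g : ↥(L.comap f) →ₗ[k] Y := f.comp (L.comap f).subtype with hg
  have hrange : LinearMap.range g = LinearMap.range f ⊓ L := by
    ext y
    constructor
    · rintro ⟨x, rfl⟩
      exact ⟨⟨x.1, rfl⟩, x.2⟩
    · rintro ⟨⟨x, rfl⟩, hx⟩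
      exact ⟨⟨x, hx⟩, rfl⟩
  have hker : LinearMap.ker g = (LinearMap.ker f).comap (L.comap f).subtype := by
    ext x
    simp [hg]
  have hle : LinearMap.ker f ≤ L.comap f := by
    intro x hx
    rw [Submodule.mem_comap, LinearMap.mem_ker.1 hx]
    exact L.zero_mem
  have h1 := LinearMap.finrank_range_add_finrank_ker g
  rw [hrange, hker, (Submodule.comapSubtypeEquivOfLe hle).finrank_eq] at h1
  omega

variable {ι : Type*} [Fintype ι]
  {X Y : ι → Type*} [∀ i, AddCommGroup (X i)] [∀ i, Module k (X i)]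
  [∀ i, AddCommGroup (Y i)] [∀ i, Module k (Y i)]

/-- The annihilator of `L ≤ Π X` in `Π Y` for the sum of the pairings `γ i : Y i × X i → k`. -/
noncomputable def perp (γ : ∀ i, Y i →ₗ[k] X i →ₗ[k] k) (L : Submodule k (∀ i, X i)) :
    Submodule k (∀ i, Y i) :=
  L.dualAnnihilator.comap (helper15.sumPairing fun i => (γ i).flip)

lemma mem_perp (γ : ∀ i, Y i →ₗ[k] X i →ₗ[k] k) (L : Submodule k (∀ i, X i)) (y : ∀ i, Y i) :
    y ∈ perp γ L ↔ ∀ x ∈ L, ∑ i, γ i (y i) (x i) = 0 := by
  rw [perp, Submodule.mem_comap, Submodule.mem_dualAnnihilator]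
  refine forall₂_congr fun x _ => ?_
  rw [helper15.sumPairing_apply]
  rfl

/-- If `A ≤ Π X` and `B ≤ Π Y` are orthogonal, the pairings have trivial `Y`-kernel and
`dim A + dim B = ∑ dim X i`, then the image of `B` in the dual of `Π X` is the annihilator
of `A`. -/
theorem map_sumPairing_eq [∀ i, FiniteDimensional k (X i)]
    (γ : ∀ i, Y i →ₗ[k] X i →ₗ[k] k)
    (hker : ∀ i (y : Y i), (∀ x, γ i y x = 0) → y = 0)
    (A : Submodule k (∀ i, X i)) (B : Submodule k (∀ i, Y i))
    (horth : ∀ a ∈ A, ∀ b ∈ B, ∑ i, γ i (b i) (a i) = 0)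
    (hdim : finrank k A + finrank k B = ∑ i, finrank k (X i)) :
    B.map (helper15.sumPairing fun i => (γ i).flip) = A.dualAnnihilator := by
  classical
  have hinj : Function.Injective (helper15.sumPairing fun i => (γ i).flip) :=
    helper15.sumPairing_injective _ (fun i y hy => hker i y hy)
  have hle : B.map (helper15.sumPairing fun i => (γ i).flip) ≤ A.dualAnnihilator := by
    rintro _ ⟨b, hb, rfl⟩
    rw [Submodule.mem_dualAnnihilator]
    intro a ha
    rw [helper15.sumPairing_apply]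
    exact horth a ha b hb
  have h1 : finrank k ↥(B.map (helper15.sumPairing fun i => (γ i).flip)) = finrank k B :=
    (Submodule.equivMapOfInjective _ hinj B).finrank_eq.symm
  have h2 := Subspace.finrank_add_finrank_dualAnnihilator_eq A
  rw [Module.finrank_pi_fintype] at h2
  exact Submodule.eq_of_le_of_finrank_le hle (by omega)

/-- **Exact annihilator**: under the hypotheses of `map_sumPairing_eq`, an element of `Π Y`
orthogonal to `A` lies in `B`. -/
theorem mem_of_forall_orth [∀ i, FiniteDimensional k (X i)]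
    (γ : ∀ i, Y i →ₗ[k] X i →ₗ[k] k)
    (hker : ∀ i (y : Y i), (∀ x, γ i y x = 0) → y = 0)
    (A : Submodule k (∀ i, X i)) (B : Submodule k (∀ i, Y i))
    (horth : ∀ a ∈ A, ∀ b ∈ B, ∑ i, γ i (b i) (a i) = 0)
    (hdim : finrank k A + finrank k B = ∑ i, finrank k (X i))
    (y : ∀ i, Y i) (hy : ∀ a ∈ A, ∑ i, γ i (y i) (a i) = 0) : y ∈ B := by
  classical
  have hinj : Function.Injective (helper15.sumPairing fun i => (γ i).flip) :=
    helper15.sumPairing_injective _ (fun i y hy => hker i y hy)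
  have hmem : helper15.sumPairing (fun i => (γ i).flip) y ∈ A.dualAnnihilator := by
    rw [Submodule.mem_dualAnnihilator]
    intro a ha
    rw [helper15.sumPairing_apply]
    exact hy a ha
  rw [← map_sumPairing_eq γ hker A B horth hdim] at hmem
  obtain ⟨b, hb, hby⟩ := hmem
  rwa [← hinj hby]

/-- **Greenberg–Wiles, linear algebra core.** -/
theorem gw_core [∀ i, FiniteDimensional k (X i)]
    (γ : ∀ i, Y i →ₗ[k] X i →ₗ[k] k)
    (hker : ∀ i (y : Y i), (∀ x, γ i y x = 0) → y = 0)
    (A : Submodule k (∀ i, X i)) (B : Submodule k (∀ i, Y i))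
    (horth : ∀ a ∈ A, ∀ b ∈ B, ∑ i, γ i (b i) (a i) = 0)
    (hdim : finrank k A + finrank k B = ∑ i, finrank k (X i))
    (L : Submodule k (∀ i, X i)) :
    finrank k ↥(A ⊓ L) + ∑ i, finrank k (X i)
      = finrank k ↥(B ⊓ perp γ L) + finrank k A + finrank k L := by
  classical
  set Φ := helper15.sumPairing fun i => (γ i).flip with hΦ
  have hinj : Function.Injective Φ :=
    helper15.sumPairing_injective _ (fun i y hy => hker i y hy)
  have hB : B.map Φ = A.dualAnnihilator := map_sumPairing_eq γ hker A B horth hdim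
  have hmap : (B ⊓ perp γ L).map Φ = (A ⊔ L).dualAnnihilator := by
    rw [Submodule.map_inf Φ hinj, perp, Submodule.map_comap_eq, ← inf_assoc,
      inf_eq_left.2 (LinearMap.map_le_range : B.map Φ ≤ LinearMap.range Φ), hB,
      Submodule.dualAnnihilator_sup_eq]
  have h1 : finrank k ↥((B ⊓ perp γ L).map Φ) = finrank k ↥(B ⊓ perp γ L) :=
    (Submodule.equivMapOfInjective Φ hinj _).finrank_eq.symm
  have h2 := Subspace.finrank_add_finrank_dualAnnihilator_eq (A ⊔ L)
  rw [Module.finrank_pi_fintype] at h2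
  have h3 := Submodule.finrank_sup_add_finrank_inf_eq A L
  rw [hmap] at h1
  omega

end Core

/-- `Submodule.pi Set.univ L ≃ Π i, L i`. -/
def piUnivEquiv {k : Type*} [Field k] {ι : Type*} {X : ι → Type*}
    [∀ i, AddCommGroup (X i)] [∀ i, Module k (X i)] (L : ∀ i, Submodule k (X i)) :
    ↥(Submodule.pi Set.univ L) ≃ₗ[k] ∀ i, ↥(L i) where
  toFun x i := ⟨x.1 i, x.2 i (Set.mem_univ i)⟩
  invFun y := ⟨fun i => (y i : X i), fun i _ => (y i).2⟩
  map_add' _ _ := rfl
  map_smul' _ _ := rfl
  left_inv _ := rfl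
  right_inv _ := rfl

theorem finrank_pi_univ {k : Type*} [Field k] {ι : Type*} [Fintype ι] {X : ι → Type*}
    [∀ i, AddCommGroup (X i)] [∀ i, Module k (X i)] [∀ i, FiniteDimensional k (X i)]
    (L : ∀ i, Submodule k (X i)) :
    finrank k ↥(Submodule.pi Set.univ L) = ∑ i, finrank k ↥(L i) := by
  rw [(piUnivEquiv L).finrank_eq, Module.finrank_pi_fintype]

/-! ### The frozen carriers -/

section Frozen

open Fermat.Agent.S55.helper2945 Fermat.Agent.S55.helper7860 Fermat.Agent.S55.helper15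

local notation "GQ" => (AlgebraicClosure ℚ ≃ₐ[ℚ] AlgebraicClosure ℚ)

variable {p : ℕ} [Fact p.Prime]

/-- The Selmer group `{x ∈ H¹(G_S, M) | (loc_q x)_{q ∈ S} ∈ L}` on the frozen carrier, for an
arbitrary subspace `L` of `Π_{q ∈ S} H¹(ℚ_q, M)`. -/
noncomputable def selmer (S : Finset Nat.Primes) (M : Rep.{0, 0, 0} (ZMod p) GQ)
    (L : Submodule (ZMod p) (∀ q : ↥S, LocH1 M q.1)) :
    Submodule (ZMod p) ↥(continuousH1S S M) :=
  L.comap (resTotal S M)

lemma mem_selmer (S : Finset Nat.Primes) (M : Rep.{0, 0, 0} (ZMod p) GQ)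
    (L : Submodule (ZMod p) (∀ q : ↥S, LocH1 M q.1)) (x : ↥(continuousH1S S M)) :
    x ∈ selmer S M L ↔ resTotal S M x ∈ L := Iff.rfl

/-- The local Tate pairing `H¹(ℚ_q, M') × H¹(ℚ_q, M) → 𝔽_p` at `q ∈ S`: cup product for the
evaluation pairing `M' × M → μ_p`, followed by the invariant map `inv q`. -/
noncomputable def locPair {S : Finset Nat.Primes} {M : Rep.{0, 0, 0} (ZMod p) GQ}
    (hsm : IsSmoothS S M) (inv : ∀ q : ↥S, LocH2 (muRep p) q.1 →ₗ[ZMod p] ZMod p) (q : ↥S) :
    LocH1 (dualT M) q.1 →ₗ[ZMod p] LocH1 M q.1 →ₗ[ZMod p] ZMod p :=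
  locCup hsm (isEquivariantPairing_evalPairingSwap M (cycloChar p)) q.1 (inv q)

/-- The annihilator of `L ≤ Π_{q ∈ S} H¹(ℚ_q, M)` in `Π_{q ∈ S} H¹(ℚ_q, M')` for the sum of the
local Tate pairings. -/
noncomputable def perpTotal {S : Finset Nat.Primes} {M : Rep.{0, 0, 0} (ZMod p) GQ}
    (hsm : IsSmoothS S M) (inv : ∀ q : ↥S, LocH2 (muRep p) q.1 →ₗ[ZMod p] ZMod p)
    (L : Submodule (ZMod p) (∀ q : ↥S, LocH1 M q.1)) :
    Submodule (ZMod p) (∀ q : ↥S, LocH1 (dualT M) q.1) :=
  perp (locPair hsm inv) L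

lemma mem_perpTotal {S : Finset Nat.Primes} {M : Rep.{0, 0, 0} (ZMod p) GQ}
    (hsm : IsSmoothS S M) (inv : ∀ q : ↥S, LocH2 (muRep p) q.1 →ₗ[ZMod p] ZMod p)
    (L : Submodule (ZMod p) (∀ q : ↥S, LocH1 M q.1)) (y : ∀ q : ↥S, LocH1 (dualT M) q.1) :
    y ∈ perpTotal hsm inv L ↔ ∀ x ∈ L, ∑ q : ↥S, locPair hsm inv q (y q) (x q) = 0 :=
  mem_perp _ L y

/-- Local duality, left kernel, cup-product form: a class of `H¹(ℚ_q, M')` whose cup product
with every class of `H¹(ℚ_q, M)` vanishes in `H²(ℚ_q, μ_p)` is zero. -/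
theorem cupH1_left_kernel (hLoc : helper665.Stmt_LocalL2) (hp2 : p ≠ 2)
    {S : Finset Nat.Primes} (hpS : pPrime p ∈ S) {M : Rep.{0, 0, 0} (ZMod p) GQ}
    (hM : IsSMod S M) (q : ↥S) (y : LocH1 (dualT M) q.1)
    (hy : ∀ x : LocH1 M q.1, cupH1 ((isSmoothS_of_isSMod hpS hM).res (primeLocalToGlobal q.1))
      ((isEquivariantPairing_evalPairingSwap M (cycloChar p)).res (primeLocalToGlobal q.1)) y x
        = 0) : y = 0 := by
  have hMfin := hM.finite
  obtain ⟨K, hK, hρ, hχ⟩ := exists_sfield_of_isSMod hpS hM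
  have hB : IsSmoothS S M := isSmoothS_of_isSMod hpS hM
  have hβ := isEquivariantPairing_evalPairingSwap M (cycloChar p)
  have hfd : FiniteDimensional (ZMod p) (Rep.res (primeLocalToGlobal q.1) M) := hMfin
  have hψ : helper1447.IsLevelChar (primeLocalToGlobal q.1)
      ((cycloChar p).comp (primeLocalToGlobal q.1)) :=
    ⟨K, hK.1, fun s hs => hχ _ hs⟩
  exact cupH1_left_kernel_of_eq (hB.res (primeLocalToGlobal q.1)) hψ
    (stmt_H2ne_of_localL2 hLoc hp2 q.1) (stmt_L2injLoc_of_localL2 hLoc hp2 q.1) _ _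
    (res_dualTwist _ M (cycloChar p)) (res_ofChar _ (cycloChar p))
    _ (hβ.res (primeLocalToGlobal q.1)) HEq.rfl y hy

/-- The local Tate pairing has trivial kernel in the `M'`-variable (from the local package and
injectivity of the invariant maps). -/
theorem locPair_left_kernel (hLoc : helper665.Stmt_LocalL2) (hp2 : p ≠ 2)
    {S : Finset Nat.Primes} (hpS : pPrime p ∈ S) {M : Rep.{0, 0, 0} (ZMod p) GQ}
    (hM : IsSMod S M) (inv : ∀ q : ↥S, LocH2 (muRep p) q.1 →ₗ[ZMod p] ZMod p)
    (hinj : ∀ q, Function.Injective (inv q)) (q : ↥S) (y : LocH1 (dualT M) q.1)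
    (hy : ∀ x : LocH1 M q.1, locPair (isSmoothS_of_isSMod hpS hM) inv q y x = 0) : y = 0 := by
  refine cupH1_left_kernel hLoc hp2 hpS hM q y (fun x => hinj q ?_)
  rw [map_zero]
  exact hy x

/-- The kernel of the total localisation on `H¹(G_S, M)` has dimension `a₁(M)`. -/
theorem finrank_ker_resTotal (hp2 : p ≠ 2) (S : Finset Nat.Primes)
    (M : Rep.{0, 0, 0} (ZMod p) GQ) [FiniteDimensional (ZMod p) (continuousH1S S M)] :
    finrank (ZMod p) ↥(LinearMap.ker (resTotal S M)) = a1 S M := by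
  have hrk := LinearMap.finrank_range_add_finrank_ker (resTotal S M)
  have hmap := finrank_map_locTotal_eq hp2 S M
  have hadd := a1_add_r1 S M
  unfold helper2945.r1 helper2945.h1 at hadd
  omega

/-- **Greenberg–Wiles formula on the frozen carriers** (arbitrary subspace `L` of the product of
the local `H¹`'s, explicit invariant system):
`dim Sel_L(M) + h¹(G_S, M') + π₀(M) = dim Sel_{L^⊥}(M') + h⁰(M) + h²(G_S, M') + dim L`. -/
theorem greenbergWiles (hFin : Stmt_Fin) (hA : Stmt_A) (hB : Stmt_B) (hC : Stmt_C)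
    (hL : Stmt_L2num) (hE : Stmt_E) (hLoc : helper665.Stmt_LocalL2) (hp2 : p ≠ 2)
    (S : Finset Nat.Primes) (hpS : pPrime p ∈ S) (M : Rep.{0, 0, 0} (ZMod p) GQ)
    (hM : IsSMod S M) (inv : ∀ q : ↥S, LocH2 (muRep p) q.1 →ₗ[ZMod p] ZMod p)
    (hinj : ∀ q, Function.Injective (inv q))
    (hsum : ∀ z : continuousH2S S (muRep p),
      ∑ q : ↥S, inv q (locRes₂S S (muRep p) (primeLocalToGlobal q.1) z) = 0)
    (L : Submodule (ZMod p) (∀ q : ↥S, LocH1 M q.1)) :
    finrank (ZMod p) ↥(selmer S M L) + h1 S (dualT M) + pi0 S M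
      = finrank (ZMod p) ↥(selmer S (dualT M) (perpTotal (isSmoothS_of_isSMod hpS hM) inv L))
        + h0 M + h2 S (dualT M) + finrank (ZMod p) ↥L := by
  obtain ⟨f1, f2, f3, f4⟩ := hFin hp2 S hpS M hM
  obtain ⟨hA1, hA2⟩ := hA hp2 S hpS M hM
  obtain ⟨hB1, hB2⟩ := hB hp2 S hpS M hM
  have hC' := hC hp2 S hpS M hM
  have hL' := hL hp2 S hpS M hM
  have hE' := hE hp2 S hpS M hM
  have e1 := a1_add_r1 S M
  have e2 := a2_add_r2 S M
  have e3 := a1_add_r1 S (dualT M)
  have e4 := a2_add_r2 S (dualT M)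
  have hsm : IsSmoothS S M := isSmoothS_of_isSMod hpS hM
  have hfinLoc : ∀ q : ↥S, FiniteDimensional (ZMod p) (LocH1 M q.1) :=
    fun q => stmt_LocH1Fin hp2 S hpS M hM q.1 q.2
  -- ranks of the two localisation maps
  have hr : r1 S M = finrank (ZMod p) ↥(LinearMap.range (resTotal S M)) :=
    finrank_map_locTotal_eq hp2 S M
  have hr' : r1 S (dualT M) = finrank (ZMod p) ↥(LinearMap.range (resTotal S (dualT M))) :=
    finrank_map_locTotal_eq hp2 S (dualT M)
  have hk := finrank_ker_resTotal hp2 S M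
  have hk' := finrank_ker_resTotal hp2 S (dualT M)
  have hpi : pi1 S M = ∑ q : ↥S, finrank (ZMod p) (LocH1 M q.1) := by
    unfold pi1
    exact (Finset.sum_coe_sort S (fun q => finrank (ZMod p) (LocH1 M q))).symm
  -- the linear algebra core
  have hcore := gw_core (locPair hsm inv)
    (fun q y hy => locPair_left_kernel hLoc hp2 hpS hM inv hinj q y hy)
    (LinearMap.range (resTotal S M)) (LinearMap.range (resTotal S (dualT M)))
    (by
      rintro _ ⟨x, rfl⟩ _ ⟨y, rfl⟩
      exact sum_locCup_resTotal hsm (isEquivariantPairing_evalPairingSwap M (cycloChar p))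
        inv hsum y x)
    (by omega) L
  have c1 := finrank_comap_eq (resTotal S M) L
  have c2 := finrank_comap_eq (resTotal S (dualT M)) (perpTotal hsm inv L)
  unfold selmer
  unfold perpTotal at c2 ⊢
  omega

/-- **Middle exactness of Poitou–Tate** (frozen carriers): a family of local classes of `M'`
which is orthogonal to the localisations of all global classes of `M` is the localisation of a
global class of `M'`. -/
theorem mem_range_resTotal_dualT (hFin : Stmt_Fin) (hA : Stmt_A) (hB : Stmt_B) (hC : Stmt_C)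
    (hL : Stmt_L2num) (hE : Stmt_E) (hLoc : helper665.Stmt_LocalL2) (hp2 : p ≠ 2)
    (S : Finset Nat.Primes) (hpS : pPrime p ∈ S) (M : Rep.{0, 0, 0} (ZMod p) GQ)
    (hM : IsSMod S M) (inv : ∀ q : ↥S, LocH2 (muRep p) q.1 →ₗ[ZMod p] ZMod p)
    (hinj : ∀ q, Function.Injective (inv q))
    (hsum : ∀ z : continuousH2S S (muRep p),
      ∑ q : ↥S, inv q (locRes₂S S (muRep p) (primeLocalToGlobal q.1) z) = 0)
    (y : ∀ q : ↥S, LocH1 (dualT M) q.1)
    (hy : ∀ x : ↥(continuousH1S S M),
      ∑ q : ↥S, locPair (isSmoothS_of_isSMod hpS hM) inv q (y q) (resTotal S M x q) = 0) :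
    y ∈ LinearMap.range (resTotal S (dualT M)) := by
  obtain ⟨f1, f2, f3, f4⟩ := hFin hp2 S hpS M hM
  obtain ⟨hA1, hA2⟩ := hA hp2 S hpS M hM
  obtain ⟨hB1, hB2⟩ := hB hp2 S hpS M hM
  have hC' := hC hp2 S hpS M hM
  have hL' := hL hp2 S hpS M hM
  have hE' := hE hp2 S hpS M hM
  have e1 := a1_add_r1 S M
  have e2 := a2_add_r2 S M
  have e3 := a1_add_r1 S (dualT M)
  have e4 := a2_add_r2 S (dualT M)
  have hsm : IsSmoothS S M := isSmoothS_of_isSMod hpS hM
  have hfinLoc : ∀ q : ↥S, FiniteDimensional (ZMod p) (LocH1 M q.1) :=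
    fun q => stmt_LocH1Fin hp2 S hpS M hM q.1 q.2
  have hr : r1 S M = finrank (ZMod p) ↥(LinearMap.range (resTotal S M)) :=
    finrank_map_locTotal_eq hp2 S M
  have hr' : r1 S (dualT M) = finrank (ZMod p) ↥(LinearMap.range (resTotal S (dualT M))) :=
    finrank_map_locTotal_eq hp2 S (dualT M)
  have hpi : pi1 S M = ∑ q : ↥S, finrank (ZMod p) (LocH1 M q.1) := by
    unfold pi1
    exact (Finset.sum_coe_sort S (fun q => finrank (ZMod p) (LocH1 M q))).symm
  refine mem_of_forall_orth (locPair hsm inv)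
    (fun q y hy => locPair_left_kernel hLoc hp2 hpS hM inv hinj q y hy)
    (LinearMap.range (resTotal S M)) (LinearMap.range (resTotal S (dualT M)))
    (by
      rintro _ ⟨x, rfl⟩ _ ⟨y, rfl⟩
      exact sum_locCup_resTotal hsm (isEquivariantPairing_evalPairingSwap M (cycloChar p))
        inv hsum y x)
    (by omega) y ?_
  rintro _ ⟨x, rfl⟩
  exact hy x

/-! ### Families of local conditions -/

/-- The dual local condition `L_q^⊥ ≤ H¹(ℚ_q, M')` of `L_q ≤ H¹(ℚ_q, M)`: the classes whose cup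
product with every class of `L_q` vanishes in `H²(ℚ_q, μ_p)` (no invariant map involved). -/
noncomputable def dualCond {S : Finset Nat.Primes} {M : Rep.{0, 0, 0} (ZMod p) GQ}
    (hsm : IsSmoothS S M) (q : ↥S) (Lq : Submodule (ZMod p) (LocH1 M q.1)) :
    Submodule (ZMod p) (LocH1 (dualT M) q.1) where
  carrier := {y | ∀ x ∈ Lq, cupH1 (hsm.res (primeLocalToGlobal q.1))
    ((isEquivariantPairing_evalPairingSwap M (cycloChar p)).res (primeLocalToGlobal q.1)) y x = 0}
  add_mem' := fun {a b} ha hb x hx => by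
    rw [map_add, LinearMap.add_apply, ha x hx, hb x hx, add_zero]
  zero_mem' := fun x _ => by rw [map_zero, LinearMap.zero_apply]
  smul_mem' := fun c a ha x hx => by
    rw [map_smul, LinearMap.smul_apply, ha x hx, smul_zero]

lemma mem_dualCond {S : Finset Nat.Primes} {M : Rep.{0, 0, 0} (ZMod p) GQ}
    (hsm : IsSmoothS S M) (q : ↥S) (Lq : Submodule (ZMod p) (LocH1 M q.1))
    (y : LocH1 (dualT M) q.1) :
    y ∈ dualCond hsm q Lq ↔ ∀ x ∈ Lq, cupH1 (hsm.res (primeLocalToGlobal q.1))
      ((isEquivariantPairing_evalPairingSwap M (cycloChar p)).res (primeLocalToGlobal q.1)) y x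
        = 0 :=
  Iff.rfl

/-- The dual of the zero condition is everything. -/
lemma dualCond_bot {S : Finset Nat.Primes} {M : Rep.{0, 0, 0} (ZMod p) GQ}
    (hsm : IsSmoothS S M) (q : ↥S) : dualCond hsm q ⊥ = ⊤ := by
  refine eq_top_iff.2 fun y _ => ?_
  intro x hx
  rw [(Submodule.mem_bot _).1 hx, map_zero]

/-- The dual of the full condition is zero (local duality, left kernel). -/
lemma dualCond_top (hLoc : helper665.Stmt_LocalL2) (hp2 : p ≠ 2)
    {S : Finset Nat.Primes} (hpS : pPrime p ∈ S) {M : Rep.{0, 0, 0} (ZMod p) GQ}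
    (hM : IsSMod S M) (q : ↥S) : dualCond (isSmoothS_of_isSMod hpS hM) q ⊤ = ⊥ := by
  refine eq_bot_iff.2 fun y hy => ?_
  rw [Submodule.mem_bot]
  exact cupH1_left_kernel hLoc hp2 hpS hM q y (fun x => hy x Submodule.mem_top)

/-- For a family of local conditions, the annihilator for the sum of the local Tate pairings is
the family of the dual local conditions (whatever the injective invariant maps are). -/
theorem perpTotal_pi {S : Finset Nat.Primes} {M : Rep.{0, 0, 0} (ZMod p) GQ}
    (hsm : IsSmoothS S M) (inv : ∀ q : ↥S, LocH2 (muRep p) q.1 →ₗ[ZMod p] ZMod p)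
    (hinj : ∀ q, Function.Injective (inv q))
    (Lq : ∀ q : ↥S, Submodule (ZMod p) (LocH1 M q.1)) :
    perpTotal hsm inv (Submodule.pi Set.univ Lq)
      = Submodule.pi Set.univ (fun q => dualCond hsm q (Lq q)) := by
  classical
  ext y
  rw [mem_perpTotal, Submodule.mem_pi]
  constructor
  · intro h q _ x hx
    have hmem : Pi.single q x ∈ Submodule.pi Set.univ Lq := by
      intro q' _
      by_cases hq : q' = q
      · subst hq
        rw [Pi.single_eq_same]
        exact hx
      · rw [Pi.single_eq_of_ne hq]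
        exact (Lq q').zero_mem
    have h0 := h (Pi.single q x) hmem
    rw [Finset.sum_eq_single q] at h0
    · rw [Pi.single_eq_same] at h0
      refine hinj q ?_
      rw [map_zero]
      exact h0
    · intro q' _ hne
      rw [Pi.single_eq_of_ne hne, map_zero]
    · intro hq
      exact absurd (Finset.mem_univ q) hq
  · intro h x hx
    refine Finset.sum_eq_zero fun q _ => ?_
    have h0 := h q (Set.mem_univ q) (x q) (hx q (Set.mem_univ q))
    show inv q (cupH1 _ _ (y q) (x q)) = 0
    rw [h0, map_zero]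

/-- **Greenberg–Wiles formula for a family of local conditions** `L q ≤ H¹(ℚ_q, M)`, `q ∈ S`,
with the dual conditions `dualCond`:
`dim Sel_L(M) + h¹(G_S, M') + π₀(M) = dim Sel_{L^⊥}(M') + h⁰(M) + h²(G_S, M') + ∑_q dim L_q`. -/
theorem greenbergWiles_pi (hFin : Stmt_Fin) (hA : Stmt_A) (hB : Stmt_B) (hC : Stmt_C)
    (hL : Stmt_L2num) (hE : Stmt_E) (hR : Stmt_R) (hLoc : helper665.Stmt_LocalL2) (hp2 : p ≠ 2)
    (S : Finset Nat.Primes) (hpS : pPrime p ∈ S) (M : Rep.{0, 0, 0} (ZMod p) GQ)
    (hM : IsSMod S M) (Lq : ∀ q : ↥S, Submodule (ZMod p) (LocH1 M q.1)) :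
    finrank (ZMod p) ↥(selmer S M (Submodule.pi Set.univ Lq)) + h1 S (dualT M) + pi0 S M
      = finrank (ZMod p) ↥(selmer S (dualT M)
          (Submodule.pi Set.univ fun q => dualCond (isSmoothS_of_isSMod hpS hM) q (Lq q)))
        + h0 M + h2 S (dualT M) + ∑ q : ↥S, finrank (ZMod p) ↥(Lq q) := by
  obtain ⟨inv, hinj, hsum⟩ := hR hp2 S hpS
  have hfinLoc : ∀ q : ↥S, FiniteDimensional (ZMod p) (LocH1 M q.1) :=
    fun q => stmt_LocH1Fin hp2 S hpS M hM q.1 q.2
  have h := greenbergWiles hFin hA hB hC hL hE hLoc hp2 S hpS M hM inv hinj hsum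
    (Submodule.pi Set.univ Lq)
  rw [perpTotal_pi _ inv hinj, finrank_pi_univ] at h
  exact h

end Frozen

end Fermat.Agent.S55.helper2906
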