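/-
S55 (Poitou–Tate), the EQUALITIES of the soft squeeze, exported for consumers (S56 Greenberg–Wiles
count, findings #2752 (1)).  Author: helper2945 (architect).

All inequalities of the squeeze are tight.  For `M` in the class of the frozen statement
(`IsSMod S M`, `p` odd, `p ∈ S`) and `M' = dualT M`:

* `a₂(M) = a₁(M')`, `a₂(M') = a₁(M)`                        (`a2_eq_a1_dual`, SoftSpec);
* `r₁(M) + r₁(M') = π₁(M)`                                   (step C with equality);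
* `r₂(M) + h⁰(M') = π₂(M)`, `r₂(M') + h⁰(M) = π₂(M')`        (step B);
* `χ(M) + χ(M') = ∑_{q ∈ S} χ_q(M)`                          (step E with equality), written
  without subtraction.

`squeeze_eq` takes the six soft Props; `Frontier.squeeze_eq` takes the S55 frontier.
-/
import Mathlib
import Fermat.Agent.S55.helper2945_Integration

set_option autoImplicit false

namespace Fermat.Agent.S55.helper2945

open CategoryTheory Module groupCohomology ExtCitation

/-- **The squeeze equalities** from the six soft Props. -/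
theorem squeeze_eq (hFin : Stmt_Fin) (hA : Stmt_A) (hB : Stmt_B) (hC : Stmt_C)
    (hL : Stmt_L2num) (hE : Stmt_E)
    {p : ℕ} [Fact p.Prime] (hp2 : p ≠ 2) (S : Finset Nat.Primes) (hpS : pPrime p ∈ S)
    (M : Rep.{0, 0, 0} (ZMod p) GQ) (hM : IsSMod S M) :
    a2 S M = a1 S (dualT M) ∧ a2 S (dualT M) = a1 S M ∧
    r1 S M + r1 S (dualT M) = pi1 S M ∧
    r2 S M + h0 (dualT M) = pi2 S M ∧ r2 S (dualT M) + h0 M = pi2 S (dualT M) ∧
    pi2 S (dualT M) = pi0 S M ∧
    h0 M + h2 S M + h0 (dualT M) + h2 S (dualT M) + pi1 S M =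
      h1 S M + h1 S (dualT M) + pi0 S M + pi2 S M := by
  obtain ⟨f1, f2, f3, f4⟩ := hFin hp2 S hpS M hM
  obtain ⟨hA1, hA2⟩ := hA hp2 S hpS M hM
  obtain ⟨hB1, hB2⟩ := hB hp2 S hpS M hM
  have hC' := hC hp2 S hpS M hM
  have hL' := hL hp2 S hpS M hM
  have hE' := hE hp2 S hpS M hM
  have e1 := a1_add_r1 S M
  have e2 := a2_add_r2 S M
  have e3 := a1_add_r1 S (dualT M)
  have e4 := a2_add_r2 S (dualT M)
  refine ⟨?_, ?_, ?_, hB1, hB2, hL', ?_⟩ <;> omega

/-- Step C with equality: `r₁(M) + r₁(M') = π₁(M)`. -/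
theorem r1_add_r1_dual_eq (hFin : Stmt_Fin) (hA : Stmt_A) (hB : Stmt_B) (hC : Stmt_C)
    (hL : Stmt_L2num) (hE : Stmt_E)
    {p : ℕ} [Fact p.Prime] (hp2 : p ≠ 2) (S : Finset Nat.Primes) (hpS : pPrime p ∈ S)
    (M : Rep.{0, 0, 0} (ZMod p) GQ) (hM : IsSMod S M) :
    r1 S M + r1 S (dualT M) = pi1 S M :=
  (squeeze_eq hFin hA hB hC hL hE hp2 S hpS M hM).2.2.1

/-- Step E with equality: `χ(M) + χ(M') = ∑_{q ∈ S} χ_q(M)`, without subtraction. -/
theorem euler_eq (hFin : Stmt_Fin) (hA : Stmt_A) (hB : Stmt_B) (hC : Stmt_C)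
    (hL : Stmt_L2num) (hE : Stmt_E)
    {p : ℕ} [Fact p.Prime] (hp2 : p ≠ 2) (S : Finset Nat.Primes) (hpS : pPrime p ∈ S)
    (M : Rep.{0, 0, 0} (ZMod p) GQ) (hM : IsSMod S M) :
    h0 M + h2 S M + h0 (dualT M) + h2 S (dualT M) + pi1 S M =
      h1 S M + h1 S (dualT M) + pi0 S M + pi2 S M :=
  (squeeze_eq hFin hA hB hC hL hE hp2 S hpS M hM).2.2.2.2.2.2

namespace Frontier

variable (h : Frontier)
include h

/-- **The squeeze equalities under the S55 frontier.** -/
theorem squeeze_eq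
    {p : ℕ} [Fact p.Prime] (hp2 : p ≠ 2) (S : Finset Nat.Primes) (hpS : pPrime p ∈ S)
    (M : Rep.{0, 0, 0} (ZMod p) GQ) (hM : IsSMod S M) :
    a2 S M = a1 S (dualT M) ∧ a2 S (dualT M) = a1 S M ∧
    r1 S M + r1 S (dualT M) = pi1 S M ∧
    r2 S M + h0 (dualT M) = pi2 S M ∧ r2 S (dualT M) + h0 M = pi2 S (dualT M) ∧
    pi2 S (dualT M) = pi0 S M ∧
    h0 M + h2 S M + h0 (dualT M) + h2 S (dualT M) + pi1 S M =
      h1 S M + h1 S (dualT M) + pi0 S M + pi2 S M :=
  helper2945.squeeze_eq h.stmt_Fin h.stmt_A h.stmt_B h.stmt_C stmt_L2num h.stmt_E hp2 S hpS M hM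

/-- Finiteness of `H¹(G_S, -)` and `H²(G_S, -)` for `M` and `M'` under the S55 frontier. -/
theorem finiteDimensional
    {p : ℕ} [Fact p.Prime] (hp2 : p ≠ 2) (S : Finset Nat.Primes) (hpS : pPrime p ∈ S)
    (M : Rep.{0, 0, 0} (ZMod p) GQ) (hM : IsSMod S M) :
    FiniteDimensional (ZMod p) (continuousH1S S M) ∧
      FiniteDimensional (ZMod p) (continuousH2S S M) ∧
      FiniteDimensional (ZMod p) (continuousH1S S (dualT M)) ∧
      FiniteDimensional (ZMod p) (continuousH2S S (dualT M)) :=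
  h.stmt_Fin hp2 S hpS M hM

end Frontier

end Fermat.Agent.S55.helper2945
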