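import Mathlib
import Fermat.Agent.S55.helper2999_LayerHasseKummer
import Fermat.Agent.S55.helper1242_HasseGalois

/-!
# S55 / NF-GH : the Hasse principle for `μ_p`-valued level 2-cocycles of `Gal(ℚ̄/F)` (helper2999)

The junction `NF-GH-HASSE` (devissage, `helper1242`) + `NF-GH-LOC` (`helper6044`) + `NF-GH-LAYER`
(`helper2999`): a 2-cocycle `C` of `V_F = Gal(ℚ̄/F)` with values in `μ_p ⊆ ℚ̄ˣ`, right-invariant
under `Gal(ℚ̄/N)` (`N ⊇ F` a finite Galois level), which at every rational prime `q` is either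
locally trivial at all places above `q` (`helper6044.LocTrivAt`, the places of `S`) or satisfies
the off-`S` norm property `OffSNorm p N q`, is the coboundary of a 1-cochain `h : V_F → ℚ̄ˣ`
with values in `N`, right-invariant under `Gal(ℚ̄/N)`.

Design (shortcut of chat #587): in `helper1242.exists_primitive_of_locally_trivial_Qbar` take the
place-independent calculus `T H c' := "c' is cohomologous on H to a descent of C"`; then `T_cob`
and `hT` are formal and the whole content is the norm clause, which is `carry_hasse_norm` applied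
to the layer `N^H ≤ N^{ker χ}` with the explicit global primitive.
-/

set_option autoImplicit false

namespace Fermat.Agent.S55.helper2999

open groupCohomology Finset

attribute [local instance] Fermat.Agent.Lib.helper54.isAlgebraic_Qbar
  Fermat.Agent.Lib.helper54.isAlgClosure_Qbar Fermat.Agent.Lib.helper54.isGalois_Qbar
  Fermat.Agent.Lib.helper54.isIntegral_Qbar

local notation "Qb" => AlgebraicClosure ℚ
local notation "GQ" => (AlgebraicClosure ℚ ≃ₐ[ℚ] AlgebraicClosure ℚ)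

/-! ### Fixed fields of subgroups of `Gal(N/k)` inside `Ω` -/

section DictGen

variable {k Ω : Type*} [Field k] [Field Ω] [Algebra k Ω] (N : IntermediateField k Ω)

theorem mem_lift_fixedField_iff (H : Subgroup (N ≃ₐ[k] N)) (x : Ω) :
    x ∈ IntermediateField.lift (IntermediateField.fixedField H) ↔
      ∃ y : N, (y : Ω) = x ∧ ∀ h ∈ H, h y = y := by
  constructor
  · intro hx
    have hxN : x ∈ N := IntermediateField.lift_le _ hx
    refine ⟨⟨x, hxN⟩, rfl, ?_⟩
    have h1 : (⟨x, hxN⟩ : N) ∈ IntermediateField.fixedField H :=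
      (IntermediateField.mem_lift (⟨x, hxN⟩ : N)).1 hx
    exact (IntermediateField.mem_fixedField_iff _ _).1 h1
  · rintro ⟨y, rfl, hy⟩
    exact (IntermediateField.mem_lift y).2 ((IntermediateField.mem_fixedField_iff _ _).2 hy)

/-- Galois correspondence: `Gal(Ω / N^H)` is the preimage of `H` under restriction to `N`. -/
theorem mem_fixingSubgroup_lift_fixedField [FiniteDimensional k N] [Normal k N]
    (H : Subgroup (N ≃ₐ[k] N)) (g : Ω ≃ₐ[k] Ω) :
    g ∈ (IntermediateField.lift (IntermediateField.fixedField H)).fixingSubgroup ↔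
      AlgEquiv.restrictNormalHom N g ∈ H := by
  have hc : ∀ y : N, ((AlgEquiv.restrictNormalHom N g y : N) : Ω) = g (y : Ω) := fun y =>
    AlgEquiv.restrictNormal_commutes g N y
  constructor
  · intro hg
    rw [← IntermediateField.fixingSubgroup_fixedField H, IntermediateField.mem_fixingSubgroup_iff]
    intro y hy
    apply Subtype.ext
    rw [hc]
    exact (IntermediateField.mem_fixingSubgroup_iff _ _).1 hg _
      ((IntermediateField.mem_lift y).2 hy)
  · intro hg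
    rw [IntermediateField.mem_fixingSubgroup_iff]
    intro x hx
    obtain ⟨y, rfl, hy⟩ := (mem_lift_fixedField_iff N H x).1 hx
    rw [← hc, hy _ hg]

end DictGen

section Dict

variable (N : IntermediateField ℚ Qb)

/-- The fixed field of `H ≤ Gal(N/ℚ)`, as a subfield of `ℚ̄`. -/
noncomputable def fixedLift (H : Subgroup (N ≃ₐ[ℚ] N)) : IntermediateField ℚ Qb :=
  IntermediateField.lift (IntermediateField.fixedField H)

theorem mem_fixedLift_iff (H : Subgroup (N ≃ₐ[ℚ] N)) (x : Qb) :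
    x ∈ fixedLift N H ↔ ∃ y : N, (y : Qb) = x ∧ ∀ h ∈ H, h y = y :=
  mem_lift_fixedField_iff N H x

theorem fixedLift_le (H : Subgroup (N ≃ₐ[ℚ] N)) : fixedLift N H ≤ N :=
  IntermediateField.lift_le _

theorem coe_mem_fixedLift (H : Subgroup (N ≃ₐ[ℚ] N)) (y : N) (hy : ∀ h ∈ H, h y = y) :
    (y : Qb) ∈ fixedLift N H :=
  (mem_fixedLift_iff N H _).2 ⟨y, rfl, hy⟩

theorem exists_of_mem_fixedLift (H : Subgroup (N ≃ₐ[ℚ] N)) {x : Qb} (hx : x ∈ fixedLift N H) :
    ∃ y : N, (y : Qb) = x ∧ ∀ h ∈ H, h y = y :=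
  (mem_fixedLift_iff N H x).1 hx

theorem finiteDimensional_fixedLift [FiniteDimensional ℚ N] (H : Subgroup (N ≃ₐ[ℚ] N)) :
    FiniteDimensional ℚ (fixedLift N H) :=
  Module.Finite.of_injective (IntermediateField.inclusion (fixedLift_le N H)).toLinearMap
    (IntermediateField.inclusion (fixedLift_le N H)).injective

/-- Galois correspondence: `Gal(ℚ̄ / N^H)` is the preimage of `H` under restriction to `N`. -/
theorem mem_fixingSubgroup_fixedLift [hfin : FiniteDimensional ℚ N] [hnorm : Normal ℚ N]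
    (H : Subgroup (N ≃ₐ[ℚ] N)) (g : GQ) :
    g ∈ (fixedLift N H).fixingSubgroup ↔ AlgEquiv.restrictNormalHom N g ∈ H :=
  @mem_fixingSubgroup_lift_fixedField ℚ Qb _ _ _ N hfin hnorm H g

end Dict

/-! ### The off-`S` input and the whole-group extension of a cochain -/

/-- The extension by `1` of a 2-cochain of `Gal(ℚ̄/F)` to `G_ℚ × G_ℚ` (the carrier of
`helper6044.LocTrivAt`). -/
noncomputable def extCochain (F : IntermediateField ℚ Qb)
    (C : F.fixingSubgroup × F.fixingSubgroup → Qbˣ) : GQ × GQ → Qbˣ := by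
  classical
  exact fun x => if h : x.1 ∈ F.fixingSubgroup ∧ x.2 ∈ F.fixingSubgroup then
    C (⟨x.1, h.1⟩, ⟨x.2, h.2⟩) else 1

theorem extCochain_apply (F : IntermediateField ℚ Qb)
    (C : F.fixingSubgroup × F.fixingSubgroup → Qbˣ) (g k : F.fixingSubgroup) :
    extCochain F C ((g : GQ), (k : GQ)) = C (g, k) := by
  classical
  unfold extCochain
  rw [dif_pos ⟨g.2, k.2⟩]

/-- **The off-`S` norm property at the prime `q`** (the output of (P4) of NF-GH-LOC: valuation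
push + unramified local norms).  For every layer `K ≤ E ≤ N` cut out by a character (carry lift
`X`) and every `a ∈ Kˣ` whose carry cocycle is, on `Gal(ℚ̄/K)`, a `μ_p`-valued cochain times the
coboundary of an `N`-valued cochain of level `N`, the element `a` satisfies the generator form
of the local norm condition at every place above `q`. -/
def OffSNorm (p : ℕ) (N : IntermediateField ℚ Qb) (q : ℕ) [Fact q.Prime] : Prop :=
  ∀ (K E : IntermediateField ℚ Qb), K ≤ E → E ≤ N →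
    ∀ X : GQ → ℕ, helper6044.IsCarryLift K.fixingSubgroup p X →
    (∀ g : GQ, g ∈ K.fixingSubgroup → (X g = 0 ↔ g ∈ E.fixingSubgroup)) →
    ∀ a : Qbˣ, (a : Qb) ∈ K →
    ∀ c : GQ × GQ → Qbˣ, (∀ g k : GQ, g ∈ K.fixingSubgroup → k ∈ K.fixingSubgroup →
      c (g, k) ^ p = 1) →
    ∀ u : GQ → Qbˣ, (∀ g, (u g : Qb) ∈ N) →
      (∀ g s : GQ, s ∈ N.fixingSubgroup → u (g * s) = u g) →
    (∀ g k : GQ, g ∈ K.fixingSubgroup → k ∈ K.fixingSubgroup →
      a ^ ((X g + X k) / p) = c (g, k) * (g • u k / u (g * k) * u g)) →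
    ∀ σ : GQ, LocNormGen q p σ⁻¹ K E (a : Qb)

/-! ### The norm clause -/

section NormClause

variable (F N : IntermediateField ℚ Qb) [hfin : FiniteDimensional ℚ N] [hnorm : Normal ℚ N]

/-- **The norm clause of the Hasse calculus.**  `H ≤ Gal(N/F)`, `χ : H → ℤ/p` a character with
`χ s = 1`, `a ∈ (N^H)ˣ`; if the cyclic cocycle `mulCyc χ a` is cohomologous on `H` to a descent
`cbar` of the global cocycle `C` (`hrel`), and `C` is locally trivial / off-`S` at every prime,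
then `a` is the norm of an element fixed by `ker χ`. -/
theorem norm_clause (hFN : F ≤ N) (p : ℕ) [Fact p.Prime] (hp2 : p ≠ 2) {ζ : Qb}
    (hζ : IsPrimitiveRoot ζ p) (hζF : ζ ∈ F)
    (C : F.fixingSubgroup × F.fixingSubgroup → Qbˣ) (hpow : ∀ x, C x ^ p = 1)
    (hloc : ∀ (q : ℕ) [Fact q.Prime],
      (∀ σ : GQ, helper6044.LocTrivAt q F σ (extCochain F C)) ∨ OffSNorm p N q)
    (cbar : (N ≃ₐ[ℚ] N) × (N ≃ₐ[ℚ] N) → (↥N)ˣ)
    (hcbar : ∀ g h : F.fixingSubgroup, (((cbar (AlgEquiv.restrictNormalHom N (g : GQ),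
      AlgEquiv.restrictNormalHom N (h : GQ)) : (↥N)ˣ) : N) : Qb) = ((C (g, h) : Qbˣ) : Qb))
    (H : Subgroup (N ≃ₐ[ℚ] N)) (hH : H ≤ F.fixingSubgroup.map (AlgEquiv.restrictNormalHom N))
    (χ : H → ZMod p) (hχ : ∀ g h, χ (g * h) = χ g + χ h) (s : H) (hs : χ s = 1)
    (a : (↥N)ˣ) (ha : ∀ g : H, (g : N ≃ₐ[ℚ] N) (a : N) = (a : N)) (hbar : H → (↥N)ˣ)
    (hrel : ∀ g h : H, (g : N ≃ₐ[ℚ] N) (hbar h : N) / (hbar (g * h) : N) * (hbar g : N) =
      (a : N) ^ helper6440.carry p (χ g) (χ h) /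
        (cbar ((g : N ≃ₐ[ℚ] N), (h : N ≃ₐ[ℚ] N)) : N)) :
    ∃ b : N, b ≠ 0 ∧ (∀ n : H, χ n = 0 → (n : N ≃ₐ[ℚ] N) b = b) ∧
      (a : N) = ∏ j ∈ range p, ((s : N ≃ₐ[ℚ] N) ^ j) b := by
  classical
  have hp : p.Prime := Fact.out
  have : NeZero p := ⟨hp.ne_zero⟩
  have : Fact (1 < p) := ⟨hp.one_lt⟩
  set ρ : GQ →* (N ≃ₐ[ℚ] N) := AlgEquiv.restrictNormalHom N with hρ
  have hρc : ∀ (g : GQ) (y : N), ((ρ g y : N) : Qb) = g (y : Qb) := fun g y =>
    AlgEquiv.restrictNormal_commutes g N y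
  have hNF : N.fixingSubgroup ≤ F.fixingSubgroup := IntermediateField.fixingSubgroup_antitone hFN
  -- the kernel of `χ` as a subgroup of `Gal(N/ℚ)`
  let H₀ : Subgroup (N ≃ₐ[ℚ] N) :=
    { carrier := {n | ∃ hn : n ∈ H, χ ⟨n, hn⟩ = 0}
      mul_mem' := by
        rintro x y ⟨hx, hx0⟩ ⟨hy, hy0⟩
        refine ⟨H.mul_mem hx hy, ?_⟩
        have := hχ ⟨x, hx⟩ ⟨y, hy⟩
        rw [hx0, hy0, add_zero] at this
        exact this
      one_mem' := by
        refine ⟨H.one_mem, ?_⟩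
        have := hχ 1 1
        rw [mul_one] at this
        exact add_eq_left.mp this.symm
      inv_mem' := by
        rintro x ⟨hx, hx0⟩
        refine ⟨H.inv_mem hx, ?_⟩
        have h1 : χ 1 = 0 := by
          have := hχ 1 1
          rw [mul_one] at this
          exact add_eq_left.mp this.symm
        have := hχ ⟨x⁻¹, H.inv_mem hx⟩ ⟨x, hx⟩
        have e : (⟨x⁻¹, H.inv_mem hx⟩ * ⟨x, hx⟩ : H) = 1 := Subtype.ext (inv_mul_cancel x)
        rw [e, h1, hx0, add_zero] at this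
        exact this.symm }
  have hH₀ : ∀ n : N ≃ₐ[ℚ] N, n ∈ H₀ ↔ ∃ hn : n ∈ H, χ ⟨n, hn⟩ = 0 := fun n => Iff.rfl
  set K : IntermediateField ℚ Qb := fixedLift N H with hK
  set E : IntermediateField ℚ Qb := fixedLift N H₀ with hE
  have : FiniteDimensional ℚ K := finiteDimensional_fixedLift N H
  have : FiniteDimensional ℚ E := finiteDimensional_fixedLift N H₀
  have hVK : ∀ g : GQ, g ∈ K.fixingSubgroup ↔ ρ g ∈ H := mem_fixingSubgroup_fixedLift N H
  have hVE : ∀ g : GQ, g ∈ E.fixingSubgroup ↔ ρ g ∈ H₀ := mem_fixingSubgroup_fixedLift N H₀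
  have hEN : E ≤ N := fixedLift_le N H₀
  have hVKF : ∀ g : GQ, g ∈ K.fixingSubgroup → g ∈ F.fixingSubgroup := fun g hg =>
    (@helper1242.restrictNormalHom_mem_map_iff ℚ Qb _ _ _ N hnorm F.fixingSubgroup hNF g).1
      (hH ((hVK g).1 hg))
  -- the carry lift of `χ`
  let X : GQ → ℕ := fun g => if hg : ρ g ∈ H then (χ ⟨ρ g, hg⟩).val else 0
  have hXval : ∀ (g : GQ) (hg : ρ g ∈ H), X g = (χ ⟨ρ g, hg⟩).val := fun g hg => dif_pos hg
  have hX : helper6044.IsCarryLift K.fixingSubgroup p X := by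
    refine ⟨fun g => ?_, fun g k hg hk => ?_⟩
    · by_cases hg : ρ g ∈ H
      · rw [hXval g hg]
        exact ZMod.val_lt _
      · show (dite _ _ _ : ℕ) < p
        rw [dif_neg hg]
        exact hp.pos
    · have hg' := (hVK g).1 hg
      have hk' := (hVK k).1 hk
      have hgk' : ρ (g * k) ∈ H := by rw [map_mul]; exact H.mul_mem hg' hk'
      rw [hXval g hg', hXval k hk', hXval (g * k) hgk', ← ZMod.val_add, ← hχ]
      congr 2
      exact Subtype.ext (map_mul ρ g k)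
  have hXE : ∀ g : GQ, g ∈ K.fixingSubgroup → (X g = 0 ↔ g ∈ E.fixingSubgroup) := by
    intro g hg
    have hg' := (hVK g).1 hg
    rw [hXval g hg', ZMod.val_eq_zero, hVE, hH₀]
    exact ⟨fun h => ⟨hg', h⟩, fun ⟨_, h⟩ => h⟩
  have hEK : E.fixingSubgroup ≤ K.fixingSubgroup := by
    intro g hg
    obtain ⟨h1, -⟩ := (hH₀ _).1 ((hVE g).1 hg)
    exact (hVK g).2 h1
  have hKE : K ≤ E := by
    intro x hx
    exact mem_of_fixed E (fun g hg =>
      (IntermediateField.mem_fixingSubgroup_iff _ _).1 (hEK hg) x hx)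
  have hFK : F ≤ K := by
    intro x hx
    have h1 : (((⟨x, hFN hx⟩ : N) : N) : Qb) ∈ fixedLift N H := by
      refine coe_mem_fixedLift N H ⟨x, hFN hx⟩ (fun h hh => ?_)
      obtain ⟨g, hg, rfl⟩ := hH hh
      apply Subtype.ext
      rw [hρc]
      exact (IntermediateField.mem_fixingSubgroup_iff _ _).1 hg x hx
    exact h1
  -- the global data
  let φ : (↥N)ˣ →* Qbˣ := Units.map ((algebraMap N Qb : N →+* Qb) : N →* Qb)
  have hφ : ∀ u : (↥N)ˣ, ((φ u : Qbˣ) : Qb) = algebraMap N Qb (u : N) := fun u => rfl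
  have hρa : ∀ (g : GQ) (y : N), algebraMap N Qb (ρ g y) = g (algebraMap N Qb y) := hρc
  obtain ⟨st, hst⟩ := AlgEquiv.restrictNormalHom_surjective Qb (s : N ≃ₐ[ℚ] N)
  have hstH : ρ st ∈ H := by rw [hρ, hst]; exact s.2
  have hstK : st ∈ K.fixingSubgroup := (hVK st).2 hstH
  have hXst : X st = 1 := by
    rw [hXval st hstH]
    have e : (⟨ρ st, hstH⟩ : H) = s := Subtype.ext hst
    rw [e, hs, ZMod.val_one]
  have hsmul : ∀ (g : GQ) (u : Qbˣ), ((g • u : Qbˣ) : Qb) = g (u : Qb) := fun g u => rfl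
  have ha' : ∀ g : GQ, g ∈ K.fixingSubgroup → g • φ a = φ a := by
    intro g hg
    apply Units.ext
    rw [hsmul, hφ, ← hρa]
    exact congrArg (algebraMap N Qb) (ha ⟨ρ g, (hVK g).1 hg⟩)
  have haK : ((φ a : Qbˣ) : Qb) ∈ K :=
    mem_of_fixed K (fun g hg => congrArg Units.val (ha' g hg))
  let hG : GQ → Qbˣ := fun g => if hg : ρ g ∈ H then φ (hbar ⟨ρ g, hg⟩) else 1
  have hGval : ∀ (g : GQ) (hg : ρ g ∈ H), hG g = φ (hbar ⟨ρ g, hg⟩) := fun g hg => dif_pos hg
  have hGN : ∀ g, ((hG g : Qbˣ) : Qb) ∈ N := by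
    intro g
    by_cases hg : ρ g ∈ H
    · rw [hGval g hg]
      exact (hbar ⟨ρ g, hg⟩ : N).2
    · have e : hG g = 1 := dif_neg hg
      rw [e]
      exact N.one_mem
  have hGinv : ∀ g t : GQ, t ∈ N.fixingSubgroup → hG (g * t) = hG g := by
    intro g t ht
    have e : ρ (g * t) = ρ g := by
      have e1 : ρ t = 1 := (@helper1242.restrictNormalHom_eq_one_iff ℚ Qb _ _ _ N hnorm t).2 ht
      rw [map_mul, e1, mul_one]
    show (dite _ _ _ : Qbˣ) = dite _ _ _
    simp only [e]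
  have hCt : ∀ g k : GQ, g ∈ K.fixingSubgroup → k ∈ K.fixingSubgroup →
      extCochain F C (g, k) ^ p = 1 := by
    intro g k hg hk
    have := extCochain_apply F C ⟨g, hVKF g hg⟩ ⟨k, hVKF k hk⟩
    rw [this]
    exact hpow _
  have hREL : ∀ g k : GQ, g ∈ K.fixingSubgroup → k ∈ K.fixingSubgroup →
      φ a ^ ((X g + X k) / p) = extCochain F C (g, k) * (g • hG k / hG (g * k) * hG g) := by
    intro g k hg hk
    have hg' := (hVK g).1 hg
    have hk' := (hVK k).1 hk
    have hgk' : ρ (g * k) ∈ H := by rw [map_mul]; exact H.mul_mem hg' hk'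
    have h1 := congrArg (algebraMap N Qb) (hrel ⟨ρ g, hg'⟩ ⟨ρ k, hk'⟩)
    rw [map_mul, map_div₀, map_div₀, map_pow, hρa] at h1
    have e5 : helper6440.carry p (χ ⟨ρ g, hg'⟩) (χ ⟨ρ k, hk'⟩) = (X g + X k) / p := by
      rw [hXval g hg', hXval k hk']
      rfl
    have e4 : extCochain F C (g, k) = C (⟨g, hVKF g hg⟩, ⟨k, hVKF k hk⟩) :=
      extCochain_apply F C ⟨g, hVKF g hg⟩ ⟨k, hVKF k hk⟩
    have e2 : hG (g * k) = φ (hbar (⟨ρ g, hg'⟩ * ⟨ρ k, hk'⟩)) := by
      rw [hGval (g * k) hgk']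
      congr 2
      exact Subtype.ext (map_mul ρ g k)
    have e6 : algebraMap N Qb (cbar (ρ g, ρ k) : N) = ((C (⟨g, hVKF g hg⟩, ⟨k, hVKF k hk⟩) : Qbˣ) : Qb) :=
      hcbar ⟨g, hVKF g hg⟩ ⟨k, hVKF k hk⟩
    have hc0 : ((C (⟨g, hVKF g hg⟩, ⟨k, hVKF k hk⟩) : Qbˣ) : Qb) ≠ 0 := Units.ne_zero _
    rw [e5, e6] at h1
    apply Units.ext
    rw [e4, Units.val_mul, Units.val_mul, Units.val_div_eq_div_val, Units.val_pow_eq_pow_val,
      hsmul, e2, hGval g hg', hGval k hk', hφ, hφ, hφ, hφ, h1]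
    field_simp
  -- local conditions for the carry cocycle
  have hlocAll : ∀ (q : ℕ) [Fact q.Prime] (σ : GQ),
      helper6044.LocTrivAt q K σ (fun x : GQ × GQ => φ a ^ ((X x.1 + X x.2) / p)) ∨
        LocNormGen q p σ⁻¹ K E ((φ a : Qbˣ) : Qb) := by
    intro q _ σ
    rcases hloc q with hS | hO
    · left
      refine (helper6044.locTrivAt_iff_of_coboundary q hG ⟨N, inferInstance, hGinv⟩ ?_).2
        ((hS σ).mono q hFK)
      intro g k hg hk
      exact hREL g k hg hk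
    · right
      exact hO K E hKE hEN X hX hXE (φ a) haK (extCochain F C) hCt hG hGN hGinv hREL σ
  obtain ⟨y, hyE, hprod⟩ := carry_hasse_norm (K := K) (E := E) hp2 hζ (hFK hζF) hX hXE hEK (φ a)
    ha' (c := fun x : GQ × GQ => φ a ^ ((X x.1 + X x.2) / p)) (fun _ _ _ _ => rfl) hlocAll hstK
    hXst
  -- back to `N`
  obtain ⟨y₀, hy₀, hfix⟩ := exists_of_mem_fixedLift N H₀ hyE
  have hy₀0 : y₀ ≠ 0 := by
    intro h0
    rw [h0] at hy₀
    exact y.ne_zero hy₀.symm
  refine ⟨y₀, hy₀0, fun n hn => hfix (n : N ≃ₐ[ℚ] N) ⟨n.2, hn⟩, ?_⟩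
  apply (algebraMap N Qb).injective
  have hρpow : ∀ j : ℕ, ρ (st ^ j) = (s : N ≃ₐ[ℚ] N) ^ j := by
    intro j
    rw [map_pow, hst]
  rw [map_prod]
  have h3 : ∏ j ∈ range p, algebraMap N Qb (((s : N ≃ₐ[ℚ] N) ^ j) y₀) =
      ∏ j ∈ range p, (st ^ j) ((y : Qbˣ) : Qb) := by
    refine Finset.prod_congr rfl (fun j _ => ?_)
    rw [← hρpow, hρa]
    exact congrArg (st ^ j) hy₀
  rw [h3, hprod]
  rfl

end NormClause

/-! ### The Hasse principle -/

/-- **Hasse principle for `μ_p`-valued level 2-cocycles of `Gal(ℚ̄/F)`** (`p` odd, `ζ_p ∈ F`).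
`F ≤ N` number fields inside `ℚ̄`, `N/ℚ` finite Galois.  Let `C` be a 2-cocycle of `Gal(ℚ̄/F)`
with values in `μ_p ⊆ ℚ̄ˣ`, right-invariant under `Gal(ℚ̄/N)`, such that at every rational prime
`q` either `C` is locally trivial at all places `ι ∘ σ` above `q` (`helper6044.LocTrivAt`), or
the off-`S` norm property `OffSNorm p N q` holds.  Then `C = d h` for a 1-cochain
`h : Gal(ℚ̄/F) → ℚ̄ˣ` with values in `N`, right-invariant under `Gal(ℚ̄/N)`. -/
theorem exists_primitive_of_locTrivAt (F N : IntermediateField ℚ Qb) (hFN : F ≤ N)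
    [FiniteDimensional ℚ N] [Normal ℚ N] (p : ℕ) [Fact p.Prime] (hp2 : p ≠ 2) {ζ : Qb}
    (hζ : IsPrimitiveRoot ζ p) (hζF : ζ ∈ F)
    {C : F.fixingSubgroup × F.fixingSubgroup → Qbˣ} (hC : IsMulCocycle₂ C)
    (hinv : ∀ g h u u' : F.fixingSubgroup, (u : GQ) ∈ N.fixingSubgroup →
      (u' : GQ) ∈ N.fixingSubgroup → C (g * u, h * u') = C (g, h))
    (hpow : ∀ x, C x ^ p = 1)
    (hloc : ∀ (q : ℕ) [Fact q.Prime],
      (∀ σ : GQ, helper6044.LocTrivAt q F σ (extCochain F C)) ∨ OffSNorm p N q) :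
    ∃ h : F.fixingSubgroup → Qbˣ, (∀ g, ((h g : Qbˣ) : Qb) ∈ N) ∧
      (∀ g u : F.fixingSubgroup, (u : GQ) ∈ N.fixingSubgroup → h (g * u) = h g) ∧
      ∀ g k : F.fixingSubgroup, g • h k / h (g * k) * h g = C (g, k) := by
  -- the place-independent calculus: "cohomologous on `H` to a descent of `C`"
  let T : PUnit.{1} → (H : Subgroup (N ≃ₐ[ℚ] N)) → (H × H → (↥N)ˣ) → Prop := fun _ H c' =>
    ∃ cbar : (N ≃ₐ[ℚ] N) × (N ≃ₐ[ℚ] N) → (↥N)ˣ,
      (∀ g h : F.fixingSubgroup, (((cbar (AlgEquiv.restrictNormalHom N (g : GQ),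
        AlgEquiv.restrictNormalHom N (h : GQ)) : (↥N)ˣ) : N) : Qb) = ((C (g, h) : Qbˣ) : Qb)) ∧
      IsMulCoboundary₂ (c' / fun q : H × H => cbar ((q.1 : N ≃ₐ[ℚ] N), (q.2 : N ≃ₐ[ℚ] N)))
  have hcalc : helper1242.HasseCalculus p
      (F.fixingSubgroup.map (AlgEquiv.restrictNormalHom N)) T := by
    refine ⟨?_, ?_⟩
    · rintro _ H - c c' ⟨cbar, hcbar, x, hx⟩ ⟨x', hx'⟩
      refine ⟨cbar, hcbar, fun g => x' g * x g, fun g h => ?_⟩
      have e1 := hx g h
      have e2 := hx' g h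
      simp only [Pi.div_apply] at e1 e2 ⊢
      rw [smul_mul', mul_div_mul_comm, mul_mul_mul_comm, e1, e2, div_mul_div_cancel]
    · intro H hH χ hχ s hs a ha hT
      obtain ⟨cbar, hcbar, hbar, hrel⟩ := hT PUnit.unit
      obtain ⟨b, hb0, hbfix, hbnorm⟩ := norm_clause F N hFN p hp2 hζ hζF C hpow hloc cbar hcbar
        H hH χ hχ s hs a (fun g => congrArg Units.val (ha g)) hbar (fun g h => by
          have h1 := congrArg Units.val (hrel g h)
          rw [Units.val_mul, Units.val_div_eq_div_val, Pi.div_apply, Units.val_div_eq_div_val,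
            helper6440.mulCyc_apply, Units.val_pow_eq_pow_val] at h1
          exact h1)
      refine ⟨Units.mk0 b hb0, fun n hn => Units.ext (hbfix n hn), Units.ext ?_⟩
      rw [Units.coe_prod]
      exact hbnorm
  refine helper1242.exists_primitive_of_locally_trivial_Qbar F N hFN p T hcalc hC hinv
    ⟨1, fun x => by rw [pow_one]; exact hpow x⟩ ?_
  intro cbar hcbar _ H _
  refine ⟨cbar, hcbar, fun _ => 1, fun g h => ?_⟩
  simp

end Fermat.Agent.S55.helper2999
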