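import Mathlib
import Fermat.Prelude.Def_GroupCohomology_ContinuousUnramified
import Fermat.Agent.S55.helper3071_GlobalBridge
import Fermat.Agent.S55.helper3071_GBTransport
import Fermat.Agent.S55.helper3071_GBAssembly
import Fermat.Agent.S55.helper324_FieldH1
import Fermat.Agent.S55.helper1615_Tower
import Fermat.Agent.S55.helper665_L2Num
import Fermat.Agent.S55.helper6525_Arch
import Fermat.Agent.S55.helper4039_SModField
import Fermat.Agent.S55.helper5178_Sylow

/-!
# S55 GLOBAL BRIDGE, reduction of the layer to its arithmetic frontier (helper3071)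

With Shapiro (`helper62`), the Kummer count of `H¹` (`helper324`), the cyclotomic tower
(`helper1615`) and the local package (`helper665.Stmt_LocalL2`), the five closed Props of the
global bridge reduce to three statements about one field, with the shared class-group rank
`cRank S p F = clSRank (𝓞 F) F (SF F S) p`:

* `Stmt_FieldSha2Fin` : `Ш²_S(F, 𝔽_p)` is finite;
* `Stmt_FieldSha2Le`  : `dim Ш²_S(F, 𝔽_p) ≤ cRank` (the Hasse principle `(G-H)`);
* `Stmt_FieldClH2`    : `cRank ≤ dim H²(G_{F,S}, 𝔽_p)`;

plus `Stmt_Chi2Sub`.  Main results: `finite_fieldH2_of_sha`, `stmt_FieldFin_of`,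
`stmt_FieldLower_of`, `stmt_FieldUpper_of`, `gb_frontier`.
-/

set_option autoImplicit false
set_option maxHeartbeats 400000
set_option synthInstance.maxHeartbeats 400000

open CategoryTheory groupCohomology ExtCitation NumberField IsDedekindDomain

noncomputable section

namespace Fermat.Agent.S55.helper3071

attribute [local instance] Fermat.Agent.Lib.helper54.numberField_intermediate

/-- The shared class-group rank `c = rk_p Cl_S(F)`: `helper9292.clSRank` at the primes of
`𝓞 F` above `S` (the `c` of `helper324.two_mul_finrank_fieldH1`). -/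
abbrev cRank (S : Finset Nat.Primes) (p : ℕ)
    (F : IntermediateField ℚ (AlgebraicClosure ℚ)) [FiniteDimensional ℚ F] : ℕ :=
  helper9292.clSRank (𝓞 F) F (helper9292.SF F S : Set (HeightOneSpectrum (𝓞 F))) p

section IndRep

variable (S : Finset Nat.Primes) (p : ℕ) (F : IntermediateField ℚ (AlgebraicClosure ℚ))

/-- `coind_F 𝔽_p` is finite-dimensional for a number field `F`. -/
theorem finite_indRep [Fact p.Prime] [FiniteDimensional ℚ F] :
    Module.Finite (ZMod p) (indRep p F) := by
  have := helper4039.finiteIndex_fixingSubgroup F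
  have : Module.Finite (ZMod p) (trivF p F) := inferInstanceAs (Module.Finite (ZMod p) (ZMod p))
  exact helper5178.finite_coind (k := ZMod p) (H := F.fixingSubgroup) (trivF p F)

variable {S F}

/-- For an `S`-field `F`, `coind_F 𝔽_p` is trivialised by a Galois `S`-field. -/
theorem exists_sfield_indRep_ρ_eq_one [Fact p.Prime] (hF : F.IsUnramifiedOutside S) :
    ∃ F' : IntermediateField ℚ (AlgebraicClosure ℚ), F'.IsUnramifiedOutside S ∧
      F'.fixingSubgroup.Normal ∧ ∀ s ∈ F'.fixingSubgroup, (indRep p F).ρ s = 1 := by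
  obtain ⟨F', hle, hF', -, hnorm⟩ := helper4039.exists_normal_ge hF
  refine ⟨F', hF', hnorm, fun s hs => ?_⟩
  exact helper5178.coind_ρ_eq_one (k := ZMod p) (H := F.fixingSubgroup) F'.fixingSubgroup
    (IntermediateField.fixingSubgroup_antitone hle) (trivF p F) (fun _ _ => rfl) hs

/-- Smoothness of `coind_F 𝔽_p` in the frozen shape. -/
theorem indRep_smooth [Fact p.Prime] (hF : F.IsUnramifiedOutside S) (m : indRep p F) :
    ∃ F' : IntermediateField ℚ (AlgebraicClosure ℚ), FiniteDimensional ℚ F' ∧
      ∀ s ∈ F'.fixingSubgroup, (indRep p F).ρ s m = m := by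
  obtain ⟨F', hF', -, h⟩ := exists_sfield_indRep_ρ_eq_one p hF
  exact ⟨F', hF'.1, fun s hs => by rw [h s hs]; rfl⟩

end IndRep

/-- The quotient by an intersection of two submodules of finite codimension is finite. -/
theorem finite_quotient_inf {k V : Type*} [Field k] [AddCommGroup V] [Module k V]
    (N₁ N₂ : Submodule k V) [Module.Finite k (V ⧸ N₁)] [Module.Finite k (V ⧸ N₂)] :
    Module.Finite k (V ⧸ (N₁ ⊓ N₂)) := by
  let f : V →ₗ[k] (V ⧸ N₁) × (V ⧸ N₂) := (N₁.mkQ).prod (N₂.mkQ)
  have hker : LinearMap.ker f = N₁ ⊓ N₂ := by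
    ext x
    simp [f]
  have hinj : Function.Injective ((N₁ ⊓ N₂).liftQ f hker.ge) := by
    rw [← LinearMap.ker_eq_bot]
    exact Submodule.ker_liftQ_eq_bot' _ f hker.symm
  exact Module.Finite.of_injective _ hinj

/-- The quotient by a finite intersection of submodules of finite codimension is finite. -/
theorem finite_quotient_finset_inf {k V ι : Type*} [Field k] [AddCommGroup V] [Module k V]
    (s : Finset ι) (N : ι → Submodule k V) (h : ∀ i ∈ s, Module.Finite k (V ⧸ N i)) :
    Module.Finite k (V ⧸ s.inf N) := by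
  classical
  induction s using Finset.induction_on with
  | empty =>
    rw [Finset.inf_empty]
    have : Subsingleton (V ⧸ (⊤ : Submodule k V)) := Submodule.Quotient.subsingleton_iff.2 rfl
    infer_instance
  | insert a s _ ih =>
    rw [Finset.inf_insert]
    have := h a (Finset.mem_insert_self a s)
    have := ih fun i hi => h i (Finset.mem_insert_of_mem hi)
    exact finite_quotient_inf _ _

/-- The quotient by the kernel of a linear map into a finite-dimensional space is finite. -/
theorem finite_quotient_ker {k V W : Type*} [Field k] [AddCommGroup V] [Module k V]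
    [AddCommGroup W] [Module k W] [Module.Finite k W] (f : V →ₗ[k] W) :
    Module.Finite k (V ⧸ LinearMap.ker f) := by
  have hinj : Function.Injective ((LinearMap.ker f).liftQ f le_rfl) := by
    rw [← LinearMap.ker_eq_bot]
    exact Submodule.ker_liftQ_eq_bot' _ f rfl
  exact Module.Finite.of_injective _ hinj

/-- `H²_S(M) ⧸ Ш²_S(M)` is finite-dimensional as soon as the local `H²(ℚ_q, M)`, `q ∈ S`, are
(odd `p`; the archimedean place is invisible by `helper6525.mem_sha₂_iff`). -/
theorem finite_quotient_sha₂ {S : Finset Nat.Primes} {p : ℕ} [Fact p.Prime] (hp2 : p ≠ 2)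
    (M : Rep (ZMod p) GQ)
    (hloc : ∀ q : Nat.Primes, q ∈ S → Module.Finite (ZMod p)
      (continuousH2 (primeLocalToGlobal q) (Rep.res (primeLocalToGlobal q) M))) :
    Module.Finite (ZMod p) (continuousH2S S M ⧸ sha₂ S M) := by
  have hsha : sha₂ S M =
      S.inf fun q : Nat.Primes => LinearMap.ker (locRes₂S S M (primeLocalToGlobal q)) := by
    apply Submodule.ext
    intro x
    rw [helper6525.mem_sha₂_iff hp2, Submodule.mem_finsetInf]
    exact ⟨fun h q hq => LinearMap.mem_ker.2 (h ⟨q, hq⟩), fun h q => LinearMap.mem_ker.1 (h q.1 q.2)⟩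
  rw [hsha]
  refine finite_quotient_finset_inf S _ fun q hq => ?_
  have := hloc q hq
  exact finite_quotient_ker _

/-- **Finiteness of `H²(G_{F,S}, 𝔽_p)` from finiteness of `Ш²`**: by Shapiro the quotient
`H² ⧸ Ш²` is a quotient of `H²_S(A_F) ⧸ Ш²_S(A_F)`, which embeds into the finite product of the
local `H²(ℚ_q, A_F)`, `q ∈ S`, finite-dimensional by the local package `(L2)`. -/
theorem finite_fieldH2_of_sha (hLoc : helper665.Stmt_LocalL2) {S : Finset Nat.Primes} {p : ℕ}
    {F : IntermediateField ℚ (AlgebraicClosure ℚ)} (hp : p.Prime) (hp2 : p ≠ 2)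
    (hF : F.IsUnramifiedOutside S) (hsha : Module.Finite (ZMod p) (fieldSha2 S p F)) :
    Module.Finite (ZMod p) (fieldH2 S p F) := by
  have : Fact p.Prime := ⟨hp⟩
  obtain ⟨h0, h1, h2⟩ := hLoc p hp2
  obtain ⟨-, Φ, hΦ⟩ := helper62.stmt_Shapiro S p F hp hF
  have := hF.1
  have := finite_indRep p F
  have hloc : ∀ q : Nat.Primes, q ∈ S → Module.Finite (ZMod p)
      (continuousH2 (primeLocalToGlobal q) (Rep.res (primeLocalToGlobal q) (indRep p F))) :=
    fun q _ => (helper665.finrank_continuousH2_res h0 h1 h2 q (indRep p F)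
      (indRep_smooth p hF)).1
  have hq : Module.Finite (ZMod p) (continuousH2S S (indRep p F) ⧸ sha₂ S (indRep p F)) :=
    finite_quotient_sha₂ hp2 (indRep p F) hloc
  let ψ : (continuousH2S S (indRep p F) ⧸ sha₂ S (indRep p F)) →ₗ[ZMod p]
      (fieldH2 S p F ⧸ fieldSha2 S p F) :=
    Submodule.mapQ _ _ Φ.toLinearMap fun x hx => hΦ x hx
  have hψ : Function.Surjective ψ := by
    intro y
    obtain ⟨y, rfl⟩ := Submodule.mkQ_surjective _ y
    exact ⟨Submodule.Quotient.mk (Φ.symm y), by simp [ψ]⟩
  have hq' : Module.Finite (ZMod p) (fieldH2 S p F ⧸ fieldSha2 S p F) :=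
    Module.Finite.of_surjective ψ hψ
  exact Module.Finite.of_submodule_quotient (fieldSha2 S p F)

/-! ## The arithmetic frontier of the layer -/

/-- `Ш²_S(F, 𝔽_p)` is finite. -/
def Stmt_FieldSha2Fin : Prop :=
  ∀ (S : Finset Nat.Primes) (p : ℕ) (F : IntermediateField ℚ (AlgebraicClosure ℚ)),
    IsSFieldZeta S p F → Module.Finite (ZMod p) (fieldSha2 S p F)

/-- `(G-H)`: `dim Ш²_S(F, 𝔽_p) ≤ rk_p Cl_S(F)`. -/
def Stmt_FieldSha2Le : Prop :=
  ∀ (S : Finset Nat.Primes) (p : ℕ) (F : IntermediateField ℚ (AlgebraicClosure ℚ))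
    [FiniteDimensional ℚ F],
    IsSFieldZeta S p F → Module.finrank (ZMod p) (fieldSha2 S p F) ≤ cRank S p F

/-- `rk_p Cl_S(F) ≤ dim H²(G_{F,S}, 𝔽_p)`. -/
def Stmt_FieldClH2 : Prop :=
  ∀ (S : Finset Nat.Primes) (p : ℕ) (F : IntermediateField ℚ (AlgebraicClosure ℚ))
    [FiniteDimensional ℚ F],
    IsSFieldZeta S p F → cRank S p F ≤ Module.finrank (ZMod p) (fieldH2 S p F)

theorem stmt_FieldFin_of (hLoc : helper665.Stmt_LocalL2) (hSha : Stmt_FieldSha2Fin) :
    Stmt_FieldFin := fun S p F hF =>
  have := hF.unram.1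
  ⟨helper324.finite_fieldH1 hF,
    finite_fieldH2_of_sha hLoc hF.prime hF.odd hF.unram (hSha S p F hF)⟩

theorem stmt_FieldLower_of (hLe : Stmt_FieldSha2Le) : Stmt_FieldLower := by
  intro S p F hF
  have := hF.unram.1
  have h1 := helper324.two_mul_finrank_fieldH1 hF
  have h2 := hLe S p F hF
  unfold cRank at h2
  unfold FieldLower
  omega

theorem stmt_FieldUpper_of (hCl : Stmt_FieldClH2) : Stmt_FieldUpper := by
  intro S p F hF
  have := hF.unram.1
  have h1 := helper324.two_mul_finrank_fieldH1 hF
  have h2 := hCl S p F hF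
  unfold cRank at h2
  unfold FieldUpper
  omega

/-- **The frontier of the global bridge**: everything the soft layer consumes from the GB
layer follows from the local package, the three arithmetic statements about `Ш²`/`Cl_S`, and
`χ₂`-submultiplicativity.  (`hCl` may use finiteness.) -/
theorem gb_frontier (hLoc : helper665.Stmt_LocalL2) (hShaFin : Stmt_FieldSha2Fin)
    (hShaLe : Stmt_FieldSha2Le) (hCl : Stmt_FieldFin → Stmt_FieldClH2)
    (hChi : Stmt_FieldFin → Stmt_Chi2Sub) :
    Stmt_FieldFin ∧ Stmt_FieldLower ∧ Stmt_FieldUpper ∧ Stmt_FieldGE := by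
  have hFin := stmt_FieldFin_of hLoc hShaFin
  have hLow := stmt_FieldLower_of hShaLe
  have hUp := stmt_FieldUpper_of (hCl hFin)
  exact ⟨hFin, hLow, hUp,
    stmt_FieldGE_of hFin hLow hUp (hChi hFin) helper1615.stmt_Tower⟩

end Fermat.Agent.S55.helper3071
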