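/-
S55 / NF-CLH2 (emergency copy, helper321), part 1: the abstract cores.  Mathlib + the abstract
Kummer count of helper9292 only.

* `rootClassModP π T p n hT : kumSub π T n →* I ⧸ (π.range ⊔ T ⊔ powSub I p)` : the class modulo
  `p`-th powers of an `n`-th root of (the ideal of) an element of the Kummer group `kumSub π T n`;
* `rootClassModP_eq_one` : it kills `f ^ n * N` with `N ∈ kumSub π T (n * p)`;
* `rootClassModP_surjective` : it is onto as soon as `#(I ⧸ (π.range ⊔ T)) = n * m`, `m` prime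
  to `p`;
* `card_le_of_rel` : a total "multiplicative" relation between a group `A` and a finite additive
  group `X` whose fibre over `0` lies in the kernel of a surjection `ψ : A →* Y` gives
  `#Y ≤ #X`.
-/
import Mathlib
import Fermat.Agent.S55.helper9292_SelmerCount

set_option autoImplicit false

namespace Fermat.Agent.S55.helper321

open Fermat.Agent.S55.helper9292

section AbstractPsi

variable {A I : Type*} [CommGroup A] [CommGroup I] (π : A →* I) (T : Subgroup I) (p n : ℕ)

/-- The class modulo `p`-th powers of the `n`-th root of an element of `kumSub π T n`. -/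
noncomputable def rootClassModP (hT : ∀ x : I, x ^ n ∈ T → x ∈ T) :
    kumSub π T n →* I ⧸ (π.range ⊔ T ⊔ powSub I p) :=
  (QuotientGroup.map (π.range ⊔ T) (π.range ⊔ T ⊔ powSub I p) (MonoidHom.id I)
    (fun _ hx => Subgroup.mem_sup_left hx)).comp (rootClass π T n hT)

variable {π T p n}

theorem rootClassModP_eq (hT : ∀ x : I, x ^ n ∈ T → x ∈ T) (x : kumSub π T n) {J : I}
    (hJ : π x * (J ^ n)⁻¹ ∈ T) :
    rootClassModP π T p n hT x = QuotientGroup.mk J := by
  rw [rootClassModP, MonoidHom.comp_apply, rootClass_eq hT x hJ]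
  rfl

/-- `f ^ n * N` with `N` in the Kummer group of exponent `n * p` has trivial root class modulo
`p`-th powers. -/
theorem rootClassModP_eq_one (hT : ∀ x : I, x ^ n ∈ T → x ∈ T) (x : kumSub π T n) (f N : A)
    (hN : N ∈ kumSub π T (n * p)) (hx : (x : A) = f ^ n * N) :
    rootClassModP π T p n hT x = 1 := by
  obtain ⟨J', hJ'⟩ := exists_root_of_mem_kumSub π T (n * p) ⟨N, hN⟩
  have hJ : π x * ((π f * J' ^ p) ^ n)⁻¹ ∈ T := by
    have h1 : π x * ((π f * J' ^ p) ^ n)⁻¹ = π N * (J' ^ (n * p))⁻¹ := by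
      rw [hx, map_mul, map_pow, mul_pow, ← pow_mul, mul_comm p n, mul_inv]
      rw [mul_mul_mul_comm, mul_inv_cancel, one_mul]
    rw [h1]
    exact hJ'
  rw [rootClassModP_eq hT x hJ, QuotientGroup.eq_one_iff]
  exact Subgroup.mul_mem _ (Subgroup.mem_sup_left (Subgroup.mem_sup_left ⟨f, rfl⟩))
    (Subgroup.mem_sup_right (mem_powSub.mpr ⟨J', rfl⟩))

/-- The root class modulo `p`-th powers is onto when `n` absorbs the `p`-part of the order of
`I ⧸ (π.range ⊔ T)`. -/
theorem rootClassModP_surjective (hT : ∀ x : I, x ^ n ∈ T → x ∈ T) (hp : p.Prime)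
    [Finite (I ⧸ (π.range ⊔ T))] {m : ℕ} (hcard : Nat.card (I ⧸ (π.range ⊔ T)) = n * m)
    (hm : Nat.Coprime m p) : Function.Surjective (rootClassModP π T p n hT) := by
  intro q
  obtain ⟨J, rfl⟩ := QuotientGroup.mk_surjective q
  obtain ⟨t, -, ht⟩ := Nat.exists_mul_mod_eq_one_of_coprime hm hp.one_lt
  have hmt : m * t = p * (m * t / p) + 1 := by
    have := Nat.div_add_mod (m * t) p
    omega
  set s := m * t / p with hs
  -- `J' = J ^ (m * t)`
  have hJn : (J ^ (m * t)) ^ n ∈ π.range ⊔ T := by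
    have h1 : (QuotientGroup.mk J : I ⧸ (π.range ⊔ T)) ^ (n * m) = 1 := by
      rw [← hcard]
      exact pow_card_eq_one'
    rw [← QuotientGroup.mk_pow, QuotientGroup.eq_one_iff] at h1
    have h2 : (J ^ (m * t)) ^ n = (J ^ (n * m)) ^ t := by
      rw [← pow_mul, ← pow_mul]
      congr 1
      ring
    rw [h2]
    exact Subgroup.pow_mem _ h1 t
  obtain ⟨y, hy, t₀, ht₀, hyt⟩ := Subgroup.mem_sup.mp hJn
  obtain ⟨a, rfl⟩ := hy
  have ha : a ∈ kumSub π T n := by
    rw [Subgroup.mem_comap]
    have h3 : π a = t₀⁻¹ * (J ^ (m * t)) ^ n := by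
      rw [← hyt, mul_comm (π a), inv_mul_cancel_left]
    rw [h3]
    exact Subgroup.mul_mem _ (Subgroup.mem_sup_left (T.inv_mem ht₀))
      (Subgroup.mem_sup_right (mem_powSub.mpr ⟨J ^ (m * t), rfl⟩))
  refine ⟨⟨a, ha⟩, ?_⟩
  have hroot : π (⟨a, ha⟩ : kumSub π T n) * ((J ^ (m * t)) ^ n)⁻¹ ∈ T := by
    have h4 : π a * ((J ^ (m * t)) ^ n)⁻¹ = t₀⁻¹ := by
      rw [← hyt, mul_inv, mul_inv_cancel_left]
    show π a * ((J ^ (m * t)) ^ n)⁻¹ ∈ T
    rw [h4]
    exact T.inv_mem ht₀
  rw [rootClassModP_eq hT _ hroot, QuotientGroup.eq]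
  have h5 : (J ^ (m * t))⁻¹ * J = ((J ^ s)⁻¹) ^ p := by
    rw [hmt, pow_succ, mul_inv, inv_pow, ← pow_mul, mul_comm p s, mul_comm (J ^ (s * p))⁻¹,
      mul_comm, mul_inv_cancel_left]
  rw [h5]
  exact Subgroup.mem_sup_right (mem_powSub.mpr ⟨(J ^ s)⁻¹, rfl⟩)

end AbstractPsi

section Count

/-- **Counting through a relation.**  A total relation `R` between a group `A` and a finite
additive group `X` which is compatible with division and whose fibre over `0` is contained in the
kernel of a surjection `ψ : A →* Y` gives `#Y ≤ #X`. -/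
theorem card_le_of_rel {A Y X : Type*} [Group A] [Group Y] [AddGroup X] [Finite X]
    (ψ : A →* Y) (hψ : Function.Surjective ψ) (R : A → X → Prop)
    (htot : ∀ a, ∃ x, R a x)
    (hdiv : ∀ a a' x x', R a x → R a' x' → R (a / a') (x - x'))
    (hker : ∀ a, R a 0 → ψ a = 1) : Nat.card Y ≤ Nat.card X := by
  choose s hs using hψ
  choose f hf using fun y => htot (s y)
  apply Nat.card_le_card_of_injective f
  intro y y' h
  have h1 := hdiv _ _ _ _ (hf y) (hf y')
  rw [h, sub_self] at h1
  have h2 := hker _ h1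
  rw [map_div, hs, hs, div_eq_one] at h2
  exact h2

end Count

end Fermat.Agent.S55.helper321
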