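/-
S55 / NF-CLH2 (emergency copy, helper321), part 2: `Cl_S(F)/p` injects into `H²(G_{F,S}, μ_p)`.

`F ⊂ ℚ̄` an `S`-field containing `μ_p` (`p ∈ S`), `V = F.fixingSubgroup`.
For `a ∈ Fˣ` with all valuations outside `S` divisible by `n = p ^ e`, `α ^ n = a`, and a
`p`-th root `b g` of the `n`-th root of unity `g α / α` (`g ∈ V`), the coboundary
`(g, h) ↦ g (b h) * b g / b (g h)` is a `μ_p`-valued `S`-level 2-cocycle; `Rel a x` says that `x`
is the class of its discrete logarithm in `fieldH2 S p F`.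

* `Rel.div`      : the relation is compatible with division;
* `exists_rel`   : it is total on `kumS (SF F S) n`;
* `Rel.ker`      : `Rel a 0` implies `a = f ^ n * N` with `N ∈ kumS (SF F S) (n * p)`
                   (level Hilbert 90 + `e = 1` outside `S`);
* `clSRank_le_finrank_fieldH2`, `stmt_FieldUpper_of`.
-/
import Mathlib
import Fermat.Agent.S55.helper321_ClH2Core
import Fermat.Agent.S55.helper324_FieldH1
import Fermat.Agent.S55.helper814_LB2

set_option autoImplicit false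

namespace Fermat.Agent.S55.helper321

open IntermediateField groupCohomology
open Fermat.Agent.S55.helper3071 Fermat.Agent.S55.helper9292
open Fermat.Agent.Lib

local notation "Qb" => AlgebraicClosure ℚ
local notation "GQ" => (AlgebraicClosure ℚ ≃ₐ[ℚ] AlgebraicClosure ℚ)

/-! ## Discrete logarithm of `p`-th roots of unity -/

section Dlog

variable (p : ℕ) [Fact p.Prime]

open Classical in
/-- The discrete logarithm in base `ω` of a `p`-th root of unity (junk value `0` otherwise). -/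
noncomputable def dlog (ω z : Qb) : ZMod p :=
  if h : ∃ j : ZMod p, ω ^ j.val = z then Classical.choose h else 0

variable {p} {ω : Qb}

theorem pow_dlog (hω : IsPrimitiveRoot ω p) {z : Qb} (hz : z ^ p = 1) :
    ω ^ (dlog p ω z).val = z := by
  have h := helper324.exists_zpow_val_eq hω hz
  rw [dlog, dif_pos h]
  exact Classical.choose_spec h

theorem dlog_eq (hω : IsPrimitiveRoot ω p) {z : Qb} {j : ZMod p} (h : ω ^ j.val = z) :
    dlog p ω z = j := by
  have hz : z ^ p = 1 := by rw [← h, ← pow_mul, mul_comm, pow_mul, hω.pow_eq_one, one_pow]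
  exact helper324.zpow_val_inj hω ((pow_dlog hω hz).trans h.symm)

theorem dlog_mul (hω : IsPrimitiveRoot ω p) {z z' : Qb} (hz : z ^ p = 1) (hz' : z' ^ p = 1) :
    dlog p ω (z * z') = dlog p ω z + dlog p ω z' := by
  apply dlog_eq hω
  rw [helper324.zpow_val_add hω, pow_dlog hω hz, pow_dlog hω hz']

theorem dlog_one (hω : IsPrimitiveRoot ω p) : dlog p ω 1 = 0 :=
  dlog_eq hω (by rw [ZMod.val_zero, pow_zero])

theorem dlog_div (hω : IsPrimitiveRoot ω p) {z z' : Qb} (hz : z ^ p = 1) (hz' : z' ^ p = 1) :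
    dlog p ω (z / z') = dlog p ω z - dlog p ω z' := by
  have h1 : (z / z') ^ p = 1 := by rw [div_pow, hz, hz', div_one]
  have hz'0 : z' ≠ 0 := by
    rintro rfl
    rw [zero_pow (Fact.out : p.Prime).ne_zero] at hz'
    exact zero_ne_one hz'
  have h2 := dlog_mul hω h1 hz'
  rw [div_mul_cancel₀ _ hz'0] at h2
  rw [h2, add_sub_cancel_right]

end Dlog

/-! ## The coboundary construction -/

section Cob

variable (p : ℕ) [Fact p.Prime] (F : IntermediateField ℚ Qb)

/-- The multiplicative coboundary of a 1-cochain `b : V → ℚ̄`. -/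
noncomputable def dB (b : ↥F.fixingSubgroup → Qb) (x : ↥F.fixingSubgroup × ↥F.fixingSubgroup) : Qb :=
  (x.1 : GQ) (b x.2) * b x.1 / b (x.1 * x.2)

variable {F}

theorem dB_apply (b : ↥F.fixingSubgroup → Qb) (g h : ↥F.fixingSubgroup) :
    dB F b (g, h) = (g : GQ) (b h) * b g / b (g * h) := rfl

theorem dB_div (b b' : ↥F.fixingSubgroup → Qb) (x : ↥F.fixingSubgroup × ↥F.fixingSubgroup) :
    dB F (b / b') x = dB F b x / dB F b' x := by
  simp only [dB, Pi.div_apply, map_div₀]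
  simp only [div_eq_mul_inv, mul_inv, inv_inv]
  ring

variable {p}

omit [Fact p.Prime] in
/-- If `b g ^ p = g α / α`, the coboundary of `b` is `μ_p`-valued. -/
theorem dB_pow {α : Qb} (hα : α ≠ 0) {b : ↥F.fixingSubgroup → Qb}
    (hb : ∀ g : ↥F.fixingSubgroup, b g ^ p = (g : GQ) α / α)
    (x : ↥F.fixingSubgroup × ↥F.fixingSubgroup) : dB F b x ^ p = 1 := by
  obtain ⟨g, h⟩ := x
  have h1 : (g : GQ) α ≠ 0 := (map_ne_zero _).2 hα
  have h2 : (h : GQ) α ≠ 0 := (map_ne_zero _).2 hα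
  have h3 : (g : GQ) ((h : GQ) α) ≠ 0 := (map_ne_zero _).2 h2
  rw [dB_apply, div_pow, mul_pow, ← map_pow, hb h, hb g, hb (g * h), map_div₀,
    Subgroup.coe_mul, AlgEquiv.mul_apply]
  field_simp

/-- The additive `ZMod p`-valued 2-cochain attached to `b`. -/
noncomputable def gam (ω : Qb) (b : ↥F.fixingSubgroup → Qb) :
    ↥F.fixingSubgroup × ↥F.fixingSubgroup → (trivF p F) :=
  fun x => dlog p ω (dB F b x)

theorem gam_apply (ω : Qb) (b : ↥F.fixingSubgroup → Qb)
    (x : ↥F.fixingSubgroup × ↥F.fixingSubgroup) : gam (p := p) ω b x = dlog p ω (dB F b x) := rfl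

theorem fix_mu {ω : Qb} (hω : IsPrimitiveRoot ω p) (hωF : ω ∈ F) (g : ↥F.fixingSubgroup)
    {z : Qb} (hz : z ^ p = 1) : (g : GQ) z = z := by
  rw [← pow_dlog hω hz, map_pow, helper324.fix_of_mem g.2 hωF]

theorem gam_mem_cocycles₂ {ω : Qb} (hω : IsPrimitiveRoot ω p) (hωF : ω ∈ F)
    {b : ↥F.fixingSubgroup → Qb} (hb0 : ∀ g, b g ≠ 0) (hbp : ∀ x, dB F b x ^ p = 1) :
    gam (p := p) ω b ∈ cocycles₂ (trivF p F) := by
  rw [mem_cocycles₂_iff]
  intro g h j
  show dlog p ω (dB F b (g * h, j)) + dlog p ω (dB F b (g, h))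
    = dlog p ω (dB F b (h, j)) + dlog p ω (dB F b (g, h * j))
  rw [← dlog_mul hω (hbp _) (hbp _), ← dlog_mul hω (hbp _) (hbp _)]
  congr 1
  have key : dB F b (g * h, j) * dB F b (g, h) = (g : GQ) (dB F b (h, j)) * dB F b (g, h * j) := by
    have e1 : b (g * h) ≠ 0 := hb0 _
    have e2 : b (g * h * j) ≠ 0 := hb0 _
    have e3 : b (h * j) ≠ 0 := hb0 _
    have e4 : (g : GQ) (b (h * j)) ≠ 0 := (map_ne_zero _).2 e3
    simp only [dB_apply, map_mul, map_div₀, Subgroup.coe_mul, AlgEquiv.mul_apply, mul_assoc]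
    field_simp
  rw [key, fix_mu hω hωF g (hbp _)]

end Cob

/-! ## The relation `Rel` -/

section Relation

variable (S : Finset Nat.Primes) (p : ℕ) [Fact p.Prime] (F : IntermediateField ℚ Qb)

/-- `Rel S p F ω n a x`: `x ∈ H²(G_{F,S}, 𝔽_p)` is the class attached to an `n`-th root `α` of
`a ∈ Fˣ` and an `S`-level choice `b` of `p`-th roots of the roots of unity `g α / α`. -/
def Rel (ω : Qb) (n : ℕ) (a : (↥F)ˣ) (x : fieldH2 S p F) : Prop :=
  ∃ (α : Qb) (b : ↥F.fixingSubgroup → Qb), α ≠ 0 ∧ α ^ n = ((a : ↥F) : Qb) ∧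
    (∀ g : ↥F.fixingSubgroup, b g ^ p = (g : GQ) α / α) ∧
    IsLevS₁ S F.fixingSubgroup.subtype b ∧
    ∃ h : gam (p := p) ω b ∈ relZ2S S F.fixingSubgroup.subtype (trivF p F),
      x = relH2Sπ S F.fixingSubgroup.subtype (trivF p F) ⟨gam (p := p) ω b, h⟩

variable {S p F}

omit [Fact p.Prime] in
theorem isLevS₁_div {b b' : ↥F.fixingSubgroup → Qb}
    (hb : IsLevS₁ S F.fixingSubgroup.subtype b) (hb' : IsLevS₁ S F.fixingSubgroup.subtype b') :
    IsLevS₁ S F.fixingSubgroup.subtype (b / b') := by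
  obtain ⟨L, hL, h⟩ := hb
  obtain ⟨L', hL', h'⟩ := hb'
  refine ⟨L ⊔ L', hL.sup hL', fun g s hs => ?_⟩
  simp only [Pi.div_apply]
  rw [h g s (IntermediateField.fixingSubgroup_antitone le_sup_left hs),
    h' g s (IntermediateField.fixingSubgroup_antitone le_sup_right hs)]

theorem gam_div {ω : Qb} (hω : IsPrimitiveRoot ω p) {α α' : Qb} (hα : α ≠ 0) (hα' : α' ≠ 0)
    {b b' : ↥F.fixingSubgroup → Qb}
    (hb : ∀ g : ↥F.fixingSubgroup, b g ^ p = (g : GQ) α / α)
    (hb' : ∀ g : ↥F.fixingSubgroup, b' g ^ p = (g : GQ) α' / α') :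
    gam (p := p) ω (b / b') = gam (p := p) ω b - gam (p := p) ω b' := by
  funext x
  show dlog p ω (dB F (b / b') x) = dlog p ω (dB F b x) - dlog p ω (dB F b' x)
  rw [dB_div, dlog_div hω (dB_pow hα hb x) (dB_pow hα' hb' x)]

/-- `Rel` is compatible with division. -/
theorem Rel.div {ω : Qb} (hω : IsPrimitiveRoot ω p) {n : ℕ} {a a' : (↥F)ˣ}
    {x x' : fieldH2 S p F} (h : Rel S p F ω n a x) (h' : Rel S p F ω n a' x') :
    Rel S p F ω n (a / a') (x - x') := by
  obtain ⟨α, b, hα, hαn, hb, hlev, hz, rfl⟩ := h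
  obtain ⟨α', b', hα', hαn', hb', hlev', hz', rfl⟩ := h'
  have hg := gam_div hω hα hα' hb hb'
  have hmem : gam (p := p) ω (b / b') ∈ relZ2S S F.fixingSubgroup.subtype (trivF p F) := by
    rw [hg]
    exact Submodule.sub_mem _ hz hz'
  refine ⟨α / α', b / b', div_ne_zero hα hα', ?_, ?_, isLevS₁_div hlev hlev', hmem, ?_⟩
  · rw [div_pow, hαn, hαn', Units.val_div_eq_div_val]
    rfl
  · intro g
    rw [Pi.div_apply, div_pow, hb, hb', map_div₀, div_div_div_comm]
  · rw [← map_sub]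
    congr 1
    exact Subtype.ext hg.symm

end Relation

/-! ## Totality -/

section Total

variable {S : Finset Nat.Primes} {p : ℕ} [Fact p.Prime] {F : IntermediateField ℚ Qb}

/-- `a ∈ Fˣ` is, at every valuation subring over a prime outside `S`, a unit times an `n`-th
power of `F` (the right-hand side of `helper9292.mem_kumS_SF_iff`). -/
def LocPowOff (S : Finset Nat.Primes) (F : IntermediateField ℚ Qb) (n : ℕ) (a : (↥F)ˣ) : Prop :=
  ∀ q : Nat.Primes, q ∉ S → ∀ A : ValuationSubring Qb, A.LiesOverPrime (q : ℕ) →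
    ∃ c : (↥F)ˣ, A.valuation (algebraMap (↥F) Qb ((a : ↥F) / (c : ↥F) ^ n)) = 1

theorem fix_of_mem_sup_adjoin {L : IntermediateField ℚ Qb} {y : Qb} {s : GQ}
    (hs : s ∈ (L ⊔ IntermediateField.adjoin ℚ {y}).fixingSubgroup) : s y = y :=
  helper324.fix_of_mem hs
    ((le_sup_right : IntermediateField.adjoin ℚ {y} ≤ L ⊔ IntermediateField.adjoin ℚ {y})
      (IntermediateField.mem_adjoin_simple_self ℚ y))

/-- **Totality.** Every `a` which is locally a unit times a `p ^ e`-th power outside `S` is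
related to some class. -/
theorem exists_rel (hF : F.IsUnramifiedOutside S) (hpS : ∀ q : Nat.Primes, (q : ℕ) ∣ p → q ∈ S)
    {ω : Qb} (hω : IsPrimitiveRoot ω p) (hωF : ω ∈ F) (e : ℕ) (a : (↥F)ˣ)
    (ha : LocPowOff S F (p ^ e) a) : ∃ x : fieldH2 S p F, Rel S p F ω (p ^ e) a x := by
  have hp : p.Prime := Fact.out
  have hn0 : p ^ e ≠ 0 := pow_ne_zero _ hp.ne_zero
  have hnS : ∀ m : ℕ, ∀ q : Nat.Primes, (q : ℕ) ∣ p ^ m → q ∈ S :=
    fun m q hq => hpS q (q.2.dvd_of_dvd_pow hq)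
  have ha0 : ((a : ↥F) : Qb) ≠ 0 := helper324.unit_coe_ne_zero a
  obtain ⟨α, hα⟩ := IsAlgClosed.exists_pow_nat_eq ((a : ↥F) : Qb) (Nat.pos_of_ne_zero hn0)
  have hα0 : α ≠ 0 := by
    rintro rfl
    rw [zero_pow hn0] at hα
    exact ha0 hα.symm
  have hgα0 : ∀ g : ↥F.fixingSubgroup, (g : GQ) α / α ≠ 0 :=
    fun g => div_ne_zero ((map_ne_zero _).2 hα0) hα0
  -- the canonical choice of `p`-th roots
  set b : ↥F.fixingSubgroup → Qb := fun g => helper324.rootOf p ((g : GQ) α / α) with hbdef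
  have hb : ∀ g : ↥F.fixingSubgroup, b g ^ p = (g : GQ) α / α :=
    fun g => helper324.rootOf_pow _
  have hb0 : ∀ g, b g ≠ 0 := fun g => helper324.rootOf_ne_zero (hgα0 g)
  -- the level fields
  have hL₁ : (F ⊔ IntermediateField.adjoin ℚ {α}).IsUnramifiedOutside S := by
    refine helper4709.isUnramifiedOutside_sup_adjoin_root hF (p ^ e) (hnS e) α ?_ ?_
    · rw [hα]
      exact (a : ↥F).2
    · intro q hq A hA
      obtain ⟨c, hc⟩ := ha q hq A hA
      refine ⟨((c : ↥F) : Qb), (c : ↥F).2, helper324.unit_coe_ne_zero c, ?_⟩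
      rw [hα]
      exact hc
  obtain ⟨ξ, hξ⟩ : ∃ ξ : Qb, IsPrimitiveRoot ξ (p ^ (e + 1)) := by
    have : NeZero (p ^ (e + 1)) := ⟨pow_ne_zero _ hp.ne_zero⟩
    exact HasEnoughRootsOfUnity.exists_primitiveRoot Qb (p ^ (e + 1))
  have hL₂ : (F ⊔ IntermediateField.adjoin ℚ {α} ⊔ IntermediateField.adjoin ℚ {ξ}).IsUnramifiedOutside
      S := helper4709.isUnramifiedOutside_sup_adjoin_rootOfUnity hL₁ (p ^ (e + 1)) (hnS (e + 1)) ξ
        hξ.pow_eq_one
  -- `b` is `S`-level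
  have hblev : ∀ (g s : ↥F.fixingSubgroup),
      (s : GQ) ∈ (F ⊔ IntermediateField.adjoin ℚ {α}).fixingSubgroup → b (g * s) = b g := by
    intro g s hs
    simp only [hbdef, Subgroup.coe_mul, AlgEquiv.mul_apply]
    rw [fix_of_mem_sup_adjoin hs]
  have hlev₁ : IsLevS₁ S F.fixingSubgroup.subtype b := ⟨_, hL₁, fun g s hs => hblev g s hs⟩
  have hbp := dB_pow hα0 hb
  -- values of `b` are `p ^ (e + 1)`-th roots of unity
  have hgαpow : ∀ g : ↥F.fixingSubgroup, ((g : GQ) α / α) ^ (p ^ e) = 1 := by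
    intro g
    rw [div_pow, ← map_pow, hα, helper324.fix_of_mem g.2 (a : ↥F).2, div_self ha0]
  have hbroot : ∀ g : ↥F.fixingSubgroup, b g ^ (p ^ (e + 1)) = 1 := by
    intro g
    rw [pow_succ', pow_mul, hb, hgαpow]
  have hfixroot : ∀ (s : GQ), s ξ = ξ → ∀ z : Qb, z ^ (p ^ (e + 1)) = 1 → s z = z := by
    intro s hs z hz
    have : NeZero (p ^ (e + 1)) := ⟨pow_ne_zero _ hp.ne_zero⟩
    obtain ⟨i, -, rfl⟩ := hξ.eq_pow_of_pow_eq_one hz
    rw [map_pow, hs]
  have hz : gam (p := p) ω b ∈ relZ2S S F.fixingSubgroup.subtype (trivF p F) := by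
    refine ⟨gam_mem_cocycles₂ hω hωF hb0 hbp, ?_⟩
    refine ⟨_, hL₂, fun g g' s s' hs hs' => ?_⟩
    have hs₁ : (s : GQ) ∈ (F ⊔ IntermediateField.adjoin ℚ {α}).fixingSubgroup :=
      IntermediateField.fixingSubgroup_antitone le_sup_left hs
    have hs₁' : (s' : GQ) ∈ (F ⊔ IntermediateField.adjoin ℚ {α}).fixingSubgroup :=
      IntermediateField.fixingSubgroup_antitone le_sup_left hs'
    have hsα : (s : GQ) α = α := fix_of_mem_sup_adjoin hs₁
    have hs'α : (s' : GQ) α = α := fix_of_mem_sup_adjoin hs₁'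
    have hsξ : (s : GQ) ξ = ξ := fix_of_mem_sup_adjoin hs
    show dlog p ω (dB F b (g * s, g' * s')) = dlog p ω (dB F b (g, g'))
    congr 1
    rw [dB_apply, dB_apply, hblev g' s' hs₁', hblev g s hs₁]
    have h1 : ((g * s : ↥F.fixingSubgroup) : GQ) (b g') = (g : GQ) (b g') := by
      rw [Subgroup.coe_mul, AlgEquiv.mul_apply, hfixroot _ hsξ _ (hbroot g')]
    have h2 : b (g * s * (g' * s')) = b (g * g') := by
      simp only [hbdef, Subgroup.coe_mul, AlgEquiv.mul_apply]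
      rw [hs'α]
      have h3 : (g' : GQ) α = ((g' : GQ) α / α) * α := by
        rw [div_mul_cancel₀ _ hα0]
      have h4 : (s : GQ) ((g' : GQ) α) = (g' : GQ) α := by
        conv_lhs => rw [h3]
        rw [map_mul, hsα, hfixroot _ hsξ _ (by rw [pow_succ, pow_mul, hgαpow, one_pow]),
          div_mul_cancel₀ _ hα0]
      rw [h4]
    rw [h1, h2]
  exact ⟨_, α, b, hα0, hα, hb, hlev₁, hz, rfl⟩

end Total

/-! ## The kernel -/

section Kernel

variable {S : Finset Nat.Primes} {p : ℕ} [Fact p.Prime] {F : IntermediateField ℚ Qb}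

theorem zpow_val_sub_add {ω : Qb} (hω : IsPrimitiveRoot ω p) (u v w : ZMod p) :
    ω ^ (u - v + w).val * ω ^ v.val = ω ^ u.val * ω ^ w.val := by
  rw [← helper324.zpow_val_add hω, ← helper324.zpow_val_add hω]
  congr 2
  ring

/-- **The kernel.** If `a` is related to the zero class, then `a = f ^ n * N` with `N` locally a
unit times an `(n * p)`-th power outside `S`. -/
theorem Rel.ker (hF : F.IsUnramifiedOutside S) {ω : Qb} (hω : IsPrimitiveRoot ω p) (hωF : ω ∈ F)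
    {n : ℕ} {a : (↥F)ˣ} (h : Rel S p F ω n a 0) :
    ∃ f N : (↥F)ˣ, a = f ^ n * N ∧ LocPowOff S F (n * p) N := by
  have hp : p.Prime := Fact.out
  obtain ⟨α, b, hα0, hαn, hb, ⟨Lb, hLb, hbL⟩, hz, h0⟩ := h
  have hB : gam (p := p) ω b ∈ relB2S S F.fixingSubgroup.subtype (trivF p F) :=
    (relH2Sπ_eq_zero_iff S F.fixingSubgroup.subtype (trivF p F) ⟨_, hz⟩).1 h0.symm
  obtain ⟨x, ⟨Lx, hLx, hxL⟩, hx⟩ := (mem_relB2S_iff S F.fixingSubgroup.subtype (trivF p F) _).1 hB
  -- the coboundary equation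
  have hx' : ∀ g h : ↥F.fixingSubgroup,
      dlog p ω (dB F b (g, h)) = (x h : ZMod p) - x (g * h) + x g := by
    intro g h
    have := congrFun hx (g, h)
    exact this.symm
  have hgα0 : ∀ g : ↥F.fixingSubgroup, (g : GQ) α / α ≠ 0 :=
    fun g => div_ne_zero ((map_ne_zero _).2 hα0) hα0
  have hb0 : ∀ g, b g ≠ 0 := by
    intro g hg
    have := hb g
    rw [hg, zero_pow hp.ne_zero] at this
    exact hgα0 g this.symm
  have hω0 : ω ≠ 0 := hω.ne_zero hp.ne_zero
  -- the `μ_p`-valued correction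
  set ε : ↥F.fixingSubgroup → Qb := fun g => ω ^ ((x g : ZMod p)).val with hεdef
  have hε0 : ∀ g, ε g ≠ 0 := fun g => pow_ne_zero _ hω0
  have hεp : ∀ g, ε g ^ p = 1 := by
    intro g
    simp only [hεdef]
    rw [← pow_mul, mul_comm, pow_mul, hω.pow_eq_one, one_pow]
  have hεfix : ∀ g h : ↥F.fixingSubgroup, (g : GQ) (ε h) = ε h := by
    intro g h
    simp only [hεdef]
    rw [map_pow, helper324.fix_of_mem g.2 hωF]
  have hdB : ∀ g h : ↥F.fixingSubgroup, dB F b (g, h) * ε (g * h) = ε h * ε g := by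
    intro g h
    have h1 := pow_dlog hω (dB_pow hα0 hb (g, h))
    rw [hx' g h] at h1
    rw [← h1]
    exact zpow_val_sub_add hω _ _ _
  -- the corrected cochain is a 1-cocycle
  set b' : ↥F.fixingSubgroup → Qb := fun g => b g / ε g with hb'def
  have hb'0 : ∀ g, b' g ≠ 0 := fun g => div_ne_zero (hb0 g) (hε0 g)
  have hb'coc : ∀ g h : ↥F.fixingSubgroup, b' (g * h) = b' g * g • b' h := by
    intro g h
    have h1 := hdB g h
    rw [dB_apply] at h1
    have e1 := hb0 (g * h)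
    have e2 := hε0 (g * h)
    have e3 := hε0 g
    have e4 := hε0 h
    show b (g * h) / ε (g * h) = b g / ε g * (g : GQ) (b h / ε h)
    rw [map_div₀, hεfix g h]
    field_simp
    field_simp at h1
    linear_combination -h1
  -- Hilbert 90
  have hLfin : FiniteDimensional ℚ ↥(Lb ⊔ Lx) := (hLb.sup hLx).1
  have hfi : (Lb ⊔ Lx).fixingSubgroup.FiniteIndex := helper814.finiteIndex_fixingSubgroup _
  obtain ⟨γ, hγ0, hγ⟩ := helper814.exists_smul_eq_of_cocycle
    ((Lb ⊔ Lx).fixingSubgroup.subgroupOf F.fixingSubgroup)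
    (fun g hg => by
      rw [Subgroup.mem_subgroupOf, IntermediateField.mem_fixingSubgroup_iff]
      intro y hy
      exact hg y (fun s hs => (IntermediateField.mem_fixingSubgroup_iff _ _).1
        (Subgroup.mem_subgroupOf.1 hs) y hy))
    b' hb'0 hb'coc
    (fun g s hs => by
      have hs' : (s : GQ) ∈ (Lb ⊔ Lx).fixingSubgroup := Subgroup.mem_subgroupOf.1 hs
      simp only [hb'def, hεdef]
      rw [hbL g s (IntermediateField.fixingSubgroup_antitone le_sup_left hs'),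
        hxL g s (IntermediateField.fixingSubgroup_antitone le_sup_right hs')])
  have hγ' : ∀ g : ↥F.fixingSubgroup, b' g * (g : GQ) γ = γ := hγ
  -- `γ` lies in the `S`-field `F ⊔ Lb ⊔ Lx`
  have hb'one : b' 1 = 1 := by
    have h1 := hb'coc 1 1
    have h2 : (1 : ↥F.fixingSubgroup) • b' 1 = b' 1 := one_smul _ _
    rw [mul_one, h2] at h1
    exact (mul_eq_left₀ (hb'0 1)).1 h1.symm
  have hFL : (F ⊔ (Lb ⊔ Lx)).IsUnramifiedOutside S := hF.sup (hLb.sup hLx)
  have hγL : γ ∈ F ⊔ (Lb ⊔ Lx) := by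
    apply helper324.mem_of_fixed
    intro σ hσ
    rw [IntermediateField.fixingSubgroup_sup] at hσ
    have h1 := hγ' ⟨σ, hσ.1⟩
    have h2 : b' ⟨σ, hσ.1⟩ = 1 := by
      have h3 : b' (1 * ⟨σ, hσ.1⟩) = b' 1 := by
        simp only [hb'def, hεdef]
        rw [hbL 1 ⟨σ, hσ.1⟩ (IntermediateField.fixingSubgroup_antitone le_sup_left hσ.2),
          hxL 1 ⟨σ, hσ.1⟩ (IntermediateField.fixingSubgroup_antitone le_sup_right hσ.2)]
      rw [one_mul] at h3
      rw [h3, hb'one]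
    rw [h2, one_mul] at h1
    exact h1
  -- `α * γ ^ p` is in `F`
  have hfF : α * γ ^ p ∈ F := by
    apply helper324.mem_of_fixed
    intro σ hσ
    have h1 := hγ' ⟨σ, hσ⟩
    have h2 : (b' ⟨σ, hσ⟩) ^ p = σ α / α := by
      simp only [hb'def]
      rw [div_pow, hεp, div_one, hb ⟨σ, hσ⟩]
    have hσα : σ α ≠ 0 := (map_ne_zero _).2 hα0
    have hσγ : σ γ ≠ 0 := (map_ne_zero _).2 hγ0
    have h3 : γ ^ p = (σ α / α) * (σ γ) ^ p := by
      rw [← h2, ← mul_pow]
      exact congrArg (· ^ p) h1.symm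
    rw [map_mul, map_pow, h3]
    field_simp
  have hf0 : α * γ ^ p ≠ 0 := mul_ne_zero hα0 (pow_ne_zero _ hγ0)
  set f : (↥F)ˣ := Units.mk0 ⟨α * γ ^ p, hfF⟩ (fun h => hf0 (congrArg Subtype.val h)) with hfdef
  refine ⟨f, a / f ^ n, by rw [mul_div_cancel], ?_⟩
  intro q hq A hA
  obtain ⟨k, hk⟩ := helper4709.exists_zpow_valuation_eq_one hFL q hq A hA γ hγL hγ0
  have hq0 : (((q : ℕ) : ℕ) : ↥F) ≠ 0 := Nat.cast_ne_zero.mpr q.2.ne_zero
  have hq0' : (((q : ℕ) : ℕ) : Qb) ≠ 0 := Nat.cast_ne_zero.mpr q.2.ne_zero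
  refine ⟨Units.mk0 ((((q : ℕ) : ℕ) : ↥F) ^ (-k)) (zpow_ne_zero _ hq0), ?_⟩
  have hcoe : algebraMap (↥F) Qb (((a / f ^ n : (↥F)ˣ) : ↥F) /
      ((Units.mk0 ((((q : ℕ) : ℕ) : ↥F) ^ (-k)) (zpow_ne_zero _ hq0) : (↥F)ˣ) : ↥F) ^ (n * p))
      = ((γ / ((q : ℕ) : Qb) ^ k) ^ (n * p))⁻¹ := by
    have h1 : algebraMap (↥F) Qb (a : ↥F) = α ^ n := hαn.symm
    have h2 : algebraMap (↥F) Qb (f : ↥F) = α * γ ^ p := rfl
    have h3 : algebraMap (↥F) Qb
        ((Units.mk0 ((((q : ℕ) : ℕ) : ↥F) ^ (-k)) (zpow_ne_zero _ hq0) : (↥F)ˣ) : ↥F)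
        = (((q : ℕ) : Qb) ^ k)⁻¹ := by
      rw [Units.val_mk0, map_zpow₀, map_natCast, zpow_neg]
    have hqk : ((q : ℕ) : Qb) ^ k ≠ 0 := zpow_ne_zero _ hq0'
    rw [Units.val_div_eq_div_val, Units.val_pow_eq_pow_val]
    simp only [map_div₀, map_pow]
    rw [h1, h2, h3]
    generalize ((q : ℕ) : Qb) ^ k = Q at hqk
    rw [div_pow, mul_pow, ← pow_mul γ, mul_comm p n, inv_pow]
    field_simp
  rw [hcoe, map_inv₀, map_pow, hk, one_pow, inv_one]

end Kernel

/-! ## The count -/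

section Final

attribute [local instance] helper54.numberField_intermediate

open NumberField IsDedekindDomain
open scoped nonZeroDivisors

variable {S : Finset Nat.Primes} {p : ℕ} {F : IntermediateField ℚ Qb} [FiniteDimensional ℚ F]

/-- `#(Cl_S(F)/p) ≤ #H²(G_{F,S}, 𝔽_p)` for an `S`-field `F ∋ μ_p`, `p ∈ S`. -/
theorem clSModCard_le_card_fieldH2 [Fact p.Prime] (hF : F.IsUnramifiedOutside S)
    (hpS : ∀ q : Nat.Primes, (q : ℕ) ∣ p → q ∈ S) {ω : Qb} (hω : IsPrimitiveRoot ω p)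
    (hωF : ω ∈ F) [Finite (fieldH2 S p F)] :
    clSModCard (𝓞 F) F (SF F S : Set (HeightOneSpectrum (𝓞 F))) p ≤ Nat.card (fieldH2 S p F) := by
  have hp : p.Prime := Fact.out
  have hc0 : Nat.card (ClS (𝓞 F) F (SF F S : Set (HeightOneSpectrum (𝓞 F)))) ≠ 0 :=
    Nat.card_pos.ne'
  obtain ⟨e, m, hm, hcard⟩ := Nat.exists_eq_pow_mul_and_not_dvd hc0 p hp.ne_one
  have hcop : Nat.Coprime m p := ((Nat.Prime.coprime_iff_not_dvd hp).2 hm).symm
  have hn0 : p ^ e ≠ 0 := pow_ne_zero _ hp.ne_zero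
  have hT : ∀ x : (FractionalIdeal (𝓞 F)⁰ F)ˣ,
      x ^ (p ^ e) ∈ suppSub (SF F S : Set (HeightOneSpectrum (𝓞 F))) →
        x ∈ suppSub (SF F S : Set (HeightOneSpectrum (𝓞 F))) :=
    fun x hx => suppSub_saturated _ hn0 x hx
  have hsurj := rootClassModP_surjective (π := toPrincipalIdeal (𝓞 F) F)
    (T := suppSub (SF F S : Set (HeightOneSpectrum (𝓞 F)))) (p := p) hT hp hcard hcop
  have key := card_le_of_rel
    (rootClassModP (toPrincipalIdeal (𝓞 F) F) (suppSub (SF F S : Set (HeightOneSpectrum (𝓞 F))))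
      p (p ^ e) hT) hsurj
    (fun a x => Rel S p F ω (p ^ e) (a : (↥F)ˣ) x)
    (fun a => exists_rel hF hpS hω hωF e (a : (↥F)ˣ)
      ((mem_kumS_SF_iff F S (p ^ e) (a : (↥F)ˣ)).1 a.2))
    (fun a a' x x' h h' => Rel.div hω h h')
    (fun a h => by
      obtain ⟨f, N, hfN, hN⟩ := Rel.ker hF hω hωF h
      exact rootClassModP_eq_one hT a f N ((mem_kumS_SF_iff F S (p ^ e * p) N).2 hN) hfN)
  rw [← card_ClSModP]
  exact key

/-- **NF-CLH2**: `rk_p Cl_S(F) ≤ h²(G_{F,S}, 𝔽_p)` with the class-group rank `clSRank` of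
helper9292 (the same `c` as in `helper324.finrank_fieldH1`). -/
theorem clSRank_le_finrank_fieldH2 (h : IsSFieldZeta S p F)
    [Module.Finite (ZMod p) (fieldH2 S p F)] :
    clSRank (𝓞 F) F (SF F S : Set (HeightOneSpectrum (𝓞 F))) p
      ≤ Module.finrank (ZMod p) (fieldH2 S p F) := by
  have : Fact p.Prime := ⟨h.prime⟩
  obtain ⟨q0, hq0S, hq0⟩ := h.mem
  obtain ⟨ζ, hζF, hζ⟩ := h.zeta
  have hpS : ∀ q : Nat.Primes, (q : ℕ) ∣ p → q ∈ S := by
    intro q hq
    have h1 : (q : ℕ) = p := (Nat.prime_dvd_prime_iff_eq q.2 h.prime).1 hq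
    have h2 : q = q0 := Subtype.ext (h1.trans hq0.symm)
    rw [h2]
    exact hq0S
  have : Finite (fieldH2 S p F) := Module.finite_of_finite (ZMod p)
  have h1 := clSModCard_le_card_fieldH2 h.unram hpS hζ hζF
  rw [clSModCard_eq_pow, Module.natCard_eq_pow_finrank (K := ZMod p) (V := fieldH2 S p F),
    Nat.card_zmod] at h1
  exact (Nat.pow_le_pow_iff_right h.prime.one_lt).1 h1

omit [FiniteDimensional ℚ F] in
/-- `FieldUpper` for one field, given finiteness of its `H²`. -/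
theorem fieldUpper_of_finite (h : IsSFieldZeta S p F)
    [Module.Finite (ZMod p) (fieldH2 S p F)] : FieldUpper S p F := by
  have : FiniteDimensional ℚ F := h.unram.1
  have h3 := clSRank_le_finrank_fieldH2 h
  have h4 := helper324.two_mul_finrank_fieldH1 h
  unfold FieldUpper
  omega

/-- **`Stmt_FieldUpper`** of the GB Spec from `Stmt_FieldFin`. -/
theorem stmt_FieldUpper_of (hFin : Stmt_FieldFin) : Stmt_FieldUpper := by
  intro S p F h
  have := (hFin S p F h).2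
  exact fieldUpper_of_finite h

end Final

end Fermat.Agent.S55.helper321
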