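import Mathlib

/-!
# Artin–Tate `q`-lemma for a cyclic group of prime order, and the local norm index (S55, LA-QLEMMA)

Pure algebra, Mathlib only.

* `artinTate_identity` : `M` an abelian group (additive), `s` an endomorphism with `s ^ p = 1`
  (`p` prime), `D = 1 - s`, `N = 1 + s + ... + s^(p-1)`, `P = p`, `F = ker D`.  If `[M : pM]`,
  `#M[p]` and `[F : pF]` are finite then `[F : N M]` and `[ker N : D M]` are finite and
  `[F : N M]^(p-1) * [M : pM] * #F[p]^p = [ker N : D M]^(p-1) * [F : pF]^p * #M[p]`.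
* `norm_index_eq_prime` : `L/K` a Galois extension of fields of prime degree `p`.  If
  `#(Kˣ/p) = p * #μ_p(K) * c` and `#(Lˣ/p) = p * #μ_p(L) * c ^ p` with `0 < c`, then the norm
  subgroup of `Kˣ` has index `p`.
-/

set_option autoImplicit false

namespace Fermat.Agent.S55.helper3225

open AddSubgroup

section Index

variable {M : Type*} [AddCommGroup M]

/-- `[B : A] = [B + K : A + K] * [B ∩ K : A ∩ K]` for `A ≤ B`. -/
theorem relIndex_eq_sup_mul_inf (A B K : AddSubgroup M) (hAB : A ≤ B) :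
    A.relIndex B = (A ⊔ K).relIndex (B ⊔ K) * (A ⊓ K).relIndex (B ⊓ K) := by
  have h1 : A ≤ B ⊓ (A ⊔ K) := le_inf hAB le_sup_left
  have h2 : B ⊓ (A ⊔ K) ≤ B := inf_le_left
  rw [← relIndex_mul_relIndex A (B ⊓ (A ⊔ K)) B h1 h2]
  have e1 : (B ⊓ (A ⊔ K)).relIndex B = (A ⊔ K).relIndex (B ⊔ K) := by
    rw [inf_comm, inf_relIndex_right]
    have : B ⊔ K = B ⊔ (A ⊔ K) := by
      rw [← sup_assoc, sup_eq_left.mpr hAB]
    rw [this, relIndex_sup_right]
  have e2 : A.relIndex (B ⊓ (A ⊔ K)) = (A ⊓ K).relIndex (B ⊓ K) := by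
    have hmod : B ⊓ (A ⊔ K) = A ⊔ (B ⊓ K) := by
      rw [inf_comm, sup_inf_assoc_of_le K hAB, inf_comm]
    rw [hmod, relIndex_sup_left]
    have : A ⊓ K = A ⊓ (B ⊓ K) := by
      rw [← inf_assoc, inf_eq_left.mpr hAB]
    rw [this, inf_relIndex_right]
  rw [e1, e2, mul_comm]

/-- `[B : A] = [f B : f A] * [B ∩ ker f : A ∩ ker f]` for `A ≤ B`. -/
theorem relIndex_eq_map_mul_ker {M' : Type*} [AddCommGroup M'] (f : M →+ M')
    (A B : AddSubgroup M) (hAB : A ≤ B) :
    A.relIndex B = (A.map f).relIndex (B.map f) * (A ⊓ f.ker).relIndex (B ⊓ f.ker) := by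
  rw [relIndex_map_map]
  exact relIndex_eq_sup_mul_inf A B f.ker hAB

/-- `#H * [K : H] = #K` for `H ≤ K`. -/
theorem card_mul_relIndex_of_le {H K : AddSubgroup M} (h : H ≤ K) :
    Nat.card ↥H * H.relIndex K = Nat.card ↥K := by
  rw [← relIndex_bot_left, ← relIndex_bot_left]
  exact relIndex_mul_relIndex ⊥ H K bot_le h

/-- `#X = #(X ∩ ker f) * #(f X)`. -/
theorem card_eq_card_inf_ker_mul_card_map {M' : Type*} [AddCommGroup M'] (f : M →+ M')
    (X : AddSubgroup M) :
    Nat.card ↥X = Nat.card ↥(X ⊓ f.ker) * Nat.card ↥(X.map f) := by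
  rw [← relIndex_ker, ← card_mul_relIndex_of_le (inf_le_left : X ⊓ f.ker ≤ X),
    inf_comm, inf_relIndex_right]

theorem card_ne_zero_of_le {H K : AddSubgroup M} (h : H ≤ K) (hK : Nat.card ↥K ≠ 0) :
    Nat.card ↥H ≠ 0 := by
  intro h0
  apply hK
  rw [← card_mul_relIndex_of_le h, h0, zero_mul]

/-- Step 1 of the `q`-lemma. -/
theorem step_one (D N P : M →+ M) (hDN : ∀ x, D (N x) = 0) (hND : ∀ x, N (D x) = 0)
    (hNP : ∀ x, D x = 0 → N x = P x) :
    (D.range.map D).relIndex D.range * N.range.relIndex D.ker * Nat.card ↥(D.ker ⊓ P.ker)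
      = (D.ker.map P).relIndex D.ker * D.range.relIndex N.ker
        * Nat.card ↥(D.range ⊓ D.ker) := by
  -- basic inclusions
  have hBN : D.range ≤ N.ker := by
    rintro _ ⟨x, rfl⟩
    exact hND x
  have hNF : N.range ≤ D.ker := by
    rintro _ ⟨x, rfl⟩
    exact hDN x
  have hmapP : D.ker.map P = D.ker.map N := by
    ext y
    constructor
    · rintro ⟨x, hx, rfl⟩
      exact ⟨x, hx, hNP x hx⟩
    · rintro ⟨x, hx, rfl⟩
      exact ⟨x, hx, (hNP x hx).symm⟩
  have hinf : D.ker ⊓ P.ker = D.ker ⊓ N.ker := by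
    ext y
    simp only [AddSubgroup.mem_inf, AddMonoidHom.mem_ker]
    constructor
    · rintro ⟨h1, h2⟩
      exact ⟨h1, by rw [hNP y h1, h2]⟩
    · rintro ⟨h1, h2⟩
      exact ⟨h1, by rw [← hNP y h1, h2]⟩
  -- (i) `[F : N F] = [F : N M] * [N M : N F]`
  have e1 : (D.ker.map N).relIndex N.range * N.range.relIndex D.ker
      = (D.ker.map N).relIndex D.ker :=
    relIndex_mul_relIndex _ _ _ (by rw [AddMonoidHom.range_eq_map]; exact map_mono le_top) hNF
  -- (ii) `[N M : N F] = [M : F + ker N]`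
  have e2 : (D.ker.map N).relIndex N.range = (D.ker ⊔ N.ker).index := by
    rw [AddMonoidHom.range_eq_map, relIndex_map_map, top_sup_eq, relIndex_top_right]
  -- (iii) `[D M : D (ker N)] = [M : ker N + F]`
  have e3 : (N.ker.map D).relIndex D.range = (D.ker ⊔ N.ker).index := by
    rw [AddMonoidHom.range_eq_map, relIndex_map_map, top_sup_eq, relIndex_top_right, sup_comm]
  -- (iv) `[B : D B] = [B : D (ker N)] * [D (ker N) : D B]`
  have e4 : (D.range.map D).relIndex (N.ker.map D) * (N.ker.map D).relIndex D.range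
      = (D.range.map D).relIndex D.range :=
    relIndex_mul_relIndex _ _ _ (map_mono hBN)
      (by rw [AddMonoidHom.range_eq_map]; exact map_mono le_top)
  -- (v) `[ker N : B] = [D (ker N) : D B] * [ker N ∩ F : B ∩ F]`
  have e5 := relIndex_eq_map_mul_ker D D.range N.ker hBN
  -- (vi) `#(F ∩ ker N) = #(B ∩ F) * [F ∩ ker N : B ∩ F]`
  have e6 : Nat.card ↥(D.range ⊓ D.ker) * (D.range ⊓ D.ker).relIndex (N.ker ⊓ D.ker)
      = Nat.card ↥(N.ker ⊓ D.ker) :=
    card_mul_relIndex_of_le (inf_le_inf_right _ hBN)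
  rw [hmapP, hinf, ← e1, ← e4, e5, e2, e3, inf_comm D.ker N.ker, ← e6]
  ring

/-- First half of step 2: `[M : pM] = [B : pB] * [F : pM ∩ F]`. -/
theorem step_two_a (D P : M →+ M) (hDP : ∀ x, D (P x) = P (D x)) :
    P.range.index = (D.range.map P).relIndex D.range * (P.range ⊓ D.ker).relIndex D.ker := by
  have h := relIndex_eq_map_mul_ker D P.range ⊤ le_top
  rw [relIndex_top_right, top_inf_eq, ← AddMonoidHom.range_eq_map] at h
  have hmap : P.range.map D = D.range.map P := by
    ext y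
    constructor
    · rintro ⟨_, ⟨x, rfl⟩, rfl⟩
      exact ⟨D x, ⟨x, rfl⟩, (hDP x).symm⟩
    · rintro ⟨_, ⟨x, rfl⟩, rfl⟩
      exact ⟨P x, ⟨x, rfl⟩, hDP x⟩
  rw [h, hmap]

/-- Step 2 of the `q`-lemma. -/
theorem step_two (D P : M →+ M) (hDP : ∀ x, D (P x) = P (D x)) :
    P.range.index * Nat.card ↥(D.range ⊓ P.ker) * Nat.card ↥(D.ker ⊓ P.ker)
      = (D.range.map P).relIndex D.range * (D.ker.map P).relIndex D.ker * Nat.card ↥P.ker := by
  -- `Y = {x | P (D x) = 0}`
  set Y : AddSubgroup M := P.ker.comap D with hY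
  have hFY : D.ker ≤ Y := by
    intro x hx
    rw [hY, AddSubgroup.mem_comap, AddMonoidHom.mem_ker, AddMonoidHom.mem_ker.mp hx, map_zero]
  have hPY : P.ker ≤ Y := by
    intro x hx
    rw [hY, AddSubgroup.mem_comap, AddMonoidHom.mem_ker, ← hDP, AddMonoidHom.mem_ker.mp hx,
      map_zero]
  have hYP : Y.map P = P.range ⊓ D.ker := by
    ext y
    constructor
    · rintro ⟨x, hx, rfl⟩
      refine ⟨⟨x, rfl⟩, ?_⟩
      show D (P x) = 0
      rw [hDP]
      exact hx
    · rintro ⟨⟨x, rfl⟩, hx⟩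
      refine ⟨x, ?_, rfl⟩
      show P (D x) = 0
      rw [← hDP]
      exact hx
  have hYD : Y.map D = D.range ⊓ P.ker := by
    ext y
    constructor
    · rintro ⟨x, hx, rfl⟩
      exact ⟨⟨x, rfl⟩, hx⟩
    · rintro ⟨⟨x, rfl⟩, hx⟩
      exact ⟨x, hx, rfl⟩
  have hFP : D.ker.map P ≤ P.range ⊓ D.ker := by
    rw [← hYP]
    exact map_mono hFY
  -- (ii) `[F : pF] = [F : pM ∩ F] * [pM ∩ F : pF]`
  have e2 : (D.ker.map P).relIndex (P.range ⊓ D.ker) * (P.range ⊓ D.ker).relIndex D.ker
      = (D.ker.map P).relIndex D.ker :=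
    relIndex_mul_relIndex _ _ _ hFP inf_le_right
  -- (iii) `[pM ∩ F : pF] = [Y : F + ker P] = [B[p] : D (M[p])]`
  have e3 : (D.ker.map P).relIndex (P.range ⊓ D.ker) = (D.ker ⊔ P.ker).relIndex Y := by
    rw [← hYP, relIndex_map_map, sup_eq_left.mpr hPY]
  have e3' : (P.ker.map D).relIndex (D.range ⊓ P.ker) = (D.ker ⊔ P.ker).relIndex Y := by
    rw [← hYD, relIndex_map_map, sup_eq_left.mpr hFY, sup_comm]
  -- (iv) `#B[p] = #D(M[p]) * [B[p] : D(M[p])]`
  have e4 : Nat.card ↥(P.ker.map D) * (P.ker.map D).relIndex (D.range ⊓ P.ker)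
      = Nat.card ↥(D.range ⊓ P.ker) :=
    card_mul_relIndex_of_le (by rw [← hYD]; exact map_mono hPY)
  -- (v) `#M[p] = #F[p] * #D(M[p])`
  have e5 := card_eq_card_inf_ker_mul_card_map D P.ker
  rw [step_two_a D P hDP, ← e2, e5, ← e4, e3, e3', inf_comm P.ker D.ker]
  ring

end Index

section Comp

variable {A : Type*} [AddCommGroup A]

/-- `#ker (φ ∘ ψ) = #ker ψ * #(im ψ ∩ ker φ)`. -/
theorem card_ker_comp (φ ψ : A →+ A) :
    Nat.card ↥(φ.comp ψ).ker = Nat.card ↥ψ.ker * Nat.card ↥(ψ.range ⊓ φ.ker) := by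
  have h := card_eq_card_inf_ker_mul_card_map ψ (φ.comp ψ).ker
  have h1 : (φ.comp ψ).ker ⊓ ψ.ker = ψ.ker := by
    apply inf_eq_right.mpr
    intro x hx
    rw [AddMonoidHom.mem_ker] at hx ⊢
    rw [AddMonoidHom.comp_apply, hx, map_zero]
  have h2 : (φ.comp ψ).ker.map ψ = ψ.range ⊓ φ.ker := by
    ext y
    constructor
    · rintro ⟨x, hx, rfl⟩
      exact ⟨⟨x, rfl⟩, hx⟩
    · rintro ⟨⟨x, rfl⟩, hx⟩
      exact ⟨x, hx, rfl⟩
  rw [h, h1, h2]

/-- Multiplicativity of the pair (index of the image, order of the kernel), in a form valid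
without any finiteness assumption. -/
theorem index_card_comp (φ ψ : A →+ A) :
    (φ.comp ψ).range.index * Nat.card ↥φ.ker * Nat.card ↥ψ.ker
      = φ.range.index * ψ.range.index * Nat.card ↥(φ.comp ψ).ker := by
  have h1 : (φ.comp ψ).range.index = (ψ.range ⊔ φ.ker).index * φ.range.index := by
    rw [← AddMonoidHom.map_range, AddSubgroup.index_map]
  have h2 : ψ.range.relIndex φ.ker * (ψ.range ⊔ φ.ker).index = ψ.range.index := by
    rw [← relIndex_sup_left (K := ψ.range) (H := φ.ker)]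
    exact relIndex_mul_index le_sup_left
  have h3 : Nat.card ↥(ψ.range ⊓ φ.ker) * ψ.range.relIndex φ.ker = Nat.card ↥φ.ker := by
    rw [← inf_relIndex_right]
    exact card_mul_relIndex_of_le inf_le_right
  rw [h1, card_ker_comp, ← h2, ← h3]
  ring

/-- View an element of the endomorphism ring as an additive homomorphism. -/
def toHom (f : AddMonoid.End A) : A →+ A := f

@[simp] theorem toHom_apply (f : AddMonoid.End A) (x : A) : toHom f x = f x := rfl

theorem end_sum_apply {ι : Type*} (t : Finset ι) (f : ι → AddMonoid.End A) (x : A) :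
    (∑ i ∈ t, f i) x = ∑ i ∈ t, f i x := by
  classical
  induction t using Finset.induction_on with
  | empty => rfl
  | insert a t ha ih =>
    rw [Finset.sum_insert ha, Finset.sum_insert ha, ← ih]
    rfl

theorem range_le_of_eq_mul {a b c : AddMonoid.End A} (h : a = b * c) :
    (toHom a).range ≤ (toHom b).range := by
  rintro _ ⟨x, rfl⟩
  refine ⟨c x, ?_⟩
  rw [h]
  rfl

theorem ker_le_of_eq_mul {a b c : AddMonoid.End A} (h : a = c * b) :
    (toHom b).ker ≤ (toHom a).ker := by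
  intro x hx
  rw [AddMonoidHom.mem_ker] at hx ⊢
  rw [h]
  show c (b x) = 0
  rw [show b x = 0 from hx, map_zero]

/-- For `s ^ p = 1` and `p ∤ i`, the endomorphisms `1 - s ^ i` and `1 - s` have the same image
and the same kernel. -/
theorem one_sub_pow_range_ker (s : AddMonoid.End A) {p : ℕ} (hp : p.Prime) (hs : s ^ p = 1)
    {i : ℕ} (hi : ¬ p ∣ i) :
    (toHom (1 - s ^ i)).range = (toHom (1 - s)).range ∧
      (toHom (1 - s ^ i)).ker = (toHom (1 - s)).ker := by
  have hcop : Nat.Coprime i p := ((Nat.Prime.coprime_iff_not_dvd hp).mpr hi).symm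
  obtain ⟨j, -, hj⟩ := Nat.exists_mul_mod_eq_one_of_coprime hcop hp.one_lt
  have hij : s ^ (i * j) = s := by
    have h1 : i * j = p * (i * j / p) + 1 := by
      have := Nat.div_add_mod (i * j) p
      omega
    rw [h1, pow_succ, pow_mul, hs, one_pow, one_mul]
  have e1 : (1 - s ^ i : AddMonoid.End A) = (1 - s) * ∑ k ∈ Finset.range i, s ^ k :=
    (mul_neg_geom_sum s i).symm
  have e2 : (1 - s ^ i : AddMonoid.End A) = (∑ k ∈ Finset.range i, s ^ k) * (1 - s) :=
    (geom_sum_mul_neg s i).symm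
  have e3 : (1 - s : AddMonoid.End A) = (1 - s ^ i) * ∑ k ∈ Finset.range j, (s ^ i) ^ k := by
    rw [mul_neg_geom_sum, ← pow_mul, hij]
  have e4 : (1 - s : AddMonoid.End A) = (∑ k ∈ Finset.range j, (s ^ i) ^ k) * (1 - s ^ i) := by
    rw [geom_sum_mul_neg, ← pow_mul, hij]
  exact ⟨le_antisymm (range_le_of_eq_mul e1) (range_le_of_eq_mul e3),
    le_antisymm (ker_le_of_eq_mul e4) (ker_le_of_eq_mul e2)⟩

open Polynomial in
/-- `∏_{1 ≤ k < p} (1 - X^k) ≡ p` modulo `1 + X + ... + X^(p-1)`. -/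
theorem prod_one_sub_X_pow_eq (p : ℕ) (hp : p.Prime) :
    ∃ G : ℤ[X], ∏ k ∈ Finset.range (p - 1), (1 - X ^ (k + 1) : ℤ[X])
      = C (p : ℤ) + (∑ i ∈ Finset.range p, X ^ i) * G := by
  have : Fact p.Prime := ⟨hp⟩
  have hζ : IsPrimitiveRoot (Complex.exp (2 * Real.pi * Complex.I / p)) p :=
    Complex.isPrimitiveRoot_exp p hp.ne_zero
  set ζ := Complex.exp (2 * Real.pi * Complex.I / p) with hζdef
  have hζ' : IsPrimitiveRoot ζ ((p - 1) + 1) := by rwa [Nat.sub_add_cancel hp.one_le]
  have hprod := hζ'.prod_one_sub_pow_eq_order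
  have hcast : ((p - 1 : ℕ) : ℂ) + 1 = (p : ℂ) := by
    have := Nat.sub_add_cancel hp.one_le
    exact_mod_cast this
  have hroot : aeval ζ (∏ k ∈ Finset.range (p - 1), (1 - X ^ (k + 1) : ℤ[X]) - C (p : ℤ)) = 0 := by
    rw [map_sub, map_prod]
    simp only [map_sub, map_one, map_pow, aeval_X, aeval_C]
    rw [hprod, hcast]
    simp
  have hdvd := minpoly.isIntegrallyClosed_dvd (hζ.isIntegral hp.pos) hroot
  rw [← cyclotomic_eq_minpoly hζ hp.pos, cyclotomic_prime] at hdvd
  obtain ⟨G, hG⟩ := hdvd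
  exact ⟨G, by rw [← hG]; ring⟩

open Polynomial in
theorem step_three_aux (s : AddMonoid.End A) {p : ℕ} (hp : p.Prime) (hs : s ^ p = 1)
    (hk : Nat.card ↥(toHom (1 - s)).ker ≠ 0) (n : ℕ) (hn : n < p) :
    (toHom (aeval s (∏ k ∈ Finset.range n, (1 - X ^ (k + 1) : ℤ[X])))).range.index
        * Nat.card ↥(toHom (1 - s)).ker ^ n
      = (toHom (1 - s)).range.index ^ n
        * Nat.card ↥(toHom (aeval s (∏ k ∈ Finset.range n, (1 - X ^ (k + 1) : ℤ[X])))).ker
    ∧ Nat.card ↥(toHom (aeval s (∏ k ∈ Finset.range n, (1 - X ^ (k + 1) : ℤ[X])))).ker ≠ 0 := by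
  induction n with
  | zero =>
    have h1 : (toHom (1 : AddMonoid.End A)).range = ⊤ := by
      rw [eq_top_iff]
      intro x _
      exact ⟨x, rfl⟩
    have h2 : (toHom (1 : AddMonoid.End A)).ker = ⊥ := by
      rw [eq_bot_iff]
      intro x hx
      exact hx
    simp only [Finset.range_zero, Finset.prod_empty, map_one, pow_zero, mul_one, one_mul]
    rw [h1, h2]
    simp
  | succ n ih =>
    obtain ⟨ih1, ih2⟩ := ih (by omega)
    rw [Finset.prod_range_succ, map_mul]
    set φ := aeval s (∏ k ∈ Finset.range n, (1 - X ^ (k + 1) : ℤ[X])) with hφ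
    have hψ : aeval s (1 - X ^ (n + 1) : ℤ[X]) = 1 - s ^ (n + 1) := by simp
    rw [hψ]
    obtain ⟨hr, hker⟩ := one_sub_pow_range_ker s hp hs (i := n + 1)
      (Nat.not_dvd_of_pos_of_lt (Nat.succ_pos n) hn)
    have Q := index_card_comp (toHom φ) (toHom (1 - s ^ (n + 1)))
    have hcomp : (toHom φ).comp (toHom (1 - s ^ (n + 1))) = toHom (φ * (1 - s ^ (n + 1))) := rfl
    have hk2 : Nat.card ↥(toHom (φ * (1 - s ^ (n + 1)))).ker ≠ 0 := by
      rw [← hcomp, card_ker_comp, hker]
      exact mul_ne_zero hk (card_ne_zero_of_le inf_le_right ih2)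
    rw [hcomp, hr, hker] at Q
    refine ⟨?_, hk2⟩
    apply Nat.eq_of_mul_eq_mul_right (Nat.pos_of_ne_zero ih2)
    calc (toHom (φ * (1 - s ^ (n + 1)))).range.index * Nat.card ↥(toHom (1 - s)).ker ^ (n + 1)
          * Nat.card ↥(toHom φ).ker
        = (toHom (φ * (1 - s ^ (n + 1)))).range.index * Nat.card ↥(toHom φ).ker
          * Nat.card ↥(toHom (1 - s)).ker * Nat.card ↥(toHom (1 - s)).ker ^ n := by ring
      _ = (toHom φ).range.index * Nat.card ↥(toHom (1 - s)).ker ^ n
          * (toHom (1 - s)).range.index * Nat.card ↥(toHom (φ * (1 - s ^ (n + 1)))).ker := by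
          rw [Q]; ring
      _ = (toHom (1 - s)).range.index ^ (n + 1)
          * Nat.card ↥(toHom (φ * (1 - s ^ (n + 1)))).ker * Nat.card ↥(toHom φ).ker := by
          rw [ih1]; ring

open Polynomial in
/-- Step 3 of the `q`-lemma, on a group killed by the norm element: `p` and `(1 - s)^(p-1)`
have the same (index of image)/(order of kernel). -/
theorem step_three_type (s : AddMonoid.End A) {p : ℕ} (hp : p.Prime) (hs : s ^ p = 1)
    (hN : ∑ i ∈ Finset.range p, s ^ i = 0) (hk : Nat.card ↥(toHom (1 - s)).ker ≠ 0) :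
    (toHom (p : AddMonoid.End A)).range.index * Nat.card ↥(toHom (1 - s)).ker ^ (p - 1)
      = (toHom (1 - s)).range.index ^ (p - 1) * Nat.card ↥(toHom (p : AddMonoid.End A)).ker := by
  obtain ⟨G, hG⟩ := prod_one_sub_X_pow_eq p hp
  have h := (step_three_aux s hp hs hk (p - 1) (Nat.sub_lt hp.pos one_pos)).1
  have h2 : aeval s (∏ k ∈ Finset.range (p - 1), (1 - X ^ (k + 1) : ℤ[X]))
      = (p : AddMonoid.End A) := by
    rw [hG, map_add, map_mul, map_sum]
    simp [hN]
  rwa [h2] at h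

end Comp

section Main

variable {M : Type*} [AddCommGroup M]

theorem index_range_of_restrict (B : AddSubgroup M) (f : M →+ M) (f' : ↥B →+ ↥B)
    (h : ∀ x : ↥B, (f' x : M) = f x) : f'.range.index = (B.map f).relIndex B := by
  have h1 : f'.range = (B.map f).addSubgroupOf B := by
    ext x
    rw [AddSubgroup.mem_addSubgroupOf, AddMonoidHom.mem_range, AddSubgroup.mem_map]
    constructor
    · rintro ⟨y, rfl⟩
      exact ⟨y, y.2, (h y).symm⟩
    · rintro ⟨y, hy, hyx⟩
      exact ⟨⟨y, hy⟩, Subtype.ext ((h ⟨y, hy⟩).trans hyx)⟩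
  rw [h1]
  rfl

theorem card_ker_of_restrict (B : AddSubgroup M) (f : M →+ M) (f' : ↥B →+ ↥B)
    (h : ∀ x : ↥B, (f' x : M) = f x) : Nat.card ↥f'.ker = Nat.card ↥(B ⊓ f.ker) := by
  have h1 : f'.ker = (B ⊓ f.ker).addSubgroupOf B := by
    ext x
    rw [AddSubgroup.mem_addSubgroupOf, AddMonoidHom.mem_ker, AddSubgroup.mem_inf,
      AddMonoidHom.mem_ker, ← h x]
    constructor
    · intro hx
      exact ⟨x.2, by rw [hx]; rfl⟩
    · rintro ⟨_, hx⟩
      exact Subtype.ext hx
  rw [h1]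
  exact Nat.card_congr (AddSubgroup.addSubgroupOfEquivOfLe inf_le_left).toEquiv

/-- Step 3 of the `q`-lemma, for the subgroup `B = (1 - s) M`. -/
theorem step_three (s : AddMonoid.End M) {p : ℕ} (hp : p.Prime) (hs : s ^ p = 1)
    (hb0 : Nat.card ↥((toHom (1 - s)).range ⊓ (toHom (1 - s)).ker) ≠ 0) :
    (((toHom (1 - s)).range).map (toHom (p : AddMonoid.End M))).relIndex (toHom (1 - s)).range
        * Nat.card ↥((toHom (1 - s)).range ⊓ (toHom (1 - s)).ker) ^ (p - 1)
      = (((toHom (1 - s)).range).map (toHom (1 - s))).relIndex (toHom (1 - s)).range ^ (p - 1)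
        * Nat.card ↥((toHom (1 - s)).range ⊓ (toHom (p : AddMonoid.End M)).ker) := by
  set B : AddSubgroup M := (toHom (1 - s)).range with hB
  -- `B` is stable under `s`
  have hstab : ∀ x ∈ B, s x ∈ B := by
    rintro _ ⟨y, rfl⟩
    refine ⟨s y, ?_⟩
    show (1 - s) (s y) = s ((1 - s) y)
    have : (1 - s) * s = s * (1 - s) := by rw [sub_mul, mul_sub, one_mul, mul_one]
    exact DFunLike.congr_fun this y
  let s' : AddMonoid.End ↥B := ((toHom s).comp B.subtype).codRestrict B (fun x => hstab x x.2)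
  have hs'apply : ∀ x : ↥B, ((s' x : ↥B) : M) = s x := fun x => rfl
  have hpow : ∀ (n : ℕ) (x : ↥B), (((s' ^ n) x : ↥B) : M) = (s ^ n) x := by
    intro n
    induction n with
    | zero => intro x; rfl
    | succ n ih =>
      intro x
      rw [pow_succ, pow_succ]
      show (((s' ^ n) (s' x) : ↥B) : M) = (s ^ n) (s x)
      rw [ih (s' x), hs'apply]
  have hs' : s' ^ p = 1 := by
    ext x
    rw [hpow, hs]
    rfl
  have hsum : ∀ x : ↥B, (((∑ i ∈ Finset.range p, s' ^ i : AddMonoid.End ↥B) x : ↥B) : M)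
      = (∑ i ∈ Finset.range p, s ^ i : AddMonoid.End M) x := by
    intro x
    rw [end_sum_apply, end_sum_apply, AddSubgroup.val_finsetSum]
    exact Finset.sum_congr rfl fun i _ => hpow i x
  have hN' : ∑ i ∈ Finset.range p, s' ^ i = 0 := by
    ext x
    rw [hsum]
    obtain ⟨y, hy⟩ := x.2
    rw [← hy]
    show ((∑ i ∈ Finset.range p, s ^ i) * (1 - s)) y = 0
    rw [geom_sum_mul_neg, hs, sub_self]
    rfl
  have hD : ∀ x : ↥B, ((toHom (1 - s') x : ↥B) : M) = toHom (1 - s) (x : M) := fun x => rfl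
  have hP : ∀ x : ↥B, ((toHom (p : AddMonoid.End ↥B) x : ↥B) : M)
      = toHom (p : AddMonoid.End M) (x : M) := fun x => rfl
  have hk : Nat.card ↥(toHom (1 - s')).ker ≠ 0 := by
    rw [card_ker_of_restrict B _ _ hD]
    exact hb0
  have key := step_three_type s' hp hs' hN' hk
  rw [index_range_of_restrict B _ _ hP, index_range_of_restrict B _ _ hD,
    card_ker_of_restrict B _ _ hD, card_ker_of_restrict B _ _ hP] at key
  exact key

/-- **Artin–Tate `q`-lemma** for a cyclic group of prime order `p` acting on an abelian group `M`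
through `s` (`s ^ p = 1`).  With `D = 1 - s`, `N = 1 + s + ... + s^(p-1)`, `F = ker D`:
if `[M : pM]`, `#M[p]` and `[F : pF]` are finite (nonzero as indices/cardinals) then so are
`[F : N M]` and `[ker N : D M]`, and
`[F : N M]^(p-1) * [M : pM] * #F[p]^p = [ker N : D M]^(p-1) * [F : pF]^p * #M[p]`. -/
theorem artinTate_identity (s : AddMonoid.End M) {p : ℕ} (hp : p.Prime) (hs : s ^ p = 1)
    (hqM : (toHom (p : AddMonoid.End M)).range.index ≠ 0)
    (htM : Nat.card ↥(toHom (p : AddMonoid.End M)).ker ≠ 0)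
    (hqF : (((toHom (1 - s)).ker).map (toHom (p : AddMonoid.End M))).relIndex
      (toHom (1 - s)).ker ≠ 0) :
    (toHom (∑ i ∈ Finset.range p, s ^ i)).range.relIndex (toHom (1 - s)).ker ≠ 0 ∧
    (toHom (1 - s)).range.relIndex (toHom (∑ i ∈ Finset.range p, s ^ i)).ker ≠ 0 ∧
    (toHom (∑ i ∈ Finset.range p, s ^ i)).range.relIndex (toHom (1 - s)).ker ^ (p - 1)
        * (toHom (p : AddMonoid.End M)).range.index
        * Nat.card ↥((toHom (1 - s)).ker ⊓ (toHom (p : AddMonoid.End M)).ker) ^ p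
      = (toHom (1 - s)).range.relIndex (toHom (∑ i ∈ Finset.range p, s ^ i)).ker ^ (p - 1)
        * (((toHom (1 - s)).ker).map (toHom (p : AddMonoid.End M))).relIndex
            (toHom (1 - s)).ker ^ p
        * Nat.card ↥(toHom (p : AddMonoid.End M)).ker := by
  set D : M →+ M := toHom (1 - s) with hD
  set N : M →+ M := toHom (∑ i ∈ Finset.range p, s ^ i) with hN
  set P : M →+ M := toHom (p : AddMonoid.End M) with hP
  have hDN : ∀ x, D (N x) = 0 := by
    intro x
    show ((1 - s) * ∑ i ∈ Finset.range p, s ^ i) x = 0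
    rw [mul_neg_geom_sum, hs, sub_self]
    rfl
  have hND : ∀ x, N (D x) = 0 := by
    intro x
    show ((∑ i ∈ Finset.range p, s ^ i) * (1 - s)) x = 0
    rw [geom_sum_mul_neg, hs, sub_self]
    rfl
  have hfix : ∀ x, D x = 0 → ∀ i : ℕ, (s ^ i) x = x := by
    intro x hx i
    have hsx : s x = x := by
      have : x - s x = 0 := hx
      exact (sub_eq_zero.mp this).symm
    induction i with
    | zero => rfl
    | succ i ih =>
      rw [pow_succ]
      show (s ^ i) (s x) = x
      rw [hsx, ih]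
  have hNP : ∀ x, D x = 0 → N x = P x := by
    intro x hx
    show (∑ i ∈ Finset.range p, s ^ i) x = p • x
    rw [end_sum_apply, Finset.sum_congr rfl fun i _ => hfix x hx i, Finset.sum_const,
      Finset.card_range]
  have hDP : ∀ x, D (P x) = P (D x) := by
    intro x
    show D (p • x) = p • D x
    rw [map_nsmul]
  have hBN : D.range ≤ N.ker := by
    rintro _ ⟨x, rfl⟩
    exact hND x
  have S1 := step_one D N P hDN hND hNP
  have S2 := step_two D P hDP
  have S2a := step_two_a D P hDP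
  -- nonvanishing
  have htF : Nat.card ↥(D.ker ⊓ P.ker) ≠ 0 := card_ne_zero_of_le inf_le_right htM
  have htB : Nat.card ↥(D.range ⊓ P.ker) ≠ 0 := card_ne_zero_of_le inf_le_right htM
  have hb0 : Nat.card ↥(D.range ⊓ D.ker) ≠ 0 := by
    refine card_ne_zero_of_le ?_ htM
    rintro x ⟨hx1, hx2⟩
    have h1 : N x = 0 := hBN hx1
    have h2 : D x = 0 := hx2
    show P x = 0
    rw [← hNP x h2, h1]
  have S3 := step_three s hp hs hb0
  rw [← hD, ← hP] at S3
  have hqB : (D.range.map P).relIndex D.range ≠ 0 := by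
    intro h0
    apply hqM
    rw [S2a, h0, zero_mul]
  have hp1 : p - 1 ≠ 0 := by have := hp.two_le; omega
  have hb1 : (D.range.map D).relIndex D.range ≠ 0 := by
    intro h0
    rw [h0, zero_pow hp1, zero_mul] at S3
    exact (mul_ne_zero hqB (pow_ne_zero _ hb0)) S3
  have ha0 : N.range.relIndex D.ker ≠ 0 := by
    intro h0
    apply hqF
    have hle : D.ker.map P ≤ N.range := by
      rintro _ ⟨x, hx, rfl⟩
      exact ⟨x, hNP x hx⟩
    exact Nat.eq_zero_of_zero_dvd (h0 ▸ relIndex_dvd_of_le_left D.ker hle)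
  have ha1 : D.range.relIndex N.ker ≠ 0 := by
    intro h0
    rw [h0, mul_zero, zero_mul] at S1
    exact (mul_ne_zero (mul_ne_zero hb1 ha0) htF) S1
  refine ⟨ha0, ha1, ?_⟩
  have hcancel : (D.range.map D).relIndex D.range ^ (p - 1) * Nat.card ↥(D.range ⊓ P.ker) ≠ 0 :=
    mul_ne_zero (pow_ne_zero _ hb1) htB
  apply Nat.eq_of_mul_eq_mul_right (Nat.pos_of_ne_zero hcancel)
  have hpp : p = (p - 1) + 1 := by have := hp.two_le; omega
  set a0 := N.range.relIndex D.ker
  set a1 := D.range.relIndex N.ker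
  set qM := P.range.index
  set tM := Nat.card ↥P.ker
  set qF := (D.ker.map P).relIndex D.ker
  set tF := Nat.card ↥(D.ker ⊓ P.ker)
  set qB := (D.range.map P).relIndex D.range
  set tB := Nat.card ↥(D.range ⊓ P.ker)
  set b0 := Nat.card ↥(D.range ⊓ D.ker)
  set b1 := (D.range.map D).relIndex D.range
  calc a0 ^ (p - 1) * qM * tF ^ p * (b1 ^ (p - 1) * tB)
      = a0 ^ (p - 1) * qM * tF ^ ((p - 1) + 1) * (b1 ^ (p - 1) * tB) := by rw [← hpp]
    _ = (b1 * a0 * tF) ^ (p - 1) * (qM * tB * tF) := by ring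
    _ = (qF * a1 * b0) ^ (p - 1) * (qB * qF * tM) := by rw [S1, S2]
    _ = a1 ^ (p - 1) * qF ^ ((p - 1) + 1) * tM * (qB * b0 ^ (p - 1)) := by ring
    _ = a1 ^ (p - 1) * qF ^ p * tM * (b1 ^ (p - 1) * tB) := by rw [S3, ← hpp]

end Main

section Hilbert90

variable {K L : Type*} [Field K] [Field L] [Algebra K L] [FiniteDimensional K L]

open groupCohomology in
/-- Hilbert's Theorem 90 for a cyclic extension (universe polymorphic; deduced from Noether's
form): if `σ` generates `Gal(L/K)` and `∏_{k < ord σ} σ^k u = 1` then `u = σ y / y`. -/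
theorem hilbert90_cyclic (σ : L ≃ₐ[K] L) (hσ : ∀ τ : L ≃ₐ[K] L, ∃ m : ℕ, σ ^ m = τ)
    (u : Lˣ) (hu : ∏ k ∈ Finset.range (orderOf σ), (σ ^ k) • u = 1) :
    ∃ y : Lˣ, σ • y / y = u := by
  set F : ℕ → Lˣ := fun m => ∏ k ∈ Finset.range m, (σ ^ k) • u with hF
  have hadd : ∀ a b, F (a + b) = F a * (σ ^ a) • F b := by
    intro a b
    simp only [hF]
    rw [Finset.prod_range_add, Finset.smul_prod']
    congr 1
    apply Finset.prod_congr rfl
    intro k _
    rw [pow_add, mul_smul]
  have hmul : ∀ q, F (orderOf σ * q) = 1 := by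
    intro q
    induction q with
    | zero => simp [hF]
    | succ q ih =>
      rw [Nat.mul_succ, hadd, ih, show F (orderOf σ) = 1 from hu, smul_one, mul_one]
  have hmod : ∀ m, F m = F (m % orderOf σ) := by
    intro m
    conv_lhs => rw [← Nat.div_add_mod m (orderOf σ)]
    rw [hadd, hmul, one_mul, pow_mul, pow_orderOf_eq_one, one_pow, one_smul]
  have hwd : ∀ a b, σ ^ a = σ ^ b → F a = F b := by
    intro a b hab
    rw [pow_eq_pow_iff_modEq] at hab
    rw [hmod a, hmod b, hab]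
  let f : (L ≃ₐ[K] L) → Lˣ := fun τ => F (Classical.choose (hσ τ))
  have hf : ∀ m, f (σ ^ m) = F m := fun m => hwd _ _ (Classical.choose_spec (hσ (σ ^ m)))
  have hcoc : IsMulCocycle₁ f := by
    intro g h
    obtain ⟨a, rfl⟩ := hσ g
    obtain ⟨b, rfl⟩ := hσ h
    rw [← pow_add, hf, hf, hf, hadd, mul_comm]
  obtain ⟨y, hy⟩ := isMulCoboundary₁_of_isMulCocycle₁_of_aut_to_units f hcoc
  refine ⟨y, ?_⟩
  have h1 := hy σ
  have h2 : f σ = u := by
    have := hf 1
    rw [pow_one] at this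
    rw [this]
    show ∏ k ∈ Finset.range 1, (σ ^ k) • u = u
    rw [Finset.prod_range_one, pow_zero, one_smul]
  rw [h1, h2]

end Hilbert90

section NormIndex

variable {K L : Type*} [Field K] [Field L] [Algebra K L]

/-- The action of a Galois automorphism on `Lˣ`, as an element of the endomorphism ring of
`Additive Lˣ`. -/
noncomputable def galEnd (σ : L ≃ₐ[K] L) : AddMonoid.End (Additive Lˣ) :=
  MonoidHom.toAdditive (MulDistribMulAction.toMonoidHom Lˣ σ)

theorem galEnd_apply (σ : L ≃ₐ[K] L) (x : Additive Lˣ) :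
    galEnd σ x = Additive.ofMul (σ • Additive.toMul x) := rfl

theorem galEnd_pow (σ : L ≃ₐ[K] L) (i : ℕ) : galEnd σ ^ i = galEnd (σ ^ i) := by
  induction i with
  | zero =>
    ext x
    rw [pow_zero, pow_zero, galEnd_apply, one_smul]
    rfl
  | succ i ih =>
    rw [pow_succ, ih, pow_succ]
    refine DFunLike.ext _ _ fun x => ?_
    show galEnd (σ ^ i) (galEnd σ x) = galEnd (σ ^ i * σ) x
    rw [galEnd_apply, galEnd_apply, galEnd_apply, mul_smul]
    rfl

/-- **Local norm index in prime degree from the `p`-th power index.**  `L/K` Galois of prime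
degree `p`; if `#(Kˣ/Kˣᵖ) = p * #μ_p(K) * c` and `#(Lˣ/Lˣᵖ) = p * #μ_p(L) * c ^ p` with `0 < c`
(for a finite extension `K` of `ℚ_l`: `c = p ^ [K : ℚ_l]` if `l = p` and `c = 1` otherwise), then
the norm subgroup of `Kˣ` has index exactly `p`. -/
theorem norm_index_eq_prime [IsGalois K L] {p : ℕ} (hp : p.Prime)
    (hdeg : Module.finrank K L = p) {c : ℕ} (hc : 0 < c)
    (hK : Nat.card (Kˣ ⧸ (powMonoidHom p : Kˣ →* Kˣ).range)
      = p * Nat.card (rootsOfUnity p K) * c)
    (hL : Nat.card (Lˣ ⧸ (powMonoidHom p : Lˣ →* Lˣ).range)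
      = p * Nat.card (rootsOfUnity p L) * c ^ p) :
    (Units.map (Algebra.norm K : L →* K)).range.index = p := by
  classical
  have hfin : FiniteDimensional K L :=
    Module.finite_of_finrank_pos (by rw [hdeg]; exact hp.pos)
  have hcard : Nat.card (L ≃ₐ[K] L) = p := by rw [IsGalois.card_aut_eq_finrank, hdeg]
  have hFact : Fact p.Prime := ⟨hp⟩
  have hNeZero : NeZero p := ⟨hp.ne_zero⟩
  obtain ⟨σ, hσ1⟩ : ∃ σ : L ≃ₐ[K] L, σ ≠ 1 := by
    have hnt : Nontrivial (L ≃ₐ[K] L) := by
      apply (Finite.one_lt_card_iff_nontrivial).mp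
      rw [hcard]
      exact hp.one_lt
    exact exists_ne 1
  have hgen : ∀ τ : L ≃ₐ[K] L, ∃ m : ℕ, σ ^ m = τ := fun τ =>
    (Submonoid.mem_powers_iff _ _).mp (mem_powers_of_prime_card hcard hσ1)
  have hσp : σ ^ p = 1 := by
    rw [← hcard]
    exact pow_card_eq_one'
  have hord : orderOf σ = p := orderOf_eq_prime hσp hσ1
  -- the homomorphisms involved
  set ι : Kˣ →* Lˣ := Units.map (algebraMap K L : K →* L) with hι
  set normU : Lˣ →* Kˣ := Units.map (Algebra.norm K : L →* K) with hnormU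
  set powK : Kˣ →* Kˣ := powMonoidHom p with hpowK
  set powL : Lˣ →* Lˣ := powMonoidHom p with hpowL
  have hιinj : Function.Injective ι := by
    intro a b hab
    apply Units.ext
    apply (algebraMap K L).injective
    exact congrArg Units.val hab
  have hιpow : ∀ k : Kˣ, ι (k ^ p) = ι k ^ p := fun k => map_pow ι k p
  set s : AddMonoid.End (Additive Lˣ) := galEnd σ with hs_def
  have hs : s ^ p = 1 := by
    rw [galEnd_pow, hσp]
    ext x
    rw [galEnd_apply, one_smul]
    rfl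
  set D : Additive Lˣ →+ Additive Lˣ := toHom (1 - s) with hD
  set N : Additive Lˣ →+ Additive Lˣ := toHom (∑ i ∈ Finset.range p, s ^ i) with hN
  set P : Additive Lˣ →+ Additive Lˣ := toHom (p : AddMonoid.End (Additive Lˣ)) with hP
  have hDapply : ∀ x : Additive Lˣ,
      D x = Additive.ofMul (Additive.toMul x / σ • Additive.toMul x) := fun x => rfl
  have hPapply : ∀ x : Additive Lˣ, P x = Additive.ofMul (Additive.toMul x ^ p) := fun x => rfl
  -- the norm as a product over powers of `σ`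
  have hinj : ∀ a ∈ Finset.range p, ∀ b ∈ Finset.range p, σ ^ a = σ ^ b → a = b := by
    intro a ha b hb hab
    refine pow_injOn_Iio_orderOf ?_ ?_ hab
    · rw [hord]; exact Finset.mem_range.mp ha
    · rw [hord]; exact Finset.mem_range.mp hb
  have himg : (Finset.range p).image (fun i : ℕ => σ ^ i) = Finset.univ := by
    apply Finset.eq_univ_of_forall
    intro τ
    obtain ⟨m, hm⟩ := hgen τ
    refine Finset.mem_image.mpr ⟨m % p, Finset.mem_range.mpr (Nat.mod_lt _ hp.pos), ?_⟩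
    show σ ^ (m % p) = τ
    rw [← hm, ← hord, pow_mod_orderOf]
  have hnorm : ∀ u : Lˣ, ∏ i ∈ Finset.range p, (σ ^ i) • u = ι (normU u) := by
    intro u
    apply Units.ext
    rw [Units.coe_prod]
    show ∏ i ∈ Finset.range p, (σ ^ i) (u : L) = algebraMap K L (Algebra.norm K (u : L))
    rw [Algebra.norm_eq_prod_automorphisms, ← himg, Finset.prod_image hinj]
  have hNapply : ∀ x : Additive Lˣ, N x = Additive.ofMul (ι (normU (Additive.toMul x))) := by
    intro x
    show (∑ i ∈ Finset.range p, s ^ i) x = _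
    rw [end_sum_apply, ← hnorm, ofMul_prod]
    refine Finset.sum_congr rfl fun i _ => ?_
    rw [galEnd_pow]
    rfl
  -- fixed points
  have hfixed : ∀ u : Lˣ, σ • u = u ↔ u ∈ ι.range := by
    intro u
    constructor
    · intro hu
      have hu' : σ (u : L) = u := congrArg Units.val hu
      have hall : ∀ τ : L ≃ₐ[K] L, τ (u : L) = u := by
        intro τ
        obtain ⟨m, rfl⟩ := hgen τ
        induction m with
        | zero => rfl
        | succ m ih =>
          rw [pow_succ, AlgEquiv.mul_apply, hu', ih]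
      obtain ⟨k, hk⟩ := (IsGalois.mem_range_algebraMap_iff_fixed (F := K) (u : L)).mpr hall
      have hk0 : k ≠ 0 := by
        rintro rfl
        rw [map_zero] at hk
        exact u.ne_zero hk.symm
      exact ⟨Units.mk0 k hk0, Units.ext hk⟩
    · rintro ⟨k, rfl⟩
      apply Units.ext
      show σ (algebraMap K L (k : K)) = algebraMap K L (k : K)
      exact σ.commutes _
  -- identification of the subgroups
  have hI1 : D.ker = Subgroup.toAddSubgroup ι.range := by
    ext x
    show D x = 0 ↔ Additive.toMul x ∈ ι.range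
    rw [← hfixed, hDapply]
    show Additive.toMul x / σ • Additive.toMul x = 1 ↔ _
    rw [div_eq_one]
    exact eq_comm
  have hI2 : N.range = Subgroup.toAddSubgroup (normU.range.map ι) := by
    ext x
    constructor
    · rintro ⟨y, rfl⟩
      rw [hNapply]
      exact ⟨normU (Additive.toMul y), ⟨Additive.toMul y, rfl⟩, rfl⟩
    · rintro ⟨_, ⟨y, rfl⟩, hy⟩
      exact ⟨Additive.ofMul y, by rw [hNapply]; exact congrArg Additive.ofMul hy⟩
  have hI3 : D.ker.map P = Subgroup.toAddSubgroup (powK.range.map ι) := by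
    rw [hI1]
    ext x
    constructor
    · rintro ⟨_, ⟨k, rfl⟩, rfl⟩
      exact ⟨k ^ p, ⟨k, rfl⟩, hιpow k⟩
    · rintro ⟨_, ⟨k, rfl⟩, hk⟩
      refine ⟨Additive.ofMul (ι k), ⟨k, rfl⟩, ?_⟩
      rw [hPapply]
      exact congrArg Additive.ofMul ((hιpow k).symm.trans hk)
  have hI4 : P.range = Subgroup.toAddSubgroup powL.range := by
    ext x
    constructor
    · rintro ⟨y, rfl⟩
      exact ⟨Additive.toMul y, rfl⟩
    · rintro ⟨y, hy⟩
      exact ⟨Additive.ofMul y, congrArg Additive.ofMul hy⟩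
  have hI5 : P.ker = Subgroup.toAddSubgroup powL.ker := by
    ext x
    rfl
  have hI6 : D.ker ⊓ P.ker = Subgroup.toAddSubgroup (powK.ker.map ι) := by
    rw [hI1, hI5]
    ext x
    constructor
    · rintro ⟨⟨k, hk⟩, hx⟩
      refine ⟨k, ?_, hk⟩
      show powK k = 1
      apply hιinj
      rw [map_one]
      show ι (k ^ p) = 1
      rw [hιpow, hk]
      exact hx
    · rintro ⟨k, hk, hkx⟩
      refine ⟨⟨k, hkx⟩, ?_⟩
      show Additive.toMul x ^ p = 1
      rw [← hkx, ← hιpow]
      have : k ^ p = 1 := hk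
      rw [this, map_one]
  have hI7 : N.ker ≤ D.range := by
    intro x hx
    have hx1 : ι (normU (Additive.toMul x)) = 1 := by
      have : N x = 0 := hx
      rw [hNapply] at this
      exact this
    have hu : ∏ k ∈ Finset.range (orderOf σ), (σ ^ k) • Additive.toMul x = 1 := by
      rw [hord, hnorm, hx1]
    obtain ⟨y, hy⟩ := hilbert90_cyclic σ hgen (Additive.toMul x) hu
    refine ⟨Additive.ofMul y⁻¹, ?_⟩
    rw [hDapply]
    show Additive.ofMul (y⁻¹ / σ • y⁻¹) = x
    rw [smul_inv', inv_div_inv, hy]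
    rfl
  -- cardinalities
  have hμK : Nat.card (rootsOfUnity p K) ≠ 0 := Nat.card_pos.ne'
  have hμL : Nat.card (rootsOfUnity p L) ≠ 0 := Nat.card_pos.ne'
  have hkerK : (powK.ker : Subgroup Kˣ) = rootsOfUnity p K := by
    ext ζ
    rfl
  have hkerL : (powL.ker : Subgroup Lˣ) = rootsOfUnity p L := by
    ext ζ
    rfl
  have hqM : P.range.index = p * Nat.card (rootsOfUnity p L) * c ^ p := by
    rw [hI4, ← hL]
    exact Subgroup.index_eq_card powL.range
  have htM : Nat.card ↥P.ker = Nat.card (rootsOfUnity p L) := by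
    rw [hI5, ← hkerL]
    rfl
  have hqF : (D.ker.map P).relIndex D.ker = p * Nat.card (rootsOfUnity p K) * c := by
    rw [hI3, hI1, ← hK]
    show (powK.range.map ι).relIndex ι.range = _
    rw [MonoidHom.range_eq_map ι, Subgroup.relIndex_map_map_of_injective _ _ hιinj,
      Subgroup.relIndex_top_right]
    exact Subgroup.index_eq_card powK.range
  have htF : Nat.card ↥(D.ker ⊓ P.ker) = Nat.card (rootsOfUnity p K) := by
    rw [hI6, ← hkerK]
    exact Nat.card_congr (Subgroup.equivMapOfInjective powK.ker ι hιinj).symm.toEquiv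
  have ha0 : N.range.relIndex D.ker = normU.range.index := by
    rw [hI2, hI1]
    show (normU.range.map ι).relIndex ι.range = _
    rw [MonoidHom.range_eq_map ι, Subgroup.relIndex_map_map_of_injective _ _ hιinj,
      Subgroup.relIndex_top_right]
  have ha1 : D.range.relIndex N.ker = 1 := AddSubgroup.relIndex_eq_one.mpr hI7
  have hcpos : c ≠ 0 := hc.ne'
  obtain ⟨-, -, E⟩ := artinTate_identity s hp hs
    (by rw [← hP, hqM]; exact mul_ne_zero (mul_ne_zero hp.ne_zero hμL) (pow_ne_zero _ hcpos))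
    (by rw [← hP, htM]; exact hμL)
    (by rw [← hP, ← hD, hqF]; exact mul_ne_zero (mul_ne_zero hp.ne_zero hμK) hcpos)
  rw [← hP, ← hD, ← hN, ha0, ha1, hqM, htM, hqF, htF, one_pow, one_mul] at E
  -- `idx^(p-1) * (p * μL * c^p) * μK^p = (p * μK * c)^p * μL`
  have hpp : p = (p - 1) + 1 := by have := hp.two_le; omega
  have hE : normU.range.index ^ (p - 1)
      * (p * Nat.card (rootsOfUnity p L) * c ^ p * Nat.card (rootsOfUnity p K) ^ p)
      = p ^ (p - 1) * (p * Nat.card (rootsOfUnity p L) * c ^ p * Nat.card (rootsOfUnity p K) ^ p) := by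
    calc normU.range.index ^ (p - 1)
          * (p * Nat.card (rootsOfUnity p L) * c ^ p * Nat.card (rootsOfUnity p K) ^ p)
        = normU.range.index ^ (p - 1) * (p * Nat.card (rootsOfUnity p L) * c ^ p)
          * Nat.card (rootsOfUnity p K) ^ p := by ring
      _ = (p * Nat.card (rootsOfUnity p K) * c) ^ p * Nat.card (rootsOfUnity p L) := E
      _ = p ^ p * (Nat.card (rootsOfUnity p L) * c ^ p * Nat.card (rootsOfUnity p K) ^ p) := by
          ring
      _ = p ^ ((p - 1) + 1)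
          * (Nat.card (rootsOfUnity p L) * c ^ p * Nat.card (rootsOfUnity p K) ^ p) := by
          rw [← hpp]
      _ = p ^ (p - 1)
          * (p * Nat.card (rootsOfUnity p L) * c ^ p * Nat.card (rootsOfUnity p K) ^ p) := by
          ring
  have hne : p * Nat.card (rootsOfUnity p L) * c ^ p * Nat.card (rootsOfUnity p K) ^ p ≠ 0 :=
    mul_ne_zero (mul_ne_zero (mul_ne_zero hp.ne_zero hμL) (pow_ne_zero _ hcpos))
      (pow_ne_zero _ hμK)
  have hpow := Nat.eq_of_mul_eq_mul_right (Nat.pos_of_ne_zero hne) hE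
  have hp1 : p - 1 ≠ 0 := by have := hp.two_le; omega
  exact Nat.pow_left_injective hp1 hpow

end NormIndex

end Fermat.Agent.S55.helper3225
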