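/-
S55 / leaf NF-LOCNORM (helper3550): completion-free local norm index at the places of a
number field.  Vocabulary of the S14 CFT modules (no completions):

* `F`, `E` number fields, `E / F` of degree `p` (prime); `normHom F E : Eˣ →* Fˣ`;
* `LocNorm F E v b` : `b` is a norm from `E ⊗ F_v`, stated by approximation
  (`∀ N, ∃ y : Eˣ, v (b / N y - 1) ≤ exp (-N)`);
* `locNormSubgroup F E v`, `locNormS F E S = ⨅ v ∈ S, locNormSubgroup F E v`.

Main result (Q): if at every non-split place `v ∈ S` some element of `Fˣ` is not a local norm,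
then `p ^ #{v ∈ S | v non-split}` divides the index of `locNormS F E S` in `Fˣ`
(`pow_card_nonsplit_dvd_index`; the index is `0` when infinite), hence is `≤` it when the index
is finite (`pow_card_nonsplit_le_index`), which is the case as soon as `F` contains a primitive
`p`-th root of unity (`index_locNormS_ne_zero`).
-/
import Mathlib
import Fermat.Agent.S14.helper1892_M6Defs
import Fermat.Agent.S14.helper4204_LocalPow
import Fermat.Agent.S14.helper165_FirstIneqSpec

set_option autoImplicit false
set_option linter.unusedSectionVars false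

open IsDedekindDomain NumberField WithZero

namespace Fermat.Agent.S55.helper3550

open Fermat.Agent.S14.helper1892 (LocPow LocPowN locPowSubgroup locPowS)
open Fermat.Agent.S14.helper165 (normHom Split)

noncomputable section

/-! ## Multiplicative closeness at a place -/

section Close

variable {F : Type*} [Field F] [NumberField F] (v : HeightOneSpectrum (𝓞 F))

/-- If `t ≡ 1` to precision `N` then `v t ≤ 1`. -/
theorem val_le_one_of_sub_one_le {N : ℕ} {t : F}
    (h : v.valuation F (t - 1) ≤ exp (-(N : ℤ))) : v.valuation F t ≤ 1 := by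
  have h1 : v.valuation F (t - 1) ≤ 1 := by
    refine h.trans ?_
    rw [← exp_zero, exp_le_exp]
    omega
  have : t = (t - 1) + 1 := by ring
  rw [this]
  exact (Valuation.map_add_le _ h1 (by simp))

/-- Closeness is multiplicative. -/
theorem close_mul {N : ℕ} {s t : F}
    (hs : v.valuation F (s - 1) ≤ exp (-(N : ℤ))) (ht : v.valuation F (t - 1) ≤ exp (-(N : ℤ))) :
    v.valuation F (s * t - 1) ≤ exp (-(N : ℤ)) := by
  have key : s * t - 1 = (s - 1) * t + (t - 1) := by ring
  rw [key]
  refine Valuation.map_add_le _ ?_ ht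
  rw [map_mul]
  calc v.valuation F (s - 1) * v.valuation F t ≤ exp (-(N : ℤ)) * 1 :=
        mul_le_mul' hs (val_le_one_of_sub_one_le v ht)
    _ = exp (-(N : ℤ)) := mul_one _

/-- Closeness passes to inverses (precision at least `1`). -/
theorem close_inv {N : ℕ} {t : F}
    (ht : v.valuation F (t - 1) ≤ exp (-((N + 1 : ℕ) : ℤ))) :
    v.valuation F (t⁻¹ - 1) ≤ exp (-((N + 1 : ℕ) : ℤ)) := by
  have h1 : v.valuation F t = 1 :=
    Fermat.Agent.S14.helper1892.val_eq_one_of_sub_one_lt v
      (lt_of_le_of_lt ht (Fermat.Agent.S14.helper1892.exp_neg_succ_lt_one N))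
  have ht0 : t ≠ 0 := by
    rintro rfl
    rw [map_zero] at h1
    exact zero_ne_one h1
  have key : t⁻¹ - 1 = -(t - 1) * t⁻¹ := by
    field_simp
    ring
  rw [key, map_mul, map_inv₀, h1, inv_one, mul_one, Valuation.map_neg]
  exact ht

end Close

/-! ## Local norms, completion-free -/

section Defs

variable (F E : Type) [Field F] [NumberField F] [Field E] [NumberField E] [Algebra F E]

/-- `b` is a norm from `E` at the place `v` to precision `N`. -/
def LocNormN (v : HeightOneSpectrum (𝓞 F)) (N : ℕ) (b : Fˣ) : Prop :=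
  ∃ y : Eˣ, v.valuation F ((b : F) / (normHom F E y : F) - 1) ≤ WithZero.exp (-(N : ℤ))

/-- Completion-free version of "`b` is a norm from `E ⊗ F_v`". -/
def LocNorm (v : HeightOneSpectrum (𝓞 F)) (b : Fˣ) : Prop :=
  ∀ N : ℕ, LocNormN F E v N b

variable {F E}

theorem LocNormN.mono {v : HeightOneSpectrum (𝓞 F)} {N N' : ℕ} (h : N ≤ N') {b : Fˣ}
    (hb : LocNormN F E v N' b) : LocNormN F E v N b := by
  obtain ⟨y, hy⟩ := hb
  refine ⟨y, hy.trans ?_⟩
  rw [WithZero.exp_le_exp]
  omega

theorem locNorm_one (v : HeightOneSpectrum (𝓞 F)) : LocNorm F E v (1 : Fˣ) := by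
  intro N
  exact ⟨1, by simp⟩

/-- Global norms are local norms. -/
theorem locNorm_norm (v : HeightOneSpectrum (𝓞 F)) (y : Eˣ) : LocNorm F E v (normHom F E y) := by
  intro N
  refine ⟨y, ?_⟩
  rw [div_self (Units.ne_zero _), sub_self, map_zero]
  exact zero_le

theorem locNorm_mul {v : HeightOneSpectrum (𝓞 F)} {b b' : Fˣ}
    (hb : LocNorm F E v b) (hb' : LocNorm F E v b') : LocNorm F E v (b * b') := by
  intro N
  obtain ⟨y, hy⟩ := hb N
  obtain ⟨y', hy'⟩ := hb' N
  refine ⟨y * y', ?_⟩
  have key : ((b * b' : Fˣ) : F) / ((normHom F E (y * y') : Fˣ) : F)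
      = ((b : F) / (normHom F E y : F)) * ((b' : F) / (normHom F E y' : F)) := by
    rw [map_mul]
    push_cast
    rw [mul_div_mul_comm]
  rw [key]
  exact close_mul v hy hy'

theorem locNorm_inv {v : HeightOneSpectrum (𝓞 F)} {b : Fˣ}
    (hb : LocNorm F E v b) : LocNorm F E v b⁻¹ := by
  intro N
  obtain ⟨y, hy⟩ := hb (N + 1)
  refine LocNormN.mono (Nat.le_succ N) ⟨y⁻¹, ?_⟩
  have key : ((b⁻¹ : Fˣ) : F) / ((normHom F E y⁻¹ : Fˣ) : F)
      = ((b : F) / (normHom F E y : F))⁻¹ := by
    rw [map_inv]
    push_cast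
    rw [inv_div_inv, inv_div]
  rw [key]
  exact close_inv v hy

variable (F E)

/-- The subgroup of `Fˣ` of local norms from `E` at `v` (completion-free). -/
def locNormSubgroup (v : HeightOneSpectrum (𝓞 F)) : Subgroup Fˣ where
  carrier := {b | LocNorm F E v b}
  mul_mem' := fun hb hb' => locNorm_mul hb hb'
  one_mem' := locNorm_one v
  inv_mem' := fun hb => locNorm_inv hb

variable {F E} in
@[simp] theorem mem_locNormSubgroup {v : HeightOneSpectrum (𝓞 F)} {b : Fˣ} :
    b ∈ locNormSubgroup F E v ↔ LocNorm F E v b := Iff.rfl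

/-- Elements of `Fˣ` which are local norms at every place of the finite set `S`. -/
def locNormS (S : Finset (HeightOneSpectrum (𝓞 F))) : Subgroup Fˣ :=
  ⨅ v ∈ S, locNormSubgroup F E v

variable {F E} in
theorem mem_locNormS {S : Finset (HeightOneSpectrum (𝓞 F))} {b : Fˣ} :
    b ∈ locNormS F E S ↔ ∀ v ∈ S, LocNorm F E v b := by
  simp [locNormS, Subgroup.mem_iInf]

theorem range_normHom_le_locNormSubgroup (v : HeightOneSpectrum (𝓞 F)) :
    (normHom F E).range ≤ locNormSubgroup F E v := by
  rintro _ ⟨y, rfl⟩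
  exact locNorm_norm v y

theorem range_normHom_le_locNormS (S : Finset (HeightOneSpectrum (𝓞 F))) :
    (normHom F E).range ≤ locNormS F E S := by
  intro b hb
  exact mem_locNormS.2 fun v _ => range_normHom_le_locNormSubgroup F E v hb

end Defs

/-! ## Local `p`-th powers are local norms -/

section Pow

variable {F E : Type} [Field F] [NumberField F] [Field E] [NumberField E] [Algebra F E]

/-- The norm of an element of `F` is its `[E:F]`-th power. -/
theorem normHom_map_algebraMap (y : Fˣ) :
    normHom F E (Units.map (algebraMap F E : F →* E) y) = y ^ Module.finrank F E := by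
  apply Units.ext
  show Algebra.norm F (algebraMap F E (y : F)) = ((y ^ Module.finrank F E : Fˣ) : F)
  rw [Algebra.norm_algebraMap, Units.val_pow_eq_pow_val]

theorem locNorm_of_locPow {p : ℕ} (hdeg : Module.finrank F E = p)
    {v : HeightOneSpectrum (𝓞 F)} {b : Fˣ} (hb : LocPow p v b) : LocNorm F E v b := by
  intro N
  obtain ⟨y, hy⟩ := hb N
  refine ⟨Units.map (algebraMap F E : F →* E) y, ?_⟩
  rw [normHom_map_algebraMap, hdeg, Units.val_pow_eq_pow_val]
  exact hy

theorem locPowSubgroup_le_locNormSubgroup {p : ℕ} (hdeg : Module.finrank F E = p)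
    (v : HeightOneSpectrum (𝓞 F)) : locPowSubgroup p v ≤ locNormSubgroup F E v :=
  fun _ hb => locNorm_of_locPow hdeg hb

theorem locPowS_le_locNormS {p : ℕ} (hdeg : Module.finrank F E = p)
    (S : Finset (HeightOneSpectrum (𝓞 F))) : locPowS p S ≤ locNormS F E S := by
  intro b hb
  rw [Fermat.Agent.S14.helper1892.mem_locPowS] at hb
  exact mem_locNormS.2 fun v hv => locNorm_of_locPow hdeg (hb v hv)

/-- `p`-th powers are local norms. -/
theorem pow_mem_locNormSubgroup {p : ℕ} (hdeg : Module.finrank F E = p)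
    (v : HeightOneSpectrum (𝓞 F)) (x : Fˣ) : x ^ p ∈ locNormSubgroup F E v :=
  locNorm_of_locPow hdeg (Fermat.Agent.S14.helper1892.locPow_pow p v x)

/-- **Openness**: an element close to `1` at `v` is a local norm. -/
theorem locNorm_of_valuation_sub_one_le {p : ℕ} (hp : p.Prime) (hdeg : Module.finrank F E = p)
    {v : HeightOneSpectrum (𝓞 F)} {N : ℕ} (hN : 2 * Fermat.Agent.S14.helper4204.ordP v p < N)
    {x : Fˣ} (hx : v.valuation F ((x : F) - 1) ≤ exp (-(N : ℤ))) : LocNorm F E v x :=
  locNorm_of_locPow hdeg (Fermat.Agent.S14.helper4204.locPow_of_valuation_sub_one_le v hp hN hx)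

/-- The local norms at finitely many places have finite index as soon as `F` contains a
primitive `p`-th root of unity. -/
theorem index_locNormS_ne_zero {p : ℕ} (hp : p.Prime) (hdeg : Module.finrank F E = p)
    {ζ : F} (hζ : IsPrimitiveRoot ζ p) (S : Finset (HeightOneSpectrum (𝓞 F))) :
    (locNormS F E S).index ≠ 0 := by
  have h1 := (Fermat.Agent.S14.helper4204.index_locPowS hp hζ S).1
  intro h0
  have := Subgroup.index_dvd_of_le (locPowS_le_locNormS (E := E) hdeg S)
  rw [h0, zero_dvd_iff] at this
  exact h1 this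

end Pow

/-! ## Weak approximation: an element close to `z` at `v` and close to `1` on `S` -/

section Approx

variable {F : Type*} [Field F] [NumberField F]

/-- Every element has valuation at most `exp K` for some natural number `K`. -/
theorem exists_valuation_le_exp (v : HeightOneSpectrum (𝓞 F)) (x : F) :
    ∃ K : ℕ, v.valuation F x ≤ exp (K : ℤ) := by
  rcases eq_or_ne (v.valuation F x) 0 with h | h
  · exact ⟨0, by rw [h]; exact zero_le⟩
  · refine ⟨(log (v.valuation F x)).toNat, ?_⟩
    conv_lhs => rw [← exp_log h]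
    rw [exp_le_exp]
    exact Int.self_le_toNat _

/-- A uniform bound on finitely many places. -/
theorem exists_forall_valuation_le_exp (T : Finset (HeightOneSpectrum (𝓞 F))) (x : F) :
    ∃ K : ℕ, ∀ w ∈ T, w.valuation F x ≤ exp (K : ℤ) := by
  classical
  choose f hf using fun w : HeightOneSpectrum (𝓞 F) => exists_valuation_le_exp w x
  refine ⟨T.sup f, fun w hw => (hf w).trans ?_⟩
  rw [exp_le_exp]
  exact_mod_cast Finset.le_sup hw

/-- **Weak approximation** in the form needed here: given `z : Fˣ`, a place `v ∉ S` and a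
precision `M`, there is `u : Fˣ` with `u / z ≡ 1` at `v` and `u ≡ 1` at every place of `S`,
both to precision `M`. -/
theorem exists_close (S : Finset (HeightOneSpectrum (𝓞 F))) (v : HeightOneSpectrum (𝓞 F))
    (hv : v ∉ S) (z : Fˣ) (M : ℕ) :
    ∃ u : Fˣ, v.valuation F ((u : F) / (z : F) - 1) ≤ exp (-(M : ℤ)) ∧
      ∀ w ∈ S, w.valuation F ((u : F) - 1) ≤ exp (-(M : ℤ)) := by
  classical
  obtain ⟨K₁, hK₁⟩ := exists_forall_valuation_le_exp (insert v S) ((z : F) - 1)
  obtain ⟨K₂, hK₂⟩ := exists_valuation_le_exp v ((z : F)⁻¹)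
  set K := max K₁ K₂ with hK
  set M' := M + 2 * K + 1 with hM'
  -- CRT: `c ≡ 1` modulo `v ^ M'` and `c ≡ 0` modulo `w ^ M'` for `w ∈ S`
  obtain ⟨c, hc⟩ := IsDedekindDomain.exists_forall_sub_mem_ideal (s := insert v S)
    (fun w : HeightOneSpectrum (𝓞 F) => w.asIdeal) (fun _ => M')
    (fun w _ => w.prime) (fun w _ w' _ hww' h => hww' (HeightOneSpectrum.ext h))
    (fun w => if (w : HeightOneSpectrum (𝓞 F)) = v then 1 else 0)
  have hcv : v.valuation F (algebraMap (𝓞 F) F c - 1) ≤ exp (-(M' : ℤ)) := by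
    have h := hc v (Finset.mem_insert_self v S)
    simp only [if_true] at h
    rw [← HeightOneSpectrum.intValuation_le_pow_iff_mem] at h
    have : algebraMap (𝓞 F) F c - 1 = algebraMap (𝓞 F) F (c - 1) := by simp
    rw [this, HeightOneSpectrum.valuation_of_algebraMap]
    exact h
  have hcw : ∀ w ∈ S, w.valuation F (algebraMap (𝓞 F) F c) ≤ exp (-(M' : ℤ)) := by
    intro w hw
    have hwv : w ≠ v := fun h => hv (h ▸ hw)
    have h := hc w (Finset.mem_insert_of_mem hw)
    simp only [hwv, if_false, sub_zero] at h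
    rw [← HeightOneSpectrum.intValuation_le_pow_iff_mem] at h
    rw [HeightOneSpectrum.valuation_of_algebraMap]
    exact h
  have hz1 : ∀ w ∈ insert v S, w.valuation F ((z : F) - 1) ≤ exp (K : ℤ) := fun w hw =>
    (hK₁ w hw).trans (by rw [exp_le_exp]; exact_mod_cast le_max_left K₁ K₂)
  have hzinv : v.valuation F ((z : F)⁻¹) ≤ exp (K : ℤ) :=
    hK₂.trans (by rw [exp_le_exp]; exact_mod_cast le_max_right K₁ K₂)
  set u : F := 1 + algebraMap (𝓞 F) F c * ((z : F) - 1) with hu
  -- closeness at `v`
  have hclose : v.valuation F (u / (z : F) - 1) ≤ exp (-((M + 1 : ℕ) : ℤ)) := by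
    have hz0 : (z : F) ≠ 0 := z.ne_zero
    have key : u / (z : F) - 1 = (algebraMap (𝓞 F) F c - 1) * ((z : F) - 1) * (z : F)⁻¹ := by
      rw [hu]
      field_simp
      ring
    rw [key, map_mul, map_mul]
    calc v.valuation F (algebraMap (𝓞 F) F c - 1) * v.valuation F ((z : F) - 1) *
          v.valuation F ((z : F)⁻¹)
        ≤ exp (-(M' : ℤ)) * exp (K : ℤ) * exp (K : ℤ) :=
          mul_le_mul' (mul_le_mul' hcv (hz1 v (Finset.mem_insert_self v S))) hzinv
      _ = exp (-(M' : ℤ) + K + K) := by rw [exp_add, exp_add]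
      _ ≤ exp (-((M + 1 : ℕ) : ℤ)) := by
          rw [exp_le_exp, hM']
          push_cast
          omega
  have hu0 : u ≠ 0 := by
    intro h0
    rw [h0, zero_div, zero_sub, Valuation.map_neg, map_one] at hclose
    exact absurd hclose (not_le.mpr (Fermat.Agent.S14.helper1892.exp_neg_succ_lt_one M))
  refine ⟨Units.mk0 u hu0, ?_, fun w hw => ?_⟩
  · rw [Units.val_mk0]
    refine hclose.trans ?_
    rw [exp_le_exp]
    push_cast
    omega
  · rw [Units.val_mk0]
    have key : u - 1 = algebraMap (𝓞 F) F c * ((z : F) - 1) := by rw [hu]; ring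
    rw [key, map_mul]
    calc w.valuation F (algebraMap (𝓞 F) F c) * w.valuation F ((z : F) - 1)
        ≤ exp (-(M' : ℤ)) * exp (K : ℤ) :=
          mul_le_mul' (hcw w hw) (hz1 w (Finset.mem_insert_of_mem hw))
      _ = exp (-(M' : ℤ) + K) := by rw [exp_add]
      _ ≤ exp (-(M : ℤ)) := by
          rw [exp_le_exp, hM']
          push_cast
          omega

end Approx

/-! ## The index count -/

section Index

/-- In a commutative group, if `N` contains all `p`-th powers and `B ⊄ N`, then `p` divides the
relative index of `N` in `B` (which is `0` when infinite). -/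
theorem dvd_relIndex_of_pow_mem {G : Type*} [CommGroup G] {p : ℕ} (hp : p.Prime)
    (N B : Subgroup G) (hpow : ∀ x : G, x ^ p ∈ N) {u : G} (huB : u ∈ B) (huN : u ∉ N) :
    p ∣ N.relIndex B := by
  have : Fact p.Prime := ⟨hp⟩
  have hPG : IsPGroup p (↥B ⧸ N.subgroupOf B) := by
    intro q
    induction q using QuotientGroup.induction_on with
    | H b =>
      refine ⟨1, ?_⟩
      rw [pow_one, ← QuotientGroup.mk_pow, QuotientGroup.eq_one_iff, Subgroup.mem_subgroupOf]
      simpa using hpow (b : G)
  rcases hPG.card_eq_or_dvd with h1 | h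
  · exfalso
    rw [Nat.card_eq_one_iff_unique] at h1
    have := h1.1
    have : (QuotientGroup.mk (⟨u, huB⟩ : ↥B) : ↥B ⧸ N.subgroupOf B) = 1 := Subsingleton.elim _ _
    rw [QuotientGroup.eq_one_iff, Subgroup.mem_subgroupOf] at this
    exact huN this
  · exact h

variable {F E : Type} [Field F] [NumberField F] [Field E] [NumberField E] [Algebra F E]

/-- If `z` is not a local norm at `v`, there is an element which is a local norm at every place
of `S` (`v ∉ S`) and not at `v`. -/
theorem exists_mem_locNormS_not_locNorm {p : ℕ} (hp : p.Prime) (hdeg : Module.finrank F E = p)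
    (S : Finset (HeightOneSpectrum (𝓞 F))) (v : HeightOneSpectrum (𝓞 F)) (hv : v ∉ S)
    {z : Fˣ} (hz : ¬ LocNorm F E v z) :
    ∃ u : Fˣ, u ∈ locNormS F E S ∧ u ∉ locNormSubgroup F E v := by
  classical
  set e := (insert v S).sup (fun w => Fermat.Agent.S14.helper4204.ordP w p) with he
  have heb : ∀ w ∈ insert v S, 2 * Fermat.Agent.S14.helper4204.ordP w p < 2 * e + 1 := by
    intro w hw
    have : Fermat.Agent.S14.helper4204.ordP w p ≤ e :=
      Finset.le_sup (f := fun w => Fermat.Agent.S14.helper4204.ordP w p) hw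
    omega
  obtain ⟨u, hu1, hu2⟩ := exists_close S v hv z (2 * e + 1)
  refine ⟨u, mem_locNormS.2 fun w hw => ?_, fun hu => hz ?_⟩
  · exact locNorm_of_valuation_sub_one_le hp hdeg (heb w (Finset.mem_insert_of_mem hw)) (hu2 w hw)
  · -- `u / z` is close to `1` at `v`, hence a local norm; so is `z = u * (u / z)⁻¹`
    have h1 : LocNorm F E v (u / z) := by
      refine locNorm_of_valuation_sub_one_le hp hdeg (heb v (Finset.mem_insert_self v S)) ?_
      rw [Units.val_div_eq_div_val]
      exact hu1
    have h2 : z = u * (u / z)⁻¹ := by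
      rw [inv_div, mul_div_cancel]
    rw [h2]
    exact locNorm_mul hu (locNorm_inv h1)

open Classical in
/-- **(Q)** If at every non-split place of `S` some element of `Fˣ` is not a local norm, then
`p ^ #{v ∈ S | v non-split}` divides the index of the subgroup of elements which are local norms
at all places of `S` (this index is `0` if infinite). -/
theorem pow_card_nonsplit_dvd_index {p : ℕ} (hp : p.Prime) (hdeg : Module.finrank F E = p)
    (S : Finset (HeightOneSpectrum (𝓞 F)))
    (hP : ∀ v ∈ S, ¬ Split F E v → ∃ z : Fˣ, ¬ LocNorm F E v z) :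
    p ^ (S.filter (fun v => ¬ Split F E v)).card ∣ (locNormS F E S).index := by
  induction S using Finset.induction_on with
  | empty => simp
  | insert v S hv ih =>
    have ih' := ih (fun w hw => hP w (Finset.mem_insert_of_mem hw))
    have hins : locNormS F E (insert v S) = locNormSubgroup F E v ⊓ locNormS F E S := by
      unfold locNormS
      exact Finset.iInf_insert v S _
    rw [hins, Finset.filter_insert]
    by_cases hsplit : Split F E v
    · rw [if_neg (not_not.mpr hsplit)]
      exact ih'.trans (Subgroup.index_dvd_of_le inf_le_right)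
    · rw [if_pos hsplit, Finset.card_insert_of_notMem (by simp [hv]), pow_succ]
      obtain ⟨z, hz⟩ := hP v (Finset.mem_insert_self v S) hsplit
      obtain ⟨u, huS, huv⟩ := exists_mem_locNormS_not_locNorm hp hdeg S v hv hz
      have hrel : p ∣ (locNormSubgroup F E v).relIndex (locNormS F E S) :=
        dvd_relIndex_of_pow_mem hp _ _ (pow_mem_locNormSubgroup hdeg v) huS huv
      rw [← Subgroup.relIndex_mul_index
        (inf_le_right : locNormSubgroup F E v ⊓ locNormS F E S ≤ locNormS F E S),
        Subgroup.inf_relIndex_right]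
      exact mul_comm p _ ▸ mul_dvd_mul hrel ih'

open Classical in
/-- **(Q)**, inequality form: either the index is infinite (`= 0`) or it is at least
`p ^ #{v ∈ S | v non-split}`. -/
theorem pow_card_nonsplit_le_index {p : ℕ} (hp : p.Prime) (hdeg : Module.finrank F E = p)
    (S : Finset (HeightOneSpectrum (𝓞 F)))
    (hP : ∀ v ∈ S, ¬ Split F E v → ∃ z : Fˣ, ¬ LocNorm F E v z)
    (hfin : (locNormS F E S).index ≠ 0) :
    p ^ (S.filter (fun v => ¬ Split F E v)).card ≤ (locNormS F E S).index :=
  Nat.le_of_dvd (Nat.pos_of_ne_zero hfin) (pow_card_nonsplit_dvd_index hp hdeg S hP)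

open Classical in
/-- **(Q)** with finiteness from a primitive `p`-th root of unity in `F`. -/
theorem pow_card_nonsplit_le_index_of_primitiveRoot {p : ℕ} (hp : p.Prime)
    (hdeg : Module.finrank F E = p) {ζ : F} (hζ : IsPrimitiveRoot ζ p)
    (S : Finset (HeightOneSpectrum (𝓞 F)))
    (hP : ∀ v ∈ S, ¬ Split F E v → ∃ z : Fˣ, ¬ LocNorm F E v z) :
    (locNormS F E S).index ≠ 0 ∧
      p ^ (S.filter (fun v => ¬ Split F E v)).card ≤ (locNormS F E S).index :=
  ⟨index_locNormS_ne_zero hp hdeg hζ S,
    pow_card_nonsplit_le_index hp hdeg S hP (index_locNormS_ne_zero hp hdeg hζ S)⟩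

open Classical in
/-- **(Q)**, definition-agnostic form: for ANY subgroup `B` of `Fˣ` whose elements are exactly
those which are (completion-free) local norms at every place of `S`. -/
theorem pow_card_nonsplit_dvd_index_of_mem_iff {p : ℕ} (hp : p.Prime)
    (hdeg : Module.finrank F E = p) (S : Finset (HeightOneSpectrum (𝓞 F))) (B : Subgroup Fˣ)
    (hB : ∀ b : Fˣ, b ∈ B ↔ ∀ v ∈ S, ∀ N : ℕ, ∃ y : Eˣ,
      v.valuation F ((b : F) / (normHom F E y : F) - 1) ≤ WithZero.exp (-(N : ℤ)))
    (hP : ∀ v ∈ S, ¬ Split F E v → ∃ z : Fˣ, ¬ ∀ N : ℕ, ∃ y : Eˣ,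
      v.valuation F ((z : F) / (normHom F E y : F) - 1) ≤ WithZero.exp (-(N : ℤ))) :
    p ^ (S.filter (fun v => ¬ Split F E v)).card ∣ B.index := by
  have hBS : B = locNormS F E S := by
    ext b
    rw [hB, mem_locNormS]
    rfl
  rw [hBS]
  exact pow_card_nonsplit_dvd_index hp hdeg S hP

open Classical in
/-- Definition-agnostic form with finiteness from a primitive `p`-th root of unity. -/
theorem pow_card_nonsplit_le_index_of_mem_iff {p : ℕ} (hp : p.Prime)
    (hdeg : Module.finrank F E = p) {ζ : F} (hζ : IsPrimitiveRoot ζ p)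
    (S : Finset (HeightOneSpectrum (𝓞 F))) (B : Subgroup Fˣ)
    (hB : ∀ b : Fˣ, b ∈ B ↔ ∀ v ∈ S, ∀ N : ℕ, ∃ y : Eˣ,
      v.valuation F ((b : F) / (normHom F E y : F) - 1) ≤ WithZero.exp (-(N : ℤ)))
    (hP : ∀ v ∈ S, ¬ Split F E v → ∃ z : Fˣ, ¬ ∀ N : ℕ, ∃ y : Eˣ,
      v.valuation F ((z : F) / (normHom F E y : F) - 1) ≤ WithZero.exp (-(N : ℤ))) :
    B.index ≠ 0 ∧ p ^ (S.filter (fun v => ¬ Split F E v)).card ≤ B.index := by
  have hBS : B = locNormS F E S := by
    ext b
    rw [hB, mem_locNormS]
    rfl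
  rw [hBS]
  exact pow_card_nonsplit_le_index_of_primitiveRoot hp hdeg hζ S hP

/-- The local input of the Hasse norm theorem, as a `Prop`: at every non-split place some
element of `Fˣ` is not a (completion-free) local norm. -/
def Stmt_LocNormProper (F E : Type) [Field F] [NumberField F] [Field E] [NumberField E]
    [Algebra F E] : Prop :=
  ∀ v : HeightOneSpectrum (𝓞 F), ¬ Split F E v → ∃ z : Fˣ, ¬ LocNorm F E v z

open Classical in
/-- `Stmt_LocNormIndex`: the local norm index count from `Stmt_LocNormProper`. -/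
theorem locNormIndex_of_proper {p : ℕ} (hp : p.Prime) (hdeg : Module.finrank F E = p)
    {ζ : F} (hζ : IsPrimitiveRoot ζ p) (hloc : Stmt_LocNormProper F E)
    (S : Finset (HeightOneSpectrum (𝓞 F))) :
    (locNormS F E S).index ≠ 0 ∧
      p ^ (S.filter (fun v => ¬ Split F E v)).card ≤ (locNormS F E S).index :=
  pow_card_nonsplit_le_index_of_primitiveRoot hp hdeg hζ S (fun v _ hv => hloc v hv)

end Index

end

end Fermat.Agent.S55.helper3550
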