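/-
S55 (Poitou–Tate), number-field core, leaf NF-GE-TWOPLACE (seat helper3595).

The TWO-PLACE FORM of the second inequality: the only arithmetic input of (G-E) besides the
cyclotomic tower (team_s55_chat #90, #107), plus the linear algebra that turns it into
"codimension ≤ 1" WITHOUT any reciprocity law.

* `twoPlace_abstract` : pure group theory (pigeonhole in a quotient of order `≤ p`).
* `card_le_finrank_add_one_of_pairs` : a subspace of `ι → k` containing, for every pair `i ≠ j`,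
  a nonzero vector supported in `{i, j}` has codimension `≤ 1`.
* `vClosure v H` : the completion-free `v`-adic closure of a subgroup `H ≤ Fˣ`
  (`locNorm F E v` = closure of the norm group, `LocPow p v` = closure of the `p`-th powers).
* `exists_approx_target` : weak approximation with ONE prescribed target.
* `twoPlace` : number fields, S14 completion-free vocabulary.
-/
import Mathlib
import Fermat.Agent.S14.helper165_FirstIneqSpec
import Fermat.Agent.S14.helper1913_ApproxN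
import Fermat.Agent.S14.helper4204_LocalPow

set_option autoImplicit false

open IsDedekindDomain NumberField

namespace Fermat.Agent.S55.helper3595

/-! ## (A) The abstract two-place lemma -/

section Abstract

variable {G : Type*} [CommGroup G] {ι : Type*}

/-- **Two-place lemma, abstract form.**  `Λ v` are "local norm groups", `U` the "`S`-units".
If `(⨅ v ∈ S, Λ v) ⊔ U` has index `≤ p` (norm-form second inequality) and `x₁`, `x₂` are
concentrated at `w₁`, `w₂` respectively, then some `x₁ ^ m * x₂ ^ n` with `(m, n) ≢ (0, 0)`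
mod `p` is, up to `⨅ v ∈ S, Λ v`, an element `a ∈ U`. -/
theorem twoPlace_abstract {p : ℕ} (hp : 1 < p) (Λ : ι → Subgroup G) (S : Finset ι)
    (U : Subgroup G) (hidx0 : ((⨅ v ∈ S, Λ v) ⊔ U).index ≠ 0)
    (hidx : ((⨅ v ∈ S, Λ v) ⊔ U).index ≤ p)
    {w₁ w₂ : ι} (hw₁ : w₁ ∈ S) (hw₂ : w₂ ∈ S) (hne : w₁ ≠ w₂) (x₁ x₂ : G)
    (hx₁ : ∀ v ∈ S, v ≠ w₁ → x₁ ∈ Λ v) (hx₂ : ∀ v ∈ S, v ≠ w₂ → x₂ ∈ Λ v) :
    ∃ (m n : ℤ) (a : G), ¬ ((p : ℤ) ∣ m ∧ (p : ℤ) ∣ n) ∧ a ∈ U ∧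
      a / x₁ ^ m ∈ Λ w₁ ∧ a / x₂ ^ n ∈ Λ w₂ ∧ ∀ v ∈ S, v ≠ w₁ → v ≠ w₂ → a ∈ Λ v := by
  classical
  set H : Subgroup G := (⨅ v ∈ S, Λ v) ⊔ U with hH
  have : H.FiniteIndex := ⟨hidx0⟩
  -- pigeonhole
  let f : Fin p × Fin p → G ⧸ H := fun ij => QuotientGroup.mk (x₁ ^ (ij.1 : ℕ) * x₂ ^ (ij.2 : ℕ))
  have hninj : ¬ Function.Injective f := by
    intro hinj
    have h1 := Nat.card_le_card_of_injective f hinj
    have h2 : Nat.card (Fin p × Fin p) = p * p := by simp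
    have h3 : Nat.card (G ⧸ H) = H.index := rfl
    rw [h2, h3] at h1
    have : p * p ≤ p := h1.trans hidx
    nlinarith
  obtain ⟨⟨i, j⟩, ⟨i', j'⟩, hfe, hneq⟩ : ∃ a b, f a = f b ∧ a ≠ b := by
    simpa [Function.Injective] using hninj
  have hmem : (x₁ ^ (i : ℕ) * x₂ ^ (j : ℕ))⁻¹ * (x₁ ^ (i' : ℕ) * x₂ ^ (j' : ℕ)) ∈ H :=
    QuotientGroup.eq.mp hfe
  set m : ℤ := (i' : ℕ) - (i : ℕ) with hm
  set n : ℤ := (j' : ℕ) - (j : ℕ) with hn
  have hmn : x₁ ^ m * x₂ ^ n ∈ H := by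
    have : x₁ ^ m * x₂ ^ n = (x₁ ^ (i : ℕ) * x₂ ^ (j : ℕ))⁻¹ * (x₁ ^ (i' : ℕ) * x₂ ^ (j' : ℕ)) := by
      rw [hm, hn, zpow_sub, zpow_sub, zpow_natCast, zpow_natCast, zpow_natCast, zpow_natCast]
      rw [mul_inv]
      ac_rfl
    rw [this]; exact hmem
  obtain ⟨l, hl, u, hu, hlu⟩ := Subgroup.mem_sup.mp hmn
  have hl' : ∀ v ∈ S, l ∈ Λ v := by
    intro v hv
    have := hl
    simp only [Subgroup.mem_iInf] at this
    exact this v hv
  have hu' : u = x₁ ^ m * x₂ ^ n * l⁻¹ := by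
    rw [← hlu]; simp
  refine ⟨m, n, u, ?_, hu, ?_, ?_, ?_⟩
  · rintro ⟨hpm, hpn⟩
    apply hneq
    have hi : (i : ℕ) < p := i.isLt
    have hi' : (i' : ℕ) < p := i'.isLt
    have hj : (j : ℕ) < p := j.isLt
    have hj' : (j' : ℕ) < p := j'.isLt
    have hm0 : m = 0 := by
      apply Int.eq_zero_of_abs_lt_dvd hpm
      rw [abs_lt]; constructor <;> omega
    have hn0 : n = 0 := by
      apply Int.eq_zero_of_abs_lt_dvd hpn
      rw [abs_lt]; constructor <;> omega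
    have e1 : i = i' := by apply Fin.ext; omega
    have e2 : j = j' := by apply Fin.ext; omega
    rw [e1, e2]
  · have : u / x₁ ^ m = x₂ ^ n * l⁻¹ := by
      rw [hu', div_eq_iff_eq_mul]; ac_rfl
    rw [this]
    exact (Λ w₁).mul_mem ((Λ w₁).zpow_mem (hx₂ w₁ hw₁ hne) n) ((Λ w₁).inv_mem (hl' w₁ hw₁))
  · have : u / x₂ ^ n = x₁ ^ m * l⁻¹ := by
      rw [hu', div_eq_iff_eq_mul]; ac_rfl
    rw [this]
    exact (Λ w₂).mul_mem ((Λ w₂).zpow_mem (hx₁ w₂ hw₂ hne.symm) m) ((Λ w₂).inv_mem (hl' w₂ hw₂))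
  · intro v hv h1 h2
    rw [hu']
    exact (Λ v).mul_mem ((Λ v).mul_mem ((Λ v).zpow_mem (hx₁ v hv h1) m)
      ((Λ v).zpow_mem (hx₂ v hv h2) n)) ((Λ v).inv_mem (hl' v hv))

/-- If `x ^ p ∈ Λ` and `x ^ m ∈ Λ` with `p ∤ m` (`p` prime), then `x ∈ Λ`. -/
theorem mem_of_zpow_mem_of_not_dvd {p : ℕ} (hp : p.Prime) (Λ : Subgroup G) {x : G}
    (hxp : x ^ p ∈ Λ) {m : ℤ} (hm : ¬ (p : ℤ) ∣ m) (hxm : x ^ m ∈ Λ) : x ∈ Λ := by
  have hcop : IsCoprime m (p : ℤ) := by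
    rw [isCoprime_comm]
    exact (Int.isCoprime_iff_gcd_eq_one).mpr
      ((Nat.Prime.coprime_iff_not_dvd hp).mpr (by
        intro h
        exact hm (Int.natCast_dvd.mpr h)) |> fun h => by
          simpa [Int.gcd, Nat.Coprime] using h)
  obtain ⟨a, b, hab⟩ := hcop
  have : x = (x ^ m) ^ a * (x ^ (p : ℤ)) ^ b := by
    rw [← zpow_mul, ← zpow_mul, ← zpow_add, mul_comm m a, mul_comm (p : ℤ) b, hab, zpow_one]
  rw [this]
  exact Λ.mul_mem (Λ.zpow_mem hxm a) (Λ.zpow_mem (by simpa using hxp) b)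

end Abstract

/-! ## (C) Linear algebra: pairs give codimension `≤ 1` -/

section LinAlg

variable {k : Type*} [Field k] {ι : Type*} [Fintype ι] [DecidableEq ι]

/-- A subspace `W` of `ι → k` containing, for every pair `i ≠ j`, a nonzero vector supported in
`{i, j}` has a quotient of dimension `≤ 1`. -/
theorem finrank_quotient_le_one_of_pairs (W : Submodule k (ι → k))
    (h : ∀ i j : ι, i ≠ j → ∃ w ∈ W, w ≠ 0 ∧ ∀ l, l ≠ i → l ≠ j → w l = 0) :
    Module.finrank k ((ι → k) ⧸ W) ≤ 1 := by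
  classical
  set π : (ι → k) →ₗ[k] (ι → k) ⧸ W := W.mkQ with hπ
  have hspan : ∀ f : ι → k, π f = ∑ i, f i • π (Pi.single i 1) := by
    intro f
    conv_lhs => rw [pi_eq_sum_univ f]
    rw [map_sum]
    refine Finset.sum_congr rfl fun i _ => ?_
    rw [← map_smul]
    congr 1
    funext l
    simp [Pi.single_apply, eq_comm]
  by_cases hall : ∀ i : ι, π (Pi.single i (1 : k)) = 0
  · have h0 : ∀ q : (ι → k) ⧸ W, q = 0 := by
      intro q
      obtain ⟨f, rfl⟩ := W.mkQ_surjective q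
      have := hspan f
      rw [hπ] at this
      rw [this]
      refine Finset.sum_eq_zero fun i _ => ?_
      have hi := hall i
      rw [hπ] at hi
      rw [hi, smul_zero]
    have : Subsingleton ((ι → k) ⧸ W) := ⟨fun a b => by rw [h0 a, h0 b]⟩
    rw [Module.finrank_zero_of_subsingleton]
    exact Nat.zero_le 1
  · rw [not_forall] at hall
    obtain ⟨i₀, hi₀⟩ := hall
    have hgen : ∀ j : ι, ∃ c : k, π (Pi.single j (1 : k)) = c • π (Pi.single i₀ (1 : k)) := by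
      intro j
      by_cases hj : j = i₀
      · exact ⟨1, by rw [hj, one_smul]⟩
      · obtain ⟨w, hwW, hw0, hsupp⟩ := h i₀ j (Ne.symm hj)
        have hw : w = w i₀ • Pi.single i₀ (1 : k) + w j • Pi.single j (1 : k) := by
          funext l
          by_cases hl1 : l = i₀
          · subst hl1
            simp [hj]
          · by_cases hl2 : l = j
            · subst hl2
              simp [hl1]
            · simp [hl1, hl2, hsupp l hl1 hl2]
        have hπw : π w = 0 := by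
          rw [hπ, Submodule.mkQ_apply, Submodule.Quotient.mk_eq_zero]; exact hwW
        have hrel : w i₀ • π (Pi.single i₀ (1 : k)) + w j • π (Pi.single j (1 : k)) = 0 := by
          rw [← map_smul, ← map_smul, ← map_add, ← hw, hπw]
        have hwj : w j ≠ 0 := by
          intro hwj
          rw [hwj, zero_smul, add_zero] at hrel
          have hwi : w i₀ = 0 := by
            rcases smul_eq_zero.mp hrel with h1 | h1
            · exact h1
            · exact absurd h1 hi₀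
          apply hw0
          rw [hw, hwj, hwi, zero_smul, zero_smul, add_zero]
        refine ⟨-(w j)⁻¹ * w i₀, ?_⟩
        have : w j • π (Pi.single j (1 : k)) = -(w i₀ • π (Pi.single i₀ (1 : k))) :=
          eq_neg_of_add_eq_zero_right hrel
        calc π (Pi.single j (1 : k)) = (w j)⁻¹ • (w j • π (Pi.single j (1 : k))) := by
              rw [smul_smul, inv_mul_cancel₀ hwj, one_smul]
          _ = (-(w j)⁻¹ * w i₀) • π (Pi.single i₀ (1 : k)) := by
              rw [this, smul_neg, smul_smul, neg_mul, neg_smul]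
    choose c hc using hgen
    refine finrank_le_one (π (Pi.single i₀ (1 : k))) ?_
    intro q
    obtain ⟨f, rfl⟩ := W.mkQ_surjective q
    refine ⟨∑ i, f i * c i, ?_⟩
    have := hspan f
    rw [hπ] at this hc
    rw [this, Finset.sum_smul]
    refine Finset.sum_congr rfl fun i _ => ?_
    rw [hc i, smul_smul]

/-- **Codimension `≤ 1` from pairs** (no reciprocity law needed): if the subspace `W` of
`ι → k` contains, for every pair `i ≠ j`, a nonzero vector supported in `{i, j}`, then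
`card ι ≤ dim W + 1`. -/
theorem card_le_finrank_add_one_of_pairs (W : Submodule k (ι → k))
    (h : ∀ i j : ι, i ≠ j → ∃ w ∈ W, w ≠ 0 ∧ ∀ l, l ≠ i → l ≠ j → w l = 0) :
    Fintype.card ι ≤ Module.finrank k W + 1 := by
  have h1 := finrank_quotient_le_one_of_pairs W h
  have h2 := W.finrank_quotient_add_finrank
  rw [Module.finrank_fintype_fun_eq_card] at h2
  omega

end LinAlg

/-! ## (B) Number fields: completion-free closures, weak approximation, the two-place theorem -/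

section Closure

open WithZero

variable {F : Type*} [Field F] [NumberField F]

/-- `x` lies in the `v`-adic closure of the subgroup `H ≤ Fˣ` (completion-free): for every
precision `N` some `h ∈ H` satisfies `ord_v (x / h - 1) ≥ N`. -/
def InClosure (v : HeightOneSpectrum (𝓞 F)) (H : Subgroup Fˣ) (x : Fˣ) : Prop :=
  ∀ N : ℕ, ∃ h ∈ H, v.valuation F ((x : F) / (h : F) - 1) ≤ exp (-(N : ℤ))

theorem val_eq_one_of_sub_one_le (v : HeightOneSpectrum (𝓞 F)) {t : F} {N : ℕ}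
    (h : v.valuation F (t - 1) ≤ exp (-((N + 1 : ℕ) : ℤ))) : v.valuation F t = 1 :=
  Fermat.Agent.S14.helper1892.val_eq_one_of_sub_one_lt v
    (lt_of_le_of_lt h (Fermat.Agent.S14.helper1892.exp_neg_succ_lt_one N))

theorem exp_neg_succ_le (N : ℕ) :
    (exp (-((N + 1 : ℕ) : ℤ)) : ℤᵐ⁰) ≤ exp (-(N : ℤ)) := by
  rw [exp_le_exp]
  push_cast
  omega

/-- The completion-free `v`-adic closure of a subgroup of `Fˣ`, as a subgroup. -/
def vClosure (v : HeightOneSpectrum (𝓞 F)) (H : Subgroup Fˣ) : Subgroup Fˣ where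
  carrier := {x | InClosure v H x}
  one_mem' := fun N => ⟨1, H.one_mem, by simp⟩
  mul_mem' := by
    intro x x' hx hx' N
    obtain ⟨y, hyH, hy⟩ := hx (N + 1)
    obtain ⟨y', hyH', hy'⟩ := hx' (N + 1)
    refine ⟨y * y', H.mul_mem hyH hyH', ?_⟩
    have h1 : v.valuation F ((x' : F) / (y' : F)) = 1 := val_eq_one_of_sub_one_le v hy'
    have key : ((x * x' : Fˣ) : F) / ((y * y' : Fˣ) : F) - 1
        = ((x : F) / (y : F) - 1) * ((x' : F) / (y' : F)) + ((x' : F) / (y' : F) - 1) := by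
      have hy0 : (y : F) ≠ 0 := y.ne_zero
      have hy0' : (y' : F) ≠ 0 := y'.ne_zero
      push_cast
      field_simp
      ring
    rw [key]
    refine Valuation.map_add_le _ ?_ (hy'.trans (exp_neg_succ_le N))
    rw [map_mul, h1, mul_one]
    exact hy.trans (exp_neg_succ_le N)
  inv_mem' := by
    intro x hx N
    obtain ⟨y, hyH, hy⟩ := hx (N + 1)
    refine ⟨y⁻¹, H.inv_mem hyH, ?_⟩
    have h1 : v.valuation F ((x : F) / (y : F)) = 1 := val_eq_one_of_sub_one_le v hy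
    have hy0 : (y : F) ≠ 0 := y.ne_zero
    have hx0 : (x : F) ≠ 0 := x.ne_zero
    have ht0 : (x : F) / (y : F) ≠ 0 := div_ne_zero hx0 hy0
    have key : ((x⁻¹ : Fˣ) : F) / ((y⁻¹ : Fˣ) : F) - 1
        = -((x : F) / (y : F) - 1) * ((x : F) / (y : F))⁻¹ := by
      have e1 : ((x⁻¹ : Fˣ) : F) / ((y⁻¹ : Fˣ) : F) = ((x : F) / (y : F))⁻¹ := by
        push_cast
        rw [inv_div, div_inv_eq_mul, mul_comm, div_eq_mul_inv]
      rw [e1, neg_mul, sub_mul, mul_inv_cancel₀ ht0, one_mul, neg_sub]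
    rw [key, map_mul, map_inv₀, h1, inv_one, mul_one, Valuation.map_neg]
    exact hy.trans (exp_neg_succ_le N)

@[simp] theorem mem_vClosure {v : HeightOneSpectrum (𝓞 F)} {H : Subgroup Fˣ} {x : Fˣ} :
    x ∈ vClosure v H ↔
      ∀ N : ℕ, ∃ h ∈ H, v.valuation F ((x : F) / (h : F) - 1) ≤ exp (-(N : ℤ)) := Iff.rfl

theorem le_vClosure (v : HeightOneSpectrum (𝓞 F)) (H : Subgroup Fˣ) : H ≤ vClosure v H := by
  intro x hx N
  exact ⟨x, hx, by simp⟩

theorem vClosure_mono (v : HeightOneSpectrum (𝓞 F)) {H H' : Subgroup Fˣ} (h : H ≤ H') :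
    vClosure v H ≤ vClosure v H' := by
  intro x hx N
  obtain ⟨y, hy, hy'⟩ := hx N
  exact ⟨y, h hy, hy'⟩

/-- The S14 predicate `LocPow p v` is the closure of the `p`-th powers. -/
theorem locPow_iff_mem_vClosure {p : ℕ} {v : HeightOneSpectrum (𝓞 F)} {x : Fˣ} :
    Fermat.Agent.S14.helper1892.LocPow p v x ↔
      x ∈ vClosure v (powMonoidHom p : Fˣ →* Fˣ).range := by
  constructor
  · intro h N
    obtain ⟨y, hy⟩ := h N
    exact ⟨y ^ p, ⟨y, rfl⟩, by simpa using hy⟩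
  · intro h N
    obtain ⟨_, ⟨y, rfl⟩, hy⟩ := h N
    exact ⟨y, by simpa using hy⟩

/-- An element of `ℤᵐ⁰` is bounded by some `exp c`, `c : ℕ`. -/
theorem exists_le_exp_nat (a : ℤᵐ⁰) : ∃ c : ℕ, a ≤ exp (c : ℤ) := by
  rcases eq_or_ne a 0 with rfl | ha
  · exact ⟨0, zero_le⟩
  · refine ⟨(log a).toNat, ?_⟩
    rw [← exp_log ha, exp_le_exp, log_exp]
    exact Int.self_le_toNat _

/-- **Weak approximation with one prescribed target**: `x` is `v₀`-adically close to `y` and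
`v`-adically close to `1` at the other places of `S`. -/
theorem exists_approx_target (S : Finset (HeightOneSpectrum (𝓞 F)))
    (v₀ : HeightOneSpectrum (𝓞 F)) (y : Fˣ) (N : ℕ) :
    ∃ x : Fˣ, v₀.valuation F ((x : F) / (y : F) - 1) ≤ exp (-(N : ℤ)) ∧
      ∀ v ∈ S, v ≠ v₀ → v.valuation F ((x : F) - 1) ≤ exp (-(N : ℤ)) := by
  classical
  obtain ⟨c, hc⟩ := exists_le_exp_nat (v₀.valuation F (((y : F) - 1) / (y : F)))
  choose d hd using fun v : HeightOneSpectrum (𝓞 F) =>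
    exists_le_exp_nat (v.valuation F ((y : F) - 1))
  obtain ⟨e, he₀, heT⟩ := Fermat.Agent.S14.helper1913.approxN (F := F) {v₀} (S.erase v₀)
    (by simp) (N + 1 + c) (fun v => -((N : ℤ) + d v))
  have he₀' := he₀ v₀ (by simp)
  have hy0 : (y : F) ≠ 0 := y.ne_zero
  set x0 : F := (y : F) * (e : F) + (1 - (e : F)) with hx0
  have hkey : x0 / (y : F) - 1 = ((e : F) - 1) * (((y : F) - 1) / (y : F)) := by
    rw [hx0]; field_simp; ring
  have hval : v₀.valuation F (x0 / (y : F) - 1) ≤ exp (-((N + 1 : ℕ) : ℤ)) := by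
    rw [hkey, map_mul]
    calc v₀.valuation F ((e : F) - 1) * v₀.valuation F (((y : F) - 1) / (y : F))
        ≤ exp (-((N + 1 + c : ℕ) : ℤ)) * exp (c : ℤ) := mul_le_mul' he₀' hc
      _ = exp (-((N + 1 : ℕ) : ℤ)) := by
          rw [← exp_add]; congr 1; push_cast; ring
  have hx0ne : x0 ≠ 0 := by
    intro h0
    rw [h0, zero_div, zero_sub, Valuation.map_neg, Valuation.map_one] at hval
    exact absurd hval (not_le.mpr (Fermat.Agent.S14.helper1892.exp_neg_succ_lt_one N))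
  refine ⟨Units.mk0 x0 hx0ne, hval.trans (exp_neg_succ_le N), ?_⟩
  intro v hv hne
  have hvT : v ∈ S.erase v₀ := Finset.mem_erase.mpr ⟨hne, hv⟩
  have hord := heT v hvT
  have hve : v.valuation F (e : F) = exp (-((N : ℤ) + d v)) := by
    have h := exp_log (Fermat.Agent.S14.helper2613.valuation_unit_ne_zero v e)
    unfold Fermat.Agent.S14.helper2613.ordAt at hord
    rw [hord] at h
    exact h.symm
  have hkey2 : ((Units.mk0 x0 hx0ne : Fˣ) : F) - 1 = (e : F) * ((y : F) - 1) := by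
    rw [Units.val_mk0, hx0]; ring
  rw [hkey2, map_mul, hve]
  calc exp (-((N : ℤ) + d v)) * v.valuation F ((y : F) - 1)
      ≤ exp (-((N : ℤ) + d v)) * exp (d v : ℤ) := mul_le_mul' le_rfl (hd v)
    _ = exp (-(N : ℤ)) := by
        rw [← exp_add]; congr 1; ring

end Closure

/-! ### The two-place theorem from Tate's count (mod local `p`-th powers) -/

section TwoPlace

open WithZero
open Fermat.Agent.S14.helper2613 (SUnits)
open Fermat.Agent.S14.helper1892 (LocPow locPowSubgroup locPowS mem_locPowSubgroup ClassGen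
  Stmt_TateCount)

variable {F : Type*} [Field F] [NumberField F]

/-- A uniform Hensel precision for a finite set of places. -/
noncomputable def henselBound (p : ℕ) (S : Finset (HeightOneSpectrum (𝓞 F))) : ℕ :=
  2 * (∑ v ∈ S, Fermat.Agent.S14.helper4204.ordP v p) + 1

theorem lt_henselBound (p : ℕ) {S : Finset (HeightOneSpectrum (𝓞 F))}
    {v : HeightOneSpectrum (𝓞 F)} (hv : v ∈ S) :
    2 * Fermat.Agent.S14.helper4204.ordP v p < henselBound p S := by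
  have := Finset.single_le_sum (f := fun v => Fermat.Agent.S14.helper4204.ordP v p)
    (fun _ _ => Nat.zero_le _) hv
  unfold henselBound
  omega

/-- Weak approximation modulo local `p`-th powers: an element `x` which is `≡ y` at `v₀` and
`≡ 1` at the other places of `S`, modulo local `p`-th powers. -/
theorem exists_locPow_target {p : ℕ} (hp : p.Prime) (S : Finset (HeightOneSpectrum (𝓞 F)))
    {v₀ : HeightOneSpectrum (𝓞 F)} (hv₀ : v₀ ∈ S) (y : Fˣ) :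
    ∃ x : Fˣ, LocPow p v₀ (x / y) ∧ ∀ v ∈ S, v ≠ v₀ → LocPow p v x := by
  obtain ⟨x, hx₀, hx⟩ := exists_approx_target S v₀ y (henselBound p S)
  refine ⟨x, ?_, ?_⟩
  · refine Fermat.Agent.S14.helper4204.locPow_of_valuation_sub_one_le v₀ hp
      (lt_henselBound p hv₀) ?_
    have : ((x / y : Fˣ) : F) = (x : F) / (y : F) := by push_cast; rfl
    rw [this]
    exact hx₀
  · intro v hv hne
    exact Fermat.Agent.S14.helper4204.locPow_of_valuation_sub_one_le v hp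
      (lt_henselBound p hv) (hx v hv hne)

/-- **Two-place theorem, Tate-count form** (mod local `p`-th powers; completion-free).
Input: an index bound `[Fˣ : locPowS p S ⊔ U] ≤ p` (for `U = SUnits F (S ∪ T)` this is
S14's `Stmt_TateCount`).  For `w₁ ≠ w₂` in `S` and arbitrary `y₁ y₂ : Fˣ` there are
`(m, n) ≢ (0, 0)` mod `p` and `a ∈ U` with `a ≡ y₁ ^ m` at `w₁`, `a ≡ y₂ ^ n` at `w₂` and
`a ≡ 1` at the other places of `S`, all modulo local `p`-th powers. -/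
theorem twoPlace_locPow {p : ℕ} (hp : p.Prime) (S : Finset (HeightOneSpectrum (𝓞 F)))
    (U : Subgroup Fˣ) (hidx0 : (locPowS p S ⊔ U).index ≠ 0) (hidx : (locPowS p S ⊔ U).index ≤ p)
    {w₁ w₂ : HeightOneSpectrum (𝓞 F)} (hw₁ : w₁ ∈ S) (hw₂ : w₂ ∈ S) (hne : w₁ ≠ w₂)
    (y₁ y₂ : Fˣ) :
    ∃ (m n : ℤ) (a : Fˣ), ¬ ((p : ℤ) ∣ m ∧ (p : ℤ) ∣ n) ∧ a ∈ U ∧
      LocPow p w₁ (a / y₁ ^ m) ∧ LocPow p w₂ (a / y₂ ^ n) ∧
      ∀ v ∈ S, v ≠ w₁ → v ≠ w₂ → LocPow p v a := by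
  obtain ⟨x₁, hx₁w, hx₁⟩ := exists_locPow_target hp S hw₁ y₁
  obtain ⟨x₂, hx₂w, hx₂⟩ := exists_locPow_target hp S hw₂ y₂
  have hidx0' : ((⨅ v ∈ S, locPowSubgroup p v) ⊔ U).index ≠ 0 := hidx0
  have hidx' : ((⨅ v ∈ S, locPowSubgroup p v) ⊔ U).index ≤ p := hidx
  have hx₁' : ∀ v ∈ S, v ≠ w₁ → x₁ ∈ locPowSubgroup p v := hx₁
  have hx₂' : ∀ v ∈ S, v ≠ w₂ → x₂ ∈ locPowSubgroup p v := hx₂
  obtain ⟨m, n, a, hmn, haU, ha₁, ha₂, ha⟩ :=
    @twoPlace_abstract Fˣ _ (HeightOneSpectrum (𝓞 F)) p hp.one_lt (locPowSubgroup p) S U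
      hidx0' hidx' w₁ w₂ hw₁ hw₂ hne x₁ x₂ hx₁' hx₂'
  refine ⟨m, n, a, hmn, haU, ?_, ?_, ha⟩
  · have h1 : a / y₁ ^ m = (a / x₁ ^ m) * (x₁ / y₁) ^ m := by
      rw [div_zpow, div_mul_div_cancel]
    rw [h1]
    exact (locPowSubgroup p w₁).mul_mem ha₁ ((locPowSubgroup p w₁).zpow_mem hx₁w m)
  · have h1 : a / y₂ ^ n = (a / x₂ ^ n) * (x₂ / y₂) ^ n := by
      rw [div_zpow, div_mul_div_cancel]
    rw [h1]
    exact (locPowSubgroup p w₂).mul_mem ha₂ ((locPowSubgroup p w₂).zpow_mem hx₂w n)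

open Classical in
/-- **Two-place theorem from S14's `Stmt_TateCount`.**  `b` is the Kummer generator (not a
`p`-th power), `S₀` any finite set of places containing `w₁ ≠ w₂`.  There are `S ⊇ S₀`, `T` as in
Tate's count and `a ∈ U_{S ∪ T}` with `a ≡ y₁ ^ m` at `w₁`, `a ≡ y₂ ^ n` at `w₂`,
`(m, n) ≢ (0, 0)`, and `a` a local `p`-th power at all other places of `S`. -/
theorem twoPlace_of_tateCount {p : ℕ} (hp : p.Prime) (hTC : Stmt_TateCount F p) (b : Fˣ)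
    (hb : ¬ ∃ y : Fˣ, b = y ^ p) (S₀ : Finset (HeightOneSpectrum (𝓞 F)))
    {w₁ w₂ : HeightOneSpectrum (𝓞 F)} (hw₁ : w₁ ∈ S₀) (hw₂ : w₂ ∈ S₀) (hne : w₁ ≠ w₂)
    (y₁ y₂ : Fˣ) :
    ∃ S T : Finset (HeightOneSpectrum (𝓞 F)), S₀ ⊆ S ∧ Disjoint S T ∧
      (∀ v : HeightOneSpectrum (𝓞 F), (p : 𝓞 F) ∈ v.asIdeal → v ∈ S) ∧ ClassGen S ∧
      b ∈ SUnits F S ∧ (∀ w ∈ T, LocPow p w b) ∧
      ∃ (m n : ℤ) (a : Fˣ), ¬ ((p : ℤ) ∣ m ∧ (p : ℤ) ∣ n) ∧ a ∈ SUnits F (S ∪ T) ∧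
        LocPow p w₁ (a / y₁ ^ m) ∧ LocPow p w₂ (a / y₂ ^ n) ∧
        ∀ v ∈ S, v ≠ w₁ → v ≠ w₂ → LocPow p v a := by
  obtain ⟨S, T, hS₀, hdisj, hSp, hCG, hbS, hT, hidx0, hidx⟩ := hTC b hb S₀
  exact ⟨S, T, hS₀, hdisj, hSp, hCG, hbS, hT,
    twoPlace_locPow hp S (SUnits F (S ∪ T)) hidx0 hidx (hS₀ hw₁) (hS₀ hw₂) hne y₁ y₂⟩

/-- **Non-vanishing.**  If `N₁ ⊇ LocPow p w₁` and `N₂ ⊇ LocPow p w₂` are subgroups (e.g. the
local norm groups of a degree-`p` extension) with `y₁ ∉ N₁`, `y₂ ∉ N₂`, then the element `a` of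
the two-place theorem is not in `N₁` or not in `N₂`. -/
theorem not_mem_or_not_mem_of_twoPlace {p : ℕ} (hp : p.Prime)
    {w₁ w₂ : HeightOneSpectrum (𝓞 F)} (N₁ N₂ : Subgroup Fˣ)
    (hN₁ : locPowSubgroup p w₁ ≤ N₁) (hN₂ : locPowSubgroup p w₂ ≤ N₂) {y₁ y₂ a : Fˣ}
    (hy₁ : y₁ ∉ N₁) (hy₂ : y₂ ∉ N₂) {m n : ℤ} (hmn : ¬ ((p : ℤ) ∣ m ∧ (p : ℤ) ∣ n))
    (ha₁ : LocPow p w₁ (a / y₁ ^ m)) (ha₂ : LocPow p w₂ (a / y₂ ^ n)) :
    a ∉ N₁ ∨ a ∉ N₂ := by
  by_contra hcon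
  rw [not_or, not_not, not_not] at hcon
  obtain ⟨h1, h2⟩ := hcon
  have key : ∀ (w : HeightOneSpectrum (𝓞 F)) (N : Subgroup Fˣ), locPowSubgroup p w ≤ N →
      ∀ (y : Fˣ) (k : ℤ), a ∈ N → LocPow p w (a / y ^ k) → ¬ (p : ℤ) ∣ k → y ∈ N := by
    intro w N hN y k haN hak hk
    have h3 : y ^ k ∈ N := by
      have : y ^ k = a * (a / y ^ k)⁻¹ := by
        rw [inv_div, mul_div_assoc', mul_comm, mul_div_assoc, div_self', mul_one]
      rw [this]
      exact N.mul_mem haN (N.inv_mem (hN hak))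
    have h4 : y ^ p ∈ N := hN (Fermat.Agent.S14.helper1892.locPow_pow p w y)
    exact mem_of_zpow_mem_of_not_dvd hp N h4 hk h3
  by_cases hm : (p : ℤ) ∣ m
  · have hn : ¬ (p : ℤ) ∣ n := fun hn => hmn ⟨hm, hn⟩
    exact hy₂ (key w₂ N₂ hN₂ y₂ n h2 ha₂ hn)
  · exact hy₁ (key w₁ N₁ hN₁ y₁ m h1 ha₁ hm)

end TwoPlace

/-! ### Norm form: completion-free local norm groups -/

section NormForm

open WithZero
open Fermat.Agent.S14.helper2613 (SUnits)
open Fermat.Agent.S14.helper1892 (LocPow locPowSubgroup locPowS ClassGen Stmt_TateCount)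
open Fermat.Agent.S14.helper165 (normHom)

variable (F E : Type) [Field F] [NumberField F] [Field E] [Algebra F E]

/-- The completion-free local norm group of `E / F` at the place `v` of `F`: the `v`-adic
closure of `N_{E/F}(Eˣ)` in `Fˣ`. -/
noncomputable def locNorm (v : HeightOneSpectrum (𝓞 F)) : Subgroup Fˣ :=
  vClosure v (normHom F E).range

variable {F E}

theorem mem_locNorm_iff {v : HeightOneSpectrum (𝓞 F)} {x : Fˣ} :
    x ∈ locNorm F E v ↔ ∀ N : ℕ, ∃ y : Eˣ,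
      v.valuation F ((x : F) / Algebra.norm F (y : E) - 1) ≤ exp (-(N : ℤ)) := by
  constructor
  · intro h N
    obtain ⟨_, ⟨y, rfl⟩, hy⟩ := h N
    exact ⟨y, hy⟩
  · intro h N
    obtain ⟨y, hy⟩ := h N
    exact ⟨normHom F E y, ⟨y, rfl⟩, hy⟩

/-- Global norms are local norms. -/
theorem norm_mem_locNorm (v : HeightOneSpectrum (𝓞 F)) (y : Eˣ) :
    normHom F E y ∈ locNorm F E v :=
  le_vClosure v _ ⟨y, rfl⟩

/-- For an extension of degree `p`, local `p`-th powers are local norms. -/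
theorem locPowSubgroup_le_locNorm {p : ℕ} (hdeg : Module.finrank F E = p)
    (v : HeightOneSpectrum (𝓞 F)) : locPowSubgroup p v ≤ locNorm F E v := by
  intro x hx N
  obtain ⟨y, hy⟩ := hx N
  refine ⟨normHom F E (Units.map (algebraMap F E : F →* E) y), ⟨_, rfl⟩, ?_⟩
  have : ((normHom F E (Units.map (algebraMap F E : F →* E) y) : Fˣ) : F) = (y : F) ^ p := by
    show Algebra.norm F (algebraMap F E (y : F)) = (y : F) ^ p
    rw [Algebra.norm_algebraMap, hdeg]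
  rw [this]
  exact hy

/-- **Two-place theorem, norm form.**  Input: the norm-form second inequality
`[Fˣ : (⨅ v ∈ S, locNorm v) ⊔ U] ≤ p`. -/
theorem twoPlace_locNorm {p : ℕ} (hp : p.Prime) (hdeg : Module.finrank F E = p)
    (S : Finset (HeightOneSpectrum (𝓞 F))) (U : Subgroup Fˣ)
    (hidx0 : ((⨅ v ∈ S, locNorm F E v) ⊔ U).index ≠ 0)
    (hidx : ((⨅ v ∈ S, locNorm F E v) ⊔ U).index ≤ p)
    {w₁ w₂ : HeightOneSpectrum (𝓞 F)} (hw₁ : w₁ ∈ S) (hw₂ : w₂ ∈ S) (hne : w₁ ≠ w₂)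
    (y₁ y₂ : Fˣ) :
    ∃ (m n : ℤ) (a : Fˣ), ¬ ((p : ℤ) ∣ m ∧ (p : ℤ) ∣ n) ∧ a ∈ U ∧
      a / y₁ ^ m ∈ locNorm F E w₁ ∧ a / y₂ ^ n ∈ locNorm F E w₂ ∧
      ∀ v ∈ S, v ≠ w₁ → v ≠ w₂ → a ∈ locNorm F E v := by
  obtain ⟨x₁, hx₁w, hx₁⟩ := exists_locPow_target hp S hw₁ y₁
  obtain ⟨x₂, hx₂w, hx₂⟩ := exists_locPow_target hp S hw₂ y₂
  have hx₁' : ∀ v ∈ S, v ≠ w₁ → x₁ ∈ locNorm F E v :=
    fun v hv hne => locPowSubgroup_le_locNorm hdeg v (hx₁ v hv hne)
  have hx₂' : ∀ v ∈ S, v ≠ w₂ → x₂ ∈ locNorm F E v :=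
    fun v hv hne => locPowSubgroup_le_locNorm hdeg v (hx₂ v hv hne)
  obtain ⟨m, n, a, hmn, haU, ha₁, ha₂, ha⟩ :=
    @twoPlace_abstract Fˣ _ (HeightOneSpectrum (𝓞 F)) p hp.one_lt (locNorm F E) S U
      hidx0 hidx w₁ w₂ hw₁ hw₂ hne x₁ x₂ hx₁' hx₂'
  refine ⟨m, n, a, hmn, haU, ?_, ?_, ha⟩
  · have h1 : a / y₁ ^ m = (a / x₁ ^ m) * (x₁ / y₁) ^ m := by
      rw [div_zpow, div_mul_div_cancel]
    rw [h1]
    exact (locNorm F E w₁).mul_mem ha₁
      ((locNorm F E w₁).zpow_mem (locPowSubgroup_le_locNorm hdeg w₁ hx₁w) m)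
  · have h1 : a / y₂ ^ n = (a / x₂ ^ n) * (x₂ / y₂) ^ n := by
      rw [div_zpow, div_mul_div_cancel]
    rw [h1]
    exact (locNorm F E w₂).mul_mem ha₂
      ((locNorm F E w₂).zpow_mem (locPowSubgroup_le_locNorm hdeg w₂ hx₂w) n)

open Classical in
/-- **The (G-E) input, consumer form.**  `E / F` of prime degree `p`, `b` not a `p`-th power
(the Kummer generator; only Tate's count for `b` is used), `w₁ ≠ w₂` places in `S₀` at which
`E / F` has local non-norms `y₁`, `y₂`.  Then there are `S ⊇ S₀`, `T` (as in Tate's count: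
`b` is an `S`-unit and a local `p`-th power on `T`) and `a ∈ U_{S ∪ T}` such that
`a` is a local `p`-th power at every place of `S` other than `w₁, w₂` (in particular a local
norm there, with `p ∣ ord`), and `a` is NOT a local norm at `w₁` or NOT a local norm at `w₂`. -/
theorem exists_twoPlace_nonNorm {p : ℕ} (hp : p.Prime) (hdeg : Module.finrank F E = p)
    (hTC : Stmt_TateCount F p) (b : Fˣ) (hb : ¬ ∃ y : Fˣ, b = y ^ p)
    (S₀ : Finset (HeightOneSpectrum (𝓞 F)))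
    {w₁ w₂ : HeightOneSpectrum (𝓞 F)} (hw₁ : w₁ ∈ S₀) (hw₂ : w₂ ∈ S₀) (hne : w₁ ≠ w₂)
    {y₁ y₂ : Fˣ} (hy₁ : y₁ ∉ locNorm F E w₁) (hy₂ : y₂ ∉ locNorm F E w₂) :
    ∃ S T : Finset (HeightOneSpectrum (𝓞 F)), S₀ ⊆ S ∧ Disjoint S T ∧
      (∀ v : HeightOneSpectrum (𝓞 F), (p : 𝓞 F) ∈ v.asIdeal → v ∈ S) ∧ ClassGen S ∧
      b ∈ SUnits F S ∧ (∀ w ∈ T, LocPow p w b) ∧
      ∃ a : Fˣ, a ∈ SUnits F (S ∪ T) ∧ (a ∉ locNorm F E w₁ ∨ a ∉ locNorm F E w₂) ∧
        ∀ v ∈ S, v ≠ w₁ → v ≠ w₂ → LocPow p v a := by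
  obtain ⟨S, T, hS₀, hdisj, hSp, hCG, hbS, hT, m, n, a, hmn, haU, ha₁, ha₂, ha⟩ :=
    twoPlace_of_tateCount hp hTC b hb S₀ hw₁ hw₂ hne y₁ y₂
  exact ⟨S, T, hS₀, hdisj, hSp, hCG, hbS, hT, a, haU,
    not_mem_or_not_mem_of_twoPlace hp (locNorm F E w₁) (locNorm F E w₂)
      (locPowSubgroup_le_locNorm hdeg w₁) (locPowSubgroup_le_locNorm hdeg w₂) hy₁ hy₂ hmn ha₁ ha₂,
    ha⟩

end NormForm

end Fermat.Agent.S55.helper3595
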