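/-
S55 (Poitou–Tate), number-field core, leaf NF-APPROX-OPEN (seat helper3595).

Discharges two auxiliary interfaces of `helper1980_HasseSpec` that had no owner:

* `stmt_ApproxN F : helper1980.Stmt_ApproxN F` — simultaneous multiplicative weak approximation
  of finitely many elements of `Fˣ` at finitely many places, to any precision;
* `stmt_LocPowOpen F hp : helper1980.Stmt_LocPowOpen F p` — elements close to `1` at `v` are
  local `p`-th powers (Hensel, from S14 `helper4204`).

Also exported: `oneUnits v N`, the subgroup of `Fˣ` of elements `≡ 1` to precision `N + 1`.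
-/
import Mathlib
import Fermat.Agent.S55.helper3595_TwoPlace
import Fermat.Agent.S55.helper1980_HasseSpec

set_option autoImplicit false

open IsDedekindDomain NumberField

namespace Fermat.Agent.S55.helper3595

open WithZero

section OneUnits

variable {F : Type*} [Field F] [NumberField F]

/-- The subgroup of `Fˣ` of elements `x` with `ord_v (x - 1) ≥ N + 1`. -/
def oneUnits (v : HeightOneSpectrum (𝓞 F)) (N : ℕ) : Subgroup Fˣ where
  carrier := {x | v.valuation F ((x : F) - 1) ≤ exp (-((N + 1 : ℕ) : ℤ))}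
  one_mem' := by simp
  mul_mem' := by
    intro x y hx hy
    have hx' : v.valuation F ((x : F) - 1) ≤ exp (-((N + 1 : ℕ) : ℤ)) := hx
    have hy' : v.valuation F ((y : F) - 1) ≤ exp (-((N + 1 : ℕ) : ℤ)) := hy
    have h1 : v.valuation F (y : F) = 1 := val_eq_one_of_sub_one_le v hy'
    have key : ((x * y : Fˣ) : F) - 1 = ((x : F) - 1) * (y : F) + ((y : F) - 1) := by
      push_cast; ring
    show v.valuation F (((x * y : Fˣ) : F) - 1) ≤ exp (-((N + 1 : ℕ) : ℤ))
    rw [key]
    refine Valuation.map_add_le _ ?_ hy'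
    rw [map_mul, h1, mul_one]
    exact hx'
  inv_mem' := by
    intro x hx
    have hx' : v.valuation F ((x : F) - 1) ≤ exp (-((N + 1 : ℕ) : ℤ)) := hx
    have h1 : v.valuation F (x : F) = 1 := val_eq_one_of_sub_one_le v hx'
    have hx0 : (x : F) ≠ 0 := x.ne_zero
    have key : ((x⁻¹ : Fˣ) : F) - 1 = -((x : F) - 1) * (x : F)⁻¹ := by
      push_cast; field_simp; ring
    show v.valuation F (((x⁻¹ : Fˣ) : F) - 1) ≤ exp (-((N + 1 : ℕ) : ℤ))
    rw [key, map_mul, map_inv₀, h1, inv_one, mul_one, Valuation.map_neg]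
    exact hx'

@[simp] theorem mem_oneUnits {v : HeightOneSpectrum (𝓞 F)} {N : ℕ} {x : Fˣ} :
    x ∈ oneUnits v N ↔ v.valuation F ((x : F) - 1) ≤ exp (-((N + 1 : ℕ) : ℤ)) := Iff.rfl

/-- **Simultaneous multiplicative weak approximation**: for finitely many places and arbitrary
targets `x v : Fˣ` there is `z : Fˣ` with `ord_v (z / x v - 1) ≥ N` for all `v ∈ S`. -/
theorem exists_approx_targets (S : Finset (HeightOneSpectrum (𝓞 F)))
    (x : HeightOneSpectrum (𝓞 F) → Fˣ) (N : ℕ) :
    ∃ z : Fˣ, ∀ v ∈ S, v.valuation F ((z : F) / (x v : F) - 1) ≤ exp (-(N : ℤ)) := by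
  classical
  choose z hz₀ hz using fun v : HeightOneSpectrum (𝓞 F) => exists_approx_target S v (x v) (N + 1)
  refine ⟨∏ v ∈ S, z v, fun w hw => ?_⟩
  have hmem : (∏ v ∈ S, z v) / x w ∈ oneUnits w N := by
    have hsplit : (∏ v ∈ S, z v) / x w = (z w / x w) * ∏ v ∈ S.erase w, z v := by
      rw [← Finset.mul_prod_erase S z hw, div_mul_eq_mul_div]
    rw [hsplit]
    refine (oneUnits w N).mul_mem ?_ (Subgroup.prod_mem _ fun v hv => ?_)
    · show w.valuation F (((z w / x w : Fˣ) : F) - 1) ≤ exp (-((N + 1 : ℕ) : ℤ))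
      have : ((z w / x w : Fˣ) : F) = (z w : F) / (x w : F) := by push_cast; rfl
      rw [this]
      exact hz₀ w
    · have hvS : v ∈ S := Finset.mem_of_mem_erase hv
      have hvw : v ≠ w := Finset.ne_of_mem_erase hv
      exact hz v w hw (Ne.symm hvw)
  have h2 : w.valuation F ((((∏ v ∈ S, z v) / x w : Fˣ) : F) - 1) ≤ exp (-((N + 1 : ℕ) : ℤ)) :=
    hmem
  have h3 : (((∏ v ∈ S, z v) / x w : Fˣ) : F) = ((∏ v ∈ S, z v : Fˣ) : F) / (x w : F) := by
    push_cast; rfl
  rw [h3] at h2
  exact h2.trans (exp_neg_succ_le N)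

end OneUnits

section Discharge

variable (F : Type) [Field F] [NumberField F]

/-- `helper1980.Stmt_ApproxN F` holds. -/
theorem stmt_ApproxN : Fermat.Agent.S55.helper1980.Stmt_ApproxN F :=
  fun S x N => exists_approx_targets S x N

/-- `helper1980.Stmt_LocPowOpen F p` holds for every prime `p`. -/
theorem stmt_LocPowOpen {p : ℕ} (hp : p.Prime) :
    Fermat.Agent.S55.helper1980.Stmt_LocPowOpen F p :=
  fun v => ⟨2 * Fermat.Agent.S14.helper4204.ordP v p + 1, fun _ hx =>
    Fermat.Agent.S14.helper4204.locPow_of_valuation_sub_one_le v hp (Nat.lt_succ_self _) hx⟩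

end Discharge

end Fermat.Agent.S55.helper3595
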