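/-
S55 / GC-LEVEL (helper55): level-aware inflation-restriction in degree 2 and the cyclic layer.

The landed degree-2 inflation-restriction (`helper3644`) assumes `H¹(N, A) = 0` for ALL abstract
1-cocycles of `N`.  For an infinite Galois group (`N = Gal(Ω/E)` acting on `Ωˣ`) this is false:
only LEVEL cocycles (right-invariant under an open normal subgroup `U`) are coboundaries
(Hilbert 90 in level form).  This file proves the level-aware statements, for an arbitrary
group `G`, a normal subgroup `N` and a normal subgroup `U ≤ N` (the level), by passing to the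
quotient `G ⧸ U` acting on the `U`-fixed points and applying the landed finite statements
(`helper3644` inflation-restriction, `helper6440` cyclic `H²`).

Main statements (additive; multiplicative twins at the end of the file):

* `level_exists_inflated` (A) : a right-`U`-invariant 2-cocycle whose restriction to `N` is the
  coboundary of a right-`U`-invariant cochain is `f' + d y` with `y` right-`U`-invariant and
  `f'` a 2-cocycle, right-`N`-invariant in both variables, with `N`-fixed values.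
* `level_isCoboundary₂_descend` (B) : a right-`N`-invariant function which is the coboundary of
  a right-`U`-invariant cochain is the coboundary of a right-`N`-invariant one.
* `exists_cyc_of_rightInv` (C1) : `χ : G → ZMod n` additive with kernel `N`, `χ σ = 1`: every
  right-`N`-invariant 2-cocycle is `cyc χ b + d x`, `b` fixed by `G`, `x` right-`N`-invariant.
* `cyc_level_coboundary_iff` (C2) : `cyc χ b` is the coboundary of a right-`U`-invariant cochain
  iff `b = ∑ j < n, σ ^ j • y` for an `N`-fixed `y`.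
* `level_cyclic_layer` (T) : (A) + (C1).
-/
import Mathlib
import Fermat.Agent.S55.helper3644_InfRes2
import Fermat.Agent.S55.helper6440_CyclicH2

set_option autoImplicit false

namespace Fermat.Agent.S55.helper55

open groupCohomology

/-! ## The quotient `G ⧸ U` acting on the `U`-fixed points -/

section Quot

variable {G A : Type*} [Group G] [AddCommGroup A] [DistribMulAction G A]

/-- The additive subgroup of points fixed by the subgroup `U`. -/
def fixedBy (A : Type*) [AddCommGroup A] [DistribMulAction G A] (U : Subgroup G) :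
    AddSubgroup A where
  carrier := {a | ∀ u ∈ U, u • a = a}
  add_mem' := fun {a b} ha hb u hu => by rw [smul_add, ha u hu, hb u hu]
  zero_mem' := fun u _ => smul_zero u
  neg_mem' := fun {a} ha u hu => by rw [smul_neg, ha u hu]

lemma mem_fixedBy {U : Subgroup G} {a : A} : a ∈ fixedBy A U ↔ ∀ u ∈ U, u • a = a := Iff.rfl

lemma smul_mem_fixedBy (U : Subgroup G) [hU : U.Normal] (g : G) {a : A} (ha : a ∈ fixedBy A U) :
    g • a ∈ fixedBy A U := by
  intro u hu
  have h1 : g⁻¹ * u * g ∈ U := by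
    have := hU.conj_mem u hu g⁻¹
    simpa using this
  have h2 := ha _ h1
  calc u • g • a = g • (g⁻¹ * u * g) • a := by
        rw [← mul_smul, ← mul_smul]; congr 1; group
    _ = g • a := by rw [h2]

/-- The action of `G` on the `U`-fixed points, as a monoid hom. -/
def fixedHom (A : Type*) [AddCommGroup A] [DistribMulAction G A] (U : Subgroup G) [U.Normal] :
    G →* AddMonoid.End (fixedBy A U) where
  toFun g :=
    { toFun := fun a => ⟨g • a.1, smul_mem_fixedBy U g a.2⟩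
      map_zero' := Subtype.ext (smul_zero g)
      map_add' := fun a b => Subtype.ext (smul_add g a.1 b.1) }
  map_one' := by
    ext a
    exact one_smul G a.1
  map_mul' := fun g h => by
    ext a
    exact mul_smul g h a.1

lemma fixedHom_apply_coe (U : Subgroup G) [U.Normal] (g : G) (a : fixedBy A U) :
    ((fixedHom A U g a : fixedBy A U) : A) = g • (a : A) := rfl

lemma le_ker_fixedHom (U : Subgroup G) [U.Normal] : U ≤ (fixedHom A U).ker := by
  intro u hu
  rw [MonoidHom.mem_ker]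
  ext a
  exact a.2 u hu

/-- The induced hom `G ⧸ U →* End (A^U)`. -/
def quotHom (A : Type*) [AddCommGroup A] [DistribMulAction G A] (U : Subgroup G) [U.Normal] :
    G ⧸ U →* AddMonoid.End (fixedBy A U) :=
  QuotientGroup.lift U (fixedHom A U) (le_ker_fixedHom U)

/-- The action of `G ⧸ U` on the `U`-fixed points (not an instance; used locally). -/
@[reducible] def quotAction (A : Type*) [AddCommGroup A] [DistribMulAction G A]
    (U : Subgroup G) [U.Normal] : DistribMulAction (G ⧸ U) (fixedBy A U) :=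
  DistribMulAction.compHom (fixedBy A U) (quotHom A U)

lemma quot_smul_coe (U : Subgroup G) [U.Normal] (g : G) (a : fixedBy A U) :
    letI := quotAction A U
    (((g : G ⧸ U) • a : fixedBy A U) : A) = g • (a : A) := rfl

end Quot

attribute [local instance] quotAction

/-! ## Descent of level cochains to the quotient -/

section Descent

variable {G A : Type*} [Group G] [AddCommGroup A] [DistribMulAction G A]

/-- A 2-cocycle which is right-invariant under a normal subgroup `U` in both variables has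
`U`-fixed values. -/
lemma smul_eq_of_cocycle_rightInv {U : Subgroup G} [hU : U.Normal] {f : G × G → A}
    (hf : IsCocycle₂ f) (hfU : ∀ g h, ∀ s ∈ U, ∀ t ∈ U, f (g * s, h * t) = f (g, h))
    (g h : G) {u : G} (hu : u ∈ U) : u • f (g, h) = f (g, h) := by
  have h1 : ∀ j, f (1, j) = f (1, 1) := by
    intro j
    have := hf 1 1 j
    simp only [one_mul, one_smul] at this
    exact (add_left_cancel this).symm
  have h2 := hf u g h
  have e1 : f (u * g, h) = f (g, h) := by
    have hc : g⁻¹ * u * g ∈ U := by simpa using hU.conj_mem u hu g⁻¹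
    have := hfU g h _ hc 1 U.one_mem
    rw [mul_one] at this
    rw [← this]; congr 2; group
  have e2 : ∀ k, f (u, k) = f (1, 1) := by
    intro k
    have := hfU 1 k u hu 1 U.one_mem
    rw [one_mul, mul_one] at this
    rw [this, h1]
  rw [e1, e2, e2] at h2
  exact (add_right_cancel h2).symm

/-- A right-`U`-invariant primitive of a right-`U`-invariant function has `U`-fixed values. -/
lemma smul_eq_of_primitive_rightInv {U : Subgroup G} [hU : U.Normal] {f : G × G → A}
    {x : G → A} (hfU : ∀ g h, ∀ s ∈ U, ∀ t ∈ U, f (g * s, h * t) = f (g, h))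
    (hxU : ∀ g, ∀ s ∈ U, x (g * s) = x g)
    (hx : ∀ g h, g • x h - x (g * h) + x g = f (g, h))
    (g : G) {u : G} (hu : u ∈ U) : u • x g = x g := by
  have h1 := hx u g
  have h2 := hx 1 g
  rw [one_smul, one_mul, sub_self, zero_add] at h2
  have e1 : x (u * g) = x g := by
    have hc : g⁻¹ * u * g ∈ U := by simpa using hU.conj_mem u hu g⁻¹
    rw [← hxU g _ hc]; congr 1; group
  have e2 : x u = x 1 := by simpa using hxU 1 u hu
  have e3 : f (u, g) = f (1, g) := by
    have := hfU 1 g u hu 1 U.one_mem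
    simpa using this
  rw [e1, e2, e3, ← h2] at h1
  have h3 : u • x g - x g = 0 := by simpa using h1
  exact sub_eq_zero.mp h3

/-- The coboundary of a 1-cochain is a 2-cocycle. -/
lemma isCocycle₂_of_primitive {f : G × G → A} {x : G → A}
    (hx : ∀ g h, g • x h - x (g * h) + x g = f (g, h)) : IsCocycle₂ f := by
  intro g h j
  rw [← hx, ← hx, ← hx, ← hx]
  simp only [smul_add, smul_sub, mul_smul, mul_assoc]
  abel

lemma exists_desc₁ (U : Subgroup G) [U.Normal] (x : G → A)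
    (hxU : ∀ g, ∀ s ∈ U, x (g * s) = x g) (hval : ∀ g, ∀ u ∈ U, u • x g = x g) :
    ∃ xb : G ⧸ U → fixedBy A U, ∀ g : G, (xb (g : G ⧸ U) : A) = x g := by
  refine ⟨fun q => ⟨x q.out, hval _⟩, fun g => ?_⟩
  obtain ⟨s, hs⟩ := QuotientGroup.mk_out_eq_mul U g
  show x (Quotient.out (g : G ⧸ U)) = x g
  rw [hs, hxU g s s.2]

lemma exists_desc₂ (U : Subgroup G) [U.Normal] (f : G × G → A)
    (hfU : ∀ g h, ∀ s ∈ U, ∀ t ∈ U, f (g * s, h * t) = f (g, h))
    (hval : ∀ g h, ∀ u ∈ U, u • f (g, h) = f (g, h)) :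
    ∃ fb : (G ⧸ U) × (G ⧸ U) → fixedBy A U,
      ∀ g h : G, (fb ((g : G ⧸ U), (h : G ⧸ U)) : A) = f (g, h) := by
  refine ⟨fun p => ⟨f (p.1.out, p.2.out), hval _ _⟩, fun g h => ?_⟩
  obtain ⟨s, hs⟩ := QuotientGroup.mk_out_eq_mul U g
  obtain ⟨t, ht⟩ := QuotientGroup.mk_out_eq_mul U h
  show f (Quotient.out (g : G ⧸ U), Quotient.out (h : G ⧸ U)) = f (g, h)
  rw [hs, ht, hfU g h s s.2 t t.2]

lemma isCocycle₂_desc (U : Subgroup G) [U.Normal] {f : G × G → A}
    {fb : (G ⧸ U) × (G ⧸ U) → fixedBy A U}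
    (hfb : ∀ g h : G, (fb ((g : G ⧸ U), (h : G ⧸ U)) : A) = f (g, h)) (hf : IsCocycle₂ f) :
    IsCocycle₂ fb := by
  intro q1 q2 q3
  obtain ⟨g, rfl⟩ := QuotientGroup.mk_surjective q1
  obtain ⟨h, rfl⟩ := QuotientGroup.mk_surjective q2
  obtain ⟨j, rfl⟩ := QuotientGroup.mk_surjective q3
  apply Subtype.ext
  rw [← QuotientGroup.mk_mul, ← QuotientGroup.mk_mul]
  rw [AddSubgroup.coe_add, AddSubgroup.coe_add, quot_smul_coe, hfb, hfb, hfb, hfb]
  exact hf g h j

lemma primitive_desc (U : Subgroup G) [U.Normal] {f : G × G → A} {x : G → A}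
    {fb : (G ⧸ U) × (G ⧸ U) → fixedBy A U} {xb : G ⧸ U → fixedBy A U}
    (hfb : ∀ g h : G, (fb ((g : G ⧸ U), (h : G ⧸ U)) : A) = f (g, h))
    (hxb : ∀ g : G, (xb (g : G ⧸ U) : A) = x g)
    (hx : ∀ g h, g • x h - x (g * h) + x g = f (g, h)) :
    ∀ q q' : G ⧸ U, q • xb q' - xb (q * q') + xb q = fb (q, q') := by
  intro q q'
  obtain ⟨g, rfl⟩ := QuotientGroup.mk_surjective q
  obtain ⟨h, rfl⟩ := QuotientGroup.mk_surjective q'
  apply Subtype.ext
  rw [← QuotientGroup.mk_mul]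
  rw [AddSubgroup.coe_add, AddSubgroup.coe_sub, quot_smul_coe, hfb, hxb, hxb, hxb]
  exact hx g h

lemma primitive_lift (U : Subgroup G) [U.Normal]
    {fb : (G ⧸ U) × (G ⧸ U) → fixedBy A U} {xb : G ⧸ U → fixedBy A U}
    (hx : ∀ q q' : G ⧸ U, q • xb q' - xb (q * q') + xb q = fb (q, q')) (g h : G) :
    g • (xb (h : G ⧸ U) : A) - (xb ((g * h : G) : G ⧸ U) : A) + (xb (g : G ⧸ U) : A)
      = (fb ((g : G ⧸ U), (h : G ⧸ U)) : A) := by
  have := congrArg (fun a : fixedBy A U => (a : A)) (hx (g : G ⧸ U) (h : G ⧸ U))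
  simpa only [AddSubgroup.coe_add, AddSubgroup.coe_sub, quot_smul_coe, QuotientGroup.mk_mul]
    using this

lemma isCocycle₂_lift (U : Subgroup G) [U.Normal]
    {fb : (G ⧸ U) × (G ⧸ U) → fixedBy A U} (hfb : IsCocycle₂ fb) :
    IsCocycle₂ (fun p : G × G => (fb ((p.1 : G ⧸ U), (p.2 : G ⧸ U)) : A)) := by
  intro g h j
  have := congrArg (fun a : fixedBy A U => (a : A)) (hfb (g : G ⧸ U) (h : G ⧸ U) (j : G ⧸ U))
  simpa only [AddSubgroup.coe_add, quot_smul_coe, QuotientGroup.mk_mul] using this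

lemma mk_mem_map_iff (N U : Subgroup G) [U.Normal] (hUN : U ≤ N) (g : G) :
    (g : G ⧸ U) ∈ N.map (QuotientGroup.mk' U) ↔ g ∈ N := by
  constructor
  · rintro ⟨n, hn, hng⟩
    have h1 : n⁻¹ * g ∈ U := QuotientGroup.eq.mp hng
    have := N.mul_mem hn (hUN h1)
    simpa using this
  · intro hg
    exact ⟨g, hg, rfl⟩

end Descent

/-! ## (A), (B): level-aware inflation-restriction -/

section Main

variable {G A : Type*} [Group G] [AddCommGroup A] [DistribMulAction G A]

/-- Level `H¹`-vanishing on `N` gives `H¹(N/U, A^U) = 0`. -/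
lemma quot_H1 (N U : Subgroup G) [U.Normal] (hUN : U ≤ N)
    (hH1 : ∀ c : N → A, IsCocycle₁ c → (∀ n s : N, (s : G) ∈ U → c (n * s) = c n) →
      IsCoboundary₁ c) :
    ∀ c : (N.map (QuotientGroup.mk' U)) → fixedBy A U, IsCocycle₁ c → IsCoboundary₁ c := by
  intro cb hcb
  have hmem : ∀ n : N, ((n : G) : G ⧸ U) ∈ N.map (QuotientGroup.mk' U) :=
    fun n => (mk_mem_map_iff N U hUN n).2 n.2
  have hc : IsCocycle₁ (fun n : N => (cb ⟨((n : G) : G ⧸ U), hmem n⟩ : A)) := by
    intro n m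
    have := congrArg (fun a : fixedBy A U => (a : A))
      (hcb ⟨((n : G) : G ⧸ U), hmem n⟩ ⟨((m : G) : G ⧸ U), hmem m⟩)
    exact this
  have hcU : ∀ n s : N, (s : G) ∈ U →
      (cb ⟨(((n * s : N) : G) : G ⧸ U), hmem (n * s)⟩ : A) = (cb ⟨((n : G) : G ⧸ U), hmem n⟩ : A) := by
    intro n s hs
    have e : (⟨(((n * s : N) : G) : G ⧸ U), hmem (n * s)⟩ : N.map (QuotientGroup.mk' U))
        = ⟨((n : G) : G ⧸ U), hmem n⟩ := by
      apply Subtype.ext
      show (((n : G) * (s : G) : G) : G ⧸ U) = ((n : G) : G ⧸ U)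
      exact QuotientGroup.mk_mul_of_mem _ hs
    rw [e]
  obtain ⟨b, hb⟩ := hH1 _ hc hcU
  have hcb1 : cb 1 = 0 := by
    have := hcb 1 1
    rw [one_mul, one_smul] at this
    exact (add_left_cancel (a := cb 1) (by rw [add_zero]; exact this)).symm
  have hbfix : b ∈ fixedBy A U := by
    intro s hs
    have h1 := hb ⟨s, hUN hs⟩
    have e : (⟨((s : G) : G ⧸ U), hmem ⟨s, hUN hs⟩⟩ : N.map (QuotientGroup.mk' U)) = 1 := by
      apply Subtype.ext
      exact (QuotientGroup.eq_one_iff s).2 hs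
    have h2 : (cb ⟨((s : G) : G ⧸ U), hmem ⟨s, hUN hs⟩⟩ : A) = 0 := by
      rw [e, hcb1]; rfl
    have h3 : s • b - b = 0 := by
      rw [← h2]; exact h1
    exact sub_eq_zero.mp h3
  refine ⟨⟨b, hbfix⟩, fun q => ?_⟩
  obtain ⟨Q, hQ⟩ := q
  obtain ⟨g, rfl⟩ := QuotientGroup.mk_surjective Q
  have hg : g ∈ N := (mk_mem_map_iff N U hUN g).1 hQ
  apply Subtype.ext
  exact hb ⟨g, hg⟩

/-- **(A) Level-aware inflation-restriction, exactness at `H²`.**  `N`, `U` normal, `U ≤ N`;
only right-`U`-invariant 1-cocycles of `N` are assumed to be coboundaries.  A right-`U`-invariant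
2-cocycle `f` whose restriction to `N` is the coboundary of a right-`U`-invariant cochain is
`f' + d y` with `y` right-`U`-invariant, `f'` a 2-cocycle which is right-`N`-invariant in both
variables and has `N`-fixed values. -/
theorem level_exists_inflated (N U : Subgroup G) [N.Normal] [U.Normal] (hUN : U ≤ N)
    (hH1 : ∀ c : N → A, IsCocycle₁ c → (∀ n s : N, (s : G) ∈ U → c (n * s) = c n) →
      IsCoboundary₁ c)
    {f : G × G → A} (hf : IsCocycle₂ f)
    (hfU : ∀ g h, ∀ s ∈ U, ∀ t ∈ U, f (g * s, h * t) = f (g, h))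
    (u : N → A) (huU : ∀ n s : N, (s : G) ∈ U → u (n * s) = u n)
    (hu : ∀ a b : N, a • u b - u (a * b) + u a = f (a, b)) :
    ∃ (y : G → A) (f' : G × G → A), IsCocycle₂ f' ∧
      (∀ g, ∀ s ∈ U, y (g * s) = y g) ∧
      (∀ g h, f (g, h) = f' (g, h) + (g • y h - y (g * h) + y g)) ∧
      (∀ g h, ∀ n ∈ N, ∀ m ∈ N, f' (g * n, h * m) = f' (g, h)) ∧
      (∀ g h, ∀ n ∈ N, n • f' (g, h) = f' (g, h)) := by
  classical
  have hNn : N.Normal := inferInstance
  have hmem : ∀ n : N, ((n : G) : G ⧸ U) ∈ N.map (QuotientGroup.mk' U) :=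
    fun n => (mk_mem_map_iff N U hUN n).2 n.2
  -- descend `f`
  obtain ⟨fb, hfb⟩ := exists_desc₂ U f hfU (fun g h u hu => smul_eq_of_cocycle_rightInv hf hfU g h hu)
  have hfbc : IsCocycle₂ fb := isCocycle₂_desc U hfb hf
  -- values of `u` are `U`-fixed
  have huval : ∀ n : N, ∀ s ∈ U, s • u n = u n := by
    intro n s hs
    have hUn : (U.subgroupOf N).Normal := inferInstance
    have := smul_eq_of_primitive_rightInv (G := N) (A := A) (U := U.subgroupOf N)
      (f := fun p : N × N => f ((p.1 : G), (p.2 : G))) (x := u)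
      (fun g h s hs t ht => hfU g h s (Subgroup.mem_subgroupOf.1 hs) t (Subgroup.mem_subgroupOf.1 ht))
      (fun g s hs => huU g s (Subgroup.mem_subgroupOf.1 hs))
      hu n (u := ⟨s, hUN hs⟩) (Subgroup.mem_subgroupOf.2 hs)
    exact this
  -- descend `u` to `N/U`
  have hout : ∀ q : N.map (QuotientGroup.mk' U), (q : G ⧸ U).out ∈ N := by
    intro q
    have h1 : (((q : G ⧸ U).out : G) : G ⧸ U) ∈ N.map (QuotientGroup.mk' U) := by
      rw [QuotientGroup.out_eq']; exact q.2
    exact (mk_mem_map_iff N U hUN _).1 h1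
  let ub : N.map (QuotientGroup.mk' U) → fixedBy A U :=
    fun q => ⟨u ⟨(q : G ⧸ U).out, hout q⟩, huval _⟩
  have hub : ∀ n : N, (ub ⟨((n : G) : G ⧸ U), hmem n⟩ : A) = u n := by
    intro n
    obtain ⟨s, hs⟩ := QuotientGroup.mk_out_eq_mul U (n : G)
    have e : (⟨Quotient.out ((n : G) : G ⧸ U), hout ⟨((n : G) : G ⧸ U), hmem n⟩⟩ : N)
        = n * ⟨s, hUN s.2⟩ := Subtype.ext hs
    show u ⟨Quotient.out ((n : G) : G ⧸ U), hout ⟨((n : G) : G ⧸ U), hmem n⟩⟩ = u n
    rw [e]
    exact huU n ⟨s, hUN s.2⟩ s.2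
  have hres : IsCoboundary₂ (fun nm : (N.map (QuotientGroup.mk' U)) × (N.map (QuotientGroup.mk' U))
      => fb ((nm.1 : G ⧸ U), (nm.2 : G ⧸ U))) := by
    refine ⟨ub, fun a b => ?_⟩
    obtain ⟨Qa, hQa⟩ := a
    obtain ⟨Qb, hQb⟩ := b
    obtain ⟨g, rfl⟩ := QuotientGroup.mk_surjective Qa
    obtain ⟨h, rfl⟩ := QuotientGroup.mk_surjective Qb
    have hg : g ∈ N := (mk_mem_map_iff N U hUN g).1 hQa
    have hh : h ∈ N := (mk_mem_map_iff N U hUN h).1 hQb
    apply Subtype.ext
    have h1 := hu ⟨g, hg⟩ ⟨h, hh⟩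
    have h2 := hub ⟨g, hg⟩
    have h3 := hub ⟨h, hh⟩
    have h4 := hub (⟨g, hg⟩ * ⟨h, hh⟩)
    show g • (ub ⟨(h : G ⧸ U), hQb⟩ : A) - (ub (⟨(g : G ⧸ U), hQa⟩ * ⟨(h : G ⧸ U), hQb⟩) : A)
      + (ub ⟨(g : G ⧸ U), hQa⟩ : A) = (fb ((g : G ⧸ U), (h : G ⧸ U)) : A)
    rw [hfb]
    rw [← h1, ← h2, ← h3, ← h4]
    rfl
  have hNb : (N.map (QuotientGroup.mk' U)).Normal :=
    Subgroup.Normal.map hNn _ (QuotientGroup.mk'_surjective U)
  obtain ⟨yb, fb', h1, h2, h3, h4⟩ :=
    helper3644.exists_inflated_of_res_isCoboundary₂ (G := G ⧸ U) (A := fixedBy A U)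
      (N.map (QuotientGroup.mk' U)) (quot_H1 N U hUN hH1) hfbc hres
  refine ⟨fun g => (yb (g : G ⧸ U) : A), fun p => (fb' ((p.1 : G ⧸ U), (p.2 : G ⧸ U)) : A),
    isCocycle₂_lift U h1, ?_, ?_, ?_, ?_⟩
  · intro g s hs
    show (yb ((g * s : G) : G ⧸ U) : A) = (yb (g : G ⧸ U) : A)
    rw [QuotientGroup.mk_mul_of_mem _ hs]
  · intro g h
    have := congrArg (fun a : fixedBy A U => (a : A)) (h2 (g : G ⧸ U) (h : G ⧸ U))
    rw [← hfb]
    simpa only [AddSubgroup.coe_add, AddSubgroup.coe_sub, quot_smul_coe, QuotientGroup.mk_mul]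
      using this
  · intro g h n hn m hm
    have := h3 (g : G ⧸ U) (h : G ⧸ U) (n : G ⧸ U) ((mk_mem_map_iff N U hUN n).2 hn)
      (m : G ⧸ U) ((mk_mem_map_iff N U hUN m).2 hm)
    show (fb' (((g * n : G) : G ⧸ U), ((h * m : G) : G ⧸ U)) : A) = (fb' ((g : G ⧸ U), (h : G ⧸ U)) : A)
    rw [QuotientGroup.mk_mul, QuotientGroup.mk_mul, this]
  · intro g h n hn
    have := congrArg (fun a : fixedBy A U => (a : A))
      (h4 (g : G ⧸ U) (h : G ⧸ U) (n : G ⧸ U) ((mk_mem_map_iff N U hUN n).2 hn))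
    exact this

/-- **(B) Level-aware injectivity of inflation.**  A function `f'` on `G × G` which is
right-`N`-invariant in both variables and is the coboundary of a right-`U`-invariant 1-cochain
is the coboundary of a right-`N`-invariant 1-cochain with `N`-fixed values. -/
theorem level_isCoboundary₂_descend (N U : Subgroup G) [N.Normal] [U.Normal] (hUN : U ≤ N)
    (hH1 : ∀ c : N → A, IsCocycle₁ c → (∀ n s : N, (s : G) ∈ U → c (n * s) = c n) →
      IsCoboundary₁ c)
    {f' : G × G → A}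
    (hconst : ∀ g h, ∀ n ∈ N, ∀ m ∈ N, f' (g * n, h * m) = f' (g, h))
    (x : G → A) (hxU : ∀ g, ∀ s ∈ U, x (g * s) = x g)
    (hx : ∀ g h, g • x h - x (g * h) + x g = f' (g, h)) :
    ∃ x' : G → A, (∀ g h, g • x' h - x' (g * h) + x' g = f' (g, h)) ∧
      (∀ g, ∀ n ∈ N, x' (g * n) = x' g) ∧ (∀ g, ∀ n ∈ N, n • x' g = x' g) := by
  classical
  have hNn : N.Normal := inferInstance
  have hf' : IsCocycle₂ f' := isCocycle₂_of_primitive hx
  have hinv : ∀ g h, ∀ n ∈ N, n • f' (g, h) = f' (g, h) :=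
    fun g h n hn => smul_eq_of_cocycle_rightInv hf' hconst g h hn
  have hfU : ∀ g h, ∀ s ∈ U, ∀ t ∈ U, f' (g * s, h * t) = f' (g, h) :=
    fun g h s hs t ht => hconst g h s (hUN hs) t (hUN ht)
  obtain ⟨fb, hfb⟩ := exists_desc₂ U f' hfU (fun g h u hu => hinv g h u (hUN hu))
  obtain ⟨xb, hxb⟩ := exists_desc₁ U x hxU
    (fun g u hu => smul_eq_of_primitive_rightInv hfU hxU hx g hu)
  have hxb' := primitive_desc U hfb hxb hx
  have hNb : (N.map (QuotientGroup.mk' U)).Normal :=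
    Subgroup.Normal.map hNn _ (QuotientGroup.mk'_surjective U)
  have hconst' : ∀ q q' : G ⧸ U, ∀ a ∈ N.map (QuotientGroup.mk' U),
      ∀ b ∈ N.map (QuotientGroup.mk' U), fb (q * a, q' * b) = fb (q, q') := by
    intro q q' a ha b hb
    obtain ⟨g, rfl⟩ := QuotientGroup.mk_surjective q
    obtain ⟨h, rfl⟩ := QuotientGroup.mk_surjective q'
    obtain ⟨n, rfl⟩ := QuotientGroup.mk_surjective a
    obtain ⟨m, rfl⟩ := QuotientGroup.mk_surjective b
    apply Subtype.ext
    rw [← QuotientGroup.mk_mul, ← QuotientGroup.mk_mul, hfb, hfb]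
    exact hconst g h n ((mk_mem_map_iff N U hUN n).1 ha) m ((mk_mem_map_iff N U hUN m).1 hb)
  have hinv' : ∀ q q' : G ⧸ U, ∀ a ∈ N.map (QuotientGroup.mk' U), a • fb (q, q') = fb (q, q') := by
    intro q q' a ha
    obtain ⟨g, rfl⟩ := QuotientGroup.mk_surjective q
    obtain ⟨h, rfl⟩ := QuotientGroup.mk_surjective q'
    obtain ⟨n, rfl⟩ := QuotientGroup.mk_surjective a
    apply Subtype.ext
    rw [quot_smul_coe, hfb]
    exact hinv g h n ((mk_mem_map_iff N U hUN n).1 ha)
  obtain ⟨xb', h1, h2, h3⟩ :=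
    helper3644.isCoboundary₂_descend (G := G ⧸ U) (A := fixedBy A U)
      (N.map (QuotientGroup.mk' U)) (quot_H1 N U hUN hH1) hconst' hinv' xb hxb'
  refine ⟨fun g => (xb' (g : G ⧸ U) : A), ?_, ?_, ?_⟩
  · intro g h
    rw [← hfb]
    exact primitive_lift U h1 g h
  · intro g n hn
    have := h2 (g : G ⧸ U) (n : G ⧸ U) ((mk_mem_map_iff N U hUN n).2 hn)
    show (xb' ((g * n : G) : G ⧸ U) : A) = (xb' (g : G ⧸ U) : A)
    rw [QuotientGroup.mk_mul, this]
  · intro g n hn
    have := congrArg (fun a : fixedBy A U => (a : A))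
      (h3 (g : G ⧸ U) (n : G ⧸ U) ((mk_mem_map_iff N U hUN n).2 hn))
    exact this

end Main

/-! ## (C): the cyclic layer -/

section Cyclic

variable {G A : Type*} [Group G] [AddCommGroup A] [DistribMulAction G A]

lemma chi_one' {n : ℕ} {χ : G → ZMod n} (hχ : ∀ g h, χ (g * h) = χ g + χ h) : χ 1 = 0 := by
  have := hχ 1 1
  rw [one_mul] at this
  exact (add_left_cancel (a := χ 1) (by rw [add_zero]; exact this)).symm

lemma chi_inv' {n : ℕ} {χ : G → ZMod n} (hχ : ∀ g h, χ (g * h) = χ g + χ h) (g : G) :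
    χ g⁻¹ = -χ g := by
  have := hχ g⁻¹ g
  rw [inv_mul_cancel, chi_one' hχ] at this
  exact eq_neg_of_add_eq_zero_left this.symm

/-- The character induced on the quotient by its kernel. -/
lemma exists_chi_quot {n : ℕ} (N : Subgroup G) [N.Normal] {χ : G → ZMod n}
    (hχ : ∀ g h, χ (g * h) = χ g + χ h) (hN : ∀ g, g ∈ N ↔ χ g = 0) :
    ∃ χb : G ⧸ N → ZMod n, (∀ g : G, χb (g : G ⧸ N) = χ g) ∧
      (∀ q q', χb (q * q') = χb q + χb q') ∧ Function.Injective χb := by
  have hmk : ∀ g : G, χ (Quotient.out (g : G ⧸ N)) = χ g := by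
    intro g
    obtain ⟨s, hs⟩ := QuotientGroup.mk_out_eq_mul N g
    rw [hs, hχ, (hN s).1 s.2, add_zero]
  refine ⟨fun q => χ q.out, hmk, ?_, ?_⟩
  · intro q q'
    obtain ⟨g, rfl⟩ := QuotientGroup.mk_surjective q
    obtain ⟨h, rfl⟩ := QuotientGroup.mk_surjective q'
    rw [← QuotientGroup.mk_mul]
    show χ (Quotient.out ((g * h : G) : G ⧸ N)) = χ (Quotient.out (g : G ⧸ N))
      + χ (Quotient.out (h : G ⧸ N))
    rw [hmk, hmk, hmk, hχ]
  · intro q q' hqq
    obtain ⟨g, rfl⟩ := QuotientGroup.mk_surjective q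
    obtain ⟨h, rfl⟩ := QuotientGroup.mk_surjective q'
    have h1 : χ g = χ h := by
      have := hqq
      simp only at this
      rwa [hmk, hmk] at this
    apply QuotientGroup.eq.2
    rw [hN, hχ, chi_inv' hχ, h1, neg_add_cancel]

omit [DistribMulAction G A] in
lemma cyc_rightInv {n : ℕ} (N : Subgroup G) {χ : G → ZMod n}
    (hχ : ∀ g h, χ (g * h) = χ g + χ h) (hN : ∀ g, g ∈ N ↔ χ g = 0) (b : A)
    (g h : G) {m : G} (hm : m ∈ N) {m' : G} (hm' : m' ∈ N) :
    helper6440.cyc χ b (g * m, h * m') = helper6440.cyc χ b (g, h) := by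
  rw [helper6440.cyc_apply, helper6440.cyc_apply, hχ, hχ, (hN m).1 hm, (hN m').1 hm',
    add_zero, add_zero]

/-- **(C1)** `χ : G → ZMod n` additive with kernel `N`, `χ σ = 1`.  Every 2-cocycle which is
right-`N`-invariant in both variables is `cyc χ b + d x` with `b` fixed by `G` and `x`
right-`N`-invariant with `N`-fixed values. -/
theorem exists_cyc_of_rightInv {n : ℕ} [NeZero n] (N : Subgroup G) [N.Normal] {χ : G → ZMod n}
    (hχ : ∀ g h, χ (g * h) = χ g + χ h) (hN : ∀ g, g ∈ N ↔ χ g = 0) {σ : G} (hσ : χ σ = 1)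
    {f' : G × G → A} (hf' : IsCocycle₂ f')
    (hconst : ∀ g h, ∀ m ∈ N, ∀ m' ∈ N, f' (g * m, h * m') = f' (g, h)) :
    ∃ b : A, (∀ g : G, g • b = b) ∧ ∃ x : G → A, (∀ g, ∀ m ∈ N, x (g * m) = x g) ∧
      (∀ g, ∀ m ∈ N, m • x g = x g) ∧
      ∀ g h, f' (g, h) = helper6440.cyc χ b (g, h) + (g • x h - x (g * h) + x g) := by
  classical
  obtain ⟨fb, hfb⟩ := exists_desc₂ N f' hconst
    (fun g h u hu => smul_eq_of_cocycle_rightInv hf' hconst g h hu)
  have hfbc : IsCocycle₂ fb := isCocycle₂_desc N hfb hf'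
  obtain ⟨χb, hχb, hχb_add, hχb_inj⟩ := exists_chi_quot N hχ hN
  have hs : χb (σ : G ⧸ N) = 1 := by rw [hχb, hσ]
  obtain ⟨a, ha, xb, hxb⟩ := helper6440.exists_cyc_isCoboundary₂ hχb_add hχb_inj hs hfbc
  refine ⟨(a : A), fun g => ?_, fun g => (xb (g : G ⧸ N) : A), ?_, ?_, ?_⟩
  · have := congrArg (fun a : fixedBy A N => (a : A)) (ha (g : G ⧸ N))
    exact this
  · intro g m hm
    show (xb ((g * m : G) : G ⧸ N) : A) = (xb (g : G ⧸ N) : A)
    rw [QuotientGroup.mk_mul_of_mem _ hm]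
  · intro g m hm
    exact (xb (g : G ⧸ N)).2 m hm
  · intro g h
    have := congrArg (fun a : fixedBy A N => (a : A)) (hxb (g : G ⧸ N) (h : G ⧸ N))
    simp only [Pi.sub_apply, helper6440.cyc_apply, AddSubgroup.coe_add, AddSubgroup.coe_sub,
      quot_smul_coe, AddSubgroup.coe_nsmul, hχb, hfb, ← QuotientGroup.mk_mul] at this
    rw [helper6440.cyc_apply, this]
    abel

/-- **(C2)** `cyc χ b` is the coboundary of a right-`U`-invariant cochain iff `b` is the norm
`∑ j < n, σ ^ j • y` of an `N`-fixed element `y`. -/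
theorem cyc_level_coboundary_iff {n : ℕ} [NeZero n] (N U : Subgroup G) [N.Normal] [U.Normal]
    (hUN : U ≤ N)
    (hH1 : ∀ c : N → A, IsCocycle₁ c → (∀ n s : N, (s : G) ∈ U → c (n * s) = c n) →
      IsCoboundary₁ c)
    {χ : G → ZMod n} (hχ : ∀ g h, χ (g * h) = χ g + χ h) (hN : ∀ g, g ∈ N ↔ χ g = 0)
    {σ : G} (hσ : χ σ = 1) (b : A) (hb : ∀ g : G, g • b = b) :
    (∃ x : G → A, (∀ g, ∀ s ∈ U, x (g * s) = x g) ∧
        ∀ g h, g • x h - x (g * h) + x g = helper6440.cyc χ b (g, h)) ↔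
      ∃ y : A, (∀ m ∈ N, m • y = y) ∧ b = ∑ j ∈ Finset.range n, σ ^ j • y := by
  classical
  obtain ⟨χb, hχb, hχb_add, hχb_inj⟩ := exists_chi_quot N hχ hN
  have hs : χb (σ : G ⧸ N) = 1 := by rw [hχb, hσ]
  have hcoe : ∀ (yb : fixedBy A N),
      ((∑ j ∈ Finset.range n, (σ : G ⧸ N) ^ j • yb : fixedBy A N) : A)
        = ∑ j ∈ Finset.range n, σ ^ j • (yb : A) := by
    intro yb
    rw [AddSubgroup.val_finsetSum]
    refine Finset.sum_congr rfl fun j _ => ?_
    rw [← QuotientGroup.mk_pow, quot_smul_coe]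
  have hcyc : ∀ (g h : G), ((helper6440.cyc χb (⟨b, fun m _ => hb m⟩ : fixedBy A N)
      ((g : G ⧸ N), (h : G ⧸ N)) : fixedBy A N) : A) = helper6440.cyc χ b (g, h) := by
    intro g h
    rw [helper6440.cyc_apply, helper6440.cyc_apply, AddSubgroup.coe_nsmul, hχb, hχb]
  constructor
  · rintro ⟨x, hxU, hx⟩
    obtain ⟨x', hx', hx'N, hx'fix⟩ := level_isCoboundary₂_descend N U hUN hH1
      (fun g h m hm m' hm' => cyc_rightInv N hχ hN b g h hm hm') x hxU hx
    obtain ⟨xb, hxb⟩ := exists_desc₁ N x' hx'N hx'fix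
    have hcob : IsCoboundary₂ (helper6440.cyc χb (⟨b, fun m _ => hb m⟩ : fixedBy A N)) := by
      refine ⟨xb, fun q q' => ?_⟩
      obtain ⟨g, rfl⟩ := QuotientGroup.mk_surjective q
      obtain ⟨h, rfl⟩ := QuotientGroup.mk_surjective q'
      apply Subtype.ext
      rw [hcyc, ← QuotientGroup.mk_mul, AddSubgroup.coe_add, AddSubgroup.coe_sub, quot_smul_coe,
        hxb, hxb, hxb]
      exact hx' g h
    obtain ⟨yb, hyb⟩ := (helper6440.cyc_isCoboundary₂_iff hχb_add hχb_inj hs _).1 hcob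
    refine ⟨(yb : A), yb.2, ?_⟩
    have := congrArg (fun a : fixedBy A N => (a : A)) hyb
    simp only at this
    rw [hcoe] at this
    exact this
  · rintro ⟨y, hy, hby⟩
    have hyb : (⟨b, fun m _ => hb m⟩ : fixedBy A N)
        = ∑ j ∈ Finset.range n, (σ : G ⧸ N) ^ j • (⟨y, hy⟩ : fixedBy A N) := by
      apply Subtype.ext
      rw [hcoe]
      exact hby
    obtain ⟨xb, hxb⟩ := (helper6440.cyc_isCoboundary₂_iff hχb_add hχb_inj hs _).2 ⟨_, hyb⟩
    refine ⟨fun g => (xb (g : G ⧸ N) : A), ?_, ?_⟩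
    · intro g s hs
      show (xb ((g * s : G) : G ⧸ N) : A) = (xb (g : G ⧸ N) : A)
      rw [QuotientGroup.mk_mul_of_mem _ (hUN hs)]
    · intro g h
      rw [← hcyc]
      exact primitive_lift N hxb g h

/-- **(T) = (A) + (C1).**  A right-`U`-invariant 2-cocycle whose restriction to the kernel `N`
of `χ` is the coboundary of a right-`U`-invariant cochain is `cyc χ b + d y` with `b` fixed by
`G` and `y` right-`U`-invariant. -/
theorem level_cyclic_layer {n : ℕ} [NeZero n] (N U : Subgroup G) [N.Normal] [U.Normal]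
    (hUN : U ≤ N)
    (hH1 : ∀ c : N → A, IsCocycle₁ c → (∀ n s : N, (s : G) ∈ U → c (n * s) = c n) →
      IsCoboundary₁ c)
    {χ : G → ZMod n} (hχ : ∀ g h, χ (g * h) = χ g + χ h) (hN : ∀ g, g ∈ N ↔ χ g = 0)
    {σ : G} (hσ : χ σ = 1)
    {f : G × G → A} (hf : IsCocycle₂ f)
    (hfU : ∀ g h, ∀ s ∈ U, ∀ t ∈ U, f (g * s, h * t) = f (g, h))
    (u : N → A) (huU : ∀ n s : N, (s : G) ∈ U → u (n * s) = u n)
    (hu : ∀ a b : N, a • u b - u (a * b) + u a = f (a, b)) :
    ∃ b : A, (∀ g : G, g • b = b) ∧ ∃ y : G → A, (∀ g, ∀ s ∈ U, y (g * s) = y g) ∧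
      ∀ g h, f (g, h) = helper6440.cyc χ b (g, h) + (g • y h - y (g * h) + y g) := by
  obtain ⟨y, f', hf', hyU, hdec, hconst, -⟩ := level_exists_inflated N U hUN hH1 hf hfU u huU hu
  obtain ⟨b, hb, x, hxN, -, hx⟩ := exists_cyc_of_rightInv N hχ hN hσ hf' hconst
  refine ⟨b, hb, fun g => x g + y g, fun g s hs => ?_, fun g h => ?_⟩
  · show x (g * s) + y (g * s) = x g + y g
    rw [hxN g s (hUN hs), hyU g s hs]
  · beta_reduce
    rw [hdec, hx, smul_add]
    abel

/-- With the decomposition of `level_cyclic_layer`: `f` is the coboundary of a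
right-`U`-invariant cochain iff `b` is a norm of an `N`-fixed element. -/
theorem level_cyclic_layer_coboundary_iff {n : ℕ} [NeZero n] (N U : Subgroup G) [N.Normal]
    [U.Normal] (hUN : U ≤ N)
    (hH1 : ∀ c : N → A, IsCocycle₁ c → (∀ n s : N, (s : G) ∈ U → c (n * s) = c n) →
      IsCoboundary₁ c)
    {χ : G → ZMod n} (hχ : ∀ g h, χ (g * h) = χ g + χ h) (hN : ∀ g, g ∈ N ↔ χ g = 0)
    {σ : G} (hσ : χ σ = 1) {f : G × G → A} (b : A) (hb : ∀ g : G, g • b = b)
    (y : G → A) (hyU : ∀ g, ∀ s ∈ U, y (g * s) = y g)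
    (hdec : ∀ g h, f (g, h) = helper6440.cyc χ b (g, h) + (g • y h - y (g * h) + y g)) :
    (∃ z : G → A, (∀ g, ∀ s ∈ U, z (g * s) = z g) ∧
        ∀ g h, g • z h - z (g * h) + z g = f (g, h)) ↔
      ∃ y₀ : A, (∀ m ∈ N, m • y₀ = y₀) ∧ b = ∑ j ∈ Finset.range n, σ ^ j • y₀ := by
  rw [← cyc_level_coboundary_iff N U hUN hH1 hχ hN hσ b hb]
  constructor
  · rintro ⟨z, hzU, hz⟩
    refine ⟨fun g => z g - y g, fun g s hs => ?_, fun g h => ?_⟩
    · show z (g * s) - y (g * s) = z g - y g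
      rw [hzU g s hs, hyU g s hs]
    · have h1 := hz g h
      rw [hdec] at h1
      beta_reduce
      rw [smul_sub]
      rw [← sub_eq_iff_eq_add] at h1
      rw [← h1]
      abel
  · rintro ⟨x, hxU, hx⟩
    refine ⟨fun g => x g + y g, fun g s hs => ?_, fun g h => ?_⟩
    · show x (g * s) + y (g * s) = x g + y g
      rw [hxU g s hs, hyU g s hs]
    · beta_reduce
      rw [hdec, ← hx, smul_add]
      abel

end Cyclic

/-! ## Multiplicative twins (`MulDistribMulAction`, e.g. `M = Ωˣ`) -/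

section Multiplicative

variable {G M : Type*} [Group G] [CommGroup M] [MulDistribMulAction G M]

/-- **(A), multiplicative form.** -/
theorem level_exists_inflated_mul (N U : Subgroup G) [N.Normal] [U.Normal] (hUN : U ≤ N)
    (hH1 : ∀ c : N → M, IsMulCocycle₁ c → (∀ n s : N, (s : G) ∈ U → c (n * s) = c n) →
      IsMulCoboundary₁ c)
    {f : G × G → M} (hf : IsMulCocycle₂ f)
    (hfU : ∀ g h, ∀ s ∈ U, ∀ t ∈ U, f (g * s, h * t) = f (g, h))
    (u : N → M) (huU : ∀ n s : N, (s : G) ∈ U → u (n * s) = u n)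
    (hu : ∀ a b : N, a • u b / u (a * b) * u a = f (a, b)) :
    ∃ (y : G → M) (f' : G × G → M), IsMulCocycle₂ f' ∧
      (∀ g, ∀ s ∈ U, y (g * s) = y g) ∧
      (∀ g h, f (g, h) = f' (g, h) * (g • y h / y (g * h) * y g)) ∧
      (∀ g h, ∀ n ∈ N, ∀ m ∈ N, f' (g * n, h * m) = f' (g, h)) ∧
      (∀ g h, ∀ n ∈ N, n • f' (g, h) = f' (g, h)) := by
  let _inst : DistribMulAction G (Additive M) := helper3644.additiveDistribMulAction G M
  obtain ⟨y, f', h1, h2, h3, h4, h5⟩ := level_exists_inflated (G := G) (A := Additive M) N U hUN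
    (fun c hc hcU => by
      obtain ⟨b, hb⟩ := hH1 (fun n => Additive.toMul (c n)) (fun n m => hc n m)
        (fun n s hs => congrArg Additive.toMul (hcU n s hs))
      exact ⟨Additive.ofMul b, fun n => hb n⟩)
    (f := fun p => Additive.ofMul (f p)) (fun g h j => hf g h j)
    (fun g h s hs t ht => congrArg Additive.ofMul (hfU g h s hs t ht))
    (fun n => Additive.ofMul (u n)) (fun n s hs => congrArg Additive.ofMul (huU n s hs))
    (fun a b => hu a b)
  exact ⟨fun g => Additive.toMul (y g), fun p => Additive.toMul (f' p), fun g h j => h1 g h j,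
    fun g s hs => congrArg Additive.toMul (h2 g s hs), fun g h => h3 g h,
    fun g h n hn m hm => h4 g h n hn m hm, fun g h n hn => h5 g h n hn⟩

/-- **(B), multiplicative form.** -/
theorem level_isMulCoboundary₂_descend (N U : Subgroup G) [N.Normal] [U.Normal] (hUN : U ≤ N)
    (hH1 : ∀ c : N → M, IsMulCocycle₁ c → (∀ n s : N, (s : G) ∈ U → c (n * s) = c n) →
      IsMulCoboundary₁ c)
    {f' : G × G → M}
    (hconst : ∀ g h, ∀ n ∈ N, ∀ m ∈ N, f' (g * n, h * m) = f' (g, h))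
    (x : G → M) (hxU : ∀ g, ∀ s ∈ U, x (g * s) = x g)
    (hx : ∀ g h, g • x h / x (g * h) * x g = f' (g, h)) :
    ∃ x' : G → M, (∀ g h, g • x' h / x' (g * h) * x' g = f' (g, h)) ∧
      (∀ g, ∀ n ∈ N, x' (g * n) = x' g) ∧ (∀ g, ∀ n ∈ N, n • x' g = x' g) := by
  let _inst : DistribMulAction G (Additive M) := helper3644.additiveDistribMulAction G M
  obtain ⟨x', h1, h2, h3⟩ := level_isCoboundary₂_descend (G := G) (A := Additive M) N U hUN
    (fun c hc hcU => by
      obtain ⟨b, hb⟩ := hH1 (fun n => Additive.toMul (c n)) (fun n m => hc n m)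
        (fun n s hs => congrArg Additive.toMul (hcU n s hs))
      exact ⟨Additive.ofMul b, fun n => hb n⟩)
    (f' := fun p => Additive.ofMul (f' p))
    (fun g h n hn m hm => congrArg Additive.ofMul (hconst g h n hn m hm))
    (fun g => Additive.ofMul (x g)) (fun g s hs => congrArg Additive.ofMul (hxU g s hs))
    (fun g h => congrArg Additive.ofMul (hx g h))
  exact ⟨fun g => Additive.toMul (x' g), fun g h => h1 g h, fun g n hn => h2 g n hn,
    fun g n hn => h3 g n hn⟩

/-- **(C1), multiplicative form**: every right-`N`-invariant multiplicative 2-cocycle is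
`mulCyc χ b * d x` with `b` fixed by `G`. -/
theorem exists_mulCyc_of_rightInv {n : ℕ} [NeZero n] (N : Subgroup G) [N.Normal]
    {χ : G → ZMod n} (hχ : ∀ g h, χ (g * h) = χ g + χ h) (hN : ∀ g, g ∈ N ↔ χ g = 0)
    {σ : G} (hσ : χ σ = 1) {f' : G × G → M} (hf' : IsMulCocycle₂ f')
    (hconst : ∀ g h, ∀ m ∈ N, ∀ m' ∈ N, f' (g * m, h * m') = f' (g, h)) :
    ∃ b : M, (∀ g : G, g • b = b) ∧ ∃ x : G → M, (∀ g, ∀ m ∈ N, x (g * m) = x g) ∧
      (∀ g, ∀ m ∈ N, m • x g = x g) ∧
      ∀ g h, f' (g, h) = helper6440.mulCyc χ b (g, h) * (g • x h / x (g * h) * x g) := by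
  let _inst : DistribMulAction G (Additive M) := helper3644.additiveDistribMulAction G M
  obtain ⟨b, hb, x, h1, h2, h3⟩ := exists_cyc_of_rightInv (G := G) (A := Additive M) N hχ hN hσ
    (f' := fun p => Additive.ofMul (f' p)) (fun g h j => hf' g h j)
    (fun g h m hm m' hm' => congrArg Additive.ofMul (hconst g h m hm m' hm'))
  exact ⟨Additive.toMul b, fun g => hb g, fun g => Additive.toMul (x g),
    fun g m hm => congrArg Additive.toMul (h1 g m hm), fun g m hm => h2 g m hm,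
    fun g h => h3 g h⟩

/-- **(C2), multiplicative form**: `mulCyc χ b` is the coboundary of a right-`U`-invariant
cochain iff `b = ∏ j < n, σ ^ j • y` for an `N`-fixed `y`. -/
theorem mulCyc_level_coboundary_iff {n : ℕ} [NeZero n] (N U : Subgroup G) [N.Normal]
    [U.Normal] (hUN : U ≤ N)
    (hH1 : ∀ c : N → M, IsMulCocycle₁ c → (∀ n s : N, (s : G) ∈ U → c (n * s) = c n) →
      IsMulCoboundary₁ c)
    {χ : G → ZMod n} (hχ : ∀ g h, χ (g * h) = χ g + χ h) (hN : ∀ g, g ∈ N ↔ χ g = 0)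
    {σ : G} (hσ : χ σ = 1) (b : M) (hb : ∀ g : G, g • b = b) :
    (∃ x : G → M, (∀ g, ∀ s ∈ U, x (g * s) = x g) ∧
        ∀ g h, g • x h / x (g * h) * x g = helper6440.mulCyc χ b (g, h)) ↔
      ∃ y : M, (∀ m ∈ N, m • y = y) ∧ b = ∏ j ∈ Finset.range n, σ ^ j • y := by
  let _inst : DistribMulAction G (Additive M) := helper3644.additiveDistribMulAction G M
  have key := cyc_level_coboundary_iff (G := G) (A := Additive M) N U hUN
    (fun c hc hcU => by
      obtain ⟨b, hb⟩ := hH1 (fun n => Additive.toMul (c n)) (fun n m => hc n m)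
        (fun n s hs => congrArg Additive.toMul (hcU n s hs))
      exact ⟨Additive.ofMul b, fun n => hb n⟩)
    hχ hN hσ (Additive.ofMul b) (fun g => hb g)
  constructor
  · rintro ⟨x, hxU, hx⟩
    obtain ⟨y, hy, hby⟩ := key.1 ⟨fun g => Additive.ofMul (x g),
      fun g s hs => congrArg Additive.ofMul (hxU g s hs), fun g h => congrArg Additive.ofMul (hx g h)⟩
    refine ⟨Additive.toMul y, fun m hm => hy m hm, ?_⟩
    have h1 : Additive.ofMul (∏ j ∈ Finset.range n, σ ^ j • Additive.toMul y)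
        = ∑ j ∈ Finset.range n, σ ^ j • y := by
      rw [ofMul_prod]; rfl
    apply Additive.ofMul.injective
    rw [h1]
    exact hby
  · rintro ⟨y, hy, hby⟩
    have h1 : Additive.ofMul b = ∑ j ∈ Finset.range n, σ ^ j • Additive.ofMul y := by
      rw [hby, ofMul_prod]; rfl
    obtain ⟨x, hxU, hx⟩ := key.2 ⟨Additive.ofMul y, fun m hm => congrArg Additive.ofMul (hy m hm), h1⟩
    exact ⟨fun g => Additive.toMul (x g), fun g s hs => congrArg Additive.toMul (hxU g s hs),
      fun g h => hx g h⟩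

/-- **(T), multiplicative form** = (A) + (C1). -/
theorem level_cyclic_layer_mul {n : ℕ} [NeZero n] (N U : Subgroup G) [N.Normal] [U.Normal]
    (hUN : U ≤ N)
    (hH1 : ∀ c : N → M, IsMulCocycle₁ c → (∀ n s : N, (s : G) ∈ U → c (n * s) = c n) →
      IsMulCoboundary₁ c)
    {χ : G → ZMod n} (hχ : ∀ g h, χ (g * h) = χ g + χ h) (hN : ∀ g, g ∈ N ↔ χ g = 0)
    {σ : G} (hσ : χ σ = 1)
    {f : G × G → M} (hf : IsMulCocycle₂ f)
    (hfU : ∀ g h, ∀ s ∈ U, ∀ t ∈ U, f (g * s, h * t) = f (g, h))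
    (u : N → M) (huU : ∀ n s : N, (s : G) ∈ U → u (n * s) = u n)
    (hu : ∀ a b : N, a • u b / u (a * b) * u a = f (a, b)) :
    ∃ b : M, (∀ g : G, g • b = b) ∧ ∃ y : G → M, (∀ g, ∀ s ∈ U, y (g * s) = y g) ∧
      ∀ g h, f (g, h) = helper6440.mulCyc χ b (g, h) * (g • y h / y (g * h) * y g) := by
  let _inst : DistribMulAction G (Additive M) := helper3644.additiveDistribMulAction G M
  obtain ⟨b, hb, y, h1, h2⟩ := level_cyclic_layer (G := G) (A := Additive M) N U hUN
    (fun c hc hcU => by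
      obtain ⟨b, hb⟩ := hH1 (fun n => Additive.toMul (c n)) (fun n m => hc n m)
        (fun n s hs => congrArg Additive.toMul (hcU n s hs))
      exact ⟨Additive.ofMul b, fun n => hb n⟩)
    hχ hN hσ (f := fun p => Additive.ofMul (f p)) (fun g h j => hf g h j)
    (fun g h s hs t ht => congrArg Additive.ofMul (hfU g h s hs t ht))
    (fun n => Additive.ofMul (u n)) (fun n s hs => congrArg Additive.ofMul (huU n s hs))
    (fun a b => hu a b)
  exact ⟨Additive.toMul b, fun g => hb g, fun g => Additive.toMul (y g),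
    fun g s hs => congrArg Additive.toMul (h1 g s hs), fun g h => h2 g h⟩

/-- With the decomposition of `level_cyclic_layer_mul`: `f` is the coboundary of a
right-`U`-invariant cochain iff `b` is a norm of an `N`-fixed element (multiplicative form). -/
theorem level_cyclic_layer_mul_coboundary_iff {n : ℕ} [NeZero n] (N U : Subgroup G) [N.Normal]
    [U.Normal] (hUN : U ≤ N)
    (hH1 : ∀ c : N → M, IsMulCocycle₁ c → (∀ n s : N, (s : G) ∈ U → c (n * s) = c n) →
      IsMulCoboundary₁ c)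
    {χ : G → ZMod n} (hχ : ∀ g h, χ (g * h) = χ g + χ h) (hN : ∀ g, g ∈ N ↔ χ g = 0)
    {σ : G} (hσ : χ σ = 1) {f : G × G → M} (b : M) (hb : ∀ g : G, g • b = b)
    (y : G → M) (hyU : ∀ g, ∀ s ∈ U, y (g * s) = y g)
    (hdec : ∀ g h, f (g, h) = helper6440.mulCyc χ b (g, h) * (g • y h / y (g * h) * y g)) :
    (∃ z : G → M, (∀ g, ∀ s ∈ U, z (g * s) = z g) ∧
        ∀ g h, g • z h / z (g * h) * z g = f (g, h)) ↔
      ∃ y₀ : M, (∀ m ∈ N, m • y₀ = y₀) ∧ b = ∏ j ∈ Finset.range n, σ ^ j • y₀ := by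
  rw [← mulCyc_level_coboundary_iff N U hUN hH1 hχ hN hσ b hb]
  constructor
  · rintro ⟨z, hzU, hz⟩
    refine ⟨fun g => z g / y g, fun g s hs => ?_, fun g h => ?_⟩
    · show z (g * s) / y (g * s) = z g / y g
      rw [hzU g s hs, hyU g s hs]
    · have h1 := hz g h
      rw [hdec] at h1
      beta_reduce
      rw [smul_div']
      rw [← div_eq_iff_eq_mul] at h1
      rw [← h1]
      simp only [div_eq_mul_inv, mul_inv_rev, inv_inv]
      simp only [mul_comm, mul_left_comm, mul_assoc]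
  · rintro ⟨x, hxU, hx⟩
    refine ⟨fun g => x g * y g, fun g s hs => ?_, fun g h => ?_⟩
    · show x (g * s) * y (g * s) = x g * y g
      rw [hxU g s hs, hyU g s hs]
    · beta_reduce
      rw [hdec, ← hx, smul_mul']
      simp only [div_eq_mul_inv, mul_inv_rev]
      simp only [mul_comm, mul_left_comm, mul_assoc]

end Multiplicative

end Fermat.Agent.S55.helper55
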