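/-
S55 / NF-GR (helper3750, backup seat): the cyclic layer of a Galois extension, in level form.

`Ω / K₀` an arbitrary (possibly infinite) Galois extension, `G = Ω ≃ₐ[K₀] Ω` acting on `Ωˣ`,
`E / K₀` a finite Galois subextension, `X : G → ZMod d` an additive character with kernel
`E.fixingSubgroup` (NOT assumed surjective: this is what happens at the decomposition groups).

* `exists_scaled_char` : a character `X : G → ZMod d` whose kernel is the kernel of a surjection
  onto a finite group `Δ` is `(d / #Δ)` times a SURJECTIVE character `X' : G → ZMod #Δ`, and the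
  carry cocycles of `X` and `X'` coincide.
* `mulCyc_coboundary_iff_norm` (L) : `mulCyc X a` (`a` fixed by `G`) is the coboundary of a level
  cochain iff `a` is a norm from `E`.
* `exists_normalForm` (G) : a level 2-cocycle whose restriction to `E.fixingSubgroup` is the
  coboundary of a level cochain is `mulCyc X a * d y` with `a ∈ K₀ˣ` and `y` of the same level.
* `smul_eq_of_rightInv` : the primitive `y` automatically has values fixed by the level.

Built on `helper55_LevelInfRes` (level inflation-restriction + cyclic layer) and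
`helper9072_LevelKummer` (Hilbert 90 for level cocycles).
-/
import Mathlib
import Fermat.Agent.S55.helper55_LevelInfRes
import Fermat.Agent.S55.helper9072_LevelKummer

set_option autoImplicit false
set_option linter.unusedSectionVars false

namespace Fermat.Agent.S55.helper3750

open groupCohomology
open Fermat.Agent.S55.helper6440 (carry mulCyc)

/-! ## Additive characters with values in `ZMod d` -/

section Char

variable {G : Type*} [Group G] {d : ℕ} {X : G → ZMod d}

lemma char_one (hX : ∀ g h, X (g * h) = X g + X h) : X 1 = 0 := by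
  have h := hX 1 1
  rw [mul_one] at h
  exact left_eq_add.mp h

lemma char_inv (hX : ∀ g h, X (g * h) = X g + X h) (g : G) : X g⁻¹ = -X g := by
  have h := hX g⁻¹ g
  rw [inv_mul_cancel, char_one hX] at h
  exact eq_neg_of_add_eq_zero_left h.symm

lemma char_pow (hX : ∀ g h, X (g * h) = X g + X h) (g : G) (k : ℕ) : X (g ^ k) = k • X g := by
  induction k with
  | zero => simp [char_one hX]
  | succ k ih => rw [pow_succ, hX, ih, succ_nsmul]

lemma char_eq_of_inv_mul (hX : ∀ g h, X (g * h) = X g + X h) {g h : G} (hgh : X (g⁻¹ * h) = 0) :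
    X g = X h := by
  rw [hX, char_inv hX] at hgh
  exact (neg_add_eq_zero.mp hgh)

end Char

section ScaledChar

variable {G Δ : Type*} [Group G] [Group Δ] [Finite Δ]

/-- **Scaling a character.** If the kernel of the additive character `X : G → ZMod d` is the
kernel of a surjection `π : G → Δ` onto a finite group, then `X = (d / #Δ) • X'` for a surjective
additive character `X' : G → ZMod #Δ` with the same kernel; the carries of `X` and `X'`
coincide. -/
theorem exists_scaled_char (π : G →* Δ) (hπ : Function.Surjective π) {d : ℕ} [NeZero d]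
    {X : G → ZMod d} (hX : ∀ g h, X (g * h) = X g + X h) (hker : ∀ g, X g = 0 ↔ π g = 1) :
    ∃ X' : G → ZMod (Nat.card Δ), (∀ g h, X' (g * h) = X' g + X' h) ∧
      (∀ g, X' g = 0 ↔ π g = 1) ∧ (∃ σ, X' σ = 1) ∧
      ∀ g h, carry d (X g) (X h) = carry (Nat.card Δ) (X' g) (X' h) := by
  classical
  set f := Nat.card Δ with hf_def
  have hf : 0 < f := Nat.card_pos
  have : NeZero f := ⟨hf.ne'⟩
  have hd : 0 < d := Nat.pos_of_ne_zero (NeZero.ne d)
  -- `f ∣ d`
  let Xm : G →* Multiplicative (ZMod d) :=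
    { toFun := fun g => Multiplicative.ofAdd (X g)
      map_one' := by rw [char_one hX]; rfl
      map_mul' := fun g h => by rw [hX]; rfl }
  have hkerEq : Xm.ker = π.ker := by
    ext g
    rw [MonoidHom.mem_ker, MonoidHom.mem_ker]
    exact hker g
  have hfd : f ∣ d := by
    have h1 : Nat.card Xm.range = f := by
      rw [← Subgroup.index_ker, hkerEq, Subgroup.index_ker, hf_def]
      have : π.range = ⊤ := MonoidHom.range_eq_top.mpr hπ
      rw [this]
      exact Subgroup.card_top
    have h2 : Nat.card Xm.range ∣ Nat.card (Multiplicative (ZMod d)) :=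
      Subgroup.card_subgroup_dvd_card _
    rw [h1] at h2
    have h3 : Nat.card (Multiplicative (ZMod d)) = d := by
      rw [Nat.card_congr Multiplicative.toAdd, Nat.card_zmod]
    rwa [h3] at h2
  obtain ⟨k, hk⟩ := hfd
  -- hk : d = f * k
  have hk0 : 0 < k := by
    rcases Nat.eq_zero_or_pos k with h | h
    · rw [h, mul_zero] at hk; omega
    · exact h
  have hmod : ∀ a : ℕ, (k * a) % d = k * (a % f) := by
    intro a
    rw [hk, mul_comm f k, Nat.mul_mod_mul_left]
  have hdivk : ∀ a : ℕ, (k * a) / d = a / f := by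
    intro a
    rw [hk, mul_comm f k, Nat.mul_div_mul_left _ _ hk0]
  have hdvd : ∀ v : ℕ, d ∣ f * v → k ∣ v := by
    intro v h
    rw [hk] at h
    exact Nat.dvd_of_mul_dvd_mul_left hf h
  have hlt' : ∀ v : ℕ, v < d → v / k < f := by
    intro v h
    rw [hk] at h
    rwa [Nat.div_lt_iff_lt_mul hk0]
  -- `k ∣ (X g).val`
  have hdiv : ∀ g, k ∣ (X g).val := by
    intro g
    have h1 : X (g ^ f) = 0 := by
      rw [hker, map_pow, hf_def]
      exact pow_card_eq_one'
    rw [char_pow hX] at h1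
    have h2 : ((f * (X g).val : ℕ) : ZMod d) = 0 := by
      rw [Nat.cast_mul, ZMod.natCast_zmod_val, ← nsmul_eq_mul]
      exact h1
    rw [ZMod.natCast_eq_zero_iff] at h2
    exact hdvd _ h2
  let X' : G → ZMod f := fun g => (((X g).val / k : ℕ) : ZMod f)
  have hval' : ∀ g, (X' g).val = (X g).val / k :=
    fun g => ZMod.val_natCast_of_lt (hlt' _ (ZMod.val_lt _))
  have hval : ∀ g, (X g).val = k * (X' g).val := by
    intro g
    rw [hval', Nat.mul_div_cancel' (hdiv g)]
  have hX' : ∀ g h, X' (g * h) = X' g + X' h := by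
    intro g h
    apply ZMod.val_injective f
    have h1 : (X (g * h)).val = ((X g).val + (X h).val) % d := by rw [hX, ZMod.val_add]
    rw [hval, hval g, hval h, ← mul_add, hmod] at h1
    rw [ZMod.val_add]
    exact Nat.eq_of_mul_eq_mul_left hk0 h1
  have hker' : ∀ g, X' g = 0 ↔ π g = 1 := by
    intro g
    rw [← hker]
    constructor
    · intro h
      have h1 := hval g
      rw [h, ZMod.val_zero, mul_zero] at h1
      exact (ZMod.val_eq_zero _).1 h1
    · intro h
      have h1 := hval g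
      rw [h, ZMod.val_zero] at h1
      have h2 : (X' g).val = 0 := by
        rcases Nat.eq_zero_or_pos (X' g).val with h3 | h3
        · exact h3
        · have := Nat.mul_pos hk0 h3
          omega
      exact (ZMod.val_eq_zero _).1 h2
  refine ⟨X', hX', hker', ?_, fun g h => ?_⟩
  · -- surjectivity by counting
    let s : Δ → G := Function.surjInv hπ
    have hs : ∀ δ, π (s δ) = δ := Function.surjInv_eq hπ
    have hinj : Function.Injective (fun δ => X' (s δ)) := by
      intro δ δ' h
      have h1 : X' ((s δ)⁻¹ * s δ') = 0 := by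
        rw [hX', char_inv hX']
        simp only at h
        rw [h, neg_add_cancel]
      rw [hker', map_mul, map_inv, hs, hs] at h1
      exact inv_mul_eq_one.mp h1
    have hbij := hinj.bijective_of_nat_card_le (by rw [Nat.card_zmod])
    obtain ⟨δ, hδ⟩ := hbij.2 1
    exact ⟨s δ, hδ⟩
  · unfold carry
    rw [hval g, hval h, ← mul_add, hdivk]

end ScaledChar

/-! ## A primitive of a level cochain has values fixed by the level -/

section RightInv

variable {G M : Type*} [Group G] [CommGroup M] [MulDistribMulAction G M]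

/-- If `y` is right-`U`-invariant (`U` normal) and its coboundary is right-`U`-invariant in the
first variable, then the values of `y` are fixed by `U`. -/
lemma smul_eq_of_rightInv (U : Subgroup G) [hU : U.Normal] (y : G → M)
    (hy : ∀ g, ∀ s ∈ U, y (g * s) = y g)
    (hD : ∀ g h, ∀ s ∈ U,
      (g * s) • y h / y (g * s * h) * y (g * s) = g • y h / y (g * h) * y g)
    (g : G) {s : G} (hs : s ∈ U) : s • y g = y g := by
  have h1 := hD 1 g s hs
  rw [one_mul, one_smul, one_mul] at h1
  have h2 : y s = y 1 := by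
    have := hy 1 s hs
    rwa [one_mul] at this
  have h3 : y (s * g) = y g := by
    have h4 : s * g = g * (g⁻¹ * s * g) := by group
    rw [h4]
    exact hy g _ (hU.conj_mem' s hs g)
  rw [h2, h3, div_self', one_mul] at h1
  have h5 : s • y g / y g = 1 := by
    have h6 := mul_right_cancel (h1.trans (one_mul (y 1)).symm)
    exact h6
  exact div_eq_one.mp h5

end RightInv

/-! ## The cyclic layer of a Galois extension -/

section GalLayer

variable {K₀ Ω : Type*} [Field K₀] [Field Ω] [Algebra K₀ Ω]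

/-- Hilbert 90 for 1-cocycles on a subgroup of `Gal(Ω/K₀)` which are right-invariant under the
fixing subgroup of a finite subextension (from `helper9072`). -/
theorem h90_subgroup (N : Subgroup (Ω ≃ₐ[K₀] Ω)) (F : IntermediateField K₀ Ω)
    [FiniteDimensional K₀ F] (c : N → Ωˣ) (hc : IsMulCocycle₁ c)
    (hinv : ∀ n s : N, (s : Ω ≃ₐ[K₀] Ω) ∈ F.fixingSubgroup → c (n * s) = c n) :
    IsMulCoboundary₁ c := by
  obtain ⟨β, hβ⟩ := helper9072.exists_coboundary_of_isLev₁ N.subtype (c := c)
    (fun g h => hc g h) ⟨F, inferInstance, fun g s hs => hinv g s hs⟩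
  exact ⟨β, hβ⟩

variable [IsGalois K₀ Ω]

/-- A unit fixed by `E.fixingSubgroup` lies in `E`. -/
lemma coe_mem_of_smul_eq (E : IntermediateField K₀ Ω) (y : Ωˣ)
    (hy : ∀ m ∈ E.fixingSubgroup, m • y = y) : (y : Ω) ∈ E := by
  rw [← InfiniteGalois.fixedField_fixingSubgroup E, IntermediateField.mem_fixedField_iff]
  intro m hm
  exact congrArg Units.val (hy m hm)

/-- A unit fixed by the whole Galois group lies in the base field. -/
lemma exists_algebraMap_eq_of_smul_eq (b : Ωˣ) (hb : ∀ g : Ω ≃ₐ[K₀] Ω, g • b = b) :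
    ∃ a : K₀, algebraMap K₀ Ω a = (b : Ω) := by
  have h := coe_mem_of_smul_eq (⊥ : IntermediateField K₀ Ω) b (fun m _ => hb m)
  exact IntermediateField.mem_bot.mp h

lemma normal_fixingSubgroup (E : IntermediateField K₀ Ω) [Normal K₀ E] :
    (E.fixingSubgroup).Normal := by
  rw [← IntermediateField.restrictNormalHom_ker E]
  infer_instance

variable (E : IntermediateField K₀ Ω) [FiniteDimensional K₀ E] [IsGalois K₀ E]

/-- For a surjective character `X'` onto `ZMod #Gal(E/K₀)` with kernel `E.fixingSubgroup` and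
`X' σ = 1`, the product of the conjugates `σ ^ j` (`j < #Gal(E/K₀)`) of an element of `E` is its
norm. -/
theorem prod_range_pow_apply_eq_norm {X' : (Ω ≃ₐ[K₀] Ω) → ZMod (Nat.card (E ≃ₐ[K₀] E))}
    (hX' : ∀ g h, X' (g * h) = X' g + X' h)
    (hker : ∀ g, X' g = 0 ↔ g ∈ E.fixingSubgroup) {σ : Ω ≃ₐ[K₀] Ω} (hσ : X' σ = 1) (y : E) :
    ∏ j ∈ Finset.range (Nat.card (E ≃ₐ[K₀] E)), (σ ^ j) (y : Ω)
      = algebraMap K₀ Ω (Algebra.norm K₀ y) := by
  classical
  have hf : 0 < Nat.card (E ≃ₐ[K₀] E) := Nat.card_pos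
  have : NeZero (Nat.card (E ≃ₐ[K₀] E)) := ⟨hf.ne'⟩
  let π : (Ω ≃ₐ[K₀] Ω) →* (E ≃ₐ[K₀] E) := AlgEquiv.restrictNormalHom E
  have hπker : ∀ g, π g = 1 ↔ g ∈ E.fixingSubgroup := fun g => by
    rw [← IntermediateField.restrictNormalHom_ker E, MonoidHom.mem_ker]
  have hcomm : ∀ (g : Ω ≃ₐ[K₀] Ω) (x : E), ((π g x : E) : Ω) = g (x : Ω) := fun g x =>
    AlgEquiv.restrictNormal_commutes g E x
  have h1 : algebraMap K₀ Ω (Algebra.norm K₀ y) = ∏ δ : (E ≃ₐ[K₀] E), ((δ y : E) : Ω) := by
    rw [IsScalarTower.algebraMap_apply K₀ E Ω, Algebra.norm_eq_prod_automorphisms, map_prod]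
    rfl
  rw [h1]
  have hXpow : ∀ j : ℕ, X' (σ ^ j) = (j : ZMod (Nat.card (E ≃ₐ[K₀] E))) := fun j => by
    rw [char_pow hX', hσ, nsmul_eq_mul, mul_one]
  have hsurj : Function.Surjective π := AlgEquiv.restrictNormalHom_surjective Ω
  refine Finset.prod_nbij' (fun j => (π σ) ^ j)
    (fun δ => (X' (Function.surjInv hsurj δ)).val) ?_ ?_ ?_ ?_ ?_
  · intro j _; exact Finset.mem_univ _
  · intro δ _; exact Finset.mem_range.mpr (ZMod.val_lt _)
  · intro j hj
    have h2 : X' (Function.surjInv hsurj (π σ ^ j)) = X' (σ ^ j) := by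
      apply char_eq_of_inv_mul hX'
      rw [hker, ← hπker, map_mul, map_inv, Function.surjInv_eq hsurj, map_pow, inv_mul_cancel]
    show (X' (Function.surjInv hsurj (π σ ^ j))).val = j
    rw [h2, hXpow, ZMod.val_natCast_of_lt (Finset.mem_range.mp hj)]
  · intro δ _
    have h3 : X' (σ ^ (X' (Function.surjInv hsurj δ)).val) = X' (Function.surjInv hsurj δ) := by
      rw [hXpow, ZMod.natCast_zmod_val]
    have h4 : X' ((σ ^ (X' (Function.surjInv hsurj δ)).val)⁻¹ * Function.surjInv hsurj δ) = 0 := by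
      rw [hX', char_inv hX', h3, neg_add_cancel]
    rw [hker, ← hπker, map_mul, map_inv, Function.surjInv_eq hsurj, map_pow] at h4
    exact (inv_mul_eq_one.mp h4)
  · intro j _
    show (σ ^ j) (y : Ω) = (((π σ ^ j) y : E) : Ω)
    rw [← map_pow, hcomm]

variable {d : ℕ} [NeZero d] {X : (Ω ≃ₐ[K₀] Ω) → ZMod d}

/-- **(L), direction `⇒`.** If `mulCyc X a` (`a` fixed by the Galois group, `X` additive with
kernel `E.fixingSubgroup`, not necessarily surjective) is the coboundary of a level cochain, then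
`a` is a norm from `E`. -/
theorem exists_norm_of_mulCyc_coboundary (hX : ∀ g h, X (g * h) = X g + X h)
    (hker : ∀ g, X g = 0 ↔ g ∈ E.fixingSubgroup) (a : Ωˣ)
    (ha : ∀ g : Ω ≃ₐ[K₀] Ω, g • a = a)
    (F' : IntermediateField K₀ Ω) [FiniteDimensional K₀ F']
    (y : (Ω ≃ₐ[K₀] Ω) → Ωˣ) (hy : ∀ g s, s ∈ F'.fixingSubgroup → y (g * s) = y g)
    (hrel : ∀ g h, g • y h / y (g * h) * y g = mulCyc X a (g, h)) :
    ∃ b : E, algebraMap K₀ Ω (Algebra.norm K₀ b) = (a : Ω) := by
  classical
  let π : (Ω ≃ₐ[K₀] Ω) →* (E ≃ₐ[K₀] E) := AlgEquiv.restrictNormalHom E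
  have hsurj : Function.Surjective π := AlgEquiv.restrictNormalHom_surjective Ω
  have hπker : ∀ g, π g = 1 ↔ g ∈ E.fixingSubgroup := fun g => by
    rw [← IntermediateField.restrictNormalHom_ker E, MonoidHom.mem_ker]
  obtain ⟨X', hX', hker', ⟨σ, hσ⟩, hcarry⟩ := exists_scaled_char π hsurj hX
    (fun g => by rw [hker, hπker])
  have hf : 0 < Nat.card (E ≃ₐ[K₀] E) := Nat.card_pos
  have : NeZero (Nat.card (E ≃ₐ[K₀] E)) := ⟨hf.ne'⟩
  have hkerE : ∀ g, X' g = 0 ↔ g ∈ E.fixingSubgroup := fun g => by rw [hker', hπker]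
  let F'' : IntermediateField K₀ Ω := IntermediateField.normalClosure K₀ (↥(E ⊔ F')) Ω
  have hle : E ⊔ F' ≤ F'' := IntermediateField.le_normalClosure _
  have hNn : (E.fixingSubgroup).Normal := normal_fixingSubgroup E
  have hUn : (F''.fixingSubgroup).Normal := normal_fixingSubgroup F''
  have hUN : F''.fixingSubgroup ≤ E.fixingSubgroup :=
    IntermediateField.fixingSubgroup_antitone (le_sup_left.trans hle)
  have hUF : F''.fixingSubgroup ≤ F'.fixingSubgroup :=
    IntermediateField.fixingSubgroup_antitone (le_sup_right.trans hle)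
  have key := helper55.mulCyc_level_coboundary_iff (E.fixingSubgroup) (F''.fixingSubgroup) hUN
    (fun c hc hcU => h90_subgroup _ F'' c hc hcU) hX' (fun g => (hkerE g).symm) hσ a ha
  obtain ⟨y₀, hy₀, hay₀⟩ := key.1 ⟨y, fun g s hs => hy g s (hUF hs), fun g h => by
    rw [hrel, helper6440.mulCyc_apply, helper6440.mulCyc_apply, hcarry]⟩
  refine ⟨⟨(y₀ : Ω), coe_mem_of_smul_eq E y₀ hy₀⟩, ?_⟩
  rw [← prod_range_pow_apply_eq_norm E hX' hkerE hσ, hay₀, Units.coe_prod]
  rfl

/-- **(L), direction `⇐`.** If `a` is a norm from `E` then `mulCyc X a` is the coboundary of a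
cochain which is right-invariant under `E.fixingSubgroup`. -/
theorem exists_mulCyc_coboundary_of_norm (hX : ∀ g h, X (g * h) = X g + X h)
    (hker : ∀ g, X g = 0 ↔ g ∈ E.fixingSubgroup) (a : Ωˣ)
    (ha : ∀ g : Ω ≃ₐ[K₀] Ω, g • a = a)
    (b : E) (hb : algebraMap K₀ Ω (Algebra.norm K₀ b) = (a : Ω)) :
    ∃ y : (Ω ≃ₐ[K₀] Ω) → Ωˣ, (∀ g s, s ∈ E.fixingSubgroup → y (g * s) = y g) ∧
      ∀ g h, g • y h / y (g * h) * y g = mulCyc X a (g, h) := by
  classical
  let π : (Ω ≃ₐ[K₀] Ω) →* (E ≃ₐ[K₀] E) := AlgEquiv.restrictNormalHom E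
  have hsurj : Function.Surjective π := AlgEquiv.restrictNormalHom_surjective Ω
  have hπker : ∀ g, π g = 1 ↔ g ∈ E.fixingSubgroup := fun g => by
    rw [← IntermediateField.restrictNormalHom_ker E, MonoidHom.mem_ker]
  obtain ⟨X', hX', hker', ⟨σ, hσ⟩, hcarry⟩ := exists_scaled_char π hsurj hX
    (fun g => by rw [hker, hπker])
  have hf : 0 < Nat.card (E ≃ₐ[K₀] E) := Nat.card_pos
  have : NeZero (Nat.card (E ≃ₐ[K₀] E)) := ⟨hf.ne'⟩
  have hkerE : ∀ g, X' g = 0 ↔ g ∈ E.fixingSubgroup := fun g => by rw [hker', hπker]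
  have hNn : (E.fixingSubgroup).Normal := normal_fixingSubgroup E
  have hb0 : (b : Ω) ≠ 0 := by
    intro h0
    have h1 : b = 0 := by exact_mod_cast h0
    rw [h1, Algebra.norm_zero, map_zero] at hb
    exact a.ne_zero hb.symm
  have key := helper55.mulCyc_level_coboundary_iff (E.fixingSubgroup) (E.fixingSubgroup) le_rfl
    (fun c hc hcU => h90_subgroup _ E c hc hcU) hX' (fun g => (hkerE g).symm) hσ a ha
  obtain ⟨y, hyN, hrel⟩ := key.2 ⟨Units.mk0 (b : Ω) hb0, fun m hm => by
      apply Units.ext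
      exact (IntermediateField.mem_fixingSubgroup_iff _ _).1 hm _ b.2, by
      apply Units.ext
      rw [← hb, ← prod_range_pow_apply_eq_norm E hX' hkerE hσ, Units.coe_prod]
      rfl⟩
  exact ⟨y, fun g s hs => hyN g s hs, fun g h => by
    rw [hrel, helper6440.mulCyc_apply, helper6440.mulCyc_apply, hcarry]⟩

/-- **(G).** Normal form of a level 2-cocycle split by the cyclic layer `E`: if `f` is a
2-cocycle, right-invariant under `F'.fixingSubgroup` (`F' ⊇ E` finite normal), whose restriction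
to `E.fixingSubgroup` is the coboundary of a right-`F'.fixingSubgroup`-invariant cochain, and
`X` is a surjective additive character with kernel `E.fixingSubgroup`, then
`f = mulCyc X a * d y` with `a ∈ K₀ˣ` and `y` right-`F'.fixingSubgroup`-invariant with values
in `F'`. -/
theorem exists_normalForm (F' : IntermediateField K₀ Ω) [FiniteDimensional K₀ F'] [Normal K₀ F']
    (hEF : E ≤ F') (hX : ∀ g h, X (g * h) = X g + X h)
    (hker : ∀ g, X g = 0 ↔ g ∈ E.fixingSubgroup) {σ : Ω ≃ₐ[K₀] Ω} (hσ : X σ = 1)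
    {f : (Ω ≃ₐ[K₀] Ω) × (Ω ≃ₐ[K₀] Ω) → Ωˣ} (hf : IsMulCocycle₂ f)
    (hfU : ∀ g h, ∀ s ∈ F'.fixingSubgroup, ∀ t ∈ F'.fixingSubgroup, f (g * s, h * t) = f (g, h))
    (u : (Ω ≃ₐ[K₀] Ω) → Ωˣ) (huU : ∀ g, ∀ s ∈ F'.fixingSubgroup, u (g * s) = u g)
    (hu : ∀ g h, g ∈ E.fixingSubgroup → h ∈ E.fixingSubgroup →
      g • u h / u (g * h) * u g = f (g, h)) :
    ∃ (a : K₀) (b : Ωˣ), (b : Ω) = algebraMap K₀ Ω a ∧ ∃ y : (Ω ≃ₐ[K₀] Ω) → Ωˣ,
      (∀ g, ∀ s ∈ F'.fixingSubgroup, y (g * s) = y g) ∧ (∀ g, (y g : Ω) ∈ F') ∧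
      ∀ g h, f (g, h) = mulCyc X b (g, h) * (g • y h / y (g * h) * y g) := by
  have hNn : (E.fixingSubgroup).Normal := normal_fixingSubgroup E
  have hUn : (F'.fixingSubgroup).Normal := normal_fixingSubgroup F'
  have hUN : F'.fixingSubgroup ≤ E.fixingSubgroup := IntermediateField.fixingSubgroup_antitone hEF
  obtain ⟨b, hb, y, hyU, hrel⟩ := helper55.level_cyclic_layer_mul (E.fixingSubgroup)
    (F'.fixingSubgroup) hUN (fun c hc hcU => h90_subgroup _ F' c hc hcU) hX
    (fun g => (hker g).symm) hσ hf hfU (fun n => u n) (fun n s hs => huU n s hs)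
    (fun a b => hu a b a.2 b.2)
  obtain ⟨a, ha⟩ := exists_algebraMap_eq_of_smul_eq b hb
  refine ⟨a, b, ha.symm, y, hyU, fun g => ?_, hrel⟩
  apply coe_mem_of_smul_eq F' (y g)
  intro s hs
  refine smul_eq_of_rightInv (F'.fixingSubgroup) y hyU (fun g h s hs => ?_) g hs
  have hXs : X (g * s) = X g := by
    rw [hX, (hker s).2 (hUN hs), add_zero]
  have h1 := hrel (g * s) h
  have h2 := hrel g h
  have h3 : f (g * s, h) = f (g, h) := by
    have := hfU g h s hs 1 (one_mem _)
    rwa [mul_one] at this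
  rw [h3, helper6440.mulCyc_apply, hXs] at h1
  rw [helper6440.mulCyc_apply] at h2
  exact mul_left_cancel (h1.symm.trans h2)

end GalLayer

end Fermat.Agent.S55.helper3750
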