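import Mathlib

/-!
# S55-DEVISSAGE (helper3887): Sylow-induction devissage on `Rep (ZMod p) G`

Step E of the soft reduction for S55 (findings #1621).  Mathlib only.

Let `N` be a normal subgroup of finite index of a group `G` and let `C_N` be the class of
finite-dimensional `ZMod p`-representations of `G` on which `N` acts trivially.  If a function
`E : Rep (ZMod p) G → ℤ` is nonnegative on `C_N`, additive on biproducts in `C_N`, subadditive on
short exact sequences in `C_N`, and `E (F_p[G/H]) ≤ 0` for the subgroups `H ⊇ N` with `H/N` a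
`p`-group of index prime to `p`, then `E` vanishes on `C_N`.
-/

set_option autoImplicit false

namespace Fermat.Agent.S55.helper3887

open CategoryTheory

noncomputable section

section Generic

variable {k : Type} [Field k] {G : Type} [Group G] {M : Type} [AddCommGroup M] [Module k M]
  (ρ : Representation k G M) (H : Subgroup G)

/-- The diagonal representation of `G` on functions `G ⧸ H → M`
(a model of `M ⊗ k[G/H] = Ind_H^G Res_H M`). -/
def indRes : Representation k G (G ⧸ H → M) where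
  toFun g :=
    { toFun := fun f x => ρ g (f (g⁻¹ • x))
      map_add' := fun f₁ f₂ => by funext x; simp
      map_smul' := fun c f => by funext x; simp }
  map_one' := by
    refine LinearMap.ext fun f => funext fun x => ?_
    simp
  map_mul' g₁ g₂ := by
    refine LinearMap.ext fun f => funext fun x => ?_
    simp [mul_smul]

@[simp] lemma indRes_apply (g : G) (f : G ⧸ H → M) (x : G ⧸ H) :
    indRes ρ H g f x = ρ g (f (g⁻¹ • x)) := rfl

/-- The functions `f : G ⧸ H → M` with `f (gH) ∈ g • W`: the induced module of the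
(`H`-stable) subspace `W`, as a submodule of `indRes`. -/
def indSub (W : Submodule k M) : Submodule k (G ⧸ H → M) where
  carrier := {f | ∀ g : G, ρ g⁻¹ (f (g : G ⧸ H)) ∈ W}
  add_mem' := fun {f₁ f₂} hf hf' g => by
    simpa using W.add_mem (hf g) (hf' g)
  zero_mem' := fun g => by simp
  smul_mem' := fun c f hf g => by
    simpa using W.smul_mem c (hf g)

lemma mem_indSub {W : Submodule k M} {f : G ⧸ H → M} :
    f ∈ indSub ρ H W ↔ ∀ g : G, ρ g⁻¹ (f (g : G ⧸ H)) ∈ W := Iff.rfl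

lemma indSub_mono {W' W : Submodule k M} (h : W' ≤ W) : indSub ρ H W' ≤ indSub ρ H W :=
  fun _ hf g => h (hf g)

lemma indSub_le_comap (W : Submodule k M) (γ : G) :
    indSub ρ H W ≤ (indSub ρ H W).comap (indRes ρ H γ) := by
  intro f hf g
  have h1 := hf (γ⁻¹ * g)
  have h2 : (γ⁻¹ • (g : G ⧸ H)) = ((γ⁻¹ * g : G) : G ⧸ H) := rfl
  have h3 : ρ g⁻¹ (ρ γ (f ((γ⁻¹ * g : G) : G ⧸ H)))
      = ρ (γ⁻¹ * g)⁻¹ (f ((γ⁻¹ * g : G) : G ⧸ H)) := by
    rw [mul_inv_rev, inv_inv, map_mul]; rfl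
  simp only [indRes_apply, h2, h3]
  exact h1

/-- `indSub W` as an object of `Rep k G`. -/
abbrev indSubRep (W : Submodule k M) : Rep.{0} k G :=
  Rep.of (Representation.subrepresentation (indRes ρ H) (indSub ρ H W) (indSub_le_comap ρ H W))

lemma indSubRep_ρ_apply (W : Submodule k M) (g : G) (f : indSub ρ H W) :
    (((indSubRep ρ H W).ρ g f : indSub ρ H W) : G ⧸ H → M) = indRes ρ H g (f : G ⧸ H → M) := rfl

/-- The permutation module `k[G/H]` in its function model. -/
abbrev permRep : Rep.{0} k G := Rep.of (indRes (Representation.trivial k G k) H)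

lemma permRep_ρ_apply (g : G) (u : G ⧸ H → k) (x : G ⧸ H) :
    (permRep (k := k) H).ρ g u x = u (g⁻¹ • x) := rfl


/-! ### The short exact sequence `0 → Ind (W ⊓ ker λ) → Ind W → k[G/H] → 0` -/

/-- The inclusion `Ind W' → Ind W` for `W' ≤ W`. -/
def indSubIncl {W' W : Submodule k M} (h : W' ≤ W) : indSubRep ρ H W' ⟶ indSubRep ρ H W :=
  Rep.ofHom ⟨Submodule.inclusion (indSub_mono ρ H h), fun g => by ext f; rfl⟩

lemma indSubIncl_apply {W' W : Submodule k M} (h : W' ≤ W) (f : indSub ρ H W') :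
    (((indSubIncl ρ H h).hom f : indSub ρ H W) : G ⧸ H → M) = (f : G ⧸ H → M) := rfl

lemma indSubIncl_injective {W' W : Submodule k M} (h : W' ≤ W) :
    Function.Injective (indSubIncl ρ H h).hom := by
  intro f₁ f₂ h12
  apply Subtype.ext
  have := congrArg (fun f : indSub ρ H W => (f : G ⧸ H → M)) h12
  exact this

/-- Independence of the coset representative. -/
lemma lam_rep_indep {W : Submodule k M} (lam : M →ₗ[k] k)
    (hinv : ∀ h ∈ H, ∀ w ∈ W, lam (ρ h w) = lam w) {f : G ⧸ H → M} (hf : f ∈ indSub ρ H W)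
    {g₁ g₂ : G} (h12 : (g₁ : G ⧸ H) = (g₂ : G ⧸ H)) :
    lam (ρ g₁⁻¹ (f (g₁ : G ⧸ H))) = lam (ρ g₂⁻¹ (f (g₂ : G ⧸ H))) := by
  have hmem : g₁⁻¹ * g₂ ∈ H := QuotientGroup.eq.1 h12
  have hw := hf g₂
  have h1 : ρ g₁⁻¹ (f (g₁ : G ⧸ H)) = ρ (g₁⁻¹ * g₂) (ρ g₂⁻¹ (f (g₂ : G ⧸ H))) := by
    rw [h12, ← Module.End.mul_apply, ← map_mul, mul_assoc, mul_inv_cancel, mul_one]
  rw [h1, hinv _ hmem _ hw]

/-- The linear map `f ↦ (x ↦ λ (ρ (x.out)⁻¹ (f x)))`. -/
def lamMap (lam : M →ₗ[k] k) : (G ⧸ H → M) →ₗ[k] (G ⧸ H → k) where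
  toFun f x := lam (ρ (Quotient.out x)⁻¹ (f x))
  map_add' f₁ f₂ := by funext x; simp
  map_smul' c f := by funext x; simp

@[simp] lemma lamMap_apply (lam : M →ₗ[k] k) (f : G ⧸ H → M) (x : G ⧸ H) :
    lamMap ρ H lam f x = lam (ρ (Quotient.out x)⁻¹ (f x)) := rfl

lemma lamMap_eq {W : Submodule k M} (lam : M →ₗ[k] k)
    (hinv : ∀ h ∈ H, ∀ w ∈ W, lam (ρ h w) = lam w) {f : G ⧸ H → M} (hf : f ∈ indSub ρ H W)
    (g : G) : lamMap ρ H lam f (g : G ⧸ H) = lam (ρ g⁻¹ (f (g : G ⧸ H))) := by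
  have h12 : ((Quotient.out (g : G ⧸ H) : G) : G ⧸ H) = (g : G ⧸ H) := QuotientGroup.out_eq' _
  have := lam_rep_indep ρ H lam hinv hf h12
  rw [h12] at this
  exact this

/-- The map `Ind W → k[G/H]` attached to an `H`-invariant functional on `W`. -/
def indSubToPerm {W : Submodule k M} (lam : M →ₗ[k] k)
    (hinv : ∀ h ∈ H, ∀ w ∈ W, lam (ρ h w) = lam w) : indSubRep ρ H W ⟶ permRep (k := k) H :=
  Rep.ofHom ⟨(lamMap ρ H lam).comp (indSub ρ H W).subtype, fun γ => by
    refine LinearMap.ext fun f => funext fun x => ?_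
    obtain ⟨g, rfl⟩ := QuotientGroup.mk_surjective x
    have hf : (f : G ⧸ H → M) ∈ indSub ρ H W := f.2
    have hγf : indRes ρ H γ (f : G ⧸ H → M) ∈ indSub ρ H W := indSub_le_comap ρ H W γ hf
    have e1 : lamMap ρ H lam (indRes ρ H γ (f : G ⧸ H → M)) (g : G ⧸ H)
        = lam (ρ g⁻¹ (indRes ρ H γ (f : G ⧸ H → M) (g : G ⧸ H))) :=
      lamMap_eq ρ H lam hinv hγf g
    have e2 : lamMap ρ H lam (f : G ⧸ H → M) ((γ⁻¹ * g : G) : G ⧸ H)
        = lam (ρ (γ⁻¹ * g)⁻¹ ((f : G ⧸ H → M) ((γ⁻¹ * g : G) : G ⧸ H))) :=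
      lamMap_eq ρ H lam hinv hf (γ⁻¹ * g)
    have h2 : (γ⁻¹ • (g : G ⧸ H)) = ((γ⁻¹ * g : G) : G ⧸ H) := rfl
    have h3 : ρ g⁻¹ (ρ γ ((f : G ⧸ H → M) ((γ⁻¹ * g : G) : G ⧸ H)))
        = ρ (γ⁻¹ * g)⁻¹ ((f : G ⧸ H → M) ((γ⁻¹ * g : G) : G ⧸ H)) := by
      rw [mul_inv_rev, inv_inv, map_mul]; rfl
    change lamMap ρ H lam (indRes ρ H γ (f : G ⧸ H → M)) (g : G ⧸ H)
      = lamMap ρ H lam (f : G ⧸ H → M) (γ⁻¹ • (g : G ⧸ H))
    rw [e1, h2, e2, indRes_apply, h2, h3]⟩

lemma indSubToPerm_apply {W : Submodule k M} (lam : M →ₗ[k] k)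
    (hinv : ∀ h ∈ H, ∀ w ∈ W, lam (ρ h w) = lam w) (f : indSub ρ H W) :
    (indSubToPerm ρ H lam hinv).hom f = lamMap ρ H lam (f : G ⧸ H → M) := rfl

lemma indSub_exact {W : Submodule k M} (lam : M →ₗ[k] k)
    (hinv : ∀ h ∈ H, ∀ w ∈ W, lam (ρ h w) = lam w) :
    Function.Exact (indSubIncl ρ H (inf_le_left : W ⊓ LinearMap.ker lam ≤ W)).hom
      (indSubToPerm ρ H lam hinv).hom := by
  intro f
  have hf : (f : G ⧸ H → M) ∈ indSub ρ H W := f.2
  constructor
  · intro h0
    have h0' : lamMap ρ H lam (f : G ⧸ H → M) = 0 := h0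
    have hmem : (f : G ⧸ H → M) ∈ indSub ρ H (W ⊓ LinearMap.ker lam) := by
      intro g
      refine ⟨hf g, ?_⟩
      have h1 : lam (ρ g⁻¹ ((f : G ⧸ H → M) (g : G ⧸ H))) = 0 := by
        rw [← lamMap_eq ρ H lam hinv hf g, h0']; rfl
      exact h1
    exact ⟨⟨(f : G ⧸ H → M), hmem⟩, Subtype.ext rfl⟩
  · rintro ⟨f', rfl⟩
    change lamMap ρ H lam (f' : G ⧸ H → M) = 0
    funext x
    obtain ⟨g, rfl⟩ := QuotientGroup.mk_surjective x
    have hf' : (f' : G ⧸ H → M) ∈ indSub ρ H (W ⊓ LinearMap.ker lam) := f'.2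
    rw [lamMap_eq ρ H lam hinv (indSub_mono ρ H inf_le_left hf') g]
    exact (hf' g).2

lemma indSubToPerm_surjective {W : Submodule k M} (lam : M →ₗ[k] k)
    (hinv : ∀ h ∈ H, ∀ w ∈ W, lam (ρ h w) = lam w)
    (hW : ∀ h ∈ H, ∀ w ∈ W, ρ h w ∈ W) {v : M} (hv : v ∈ W) (hv1 : lam v = 1) :
    Function.Surjective (indSubToPerm ρ H lam hinv).hom := by
  intro u
  have hmem : (fun x : G ⧸ H => u x • ρ (Quotient.out x) v) ∈ indSub ρ H W := by
    intro g
    have h12 : ((Quotient.out (g : G ⧸ H) : G) : G ⧸ H) = (g : G ⧸ H) := QuotientGroup.out_eq' _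
    have hmemH : g⁻¹ * Quotient.out (g : G ⧸ H) ∈ H := QuotientGroup.eq.1 h12.symm
    have : ρ g⁻¹ (u (g : G ⧸ H) • ρ (Quotient.out (g : G ⧸ H)) v)
        = u (g : G ⧸ H) • ρ (g⁻¹ * Quotient.out (g : G ⧸ H)) v := by
      rw [map_smul, map_mul]; rfl
    rw [this]
    exact W.smul_mem _ (hW _ hmemH _ hv)
  refine ⟨⟨_, hmem⟩, ?_⟩
  change lamMap ρ H lam (fun x : G ⧸ H => u x • ρ (Quotient.out x) v) = u
  funext x
  rw [lamMap_apply, map_smul, ← Module.End.mul_apply, ← map_mul, inv_mul_cancel, map_one,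
    Module.End.one_apply, map_smul, hv1, smul_eq_mul, mul_one]


/-! ### `M` is a retract of `Ind Res M` when the index is invertible -/

/-- The diagonal embedding `M → (G ⧸ H → M)`. -/
def constHom : Rep.of ρ ⟶ indSubRep ρ H ⊤ :=
  Rep.ofHom ⟨
    { toFun := fun m => ⟨fun _ => m, fun _ => Submodule.mem_top⟩
      map_add' := fun _ _ => rfl
      map_smul' := fun _ _ => rfl },
    fun γ => by
      refine LinearMap.ext fun m => Subtype.ext (funext fun x => ?_)
      rfl⟩

lemma constHom_apply (m : M) (x : G ⧸ H) :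
    (((constHom ρ H).hom m : indSub ρ H ⊤) : G ⧸ H → M) x = m := rfl

/-- The averaging map `(G ⧸ H → M) → M`, `f ↦ c • ∑ x, f x`. -/
def avgHom [Fintype (G ⧸ H)] (c : k) : indSubRep ρ H ⊤ ⟶ Rep.of ρ :=
  Rep.ofHom ⟨
    { toFun := fun f => c • ∑ x, (f : G ⧸ H → M) x
      map_add' := fun f₁ f₂ => by
        rw [← smul_add, ← Finset.sum_add_distrib]; rfl
      map_smul' := fun a f => by
        change c • ∑ x, a • (f : G ⧸ H → M) x = a • (c • ∑ x, (f : G ⧸ H → M) x)
        rw [← Finset.smul_sum, smul_comm] },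
    fun γ => by
      refine LinearMap.ext fun f => ?_
      change c • ∑ x, ρ γ ((f : G ⧸ H → M) (γ⁻¹ • x)) = ρ γ (c • ∑ x, (f : G ⧸ H → M) x)
      rw [map_smul, map_sum]
      congr 1
      exact Fintype.sum_equiv (MulAction.toPerm γ⁻¹) _ _ (fun x => rfl)⟩

lemma avgHom_apply [Fintype (G ⧸ H)] (c : k) (f : indSub ρ H ⊤) :
    (avgHom ρ H c).hom f = c • ∑ x, (f : G ⧸ H → M) x := rfl

lemma avgHom_constHom [Fintype (G ⧸ H)] (c : k) (hc : c * (Fintype.card (G ⧸ H) : k) = 1) (m : M) :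
    (avgHom ρ H c).hom ((constHom ρ H).hom m) = m := by
  rw [avgHom_apply]
  have : ∑ x : G ⧸ H, (((constHom ρ H).hom m : indSub ρ H ⊤) : G ⧸ H → M) x
      = (Fintype.card (G ⧸ H) : k) • m := by
    have h1 : ∀ x : G ⧸ H, (((constHom ρ H).hom m : indSub ρ H ⊤) : G ⧸ H → M) x = m :=
      fun x => rfl
    rw [Finset.sum_congr rfl (fun x _ => h1 x), Finset.sum_const, Finset.card_univ,
      Nat.cast_smul_eq_nsmul]
  rw [this, smul_smul, hc, one_smul]

/-! ### Triviality on a normal subgroup -/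

lemma indRes_apply_of_mem_normal (N : Subgroup G) [N.Normal] (hNH : N ≤ H)
    (hN : ∀ n ∈ N, ∀ m : M, ρ n m = m) {n : G} (hn : n ∈ N) (f : G ⧸ H → M) :
    indRes ρ H n f = f := by
  funext x
  obtain ⟨g, rfl⟩ := QuotientGroup.mk_surjective x
  have h2 : (n⁻¹ • (g : G ⧸ H)) = (g : G ⧸ H) := by
    change ((n⁻¹ * g : G) : G ⧸ H) = (g : G ⧸ H)
    rw [QuotientGroup.eq]
    have h3 : (n⁻¹ * g)⁻¹ * g = g⁻¹ * n * g⁻¹⁻¹ := by group
    rw [h3]
    exact hNH (Subgroup.Normal.conj_mem ‹N.Normal› n hn g⁻¹)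
  rw [indRes_apply, h2, hN n hn]

end Generic


section Class

variable {k : Type} [Field k] {G : Type} [Group G]

/-- The class `C_N`: finite-dimensional representations on which `N` acts trivially. -/
def IsTrivOn (N : Subgroup G) (A : Rep.{0} k G) : Prop :=
  FiniteDimensional k A ∧ ∀ n ∈ N, ∀ a : A, A.ρ n a = a

variable {M : Type} [AddCommGroup M] [Module k M] (ρ : Representation k G M) (H : Subgroup G)

lemma isTrivOn_indSubRep [FiniteDimensional k M] [Finite (G ⧸ H)] (N : Subgroup G) [N.Normal]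
    (hNH : N ≤ H) (hN : ∀ n ∈ N, ∀ m : M, ρ n m = m) (W : Submodule k M) :
    IsTrivOn N (indSubRep ρ H W) := by
  refine ⟨?_, fun n hn f => ?_⟩
  · exact inferInstanceAs (FiniteDimensional k (indSub ρ H W))
  · exact Subtype.ext (indRes_apply_of_mem_normal ρ H N hNH hN hn _)

lemma isTrivOn_permRep [Finite (G ⧸ H)] (N : Subgroup G) [N.Normal] (hNH : N ≤ H) :
    IsTrivOn N (permRep (k := k) H) := by
  refine ⟨?_, fun n hn f => ?_⟩
  · exact inferInstanceAs (FiniteDimensional k (G ⧸ H → k))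
  · exact indRes_apply_of_mem_normal (Representation.trivial k G k) H N hNH (fun _ _ _ => rfl) hn _

end Class


section Formal

variable {k : Type} [Field k] {G : Type} [Group G] (N : Subgroup G) (E : Rep.{0} k G → ℤ)

/-- Additivity of `E` on biproducts inside the class `C_N` (elementwise form). -/
def BipHyp : Prop :=
  ∀ (A X B : Rep.{0} k G) (iA : A ⟶ B) (iX : X ⟶ B) (rA : B ⟶ A) (rX : B ⟶ X),
    IsTrivOn N A → IsTrivOn N X → IsTrivOn N B →
    (∀ a, rA.hom (iA.hom a) = a) → (∀ x, rX.hom (iX.hom x) = x) →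
    (∀ b, iA.hom (rA.hom b) + iX.hom (rX.hom b) = b) → E B = E A + E X

/-- Subadditivity of `E` on short exact sequences inside the class `C_N`. -/
def SesHyp : Prop :=
  ∀ (A B C : Rep.{0} k G) (f : A ⟶ B) (g : B ⟶ C),
    IsTrivOn N A → IsTrivOn N B → IsTrivOn N C →
    Function.Injective f.hom → Function.Exact f.hom g.hom → Function.Surjective g.hom →
    E B ≤ E A + E C

variable {N E}

lemma E_eq_zero_of_subsingleton (hbip : BipHyp N E) {Z : Rep.{0} k G} (hZ : IsTrivOn N Z)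
    [Subsingleton Z] : E Z = 0 := by
  have h := hbip Z Z Z (𝟙 Z) (𝟙 Z) (𝟙 Z) (𝟙 Z) hZ hZ hZ (fun _ => rfl) (fun _ => rfl)
    (fun _ => Subsingleton.elim _ _)
  omega

lemma E_le_of_retract (hnonneg : ∀ A, IsTrivOn N A → 0 ≤ E A) (hbip : BipHyp N E)
    {A B : Rep.{0} k G} (hA : IsTrivOn N A) (hB : IsTrivOn N B) (i : A ⟶ B) (r : B ⟶ A)
    (hri : ∀ a, r.hom (i.hom a) = a) : E A ≤ E B := by
  let K : Submodule k B := LinearMap.ker r.hom.toLinearMap
  have hK : ∀ g, K ≤ K.comap (B.ρ g) := by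
    intro g b hb
    have hb' : r.hom b = 0 := hb
    have h1 : r.hom (B.ρ g b) = 0 := by
      rw [Rep.hom_comm_apply r g b, hb', map_zero]
    exact h1
  let X : Rep.{0} k G := Rep.of (Representation.subrepresentation B.ρ K hK)
  have hX : IsTrivOn N X :=
    ⟨haveI := hB.1; inferInstanceAs (FiniteDimensional k K), fun n hn x => Subtype.ext (hB.2 n hn x.1)⟩
  let iX : X ⟶ B := Rep.ofHom ⟨K.subtype, fun g => by ext x; rfl⟩
  have hmem : ∀ b : B, b - i.hom (r.hom b) ∈ K := by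
    intro b
    have h1 : r.hom (b - i.hom (r.hom b)) = 0 := by
      rw [map_sub, hri, sub_self]
    exact h1
  let rX : B ⟶ X := Rep.ofHom ⟨
    { toFun := fun b => ⟨b - i.hom (r.hom b), hmem b⟩
      map_add' := fun b₁ b₂ => Subtype.ext (by
        change b₁ + b₂ - i.hom (r.hom (b₁ + b₂)) = (b₁ - i.hom (r.hom b₁)) + (b₂ - i.hom (r.hom b₂))
        rw [map_add, map_add]; abel)
      map_smul' := fun c b => Subtype.ext (by
        change c • b - i.hom (r.hom (c • b)) = c • (b - i.hom (r.hom b))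
        rw [map_smul, map_smul, smul_sub]) },
    fun g => by
      refine LinearMap.ext fun b => Subtype.ext ?_
      change B.ρ g b - i.hom (r.hom (B.ρ g b)) = B.ρ g (b - i.hom (r.hom b))
      rw [Rep.hom_comm_apply r g b, Rep.hom_comm_apply i g, map_sub]⟩
  have h := hbip A X B i iX r rX hA hX hB hri
    (fun x => Subtype.ext (by
      change (x : B) - i.hom (r.hom (x : B)) = (x : B)
      have hx : r.hom (x : B) = 0 := x.2
      rw [hx, map_zero, sub_zero]))
    (fun b => by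
      change i.hom (r.hom b) + (b - i.hom (r.hom b)) = b
      abel)
  have h0 := hnonneg X hX
  omega

lemma E_eq_of_iso (hnonneg : ∀ A, IsTrivOn N A → 0 ≤ E A) (hbip : BipHyp N E)
    {A B : Rep.{0} k G} (hA : IsTrivOn N A) (hB : IsTrivOn N B) (f : A ⟶ B) (g : B ⟶ A)
    (hgf : ∀ a, g.hom (f.hom a) = a) (hfg : ∀ b, f.hom (g.hom b) = b) : E A = E B :=
  le_antisymm (E_le_of_retract hnonneg hbip hA hB f g hgf)
    (E_le_of_retract hnonneg hbip hB hA g f hfg)

end Formal


section Perm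

variable {k : Type} [Field k] {G : Type} [Group G] (H : Subgroup G) [Finite (G ⧸ H)]

/-- The linear equivalence between the function model and Mathlib's `k[G/H]`. -/
def permEquiv : (G ⧸ H → k) ≃ₗ[k] MonoidAlgebra k (G ⧸ H) :=
  (Finsupp.linearEquivFunOnFinite k k (G ⧸ H)).symm.trans (MonoidAlgebra.coeffLinearEquiv k).symm

lemma permEquiv_equivariant (γ : G) (u : G ⧸ H → k) :
    permEquiv H (indRes (Representation.trivial k G k) H γ u)
      = Representation.ofMulAction k G (G ⧸ H) γ (permEquiv H u) := by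
  rw [Representation.ofMulAction_def]
  simp only [permEquiv, LinearEquiv.trans_apply, LinearMap.comp_apply, LinearEquiv.coe_coe,
    LinearEquiv.apply_symm_apply]
  congr 1
  ext x
  have hx : x = γ • (γ⁻¹ • x) := (smul_inv_smul γ x).symm
  conv_rhs => rw [hx]
  rw [Finsupp.lmapDomain_apply, Finsupp.mapDomain_apply (MulAction.injective γ)]
  rfl

lemma permEquiv_symm_equivariant (γ : G) (a : MonoidAlgebra k (G ⧸ H)) :
    (permEquiv (k := k) H).symm (Representation.ofMulAction k G (G ⧸ H) γ a)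
      = indRes (Representation.trivial k G k) H γ ((permEquiv (k := k) H).symm a) := by
  apply (permEquiv (k := k) H).injective
  rw [permEquiv_equivariant, LinearEquiv.apply_symm_apply, LinearEquiv.apply_symm_apply]

/-- The comparison map from the function model to `Rep.ofMulAction k G (G ⧸ H)`. -/
def permToMulAction : permRep (k := k) H ⟶ Rep.ofMulAction k G (G ⧸ H) :=
  Rep.ofHom ⟨(permEquiv (k := k) H).toLinearMap, fun γ =>
    LinearMap.ext fun u => permEquiv_equivariant H γ u⟩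

/-- The comparison map from `Rep.ofMulAction k G (G ⧸ H)` to the function model. -/
def permOfMulAction : Rep.ofMulAction k G (G ⧸ H) ⟶ permRep (k := k) H :=
  Rep.ofHom ⟨(permEquiv (k := k) H).symm.toLinearMap, fun γ =>
    LinearMap.ext fun a => permEquiv_symm_equivariant H γ a⟩

lemma permOfMulAction_permToMulAction (u : G ⧸ H → k) :
    (permOfMulAction (k := k) H).hom ((permToMulAction (k := k) H).hom u) = u :=
  (permEquiv (k := k) H).symm_apply_apply u

lemma permToMulAction_permOfMulAction (a : MonoidAlgebra k (G ⧸ H)) :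
    (permToMulAction (k := k) H).hom ((permOfMulAction (k := k) H).hom a) = a :=
  (permEquiv (k := k) H).apply_symm_apply a

lemma isTrivOn_ofMulAction (N : Subgroup G) [N.Normal] (hNH : N ≤ H) :
    IsTrivOn N (Rep.ofMulAction k G (G ⧸ H)) := by
  refine ⟨?_, fun n hn a => ?_⟩
  · exact Module.Finite.equiv (permEquiv (k := k) H)
  · change Representation.ofMulAction k G (G ⧸ H) n a = a
    have h1 := permEquiv_equivariant (k := k) H n ((permEquiv (k := k) H).symm a)
    rw [LinearEquiv.apply_symm_apply] at h1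
    rw [← h1, indRes_apply_of_mem_normal (Representation.trivial k G k) H N hNH (fun _ _ _ => rfl) hn,
      LinearEquiv.apply_symm_apply]

end Perm

section FixedPoints

variable {p : ℕ} [Fact p.Prime]

/-- A nonzero finite-dimensional `F_p`-representation in which every element acts with
`p`-power order has a nonzero fixed vector. -/
lemma exists_fixed_ne_zero {Γ : Type} [Group Γ] {V : Type} [AddCommGroup V]
    [Module (ZMod p) V] [FiniteDimensional (ZMod p) V] [Nontrivial V]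
    (τ : Representation (ZMod p) Γ V) (hp : ∀ g : Γ, ∃ n : ℕ, τ (g ^ p ^ n) = 1) :
    ∃ v : V, v ≠ 0 ∧ ∀ g, τ g v = v := by
  classical
  let Q : Subgroup (V →ₗ[ZMod p] V)ˣ := τ.asGroupHom.range
  have hQ : IsPGroup p Q := by
    rintro ⟨q, g, rfl⟩
    obtain ⟨n, hn⟩ := hp g
    refine ⟨n, Subtype.ext (Units.ext ?_)⟩
    change ((τ.asGroupHom g ^ p ^ n : (V →ₗ[ZMod p] V)ˣ) : V →ₗ[ZMod p] V) = 1
    rw [← map_pow]
    exact hn
  have hfin : Finite V := Module.finite_of_finite (ZMod p)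
  have hcard : p ∣ Nat.card V := by
    have h1 : Nat.card V = p ^ Module.finrank (ZMod p) V := by
      rw [Module.natCard_eq_pow_finrank (K := ZMod p), Nat.card_zmod]
    rw [h1]
    exact dvd_pow_self p (Module.finrank_pos (R := ZMod p) (M := V)).ne'
  have h0 : (0 : V) ∈ MulAction.fixedPoints Q V := by
    intro q
    exact smul_zero _
  obtain ⟨b, hb, hb0⟩ := hQ.exists_fixed_point_of_prime_dvd_card_of_fixed_point V hcard h0
  refine ⟨b, fun h => hb0 h.symm, fun g => ?_⟩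
  exact hb ⟨τ.asGroupHom g, g, rfl⟩

/-- An `H`-stable nonzero subspace `W` carries an `H`-invariant functional which is nonzero
on `W`, if every element of `H` acts with `p`-power order. -/
lemma exists_invariant_functional {G : Type} [Group G] {M : Type} [AddCommGroup M]
    [Module (ZMod p) M] [FiniteDimensional (ZMod p) M]
    (ρ : Representation (ZMod p) G M) (H : Subgroup G)
    (hp : ∀ h ∈ H, ∃ n : ℕ, ∀ m : M, ρ (h ^ p ^ n) m = m)
    (W : Submodule (ZMod p) M) (hW : ∀ h ∈ H, ∀ w ∈ W, ρ h w ∈ W) (hne : W ≠ ⊥) :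
    ∃ lam : M →ₗ[ZMod p] ZMod p,
      (∀ h ∈ H, ∀ w ∈ W, lam (ρ h w) = lam w) ∧ ∃ v ∈ W, lam v = 1 := by
  let σ : Representation (ZMod p) H W :=
    Representation.subrepresentation (ρ.comp H.subtype) W (fun h w hw => hW h.1 h.2 w hw)
  have hσ : ∀ (h : H) (w : W), ((σ h w : W) : M) = ρ (h : G) (w : M) := fun _ _ => rfl
  have : Nontrivial W := (Submodule.nontrivial_iff_ne_bot).2 hne
  obtain ⟨μ, hμ0, hμ⟩ := exists_fixed_ne_zero (p := p) (τ := σ.dual) (by
    intro h
    obtain ⟨n, hn⟩ := hp (h⁻¹ : H) (H.inv_mem h.2)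
    refine ⟨n, ?_⟩
    refine LinearMap.ext fun μ => LinearMap.ext fun w => ?_
    change μ (σ (h ^ p ^ n)⁻¹ w) = μ w
    congr 1
    apply Subtype.ext
    rw [hσ]
    have h1 : (((h ^ p ^ n)⁻¹ : H) : G) = ((h⁻¹ : H) : G) ^ p ^ n := by
      simp [inv_pow]
    rw [h1]
    exact hn _)
  obtain ⟨lam, hlam⟩ := LinearMap.exists_extend μ
  have hlam' : ∀ w : W, lam (w : M) = μ w := fun w => by
    rw [← hlam]; rfl
  refine ⟨lam, fun h hh w hw => ?_, ?_⟩
  · have h1 := hμ (⟨h, hh⟩⁻¹ : H)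
    have h2 : μ (σ ⟨h, hh⟩ ⟨w, hw⟩) = μ ⟨w, hw⟩ := by
      conv_rhs => rw [← h1]
      change μ (σ ⟨h, hh⟩ ⟨w, hw⟩) = μ (σ (⟨h, hh⟩⁻¹ : H)⁻¹ ⟨w, hw⟩)
      rw [inv_inv]
    have h3 : lam (ρ h w) = μ (σ ⟨h, hh⟩ ⟨w, hw⟩) := hlam' (σ ⟨h, hh⟩ ⟨w, hw⟩)
    rw [h3, h2, ← hlam']
  · have hex : ∃ w : W, μ w ≠ 0 := by
      by_contra hcon
      push Not at hcon
      exact hμ0 (LinearMap.ext hcon)
    obtain ⟨w, hw⟩ := hex
    refine ⟨(μ w)⁻¹ • (w : M), W.smul_mem _ w.2, ?_⟩
    rw [map_smul, hlam', smul_eq_mul, inv_mul_cancel₀ hw]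

/-- The preimage of a Sylow `p`-subgroup of `G ⧸ N`. -/
lemma exists_sylow_preimage {G : Type} [Group G] (N : Subgroup G) [N.Normal] [N.FiniteIndex] :
    ∃ H : Subgroup G, N ≤ H ∧ (∀ h ∈ H, ∃ n : ℕ, h ^ p ^ n ∈ N) ∧ ¬ p ∣ H.index := by
  obtain ⟨P⟩ : Nonempty (Sylow p (G ⧸ N)) := inferInstance
  refine ⟨(P : Subgroup (G ⧸ N)).comap (QuotientGroup.mk' N), ?_, ?_, ?_⟩
  · intro n hn
    rw [Subgroup.mem_comap]
    have h1 : QuotientGroup.mk' N n = 1 := (QuotientGroup.eq_one_iff n).2 hn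
    rw [h1]
    exact Subgroup.one_mem _
  · intro h hh
    obtain ⟨n, hn⟩ := P.isPGroup' ⟨QuotientGroup.mk' N h, hh⟩
    refine ⟨n, ?_⟩
    have h1 : (QuotientGroup.mk' N h) ^ p ^ n = 1 := congrArg Subtype.val hn
    rw [← map_pow] at h1
    exact (QuotientGroup.eq_one_iff _).1 h1
  · rw [Subgroup.index_comap_of_surjective _ (QuotientGroup.mk'_surjective N)]
    exact P.not_dvd_index

end FixedPoints


section MainTheorem

variable {p : ℕ} [Fact p.Prime] {G : Type} [Group G]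

lemma subsingleton_indSub_bot {k : Type} [Field k] {M : Type} [AddCommGroup M] [Module k M]
    (ρ : Representation k G M) (H : Subgroup G) : Subsingleton (indSub ρ H (⊥ : Submodule k M)) := by
  refine ⟨fun f₁ f₂ => Subtype.ext (funext fun x => ?_)⟩
  obtain ⟨g, rfl⟩ := QuotientGroup.mk_surjective x
  have key : ∀ f : indSub ρ H (⊥ : Submodule k M), (f : G ⧸ H → M) (g : G ⧸ H) = 0 := by
    intro f
    have h1 : ρ g⁻¹ ((f : G ⧸ H → M) (g : G ⧸ H)) = 0 := (Submodule.mem_bot k).1 (f.2 g)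
    have h2 : ρ g (ρ g⁻¹ ((f : G ⧸ H → M) (g : G ⧸ H))) = (f : G ⧸ H → M) (g : G ⧸ H) := by
      rw [← Module.End.mul_apply, ← map_mul, mul_inv_cancel, map_one, Module.End.one_apply]
    rw [← h2, h1, map_zero]
  rw [key f₁, key f₂]

/-- **Sylow-induction devissage.**  Let `N` be a normal subgroup of finite index of `G` and
`C_N` the class of finite-dimensional `ZMod p`-representations of `G` trivial on `N`.
If `E : Rep (ZMod p) G → ℤ` is nonnegative on `C_N`, additive on biproducts in `C_N`,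
subadditive on short exact sequences in `C_N`, and `E (F_p[G/H]) ≤ 0` for every subgroup
`H ⊇ N` such that `H/N` is a `p`-group and `[G:H]` is prime to `p`, then `E = 0` on `C_N`. -/
theorem devissage_eq_zero (N : Subgroup G) [N.Normal] [N.FiniteIndex]
    (E : Rep.{0} (ZMod p) G → ℤ)
    (hnonneg : ∀ A : Rep.{0} (ZMod p) G, IsTrivOn N A → 0 ≤ E A)
    (hbip : ∀ (A X B : Rep.{0} (ZMod p) G) (iA : A ⟶ B) (iX : X ⟶ B) (rA : B ⟶ A) (rX : B ⟶ X),
      IsTrivOn N A → IsTrivOn N X → IsTrivOn N B →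
      (∀ a, rA.hom (iA.hom a) = a) → (∀ x, rX.hom (iX.hom x) = x) →
      (∀ b, iA.hom (rA.hom b) + iX.hom (rX.hom b) = b) → E B = E A + E X)
    (hses : ∀ (A B C : Rep.{0} (ZMod p) G) (f : A ⟶ B) (g : B ⟶ C),
      IsTrivOn N A → IsTrivOn N B → IsTrivOn N C →
      Function.Injective f.hom → Function.Exact f.hom g.hom → Function.Surjective g.hom →
      E B ≤ E A + E C)
    (hperm : ∀ H : Subgroup G, N ≤ H → (∀ h ∈ H, ∃ n : ℕ, h ^ p ^ n ∈ N) → ¬ p ∣ H.index →
      E (Rep.ofMulAction (ZMod p) G (G ⧸ H)) ≤ 0)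
    (M : Rep.{0} (ZMod p) G) (hM : IsTrivOn N M) : E M = 0 := by
  classical
  obtain ⟨H, hNH, hHp, hidx⟩ := exists_sylow_preimage (p := p) N
  have hHfi : H.FiniteIndex := Subgroup.finiteIndex_of_le hNH
  have hfin : Finite (G ⧸ H) := inferInstance
  let _ : Fintype (G ⧸ H) := Fintype.ofFinite _
  have hMfd : FiniteDimensional (ZMod p) M := hM.1
  have hbip' : BipHyp N E := hbip
  -- the permutation module
  have hPerm : E (permRep (k := ZMod p) H) ≤ 0 := by
    rw [E_eq_of_iso hnonneg hbip' (isTrivOn_permRep H N hNH) (isTrivOn_ofMulAction H N hNH)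
      (permToMulAction H) (permOfMulAction H) (permOfMulAction_permToMulAction H)
      (permToMulAction_permOfMulAction H)]
    exact hperm H hNH hHp hidx
  have htriv : ∀ W : Submodule (ZMod p) M, IsTrivOn N (indSubRep M.ρ H W) :=
    fun W => isTrivOn_indSubRep M.ρ H N hNH hM.2 W
  have hpow : ∀ h ∈ H, ∃ n : ℕ, ∀ m : M, M.ρ (h ^ p ^ n) m = m := by
    intro h hh
    obtain ⟨n, hn⟩ := hHp h hh
    exact ⟨n, fun m => hM.2 _ hn m⟩
  -- flag induction
  have key : ∀ (n : ℕ) (W : Submodule (ZMod p) M), Module.finrank (ZMod p) W = n →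
      (∀ h ∈ H, ∀ w ∈ W, M.ρ h w ∈ W) → E (indSubRep M.ρ H W) ≤ 0 := by
    intro n
    induction n using Nat.strong_induction_on with
    | _ n ih =>
      intro W hn hW
      by_cases hbot : W = ⊥
      · subst hbot
        have hss : Subsingleton (indSubRep M.ρ H (⊥ : Submodule (ZMod p) M)) :=
          subsingleton_indSub_bot M.ρ H
        exact (E_eq_zero_of_subsingleton hbip' (htriv ⊥)).le
      · obtain ⟨lam, hinv, v, hv, hv1⟩ := exists_invariant_functional M.ρ H hpow W hW hbot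
        have hlt : W ⊓ LinearMap.ker lam < W := by
          refine lt_of_le_of_ne inf_le_left fun heq => ?_
          have hvk : v ∈ W ⊓ LinearMap.ker lam := by rw [heq]; exact hv
          have h0 : lam v = 0 := hvk.2
          rw [hv1] at h0
          exact one_ne_zero h0
        have hlt' : Module.finrank (ZMod p) ↥(W ⊓ LinearMap.ker lam) < n :=
          hn ▸ Submodule.finrank_lt_finrank_of_lt hlt
        have hstab : ∀ h ∈ H, ∀ w ∈ W ⊓ LinearMap.ker lam, M.ρ h w ∈ W ⊓ LinearMap.ker lam := by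
          intro h hh w hw
          refine ⟨hW h hh w hw.1, ?_⟩
          have h0 : lam w = 0 := hw.2
          have h1 : lam (M.ρ h w) = 0 := by rw [hinv h hh w hw.1, h0]
          exact h1
        have h1 := ih _ hlt' (W ⊓ LinearMap.ker lam) rfl hstab
        have h2 := hses _ _ _ (indSubIncl M.ρ H (inf_le_left : W ⊓ LinearMap.ker lam ≤ W))
          (indSubToPerm M.ρ H lam hinv) (htriv _) (htriv _) (isTrivOn_permRep H N hNH)
          (indSubIncl_injective M.ρ H _) (indSub_exact M.ρ H lam hinv)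
          (indSubToPerm_surjective M.ρ H lam hinv hW hv hv1)
        omega
  have h3 := key _ ⊤ rfl (fun _ _ _ _ => Submodule.mem_top)
  -- `M` is a retract of `Ind Res M`
  have hcard : (Fintype.card (G ⧸ H) : ZMod p) ≠ 0 := by
    intro h0
    rw [ZMod.natCast_eq_zero_iff] at h0
    apply hidx
    rwa [Subgroup.index_eq_card, Nat.card_eq_fintype_card]
  have h4 : E M ≤ E (indSubRep M.ρ H ⊤) :=
    E_le_of_retract hnonneg hbip' hM (htriv ⊤) (constHom M.ρ H)
      (avgHom M.ρ H (Fintype.card (G ⧸ H) : ZMod p)⁻¹)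
      (avgHom_constHom M.ρ H _ (inv_mul_cancel₀ hcard))
  have h5 := hnonneg M hM
  omega

end MainTheorem

end

end Fermat.Agent.S55.helper3887
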