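/-
S55-SYLOW (helper3991): Sylow / unipotent devissage as an induction principle.

For a normal subgroup `N` of finite index in `G` and a property `Q` of `ZMod p`-representations of
`G` which is closed under extensions and direct summands and holds for the permutation modules
`ZMod p [G ⧸ H]` (`N ≤ H`, `H / N` a `p`-group, `[G : H]` prime to `p`), the property `Q` holds for
every finite-dimensional representation on which `N` acts trivially.

Model of the permutation module: functions `G ⧸ H → ZMod p` with `(g • f) x = f (g⁻¹ • x)`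
(`permRep`).  Sibling on main in the coinduced model: `helper5178_Sylow.lean`.
-/
import Mathlib

set_option autoImplicit false

open CategoryTheory

namespace Fermat.Agent.S55.helper3991

noncomputable section

/-! ### Fixed vectors -/

/-- A representation over `ZMod p` on a nonzero finite-dimensional space, all of whose operators
have `p`-power order, has a nonzero fixed vector. -/
theorem exists_ne_zero_fixed {p : ℕ} [Fact p.Prime] {Γ V : Type*} [Group Γ] [AddCommGroup V]
    [Module (ZMod p) V] [FiniteDimensional (ZMod p) V] [Nontrivial V]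
    (τ : Representation (ZMod p) Γ V) (hτ : ∀ γ : Γ, ∃ j : ℕ, τ (γ ^ p ^ j) = 1) :
    ∃ v : V, v ≠ 0 ∧ ∀ γ, τ γ v = v := by
  classical
  let P : Subgroup (V →ₗ[ZMod p] V)ˣ := τ.asGroupHom.range
  have hP : IsPGroup p P := by
    rintro ⟨u, γ, rfl⟩
    obtain ⟨j, hj⟩ := hτ γ
    have hpow : τ.asGroupHom γ ^ p ^ j = 1 := by
      apply Units.ext
      rw [Units.val_pow_eq_pow_val, Representation.asGroupHom_apply, ← map_pow, hj]
      rfl
    exact ⟨j, Subtype.ext (by simpa using hpow)⟩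
  have : Finite V := Module.finite_of_finite (ZMod p)
  have hcard : p ∣ Nat.card V := by
    have h1 : Nat.card V = p ^ Module.finrank (ZMod p) V := by
      rw [Module.natCard_eq_pow_finrank (K := ZMod p) (V := V)]
      simp
    rw [h1]
    exact dvd_pow_self p (Module.finrank_pos (R := ZMod p) (M := V)).ne'
  have h0 : (0 : V) ∈ MulAction.fixedPoints P V := by
    rintro ⟨u, hu⟩
    show (u : V →ₗ[ZMod p] V) (0 : V) = 0
    simp
  obtain ⟨b, hb, hb0⟩ := hP.exists_fixed_point_of_prime_dvd_card_of_fixed_point V hcard h0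
  refine ⟨b, fun h => hb0 h.symm, fun γ => ?_⟩
  exact hb ⟨τ.asGroupHom γ, γ, rfl⟩

/-! ### The representations -/

section Defs

variable {k G : Type} [Field k] [Group G]

/-- Functions `X → V` on a `G`-set with the diagonal action `(g • φ) x = ρ g (φ (g⁻¹ • x))`. -/
def twistFun {V : Type} [AddCommGroup V] [Module k V] (ρ : Representation k G V)
    (X : Type) [MulAction G X] : Representation k G (X → V) where
  toFun g :=
    { toFun := fun φ x => ρ g (φ (g⁻¹ • x))
      map_add' := fun φ ψ => funext fun x => by simp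
      map_smul' := fun c φ => funext fun x => by simp }
  map_one' := LinearMap.ext fun φ => funext fun x => by simp
  map_mul' g g' := LinearMap.ext fun φ => funext fun x => by simp [mul_smul]

@[simp]
lemma twistFun_apply {V : Type} [AddCommGroup V] [Module k V] (ρ : Representation k G V)
    (X : Type) [MulAction G X] (g : G) (φ : X → V) (x : X) :
    twistFun ρ X g φ x = ρ g (φ (g⁻¹ • x)) := rfl

variable (k G) in
/-- The permutation representation on functions `X → k`: `(g • f) x = f (g⁻¹ • x)`. -/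
abbrev permRep (X : Type) [MulAction G X] : Rep.{0} k G :=
  Rep.of (twistFun (Representation.trivial k G k) X)

lemma permRep_ρ_apply (X : Type) [MulAction G X] (g : G) (f : X → k) (x : X) :
    (permRep k G X).ρ g f x = f (g⁻¹ • x) := rfl

/-- The subspace of `G ⧸ H → A` of functions `φ` with `φ (g H) ∈ g • W`. -/
def indSub (A : Rep.{0} k G) (H : Subgroup G) (W : Submodule k A) : Submodule k (G ⧸ H → A) where
  carrier := {φ | ∀ g : G, A.ρ g⁻¹ (φ (g : G ⧸ H)) ∈ W}
  add_mem' := fun {φ ψ} hφ hψ g => by simpa using W.add_mem (hφ g) (hψ g)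
  zero_mem' := fun g => by simp
  smul_mem' := fun c φ hφ g => by simpa using W.smul_mem c (hφ g)

lemma mem_indSub {A : Rep.{0} k G} {H : Subgroup G} {W : Submodule k A} {φ : G ⧸ H → A} :
    φ ∈ indSub A H W ↔ ∀ g : G, A.ρ g⁻¹ (φ (g : G ⧸ H)) ∈ W := Iff.rfl

lemma indSub_le_comap (A : Rep.{0} k G) (H : Subgroup G) (W : Submodule k A) (g : G) :
    indSub A H W ≤ (indSub A H W).comap (twistFun A.ρ (G ⧸ H) g) := by
  intro φ hφ g'
  have h := hφ (g⁻¹ * g')
  have e : A.ρ g'⁻¹ (twistFun A.ρ (G ⧸ H) g φ (g' : G ⧸ H))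
      = A.ρ (g⁻¹ * g')⁻¹ (φ ((g⁻¹ * g' : G) : G ⧸ H)) := by
    rw [twistFun_apply, mul_inv_rev, inv_inv, map_mul]
    rfl
  rw [e]
  exact h

/-- The representation of `G` on `indSub A H W` (for `H`-stable `W` this is the module induced
from the `H`-module `W`). -/
abbrev indRep (A : Rep.{0} k G) (H : Subgroup G) (W : Submodule k A) : Rep.{0} k G :=
  Rep.of ((twistFun A.ρ (G ⧸ H)).subrepresentation (indSub A H W) (indSub_le_comap A H W))

lemma indRep_ρ_coe (A : Rep.{0} k G) (H : Subgroup G) (W : Submodule k A) (g : G)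
    (φ : indSub A H W) (x : G ⧸ H) :
    (((indRep A H W).ρ g φ : indSub A H W) : G ⧸ H → A) x = A.ρ g ((φ : G ⧸ H → A) (g⁻¹ • x)) :=
  rfl

end Defs

/-! ### The maps -/

section Maps

variable {k G : Type} [Field k] [Group G]

lemma indSub_mono (A : Rep.{0} k G) (H : Subgroup G) {W' W : Submodule k A} (h : W' ≤ W) :
    indSub A H W' ≤ indSub A H W :=
  fun _ hφ g => h (hφ g)

/-- The inclusion `indRep A H W' ⟶ indRep A H W` for `W' ≤ W`. -/
def indIncl (A : Rep.{0} k G) (H : Subgroup G) {W' W : Submodule k A} (h : W' ≤ W) :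
    indRep A H W' ⟶ indRep A H W :=
  Rep.ofHom ⟨Submodule.inclusion (indSub_mono A H h), fun _ => rfl⟩

lemma indIncl_injective (A : Rep.{0} k G) (H : Subgroup G) {W' W : Submodule k A} (h : W' ≤ W) :
    Function.Injective (indIncl A H h).hom :=
  fun _ _ hab => Submodule.inclusion_injective (indSub_mono A H h) hab

/-- `φ ↦ (x ↦ l (x.out⁻¹ • φ x))`. -/
def evalLin (A : Rep.{0} k G) (H : Subgroup G) (l : A →ₗ[k] k) :
    (G ⧸ H → A) →ₗ[k] (G ⧸ H → k) where
  toFun φ x := l (A.ρ (x.out)⁻¹ (φ x))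
  map_add' φ ψ := funext fun x => by simp
  map_smul' c φ := funext fun x => by simp

lemma evalLin_apply_mk {A : Rep.{0} k G} {H : Subgroup G} {W : Submodule k A} (l : A →ₗ[k] k)
    (hl : ∀ h ∈ H, ∀ w ∈ W, l (A.ρ h w) = l w) {φ : G ⧸ H → A} (hφ : φ ∈ indSub A H W) (g : G) :
    evalLin A H l φ (g : G ⧸ H) = l (A.ρ g⁻¹ (φ (g : G ⧸ H))) := by
  obtain ⟨h, hh⟩ := QuotientGroup.mk_out_eq_mul H g
  show l (A.ρ ((g : G ⧸ H).out)⁻¹ (φ (g : G ⧸ H))) = _
  rw [hh, mul_inv_rev, map_mul]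
  exact hl _ (H.inv_mem h.2) _ (hφ g)

/-- The evaluation map `indRep A H W ⟶ k[G ⧸ H]` attached to a functional `l` which is
`H`-invariant on `W`. -/
def evalHom (A : Rep.{0} k G) (H : Subgroup G) (W : Submodule k A) (l : A →ₗ[k] k)
    (hl : ∀ h ∈ H, ∀ w ∈ W, l (A.ρ h w) = l w) : indRep A H W ⟶ permRep k G (G ⧸ H) :=
  Rep.ofHom ⟨(evalLin A H l).comp (indSub A H W).subtype, fun g =>
    LinearMap.ext fun φ => funext fun x => by
      obtain ⟨y, rfl⟩ := QuotientGroup.mk_surjective x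
      show evalLin A H l (twistFun A.ρ (G ⧸ H) g φ.1) (y : G ⧸ H)
        = evalLin A H l φ.1 (((g⁻¹ * y : G)) : G ⧸ H)
      rw [evalLin_apply_mk l hl φ.2 (g⁻¹ * y),
        evalLin_apply_mk l hl (indSub_le_comap A H W g φ.2) y]
      rw [twistFun_apply, mul_inv_rev, inv_inv, map_mul]
      rfl⟩

lemma evalHom_apply (A : Rep.{0} k G) (H : Subgroup G) (W : Submodule k A) (l : A →ₗ[k] k)
    (hl : ∀ h ∈ H, ∀ w ∈ W, l (A.ρ h w) = l w) (φ : indSub A H W) :
    (evalHom A H W l hl).hom φ = evalLin A H l φ.1 := rfl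

lemma evalHom_exact (A : Rep.{0} k G) (H : Subgroup G) (W : Submodule k A) (l : A →ₗ[k] k)
    (hl : ∀ h ∈ H, ∀ w ∈ W, l (A.ρ h w) = l w) :
    Function.Exact (indIncl A H (inf_le_left : W ⊓ LinearMap.ker l ≤ W)).hom
      (evalHom A H W l hl).hom := by
  intro φ
  constructor
  · intro hφ
    refine ⟨⟨φ.1, fun g => ⟨φ.2 g, ?_⟩⟩, Subtype.ext rfl⟩
    have h1 := congrFun hφ (g : G ⧸ H)
    rw [evalHom_apply, evalLin_apply_mk l hl φ.2 g] at h1
    exact h1
  · rintro ⟨ψ, rfl⟩
    funext x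
    obtain ⟨y, rfl⟩ := QuotientGroup.mk_surjective x
    show evalLin A H l ψ.1 (y : G ⧸ H) = 0
    rw [evalLin_apply_mk l hl (fun g => (ψ.2 g).1) y]
    exact (ψ.2 y).2

lemma evalHom_surjective (A : Rep.{0} k G) (H : Subgroup G) (W : Submodule k A) (l : A →ₗ[k] k)
    (hl : ∀ h ∈ H, ∀ w ∈ W, l (A.ρ h w) = l w) (hW : ∀ h ∈ H, ∀ w ∈ W, A.ρ h w ∈ W)
    {w₀ : A} (hw₀ : w₀ ∈ W) (h1 : l w₀ = 1) :
    Function.Surjective (evalHom A H W l hl).hom := by
  intro f
  refine ⟨⟨fun x => (f x : k) • A.ρ x.out w₀, fun g => ?_⟩, funext fun x => ?_⟩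
  · obtain ⟨h, hh⟩ := QuotientGroup.mk_out_eq_mul H g
    rw [map_smul, hh]
    refine W.smul_mem _ ?_
    have e : A.ρ g⁻¹ (A.ρ (g * h) w₀) = A.ρ h w₀ := by
      rw [← Module.End.mul_apply, ← map_mul, inv_mul_cancel_left]
    rw [e]
    exact hW _ h.2 _ hw₀
  · show l (A.ρ x.out⁻¹ ((f x : k) • A.ρ x.out w₀)) = f x
    rw [map_smul, map_smul, ← Module.End.mul_apply, ← map_mul, inv_mul_cancel, map_one,
      Module.End.one_apply, h1, smul_eq_mul, mul_one]

/-- The constant functions: `A ⟶ indRep A H ⊤`. -/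
def constHom (A : Rep.{0} k G) (H : Subgroup G) : A ⟶ indRep A H ⊤ :=
  Rep.ofHom ⟨{ toFun := fun a => ⟨fun _ => a, fun _ => Submodule.mem_top⟩
               map_add' := fun _ _ => rfl
               map_smul' := fun _ _ => rfl }, fun _ => rfl⟩

/-- The average of a function, as a linear map. -/
def avgLin (A : Rep.{0} k G) (H : Subgroup G) [Fintype (G ⧸ H)] : (G ⧸ H → A) →ₗ[k] A :=
  (Fintype.card (G ⧸ H) : k)⁻¹ • ∑ x : G ⧸ H, (LinearMap.proj x : (G ⧸ H → A) →ₗ[k] A)

lemma avgLin_apply (A : Rep.{0} k G) (H : Subgroup G) [Fintype (G ⧸ H)] (φ : G ⧸ H → A) :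
    avgLin A H φ = (Fintype.card (G ⧸ H) : k)⁻¹ • ∑ x, φ x := by
  simp [avgLin, LinearMap.sum_apply]

/-- The average: `indRep A H ⊤ ⟶ A`. -/
def avgHom (A : Rep.{0} k G) (H : Subgroup G) [Fintype (G ⧸ H)] : indRep A H ⊤ ⟶ A :=
  Rep.ofHom ⟨(avgLin A H).comp (indSub A H ⊤).subtype,
    fun g => LinearMap.ext fun φ => by
      show avgLin A H (twistFun A.ρ (G ⧸ H) g φ.1) = A.ρ g (avgLin A H φ.1)
      rw [avgLin_apply, avgLin_apply, map_smul, map_sum]
      congr 1
      exact Fintype.sum_equiv (MulAction.toPerm g⁻¹) _ _ (fun x => rfl)⟩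

lemma constHom_avgHom (A : Rep.{0} k G) (H : Subgroup G) [Fintype (G ⧸ H)]
    (hcard : (Fintype.card (G ⧸ H) : k) ≠ 0) : constHom A H ≫ avgHom A H = 𝟙 A := by
  apply Rep.hom_ext
  apply Representation.IntertwiningMap.ext
  refine LinearMap.ext fun a => ?_
  show avgLin A H (fun _ => a) = a
  rw [avgLin_apply, Finset.sum_const, Finset.card_univ, ← Nat.cast_smul_eq_nsmul k, smul_smul,
    inv_mul_cancel₀ hcard, one_smul]

end Maps

/-! ### Side conditions -/

section Side

variable {k G : Type} [Field k] [Group G]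

/-- The side condition of the devissage: `A` is finite-dimensional and `N` acts trivially. -/
def IsFinTrivOn (N : Subgroup G) (A : Rep.{0} k G) : Prop :=
  FiniteDimensional k A ∧ ∀ n ∈ N, ∀ a : A, A.ρ n a = a

lemma smul_quotient_eq_of_mem {N H : Subgroup G} [N.Normal] (hNH : N ≤ H) {n : G} (hn : n ∈ N)
    (x : G ⧸ H) : n • x = x := by
  obtain ⟨y, rfl⟩ := QuotientGroup.mk_surjective x
  show ((n * y : G) : G ⧸ H) = (y : G ⧸ H)
  rw [QuotientGroup.eq]
  apply hNH
  have h1 : (n * y)⁻¹ * y = y⁻¹ * n⁻¹ * y⁻¹⁻¹ := by group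
  rw [h1]
  exact Subgroup.Normal.conj_mem inferInstance _ (N.inv_mem hn) _

lemma isFinTrivOn_permRep {N H : Subgroup G} [N.Normal] [H.FiniteIndex] (hNH : N ≤ H) :
    IsFinTrivOn N (permRep k G (G ⧸ H)) := by
  have : Finite (G ⧸ H) := Subgroup.finite_quotient_of_finiteIndex
  refine ⟨inferInstanceAs (FiniteDimensional k (G ⧸ H → k)), fun n hn f => funext fun x => ?_⟩
  show f (n⁻¹ • x) = f x
  rw [smul_quotient_eq_of_mem hNH (N.inv_mem hn)]

lemma isFinTrivOn_indRep {N H : Subgroup G} [N.Normal] [H.FiniteIndex] (hNH : N ≤ H)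
    {A : Rep.{0} k G} (hA : IsFinTrivOn N A) (W : Submodule k A) :
    IsFinTrivOn N (indRep A H W) := by
  have : Finite (G ⧸ H) := Subgroup.finite_quotient_of_finiteIndex
  have := hA.1
  have : FiniteDimensional k (G ⧸ H → A) := inferInstance
  refine ⟨FiniteDimensional.finiteDimensional_submodule (indSub A H W), fun n hn φ => ?_⟩
  refine Subtype.ext (funext fun x => ?_)
  show A.ρ n (φ.1 (n⁻¹ • x)) = φ.1 x
  rw [smul_quotient_eq_of_mem hNH (N.inv_mem hn), hA.2 n hn]

lemma isFinTrivOn_of_retract {N : Subgroup G} {X T : Rep.{0} k G} (inr : X ⟶ T) (snd : T ⟶ X)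
    (h : inr ≫ snd = 𝟙 X) (hT : IsFinTrivOn N T) : IsFinTrivOn N X := by
  have hs : ∀ x : X, snd.hom (inr.hom x) = x := fun x => by
    have := congrArg (fun f : X ⟶ X => f.hom x) h
    simpa using this
  have hinj : Function.Injective inr.hom := fun a b hab => by
    rw [← hs a, ← hs b, hab]
  have := hT.1
  refine ⟨FiniteDimensional.of_injective inr.hom.toLinearMap hinj, fun n hn x => hinj ?_⟩
  rw [Rep.hom_comm_apply, hT.2 n hn]

/-- A retract in `Rep k G` has a complement. -/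
lemma exists_complement {M T : Rep.{0} k G} (i : M ⟶ T) (r : T ⟶ M) (h : i ≫ r = 𝟙 M) :
    ∃ (X : Rep.{0} k G) (inr : X ⟶ T) (snd : T ⟶ X),
      inr ≫ snd = 𝟙 X ∧ r ≫ i + snd ≫ inr = 𝟙 T := by
  have hidem : (𝟙 T - r ≫ i) ≫ (𝟙 T - r ≫ i) = 𝟙 T - r ≫ i := by
    have h2 : (r ≫ i) ≫ (r ≫ i) = r ≫ i := by
      rw [Category.assoc, ← Category.assoc i r i, h, Category.id_comp]
    rw [Preadditive.sub_comp, Preadditive.comp_sub, Preadditive.comp_sub, h2]
    simp
  obtain ⟨Y, i', e', h₁, h₂⟩ := IsIdempotentComplete.idempotents_split T (𝟙 T - r ≫ i) hidem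
  exact ⟨Y, i', e', h₁, by rw [h₂]; abel⟩

end Side

/-! ### The devissage -/

section Main

variable {p : ℕ} [Fact p.Prime] {G : Type} [Group G]

/-- If `H / N` is a `p`-group and `N` acts trivially on `A`, every nonzero `H`-stable subspace
`W` of `A` carries a functional which is `H`-invariant on `W` and does not vanish on `W`. -/
theorem exists_invariant_functional (A : Rep.{0} (ZMod p) G) [FiniteDimensional (ZMod p) A]
    (N H : Subgroup G) (hN : ∀ n ∈ N, ∀ a : A, A.ρ n a = a)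
    (hH : ∀ h ∈ H, ∃ j : ℕ, h ^ p ^ j ∈ N)
    (W : Submodule (ZMod p) A) (hW : ∀ h ∈ H, ∀ w ∈ W, A.ρ h w ∈ W) (hW0 : W ≠ ⊥) :
    ∃ l : A →ₗ[ZMod p] ZMod p, (∀ h ∈ H, ∀ w ∈ W, l (A.ρ h w) = l w) ∧ ∃ w₀ ∈ W, l w₀ = 1 := by
  classical
  let σ : Representation (ZMod p) H W :=
    { toFun := fun h => (A.ρ (h : G)).restrict (fun w hw => hW h h.2 w hw)
      map_one' := by ext w; simp
      map_mul' := fun a b => by ext w; simp }
  have hσ : ∀ (h : H) (w : W), ((σ h w : W) : A) = A.ρ (h : G) (w : A) := fun _ _ => rfl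
  have : Nontrivial W := Submodule.nontrivial_iff_ne_bot.2 hW0
  have : Nontrivial (Module.Dual (ZMod p) W) := inferInstance
  obtain ⟨μ, hμ0, hμ⟩ := exists_ne_zero_fixed σ.dual (fun h => by
    obtain ⟨j, hj⟩ := hH h h.2
    refine ⟨j, ?_⟩
    refine LinearMap.ext fun ν => LinearMap.ext fun w => ?_
    rw [Representation.dual_apply]
    show ν (σ (h ^ p ^ j)⁻¹ w) = ν w
    congr 1
    refine Subtype.ext ?_
    rw [hσ]
    exact hN _ (N.inv_mem (by simpa using hj)) _)
  have hμ' : ∀ (h : H) (w : W), μ (σ h w) = μ w := fun h w => by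
    have h1 := congrArg (fun ν : Module.Dual (ZMod p) W => ν w) (hμ h⁻¹)
    rw [Representation.dual_apply, inv_inv] at h1
    exact h1
  obtain ⟨w, hw⟩ : ∃ w : W, μ w ≠ 0 := by
    by_contra hcon
    exact hμ0 (LinearMap.ext fun w => not_not.1 fun hw => hcon ⟨w, hw⟩)
  obtain ⟨pr, hpr⟩ := W.subtype.exists_leftInverse_of_injective W.ker_subtype
  have hpr' : ∀ w' : W, pr (w' : A) = w' := fun w' => congrArg (fun f : W →ₗ[ZMod p] W => f w') hpr
  refine ⟨(μ w)⁻¹ • (μ ∘ₗ pr), fun h hh w' hw' => ?_, (w : A), w.2, ?_⟩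
  · show (μ w)⁻¹ • μ (pr (A.ρ h w')) = (μ w)⁻¹ • μ (pr w')
    have e1 : A.ρ h w' = ((σ ⟨h, hh⟩ ⟨w', hw'⟩ : W) : A) := rfl
    rw [e1, hpr', hμ']
    exact congrArg (fun t => (μ w)⁻¹ • μ t) (hpr' ⟨w', hw'⟩).symm
  · show (μ w)⁻¹ • μ (pr (w : A)) = 1
    rw [hpr', smul_eq_mul, inv_mul_cancel₀ hw]

/-- The induction: `Q` holds for the induced modules `indRep A H W`. -/
theorem indRep_of_perm (N : Subgroup G) [N.Normal] (Q : Rep.{0} (ZMod p) G → Prop)
    (hext : ∀ (A B C : Rep.{0} (ZMod p) G) (f : A ⟶ B) (g : B ⟶ C), IsFinTrivOn N A →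
      IsFinTrivOn N B → IsFinTrivOn N C → Function.Injective f.hom →
      Function.Exact f.hom g.hom → Function.Surjective g.hom → Q A → Q C → Q B)
    (hsummand : ∀ (M X T : Rep.{0} (ZMod p) G) (inl : M ⟶ T) (inr : X ⟶ T) (fst : T ⟶ M)
      (snd : T ⟶ X), IsFinTrivOn N M → IsFinTrivOn N X → IsFinTrivOn N T →
      inl ≫ fst = 𝟙 M → inr ≫ snd = 𝟙 X → fst ≫ inl + snd ≫ inr = 𝟙 T → Q T → Q M)
    (H : Subgroup G) [H.FiniteIndex] (hNH : N ≤ H) (hH : ∀ h ∈ H, ∃ j : ℕ, h ^ p ^ j ∈ N)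
    (hperm : Q (permRep (ZMod p) G (G ⧸ H)))
    (A : Rep.{0} (ZMod p) G) (hA : IsFinTrivOn N A) :
    ∀ (n : ℕ) (W : Submodule (ZMod p) A), (∀ h ∈ H, ∀ w ∈ W, A.ρ h w ∈ W) →
      Module.finrank (ZMod p) W = n → Q (indRep A H W) := by
  have := hA.1
  intro n
  induction n using Nat.strong_induction_on with
  | _ n ih =>
    intro W hW hn
    by_cases hW0 : W = ⊥
    · -- the zero module is a summand of the permutation module
      subst hW0
      have hzero : ∀ φ : indRep A H ⊥, φ = 0 := fun φ => by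
        refine Subtype.ext (funext fun x => ?_)
        obtain ⟨y, rfl⟩ := QuotientGroup.mk_surjective x
        have h1 : A.ρ y⁻¹ (φ.1 (y : G ⧸ H)) = 0 := (Submodule.mem_bot _).1 (φ.2 y)
        have h2 : A.ρ y (A.ρ y⁻¹ (φ.1 (y : G ⧸ H))) = φ.1 (y : G ⧸ H) := by
          rw [← Module.End.mul_apply, ← map_mul, mul_inv_cancel, map_one, Module.End.one_apply]
        rw [← h2, h1, map_zero]
        rfl
      refine hsummand (indRep A H ⊥) (permRep (ZMod p) G (G ⧸ H)) (permRep (ZMod p) G (G ⧸ H))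
        0 (𝟙 _) 0 (𝟙 _) (isFinTrivOn_indRep hNH hA ⊥) (isFinTrivOn_permRep hNH)
        (isFinTrivOn_permRep hNH) ?_ (by simp) (by simp) hperm
      apply Rep.hom_ext
      apply Representation.IntertwiningMap.ext
      refine LinearMap.ext fun φ => ?_
      rw [hzero φ]
      simp
    · obtain ⟨l, hl, w₀, hw₀, h1⟩ :=
        exists_invariant_functional A N H hA.2 hH W hW hW0
      have hW' : ∀ h ∈ H, ∀ w ∈ W ⊓ LinearMap.ker l, A.ρ h w ∈ W ⊓ LinearMap.ker l :=
        fun h hh w hw => ⟨hW h hh w hw.1, by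
          show l (A.ρ h w) = 0
          rw [hl h hh w hw.1]
          exact hw.2⟩
      have hlt : Module.finrank (ZMod p) ↥(W ⊓ LinearMap.ker l) < n := by
        rw [← hn]
        apply Submodule.finrank_lt_finrank_of_lt
        refine lt_of_le_of_ne inf_le_left fun heq => ?_
        have h2 : w₀ ∈ W ⊓ LinearMap.ker l := by rw [heq]; exact hw₀
        have h3 : l w₀ = 0 := h2.2
        rw [h1] at h3
        exact one_ne_zero h3
      have hQ' := ih _ hlt (W ⊓ LinearMap.ker l) hW' rfl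
      exact hext _ _ _ (indIncl A H inf_le_left) (evalHom A H W l hl)
        (isFinTrivOn_indRep hNH hA _) (isFinTrivOn_indRep hNH hA _) (isFinTrivOn_permRep hNH)
        (indIncl_injective A H inf_le_left) (evalHom_exact A H W l hl)
        (evalHom_surjective A H W l hl hW hw₀ h1) hQ' hperm

/-- **Sylow devissage.**  Let `N` be a normal subgroup of finite index in `G` and `Q` a property
of `ZMod p`-representations of `G`.  Assume that, among finite-dimensional representations on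
which `N` acts trivially, `Q` is closed under extensions and under direct summands, and that `Q`
holds for the permutation modules on `G ⧸ H` for all `N ≤ H` with `H / N` a `p`-group and
`[G : H]` prime to `p`.  Then `Q` holds for every finite-dimensional representation on which `N`
acts trivially. -/
theorem sylow_devissage (N : Subgroup G) [N.Normal] [N.FiniteIndex]
    (Q : Rep.{0} (ZMod p) G → Prop)
    (hext : ∀ (A B C : Rep.{0} (ZMod p) G) (f : A ⟶ B) (g : B ⟶ C), IsFinTrivOn N A →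
      IsFinTrivOn N B → IsFinTrivOn N C → Function.Injective f.hom →
      Function.Exact f.hom g.hom → Function.Surjective g.hom → Q A → Q C → Q B)
    (hsummand : ∀ (M X T : Rep.{0} (ZMod p) G) (inl : M ⟶ T) (inr : X ⟶ T) (fst : T ⟶ M)
      (snd : T ⟶ X), IsFinTrivOn N M → IsFinTrivOn N X → IsFinTrivOn N T →
      inl ≫ fst = 𝟙 M → inr ≫ snd = 𝟙 X → fst ≫ inl + snd ≫ inr = 𝟙 T → Q T → Q M)
    (hperm : ∀ H : Subgroup G, N ≤ H → H.FiniteIndex → (∀ h ∈ H, ∃ j : ℕ, h ^ p ^ j ∈ N) →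
      ¬ p ∣ H.index → Q (permRep (ZMod p) G (G ⧸ H)))
    (M : Rep.{0} (ZMod p) G) (hM : IsFinTrivOn N M) : Q M := by
  classical
  have : Finite (G ⧸ N) := Subgroup.finite_quotient_of_finiteIndex
  obtain ⟨P⟩ : Nonempty (Sylow p (G ⧸ N)) := inferInstance
  let H : Subgroup G := (P : Subgroup (G ⧸ N)).comap (QuotientGroup.mk' N)
  have hNH : N ≤ H := fun n hn => by
    show QuotientGroup.mk' N n ∈ (P : Subgroup (G ⧸ N))
    have h1 : QuotientGroup.mk' N n = 1 := (QuotientGroup.eq_one_iff n).2 hn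
    rw [h1]
    exact one_mem _
  have hHp : ∀ h ∈ H, ∃ j : ℕ, h ^ p ^ j ∈ N := fun h hh => by
    obtain ⟨j, hj⟩ := P.isPGroup' ⟨QuotientGroup.mk' N h, hh⟩
    refine ⟨j, ?_⟩
    have h1 := congrArg Subtype.val hj
    rw [← QuotientGroup.eq_one_iff]
    simpa using h1
  have hidx : H.index = (P : Subgroup (G ⧸ N)).index :=
    Subgroup.index_comap_of_surjective _ (QuotientGroup.mk'_surjective N)
  have hfin : H.FiniteIndex := ⟨by rw [hidx]; exact Subgroup.FiniteIndex.index_ne_zero⟩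
  have hnd : ¬ p ∣ H.index := by rw [hidx]; exact P.not_dvd_index
  have hQ := indRep_of_perm N Q hext hsummand H hNH hHp (hperm H hNH hfin hHp hnd) M hM
    (Module.finrank (ZMod p) (⊤ : Submodule (ZMod p) M)) ⊤ (fun _ _ _ _ => Submodule.mem_top) rfl
  have : Finite (G ⧸ H) := Subgroup.finite_quotient_of_finiteIndex
  let _ : Fintype (G ⧸ H) := Fintype.ofFinite _
  have hcard : (Fintype.card (G ⧸ H) : ZMod p) ≠ 0 := by
    rw [Ne, ZMod.natCast_eq_zero_iff, ← Nat.card_eq_fintype_card, ← Subgroup.index_eq_card]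
    exact hnd
  obtain ⟨X, inr, snd, h1, h2⟩ := exists_complement (constHom M H) (avgHom M H)
    (constHom_avgHom M H hcard)
  exact hsummand M X (indRep M H ⊤) (constHom M H) inr (avgHom M H) snd hM
    (isFinTrivOn_of_retract inr snd h1 (isFinTrivOn_indRep hNH hM ⊤))
    (isFinTrivOn_indRep hNH hM ⊤) (constHom_avgHom M H hcard) h1 h2 hQ

end Main

end

end Fermat.Agent.S55.helper3991
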