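import Mathlib
import Fermat.Agent.S55.helper6044_LocTriv
import Fermat.Agent.S55.helper2999_LayerHasse
import Fermat.Agent.S55.helper1980_HasseNorm
import Fermat.Agent.S55.helper1242_HasseGalois

/-!
# S55 / NF-GH junction: the concrete `HasseCalculus` instance (helper3)

`L` is a finite Galois extension of `ℚ` with a fixed embedding into `ℚ̄ = AlgebraicClosure ℚ`
(an abstract field with `ℚ → L → ℚ̄`; instantiate with `↥N`, `N : IntermediateField ℚ ℚ̄`),
`ρ = AlgEquiv.restrictNormalHom L : Gal(ℚ̄/ℚ) → Gal(L/ℚ)`.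

* `fieldOf H` : the fixed field of `H ≤ Gal(L/ℚ)` as an intermediate field of `ℚ̄/ℚ`;
  `mem_fixingSubgroup_fieldOf : g ∈ (fieldOf H).fixingSubgroup ↔ ρ g ∈ H`.
* `infl H c` : inflation of a finite-level cochain `c : H × H → Lˣ` to a whole-group cochain
  `Gal(ℚ̄/ℚ) × Gal(ℚ̄/ℚ) → ℚ̄ˣ` (value `1` off `ρ⁻¹ H`).
* `PlaceCalc p G₁ q g T` : a local-triviality calculus at the place `(q, g)` (coboundary
  stability, and "trivial on a cyclic layer cocycle ⟹ local norm condition of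
  `helper2999.layer_hasse_mixed`").
* `hasseCalculus_of_placeCalc` : a family of `PlaceCalc`'s at all places is a
  `helper1242.HasseCalculus` (Hasse norm theorem `helper1980.hasseNorm` + `layer_hasse_mixed`).
* `Tloc q g H c := helper6044.LocTrivAt q (fieldOf H) g⁻¹ (infl H c)` and
  `placeCalc_Tloc` : it is a `PlaceCalc` at every place.
-/

set_option autoImplicit false
set_option linter.unusedSectionVars false

noncomputable section

namespace Fermat.Agent.S55.helper3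

open Finset

attribute [local instance] Fermat.Agent.Lib.helper54.isAlgebraic_Qbar
  Fermat.Agent.Lib.helper54.isAlgClosure_Qbar Fermat.Agent.Lib.helper54.isGalois_Qbar
  Fermat.Agent.Lib.helper54.isIntegral_Qbar
attribute [local instance] Fermat.Agent.Lib.helper54.numberField_intermediate

local notation "Qb" => AlgebraicClosure ℚ
local notation "GQ" => (AlgebraicClosure ℚ ≃ₐ[ℚ] AlgebraicClosure ℚ)

section abs

variable {L : Type*} [Field L] [Algebra ℚ L] [Algebra L Qb] [IsScalarTower ℚ L Qb]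
  [Normal ℚ L]

variable (L) in
/-- The restriction map `Gal(ℚ̄/ℚ) → Gal(L/ℚ)`. -/
abbrev res : GQ →* (L ≃ₐ[ℚ] L) := AlgEquiv.restrictNormalHom L

lemma algebraMap_res (g : GQ) (x : L) :
    algebraMap L Qb (res L g x) = g (algebraMap L Qb x) :=
  AlgEquiv.restrictNormal_commutes g L x

lemma unitsMap_res_smul (g : GQ) (u : Lˣ) :
    Units.map (algebraMap L Qb : L →* Qb) (res L g • u) =
      g • Units.map (algebraMap L Qb : L →* Qb) u := by
  ext
  exact algebraMap_res g (u : L)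

lemma res_surjective : Function.Surjective (res L) :=
  AlgEquiv.restrictNormalHom_surjective Qb

lemma res_eq_one_iff (u : GQ) :
    res L u = 1 ↔ ∀ x : L, u (algebraMap L Qb x) = algebraMap L Qb x := by
  constructor
  · intro h x
    rw [← algebraMap_res, h]
    rfl
  · intro h
    ext x
    apply (algebraMap L Qb).injective
    rw [algebraMap_res]
    exact h x

/-- The fixed field of `H ≤ Gal(L/ℚ)`, as an intermediate field of `ℚ̄/ℚ`. -/
def fieldOf (H : Subgroup (L ≃ₐ[ℚ] L)) : IntermediateField ℚ Qb :=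
  (IntermediateField.fixedField H).map (IsScalarTower.toAlgHom ℚ L Qb)

lemma mem_fieldOf {H : Subgroup (L ≃ₐ[ℚ] L)} {x : Qb} :
    x ∈ fieldOf H ↔ ∃ y : L, (∀ h ∈ H, h y = y) ∧ algebraMap L Qb y = x := by
  rw [fieldOf, IntermediateField.mem_map]
  constructor
  · rintro ⟨y, hy, rfl⟩
    exact ⟨y, fun h hh => (IntermediateField.mem_fixedField_iff _ _).1 hy h hh, rfl⟩
  · rintro ⟨y, hy, rfl⟩
    exact ⟨y, (IntermediateField.mem_fixedField_iff _ _).2 hy, rfl⟩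

lemma fieldOf_antitone {H H' : Subgroup (L ≃ₐ[ℚ] L)} (h : H ≤ H') : fieldOf H' ≤ fieldOf H := by
  intro x hx
  obtain ⟨y, hy, rfl⟩ := mem_fieldOf.1 hx
  exact mem_fieldOf.2 ⟨y, fun g hg => hy g (h hg), rfl⟩

/-- Finiteness over `ℚ` does not depend on the chosen `ℚ`-module structure. -/
theorem finite_rat_congr {M : Type*} [AddCommGroup M] (m₁ m₂ : Module ℚ M)
    (h : @Module.Finite ℚ M _ _ m₁) : @Module.Finite ℚ M _ _ m₂ := by
  have e : m₁ = m₂ := Subsingleton.elim _ _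
  subst e
  exact h

instance finiteDimensional_fieldOf [FiniteDimensional ℚ L] (H : Subgroup (L ≃ₐ[ℚ] L)) :
    FiniteDimensional ℚ (fieldOf H) := by
  have h1 := IntermediateField.finiteDimensional_left (IntermediateField.fixedField H)
  have h1' : Module.Finite ℚ ↥(IntermediateField.fixedField H) := finite_rat_congr _ _ h1
  let φ : ↥(IntermediateField.fixedField H) →+ ↥(fieldOf H) :=
    { toFun := fun y => ⟨algebraMap L Qb (y : L), mem_fieldOf.2 ⟨(y : L), fun h hh =>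
        (IntermediateField.mem_fixedField_iff _ _).1 y.2 h hh, rfl⟩⟩
      map_zero' := Subtype.ext (map_zero _)
      map_add' := fun a b => Subtype.ext (map_add _ _ _) }
  have hφ : Function.Surjective φ := by
    rintro ⟨x, hx⟩
    obtain ⟨y, hy, rfl⟩ := mem_fieldOf.1 hx
    exact ⟨⟨y, (IntermediateField.mem_fixedField_iff _ _).2 hy⟩, rfl⟩
  exact Module.Finite.of_surjective φ.toRatLinearMap hφ

lemma mem_fixingSubgroup_fieldOf [FiniteDimensional ℚ L] {H : Subgroup (L ≃ₐ[ℚ] L)} {g : GQ} :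
    g ∈ (fieldOf H).fixingSubgroup ↔ res L g ∈ H := by
  rw [IntermediateField.mem_fixingSubgroup_iff]
  constructor
  · intro h
    rw [← IntermediateField.fixingSubgroup_fixedField H, IntermediateField.mem_fixingSubgroup_iff]
    intro y hy
    apply (algebraMap L Qb).injective
    rw [algebraMap_res]
    exact h _ (mem_fieldOf.2 ⟨y, fun k hk => (IntermediateField.mem_fixedField_iff _ _).1 hy k hk,
      rfl⟩)
  · intro h x hx
    obtain ⟨y, hy, rfl⟩ := mem_fieldOf.1 hx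
    rw [← algebraMap_res, hy _ h]

open scoped Classical in
/-- Inflation of a finite-level 2-cochain on `H` to the whole group `Gal(ℚ̄/ℚ)`. -/
def infl (H : Subgroup (L ≃ₐ[ℚ] L)) (c : H × H → Lˣ) : GQ × GQ → Qbˣ := fun x =>
  if h : res L x.1 ∈ H ∧ res L x.2 ∈ H then
    Units.map (algebraMap L Qb : L →* Qb) (c (⟨res L x.1, h.1⟩, ⟨res L x.2, h.2⟩))
  else 1

lemma infl_apply {H : Subgroup (L ≃ₐ[ℚ] L)} (c : H × H → Lˣ) {g h : GQ} (hg : res L g ∈ H)
    (hh : res L h ∈ H) :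
    infl H c (g, h) = Units.map (algebraMap L Qb : L →* Qb) (c (⟨res L g, hg⟩, ⟨res L h, hh⟩)) := by
  unfold infl
  rw [dif_pos ⟨hg, hh⟩]

open scoped Classical in
/-- Inflation of a finite-level 1-cochain on `H` to the whole group `Gal(ℚ̄/ℚ)`. -/
def infl₁ (H : Subgroup (L ≃ₐ[ℚ] L)) (u : H → Lˣ) : GQ → Qbˣ := fun g =>
  if h : res L g ∈ H then Units.map (algebraMap L Qb : L →* Qb) (u ⟨res L g, h⟩) else 1

lemma infl₁_apply {H : Subgroup (L ≃ₐ[ℚ] L)} (u : H → Lˣ) {g : GQ} (hg : res L g ∈ H) :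
    infl₁ H u g = Units.map (algebraMap L Qb : L →* Qb) (u ⟨res L g, hg⟩) := by
  unfold infl₁
  rw [dif_pos hg]

lemma infl₁_level [FiniteDimensional ℚ L] (H : Subgroup (L ≃ₐ[ℚ] L)) (u : H → Lˣ) :
    ∃ E : IntermediateField ℚ Qb, FiniteDimensional ℚ E ∧
      ∀ g s : GQ, s ∈ E.fixingSubgroup → infl₁ H u (g * s) = infl₁ H u g := by
  refine ⟨fieldOf (⊥ : Subgroup (L ≃ₐ[ℚ] L)), inferInstance, fun g s hs => ?_⟩
  have hs1 : res L s = 1 := Subgroup.mem_bot.1 (mem_fixingSubgroup_fieldOf.1 hs)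
  have e : res L (g * s) = res L g := by rw [map_mul, hs1, mul_one]
  unfold infl₁
  rw [e]

/-- **Local triviality at the place `(q, g)`** of a finite-level cochain: `helper6044.LocTrivAt`
of its inflation, for the fixed field of `H` (place convention of `helper2999`: the embedding is
`padicEmbedding q ∘ g⁻¹`). -/
def Tloc (q : ℕ) [Fact q.Prime] (g : GQ) (H : Subgroup (L ≃ₐ[ℚ] L)) (c : H × H → Lˣ) : Prop :=
  helper6044.LocTrivAt q (fieldOf H) g⁻¹ (infl H c)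

/-- `Tloc` is stable under multiplication by coboundaries. -/
theorem Tloc.cob [FiniteDimensional ℚ L] {q : ℕ} [Fact q.Prime] {g : GQ}
    {H : Subgroup (L ≃ₐ[ℚ] L)} {c c' : H × H → Lˣ} (h : Tloc q g H c)
    (hcob : groupCohomology.IsMulCoboundary₂ (c' / c)) : Tloc q g H c' := by
  obtain ⟨x, hx⟩ := hcob
  refine helper6044.LocTrivAt.mul_coboundary q (infl₁ H x) (infl₁_level H x) ?_ h
  intro a b ha hb
  have ha' : res L a ∈ H := mem_fixingSubgroup_fieldOf.1 ha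
  have hb' : res L b ∈ H := mem_fixingSubgroup_fieldOf.1 hb
  have hab' : res L (a * b) ∈ H := by rw [map_mul]; exact H.mul_mem ha' hb'
  rw [infl_apply c' ha' hb', infl_apply c ha' hb', infl₁_apply x ha', infl₁_apply x hb',
    infl₁_apply x hab', ← unitsMap_res_smul, ← map_div, ← map_mul, ← map_mul]
  congr 1
  have e := hx ⟨res L a, ha'⟩ ⟨res L b, hb'⟩
  have e2 : (⟨res L (a * b), hab'⟩ : H) = ⟨res L a, ha'⟩ * ⟨res L b, hb'⟩ :=
    Subtype.ext (map_mul _ _ _)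
  rw [e2]
  rw [Pi.div_apply] at e
  rw [show (⟨res L a, ha'⟩ : H) • x ⟨res L b, hb'⟩ = res L a • x ⟨res L b, hb'⟩ from rfl] at e
  rw [e, mul_div_cancel]

/-- Transfer of `helper6044.LocTrivAt` along an inclusion of fixing subgroups (cochains equal on
the smaller group). -/
theorem locTrivAt_of_fixing_le {q : ℕ} [Fact q.Prime] {F F' : IntermediateField ℚ Qb} {σ : GQ}
    {c c' : GQ × GQ → Qbˣ} (hle : F'.fixingSubgroup ≤ F.fixingSubgroup)
    (hcc : ∀ a b : GQ, a ∈ F'.fixingSubgroup → b ∈ F'.fixingSubgroup → c (a, b) = c' (a, b))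
    (h : helper6044.LocTrivAt q F σ c) : helper6044.LocTrivAt q F' σ c' := by
  obtain ⟨x, hx, hd⟩ := h
  refine ⟨x, hx, fun γ γ' hγ hγ' => ?_⟩
  rw [hd γ γ' (hle hγ) (hle hγ')]
  simp only [helper6044.locCochain]
  rw [hcc _ _ hγ hγ']

/-- **`hT`**: a whole-group cochain which is locally trivial at `(q, g)` for `F` has locally
trivial finite-level descents on every subgroup `H ≤ ρ(Gal(ℚ̄/F))`. -/
theorem Tloc.of_locTrivAt [FiniteDimensional ℚ L] {q : ℕ} [Fact q.Prime] {g : GQ}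
    {F : IntermediateField ℚ Qb} {c : GQ × GQ → Qbˣ} (hc : helper6044.LocTrivAt q F g⁻¹ c)
    (hFL : ∀ u : GQ, res L u = 1 → u ∈ F.fixingSubgroup)
    {H : Subgroup (L ≃ₐ[ℚ] L)} (hH : H ≤ F.fixingSubgroup.map (res L))
    (cbar : (L ≃ₐ[ℚ] L) × (L ≃ₐ[ℚ] L) → Lˣ)
    (hcbar : ∀ a b : GQ, a ∈ F.fixingSubgroup → b ∈ F.fixingSubgroup →
      algebraMap L Qb ((cbar (res L a, res L b) : Lˣ) : L) = ((c (a, b) : Qbˣ) : Qb)) :
    Tloc q g H (fun x : H × H => cbar ((x.1 : L ≃ₐ[ℚ] L), (x.2 : L ≃ₐ[ℚ] L))) := by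
  have hle : (fieldOf H).fixingSubgroup ≤ F.fixingSubgroup := by
    intro u hu
    obtain ⟨u₀, hu₀, hu₀'⟩ := hH (mem_fixingSubgroup_fieldOf.1 hu)
    have h1 : res L (u₀⁻¹ * u) = 1 := by rw [map_mul, map_inv, hu₀', inv_mul_cancel]
    have h2 : u = u₀ * (u₀⁻¹ * u) := by group
    rw [h2]
    exact F.fixingSubgroup.mul_mem hu₀ (hFL _ h1)
  refine locTrivAt_of_fixing_le hle ?_ hc
  intro a b ha hb
  have ha' : res L a ∈ H := mem_fixingSubgroup_fieldOf.1 ha
  have hb' : res L b ∈ H := mem_fixingSubgroup_fieldOf.1 hb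
  rw [infl_apply _ ha' hb']
  ext
  exact (hcbar a b (hle ha) (hle hb)).symm

/-! ### Additive characters -/

section chi

variable {G : Type*} [Group G] {n : ℕ} (χ : G → ZMod n) (hχ : ∀ g h, χ (g * h) = χ g + χ h)

include hχ

lemma chi_one : χ 1 = 0 := by
  have := hχ 1 1
  rw [mul_one] at this
  exact left_eq_add.1 this

lemma chi_inv (g : G) : χ g⁻¹ = - χ g := by
  have := hχ g g⁻¹
  rw [mul_inv_cancel, chi_one χ hχ] at this
  exact eq_neg_of_add_eq_zero_right this.symm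

lemma chi_pow (g : G) (k : ℕ) : χ (g ^ k) = k • χ g := by
  induction k with
  | zero => simp [chi_one χ hχ]
  | succ k ih => rw [pow_succ, hχ, ih, succ_nsmul]

end chi

/-- The kernel of an additive character of `H ≤ Gal(L/ℚ)`, as a subgroup of `Gal(L/ℚ)`. -/
def kerSub {H : Subgroup (L ≃ₐ[ℚ] L)} {p : ℕ} (χ : H → ZMod p)
    (hχ : ∀ g h, χ (g * h) = χ g + χ h) : Subgroup (L ≃ₐ[ℚ] L) where
  carrier := {h | ∃ hh : h ∈ H, χ ⟨h, hh⟩ = 0}
  one_mem' := ⟨H.one_mem, chi_one χ hχ⟩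
  mul_mem' := by
    rintro a b ⟨ha, ha0⟩ ⟨hb, hb0⟩
    refine ⟨H.mul_mem ha hb, ?_⟩
    have := hχ ⟨a, ha⟩ ⟨b, hb⟩
    rw [ha0, hb0, add_zero] at this
    exact this
  inv_mem' := by
    rintro a ⟨ha, ha0⟩
    refine ⟨H.inv_mem ha, ?_⟩
    have := chi_inv χ hχ ⟨a, ha⟩
    rw [ha0, neg_zero] at this
    exact this

lemma mem_kerSub {H : Subgroup (L ≃ₐ[ℚ] L)} {p : ℕ} {χ : H → ZMod p}
    {hχ : ∀ g h, χ (g * h) = χ g + χ h} {h : L ≃ₐ[ℚ] L} :
    h ∈ kerSub χ hχ ↔ ∃ hh : h ∈ H, χ ⟨h, hh⟩ = 0 := Iff.rfl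

lemma kerSub_le {H : Subgroup (L ≃ₐ[ℚ] L)} {p : ℕ} (χ : H → ZMod p)
    (hχ : ∀ g h, χ (g * h) = χ g + χ h) : kerSub χ hχ ≤ H := fun _ h => h.1

/-- **The cyclic layer attached to a finite-level character**: for `χ : H → ZMod p` additive with
`χ s = 1` and any lift `s'` of `s` to `Gal(ℚ̄/ℚ)`, the fixed fields of `H` and of `ker χ` form a
cyclic layer of degree `p` generated by `s'` in the sense of `helper2999`. -/
theorem isCyclicLayer_fieldOf [FiniteDimensional ℚ L] {p : ℕ} [Fact p.Prime]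
    {H : Subgroup (L ≃ₐ[ℚ] L)} (χ : H → ZMod p) (hχ : ∀ g h, χ (g * h) = χ g + χ h)
    (s : H) (hs : χ s = 1) (s' : GQ) (hs' : res L s' = (s : L ≃ₐ[ℚ] L)) :
    helper2999.IsCyclicLayer p (fieldOf H) (fieldOf (kerSub χ hχ)) s' := by
  have hp : p.Prime := Fact.out
  have : NeZero p := ⟨hp.ne_zero⟩
  have hspow : ∀ j : ℕ, ∀ y : L, algebraMap L Qb (((s : L ≃ₐ[ℚ] L) ^ j) y)
      = (s' ^ j) (algebraMap L Qb y) := by
    intro j y
    rw [← hs', ← map_pow, algebraMap_res]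
  refine ⟨fieldOf_antitone (kerSub_le χ hχ), ?_, ?_, ?_, ?_, ?_⟩
  · rw [mem_fixingSubgroup_fieldOf, hs']
    exact s.2
  · intro g hg x hx
    have hg' : res L g ∈ H := mem_fixingSubgroup_fieldOf.1 hg
    obtain ⟨y, hy, rfl⟩ := mem_fieldOf.1 hx
    refine mem_fieldOf.2 ⟨res L g y, ?_, algebraMap_res g y⟩
    rintro n ⟨hn, hn0⟩
    have hconj : (res L g)⁻¹ * n * res L g ∈ kerSub χ hχ := by
      refine ⟨H.mul_mem (H.mul_mem (H.inv_mem hg') hn) hg', ?_⟩
      have e : (⟨(res L g)⁻¹ * n * res L g, H.mul_mem (H.mul_mem (H.inv_mem hg') hn) hg'⟩ : H)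
          = (⟨res L g, hg'⟩ : H)⁻¹ * ⟨n, hn⟩ * ⟨res L g, hg'⟩ := rfl
      rw [e, hχ, hχ, chi_inv χ hχ, hn0]
      ring
    have e2 : n * res L g = res L g * ((res L g)⁻¹ * n * res L g) := by group
    calc n (res L g y) = (n * res L g) y := rfl
      _ = (res L g * ((res L g)⁻¹ * n * res L g)) y := by rw [e2]
      _ = res L g (((res L g)⁻¹ * n * res L g) y) := rfl
      _ = res L g y := by rw [hy _ hconj]
  · intro g hg
    have hg' : res L g ∈ H := mem_fixingSubgroup_fieldOf.1 hg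
    refine ⟨(χ ⟨res L g, hg'⟩).val, fun x hx => ?_⟩
    obtain ⟨y, hy, rfl⟩ := mem_fieldOf.1 hx
    set j := (χ ⟨res L g, hg'⟩).val with hj
    have hn : ((s : L ≃ₐ[ℚ] L) ^ j)⁻¹ * res L g ∈ kerSub χ hχ := by
      have hmem : ((s : L ≃ₐ[ℚ] L) ^ j)⁻¹ * res L g ∈ H :=
        H.mul_mem (H.inv_mem (H.pow_mem s.2 j)) hg'
      refine ⟨hmem, ?_⟩
      have e : (⟨((s : L ≃ₐ[ℚ] L) ^ j)⁻¹ * res L g, hmem⟩ : H)
          = (s ^ j)⁻¹ * ⟨res L g, hg'⟩ := rfl
      rw [e, hχ, chi_inv χ hχ, chi_pow χ hχ, hs, nsmul_one, hj, ZMod.natCast_zmod_val]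
      ring
    rw [← algebraMap_res, ← hspow]
    congr 1
    have e2 : res L g = (s : L ≃ₐ[ℚ] L) ^ j * (((s : L ≃ₐ[ℚ] L) ^ j)⁻¹ * res L g) := by group
    calc res L g y = ((s : L ≃ₐ[ℚ] L) ^ j * (((s : L ≃ₐ[ℚ] L) ^ j)⁻¹ * res L g)) y := by
          rw [← e2]
      _ = ((s : L ≃ₐ[ℚ] L) ^ j) ((((s : L ≃ₐ[ℚ] L) ^ j)⁻¹ * res L g) y) := rfl
      _ = ((s : L ≃ₐ[ℚ] L) ^ j) y := by rw [hy _ hn]
  · intro x hx
    obtain ⟨y, hy, rfl⟩ := mem_fieldOf.1 hx
    have hn : (s : L ≃ₐ[ℚ] L) ^ p ∈ kerSub χ hχ := by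
      refine ⟨H.pow_mem s.2 p, ?_⟩
      have e : (⟨(s : L ≃ₐ[ℚ] L) ^ p, H.pow_mem s.2 p⟩ : H) = s ^ p := rfl
      rw [e, chi_pow χ hχ, hs, nsmul_one, ZMod.natCast_self]
    rw [← hspow, hy _ hn]
  · by_contra hcon
    push Not at hcon
    have h1 : s' ∈ (fieldOf (kerSub χ hχ)).fixingSubgroup := by
      rw [IntermediateField.mem_fixingSubgroup_iff]
      exact hcon
    rw [mem_fixingSubgroup_fieldOf, hs'] at h1
    obtain ⟨hh, h0⟩ := h1
    have : χ s = 0 := h0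
    rw [hs] at this
    exact one_ne_zero this

/-! ### The cyclic-layer clause for `Tloc` -/

/-- **Norm clause for `Tloc`** (`helper6044.LocTrivAt.carry_split_or_norm` at finite level): if
the cyclic layer cocycle `mulCyc χ a` is locally trivial at `(q, g)`, then `a` satisfies the
generator form `helper2999.LocNormGen` of the local norm condition for the layer `E / K`
(`K`, `E` the fixed fields of `H`, `ker χ`). -/
theorem Tloc.locNormGen [FiniteDimensional ℚ L] {p : ℕ} [Fact p.Prime] {q : ℕ} [Fact q.Prime]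
    {g : GQ} {H : Subgroup (L ≃ₐ[ℚ] L)} {χ : H → ZMod p}
    (hχ : ∀ g h, χ (g * h) = χ g + χ h) {a : Lˣ} (ha : ∀ g : H, g • a = a)
    (h : Tloc q g H (helper6440.mulCyc χ a))
    (K E : IntermediateField ℚ Qb) [FiniteDimensional ℚ E]
    (hK : ∀ u : GQ, u ∈ K.fixingSubgroup ↔ res L u ∈ H)
    (hE : ∀ u : GQ, u ∈ E.fixingSubgroup ↔ ∃ hu : res L u ∈ H, χ ⟨res L u, hu⟩ = 0) :
    helper2999.LocNormGen q p g K E (algebraMap L Qb (a : L)) := by
  classical
  have hp : p.Prime := Fact.out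
  have : NeZero p := ⟨hp.ne_zero⟩
  have hKf : K.fixingSubgroup ≤ (fieldOf H).fixingSubgroup := fun u hu =>
    mem_fixingSubgroup_fieldOf.2 ((hK u).1 hu)
  have h' : helper6044.LocTrivAt q K g⁻¹ (infl H (helper6440.mulCyc χ a)) :=
    locTrivAt_of_fixing_le hKf (fun _ _ _ _ => rfl) h
  let X : GQ → ℕ := fun u => if hu : res L u ∈ H then (χ ⟨res L u, hu⟩).val else 0
  have hXdef : ∀ u (hu : res L u ∈ H), X u = (χ ⟨res L u, hu⟩).val := fun u hu => by
    show (dite _ _ _) = _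
    rw [dif_pos hu]
  have hX : helper6044.IsCarryLift K.fixingSubgroup p X := by
    refine ⟨fun u => ?_, fun u v hu hv => ?_⟩
    · by_cases hu : res L u ∈ H
      · rw [hXdef u hu]
        exact ZMod.val_lt _
      · show (dite _ _ _) < p
        rw [dif_neg hu]
        exact hp.pos
    · have hu' := (hK u).1 hu
      have hv' := (hK v).1 hv
      have huv' : res L (u * v) ∈ H := by rw [map_mul]; exact H.mul_mem hu' hv'
      rw [hXdef u hu', hXdef v hv', hXdef _ huv']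
      have e : (⟨res L (u * v), huv'⟩ : H) = ⟨res L u, hu'⟩ * ⟨res L v, hv'⟩ :=
        Subtype.ext (map_mul _ _ _)
      rw [e, hχ, ZMod.val_add]
  have hL : ∀ u : GQ, u ∈ K.fixingSubgroup → (X u = 0 ↔ u ∈ E.fixingSubgroup) := by
    intro u hu
    have hu' := (hK u).1 hu
    rw [hXdef u hu', ZMod.val_eq_zero, hE]
    exact ⟨fun h0 => ⟨hu', h0⟩, fun ⟨_, h0⟩ => h0⟩
  have hLF : E.fixingSubgroup ≤ K.fixingSubgroup := fun u hu =>
    (hK u).2 ((hE u).1 hu).1
  have hb : ∀ u : GQ, u ∈ K.fixingSubgroup →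
      u • Units.map (algebraMap L Qb : L →* Qb) a = Units.map (algebraMap L Qb : L →* Qb) a := by
    intro u hu
    rw [← unitsMap_res_smul]
    congr 1
    exact ha ⟨res L u, (hK u).1 hu⟩
  have hc : ∀ u v : GQ, u ∈ K.fixingSubgroup → v ∈ K.fixingSubgroup →
      infl H (helper6440.mulCyc χ a) (u, v)
        = Units.map (algebraMap L Qb : L →* Qb) a ^ ((X u + X v) / p) := by
    intro u v hu hv
    have hu' := (hK u).1 hu
    have hv' := (hK v).1 hv
    rw [infl_apply _ hu' hv', helper6440.mulCyc_apply, map_pow, hXdef u hu', hXdef v hv']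
    rfl
  have key : ∀ γ : PadicAlgCl q ≃ₐ[ℚ_[q]] PadicAlgCl q,
      helper6044.locHomAt q g⁻¹ γ = g * localGaloisToGlobal q γ * g⁻¹ := by
    intro γ
    rw [helper6044.locHomAt_apply, inv_inv]
  rcases helper6044.LocTrivAt.carry_split_or_norm q p hp X hX hL hLF
    (Units.map (algebraMap L Qb : L →* Qb) a) hb hc h' with h1 | ⟨s₀, hs₀, hs₀', -, y, hy0, hy, hprod⟩
  · left
    intro γ hγ
    have := h1 γ (by rw [helper6044.mem_locGroup, key]; exact hγ)
    rwa [helper6044.mem_locGroup, key] at this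
  · right
    rw [helper6044.mem_locGroup, key] at hs₀ hs₀'
    refine ⟨s₀, hs₀, hs₀', y, hy0, fun n hn => ?_, hprod⟩
    exact (helper6044.mem_locField_iff q E g⁻¹ y).1 hy n
      (by rw [helper6044.mem_locGroup, key]; exact hn)

/-! ### Per-place calculus -/

attribute [local instance] helper2999.numberField_extendScalars

/-- **A local-triviality calculus at the place `(q, g)`** for finite-level cochains on the
subgroups `H ≤ G₁ ≤ Gal(L/ℚ)`: stable under multiplication by coboundaries, and a cyclic layer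
cocycle `mulCyc χ a` which is trivial satisfies the local norm condition of
`helper2999.layer_hasse_mixed` at `(q, g)` for the layer `E / K` (`K`, `E` the fixed fields of
`H`, `ker χ` inside `ℚ̄`): generator form `LocNormGen`, or the completion-free `LocNorm` at the
prime `placeOf q K g`. -/
structure PlaceCalc (p : ℕ) (G₁ : Subgroup (L ≃ₐ[ℚ] L)) (q : ℕ) [Fact q.Prime] (g : GQ)
    (T : (H : Subgroup (L ≃ₐ[ℚ] L)) → (H × H → Lˣ) → Prop) : Prop where
  cob : ∀ H : Subgroup (L ≃ₐ[ℚ] L), H ≤ G₁ → ∀ c c' : H × H → Lˣ, T H c →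
    groupCohomology.IsMulCoboundary₂ (c' / c) → T H c'
  norm : ∀ H : Subgroup (L ≃ₐ[ℚ] L), H ≤ G₁ → ∀ χ : H → ZMod p,
    (∀ g h, χ (g * h) = χ g + χ h) → ∀ s : H, χ s = 1 → ∀ a : Lˣ, (∀ g : H, g • a = a) →
    T H (helper6440.mulCyc χ a) →
    ∀ (K E : IntermediateField ℚ Qb) [FiniteDimensional ℚ K] [FiniteDimensional ℚ E] (s' : GQ)
      (hlay : helper2999.IsCyclicLayer p K E s'),
      res L s' = (s : L ≃ₐ[ℚ] L) →
      (∀ u : GQ, u ∈ K.fixingSubgroup ↔ res L u ∈ H) →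
      (∀ u : GQ, u ∈ E.fixingSubgroup ↔ ∃ hu : res L u ∈ H, χ ⟨res L u, hu⟩ = 0) →
      ∀ b : (↥K)ˣ, ((b : ↥K) : Qb) = algebraMap L Qb (a : L) →
      helper2999.LocNormGen q p g K E (algebraMap L Qb (a : L)) ∨
        helper1980.LocNorm ↥K ↥(IntermediateField.extendScalars hlay.le)
          (helper4727.placeOf q K g) b

/-- `Tloc` is a `PlaceCalc` at every place. -/
theorem placeCalc_Tloc [FiniteDimensional ℚ L] (p : ℕ) [Fact p.Prime]
    (G₁ : Subgroup (L ≃ₐ[ℚ] L)) (q : ℕ) [Fact q.Prime] (g : GQ) :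
    PlaceCalc p G₁ q g (Tloc (L := L) q g) where
  cob := fun _ _ _ _ h hcob => h.cob hcob
  norm := fun _ _ _ hχ _ _ _ ha h K E _ _ _ _ _ hK hE _ _ =>
    Or.inl (h.locNormGen hχ ha K E hK hE)

/-- **The Hasse calculus from per-place calculi.**  `L/ℚ` finite Galois inside `ℚ̄`, `p` an odd
prime, `G₁ ≤ Gal(L/ℚ)` a subgroup fixing a primitive `p`-th root of unity.  If `T τ` is a
`PlaceCalc` at every place `τ = (q, g)`, then `T` is a `helper1242.HasseCalculus` on `G₁`: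
the cyclic-layer clause is the Hasse norm theorem `helper1980.hasseNorm` for the layer, through
`helper2999.layer_hasse_mixed`. -/
theorem hasseCalculus_of_placeCalc [FiniteDimensional ℚ L] {p : ℕ} [Fact p.Prime] (hp2 : p ≠ 2)
    (G₁ : Subgroup (L ≃ₐ[ℚ] L)) (ζ : L) (hζ : IsPrimitiveRoot ζ p) (hζG : ∀ h ∈ G₁, h ζ = ζ)
    (T : Nat.Primes × GQ → (H : Subgroup (L ≃ₐ[ℚ] L)) → (H × H → Lˣ) → Prop)
    (hT : ∀ (q : ℕ) [Fact q.Prime] (g : GQ), PlaceCalc p G₁ q g (T (⟨q, Fact.out⟩, g))) :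
    helper1242.HasseCalculus p G₁ T := by
  refine ⟨fun τ H hH c c' h hcob => ?_, ?_⟩
  · have : Fact (τ.1 : ℕ).Prime := ⟨τ.1.2⟩
    exact (hT τ.1 τ.2).cob H hH c c' h hcob
  · intro H hH χ hχ s hs a ha hTa
    obtain ⟨s', hs'⟩ := res_surjective (L := L) (s : L ≃ₐ[ℚ] L)
    have hlay := isCyclicLayer_fieldOf χ hχ s hs s' hs'
    have hK : ∀ u : GQ, u ∈ (fieldOf H).fixingSubgroup ↔ res L u ∈ H :=
      fun u => mem_fixingSubgroup_fieldOf
    have hE : ∀ u : GQ, u ∈ (fieldOf (kerSub χ hχ)).fixingSubgroup ↔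
        ∃ hu : res L u ∈ H, χ ⟨res L u, hu⟩ = 0 :=
      fun u => mem_fixingSubgroup_fieldOf.trans mem_kerSub
    have haK : algebraMap L Qb (a : L) ∈ fieldOf H := mem_fieldOf.2 ⟨a, fun h hh => by
      have := congrArg Units.val (ha ⟨h, hh⟩)
      exact this, rfl⟩
    have ha0 : (⟨algebraMap L Qb (a : L), haK⟩ : fieldOf H) ≠ 0 := fun h0 => by
      have h1 : algebraMap L Qb (a : L) = 0 := congrArg Subtype.val h0
      rw [map_eq_zero] at h1
      exact a.ne_zero h1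
    have hζK : algebraMap L Qb ζ ∈ fieldOf H :=
      mem_fieldOf.2 ⟨ζ, fun h hh => hζG h (hH hh), rfl⟩
    have hζ' : IsPrimitiveRoot (⟨algebraMap L Qb ζ, hζK⟩ : fieldOf H) p := by
      have h1 : IsPrimitiveRoot (algebraMap L Qb ζ) p :=
        hζ.map_of_injective (algebraMap L Qb).injective
      exact IsPrimitiveRoot.of_map_of_injective (f := (fieldOf H).val)
        h1 Subtype.val_injective
    have := hlay.isGalois
    have hHN : helper1980.Stmt_HasseNorm ↥(fieldOf H)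
        ↥(IntermediateField.extendScalars hlay.le) :=
      helper1980.hasseNorm (Fact.out : p.Prime) hp2 hlay.finrank_eq ⟨_, hζ'⟩
    obtain ⟨y, hyE, hy0, hprod⟩ := helper2999.layer_hasse_mixed hlay hHN
      (Units.mk0 ⟨algebraMap L Qb (a : L), haK⟩ ha0) (fun q _ g =>
        (hT q g).norm H hH χ hχ s hs a ha (hTa (⟨q, Fact.out⟩, g)) (fieldOf H)
          (fieldOf (kerSub χ hχ)) s' hlay hs' hK hE _ rfl)
    obtain ⟨y₀, hy₀, rfl⟩ := mem_fieldOf.1 hyE
    have hy₀0 : y₀ ≠ 0 := fun h0 => hy0 (by rw [h0, map_zero])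
    refine ⟨Units.mk0 y₀ hy₀0, fun n hn => ?_, ?_⟩
    · ext
      exact hy₀ _ ⟨n.2, hn⟩
    · ext
      apply (algebraMap L Qb).injective
      have hterm : ∀ j : ℕ, algebraMap L Qb ((s ^ j • Units.mk0 y₀ hy₀0 : Lˣ) : L)
          = (s' ^ j) (algebraMap L Qb y₀) := by
        intro j
        have e1 : ((s ^ j • Units.mk0 y₀ hy₀0 : Lˣ) : L) = ((s : L ≃ₐ[ℚ] L) ^ j) y₀ := rfl
        rw [e1, ← hs', ← map_pow, algebraMap_res]
      rw [Units.coe_prod, map_prod, Finset.prod_congr rfl (fun j _ => hterm j), hprod]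
      rfl

/-! ### The end theorems -/

/-- **Hasse devissage with per-place calculi.**  A 2-cocycle `c` of `Gal(ℚ̄/F)` with values in
`ℚ̄ˣ`, of level `L` and killed by a power of `p`, whose finite-level descents satisfy `T τ` at
every place `τ` for a family of `PlaceCalc`'s, is the coboundary of a 1-cochain of level `L`
with values in `L`. -/
theorem exists_primitive_of_placeCalc [FiniteDimensional ℚ L] {p : ℕ} [Fact p.Prime]
    (hp2 : p ≠ 2) (F : IntermediateField ℚ Qb) (ζ : L) (hζ : IsPrimitiveRoot ζ p)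
    (hζF : algebraMap L Qb ζ ∈ F)
    (T : Nat.Primes × GQ → (H : Subgroup (L ≃ₐ[ℚ] L)) → (H × H → Lˣ) → Prop)
    (hT : ∀ (q : ℕ) [Fact q.Prime] (g : GQ),
      PlaceCalc p (F.fixingSubgroup.map (res L)) q g (T (⟨q, Fact.out⟩, g)))
    {c : F.fixingSubgroup × F.fixingSubgroup → Qbˣ} (hc : groupCohomology.IsMulCocycle₂ c)
    (hinv : ∀ g h u u' : F.fixingSubgroup, res L (u : GQ) = 1 → res L (u' : GQ) = 1 →
      c (g * u, h * u') = c (g, h))
    (hval : ∀ x, ((c x : Qbˣ) : Qb) ∈ Set.range (algebraMap L Qb))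
    (hpow : ∃ k : ℕ, ∀ x, c x ^ (p ^ k) = 1)
    (hTc : ∀ cbar : (L ≃ₐ[ℚ] L) × (L ≃ₐ[ℚ] L) → Lˣ,
      (∀ g h : F.fixingSubgroup, algebraMap L Qb
        ((cbar (res L (g : GQ), res L (h : GQ)) : Lˣ) : L) = ((c (g, h) : Qbˣ) : Qb)) →
      ∀ τ (H : Subgroup (L ≃ₐ[ℚ] L)), H ≤ F.fixingSubgroup.map (res L) →
        T τ H (fun x : H × H => cbar ((x.1 : L ≃ₐ[ℚ] L), (x.2 : L ≃ₐ[ℚ] L)))) :
    ∃ h : F.fixingSubgroup → Qbˣ, (∀ g, ((h g : Qbˣ) : Qb) ∈ Set.range (algebraMap L Qb)) ∧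
      (∀ g u : F.fixingSubgroup, res L (u : GQ) = 1 → h (g * u) = h g) ∧
      ∀ g k : F.fixingSubgroup, g • h k / h (g * k) * h g = c (g, k) := by
  have hζG : ∀ h ∈ F.fixingSubgroup.map (res L), h ζ = ζ := by
    rintro _ ⟨g, hg, rfl⟩
    apply (algebraMap L Qb).injective
    rw [algebraMap_res]
    exact (IntermediateField.mem_fixingSubgroup_iff _ _).1 hg _ hζF
  exact helper1242.exists_primitive_of_hasseCalculus p T
    (hasseCalculus_of_placeCalc hp2 _ ζ hζ hζG T hT) hc hinv hval hpow hTc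

open scoped Classical in
/-- Extension by `1` of a 2-cochain on a subgroup of `Gal(ℚ̄/ℚ)` to the whole group. -/
def ext₂ {V : Subgroup GQ} (c : V × V → Qbˣ) : GQ × GQ → Qbˣ := fun x =>
  if h : x.1 ∈ V ∧ x.2 ∈ V then c (⟨x.1, h.1⟩, ⟨x.2, h.2⟩) else 1

lemma ext₂_apply {V : Subgroup GQ} (c : V × V → Qbˣ) {g h : GQ} (hg : g ∈ V) (hh : h ∈ V) :
    ext₂ c (g, h) = c (⟨g, hg⟩, ⟨h, hh⟩) := by
  unfold ext₂
  rw [dif_pos ⟨hg, hh⟩]

/-- **The junction theorem** (`Ш² ⊆ K(F)` at finite level, hypothesis-passing on the places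
outside `S`).  `L/ℚ` finite Galois inside `ℚ̄` containing `F` and `μ_p`, `p` odd.  Let `c` be a
`μ_p`-valued 2-cocycle of `Gal(ℚ̄/F)` of level `L`.  Assume
* for `q ∈ S`: `c` is locally trivial at every place `(q, g)` in the sense of
  `helper6044.LocTrivAt` (e.g. from the frozen local vanishing, (P5));
* for `q ∉ S`: there is a `PlaceCalc` at `(q, g)` satisfied by all `μ_p`-valued finite-level
  cocycles (e.g. the valuation shadow at the unramified places).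
Then `c = d h` for a 1-cochain `h` of level `L` with values in `L`. -/
theorem exists_primitive_of_locTrivAt [FiniteDimensional ℚ L] {p : ℕ} [Fact p.Prime]
    (hp2 : p ≠ 2) (S : Set ℕ) (F : IntermediateField ℚ Qb)
    (hFL : ∀ u : GQ, res L u = 1 → u ∈ F.fixingSubgroup)
    (ζ : L) (hζ : IsPrimitiveRoot ζ p) (hζF : algebraMap L Qb ζ ∈ F)
    {c : F.fixingSubgroup × F.fixingSubgroup → Qbˣ} (hc : groupCohomology.IsMulCocycle₂ c)
    (hinv : ∀ g h u u' : F.fixingSubgroup, res L (u : GQ) = 1 → res L (u' : GQ) = 1 →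
      c (g * u, h * u') = c (g, h))
    (hpow : ∀ x, c x ^ p = 1)
    (hS : ∀ (q : ℕ) [Fact q.Prime] (g : GQ), q ∈ S → helper6044.LocTrivAt q F g⁻¹ (ext₂ c))
    (hOff : ∀ (q : ℕ) [Fact q.Prime] (g : GQ), q ∉ S →
      ∃ T' : (H : Subgroup (L ≃ₐ[ℚ] L)) → (H × H → Lˣ) → Prop,
        PlaceCalc p (F.fixingSubgroup.map (res L)) q g T' ∧
        ∀ H : Subgroup (L ≃ₐ[ℚ] L), H ≤ F.fixingSubgroup.map (res L) → ∀ cb : H × H → Lˣ,
          (∀ x, cb x ^ p = 1) → groupCohomology.IsMulCocycle₂ cb → T' H cb) :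
    ∃ h : F.fixingSubgroup → Qbˣ, (∀ g, ((h g : Qbˣ) : Qb) ∈ Set.range (algebraMap L Qb)) ∧
      (∀ g u : F.fixingSubgroup, res L (u : GQ) = 1 → h (g * u) = h g) ∧
      ∀ g k : F.fixingSubgroup, g • h k / h (g * k) * h g = c (g, k) := by
  classical
  have hp : p.Prime := Fact.out
  have : NeZero p := ⟨hp.ne_zero⟩
  let T : Nat.Primes × GQ → (H : Subgroup (L ≃ₐ[ℚ] L)) → (H × H → Lˣ) → Prop := fun τ =>
    haveI : Fact (τ.1 : ℕ).Prime := ⟨τ.1.2⟩
    if h : (τ.1 : ℕ) ∈ S then Tloc (τ.1 : ℕ) τ.2 else Classical.choose (hOff (τ.1 : ℕ) τ.2 h)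
  have hTin : ∀ (q : ℕ) [Fact q.Prime] (g : GQ), q ∈ S →
      T (⟨q, Fact.out⟩, g) = Tloc q g := fun q _ g h => dif_pos h
  have hTout : ∀ (q : ℕ) [Fact q.Prime] (g : GQ) (h : q ∉ S),
      T (⟨q, Fact.out⟩, g) = Classical.choose (hOff q g h) := fun q _ g h => dif_neg h
  have hval : ∀ x, ((c x : Qbˣ) : Qb) ∈ Set.range (algebraMap L Qb) := by
    intro x
    have h1 : IsPrimitiveRoot (algebraMap L Qb ζ) p :=
      hζ.map_of_injective (algebraMap L Qb).injective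
    have h2 : ((c x : Qbˣ) : Qb) ^ p = 1 := by
      rw [← Units.val_pow_eq_pow_val, hpow, Units.val_one]
    obtain ⟨i, -, hi⟩ := h1.eq_pow_of_pow_eq_one h2
    exact ⟨ζ ^ i, by rw [map_pow, hi]⟩
  refine exists_primitive_of_placeCalc hp2 F ζ hζ hζF T ?_ hc hinv hval ⟨1, fun x => by
    rw [pow_one]; exact hpow x⟩ ?_
  · intro q _ g
    by_cases h : q ∈ S
    · rw [hTin q g h]
      exact placeCalc_Tloc p _ q g
    · rw [hTout q g h]
      exact (Classical.choose_spec (hOff q g h)).1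
  · intro cbar hcbar τ H hH
    have : Fact (τ.1 : ℕ).Prime := ⟨τ.1.2⟩
    by_cases h : (τ.1 : ℕ) ∈ S
    · have e : T τ = Tloc (τ.1 : ℕ) τ.2 := hTin (τ.1 : ℕ) τ.2 h
      rw [e]
      refine Tloc.of_locTrivAt (hS (τ.1 : ℕ) τ.2 h) hFL hH cbar ?_
      intro a b ha hb
      rw [ext₂_apply c ha hb]
      exact hcbar ⟨a, ha⟩ ⟨b, hb⟩
    · have e : T τ = Classical.choose (hOff (τ.1 : ℕ) τ.2 h) := hTout (τ.1 : ℕ) τ.2 h
      rw [e]
      refine (Classical.choose_spec (hOff (τ.1 : ℕ) τ.2 h)).2 H hH _ ?_ ?_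
      · rintro ⟨⟨_, hx⟩, ⟨_, hy⟩⟩
        obtain ⟨a, ha, rfl⟩ := hH hx
        obtain ⟨b, hb, rfl⟩ := hH hy
        apply Units.ext
        apply (algebraMap L Qb).injective
        show algebraMap L Qb ((cbar (res L a, res L b) ^ p : Lˣ) : L) = algebraMap L Qb ((1 : Lˣ) : L)
        rw [Units.val_pow_eq_pow_val, map_pow, hcbar ⟨a, ha⟩ ⟨b, hb⟩, ← Units.val_pow_eq_pow_val,
          hpow, Units.val_one, Units.val_one, map_one]
      · have hcoc := helper1242.isMulCocycle₂_of_descent hc hcbar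
        intro g₁ g₂ g₃
        exact hcoc ⟨g₁, hH g₁.2⟩ ⟨g₂, hH g₂.2⟩ ⟨g₃, hH g₃.2⟩

end abs

/-! ### The same for an intermediate field `N` of `ℚ̄/ℚ` -/

section concrete

variable (N : IntermediateField ℚ Qb) [Normal ℚ N]

lemma res_eq_one_iff_mem_fixingSubgroup (u : GQ) : res (↥N) u = 1 ↔ u ∈ N.fixingSubgroup := by
  rw [res_eq_one_iff, IntermediateField.mem_fixingSubgroup_iff]
  exact ⟨fun h x hx => h ⟨x, hx⟩, fun h x => h x x.2⟩

/-- **The junction theorem, frozen carrier**: `exists_primitive_of_locTrivAt` for `L = ↥N`,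
`N` a finite Galois intermediate field of `ℚ̄/ℚ` containing `F`. -/
theorem exists_primitive_of_locTrivAt_Qbar [FiniteDimensional ℚ N] {p : ℕ} [Fact p.Prime]
    (hp2 : p ≠ 2) (S : Set ℕ) (F : IntermediateField ℚ Qb) (hFN : F ≤ N)
    (ζ : Qb) (hζ : IsPrimitiveRoot ζ p) (hζF : ζ ∈ F)
    {c : F.fixingSubgroup × F.fixingSubgroup → Qbˣ} (hc : groupCohomology.IsMulCocycle₂ c)
    (hinv : ∀ g h u u' : F.fixingSubgroup, (u : GQ) ∈ N.fixingSubgroup →
      (u' : GQ) ∈ N.fixingSubgroup → c (g * u, h * u') = c (g, h))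
    (hpow : ∀ x, c x ^ p = 1)
    (hS : ∀ (q : ℕ) [Fact q.Prime] (g : GQ), q ∈ S → helper6044.LocTrivAt q F g⁻¹ (ext₂ c))
    (hOff : ∀ (q : ℕ) [Fact q.Prime] (g : GQ), q ∉ S →
      ∃ T' : (H : Subgroup (N ≃ₐ[ℚ] N)) → (H × H → (↥N)ˣ) → Prop,
        PlaceCalc p (F.fixingSubgroup.map (res ↥N)) q g T' ∧
        ∀ H : Subgroup (N ≃ₐ[ℚ] N), H ≤ F.fixingSubgroup.map (res ↥N) → ∀ cb : H × H → (↥N)ˣ,
          (∀ x, cb x ^ p = 1) → groupCohomology.IsMulCocycle₂ cb → T' H cb) :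
    ∃ h : F.fixingSubgroup → Qbˣ, (∀ g, ((h g : Qbˣ) : Qb) ∈ N) ∧
      (∀ g u : F.fixingSubgroup, (u : GQ) ∈ N.fixingSubgroup → h (g * u) = h g) ∧
      ∀ g k : F.fixingSubgroup, g • h k / h (g * k) * h g = c (g, k) := by
  have hker := res_eq_one_iff_mem_fixingSubgroup N
  have hζN : IsPrimitiveRoot (⟨ζ, hFN hζF⟩ : N) p :=
    IsPrimitiveRoot.of_map_of_injective (f := N.val) hζ Subtype.val_injective
  obtain ⟨h, h1, h2, h3⟩ := exists_primitive_of_locTrivAt (L := ↥N) hp2 S F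
    (fun u hu => IntermediateField.fixingSubgroup_antitone hFN ((hker u).1 hu)) ⟨ζ, hFN hζF⟩
    hζN hζF hc (fun g h u u' hu hu' => hinv g h u u' ((hker _).1 hu) ((hker _).1 hu')) hpow hS
    hOff
  refine ⟨h, fun g => ?_, fun g u hu => h2 g u ((hker _).2 hu), h3⟩
  obtain ⟨y, hy⟩ := h1 g
  rw [← hy]
  exact y.2

end concrete

end Fermat.Agent.S55.helper3
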