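import Mathlib
import Fermat.Agent.S55.helper3_HasseInst
import Fermat.Agent.S55.helper1242_ShaHasse
import Fermat.Agent.S55.helper9826_MuLoc
import Fermat.Agent.S55.helper1168_UnramP4

/-!
# S55 / [G-H]: `Ш²(G_{F,S}, μ_p) ⊆ K(F)` — the discharge of `Stmt_ShaHasse` (helper3)

Assembly of the finite-level Hasse devissage (`helper1242`), the concrete Hasse calculus
`helper3.exists_primitive_of_locTrivAt_Qbar` (local triviality `helper6044.LocTrivAt` at every
place, Hasse norm theorem for the cyclic layers), the frozen local vanishing at the places over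
`S` (`helper9826.locTrivAt_of_muLocTriv`, (P5)) and the unramified local vanishing at the places
outside `S` (`helper1168.locTrivAt_of_unramified_of_pow_eq_one`, (P4)).

* `stmt_ShaHasseCore : helper1242.Stmt_ShaHasseCore`
* `stmt_ShaHasse : helper9826.Stmt_ShaHasse`  (no hypothesis)
* `stmt_GH`, `stmt_FieldSha2Fin`, `stmt_FieldLower` : the consumers' closed Props.
-/

set_option autoImplicit false

namespace Fermat.Agent.S55.helper3

local notation "Qb" => AlgebraicClosure ℚ
local notation "GQ" => (AlgebraicClosure ℚ ≃ₐ[ℚ] AlgebraicClosure ℚ)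

/-- **The core of `Stmt_ShaHasse` at a finite Galois level.** -/
theorem stmt_ShaHasseCore : helper1242.Stmt_ShaHasseCore := by
  intro S p F hF N hFN hN hmap c hμ hc hinv hloc
  have hpr : Fact p.Prime := ⟨hF.prime⟩
  have hfin : FiniteDimensional ℚ N := hN.1
  have hnorm : Normal ℚ N := helper4039.normal_of_map_eq hmap
  have hfinF : FiniteDimensional ℚ F := hF.unram.1
  obtain ⟨ζ, hζF, hζ⟩ := hF.zeta
  have hNn : ∀ g : GQ, ∀ x ∈ N, g x ∈ N := by
    intro g x hx
    have h1 : g x ∈ N.map (g : Qb →ₐ[ℚ] Qb) := (IntermediateField.mem_map _).2 ⟨x, hx, rfl⟩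
    rwa [hmap g] at h1
  refine exists_primitive_of_locTrivAt_Qbar N hF.odd Set.univ F hFN ζ hζ hζF hc hinv hμ ?_
    (fun q _ g hq => absurd (Set.mem_univ q) hq)
  intro q hqf g _
  by_cases hqS : (⟨q, Fact.out⟩ : Nat.Primes) ∈ S
  · exact helper9826.locTrivAt_of_muLocTriv hζ hζF ⟨q, Fact.out⟩ g (hloc _ hqS g)
      (fun a b => ext₂_apply c a.2 b.2)
  · refine helper1168.locTrivAt_of_unramified_of_pow_eq_one hqS hFN hN hNn g⁻¹ (ext₂ c) ?_ ?_ ?_
      p hF.prime.ne_zero ?_
    · intro a b d ha hb hd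
      rw [ext₂_apply c (mul_mem ha hb) hd, ext₂_apply c ha hb, ext₂_apply c hb hd,
        ext₂_apply c ha (mul_mem hb hd)]
      exact hc ⟨a, ha⟩ ⟨b, hb⟩ ⟨d, hd⟩
    · intro a b s t ha hb hs ht
      have hsF := IntermediateField.fixingSubgroup_antitone hFN hs
      have htF := IntermediateField.fixingSubgroup_antitone hFN ht
      rw [ext₂_apply c (mul_mem ha hsF) (mul_mem hb htF), ext₂_apply c ha hb]
      exact hinv ⟨a, ha⟩ ⟨b, hb⟩ ⟨s, hsF⟩ ⟨t, htF⟩ hs ht
    · intro a b ha hb
      rw [ext₂_apply c ha hb]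
      have hx : ((c (⟨a, ha⟩, ⟨b, hb⟩) : Qbˣ) : Qb) ^ p = 1 := by
        rw [← Units.val_pow_eq_pow_val, hμ, Units.val_one]
      have hp0 : NeZero p := ⟨hF.prime.ne_zero⟩
      obtain ⟨i, -, hi⟩ := hζ.eq_pow_of_pow_eq_one hx
      rw [← hi]
      exact pow_mem (hFN hζF) i
    · intro a b ha hb
      rw [ext₂_apply c ha hb]
      exact hμ _

/-- `Stmt_ShaHasse` in `helper1242`'s copy of the statement. -/
theorem stmt_ShaHasse' : helper1242.Stmt_ShaHasse :=
  helper1242.stmt_ShaHasse_of_core stmt_ShaHasseCore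

/-- **`Ш²(G_{F,S}, μ_p) ⊆ K(F)`**, unconditional: a `μ_p`-valued `S`-level 2-cocycle on
`Gal(ℚ̄/F)` (`F` an `S`-field containing `μ_p`, `p` odd, `p ∈ S`) which is locally trivial at
every place over `S` is the coboundary of a `ℚ̄ˣ`-valued `S`-level 1-cochain with values in an
`S`-field. -/
theorem stmt_ShaHasse : helper9826.Stmt_ShaHasse := stmt_ShaHasse'

/-- The kernel-class statement of `helper1919`. -/
theorem stmt_GH : helper1919.Stmt_GH := helper9826.stmt_GH_of stmt_ShaHasse

/-- Finiteness of `Ш²` of `S`-fields containing `μ_p`. -/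
theorem stmt_FieldSha2Fin : helper1702.Stmt_FieldSha2Fin :=
  helper9826.stmt_FieldSha2Fin_of stmt_ShaHasse

/-- The lower Kummer count of the global bridge. -/
theorem stmt_FieldLower : helper3071.Stmt_FieldLower := helper9826.stmt_FieldLower_of stmt_ShaHasse

end Fermat.Agent.S55.helper3
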