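/-
S55 moonshot, leaf NF-LOCNORM-COUNT (seat helper4029): completion-free local norm index at a
nonsplit place of a Galois extension `E / F` of number fields of odd prime degree `p`
(`ζ_p ∈ F`), by counting (chat #134):  there is `x ∈ Fˣ` which is not a norm from `E` to
precision `2 * ord_v p + 1` at `v`.

Inputs on main: the block count `helper1957.card_range_norm_pow_le`, the lower bound
`helper1957.le_index_locPowSubgroup`, the upper bound at the prime `w` above `v`
(`index_locPowSubgroup_above`, from `helper4204.index_locPowSubgroup`), and the kernel bound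
`helper1957.relIndex_locPow_comap_le_of_nonsplit` (approximate local Kummer theory).

End results: `exists_not_norm_approx` (explicit precision) and `exists_not_locNorm`
(the raw shape of `Stmt_LocNormProper` / `Stmt_LocNonNorm` / `Stmt_LocalNonNorm`).
-/
import Mathlib
import Fermat.Agent.S14.helper4204_LocalPow
import Fermat.Agent.S14.helper165_FirstIneqSpec
import Fermat.Agent.S14.helper3127_HerbrandUnits
import Fermat.Agent.S55.helper1957_BlockCount
import Fermat.Agent.S55.helper1957_LocPowLower
import Fermat.Agent.S55.helper1957_LocNormCount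
import Fermat.Agent.S55.helper4029_NonsplitPlace

set_option autoImplicit false

namespace Fermat.Agent.S55.helper4029

section Assembly

open NumberField IsDedekindDomain HeightOneSpectrum WithZero
open Fermat.Agent.S14.helper1892 (LocPow LocPowN locPowSubgroup)
open Fermat.Agent.S14.helper165 (normHom Split)
open Fermat.Agent.S14.helper4204 (ordP)
open Fermat.Agent.S14

variable {F E : Type} [Field F] [NumberField F] [Field E] [NumberField E] [Algebra F E]

/-- A local `p`-th power at `v` is a local `p`-th power at every `w` above `v`. -/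
theorem locPow_algebraMap {p : ℕ} (v : HeightOneSpectrum (𝓞 F)) (w : HeightOneSpectrum (𝓞 E))
    [w.asIdeal.LiesOver v.asIdeal] {u : Fˣ} (h : LocPow p v u) :
    LocPow p w (Units.map (algebraMap F E : F →* E) u) := by
  intro N
  obtain ⟨t, ht⟩ := h N
  refine ⟨Units.map (algebraMap F E : F →* E) t, ?_⟩
  have h1 := valuation_algebraMap_le v w ht
  have e : algebraMap F E ((u : F) / (t : F) ^ p - 1) =
      ((Units.map (algebraMap F E : F →* E) u : Eˣ) : E) /
        ((Units.map (algebraMap F E : F →* E) t : Eˣ) : E) ^ p - 1 := by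
    simp
  rwa [e] at h1

variable [IsGalois F E]

/-- The local `p`-th powers at the unique prime above `v` are Galois stable. -/
theorem locPow_gal {p : ℕ} (v : HeightOneSpectrum (𝓞 F)) (w : HeightOneSpectrum (𝓞 E))
    [w.asIdeal.LiesOver v.asIdeal] (h1 : (v.asIdeal.primesOver (𝓞 E)).ncard = 1)
    (σ : E ≃ₐ[F] E) {y : Eˣ} (h : LocPow p w y) :
    LocPow p w (Units.map (σ : E →* E) y) := by
  intro N
  obtain ⟨t, ht⟩ := h N
  refine ⟨Units.map (σ : E →* E) t, ?_⟩
  have e : ((Units.map (σ : E →* E) y : Eˣ) : E) / ((Units.map (σ : E →* E) t : Eˣ) : E) ^ p - 1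
      = σ ((y : E) / (t : E) ^ p - 1) := by
    simp
  rw [e, valuation_gal_eq v w h1]
  exact ht

/-- **Assembly (f)** of the counting proof: if at most `p` classes of `Fˣ / P_v` become local
`p`-th powers at the prime `w` above the nonsplit `v`, some `x ∈ Fˣ` is not a norm from `E`
to precision `2 * ord_v p + 1` at `v`. -/
theorem exists_not_norm_approx_of_ker {p : ℕ} (hp : p.Prime) (hodd : p ≠ 2)
    (hdeg : Module.finrank F E = p) {ζ : F} (hζ : IsPrimitiveRoot ζ p)
    (v : HeightOneSpectrum (𝓞 F)) (w : HeightOneSpectrum (𝓞 E)) [w.asIdeal.LiesOver v.asIdeal]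
    (hns : ¬ Split F E v)
    (hker : (locPowSubgroup p v).relIndex
      ((locPowSubgroup p w).comap (Units.map (algebraMap F E : F →* E))) ≤ p) :
    ∃ x : Fˣ, ∀ y : Eˣ, ¬ v.valuation F ((x : F) / ((normHom F E y : Fˣ) : F) - 1) ≤
      exp (-((2 * ordP v p + 1 : ℕ) : ℤ)) := by
  classical
  by_contra hcon
  push Not at hcon
  obtain ⟨h1, -⟩ := nonsplit_data hp hdeg v hns
  -- a generator `σ` of the Galois group
  have hcard : Nat.card (E ≃ₐ[F] E) = p := (IsGalois.card_aut_eq_finrank F E).trans hdeg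
  have hnt : Nontrivial (E ≃ₐ[F] E) :=
    Finite.one_lt_card_iff_nontrivial.mp (hcard ▸ hp.one_lt)
  obtain ⟨σ, hσ1⟩ := exists_ne (1 : E ≃ₐ[F] E)
  have hσp : σ ^ p = 1 := by rw [← hcard]; exact pow_card_eq_one'
  obtain ⟨hPw0, hPwle⟩ := index_locPowSubgroup_above hp hdeg hζ v w hns
  have hfin : Finite (Eˣ ⧸ locPowSubgroup p w) := by
    apply Nat.finite_of_card_ne_zero
    rwa [← Subgroup.index_eq_card]
  have hexp : ∀ x : Eˣ ⧸ locPowSubgroup p w, x ^ p = 1 := by
    intro x
    obtain ⟨y, rfl⟩ := QuotientGroup.mk_surjective x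
    rw [← QuotientGroup.mk_pow, QuotientGroup.eq_one_iff]
    exact helper1892.locPow_pow p w y
  have hstab : locPowSubgroup p w ≤ (locPowSubgroup p w).comap (Units.map (σ : E →* E)) :=
    fun y hy => locPow_gal v w h1 σ hy
  let s : Eˣ ⧸ locPowSubgroup p w →* Eˣ ⧸ locPowSubgroup p w :=
    QuotientGroup.map _ _ (Units.map (σ : E →* E)) hstab
  have hs_iter : ∀ (i : ℕ) (y : Eˣ),
      s^[i] (QuotientGroup.mk y) =
        QuotientGroup.mk (Units.map ((σ ^ i : E ≃ₐ[F] E) : E →* E) y) := by
    intro i y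
    induction i with
    | zero =>
      simp only [Function.iterate_zero, id_eq, pow_zero]
      congr 1
    | succ i ih =>
      rw [Function.iterate_succ_apply', ih]
      show QuotientGroup.mk (Units.map (σ : E →* E) _) = _
      congr 1
      apply Units.ext
      show σ ((σ ^ i) (y : E)) = (σ ^ (i + 1)) (y : E)
      rw [pow_succ']
      rfl
  have hsp : ∀ x, s^[p] x = x := by
    intro x
    obtain ⟨y, rfl⟩ := QuotientGroup.mk_surjective x
    rw [hs_iter, hσp]
    congr 1
  have hblock := helper1957.card_range_norm_pow_le (V := Eˣ ⧸ locPowSubgroup p w) hp hexp s hsp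
  -- the map `Fˣ → Eˣ / P_w`
  let φ : Fˣ →* Eˣ ⧸ locPowSubgroup p w :=
    (QuotientGroup.mk' (locPowSubgroup p w)).comp (Units.map (algebraMap F E : F →* E))
  have hφker : φ.ker = (locPowSubgroup p w).comap (Units.map (algebraMap F E : F →* E)) := by
    ext x
    rw [MonoidHom.mem_ker, Subgroup.mem_comap]
    exact QuotientGroup.eq_one_iff _
  have hnorm : ∀ y : Eˣ, (∏ i ∈ Finset.range p, s^[i] (QuotientGroup.mk y)) =
      φ (normHom F E y) := by
    intro y
    simp only [hs_iter]
    rw [← QuotientGroup.mk_prod]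
    show _ = QuotientGroup.mk (Units.map (algebraMap F E : F →* E) (normHom F E y))
    congr 1
    apply Units.ext
    rw [Units.coe_prod]
    exact (helper3127.algebraMap_norm_eq_prod_pow hp hdeg σ hσ1 (y : E)).symm
  have hrange : (φ.range : Set (Eˣ ⧸ locPowSubgroup p w)) ⊆
      Set.range fun x : Eˣ ⧸ locPowSubgroup p w => ∏ i ∈ Finset.range p, s^[i] x := by
    rintro _ ⟨x, rfl⟩
    obtain ⟨y, hy⟩ := hcon x
    refine ⟨QuotientGroup.mk y, ?_⟩
    show (∏ i ∈ Finset.range p, s^[i] (QuotientGroup.mk y)) = φ x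
    rw [hnorm]
    have hu : LocPow p v (x / normHom F E y) := by
      apply helper4204.locPow_of_valuation_sub_one_le v hp
        (by omega : 2 * ordP v p < 2 * ordP v p + 1)
      rw [Units.val_div_eq_div_val]
      exact hy
    have hu' : φ (x / normHom F E y) = 1 := by
      rw [← MonoidHom.mem_ker, hφker]
      exact locPow_algebraMap v w hu
    rw [map_div, div_eq_one] at hu'
    exact hu'.symm
  -- the count
  have hPv := helper1957.le_index_locPowSubgroup v hp hζ
  have hle : locPowSubgroup p v ≤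
      (locPowSubgroup p w).comap (Units.map (algebraMap F E : F →* E)) :=
    fun u hu => locPow_algebraMap v w hu
  have hmul := Subgroup.relIndex_mul_index hle
  have hidx : ((locPowSubgroup p w).comap (Units.map (algebraMap F E : F →* E))).index =
      Nat.card φ.range := by
    rw [← hφker]
    exact Subgroup.index_ker φ
  have hcardle : Nat.card φ.range ≤
      Nat.card (Set.range fun x : Eˣ ⧸ locPowSubgroup p w =>
        ∏ i ∈ Finset.range p, s^[i] x) :=
    Nat.card_mono (Set.toFinite _) hrange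
  have hV : Nat.card (Eˣ ⧸ locPowSubgroup p w) ≤
      p ^ 2 * (Ideal.absNorm v.asIdeal ^ ordP v p) ^ p := by
    rw [← Subgroup.index_eq_card]
    exact hPwle
  set Q := Ideal.absNorm v.asIdeal ^ ordP v p with hQ
  have hQpos : 0 < Q := pow_pos (helper4204.absNorm_pos v) _
  set n := Nat.card (Set.range fun x : Eˣ ⧸ locPowSubgroup p w =>
    ∏ i ∈ Finset.range p, s^[i] x) with hn
  set m := Nat.card φ.range with hm
  -- `p ^ 2 * Q ≤ relIndex * m ≤ p * m`
  have h2 : p * Q ≤ m := by
    have h3 : p ^ 2 * Q ≤ p * m := by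
      calc p ^ 2 * Q ≤ (locPowSubgroup p v).index := hPv
        _ = (locPowSubgroup p v).relIndex
              ((locPowSubgroup p w).comap (Units.map (algebraMap F E : F →* E))) * m := by
            rw [← hmul, hidx]
        _ ≤ p * m := Nat.mul_le_mul_right m hker
    have h4 : p * (p * Q) ≤ p * m := by
      calc p * (p * Q) = p ^ 2 * Q := by ring
        _ ≤ p * m := h3
    exact Nat.le_of_mul_le_mul_left h4 hp.pos
  have h5 : (p * Q) ^ p ≤ p ^ 2 * Q ^ p :=
    calc (p * Q) ^ p ≤ m ^ p := Nat.pow_le_pow_left h2 p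
      _ ≤ n ^ p := Nat.pow_le_pow_left hcardle p
      _ ≤ Nat.card (Eˣ ⧸ locPowSubgroup p w) := hblock
      _ ≤ p ^ 2 * Q ^ p := hV
  rw [mul_pow] at h5
  have h6 : p ^ p ≤ p ^ 2 := Nat.le_of_mul_le_mul_right h5 (pow_pos hQpos p)
  have h7 : p ≤ 2 := (Nat.pow_le_pow_iff_right hp.one_lt).mp h6
  exact hodd (le_antisymm h7 hp.two_le)

/-- **Local non-norm at a nonsplit place, explicit precision** (no completions, no local class
field theory): `E / F` Galois of odd prime degree `p`, `ζ_p ∈ F`, `v` a finite place of `F`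
which does not split completely in `E`.  Then some `x ∈ Fˣ` is not a norm from `E` to precision
`2 * ord_v p + 1` at `v`. -/
theorem exists_not_norm_approx {p : ℕ} (hp : p.Prime) (hodd : p ≠ 2)
    (hdeg : Module.finrank F E = p) {ζ : F} (hζ : IsPrimitiveRoot ζ p)
    (v : HeightOneSpectrum (𝓞 F)) (hns : ¬ Split F E v) :
    ∃ x : Fˣ, ∀ y : Eˣ, ¬ v.valuation F ((x : F) / ((normHom F E y : Fˣ) : F) - 1) ≤
      exp (-((2 * ordP v p + 1 : ℕ) : ℤ)) := by
  obtain ⟨w, hw⟩ := exists_liesOver (E := E) v
  exact exists_not_norm_approx_of_ker hp hodd hdeg hζ v w hns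
    (helper1957.relIndex_locPow_comap_le_of_nonsplit hp hdeg hζ v w hns).2

/-- **(LN), raw shape**: at a nonsplit place `v` some `x ∈ Fˣ` is not a completion-free local
norm from `E`.  This is, up to unfolding, `helper1980.Stmt_LocNormProper F E`,
`helper4783.Stmt_LocNonNorm F E`, `helper8443.Stmt_LocalNonNorm F E` at `v`. -/
theorem exists_not_locNorm {p : ℕ} (hp : p.Prime) (hodd : p ≠ 2)
    (hdeg : Module.finrank F E = p) (hζ : ∃ ζ : F, IsPrimitiveRoot ζ p)
    (v : HeightOneSpectrum (𝓞 F)) (hns : ¬ Split F E v) :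
    ∃ x : Fˣ, ¬ ∀ N : ℕ, ∃ y : Eˣ,
      v.valuation F ((x : F) / ((normHom F E y : Fˣ) : F) - 1) ≤ exp (-(N : ℤ)) := by
  obtain ⟨ζ, hζ'⟩ := hζ
  obtain ⟨x, hx⟩ := exists_not_norm_approx hp hodd hdeg hζ' v hns
  refine ⟨x, fun h => ?_⟩
  obtain ⟨y, hy⟩ := h (2 * ordP v p + 1)
  exact hx y hy

end Assembly

end Fermat.Agent.S55.helper4029
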