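/-
S55 moonshot, number-field core, leaf NF-HNT-CF (seat helper8443).

COMPLETION-FREE HASSE NORM THEOREM for a Galois extension `E / F` of number fields of prime
degree `p` (with `ζ_p ∈ F`), as a hypothesis-passing ASSEMBLY on the vocabulary of the landed
S14 class-field modules (`helper2613.SUnits`, `helper1892.LocPow / ClassGen / Stmt_TateCount`,
`helper165.normHom / Split / IsAbove / Stmt_SUnitNormIndex / Stmt_NormGen`).

* `closureAt v H`   : the `v`-adic closure in `Fˣ` of a subgroup `H` (completion-free).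
* `locNormSubgroup` : `closureAt v (range N_{E/F})`, the completion-free local norms at `v`.
* `secondIneq_norm` : norm form of the second inequality, `[Fˣ : Λ_S · U_S] ≤ p` where
                      `Λ_S = ⨅_{v ∈ S} locNormSubgroup v` and `U_S` are the `S`-units.
* `sUnit_hasse`     : `Λ_S ⊓ U_S ≤ N(U_{E,S'})` (Hasse norm principle for `S`-units).
* `hasseNorm_cf`    : an element of `Fˣ` which is a completion-free local norm at every finite
                      place is a global norm.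

The only arithmetic input beyond the S14 modules is `Stmt_LocalNonNorm`: at every non-split
place some element of `Fˣ` is not a local norm (local norm index `> 1`).
-/
import Mathlib
import Fermat.Agent.S14.helper165_FirstIneqAsm
import Fermat.Agent.S14.helper1892_M6Defs
import Fermat.Agent.S14.helper4204_LocalPow

set_option autoImplicit false

open IsDedekindDomain NumberField WithZero

namespace Fermat.Agent.S55.helper8443

open Fermat.Agent.S14.helper2613 (ordAt SUnits)
open Fermat.Agent.S14.helper1892 (LocPowN LocPow ClassGen locPowSubgroup locPowS)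
open Fermat.Agent.S14.helper165 (normHom Split IsAbove)

/-! ## Abstract finite-index lemmas -/

section Abstract

variable {G : Type*} [CommGroup G]

/-- If `H ⊔ K = ⊤` then `[G : H ⊓ K] = [G : H] [G : K]`. -/
theorem index_inf_of_sup_eq_top (H K : Subgroup G) (h : H ⊔ K = ⊤) :
    (H ⊓ K).index = H.index * K.index := by
  have h1 : (H ⊓ K).relIndex K * K.index = (H ⊓ K).index :=
    Subgroup.relIndex_mul_index inf_le_right
  have h2 : (H ⊓ K).relIndex K = H.relIndex K := Subgroup.inf_relIndex_right H K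
  have h3 : H.relIndex (H ⊔ K) = H.relIndex K := Subgroup.relIndex_sup_left K H
  rw [h, Subgroup.relIndex_top_right] at h3
  rw [← h1, h2, ← h3]

/-- Independent finite-index subgroups: the index of the intersection is the product. -/
theorem index_iInf_eq_prod {ι : Type*} [DecidableEq ι] (L : ι → Subgroup G) (s : Finset ι)
    (h : ∀ (t : Finset ι) (i : ι), i ∉ t → L i ⊔ (⨅ j ∈ t, L j) = ⊤) :
    (⨅ i ∈ s, L i).index = ∏ i ∈ s, (L i).index := by
  induction s using Finset.induction_on with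
  | empty => simp
  | insert i t hi ih =>
    rw [Finset.iInf_insert, Finset.prod_insert hi, index_inf_of_sup_eq_top _ _ (h t i hi), ih]

/-- A proper subgroup of finite index containing all `p`-th powers has index at least `p`. -/
theorem le_index_of_pow_mem (H : Subgroup G) {p : ℕ} (hp : p.Prime) (hfin : H.index ≠ 0)
    (hpow : ∀ x : G, x ^ p ∈ H) (hne : ∃ x : G, x ∉ H) : p ≤ H.index := by
  obtain ⟨x, hx⟩ := hne
  have : Fact p.Prime := ⟨hp⟩
  have : Finite (G ⧸ H) := Subgroup.index_ne_zero_iff_finite.mp hfin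
  have h1 : ((x : G ⧸ H)) ^ p = 1 := by
    rw [← QuotientGroup.mk_pow]
    exact (QuotientGroup.eq_one_iff _).2 (hpow x)
  have h2 : ((x : G ⧸ H)) ≠ 1 := fun h => hx ((QuotientGroup.eq_one_iff _).1 h)
  have h3 : orderOf (x : G ⧸ H) = p := orderOf_eq_prime h1 h2
  have h4 : orderOf (x : G ⧸ H) ∣ Nat.card (G ⧸ H) := orderOf_dvd_natCard _
  rw [h3] at h4
  exact Nat.le_of_dvd (Nat.pos_of_ne_zero hfin) h4

/-- **The count behind the Hasse norm theorem.**  If `[G : Λ U] ≤ p`, `[G : Λ] ≥ p ^ n` and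
`[U : Nm ∩ U] · p ≤ p ^ n` for a subgroup `Nm ≤ Λ`, then `Λ ∩ U ≤ Nm`. -/
theorem inf_le_of_index_bounds (Λ U Nm : Subgroup G) {p n : ℕ} (hp : 0 < p) (hNm : Nm ≤ Λ)
    (ha : (Λ ⊔ U).index ≤ p) (hb : p ^ n ≤ Λ.index)
    (hc0 : Nm.relIndex U ≠ 0) (hc : Nm.relIndex U * p ≤ p ^ n) : Λ ⊓ U ≤ Nm := by
  have e1 : Λ.relIndex (Λ ⊔ U) * (Λ ⊔ U).index = Λ.index :=
    Subgroup.relIndex_mul_index le_sup_left
  have e2 : Λ.relIndex (Λ ⊔ U) = Λ.relIndex U := Subgroup.relIndex_sup_left U Λ
  have e3 : (Λ ⊓ U).relIndex U = Λ.relIndex U := Subgroup.inf_relIndex_right Λ U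
  have e4 : (Nm ⊓ U).relIndex U = Nm.relIndex U := Subgroup.inf_relIndex_right Nm U
  have e5 : (Nm ⊓ U).relIndex (Λ ⊓ U) * (Λ ⊓ U).relIndex U = (Nm ⊓ U).relIndex U :=
    Subgroup.relIndex_mul_relIndex _ _ _ (inf_le_inf_right U hNm) inf_le_right
  set c := (Nm ⊓ U).relIndex (Λ ⊓ U) with hc_def
  set r := Λ.relIndex U with hr_def
  set I := (Λ ⊔ U).index with hI_def
  rw [e3, e4] at e5
  rw [e2] at e1
  have hpn : 0 < p ^ n := pow_pos hp n
  have hr0 : 0 < r := by
    rcases Nat.eq_zero_or_pos r with h | h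
    · rw [h, zero_mul] at e1
      omega
    · exact h
  have hc0' : c ≠ 0 := by
    intro h
    rw [h, zero_mul] at e5
    exact hc0 e5.symm
  have h1 : p ^ n ≤ r * p := by
    calc p ^ n ≤ Λ.index := hb
      _ = r * I := e1.symm
      _ ≤ r * p := Nat.mul_le_mul_left r ha
  have h2 : c * (r * p) ≤ 1 * (r * p) := by
    calc c * (r * p) = (c * r) * p := by ring
      _ = Nm.relIndex U * p := by rw [e5]
      _ ≤ p ^ n := hc
      _ ≤ r * p := h1
      _ = 1 * (r * p) := (one_mul _).symm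
  have h3 : c ≤ 1 := Nat.le_of_mul_le_mul_right h2 (Nat.mul_pos hr0 hp)
  have h4 : c = 1 := by omega
  have h5 : Λ ⊓ U ≤ Nm ⊓ U := Subgroup.relIndex_eq_one.mp h4
  exact h5.trans inf_le_left

end Abstract

/-! ## The `v`-adic closure of a subgroup of `Fˣ` (completion-free) -/

section Closure

variable {F : Type*} [Field F] [NumberField F]

/-- `x` lies in the `v`-adic closure of the subgroup `H` of `Fˣ`: it is approximated to any
precision by elements of `H`. -/
def InClosure (v : HeightOneSpectrum (𝓞 F)) (H : Subgroup Fˣ) (x : Fˣ) : Prop :=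
  ∀ N : ℕ, ∃ h ∈ H, v.valuation F ((x : F) / (h : F) - 1) ≤ exp (-(N : ℤ))

theorem exp_neg_succ_le (N : ℕ) : (exp (-((N + 1 : ℕ) : ℤ)) : ℤᵐ⁰) ≤ exp (-(N : ℤ)) := by
  rw [exp_le_exp]
  push_cast
  omega

theorem val_mul_sub_one_le (v : HeightOneSpectrum (𝓞 F)) {a b : F} {N : ℕ}
    (ha : v.valuation F (a - 1) ≤ exp (-((N + 1 : ℕ) : ℤ)))
    (hb : v.valuation F (b - 1) ≤ exp (-((N + 1 : ℕ) : ℤ))) :
    v.valuation F (a * b - 1) ≤ exp (-(N : ℤ)) := by
  have h1 : v.valuation F b = 1 :=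
    Fermat.Agent.S14.helper1892.val_eq_one_of_sub_one_lt v
      (lt_of_le_of_lt hb (Fermat.Agent.S14.helper1892.exp_neg_succ_lt_one N))
  have key : a * b - 1 = (a - 1) * b + (b - 1) := by ring
  rw [key]
  refine Valuation.map_add_le _ ?_ (hb.trans (exp_neg_succ_le N))
  rw [map_mul, h1, mul_one]
  exact ha.trans (exp_neg_succ_le N)

theorem val_inv_sub_one_le (v : HeightOneSpectrum (𝓞 F)) {a : F} {N : ℕ}
    (ha : v.valuation F (a - 1) ≤ exp (-((N + 1 : ℕ) : ℤ))) :
    v.valuation F (a⁻¹ - 1) ≤ exp (-(N : ℤ)) := by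
  have h1 : v.valuation F a = 1 :=
    Fermat.Agent.S14.helper1892.val_eq_one_of_sub_one_lt v
      (lt_of_le_of_lt ha (Fermat.Agent.S14.helper1892.exp_neg_succ_lt_one N))
  have ha0 : a ≠ 0 := by
    rintro rfl
    rw [map_zero] at h1
    exact zero_ne_one h1
  have key : a⁻¹ - 1 = -(a - 1) * a⁻¹ := by
    field_simp
    ring
  rw [key, map_mul, map_inv₀, h1, inv_one, mul_one, Valuation.map_neg]
  exact ha.trans (exp_neg_succ_le N)

/-- The `v`-adic closure of a subgroup `H` of `Fˣ`, as a subgroup. -/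
def closureAt (v : HeightOneSpectrum (𝓞 F)) (H : Subgroup Fˣ) : Subgroup Fˣ where
  carrier := {x | InClosure v H x}
  mul_mem' := by
    intro x x' hx hx' N
    obtain ⟨h, hh, hxh⟩ := hx (N + 1)
    obtain ⟨h', hh', hxh'⟩ := hx' (N + 1)
    refine ⟨h * h', H.mul_mem hh hh', ?_⟩
    have key : ((x * x' : Fˣ) : F) / ((h * h' : Fˣ) : F)
        = ((x : F) / (h : F)) * ((x' : F) / (h' : F)) := by
      push_cast
      field_simp
    rw [key]
    exact val_mul_sub_one_le v hxh hxh'
  one_mem' := by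
    intro N
    exact ⟨1, H.one_mem, by simp⟩
  inv_mem' := by
    intro x hx N
    obtain ⟨h, hh, hxh⟩ := hx (N + 1)
    refine ⟨h⁻¹, H.inv_mem hh, ?_⟩
    have key : ((x⁻¹ : Fˣ) : F) / ((h⁻¹ : Fˣ) : F) = ((x : F) / (h : F))⁻¹ := by
      push_cast
      field_simp
    rw [key]
    exact val_inv_sub_one_le v hxh

theorem mem_closureAt {v : HeightOneSpectrum (𝓞 F)} {H : Subgroup Fˣ} {x : Fˣ} :
    x ∈ closureAt v H ↔
      ∀ N : ℕ, ∃ h ∈ H, v.valuation F ((x : F) / (h : F) - 1) ≤ exp (-(N : ℤ)) := Iff.rfl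

theorem le_closureAt (v : HeightOneSpectrum (𝓞 F)) (H : Subgroup Fˣ) : H ≤ closureAt v H := by
  intro x hx N
  exact ⟨x, hx, by simp⟩

theorem closureAt_mono (v : HeightOneSpectrum (𝓞 F)) {H H' : Subgroup Fˣ} (h : H ≤ H') :
    closureAt v H ≤ closureAt v H' := by
  intro x hx N
  obtain ⟨y, hy, hxy⟩ := hx N
  exact ⟨y, h hy, hxy⟩

/-- Local `p`-th powers lie in the closure of any subgroup containing all `p`-th powers. -/
theorem locPowSubgroup_le_closureAt {p : ℕ} (v : HeightOneSpectrum (𝓞 F)) {H : Subgroup Fˣ}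
    (hH : ∀ y : Fˣ, y ^ p ∈ H) : locPowSubgroup p v ≤ closureAt v H := by
  intro x hx N
  obtain ⟨y, hy⟩ := hx N
  exact ⟨y ^ p, hH y, by simpa using hy⟩

end Closure

/-! ## Weak approximation: the local closures at distinct places are independent -/

section Approx

variable {F : Type*} [Field F] [NumberField F]

open Fermat.Agent.S14.helper4204 (ordP locPow_of_valuation_sub_one_le)

/-- CRT: an algebraic integer close to `1` on `t` and close to `c` at `v₀ ∉ t`. -/
theorem exists_int_close (t : Finset (HeightOneSpectrum (𝓞 F))) (v₀ : HeightOneSpectrum (𝓞 F))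
    (hv₀ : v₀ ∉ t) (c : 𝓞 F) (M : ℕ) :
    ∃ z : 𝓞 F, (∀ v ∈ t, z - 1 ∈ v.asIdeal ^ M) ∧ z - c ∈ v₀.asIdeal ^ M := by
  classical
  obtain ⟨y, hy⟩ := IsDedekindDomain.exists_forall_sub_mem_ideal (s := insert v₀ t)
    (fun v : HeightOneSpectrum (𝓞 F) => v.asIdeal) (fun _ => M)
    (fun v _ => v.prime) (fun v _ w _ hvw h => hvw (HeightOneSpectrum.ext h))
    (fun i => if i.1 = v₀ then c else 1)
  refine ⟨y, fun v hv => ?_, ?_⟩
  · have := hy v (Finset.mem_insert_of_mem hv)
    have hne : v ≠ v₀ := fun h => hv₀ (h ▸ hv)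
    simpa [hne] using this
  · have := hy v₀ (Finset.mem_insert_self v₀ t)
    simpa using this

/-- A nonzero algebraic integer, as a unit of `F`. -/
noncomputable def intUnit (c : 𝓞 F) (hc : c ≠ 0) : Fˣ :=
  Units.mk0 (algebraMap (𝓞 F) F c) (by simpa using hc)

omit [NumberField F] in
@[simp] theorem coe_intUnit (c : 𝓞 F) (hc : c ≠ 0) :
    ((intUnit c hc : Fˣ) : F) = algebraMap (𝓞 F) F c := rfl

/-- Every nonzero algebraic integer lies in `L v₀ ⊔ ⨅_{v ∈ t} L v` as soon as the `L v` contain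
the local `p`-th powers. -/
theorem intUnit_mem_sup {p : ℕ} (hp : p.Prime) (L : HeightOneSpectrum (𝓞 F) → Subgroup Fˣ)
    (hL : ∀ v, locPowSubgroup p v ≤ L v) (t : Finset (HeightOneSpectrum (𝓞 F)))
    (v₀ : HeightOneSpectrum (𝓞 F)) (hv₀ : v₀ ∉ t) (c : 𝓞 F) (hc : c ≠ 0) :
    intUnit c hc ∈ L v₀ ⊔ (⨅ v ∈ t, L v) := by
  classical
  -- the order of `c` at `v₀`
  have hval0 : v₀.intValuation c ≠ 0 := v₀.intValuation_ne_zero c hc
  obtain ⟨m, hm⟩ : ∃ m : ℤ, v₀.intValuation c = exp m :=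
    ⟨WithZero.log (v₀.intValuation c), (WithZero.exp_log hval0).symm⟩
  set k : ℕ := (-m).toNat with hk
  have hkm : (exp (-(k : ℤ)) : ℤᵐ⁰) ≤ v₀.intValuation c := by
    rw [hm, exp_le_exp]
    have := Int.self_le_toNat (-m)
    omega
  set N₀ : ℕ := 2 * (∑ v ∈ insert v₀ t, ordP v p) + 1 with hN₀
  have hN₀v : ∀ v ∈ insert v₀ t, 2 * ordP v p < N₀ := by
    intro v hv
    have : ordP v p ≤ ∑ v ∈ insert v₀ t, ordP v p :=
      Finset.single_le_sum (f := fun v => ordP v p) (fun _ _ => Nat.zero_le _) hv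
    omega
  obtain ⟨z, hzt, hz₀⟩ := exists_int_close t v₀ hv₀ c (N₀ + k)
  have hz₀' : v₀.intValuation (z - c) ≤ exp (-((N₀ + k : ℕ) : ℤ)) :=
    (v₀.intValuation_le_pow_iff_mem _ _).mpr hz₀
  have hz : z ≠ 0 := by
    rintro rfl
    rw [zero_sub, Valuation.map_neg] at hz₀'
    have h1 : (exp (-(k : ℤ)) : ℤᵐ⁰) ≤ exp (-((N₀ + k : ℕ) : ℤ)) := hkm.trans hz₀'
    rw [exp_le_exp] at h1
    push_cast at h1
    omega
  -- `z` is a local `p`-th power on `t`
  have hz_t : intUnit z hz ∈ ⨅ v ∈ t, L v := by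
    simp only [Subgroup.mem_iInf]
    intro v hv
    apply hL v
    refine locPow_of_valuation_sub_one_le v hp (hN₀v v (Finset.mem_insert_of_mem hv)) ?_
    have h1 : ((intUnit z hz : Fˣ) : F) - 1 = algebraMap (𝓞 F) F (z - 1) := by
      rw [coe_intUnit, map_sub, map_one]
    rw [h1, HeightOneSpectrum.valuation_of_algebraMap]
    refine ((v.intValuation_le_pow_iff_mem _ _).mpr (hzt v hv)).trans ?_
    rw [exp_le_exp]
    push_cast
    omega
  -- `z / c` is a local `p`-th power at `v₀`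
  have hzc : intUnit z hz / intUnit c hc ∈ L v₀ := by
    apply hL v₀
    refine locPow_of_valuation_sub_one_le v₀ hp (hN₀v v₀ (Finset.mem_insert_self _ _)) ?_
    have hc' : (algebraMap (𝓞 F) F c) ≠ 0 := by simpa using hc
    have h1 : ((intUnit z hz / intUnit c hc : Fˣ) : F) - 1
        = algebraMap (𝓞 F) F (z - c) * (algebraMap (𝓞 F) F c)⁻¹ := by
      rw [Units.val_div_eq_div_val, coe_intUnit, coe_intUnit, map_sub]
      field_simp
    rw [h1, map_mul, map_inv₀, HeightOneSpectrum.valuation_of_algebraMap,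
      HeightOneSpectrum.valuation_of_algebraMap]
    rw [mul_inv_le_iff₀ (zero_lt_iff.mpr hval0)]
    calc v₀.intValuation (z - c) ≤ exp (-((N₀ + k : ℕ) : ℤ)) := hz₀'
      _ = exp (-(N₀ : ℤ)) * exp (-(k : ℤ)) := by
          rw [← exp_add]
          congr 1
          push_cast
          ring
      _ ≤ exp (-(N₀ : ℤ)) * v₀.intValuation c := by gcongr
  have hcz : intUnit c hc = (intUnit z hz / intUnit c hc)⁻¹ * intUnit z hz := by
    rw [inv_div, div_mul_cancel]
  rw [hcz]
  exact Subgroup.mul_mem_sup ((L v₀).inv_mem hzc) hz_t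

/-- **Independence of the local conditions** (weak approximation + Hensel): if every `L v`
contains the local `p`-th powers at `v`, then `L v₀ ⊔ ⨅_{v ∈ t} L v = ⊤` for `v₀ ∉ t`. -/
theorem sup_iInf_eq_top {p : ℕ} (hp : p.Prime) (L : HeightOneSpectrum (𝓞 F) → Subgroup Fˣ)
    (hL : ∀ v, locPowSubgroup p v ≤ L v) (t : Finset (HeightOneSpectrum (𝓞 F)))
    (v₀ : HeightOneSpectrum (𝓞 F)) (hv₀ : v₀ ∉ t) : L v₀ ⊔ (⨅ v ∈ t, L v) = ⊤ := by
  rw [eq_top_iff]
  intro x _
  obtain ⟨c, d, hd, hx⟩ := IsFractionRing.div_surjective (A := 𝓞 F) (x : F)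
  have hd0 : d ≠ 0 := nonZeroDivisors.ne_zero hd
  have hc0 : c ≠ 0 := by
    rintro rfl
    rw [map_zero, zero_div] at hx
    exact x.ne_zero hx.symm
  have hxe : x = intUnit c hc0 * (intUnit d hd0)⁻¹ := by
    apply Units.ext
    rw [Units.val_mul, Units.val_inv_eq_inv_val, coe_intUnit, coe_intUnit, ← div_eq_mul_inv, hx]
  rw [hxe]
  exact Subgroup.mul_mem _ (intUnit_mem_sup hp L hL t v₀ hv₀ c hc0)
    (Subgroup.inv_mem _ (intUnit_mem_sup hp L hL t v₀ hv₀ d hd0))

end Approx

/-! ## Completion-free local norms of a number field extension -/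

section NumberField

variable (F E : Type) [Field F] [NumberField F] [Field E] [NumberField E] [Algebra F E]

open Fermat.Agent.S14.helper165 (Stmt_SUnitNormIndex Stmt_NormGen)
open Fermat.Agent.S14.helper1892 (Stmt_TateCount Stmt_ClassGen)

/-- The completion-free local norms at `v`: the `v`-adic closure of the global norms. -/
noncomputable def locNormSubgroup (v : HeightOneSpectrum (𝓞 F)) : Subgroup Fˣ :=
  closureAt v (normHom F E).range

/-- `x` is a completion-free local norm from `E` at the finite place `v` of `F`: it is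
approximated at `v`, to any precision, by global norms. -/
def LocNorm (v : HeightOneSpectrum (𝓞 F)) (x : Fˣ) : Prop :=
  ∀ N : ℕ, ∃ y : Eˣ,
    v.valuation F ((x : F) / ((normHom F E y : Fˣ) : F) - 1) ≤ exp (-(N : ℤ))

variable {F E} in
omit [NumberField E] in
theorem mem_locNormSubgroup {v : HeightOneSpectrum (𝓞 F)} {x : Fˣ} :
    x ∈ locNormSubgroup F E v ↔ LocNorm F E v x := by
  constructor
  · intro h N
    obtain ⟨_, ⟨y, rfl⟩, hy⟩ := h N
    exact ⟨y, hy⟩
  · intro h N
    obtain ⟨y, hy⟩ := h N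
    exact ⟨normHom F E y, ⟨y, rfl⟩, hy⟩

/-- The elements of `Fˣ` which are local norms at every place of the finite set `S`. -/
noncomputable def locNormS (S : Finset (HeightOneSpectrum (𝓞 F))) : Subgroup Fˣ :=
  ⨅ v ∈ S, locNormSubgroup F E v

variable {F E} in
omit [NumberField E] in
theorem mem_locNormS {S : Finset (HeightOneSpectrum (𝓞 F))} {x : Fˣ} :
    x ∈ locNormS F E S ↔ ∀ v ∈ S, LocNorm F E v x := by
  simp [locNormS, Subgroup.mem_iInf, mem_locNormSubgroup]

/-- **Local input**: at every non-split finite place some element of `Fˣ` is not a local norm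
(the local norm index is `> 1`). -/
def Stmt_LocalNonNorm : Prop :=
  ∀ v : HeightOneSpectrum (𝓞 F), ¬ Split F E v → ∃ x : Fˣ, ¬ LocNorm F E v x

variable {F E}

omit [NumberField E] in
theorem range_normHom_le_locNormSubgroup (v : HeightOneSpectrum (𝓞 F)) :
    (normHom F E).range ≤ locNormSubgroup F E v :=
  le_closureAt v _

omit [NumberField E] in
theorem range_normHom_le_locNormS (S : Finset (HeightOneSpectrum (𝓞 F))) :
    (normHom F E).range ≤ locNormS F E S :=
  le_iInf₂ fun v _ => range_normHom_le_locNormSubgroup v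

/-- `p`-th powers are norms when `[E : F] = p`. -/
theorem pow_mem_range_normHom {p : ℕ} (hdeg : Module.finrank F E = p) (y : Fˣ) :
    y ^ p ∈ (normHom F E).range := by
  refine ⟨Units.map (algebraMap F E : F →* E) y, ?_⟩
  apply Units.ext
  change Algebra.norm F (algebraMap F E (y : F)) = ((y ^ p : Fˣ) : F)
  rw [Algebra.norm_algebraMap, hdeg, Units.val_pow_eq_pow_val]

theorem locPowSubgroup_le_locNormSubgroup {p : ℕ} (hdeg : Module.finrank F E = p)
    (v : HeightOneSpectrum (𝓞 F)) : locPowSubgroup p v ≤ locNormSubgroup F E v :=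
  locPowSubgroup_le_closureAt v (pow_mem_range_normHom hdeg)

theorem locPowS_le_locNormS {p : ℕ} (hdeg : Module.finrank F E = p)
    (S : Finset (HeightOneSpectrum (𝓞 F))) : locPowS p S ≤ locNormS F E S :=
  iInf₂_mono fun v _ => locPowSubgroup_le_locNormSubgroup hdeg v

theorem index_locNormSubgroup_ne_zero {p : ℕ} (hp : p.Prime) (hdeg : Module.finrank F E = p)
    (hζ : ∃ ζ : F, IsPrimitiveRoot ζ p) (v : HeightOneSpectrum (𝓞 F)) :
    (locNormSubgroup F E v).index ≠ 0 := by
  obtain ⟨ζ, hζ⟩ := hζ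
  have h1 := (Fermat.Agent.S14.helper4204.index_locPowSubgroup v hp hζ).1
  have h2 := Subgroup.index_dvd_of_le (locPowSubgroup_le_locNormSubgroup (E := E) hdeg v)
  intro h0
  rw [h0, zero_dvd_iff] at h2
  exact h1 h2

open Classical in
/-- **Lower bound for the local norm conditions**: `[Fˣ : Λ_S] ≥ p ^ #{v ∈ S non-split}`. -/
theorem le_index_locNormS {p : ℕ} (hp : p.Prime) (hdeg : Module.finrank F E = p)
    (hζ : ∃ ζ : F, IsPrimitiveRoot ζ p) (hloc : Stmt_LocalNonNorm F E)
    (S : Finset (HeightOneSpectrum (𝓞 F))) :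
    p ^ (S.filter (fun v => ¬ Split F E v)).card ≤ (locNormS F E S).index := by
  have hprod : (locNormS F E S).index = ∏ v ∈ S, (locNormSubgroup F E v).index :=
    index_iInf_eq_prod (locNormSubgroup F E) S
      (sup_iInf_eq_top hp (locNormSubgroup F E) (locPowSubgroup_le_locNormSubgroup hdeg))
  have h0 : ∀ v, (locNormSubgroup F E v).index ≠ 0 :=
    index_locNormSubgroup_ne_zero hp hdeg hζ
  have hge : ∀ v, ¬ Split F E v → p ≤ (locNormSubgroup F E v).index := by
    intro v hv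
    refine le_index_of_pow_mem _ hp (h0 v)
      (fun x => range_normHom_le_locNormSubgroup v (pow_mem_range_normHom hdeg x)) ?_
    obtain ⟨x, hx⟩ := hloc v hv
    exact ⟨x, fun h => hx (mem_locNormSubgroup.1 h)⟩
  rw [hprod, ← Finset.prod_filter_mul_prod_filter_not S (fun v => ¬ Split F E v)]
  have hA : p ^ (S.filter (fun v => ¬ Split F E v)).card
      ≤ ∏ v ∈ S.filter (fun v => ¬ Split F E v), (locNormSubgroup F E v).index := by
    rw [← Finset.prod_const]
    exact Finset.prod_le_prod (fun _ _ => Nat.zero_le _)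
      (fun v hv => hge v (Finset.mem_filter.mp hv).2)
  have hB : 0 < ∏ v ∈ S.filter (fun v => ¬ ¬ Split F E v), (locNormSubgroup F E v).index :=
    Nat.pos_of_ne_zero (Finset.prod_ne_zero_iff.mpr fun v _ => h0 v)
  exact hA.trans (Nat.le_mul_of_pos_right _ hB)

theorem ordAt_zpow (v : HeightOneSpectrum (𝓞 F)) (x : Fˣ) (k : ℤ) :
    ordAt v (x ^ k) = k * ordAt v x := by
  have h := congrArg Multiplicative.toAdd
    (map_zpow (Fermat.Agent.S14.helper2613.ordHom v) x k)
  rw [toAdd_zpow] at h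
  change ordAt v (x ^ k) = k • ordAt v x at h
  rw [h, smul_eq_mul]

omit [NumberField E] in
open Classical in
/-- Primes which are norms up to `S` can be removed from the support of an `S ∪ T`-unit. -/
theorem sUnits_union_le (S T : Finset (HeightOneSpectrum (𝓞 F)))
    (hT : ∀ w ∈ T, ∃ τ ∈ (normHom F E).range, ordAt w τ = 1 ∧
      ∀ v' : HeightOneSpectrum (𝓞 F), v' ∉ S → v' ≠ w → ordAt v' τ = 0) :
    SUnits F (S ∪ T) ≤ SUnits F S ⊔ (normHom F E).range := by
  induction T using Finset.induction_on with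
  | empty => rw [Finset.union_empty]; exact le_sup_left
  | insert w T' hw ih =>
    intro y hy
    obtain ⟨τ, hτ, hτw, hτ'⟩ := hT w (Finset.mem_insert_self w T')
    have ih' := ih (fun w' hw' => hT w' (Finset.mem_insert_of_mem hw'))
    set k : ℤ := ordAt w y with hk
    have hy' : y * (τ ^ k)⁻¹ ∈ SUnits F (S ∪ T') := by
      rw [Fermat.Agent.S14.helper2613.mem_SUnits_iff_ordAt]
      intro v hv
      rw [Fermat.Agent.S14.helper2613.ordAt_mul, Fermat.Agent.S14.helper165.ordAt_inv,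
        ordAt_zpow]
      by_cases hvw : v = w
      · subst hvw
        rw [hτw]
        ring
      · have hvS : v ∉ S := fun h => hv (Finset.mem_union_left _ h)
        have hvT : v ∉ S ∪ insert w T' := by
          intro h
          rcases Finset.mem_union.mp h with h | h
          · exact hvS h
          · rcases Finset.mem_insert.mp h with h | h
            · exact hvw h
            · exact hv (Finset.mem_union_right _ h)
        rw [(Fermat.Agent.S14.helper2613.mem_SUnits_iff_ordAt.mp hy) v hvT, hτ' v hvS hvw]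
        ring
    have hy2 : y = y * (τ ^ k)⁻¹ * τ ^ k := by rw [inv_mul_cancel_right]
    rw [hy2]
    exact Subgroup.mul_mem _ (ih' hy')
      (Subgroup.mem_sup_right (Subgroup.zpow_mem _ hτ k))

open Classical in
/-- **Core count**: from the Tate count `[Fˣ : locPowS p S · U_{S ∪ T}] ≤ p` (with `T` split),
the `S`-unit norm index and the local non-norm input:
the norm form of the second inequality `[Fˣ : Λ_S · U_S] ≤ p` and the Hasse norm principle
for `S`-units `Λ_S ⊓ U_S ≤ N(U_{E,S'})`. -/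
theorem sUnit_hasse_core {p : ℕ} (hp : p.Prime) (hdeg : Module.finrank F E = p)
    (hζ : ∃ ζ : F, IsPrimitiveRoot ζ p) (hloc : Stmt_LocalNonNorm F E)
    (hSU : Stmt_SUnitNormIndex F E p) (hNG : Stmt_NormGen F E p)
    (S T : Finset (HeightOneSpectrum (𝓞 F))) (S' : Finset (HeightOneSpectrum (𝓞 E)))
    (hAb : IsAbove F E S S') (hCG : ClassGen S) (hCG' : ClassGen S')
    (hunr : ∀ v : HeightOneSpectrum (𝓞 F), v ∉ S → v.asIdeal.ramificationIdxIn (𝓞 E) = 1)
    (hdisj : Disjoint S T) (hT : ∀ w ∈ T, Split F E w)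
    (hidx0 : (locPowS p S ⊔ SUnits F (S ∪ T)).index ≠ 0)
    (hidx : (locPowS p S ⊔ SUnits F (S ∪ T)).index ≤ p) :
    ((locNormS F E S ⊔ SUnits F S).index ≠ 0 ∧ (locNormS F E S ⊔ SUnits F S).index ≤ p) ∧
      locNormS F E S ⊓ SUnits F S ≤ (SUnits E S').map (normHom F E) := by
  -- (1) the second inequality in norm form
  have hTτ : ∀ w ∈ T, ∃ τ ∈ (normHom F E).range, ordAt w τ = 1 ∧
      ∀ v' : HeightOneSpectrum (𝓞 F), v' ∉ S → v' ≠ w → ordAt v' τ = 0 := by
    intro w hw
    have hwS : w ∉ S := fun h => Finset.disjoint_left.mp hdisj h hw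
    obtain ⟨τ, hτ, hτw, hτ'⟩ := hNG S S' hAb hCG' hunr w hwS
    rw [if_pos (hT w hw)] at hτw
    exact ⟨τ, hτ, hτw, hτ'⟩
  have hle : locPowS p S ⊔ SUnits F (S ∪ T) ≤ locNormS F E S ⊔ SUnits F S :=
    sup_le ((locPowS_le_locNormS hdeg S).trans le_sup_left)
      ((sUnits_union_le S T hTτ).trans
        (sup_le le_sup_right ((range_normHom_le_locNormS S).trans le_sup_left)))
  have hdvd := Subgroup.index_dvd_of_le hle
  have ha0 : (locNormS F E S ⊔ SUnits F S).index ≠ 0 := by
    intro h0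
    rw [h0, zero_dvd_iff] at hdvd
    exact hidx0 hdvd
  have ha : (locNormS F E S ⊔ SUnits F S).index ≤ p :=
    (Nat.le_of_dvd (Nat.pos_of_ne_zero hidx0) hdvd).trans hidx
  refine ⟨⟨ha0, ha⟩, ?_⟩
  -- (2) the count
  obtain ⟨hc0, hc⟩ := hSU S S' hAb hCG hunr
  have hNm : (SUnits E S').map (normHom F E) ≤ locNormS F E S := by
    rintro _ ⟨y, -, rfl⟩
    exact range_normHom_le_locNormS S ⟨y, rfl⟩
  exact inf_le_of_index_bounds (locNormS F E S) (SUnits F S) ((SUnits E S').map (normHom F E))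
    hp.pos hNm ha (le_index_locNormS hp hdeg hζ hloc S) hc0 hc

open Classical in
/-- **Second inequality (norm form) + Hasse norm principle for `S`-units**, for cofinally many
finite sets `S` of places.  `b` is a Kummer generator of `E / F` in the weak sense that `E / F`
splits at the places not over `p` where `b` is a unit and a local `p`-th power. -/
theorem exists_good_set {p : ℕ} (hp : p.Prime) (hdeg : Module.finrank F E = p)
    (hζ : ∃ ζ : F, IsPrimitiveRoot ζ p) (hloc : Stmt_LocalNonNorm F E)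
    (hTC : Stmt_TateCount F p) (hSU : Stmt_SUnitNormIndex F E p) (hNG : Stmt_NormGen F E p)
    (hCGE : Stmt_ClassGen E) (b : Fˣ) (hb : ¬ ∃ y : Fˣ, b = y ^ p)
    (hram : ∃ R : Finset (HeightOneSpectrum (𝓞 F)),
      ∀ v : HeightOneSpectrum (𝓞 F), v ∉ R → v.asIdeal.ramificationIdxIn (𝓞 E) = 1)
    (hsplit : ∀ v : HeightOneSpectrum (𝓞 F), (p : 𝓞 F) ∉ v.asIdeal →
      v.valuation F (b : F) = 1 → LocPow p v b → Split F E v)
    (S₀ : Finset (HeightOneSpectrum (𝓞 F))) :
    ∃ (S : Finset (HeightOneSpectrum (𝓞 F))) (S' : Finset (HeightOneSpectrum (𝓞 E))),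
      S₀ ⊆ S ∧ IsAbove F E S S' ∧ ClassGen S ∧ ClassGen S' ∧
      (∀ v : HeightOneSpectrum (𝓞 F), v ∉ S → v.asIdeal.ramificationIdxIn (𝓞 E) = 1) ∧
      (∀ v : HeightOneSpectrum (𝓞 F), (p : 𝓞 F) ∈ v.asIdeal → v ∈ S) ∧ b ∈ SUnits F S ∧
      (locNormS F E S ⊔ SUnits F S).index ≠ 0 ∧ (locNormS F E S ⊔ SUnits F S).index ≤ p ∧
      locNormS F E S ⊓ SUnits F S ≤ (SUnits E S').map (normHom F E) := by
  obtain ⟨R, hR⟩ := hram
  obtain ⟨SE, -, hgE⟩ := hCGE ∅
  obtain ⟨S, T, hS₀, hdisj, hSp, hCG, hbS, hTb, hidx0, hidx⟩ :=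
    hTC b hb (S₀ ∪ R ∪ SE.image (fun w => w.under (𝓞 F)))
  obtain ⟨S', hAb⟩ := Fermat.Agent.S14.helper165.exists_isAbove F E S
  have hCG' : ClassGen S' := by
    refine hgE.mono ?_
    intro w hw
    rw [(Fermat.Agent.S14.helper165.isAbove_iff F E S S').1 hAb w]
    exact hS₀ (Finset.mem_union_right _ (Finset.mem_image_of_mem _ hw))
  have hunr : ∀ v : HeightOneSpectrum (𝓞 F), v ∉ S →
      v.asIdeal.ramificationIdxIn (𝓞 E) = 1 := by
    intro v hv
    exact hR v fun h => hv (hS₀ (Finset.mem_union_left _ (Finset.mem_union_right _ h)))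
  have hT : ∀ w ∈ T, Split F E w := by
    intro w hw
    have hwS : w ∉ S := fun h => Finset.disjoint_left.mp hdisj h hw
    exact hsplit w (fun h => hwS (hSp w h))
      (Fermat.Agent.S14.helper2613.mem_SUnits.mp hbS w hwS) (hTb w hw)
  obtain ⟨⟨h1, h2⟩, h3⟩ := sUnit_hasse_core hp hdeg hζ hloc hSU hNG S T S' hAb hCG hCG' hunr
    hdisj hT hidx0 hidx
  exact ⟨S, S', fun v hv => hS₀ (Finset.mem_union_left _ (Finset.mem_union_left _ hv)),
    hAb, hCG, hCG', hunr, hSp, hbS, h1, h2, h3⟩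

/-- **Completion-free Hasse norm theorem** for a Galois extension `E / F` of prime degree `p`
with `ζ_p ∈ F`: an element of `Fˣ` which is a local norm at every finite place is a norm. -/
theorem hasseNorm_cf {p : ℕ} (hp : p.Prime) (hdeg : Module.finrank F E = p)
    (hζ : ∃ ζ : F, IsPrimitiveRoot ζ p) (hloc : Stmt_LocalNonNorm F E)
    (hTC : Stmt_TateCount F p) (hSU : Stmt_SUnitNormIndex F E p) (hNG : Stmt_NormGen F E p)
    (hCGE : Stmt_ClassGen E) (b : Fˣ) (hb : ¬ ∃ y : Fˣ, b = y ^ p)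
    (hram : ∃ R : Finset (HeightOneSpectrum (𝓞 F)),
      ∀ v : HeightOneSpectrum (𝓞 F), v ∉ R → v.asIdeal.ramificationIdxIn (𝓞 E) = 1)
    (hsplit : ∀ v : HeightOneSpectrum (𝓞 F), (p : 𝓞 F) ∉ v.asIdeal →
      v.valuation F (b : F) = 1 → LocPow p v b → Split F E v)
    (a : Fˣ) (ha : ∀ v : HeightOneSpectrum (𝓞 F), LocNorm F E v a) :
    a ∈ (normHom F E).range := by
  classical
  obtain ⟨S, S', hS₀, -, -, -, -, -, -, -, -, h3⟩ :=
    exists_good_set hp hdeg hζ hloc hTC hSU hNG hCGE b hb hram hsplit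
      (Fermat.Agent.S14.helper165.finite_ordAt_ne_zero a).toFinset
  have haS : a ∈ SUnits F S := by
    rw [Fermat.Agent.S14.helper2613.mem_SUnits_iff_ordAt]
    intro v hv
    by_contra h
    exact hv (hS₀ ((Set.Finite.mem_toFinset _).mpr h))
  have haΛ : a ∈ locNormS F E S := mem_locNormS.mpr fun v _ => ha v
  obtain ⟨y, -, hy⟩ := h3 ⟨haΛ, haS⟩
  exact ⟨y, hy⟩

end NumberField

end Fermat.Agent.S55.helper8443
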