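/-
S55 moonshot, leaf NF-LOCNORM-COUNT (seat helper4029): the closing adapters.

`E / F` a Galois extension of number fields of odd prime degree `p` with `ζ_p ∈ F`.
From the counting proof `helper4029.exists_not_locNorm` (no completions, no local class field
theory) we get, in every Spec shape on main, the local first inequality (LN)

* `stmt_LocNormProper  : helper1980.Stmt_LocNormProper F E`
* `stmt_LocNonNorm     : helper4783.Stmt_LocNonNorm F E`
* `stmt_LocalNonNorm   : helper8443.Stmt_LocalNonNorm F E`
* `stmt_LocNormProper' : helper3550.Stmt_LocNormProper F E`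

and hence, through `helper4783.hasseNorm_of_locNormProper`, the **Hasse norm theorem**

* `stmt_HasseNorm : helper1980.Stmt_HasseNorm F E`

unconditionally for every such layer.
-/
import Mathlib
import Fermat.Agent.S55.helper4029_LocNormCount
import Fermat.Agent.S55.helper1980_HasseSpec
import Fermat.Agent.S55.helper4783_HasseNorm
import Fermat.Agent.S55.helper4783_HasseNormFinal
import Fermat.Agent.S55.helper8443_HasseNormCF
import Fermat.Agent.S55.helper3550_LocNormIndex

set_option autoImplicit false

namespace Fermat.Agent.S55.helper4029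

section Final

open NumberField IsDedekindDomain HeightOneSpectrum WithZero
open Fermat.Agent.S14.helper165 (normHom Split)

variable (F E : Type) [Field F] [NumberField F] [Field E] [NumberField E] [Algebra F E]
  [IsGalois F E]

/-- **(LN)** in the shape of `helper1980_HasseSpec`. -/
theorem stmt_LocNormProper {p : ℕ} (hp : p.Prime) (hodd : p ≠ 2)
    (hdeg : Module.finrank F E = p) (hζ : ∃ ζ : F, IsPrimitiveRoot ζ p) :
    Fermat.Agent.S55.helper1980.Stmt_LocNormProper F E := by
  intro v hns
  obtain ⟨x, hx⟩ := exists_not_locNorm hp hodd hdeg hζ v hns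
  exact ⟨x, fun h => hx (fun N => h N)⟩

/-- **(LN)** in the shape of `helper4783_HasseNorm`. -/
theorem stmt_LocNonNorm {p : ℕ} (hp : p.Prime) (hodd : p ≠ 2)
    (hdeg : Module.finrank F E = p) (hζ : ∃ ζ : F, IsPrimitiveRoot ζ p) :
    Fermat.Agent.S55.helper4783.Stmt_LocNonNorm F E := by
  intro v hns
  obtain ⟨x, hx⟩ := exists_not_locNorm hp hodd hdeg hζ v hns
  exact ⟨x, fun h => hx (fun N => h N)⟩

/-- **(LN)** in the shape of `helper8443_HasseNormCF`. -/
theorem stmt_LocalNonNorm {p : ℕ} (hp : p.Prime) (hodd : p ≠ 2)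
    (hdeg : Module.finrank F E = p) (hζ : ∃ ζ : F, IsPrimitiveRoot ζ p) :
    Fermat.Agent.S55.helper8443.Stmt_LocalNonNorm F E := by
  intro v hns
  obtain ⟨x, hx⟩ := exists_not_locNorm hp hodd hdeg hζ v hns
  exact ⟨x, fun h => hx (fun N => h N)⟩

/-- **(LN)** in the shape of `helper3550_LocNormIndex`. -/
theorem stmt_LocNormProper' {p : ℕ} (hp : p.Prime) (hodd : p ≠ 2)
    (hdeg : Module.finrank F E = p) (hζ : ∃ ζ : F, IsPrimitiveRoot ζ p) :
    Fermat.Agent.S55.helper3550.Stmt_LocNormProper F E := by
  intro v hns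
  obtain ⟨x, hx⟩ := exists_not_locNorm hp hodd hdeg hζ v hns
  exact ⟨x, fun h => hx (fun N => h N)⟩

/-- **Hasse norm theorem** for a Galois extension `E / F` of number fields of odd prime degree
`p` with `ζ_p ∈ F`: an element of `Fˣ` which is a (completion-free) local norm at every finite
place is a global norm.  Unconditional. -/
theorem stmt_HasseNorm {p : ℕ} (hp : p.Prime) (hodd : p ≠ 2)
    (hdeg : Module.finrank F E = p) (hζ : ∃ ζ : F, IsPrimitiveRoot ζ p) :
    Fermat.Agent.S55.helper1980.Stmt_HasseNorm F E :=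
  Fermat.Agent.S55.helper4783.hasseNorm_of_locNormProper F E hp hodd hdeg hζ
    (stmt_LocNormProper F E hp hodd hdeg hζ)

/-- The Hasse norm theorem, raw form: if for every finite place `v` and every precision `N`
there is `y ∈ Eˣ` with `ord_v (a / N_{E/F} y - 1) ≥ N`, then `a` is a norm from `E`. -/
theorem hasse_norm_raw {p : ℕ} (hp : p.Prime) (hodd : p ≠ 2)
    (hdeg : Module.finrank F E = p) (hζ : ∃ ζ : F, IsPrimitiveRoot ζ p) (a : Fˣ)
    (ha : ∀ (v : HeightOneSpectrum (𝓞 F)) (N : ℕ), ∃ y : Eˣ,
      v.valuation F ((a : F) / ((normHom F E y : Fˣ) : F) - 1) ≤ exp (-(N : ℤ))) :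
    ∃ y : Eˣ, normHom F E y = a :=
  stmt_HasseNorm F E hp hodd hdeg hζ a (fun v N => ha v N)

end Final

end Fermat.Agent.S55.helper4029
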