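/-
S55 (Poitou–Tate): EXPORT FILE (captain helper4075).

Every `Prop` of the S55 ledger (`helper2945_Integration`) as an UNCONDITIONAL named theorem,
and the squeeze EQUALITIES on the frozen carriers, for consumers in other projects
(S56 Greenberg–Wiles count, Selmer counts, ...).  Nothing here is used by
`Fermat/Agent/S55.lean`; this file only re-exports what its closure proves.

Notation (all from `helper2945_SoftSpec`): `GQ`, `IsSMod S M`, `dualT M = M.dualTwist (cycloChar p)`,
`h0 M`, `h1 S M`, `h2 S M`, `a1 S M = dim Ш¹_S`, `a2 S M = dim Ш²_S`, `r1`, `r2` (ranks of the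
localisation maps), `pi0`, `pi1`, `pi2` (sums over `q ∈ S` of the local dimensions).

* `theFrontier`         : the two roots (Hasse principle [G-H], weak reciprocity [G-R]).
* `stmt_*`              : the closed Props (`Stmt_Fin`, `Stmt_A`, `Stmt_B`, `Stmt_C`, `Stmt_E`,
                          `Stmt_L2num`, `helper15.Stmt_R`, `helper665.Stmt_LocalL2`,
                          `helper1919.Stmt_GH`, the field layer, ...).
* `a2_eq_a1_dual`       : `a₂(M) = a₁(M')`, `a₂(M') = a₁(M)`.
* `r2_add_h0_dual`      : `r₂(M) + h⁰(M') = π₂(M)`, `r₂(M') + h⁰(M) = π₂(M')`.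
* `r1_add_r1_dual`      : `r₁(M) + r₁(M') = π₁(M)` (the two global images are EXACT annihilators
                          of each other under the sum of the local Tate pairings).
* `euler_char_eq`       : `χ(M) + χ(M') = ∑_{q ∈ S} χ_q(M)`, written without subtraction.
* `finite_*`            : finite-dimensionality of `H¹(G_S, -)`, `H²(G_S, -)` for `M` and `M'`.
-/
import Mathlib
import Fermat.Agent.S55.helper2945_Integration
import Fermat.Agent.S55.helper1242_LayerNorm
import Fermat.Agent.S55.helper4969_GRClose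

set_option autoImplicit false

namespace Fermat.Agent.S55.helper4075

open CategoryTheory Module groupCohomology ExtCitation
open Fermat.Agent.S55.helper2945

/-! ### The roots and the closed Props -/

/-- The frontier of the S55 ledger is inhabited: both roots are theorems. -/
theorem theFrontier : Frontier :=
  ⟨helper1242.stmt_ShaHasse, helper4969.stmt_GRAll_of_shaHasse helper1242.stmt_ShaHasse⟩

/-- [G-H] Hasse principle for `μ_p`-valued `S`-level 2-cocycles. -/
theorem stmt_ShaHasse : helper9826.Stmt_ShaHasse := theFrontier.shaHasse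

/-- [G-R] weak reciprocity over `ℚ`. -/
theorem stmt_GRAll : helper1809.Stmt_GRAll := theFrontier.grAll

/-- [G-H], kernel-class form. -/
theorem stmt_GH : helper1919.Stmt_GH := theFrontier.stmt_GH

/-- [LOC] the local duality package. -/
theorem stmt_LocalL2 : helper665.Stmt_LocalL2 := localL2

/-- [G-R] an injective invariant system with the sum formula. -/
theorem stmt_R : helper15.Stmt_R := theFrontier.stmt_R

theorem stmt_FieldSha2Fin : helper1702.Stmt_FieldSha2Fin := theFrontier.stmt_FieldSha2Fin

theorem stmt_FieldFin : helper3071.Stmt_FieldFin := theFrontier.stmt_FieldFin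

theorem stmt_FieldLower : helper3071.Stmt_FieldLower := theFrontier.stmt_FieldLower

theorem stmt_FieldUpper : helper3071.Stmt_FieldUpper :=
  helper324.stmt_FieldUpper_of stmt_FieldFin

theorem stmt_FieldGE : helper3071.Stmt_FieldGE := theFrontier.stmt_FieldGE

theorem stmt_Fin : Stmt_Fin := theFrontier.stmt_Fin

theorem stmt_FinOne : Stmt_FinOne := theFrontier.stmt_FinOne

theorem stmt_L2num : Stmt_L2num := helper2945.stmt_L2num

theorem stmt_A : Stmt_A := theFrontier.stmt_A

theorem stmt_B : Stmt_B := theFrontier.stmt_B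

theorem stmt_C : Stmt_C := theFrontier.stmt_C

theorem stmt_E : Stmt_E := theFrontier.stmt_E

theorem stmt_EStarBase : helper613.Stmt_EStarBase := theFrontier.stmt_EStarBase

/-- The numerical form of S55. -/
theorem stmt_FinrankEq : helper235.Stmt_FinrankEq :=
  stmt_FinrankEq_of stmt_Fin stmt_A stmt_B stmt_C stmt_L2num stmt_E

/-! ### The squeeze equalities -/

section Equalities

variable {p : ℕ} [Fact p.Prime] (hp2 : p ≠ 2) (S : Finset Nat.Primes) (hpS : pPrime p ∈ S)
  (M : Rep.{0, 0, 0} (ZMod p) GQ) (hM : IsSMod S M)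

include hp2 hpS hM

/-- Finite-dimensionality of the global cohomology of `M` and of `M'`. -/
theorem finite_global :
    FiniteDimensional (ZMod p) (continuousH1S S M) ∧
      FiniteDimensional (ZMod p) (continuousH2S S M) ∧
      FiniteDimensional (ZMod p) (continuousH1S S (dualT M)) ∧
      FiniteDimensional (ZMod p) (continuousH2S S (dualT M)) :=
  stmt_Fin hp2 S hpS M hM

/-- **Poitou–Tate, numerical form**: `a₂(M) = a₁(M')` and `a₂(M') = a₁(M)`. -/
theorem a2_eq_a1_dual : a2 S M = a1 S (dualT M) ∧ a2 S (dualT M) = a1 S M :=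
  helper2945.a2_eq_a1_dual stmt_Fin stmt_A stmt_B stmt_C stmt_L2num stmt_E hp2 S hpS M hM

/-- **Step B**: `r₂(M) + h⁰(M') = π₂(M)` and `r₂(M') + h⁰(M) = π₂(M')` (the cokernel of the
localisation map on `H²` is dual to `H⁰` of the twisted dual). -/
theorem r2_add_h0_dual :
    r2 S M + h0 (dualT M) = pi2 S M ∧ r2 S (dualT M) + h0 M = pi2 S (dualT M) :=
  stmt_B hp2 S hpS M hM

/-- Numerical local duality: `π₂(M') = π₀(M)`. -/
theorem pi2_dual_eq_pi0 : pi2 S (dualT M) = pi0 S M := stmt_L2num hp2 S hpS M hM

/-- **Step C is tight**: `r₁(M) + r₁(M') = π₁(M)`; with the orthogonality of the two global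
images under the sum of the local Tate pairings this says that they are exact annihilators of
each other (middle exactness of the Poitou–Tate sequence). -/
theorem r1_add_r1_dual : r1 S M + r1 S (dualT M) = pi1 S M := by
  obtain ⟨f1, f2, f3, f4⟩ := stmt_Fin hp2 S hpS M hM
  obtain ⟨hA1, hA2⟩ := stmt_A hp2 S hpS M hM
  obtain ⟨hB1, hB2⟩ := stmt_B hp2 S hpS M hM
  have hC' := stmt_C hp2 S hpS M hM
  have hL' := stmt_L2num hp2 S hpS M hM
  have hE' := stmt_E hp2 S hpS M hM
  have e1 := a1_add_r1 S M
  have e2 := a2_add_r2 S M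
  have e3 := a1_add_r1 S (dualT M)
  have e4 := a2_add_r2 S (dualT M)
  omega

/-- **Step E is tight** (global Euler characteristic, pair form):
`χ(M) + χ(M') = ∑_{q ∈ S} χ_q(M)`, i.e.
`h⁰ + h² + h⁰' + h²' + π₁ = h¹ + h¹' + π₀ + π₂`. -/
theorem euler_char_eq :
    h0 M + h2 S M + h0 (dualT M) + h2 S (dualT M) + pi1 S M =
      h1 S M + h1 S (dualT M) + pi0 S M + pi2 S M := by
  obtain ⟨f1, f2, f3, f4⟩ := stmt_Fin hp2 S hpS M hM
  obtain ⟨hA1, hA2⟩ := stmt_A hp2 S hpS M hM
  obtain ⟨hB1, hB2⟩ := stmt_B hp2 S hpS M hM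
  have hC' := stmt_C hp2 S hpS M hM
  have hL' := stmt_L2num hp2 S hpS M hM
  have hE' := stmt_E hp2 S hpS M hM
  have e1 := a1_add_r1 S M
  have e2 := a2_add_r2 S M
  have e3 := a1_add_r1 S (dualT M)
  have e4 := a2_add_r2 S (dualT M)
  omega

end Equalities

end Fermat.Agent.S55.helper4075
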