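import Mathlib

/-!
# S55, leaf NF-GE-COUNT (backup copy, helper4153): `(G-E)` by pure counting

Route of `team_s55_chat` #137 (helper8122).  For an `S`-field `K ∋ μ_p` and a Galois
`p`-power-degree `S`-extension `K'/K` of degree `n` with at most `n` places over `S`:

* `(a ≥)` for `K`   : `r + s + c ≤ h¹(K)`           (Kummer + `S`-units, lower bound)
* `(c)`   for `K`   : `a₂(K) ≤ c`                   (`(G-H)`)
* `(a ≤)+(b)` for `K'` : `h¹(K') ≤ n r + s' + h²(K')`  (Kummer upper bound + `Cl_S/p ↪ H²`)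
* `(d)`             : `χ₂(K') ≤ n χ₂(K)`, `χ₂ = 1 - h¹ + h²`
* `(e)`             : `s' ≤ n`

give `s + a₂(K) ≤ h²(K) + 1`, i.e. the total localisation map on `H²(G_{K,S}, μ_p)` has rank
at least `s - 1`.

This file contains the integer core and the abstract (carrier-free) assembly; the
instantiation on the frozen carriers lives in the global-bridge files.
-/

namespace Fermat.Agent.S55.helper4153

/-- **Integer core** of the counting proof of `(G-E)`.
All quantities are natural numbers, `χ₂(K') ≤ n χ₂(K)` is written without subtraction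
(`0 < n` is forced by the hypotheses). -/
theorem ge_count_core {n r s c s' h1K h2K h1K' h2K' a2K : ℕ}
    (hchi : 1 + h2K' + n * h1K ≤ n * (1 + h2K) + h1K')
    (hlow : r + s + c ≤ h1K)
    (hsha : a2K ≤ c)
    (hup : h1K' ≤ n * r + s' + h2K')
    (hs' : s' ≤ n) :
    s + a2K ≤ h2K + 1 := by
  -- `n * h1K < n * (2 + h2K + r)`
  have h1 : n * h1K < n * (2 + h2K + r) := by nlinarith
  have h2 : h1K < 2 + h2K + r := Nat.lt_of_mul_lt_mul_left h1
  omega

/-- Variant with the quotient dimension `h²(K) - a₂(K)` (truncated subtraction). -/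
theorem ge_count_core_sub {n r s c s' h1K h2K h1K' h2K' a2K : ℕ}
    (hchi : 1 + h2K' + n * h1K ≤ n * (1 + h2K) + h1K')
    (hlow : r + s + c ≤ h1K)
    (hsha : a2K ≤ c)
    (hup : h1K' ≤ n * r + s' + h2K')
    (hs' : s' ≤ n) :
    s ≤ (h2K - a2K) + 1 := by
  have := ge_count_core hchi hlow hsha hup hs'
  omega

/-- By-product of the count: `χ₂(K) ≥ -r`, i.e. `h¹(K) ≤ h²(K) + r + 1`. -/
theorem chi2_lower_core {n r s' h1K h2K h1K' h2K' : ℕ}
    (hchi : 1 + h2K' + n * h1K ≤ n * (1 + h2K) + h1K')
    (hup : h1K' ≤ n * r + s' + h2K')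
    (hs' : s' ≤ n) :
    h1K ≤ h2K + r + 1 := by
  have h1 : n * h1K < n * (2 + h2K + r) := by nlinarith
  have h2 : h1K < 2 + h2K + r := Nat.lt_of_mul_lt_mul_left h1
  omega

/-- **Abstract assembly** of `(G-E)` by counting, for an arbitrary type `Fld` of "fields" with
`ℕ`-valued invariants.  `good` is the class of `S`-fields containing `μ_p`; `tower K K' n`
says that `K'/K` is a Galois `S`-extension of `p`-power degree `n`.

Hypotheses (each quantified over the good fields only):
* `hcount` : `(a ≥)` and `(c)` with an existential class-group rank `c` (shape of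
  `Stmt_FieldCount`);
* `hupper` : `(a ≤) + (b)` in the `c`-free form `h¹ ≤ r + s + h²`;
* `hchi`   : `χ₂` is submultiplicative along `tower`;
* `hdeg`   : `r(K') = n r(K)` along `tower`;
* `htower` : every good field has a good tower with at most `n` places over `S`. -/
theorem ge_count_abstract {Fld : Type*} (good : Fld → Prop) (tower : Fld → Fld → ℕ → Prop)
    (r s h1 h2 a2 : Fld → ℕ)
    (hcount : ∀ K, good K → ∃ c, r K + s K + c ≤ h1 K ∧ a2 K ≤ c)
    (hupper : ∀ K, good K → h1 K ≤ r K + s K + h2 K)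
    (hchi : ∀ K K' n, good K → good K' → tower K K' n →
      1 + h2 K' + n * h1 K ≤ n * (1 + h2 K) + h1 K')
    (hdeg : ∀ K K' n, good K → good K' → tower K K' n → r K' = n * r K)
    (htower : ∀ K, good K → ∃ K' n, good K' ∧ tower K K' n ∧ s K' ≤ n)
    (K : Fld) (hK : good K) :
    s K + a2 K ≤ h2 K + 1 := by
  obtain ⟨c, hlow, hsha⟩ := hcount K hK
  obtain ⟨K', n, hK', ht, hs'⟩ := htower K hK
  have hup := hupper K' hK'
  rw [hdeg K K' n hK hK' ht] at hup
  exact ge_count_core (hchi K K' n hK hK' ht) hlow hsha hup hs'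

end Fermat.Agent.S55.helper4153
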