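import Mathlib
import Fermat.Prelude.Def_GroupCohomology_ContinuousUnramified
import Fermat.Agent.S55.helper3071_GlobalBridge
import Fermat.Agent.S55.helper4727_Places
import Fermat.Agent.S55.helper8845_CycloTower
import Fermat.Agent.S55.helper4039_SField

/-!
# S55, leaf GB-TOWER (helper4153): the cyclotomic tower on the global-bridge carrier

`helper3071.Stmt_Tower`: every `S`-field `K ∋ μ_p` (`p` odd, `p ∈ S`) has a Galois `S`-extension
`K' = K(ζ_{p^j})` of `p`-power degree `p^t` with at most `p^t` places above `S`.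

The count is done by **orbit counting** on the frozen Galois groups (no ideals, no `∑ e f`):

* `card_doubleCoset_mul_le_index`: if `H ≤ M`, `M` normal, and `D` contains `d` elements
  pairwise distinct modulo `M`, then `#(H \ G / D) * d ≤ [G : H]`.
* For `q ∈ S` the decomposition group `D_q` contains, for every `m₀(q) ≤ m < j`, an element
  fixing `μ_{p^m}` and moving every primitive `p^(m+1)`-th root of unity
  (`helper8845.exists_global_cyclo_step`); these `j - m₀(q)` elements are pairwise distinct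
  modulo `M = Gal(ℚ̄/ℚ(ζ_{p^j}))`.
* `helper4727.sum_card_doubleCoset` turns the double-coset count into the prime count `nPl`.
-/

set_option autoImplicit false

namespace Fermat.Agent.S55.helper4153

open IntermediateField

local notation "Qb" => AlgebraicClosure ℚ
local notation "GQ" => (AlgebraicClosure ℚ ≃ₐ[ℚ] AlgebraicClosure ℚ)

/-- **Orbit counting for double cosets.**  Let `H ≤ M ≤ G` with `M` normal, `H` of finite
index, and let `D` be a subgroup containing `d` elements which are pairwise distinct modulo `M`.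
Then `#(H \ G / D) * d ≤ [G : H]`. -/
theorem card_doubleCoset_mul_le_index {G : Type*} [Group G] (H M D : Subgroup G) [M.Normal]
    (hHM : H ≤ M) [H.FiniteIndex] {d : ℕ} (δ : Fin d → G) (hδD : ∀ i, δ i ∈ D)
    (hδ : ∀ i k, (δ i)⁻¹ * δ k ∈ M → i = k) :
    Nat.card (DoubleCoset.Quotient (H : Set G) (D : Set G)) * d ≤ H.index := by
  classical
  let Φ : DoubleCoset.Quotient (H : Set G) (D : Set G) × Fin d → G ⧸ H :=
    fun x => ((δ x.2 * (x.1.out)⁻¹ : G) : G ⧸ H)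
  have hΦ : Function.Injective Φ := by
    rintro ⟨x, i⟩ ⟨y, k⟩ hxy
    simp only [Φ] at hxy
    rw [QuotientGroup.eq] at hxy
    have h1 : x.out * (δ i)⁻¹ * δ k * (y.out)⁻¹ ∈ H := by
      have : (δ i * (x.out)⁻¹)⁻¹ * (δ k * (y.out)⁻¹) = x.out * (δ i)⁻¹ * δ k * (y.out)⁻¹ := by
        group
      rwa [this] at hxy
    have hxy' : x = y := by
      rw [← DoubleCoset.out_eq' H D x, ← DoubleCoset.out_eq' H D y, DoubleCoset.eq]
      refine ⟨(x.out * (δ i)⁻¹ * δ k * (y.out)⁻¹)⁻¹, H.inv_mem h1, (δ i)⁻¹ * δ k,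
        D.mul_mem (D.inv_mem (hδD i)) (hδD k), ?_⟩
      group
    subst hxy'
    have h2 : (δ i)⁻¹ * δ k ∈ M := by
      have h3 : x.out * (δ i)⁻¹ * δ k * (x.out)⁻¹ ∈ M := hHM h1
      have h4 := ‹M.Normal›.conj_mem _ h3 (x.out)⁻¹
      have : (x.out)⁻¹ * (x.out * (δ i)⁻¹ * δ k * (x.out)⁻¹) * (x.out)⁻¹⁻¹ = (δ i)⁻¹ * δ k := by
        group
      rwa [this] at h4
    rw [hδ i k h2]
  have hfin : Finite (G ⧸ H) := Subgroup.finite_quotient_of_finiteIndex
  have hcard := Nat.card_le_card_of_injective Φ hΦ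
  rw [Nat.card_prod, Nat.card_fin] at hcard
  rwa [Subgroup.index_eq_card]

/-- `σ` fixes `ℚ(ξ)` iff it fixes `ξ`. -/
theorem mem_fixingSubgroup_adjoin_simple_iff (ξ : Qb) (σ : GQ) :
    σ ∈ (ℚ⟮ξ⟯ : IntermediateField ℚ Qb).fixingSubgroup ↔ σ ξ = ξ := by
  constructor
  · intro h
    exact (IntermediateField.mem_fixingSubgroup_iff _ σ).1 h ξ (mem_adjoin_simple_self ℚ ξ)
  · intro h
    refine helper4039.mem_fixingSubgroup_adjoin fun x hx => ?_
    rw [Set.mem_singleton_iff] at hx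
    rw [hx, h]

/-- The fixing subgroup of a cyclotomic field is normal. -/
theorem normal_fixingSubgroup_adjoin_root {n : ℕ} [NeZero n] {ξ : Qb} (hξ : IsPrimitiveRoot ξ n) :
    ((ℚ⟮ξ⟯ : IntermediateField ℚ Qb).fixingSubgroup).Normal := by
  constructor
  intro σ hσ g
  rw [mem_fixingSubgroup_adjoin_simple_iff] at hσ ⊢
  obtain ⟨a, -, ha⟩ := hξ.eq_pow_of_pow_eq_one
    (show (g⁻¹ ξ) ^ n = 1 by rw [← map_pow, hξ.pow_eq_one, map_one])
  show g (σ (g⁻¹ ξ)) = ξ
  rw [← ha, map_pow, hσ, ha]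
  exact AlgEquiv.apply_symm_apply g ξ

/-- A unit of `ZMod (p ^ j)` congruent to `1` modulo `p` has `p`-power order. -/
theorem units_pow_eq_one_of_val_modEq_one {p j : ℕ} (hj : 1 ≤ j) [NeZero (p ^ j)]
    (u : (ZMod (p ^ j))ˣ) (h : (u : ZMod (p ^ j)).val ≡ 1 [MOD p]) : u ^ p ^ (j - 1) = 1 := by
  set a := (u : ZMod (p ^ j)).val with ha
  have h1 : (p : ℤ) ∣ (a : ℤ) - 1 := by
    have := (Nat.modEq_iff_dvd.1 h.symm)
    simpa using this
  have h2 := dvd_sub_pow_of_dvd_sub h1 (j - 1)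
  rw [Nat.sub_add_cancel hj, one_pow] at h2
  have h3 : ((a : ℤ) ^ p ^ (j - 1) - 1 : ℤ) = ((a ^ p ^ (j - 1) : ℕ) : ℤ) - 1 := by push_cast; ring
  have h4 : ((a ^ p ^ (j - 1) : ℕ) : ZMod (p ^ j)) = 1 := by
    have h5 : (((a : ℤ) ^ p ^ (j - 1) - 1 : ℤ) : ZMod (p ^ j)) = 0 := by
      rw [ZMod.intCast_zmod_eq_zero_iff_dvd]
      exact_mod_cast h2
    push_cast at h5 ⊢
    exact sub_eq_zero.1 h5
  apply Units.ext
  rw [Units.val_pow_eq_pow_val, Units.val_one]
  have h6 : ((a : ℕ) : ZMod (p ^ j)) = (u : ZMod (p ^ j)) := by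
    rw [ha, ZMod.natCast_val, ZMod.cast_id', id]
  rw [← h6]
  exact_mod_cast h4

/-- If `g⁻¹ * h` fixes `ℚ(ξ)` then `g` and `h` agree on powers of `ξ`. -/
theorem apply_pow_eq_of_inv_mul_mem {ξ : Qb} {g h : GQ}
    (hgh : g⁻¹ * h ∈ (ℚ⟮ξ⟯ : IntermediateField ℚ Qb).fixingSubgroup) (e : ℕ) :
    h (ξ ^ e) = g (ξ ^ e) := by
  rw [mem_fixingSubgroup_adjoin_simple_iff] at hgh
  have h1 : g (g⁻¹ (h ξ)) = h ξ := AlgEquiv.apply_symm_apply g (h ξ)
  have h2 : g⁻¹ (h ξ) = ξ := hgh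
  rw [h2] at h1
  rw [map_pow, map_pow, h1]

/-- **The cyclotomic tower, explicit form.**  For an `S`-field `K` containing a primitive `p`-th
root of unity (`p` odd, `p ∈ S`) there is `K' = K(ζ_{p^j})`, unramified outside `S`, with
`Gal(ℚ̄/K')` normal of index `p^t` in `Gal(ℚ̄/K)` and at most `p^t` primes above `S`. -/
theorem exists_tower {p : ℕ} (hp : p.Prime) (hp2 : p ≠ 2) (S : Finset Nat.Primes)
    (hpS : ∃ q ∈ S, ((q : Nat.Primes) : ℕ) = p) (K : IntermediateField ℚ Qb)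
    (hK : K.IsUnramifiedOutside S) {ζ : Qb} (hζK : ζ ∈ K) (hζ : IsPrimitiveRoot ζ p) :
    ∃ (K' : IntermediateField ℚ Qb) (t : ℕ), K ≤ K' ∧ K'.IsUnramifiedOutside S ∧
      (K'.fixingSubgroup.subgroupOf K.fixingSubgroup).Normal ∧
      (K'.fixingSubgroup.subgroupOf K.fixingSubgroup).index = p ^ t ∧
      helper3071.nPl S K' ≤ p ^ t := by
  classical
  have : Fact p.Prime := ⟨hp⟩
  have : NeZero p := ⟨hp.ne_zero⟩
  have hKfd : FiniteDimensional ℚ K := hK.1
  have : Algebra.IsAlgebraic ℚ Qb := AlgebraicClosure.isAlgebraic ℚ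
  have : IsAlgClosure ℚ Qb := ⟨inferInstance, inferInstance⟩
  have : Normal ℚ Qb := IsAlgClosure.normal ℚ Qb
  have hGal : IsGalois ℚ Qb := ⟨⟩
  -- the local tower steps at every prime
  have hstep : ∀ q : Nat.Primes, ∃ m₀ : ℕ, ∀ m, m₀ ≤ m → ∃ δ : GQ,
      δ ∈ (ExtCitation.primeLocalPlace q).decompositionSubgroup ℚ ∧
      (∀ x : Qb, x ^ p ^ m = 1 → δ x = x) ∧
      ∀ x : Qb, IsPrimitiveRoot x (p ^ (m + 1)) → δ x ≠ x := by
    intro q
    have : Fact (q : ℕ).Prime := ⟨q.2⟩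
    obtain ⟨m₀, -, h⟩ := helper8845.exists_global_cyclo_step (q := (q : ℕ)) hp hp2 ⊥
    refine ⟨m₀, fun m hm => ?_⟩
    obtain ⟨τ, -, h1, h2⟩ := h m hm
    exact ⟨localGaloisToGlobal (q : ℕ) τ,
      localGaloisToGlobal_mem_decompositionSubgroup (q : ℕ) τ, h1, h2⟩
  choose m₀ hm₀ using hstep
  choose δ hδD hδfix hδmove using hm₀
  set f := Module.finrank ℚ K with hf
  have hfpos : 0 < f := Module.finrank_pos
  set j := S.sup m₀ + S.card * f + 1 with hj
  have hj1 : 1 ≤ j := by omega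
  have hNZ : NeZero (p ^ j) := ⟨pow_ne_zero _ hp.ne_zero⟩
  have : Fact (1 < p ^ j) := ⟨Nat.one_lt_pow (by omega) hp.one_lt⟩
  obtain ⟨ξ, hξ⟩ : ∃ ξ : Qb, IsPrimitiveRoot ξ (p ^ j) :=
    HasEnoughRootsOfUnity.exists_primitiveRoot Qb (p ^ j)
  set Z : IntermediateField ℚ Qb := ℚ⟮ξ⟯ with hZ
  have hZnormal : Z.fixingSubgroup.Normal := normal_fixingSubgroup_adjoin_root hξ
  have hK'S : (K ⊔ Z).IsUnramifiedOutside S := by
    refine helper4039.isUnramifiedOutside_sup_adjoin_of_pow_eq_one hK (m := p ^ j)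
      (fun q hq => ?_) hξ.pow_eq_one
    obtain ⟨q₀, hq₀S, hq₀⟩ := hpS
    have h1 : (q : ℕ) = p := (Nat.prime_dvd_prime_iff_eq q.2 hp).1 (q.2.dvd_of_dvd_pow hq)
    have h2 : q = q₀ := Subtype.ext (h1.trans hq₀.symm)
    rwa [h2]
  have hsup : (K ⊔ Z).fixingSubgroup = K.fixingSubgroup ⊓ Z.fixingSubgroup :=
    IntermediateField.fixingSubgroup_sup
  have hle : (K ⊔ Z).fixingSubgroup ≤ K.fixingSubgroup := hsup ▸ inf_le_left
  have hleZ : (K ⊔ Z).fixingSubgroup ≤ Z.fixingSubgroup := hsup ▸ inf_le_right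
  -- the cyclotomic character modulo `p ^ j`
  let χ : GQ →* (ZMod (p ^ j))ˣ := hξ.autToPow ℚ
  have hχ : ∀ σ : GQ, ξ ^ ((χ σ : ZMod (p ^ j)).val) = σ ξ := fun σ => hξ.autToPow_spec ℚ σ
  have hχker : ∀ σ : GQ, χ σ = 1 ↔ σ ξ = ξ := by
    intro σ
    constructor
    · intro h
      have h1 := hχ σ
      rw [h, Units.val_one, ZMod.val_one, pow_one] at h1
      exact h1.symm
    · intro h
      have h1 := hχ σ
      rw [h] at h1
      have h2 : ξ ^ ((χ σ : ZMod (p ^ j)).val) = ξ ^ 1 := by rw [h1, pow_one]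
      have h3 := (helper8845.isPrimitiveRoot_pow_eq_pow_iff hξ hNZ.out _ _).1 h2
      apply Units.ext
      rw [Units.val_one]
      have h4 : (((χ σ : ZMod (p ^ j)).val : ℕ) : ZMod (p ^ j)) = ((1 : ℕ) : ZMod (p ^ j)) :=
        (ZMod.natCast_eq_natCast_iff _ _ _).2 h3
      rwa [ZMod.natCast_val, ZMod.cast_id', id, Nat.cast_one] at h4
  let φ : ↥K.fixingSubgroup →* (ZMod (p ^ j))ˣ := χ.comp K.fixingSubgroup.subtype
  have hker : (K ⊔ Z).fixingSubgroup.subgroupOf K.fixingSubgroup = φ.ker := by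
    ext σ
    rw [Subgroup.mem_subgroupOf, MonoidHom.mem_ker, hsup, Subgroup.mem_inf]
    show _ ↔ χ (σ : GQ) = 1
    rw [hχker, hZ, mem_fixingSubgroup_adjoin_simple_iff]
    exact ⟨fun h => h.2, fun h => ⟨σ.2, h⟩⟩
  -- `ξ ^ p ^ (j - 1)` is a primitive `p`-th root of unity lying in `K`
  have hη : IsPrimitiveRoot (ξ ^ p ^ (j - 1)) p := by
    refine IsPrimitiveRoot.pow (pow_pos hp.pos j) hξ ?_
    rw [← pow_succ, Nat.sub_add_cancel hj1]
  have hηK : ξ ^ p ^ (j - 1) ∈ K := by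
    obtain ⟨i, -, hi⟩ := hζ.eq_pow_of_pow_eq_one hη.pow_eq_one
    rw [← hi]
    exact pow_mem hζK i
  -- the image of `φ` is a `p`-group
  have hpg : IsPGroup p ↥φ.range := by
    rintro ⟨u, σ, rfl⟩
    refine ⟨j - 1, Subtype.ext ?_⟩
    rw [Subgroup.coe_pow, Subgroup.coe_one]
    apply units_pow_eq_one_of_val_modEq_one hj1
    have hσ : (σ : GQ) (ξ ^ p ^ (j - 1)) = ξ ^ p ^ (j - 1) :=
      (IntermediateField.mem_fixingSubgroup_iff K (σ : GQ)).1 σ.2 _ hηK
    have h1 : (ξ ^ p ^ (j - 1)) ^ ((φ σ : ZMod (p ^ j)).val) = (ξ ^ p ^ (j - 1)) ^ 1 := by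
      rw [pow_one, ← pow_mul, mul_comm, pow_mul]
      have := hχ (σ : GQ)
      show (ξ ^ ((χ (σ : GQ) : ZMod (p ^ j)).val)) ^ p ^ (j - 1) = _
      rw [this, ← map_pow, hσ]
    exact (helper8845.isPrimitiveRoot_pow_eq_pow_iff hη hp.ne_zero _ _).1 h1
  obtain ⟨t, ht⟩ := hpg.exists_card_eq
  have hidx : ((K ⊔ Z).fixingSubgroup.subgroupOf K.fixingSubgroup).index = p ^ t := by
    rw [hker, Subgroup.index_ker, ht]
  refine ⟨K ⊔ Z, t, le_sup_left, hK'S, ?_, hidx, ?_⟩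
  · rw [hker]
    exact MonoidHom.normal_ker φ
  -- the count of places
  have hK'fd : FiniteDimensional ℚ ↥(K ⊔ Z) := hK'S.1
  have hidxK : f = K.fixingSubgroup.index :=
    IntermediateField.finrank_eq_fixingSubgroup_index Qb K
  have hidxK' : (K ⊔ Z).fixingSubgroup.index = p ^ t * f := by
    rw [← Subgroup.relIndex_mul_index hle, hidxK, ← hidx]
    rfl
  have : (K ⊔ Z).fixingSubgroup.FiniteIndex :=
    ⟨by rw [hidxK']; exact (Nat.mul_pos (pow_pos hp.pos t) hfpos).ne'⟩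
  have hSpos : 0 < S.card := by
    obtain ⟨q₀, hq₀S, -⟩ := hpS
    exact Finset.card_pos.2 ⟨q₀, hq₀S⟩
  have hq : ∀ q ∈ S, Nat.card (DoubleCoset.Quotient
      (((K ⊔ Z).fixingSubgroup : Subgroup GQ) : Set GQ)
      (((ExtCitation.primeLocalPlace q).decompositionSubgroup ℚ : Subgroup GQ) : Set GQ)) *
        S.card ≤ p ^ t := by
    intro q hqS
    have hm₀q : m₀ q ≤ S.sup m₀ := Finset.le_sup hqS
    set d := j - m₀ q with hd
    have hdge : S.card * f ≤ d := by omega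
    let δ' : Fin d → GQ := fun i => δ q (m₀ q + i) (Nat.le_add_right _ _)
    -- the element `x_a = ξ ^ p ^ (j - (m₀ q + a + 1))` separates `δ' a` from `δ' b`, `a < b`
    have hsep : ∀ a b : Fin d, (a : ℕ) < (b : ℕ) →
        ∃ e : ℕ, δ' b (ξ ^ e) = ξ ^ e ∧ δ' a (ξ ^ e) ≠ ξ ^ e := by
      intro a b hab
      have ha : m₀ q + a + 1 ≤ j := by have := a.2; omega
      refine ⟨p ^ (j - (m₀ q + a + 1)), ?_, ?_⟩
      · apply hδfix q (m₀ q + b) (Nat.le_add_right _ _)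
        rw [← pow_mul, ← pow_add]
        have h1 : j - (m₀ q + a + 1) + (m₀ q + b) = j + (b - a - 1) := by omega
        rw [h1, pow_add, pow_mul, hξ.pow_eq_one, one_pow]
      · apply hδmove q (m₀ q + a) (Nat.le_add_right _ _)
        refine IsPrimitiveRoot.pow (pow_pos hp.pos j) hξ ?_
        rw [← pow_add]
        congr 1
        omega
    have key := card_doubleCoset_mul_le_index (K ⊔ Z).fixingSubgroup Z.fixingSubgroup
      ((ExtCitation.primeLocalPlace q).decompositionSubgroup ℚ) hleZ δ'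
      (fun i => hδD q _ _) (by
        intro a b hab
        by_contra hne
        rcases lt_or_gt_of_ne (fun h => hne (Fin.ext h) : (a : ℕ) ≠ (b : ℕ)) with h | h
        · obtain ⟨e, h1, h2⟩ := hsep a b h
          exact h2 ((apply_pow_eq_of_inv_mul_mem hab e).symm.trans h1)
        · obtain ⟨e, h1, h2⟩ := hsep b a h
          have hab' : (δ' b)⁻¹ * δ' a ∈ Z.fixingSubgroup := by
            have := Z.fixingSubgroup.inv_mem hab
            rwa [mul_inv_rev, inv_inv] at this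
          exact h2 ((apply_pow_eq_of_inv_mul_mem hab' e).symm.trans h1))
    rw [hidxK'] at key
    have h1 : Nat.card (DoubleCoset.Quotient
        (((K ⊔ Z).fixingSubgroup : Subgroup GQ) : Set GQ)
        (((ExtCitation.primeLocalPlace q).decompositionSubgroup ℚ : Subgroup GQ) : Set GQ)) *
          S.card * f ≤ p ^ t * f := by
      rw [mul_assoc]
      exact le_trans (Nat.mul_le_mul_left _ hdge) key
    exact Nat.le_of_mul_le_mul_right h1 hfpos
  have hsum := helper4727.sum_card_doubleCoset (K ⊔ Z) S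
  have hnPl : helper3071.nPl S (K ⊔ Z) * S.card ≤ p ^ t * S.card := by
    unfold helper3071.nPl
    rw [← hsum, Finset.sum_mul, mul_comm (p ^ t)]
    calc ∑ q ∈ S, Nat.card (DoubleCoset.Quotient
          (((K ⊔ Z).fixingSubgroup : Subgroup GQ) : Set GQ)
          (((ExtCitation.primeLocalPlace q).decompositionSubgroup ℚ : Subgroup GQ) : Set GQ)) *
            S.card ≤ ∑ _q ∈ S, p ^ t := Finset.sum_le_sum hq
      _ = S.card * p ^ t := by rw [Finset.sum_const, smul_eq_mul]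
  exact Nat.le_of_mul_le_mul_right hnPl hSpos

/-- **GB-TOWER**: the closed Prop `helper3071.Stmt_Tower`. -/
theorem stmt_Tower : helper3071.Stmt_Tower := by
  intro S p F hF
  obtain ⟨ζ, hζF, hζ⟩ := hF.zeta
  obtain ⟨K', t, hle, hK'S, hnorm, hidx, hnPl⟩ :=
    exists_tower hF.prime hF.odd S hF.mem F hF.unram hζF hζ
  refine ⟨K', t, hK'S, ⟨hle, hnorm, ?_⟩, hnPl⟩
  have : Algebra.IsAlgebraic ℚ Qb := AlgebraicClosure.isAlgebraic ℚ
  have : IsAlgClosure ℚ Qb := ⟨inferInstance, inferInstance⟩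
  have : Normal ℚ Qb := IsAlgClosure.normal ℚ Qb
  have hG : IsGalois ℚ Qb := ⟨⟩
  rw [IntermediateField.finrank_eq_fixingSubgroup_index Qb K',
    IntermediateField.finrank_eq_fixingSubgroup_index Qb F, ← hidx]
  exact (Subgroup.relIndex_mul_index (IntermediateField.fixingSubgroup_antitone hle)).symm

end Fermat.Agent.S55.helper4153
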