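/-
S55 / number-field core (NF), leaf NF-NORM2 (backup copy, seat helper4301):
THE SECOND INEQUALITY IN NORM FORM, completion-free.

`F` a number field containing a primitive `p`-th root of unity (`p` an odd prime), `E / F`
Galois of degree `p`, `R` an ARBITRARY finite set of finite places of `F`.  In the vocabulary of
`helper1980_HasseSpec` (`LocNorm F E v x` : `x` is a norm from `E` at `v`, by approximation):

  `[Fˣ : A_R · B_R] ≤ p`,  `A_R = {x | LocNorm at every v ∉ R}`,  `B_R = {x | LocNorm at every v ∈ R}`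

(= the finite-level form of `[I_F : Fˣ · N(I_E)] ≤ p`), from Tate's count
`helper1892.Stmt_TateCount F p` (S14-M6, second inequality in `p`-th-power form).

Contents.
* `index_inf_sup_le` : abstract index transfer in a commutative group.
* `locNormSubgroup`, `locNormS`, `locNormOutside` : the subgroups.
* `locNorm_of_locPow` (a), `locNorm_of_locPow_gen` (b), `locNorm_of_unit` (c) : local lemmas.
* `exists_kummer_gen` : Kummer generator `α`, `α ^ p = a`, with `N (t - α) = t ^ p - a`.
* `locPowS_sup_eq_top` : weak approximation in the form `locPowS p A ⊔ locPowS p B = ⊤`.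
* `normTwo` : the theorem.
-/
import Mathlib
import Fermat.Agent.S14.helper2613_SUnit
import Fermat.Agent.S14.helper1892_M6Defs
import Fermat.Agent.S14.helper165_FirstIneqSpec
import Fermat.Agent.S14.helper4204_LocalPow
import Fermat.Agent.S14.helper7212_LocalCyclic
import Fermat.Agent.S55.helper1980_HasseSpec

set_option autoImplicit false
set_option linter.unusedSectionVars false

open IsDedekindDomain NumberField WithZero

namespace Fermat.Agent.S55.helper4301

open Fermat.Agent.S14.helper2613 (ordAt SUnits mem_SUnits valuation_unit_ne_zero)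
open Fermat.Agent.S14.helper1892 (LocPowN LocPow ClassGen locPowS mem_locPowS locPowSubgroup
  locPow_mul locPow_inv locPow_pow locPow_one Stmt_TateCount)
open Fermat.Agent.S14.helper165 (normHom)
open Fermat.Agent.S55.helper1980 (LocNormN LocNorm)

noncomputable section

/-! ## 0. Abstract index transfer -/

/-- In a commutative group: if `P ⊔ L = ⊤` and `H` has finite index, then `(H ⊓ P) ⊔ L` has
finite index at most `[G : H]`. -/
theorem index_inf_sup_le {G : Type*} [CommGroup G] (H P L : Subgroup G) (hPL : P ⊔ L = ⊤)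
    (hH : H.index ≠ 0) :
    ((H ⊓ P) ⊔ L).index ≠ 0 ∧ ((H ⊓ P) ⊔ L).index ≤ H.index := by
  set X := (H ⊓ P) ⊔ L with hX
  have hXP : X ⊔ P = ⊤ := by
    apply top_unique
    rw [← hPL]
    exact sup_le le_sup_right (le_sup_of_le_left le_sup_right)
  have h1 : X.index = X.relIndex P := by
    rw [← Subgroup.relIndex_top_right, ← hXP, Subgroup.relIndex_sup_left]
  have h2 : X.relIndex P ∣ (H ⊓ P).relIndex P := Subgroup.relIndex_dvd_of_le_left P le_sup_left
  have h3 : (H ⊓ P).relIndex P = H.relIndex P := Subgroup.inf_relIndex_right H P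
  have h4 : H.relIndex P ∣ H.index := Subgroup.relIndex_dvd_index_of_normal H P
  have h5 : X.index ∣ H.index := by
    rw [h1]
    exact (h3 ▸ h2).trans h4
  exact ⟨fun h0 => hH (Nat.eq_zero_of_zero_dvd (h0 ▸ h5)), Nat.le_of_dvd (Nat.pos_of_ne_zero hH) h5⟩

/-! ## 1. Closeness to `1` at a valuation -/

section Close

variable {K : Type*} [Field K] {Γ : Type*} [LinearOrderedCommGroupWithZero Γ] (w : Valuation K Γ)

theorem close_val_eq_one {s : K} {e : Γ} (he : e < 1) (hs : w (s - 1) ≤ e) : w s = 1 := by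
  have := w.map_one_add_of_lt (lt_of_le_of_lt hs he)
  simpa using this

theorem close_mul {s t : K} {e : Γ} (he : e ≤ 1) (hs : w (s - 1) ≤ e) (ht : w (t - 1) ≤ e) :
    w (s * t - 1) ≤ e := by
  have ht1 : w t ≤ 1 := by
    have : t = (t - 1) + 1 := by ring
    rw [this]
    exact (w.map_add _ _).trans (max_le (ht.trans he) (by simp))
  have key : s * t - 1 = (s - 1) * t + (t - 1) := by ring
  rw [key]
  refine w.map_add_le ?_ ht
  rw [map_mul]
  calc w (s - 1) * w t ≤ e * 1 := mul_le_mul' hs ht1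
    _ = e := mul_one e

theorem close_inv {s : K} {e : Γ} (he : e < 1) (hs : w (s - 1) ≤ e) : w (s⁻¹ - 1) ≤ e := by
  have hs1 : w s = 1 := close_val_eq_one w he hs
  have hs0 : s ≠ 0 := by
    rintro rfl
    rw [map_zero] at hs1
    exact zero_ne_one hs1
  have key : s⁻¹ - 1 = -(s - 1) * s⁻¹ := by
    field_simp
    ring
  rw [key, map_mul, map_inv₀, hs1, inv_one, mul_one, Valuation.map_neg]
  exact hs

theorem close_div {s t : K} {e : Γ} (he : e < 1) (hs : w (s - 1) ≤ e) (ht : w (t - 1) ≤ e) :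
    w (s / t - 1) ≤ e := by
  rw [div_eq_mul_inv]
  exact close_mul w he.le hs (close_inv w he ht)

end Close

theorem exp_neg_nat_le_one (N : ℕ) : (WithZero.exp (-(N : ℤ)) : ℤᵐ⁰) ≤ 1 := by
  rw [← WithZero.exp_zero, WithZero.exp_le_exp]
  omega

theorem exp_neg_succ_lt_one' (N : ℕ) : (WithZero.exp (-((N : ℤ) + 1)) : ℤᵐ⁰) < 1 := by
  rw [← WithZero.exp_zero, WithZero.exp_lt_exp]
  omega

theorem exp_neg_succ_le (N : ℕ) :
    (WithZero.exp (-((N : ℤ) + 1)) : ℤᵐ⁰) ≤ WithZero.exp (-(N : ℤ)) := by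
  rw [WithZero.exp_le_exp]
  omega

/-! ## 2. The subgroups of local norms -/

section LocNormGroup

variable (F E : Type) [Field F] [NumberField F] [Field E] [NumberField E] [Algebra F E]

theorem locNorm_one (v : HeightOneSpectrum (𝓞 F)) : LocNorm F E v (1 : Fˣ) :=
  fun N => ⟨1, by simp⟩

variable {F E} in
theorem locNorm_mul {v : HeightOneSpectrum (𝓞 F)} {x x' : Fˣ} (hx : LocNorm F E v x)
    (hx' : LocNorm F E v x') : LocNorm F E v (x * x') := by
  intro N
  obtain ⟨y, hy⟩ := hx N
  obtain ⟨y', hy'⟩ := hx' N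
  refine ⟨y * y', ?_⟩
  have key : ((x * x' : Fˣ) : F) / ((normHom F E (y * y') : Fˣ) : F)
      = ((x : F) / ((normHom F E y : Fˣ) : F)) * ((x' : F) / ((normHom F E y' : Fˣ) : F)) := by
    rw [map_mul]
    push_cast
    rw [mul_div_mul_comm]
  rw [key]
  exact close_mul (v.valuation F) (exp_neg_nat_le_one N) hy hy'

variable {F E} in
theorem locNorm_inv {v : HeightOneSpectrum (𝓞 F)} {x : Fˣ} (hx : LocNorm F E v x) :
    LocNorm F E v x⁻¹ := by
  intro N
  obtain ⟨y, hy⟩ := hx (N + 1)
  refine ⟨y⁻¹, ?_⟩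
  have key : ((x⁻¹ : Fˣ) : F) / ((normHom F E y⁻¹ : Fˣ) : F)
      = ((x : F) / ((normHom F E y : Fˣ) : F))⁻¹ := by
    rw [map_inv]
    push_cast
    rw [inv_div_inv, inv_div]
  rw [key]
  have hy2 : v.valuation F ((x : F) / ((normHom F E y : Fˣ) : F) - 1)
      ≤ WithZero.exp (-((N : ℤ) + 1)) := by
    simpa using hy
  exact (close_inv (v.valuation F) (exp_neg_succ_lt_one' N) hy2).trans (exp_neg_succ_le N)

/-- The subgroup of `Fˣ` of elements that are norms from `E` at `v` (completion-free). -/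
def locNormSubgroup (v : HeightOneSpectrum (𝓞 F)) : Subgroup Fˣ where
  carrier := {x | LocNorm F E v x}
  mul_mem' := fun hx hx' => locNorm_mul hx hx'
  one_mem' := locNorm_one F E v
  inv_mem' := fun hx => locNorm_inv hx

variable {F E} in
@[simp] theorem mem_locNormSubgroup {v : HeightOneSpectrum (𝓞 F)} {x : Fˣ} :
    x ∈ locNormSubgroup F E v ↔ LocNorm F E v x := Iff.rfl

/-- Elements of `Fˣ` which are local norms at every place of the finite set `R`. -/
def locNormS (R : Finset (HeightOneSpectrum (𝓞 F))) : Subgroup Fˣ :=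
  ⨅ v ∈ R, locNormSubgroup F E v

/-- Elements of `Fˣ` which are local norms at every finite place outside the finite set `R`. -/
def locNormOutside (R : Finset (HeightOneSpectrum (𝓞 F))) : Subgroup Fˣ :=
  ⨅ (v : HeightOneSpectrum (𝓞 F)) (_ : v ∉ R), locNormSubgroup F E v

variable {F E} in
theorem mem_locNormS {R : Finset (HeightOneSpectrum (𝓞 F))} {x : Fˣ} :
    x ∈ locNormS F E R ↔ ∀ v ∈ R, LocNorm F E v x := by
  simp [locNormS, Subgroup.mem_iInf]

variable {F E} in
theorem mem_locNormOutside {R : Finset (HeightOneSpectrum (𝓞 F))} {x : Fˣ} :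
    x ∈ locNormOutside F E R ↔ ∀ v, v ∉ R → LocNorm F E v x := by
  simp [locNormOutside, Subgroup.mem_iInf]

variable {F E} in
/-- Global norms are local norms everywhere. -/
theorem locNorm_of_mem_range {v : HeightOneSpectrum (𝓞 F)} {x : Fˣ}
    (hx : x ∈ (normHom F E).range) : LocNorm F E v x := by
  obtain ⟨y, rfl⟩ := hx
  intro N
  exact ⟨y, by simp⟩

variable {F E} in
/-- **(a)** local `p`-th powers are local norms (`[E : F] = p`). -/
theorem locNorm_of_locPow {p : ℕ} (hdeg : Module.finrank F E = p)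
    {v : HeightOneSpectrum (𝓞 F)} {x : Fˣ} (hx : LocPow p v x) : LocNorm F E v x := by
  intro N
  obtain ⟨y, hy⟩ := hx N
  refine ⟨Units.map (algebraMap F E : F →* E) y, ?_⟩
  have key : ((normHom F E (Units.map (algebraMap F E : F →* E) y) : Fˣ) : F) = (y : F) ^ p := by
    show Algebra.norm F (algebraMap F E (y : F)) = (y : F) ^ p
    rw [Algebra.norm_algebraMap, hdeg]
  rw [key]
  exact hy

end LocNormGroup

/-! ## 3. Kummer generator and the norm of `t - α` -/

section Kummer

open Polynomial IntermediateField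

variable {F E : Type} [Field F] [Field E] [Algebra F E] [FiniteDimensional F E]

theorem minpoly_gen_eq {p : ℕ} (hp : 0 < p) (hdeg : Module.finrank F E = p) {α : E} {a : F}
    (hα : α ^ p = algebraMap F E a) (htop : F⟮α⟯ = ⊤) : minpoly F α = X ^ p - C a := by
  have hint : IsIntegral F α := Algebra.IsIntegral.isIntegral α
  have hdvd : minpoly F α ∣ X ^ p - C a := by
    apply minpoly.dvd
    simp [hα]
  have hnd : (minpoly F α).natDegree = p := by
    rw [← IntermediateField.adjoin.finrank hint, htop, IntermediateField.finrank_top', hdeg]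
  exact (eq_of_monic_of_dvd_of_natDegree_le (minpoly.monic hint) (monic_X_pow_sub_C a hp.ne') hdvd
    (by rw [natDegree_X_pow_sub_C, hnd])).symm

theorem charpoly_lmul_gen {p : ℕ} (hp : 0 < p) (hdeg : Module.finrank F E = p) {α : E} {a : F}
    (hα : α ^ p = algebraMap F E a) (htop : F⟮α⟯ = ⊤) :
    (Algebra.lmul F E α).charpoly = X ^ p - C a := by
  have hmin : minpoly F (Algebra.lmul F E α) = X ^ p - C a := by
    rw [minpoly.algHom_eq (Algebra.lmul F E) Algebra.lmul_injective α,
      minpoly_gen_eq hp hdeg hα htop]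
  have hdvd : minpoly F (Algebra.lmul F E α) ∣ (Algebra.lmul F E α).charpoly :=
    LinearMap.minpoly_dvd_charpoly _
  rw [hmin] at hdvd
  exact eq_of_monic_of_dvd_of_natDegree_le (monic_X_pow_sub_C a hp.ne')
    (LinearMap.charpoly_monic _) hdvd
    (by rw [LinearMap.charpoly_natDegree, natDegree_X_pow_sub_C, hdeg])

/-- `N_{E/F} (t - α) = t ^ p - a` for a Kummer generator `α`, `α ^ p = a`, `[E : F] = p`. -/
theorem norm_sub_gen {p : ℕ} (hp : 0 < p) (hdeg : Module.finrank F E = p) {α : E} {a : F}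
    (hα : α ^ p = algebraMap F E a) (htop : F⟮α⟯ = ⊤) (t : F) :
    Algebra.norm F (algebraMap F E t - α) = t ^ p - a := by
  have h1 := LinearMap.eval_charpoly (Algebra.lmul F E α) t
  rw [charpoly_lmul_gen hp hdeg hα htop] at h1
  rw [Algebra.norm_apply, map_sub, AlgHom.commutes, ← h1]
  simp

/-- **Kummer generator**: a Galois extension `E / F` of prime degree `p`, with `ζ_p ∈ F`, is
`F(α)` with `α ^ p = a ∈ Fˣ` not a `p`-th power, and `N (t - α) = t ^ p - a` for `t ∈ F`. -/
theorem exists_kummer_gen [IsGalois F E] {p : ℕ} (hp : p.Prime)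
    (hζ : ∃ ζ : F, IsPrimitiveRoot ζ p) (hdeg : Module.finrank F E = p) :
    ∃ (a : Fˣ) (α : E), (¬ ∃ y : Fˣ, a = y ^ p) ∧ α ^ p = algebraMap F E (a : F) ∧
      ∀ t : F, Algebra.norm F (algebraMap F E t - α) = t ^ p - (a : F) := by
  have := Fact.mk hp
  have : IsCyclic Gal(E/F) :=
    isCyclic_of_prime_card (p := p) (by rw [IsGalois.card_aut_eq_finrank, hdeg])
  obtain ⟨ζ, hζ⟩ := hζ
  have hK : (primitiveRoots (Module.finrank F E) F).Nonempty :=
    ⟨ζ, (mem_primitiveRoots Module.finrank_pos).2 (hdeg.symm ▸ hζ)⟩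
  obtain ⟨α, ⟨a₀, ha₀⟩, htop⟩ := exists_root_adjoin_eq_top_of_isCyclic F E hK
  rw [hdeg] at ha₀
  have hα : α ^ p = algebraMap F E a₀ := ha₀.symm
  have hne1 : Module.finrank F E ≠ 1 := by
    rw [hdeg]
    exact hp.one_lt.ne'
  have hα0 : α ≠ 0 := by
    rintro rfl
    apply hne1
    rw [← IntermediateField.bot_eq_top_iff_finrank_eq_one, ← htop]
    simp
  have ha0 : a₀ ≠ 0 := by
    rintro rfl
    rw [map_zero] at hα
    exact hα0 (pow_eq_zero_iff hp.ne_zero |>.mp hα)
  have hmin := minpoly_gen_eq hp.pos hdeg hα htop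
  have hint : IsIntegral F α := Algebra.IsIntegral.isIntegral α
  refine ⟨Units.mk0 a₀ ha0, α, ?_, hα, norm_sub_gen hp.pos hdeg hα htop⟩
  rintro ⟨y, hy⟩
  have hy' : a₀ = (y : F) ^ p := by
    have := congrArg (fun u : Fˣ => (u : F)) hy
    simpa using this
  have hirr : Irreducible (X ^ p - C a₀ : F[X]) := hmin ▸ minpoly.irreducible hint
  have hroot : IsRoot (X ^ p - C a₀ : F[X]) (y : F) := by
    simp [hy']
  have hd := degree_eq_one_of_irreducible_of_root hirr hroot
  rw [degree_X_pow_sub_C hp.pos] at hd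
  have : p = 1 := by exact_mod_cast hd
  exact hp.one_lt.ne' this

end Kummer

/-! ## 4. Local lemmas (b) and (c) -/

section Local

open Fermat.Agent.S14.helper4204 (ordP locPow_of_valuation_sub_one_le valuation_natCast_eq)

variable {F E : Type} [Field F] [NumberField F] [Field E] [NumberField E] [Algebra F E]

theorem normHom_mk0 (e : E) (he : e ≠ 0) :
    ((normHom F E (Units.mk0 e he) : Fˣ) : F) = Algebra.norm F e := rfl

omit [NumberField E] [Algebra F E] in
/-- If `a` is a local `p`-th power at `v` and `c` is `v`-adically small relative to `a`, then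
`y ^ p - a` approximates `c` multiplicatively, to any precision, for suitable `y ∈ F`. -/
theorem exists_pow_sub_close {p : ℕ} (hp : p.Prime) {a : Fˣ} {v : HeightOneSpectrum (𝓞 F)}
    (ha : LocPow p v a) (c : Fˣ)
    (hc : v.valuation F ((c : F) / (a : F)) ≤ WithZero.exp (-((2 * ordP v p + 1 : ℕ) : ℤ)))
    (N : ℕ) :
    ∃ y : F, y ^ p - (a : F) ≠ 0 ∧
      v.valuation F ((y ^ p - (a : F)) / (c : F) - 1) ≤ WithZero.exp (-((N : ℤ) + 1)) := by
  set w := v.valuation F with hw
  have ha0 : (a : F) ≠ 0 := a.ne_zero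
  have hc0 : (c : F) ≠ 0 := c.ne_zero
  have hlt : w ((c : F) / (a : F)) < 1 := lt_of_le_of_lt hc (by
    rw [← WithZero.exp_zero, WithZero.exp_lt_exp]
    push_cast
    omega)
  have hu1 : w (1 + (c : F) / (a : F)) = 1 := w.map_one_add_of_lt hlt
  have hu0 : (1 + (c : F) / (a : F)) ≠ 0 := by
    intro h
    rw [h, map_zero] at hu1
    exact zero_ne_one hu1
  have hupow : LocPow p v (Units.mk0 _ hu0) := by
    apply locPow_of_valuation_sub_one_le v hp (N := 2 * ordP v p + 1) (by omega)
    simpa using hc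
  have hau : LocPow p v (a * Units.mk0 _ hu0) := locPow_mul ha hupow
  have hD0 : w ((a : F) / (c : F)) ≠ 0 := (Valuation.ne_zero_iff _).mpr (div_ne_zero ha0 hc0)
  obtain ⟨d, hd⟩ : ∃ d : ℤ, w ((a : F) / (c : F)) = WithZero.exp d :=
    ⟨WithZero.log _, (WithZero.exp_log hD0).symm⟩
  obtain ⟨y, hy⟩ := hau (N + d.toNat + 1)
  have hy0 : (y : F) ^ p ≠ 0 := pow_ne_zero _ y.ne_zero
  have hval : ((a * Units.mk0 _ hu0 : Fˣ) : F) = (a : F) + (c : F) := by
    rw [Units.val_mul, Units.val_mk0]
    field_simp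
  rw [hval] at hy
  have hlt1 : (WithZero.exp (-((N + d.toNat + 1 : ℕ) : ℤ)) : ℤᵐ⁰) < 1 := by
    rw [← WithZero.exp_zero, WithZero.exp_lt_exp]
    push_cast
    omega
  have h1δ : w (((a : F) + (c : F)) / (y : F) ^ p) = 1 := close_val_eq_one w hlt1 hy
  have hwY : w ((y : F) ^ p) = w (a : F) := by
    have h2 : w ((a : F) + (c : F)) = w (a : F) := by
      have : (a : F) + (c : F) = (a : F) * (1 + (c : F) / (a : F)) := by field_simp
      rw [this, map_mul, hu1, mul_one]
    rw [map_div₀, h2] at h1δ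
    exact ((div_eq_one_iff_eq ((Valuation.ne_zero_iff _).mpr hy0)).mp h1δ).symm
  have key : ((y : F) ^ p - (a : F)) / (c : F) - 1
      = -((((a : F) + (c : F)) / (y : F) ^ p - 1) * ((y : F) ^ p / (c : F))) := by
    field_simp
    ring
  have hfin : w (((y : F) ^ p - (a : F)) / (c : F) - 1) ≤ WithZero.exp (-((N : ℤ) + 1)) := by
    rw [key, Valuation.map_neg, map_mul, map_div₀ w ((y : F) ^ p), hwY, ← map_div₀, hd]
    calc w (((a : F) + (c : F)) / (y : F) ^ p - 1) * WithZero.exp d
        ≤ WithZero.exp (-((N + d.toNat + 1 : ℕ) : ℤ)) * WithZero.exp d := mul_le_mul_left hy _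
      _ = WithZero.exp (-((N + d.toNat + 1 : ℕ) : ℤ) + d) := (WithZero.exp_add _ _).symm
      _ ≤ WithZero.exp (-((N : ℤ) + 1)) := by
          rw [WithZero.exp_le_exp]
          have := Int.self_le_toNat d
          push_cast
          omega
  refine ⟨y, ?_, hfin⟩
  intro h0
  rw [h0, zero_div, zero_sub, Valuation.map_neg, map_one] at hfin
  exact absurd hfin (not_le.mpr (exp_neg_succ_lt_one' N))

/-- **(b)** if the Kummer generator `a` is a local `p`-th power at `v` ("`v` splits"), EVERY
element of `Fˣ` is a local norm at `v`:  `N ((t₁ - α) / (t₂ - α)) = (t₁ ^ p - a) / (t₂ ^ p - a)`. -/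
theorem locNorm_of_locPow_gen {p : ℕ} (hp : p.Prime) {a : Fˣ} {α : E}
    (hnorm : ∀ t : F, Algebra.norm F (algebraMap F E t - α) = t ^ p - (a : F))
    {v : HeightOneSpectrum (𝓞 F)} (ha : LocPow p v a) (x : Fˣ) : LocNorm F E v x := by
  intro N
  set w := v.valuation F with hw
  obtain ⟨ϖ, hϖ⟩ := v.valuation_exists_uniformizer F
  have hϖ0 : ϖ ≠ 0 := by
    rintro rfl
    rw [map_zero] at hϖ
    exact WithZero.exp_ne_zero hϖ.symm
  obtain ⟨m, hm⟩ : ∃ m : ℤ, w (x : F) = WithZero.exp m :=
    ⟨WithZero.log _, (WithZero.exp_log (valuation_unit_ne_zero v x)).symm⟩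
  set j : ℕ := (2 * ordP v p + 1) + m.toNat with hj
  set c₂ : Fˣ := a * (Units.mk0 ϖ hϖ0) ^ j with hc₂
  set c₁ : Fˣ := x * c₂ with hc₁
  have hwϖj : w (ϖ ^ j) = WithZero.exp (-(j : ℤ)) := by
    rw [map_pow, hϖ, ← WithZero.exp_nsmul]
    simp
  have e₂ : (c₂ : F) / (a : F) = ϖ ^ j := by
    rw [hc₂, Units.val_mul, Units.val_pow_eq_pow_val, Units.val_mk0]
    field_simp
  have e₁ : (c₁ : F) / (a : F) = (x : F) * ϖ ^ j := by
    rw [hc₁, Units.val_mul, mul_div_assoc, e₂]
  have h₂ : w ((c₂ : F) / (a : F)) ≤ WithZero.exp (-((2 * ordP v p + 1 : ℕ) : ℤ)) := by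
    rw [e₂, hwϖj, WithZero.exp_le_exp]
    push_cast [hj]
    omega
  have h₁ : w ((c₁ : F) / (a : F)) ≤ WithZero.exp (-((2 * ordP v p + 1 : ℕ) : ℤ)) := by
    rw [e₁, map_mul, hm, hwϖj, ← WithZero.exp_add, WithZero.exp_le_exp]
    have := Int.self_le_toNat m
    push_cast [hj]
    omega
  obtain ⟨y₁, hy₁0, hy₁⟩ := exists_pow_sub_close hp ha c₁ h₁ N
  obtain ⟨y₂, hy₂0, hy₂⟩ := exists_pow_sub_close hp ha c₂ h₂ N
  have he₁ : algebraMap F E y₁ - α ≠ 0 := by
    intro h
    have := hnorm y₁
    rw [h, Algebra.norm_zero] at this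
    exact hy₁0 this.symm
  have he₂ : algebraMap F E y₂ - α ≠ 0 := by
    intro h
    have := hnorm y₂
    rw [h, Algebra.norm_zero] at this
    exact hy₂0 this.symm
  refine ⟨Units.mk0 _ he₁ / Units.mk0 _ he₂, ?_⟩
  have hN : ((normHom F E (Units.mk0 _ he₁ / Units.mk0 _ he₂) : Fˣ) : F)
      = (y₁ ^ p - (a : F)) / (y₂ ^ p - (a : F)) := by
    rw [map_div, Units.val_div_eq_div_val, normHom_mk0, normHom_mk0, hnorm, hnorm]
  have key : (x : F) / ((y₁ ^ p - (a : F)) / (y₂ ^ p - (a : F)))
      = ((y₂ ^ p - (a : F)) / (c₂ : F)) / ((y₁ ^ p - (a : F)) / (c₁ : F)) := by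
    have hc20 : (c₂ : F) ≠ 0 := c₂.ne_zero
    have hx0 : (x : F) ≠ 0 := x.ne_zero
    rw [hc₁]
    push_cast
    field_simp
  rw [hN, key]
  exact (close_div w (exp_neg_succ_lt_one' N) hy₂ hy₁).trans (exp_neg_succ_le N)

omit [NumberField E] [Algebra F E] in
theorem ordP_eq_zero {p : ℕ} (hp : p ≠ 0) {v : HeightOneSpectrum (𝓞 F)}
    (hvp : (p : 𝓞 F) ∉ v.asIdeal) : ordP v p = 0 := by
  have h1 := Fermat.Agent.S14.helper4204.intValuation_natCast_eq v hp
  have h2 : v.intValuation (p : 𝓞 F) = 1 := HeightOneSpectrum.intValuation_eq_one_iff.mpr hvp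
  rw [h2, ← WithZero.exp_zero, WithZero.exp_inj] at h1
  omega

omit [NumberField E] [Algebra F E] in
/-- Hensel at a place not over `p`: a `p`-th power residue is a local `p`-th power. -/
theorem locPow_of_locPowN_one {p : ℕ} (hp : p.Prime) {v : HeightOneSpectrum (𝓞 F)}
    (hvp : (p : 𝓞 F) ∉ v.asIdeal) {t : Fˣ} (ht : LocPowN p v 1 t) : LocPow p v t := by
  obtain ⟨y, hy⟩ := ht
  have h0 := ordP_eq_zero hp.ne_zero hvp
  have hs : LocPow p v (t * (y ^ p)⁻¹) := by
    apply locPow_of_valuation_sub_one_le v hp (N := 1) (by omega)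
    have : ((t * (y ^ p)⁻¹ : Fˣ) : F) = (t : F) / (y : F) ^ p := by
      push_cast
      rw [div_eq_mul_inv]
    rw [this]
    exact hy
  have : t = (t * (y ^ p)⁻¹) * y ^ p := by simp
  rw [this]
  exact locPow_mul hs (locPow_pow p v y)

/-- **(c)** at a place `v ∤ p` where the Kummer generator `a` is a unit ("`v` unramified"),
every `v`-unit is a local norm. -/
theorem locNorm_of_unit {p : ℕ} (hp : p.Prime) (hodd : p ≠ 2) (hdeg : Module.finrank F E = p)
    {a : Fˣ} {α : E} (hnorm : ∀ t : F, Algebra.norm F (algebraMap F E t - α) = t ^ p - (a : F))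
    {v : HeightOneSpectrum (𝓞 F)} (hvp : (p : 𝓞 F) ∉ v.asIdeal)
    (hav : v.valuation F (a : F) = 1) {u : Fˣ} (huv : v.valuation F (u : F) = 1) :
    LocNorm F E v u := by
  by_cases hres : LocPowN p v 1 a
  · exact locNorm_of_locPow_gen hp hnorm (locPow_of_locPowN_one hp hvp hres) u
  · obtain ⟨k, hk⟩ := Fermat.Agent.S14.helper7212.localCyclic hp v hvp a u hav huv hres
    have h1 : LocNorm F E v (u * a ^ k) :=
      locNorm_of_locPow hdeg (locPow_of_locPowN_one hp hvp hk)
    have hNα : Algebra.norm F α = (a : F) := by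
      have h0 := hnorm 0
      rw [map_zero, zero_sub, zero_pow hp.ne_zero, zero_sub] at h0
      have h2 : Algebra.norm F (-α) = - Algebra.norm F α := by
        have : -α = algebraMap F E (-1) * α := by simp
        rw [this, map_mul, Algebra.norm_algebraMap, hdeg, (hp.odd_of_ne_two hodd).neg_one_pow]
        ring
      rw [h2] at h0
      exact neg_injective h0
    have hα0 : α ≠ 0 := by
      rintro rfl
      rw [Algebra.norm_zero] at hNα
      exact a.ne_zero hNα.symm
    have ha_mem : a ∈ (normHom F E).range :=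
      ⟨Units.mk0 α hα0, Units.ext (by rw [normHom_mk0, hNα])⟩
    have h2 : LocNorm F E v (a ^ k) :=
      locNorm_of_mem_range ((normHom F E).range.pow_mem ha_mem k)
    have : u = (u * a ^ k) * (a ^ k)⁻¹ := by simp
    rw [this]
    exact locNorm_mul h1 (locNorm_inv h2)

end Local

/-! ## 5. Weak approximation: `locPowS p A ⊔ locPowS p B = ⊤` for disjoint `A`, `B` -/

section Approx

open Fermat.Agent.S14.helper4204 (ordP locPow_of_valuation_sub_one_le)

variable {F : Type} [Field F] [NumberField F]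

theorem locPowS_empty (p : ℕ) : locPowS (F := F) p ∅ = ⊤ := by
  simp [locPowS]

theorem int_mem_sup {p : ℕ} (hp : p.Prime) (A B : Finset (HeightOneSpectrum (𝓞 F)))
    (hAB : Disjoint A B) (n : 𝓞 F) (hn : n ≠ 0) (hn' : algebraMap (𝓞 F) F n ≠ 0) :
    Units.mk0 (algebraMap (𝓞 F) F n) hn' ∈ locPowS p A ⊔ locPowS p B := by
  classical
  by_cases hne : (A ∪ B).Nonempty
  swap
  · rw [Finset.not_nonempty_iff_eq_empty, Finset.union_eq_empty] at hne
    rw [hne.1, locPowS_empty]
    exact Subgroup.mem_sup_left (Subgroup.mem_top _)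
  set k : HeightOneSpectrum (𝓞 F) → ℕ := fun v =>
    (Associates.mk v.asIdeal).count (Associates.mk (Ideal.span {n})).factors with hkdef
  have hk : ∀ v : HeightOneSpectrum (𝓞 F), v.intValuation n = WithZero.exp (-(k v : ℤ)) :=
    fun v => v.intValuation_if_neg hn
  obtain ⟨n₁, hn₁⟩ := IsDedekindDomain.exists_forall_sub_mem_ideal (s := A ∪ B)
    (fun v : HeightOneSpectrum (𝓞 F) => v.asIdeal)
    (fun v => 2 * ordP v p + 1 + k v)
    (fun v _ => v.prime)
    (fun v _ w _ hvw h => hvw (HeightOneSpectrum.ext h))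
    (fun v => if (v : HeightOneSpectrum (𝓞 F)) ∈ B then n else 1)
  have hA : ∀ v ∈ A, v.intValuation (n₁ - 1) ≤ WithZero.exp (-((2 * ordP v p + 1 : ℕ) : ℤ)) := by
    intro v hv
    have hvB : v ∉ B := fun h => (Finset.disjoint_left.mp hAB hv) h
    have h1 := hn₁ v (Finset.mem_union_left B hv)
    have h2 : n₁ - 1 ∈ v.asIdeal ^ (2 * ordP v p + 1 + k v) := by
      simpa [hvB] using h1
    exact (v.intValuation_le_pow_iff_mem _ _).mpr (Ideal.pow_le_pow_right (by omega) h2)
  have hB : ∀ v ∈ B, v.intValuation (n₁ - n)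
      ≤ WithZero.exp (-((2 * ordP v p + 1 + k v : ℕ) : ℤ)) := by
    intro v hv
    have h1 := hn₁ v (Finset.mem_union_right A hv)
    have h2 : n₁ - n ∈ v.asIdeal ^ (2 * ordP v p + 1 + k v) := by
      simpa [hv] using h1
    exact (v.intValuation_le_pow_iff_mem _ _).mpr h2
  have hn₁0 : n₁ ≠ 0 := by
    rintro rfl
    obtain ⟨v, hv⟩ := hne
    by_cases hvB : v ∈ B
    · have h1 := hB v hvB
      rw [zero_sub, Valuation.map_neg, hk v, WithZero.exp_le_exp] at h1
      push_cast at h1
      omega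
    · have hvA : v ∈ A := (Finset.mem_union.mp hv).resolve_right hvB
      have h1 := hA v hvA
      rw [zero_sub, Valuation.map_neg, map_one, ← WithZero.exp_zero, WithZero.exp_le_exp] at h1
      push_cast at h1
      omega
  have hn₁' : algebraMap (𝓞 F) F n₁ ≠ 0 := by simpa using hn₁0
  set z : Fˣ := Units.mk0 (algebraMap (𝓞 F) F n₁) hn₁' with hz
  set zn : Fˣ := Units.mk0 (algebraMap (𝓞 F) F n) hn' with hzn
  have hzA : z ∈ locPowS p A := by
    rw [mem_locPowS]
    intro v hv
    apply locPow_of_valuation_sub_one_le v hp (N := 2 * ordP v p + 1) (by omega)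
    have : (z : F) - 1 = algebraMap (𝓞 F) F (n₁ - 1) := by
      rw [hz, Units.val_mk0, map_sub, map_one]
    rw [this, HeightOneSpectrum.valuation_of_algebraMap]
    exact hA v hv
  have hzB : zn * z⁻¹ ∈ locPowS p B := by
    rw [mem_locPowS]
    intro v hv
    have h1 : LocPow p v (z * zn⁻¹) := by
      apply locPow_of_valuation_sub_one_le v hp (N := 2 * ordP v p + 1) (by omega)
      have e1 : ((z * zn⁻¹ : Fˣ) : F) - 1
          = algebraMap (𝓞 F) F (n₁ - n) / algebraMap (𝓞 F) F n := by
        rw [hz, hzn, Units.val_mul, Units.val_inv_eq_inv_val, Units.val_mk0, Units.val_mk0,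
          map_sub]
        field_simp
      rw [e1, map_div₀, HeightOneSpectrum.valuation_of_algebraMap,
        HeightOneSpectrum.valuation_of_algebraMap, hk v]
      calc v.intValuation (n₁ - n) / WithZero.exp (-(k v : ℤ))
          ≤ WithZero.exp (-((2 * ordP v p + 1 + k v : ℕ) : ℤ)) / WithZero.exp (-(k v : ℤ)) := by
            rw [div_eq_mul_inv, div_eq_mul_inv]
            exact mul_le_mul_left (hB v hv) _
        _ = WithZero.exp (-((2 * ordP v p + 1 + k v : ℕ) : ℤ) - (-(k v : ℤ))) :=
            (WithZero.exp_sub _ _).symm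
        _ = WithZero.exp (-((2 * ordP v p + 1 : ℕ) : ℤ)) := by
            congr 1
            push_cast
            ring
    have e2 : zn * z⁻¹ = (z * zn⁻¹)⁻¹ := by
      rw [mul_inv_rev, inv_inv]
    rw [e2]
    exact locPow_inv h1
  have e3 : zn = z * (zn * z⁻¹) := by
    rw [mul_comm zn, mul_inv_cancel_left]
  rw [e3]
  exact Subgroup.mul_mem_sup hzA hzB

/-- **Weak approximation**, in the form used here: for disjoint finite sets of places `A`, `B`
every element of `Fˣ` is a product of an element which is a local `p`-th power at all of `A`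
and one which is a local `p`-th power at all of `B`. -/
theorem locPowS_sup_eq_top {p : ℕ} (hp : p.Prime) (A B : Finset (HeightOneSpectrum (𝓞 F)))
    (hAB : Disjoint A B) : locPowS (F := F) p A ⊔ locPowS p B = ⊤ := by
  rw [eq_top_iff]
  intro x _
  obtain ⟨n, d, hd, hx⟩ := IsFractionRing.div_surjective (A := 𝓞 F) (x : F)
  have hd0 : d ≠ 0 := nonZeroDivisors.ne_zero hd
  have hd0' : algebraMap (𝓞 F) F d ≠ 0 := by simpa using hd0
  have hn0' : algebraMap (𝓞 F) F n ≠ 0 := by
    intro h
    rw [h, zero_div] at hx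
    exact x.ne_zero hx.symm
  have hn0 : n ≠ 0 := by
    rintro rfl
    simp at hn0'
  have hxe : x = Units.mk0 _ hn0' * (Units.mk0 _ hd0')⁻¹ := by
    apply Units.ext
    rw [Units.val_mul, Units.val_inv_eq_inv_val, Units.val_mk0, Units.val_mk0, ← div_eq_mul_inv]
    exact hx.symm
  rw [hxe]
  exact Subgroup.mul_mem _ (int_mem_sup hp A B hAB n hn0 hn0')
    (Subgroup.inv_mem _ (int_mem_sup hp A B hAB d hd0 hd0'))

end Approx

/-! ## 6. The second inequality in norm form -/

section Main

variable (F E : Type) [Field F] [NumberField F] [Field E] [NumberField E] [Algebra F E]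

/-- The core of NORM2, with the Kummer generator as explicit data: from Tate's count for `a`. -/
theorem normTwo_of_gen {p : ℕ} (hp : p.Prime) (hodd : p ≠ 2) (hdeg : Module.finrank F E = p)
    {a : Fˣ} {α : E} (hnp : ¬ ∃ y : Fˣ, a = y ^ p)
    (hnorm : ∀ t : F, Algebra.norm F (algebraMap F E t - α) = t ^ p - (a : F))
    (hTate : Stmt_TateCount F p) (R : Finset (HeightOneSpectrum (𝓞 F))) :
    (locNormOutside F E R ⊔ locNormS F E R).index ≠ 0 ∧
      (locNormOutside F E R ⊔ locNormS F E R).index ≤ p := by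
  classical
  obtain ⟨S, T, hRS, hST, hSp, hCG, haS, hT, hH0, hHp⟩ := hTate a hnp R
  set H : Subgroup Fˣ := locPowS p S ⊔ SUnits F (S ∪ T) with hH
  have hPL : locPowS (F := F) p (S \ R) ⊔ locPowS p R = ⊤ :=
    locPowS_sup_eq_top hp (S \ R) R Finset.sdiff_disjoint
  obtain ⟨hX0, hXle⟩ := index_inf_sup_le H (locPowS p (S \ R)) (locPowS p R) hPL hH0
  have key : (H ⊓ locPowS p (S \ R)) ⊔ locPowS p R
      ≤ locNormOutside F E R ⊔ locNormS F E R := by
    refine sup_le ?_ ?_
    · intro f hf
      obtain ⟨hfH, hfP⟩ := hf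
      obtain ⟨h, hh, u, hu, rfl⟩ := Subgroup.mem_sup.mp hfH
      rw [mem_locPowS] at hh
      have hfP' := mem_locPowS.mp hfP
      have huA : u ∈ locNormOutside F E R := by
        rw [mem_locNormOutside]
        intro v hvR
        by_cases hvS : v ∈ S
        · have h1 : LocPow p v (h * u) := hfP' v (Finset.mem_sdiff.mpr ⟨hvS, hvR⟩)
          have h2 : LocPow p v (h⁻¹ * (h * u)) := locPow_mul (locPow_inv (hh v hvS)) h1
          rw [inv_mul_cancel_left] at h2
          exact locNorm_of_locPow hdeg h2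
        · by_cases hvT : v ∈ T
          · exact locNorm_of_locPow_gen hp hnorm (hT v hvT) u
          · have hvp : (p : 𝓞 F) ∉ v.asIdeal := fun hmem => hvS (hSp v hmem)
            have hav : v.valuation F (a : F) = 1 := (mem_SUnits.mp haS) v hvS
            have huv : v.valuation F (u : F) = 1 :=
              (mem_SUnits.mp hu) v (by
                intro hmem
                rcases Finset.mem_union.mp hmem with h | h
                · exact hvS h
                · exact hvT h)
            exact locNorm_of_unit hp hodd hdeg hnorm hvp hav huv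
      have hhB : h ∈ locNormS F E R := by
        rw [mem_locNormS]
        intro v hvR
        exact locNorm_of_locPow hdeg (hh v (hRS hvR))
      rw [mul_comm]
      exact Subgroup.mul_mem_sup huA hhB
    · intro x hx
      refine Subgroup.mem_sup_right ?_
      rw [mem_locNormS]
      intro v hvR
      exact locNorm_of_locPow hdeg (mem_locPowS.mp hx v hvR)
  have hdvd := Subgroup.index_dvd_of_le key
  refine ⟨fun h0 => hX0 (Nat.eq_zero_of_zero_dvd (h0 ▸ hdvd)), ?_⟩
  exact (Nat.le_of_dvd (Nat.pos_of_ne_zero hX0) hdvd).trans (hXle.trans hHp)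

/-- **NF-NORM2, the second inequality in norm form** (completion-free).  `F ∋ ζ_p`, `p` odd,
`E / F` Galois of degree `p`, `R` an arbitrary finite set of finite places of `F`:
the subgroup generated by the elements which are local norms at every place outside `R` and the
elements which are local norms at every place of `R` has finite index at most `p` in `Fˣ`. -/
theorem normTwo [IsGalois F E] (p : ℕ) (hp : p.Prime) (hodd : p ≠ 2)
    (hζ : ∃ ζ : F, IsPrimitiveRoot ζ p) (hdeg : Module.finrank F E = p)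
    (hTate : Stmt_TateCount F p) (R : Finset (HeightOneSpectrum (𝓞 F))) :
    (locNormOutside F E R ⊔ locNormS F E R).index ≠ 0 ∧
      (locNormOutside F E R ⊔ locNormS F E R).index ≤ p := by
  have : FiniteDimensional F E := Module.finite_of_finrank_pos (by rw [hdeg]; exact hp.pos)
  obtain ⟨a, α, hnp, -, hnorm⟩ := exists_kummer_gen hp hζ hdeg
  exact normTwo_of_gen F E hp hodd hdeg hnp hnorm hTate R

end Main

end

end Fermat.Agent.S55.helper4301
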