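import Mathlib

/-!
# S55 / NF-ORDER: linear-algebra glue for the non-circular order of (G-E) and (G-R)  (helper4587)

Mathlib only.  `k` is a field, `T` a finite index set (the places above `S`), and the ambient
space is either `T → k` or a product `Π t, V t` of one-dimensional spaces (the local groups
`H²(K_w, μ_p)`).

* `card_le_finrank_add_one_of_pair_support` : a subspace `I` containing, for every pair of
  distinct indices, a nonzero vector supported on that pair has codimension `≤ 1`
  (this is how the two-place second inequality gives (G-E) without any reciprocity law).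
* `finrank_add_le_finrank_add_map` : the codimension of the image of a subspace under a
  surjective linear map does not increase (passage from a cofinal field `K` to `ℚ`).
* `exists_functional_of_codim_le_one` : a subspace of codimension `≤ 1` containing no nonzero
  multiple of a basis vector is the kernel of `x ↦ ∑ t, lam t * x t` with all `lam t ≠ 0`
  (existence of the "sum of invariants" with a free normalisation = weak (G-R)).
* primed versions `…_pi` for `Π t, V t` with `finrank k (V t) = 1`.
-/

set_option autoImplicit false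

namespace Fermat.Agent.S55.helper4587

open Module

section Fun

variable {k : Type*} [Field k] {T : Type*} [Fintype T] [DecidableEq T]

/-- A subspace of `T → k` containing all nonzero multiples `Pi.single w (c w)` is everything. -/
theorem eq_top_of_forall_single_mem (I : Submodule k (T → k))
    (h : ∀ w : T, ∃ c : k, c ≠ 0 ∧ Pi.single w c ∈ I) : I = ⊤ := by
  refine eq_top_iff.2 fun x _ => ?_
  have hx : x = ∑ w : T, Pi.single w (x w) := by
    funext t
    simp [Finset.sum_apply, Pi.single_apply]
  rw [hx]
  refine Submodule.sum_mem _ fun w _ => ?_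
  obtain ⟨c, hc, hmem⟩ := h w
  have : (Pi.single w (x w) : T → k) = (x w * c⁻¹) • Pi.single w c := by
    funext t
    by_cases ht : t = w
    · subst ht
      simp [hc]
    · simp [ht]
  rw [this]
  exact I.smul_mem _ hmem

/-- **Pair-support lemma.**  If for every pair `w₁ ≠ w₂` the subspace `I ≤ (T → k)` contains a
nonzero vector supported in `{w₁, w₂}`, then `I` has codimension at most one. -/
theorem card_le_finrank_add_one_of_pair_support (I : Submodule k (T → k))
    (h : ∀ w₁ w₂ : T, w₁ ≠ w₂ → ∃ v ∈ I, v ≠ 0 ∧ ∀ t, t ≠ w₁ → t ≠ w₂ → v t = 0) :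
    Fintype.card T ≤ finrank k I + 1 := by
  classical
  by_cases hZ : ∀ w : T, ∃ c : k, c ≠ 0 ∧ Pi.single w c ∈ I
  · rw [eq_top_of_forall_single_mem I hZ, finrank_top, finrank_pi]
    exact Nat.le_succ _
  · simp only [not_forall, not_exists, not_and] at hZ
    obtain ⟨w₀, hw₀⟩ := hZ
    -- projection forgetting the coordinate `w₀`
    let π : (T → k) →ₗ[k] ({t : T // t ≠ w₀} → k) :=
      LinearMap.funLeft k k (Subtype.val : {t : T // t ≠ w₀} → T)
    have hπ : I.map π = ⊤ := by
      apply eq_top_of_forall_single_mem
      rintro ⟨t, ht⟩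
      obtain ⟨v, hvI, hv0, hvs⟩ := h w₀ t (Ne.symm ht)
      have hvt : v t ≠ 0 := by
        intro hvt
        apply hw₀ (v w₀)
        · intro hvw
          apply hv0
          funext s
          by_cases hs : s = w₀
          · rw [hs, hvw]; rfl
          · by_cases hs' : s = t
            · rw [hs', hvt]; rfl
            · rw [hvs s hs hs']; rfl
        · have : (Pi.single w₀ (v w₀) : T → k) = v := by
            funext s
            by_cases hs : s = w₀
            · rw [hs]; simp
            · by_cases hs' : s = t
              · rw [hs', hvt]; simp [ht]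
              · rw [hvs s hs hs']; simp [hs]
          rw [this]; exact hvI
      refine ⟨v t, hvt, ?_⟩
      refine (Submodule.mem_map).2 ⟨v, hvI, ?_⟩
      funext s
      obtain ⟨s, hs⟩ := s
      by_cases hst : s = t
      · subst hst
        simp [π, LinearMap.funLeft_apply]
      · have hne : (⟨s, hs⟩ : {t : T // t ≠ w₀}) ≠ ⟨t, ht⟩ := fun h => hst (congrArg Subtype.val h)
        simp [π, LinearMap.funLeft_apply, hne, hvs s hs hst]
    have h1 : finrank k (I.map π) ≤ finrank k I := by
      have := LinearMap.finrank_range_le (π.domRestrict I)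
      rwa [LinearMap.range_domRestrict] at this
    rw [hπ, finrank_top, finrank_pi] at h1
    have h2 : Fintype.card {t : T // t ≠ w₀} + 1 = Fintype.card T := by
      have hpos : 0 < Fintype.card T := Fintype.card_pos_iff.2 ⟨w₀⟩
      rw [Fintype.card_subtype, Finset.filter_ne', Finset.card_erase_of_mem (Finset.mem_univ _),
        Finset.card_univ]
      omega
    omega

/-- A proper subspace satisfying the pair-support hypothesis has codimension exactly one. -/
theorem finrank_add_one_eq_card_of_pair_support (I : Submodule k (T → k))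
    (h : ∀ w₁ w₂ : T, w₁ ≠ w₂ → ∃ v ∈ I, v ≠ 0 ∧ ∀ t, t ≠ w₁ → t ≠ w₂ → v t = 0)
    (hI : I ≠ ⊤) : finrank k I + 1 = Fintype.card T := by
  have h1 := card_le_finrank_add_one_of_pair_support I h
  have h2 : finrank k I < finrank k (T → k) := Submodule.finrank_lt hI
  rw [finrank_pi] at h2
  omega

/-- **Sum-of-invariants functional.**  A subspace `I ≤ (T → k)` of codimension `≤ 1` which
contains no nonzero multiple of a coordinate vector is the kernel of a functional
`x ↦ ∑ t, lam t * x t` all of whose coefficients are nonzero. -/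
theorem exists_functional_of_codim_le_one (I : Submodule k (T → k))
    (hcodim : Fintype.card T ≤ finrank k I + 1)
    (hsingle : ∀ (t : T) (c : k), c ≠ 0 → Pi.single t c ∉ I) :
    ∃ lam : T → k, (∀ t, lam t ≠ 0) ∧ ∀ x : T → k, x ∈ I ↔ ∑ t, lam t * x t = 0 := by
  classical
  by_cases hT : IsEmpty T
  · refine ⟨fun _ => 1, fun t => (hT.false t).elim, fun x => ?_⟩
    have hx : x = 0 := funext fun t => (hT.false t).elim
    simp [hx]
  · rw [not_isEmpty_iff] at hT
    obtain ⟨t₀⟩ := hT
    have hI : I < ⊤ := by
      refine lt_top_iff_ne_top.2 fun htop => hsingle t₀ 1 one_ne_zero ?_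
      rw [htop]; exact Submodule.mem_top
    obtain ⟨φ, hφ0, hφ⟩ := Submodule.exists_le_ker_of_lt_top I hI
    have hker : I = LinearMap.ker φ := by
      refine Submodule.eq_of_le_of_finrank_le hφ ?_
      have hsurj : Function.Surjective φ := LinearMap.surjective_of_ne_zero hφ0
      have hrn := LinearMap.finrank_range_add_finrank_ker φ
      rw [LinearMap.range_eq_top.2 hsurj, finrank_top, finrank_self, finrank_pi] at hrn
      omega
    have hφx : ∀ x : T → k, φ x = ∑ t, φ (Pi.single t 1) * x t := by
      intro x
      have hx : x = ∑ t : T, x t • (Pi.single t (1 : k) : T → k) := by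
        funext s
        simp [Finset.sum_apply, Pi.single_apply]
      conv_lhs => rw [hx]
      rw [map_sum]
      refine Finset.sum_congr rfl fun t _ => ?_
      rw [map_smul, smul_eq_mul, mul_comm]
    refine ⟨fun t => φ (Pi.single t 1), fun t ht => ?_, fun x => ?_⟩
    · refine hsingle t 1 one_ne_zero ?_
      rw [hker]; exact LinearMap.mem_ker.2 ht
    · rw [hker, LinearMap.mem_ker, hφx]

end Fun

section Surj

variable {k : Type*} [Field k] {V W : Type*} [AddCommGroup V] [Module k V] [AddCommGroup W]
  [Module k W] [FiniteDimensional k V]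

/-- **Codimension does not increase under a surjection.**  For a surjective linear map
`f : V → W` and a subspace `I ≤ V`, `codim (f I) ≤ codim I`, written additively. -/
theorem finrank_add_le_finrank_add_map (f : V →ₗ[k] W) (hf : Function.Surjective f)
    (I : Submodule k V) :
    finrank k W + finrank k I ≤ finrank k V + finrank k (I.map f) := by
  have h1 := LinearMap.finrank_range_add_finrank_ker f
  rw [LinearMap.range_eq_top.2 hf, finrank_top] at h1
  have h2 := LinearMap.finrank_range_add_finrank_ker (f.domRestrict I)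
  rw [LinearMap.range_domRestrict] at h2
  have h3 : finrank k (LinearMap.ker (f.domRestrict I)) ≤ finrank k (LinearMap.ker f) := by
    refine LinearMap.finrank_le_finrank_of_injective
      (f := LinearMap.codRestrict (LinearMap.ker f)
        (I.subtype.comp (LinearMap.ker (f.domRestrict I)).subtype) ?_) ?_
    · intro x
      have hx : (f.domRestrict I) x.1 = 0 := LinearMap.mem_ker.1 x.2
      exact LinearMap.mem_ker.2 hx
    · intro x y hxy
      have := congrArg Subtype.val hxy
      simp only [LinearMap.codRestrict_apply, LinearMap.comp_apply, Submodule.subtype_apply] at this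
      exact Subtype.ext (Subtype.ext this)
  omega

/-- Variant: if `I` has codimension `≤ 1` in `V`, so does its image under a surjection. -/
theorem finrank_le_finrank_map_add_one (f : V →ₗ[k] W) (hf : Function.Surjective f)
    (I : Submodule k V) (hI : finrank k V ≤ finrank k I + 1) :
    finrank k W ≤ finrank k (I.map f) + 1 := by
  have := finrank_add_le_finrank_add_map f hf I
  omega

/-- **Descent of codimension `≤ 1`** (cofinal field `K` down to `ℚ`).  If `f : V → W` is
surjective, `f I ≤ J` and `I` has codimension `≤ 1` in `V`, then `J` has codimension `≤ 1`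
in `W`. -/
theorem finrank_le_finrank_add_one_of_map_le (f : V →ₗ[k] W) (hf : Function.Surjective f)
    (I : Submodule k V) (J : Submodule k W) (hIJ : I.map f ≤ J)
    (hI : finrank k V ≤ finrank k I + 1) :
    finrank k W ≤ finrank k J + 1 := by
  have : FiniteDimensional k W := Module.Finite.of_surjective f hf
  have h1 := finrank_le_finrank_map_add_one f hf I hI
  have h2 : finrank k (I.map f) ≤ finrank k J := Submodule.finrank_mono hIJ
  omega

end Surj

section Pi

variable {k : Type*} [Field k] {T : Type*} [Fintype T] [DecidableEq T]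
  {V : T → Type*} [∀ t, AddCommGroup (V t)] [∀ t, Module k (V t)]

/-- A chosen coordinate on a one-dimensional space. -/
noncomputable def coordOfFinrankEqOne (hV : ∀ t, finrank k (V t) = 1) (t : T) : V t ≃ₗ[k] k :=
  haveI : Module.Finite k (V t) := Module.finite_of_finrank_pos (by rw [hV t]; exact one_pos)
  LinearEquiv.ofFinrankEq (V t) k (by rw [hV t, finrank_self])

/-- The product of the chosen coordinates. -/
noncomputable def piCoord (hV : ∀ t, finrank k (V t) = 1) : (∀ t, V t) ≃ₗ[k] (T → k) :=
  LinearEquiv.piCongrRight (coordOfFinrankEqOne hV)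

omit [Fintype T] [DecidableEq T] in
theorem piCoord_apply (hV : ∀ t, finrank k (V t) = 1) (x : ∀ t, V t) (t : T) :
    piCoord hV x t = coordOfFinrankEqOne hV t (x t) := rfl

omit [Fintype T] in
theorem piCoord_symm_single (hV : ∀ t, finrank k (V t) = 1) (t : T) (c : k) :
    (piCoord hV).symm (Pi.single t c) = Pi.single t ((coordOfFinrankEqOne hV t).symm c) := by
  apply (piCoord hV).injective
  rw [LinearEquiv.apply_symm_apply]
  funext s
  rw [piCoord_apply]
  by_cases hs : s = t
  · subst hs; simp
  · simp [hs]

/-- **Pair-support lemma, product form.**  `T` indexes one-dimensional spaces `V t` (the local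
groups `H²(K_w, μ_p)`); a subspace `I ≤ Π t, V t` containing, for each pair of distinct indices,
a nonzero vector supported on that pair has codimension `≤ 1`. -/
theorem card_le_finrank_add_one_of_pair_support_pi (hV : ∀ t, finrank k (V t) = 1)
    (I : Submodule k (∀ t, V t))
    (h : ∀ w₁ w₂ : T, w₁ ≠ w₂ → ∃ v ∈ I, v ≠ 0 ∧ ∀ t, t ≠ w₁ → t ≠ w₂ → v t = 0) :
    Fintype.card T ≤ finrank k I + 1 := by
  have key := card_le_finrank_add_one_of_pair_support
    (I.map (piCoord hV : (∀ t, V t) →ₗ[k] (T → k))) ?_
  · rwa [LinearEquiv.finrank_map_eq] at key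
  · intro w₁ w₂ hw
    obtain ⟨v, hvI, hv0, hvs⟩ := h w₁ w₂ hw
    refine ⟨piCoord hV v, Submodule.mem_map_of_mem hvI, ?_, fun t h1 h2 => ?_⟩
    · exact fun h0 => hv0 ((piCoord hV).map_eq_zero_iff.1 h0)
    · rw [piCoord_apply, hvs t h1 h2, map_zero]

/-- Product form of `finrank_add_one_eq_card_of_pair_support`. -/
theorem finrank_add_one_eq_card_of_pair_support_pi (hV : ∀ t, finrank k (V t) = 1)
    (I : Submodule k (∀ t, V t))
    (h : ∀ w₁ w₂ : T, w₁ ≠ w₂ → ∃ v ∈ I, v ≠ 0 ∧ ∀ t, t ≠ w₁ → t ≠ w₂ → v t = 0)
    (hI : I ≠ ⊤) : finrank k I + 1 = Fintype.card T := by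
  have h1 := card_le_finrank_add_one_of_pair_support_pi hV I h
  have : ∀ t, Module.Finite k (V t) := fun t =>
    Module.finite_of_finrank_pos (by rw [hV t]; exact one_pos)
  have h2 : finrank k I < finrank k (∀ t, V t) := Submodule.finrank_lt hI
  rw [finrank_pi_fintype] at h2
  simp only [hV, Finset.sum_const, Finset.card_univ, smul_eq_mul, mul_one] at h2
  omega

/-- **Sum-of-invariants functional, product form** (weak reciprocity).  A subspace
`I ≤ Π t, V t` (all `V t` one-dimensional) of codimension `≤ 1` containing no nonzero vector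
supported at a single index is `{x | ∑ t, inv t (x t) = 0}` for suitable coordinates
`inv t : V t ≃ₗ[k] k`. -/
theorem exists_invariants_of_codim_le_one_pi (hV : ∀ t, finrank k (V t) = 1)
    (I : Submodule k (∀ t, V t))
    (hcodim : Fintype.card T ≤ finrank k I + 1)
    (hsingle : ∀ (t : T) (c : V t), c ≠ 0 → Pi.single t c ∉ I) :
    ∃ inv : ∀ t, V t ≃ₗ[k] k, ∀ x : ∀ t, V t, x ∈ I ↔ ∑ t, inv t (x t) = 0 := by
  have hc' : Fintype.card T ≤
      finrank k (I.map (piCoord hV : (∀ t, V t) →ₗ[k] (T → k))) + 1 := by
    rw [LinearEquiv.finrank_map_eq]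
    exact hcodim
  have hs' : ∀ (t : T) (c : k), c ≠ 0 →
      Pi.single t c ∉ I.map (piCoord hV : (∀ t, V t) →ₗ[k] (T → k)) := by
    rintro t c hc ⟨y, hyI, hy⟩
    refine hsingle t ((coordOfFinrankEqOne hV t).symm c) ?_ ?_
    · exact fun h0 => hc ((coordOfFinrankEqOne hV t).symm.map_eq_zero_iff.1 h0)
    · rw [← piCoord_symm_single, ← hy]
      simpa using hyI
  obtain ⟨lam, hlam, hlamI⟩ := exists_functional_of_codim_le_one _ hc' hs'
  refine ⟨fun t => (coordOfFinrankEqOne hV t).trans
    (LinearEquiv.smulOfNeZero k k (lam t) (hlam t)), fun x => ?_⟩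
  have hx : x ∈ I ↔ piCoord hV x ∈ I.map (piCoord hV : (∀ t, V t) →ₗ[k] (T → k)) := by
    constructor
    · exact fun hx => Submodule.mem_map_of_mem hx
    · rintro ⟨y, hyI, hy⟩
      rwa [← (piCoord hV).injective hy]
  rw [hx, hlamI]
  exact Iff.of_eq (congrArg (· = 0) (Finset.sum_congr rfl fun t _ => rfl))

/-- **Weak reciprocity from the pair-support lemma.**  Pair-support (from the two-place second
inequality) together with "no class is nontrivial at exactly one place" yields coordinates
`inv t` with `I = {x | ∑ t, inv t (x t) = 0}`. -/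
theorem exists_invariants_of_pair_support_pi (hV : ∀ t, finrank k (V t) = 1)
    (I : Submodule k (∀ t, V t))
    (hpair : ∀ w₁ w₂ : T, w₁ ≠ w₂ → ∃ v ∈ I, v ≠ 0 ∧ ∀ t, t ≠ w₁ → t ≠ w₂ → v t = 0)
    (hsingle : ∀ (t : T) (c : V t), c ≠ 0 → Pi.single t c ∉ I) :
    ∃ inv : ∀ t, V t ≃ₗ[k] k, ∀ x : ∀ t, V t, x ∈ I ↔ ∑ t, inv t (x t) = 0 :=
  exists_invariants_of_codim_le_one_pi hV I
    (card_le_finrank_add_one_of_pair_support_pi hV I hpair) hsingle

/-- The numerical form of weak reciprocity: with at least one index, pair-support and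
"no class nontrivial at exactly one place" give codimension exactly one. -/
theorem finrank_add_one_eq_card_of_pair_support_of_single_pi [Nonempty T]
    (hV : ∀ t, finrank k (V t) = 1) (I : Submodule k (∀ t, V t))
    (hpair : ∀ w₁ w₂ : T, w₁ ≠ w₂ → ∃ v ∈ I, v ≠ 0 ∧ ∀ t, t ≠ w₁ → t ≠ w₂ → v t = 0)
    (hsingle : ∀ (t : T) (c : V t), c ≠ 0 → Pi.single t c ∉ I) :
    finrank k I + 1 = Fintype.card T := by
  refine finrank_add_one_eq_card_of_pair_support_pi hV I hpair fun htop => ?_
  obtain ⟨t₀⟩ := ‹Nonempty T›
  have : Module.Finite k (V t₀) := Module.finite_of_finrank_pos (by rw [hV t₀]; exact one_pos)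
  obtain ⟨c, hc⟩ : ∃ c : V t₀, c ≠ 0 := by
    have h1 : 0 < finrank k (V t₀) := by rw [hV t₀]; exact one_pos
    have := Module.finrank_pos_iff_exists_ne_zero.1 h1
    exact this
  exact hsingle t₀ c hc (by rw [htop]; exact Submodule.mem_top)

/-- Uniqueness of the normalisation: two families of coordinates whose "sum zero" hyperplanes
coincide differ by one common nonzero scalar (needs at least two indices to be non-vacuous,
but holds in general when `T` is nonempty). -/
theorem invariants_unique_up_to_scalar [Nonempty T]
    (inv inv' : ∀ t, V t ≃ₗ[k] k)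
    (h : ∀ x : ∀ t, V t, ∑ t, inv t (x t) = 0 ↔ ∑ t, inv' t (x t) = 0) :
    ∃ c : k, c ≠ 0 ∧ ∀ (t : T) (v : V t), inv' t v = c * inv t v := by
  classical
  obtain ⟨t₀⟩ := ‹Nonempty T›
  -- the scalar is read off at `t₀`
  set u₀ : V t₀ := (inv t₀).symm 1 with hu₀
  have hsum : ∀ (e : ∀ t, V t ≃ₗ[k] k) (t : T) (v : V t),
      ∑ s, e s ((Pi.single t v : ∀ s, V s) s) = e t v := by
    intro e t v
    rw [Finset.sum_eq_single t]
    · simp
    · intro s _ hs
      simp [hs]
    · intro ht; exact absurd (Finset.mem_univ t) ht
  refine ⟨inv' t₀ u₀, ?_, fun t v => ?_⟩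
  · intro h0
    have : u₀ = 0 := (inv' t₀).map_eq_zero_iff.1 h0
    rw [hu₀] at this
    have h1 : (1 : k) = 0 := by
      have := congrArg (inv t₀) this
      simp at this
    exact one_ne_zero h1
  · -- test vector: `v` at `t` minus `inv t v • u₀` at `t₀`
    have key := (h (Pi.single t v - Pi.single t₀ (inv t v • u₀))).1 ?_
    · simp only [Pi.sub_apply, map_sub, Finset.sum_sub_distrib, hsum] at key
      rw [map_smul, smul_eq_mul] at key
      rw [sub_eq_zero.1 key, mul_comm]
    · simp only [Pi.sub_apply, map_sub, Finset.sum_sub_distrib, hsum]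
      rw [map_smul, smul_eq_mul, hu₀, LinearEquiv.apply_symm_apply, mul_one, sub_self]

end Pi

end Fermat.Agent.S55.helper4587
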