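import Mathlib
import Fermat.Prelude.Def_GaloisRep_CompletionBridge

/-!
# S55 / BR-LOCNORM-EMB (helper4608): places of an abstract number field cut out by embeddings
into `PadicAlgCl q`

* `placeOf φ` : the prime of `𝓞 K` cut out by `φ : K →+* PadicAlgCl q`;
* `placeOf_valuation_le_one_iff` : the valuation dictionary (this is verbatim the hypothesis
  `hv` of `helper1652_LocalNorm`);
* `exists_embedding_dict` : every finite place of a number field is cut out by an embedding.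
-/

set_option autoImplicit false
set_option linter.unusedSectionVars false

namespace Fermat.Agent.S55.helper4608

open IsDedekindDomain
open scoped NumberField NNReal

noncomputable section

section Integral

variable {q : ℕ} [Fact q.Prime]

/-- Elements of `PadicAlgCl q` integral over `ℤ` have norm `≤ 1`. -/
theorem norm_le_one_of_isIntegral {x : PadicAlgCl q} (hx : IsIntegral ℤ x) : ‖x‖ ≤ 1 := by
  have hv := Valuation.integer.integers (Valued.v : Valuation (PadicAlgCl q) ℝ≥0)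
  have h1 : IsIntegral (Valued.v : Valuation (PadicAlgCl q) ℝ≥0).integer x := hx.tower_top
  have h2 := hv.mem_of_integral h1
  have h3 : (Valued.v : Valuation (PadicAlgCl q) ℝ≥0) x ≤ 1 := h2
  rw [PadicAlgCl.valuation_def] at h3
  exact_mod_cast h3

theorem norm_natCast_self : ‖((q : ℕ) : PadicAlgCl q)‖ = (q : ℝ)⁻¹ := by
  have h : ((q : ℕ) : PadicAlgCl q) = algebraMap ℚ_[q] (PadicAlgCl q) ((q : ℕ) : ℚ_[q]) := by
    rw [map_natCast]
  rw [h, PadicAlgCl.norm_extends, Padic.norm_p]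

theorem norm_natCast_self_lt_one : ‖((q : ℕ) : PadicAlgCl q)‖ < 1 := by
  rw [norm_natCast_self]
  have hq : (1 : ℝ) < q := by exact_mod_cast (Fact.out : q.Prime).one_lt
  exact inv_lt_one_of_one_lt₀ hq

end Integral

section Place

variable {q : ℕ} [Fact q.Prime] {K : Type*} [Field K] [NumberField K]
variable (φ : K →+* PadicAlgCl q)

/-- Integers of `K` have norm `≤ 1` under any embedding into `PadicAlgCl q`. -/
theorem norm_integer_le_one (a : 𝓞 K) : ‖φ (algebraMap (𝓞 K) K a)‖ ≤ 1 := by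
  apply norm_le_one_of_isIntegral
  have h : IsIntegral ℤ (algebraMap (𝓞 K) K a) := a.2
  exact h.map (φ : K →+* PadicAlgCl q).toIntAlgHom

/-- The ideal of `𝓞 K` cut out by an embedding into `PadicAlgCl q`. -/
def idealOf : Ideal (𝓞 K) where
  carrier := {a | ‖φ (algebraMap (𝓞 K) K a)‖ < 1}
  zero_mem' := by
    show ‖φ (algebraMap (𝓞 K) K 0)‖ < 1
    simp
  add_mem' := by
    intro a b ha hb
    show ‖φ (algebraMap (𝓞 K) K (a + b))‖ < 1
    rw [map_add, map_add]
    exact (IsUltrametricDist.norm_add_le_max _ _).trans_lt (max_lt ha hb)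
  smul_mem' := by
    intro c a ha
    show ‖φ (algebraMap (𝓞 K) K (c * a))‖ < 1
    rw [map_mul, map_mul, norm_mul]
    calc ‖φ (algebraMap (𝓞 K) K c)‖ * ‖φ (algebraMap (𝓞 K) K a)‖
        ≤ 1 * ‖φ (algebraMap (𝓞 K) K a)‖ :=
          mul_le_mul_of_nonneg_right (norm_integer_le_one φ c) (norm_nonneg _)
      _ < 1 := by rw [one_mul]; exact ha

theorem mem_idealOf_iff (a : 𝓞 K) : a ∈ idealOf φ ↔ ‖φ (algebraMap (𝓞 K) K a)‖ < 1 := Iff.rfl

theorem idealOf_isPrime : (idealOf φ).IsPrime := by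
  refine ⟨?_, ?_⟩
  · rw [Ne, Ideal.eq_top_iff_one, mem_idealOf_iff]
    simp
  · intro a b hab
    rw [mem_idealOf_iff, map_mul, map_mul, norm_mul] at hab
    by_contra hcon
    rw [not_or, mem_idealOf_iff, mem_idealOf_iff, not_lt, not_lt] at hcon
    have := one_le_mul_of_one_le_of_one_le hcon.1 hcon.2
    linarith

theorem natCast_mem_idealOf : ((q : ℕ) : 𝓞 K) ∈ idealOf φ := by
  rw [mem_idealOf_iff]
  have : φ (algebraMap (𝓞 K) K ((q : ℕ) : 𝓞 K)) = ((q : ℕ) : PadicAlgCl q) := by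
    rw [map_natCast, map_natCast]
  rw [this]
  exact norm_natCast_self_lt_one

theorem idealOf_ne_bot : idealOf φ ≠ ⊥ := by
  intro h
  have h1 := natCast_mem_idealOf φ
  rw [h, Ideal.mem_bot] at h1
  have hq : (q : ℕ) ≠ 0 := (Fact.out : q.Prime).ne_zero
  exact hq (by exact_mod_cast h1)

/-- The prime of `𝓞 K` cut out by an embedding `φ : K →+* PadicAlgCl q`. -/
def placeOf : HeightOneSpectrum (𝓞 K) :=
  ⟨idealOf φ, idealOf_isPrime φ, idealOf_ne_bot φ⟩

theorem placeOf_asIdeal : (placeOf φ).asIdeal = idealOf φ := rfl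

theorem mem_placeOf_iff (a : 𝓞 K) :
    a ∈ (placeOf φ).asIdeal ↔ ‖φ (algebraMap (𝓞 K) K a)‖ < 1 := Iff.rfl

theorem norm_eq_one_of_notMem {a : 𝓞 K} (ha : a ∉ (placeOf φ).asIdeal) :
    ‖φ (algebraMap (𝓞 K) K a)‖ = 1 :=
  le_antisymm (norm_integer_le_one φ a) (not_lt.mp ha)

/-- One direction of the dictionary. -/
theorem norm_le_one_of_valuation_le_one {x : K} (hx : (placeOf φ).valuation K x ≤ 1) :
    ‖φ x‖ ≤ 1 := by
  obtain ⟨n, d, hnd⟩ := (placeOf φ).exists_primeCompl_mul_eq_of_integer x hx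
  have hd : ‖φ (algebraMap (𝓞 K) K (d : 𝓞 K))‖ = 1 := norm_eq_one_of_notMem φ d.2
  have h := congrArg (fun y => ‖φ y‖) hnd
  simp only [map_mul, norm_mul] at h
  have h' : ‖φ x‖ * ‖φ (algebraMap (𝓞 K) K (d : 𝓞 K))‖ = ‖φ (algebraMap (𝓞 K) K n)‖ := h
  rw [hd, mul_one] at h'
  rw [h']
  exact norm_integer_le_one φ n

theorem norm_lt_one_of_valuation_lt_one {x : K} (hx : (placeOf φ).valuation K x < 1) :
    ‖φ x‖ < 1 := by
  obtain ⟨n, d, hnd⟩ := (placeOf φ).exists_primeCompl_mul_eq_of_integer x hx.le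
  have hd : ‖φ (algebraMap (𝓞 K) K (d : 𝓞 K))‖ = 1 := norm_eq_one_of_notMem φ d.2
  have hdv : (placeOf φ).valuation K (algebraMap (𝓞 K) K (d : 𝓞 K)) = 1 :=
    (HeightOneSpectrum.valuation_eq_one_iff_notMem (placeOf φ)).mpr d.2
  have hn : (placeOf φ).valuation K (algebraMap (𝓞 K) K n) < 1 := by
    have := congrArg ((placeOf φ).valuation K) hnd
    rw [map_mul] at this
    have e : (placeOf φ).valuation K (algebraMap (𝓞 K) K (d : 𝓞 K)) = 1 := hdv
    rw [e, mul_one] at this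
    rw [← this]
    exact hx
  have hn' : n ∈ (placeOf φ).asIdeal := (HeightOneSpectrum.valuation_lt_one_iff_mem _ n).mp hn
  have h := congrArg (fun y => ‖φ y‖) hnd
  simp only [map_mul, norm_mul] at h
  have h' : ‖φ x‖ * ‖φ (algebraMap (𝓞 K) K (d : 𝓞 K))‖ = ‖φ (algebraMap (𝓞 K) K n)‖ := h
  rw [hd, mul_one] at h'
  rw [h']
  exact (mem_placeOf_iff φ n).mp hn'

/-- **Valuation dictionary** at the place cut out by an embedding. -/
theorem placeOf_valuation_le_one_iff (x : K) :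
    (placeOf φ).valuation K x ≤ 1 ↔ ‖φ x‖ ≤ 1 := by
  refine ⟨norm_le_one_of_valuation_le_one φ, fun h => ?_⟩
  by_contra hcon
  rw [not_le] at hcon
  have hx0 : x ≠ 0 := by
    rintro rfl
    simp at hcon
  have h1 : (placeOf φ).valuation K x⁻¹ < 1 := by
    rw [map_inv₀]
    exact inv_lt_one_of_one_lt₀ hcon
  have h2 := norm_lt_one_of_valuation_lt_one φ h1
  rw [map_inv₀, norm_inv] at h2
  have h3 : 0 < ‖φ x‖ := by
    rw [norm_pos_iff, Ne, map_eq_zero]
    exact hx0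
  have h4 : 1 < ‖φ x‖ := by
    rw [inv_lt_one₀ h3] at h2
    exact h2
  linarith

theorem placeOf_valuation_lt_one_iff (x : K) :
    (placeOf φ).valuation K x < 1 ↔ ‖φ x‖ < 1 := by
  refine ⟨norm_lt_one_of_valuation_lt_one φ, fun h => ?_⟩
  by_contra hcon
  rw [not_lt] at hcon
  have hx0 : x ≠ 0 := by
    rintro rfl
    simp at hcon
  have hv0 : (placeOf φ).valuation K x ≠ 0 := by
    rw [Ne, map_eq_zero]
    exact hx0
  have h1 : (placeOf φ).valuation K x⁻¹ ≤ 1 := by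
    rw [map_inv₀]
    exact inv_le_one_of_one_le₀ hcon
  have h2 := norm_le_one_of_valuation_le_one φ h1
  rw [map_inv₀, norm_inv] at h2
  have h3 : 0 < ‖φ x‖ := by
    rw [norm_pos_iff, Ne, map_eq_zero]
    exact hx0
  rw [inv_le_one₀ h3] at h2
  linarith

theorem placeOf_valuation_eq_one_iff (x : K) :
    (placeOf φ).valuation K x = 1 ↔ ‖φ x‖ = 1 := by
  have h1 := placeOf_valuation_le_one_iff φ x
  have h2 := placeOf_valuation_lt_one_iff φ x
  constructor
  · intro h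
    exact le_antisymm (h1.mp h.le) (not_lt.mp (fun h3 => absurd (h2.mpr h3) (not_lt.mpr h.ge)))
  · intro h
    exact le_antisymm (h1.mpr h.le) (not_lt.mp (fun h3 => absurd (h2.mp h3) (not_lt.mpr h.ge)))

/-- **Uniqueness**: a place satisfying the dictionary for `φ` is `placeOf φ`. -/
theorem eq_placeOf_of_dict (v : HeightOneSpectrum (𝓞 K))
    (hv : ∀ x : K, v.valuation K x ≤ 1 ↔ ‖φ x‖ ≤ 1) : v = placeOf φ := by
  apply HeightOneSpectrum.ext
  ext a
  rw [mem_placeOf_iff, ← HeightOneSpectrum.valuation_lt_one_iff_mem (K := K)]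
  change v.valuation K (algebraMap (𝓞 K) K a) < 1 ↔ ‖φ (algebraMap (𝓞 K) K a)‖ < 1
  by_cases ha : algebraMap (𝓞 K) K a = 0
  · rw [ha]
    simp
  have hv0 : v.valuation K (algebraMap (𝓞 K) K a) ≠ 0 := by
    rw [Ne, map_eq_zero]
    exact ha
  have hn0 : 0 < ‖φ (algebraMap (𝓞 K) K a)‖ := by
    rw [norm_pos_iff, Ne, map_eq_zero]
    exact ha
  have h := hv (algebraMap (𝓞 K) K a)⁻¹
  rw [map_inv₀, map_inv₀, norm_inv, inv_le_one₀ (zero_lt_iff.mpr hv0), inv_le_one₀ hn0] at h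
  rw [← not_le, ← not_le, not_iff_not]
  exact h

end Place

section Exists

variable {F : Type*} [Field F] [NumberField F]

theorem norm_intCast_le_one {q : ℕ} [Fact q.Prime] (m : ℤ) : ‖((m : ℤ) : PadicAlgCl q)‖ ≤ 1 := by
  apply norm_le_one_of_isIntegral
  have h : ((m : ℤ) : PadicAlgCl q) = algebraMap ℤ (PadicAlgCl q) m := by simp
  rw [h]
  exact isIntegral_algebraMap

/-- **Every finite place of a number field is cut out by an embedding into some
`PadicAlgCl q`.** -/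
theorem exists_embedding_eq_placeOf (v : HeightOneSpectrum (𝓞 F)) :
    ∃ (q : ℕ) (_ : Fact q.Prime) (φ : F →+* PadicAlgCl q), placeOf φ = v := by
  classical
  -- the rational prime below `v`
  have hp_ne : v.asIdeal.under ℤ ≠ ⊥ := Ideal.under_ne_bot ℤ v.ne_bot
  have hp_prime : (v.asIdeal.under ℤ).IsPrime := Ideal.IsPrime.under ℤ v.asIdeal
  set g := Submodule.IsPrincipal.generator (v.asIdeal.under ℤ) with hg
  have hgprime : Prime g := Submodule.IsPrincipal.prime_generator_of_isPrime _ hp_ne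
  have hqprime : g.natAbs.Prime := Int.prime_iff_natAbs_prime.mp hgprime
  refine ⟨g.natAbs, ⟨hqprime⟩, ?_⟩
  have : Fact g.natAbs.Prime := ⟨hqprime⟩
  by_contra hcon
  push Not at hcon
  -- prime avoidance
  let ι := F →ₐ[ℚ] PadicAlgCl g.natAbs
  let σ₀ : ι := IsAlgClosed.lift
  let f : ι → Ideal (𝓞 F) := fun σ => (placeOf (σ : F →+* PadicAlgCl g.natAbs)).asIdeal
  have hnot : ¬ ((v.asIdeal : Set (𝓞 F)) ⊆ ⋃ i ∈ ((Finset.univ : Finset ι) : Set ι), (f i : Set (𝓞 F))) := by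
    rw [Ideal.subset_union_prime σ₀ σ₀ (fun i _ _ _ => (placeOf (i : F →+* PadicAlgCl g.natAbs)).isPrime)]
    rintro ⟨i, -, hi⟩
    have h1 : v.asIdeal = (placeOf (i : F →+* PadicAlgCl g.natAbs)).asIdeal :=
      v.isMaximal.eq_of_le (placeOf (i : F →+* PadicAlgCl g.natAbs)).isPrime.ne_top hi
    exact hcon (i : F →+* PadicAlgCl g.natAbs) (HeightOneSpectrum.ext h1.symm)
  rw [Set.not_subset] at hnot
  obtain ⟨a, hav, hau⟩ := hnot
  have hau' : ∀ σ : ι, ‖σ (algebraMap (𝓞 F) F a)‖ = 1 := by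
    intro σ
    apply norm_eq_one_of_notMem (σ : F →+* PadicAlgCl g.natAbs)
    intro hmem
    apply hau
    simp only [Set.mem_iUnion]
    exact ⟨σ, Finset.mem_coe.mpr (Finset.mem_univ σ), hmem⟩
  -- the norm of `a` is a `q`-adic unit ...
  have hN1 : ‖algebraMap ℚ (PadicAlgCl g.natAbs) (Algebra.norm ℚ (algebraMap (𝓞 F) F a))‖ = 1 := by
    rw [Algebra.norm_eq_prod_embeddings ℚ (PadicAlgCl g.natAbs), norm_prod]
    exact Finset.prod_eq_one (fun σ _ => hau' σ)
  -- ... but it is divisible by `q`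
  have hdvd : (g.natAbs : ℤ) ∣ Algebra.norm ℤ a := by
    have h1 : Ideal.absNorm v.asIdeal ∣ Ideal.absNorm (Ideal.span {a}) :=
      Ideal.absNorm_dvd_absNorm_of_le ((Ideal.span_singleton_le_iff_mem _).mpr hav)
    rw [Ideal.absNorm_span_singleton] at h1
    have h2 : ((Ideal.absNorm v.asIdeal : ℕ) : ℤ) ∈ v.asIdeal.under ℤ := by
      rw [Ideal.under_def, Ideal.mem_comap]
      have := Ideal.absNorm_mem v.asIdeal
      simpa using this
    rw [Submodule.IsPrincipal.mem_iff_generator_dvd] at h2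
    have h3 : (g.natAbs : ℤ) ∣ ((Ideal.absNorm v.asIdeal : ℕ) : ℤ) :=
      (Int.natAbs_dvd).mpr h2
    have h4 : ((Ideal.absNorm v.asIdeal : ℕ) : ℤ) ∣ Algebra.norm ℤ a := by
      rw [← Int.natAbs_dvd_natAbs, Int.natAbs_natCast]
      exact h1
    exact h3.trans h4
  obtain ⟨m, hm⟩ := hdvd
  have hN2 : Algebra.norm ℚ (algebraMap (𝓞 F) F a) = ((g.natAbs : ℤ) : ℚ) * (m : ℚ) := by
    have := Algebra.coe_norm_int a
    rw [hm] at this
    rw [← this]
    push_cast
    ring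
  rw [hN2, map_mul, norm_mul] at hN1
  have e1 : algebraMap ℚ (PadicAlgCl g.natAbs) (((g.natAbs : ℤ) : ℚ)) =
      ((g.natAbs : ℕ) : PadicAlgCl g.natAbs) := by
    rw [Int.cast_natCast, map_natCast]
  have e2 : algebraMap ℚ (PadicAlgCl g.natAbs) ((m : ℚ)) = ((m : ℤ) : PadicAlgCl g.natAbs) :=
    map_intCast _ m
  rw [e1, e2] at hN1
  have h5 := norm_natCast_self_lt_one (q := g.natAbs)
  have h6 := norm_intCast_le_one (q := g.natAbs) m
  have h7 : ‖((g.natAbs : ℕ) : PadicAlgCl g.natAbs)‖ * ‖((m : ℤ) : PadicAlgCl g.natAbs)‖ < 1 := by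
    calc ‖((g.natAbs : ℕ) : PadicAlgCl g.natAbs)‖ * ‖((m : ℤ) : PadicAlgCl g.natAbs)‖
        ≤ ‖((g.natAbs : ℕ) : PadicAlgCl g.natAbs)‖ * 1 :=
          mul_le_mul_of_nonneg_left h6 (norm_nonneg _)
      _ < 1 := by rw [mul_one]; exact h5
  linarith

/-- **Every finite place `v` of `F` is cut out by an embedding of any finite extension `E`**:
the valuation dictionary `hv` of `helper1652_LocalNorm` holds for a suitable
`τ : E →+* PadicAlgCl q`. -/
theorem exists_embedding_dict (E : Type*) [Field E] [NumberField E] [Algebra F E]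
    (v : HeightOneSpectrum (𝓞 F)) :
    ∃ (q : ℕ) (_ : Fact q.Prime) (τ : E →+* PadicAlgCl q),
      placeOf (τ.comp (algebraMap F E)) = v ∧
      ∀ x : F, v.valuation F x ≤ 1 ↔ ‖τ (algebraMap F E x)‖ ≤ 1 := by
  obtain ⟨q, hq, φ, hφ⟩ := exists_embedding_eq_placeOf v
  let _ : Algebra F (PadicAlgCl q) := φ.toAlgebra
  have : Module.Finite F E := Module.Finite.of_restrictScalars_finite ℚ F E
  have : Algebra.IsAlgebraic F E := Algebra.IsAlgebraic.of_finite F E
  let τ : E →ₐ[F] PadicAlgCl q := IsAlgClosed.lift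
  have hτ : (τ : E →+* PadicAlgCl q).comp (algebraMap F E) = φ := by
    ext x
    exact τ.commutes x
  refine ⟨q, hq, (τ : E →+* PadicAlgCl q), ?_, ?_⟩
  · rw [hτ, hφ]
  · intro x
    rw [← hφ, placeOf_valuation_le_one_iff, ← hτ]
    rfl

end Exists

section Qbar

local notation "Qb" => AlgebraicClosure ℚ

/-- **Every embedding of a subfield of `ℚ̄` into `PadicAlgCl q` is `ι ∘ σ`** for the fixed
embedding `ι = padicEmbedding q` and some `σ ∈ Gal(ℚ̄/ℚ)`. -/
theorem exists_algEquiv_padicEmbedding_comp (q : ℕ) [Fact q.Prime] (L : IntermediateField ℚ Qb)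
    (j : L →+* PadicAlgCl q) :
    ∃ σ : Qb ≃ₐ[ℚ] Qb, ∀ x : L, j x = padicEmbedding q (σ (x : Qb)) := by
  -- extend `j` to `ℚ̄`
  have halgQ : Algebra.IsAlgebraic ℚ Qb := AlgebraicClosure.isAlgebraic ℚ
  have hcl : IsAlgClosure ℚ Qb := ⟨inferInstance, halgQ⟩
  have hnorm : Normal ℚ Qb := IsAlgClosure.normal ℚ Qb
  have halg : Algebra.IsAlgebraic L Qb := Algebra.IsAlgebraic.tower_top (K := ℚ) L
  let _ : Algebra L (PadicAlgCl q) := j.toAlgebra
  let j' : Qb →ₐ[L] PadicAlgCl q := IsAlgClosed.lift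
  let j'' : Qb →ₐ[ℚ] PadicAlgCl q := (j' : Qb →+* PadicAlgCl q).toRatAlgHom
  let _ : Algebra Qb (PadicAlgCl q) := (padicEmbedding q).toRingHom.toAlgebra
  have _ : IsScalarTower ℚ Qb (PadicAlgCl q) :=
    IsScalarTower.of_algebraMap_eq' (Subsingleton.elim _ _)
  refine ⟨AlgHom.restrictNormal' j'' Qb, fun x => ?_⟩
  have h1 : algebraMap Qb (PadicAlgCl q) (AlgHom.restrictNormal' j'' Qb (x : Qb)) =
      j'' (algebraMap Qb Qb (x : Qb)) := AlgHom.restrictNormal_commutes j'' Qb (x : Qb)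
  have h2 : j'' (algebraMap Qb Qb (x : Qb)) = j x := j'.commutes x
  rw [← h2, ← h1]
  rfl

end Qbar

end

end Fermat.Agent.S55.helper4608
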