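import Mathlib
import Fermat.Agent.S55.helper4608_EmbPlace
import Fermat.Agent.S55.helper1652_LocalNorm
import Fermat.Agent.S55.helper1980_HasseSpec

/-!
# S55 / BR-LOCNORM-EMB (helper4608): completion-free local norms at EVERY finite place

Glue between `helper1652_LocalNorm` ((B4), hypothesis `hv`) and `helper4608_EmbPlace`
(`placeOf`, `exists_embedding_dict`): the hypothesis `hv` is discharged, so the statements hold
at every finite place `v : HeightOneSpectrum (𝓞 F)` of an abstract number field.

* `locNorm_placeOf_iff` : (B4a) at the place cut out by an embedding (non-split, prime degree);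
* `locNorm_placeOf_of_local_norms` : Hasse-ready form at the place cut out by an embedding;
* `locNorm_of_forall_embedding` : local norm at every embedding ⟹ `helper1980.LocNorm` at every
  finite place;
* `placeOf_liesOver` : the place of `τ` on `E` lies over the place of `τ ∘ algebraMap` on `F`.
-/

set_option autoImplicit false
set_option linter.unusedSectionVars false

namespace Fermat.Agent.S55.helper4608

open IsDedekindDomain
open scoped NumberField

section Tower

variable {q : ℕ} [Fact q.Prime]
variable {F E : Type*} [Field F] [NumberField F] [Field E] [NumberField E] [Algebra F E]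

/-- The place of `E` cut out by `τ` lies over the place of `F` cut out by `τ ∘ algebraMap`. -/
theorem placeOf_under (τ : E →+* PadicAlgCl q) :
    (placeOf τ).asIdeal.under (𝓞 F) = (placeOf (τ.comp (algebraMap F E))).asIdeal := by
  ext a
  rw [Ideal.under_def, Ideal.mem_comap, mem_placeOf_iff, mem_placeOf_iff]
  have h : algebraMap (𝓞 E) E (algebraMap (𝓞 F) (𝓞 E) a) =
      algebraMap F E (algebraMap (𝓞 F) F a) := by
    rw [← IsScalarTower.algebraMap_apply (𝓞 F) (𝓞 E) E, ← IsScalarTower.algebraMap_apply (𝓞 F) F E]
  rw [h]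
  rfl

instance placeOf_liesOver (τ : E →+* PadicAlgCl q) :
    (placeOf τ).asIdeal.LiesOver (placeOf (τ.comp (algebraMap F E))).asIdeal :=
  ⟨(placeOf_under τ).symm⟩

end Tower

section LocNorm

variable {F E : Type} [Field F] [NumberField F] [Field E] [NumberField E] [Algebra F E]
  [IsGalois F E]

/-- **(B4a) at the place cut out by an embedding** (prime degree, non-split): `b` is a
completion-free local norm at `placeOf (τ ∘ algebraMap)` iff `τ b` is a norm from the local field
`ℚ_q(τ E)` (generator form). -/
theorem locNorm_placeOf_iff (q : ℕ) [Fact q.Prime] (τ : E →+* PadicAlgCl q)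
    {p : ℕ} (hp : p.Prime) (hdeg : Module.finrank F E = p)
    (s : PadicAlgCl q ≃ₐ[ℚ_[q]] PadicAlgCl q)
    (hsF : ∀ x : F, s (τ (algebraMap F E x)) = τ (algebraMap F E x))
    (hsE : ∃ x : E, s (τ x) ≠ τ x) (b : Fˣ) :
    helper1980.LocNorm F E (placeOf (τ.comp (algebraMap F E))) b ↔
      ∃ y ∈ helper1652.localFieldOf q τ, y ≠ 0 ∧
        ∏ j ∈ Finset.range p, (s ^ j) y = τ (algebraMap F E (b : F)) :=
  helper1652.locNorm_iff_exists_prod_pow_eq q τ (placeOf (τ.comp (algebraMap F E)))
    (fun x => placeOf_valuation_le_one_iff (τ.comp (algebraMap F E)) x) hp hdeg s hsF hsE b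

/-- **Hasse-ready form at the place cut out by an embedding**: if `τ b` is a norm from
`ℚ_q(τ E)` with respect to every local automorphism `s` fixing `τ F` and moving `τ E` (nothing
is asked at a split place), then `b` is a completion-free local norm at
`placeOf (τ ∘ algebraMap)`. -/
theorem locNorm_placeOf_of_local_norms (q : ℕ) [Fact q.Prime] (τ : E →+* PadicAlgCl q)
    {p : ℕ} (hp : p.Prime) (hdeg : Module.finrank F E = p) (b : Fˣ)
    (h : ∀ s : PadicAlgCl q ≃ₐ[ℚ_[q]] PadicAlgCl q,
      (∀ x : F, s (τ (algebraMap F E x)) = τ (algebraMap F E x)) → (∃ x : E, s (τ x) ≠ τ x) →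
        ∃ y ∈ helper1652.localFieldOf q τ, y ≠ 0 ∧
          ∏ j ∈ Finset.range p, (s ^ j) y = τ (algebraMap F E (b : F))) :
    helper1980.LocNorm F E (placeOf (τ.comp (algebraMap F E))) b :=
  helper1652.locNorm_of_local_norms q τ (placeOf (τ.comp (algebraMap F E)))
    (fun x => placeOf_valuation_le_one_iff (τ.comp (algebraMap F E)) x) hp hdeg b h

/-- **Local norm at every embedding ⟹ completion-free local norm at every finite place.**
`E / F` Galois of prime degree `p`.  Suppose that for every prime `q`, every embedding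
`τ : E →+* PadicAlgCl q` and every `ℚ_q`-automorphism `s` of `PadicAlgCl q` fixing `τ F` and
moving `τ E`, the element `τ b` is a norm from `ℚ_q(τ E)` (generator form).  Then `b` is a
completion-free local norm (`helper1980.LocNorm`) at every finite place of `F`: this is the
hypothesis of the Hasse norm theorem `helper1980.Stmt_HasseNorm`. -/
theorem locNorm_of_forall_embedding {p : ℕ} (hp : p.Prime) (hdeg : Module.finrank F E = p)
    (b : Fˣ)
    (h : ∀ (q : ℕ) [Fact q.Prime] (τ : E →+* PadicAlgCl q)
      (s : PadicAlgCl q ≃ₐ[ℚ_[q]] PadicAlgCl q),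
      (∀ x : F, s (τ (algebraMap F E x)) = τ (algebraMap F E x)) → (∃ x : E, s (τ x) ≠ τ x) →
        ∃ y ∈ helper1652.localFieldOf q τ, y ≠ 0 ∧
          ∏ j ∈ Finset.range p, (s ^ j) y = τ (algebraMap F E (b : F))) :
    ∀ v : HeightOneSpectrum (𝓞 F), helper1980.LocNorm F E v b := by
  intro v
  obtain ⟨q, hq, τ, hτ, -⟩ := exists_embedding_dict E v
  rw [← hτ]
  exact locNorm_placeOf_of_local_norms q τ hp hdeg b (fun s hsF hsE => h q τ s hsF hsE)

/-- Variant: it is enough to know the local-norm property at ONE embedding per place. -/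
theorem locNorm_of_embedding_family {p : ℕ} (hp : p.Prime) (hdeg : Module.finrank F E = p)
    (b : Fˣ) (v : HeightOneSpectrum (𝓞 F)) (q : ℕ) [Fact q.Prime] (τ : E →+* PadicAlgCl q)
    (hτ : placeOf (τ.comp (algebraMap F E)) = v)
    (h : ∀ s : PadicAlgCl q ≃ₐ[ℚ_[q]] PadicAlgCl q,
      (∀ x : F, s (τ (algebraMap F E x)) = τ (algebraMap F E x)) → (∃ x : E, s (τ x) ≠ τ x) →
        ∃ y ∈ helper1652.localFieldOf q τ, y ≠ 0 ∧
          ∏ j ∈ Finset.range p, (s ^ j) y = τ (algebraMap F E (b : F))) :
    helper1980.LocNorm F E v b := by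
  rw [← hτ]
  exact locNorm_placeOf_of_local_norms q τ hp hdeg b h

end LocNorm

end Fermat.Agent.S55.helper4608
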