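/-
S55-INFRES2 (helper4708): inflation-restriction in degree 2, cocycle level.

`G` a group, `N` a normal subgroup, `ρ : Representation k G V`.  Assume every 1-cocycle of `N`
with values in `V` is a 1-coboundary.  Then
* (`exists_isInflated_sub_dOne`) a 2-cocycle of `G` whose restriction to `N × N` is a coboundary
  is cohomologous to a 2-cocycle which is right-`N`-invariant in both variables and has
  `N`-fixed values (i.e. is the inflation of a 2-cocycle of `G ⧸ N` with values in `V^N`);
* (`exists_inflated_primitive`) an inflated 2-cocycle which is a coboundary on `G` is the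
  coboundary of an inflated 1-cochain.
-/
import Mathlib

set_option autoImplicit false

namespace Fermat.Agent.S55.helper4708

section Core

variable {k G V : Type*} [CommRing k] [Group G] [AddCommGroup V] [Module k V]

/-- The inhomogeneous 2-cocycle identity (same shape as Mathlib's `mem_cocycles₂_iff`). -/
def IsTwoCocycle (ρ : Representation k G V) (f : G × G → V) : Prop :=
  ∀ g h j : G, f (g * h, j) + f (g, h) = ρ g (f (h, j)) + f (g, h * j)

/-- The coboundary of a 1-cochain (same formula as Mathlib's `d₁₂`). -/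
def dOne (ρ : Representation k G V) (h : G → V) : G × G → V :=
  fun p => ρ p.1 (h p.2) - h (p.1 * p.2) + h p.1

/-- A 2-cochain is *inflated from `G ⧸ N`*: right-`N`-invariant in both variables, with
`N`-fixed values. -/
def IsInflated (ρ : Representation k G V) (N : Subgroup G) (f : G × G → V) : Prop :=
  (∀ g g' n n' : G, n ∈ N → n' ∈ N → f (g * n, g' * n') = f (g, g')) ∧
    ∀ g g' n : G, n ∈ N → ρ n (f (g, g')) = f (g, g')

/-- A 1-cochain is inflated from `G ⧸ N`. -/
def IsInflatedOne (ρ : Representation k G V) (N : Subgroup G) (h : G → V) : Prop :=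
  (∀ g n : G, n ∈ N → h (g * n) = h g) ∧ ∀ g n : G, n ∈ N → ρ n (h g) = h g

/-- `H¹(N, V) = 0`, cocycle form: every 1-cocycle of `N` is a coboundary (cochains are taken as
functions on `G`, only their values on `N` matter). -/
def OneCocyclesTrivialOn (ρ : Representation k G V) (N : Subgroup G) : Prop :=
  ∀ c : G → V, (∀ m n : G, m ∈ N → n ∈ N → c (m * n) = ρ m (c n) + c m) →
    ∃ a : V, ∀ n : G, n ∈ N → c n = ρ n a - a

@[simp] lemma dOne_apply (ρ : Representation k G V) (h : G → V) (g g' : G) :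
    dOne ρ h (g, g') = ρ g (h g') - h (g * g') + h g := rfl

lemma dOne_add (ρ : Representation k G V) (h h' : G → V) :
    dOne ρ (h + h') = dOne ρ h + dOne ρ h' := by
  funext ⟨g, g'⟩
  simp only [dOne_apply, Pi.add_apply, map_add]
  abel

lemma isTwoCocycle_dOne (ρ : Representation k G V) (h : G → V) : IsTwoCocycle ρ (dOne ρ h) := by
  intro g g' j
  simp only [dOne_apply, map_add, map_sub, map_mul, Module.End.mul_apply, mul_assoc]
  abel

lemma IsTwoCocycle.sub {ρ : Representation k G V} {f f' : G × G → V}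
    (hf : IsTwoCocycle ρ f) (hf' : IsTwoCocycle ρ f') : IsTwoCocycle ρ (f - f') := by
  intro g h j
  have h1 := hf g h j
  have h2 := hf' g h j
  simp only [Pi.sub_apply, map_sub]
  rw [sub_add_sub_comm, h1, h2]
  abel

/-- Stage 4: a 2-cocycle vanishing on `G × N` and on `N × G` is inflated. -/
lemma isInflated_of_vanish {ρ : Representation k G V} {N : Subgroup G} [N.Normal]
    {f : G × G → V} (hf : IsTwoCocycle ρ f)
    (h1 : ∀ g n : G, n ∈ N → f (g, n) = 0) (h2 : ∀ g n : G, n ∈ N → f (n, g) = 0) :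
    IsInflated ρ N f := by
  -- right invariance in the second variable
  have hr : ∀ g g' n : G, n ∈ N → f (g, g' * n) = f (g, g') := by
    intro g g' n hn
    have := hf g g' n
    rw [h1 g' n hn, h1 (g * g') n hn] at this
    simpa using this.symm
  -- right invariance in the first variable
  have hl : ∀ g g' n : G, n ∈ N → f (g * n, g') = f (g, g') := by
    intro g g' n hn
    have := hf g n g'
    rw [h1 g n hn, h2 g' n hn] at this
    have e : n * g' = g' * (g'⁻¹ * n * g') := by group
    rw [e, hr g g' _ (Subgroup.Normal.conj_mem' ‹_› n hn g')] at this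
    simpa using this
  refine ⟨fun g g' n n' hn hn' => by rw [hr _ _ _ hn', hl _ _ _ hn], fun g g' n hn => ?_⟩
  have := hf n g g'
  rw [h2 g n hn, h2 (g * g') n hn] at this
  have e : n * g = g * (g⁻¹ * n * g) := by group
  rw [e, hl g g' _ (Subgroup.Normal.conj_mem' ‹_› n hn g)] at this
  simpa using this.symm


/-- Stage 2: a 2-cocycle vanishing on `N × N` is cohomologous to one vanishing on `G × N`. -/
lemma exists_vanish_right {ρ : Representation k G V} {N : Subgroup G} [N.Normal]
    {f : G × G → V} (hf : IsTwoCocycle ρ f)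
    (h0 : ∀ m n : G, m ∈ N → n ∈ N → f (m, n) = 0) :
    ∃ h₂ : G → V, ∀ g n : G, n ∈ N → (f - dOne ρ h₂) (g, n) = 0 := by
  classical
  let s : G → G := fun g => (QuotientGroup.mk g : G ⧸ N).out
  have hs : ∀ g : G, (s g)⁻¹ * g ∈ N := fun g =>
    QuotientGroup.eq.1 (QuotientGroup.out_eq' (QuotientGroup.mk g : G ⧸ N))
  have hsN : ∀ g n : G, n ∈ N → s (g * n) = s g := fun g n hn => by
    simp only [s]; rw [QuotientGroup.mk_mul_of_mem g hn]
  have hsmem : ∀ n : G, n ∈ N → s n ∈ N := fun n hn => by
    have h1 := hs n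
    have h2 : s n = n * ((s n)⁻¹ * n)⁻¹ := by group
    rw [h2]
    exact N.mul_mem hn (N.inv_mem h1)
  refine ⟨fun g => - f (s g, (s g)⁻¹ * g), fun g n hn => ?_⟩
  have hc := hf (s g) ((s g)⁻¹ * g) n
  rw [mul_inv_cancel_left, h0 _ _ (hs g) hn, map_zero, zero_add] at hc
  have hn0 : f (s n, (s n)⁻¹ * n) = 0 := h0 _ _ (hsmem n hn) (hs n)
  simp only [Pi.sub_apply, dOne_apply, hsN g n hn, hn0, neg_zero, map_zero, zero_sub]
  rw [← mul_assoc, ← hc]
  abel

/-- Stage 3: under `H¹(N, V) = 0`, a 2-cocycle vanishing on `G × N` is cohomologous to one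
vanishing on `G × N` and on `N × G`. -/
lemma exists_vanish_both {ρ : Representation k G V} {N : Subgroup G} [N.Normal]
    (HN : OneCocyclesTrivialOn ρ N) {f : G × G → V} (hf : IsTwoCocycle ρ f)
    (h1 : ∀ g n : G, n ∈ N → f (g, n) = 0) :
    ∃ h₃ : G → V, (∀ g n : G, n ∈ N → (f - dOne ρ h₃) (g, n) = 0) ∧
      ∀ g n : G, n ∈ N → (f - dOne ρ h₃) (n, g) = 0 := by
  classical
  -- right invariance in the second variable
  have hr : ∀ g g' n : G, n ∈ N → f (g, g' * n) = f (g, g') := by
    intro g g' n hn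
    have := hf g g' n
    rw [h1 g' n hn, h1 (g * g') n hn] at this
    simpa using this.symm
  have hcoc : ∀ g m n : G, m ∈ N → n ∈ N → f (m * n, g) = ρ m (f (n, g)) + f (m, g) := by
    intro g m n hm hn
    have := hf m n g
    rw [h1 m n hn, add_zero] at this
    have e : n * g = g * (g⁻¹ * n * g) := by group
    rw [e, hr m g _ (Subgroup.Normal.conj_mem' ‹_› n hn g)] at this
    exact this
  choose a ha using fun g : G => HN (fun n => f (n, g)) (hcoc g)
  let s : G → G := fun g => (QuotientGroup.mk g : G ⧸ N).out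
  have hs : ∀ g : G, (s g)⁻¹ * g ∈ N := fun g =>
    QuotientGroup.eq.1 (QuotientGroup.out_eq' (QuotientGroup.mk g : G ⧸ N))
  have hsN : ∀ g n : G, n ∈ N → s (g * n) = s g := fun g n hn => by
    simp only [s]; rw [QuotientGroup.mk_mul_of_mem g hn]
  have hs1 : ∀ n : G, n ∈ N → s n = s 1 := fun n hn => by
    have := hsN 1 n hn
    rwa [one_mul] at this
  have hsmem : ∀ n : G, n ∈ N → s n ∈ N := fun n hn => by
    have h1 := hs n
    have h2 : s n = n * ((s n)⁻¹ * n)⁻¹ := by group
    rw [h2]
    exact N.mul_mem hn (N.inv_mem h1)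
  -- the key relation
  have key : ∀ g n : G, n ∈ N → ρ n (a (s g)) - a (s g) = f (n, g) := by
    intro g n hn
    rw [← ha (s g) n hn]
    have e : g = s g * ((s g)⁻¹ * g) := by group
    conv_rhs => rw [e]
    exact (hr n (s g) _ (hs g)).symm
  have key1 : ∀ n : G, n ∈ N → ρ n (a (s 1)) - a (s 1) = 0 := by
    intro n hn
    rw [← ha (s 1) n hn]
    exact h1 n (s 1) (hsmem 1 N.one_mem)
  refine ⟨fun g => a (s g) - a (s 1), fun g n hn => ?_, fun g n hn => ?_⟩
  · simp only [Pi.sub_apply, dOne_apply, h1 g n hn, hsN g n hn, hs1 n hn, sub_self, map_zero]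
    abel
  · have e : n * g = g * (g⁻¹ * n * g) := by group
    have hsng : s (n * g) = s g := by
      rw [e]; exact hsN g _ (Subgroup.Normal.conj_mem' ‹_› n hn g)
    have k1 := key g n hn
    have k2 := key1 n hn
    simp only [Pi.sub_apply, dOne_apply, hsng, hs1 n hn, sub_self, map_sub, add_zero]
    rw [← k1]
    have k2' : ρ n (a (s 1)) = a (s 1) := sub_eq_zero.1 k2
    rw [k2']
    abel

/-- **Inflation-restriction in degree 2, exactness in the middle** (cocycle level).
If `H¹(N, V) = 0` and the restriction to `N × N` of the 2-cocycle `f` is the coboundary of `u`,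
then `f` is cohomologous to a 2-cocycle inflated from `G ⧸ N`. -/
theorem exists_isInflated_sub_dOne {ρ : Representation k G V} {N : Subgroup G} [N.Normal]
    (HN : OneCocyclesTrivialOn ρ N) {f : G × G → V} (hf : IsTwoCocycle ρ f)
    (u : G → V) (hu : ∀ m n : G, m ∈ N → n ∈ N → f (m, n) = ρ m (u n) - u (m * n) + u m) :
    ∃ h : G → V, IsInflated ρ N (f - dOne ρ h) := by
  have hf1 : IsTwoCocycle ρ (f - dOne ρ u) := hf.sub (isTwoCocycle_dOne ρ u)
  have h0 : ∀ m n : G, m ∈ N → n ∈ N → (f - dOne ρ u) (m, n) = 0 := by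
    intro m n hm hn
    simp only [Pi.sub_apply, dOne_apply, hu m n hm hn, sub_self]
  obtain ⟨h₂, hh₂⟩ := exists_vanish_right hf1 h0
  have hf2 : IsTwoCocycle ρ (f - dOne ρ u - dOne ρ h₂) := hf1.sub (isTwoCocycle_dOne ρ h₂)
  obtain ⟨h₃, hh₃, hh₃'⟩ := exists_vanish_both HN hf2 hh₂
  have hf3 : IsTwoCocycle ρ (f - dOne ρ u - dOne ρ h₂ - dOne ρ h₃) :=
    hf2.sub (isTwoCocycle_dOne ρ h₃)
  refine ⟨u + h₂ + h₃, ?_⟩
  have e : f - dOne ρ (u + h₂ + h₃) = f - dOne ρ u - dOne ρ h₂ - dOne ρ h₃ := by
    rw [dOne_add, dOne_add]; abel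
  rw [e]
  exact isInflated_of_vanish hf3 hh₃ hh₃'

lemma aux_cancel₁ {W : Type*} [AddCommGroup W] {x b c : W}
    (h : x - b + c = x - c + c) : b = c := by
  have e : b - c = -((x - b + c) - (x - c + c)) := by abel
  rw [h, sub_self, neg_zero] at e
  exact sub_eq_zero.1 e

lemma aux_cancel₂ {W : Type*} [AddCommGroup W] {y c a : W}
    (h : y - c + a = c - c + a) : y = c := by
  have e : y - c = (y - c + a) - (c - c + a) := by abel
  rw [h, sub_self] at e
  exact sub_eq_zero.1 e

/-- A primitive of an inflated 2-cochain which is constant on `N` is inflated. -/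
lemma isInflatedOne_of_const_on {ρ : Representation k G V} {N : Subgroup G} [N.Normal]
    {f : G × G → V} (hf : IsInflated ρ N f) (h' : G → V) (hfh : f = dOne ρ h')
    (a₀ : V) (hN : ∀ n : G, n ∈ N → h' n = a₀) : IsInflatedOne ρ N h' := by
  obtain ⟨hinv, -⟩ := hf
  have hri : ∀ g n : G, n ∈ N → h' (g * n) = h' g := by
    intro g n hn
    have e1 := hinv g 1 1 n N.one_mem hn
    rw [mul_one, one_mul, hfh] at e1
    simp only [dOne_apply, mul_one] at e1
    rw [hN n hn, hN 1 N.one_mem] at e1
    exact aux_cancel₁ e1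
  refine ⟨hri, fun g n hn => ?_⟩
  have e1 := hinv 1 g n 1 hn N.one_mem
  rw [one_mul, mul_one, hfh] at e1
  simp only [dOne_apply, one_mul, map_one, Module.End.one_apply] at e1
  have e : n * g = g * (g⁻¹ * n * g) := by group
  have hconj : g⁻¹ * n * g ∈ N := Subgroup.Normal.conj_mem' ‹_› n hn g
  rw [e, hri g _ hconj, hN n hn, hN 1 N.one_mem] at e1
  exact aux_cancel₂ e1

/-- **Inflation is injective on `H²`** (cocycle level): under `H¹(N, V) = 0`, an inflated
2-cochain which is the coboundary of some 1-cochain of `G` is the coboundary of an inflated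
1-cochain. -/
theorem exists_inflated_primitive {ρ : Representation k G V} {N : Subgroup G} [N.Normal]
    (HN : OneCocyclesTrivialOn ρ N) {f : G × G → V} (hf : IsInflated ρ N f)
    (h : G → V) (hfh : f = dOne ρ h) :
    ∃ h' : G → V, IsInflatedOne ρ N h' ∧ f = dOne ρ h' := by
  have h11 : f (1, 1) = h 1 := by rw [hfh]; simp
  have hfixa : ∀ n : G, n ∈ N → ρ n (h 1) = h 1 := fun n hn => by
    rw [← h11]; exact hf.2 1 1 n hn
  have hmn : ∀ m n : G, m ∈ N → n ∈ N → ρ m (h n) - h (m * n) + h m = h 1 := by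
    intro m n hm hn
    have := hf.1 1 1 m n hm hn
    rw [one_mul, one_mul, h11, hfh] at this
    simpa using this
  obtain ⟨b, hb⟩ := HN (fun g => h g - h 1) (fun m n hm hn => by
    have := hmn m n hm hn
    simp only [map_sub, hfixa m hm]
    rw [← this]; abel)
  -- the corrected primitive
  have hd : dOne ρ (fun g => h g - (ρ g b - b)) = dOne ρ h := by
    funext ⟨g, g'⟩
    simp only [dOne_apply, map_sub, map_mul, Module.End.mul_apply]
    abel
  have hN : ∀ n : G, n ∈ N → h n - (ρ n b - b) = h 1 := fun n hn => by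
    have := hb n hn
    rw [← this]; abel
  have hfh' : f = dOne ρ (fun g => h g - (ρ g b - b)) := by rw [hd, hfh]
  exact ⟨fun g => h g - (ρ g b - b), isInflatedOne_of_const_on hf _ hfh' (h 1) hN, hfh'⟩

end Core

section H2

open CategoryTheory groupCohomology Rep

universe u

variable {k G : Type u} [CommRing k] [Group G] (A : Rep k G) (S : Subgroup G) [S.Normal]

/-- The inflation map `H²(G ⧸ S, A^S) ⟶ H²(G, A)` (same shape as Mathlib's `H1InfRes.f`). -/
noncomputable abbrev infH2 :
    groupCohomology (A.quotientToInvariants S) 2 ⟶ groupCohomology A 2 :=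
  map (QuotientGroup.mk' S) (ofHom <| A.ρ.quotientToInvariants_lift S) 2

/-- The restriction map `H²(G, A) ⟶ H²(S, A)` (same shape as Mathlib's `H1InfRes.g`). -/
noncomputable abbrev resH2 :
    groupCohomology A 2 ⟶ groupCohomology (res S.subtype A) 2 :=
  map S.subtype (𝟙 _) 2

lemma mem_cocycles₂_iff_isTwoCocycle (f : G × G → A) :
    f ∈ cocycles₂ A ↔ IsTwoCocycle A.ρ f := mem_cocycles₂_iff f

lemma d₁₂_eq_dOne (h : G → A) : (d₁₂ A).hom h = dOne A.ρ h := rfl

omit [S.Normal] in
/-- Mathlib's `H¹(S, A) = 0` gives the cocycle-level vanishing used in this file. -/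
lemma oneCocyclesTrivialOn_of_H1_eq_zero (h : ∀ x : H1 (res S.subtype A), x = 0) :
    OneCocyclesTrivialOn A.ρ S := by
  intro c hc
  have hmem : (fun s : S => c s) ∈ cocycles₁ (res S.subtype A) :=
    (mem_cocycles₁_iff (A := res S.subtype A) _).2 fun s t => hc s t s.2 t.2
  obtain ⟨a, ha⟩ := (H1π_eq_zero_iff (A := res S.subtype A) ⟨_, hmem⟩).1 (h _)
  exact ⟨a, fun n hn => (congr_fun ha ⟨n, hn⟩).symm⟩

set_option backward.isDefEq.respectTransparency false in
/-- The inflated 2-cochain on `G` attached to a 2-cocycle of `G ⧸ S` with values in `A^S`. -/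
lemma isInflated_inflation (x : cocycles₂ (A.quotientToInvariants S)) :
    IsInflated A.ρ S (fun p : G × G => ((x ((p.1 : G ⧸ S), (p.2 : G ⧸ S)) :
      Representation.invariants (A.ρ.comp S.subtype)) : A)) := by
  refine ⟨fun g g' n n' hn hn' => ?_, fun g g' n hn => ?_⟩
  · simp only [QuotientGroup.mk_mul_of_mem g hn, QuotientGroup.mk_mul_of_mem g' hn']
  · exact (x ((g : G ⧸ S), (g' : G ⧸ S))).2 ⟨n, hn⟩

set_option backward.isDefEq.respectTransparency false in
/-- **Inflation `H²(G ⧸ S, A^S) ⟶ H²(G, A)` is injective when `H¹(S, A) = 0`.** -/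
theorem infH2_injective (HN : OneCocyclesTrivialOn A.ρ S) :
    Function.Injective (infH2 A S) := by
  rw [injective_iff_map_eq_zero]
  intro x hx
  induction x using H2_induction_on with | @h x =>
  rw [H2π_comp_map_apply (QuotientGroup.mk' S)] at hx
  obtain ⟨h, hh⟩ := (H2π_eq_zero_iff _).1 hx
  have hfh : (fun p : G × G => ((x ((p.1 : G ⧸ S), (p.2 : G ⧸ S)) :
      Representation.invariants (A.ρ.comp S.subtype)) : A)) = dOne A.ρ h := by
    rw [← d₁₂_eq_dOne, hh]
    rfl
  obtain ⟨h', ⟨hri, hfix⟩, hfh'⟩ := exists_inflated_primitive HN (isInflated_inflation A S x) h hfh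
  refine (H2π_eq_zero_iff _).2 ⟨fun q => Quotient.liftOn' q
    (fun g => (⟨h' g, fun s => hfix g s.1 s.2⟩ : Representation.invariants (A.ρ.comp S.subtype))) ?_, ?_⟩
  · intro a b hab
    have hab' : a⁻¹ * b ∈ S := QuotientGroup.leftRel_apply.1 hab
    apply Subtype.ext
    have := hri a (a⁻¹ * b) hab'
    rw [mul_inv_cancel_left] at this
    exact this.symm
  · funext ⟨q, q'⟩
    induction q using QuotientGroup.induction_on with | @H g =>
    induction q' using QuotientGroup.induction_on with | @H g' =>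
    apply Subtype.ext
    have := congr_fun hfh' (g, g')
    simp only [dOne_apply] at this
    rw [d₁₂_hom_apply]
    simp only [← QuotientGroup.mk_mul]
    exact this.symm

set_option backward.isDefEq.respectTransparency false in
/-- Restriction after inflation is zero on `H²`. -/
theorem resH2_infH2_apply (x : groupCohomology (A.quotientToInvariants S) 2) :
    resH2 A S (infH2 A S x) = 0 := by
  induction x using H2_induction_on with | @h x =>
  rw [H2π_comp_map_apply (QuotientGroup.mk' S), H2π_comp_map_apply S.subtype]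
  refine (H2π_eq_zero_iff _).2
    ⟨fun _ => ((x (1, 1) : Representation.invariants (A.ρ.comp S.subtype)) : A), ?_⟩
  funext ⟨s, t⟩
  have hs : ((s : G) : G ⧸ S) = 1 := (QuotientGroup.eq_one_iff _).2 s.2
  have ht : ((t : G) : G ⧸ S) = 1 := (QuotientGroup.eq_one_iff _).2 t.2
  have hfix : A.ρ s ((x (1, 1) : Representation.invariants (A.ρ.comp S.subtype)) : A)
      = ((x (1, 1) : Representation.invariants (A.ρ.comp S.subtype)) : A) := (x (1, 1)).2 s
  rw [d₁₂_hom_apply]
  change A.ρ s _ - _ + _ =
    ((x (((s : G) : G ⧸ S), ((t : G) : G ⧸ S)) : Representation.invariants (A.ρ.comp S.subtype)) : A)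
  rw [hs, ht, hfix]
  abel

set_option backward.isDefEq.respectTransparency false in
/-- **Inflation-restriction in degree 2**: if `H¹(S, A) = 0` then
`H²(G ⧸ S, A^S) ⟶ H²(G, A) ⟶ H²(S, A)` is exact. -/
theorem infH2_resH2_exact (HN : OneCocyclesTrivialOn A.ρ S) :
    Function.Exact (infH2 A S) (resH2 A S) := by
  classical
  intro y
  constructor
  swap
  · rintro ⟨x, rfl⟩
    exact resH2_infH2_apply A S x
  intro hy
  induction y using H2_induction_on with | @h f =>
  rw [H2π_comp_map_apply S.subtype] at hy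
  obtain ⟨u, hu⟩ := (H2π_eq_zero_iff _).1 hy
  -- extend `u` by zero
  let u' : G → A := fun g => if hg : g ∈ S then u ⟨g, hg⟩ else 0
  have hu' : ∀ m n : G, m ∈ S → n ∈ S → f (m, n) = A.ρ m (u' n) - u' (m * n) + u' m := by
    intro m n hm hn
    have := congr_fun hu (⟨m, hm⟩, ⟨n, hn⟩)
    rw [d₁₂_hom_apply] at this
    simp only [u', dif_pos hm, dif_pos hn, dif_pos (S.mul_mem hm hn)]
    exact this.symm
  obtain ⟨h, hinv, hfix⟩ := exists_isInflated_sub_dOne HN ((mem_cocycles₂_iff f).1 f.2) u' hu'
  have hcoc : IsTwoCocycle A.ρ (⇑f - dOne A.ρ h) :=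
    IsTwoCocycle.sub ((mem_cocycles₂_iff f).1 f.2) (isTwoCocycle_dOne A.ρ h)
  -- the descended cocycle
  let fbar : (G ⧸ S) × (G ⧸ S) → Representation.invariants (A.ρ.comp S.subtype) := fun p =>
    Quotient.liftOn₂' p.1 p.2
      (fun g g' => (⟨(⇑f - dOne A.ρ h) (g, g'), fun s => hfix g g' s.1 s.2⟩ :
        Representation.invariants (A.ρ.comp S.subtype)))
      (by
        intro a₁ a₂ b₁ b₂ h₁ h₂
        have h₁' : a₁⁻¹ * b₁ ∈ S := QuotientGroup.leftRel_apply.1 h₁
        have h₂' : a₂⁻¹ * b₂ ∈ S := QuotientGroup.leftRel_apply.1 h₂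
        apply Subtype.ext
        have := hinv a₁ a₂ _ _ h₁' h₂'
        rw [mul_inv_cancel_left, mul_inv_cancel_left] at this
        exact this.symm)
  have hfbar : fbar ∈ cocycles₂ (A.quotientToInvariants S) := by
    rw [mem_cocycles₂_iff]
    intro q q' q''
    induction q using QuotientGroup.induction_on with | @H g =>
    induction q' using QuotientGroup.induction_on with | @H g' =>
    induction q'' using QuotientGroup.induction_on with | @H g'' =>
    apply Subtype.ext
    exact hcoc g g' g''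
  refine ⟨H2π _ ⟨fbar, hfbar⟩, ?_⟩
  rw [H2π_comp_map_apply (QuotientGroup.mk' S)]
  refine (H2π_eq_iff _ _).2 ⟨-h, ?_⟩
  funext ⟨g, g'⟩
  rw [d₁₂_hom_apply]
  change A.ρ g (-h g') - (-h (g * g')) + (-h g) = (⇑f - dOne A.ρ h) (g, g') - f (g, g')
  simp only [Pi.sub_apply, dOne_apply, map_neg]
  abel

/-- Counting along an exact sequence of additive groups: if `X₁ → X₂ → X₃` is exact with `X₁`
and `X₃` finite, then `#X₂ ≤ #X₁ * #X₃`. -/
lemma card_le_mul_of_exact {X₁ X₂ X₃ : Type*} [AddCommGroup X₁] [AddCommGroup X₂] [AddCommGroup X₃]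
    [Finite X₁] [Finite X₃] (f : X₁ →+ X₂) (g : X₂ →+ X₃) (hfg : Function.Exact f g) :
    Nat.card X₂ ≤ Nat.card X₁ * Nat.card X₃ := by
  have h1 : Nat.card g.ker * g.ker.index = Nat.card X₂ := AddSubgroup.card_mul_index g.ker
  have h2 : g.ker.index = Nat.card g.range := AddSubgroup.index_ker g
  have h3 : Nat.card g.range ≤ Nat.card X₃ := Nat.card_le_card_of_injective _ Subtype.val_injective
  have h4 : Nat.card g.ker ≤ Nat.card X₁ := by
    have hsurj : Function.Surjective (fun x : X₁ => (⟨f x, (hfg (f x)).2 ⟨x, rfl⟩⟩ : g.ker)) := by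
      rintro ⟨y, hy⟩
      obtain ⟨x, rfl⟩ := (hfg y).1 hy
      exact ⟨x, rfl⟩
    exact Nat.card_le_card_of_surjective _ hsurj
  rw [← h1, h2]
  exact Nat.mul_le_mul h4 h3

/-- Finiteness along an exact sequence of additive groups. -/
lemma finite_of_exact {X₁ X₂ X₃ : Type*} [AddCommGroup X₁] [AddCommGroup X₂] [AddCommGroup X₃]
    [Finite X₁] [Finite X₃] (f : X₁ →+ X₂) (g : X₂ →+ X₃) (hfg : Function.Exact f g) :
    Finite X₂ := by
  classical
  -- choose a representative for each value of `g`
  let rep : X₃ → X₂ := fun z => if hz : ∃ y, g y = z then hz.choose else 0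
  have hrep : ∀ y : X₂, g (rep (g y)) = g y := fun y => by
    have hz : ∃ y', g y' = g y := ⟨y, rfl⟩
    simp only [rep, dif_pos hz]
    exact hz.choose_spec
  have hsurj : Function.Surjective (fun p : X₃ × X₁ => rep p.1 + f p.2) := by
    intro y
    obtain ⟨x', hx'⟩ := (hfg (y - rep (g y))).1 (by rw [map_sub, hrep, sub_self])
    exact ⟨(g y, x'), by simp only; rw [hx']; abel⟩
  exact Finite.of_surjective _ hsurj

/-- **Counting form of inflation-restriction in degree 2**: if `H¹(S, A) = 0` and the outer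
terms are finite then `#H²(G, A) ≤ #H²(G ⧸ S, A^S) * #H²(S, A)`. -/
theorem card_H2_le_mul (HN : OneCocyclesTrivialOn A.ρ S)
    [Finite (groupCohomology (A.quotientToInvariants S) 2)]
    [Finite (groupCohomology (res S.subtype A) 2)] :
    Nat.card (groupCohomology A 2) ≤
      Nat.card (groupCohomology (A.quotientToInvariants S) 2) *
        Nat.card (groupCohomology (res S.subtype A) 2) :=
  card_le_mul_of_exact (infH2 A S).hom.toAddMonoidHom (resH2 A S).hom.toAddMonoidHom
    (infH2_resH2_exact A S HN)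

/-- Finiteness form of inflation-restriction in degree 2. -/
theorem finite_H2_of_finite (HN : OneCocyclesTrivialOn A.ρ S)
    [Finite (groupCohomology (A.quotientToInvariants S) 2)]
    [Finite (groupCohomology (res S.subtype A) 2)] :
    Finite (groupCohomology A 2) :=
  finite_of_exact (infH2 A S).hom.toAddMonoidHom (resH2 A S).hom.toAddMonoidHom
    (infH2_resH2_exact A S HN)

end H2

end Fermat.Agent.S55.helper4708
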