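import Mathlib
import Fermat.Prelude.Def_GaloisRep_CompletionBridge
import Fermat.Agent.S55.helper4709_GlobRam
import Fermat.Agent.S55.helper1652_LocalNorm

/-!
# S55-GLOBRAM, part 3 (helper4709): value groups at the places outside `S`, local form

`F` a subfield of `ℚ̄` unramified outside `S` (frozen sense), `q ∉ S` a prime, `g ∈ Gal(ℚ̄/ℚ)`.
The place `(q, g)` is the embedding `τ = padicEmbedding q ∘ g⁻¹ : ℚ̄ → PadicAlgCl q`.

* `(G5)` `exists_zpow_norm_padicEmbedding` : every nonzero `x ∈ F` has `‖τ x‖ ∈ q ^ ℤ`;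
* `(G5-loc)` `exists_zpow_norm_of_mem_localFieldOf` : if the nonzero elements of `φ K` have
  norm in `q ^ ℤ`, so do the nonzero elements of the local field `ℚ_q(φ K)` (density);
* `(G5-tau)` `exists_zpow_norm_of_mem_localFieldOf_tau` : every nonzero element of the local
  field `ℚ_q(τ E)`, `E ⊆ F`, has norm in `q ^ ℤ` — the local field at a place outside `S` of an
  `S`-field is absolutely unramified.
-/

set_option autoImplicit false
set_option linter.unusedSectionVars false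

namespace Fermat.Agent.S55.helper4709

open scoped Pointwise NumberField
open Fermat.Agent.Lib

local notation "Qb" => AlgebraicClosure ℚ
local notation "GQ" => (AlgebraicClosure ℚ ≃ₐ[ℚ] AlgebraicClosure ℚ)

section

variable (q : ℕ) [Fact q.Prime]

/-- The norm of `q` in `PadicAlgCl q`. -/
theorem norm_natCast_self_padicAlgCl : ‖((q : ℕ) : PadicAlgCl q)‖ = (q : ℝ)⁻¹ := by
  have h : ((q : ℕ) : PadicAlgCl q) = algebraMap ℚ_[q] (PadicAlgCl q) ((q : ℕ) : ℚ_[q]) := by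
    rw [map_natCast]
  rw [h, PadicAlgCl.norm_extends, Padic.norm_p]

/-- The norm of an integral power of `q` in `PadicAlgCl q`. -/
theorem norm_natCast_self_zpow_padicAlgCl (k : ℤ) :
    ‖((q : ℕ) : PadicAlgCl q) ^ k‖ = (q : ℝ) ^ (-k) := by
  rw [norm_zpow, norm_natCast_self_padicAlgCl, inv_zpow, zpow_neg]

/-- `padicPlace q` lies over `q`. -/
theorem padicPlace_liesOverPrime_self : (padicPlace q).LiesOverPrime q := by
  show ((q : ℕ) : Qb) ∈ (padicPlace q).nonunits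
  rw [ValuationSubring.mem_nonunits_iff_exists_mem_maximalIdeal]
  have hq1 : (1 : ℝ) < q := by exact_mod_cast (Fact.out : q.Prime).one_lt
  have hmem : ((q : ℕ) : Qb) ∈ padicPlace q := by
    rw [mem_padicPlace_iff, ← NNReal.coe_le_coe, coe_nnnorm, map_natCast,
      norm_natCast_self_padicAlgCl]
    exact (inv_lt_one_of_one_lt₀ hq1).le
  refine ⟨hmem, ?_⟩
  rw [IsLocalRing.mem_maximalIdeal, mem_nonunits_iff]
  intro hu
  obtain ⟨u, hu⟩ := hu
  have hinv : (((q : ℕ) : Qb))⁻¹ ∈ padicPlace q := by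
    have h1 : (((u⁻¹ : (padicPlace q)ˣ) : padicPlace q) : Qb) = (((q : ℕ) : Qb))⁻¹ := by
      have h2 : ((u : padicPlace q) : Qb) * (((u⁻¹ : (padicPlace q)ˣ) : padicPlace q) : Qb) = 1 := by
        rw [← Subring.coe_mul, Units.mul_inv]
        rfl
      rw [hu] at h2
      exact eq_inv_of_mul_eq_one_right h2
    rw [← h1]
    exact (((u⁻¹ : (padicPlace q)ˣ) : padicPlace q)).2
  rw [mem_padicPlace_iff, ← NNReal.coe_le_coe, coe_nnnorm, map_inv₀, map_natCast, norm_inv,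
    norm_natCast_self_padicAlgCl, inv_inv] at hinv
  have : ((1 : NNReal) : ℝ) = 1 := rfl
  linarith

/-- An element of valuation `1` for `padicPlace q` has norm `1`. -/
theorem norm_padicEmbedding_eq_one_of_valuation_eq_one {z : Qb}
    (hz : (padicPlace q).valuation z = 1) : ‖padicEmbedding q z‖ = 1 := by
  have hz0 : z ≠ 0 := by
    rintro rfl
    rw [map_zero] at hz
    exact zero_ne_one hz
  have h1 : z ∈ padicPlace q := (ValuationSubring.valuation_le_one_iff _ _).1 hz.le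
  have h2 : z⁻¹ ∈ padicPlace q := by
    rw [← ValuationSubring.valuation_le_one_iff, map_inv₀, hz, inv_one]
  rw [mem_padicPlace_iff, ← NNReal.coe_le_coe, coe_nnnorm] at h1 h2
  rw [map_inv₀, norm_inv] at h2
  have hpos : 0 < ‖padicEmbedding q z‖ := by
    rw [norm_pos_iff, Ne, map_eq_zero]
    exact hz0
  have h3 : (1 : ℝ) ≤ ‖padicEmbedding q z‖ := by
    have h4 : ‖padicEmbedding q z‖⁻¹ ≤ 1 := h2
    exact (inv_le_one₀ hpos).1 h4
  exact le_antisymm h1 h3

/-- **(G5) Value group at a place outside `S`.**  If `F` is unramified outside `S` (frozen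
sense), `q ∉ S` and `g ∈ Gal(ℚ̄/ℚ)`, then every nonzero `x ∈ F` has `‖ι (g⁻¹ x)‖ ∈ q ^ ℤ`
(`ι = padicEmbedding q`): `q` is a uniformizer at the place `(q, g)` of `F`. -/
theorem exists_zpow_norm_padicEmbedding {S : Finset Nat.Primes} {F : IntermediateField ℚ Qb}
    (hF : F.IsUnramifiedOutside S) (hqS : ∀ l ∈ S, ((l : Nat.Primes) : ℕ) ≠ q) (g : GQ)
    (x : Qb) (hx : x ∈ F) (hx0 : x ≠ 0) :
    ∃ k : ℤ, ‖padicEmbedding q (g⁻¹ x)‖ = (q : ℝ) ^ k := by
  have hF' := isUnramifiedOutside_map hF g⁻¹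
  have hy : g⁻¹ x ∈ F.map ((g⁻¹ : GQ) : Qb →ₐ[ℚ] Qb) := (IntermediateField.mem_map F).2 ⟨x, hx, rfl⟩
  have hy0 : g⁻¹ x ≠ 0 := by
    rw [Ne, map_eq_zero]
    exact hx0
  have hq' : (⟨q, Fact.out⟩ : Nat.Primes) ∉ S := fun h => hqS _ h rfl
  obtain ⟨k, hk⟩ := exists_zpow_valuation_eq_one hF' (⟨q, Fact.out⟩ : Nat.Primes) hq'
    (padicPlace q) (padicPlace_liesOverPrime_self q) (g⁻¹ x) hy hy0
  have h1 := norm_padicEmbedding_eq_one_of_valuation_eq_one q hk
  refine ⟨-k, ?_⟩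
  have hqk : ((q : ℕ) : PadicAlgCl q) ^ k ≠ 0 :=
    zpow_ne_zero _ (Nat.cast_ne_zero.2 (Fact.out : q.Prime).ne_zero)
  have h2 : padicEmbedding q (g⁻¹ x / ((q : ℕ) : Qb) ^ k) =
      padicEmbedding q (g⁻¹ x) / ((q : ℕ) : PadicAlgCl q) ^ k := by
    rw [map_div₀, map_zpow₀, map_natCast]
  have h3 : ‖padicEmbedding q (g⁻¹ x)‖ = ‖((q : ℕ) : PadicAlgCl q) ^ k‖ := by
    have h4 : ‖padicEmbedding q (g⁻¹ x) / ((q : ℕ) : PadicAlgCl q) ^ k‖ = 1 := by
      rw [← h2]
      exact h1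
    rw [norm_div, div_eq_one_iff_eq (norm_ne_zero_iff.2 hqk)] at h4
    exact h4
  rw [h3, norm_natCast_self_zpow_padicAlgCl]

/-- **(G5-loc)** If the nonzero elements of `φ K` have norm in `q ^ ℤ`, so do the nonzero
elements of the local field `ℚ_q(φ K)`: `φ K` is dense in it and the norm is ultrametric. -/
theorem exists_zpow_norm_of_mem_localFieldOf {K : Type*} [Field K] [NumberField K]
    (φ : K →+* PadicAlgCl q) (hφ : ∀ x : K, x ≠ 0 → ∃ k : ℤ, ‖φ x‖ = (q : ℝ) ^ k)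
    (y : PadicAlgCl q) (hy : y ∈ helper1652.localFieldOf q φ) (hy0 : y ≠ 0) :
    ∃ k : ℤ, ‖y‖ = (q : ℝ) ^ k := by
  have hpos : 0 < ‖y‖ := norm_pos_iff.2 hy0
  obtain ⟨x, hx⟩ := helper1652.exists_approx_of_mem_localFieldOf q φ hy hpos
  have h1 : ‖φ x‖ = ‖y‖ := by
    have h2 : ‖φ x + -y‖ < max ‖φ x‖ ‖-y‖ := by
      rw [← sub_eq_add_neg, norm_neg]
      exact lt_of_lt_of_le hx (le_max_right _ _)
    have h3 := IsUltrametricDist.norm_eq_of_add_norm_lt_max h2
    rw [norm_neg] at h3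
    exact h3
  have hx0 : x ≠ 0 := by
    rintro rfl
    rw [map_zero, norm_zero] at h1
    exact hpos.ne h1
  obtain ⟨k, hk⟩ := hφ x hx0
  exact ⟨k, by rw [← h1, hk]⟩

/-- **(G5-tau)** The local field at a place outside `S` of an `S`-field is absolutely
unramified: `F` unramified outside `S`, `q ∉ S`, `g ∈ Gal(ℚ̄/ℚ)`, `φ : K → ℚ̄` an embedding of
a number field with image in `F`; then every nonzero element of `ℚ_q(τ (φ K))`,
`τ = padicEmbedding q ∘ g⁻¹`, has norm in `q ^ ℤ`. -/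
theorem exists_zpow_norm_of_mem_localFieldOf_tau {S : Finset Nat.Primes}
    {F : IntermediateField ℚ Qb} (hF : F.IsUnramifiedOutside S)
    (hqS : ∀ l ∈ S, ((l : Nat.Primes) : ℕ) ≠ q) (g : GQ)
    {K : Type*} [Field K] [NumberField K] (φ : K →+* Qb) (hφ : ∀ x : K, φ x ∈ F)
    (y : PadicAlgCl q)
    (hy : y ∈ helper1652.localFieldOf q
      (((padicEmbedding q).toRingHom.comp ((g⁻¹ : GQ) : Qb →+* Qb)).comp φ))
    (hy0 : y ≠ 0) : ∃ k : ℤ, ‖y‖ = (q : ℝ) ^ k := by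
  refine exists_zpow_norm_of_mem_localFieldOf q _ (fun x hx0 => ?_) y hy hy0
  have hφx0 : φ x ≠ 0 := by
    rw [Ne, map_eq_zero]
    exact hx0
  exact exists_zpow_norm_padicEmbedding q hF hqS g (φ x) (hφ x) hφx0

/-- `(G5-tau)` for a subfield `E ≤ F` of `ℚ̄` (with its inclusion). -/
theorem exists_zpow_norm_of_mem_localFieldOf_subfield {S : Finset Nat.Primes}
    {F : IntermediateField ℚ Qb} (hF : F.IsUnramifiedOutside S)
    (hqS : ∀ l ∈ S, ((l : Nat.Primes) : ℕ) ≠ q) (g : GQ)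
    (E : IntermediateField ℚ Qb) [NumberField E] (hEF : E ≤ F) (y : PadicAlgCl q)
    (hy : y ∈ helper1652.localFieldOf q
      (((padicEmbedding q).toRingHom.comp ((g⁻¹ : GQ) : Qb →+* Qb)).comp (algebraMap E Qb)))
    (hy0 : y ≠ 0) : ∃ k : ℤ, ‖y‖ = (q : ℝ) ^ k :=
  exists_zpow_norm_of_mem_localFieldOf_tau q hF hqS g (algebraMap E Qb) (fun x => hEF x.2) y hy hy0

end

end Fermat.Agent.S55.helper4709
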