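import Fermat.Agent.S55.helper4727_PlacesOrbits
import Fermat.Agent.S55.helper3071_GlobalBridge
import Fermat.Agent.S55.helper2945_SoftSpec

/-!
# `π₀(coind_F 𝔽_p) = #{primes of F over S}` (helper4727, S55-PLACES part 3 = (E4) of SOFT-ESTAR)

* `invariantsResCoindEquiv`: for `H ≤ G`, `r : D →* G`, the `D`-invariants of
  `Res_r Coind_H^G k` are the functions on the double cosets `H \ G / r(D)`.
* `finrank_invariants_res_coind`: their dimension is the number of double cosets.
* `pi0_indRep`: `helper2945.pi0 S (helper3071.indRep p F) = helper3071.nPl S F`.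
-/

set_option autoImplicit false

namespace Fermat.Agent.S55.helper4727

open scoped Pointwise NumberField
open IsDedekindDomain ExtCitation

section Abstract

variable {k : Type} [Field k] {G D : Type} [Group G] [Group D] (H : Subgroup G) (r : D →* G)

/-- The underlying function of an element of `Coind_H^G k`. -/
def coindFun (f : (Rep.coind H.subtype (Rep.trivial k H k)).V) : G → k := f.1

theorem coindFun_mul_left (f : (Rep.coind H.subtype (Rep.trivial k H k)).V) (h : G) (hh : h ∈ H)
    (g : G) : coindFun H f (h * g) = coindFun H f g :=
  f.2 ⟨h, hh⟩ g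

theorem coindFun_smul (f : (Rep.coind H.subtype (Rep.trivial k H k)).V) (g x : G) :
    coindFun H ((Rep.coind H.subtype (Rep.trivial k H k)).ρ g f) x = coindFun H f (x * g) := rfl

theorem coindFun_injective :
    Function.Injective (coindFun (k := k) H) := fun _ _ h => Subtype.ext h

theorem coindFun_of_invariant
    (f : (Rep.coind H.subtype (Rep.trivial k H k)).V)
    (hf : f ∈ Representation.invariants (Rep.res r (Rep.coind H.subtype (Rep.trivial k H k))).ρ)
    (d : D) (x : G) : coindFun H f (x * r d) = coindFun H f x := by
  have h1 := hf d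
  have h2 : (Rep.coind H.subtype (Rep.trivial k H k)).ρ (r d) f = f := h1
  rw [← coindFun_smul, h2]

/-- The `D`-invariants of `Res_r Coind_H^G k` as functions on `H \ G / r(D)`: the linear map. -/
noncomputable def invariantsResCoindMap :
    Representation.invariants (Rep.res r (Rep.coind H.subtype (Rep.trivial k H k))).ρ →ₗ[k]
      (DoubleCoset.Quotient (H : Set G) (r.range : Set G) → k) where
  toFun f := fun x => Quotient.liftOn' x (coindFun H f.1) (by
    intro a b hab
    obtain ⟨h, hh, d, hd, rfl⟩ := DoubleCoset.rel_iff.1 hab
    obtain ⟨d', rfl⟩ := hd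
    rw [coindFun_of_invariant H r f.1 f.2, coindFun_mul_left H f.1 h hh])
  map_add' f f' := by
    funext x
    induction x using Quotient.inductionOn' with
    | h g => rfl
  map_smul' c f := by
    funext x
    induction x using Quotient.inductionOn' with
    | h g => rfl

theorem invariantsResCoindMap_mk
    (f : Representation.invariants (Rep.res r (Rep.coind H.subtype (Rep.trivial k H k))).ρ)
    (g : G) : invariantsResCoindMap H r f (DoubleCoset.mk H r.range g) = coindFun H f.1 g := rfl

theorem invariantsResCoindMap_bijective :
    Function.Bijective (invariantsResCoindMap (k := k) H r) := by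
  constructor
  · intro f f' hff
    apply Subtype.ext
    apply coindFun_injective H
    funext g
    have := congrFun hff (DoubleCoset.mk H r.range g)
    rwa [invariantsResCoindMap_mk, invariantsResCoindMap_mk] at this
  · intro φ
    have hmk : ∀ (h : G) (_ : h ∈ H) (g : G) (d : D),
        DoubleCoset.mk H r.range (h * g * r d) = DoubleCoset.mk H r.range g := by
      intro h hh g d
      exact ((DoubleCoset.eq H r.range g (h * g * r d)).2 ⟨h, hh, r d, ⟨d, rfl⟩, rfl⟩).symm
    let f0 : (Rep.coind H.subtype (Rep.trivial k H k)).V :=
      ⟨fun g => φ (DoubleCoset.mk H r.range g), by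
        intro h g
        show φ (DoubleCoset.mk H r.range ((h : G) * g)) = φ (DoubleCoset.mk H r.range g)
        have := hmk h h.2 g 1
        rw [map_one, mul_one] at this
        rw [this]⟩
    have hf0 : f0 ∈ Representation.invariants
        (Rep.res r (Rep.coind H.subtype (Rep.trivial k H k))).ρ := by
      intro d
      apply coindFun_injective H
      funext x
      show φ (DoubleCoset.mk H r.range (x * r d)) = φ (DoubleCoset.mk H r.range x)
      have := hmk 1 H.one_mem x d
      rw [one_mul] at this
      rw [this]
    refine ⟨⟨f0, hf0⟩, ?_⟩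
    funext x
    induction x using Quotient.inductionOn' with
    | h g => rfl

/-- The `D`-invariants of `Res_r Coind_H^G k` are the functions on `H \ G / r(D)`. -/
noncomputable def invariantsResCoindEquiv :
    Representation.invariants (Rep.res r (Rep.coind H.subtype (Rep.trivial k H k))).ρ ≃ₗ[k]
      (DoubleCoset.Quotient (H : Set G) (r.range : Set G) → k) :=
  LinearEquiv.ofBijective (invariantsResCoindMap H r) (invariantsResCoindMap_bijective H r)

/-- `h⁰(D, Res_r Coind_H^G k)` is the number of double cosets `H \ G / r(D)`. -/
theorem finrank_invariants_res_coind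
    [Finite (DoubleCoset.Quotient (H : Set G) (r.range : Set G))] :
    Module.finrank k
        (Representation.invariants (Rep.res r (Rep.coind H.subtype (Rep.trivial k H k))).ρ) =
      Nat.card (DoubleCoset.Quotient (H : Set G) (r.range : Set G)) := by
  classical
  haveI : Fintype (DoubleCoset.Quotient (H : Set G) (r.range : Set G)) := Fintype.ofFinite _
  rw [(invariantsResCoindEquiv (k := k) H r).finrank_eq, Module.finrank_fintype_fun_eq_card,
    Nat.card_eq_fintype_card]

end Abstract

section Frozen

local notation "Qb" => AlgebraicClosure ℚ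
local notation "GQ" => (AlgebraicClosure ℚ ≃ₐ[ℚ] AlgebraicClosure ℚ)

variable (S : Finset Nat.Primes) (p : ℕ) [Fact p.Prime]
  (F : IntermediateField ℚ Qb) [FiniteDimensional ℚ F]

/-- `h⁰(ℚ_q, coind_F 𝔽_p)` is the number of primes of `𝓞 F` over `q`. -/
theorem finrank_invariants_res_indRep (q : Nat.Primes) :
    Module.finrank (ZMod p)
        (Representation.invariants (Rep.res (primeLocalToGlobal q) (helper3071.indRep p F)).ρ) =
      Nat.card {v : HeightOneSpectrum (𝓞 F) // (((q : Nat.Primes) : ℕ) : 𝓞 F) ∈ v.asIdeal} := by
  have : Fact ((q : Nat.Primes) : ℕ).Prime := ⟨q.2⟩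
  have : Finite (DoubleCoset.Quotient (F.fixingSubgroup : Set GQ)
      ((primeLocalToGlobal q).range : Set GQ)) := finite_doubleCoset_range (q : ℕ) F
  exact (finrank_invariants_res_coind (k := ZMod p) F.fixingSubgroup
    (primeLocalToGlobal q)).trans (card_doubleCoset_range (q : ℕ) F)

/-- **(E4) of SOFT-ESTAR**: `π₀(coind_F 𝔽_p) = #{primes of 𝓞 F over S}`. -/
theorem pi0_indRep :
    helper2945.pi0 S (helper3071.indRep p F) = helper3071.nPl S F := by
  unfold helper2945.pi0 helper3071.nPl
  rw [card_primesOver_finset]
  exact Finset.sum_congr rfl (fun q _ => finrank_invariants_res_indRep p F q)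

end Frozen

end Fermat.Agent.S55.helper4727
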