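/-
S55, leaf LS-L2 (helper4742): local soft duality in degree 2 on the frozen carriers.
Mathlib + Prelude only.  Everything is stated for a group `G` with a homomorphism
`r : G →* Gal(ℚbar/ℚ)` (levels = preimages of fixing subgroups of number fields).
-/
import Mathlib
import Fermat.Prelude.Def_GroupCohomology_ContinuousUnramified

set_option autoImplicit false

namespace Fermat.Agent.S55.helper4742

open groupCohomology

/-- The absolute Galois group of `ℚ` (frozen model). -/
abbrev GQ : Type := AlgebraicClosure ℚ ≃ₐ[ℚ] AlgebraicClosure ℚ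

section Levels

theorem isAlgebraic_Qbar : Algebra.IsAlgebraic ℚ (AlgebraicClosure ℚ) :=
  AlgebraicClosure.isAlgebraic ℚ

theorem isAlgClosure_Qbar : IsAlgClosure ℚ (AlgebraicClosure ℚ) :=
  ⟨inferInstance, isAlgebraic_Qbar⟩

theorem isGalois_Qbar : IsGalois ℚ (AlgebraicClosure ℚ) :=
  haveI := isAlgClosure_Qbar
  inferInstance

variable {G : Type} [Group G] (r : G →* GQ)

/-- Every number field is contained in a finite Galois one, whose fixing subgroup is normal. -/
lemma exists_normal_level (F : IntermediateField ℚ (AlgebraicClosure ℚ)) [FiniteDimensional ℚ F] :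
    ∃ F' : IntermediateField ℚ (AlgebraicClosure ℚ), FiniteDimensional ℚ F' ∧ F ≤ F' ∧
      ∀ (g s : GQ), s ∈ F'.fixingSubgroup → g⁻¹ * s * g ∈ F'.fixingSubgroup := by
  have hgal := isGalois_Qbar
  have hnor : Normal ℚ (AlgebraicClosure ℚ) := hgal.to_normal
  refine ⟨IntermediateField.normalClosure ℚ F (AlgebraicClosure ℚ),
    normalClosure.is_finiteDimensional ℚ F (AlgebraicClosure ℚ), F.le_normalClosure, ?_⟩
  intro g s hs
  have : Normal ℚ (IntermediateField.normalClosure ℚ F (AlgebraicClosure ℚ)) :=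
    normalClosure.normal ℚ F (AlgebraicClosure ℚ)
  have : IsGalois ℚ (IntermediateField.normalClosure ℚ F (AlgebraicClosure ℚ)) := ⟨⟩
  have hn : (IntermediateField.normalClosure ℚ F (AlgebraicClosure ℚ)).fixingSubgroup.Normal :=
    inferInstance
  have := hn.conj_mem s hs g⁻¹
  simpa using this

/-- A level-constant 1-cochain is right invariant under a normal level. -/
lemma exists_normal_of_isLevelConstant₁ {X : Type*} {f : G → X} (hf : IsLevelConstant₁ r f) :
    ∃ F : IntermediateField ℚ (AlgebraicClosure ℚ), FiniteDimensional ℚ F ∧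
      (∀ (g s : GQ), s ∈ F.fixingSubgroup → g⁻¹ * s * g ∈ F.fixingSubgroup) ∧
      ∀ g s : G, r s ∈ F.fixingSubgroup → f (g * s) = f g := by
  obtain ⟨F, hF, h⟩ := hf
  have := hF
  obtain ⟨F', hF', hle, hn⟩ := exists_normal_level F
  exact ⟨F', hF', hn, fun g s hs => h g s (IntermediateField.fixingSubgroup_antitone hle hs)⟩

end Levels

section Core

variable {k : Type} [Field k] {G : Type} [Group G] (r : G →* GQ)

/-- Uniform smoothness: some level acts trivially on the whole module. -/
def UnifSmooth (N : Rep.{0} k G) : Prop :=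
  ∃ F : IntermediateField ℚ (AlgebraicClosure ℚ), FiniteDimensional ℚ F ∧
    ∀ s : G, r s ∈ F.fixingSubgroup → ∀ n : N, N.ρ s n = n

/-- `d¹` of a level-constant 1-cochain with values in a uniformly smooth module is
level-constant. -/
lemma isLevelConstant₂_d₁₂ {N : Rep.{0} k G} (hN : UnifSmooth r N) {b : G → N}
    (hb : IsLevelConstant₁ r b) : IsLevelConstant₂ r ((d₁₂ N).hom b) := by
  obtain ⟨F₁, hF₁, hs₁⟩ := hN
  obtain ⟨F₂, hF₂, hb⟩ := hb
  have := hF₁; have := hF₂
  obtain ⟨F, hF, hle, hn⟩ := exists_normal_level (F₁ ⊔ F₂)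
  have h1 : ∀ s : G, r s ∈ F.fixingSubgroup → r s ∈ F₁.fixingSubgroup := fun s hs =>
    IntermediateField.fixingSubgroup_antitone (le_sup_left.trans hle) hs
  have h2 : ∀ s : G, r s ∈ F.fixingSubgroup → r s ∈ F₂.fixingSubgroup := fun s hs =>
    IntermediateField.fixingSubgroup_antitone (le_sup_right.trans hle) hs
  refine ⟨F, hF, fun g g' s s' hs hs' => ?_⟩
  simp only [d₁₂_hom_apply]
  have e1 : b (g' * s') = b g' := hb _ _ (h2 _ hs')
  have e2 : b (g * s) = b g := hb _ _ (h2 _ hs)
  have e3 : b (g * s * (g' * s')) = b (g * g') := by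
    have : g * s * (g' * s') = g * g' * ((g'⁻¹ * s * g') * s') := by group
    rw [this]
    apply hb
    apply h2
    rw [map_mul]
    refine Subgroup.mul_mem _ ?_ hs'
    rw [map_mul, map_mul, map_inv]
    exact hn _ _ hs
  have e4 : N.ρ (g * s) (b g') = N.ρ g (b g') := by
    rw [map_mul, Module.End.mul_apply, hs₁ s (h1 _ hs)]
  rw [e1, e2, e3, e4]

/-- Equivariant linear maps between two representations, as a submodule of linear maps. -/
def EquivHom (N T : Rep.{0} k G) : Submodule k (N →ₗ[k] T) where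
  carrier := {f | ∀ (g : G) (n : N), f (N.ρ g n) = T.ρ g (f n)}
  add_mem' {f f'} hf hf' g n := by simp [hf g n, hf' g n]
  zero_mem' g n := by simp
  smul_mem' c f hf g n := by simp [hf g n]

lemma mem_equivHom_iff {N T : Rep.{0} k G} (f : N →ₗ[k] T) :
    f ∈ EquivHom N T ↔ ∀ (g : G) (n : N), f (N.ρ g n) = T.ρ g (f n) := Iff.rfl

/-- Push-forward on the frozen `continuousH2` along an equivariant linear map. -/
noncomputable def push {N T : Rep.{0} k G} (f : EquivHom N T) :
    continuousH2 r N →ₗ[k] continuousH2 r T :=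
  continuousH2Map (MonoidHom.id G) (fun _ => rfl) f.1 f.2

lemma push_π {N T : Rep.{0} k G} (f : EquivHom N T) (c : ↥(levelCocycles₂ r N)) :
    push r f (continuousH2π r N c) =
      continuousH2π r T (levelCocycles₂Map (MonoidHom.id G) (fun _ => rfl) f.1 f.2 c) := rfl

/-- Composition of equivariant maps. -/
def equivHomComp {N T T' : Rep.{0} k G} (f' : EquivHom T T') (f : EquivHom N T) : EquivHom N T' :=
  ⟨f'.1 ∘ₗ f.1, fun g n => by
    simp only [LinearMap.comp_apply]; rw [f.2 g n, f'.2 g (f.1 n)]⟩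

lemma push_comp {N T T' : Rep.{0} k G} (f' : EquivHom T T') (f : EquivHom N T)
    (x : continuousH2 r N) : push r (equivHomComp f' f) x = push r f' (push r f x) := by
  obtain ⟨c, rfl⟩ := Submodule.mkQ_surjective _ x
  rfl

/-- `θ`-injectivity: a class killed by all `inv ∘ f_*` vanishes. -/
def ThetaInj (T : Rep.{0} k G) (inv : continuousH2 r T →ₗ[k] k) (N : Rep.{0} k G) : Prop :=
  ∀ x : continuousH2 r N, (∀ f : EquivHom N T, inv (push r f x) = 0) → x = 0

/-- `θ`-surjectivity: every functional on `Hom_G(N,T)` is `f ↦ inv (f_* x)`. -/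
def ThetaSurj (T : Rep.{0} k G) (inv : continuousH2 r T →ₗ[k] k) (N : Rep.{0} k G) : Prop :=
  ∀ Λ : EquivHom N T →ₗ[k] k, ∃ x : continuousH2 r N, ∀ f : EquivHom N T, inv (push r f x) = Λ f

end Core

section Step

variable {k : Type} [Field k] {G : Type} [Group G] (r : G →* GQ)

/-- Two level cocycles have the same class iff they differ by `d¹` of a level cochain. -/
lemma continuousH2π_eq_iff {N : Rep.{0} k G} (c c' : ↥(levelCocycles₂ r N)) :
    continuousH2π r N c = continuousH2π r N c' ↔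
      ∃ b : G → N, IsLevelConstant₁ r b ∧ (d₁₂ N).hom b = (c : G × G → N) - c' := by
  rw [← sub_eq_zero, ← map_sub, continuousH2π_eq_zero_iff, mem_levelCoboundaries₂_iff]
  rfl

variable (N : Rep.{0} k G) (φ : N →ₗ[k] k) (hφ : ∀ (g : G) (n : N), φ (N.ρ g n) = φ n)

/-- The representation on the kernel of an invariant functional. -/
def kerρ : Representation k G ↥(LinearMap.ker φ) where
  toFun g := (N.ρ g).restrict (p := LinearMap.ker φ) (q := LinearMap.ker φ)
    (fun n hn => by rw [LinearMap.mem_ker] at hn ⊢; rw [hφ, hn])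
  map_one' := by ext n; simp
  map_mul' g h := by ext n; simp

/-- The kernel of an invariant functional as an object of `Rep.{0} k G`. -/
abbrev kerRep : Rep.{0} k G := Rep.of (kerρ N φ hφ)

lemma kerRep_ρ_coe (g : G) (n : ↥(LinearMap.ker φ)) :
    (((kerRep N φ hφ).ρ g n : ↥(LinearMap.ker φ)) : N) = N.ρ g (n : N) := rfl

@[simp] lemma kerρ_apply_coe (g : G) (n : ↥(LinearMap.ker φ)) :
    ((kerρ N φ hφ g n : ↥(LinearMap.ker φ)) : N) = N.ρ g (n : N) := rfl

/-- The inclusion of the kernel, as an equivariant map. -/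
def kerIncl : EquivHom (kerRep N φ hφ) N :=
  ⟨(LinearMap.ker φ).subtype, fun _ _ => rfl⟩

/-- An invariant functional as an equivariant map to the trivial representation. -/
def toTriv : EquivHom N (Rep.trivial k G k) :=
  ⟨φ, fun g n => hφ g n⟩

variable {N φ}

/-- (E1) exactness at `H²(N)`: a class dying in `H²(k)` comes from the kernel. -/
lemma exists_push_kerIncl_eq (hN : UnifSmooth r N) (e : N) (he : φ e = 1) (y : continuousH2 r N)
    (hy : push r (toTriv N φ hφ) y = 0) :
    ∃ x : continuousH2 r (kerRep N φ hφ), push r (kerIncl N φ hφ) x = y := by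
  obtain ⟨c, rfl⟩ := Submodule.mkQ_surjective _ y
  rw [push_π, continuousH2π_eq_zero_iff, mem_levelCoboundaries₂_iff] at hy
  obtain ⟨a, ha, hda⟩ := hy
  let b : G → N := fun g => a g • e
  have hb : IsLevelConstant₁ r b := ha.comp (· • e)
  have hdb : IsLevelConstant₂ r ((d₁₂ N).hom b) := isLevelConstant₂_d₁₂ r hN hb
  have hφdb : ∀ x : G × G, φ ((d₁₂ N).hom b x) = φ ((c : G × G → N) x) := by
    intro x
    have h1 := congrFun hda x
    simp only [d₁₂_hom_apply, coe_levelCocycles₂Map, cochainsPullPush₂_apply, toTriv,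
      MonoidHom.id_apply] at h1
    simp only [d₁₂_hom_apply, b, map_add, map_sub, map_smul, hφ, he]
    rw [← h1]
    simp
  let c' : G × G → N := (c : G × G → N) - (d₁₂ N).hom b
  have hc'ker : ∀ x, c' x ∈ LinearMap.ker φ := by
    intro x
    simp only [c', LinearMap.mem_ker, Pi.sub_apply, map_sub, hφdb x, sub_self]
  have hc'coc : c' ∈ cocycles₂ N := sub_mem c.2.1 (d₁₂_apply_mem_cocycles₂ b)
  have hc'lev : c' ∈ levelCochains₂ r N := sub_mem c.2.2 hdb
  let c'' : G × G → kerRep N φ hφ := fun x => ⟨c' x, hc'ker x⟩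
  have hc''coc : c'' ∈ cocycles₂ (kerRep N φ hφ) := by
    rw [mem_cocycles₂_iff] at hc'coc ⊢
    intro g h j
    apply Subtype.ext
    exact hc'coc g h j
  have hc''lev : IsLevelConstant₂ r c'' := by
    obtain ⟨F, hF, h⟩ := hc'lev
    exact ⟨F, hF, fun g g' s s' hs hs' => Subtype.ext (h g g' s s' hs hs')⟩
  refine ⟨continuousH2π r _ ⟨c'', hc''coc, hc''lev⟩, ?_⟩
  rw [push_π, continuousH2π_eq_iff]
  refine ⟨-b, ?_, ?_⟩
  · obtain ⟨F, hF, h⟩ := hb
    exact ⟨F, hF, fun g s hs => by simp only [Pi.neg_apply, h g s hs]⟩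
  · rw [map_neg]
    funext x
    simp [c'', c', kerIncl]

/-- Level-constant additive characters `G → k`. -/
def LevelChar : Submodule k (G → k) where
  carrier := {χ | (∀ g h, χ (g * h) = χ g + χ h) ∧ IsLevelConstant₁ r χ}
  add_mem' {a b} ha hb := ⟨fun g h => by simp only [Pi.add_apply, ha.1 g h, hb.1 g h]; ring,
    ha.2.add hb.2⟩
  zero_mem' := ⟨fun g h => by simp, isLevelConstant₁_const r (0 : k)⟩
  smul_mem' c a ha := ⟨fun g h => by simp only [Pi.smul_apply, ha.1 g h, smul_add],
    ha.2.comp (c • ·)⟩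

/-- The cup product cocycle `(g,h) ↦ a g * χ h` of two additive characters. -/
def cupFun (a χ : G → k) : G × G → k := fun x => a x.1 * χ x.2

lemma cupFun_mem (a χ : LevelChar (k := k) r) :
    cupFun (a : G → k) χ ∈ levelCocycles₂ r (Rep.trivial k G k) := by
  refine (mem_levelCocycles₂_iff r _ _).2 ⟨?_, ?_⟩
  · rw [mem_cocycles₂_iff]
    intro g h j
    simp only [cupFun, a.2.1 g h, χ.2.1 h j, Representation.trivial_apply]
    ring
  · obtain ⟨F₁, hF₁, h₁⟩ := a.2.2
    obtain ⟨F₂, hF₂, h₂⟩ := χ.2.2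
    have := hF₁; have := hF₂
    refine ⟨F₁ ⊔ F₂, inferInstance, fun g g' s s' hs hs' => ?_⟩
    simp only [cupFun]
    rw [h₁ g s (IntermediateField.fixingSubgroup_antitone le_sup_left hs),
      h₂ g' s' (IntermediateField.fixingSubgroup_antitone le_sup_right hs')]

/-- The class of the cup product of two level characters in the frozen `continuousH2`. -/
noncomputable def cupClass (a χ : LevelChar (k := k) r) : continuousH2 r (Rep.trivial k G k) :=
  continuousH2π r _ ⟨cupFun (a : G → k) χ, cupFun_mem r a χ⟩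

/-- The cup product as a bilinear map. -/
noncomputable def cupBil :
    LevelChar (k := k) r →ₗ[k] LevelChar (k := k) r →ₗ[k] continuousH2 r (Rep.trivial k G k) :=
  LinearMap.mk₂ k (cupClass r)
    (fun a a' χ => by
      simp only [cupClass, ← map_add]; congr 1; apply Subtype.ext; funext x
      simp [cupFun, add_mul])
    (fun c a χ => by
      simp only [cupClass, ← map_smul]; congr 1; apply Subtype.ext; funext x
      simp [cupFun, mul_assoc])
    (fun a χ χ' => by
      simp only [cupClass, ← map_add]; congr 1; apply Subtype.ext; funext x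
      simp [cupFun, mul_add])
    (fun c a χ => by
      simp only [cupClass, ← map_smul]; congr 1; apply Subtype.ext; funext x
      simp [cupFun, mul_left_comm])

@[simp] lemma cupBil_apply (a χ : LevelChar (k := k) r) : cupBil r a χ = cupClass r a χ := rfl

/-- (LB2) in the shape consumed here: the cup pairing of level characters, followed by `inv`,
has trivial left kernel. -/
def Stmt_LB2 (inv : continuousH2 r (Rep.trivial k G k) →ₗ[k] k) : Prop :=
  ∀ a : LevelChar (k := k) r, (∀ χ : LevelChar (k := k) r, inv (cupClass r a χ) = 0) → a = 0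

/-- The `1`-cocycle `g ↦ g e - e` with values in the kernel of `φ`. -/
def epsFun (e : N) : G → kerRep N φ hφ := fun g =>
  ⟨N.ρ g e - e, by simp [LinearMap.mem_ker, map_sub, hφ]⟩

lemma epsFun_coe (e : N) (g : G) : ((epsFun hφ e g : ↥(LinearMap.ker φ)) : N) = N.ρ g e - e := rfl

/-- The character `ψ ∘ ε` attached to an invariant functional on the kernel. -/
def epsChar (hN : UnifSmooth r N) (e : N) (ψ : EquivHom (kerRep N φ hφ) (Rep.trivial k G k)) :
    LevelChar (k := k) r :=
  ⟨fun g => ψ.1 (epsFun hφ e g), by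
    refine ⟨fun g h => ?_, ?_⟩
    · have h1 : epsFun hφ e (g * h) = (kerRep N φ hφ).ρ g (epsFun hφ e h) + epsFun hφ e g := by
        apply Subtype.ext
        simp [epsFun_coe, map_mul, map_sub]
      show ψ.1 (epsFun hφ e (g * h)) = ψ.1 (epsFun hφ e g) + ψ.1 (epsFun hφ e h)
      rw [h1, map_add, ψ.2 g]
      simp [add_comm]
    · obtain ⟨F, hF, h⟩ := hN
      exact ⟨F, hF, fun g s hs => by
        have : epsFun hφ e (g * s) = epsFun hφ e g := by
          apply Subtype.ext
          simp [epsFun_coe, map_mul, h s hs]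
        simp only [this]⟩⟩

/-- `ψ ↦ ψ ∘ ε` as a linear map (the connecting map `∂ : H⁰(N₁') → H¹(k)`). -/
def epsCharLin (hN : UnifSmooth r N) (e : N) :
    EquivHom (kerRep N φ hφ) (Rep.trivial k G k) →ₗ[k] LevelChar (k := k) r where
  toFun ψ := epsChar r hφ hN e ψ
  map_add' ψ ψ' := by apply Subtype.ext; funext g; simp [epsChar]
  map_smul' c ψ := by apply Subtype.ext; funext g; simp [epsChar]

/-- The explicit `2`-cocycle `(g,h) ↦ χ h • ε g` (the connecting map `δ : H¹(k) → H²(N₁)`). -/
def deltaFun (e : N) (χ : G → k) : G × G → kerRep N φ hφ := fun x => χ x.2 • epsFun hφ e x.1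

lemma deltaFun_coe (e : N) {χ : G → k} (hχ : ∀ g h, χ (g * h) = χ g + χ h) (x : G × G) :
    ((deltaFun hφ e χ x : ↥(LinearMap.ker φ)) : N) = (d₁₂ N).hom (fun g => χ g • e) x := by
  simp only [deltaFun, d₁₂_hom_apply, Submodule.coe_smul, epsFun_coe, hχ, map_smul]
  module

lemma coe_d₁₂_kerRep (b : G → kerRep N φ hφ) (x : G × G) :
    (((d₁₂ (kerRep N φ hφ)).hom b x : ↥(LinearMap.ker φ)) : N) =
      (d₁₂ N).hom (fun g => ((b g : ↥(LinearMap.ker φ)) : N)) x := by
  simp [d₁₂_hom_apply]

lemma deltaFun_mem (hN : UnifSmooth r N) (e : N) (χ : LevelChar (k := k) r) :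
    deltaFun hφ e (χ : G → k) ∈ levelCocycles₂ r (kerRep N φ hφ) := by
  refine (mem_levelCocycles₂_iff r _ _).2 ⟨?_, ?_⟩
  · have hb : (d₁₂ N).hom (fun g => (χ : G → k) g • e) ∈ cocycles₂ N :=
      d₁₂_apply_mem_cocycles₂ _
    rw [mem_cocycles₂_iff] at hb ⊢
    intro g h j
    apply Subtype.ext
    have := hb g h j
    simp only [← deltaFun_coe hφ e χ.2.1] at this
    simpa using this
  · have hlev : IsLevelConstant₂ r ((d₁₂ N).hom (fun g => (χ : G → k) g • e)) :=
      isLevelConstant₂_d₁₂ r hN (χ.2.2.comp (· • e))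
    obtain ⟨F, hF, h⟩ := hlev
    exact ⟨F, hF, fun g g' s s' hs hs' => Subtype.ext (by
      rw [deltaFun_coe hφ e χ.2.1, deltaFun_coe hφ e χ.2.1]; exact h g g' s s' hs hs')⟩

/-- The class `δ χ ∈ H²(N₁)` of `(g,h) ↦ χ h • ε g`. -/
noncomputable def deltaClass (hN : UnifSmooth r N) (e : N) (χ : LevelChar (k := k) r) :
    continuousH2 r (kerRep N φ hφ) :=
  continuousH2π r _ ⟨deltaFun hφ e (χ : G → k), deltaFun_mem r hφ hN e χ⟩

/-- `δ χ` dies in `H²(N)`. -/
lemma push_kerIncl_deltaClass (hN : UnifSmooth r N) (e : N) (χ : LevelChar (k := k) r) :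
    push r (kerIncl N φ hφ) (deltaClass r hφ hN e χ) = 0 := by
  rw [deltaClass, push_π, continuousH2π_eq_zero_iff, mem_levelCoboundaries₂_iff]
  refine ⟨fun g => (χ : G → k) g • e, χ.2.2.comp (· • e), ?_⟩
  funext x
  simp [kerIncl, deltaFun_coe hφ e χ.2.1]

/-- (E2) exactness at `H²(N₁)`: a class of the kernel dying in `H²(N)` is some `δ χ`. -/
lemma exists_levelChar_of_push_kerIncl_eq_zero (hN : UnifSmooth r N) (e : N) (he : φ e = 1)
    (x : continuousH2 r (kerRep N φ hφ)) (hx : push r (kerIncl N φ hφ) x = 0) :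
    ∃ χ : LevelChar (k := k) r, x = deltaClass r hφ hN e χ := by
  obtain ⟨c, rfl⟩ := Submodule.mkQ_surjective _ x
  rw [push_π, continuousH2π_eq_zero_iff, mem_levelCoboundaries₂_iff] at hx
  obtain ⟨b, hb, hdb⟩ := hx
  have hc0 : ∀ x : G × G, φ ((d₁₂ N).hom b x) = 0 := by
    intro x
    rw [hdb]
    exact ((c : G × G → kerRep N φ hφ) x).2
  have hχadd : ∀ g h, φ (b (g * h)) = φ (b g) + φ (b h) := by
    intro g h
    have h1 := hc0 (g, h)
    simp only [d₁₂_hom_apply, map_add, map_sub, hφ] at h1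
    linear_combination -h1
  let χ : LevelChar (k := k) r := ⟨fun g => φ (b g), hχadd, hb.comp φ⟩
  refine ⟨χ, ?_⟩
  rw [deltaClass, continuousH2π_eq_iff]
  refine ⟨fun g => ⟨b g - φ (b g) • e, by simp [LinearMap.mem_ker, he]⟩, ?_, ?_⟩
  · obtain ⟨F, hF, h⟩ := hb
    exact ⟨F, hF, fun g s hs => Subtype.ext (by simp only [h g s hs])⟩
  · funext x
    apply Subtype.ext
    rw [coe_d₁₂_kerRep]
    have h2 := congrFun hdb x
    simp only [coe_levelCocycles₂Map, cochainsPullPush₂_apply, kerIncl, MonoidHom.id_apply,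
      Submodule.subtype_apply] at h2
    have h3 := deltaFun_coe hφ e (χ := fun g => φ (b g)) hχadd x
    simp only [Pi.sub_apply, Submodule.coe_sub]
    rw [h3, ← h2]
    simp only [d₁₂_hom_apply, map_sub, map_smul]
    abel

/-- (E3) `ψ_* (δ χ) = (ψ ∘ ε) ∪ χ`. -/
lemma push_deltaClass (hN : UnifSmooth r N) (e : N)
    (ψ : EquivHom (kerRep N φ hφ) (Rep.trivial k G k)) (χ : LevelChar (k := k) r) :
    push r ψ (deltaClass r hφ hN e χ) = cupClass r (epsChar r hφ hN e ψ) χ := by
  rw [deltaClass, push_π, cupClass]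
  congr 1
  apply Subtype.ext
  funext x
  show ψ.1 (deltaFun hφ e (χ : G → k) x) = cupFun _ _ x
  simp only [deltaFun, map_smul, cupFun, epsChar, smul_eq_mul, mul_comm]

/-- The projection `N → ker φ` along `e`. -/
def kerProj (e : N) (he : φ e = 1) : N →ₗ[k] ↥(LinearMap.ker φ) :=
  LinearMap.codRestrict (LinearMap.ker φ)
    (LinearMap.id - (LinearMap.toSpanSingleton k N e) ∘ₗ φ) (fun n => by simp [he])

lemma kerProj_coe (e : N) (he : φ e = 1) (n : N) :
    ((kerProj e he n : ↥(LinearMap.ker φ)) : N) = n - φ n • e := by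
  simp [kerProj]

/-- (E4) an invariant functional on the kernel with `ψ ∘ ε = 0` extends to `N`. -/
lemma exists_extend (hN : UnifSmooth r N) (e : N) (he : φ e = 1)
    (ψ : EquivHom (kerRep N φ hφ) (Rep.trivial k G k)) (hψ : epsChar r hφ hN e ψ = 0) :
    ∃ ψ' : EquivHom N (Rep.trivial k G k), equivHomComp ψ' (kerIncl N φ hφ) = ψ := by
  refine ⟨⟨ψ.1 ∘ₗ kerProj e he, fun g n => ?_⟩, ?_⟩
  · have h0 : ψ.1 (epsFun hφ e g) = 0 := congrFun (congrArg Subtype.val hψ) g
    have h1 : kerProj e he (N.ρ g n) =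
        (kerRep N φ hφ).ρ g (kerProj e he n) + φ n • epsFun hφ e g := by
      apply Subtype.ext
      simp only [kerProj_coe, hφ, Submodule.coe_add, Submodule.coe_smul, epsFun_coe]
      rw [kerRep_ρ_coe, kerProj_coe, map_sub, map_smul]
      module
    simp only [LinearMap.comp_apply]
    rw [h1, map_add, map_smul, h0, ψ.2]
    simp
  · apply Subtype.ext
    apply LinearMap.ext
    intro n
    simp only [equivHomComp, kerIncl, LinearMap.comp_apply, Submodule.subtype_apply]
    congr 1
    apply Subtype.ext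
    rw [kerProj_coe]
    have : φ (n : N) = 0 := n.2
    simp [this]

omit hφ in
lemma push_add {N T : Rep.{0} k G} (f f' : EquivHom N T) (x : continuousH2 r N) :
    push r (f + f') x = push r f x + push r f' x := by
  obtain ⟨c, rfl⟩ := Submodule.mkQ_surjective _ x
  simp only [push_π, ← map_add]
  congr 1

omit hφ in
lemma push_smul {N T : Rep.{0} k G} (a : k) (f : EquivHom N T) (x : continuousH2 r N) :
    push r (a • f) x = a • push r f x := by
  obtain ⟨c, rfl⟩ := Submodule.mkQ_surjective _ x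
  rw [push_π, push_π, ← LinearMap.map_smul]
  congr 1

/-- `θ(x) : f ↦ inv (f_* x)` as a linear functional on `Hom_G(N,T)`. -/
noncomputable def thetaLin {N T : Rep.{0} k G} (inv : continuousH2 r T →ₗ[k] k)
    (x : continuousH2 r N) : EquivHom N T →ₗ[k] k where
  toFun f := inv (push r f x)
  map_add' f f' := by rw [push_add, map_add]
  map_smul' a f := by rw [push_smul, map_smul]; rfl

omit hφ in
@[simp] lemma thetaLin_apply {N T : Rep.{0} k G} (inv : continuousH2 r T →ₗ[k] k)
    (x : continuousH2 r N) (f : EquivHom N T) : thetaLin r inv x f = inv (push r f x) := rfl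

omit hφ in
/-- Linear-algebra core of (LB2): a functional on a finite-dimensional space `H` vanishing on
the kernel of `∂ : H → LevelChar` is `ψ ↦ inv ((∂ ψ) ∪ χ)` for some level character `χ`. -/
lemma exists_levelChar_of_vanish {H : Type} [AddCommGroup H] [Module k H] [FiniteDimensional k H]
    (inv : continuousH2 r (Rep.trivial k G k) →ₗ[k] k) (hLB2 : Stmt_LB2 r inv)
    (D : H →ₗ[k] LevelChar (k := k) r) (Λ : H →ₗ[k] k) (hΛ : ∀ ψ, D ψ = 0 → Λ ψ = 0) :
    ∃ χ : LevelChar (k := k) r, ∀ ψ, Λ ψ = inv (cupClass r (D ψ) χ) := by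
  let B : H →ₗ[k] LevelChar (k := k) r →ₗ[k] k := ((cupBil r).compr₂ inv) ∘ₗ D
  let Φ : LevelChar (k := k) r →ₗ[k] Module.Dual k H := B.flip
  have hΦ : ∀ χ ψ, Φ χ ψ = inv (cupClass r (D ψ) χ) := fun χ ψ => rfl
  have hco : (LinearMap.range Φ).dualCoannihilator = LinearMap.ker D := by
    ext ψ
    rw [Submodule.mem_dualCoannihilator, LinearMap.mem_ker]
    constructor
    · intro h
      exact hLB2 (D ψ) (fun χ => by rw [← hΦ]; exact h _ ⟨χ, rfl⟩)
    · rintro h _ ⟨χ, rfl⟩
      rw [hΦ, h]
      have : cupClass r (0 : LevelChar (k := k) r) χ = 0 := by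
        rw [← cupBil_apply, map_zero, LinearMap.zero_apply]
      rw [this, map_zero]
  have hR : LinearMap.range Φ = (LinearMap.ker D).dualAnnihilator := by
    rw [← hco, Subspace.dualCoannihilator_dualAnnihilator_eq]
  have hΛmem : Λ ∈ LinearMap.range Φ := by
    rw [hR, Submodule.mem_dualAnnihilator]
    intro ψ hψ
    exact hΛ ψ (LinearMap.mem_ker.1 hψ)
  obtain ⟨χ, hχ⟩ := hΛmem
  exact ⟨χ, fun ψ => by rw [← hχ, hΦ]⟩

/-- (E5) the four-lemma step: `θ`-injectivity passes from the kernel of an invariant functional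
to the module. -/
theorem thetaInj_step [FiniteDimensional k N] (hN : UnifSmooth r N) (e : N) (he : φ e = 1)
    (inv : continuousH2 r (Rep.trivial k G k) →ₗ[k] k) (hinv : Function.Injective inv)
    (hLB2 : Stmt_LB2 r inv)
    (hK : ThetaInj r (Rep.trivial k G k) inv (kerRep N φ hφ)) :
    ThetaInj r (Rep.trivial k G k) inv N := by
  intro y hy
  have h1 : push r (toTriv N φ hφ) y = 0 := hinv (by rw [hy, map_zero])
  obtain ⟨x, rfl⟩ := exists_push_kerIncl_eq r hφ hN e he y h1
  have hΛ : ∀ ψ : EquivHom (kerRep N φ hφ) (Rep.trivial k G k),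
      epsCharLin r hφ hN e ψ = 0 → thetaLin r inv x ψ = 0 := by
    intro ψ hψ
    obtain ⟨ψ', rfl⟩ := exists_extend r hφ hN e he ψ hψ
    rw [thetaLin_apply, push_comp]
    exact hy ψ'
  obtain ⟨χ, hχ⟩ := exists_levelChar_of_vanish r inv hLB2 (epsCharLin r hφ hN e)
    (thetaLin r inv x) hΛ
  have hx : x = deltaClass r hφ hN e χ := by
    have := hK (x - deltaClass r hφ hN e χ) (fun ψ => by
      rw [map_sub, map_sub, push_deltaClass, ← thetaLin_apply, hχ ψ]
      exact sub_self _)
    exact sub_eq_zero.1 this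
  rw [hx]
  exact push_kerIncl_deltaClass r hφ hN e χ

end Step

section Unipotent

variable {p : ℕ} [Fact p.Prime] {G : Type} [Group G] (r : G →* GQ)

/-- Unipotent: every group element acts with `p`-power order. -/
def IsUnip (N : Rep.{0} (ZMod p) G) : Prop := ∀ g : G, ∃ m : ℕ, N.ρ (g ^ p ^ m) = 1

/-- A nonzero finite unipotent `𝔽_p`-representation has a nonzero invariant functional. -/
lemma exists_invariant_functional (N : Rep.{0} (ZMod p) G) [FiniteDimensional (ZMod p) N]
    [Nontrivial N] (hN : IsUnip N) :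
    ∃ φ : N →ₗ[ZMod p] ZMod p, φ ≠ 0 ∧ ∀ (g : G) (n : N), φ (N.ρ g n) = φ n := by
  classical
  let X := Module.Dual (ZMod p) N
  let a : G →* (Module.End (ZMod p) X)ˣ := (N.ρ.dual).asGroupHom
  let P : Subgroup (Module.End (ZMod p) X)ˣ := a.range
  have hP : IsPGroup p P := by
    rintro ⟨_, g, rfl⟩
    obtain ⟨m, hm⟩ := hN g
    refine ⟨m, ?_⟩
    apply Subtype.ext
    show a g ^ p ^ m = 1
    rw [← map_pow]
    apply Units.ext
    show ((N.ρ.dual).asGroupHom (g ^ p ^ m) : Module.End (ZMod p) X) = 1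
    rw [Representation.asGroupHom_apply, Representation.dual_apply]
    have h' : N.ρ (g ^ p ^ m)⁻¹ = 1 := by
      have := map_mul N.ρ (g ^ p ^ m)⁻¹ (g ^ p ^ m)
      rw [inv_mul_cancel, map_one, hm, mul_one] at this
      exact this.symm
    rw [h']
    ext f n
    simp [Module.Dual.transpose_apply]
  have : Finite X := Module.finite_of_finite (ZMod p)
  have hcard := hP.card_modEq_card_fixedPoints X
  have hX : Nat.card X = p ^ Module.finrank (ZMod p) X := by
    rw [Module.natCard_eq_pow_finrank (K := ZMod p), Nat.card_zmod]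
  have hpos : 0 < Module.finrank (ZMod p) X := by
    rw [Subspace.dual_finrank_eq]; exact Module.finrank_pos
  have hdvd : p ∣ Nat.card (MulAction.fixedPoints P X) := by
    have h1 : p ∣ Nat.card X := hX ▸ dvd_pow_self p hpos.ne'
    exact (Nat.modEq_zero_iff_dvd.1 (hcard.symm.trans (Nat.modEq_zero_iff_dvd.2 h1)))
  have hex : ∃ f : X, f ∈ MulAction.fixedPoints P X ∧ f ≠ 0 := by
    by_contra hne
    push Not at hne
    have hsub : Subsingleton (MulAction.fixedPoints P X) :=
      ⟨fun x y => Subtype.ext (by rw [hne x x.2, hne y y.2])⟩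
    have : Nonempty (MulAction.fixedPoints P X) := ⟨⟨0, fun u => smul_zero u⟩⟩
    have hc1 : Nat.card (MulAction.fixedPoints P X) = 1 := Nat.card_eq_one_iff_unique.2 ⟨hsub, ‹_›⟩
    rw [hc1] at hdvd
    exact (Fact.out : p.Prime).one_lt.ne' (Nat.dvd_one.1 hdvd)
  obtain ⟨f, hf, hf0⟩ := hex
  refine ⟨f, hf0, fun g n => ?_⟩
  have h1 : (a g⁻¹) • f = f := hf ⟨a g⁻¹, g⁻¹, rfl⟩
  have h3 : (a g⁻¹ • f : X) = f ∘ₗ N.ρ g := by
    show ((N.ρ.dual).asGroupHom g⁻¹ : Module.End (ZMod p) X) f = _
    rw [Representation.asGroupHom_apply, Representation.dual_apply, inv_inv]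
    rfl
  have h2 := congrArg (fun f' : X => f' n) (h3.symm.trans h1)
  exact h2

/-- `θ`-injectivity is trivial for the zero module. -/
lemma thetaInj_of_subsingleton {k : Type} [Field k] (T : Rep.{0} k G)
    (inv : continuousH2 r T →ₗ[k] k) (N : Rep.{0} k G) [Subsingleton N] : ThetaInj r T inv N := by
  intro x _
  obtain ⟨c, rfl⟩ := Submodule.mkQ_surjective _ x
  have : c = 0 := Subtype.ext (funext fun _ => Subsingleton.elim _ _)
  rw [this, map_zero]

lemma unifSmooth_kerRep {k : Type} [Field k] {N : Rep.{0} k G} {φ : N →ₗ[k] k}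
    (hφ : ∀ (g : G) (n : N), φ (N.ρ g n) = φ n) (hN : UnifSmooth r N) :
    UnifSmooth r (kerRep N φ hφ) := by
  obtain ⟨F, hF, h⟩ := hN
  exact ⟨F, hF, fun s hs n => Subtype.ext (h s hs n)⟩

lemma isUnip_kerRep {N : Rep.{0} (ZMod p) G} {φ : N →ₗ[ZMod p] ZMod p}
    (hφ : ∀ (g : G) (n : N), φ (N.ρ g n) = φ n) (hN : IsUnip N) :
    IsUnip (kerRep N φ hφ) := by
  intro g
  obtain ⟨m, hm⟩ := hN g
  refine ⟨m, ?_⟩
  apply LinearMap.ext
  intro n
  apply Subtype.ext
  show N.ρ (g ^ p ^ m) n = n
  rw [hm]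
  rfl

/-- **Unipotent injectivity.** For a finite unipotent uniformly smooth `𝔽_p`-representation `N`
of `G`, if `inv` is injective on `H²(G, 𝔽_p)` and the cup pairing of level characters has
trivial left kernel, then a class of `H²(G, N)` killed by every `inv ∘ f_*`
(`f : N → 𝔽_p` invariant) is zero. -/
theorem thetaInj_of_isUnip
    (inv : continuousH2 r (Rep.trivial (ZMod p) G (ZMod p)) →ₗ[ZMod p] ZMod p)
    (hinv : Function.Injective inv) (hLB2 : Stmt_LB2 r inv) :
    ∀ (d : ℕ) (N : Rep.{0} (ZMod p) G) [FiniteDimensional (ZMod p) N],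
      Module.finrank (ZMod p) N = d → UnifSmooth r N → IsUnip N →
      ThetaInj r (Rep.trivial (ZMod p) G (ZMod p)) inv N := by
  intro d
  induction d with
  | zero =>
    intro N _ hd _ _
    have : Subsingleton N := Module.finrank_zero_iff.1 hd
    exact thetaInj_of_subsingleton r _ inv N
  | succ d ih =>
    intro N _ hd hsm hun
    have : Nontrivial N := Module.nontrivial_of_finrank_pos (R := ZMod p) (M := N) (by rw [hd]; omega)
    obtain ⟨φ, hφ0, hφ⟩ := exists_invariant_functional N hun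
    obtain ⟨n, hn⟩ : ∃ n, φ n ≠ 0 := by
      by_contra h
      push Not at h
      exact hφ0 (LinearMap.ext h)
    have he : φ ((φ n)⁻¹ • n) = 1 := by simp [hn]
    have hker : Module.finrank (ZMod p) (kerRep N φ hφ) = d := by
      have h1 := LinearMap.finrank_range_add_finrank_ker φ
      have hsurj : Function.Surjective φ := fun c => ⟨c • ((φ n)⁻¹ • n), by simp [hn]⟩
      have h2 : Module.finrank (ZMod p) (LinearMap.range φ) = 1 := by
        rw [LinearMap.range_eq_top.2 hsurj, finrank_top, Module.finrank_self]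
      have h3 : Module.finrank (ZMod p) (kerRep N φ hφ) =
          Module.finrank (ZMod p) (LinearMap.ker φ) := rfl
      omega
    exact thetaInj_step r hφ hsm _ he inv hinv hLB2
      (ih (kerRep N φ hφ) hker (unifSmooth_kerRep r hφ hsm) (isUnip_kerRep hφ hun))

end Unipotent

end Fermat.Agent.S55.helper4742
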