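/-
S55, leaf LS-L2 (helper4742), parts 2 and 3: transfer of `θ`-injectivity from a subgroup of
index prime to `p`, and `θ`-surjectivity from a generator module.
Everything on the frozen carriers (`continuousH2 r N`).
-/
import Mathlib
import Fermat.Prelude.Def_GroupCohomology_ContinuousUnramified
import Fermat.Agent.S55.helper4742_LocalL2
import Fermat.Agent.S55.helper5178_Sylow
import Fermat.Agent.S55.helper5550_ShapiroLevel

set_option autoImplicit false

namespace Fermat.Agent.S55.helper4742

open groupCohomology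

section Transfer

variable {k : Type} [Field k] {G : Type} [Group G] (r : G →* GQ) (U : Subgroup G)

/-- A morphism of `Rep` as an element of `EquivHom`. -/
def ofRepHom {A B : Rep.{0} k G} (φ : A ⟶ B) : EquivHom A B :=
  ⟨φ.hom.toLinearMap, fun g a => Rep.hom_comm_apply φ g a⟩

/-- Restriction `H²(G, M) → H²(U, Res M)` on the frozen carriers. -/
noncomputable def resH2 (M : Rep.{0} k G) :
    continuousH2 r M →ₗ[k] continuousH2 (r.comp U.subtype) (Rep.res U.subtype M) :=
  continuousH2Map (rH := r) (rG := r.comp U.subtype) U.subtype (fun _ => rfl)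
    (LinearMap.id : M →ₗ[k] Rep.res U.subtype M) (fun _ _ => rfl)

lemma resH2_π (M : Rep.{0} k G) (c : ↥(levelCocycles₂ r M)) :
    resH2 r U M (continuousH2π r M c) =
      continuousH2π (r.comp U.subtype) (Rep.res U.subtype M)
        (levelCocycles₂Map (rH := r) (rG := r.comp U.subtype) U.subtype (fun _ => rfl)
          (LinearMap.id : M →ₗ[k] Rep.res U.subtype M) (fun _ _ => rfl) c) := rfl

lemma shapiroH2Map_π (N : Rep.{0} k U) (c : ↥(levelCocycles₂ r (Rep.coind U.subtype N))) :
    helper5550.shapiroH2Map r U N (continuousH2π r _ c) =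
      continuousH2π (r.comp U.subtype) N
        (levelCocycles₂Map (rH := r) (rG := r.comp U.subtype) U.subtype (fun _ => rfl)
          (helper5550.ev U N) (helper5550.ev_ρ U N) c) := rfl

/-- Functoriality of coinduction on equivariant linear maps. -/
def coindLin {N N' : Rep.{0} k U} (ψ : EquivHom N N') :
    EquivHom (Rep.coind U.subtype N) (Rep.coind U.subtype N') :=
  ⟨{ toFun := fun f => ⟨fun g => ψ.1 (f.1 g), fun u g => by
        show ψ.1 (f.1 (u * g)) = N'.ρ u (ψ.1 (f.1 g))
        rw [helper5550.coind_val_mul, ψ.2]⟩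
     map_add' := fun f f' => by
        apply Subtype.ext; funext g; exact map_add ψ.1 (f.1 g) (f'.1 g)
     map_smul' := fun c f => by
        apply Subtype.ext; funext g; exact map_smul ψ.1 c (f.1 g) },
   fun x f => by
     apply Subtype.ext
     funext g
     rfl⟩

lemma coindLin_apply {N N' : Rep.{0} k U} (ψ : EquivHom N N') (f : Rep.coind U.subtype N)
    (g : G) : ((coindLin U ψ).1 f).1 g = ψ.1 (f.1 g) := rfl

/-- A nonzero linear map out of a line is injective. -/
lemma injective_of_finrank_eq_one {V W : Type*} [AddCommGroup V] [Module k V] [AddCommGroup W]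
    [Module k W] (L : V →ₗ[k] W) (h1 : Module.finrank k V = 1) (hL : ∃ v, L v ≠ 0) :
    Function.Injective L := by
  obtain ⟨v0, hv0, hspan⟩ := finrank_eq_one_iff'.1 h1
  obtain ⟨v, hv⟩ := hL
  obtain ⟨c, rfl⟩ := hspan v
  have hLv0 : L v0 ≠ 0 := by
    intro h
    apply hv
    rw [map_smul, h, smul_zero]
  rw [injective_iff_map_eq_zero]
  intro w hw
  obtain ⟨d, rfl⟩ := hspan w
  rw [map_smul] at hw
  rcases smul_eq_zero.1 hw with h | h
  · rw [h, zero_smul]
  · exact absurd h hLv0

/-- **Transfer of `θ`-injectivity** from a level-open subgroup `U` of index invertible in `k`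
to the whole group (inv-free form).  The only input about the coefficient module `T` is that
`H²(U, Res T)` is a line and `H²(G, T) ≠ 0`. -/
theorem thetaInj_of_subgroup [U.FiniteIndex] (hidx : IsUnit ((U.index : ℕ) : k))
    (hU : helper5550.IsLevelOpen r U) (T M : Rep.{0} k G)
    (hT1 : Module.finrank k (continuousH2 (r.comp U.subtype) (Rep.res U.subtype T)) = 1)
    (hT2 : ∃ t : continuousH2 r T, t ≠ 0)
    (hUM : ∀ z : continuousH2 (r.comp U.subtype) (Rep.res U.subtype M),
      (∀ ψ : EquivHom (Rep.res U.subtype M) (Rep.res U.subtype T),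
        push (r.comp U.subtype) ψ z = 0) → z = 0) :
    ∀ x : continuousH2 r M, (∀ f : EquivHom M T, push r f x = 0) → x = 0 := by
  classical
  have : Finite (G ⧸ U) := Subgroup.finite_quotient_of_finiteIndex
  let _ : Fintype (G ⧸ U) := Fintype.ofFinite _
  -- the trace `coind (res T) → T` and the unit `T → coind (res T)`
  let avgE : EquivHom (Rep.coind U.subtype (Rep.res U.subtype T)) T :=
    ⟨helper5178.avg U T, fun x f => helper5178.avg_smul U T x f⟩
  have havg_inj : Function.Injective (push r avgE) := by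
    apply injective_of_finrank_eq_one
    · rw [(helper5550.shapiroH2Equiv (r := r) (H := U) (N := Rep.res U.subtype T) hU).finrank_eq,
        hT1]
    · obtain ⟨t, ht⟩ := hT2
      refine ⟨push r (ofRepHom (helper5178.toCoind U T)) t, ?_⟩
      rw [← push_comp]
      have h1 : equivHomComp avgE (ofRepHom (helper5178.toCoind U T)) =
          ((U.index : ℕ) : k) • (⟨LinearMap.id, fun _ _ => rfl⟩ : EquivHom T T) := by
        apply Subtype.ext
        apply LinearMap.ext
        intro m
        show helper5178.avg U T ((helper5178.toCoind U T).hom m) = ((U.index : ℕ) : k) • m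
        rw [helper5178.avg_toCoind, ← Nat.card_eq_fintype_card]
        rfl
      rw [h1, push_smul]
      have h2 : push r (⟨LinearMap.id, fun _ _ => rfl⟩ : EquivHom T T) t = t := by
        obtain ⟨c, rfl⟩ := Submodule.mkQ_surjective _ t
        rfl
      rw [h2]
      exact smul_ne_zero hidx.ne_zero ht
  intro x hx
  have hres : resH2 r U M x = 0 := by
    apply hUM
    intro ψ
    have h1 := hx (equivHomComp avgE
      (equivHomComp (coindLin U ψ) (ofRepHom (helper5178.toCoind U M))))
    rw [push_comp, push_comp] at h1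
    have hw := havg_inj (h1.trans (map_zero _).symm)
    have h2 : push (r.comp U.subtype) ψ (resH2 r U M x) =
        helper5550.shapiroH2Map r U (Rep.res U.subtype T)
          (push r (coindLin U ψ) (push r (ofRepHom (helper5178.toCoind U M)) x)) := by
      obtain ⟨c, rfl⟩ := Submodule.mkQ_surjective _ x
      rw [resH2_π, push_π, push_π, push_π, shapiroH2Map_π]
      congr 1
      apply Subtype.ext
      funext y
      show ψ.1 (c.1 (↑y.1, ↑y.2)) = ψ.1 (M.ρ 1 (c.1 (↑y.1, ↑y.2)))
      rw [map_one]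
      rfl
    rw [h2, hw, map_zero]
  have h3 : push r (ofRepHom (helper5178.toCoind U M)) x = 0 := by
    apply helper5550.shapiroH2Map_injective hU
    rw [map_zero]
    have h : helper5550.shapiroH2Map r U (Rep.res U.subtype M)
        (push r (ofRepHom (helper5178.toCoind U M)) x) = resH2 r U M x := by
      obtain ⟨c, rfl⟩ := Submodule.mkQ_surjective _ x
      rw [resH2_π, push_π, shapiroH2Map_π]
      congr 1
      apply Subtype.ext
      funext y
      show M.ρ 1 (c.1 (↑y.1, ↑y.2)) = c.1 (↑y.1, ↑y.2)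
      rw [map_one]
      rfl
    rw [h, hres]
  obtain ⟨π, hπ⟩ := helper5178.exists_retraction U M hidx
  have h4 : push r (equivHomComp (ofRepHom π) (ofRepHom (helper5178.toCoind U M))) x = x := by
    obtain ⟨c, rfl⟩ := Submodule.mkQ_surjective _ x
    rw [push_π]
    congr 1
    apply Subtype.ext
    funext y
    exact hπ _
  rw [← h4, push_comp, h3, map_zero]

end Transfer

section Generator

variable {k : Type} [Field k] {G : Type} [Group G] (r : G →* GQ)

/-- **`θ`-surjectivity from a generator module.**  Let `R` be a module for which `θ` is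
injective, `H²(G, R) ≠ 0`, and `Hom_G(R, T)` is spanned by `aug`.  If every `n : N` is hit by a
map `f : R → N` with `ψ ∘ f = τ (ψ n) • aug` for all `ψ : N → T`, then every functional on
`Hom_G(N, T)` is of the form `ψ ↦ inv (ψ_* x)`. -/
theorem thetaSurj_of_generator (T : Rep.{0} k G) (τ : T →ₗ[k] k) (hτ : Function.Injective τ)
    (inv : continuousH2 r T →ₗ[k] k) (N R : Rep.{0} k G) [FiniteDimensional k N]
    (hRinj : ThetaInj r T inv R) (hRne : ∃ y : continuousH2 r R, y ≠ 0)
    (aug : EquivHom R T) (haug : ∀ ψ : EquivHom R T, ∃ c : k, ψ = c • aug)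
    (hgen : ∀ n : N, ∃ f : EquivHom R N,
      ∀ ψ : EquivHom N T, equivHomComp ψ f = τ (ψ.1 n) • aug) :
    ThetaSurj r T inv N := by
  obtain ⟨y, hy⟩ := hRne
  have h1 : inv (push r aug y) ≠ 0 := by
    intro h0
    apply hy
    apply hRinj
    intro ψ
    obtain ⟨c, rfl⟩ := haug ψ
    rw [push_smul, map_smul, h0, smul_zero]
  have h2 : inv (push r aug ((inv (push r aug y))⁻¹ • y)) = 1 := by
    rw [map_smul, map_smul, smul_eq_mul, inv_mul_cancel₀ h1]
  intro Λ
  -- a vector `n` representing `Λ`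
  obtain ⟨n, hn⟩ : ∃ n : N, ∀ ψ : EquivHom N T, Λ ψ = τ (ψ.1 n) := by
    let j : EquivHom N T →ₗ[k] Module.Dual k N :=
      { toFun := fun ψ => τ ∘ₗ ψ.1
        map_add' := fun ψ ψ' => by ext m; simp
        map_smul' := fun c ψ => by ext m; simp }
    have hj : LinearMap.ker j = ⊥ := by
      rw [LinearMap.ker_eq_bot']
      intro ψ hψ
      apply Subtype.ext
      apply LinearMap.ext
      intro m
      apply hτ
      have := congrArg (fun L : Module.Dual k N => L m) hψ
      simpa [j] using this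
    obtain ⟨g, hg⟩ := LinearMap.exists_leftInverse_of_injective j hj
    obtain ⟨n, hn⟩ := (Module.evalEquiv k N).surjective (Λ ∘ₗ g)
    refine ⟨n, fun ψ => ?_⟩
    have h3 : g (j ψ) = ψ := congrArg (fun L => L ψ) hg
    have h4 := congrArg (fun L : Module.Dual k (Module.Dual k N) => L (j ψ)) hn
    simp only [Module.evalEquiv_apply, Module.Dual.eval_apply, LinearMap.comp_apply, h3] at h4
    rw [← h4]
    rfl
  obtain ⟨f, hf⟩ := hgen n
  refine ⟨push r f ((inv (push r aug y))⁻¹ • y), fun ψ => ?_⟩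
  rw [← push_comp, hf ψ, push_smul, map_smul, h2, hn ψ, smul_eq_mul, mul_one]

end Generator

noncomputable section GenModule

variable {k : Type} [Field k] {G : Type} [Group G] (V : Subgroup G) (χ : G →* kˣ)

/-- The generator module `coind_V^G (Res_V k(χ))`: functions `f : G → k` with
`f (v g) = χ v * f g`, with `G` acting by right translation. -/
abbrev genRep : Rep.{0} k G := Rep.coind V.subtype (Rep.res V.subtype (ofChar χ))

variable {V χ}

/-- The value of an element of the generator module, as a scalar. -/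
def gval (f : genRep V χ) (g : G) : k := f.1 g

lemma gval_add (f f' : genRep V χ) (g : G) : gval (f + f') g = gval f g + gval f' g := rfl

lemma gval_smul (c : k) (f : genRep V χ) (g : G) : gval (c • f) g = c * gval f g := rfl

lemma gval_ρ (x : G) (f : genRep V χ) (g : G) : gval ((genRep V χ).ρ x f) g = gval f (g * x) :=
  rfl

lemma gval_mul_left (hχ : ∀ v ∈ V, χ v = 1) (f : genRep V χ) {v : G} (hv : v ∈ V) (g : G) :
    gval f (v * g) = gval f g := by
  have h := f.2 ⟨v, hv⟩ g
  have h1 : gval f (v * g) = (χ v : k) * gval f g := h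
  rw [h1, hχ v hv, Units.val_one, one_mul]

lemma genRep_ext {f f' : genRep V χ} (h : ∀ g, gval f g = gval f' g) : f = f' :=
  Subtype.ext (funext h)

variable (N : Rep.{0} k G)

/-- The coset-wise piece `f ↦ f(g⁻¹) • (g • n)` of the generator map. -/
def genAux (n : N) (g : G) : genRep V χ →ₗ[k] N where
  toFun f := gval f g⁻¹ • N.ρ g n
  map_add' f f' := by rw [gval_add, add_smul]
  map_smul' c f := by rw [gval_smul, mul_smul]; rfl

lemma genAux_apply (n : N) (g : G) (f : genRep V χ) :
    genAux N n g f = gval f g⁻¹ • N.ρ g n := rfl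

lemma genAux_mul_right (hχ : ∀ v ∈ V, χ v = 1) (hN : ∀ v ∈ V, ∀ m : N, N.ρ v m = m) (n : N)
    (g : G) {v : G} (hv : v ∈ V) : genAux (V := V) (χ := χ) N n (g * v) = genAux N n g := by
  apply LinearMap.ext
  intro f
  rw [genAux_apply, genAux_apply, mul_inv_rev, gval_mul_left hχ f (V.inv_mem hv), map_mul,
    Module.End.mul_apply, hN v hv]

/-- The coset-wise piece of the generator map, on `G ⧸ V`. -/
def genQ (hχ : ∀ v ∈ V, χ v = 1) (hN : ∀ v ∈ V, ∀ m : N, N.ρ v m = m) (n : N) (q : G ⧸ V) :
    genRep V χ →ₗ[k] N :=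
  Quotient.liftOn' q (genAux N n) (fun a b hab => by
    rw [QuotientGroup.leftRel_apply] at hab
    have hb : b = a * (a⁻¹ * b) := by simp
    rw [hb]
    exact (genAux_mul_right N hχ hN n a hab).symm)

lemma genQ_mk (hχ : ∀ v ∈ V, χ v = 1) (hN : ∀ v ∈ V, ∀ m : N, N.ρ v m = m) (n : N) (g : G)
    (f : genRep V χ) :
    genQ N hχ hN n (QuotientGroup.mk g) f = gval f g⁻¹ • N.ρ g n := rfl

lemma genQ_smul (hχ : ∀ v ∈ V, χ v = 1) (hN : ∀ v ∈ V, ∀ m : N, N.ρ v m = m) (n : N) (x : G)
    (q : G ⧸ V) (f : genRep V χ) :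
    genQ N hχ hN n q ((genRep V χ).ρ x f) = N.ρ x (genQ N hχ hN n (x⁻¹ • q) f) := by
  induction q using QuotientGroup.induction_on with
  | H g =>
    rw [MulAction.Quotient.smul_mk, genQ_mk, genQ_mk, gval_ρ, smul_eq_mul, mul_inv_rev, inv_inv,
      map_smul, ← Module.End.mul_apply (N.ρ x), ← map_mul, mul_inv_cancel_left]

variable [Fintype (G ⧸ V)]

/-- The generator map `f ↦ ∑_{gV} f(g⁻¹) • (g • n)`, as an equivariant map. -/
def gen (hχ : ∀ v ∈ V, χ v = 1) (hN : ∀ v ∈ V, ∀ m : N, N.ρ v m = m) (n : N) :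
    EquivHom (genRep V χ) N :=
  ⟨∑ q : G ⧸ V, genQ N hχ hN n q, fun x f => by
    simp only [LinearMap.sum_apply]
    rw [Finset.sum_congr rfl fun q _ => genQ_smul N hχ hN n x q f, ← map_sum]
    congr 1
    exact Equiv.sum_comp (MulAction.toPerm x⁻¹ : Equiv.Perm (G ⧸ V))
      (fun q => genQ N hχ hN n q f)⟩

/-- The trace `f ↦ ∑_{gV} χ g * f(g⁻¹)`, as an equivariant map to `k(χ)`. -/
def augE : EquivHom (genRep V χ) (ofChar χ) :=
  ⟨helper5178.avg V (ofChar χ), fun x f => helper5178.avg_smul V (ofChar χ) x f⟩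

/-- `ψ ∘ gen n = ψ n • aug` for every equivariant `ψ : N → k(χ)`. -/
theorem comp_gen (hχ : ∀ v ∈ V, χ v = 1) (hN : ∀ v ∈ V, ∀ m : N, N.ρ v m = m) (n : N)
    (ψ : EquivHom N (ofChar χ)) :
    equivHomComp ψ (gen N hχ hN n) = (show k from ψ.1 n) • augE := by
  apply Subtype.ext
  apply LinearMap.ext
  intro f
  show ψ.1 ((∑ q : G ⧸ V, genQ N hχ hN n q) f) =
    (show k from ψ.1 n) • (helper5178.avg V (ofChar χ) f)
  rw [LinearMap.sum_apply, map_sum, helper5178.avg, LinearMap.sum_apply, Finset.smul_sum]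
  refine Finset.sum_congr rfl fun q _ => ?_
  induction q using QuotientGroup.induction_on with
  | H g =>
    rw [genQ_mk, helper5178.avgQ_mk, map_smul, ψ.2 g n]
    show gval f g⁻¹ * ((χ g : k) * (show k from ψ.1 n)) =
      (show k from ψ.1 n) * ((χ g : k) * gval f g⁻¹)
    ring

omit [Fintype (G ⧸ V)] in
/-- A normal subgroup on which `χ` is trivial acts trivially on the generator module. -/
lemma genRep_ρ_of_mem [V.Normal] (hχ : ∀ v ∈ V, χ v = 1) {v : G} (hv : v ∈ V)
    (f : genRep V χ) : (genRep V χ).ρ v f = f := by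
  apply genRep_ext
  intro g
  rw [gval_ρ]
  have h1 : g * v = (g * v * g⁻¹) * g := by group
  rw [h1]
  exact gval_mul_left hχ f (Subgroup.Normal.conj_mem inferInstance v hv g) g

open Classical in
omit [Fintype (G ⧸ V)] in
/-- The indicator function of `V`, an element of the generator module. -/
def delta (hχ : ∀ v ∈ V, χ v = 1) : genRep V χ :=
  ⟨fun g => if g ∈ V then (1 : k) else 0, fun v g => by
    show (if (v : G) * g ∈ V then (1 : k) else 0) = (χ v : k) * (if g ∈ V then (1 : k) else 0)
    rw [hχ v v.2, Units.val_one, one_mul]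
    congr 1
    exact propext (V.mul_mem_cancel_left v.2)⟩

open Classical in
omit [Fintype (G ⧸ V)] in
lemma gval_delta (hχ : ∀ v ∈ V, χ v = 1) (g : G) :
    gval (delta (V := V) (χ := χ) hχ) g = if g ∈ V then (1 : k) else 0 := rfl

/-- `gval · x` as a linear map. -/
def gvalLin (x : G) : genRep V χ →ₗ[k] k where
  toFun f := gval f x
  map_add' f f' := gval_add f f' x
  map_smul' c f := gval_smul c f x

/-- The generator map attached to `δ` is the identity of the generator module. -/
theorem gen_delta [V.Normal] (hχ : ∀ v ∈ V, χ v = 1) (f : genRep V χ) :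
    (gen (genRep V χ) hχ (fun _ hv m => genRep_ρ_of_mem hχ hv m) (delta hχ)).1 f = f := by
  classical
  apply genRep_ext
  intro x
  show gvalLin (V := V) (χ := χ) x ((∑ q : G ⧸ V, genQ (genRep V χ) hχ
    (fun _ hv m => genRep_ρ_of_mem hχ hv m) (delta hχ) q) f) = gval f x
  rw [LinearMap.sum_apply, map_sum]
  rw [Finset.sum_eq_single (QuotientGroup.mk x⁻¹ : G ⧸ V)]
  · show gval (gval f (x⁻¹)⁻¹ • (genRep V χ).ρ x⁻¹ (delta hχ)) x = gval f x
    rw [gval_smul, gval_ρ, gval_delta, inv_inv, mul_inv_cancel, if_pos V.one_mem, mul_one]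
  · intro q _ hq
    induction q using QuotientGroup.induction_on with
    | H g =>
      show gval (gval f g⁻¹ • (genRep V χ).ρ g (delta hχ)) x = 0
      rw [gval_smul, gval_ρ, gval_delta, if_neg, mul_zero]
      intro hxg
      apply hq
      apply (QuotientGroup.eq).2
      simpa using V.inv_mem hxg
  · intro h
    exact absurd (Finset.mem_univ _) h

/-- `Hom_G(R, k(χ))` is spanned by the trace. -/
theorem exists_smul_augE [V.Normal] (hχ : ∀ v ∈ V, χ v = 1)
    (ψ : EquivHom (genRep V χ) (ofChar χ)) : ∃ c : k, ψ = c • augE := by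
  refine ⟨(show k from ψ.1 (delta hχ)), ?_⟩
  rw [← comp_gen (genRep V χ) hχ (fun _ hv m => genRep_ρ_of_mem hχ hv m) (delta hχ) ψ]
  apply Subtype.ext
  apply LinearMap.ext
  intro f
  show ψ.1 f = ψ.1 ((gen (genRep V χ) hχ (fun _ hv m => genRep_ρ_of_mem hχ hv m) (delta hχ)).1 f)
  rw [gen_delta]

end GenModule

section LevelSurj

variable {k : Type} [Field k] {G : Type} [Group G] (r : G →* GQ) (V : Subgroup G) (χ : G →* kˣ)

lemma unifSmooth_genRep [V.Normal] (hχ : ∀ v ∈ V, χ v = 1) (hV : helper5550.IsLevelOpen r V) :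
    UnifSmooth r (genRep V χ) := by
  obtain ⟨F, hF, hFV⟩ := hV
  exact ⟨F, hF, fun s hs f => genRep_ρ_of_mem hχ (hFV (Subgroup.mem_comap.2 hs)) f⟩

lemma finite_genRep [V.FiniteIndex] : Module.Finite k (genRep V χ) :=
  helper5178.finite_coind V (Rep.res V.subtype (ofChar χ))

/-- **`θ`-surjectivity at the level of the whole group**, from `θ`-injectivity for the single
module `coind_V^G k(χ)` and `H²(V, k(χ)) ≠ 0`. -/
theorem thetaSurj_of_level [V.Normal] [V.FiniteIndex] (hχ : ∀ v ∈ V, χ v = 1)
    (hV : helper5550.IsLevelOpen r V) (inv : continuousH2 r (ofChar χ) →ₗ[k] k)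
    (hRinj : ThetaInj r (ofChar χ) inv (genRep V χ))
    (hV2 : ∃ z : continuousH2 (r.comp V.subtype) (Rep.res V.subtype (ofChar χ)), z ≠ 0)
    (N : Rep.{0} k G) [FiniteDimensional k N] (hN : ∀ v ∈ V, ∀ m : N, N.ρ v m = m) :
    ThetaSurj r (ofChar χ) inv N := by
  classical
  have : Finite (G ⧸ V) := Subgroup.finite_quotient_of_finiteIndex
  let _ : Fintype (G ⧸ V) := Fintype.ofFinite _
  obtain ⟨z, hz⟩ := hV2
  obtain ⟨y, rfl⟩ := helper5550.shapiroH2Map_surjective (N := Rep.res V.subtype (ofChar χ)) hV z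
  have hy : y ≠ 0 := by
    rintro rfl
    exact hz (map_zero _)
  exact thetaSurj_of_generator r (ofChar χ) (LinearMap.id : k →ₗ[k] k) (fun _ _ h => h) inv N
    (genRep V χ) hRinj ⟨y, hy⟩ augE (exists_smul_augE hχ)
    (fun n => ⟨gen N hχ hN n, fun ψ => comp_gen N hχ hN n ψ⟩)

/-- Preimages of fixing subgroups of number fields have finite index. -/
lemma finiteIndex_comap_fixingSubgroup (F : IntermediateField ℚ (AlgebraicClosure ℚ))
    [FiniteDimensional ℚ F] : (F.fixingSubgroup.comap r).FiniteIndex := by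
  have hgal := isGalois_Qbar
  have h1 : F.fixingSubgroup.FiniteIndex := Subgroup.finiteIndex_iff.2 (by
    rw [← IntermediateField.finrank_eq_fixingSubgroup_index]
    exact Module.finrank_pos.ne')
  rw [Subgroup.finiteIndex_iff, Subgroup.index_comap]
  exact Subgroup.finiteIndex_iff.1
    (inferInstance : (F.fixingSubgroup.subgroupOf r.range).FiniteIndex)

end LevelSurj

section Main

variable {p : ℕ} [Fact p.Prime] {G : Type} [Group G] (r : G →* GQ) (χ : G →* (ZMod p)ˣ)

variable (p) in
/-- (LB2) on the frozen carrier of a subgroup, inv-free: a nonzero level character has a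
nonzero cup product with some level character. -/
def Stmt_LB2sub (U : Subgroup G) : Prop :=
  ∀ a : ↥U → ZMod p, (∀ g h, a (g * h) = a g + a h) → IsLevelConstant₁ (r.comp U.subtype) a →
    a ≠ 0 → ∃ b : ↥U → ZMod p, (∀ g h, b (g * h) = b g + b h) ∧
      IsLevelConstant₁ (r.comp U.subtype) b ∧
      (fun x : ↥U × ↥U => a x.1 * b x.2) ∉
        levelCoboundaries₂ (r.comp U.subtype) (Rep.trivial (ZMod p) ↥U (ZMod p))

/-- The arithmetic inputs of local duality in degree 2 for a level group `(G, r)` with a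
character `χ` (the cyclotomic character): `χ` is a level character, `H²(G, k(χ)) ≠ 0`,
`H²(U, k(χ))` is a line for every level-open subgroup `U`, and (LB2) holds on the level-open
subgroups on which `χ` is trivial. -/
structure LocalInputs : Prop where
  levelChar : ∃ F : IntermediateField ℚ (AlgebraicClosure ℚ), FiniteDimensional ℚ F ∧
    ∀ s : G, r s ∈ F.fixingSubgroup → χ s = 1
  top : ∃ t : continuousH2 r (ofChar χ), t ≠ 0
  lb1 : ∀ U : Subgroup G, helper5550.IsLevelOpen r U →
    Module.finrank (ZMod p) (continuousH2 (r.comp U.subtype) (Rep.res U.subtype (ofChar χ))) = 1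
  lb2 : ∀ U : Subgroup G, helper5550.IsLevelOpen r U → (∀ u ∈ U, χ u = 1) → Stmt_LB2sub p r U

omit r in
/-- A character to `𝔽_pˣ` which is trivial on `V` is trivial on every element having a
`p`-power in `V`. -/
lemma chi_eq_one_of_pow_mem {V : Subgroup G} (hV : ∀ v ∈ V, χ v = 1) {u : G}
    (hu : ∃ n : ℕ, u ^ p ^ n ∈ V) : χ u = 1 := by
  obtain ⟨n, hn⟩ := hu
  have hp : p.Prime := Fact.out
  have h1 : χ u ^ p ^ n = 1 := by rw [← map_pow]; exact hV _ hn
  have h2 : χ u ^ (p - 1) = 1 := ZMod.units_pow_card_sub_one_eq_one p (χ u)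
  have hcop : Nat.Coprime (p ^ n) (p - 1) := by
    apply Nat.Coprime.pow_left
    exact Nat.coprime_of_lt_prime (by have := hp.one_lt; omega) (by have := hp.one_lt; omega) hp
  have h3 : orderOf (χ u) ∣ 1 := by
    rw [← hcop.gcd_eq_one]
    exact Nat.dvd_gcd (orderOf_dvd_of_pow_eq_one h1) (orderOf_dvd_of_pow_eq_one h2)
  exact orderOf_eq_one_iff.1 (Nat.dvd_one.1 h3)

variable {r χ}

/-- A normal level subgroup acting trivially on a uniformly smooth module and killed by `χ`. -/
lemma exists_normal_level_subgroup (h : LocalInputs r χ) (M : Rep.{0} (ZMod p) G)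
    (hM : UnifSmooth r M) :
    ∃ V : Subgroup G, V.Normal ∧ V.FiniteIndex ∧ helper5550.IsLevelOpen r V ∧
      (∀ v ∈ V, ∀ m : M, M.ρ v m = m) ∧ (∀ v ∈ V, χ v = 1) := by
  obtain ⟨F₁, hF₁, hM₁⟩ := hM
  obtain ⟨F₂, hF₂, hχ₂⟩ := h.levelChar
  have := hF₁; have := hF₂
  obtain ⟨F, hF, hle, hnorm⟩ := helper5550.exists_normal_level (F₁ ⊔ F₂)
  have := hF
  refine ⟨F.fixingSubgroup.comap r, hnorm.comap r, finiteIndex_comap_fixingSubgroup r F,
    ⟨F, hF, le_rfl⟩, fun v hv m => ?_, fun v hv => ?_⟩
  · exact hM₁ v (IntermediateField.fixingSubgroup_antitone (le_sup_left.trans hle)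
      (Subgroup.mem_comap.1 hv)) m
  · exact hχ₂ v (IntermediateField.fixingSubgroup_antitone (le_sup_right.trans hle)
      (Subgroup.mem_comap.1 hv))

/-- **Local (L2), injectivity (inv-free form)**: for a finite uniformly smooth module `M`, a
class of `H²(G, M)` killed by every `f_*`, `f : M → k(χ)` equivariant, is zero. -/
theorem thetaInj_of_inputs (h : LocalInputs r χ) (M : Rep.{0} (ZMod p) G)
    [FiniteDimensional (ZMod p) M] (hM : UnifSmooth r M) :
    ∀ x : continuousH2 r M, (∀ f : EquivHom M (ofChar χ), push r f x = 0) → x = 0 := by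
  classical
  obtain ⟨V, hVn, hVfi, ⟨F, hF, hFV⟩, hVM, hVχ⟩ := exists_normal_level_subgroup h M hM
  obtain ⟨U, hVU, hUp, hUidx⟩ := helper5178.exists_sylow_preimage (p := p) V
  have hUfi : U.FiniteIndex := Subgroup.finiteIndex_of_le hVU
  have hUopen : helper5550.IsLevelOpen r U := ⟨F, hF, hFV.trans hVU⟩
  have hUχ : ∀ u ∈ U, χ u = 1 := fun u hu => chi_eq_one_of_pow_mem χ hVχ (hUp u hu)
  have hidx : IsUnit ((U.index : ℕ) : ZMod p) := by
    rw [isUnit_iff_ne_zero, Ne, ZMod.natCast_eq_zero_iff]
    exact hUidx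
  -- the `U`-level
  have hfin : FiniteDimensional (ZMod p) (Rep.res U.subtype M) :=
    inferInstanceAs (FiniteDimensional (ZMod p) M)
  have hNsm : UnifSmooth (r.comp U.subtype) (Rep.res U.subtype M) :=
    ⟨F, hF, fun s hs n => hVM s.1 (hFV (Subgroup.mem_comap.2 hs)) n⟩
  have hNun : IsUnip (Rep.res U.subtype M) := by
    intro u
    obtain ⟨n, hn⟩ := hUp u.1 u.2
    refine ⟨n, ?_⟩
    apply LinearMap.ext
    intro m
    show M.ρ ((u ^ p ^ n : ↥U) : G) m = m
    rw [Subgroup.coe_pow]
    exact hVM _ hn m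
  have h1 := h.lb1 U hUopen
  have hfin2 : Module.Finite (ZMod p)
      (continuousH2 (r.comp U.subtype) (Rep.res U.subtype (ofChar χ))) :=
    Module.finite_of_finrank_pos (by rw [h1]; exact one_pos)
  let e : continuousH2 (r.comp U.subtype) (Rep.res U.subtype (ofChar χ)) ≃ₗ[ZMod p] ZMod p :=
    LinearEquiv.ofFinrankEq _ _ (by rw [h1, Module.finrank_self])
  let ι : EquivHom (Rep.trivial (ZMod p) U (ZMod p)) (Rep.res U.subtype (ofChar χ)) :=
    ⟨LinearMap.id, fun u c => by
      show c = ((χ u : (ZMod p)ˣ) : ZMod p) * c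
      rw [hUχ u u.2, Units.val_one, one_mul]⟩
  let ι' : EquivHom (Rep.res U.subtype (ofChar χ)) (Rep.trivial (ZMod p) U (ZMod p)) :=
    ⟨LinearMap.id, fun u c => by
      show ((χ u : (ZMod p)ˣ) : ZMod p) * c = c
      rw [hUχ u u.2, Units.val_one, one_mul]⟩
  have hιι' : ∀ c, push (r.comp U.subtype) ι' (push (r.comp U.subtype) ι c) = c := by
    intro c
    obtain ⟨c', rfl⟩ := Submodule.mkQ_surjective _ c
    rfl
  let invU : continuousH2 (r.comp U.subtype) (Rep.trivial (ZMod p) U (ZMod p)) →ₗ[ZMod p]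
      ZMod p := e.toLinearMap ∘ₗ push (r.comp U.subtype) ι
  have hinvU : Function.Injective invU := by
    intro a b hab
    have h2 : push (r.comp U.subtype) ι a = push (r.comp U.subtype) ι b := e.injective hab
    rw [← hιι' a, h2, hιι' b]
  have hLB2 : Stmt_LB2 (r.comp U.subtype) invU := by
    intro a ha
    by_contra ha0
    obtain ⟨b, hb1, hb2, hb3⟩ := h.lb2 U hUopen hUχ a.1 a.2.1 a.2.2
      (fun h0 => ha0 (Subtype.ext h0))
    have h3 := ha ⟨b, hb1, hb2⟩
    have h4 : cupClass (r.comp U.subtype) a ⟨b, hb1, hb2⟩ = 0 :=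
      hinvU (h3.trans (map_zero _).symm)
    rw [cupClass, continuousH2π_eq_zero_iff] at h4
    exact hb3 h4
  have hUN := thetaInj_of_isUnip (r.comp U.subtype) invU hinvU hLB2 _ (Rep.res U.subtype M) rfl
    hNsm hNun
  refine thetaInj_of_subgroup r U hidx hUopen (ofChar χ) M h1 h.top ?_
  intro z hz
  apply hUN
  intro f₀
  show e (push (r.comp U.subtype) ι (push (r.comp U.subtype) f₀ z)) = 0
  rw [← push_comp, hz, map_zero]

/-- **Local (L2) on the frozen carriers**: for every injective `inv` on `H²(G, k(χ))` and every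
finite uniformly smooth `M`, the pairing `H²(G, M) × Hom_G(M, k(χ)) → k`,
`(x, f) ↦ inv (f_* x)`, is perfect. -/
theorem theta_of_inputs (h : LocalInputs r χ) (inv : continuousH2 r (ofChar χ) →ₗ[ZMod p] ZMod p)
    (hinv : Function.Injective inv) (M : Rep.{0} (ZMod p) G) [FiniteDimensional (ZMod p) M]
    (hM : UnifSmooth r M) :
    ThetaInj r (ofChar χ) inv M ∧ ThetaSurj r (ofChar χ) inv M := by
  refine ⟨fun x hx => thetaInj_of_inputs h M hM x
    (fun f => hinv ((hx f).trans (map_zero _).symm)), ?_⟩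
  obtain ⟨V, hVn, hVfi, hVopen, hVM, hVχ⟩ := exists_normal_level_subgroup h M hM
  have hfinR : Module.Finite (ZMod p) (genRep V χ) := finite_genRep V χ
  have hR : ThetaInj r (ofChar χ) inv (genRep V χ) := fun x hx =>
    thetaInj_of_inputs h (genRep V χ) (unifSmooth_genRep r V χ hVχ hVopen) x
      (fun f => hinv ((hx f).trans (map_zero _).symm))
  have hV2 : ∃ z : continuousH2 (r.comp V.subtype) (Rep.res V.subtype (ofChar χ)), z ≠ 0 := by
    have h1 := h.lb1 V hVopen
    have : Nontrivial (continuousH2 (r.comp V.subtype) (Rep.res V.subtype (ofChar χ))) :=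
      Module.nontrivial_of_finrank_pos (R := ZMod p) (by rw [h1]; exact one_pos)
    exact exists_ne 0
  exact thetaSurj_of_level r V χ hVχ hVopen inv hR hV2 M hVM

end Main

end Fermat.Agent.S55.helper4742
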