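import Mathlib
import Fermat.Agent.S55.helper9554_LocalSpec
import Fermat.Agent.S55.helper2554_Symbol

/-!
# S55 / LA-RESKILL (helper4969): the cyclic symbol of a Galois extension of prime degree

`Ω/K` is an arbitrary (possibly infinite) Galois extension, `G = Ω ≃ₐ[K] Ω` acting on `Ωˣ`,
and `E/K` is a Galois subextension of prime degree `p`.  `K` is **not** assumed to contain the
`p`-th roots of unity.  Vocabulary: `helper9554_LocalSpec` (`IsLevelChar`, `cupMu`, `IsBrCob₂`,
`IsMuCocycle₂`, `IsMuCob₂`, `Stmt_LB1_ne`).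

* `exists_levelChar` : a level additive character `χ : G → ZMod p` with kernel
  `E.fixingSubgroup` and a `σ` with `χ σ = 1`;
* `exists_norm_of_fixed` : an element fixed by `E.fixingSubgroup` lies in `E` and its norm is
  `∏_{i<p} σ^i y`;
* `exists_norm_of_isBrCob₂_cupMu` : if the symbol cocycle `(g, h) ↦ (g β / β) ^ χ h`
  (`β ^ p = b ∈ Kˣ`) is the coboundary of a level cochain with values in `Ωˣ`, then `b` is a
  norm from `E` (adapter of `helper2554.symbol_coboundary_imp_norm`);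
* `stmt_LB1_ne_of_galois` : hence `H²(G_K, μ_p) ≠ 0` (`helper9554.Stmt_LB1_ne`) as soon as the
  norm of `E/K` is not onto.
-/

set_option autoImplicit false

namespace Fermat.Agent.S55.helper4969

open groupCohomology IntermediateField
open Fermat.Agent.S55

variable {K Ω : Type*} [Field K] [Field Ω] [Algebra K Ω] [IsGalois K Ω]
variable {p : ℕ} [Fact p.Prime]

/-- **(D1)** A Galois subextension `E/K` of prime degree `p` is cut out by a level additive
character `χ : Gal(Ω/K) → ZMod p`, which takes the value `1`. -/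
theorem exists_levelChar (E : IntermediateField K Ω) [FiniteDimensional K E] [IsGalois K E]
    (hdeg : Module.finrank K E = p) :
    ∃ χ : (Ω ≃ₐ[K] Ω) → ZMod p, helper9554.IsLevelChar p χ ∧
      (∀ g, χ g = 0 ↔ g ∈ E.fixingSubgroup) ∧ ∃ σ, χ σ = 1 := by
  have hp : p.Prime := Fact.out
  have : NeZero p := ⟨hp.ne_zero⟩
  have hcard : Nat.card (E ≃ₐ[K] E) = p := by
    rw [IsGalois.card_aut_eq_finrank, hdeg]
  have hcard' : Nat.card (Multiplicative (ZMod p)) = p := by
    rw [Nat.card_eq_fintype_card, Fintype.card_multiplicative, ZMod.card]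
  let e : (E ≃ₐ[K] E) ≃* Multiplicative (ZMod p) := mulEquivOfPrimeCardEq hcard hcard'
  let ρ : (Ω ≃ₐ[K] Ω) →* (E ≃ₐ[K] E) := AlgEquiv.restrictNormalHom E
  have hker : ρ.ker = E.fixingSubgroup := IntermediateField.restrictNormalHom_ker E
  have hsurj : Function.Surjective ρ := AlgEquiv.restrictNormalHom_surjective Ω
  refine ⟨fun g => Multiplicative.toAdd (e (ρ g)), ⟨fun g h => ?_, ?_⟩, fun g => ?_, ?_⟩
  · simp only [map_mul, toAdd_mul]
  · refine ⟨E, inferInstance, fun g s hs => ?_⟩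
    have hs' : ρ s = 1 := by
      rw [← hker] at hs
      exact hs
    simp only [map_mul, hs', mul_one]
  · rw [← hker, MonoidHom.mem_ker]
    constructor
    · intro h
      have h1 : e (ρ g) = 1 := Multiplicative.toAdd.injective h
      exact e.injective (h1.trans (map_one e).symm)
    · intro h
      show Multiplicative.toAdd (e (ρ g)) = 0
      rw [h, map_one]
      rfl
  · obtain ⟨τ, hτ⟩ := e.surjective (Multiplicative.ofAdd (1 : ZMod p))
    obtain ⟨σ, hσ⟩ := hsurj τ
    refine ⟨σ, ?_⟩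
    show Multiplicative.toAdd (e (ρ σ)) = 1
    rw [hσ, hτ]
    rfl

/-- **(D2)** An element fixed by `E.fixingSubgroup` lies in `E`, and its norm to `K` is the
product of its conjugates under the powers of any `σ` with `χ σ = 1`. -/
theorem exists_norm_of_fixed (E : IntermediateField K Ω) [FiniteDimensional K E] [IsGalois K E]
    (hdeg : Module.finrank K E = p) (χ : (Ω ≃ₐ[K] Ω) → ZMod p)
    (hχ : ∀ g h, χ (g * h) = χ g + χ h) (hker : ∀ g, χ g = 0 ↔ g ∈ E.fixingSubgroup)
    (σ : Ω ≃ₐ[K] Ω) (hσ : χ σ = 1) (y : Ω) (hy : ∀ s ∈ E.fixingSubgroup, s y = y) :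
    ∃ t : E, (t : Ω) = y ∧
      algebraMap K Ω (Algebra.norm K t) = ∏ i ∈ Finset.range p, (σ ^ i) y := by
  classical
  have hp : p.Prime := Fact.out
  have : NeZero p := ⟨hp.ne_zero⟩
  have hyE : y ∈ E := by
    have : y ∈ IntermediateField.fixedField E.fixingSubgroup := by
      rw [IntermediateField.mem_fixedField_iff]
      exact hy
    rwa [InfiniteGalois.fixedField_fixingSubgroup] at this
  refine ⟨⟨y, hyE⟩, rfl, ?_⟩
  set t : E := ⟨y, hyE⟩ with ht
  let ρ : (Ω ≃ₐ[K] Ω) →* (E ≃ₐ[K] E) := AlgEquiv.restrictNormalHom E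
  have hkerρ : ρ.ker = E.fixingSubgroup := IntermediateField.restrictNormalHom_ker E
  have hcard : Fintype.card (E ≃ₐ[K] E) = p := by
    rw [← Nat.card_eq_fintype_card, IsGalois.card_aut_eq_finrank, hdeg]
  -- `i ↦ ρ σ ^ i` is injective on `range p`
  have hinj : Set.InjOn (fun i : ℕ => ρ σ ^ i) (Finset.range p : Set ℕ) := by
    intro i hi j hj hij
    have hi' : i < p := Finset.mem_range.1 hi
    have hj' : j < p := Finset.mem_range.1 hj
    have h1 : ρ (σ ^ i) = ρ (σ ^ j) := by simpa only [map_pow] using hij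
    have h2 : (σ ^ j)⁻¹ * σ ^ i ∈ ρ.ker := by
      rw [MonoidHom.mem_ker, map_mul, map_inv, h1, inv_mul_cancel]
    rw [hkerρ, ← hker, hχ, helper2554.chi_inv χ hχ, helper2554.chi_pow χ hχ,
      helper2554.chi_pow χ hχ, hσ, mul_one, mul_one, neg_add_eq_zero] at h2
    have h3 := congrArg ZMod.val h2
    rw [ZMod.val_natCast, ZMod.val_natCast, Nat.mod_eq_of_lt hj', Nat.mod_eq_of_lt hi'] at h3
    exact h3.symm
  have himage : (Finset.range p).image (fun i : ℕ => ρ σ ^ i) = Finset.univ := by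
    apply Finset.eq_univ_of_card
    rw [Finset.card_image_of_injOn hinj, Finset.card_range, hcard]
  have hnorm : algebraMap K E (Algebra.norm K t) = ∏ τ : E ≃ₐ[K] E, τ t :=
    Algebra.norm_eq_prod_automorphisms K t
  have h1 : algebraMap K Ω (Algebra.norm K t)
      = ((∏ τ : E ≃ₐ[K] E, τ t : E) : Ω) := by
    rw [← hnorm]
    rfl
  rw [h1, ← himage, Finset.prod_image hinj]
  rw [show ((∏ i ∈ Finset.range p, (ρ σ ^ i) t : E) : Ω)
      = ∏ i ∈ Finset.range p, (((ρ σ ^ i) t : E) : Ω) from map_prod (algebraMap E Ω) _ _]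
  refine Finset.prod_congr rfl fun i _ => ?_
  rw [← map_pow]
  exact AlgEquiv.restrictNormalHom_apply E (σ ^ i) t

/-- **(D3)** If the symbol cocycle `(g, h) ↦ (g β / β) ^ χ h`, `β ^ p = b ∈ Kˣ`, of the level
character `χ` cutting out `E` is the coboundary of a level cochain with values in `Ωˣ`, then
`b` is a norm from `E`. -/
theorem exists_norm_of_isBrCob₂_cupMu (E : IntermediateField K Ω) [FiniteDimensional K E]
    [IsGalois K E] (hdeg : Module.finrank K E = p) (χ : (Ω ≃ₐ[K] Ω) → ZMod p)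
    (hχ : helper9554.IsLevelChar p χ) (hker : ∀ g, χ g = 0 ↔ g ∈ E.fixingSubgroup)
    (σ : Ω ≃ₐ[K] Ω) (hσ : χ σ = 1) (b : K) (hb : b ≠ 0) (β : Ωˣ)
    (hβ : (β : Ω) ^ p = algebraMap K Ω b)
    (h : helper9554.IsBrCob₂ (helper9554.cupMu (fun g : Ω ≃ₐ[K] Ω => g • β / β) χ)) :
    ∃ t : E, Algebra.norm K t = b := by
  obtain ⟨x, hxlev, hx⟩ := h
  have hxlev' : helper2554.IsLevel (fun g : Ω ≃ₐ[K] Ω => ((x g : Ωˣ) : Ω)) :=
    helper9554.IsLevel₁.comp hxlev (fun u : Ωˣ => (u : Ω))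
  have hf : ∀ g h : Ω ≃ₐ[K] Ω, (g (β : Ω) / (β : Ω)) ^ (χ h).val
      = g ((x h : Ωˣ) : Ω) * ((x (g * h) : Ωˣ) : Ω)⁻¹ * ((x g : Ωˣ) : Ω) := by
    intro g h
    have h1 := congrArg (fun u : Ωˣ => (u : Ω)) (congrFun hx (g, h))
    simp only [helper9554.cupMu, helper9554.dOne_apply, Units.val_pow_eq_pow_val,
      Units.val_div_eq_div_val, Units.val_mul, AlgEquiv.smul_units_def, Units.coe_map,
      MonoidHom.coe_coe] at h1
    rw [h1, div_eq_mul_inv]
  obtain ⟨y, hyfix, hyprod⟩ := helper2554.symbol_coboundary_imp_norm χ hχ.map_mul hχ.level σ hσ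
    b hb (β : Ω) hβ (fun g => ((x g : Ωˣ) : Ω)) (fun g => (x g).ne_zero) hxlev' hf
  obtain ⟨t, -, ht⟩ := exists_norm_of_fixed E hdeg χ hχ.map_mul hker σ hσ y
    (fun s hs => hyfix s ((hker s).2 hs))
  exact ⟨t, (algebraMap K Ω).injective (ht.trans hyprod)⟩

omit [Fact p.Prime] in
/-- The Kummer-type crossed homomorphism `g ↦ g β / β` of a `p`-th root `β` of an element of
`K` is a level 1-cocycle with values in `μ_p` (no root of unity in `K` is needed). -/
theorem isMuCocycle₁_smul_div (b : K) (β : Ωˣ) (hβ : (β : Ω) ^ p = algebraMap K Ω b) :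
    helper9554.IsMuCocycle₁ p (fun g : Ω ≃ₐ[K] Ω => g • β / β) := by
  refine ⟨fun g h => ?_, ?_, fun g => ?_⟩
  · show (g * h) • β / β = g • (h • β / β) * (g • β / β)
    rw [smul_div', mul_smul, div_mul_div_cancel]
  · have hint : IsIntegral K (β : Ω) := Algebra.IsIntegral.isIntegral (R := K) (β : Ω)
    refine ⟨IntermediateField.adjoin K {(β : Ω)}, IntermediateField.adjoin.finiteDimensional hint,
      fun g s hs => ?_⟩
    have hmem : (β : Ω) ∈ IntermediateField.adjoin K {(β : Ω)} :=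
      IntermediateField.mem_adjoin_simple_self K _
    have hsβ : s • β = β := by
      apply Units.ext
      have := (IntermediateField.mem_fixingSubgroup_iff _ s).1 hs (β : Ω) hmem
      simpa [AlgEquiv.smul_units_def] using this
    show (g * s) • β / β = g • β / β
    rw [mul_smul, hsβ]
  · show (g • β / β) ^ p = 1
    rw [div_pow, ← smul_pow', div_eq_one]
    apply Units.ext
    simp only [AlgEquiv.smul_units_def, Units.coe_map, MonoidHom.coe_coe,
      Units.val_pow_eq_pow_val]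
    rw [hβ, AlgEquiv.commutes]

/-- **(D4)** `H²(G_K, μ_p) ≠ 0` on level cochains as soon as `K` has a Galois extension `E`
of degree `p` inside `Ω` whose norm is not onto (and `Ω` contains the `p`-th roots of elements
of `K`): the symbol cocycle of a non-norm is a `μ_p`-valued level 2-cocycle which is not even
the coboundary of a level `Ωˣ`-valued cochain. -/
theorem exists_isMuCocycle₂_not_isBrCob₂ (E : IntermediateField K Ω) [FiniteDimensional K E]
    [IsGalois K E] (hdeg : Module.finrank K E = p)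
    (hnn : ∃ b : K, b ≠ 0 ∧ ∀ y : E, Algebra.norm K y ≠ b)
    (hroot : ∀ b : K, ∃ β : Ω, β ^ p = algebraMap K Ω b) :
    ∃ f₀ : (Ω ≃ₐ[K] Ω) × (Ω ≃ₐ[K] Ω) → Ωˣ, helper9554.IsMuCocycle₂ p f₀ ∧
      ¬ helper9554.IsBrCob₂ f₀ ∧
      ∀ u ∈ E.fixingSubgroup, ∀ g : Ω ≃ₐ[K] Ω, f₀ (g, u) = 1 := by
  have hp : p.Prime := Fact.out
  have : NeZero p := ⟨hp.ne_zero⟩
  obtain ⟨χ, hχ, hker, σ, hσ⟩ := exists_levelChar (p := p) E hdeg
  obtain ⟨b, hb, hbn⟩ := hnn
  obtain ⟨β₀, hβ₀⟩ := hroot b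
  have hβ₀ne : β₀ ≠ 0 := by
    rintro rfl
    rw [zero_pow hp.ne_zero] at hβ₀
    exact hb ((map_eq_zero (algebraMap K Ω)).1 hβ₀.symm)
  let β : Ωˣ := Units.mk0 β₀ hβ₀ne
  have hβ : (β : Ω) ^ p = algebraMap K Ω b := hβ₀
  refine ⟨helper9554.cupMu (fun g : Ω ≃ₐ[K] Ω => g • β / β) χ,
    helper9554.isMuCocycle₂_cupMu (isMuCocycle₁_smul_div b β hβ) hχ, fun hcob => ?_,
    fun u hu g => ?_⟩
  · obtain ⟨t, ht⟩ := exists_norm_of_isBrCob₂_cupMu E hdeg χ hχ hker σ hσ b hb β hβ hcob
    exact hbn t ht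
  · show (g • β / β) ^ (χ u).val = 1
    rw [(hker u).2 hu, ZMod.val_zero, pow_zero]

/-- **(D4')** `helper9554.Stmt_LB1_ne K Ω p` from a Galois extension of degree `p` with
non-surjective norm. -/
theorem stmt_LB1_ne_of_galois (E : IntermediateField K Ω) [FiniteDimensional K E]
    [IsGalois K E] (hdeg : Module.finrank K E = p)
    (hnn : ∃ b : K, b ≠ 0 ∧ ∀ y : E, Algebra.norm K y ≠ b)
    (hroot : ∀ b : K, ∃ β : Ω, β ^ p = algebraMap K Ω b) :
    helper9554.Stmt_LB1_ne K Ω p := by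
  obtain ⟨f₀, hf₀, hncob, -⟩ := exists_isMuCocycle₂_not_isBrCob₂ E hdeg hnn hroot
  exact ⟨f₀, hf₀, fun h => hncob h.isBrCob₂⟩

end Fermat.Agent.S55.helper4969
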