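/-
S55 / FW-CUP adapters (helper5036): class-level graded commutativity of the cup products of
`helper7860_Cup` and compatibility of cup products with push-forward along equivariant maps,
on the frozen carriers.
-/
import Mathlib
import Fermat.Agent.S55.helper7860_Cup
import Fermat.Agent.S55.helper5036_EvalPush

set_option autoImplicit false

namespace Fermat.Agent.S55.helper5036

open groupCohomology Fermat.Agent.S55.helper7860

universe u

/-! ### Local carriers -/

section Local

variable {k G : Type u} [CommRing k] [Group G]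
  {r : G →* (AlgebraicClosure ℚ ≃ₐ[ℚ] AlgebraicClosure ℚ)} {A B C C' : Rep.{u} k G}

/-- Composing an equivariant pairing with an equivariant linear map gives an equivariant
pairing. -/
lemma isEquivariantPairing_compr₂ {β : A →ₗ[k] B →ₗ[k] C} (hβ : IsEquivariantPairing β)
    (φ : C →ₗ[k] C') (hφ : ∀ (g : G) (c : C), φ (C.ρ g c) = C'.ρ g (φ c)) :
    IsEquivariantPairing (β.compr₂ φ) := fun g a b => by
  rw [LinearMap.compr₂_apply, LinearMap.compr₂_apply, hβ g a b, hφ]

/-- Class-level graded commutativity on the local carriers: `x ∪ y = -(y ∪' x)`. -/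
theorem cupH1_eq_neg_cupH1_flip (hA : IsSmoothAt r A) (hB : IsSmoothAt r B)
    {β : A →ₗ[k] B →ₗ[k] C} (hβ : IsEquivariantPairing β)
    (x : continuousH1 r A) (y : continuousH1 r B) :
    cupH1 hB hβ x y = - cupH1 hA hβ.flip y x := by
  obtain ⟨a, rfl⟩ := toContinuousH1_surjective r A x
  obtain ⟨b, rfl⟩ := toContinuousH1_surjective r B y
  rw [cupH1_mk, cupH1_mk, eq_neg_iff_add_eq_zero, ← map_add, continuousH2π_eq_zero_iff]
  refine (mem_levelCoboundaries₂_iff r C _).2 ⟨fun g => - β (a.1.1 g) (b.1.1 g), ?_, ?_⟩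
  · exact (levelConst₁_iff_isLevelConstant₁ r _).1
      (levelConst₁_primitive_flip isLevelClass_finiteDimensional β
        ((levelConst₁_iff_isLevelConstant₁ r _).2 a.2) ((levelConst₁_iff_isLevelConstant₁ r _).2 b.2))
  · exact (cup11_add_cup11_flip hβ a.1.2 b.1.2).symm

/-- Push-forward of a local cup product along an equivariant map of the target:
`φ_* (x ∪_β y) = x ∪_{φ ∘ β} y`. -/
theorem h2Lin_cupH1 (hB : IsSmoothAt r B) {β : A →ₗ[k] B →ₗ[k] C} (hβ : IsEquivariantPairing β)
    (φ : C →ₗ[k] C') (hφ : ∀ (g : G) (c : C), φ (C.ρ g c) = C'.ρ g (φ c))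
    (x : continuousH1 r A) (y : continuousH1 r B) :
    h2Lin r φ hφ (cupH1 hB hβ x y) = cupH1 hB (isEquivariantPairing_compr₂ hβ φ hφ) x y := by
  obtain ⟨a, rfl⟩ := toContinuousH1_surjective r A x
  obtain ⟨b, rfl⟩ := toContinuousH1_surjective r B y
  rw [cupH1_mk, cupH1_mk]
  rfl

end Local

/-! ### Global `S`-carriers -/

section GlobalS

variable {S : Finset Nat.Primes} {k : Type} [CommRing k]
  {A B C C' : Rep.{0} k (AlgebraicClosure ℚ ≃ₐ[ℚ] AlgebraicClosure ℚ)}

/-- Class-level graded commutativity on the global carriers: `x ∪ y = -(y ∪' x)`. -/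
theorem cupH1S_eq_neg_cupH1S_flip (hA : IsSmoothS S A) (hB : IsSmoothS S B)
    {β : A →ₗ[k] B →ₗ[k] C} (hβ : IsEquivariantPairing β)
    (x : continuousH1S S A) (y : continuousH1S S B) :
    cupH1S hB hβ x y = - cupH1S hA hβ.flip y x := by
  obtain ⟨a, rfl⟩ := toContinuousH1S_surjective S A x
  obtain ⟨b, rfl⟩ := toContinuousH1S_surjective S B y
  rw [cupH1S_mk, cupH1S_mk, eq_neg_iff_add_eq_zero, ← map_add, continuousH2Sπ_eq_zero_iff]
  refine (mem_levelCoboundariesS₂_iff S C _).2 ⟨fun g => - β (a.1.1 g) (b.1.1 g), ?_, ?_⟩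
  · exact (levelConst₁_iff_isLevelConstantS₁ S _).1
      (levelConst₁_primitive_flip (isLevelClass_isUnramifiedOutside S) β
        ((levelConst₁_iff_isLevelConstantS₁ S _).2 a.2)
        ((levelConst₁_iff_isLevelConstantS₁ S _).2 b.2))
  · exact (cup11_add_cup11_flip hβ a.1.2 b.1.2).symm

/-- Push-forward of a global cup product along an equivariant map of the target. -/
theorem h2LinS_cupH1S (hB : IsSmoothS S B) {β : A →ₗ[k] B →ₗ[k] C} (hβ : IsEquivariantPairing β)
    (φ : C →ₗ[k] C')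
    (hφ : ∀ (g : AlgebraicClosure ℚ ≃ₐ[ℚ] AlgebraicClosure ℚ) (c : C), φ (C.ρ g c) = C'.ρ g (φ c))
    (x : continuousH1S S A) (y : continuousH1S S B) :
    h2LinS S φ hφ (cupH1S hB hβ x y) = cupH1S hB (isEquivariantPairing_compr₂ hβ φ hφ) x y := by
  obtain ⟨a, rfl⟩ := toContinuousH1S_surjective S A x
  obtain ⟨b, rfl⟩ := toContinuousH1S_surjective S B y
  rw [cupH1S_mk, cupH1S_mk]
  rfl

end GlobalS

end Fermat.Agent.S55.helper5036
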