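/-
S55 (Poitou–Tate), number-field core, leaf NF-GH (Hasse devissage), places OUTSIDE `S`.

`ORD-PUSH`: local triviality at an unramified place outside `S` needs no local cohomology
(no "H²(unramified, units) = 0", no local fields, no cyclicity of the decomposition group):
push the cochains along the valuation `ord_w : Lˣ → ℤ`, which is invariant under the
decomposition group `D` of `w`.

* a unit-valued (e.g. `μ_p`-valued) 2-cochain has `ord ∘ c = 0` on `D × D`
  (`OrdTriv.of_ord_eq_zero`);
* this is stable under multiplication by coboundaries of ARBITRARY `Lˣ`-valued 1-cochains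
  (`OrdTriv.mul_coboundary`, `OrdTriv.of_isMulCoboundary₂_div`) and under shrinking `D`
  (`OrdTriv.mono`);
* for the cyclic normal form `b ^ carry (χ g) (χ h)` of a degree-`p` layer it forces
  `p ∣ ord b` as soon as `χ` is non-trivial on `D`, i.e. the place does not split in the layer
  (`OrdTriv.dvd_ord_of_cyc`, `OrdTriv.dvd_ord_of_cyc_of_ne_zero`).

So at a non-split place outside `S` the element `b` has valuation divisible by `p`, which is
exactly the completion-free local norm condition there (unit times the `p`-th power of a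
uniformizer).  Everything is `Mathlib`-only and carrier-free; `carryZ p a b = (a.val + b.val) / p`
is the exponent of the standard cyclic cocycle.
-/
import Mathlib

set_option autoImplicit false
set_option linter.unusedSectionVars false

namespace Fermat.Agent.S55.helper5075

/-! ## The core computation -/

section Core

variable {D : Type*} [Group D] {p : ℕ}

/-- The carry of two residues mod `p` (the exponent of the standard cyclic 2-cocycle). -/
def carryZ (p : ℕ) (a b : ZMod p) : ℕ := (a.val + b.val) / p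

theorem carryZ_zero_left [NeZero p] (b : ZMod p) : carryZ p 0 b = 0 := by
  unfold carryZ
  rw [ZMod.val_zero, zero_add]
  exact Nat.div_eq_of_lt (ZMod.val_lt b)

theorem carryZ_zero_right [NeZero p] (a : ZMod p) : carryZ p a 0 = 0 := by
  unfold carryZ
  rw [ZMod.val_zero, add_zero]
  exact Nat.div_eq_of_lt (ZMod.val_lt a)

/-- `carry (i, 1)` for `i < p` is `1` exactly when `i = p - 1`. -/
theorem carryZ_natCast_one (hp : 1 < p) {i : ℕ} (hi : i < p) :
    carryZ p ((i : ℕ) : ZMod p) 1 = if i = p - 1 then 1 else 0 := by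
  have : Fact (1 < p) := ⟨hp⟩
  have : NeZero p := ⟨by omega⟩
  unfold carryZ
  rw [ZMod.val_natCast_of_lt hi, ZMod.val_one]
  split_ifs with h
  · subst h
    have : p - 1 + 1 = p := by omega
    rw [this]
    exact Nat.div_self (by omega)
  · exact Nat.div_eq_of_lt (by omega)

/-- **Core of ORD-PUSH.**  `A` a torsion-free commutative group with trivial action of the
group `D`.  If `carry (χ g, χ h) • m = w g + w h - w (g h)` on `D`, `χ s = 1`, and `w` vanishes
on some positive power of `s ^ p`, then `m = p • w s`. -/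
theorem eq_smul_of_carry_eq_coboundary {A : Type*} [AddCommGroup A]
    (htf : ∀ (n : ℕ) (a : A), 0 < n → n • a = 0 → a = 0) (hp : 1 < p) (χ : D → ZMod p)
    (hχ : ∀ g h, χ (g * h) = χ g + χ h) (m : A) (w : D → A)
    (hw : ∀ g h, carryZ p (χ g) (χ h) • m = w g + w h - w (g * h))
    (s : D) (hs : χ s = 1) (hfin : ∃ n : ℕ, 0 < n ∧ w (s ^ (p * n)) = 0) : m = p • w s := by
  have : NeZero p := ⟨by omega⟩
  have hχ1 : χ 1 = 0 := by
    have := hχ 1 1
    rw [mul_one] at this
    exact (add_eq_left.mp this.symm)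
  have hw1 : w 1 = 0 := by
    have := hw 1 1
    rw [hχ1, carryZ_zero_left, mul_one, zero_smul, add_sub_cancel_right] at this
    exact this.symm
  -- `w` is additive as soon as the left argument is in the kernel of `χ`
  have hadd : ∀ x y, χ x = 0 → w (x * y) = w x + w y := by
    intro x y hx
    have := hw x y
    rw [hx, carryZ_zero_left, zero_smul] at this
    exact (sub_eq_zero.mp this.symm).symm
  have hχpow : ∀ k : ℕ, χ (s ^ k) = (k : ZMod p) := by
    intro k
    induction k with
    | zero => simpa using hχ1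
    | succ k ih => rw [pow_succ, hχ, ih, hs]; push_cast; ring
  have hχpk : ∀ k : ℕ, χ ((s ^ p) ^ k) = 0 := by
    intro k
    rw [← pow_mul, hχpow]
    push_cast
    rw [ZMod.natCast_self]
    ring
  have hwpk : ∀ k : ℕ, w ((s ^ p) ^ k) = k • w (s ^ p) := by
    intro k
    induction k with
    | zero => simpa using hw1
    | succ k ih => rw [pow_succ, hadd _ _ (hχpk k), ih, succ_nsmul]
  have hwp : w (s ^ p) = 0 := by
    obtain ⟨n, hn, hn0⟩ := hfin
    rw [pow_mul, hwpk] at hn0
    exact htf n _ hn hn0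
  -- sum the relation over `(s ^ i, s)`, `i < p`
  have hsum : ∑ i ∈ Finset.range p, carryZ p (χ (s ^ i)) (χ s) • m
      = ∑ i ∈ Finset.range p, (w s - (w (s ^ (i + 1)) - w (s ^ i))) := by
    refine Finset.sum_congr rfl (fun i _ => ?_)
    have := hw (s ^ i) s
    rw [← pow_succ] at this
    rw [this]
    abel
  have hL : ∑ i ∈ Finset.range p, carryZ p (χ (s ^ i)) (χ s) • m = m := by
    have h2 : ∀ i ∈ Finset.range p, carryZ p (χ (s ^ i)) (χ s) • m
        = if i = p - 1 then m else 0 := by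
      intro i hi
      rw [hχpow, hs, carryZ_natCast_one hp (Finset.mem_range.mp hi)]
      split_ifs <;> simp
    rw [Finset.sum_congr rfl h2, Finset.sum_ite_eq' (Finset.range p) (p - 1) (fun _ => m)]
    simp only [Finset.mem_range]
    rw [if_pos (by omega)]
  have hR : ∑ i ∈ Finset.range p, (w s - (w (s ^ (i + 1)) - w (s ^ i))) = p • w s := by
    have htel : ∑ i ∈ Finset.range p, (w (s ^ (i + 1)) - w (s ^ i)) = w (s ^ p) - w (s ^ 0) :=
      Finset.sum_range_sub (fun i => w (s ^ i)) p
    rw [Finset.sum_sub_distrib, htel, hwp, pow_zero, hw1, Finset.sum_const, Finset.card_range,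
      sub_zero, sub_zero]
  rw [hL, hR] at hsum
  exact hsum

/-- Integer form of the core: `p ∣ m`. -/
theorem dvd_of_carry_eq_coboundary (hp : 1 < p) (χ : D → ZMod p)
    (hχ : ∀ g h, χ (g * h) = χ g + χ h) (m : ℤ) (w : D → ℤ)
    (hw : ∀ g h, (carryZ p (χ g) (χ h) : ℤ) * m = w g + w h - w (g * h))
    (s : D) (hs : χ s = 1) (hfin : ∃ n : ℕ, 0 < n ∧ w (s ^ (p * n)) = 0) : (p : ℤ) ∣ m := by
  have htf : ∀ (n : ℕ) (a : ℤ), 0 < n → n • a = 0 → a = 0 := by
    intro n a hn h
    rw [nsmul_eq_mul] at h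
    exact (mul_eq_zero.mp h).resolve_left (by exact_mod_cast hn.ne')
  have := eq_smul_of_carry_eq_coboundary htf hp χ hχ m w
    (fun g h => by rw [nsmul_eq_mul]; exact hw g h) s hs hfin
  exact ⟨w s, by rw [this, nsmul_eq_mul]⟩

end Core

/-! ## Valuation-triviality of 2-cochains on a decomposition group (multiplicative form) -/

section Mul

variable {G M : Type*} [Group G] [CommGroup M] [MulDistribMulAction G M]

/-- `OrdTriv ord D c`: the integer 2-cochain `ord ∘ c` is a coboundary on the subgroup `D`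
(trivial action on `ℤ`).  For `M = Lˣ`, `ord = ord_w` and `D` the decomposition group of `w`
this is the valuation shadow of "the class of `c` is trivial at `w`". -/
def OrdTriv (ord : M → ℤ) (D : Subgroup G) (c : G × G → M) : Prop :=
  ∃ w : G → ℤ, ∀ g ∈ D, ∀ h ∈ D, ord (c (g, h)) = w g + w h - w (g * h)

/-- A unit-valued cochain (e.g. a `μ_p`-valued one) is valuation-trivial. -/
theorem OrdTriv.of_ord_eq_zero {ord : M → ℤ} {D : Subgroup G} {c : G × G → M}
    (hc : ∀ g ∈ D, ∀ h ∈ D, ord (c (g, h)) = 0) : OrdTriv ord D c :=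
  ⟨fun _ => 0, fun g hg h hh => by rw [hc g hg h hh]; ring⟩

/-- Valuation-triviality passes to smaller subgroups. -/
theorem OrdTriv.mono {ord : M → ℤ} {D D' : Subgroup G} {c : G × G → M} (h : D' ≤ D)
    (hc : OrdTriv ord D c) : OrdTriv ord D' c := by
  obtain ⟨w, hw⟩ := hc
  exact ⟨w, fun g hg k hk => hw g (h hg) k (h hk)⟩

/-- Valuation-triviality only depends on the values on `D × D`. -/
theorem OrdTriv.congr {ord : M → ℤ} {D : Subgroup G} {c c' : G × G → M}
    (hc : OrdTriv ord D c) (h : ∀ g ∈ D, ∀ k ∈ D, c' (g, k) = c (g, k)) : OrdTriv ord D c' := by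
  obtain ⟨w, hw⟩ := hc
  exact ⟨w, fun g hg k hk => by rw [h g hg k hk, hw g hg k hk]⟩

/-- Valuation-triviality is stable under multiplication by the coboundary of an ARBITRARY
`M`-valued 1-cochain, as soon as `ord` is multiplicative and `D`-invariant. -/
theorem OrdTriv.mul_coboundary {ord : M → ℤ} {D : Subgroup G} {c c' : G × G → M}
    (hmul : ∀ x y, ord (x * y) = ord x + ord y) (hinv : ∀ g ∈ D, ∀ x, ord (g • x) = ord x)
    (hc : OrdTriv ord D c) (u : G → M)
    (h : ∀ g ∈ D, ∀ k ∈ D, c' (g, k) = c (g, k) * (g • u k / u (g * k) * u g)) :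
    OrdTriv ord D c' := by
  obtain ⟨w, hw⟩ := hc
  have hdiv : ∀ x y, ord (x / y) = ord x - ord y := by
    intro x y
    have := hmul (x / y) y
    rw [div_mul_cancel] at this
    linarith
  refine ⟨fun g => w g + ord (u g), fun g hg k hk => ?_⟩
  rw [h g hg k hk, hmul, hmul, hdiv, hinv g hg, hw g hg k hk]
  ring

/-- Same, stated with Mathlib's `IsMulCoboundary₂` for the quotient cochain. -/
theorem OrdTriv.of_isMulCoboundary₂_div {ord : M → ℤ} {D : Subgroup G} {c c' : G × G → M}
    (hmul : ∀ x y, ord (x * y) = ord x + ord y) (hinv : ∀ g ∈ D, ∀ x, ord (g • x) = ord x)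
    (hc : OrdTriv ord D c) (h : groupCohomology.IsMulCoboundary₂ (c' / c)) :
    OrdTriv ord D c' := by
  obtain ⟨u, hu⟩ := h
  refine hc.mul_coboundary hmul hinv u (fun g _ k _ => ?_)
  rw [hu g k, Pi.div_apply, mul_div_cancel]

/-- **ORD-PUSH, cyclic layer.**  If the cyclic normal form `(g, h) ↦ b ^ carry (χ g) (χ h)` of a
degree-`p` layer is valuation-trivial on `D`, and `χ` takes the value `1` at an element `s ∈ D`
of finite order (the place does not split in the layer), then `p ∣ ord b`. -/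
theorem OrdTriv.dvd_ord_of_cyc {ord : M → ℤ} {D : Subgroup G} {p : ℕ} (hp : 1 < p)
    (hmul : ∀ x y, ord (x * y) = ord x + ord y)
    (χ : G → ZMod p) (hχ : ∀ g ∈ D, ∀ h ∈ D, χ (g * h) = χ g + χ h) (b : M)
    (hc : OrdTriv ord D (fun x : G × G => b ^ carryZ p (χ x.1) (χ x.2)))
    (s : G) (hsD : s ∈ D) (hs : χ s = 1) (hfin : IsOfFinOrder s) : (p : ℤ) ∣ ord b := by
  obtain ⟨w, hw⟩ := hc
  have hone : ord 1 = 0 := by
    have := hmul 1 1
    rw [mul_one] at this
    linarith
  have hpow : ∀ n : ℕ, ord (b ^ n) = n * ord b := by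
    intro n
    induction n with
    | zero => simpa using hone
    | succ n ih => rw [pow_succ, hmul, ih]; push_cast; ring
  have hw1 : w 1 = 0 := by
    have h1 := hw 1 D.one_mem 1 D.one_mem
    have hχ1 : χ 1 = 0 := by
      have := hχ 1 D.one_mem 1 D.one_mem
      rw [mul_one] at this
      exact (add_eq_left.mp this.symm)
    have : NeZero p := ⟨by omega⟩
    simp only [hχ1, carryZ_zero_left, pow_zero, hone, mul_one] at h1
    linarith
  obtain ⟨n, hn, hn1⟩ := hfin.exists_pow_eq_one
  refine dvd_of_carry_eq_coboundary (D := D) hp (fun g => χ g) (fun g h => hχ g g.2 h h.2)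
    (ord b) (fun g => w g) (fun g h => ?_) ⟨s, hsD⟩ hs ⟨n, hn, ?_⟩
  · have := hw g g.2 h h.2
    simp only [hpow] at this
    exact this
  · have : ((⟨s, hsD⟩ : D) ^ (p * n) : D) = 1 := by
      apply Subtype.ext
      simp only [Subgroup.coe_pow, Subgroup.coe_one]
      rw [mul_comm, pow_mul, hn1, one_pow]
    rw [this]
    exact hw1

/-- Variant: `p` prime and `χ` merely NON-ZERO at some `s ∈ D` of finite order. -/
theorem OrdTriv.dvd_ord_of_cyc_of_ne_zero {ord : M → ℤ} {D : Subgroup G} {p : ℕ} [Fact p.Prime]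
    (hmul : ∀ x y, ord (x * y) = ord x + ord y)
    (χ : G → ZMod p) (hχ : ∀ g ∈ D, ∀ h ∈ D, χ (g * h) = χ g + χ h) (b : M)
    (hc : OrdTriv ord D (fun x : G × G => b ^ carryZ p (χ x.1) (χ x.2)))
    (s : G) (hsD : s ∈ D) (hs : χ s ≠ 0) (hfin : IsOfFinOrder s) : (p : ℤ) ∣ ord b := by
  have hp : 1 < p := (Fact.out : p.Prime).one_lt
  have hχpow : ∀ k : ℕ, χ (s ^ k) = (k : ZMod p) * χ s := by
    intro k
    induction k with
    | zero =>
      have := hχ 1 D.one_mem 1 D.one_mem
      rw [mul_one] at this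
      simpa using (add_eq_left.mp this.symm)
    | succ k ih =>
      rw [pow_succ, hχ _ (D.pow_mem hsD k) _ hsD, ih]; push_cast; ring
  -- a power of `s` on which `χ` is `1`
  refine hc.dvd_ord_of_cyc hp hmul χ hχ b (s ^ ((χ s)⁻¹).val) (D.pow_mem hsD _) ?_ hfin.pow
  rw [hχpow, ZMod.natCast_zmod_val, inv_mul_cancel₀ hs]

/-- **ORD-PUSH, packaged** (what the Hasse devissage consumes at a place outside `S`):
`c` is unit-valued at the place, `c = b ^ carry(χ,χ) · d u` on the decomposition group `D`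
for an arbitrary `M`-valued 1-cochain `u`, and `χ s = 1` for some `s ∈ D` of finite order.
Then `p ∣ ord b`. -/
theorem dvd_ord_of_unitValued_eq_cyc_mul_coboundary {ord : M → ℤ} {D : Subgroup G} {p : ℕ}
    (hp : 1 < p) (hmul : ∀ x y, ord (x * y) = ord x + ord y)
    (hinv : ∀ g ∈ D, ∀ x, ord (g • x) = ord x)
    (χ : G → ZMod p) (hχ : ∀ g ∈ D, ∀ h ∈ D, χ (g * h) = χ g + χ h) (b : M)
    (c : G × G → M) (hc : ∀ g ∈ D, ∀ h ∈ D, ord (c (g, h)) = 0) (u : G → M)
    (hrel : ∀ g ∈ D, ∀ h ∈ D,
      c (g, h) = b ^ carryZ p (χ g) (χ h) * (g • u h / u (g * h) * u g))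
    (s : G) (hsD : s ∈ D) (hs : χ s = 1) (hfin : IsOfFinOrder s) : (p : ℤ) ∣ ord b := by
  have h0 : OrdTriv ord D c := OrdTriv.of_ord_eq_zero hc
  -- `b ^ carry = c * d (u⁻¹)`
  have h1 : OrdTriv ord D (fun x : G × G => b ^ carryZ p (χ x.1) (χ x.2)) := by
    refine h0.mul_coboundary hmul hinv (fun g => (u g)⁻¹) (fun g hg k hk => ?_)
    rw [hrel g hg k hk, smul_inv']
    have h : (g • u k / u (g * k) * u g) * ((g • u k)⁻¹ / (u (g * k))⁻¹ * (u g)⁻¹) = 1 := by
      simp only [div_eq_mul_inv, inv_inv]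
      calc g • u k * (u (g * k))⁻¹ * u g * ((g • u k)⁻¹ * u (g * k) * (u g)⁻¹)
          = (g • u k * (g • u k)⁻¹) * ((u (g * k))⁻¹ * u (g * k)) * (u g * (u g)⁻¹) := by
            simp only [mul_comm, mul_left_comm, mul_assoc]
        _ = 1 := by simp
    rw [mul_assoc, h, mul_one]
  exact h1.dvd_ord_of_cyc hp hmul χ hχ b s hsD hs hfin

/-- **ORD-PUSH for values in a torsion-free group `A`** (e.g. `A = ℚ` for the valuations of
`ℚ̄ˣ` at a valuation subring, infinite-level carriers).  `c = b ^ carry(χ,χ) · d u` on `D`,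
`ord ∘ c = 0` on `D × D`, `χ s = 1`, and `ord (u (s ^ (p n))) = 0` for some `n > 0` (automatic
if `s` has finite order, or if `u` is level-constant).  Then `ord b = - p • ord (u s)`. -/
theorem ord_eq_neg_smul_of_unitValued_eq_cyc_mul_coboundary {A : Type*} [AddCommGroup A]
    (htf : ∀ (n : ℕ) (a : A), 0 < n → n • a = 0 → a = 0)
    {ord : M → A} {D : Subgroup G} {p : ℕ}
    (hp : 1 < p) (hmul : ∀ x y, ord (x * y) = ord x + ord y)
    (hinv : ∀ g ∈ D, ∀ x, ord (g • x) = ord x)
    (χ : G → ZMod p) (hχ : ∀ g ∈ D, ∀ h ∈ D, χ (g * h) = χ g + χ h) (b : M)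
    (c : G × G → M) (hc : ∀ g ∈ D, ∀ h ∈ D, ord (c (g, h)) = 0) (u : G → M)
    (hrel : ∀ g ∈ D, ∀ h ∈ D,
      c (g, h) = b ^ carryZ p (χ g) (χ h) * (g • u h / u (g * h) * u g))
    (s : G) (hsD : s ∈ D) (hs : χ s = 1)
    (hfin : ∃ n : ℕ, 0 < n ∧ ord (u (s ^ (p * n))) = 0) : ord b = -(p • ord (u s)) := by
  have hone : ord 1 = 0 := by
    have := hmul 1 1
    rw [mul_one] at this
    exact (add_eq_left.mp this.symm)
  have hpow : ∀ n : ℕ, ord (b ^ n) = n • ord b := by
    intro n
    induction n with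
    | zero => simpa using hone
    | succ n ih => rw [pow_succ, hmul, ih, succ_nsmul]
  have hdiv : ∀ x y, ord (x / y) = ord x - ord y := by
    intro x y
    have := hmul (x / y) y
    rw [div_mul_cancel] at this
    rw [this]
    abel
  obtain ⟨n, hn, hn0⟩ := hfin
  have key := eq_smul_of_carry_eq_coboundary (D := D) htf hp (fun g => χ g)
    (fun g h => hχ g g.2 h h.2) (ord b) (fun g => -ord (u g)) (fun g h => ?_) ⟨s, hsD⟩ hs
    ⟨n, hn, ?_⟩
  · rw [key, smul_neg]
  · have h1 := hc g g.2 h h.2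
    rw [hrel g g.2 h h.2, hmul, hmul, hdiv, hinv g g.2, hpow] at h1
    have h2 : carryZ p (χ g) (χ h) • ord b
        = -(ord (u (h : G)) - ord (u ((g : G) * (h : G))) + ord (u (g : G))) :=
      eq_neg_of_add_eq_zero_left h1
    simp only [Subgroup.coe_mul]
    rw [h2]
    abel
  · simp only [Subgroup.coe_pow]
    rw [hn0, neg_zero]

end Mul

end Fermat.Agent.S55.helper5075
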