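/-
S55 / number-field core (NF), sub-block HNT.  helper694.

Discharge of the Kummer inputs of the Hasse norm theorem assemblies for an ABSTRACT Galois
extension `E / F` of number fields of prime degree `p` with `ζ_p ∈ F`, with NO tameness
hypothesis (the S14 theorem `helper6582.dict_of_kummer` assumes that the Kummer generator is a
local `p`-th power at the primes over `p`; here nothing is assumed, and only the places
`v ∤ p` are described, which is all that the Hasse norm theorem consumes).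

* `exists_kummer_generator` : `E = F(β)`, `β ^ p = b ∈ Fˣ`, `b ∉ Fˣ ^ p`, `σ β = ζ β`.
* `kummer_law` : at `v ∤ p` with `p ∣ ord_v b`: `E / F` is unramified at `v`, and
  `v` splits completely iff `b` is a local `p`-th power at `v`.
* `exists_kummerFacts` : `∃ a`, not a `p`-th power, with `helper4783.Stmt_KummerFacts F E p a`
  and `helper1980.Stmt_KummerLaw F E p a`.
* `stmt_HasseNorm_of_locNonNorm` (`p` odd) : `helper1980.Stmt_HasseNorm F E` from the local
  non-norm statement alone.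
-/
import Mathlib
import Fermat.Agent.S14.helper6582_M5KummerDict
import Fermat.Agent.S14.helper3036_M5SUnitIdx
import Fermat.Agent.S55.helper1892_TateChain
import Fermat.Agent.S55.helper4783_HasseNorm
import Fermat.Agent.S55.helper1980_HasseSpec

set_option autoImplicit false

open IsDedekindDomain NumberField WithZero

namespace Fermat.Agent.S55.helper694

open Fermat.Agent.S14
open Fermat.Agent.S14.helper2613 (ordAt)
open Fermat.Agent.S14.helper1892 (LocPowN LocPow)
open Fermat.Agent.S14.helper165 (Split normHom)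

noncomputable section

variable (F E : Type) [Field F] [NumberField F] [Field E] [NumberField E] [Algebra F E]
  [IsGalois F E]

/-- **Kummer generator** of an abstract Galois extension `E / F` of prime degree `p` with
`ζ_p ∈ F`: there are `b ∈ Fˣ`, not a `p`-th power, `β ∈ E` with `β ^ p = b`, and `σ ∈ Gal(E/F)`
with `σ β = ζ β`. -/
theorem exists_kummer_generator {p : ℕ} (hp : p.Prime) (hdeg : Module.finrank F E = p) {ζ : F}
    (hζ : IsPrimitiveRoot ζ p) :
    ∃ (b : Fˣ) (β : E) (σ : Gal(E/F)), (¬ ∃ y : Fˣ, b = y ^ p) ∧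
      β ^ p = algebraMap F E (b : F) ∧ σ β = algebraMap F E ζ * β := by
  have : FiniteDimensional F E := Module.finite_of_finrank_pos (by rw [hdeg]; exact hp.pos)
  have hcard : Nat.card Gal(E/F) = p := (IsGalois.card_aut_eq_finrank F E).trans hdeg
  have : Fact p.Prime := ⟨hp⟩
  have : IsCyclic Gal(E/F) := isCyclic_of_prime_card hcard
  obtain ⟨σ, hσ⟩ := IsCyclic.exists_generator (α := Gal(E/F))
  have hσ' := orderOf_eq_card_of_forall_mem_zpowers hσ
  have hroot : Polynomial.IsRoot (minpoly F σ.toLinearMap) ζ := by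
    rw [hcard] at hσ'
    simpa [minpoly_algEquiv_toLinearMap σ (isOfFinOrder_of_finite σ), hσ', sub_eq_zero] using
      hζ.pow_eq_one
  obtain ⟨β, hβ⟩ := (Module.End.hasEigenvalue_of_isRoot hroot).exists_hasEigenvector
  have hβ0 : β ≠ 0 := hβ.2
  have hσβ : σ β = algebraMap F E ζ * β := by
    have := hβ.apply_eq_smul
    rw [AlgEquiv.toLinearMap_apply, Algebra.smul_def] at this
    exact this
  -- `β ^ p` is fixed by `σ`, hence by the whole group, hence lies in `F`
  have hfix : ∀ τ : Gal(E/F), τ (β ^ p) = β ^ p := by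
    intro τ
    obtain ⟨m, rfl : σ ^ m = τ⟩ := mem_powers_iff_mem_zpowers.mpr (hσ τ)
    have h1 : σ (β ^ p) = β ^ p := by
      rw [map_pow, hσβ, mul_pow, ← map_pow, hζ.pow_eq_one, map_one, one_mul]
    induction m with
    | zero => simp
    | succ m ih => rw [pow_succ, AlgEquiv.mul_apply, h1, ih]
  obtain ⟨b₀, hb₀⟩ := (IsGalois.mem_range_algebraMap_iff_fixed (F := F) (E := E) (β ^ p)).2 hfix
  have hb₀0 : b₀ ≠ 0 := by
    rintro rfl
    rw [map_zero] at hb₀
    exact hβ0 (pow_eq_zero_iff hp.ne_zero |>.1 hb₀.symm)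
  refine ⟨Units.mk0 b₀ hb₀0, β, σ, ?_, hb₀.symm, hσβ⟩
  rintro ⟨y, hy⟩
  -- `(β / y) ^ p = 1`, so `β / y` is a power of `ζ`, so `β ∈ F`, so `σ β = β`, so `ζ = 1`
  have hyE : algebraMap F E (y : F) ≠ 0 := by
    rw [Ne, map_eq_zero]; exact y.ne_zero
  have hpow : (β / algebraMap F E (y : F)) ^ p = 1 := by
    rw [div_pow, ← map_pow, ← hb₀]
    have : (b₀ : F) = (y : F) ^ p := by
      have := congrArg (fun u : Fˣ => (u : F)) hy
      simpa using this
    rw [this, map_pow]
    exact div_self (pow_ne_zero _ hyE)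
  have hζE : IsPrimitiveRoot (algebraMap F E ζ) p :=
    hζ.map_of_injective (algebraMap F E).injective
  have : NeZero p := ⟨hp.ne_zero⟩
  obtain ⟨i, -, hi⟩ := hζE.eq_pow_of_pow_eq_one hpow
  have hβF : β = algebraMap F E (ζ ^ i * (y : F)) := by
    rw [map_mul, map_pow, hi]
    field_simp
  have h1 : σ β = β := by rw [hβF, AlgEquiv.commutes]
  rw [h1] at hσβ
  have h2 : algebraMap F E ζ = 1 := by
    have := mul_right_cancel₀ hβ0 (hσβ.symm.trans (one_mul β).symm)
    exact this
  have h3 : ζ = 1 := (algebraMap F E).injective (by rw [h2, map_one])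
  exact hp.one_lt.ne' (hζ.unique (h3 ▸ IsPrimitiveRoot.one))

/-- **Kummer decomposition law away from `p`, no tameness hypothesis**: for `E = F(β)`,
`β ^ p = b`, `σ β = ζ β`, at a place `v ∤ p` with `p ∣ ord_v b` the extension is unramified, and
`v` splits completely iff `b` is a local `p`-th power at `v`. -/
theorem kummer_law {p : ℕ} (hp : p.Prime) (hdeg : Module.finrank F E = p) {ζ : F}
    (hζ : IsPrimitiveRoot ζ p) (b : Fˣ) (β : E) (hβ : β ^ p = algebraMap F E (b : F))
    (σ : Gal(E/F)) (hσ : σ β = algebraMap F E ζ * β)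
    (v : HeightOneSpectrum (𝓞 F)) (hpv : (p : 𝓞 F) ∉ v.asIdeal) (hd : (p : ℤ) ∣ ordAt v b) :
    v.asIdeal.ramificationIdxIn (𝓞 E) = 1 ∧ (Split F E v ↔ LocPow p v b) := by
  have hGal := helper4373.isGaloisGroup_ringOfIntegers F E
  have hG : Nat.card Gal(E/F) = p := (helper4373.card_gal_eq_finrank F E).trans hdeg
  obtain ⟨c, b₂, hb₂, hb₂v⟩ := helper6582.exists_integer_unit_mul_pow hp.pos v b hd
  obtain ⟨ζ', β', hζ', hβ', hσ'⟩ :=
    helper6582.exists_integral_kummer F E hp.pos hζ b β hβ σ hσ c b₂ hb₂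
  have hb₂u : algebraMap (𝓞 F) F b₂ = ((b * c ^ p : Fˣ) : F) := by
    rw [hb₂]
    simp
  have hLoc_iff : LocPow p v b ↔ LocPow p v (b * c ^ p) := by
    constructor
    · intro h
      exact helper1892.locPow_mul h (helper1892.locPow_pow p v c)
    · intro h
      have := helper1892.locPow_mul h (helper1892.locPow_inv (helper1892.locPow_pow p v c))
      simpa using this
  have hsplit_def : Split F E v ↔ (v.asIdeal.primesOver (𝓞 E)).ncard = p := by
    unfold helper165.Split
    rw [hdeg]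
  have hζv : ζ' - 1 ∉ v.asIdeal := helper6582.zeta_sub_one_not_mem hp v.asIdeal hζ' hpv
  have : v.asIdeal.IsMaximal := v.isMaximal
  refine ⟨helper4373.kummer_unramified (G := Gal(E/F)) hp hG v.asIdeal hζ' hζv hσ' hβ' hb₂v,
    ?_⟩
  rw [hsplit_def, hLoc_iff]
  constructor
  · intro hs
    exact helper6582.locPow_of_forall_exists_pow_sub_mem hp.pos v (b * c ^ p) b₂ hb₂u hb₂v
      (fun n => helper4373.exists_pow_sub_mem_pow_of_split (G := Gal(E/F)) hp hG v.asIdeal
        v.ne_bot hs hβ' n)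
  · intro hL
    obtain ⟨y, hy⟩ :=
      helper6582.exists_pow_sub_mem_pow_of_locPow hp.pos v (b * c ^ p) b₂ hb₂u hL 1
    rw [pow_one] at hy
    exact (helper4373.kummer_split_iff (G := Gal(E/F)) hp hG v.asIdeal hζ' hζv hσ' hβ'
      hb₂v).mpr ⟨y, hy⟩

/-- `ord_v b = 0` from `v(b) = 1`. -/
theorem ordAt_eq_zero_of_valuation_eq_one {K : Type*} [Field K] [NumberField K]
    (v : HeightOneSpectrum (𝓞 K)) (b : Kˣ) (h : v.valuation K (b : K) = 1) : ordAt v b = 0 := by
  unfold ordAt
  rw [h]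
  simp

/-- **Kummer facts for an abstract `C_p`-extension** (`ζ_p ∈ F`, no tameness hypothesis):
there is `a ∈ Fˣ`, not a `p`-th power, such that at every `v ∤ p` with `p ∣ ord_v a` the
extension `E / F` is unramified and `v` splits completely iff `a` is a local `p`-th power. -/
theorem exists_kummer_law {p : ℕ} (hp : p.Prime) (hdeg : Module.finrank F E = p)
    (hζ : ∃ ζ : F, IsPrimitiveRoot ζ p) :
    ∃ a : Fˣ, (¬ ∃ y : Fˣ, a = y ^ p) ∧
      ∀ v : HeightOneSpectrum (𝓞 F), (p : 𝓞 F) ∉ v.asIdeal → (p : ℤ) ∣ ordAt v a →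
        v.asIdeal.ramificationIdxIn (𝓞 E) = 1 ∧ (Split F E v ↔ LocPow p v a) := by
  obtain ⟨ζ, hζ⟩ := hζ
  obtain ⟨b, β, σ, hb, hβ, hσ⟩ := exists_kummer_generator F E hp hdeg hζ
  exact ⟨b, hb, fun v hpv hd => kummer_law F E hp hdeg hζ b β hβ σ hσ v hpv hd⟩

/-- The input `helper4783.Stmt_KummerFacts` of `helper4783.hasse_norm` and the input
`helper1980.Stmt_KummerLaw` hold for a suitable `a ∈ Fˣ` which is not a `p`-th power. -/
theorem exists_kummerFacts {p : ℕ} (hp : p.Prime) (hdeg : Module.finrank F E = p)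
    (hζ : ∃ ζ : F, IsPrimitiveRoot ζ p) :
    ∃ a : Fˣ, (¬ ∃ y : Fˣ, a = y ^ p) ∧ helper4783.Stmt_KummerFacts F E p a ∧
      helper1980.Stmt_KummerLaw F E p a := by
  obtain ⟨a, ha, h⟩ := exists_kummer_law F E hp hdeg hζ
  refine ⟨a, ha, ?_, ?_⟩
  · intro v hpv hv
    have := h v hpv (by rw [ordAt_eq_zero_of_valuation_eq_one v a hv]; exact dvd_zero _)
    exact ⟨this.1, this.2.2⟩
  · intro v hpv hv
    have := h v hpv (by rw [hv]; exact dvd_zero _)
    exact ⟨this.1, this.2.2⟩

/-- The ramification input `hram` of `helper8443.hasseNorm_cf`: `E / F` is unramified outside a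
finite set of places. -/
theorem exists_finset_unramified {p : ℕ} (hp : p.Prime) (hdeg : Module.finrank F E = p)
    (hζ : ∃ ζ : F, IsPrimitiveRoot ζ p) :
    ∃ R : Finset (HeightOneSpectrum (𝓞 F)),
      ∀ v : HeightOneSpectrum (𝓞 F), v ∉ R → v.asIdeal.ramificationIdxIn (𝓞 E) = 1 := by
  classical
  obtain ⟨a, -, h⟩ := exists_kummer_law F E hp hdeg hζ
  have hfa := helper165.finite_ordAt_ne_zero a
  have hp0 : (p : 𝓞 F) ≠ 0 := by exact_mod_cast hp.ne_zero
  have hfp : {v : HeightOneSpectrum (𝓞 F) | (p : 𝓞 F) ∈ v.asIdeal}.Finite := by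
    have := Ideal.finite_factors (R := 𝓞 F) (I := Ideal.span {(p : 𝓞 F)})
      (by rw [Ne, Ideal.zero_eq_bot, Ideal.span_singleton_eq_bot]; exact hp0)
    refine this.subset ?_
    intro v hv
    exact (Ideal.dvd_span_singleton).2 hv
  refine ⟨hfa.toFinset ∪ hfp.toFinset, fun v hv => ?_⟩
  rw [Finset.mem_union, not_or, Set.Finite.mem_toFinset, Set.Finite.mem_toFinset] at hv
  have h0 : ordAt v a = 0 := by
    by_contra hne
    exact hv.1 hne
  exact (h v hv.2 (by rw [h0]; exact dvd_zero _)).1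

/-- **Hasse norm theorem for every `C_p`-extension `E / F` with `ζ_p ∈ F`, `p` odd**, from the
local non-norm statement alone (`helper4783.Stmt_LocNonNorm F E`): the second inequality
(`Stmt_TateCount`), the `S`-unit norm index and the Kummer facts are all discharged. -/
theorem hasse_norm_of_locNonNorm {p : ℕ} (hp : p.Prime) (hodd : p ≠ 2)
    (hdeg : Module.finrank F E = p) (hζ : ∃ ζ : F, IsPrimitiveRoot ζ p)
    (hNN : helper4783.Stmt_LocNonNorm F E)
    (b : Fˣ) (hb : ∀ v : HeightOneSpectrum (𝓞 F), helper4783.LocNorm F E v b) :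
    b ∈ (normHom F E).range := by
  obtain ⟨a, ha, hK, -⟩ := exists_kummerFacts F E hp hdeg hζ
  exact helper4783.hasse_norm F E hp hdeg hζ a ha hK
    (helper1892.stmt_TateCount_of_sUnitNormIndex F p hp hodd hζ
      (fun E' _ _ _ _ hdeg' => helper3036.sUnitNormIndex F E' p hp hodd hζ hdeg'))
    (helper3036.sUnitNormIndex F E p hp hodd hζ hdeg) hNN b hb

/-- `helper1980.Stmt_HasseNorm F E` from `helper4783.Stmt_LocNonNorm F E`. -/
theorem stmt_HasseNorm_of_locNonNorm {p : ℕ} (hp : p.Prime) (hodd : p ≠ 2)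
    (hdeg : Module.finrank F E = p) (hζ : ∃ ζ : F, IsPrimitiveRoot ζ p)
    (hNN : helper4783.Stmt_LocNonNorm F E) : helper1980.Stmt_HasseNorm F E :=
  fun a ha => hasse_norm_of_locNonNorm F E hp hodd hdeg hζ hNN a ha

/-- `helper1980.Stmt_HasseNorm F E` from `helper1980.Stmt_LocNormProper F E`. -/
theorem stmt_HasseNorm_of_locNormProper {p : ℕ} (hp : p.Prime) (hodd : p ≠ 2)
    (hdeg : Module.finrank F E = p) (hζ : ∃ ζ : F, IsPrimitiveRoot ζ p)
    (hNN : helper1980.Stmt_LocNormProper F E) : helper1980.Stmt_HasseNorm F E :=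
  stmt_HasseNorm_of_locNonNorm F E hp hodd hdeg hζ hNN

/-- **Definition-agnostic form** of the Hasse norm theorem for a `C_p`-extension (`ζ_p ∈ F`,
`p` odd): usable with any of the (definitionally equal) completion-free `LocNorm` predicates
(`helper1980`, `helper3550`, `helper4783`, `helper8443`). -/
theorem hasse_norm_raw {p : ℕ} (hp : p.Prime) (hodd : p ≠ 2)
    (hdeg : Module.finrank F E = p) (hζ : ∃ ζ : F, IsPrimitiveRoot ζ p)
    (hNN : ∀ v : HeightOneSpectrum (𝓞 F), ¬ Split F E v → ∃ z : Fˣ, ¬ ∀ N : ℕ, ∃ y : Eˣ,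
      v.valuation F ((z : F) / (normHom F E y : F) - 1) ≤ WithZero.exp (-(N : ℤ)))
    (b : Fˣ) (hb : ∀ (v : HeightOneSpectrum (𝓞 F)) (N : ℕ), ∃ y : Eˣ,
      v.valuation F ((b : F) / (normHom F E y : F) - 1) ≤ WithZero.exp (-(N : ℤ))) :
    ∃ y : Eˣ, normHom F E y = b :=
  hasse_norm_of_locNonNorm F E hp hodd hdeg hζ hNN b hb

end

end Fermat.Agent.S55.helper694
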