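/-
S55 / number-field core (NF), helper5953: completion-free LOCAL NORMS AT UNRAMIFIED PLACES,
the adapter between the divisor calculus outside `S` (which only yields
"`p ∣ ord_v b` at every non-split `v ∉ S`") and the Hasse norm theorem (which asks for
`LocNorm F E v b` at EVERY finite place `v`).

Setting (S14 vocabulary): `F E : Type` number fields, `E / F` Galois of prime degree `p`,
`p` odd, `ζ_p ∈ F`.

* `dvd_ordAt_of_unramified` : `v` unramified in `E`, `α ^ p = a ∈ Fˣ`  ⟹  `p ∣ ord_v a`.
* `exists_unit_mul_pow`     : `p ∣ ord_v a`  ⟹  `a * c ^ p` is a `v`-unit for some `c ∈ Fˣ`.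
* `locNorm_of_unramified`   : `v ∤ p`, `v` unramified in `E`, and (`v` non-split → `p ∣ ord_v x`)
                              ⟹  `helper1980.LocNorm F E v x`.
* `locNorm_raw_of_unramified` : the same in unfolded form (definitionally equal to each of the
                              `LocNorm` predicates of `helper1980`, `helper3550`, `helper4783`,
                              `helper8443`).
* `hasse_norm_mixed`        : the Hasse norm theorem `helper694.hasse_norm_raw` with the
                              hypothesis that the devissage really produces: at every finite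
                              place either a completion-free local norm, or
                              (`v ∤ p`, unramified, and `p ∣ ord_v b` when `v` is non-split).

NOTE: S14's `Stmt_NormInert` is the CONVERSE statement (a norm has `p ∣ ord_v` at inert `v`).

Proof of `locNorm_of_unramified`: Kummer generator `(a, α)` with `N (t - α) = t ^ p - a`
(`helper4301.exists_kummer_gen`); `e = 1` gives `p ∣ ord_v a`; replace `a` by the `v`-unit
`a₁ = a c ^ p` (`α₁ = c α`, same norm identity).  If `a₁` is a `p`-th power residue at `v` then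
(Hensel, `v ∤ p`) it is a local `p`-th power and EVERY `x` is a local norm
(`helper4301.locNorm_of_locPow_gen`).  Otherwise `v` is non-split (`helper694.kummer_law`), so
`p ∣ ord_v x`, `x = d ^ (-p) * u` with `u` a `v`-unit, and units are local norms
(`helper4301.locNorm_of_unit`).
-/
import Mathlib
import Fermat.Agent.S14.helper3036_M5SUnitIdx
import Fermat.Agent.S55.helper4301_NormTwo
import Fermat.Agent.S55.helper694_KummerFacts
import Fermat.Agent.S55.helper1641_HasseAux

set_option autoImplicit false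

open IsDedekindDomain NumberField WithZero

namespace Fermat.Agent.S55.helper5953

open Fermat.Agent.S14
open Fermat.Agent.S14.helper2613 (ordAt)
open Fermat.Agent.S14.helper1892 (LocPowN LocPow locPow_pow)
open Fermat.Agent.S14.helper165 (Split normHom)
open Fermat.Agent.S55.helper1980 (LocNorm)

noncomputable section

variable {F E : Type} [Field F] [NumberField F] [Field E] [NumberField E] [Algebra F E]

/-- If `v` is unramified in the Galois extension `E / F` and `α ^ p = a` with `α ∈ E`,
`a ∈ Fˣ`, then `p ∣ ord_v a`. -/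
theorem dvd_ordAt_of_unramified [IsGalois F E] {p : ℕ} (v : HeightOneSpectrum (𝓞 F))
    (hunr : v.asIdeal.ramificationIdxIn (𝓞 E) = 1) (a : Fˣ) (α : E)
    (hα : α ^ p = algebraMap F E (a : F)) : (p : ℤ) ∣ ordAt v a := by
  obtain ⟨w, rfl⟩ := helper3036.exists_under_eq (E := E) v
  have h1 := helper3036.valuation_algebraMap (F := F) w (a : F)
  rw [helper3036.ramIdx_eq_one w hunr, pow_one, ← hα, map_pow] at h1
  refine ⟨log (w.valuation E α), ?_⟩
  unfold ordAt
  rw [← h1, log_pow]
  simp

omit [NumberField E] [Algebra F E] in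
/-- If `p ∣ ord_v a`, then `a * c ^ p` is a `v`-unit for a suitable `c ∈ Fˣ`. -/
theorem exists_unit_mul_pow {p : ℕ} (v : HeightOneSpectrum (𝓞 F)) (a : Fˣ)
    (ha : (p : ℤ) ∣ ordAt v a) : ∃ c : Fˣ, v.valuation F ((a * c ^ p : Fˣ) : F) = 1 := by
  obtain ⟨k, hk⟩ := ha
  obtain ⟨π, hπ⟩ := v.valuation_exists_uniformizer F
  have hπ0 : π ≠ 0 := by
    rintro rfl
    rw [map_zero] at hπ
    exact exp_ne_zero hπ.symm
  have hva : v.valuation F (a : F) = exp ((p : ℤ) * k) := by
    rw [← hk]
    exact (exp_log (helper2613.valuation_unit_ne_zero v a)).symm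
  refine ⟨(Units.mk0 π hπ0) ^ k, ?_⟩
  rw [Units.val_mul, Units.val_pow_eq_pow_val, Units.val_zpow_eq_zpow_val, Units.val_mk0,
    map_mul, map_pow, map_zpow₀, hπ, hva, ← exp_zsmul, ← exp_nsmul, ← exp_add, ← exp_zero]
  congr 1
  simp only [smul_eq_mul, nsmul_eq_mul]
  ring

omit [NumberField F] [NumberField E] in
/-- Rescaling a Kummer generator: `N (t - c α) = t ^ p - a c ^ p`. -/
theorem norm_sub_scale {p : ℕ} (hdeg : Module.finrank F E = p) {a : F} {α : E}
    (hnorm : ∀ t : F, Algebra.norm F (algebraMap F E t - α) = t ^ p - a) (c : F) (hc : c ≠ 0)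
    (t : F) : Algebra.norm F (algebraMap F E t - algebraMap F E c * α) = t ^ p - a * c ^ p := by
  have h0 : c * (t / c) = t := by field_simp
  have h1 : algebraMap F E t - algebraMap F E c * α
      = algebraMap F E c * (algebraMap F E (t / c) - α) := by
    rw [mul_sub, ← map_mul, h0]
  have h2 : c ^ p * (t / c) ^ p = t ^ p := by rw [← mul_pow, h0]
  rw [h1, map_mul, Algebra.norm_algebraMap, hdeg, hnorm, mul_sub, h2]
  ring

/-- **Local norms at unramified places** (completion-free).  `E / F` Galois of odd prime degree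
`p`, `ζ_p ∈ F`, `v ∤ p` unramified in `E`.  If `p ∣ ord_v x` whenever `v` does not split
completely, then `x` is a local norm at `v`. -/
theorem locNorm_of_unramified [IsGalois F E] {p : ℕ} (hp : p.Prime) (hodd : p ≠ 2)
    (hdeg : Module.finrank F E = p) (hζ : ∃ ζ : F, IsPrimitiveRoot ζ p)
    (v : HeightOneSpectrum (𝓞 F)) (hvp : (p : 𝓞 F) ∉ v.asIdeal)
    (hunr : v.asIdeal.ramificationIdxIn (𝓞 E) = 1) (x : Fˣ)
    (hx : ¬ Split F E v → (p : ℤ) ∣ ordAt v x) : LocNorm F E v x := by
  have : FiniteDimensional F E := Module.finite_of_finrank_pos (by rw [hdeg]; exact hp.pos)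
  obtain ⟨a, α, ha, hα, hnorm⟩ := helper4301.exists_kummer_gen hp hζ hdeg
  -- normalise the Kummer generator to a `v`-unit
  have hda : (p : ℤ) ∣ ordAt v a := dvd_ordAt_of_unramified v hunr a α hα
  obtain ⟨c, hc⟩ := exists_unit_mul_pow v a hda
  have hcoe : ((a * c ^ p : Fˣ) : F) = (a : F) * (c : F) ^ p := by push_cast; rfl
  have hα₁p : (algebraMap F E (c : F) * α) ^ p = algebraMap F E ((a * c ^ p : Fˣ) : F) := by
    rw [mul_pow, hα, hcoe, map_mul, map_pow]
    ring
  have hnorm₁ : ∀ t : F, Algebra.norm F (algebraMap F E t - algebraMap F E (c : F) * α)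
      = t ^ p - ((a * c ^ p : Fˣ) : F) := by
    intro t
    rw [norm_sub_scale hdeg hnorm (c : F) c.ne_zero t, hcoe]
  have ha₁ : ¬ ∃ y : Fˣ, a * c ^ p = y ^ p := by
    rintro ⟨y, hy⟩
    refine ha ⟨y * c⁻¹, ?_⟩
    rw [mul_pow, ← hy, inv_pow, mul_inv_cancel_right]
  by_cases hres : LocPowN p v 1 (a * c ^ p)
  · exact helper4301.locNorm_of_locPow_gen hp hnorm₁
      (helper4301.locPow_of_locPowN_one hp hvp hres) x
  · -- `v` does not split completely
    obtain ⟨ζ, hζ⟩ := hζ
    obtain ⟨ζ', σ, hζ', hσ⟩ :=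
      helper1641.exists_kummer_sigma F E hp hdeg hζ (a * c ^ p) ha₁ _ hα₁p
    have hd₁ : (p : ℤ) ∣ ordAt v (a * c ^ p) := by
      rw [helper694.ordAt_eq_zero_of_valuation_eq_one v (a * c ^ p) hc]
      exact dvd_zero _
    have hlaw := (helper694.kummer_law F E hp hdeg hζ' (a * c ^ p) _ hα₁p σ hσ v hvp hd₁).2
    have hns : ¬ Split F E v := fun hs => hres ((hlaw.mp hs) 1)
    obtain ⟨d, hd⟩ := exists_unit_mul_pow v x (hx hns)
    have h1 : LocNorm F E v (x * d ^ p) :=
      helper4301.locNorm_of_unit hp hodd hdeg hnorm₁ hvp hc hd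
    have h2 : LocNorm F E v (d ^ p) := helper4301.locNorm_of_locPow hdeg (locPow_pow p v d)
    have h3 : x = (x * d ^ p) * (d ^ p)⁻¹ := by simp
    rw [h3]
    exact helper4301.locNorm_mul h1 (helper4301.locNorm_inv h2)

/-- `locNorm_of_unramified` in unfolded form (definitionally equal to the completion-free
`LocNorm` predicates of `helper1980`, `helper3550`, `helper4783`, `helper8443`). -/
theorem locNorm_raw_of_unramified [IsGalois F E] {p : ℕ} (hp : p.Prime) (hodd : p ≠ 2)
    (hdeg : Module.finrank F E = p) (hζ : ∃ ζ : F, IsPrimitiveRoot ζ p)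
    (v : HeightOneSpectrum (𝓞 F)) (hvp : (p : 𝓞 F) ∉ v.asIdeal)
    (hunr : v.asIdeal.ramificationIdxIn (𝓞 E) = 1) (x : Fˣ)
    (hx : ¬ Split F E v → (p : ℤ) ∣ ordAt v x) (N : ℕ) :
    ∃ y : Eˣ, v.valuation F ((x : F) / (normHom F E y : F) - 1) ≤ WithZero.exp (-(N : ℤ)) :=
  locNorm_of_unramified hp hodd hdeg hζ v hvp hunr x hx N

/-- **Hasse norm theorem, mixed local hypotheses.**  `E / F` Galois of odd prime degree `p`,
`ζ_p ∈ F`.  Let `b ∈ Fˣ` be such that at every finite place `v` of `F` either `b` is a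
(completion-free) local norm, or `v ∤ p` is unramified in `E` and `p ∣ ord_v b` when `v` does
not split completely.  Then `b` is a norm from `E`.  (`hNN` is the local non-norm input of
`helper694.hasse_norm_raw`.) -/
theorem hasse_norm_mixed [IsGalois F E] {p : ℕ} (hp : p.Prime) (hodd : p ≠ 2)
    (hdeg : Module.finrank F E = p) (hζ : ∃ ζ : F, IsPrimitiveRoot ζ p)
    (hNN : ∀ v : HeightOneSpectrum (𝓞 F), ¬ Split F E v → ∃ z : Fˣ, ¬ ∀ N : ℕ, ∃ y : Eˣ,
      v.valuation F ((z : F) / (normHom F E y : F) - 1) ≤ WithZero.exp (-(N : ℤ)))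
    (b : Fˣ)
    (hb : ∀ v : HeightOneSpectrum (𝓞 F),
      (∀ N : ℕ, ∃ y : Eˣ,
        v.valuation F ((b : F) / (normHom F E y : F) - 1) ≤ WithZero.exp (-(N : ℤ))) ∨
      ((p : 𝓞 F) ∉ v.asIdeal ∧ v.asIdeal.ramificationIdxIn (𝓞 E) = 1 ∧
        (¬ Split F E v → (p : ℤ) ∣ ordAt v b))) :
    ∃ y : Eˣ, normHom F E y = b := by
  refine helper694.hasse_norm_raw F E hp hodd hdeg hζ hNN b fun v N => ?_
  rcases hb v with h | ⟨h1, h2, h3⟩
  · exact h N
  · exact locNorm_raw_of_unramified hp hodd hdeg hζ v h1 h2 b h3 N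

end

end Fermat.Agent.S55.helper5953
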