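import Mathlib
import Fermat.Agent.S55.helper2999_LayerHasse
import Fermat.Agent.S55.helper5953_UnramNorm
import Fermat.Agent.S55.helper4709_GlobRam
import Fermat.Agent.S55.helper4608_LocNormEmb
import Fermat.Agent.S55.helper5075_OrdPush

/-!
# S55 / NF-GH, places outside `S`: the frozen-carrier end of the ORD-PUSH route (helper5075)

`helper5075_OrdPush` shows that at a place outside `S` the Hasse devissage only needs the
VALUATION SHADOW of a cochain.  This file turns that shadow into the completion-free local norm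
condition `helper1980.LocNorm` on the frozen carriers, i.e. into the second disjunct of
`helper2999.layer_hasse_mixed`.

Notation: `Qb = AlgebraicClosure ℚ`, a *place* is `(q, g)` with embedding
`helper2999.tauAt q g = padicEmbedding q ∘ g⁻¹`, and `helper4727.placeOf q F g` is the prime of
`𝓞 F` it cuts out.

* `norm_tauAt_eq_zpow` (V1) : for an `S`-field `F`, `q ∉ S`, `x ∈ Fˣ`:
  `‖tauAt q g x‖ = q ^ ordAt (placeOf q F g) x` (`q` is a uniformizer at every place over `q`).
* `ramificationIdxIn_placeOf_eq_one` (V2) : for a cyclic layer `E / K` with `E` an `S`-field and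
  `q ∉ S`, the prime `placeOf q K g` is unramified in `E`.
* `locNorm_placeOf_of_dvd_ordAt` (U) : `p ∣ ord b` at `placeOf q K g`, `q ∉ S`  ⟹  `b` is a
  completion-free local norm there.
* `locNorm_placeOf_of_norm_eq_pow` (U') : the same from `‖τ b‖ = ‖τ z‖ ^ p`, `z` in an `S`-field.
* `exists_norm_eq_pow_of_cyc_eq_unitValued_mul_coboundary` (W) : ORD-PUSH in norm form.
-/

set_option autoImplicit false
set_option linter.unusedSectionVars false

namespace Fermat.Agent.S55.helper5075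

open IsDedekindDomain
open scoped NumberField NNReal Pointwise
open Fermat.Agent.S14.helper2613 (ordAt)

attribute [local instance] Fermat.Agent.Lib.helper54.isAlgebraic_Qbar
  Fermat.Agent.Lib.helper54.isAlgClosure_Qbar Fermat.Agent.Lib.helper54.isGalois_Qbar
  Fermat.Agent.Lib.helper54.isIntegral_Qbar
attribute [local instance] Fermat.Agent.Lib.helper54.numberField_intermediate
attribute [local instance] helper2999.numberField_extendScalars

local notation "Qb" => AlgebraicClosure ℚ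
local notation "GQ" => (AlgebraicClosure ℚ ≃ₐ[ℚ] AlgebraicClosure ℚ)

/-! ### ORD-PUSH in norm form -/

section NormForm

variable {G M : Type*} [Group G] [CommGroup M] [MulDistribMulAction G M]

/-- A positive multiplicative function sends `1` to `1`. -/
theorem nrm_one_of_mul (nrm : M → ℝ) (hpos : ∀ x, 0 < nrm x)
    (hmul : ∀ x y, nrm (x * y) = nrm x * nrm y) : nrm 1 = 1 := by
  have h := hmul 1 1
  rw [mul_one] at h
  have h0 := (hpos 1).ne'
  field_simp at h
  linarith

/-- A positive multiplicative function commutes with inverses. -/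
theorem nrm_inv_of_mul (nrm : M → ℝ) (hpos : ∀ x, 0 < nrm x)
    (hmul : ∀ x y, nrm (x * y) = nrm x * nrm y) (x : M) : nrm x⁻¹ = (nrm x)⁻¹ := by
  have h := hmul x x⁻¹
  rw [mul_inv_cancel, nrm_one_of_mul nrm hpos hmul] at h
  exact eq_inv_of_mul_eq_one_right h.symm

/-- **(W) ORD-PUSH in norm form.**  `nrm : M → ℝ` positive, multiplicative and invariant under
the subgroup `D` (the decomposition group of a place; `nrm = ‖τ ·‖`).  If the cyclic normal form
`b ^ carry (χ g, χ h)` is, on `D`, the product of a cochain `c` of norm one (e.g. a `μ_p`-valued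
one) and the coboundary of ANY cochain `u`, and `χ` does not vanish at some `s ∈ D`, then
`nrm b` is the `p`-th power of the norm of a value of `u`.  (`hfin`: some power of `s` acts
trivially for `u`; automatic for finite groups and for level cochains, see below.) -/
theorem exists_norm_eq_pow_of_cyc_eq_unitValued_mul_coboundary {p : ℕ} [Fact p.Prime]
    (nrm : M → ℝ) (hpos : ∀ x, 0 < nrm x) (hmul : ∀ x y, nrm (x * y) = nrm x * nrm y)
    (D : Subgroup G) (hinv : ∀ g ∈ D, ∀ x, nrm (g • x) = nrm x)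
    (χ : G → ZMod p) (hχ : ∀ g ∈ D, ∀ h ∈ D, χ (g * h) = χ g + χ h) (b : M)
    (c : G × G → M) (hc : ∀ g ∈ D, ∀ h ∈ D, nrm (c (g, h)) = 1) (u : G → M)
    (hrel : ∀ g ∈ D, ∀ h ∈ D,
      b ^ carryZ p (χ g) (χ h) = c (g, h) * (g • u h / u (g * h) * u g))
    (s : G) (hsD : s ∈ D) (hs : χ s ≠ 0)
    (hfin : ∃ n : ℕ, 0 < n ∧ ∀ m : ℕ, nrm (u (s ^ (n * m))) = 1) :
    ∃ k : ℕ, nrm b = nrm (u (s ^ k)) ^ p := by
  have hp : p.Prime := Fact.out
  have hninv := nrm_inv_of_mul nrm hpos hmul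
  -- the additive valuation
  have hmul' : ∀ x y : M, Real.log (nrm (x * y)) = Real.log (nrm x) + Real.log (nrm y) :=
    fun x y => by rw [hmul, Real.log_mul (hpos x).ne' (hpos y).ne']
  have hinv' : ∀ g ∈ D, ∀ x : M, Real.log (nrm (g • x)) = Real.log (nrm x) :=
    fun g hg x => by rw [hinv g hg x]
  have htf : ∀ (n : ℕ) (a : ℝ), 0 < n → n • a = 0 → a = 0 := by
    intro n a hn h
    rw [nsmul_eq_mul] at h
    exact (mul_eq_zero.mp h).resolve_left (by exact_mod_cast hn.ne')
  -- replace `s` by a power on which `χ = 1`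
  have hχpow : ∀ k : ℕ, χ (s ^ k) = (k : ZMod p) * χ s := by
    intro k
    induction k with
    | zero =>
      have := hχ 1 D.one_mem 1 D.one_mem
      rw [mul_one] at this
      simpa using (add_eq_left.mp this.symm)
    | succ k ih =>
      rw [pow_succ, hχ _ (D.pow_mem hsD k) _ hsD, ih]
      push_cast
      ring
  set k : ℕ := (χ s)⁻¹.val with hk
  have hs' : χ (s ^ k) = 1 := by
    rw [hχpow, hk, ZMod.natCast_zmod_val]
    exact inv_mul_cancel₀ hs
  have hrel' : ∀ g ∈ D, ∀ h ∈ D, c (g, h) =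
      b ^ carryZ p (χ g) (χ h) * (g • (u h)⁻¹ / (u (g * h))⁻¹ * (u g)⁻¹) := by
    intro g hg h hh
    rw [hrel g hg h hh, smul_inv']
    have e : (g • u h / u (g * h) * u g) * ((g • u h)⁻¹ / (u (g * h))⁻¹ * (u g)⁻¹) = 1 := by
      simp only [div_eq_mul_inv, inv_inv]
      calc g • u h * (u (g * h))⁻¹ * u g * ((g • u h)⁻¹ * u (g * h) * (u g)⁻¹)
          = (g • u h * (g • u h)⁻¹) * ((u (g * h))⁻¹ * u (g * h)) * (u g * (u g)⁻¹) := by
            simp only [mul_comm, mul_left_comm, mul_assoc]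
        _ = 1 := by simp
    rw [mul_assoc, e, mul_one]
  obtain ⟨n, hn, hn1⟩ := hfin
  have hmain := ord_eq_neg_smul_of_unitValued_eq_cyc_mul_coboundary (M := M) (G := G) htf
    (ord := fun x => Real.log (nrm x)) (D := D) hp.one_lt hmul' hinv' χ hχ b c
    (fun g hg h hh => by simp only [hc g hg h hh, Real.log_one]) (fun g => (u g)⁻¹) hrel'
    (s ^ k) (D.pow_mem hsD k) hs'
    ⟨n, hn, by
      rw [← pow_mul, hninv, show k * (p * n) = n * (k * p) by ring, hn1, inv_one, Real.log_one]⟩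
  rw [hninv, Real.log_inv, smul_neg, neg_neg, nsmul_eq_mul] at hmain
  refine ⟨k, Real.log_injOn_pos (Set.mem_Ioi.2 (hpos b))
    (Set.mem_Ioi.2 (pow_pos (hpos _) p)) ?_⟩
  rw [Real.log_pow, hmain]

/-- The value at `1` of the cochain `u` has norm one. -/
theorem nrm_one_of_rel {p : ℕ} [NeZero p]
    (nrm : M → ℝ) (hpos : ∀ x, 0 < nrm x) (hmul : ∀ x y, nrm (x * y) = nrm x * nrm y)
    (D : Subgroup G) (χ : G → ZMod p) (hχ : ∀ g ∈ D, ∀ h ∈ D, χ (g * h) = χ g + χ h) (b : M)
    (c : G × G → M) (hc : ∀ g ∈ D, ∀ h ∈ D, nrm (c (g, h)) = 1) (u : G → M)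
    (hrel : ∀ g ∈ D, ∀ h ∈ D,
      b ^ carryZ p (χ g) (χ h) = c (g, h) * (g • u h / u (g * h) * u g)) :
    nrm (u 1) = 1 := by
  have hχ1 : χ 1 = 0 := by
    have := hχ 1 D.one_mem 1 D.one_mem
    rw [mul_one] at this
    exact (add_eq_left.mp this.symm)
  have h := hrel 1 D.one_mem 1 D.one_mem
  rw [hχ1, carryZ_zero_left, pow_zero, one_smul, mul_one, div_self', one_mul] at h
  have h2 := congrArg nrm h
  rw [nrm_one_of_mul nrm hpos hmul, hmul, hc 1 D.one_mem 1 D.one_mem, one_mul] at h2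
  exact h2.symm

/-- (W) for a cochain `u` which is constant on the powers of `s ^ n` (a *level* cochain). -/
theorem exists_norm_eq_pow_of_level {p : ℕ} [Fact p.Prime]
    (nrm : M → ℝ) (hpos : ∀ x, 0 < nrm x) (hmul : ∀ x y, nrm (x * y) = nrm x * nrm y)
    (D : Subgroup G) (hinv : ∀ g ∈ D, ∀ x, nrm (g • x) = nrm x)
    (χ : G → ZMod p) (hχ : ∀ g ∈ D, ∀ h ∈ D, χ (g * h) = χ g + χ h) (b : M)
    (c : G × G → M) (hc : ∀ g ∈ D, ∀ h ∈ D, nrm (c (g, h)) = 1) (u : G → M)
    (hrel : ∀ g ∈ D, ∀ h ∈ D,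
      b ^ carryZ p (χ g) (χ h) = c (g, h) * (g • u h / u (g * h) * u g))
    (s : G) (hsD : s ∈ D) (hs : χ s ≠ 0)
    (hlev : ∃ n : ℕ, 0 < n ∧ ∀ m : ℕ, u (s ^ (n * m)) = u 1) :
    ∃ k : ℕ, nrm b = nrm (u (s ^ k)) ^ p := by
  have : NeZero p := ⟨(Fact.out : p.Prime).ne_zero⟩
  obtain ⟨n, hn, hn1⟩ := hlev
  exact exists_norm_eq_pow_of_cyc_eq_unitValued_mul_coboundary nrm hpos hmul D hinv χ hχ b c hc u
    hrel s hsD hs ⟨n, hn, fun m => by
      rw [hn1 m]; exact nrm_one_of_rel nrm hpos hmul D χ hχ b c hc u hrel⟩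

/-- (W) for a finite group. -/
theorem exists_norm_eq_pow_of_finite [Finite G] {p : ℕ} [Fact p.Prime]
    (nrm : M → ℝ) (hpos : ∀ x, 0 < nrm x) (hmul : ∀ x y, nrm (x * y) = nrm x * nrm y)
    (D : Subgroup G) (hinv : ∀ g ∈ D, ∀ x, nrm (g • x) = nrm x)
    (χ : G → ZMod p) (hχ : ∀ g ∈ D, ∀ h ∈ D, χ (g * h) = χ g + χ h) (b : M)
    (c : G × G → M) (hc : ∀ g ∈ D, ∀ h ∈ D, nrm (c (g, h)) = 1) (u : G → M)
    (hrel : ∀ g ∈ D, ∀ h ∈ D,
      b ^ carryZ p (χ g) (χ h) = c (g, h) * (g • u h / u (g * h) * u g))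
    (s : G) (hsD : s ∈ D) (hs : χ s ≠ 0) :
    ∃ k : ℕ, nrm b = nrm (u (s ^ k)) ^ p :=
  exists_norm_eq_pow_of_level nrm hpos hmul D hinv χ hχ b c hc u hrel s hsD hs
    ⟨Nat.card G, Nat.card_pos, fun m => by rw [pow_mul, pow_card_eq_one', one_pow]⟩

end NormForm

/-! ### Abstract number fields: value group inside `q ^ ℤ` -/

section Abstract

variable {q : ℕ} [Fact q.Prime] {K : Type*} [Field K] [NumberField K] (φ : K →+* PadicAlgCl q)

theorem norm_map_natCast_self : ‖φ ((q : ℕ) : K)‖ = (q : ℝ)⁻¹ := by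
  rw [map_natCast]
  exact helper4608.norm_natCast_self

theorem one_lt_cast_prime : (1 : ℝ) < (q : ℝ) := by
  exact_mod_cast (Fact.out : q.Prime).one_lt

/-- If the value group of `φ` on `K` is contained in `q ^ ℤ`, then `q` is a uniformizer at the
place cut out by `φ`. -/
theorem valuation_natCast_eq_exp_neg_one
    (hval : ∀ x : K, x ≠ 0 → ∃ k : ℤ, ‖φ x‖ = (q : ℝ) ^ k) :
    (helper4608.placeOf φ).valuation K ((q : ℕ) : K) = WithZero.exp (-1 : ℤ) := by
  have hq1 : (1 : ℝ) < (q : ℝ) := one_lt_cast_prime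
  have hq0 : (0 : ℝ) < (q : ℝ) := by linarith
  have hqK : ((q : ℕ) : K) ≠ 0 := Nat.cast_ne_zero.mpr (Fact.out : q.Prime).ne_zero
  obtain ⟨π, hπ⟩ := (helper4608.placeOf φ).valuation_exists_uniformizer K
  have hπ0 : π ≠ 0 := by
    rintro rfl
    rw [map_zero] at hπ
    exact WithZero.exp_ne_zero hπ.symm
  obtain ⟨k, hk⟩ := hval π hπ0
  -- `π * q ^ k` is a unit at the place
  have h1 : ‖φ (π * ((q : ℕ) : K) ^ k)‖ = 1 := by
    rw [map_mul, map_zpow₀, norm_mul, norm_zpow, norm_map_natCast_self, hk, inv_zpow]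
    exact mul_inv_cancel₀ (zpow_ne_zero k hq0.ne')
  have h2 := (helper4608.placeOf_valuation_eq_one_iff φ _).2 h1
  have hv0 : (helper4608.placeOf φ).valuation K ((q : ℕ) : K) ≠ 0 := by
    rw [Ne, map_eq_zero]
    exact hqK
  obtain ⟨z, hz⟩ : ∃ z : ℤ, (helper4608.placeOf φ).valuation K ((q : ℕ) : K) = WithZero.exp z :=
    ⟨_, (WithZero.exp_log hv0).symm⟩
  have hlt : (helper4608.placeOf φ).valuation K ((q : ℕ) : K) < 1 := by
    rw [helper4608.placeOf_valuation_lt_one_iff, norm_map_natCast_self]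
    exact inv_lt_one_of_one_lt₀ hq1
  rw [hz] at hlt ⊢
  rw [← WithZero.exp_zero, WithZero.exp_lt_exp] at hlt
  rw [map_mul, map_zpow₀, hπ, hz, ← WithZero.exp_zsmul, ← WithZero.exp_add, ← WithZero.exp_zero,
    WithZero.exp_inj, smul_eq_mul] at h2
  rw [WithZero.exp_inj]
  have h3 : z ∣ 1 := Dvd.intro_left k (by linarith)
  rcases Int.isUnit_iff.1 (isUnit_of_dvd_one h3) with h4 | h4
  · omega
  · exact h4

/-- If the value group of `φ` on `K` is contained in `q ^ ℤ`, the norm of `φ x` is `q` to the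
order of `x` at the place cut out by `φ`. -/
theorem norm_eq_zpow_log_valuation
    (hval : ∀ x : K, x ≠ 0 → ∃ k : ℤ, ‖φ x‖ = (q : ℝ) ^ k) (x : K) (hx : x ≠ 0) :
    ‖φ x‖ = (q : ℝ) ^ (WithZero.log ((helper4608.placeOf φ).valuation K x)) := by
  have hq1 : (1 : ℝ) < (q : ℝ) := one_lt_cast_prime
  have hq0 : (0 : ℝ) < (q : ℝ) := by linarith
  have hv0 : (helper4608.placeOf φ).valuation K x ≠ 0 := by
    rw [Ne, map_eq_zero]
    exact hx
  set n : ℤ := WithZero.log ((helper4608.placeOf φ).valuation K x) with hn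
  have hvx : (helper4608.placeOf φ).valuation K x = WithZero.exp n := (WithZero.exp_log hv0).symm
  have h1 : (helper4608.placeOf φ).valuation K (x * ((q : ℕ) : K) ^ n) = 1 := by
    rw [map_mul, map_zpow₀, valuation_natCast_eq_exp_neg_one φ hval, hvx, ← WithZero.exp_zsmul,
      ← WithZero.exp_add, ← WithZero.exp_zero, WithZero.exp_inj, smul_eq_mul]
    ring
  have h2 := (helper4608.placeOf_valuation_eq_one_iff φ _).1 h1
  rw [map_mul, map_zpow₀, norm_mul, norm_zpow, norm_map_natCast_self, inv_zpow] at h2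
  exact (mul_inv_eq_one₀ (zpow_ne_zero n hq0.ne')).1 h2

end Abstract

/-! ### The frozen carrier: places `(q, g)` of subfields of `ℚ̄` -/

section Frozen

variable {S : Finset Nat.Primes} (q : ℕ) [Fact q.Prime]

/-- The prime `helper4727.placeOf q F g` is the place cut out (in the sense of `helper4608`) by
the embedding `tauAt q g` restricted to `F`. -/
theorem placeOf_eq_placeOf_tauAt (F : IntermediateField ℚ Qb) [FiniteDimensional ℚ F] (g : GQ) :
    helper4727.placeOf q F g =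
      helper4608.placeOf ((helper2999.tauAt q g).comp (algebraMap F Qb)) := by
  apply helper4608.eq_placeOf_of_dict
  intro x
  rw [helper4727.placeOf_valuation_le_one_iff]
  rfl

/-- (G2a) of `helper4709` at `placeOf`: `q` is a uniformizer at every place over `q ∉ S` of an
`S`-field. -/
theorem placeOf_valuation_natCast {F : IntermediateField ℚ Qb} [FiniteDimensional ℚ F]
    (hF : F.IsUnramifiedOutside S) (hq : (⟨q, Fact.out⟩ : Nat.Primes) ∉ S) (g : GQ) :
    (helper4727.placeOf q F g).valuation F ((q : ℕ) : F) = WithZero.exp (-1 : ℤ) :=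
  helper4709.placeOL_valuation_natCast_of_isUnramifiedOutside hF ⟨q, Fact.out⟩ hq
    (g • padicPlace q)
    (helper4727.liesOverPrime_smul g (padicPlace q) (helper4727.padicPlace_liesOverPrime q))

/-- **(V1)** For an `S`-field `F`, a prime `q ∉ S` and `x ∈ Fˣ`, the norm of `x` at the place
`(q, g)` is `q` to the order of `x` at `placeOf q F g`. -/
theorem norm_tauAt_eq_zpow {F : IntermediateField ℚ Qb} [FiniteDimensional ℚ F]
    (hF : F.IsUnramifiedOutside S) (hq : (⟨q, Fact.out⟩ : Nat.Primes) ∉ S) (g : GQ)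
    (x : (↥F)ˣ) :
    ‖helper2999.tauAt q g (((x : (↥F)ˣ) : F) : Qb)‖ =
      (q : ℝ) ^ (ordAt (helper4727.placeOf q F g) x) := by
  have hπ := placeOf_valuation_natCast q hF hq g
  have hv0 := Fermat.Agent.S14.helper2613.valuation_unit_ne_zero (helper4727.placeOf q F g) x
  have hx : (helper4727.placeOf q F g).valuation F (x : F) =
      WithZero.exp (-(-(ordAt (helper4727.placeOf q F g) x))) := by
    rw [neg_neg]
    exact (WithZero.exp_log hv0).symm
  have h := helper4727.nnnorm_eq_zpow_of_valuation_eq q F g ((q : ℕ) : F) (x : F)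
    (-(ordAt (helper4727.placeOf q F g) x)) hπ hx
  have h' := congrArg (fun r : ℝ≥0 => (r : ℝ)) h
  simp only [NNReal.coe_zpow, coe_nnnorm] at h'
  have hqn : ‖padicEmbedding q (g⁻¹ (algebraMap F Qb ((q : ℕ) : F)))‖ = (q : ℝ)⁻¹ := by
    rw [map_natCast, map_natCast, map_natCast]
    exact helper4608.norm_natCast_self
  rw [hqn, inv_zpow, ← zpow_neg, neg_neg] at h'
  exact h'

variable {K E : IntermediateField ℚ Qb} {p : ℕ} {s : GQ}

/-- **(V2)** For a cyclic layer `E / K` with `E` an `S`-field and `q ∉ S`, the prime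
`placeOf q K g` of `𝓞 K` is unramified in `E` (`hunr` of `helper5953.locNorm_of_unramified`). -/
theorem ramificationIdxIn_placeOf_eq_one [Fact p.Prime] [FiniteDimensional ℚ K]
    [FiniteDimensional ℚ E] (h : helper2999.IsCyclicLayer p K E s)
    (hE : E.IsUnramifiedOutside S) (hq : (⟨q, Fact.out⟩ : Nat.Primes) ∉ S) (g : GQ) :
    (helper4727.placeOf q K g).asIdeal.ramificationIdxIn
      (𝓞 (IntermediateField.extendScalars h.le)) = 1 := by
  have hGal := h.isGalois
  have hK : K.IsUnramifiedOutside S := hE.of_le h.le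
  set EK := IntermediateField.extendScalars h.le with hEK
  set φ : EK →+* PadicAlgCl q := (helper2999.tauAt q g).comp (algebraMap EK Qb) with hφ
  -- the value group of `φ` on `E` is `q ^ ℤ`
  have hval : ∀ x : EK, x ≠ 0 → ∃ k : ℤ, ‖φ x‖ = (q : ℝ) ^ k := by
    intro x hx
    have hxE : (x : Qb) ∈ E := (IntermediateField.mem_extendScalars h.le).1 x.2
    have hx0 : (⟨(x : Qb), hxE⟩ : E) ≠ 0 := fun h0 => hx (Subtype.ext (congrArg Subtype.val h0))
    exact ⟨_, norm_tauAt_eq_zpow q hE hq g (Units.mk0 ⟨(x : Qb), hxE⟩ hx0)⟩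
  have hwq := valuation_natCast_eq_exp_neg_one φ hval
  -- the place below
  have hv : helper4727.placeOf q K g = helper4608.placeOf (φ.comp (algebraMap K EK)) :=
    helper4608.eq_placeOf_of_dict _ _ (helper2999.placeOf_dict h.le q g)
  have hvq := placeOf_valuation_natCast q hK hq g
  rw [hv] at hvq ⊢
  have hlo : (helper4608.placeOf φ).asIdeal.LiesOver
      (helper4608.placeOf (φ.comp (algebraMap K EK))).asIdeal := helper4608.placeOf_liesOver φ
  have h1 := HeightOneSpectrum.valuation_liesOver EK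
    (helper4608.placeOf (φ.comp (algebraMap K EK))) (helper4608.placeOf φ) ((q : ℕ) : K)
  rw [hvq, map_natCast, hwq, ← WithZero.exp_nsmul, WithZero.exp_inj] at h1
  have he : (helper4608.placeOf (φ.comp (algebraMap K EK))).asIdeal.ramificationIdx'
      (helper4608.placeOf φ).asIdeal = 1 := by
    have h2 : ((helper4608.placeOf (φ.comp (algebraMap K EK))).asIdeal.ramificationIdx'
      (helper4608.placeOf φ).asIdeal : ℤ) = 1 := by
      rw [nsmul_eq_mul] at h1
      linarith
    exact_mod_cast h2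
  have := Fermat.Agent.S14.helper4373.isGaloisGroup_ringOfIntegers K EK
  rw [Ideal.ramificationIdxIn_eq_ramificationIdx _ (helper4608.placeOf φ).asIdeal (EK ≃ₐ[K] EK),
    ← Ideal.ramificationIdx'_eq_ramificationIdx _ _
      (helper4608.placeOf (φ.comp (algebraMap K EK))).ne_bot, he]

/-- **(U)** `E / K` a cyclic layer of odd prime degree `p` with `ζ_p ∈ K`, `E` an `S`-field,
`q ∉ S`, `q ≠ p`.  If `p ∣ ord b` at the prime `placeOf q K g`, then `b` is a completion-free
local norm there (second disjunct of `helper2999.layer_hasse_mixed`). -/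
theorem locNorm_placeOf_of_dvd_ordAt [Fact p.Prime] [FiniteDimensional ℚ K]
    [FiniteDimensional ℚ E] (h : helper2999.IsCyclicLayer p K E s) (hp2 : p ≠ 2) {ζ : Qb}
    (hζ : IsPrimitiveRoot ζ p) (hζK : ζ ∈ K) (hE : E.IsUnramifiedOutside S)
    (hq : (⟨q, Fact.out⟩ : Nat.Primes) ∉ S) (hqp : q ≠ p) (g : GQ) (b : (↥K)ˣ)
    (hb : (p : ℤ) ∣ ordAt (helper4727.placeOf q K g) b) :
    helper1980.LocNorm K (IntermediateField.extendScalars h.le) (helper4727.placeOf q K g) b := by
  have hGal := h.isGalois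
  have hζ' : IsPrimitiveRoot (⟨ζ, hζK⟩ : K) p :=
    IsPrimitiveRoot.of_map_of_injective (f := algebraMap K Qb) hζ (algebraMap K Qb).injective
  have hvp : ((p : ℕ) : 𝓞 K) ∉ (helper4727.placeOf q K g).asIdeal := by
    intro hmem
    exact hqp (helper4727.prime_unique_of_mem K (helper4727.placeOf q K g) (Fact.out : q.Prime)
      (Fact.out : p.Prime) (helper4727.natCast_mem_placeOf q K g) hmem)
  exact helper5953.locNorm_of_unramified (Fact.out : p.Prime) hp2 h.finrank_eq ⟨_, hζ'⟩ _ hvp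
    (ramificationIdxIn_placeOf_eq_one q h hE hq g) b (fun _ => hb)

/-- **(U')** The same from the norm shadow: if `‖τ b‖ = ‖τ z‖ ^ p` at the place `(q, g)`,
`q ∉ S`, for some nonzero `z` in an `S`-field, then `b` is a completion-free local norm at
`placeOf q K g`. -/
theorem locNorm_placeOf_of_norm_eq_pow [Fact p.Prime] [FiniteDimensional ℚ K]
    [FiniteDimensional ℚ E] (h : helper2999.IsCyclicLayer p K E s) (hp2 : p ≠ 2) {ζ : Qb}
    (hζ : IsPrimitiveRoot ζ p) (hζK : ζ ∈ K) (hE : E.IsUnramifiedOutside S)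
    (hq : (⟨q, Fact.out⟩ : Nat.Primes) ∉ S) (hqp : q ≠ p) (g : GQ) (b : (↥K)ˣ)
    {L : IntermediateField ℚ Qb} (hL : L.IsUnramifiedOutside S) (z : Qb) (hzL : z ∈ L)
    (hz0 : z ≠ 0)
    (hn : ‖helper2999.tauAt q g (((b : (↥K)ˣ) : K) : Qb)‖ = ‖helper2999.tauAt q g z‖ ^ p) :
    helper1980.LocNorm K (IntermediateField.extendScalars h.le) (helper4727.placeOf q K g) b := by
  have hK : K.IsUnramifiedOutside S := hE.of_le h.le
  have : FiniteDimensional ℚ L := hL.1
  have hz0' : (⟨z, hzL⟩ : L) ≠ 0 := fun h0 => hz0 (congrArg Subtype.val h0)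
  have h1 := norm_tauAt_eq_zpow q hK hq g b
  have h2 : ‖helper2999.tauAt q g z‖ =
      (q : ℝ) ^ (ordAt (helper4727.placeOf q L g) (Units.mk0 ⟨z, hzL⟩ hz0')) :=
    norm_tauAt_eq_zpow q hL hq g (Units.mk0 ⟨z, hzL⟩ hz0')
  rw [h1, h2, ← zpow_natCast, ← zpow_mul] at hn
  have hq1 : (1 : ℝ) < (q : ℝ) := one_lt_cast_prime
  have hinj := zpow_right_injective₀ (by linarith : (0 : ℝ) < (q : ℝ)) hq1.ne' hn
  exact locNorm_placeOf_of_dvd_ordAt q h hp2 hζ hζK hE hq hqp g b
    ⟨_, hinj.trans (mul_comm _ _)⟩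

end Frozen

end Fermat.Agent.S55.helper5075
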