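import Mathlib
import Fermat.Agent.S55.helper512_MuP
import Fermat.Agent.S55.helper9554_LocalSpec
import Fermat.Agent.S55.helper164_LevelSymbol

/-!
# S55, local layer: END ADAPTER of the symbol-line route to `(LB1, ≤)` (helper512)

`helper164_LevelSymbol` proves the line statement for the level cohomology `𝓛.H2 p H` of an
abstract system of levels on a group, with coefficients `ZMod p` (trivial action), in the form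

  `∀ f₁ f₂ ∈ 𝓛.Z2 p ⊤, f₁ ∉ 𝓛.B2 p ⊤ → ∃ c : ZMod p, f₂ - c • f₁ ∈ 𝓛.B2 p ⊤`.

The local spec `helper9554_LocalSpec` asks for `Stmt_LB1_line K Ω p`, stated with `μ_p`-valued
multiplicative level cochains on `Gal(Ω/K)`.  When `Ω` contains a primitive `p`-th root of unity
`ζ` fixed by `Gal(Ω/K)` (e.g. `ζ ∈ K`), the two carriers are identified by `a ↦ ζ ^ a.val`.  This
file is that dictionary and the resulting implication.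

The system of levels `𝓛` is arbitrary: all that is used is that its levels are cofinal with the
fixing subgroups of the finite subextensions of `Ω/K` (hypotheses `hP₁`, `hP₂`).
-/

set_option autoImplicit false

open groupCohomology

namespace Fermat.Agent.S55.helper512

noncomputable section

namespace LB1Adapt

variable {K Ω : Type*} [Field K] [Field Ω] [Algebra K Ω] {p : ℕ} [Fact p.Prime]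

/-! ### The exponential `a ↦ ζ ^ a.val` and its inverse on `μ_p` -/

theorem expZ_sub {M : Type*} [CommGroup M] {ζ : M} (hζ : ζ ^ p = 1) (a b : ZMod p) :
    expZ ζ (a - b) = expZ ζ a / expZ ζ b := by
  rw [eq_div_iff_mul_eq', ← expZ_add hζ, sub_add_cancel]

theorem expZ_zero {M : Type*} [CommGroup M] (ζ : M) : expZ ζ (0 : ZMod p) = 1 := by
  rw [expZ_apply, ZMod.val_zero, pow_zero]

/-- The discrete logarithm of `μ_p ⊆ Ωˣ` in base `ζ` (junk value `0` outside `⟨ζ⟩`). -/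
def muLog (ζ x : Ωˣ) : ZMod p :=
  open Classical in if h : ∃ a : ZMod p, ζ ^ a.val = x then h.choose else 0

theorem expZ_muLog {ζ : Ωˣ} (hζ : IsPrimitiveRoot ζ p) {x : Ωˣ} (hx : x ^ p = 1) :
    expZ ζ (muLog (p := p) ζ x) = x := by
  have h := exists_pow_val_eq_of_isPrimitiveRoot p hζ x hx
  unfold muLog
  rw [dif_pos h]
  exact h.choose_spec

theorem expZ_inj {ζ : Ωˣ} (hζ : IsPrimitiveRoot ζ p) :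
    Function.Injective (expZ (p := p) ζ) :=
  expZ_injective hζ.pow_eq_one (hζ.ne_one (Fact.out : p.Prime).one_lt)

theorem muLog_expZ {ζ : Ωˣ} (hζ : IsPrimitiveRoot ζ p) (a : ZMod p) :
    muLog (p := p) ζ (expZ ζ a) = a :=
  expZ_inj hζ (expZ_muLog hζ (expZ_pow_eq_one hζ.pow_eq_one a))

omit [Fact p.Prime] in
theorem smul_expZ_of_fixed {ζ : Ωˣ} (hfix : ∀ g : Ω ≃ₐ[K] Ω, g • ζ = ζ) (g : Ω ≃ₐ[K] Ω)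
    (a : ZMod p) : g • expZ ζ a = expZ ζ a := by
  rw [expZ_apply, smul_pow', hfix]

/-! ### Transport of cochains -/

/-- The `μ_p`-valued 1-cochain on `Gal(Ω/K)` attached to a `ZMod p`-valued 1-cochain on `⊤`. -/
def exp₁ (ζ : Ωˣ) (c : ↥(⊤ : Subgroup (Ω ≃ₐ[K] Ω)) → ZMod p) : (Ω ≃ₐ[K] Ω) → Ωˣ :=
  fun g => expZ ζ (c ⟨g, Subgroup.mem_top g⟩)

/-- The `ZMod p`-valued 1-cochain on `⊤` attached to a `μ_p`-valued 1-cochain on `Gal(Ω/K)`. -/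
def log₁ (ζ : Ωˣ) (x : (Ω ≃ₐ[K] Ω) → Ωˣ) : ↥(⊤ : Subgroup (Ω ≃ₐ[K] Ω)) → ZMod p :=
  fun g => muLog ζ (x g)

/-- The `μ_p`-valued 2-cochain on `Gal(Ω/K)` attached to a `ZMod p`-valued 2-cochain on `⊤`. -/
def exp₂ (ζ : Ωˣ)
    (F : ↥(⊤ : Subgroup (Ω ≃ₐ[K] Ω)) × ↥(⊤ : Subgroup (Ω ≃ₐ[K] Ω)) → ZMod p) :
    (Ω ≃ₐ[K] Ω) × (Ω ≃ₐ[K] Ω) → Ωˣ :=
  fun q => expZ ζ (F (⟨q.1, Subgroup.mem_top q.1⟩, ⟨q.2, Subgroup.mem_top q.2⟩))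

/-- The `ZMod p`-valued 2-cochain on `⊤` attached to a `μ_p`-valued 2-cochain on `Gal(Ω/K)`. -/
def log₂ (ζ : Ωˣ) (f : (Ω ≃ₐ[K] Ω) × (Ω ≃ₐ[K] Ω) → Ωˣ) :
    ↥(⊤ : Subgroup (Ω ≃ₐ[K] Ω)) × ↥(⊤ : Subgroup (Ω ≃ₐ[K] Ω)) → ZMod p :=
  fun q => muLog ζ (f ((q.1 : Ω ≃ₐ[K] Ω), (q.2 : Ω ≃ₐ[K] Ω)))

omit [Fact p.Prime] in
theorem exp₂_apply (ζ : Ωˣ)
    (F : ↥(⊤ : Subgroup (Ω ≃ₐ[K] Ω)) × ↥(⊤ : Subgroup (Ω ≃ₐ[K] Ω)) → ZMod p)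
    (g h : Ω ≃ₐ[K] Ω) :
    exp₂ ζ F (g, h) = expZ ζ (F (⟨g, Subgroup.mem_top g⟩, ⟨h, Subgroup.mem_top h⟩)) := rfl

omit [Fact p.Prime] in
theorem exp₁_apply (ζ : Ωˣ) (c : ↥(⊤ : Subgroup (Ω ≃ₐ[K] Ω)) → ZMod p) (g : Ω ≃ₐ[K] Ω) :
    exp₁ ζ c g = expZ ζ (c ⟨g, Subgroup.mem_top g⟩) := rfl

omit [Fact p.Prime] in
theorem exp₂_pow_eq_one {ζ : Ωˣ} (hζ : IsPrimitiveRoot ζ p)
    (F : ↥(⊤ : Subgroup (Ω ≃ₐ[K] Ω)) × ↥(⊤ : Subgroup (Ω ≃ₐ[K] Ω)) → ZMod p)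
    (q : (Ω ≃ₐ[K] Ω) × (Ω ≃ₐ[K] Ω)) : exp₂ ζ F q ^ p = 1 :=
  expZ_pow_eq_one hζ.pow_eq_one _

omit [Fact p.Prime] in
theorem exp₁_pow_eq_one {ζ : Ωˣ} (hζ : IsPrimitiveRoot ζ p)
    (c : ↥(⊤ : Subgroup (Ω ≃ₐ[K] Ω)) → ZMod p) (g : Ω ≃ₐ[K] Ω) : exp₁ ζ c g ^ p = 1 :=
  expZ_pow_eq_one hζ.pow_eq_one _

theorem exp₂_log₂ {ζ : Ωˣ} (hζ : IsPrimitiveRoot ζ p) {f : (Ω ≃ₐ[K] Ω) × (Ω ≃ₐ[K] Ω) → Ωˣ}
    (hf : ∀ q, f q ^ p = 1) : exp₂ ζ (log₂ (p := p) ζ f) = f := by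
  funext q
  exact expZ_muLog hζ (hf q)

theorem log₂_exp₂ {ζ : Ωˣ} (hζ : IsPrimitiveRoot ζ p)
    (F : ↥(⊤ : Subgroup (Ω ≃ₐ[K] Ω)) × ↥(⊤ : Subgroup (Ω ≃ₐ[K] Ω)) → ZMod p) :
    log₂ ζ (exp₂ ζ F) = F := by
  funext q
  exact muLog_expZ hζ _

theorem exp₁_log₁ {ζ : Ωˣ} (hζ : IsPrimitiveRoot ζ p) {x : (Ω ≃ₐ[K] Ω) → Ωˣ}
    (hx : ∀ g, x g ^ p = 1) : exp₁ ζ (log₁ (p := p) ζ x) = x := by
  funext g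
  exact expZ_muLog hζ (hx g)

theorem log₁_exp₁ {ζ : Ωˣ} (hζ : IsPrimitiveRoot ζ p)
    (c : ↥(⊤ : Subgroup (Ω ≃ₐ[K] Ω)) → ZMod p) : log₁ ζ (exp₁ ζ c) = c := by
  funext g
  exact muLog_expZ hζ _

theorem exp₂_injective {ζ : Ωˣ} (hζ : IsPrimitiveRoot ζ p) :
    Function.Injective (exp₂ (K := K) (p := p) ζ) := fun F F' h => by
  rw [← log₂_exp₂ hζ F, h, log₂_exp₂ hζ]

theorem exp₂_add {ζ : Ωˣ} (hζ : IsPrimitiveRoot ζ p)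
    (F F' : ↥(⊤ : Subgroup (Ω ≃ₐ[K] Ω)) × ↥(⊤ : Subgroup (Ω ≃ₐ[K] Ω)) → ZMod p) :
    exp₂ ζ (F + F') = exp₂ ζ F * exp₂ ζ F' := by
  funext q
  exact expZ_add hζ.pow_eq_one _ _

theorem exp₂_smul {ζ : Ωˣ} (hζ : IsPrimitiveRoot ζ p) (c : ZMod p)
    (F : ↥(⊤ : Subgroup (Ω ≃ₐ[K] Ω)) × ↥(⊤ : Subgroup (Ω ≃ₐ[K] Ω)) → ZMod p) :
    exp₂ ζ (c • F) = exp₂ ζ F ^ c.val := by
  funext q
  exact expZ_mul hζ.pow_eq_one _ _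

theorem exp₂_sub {ζ : Ωˣ} (hζ : IsPrimitiveRoot ζ p)
    (F F' : ↥(⊤ : Subgroup (Ω ≃ₐ[K] Ω)) × ↥(⊤ : Subgroup (Ω ≃ₐ[K] Ω)) → ZMod p) :
    exp₂ ζ (F - F') = exp₂ ζ F / exp₂ ζ F' := by
  funext q
  exact expZ_sub hζ.pow_eq_one _ _

theorem exp₂_sub_smul {ζ : Ωˣ} (hζ : IsPrimitiveRoot ζ p) (c : ZMod p)
    (F₁ F₂ : ↥(⊤ : Subgroup (Ω ≃ₐ[K] Ω)) × ↥(⊤ : Subgroup (Ω ≃ₐ[K] Ω)) → ZMod p) :
    exp₂ ζ (F₂ - c • F₁) = exp₂ ζ F₂ / exp₂ ζ F₁ ^ c.val := by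
  rw [exp₂_sub hζ, exp₂_smul hζ]

/-- `exp₂` turns the additive coboundary `dTriv` into the multiplicative coboundary `dOne`. -/
theorem exp₂_dTriv {ζ : Ωˣ} (hζ : IsPrimitiveRoot ζ p) (hfix : ∀ g : Ω ≃ₐ[K] Ω, g • ζ = ζ)
    (c : ↥(⊤ : Subgroup (Ω ≃ₐ[K] Ω)) → ZMod p) :
    exp₂ ζ (helper164.dTriv c) = helper9554.dOne (exp₁ ζ c) := by
  funext q
  obtain ⟨g, h⟩ := q
  rw [helper9554.dOne_apply, exp₂_apply, exp₁_apply, exp₁_apply, exp₁_apply,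
    smul_expZ_of_fixed hfix, ← expZ_sub hζ.pow_eq_one, ← expZ_add hζ.pow_eq_one]
  rfl

/-! ### Levels -/

section Levels

variable (𝓛 : helper164.LevelSys (Ω ≃ₐ[K] Ω))

theorem isLevel₁_exp₁_iff
    (hP₁ : ∀ N, 𝓛.P N → ∃ E : IntermediateField K Ω, FiniteDimensional K E ∧ E.fixingSubgroup ≤ N)
    (hP₂ : ∀ E : IntermediateField K Ω, FiniteDimensional K E → ∃ N, 𝓛.P N ∧ N ≤ E.fixingSubgroup)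
    {ζ : Ωˣ} (hζ : IsPrimitiveRoot ζ p) (c : ↥(⊤ : Subgroup (Ω ≃ₐ[K] Ω)) → ZMod p) :
    helper9554.IsLevel₁ (exp₁ ζ c) ↔ 𝓛.Lev₁ ⊤ c := by
  constructor
  · rintro ⟨E, hE, h⟩
    obtain ⟨N, hN, hNE⟩ := hP₂ E hE
    exact ⟨N, hN, fun g s hs => expZ_inj hζ (h g.1 s.1 (hNE hs))⟩
  · rintro ⟨N, hN, h⟩
    obtain ⟨E, hE, hEN⟩ := hP₁ N hN
    refine ⟨E, hE, fun g s hs => ?_⟩
    exact congrArg (expZ ζ)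
      (h ⟨g, Subgroup.mem_top g⟩ ⟨s, Subgroup.mem_top s⟩ (hEN hs))

theorem isLevel₂_exp₂_iff
    (hP₁ : ∀ N, 𝓛.P N → ∃ E : IntermediateField K Ω, FiniteDimensional K E ∧ E.fixingSubgroup ≤ N)
    (hP₂ : ∀ E : IntermediateField K Ω, FiniteDimensional K E → ∃ N, 𝓛.P N ∧ N ≤ E.fixingSubgroup)
    {ζ : Ωˣ} (hζ : IsPrimitiveRoot ζ p)
    (F : ↥(⊤ : Subgroup (Ω ≃ₐ[K] Ω)) × ↥(⊤ : Subgroup (Ω ≃ₐ[K] Ω)) → ZMod p) :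
    helper9554.IsLevel₂ (exp₂ ζ F) ↔ 𝓛.Lev₂ ⊤ F := by
  constructor
  · rintro ⟨E, hE, h⟩
    obtain ⟨N, hN, hNE⟩ := hP₂ E hE
    exact ⟨N, hN, fun g g' s s' hs hs' =>
      expZ_inj hζ (h g.1 g'.1 s.1 s'.1 (hNE hs) (hNE hs'))⟩
  · rintro ⟨N, hN, h⟩
    obtain ⟨E, hE, hEN⟩ := hP₁ N hN
    refine ⟨E, hE, fun g g' s s' hs hs' => ?_⟩
    exact congrArg (expZ ζ)
      (h ⟨g, Subgroup.mem_top g⟩ ⟨g', Subgroup.mem_top g'⟩ ⟨s, Subgroup.mem_top s⟩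
        ⟨s', Subgroup.mem_top s'⟩ (hEN hs) (hEN hs'))

/-! ### The dictionary -/

/-- `μ_p`-valued level 2-cocycles of `Gal(Ω/K)` are the exponentials of the `ZMod p`-valued level
2-cocycles (trivial action) on `⊤`. -/
theorem isMuCocycle₂_exp₂_iff
    (hP₁ : ∀ N, 𝓛.P N → ∃ E : IntermediateField K Ω, FiniteDimensional K E ∧ E.fixingSubgroup ≤ N)
    (hP₂ : ∀ E : IntermediateField K Ω, FiniteDimensional K E → ∃ N, 𝓛.P N ∧ N ≤ E.fixingSubgroup)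
    {ζ : Ωˣ} (hζ : IsPrimitiveRoot ζ p) (hfix : ∀ g : Ω ≃ₐ[K] Ω, g • ζ = ζ)
    (F : ↥(⊤ : Subgroup (Ω ≃ₐ[K] Ω)) × ↥(⊤ : Subgroup (Ω ≃ₐ[K] Ω)) → ZMod p) :
    helper9554.IsMuCocycle₂ p (exp₂ ζ F) ↔ F ∈ 𝓛.Z2 p ⊤ := by
  constructor
  · intro hf
    refine ⟨fun g h j => ?_, (isLevel₂_exp₂_iff 𝓛 hP₁ hP₂ hζ F).1 hf.level⟩
    have hc := hf.cocycle g.1 h.1 j.1
    rw [exp₂_apply, exp₂_apply, exp₂_apply, exp₂_apply, smul_expZ_of_fixed hfix,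
      ← expZ_add hζ.pow_eq_one, ← expZ_add hζ.pow_eq_one] at hc
    exact expZ_inj hζ hc
  · rintro ⟨hc, hl⟩
    refine ⟨fun g h j => ?_, (isLevel₂_exp₂_iff 𝓛 hP₁ hP₂ hζ F).2 hl, exp₂_pow_eq_one hζ F⟩
    rw [exp₂_apply, exp₂_apply, exp₂_apply, exp₂_apply, smul_expZ_of_fixed hfix,
      ← expZ_add hζ.pow_eq_one, ← expZ_add hζ.pow_eq_one]
    exact congrArg (expZ ζ)
      (hc ⟨g, Subgroup.mem_top g⟩ ⟨h, Subgroup.mem_top h⟩ ⟨j, Subgroup.mem_top j⟩)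

/-- `μ_p`-valued level 2-coboundaries of `Gal(Ω/K)` are the exponentials of the coboundaries of
`ZMod p`-valued level 1-cochains on `⊤`. -/
theorem isMuCob₂_exp₂_iff
    (hP₁ : ∀ N, 𝓛.P N → ∃ E : IntermediateField K Ω, FiniteDimensional K E ∧ E.fixingSubgroup ≤ N)
    (hP₂ : ∀ E : IntermediateField K Ω, FiniteDimensional K E → ∃ N, 𝓛.P N ∧ N ≤ E.fixingSubgroup)
    {ζ : Ωˣ} (hζ : IsPrimitiveRoot ζ p) (hfix : ∀ g : Ω ≃ₐ[K] Ω, g • ζ = ζ)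
    (F : ↥(⊤ : Subgroup (Ω ≃ₐ[K] Ω)) × ↥(⊤ : Subgroup (Ω ≃ₐ[K] Ω)) → ZMod p) :
    helper9554.IsMuCob₂ p (exp₂ ζ F) ↔ F ∈ 𝓛.B2 p ⊤ := by
  constructor
  · rintro ⟨x, hx, hxp, hFx⟩
    have hx' : exp₁ ζ (log₁ (p := p) ζ x) = x := exp₁_log₁ hζ hxp
    refine ⟨log₁ ζ x, (isLevel₁_exp₁_iff 𝓛 hP₁ hP₂ hζ _).1 (by rw [hx']; exact hx), ?_⟩
    apply exp₂_injective hζ
    rw [exp₂_dTriv hζ hfix, hx', hFx]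
  · rintro ⟨c, hc, rfl⟩
    exact ⟨exp₁ ζ c, (isLevel₁_exp₁_iff 𝓛 hP₁ hP₂ hζ c).2 hc, exp₁_pow_eq_one hζ c,
      exp₂_dTriv hζ hfix c⟩

/-- Logarithmic form of `isMuCocycle₂_exp₂_iff`. -/
theorem log₂_mem_Z2_iff
    (hP₁ : ∀ N, 𝓛.P N → ∃ E : IntermediateField K Ω, FiniteDimensional K E ∧ E.fixingSubgroup ≤ N)
    (hP₂ : ∀ E : IntermediateField K Ω, FiniteDimensional K E → ∃ N, 𝓛.P N ∧ N ≤ E.fixingSubgroup)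
    {ζ : Ωˣ} (hζ : IsPrimitiveRoot ζ p) (hfix : ∀ g : Ω ≃ₐ[K] Ω, g • ζ = ζ)
    {f : (Ω ≃ₐ[K] Ω) × (Ω ≃ₐ[K] Ω) → Ωˣ} (hf : ∀ q, f q ^ p = 1) :
    log₂ ζ f ∈ 𝓛.Z2 p ⊤ ↔ helper9554.IsMuCocycle₂ p f := by
  rw [← isMuCocycle₂_exp₂_iff 𝓛 hP₁ hP₂ hζ hfix, exp₂_log₂ hζ hf]

/-- Logarithmic form of `isMuCob₂_exp₂_iff`. -/
theorem log₂_mem_B2_iff
    (hP₁ : ∀ N, 𝓛.P N → ∃ E : IntermediateField K Ω, FiniteDimensional K E ∧ E.fixingSubgroup ≤ N)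
    (hP₂ : ∀ E : IntermediateField K Ω, FiniteDimensional K E → ∃ N, 𝓛.P N ∧ N ≤ E.fixingSubgroup)
    {ζ : Ωˣ} (hζ : IsPrimitiveRoot ζ p) (hfix : ∀ g : Ω ≃ₐ[K] Ω, g • ζ = ζ)
    {f : (Ω ≃ₐ[K] Ω) × (Ω ≃ₐ[K] Ω) → Ωˣ} (hf : ∀ q, f q ^ p = 1) :
    log₂ ζ f ∈ 𝓛.B2 p ⊤ ↔ helper9554.IsMuCob₂ p f := by
  rw [← isMuCob₂_exp₂_iff 𝓛 hP₁ hP₂ hζ hfix, exp₂_log₂ hζ hf]

end Levels

end LB1Adapt

open LB1Adapt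

variable {K Ω : Type*} [Field K] [Field Ω] [Algebra K Ω] {p : ℕ} [Fact p.Prime]

/-- **End adapter, cochain form.**  The line statement for `ZMod p`-valued level cochains on
`⊤ ≤ Gal(Ω/K)` (the output shape of `helper164.LevelSys.IsSymbolic.exists_smul_sub_mem_B2`)
implies `helper9554.Stmt_LB1_line K Ω p`, when `Ω` has a primitive `p`-th root of unity fixed by
`Gal(Ω/K)` and the levels of `𝓛` are cofinal with the fixing subgroups of the finite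
subextensions. -/
theorem stmt_LB1_line_of_line (𝓛 : helper164.LevelSys (Ω ≃ₐ[K] Ω))
    (hP₁ : ∀ N, 𝓛.P N → ∃ E : IntermediateField K Ω, FiniteDimensional K E ∧ E.fixingSubgroup ≤ N)
    (hP₂ : ∀ E : IntermediateField K Ω, FiniteDimensional K E → ∃ N, 𝓛.P N ∧ N ≤ E.fixingSubgroup)
    {ζ : Ωˣ} (hζ : IsPrimitiveRoot ζ p) (hfix : ∀ g : Ω ≃ₐ[K] Ω, g • ζ = ζ)
    (hline : ∀ f₁ f₂ : ↥(⊤ : Subgroup (Ω ≃ₐ[K] Ω)) × ↥(⊤ : Subgroup (Ω ≃ₐ[K] Ω)) → ZMod p,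
      f₁ ∈ 𝓛.Z2 p ⊤ → f₂ ∈ 𝓛.Z2 p ⊤ → f₁ ∉ 𝓛.B2 p ⊤ → ∃ c : ZMod p, f₂ - c • f₁ ∈ 𝓛.B2 p ⊤) :
    helper9554.Stmt_LB1_line K Ω p := by
  intro f₁ f₂ hf₁ hf₂ hn
  have e₁ : exp₂ ζ (log₂ (p := p) ζ f₁) = f₁ := exp₂_log₂ hζ hf₁.pow_eq_one
  have e₂ : exp₂ ζ (log₂ (p := p) ζ f₂) = f₂ := exp₂_log₂ hζ hf₂.pow_eq_one
  have hZ₁ : log₂ ζ f₁ ∈ 𝓛.Z2 p ⊤ :=
    (log₂_mem_Z2_iff 𝓛 hP₁ hP₂ hζ hfix hf₁.pow_eq_one).2 hf₁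
  have hZ₂ : log₂ ζ f₂ ∈ 𝓛.Z2 p ⊤ :=
    (log₂_mem_Z2_iff 𝓛 hP₁ hP₂ hζ hfix hf₂.pow_eq_one).2 hf₂
  have hB₁ : log₂ ζ f₁ ∉ 𝓛.B2 p ⊤ := fun h =>
    hn ((log₂_mem_B2_iff 𝓛 hP₁ hP₂ hζ hfix hf₁.pow_eq_one).1 h)
  obtain ⟨c, hc⟩ := hline _ _ hZ₁ hZ₂ hB₁
  refine ⟨c.val, ?_⟩
  have h := (isMuCob₂_exp₂_iff 𝓛 hP₁ hP₂ hζ hfix _).2 hc
  rwa [exp₂_sub_smul hζ, e₁, e₂] at h

/-- **End adapter, `IsSymbolic` form.**  A symbolic system of levels on `Gal(Ω/K)` whose class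
contains `⊤` gives `helper9554.Stmt_LB1_line K Ω p` (`p` odd, `ζ_p` fixed by `Gal(Ω/K)`). -/
theorem stmt_LB1_line_of_isSymbolic (hp2 : p ≠ 2) (𝓛 : helper164.LevelSys (Ω ≃ₐ[K] Ω))
    (hP₁ : ∀ N, 𝓛.P N → ∃ E : IntermediateField K Ω, FiniteDimensional K E ∧ E.fixingSubgroup ≤ N)
    (hP₂ : ∀ E : IntermediateField K Ω, FiniteDimensional K E → ∃ N, 𝓛.P N ∧ N ≤ E.fixingSubgroup)
    {ζ : Ωˣ} (hζ : IsPrimitiveRoot ζ p) (hfix : ∀ g : Ω ≃ₐ[K] Ω, g • ζ = ζ)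
    {𝒞 : Subgroup (Ω ≃ₐ[K] Ω) → Prop} (hS : 𝓛.IsSymbolic p 𝒞) (hTop : 𝒞 ⊤) :
    helper9554.Stmt_LB1_line K Ω p :=
  stmt_LB1_line_of_line 𝓛 hP₁ hP₂ hζ hfix fun _ _ h₁ h₂ hn =>
    hS.exists_smul_sub_mem_B2 hp2 ⊤ hTop h₁ h₂ hn

/-- A primitive `p`-th root of unity of `K`, as a unit of `Ω`. -/
def zetaUnit (ζ : K) (hζ : IsPrimitiveRoot ζ p) : Ωˣ :=
  ((hζ.map_of_injective (algebraMap K Ω).injective).isUnit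
    (Fact.out : p.Prime).ne_zero).unit

theorem coe_zetaUnit (ζ : K) (hζ : IsPrimitiveRoot ζ p) :
    ((zetaUnit (Ω := Ω) ζ hζ : Ωˣ) : Ω) = algebraMap K Ω ζ := rfl

theorem isPrimitiveRoot_zetaUnit (ζ : K) (hζ : IsPrimitiveRoot ζ p) :
    IsPrimitiveRoot (zetaUnit (Ω := Ω) ζ hζ) p :=
  IsPrimitiveRoot.coe_units_iff.1 (hζ.map_of_injective (algebraMap K Ω).injective)

theorem smul_zetaUnit (ζ : K) (hζ : IsPrimitiveRoot ζ p) (g : Ω ≃ₐ[K] Ω) :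
    g • zetaUnit (Ω := Ω) ζ hζ = zetaUnit ζ hζ := by
  apply Units.ext
  show g ((zetaUnit (Ω := Ω) ζ hζ : Ωˣ) : Ω) = ((zetaUnit (Ω := Ω) ζ hζ : Ωˣ) : Ω)
  rw [coe_zetaUnit]
  exact g.commutes ζ

/-- `stmt_LB1_line_of_line` for `ζ_p ∈ K`. -/
theorem stmt_LB1_line_of_line_of_mem (𝓛 : helper164.LevelSys (Ω ≃ₐ[K] Ω))
    (hP₁ : ∀ N, 𝓛.P N → ∃ E : IntermediateField K Ω, FiniteDimensional K E ∧ E.fixingSubgroup ≤ N)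
    (hP₂ : ∀ E : IntermediateField K Ω, FiniteDimensional K E → ∃ N, 𝓛.P N ∧ N ≤ E.fixingSubgroup)
    (hζ : ∃ ζ : K, IsPrimitiveRoot ζ p)
    (hline : ∀ f₁ f₂ : ↥(⊤ : Subgroup (Ω ≃ₐ[K] Ω)) × ↥(⊤ : Subgroup (Ω ≃ₐ[K] Ω)) → ZMod p,
      f₁ ∈ 𝓛.Z2 p ⊤ → f₂ ∈ 𝓛.Z2 p ⊤ → f₁ ∉ 𝓛.B2 p ⊤ → ∃ c : ZMod p, f₂ - c • f₁ ∈ 𝓛.B2 p ⊤) :
    helper9554.Stmt_LB1_line K Ω p := by
  obtain ⟨ζ, hζ⟩ := hζ
  exact stmt_LB1_line_of_line 𝓛 hP₁ hP₂ (isPrimitiveRoot_zetaUnit ζ hζ) (smul_zetaUnit ζ hζ) hline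

/-- `stmt_LB1_line_of_isSymbolic` for `ζ_p ∈ K`. -/
theorem stmt_LB1_line_of_isSymbolic_of_mem (hp2 : p ≠ 2) (𝓛 : helper164.LevelSys (Ω ≃ₐ[K] Ω))
    (hP₁ : ∀ N, 𝓛.P N → ∃ E : IntermediateField K Ω, FiniteDimensional K E ∧ E.fixingSubgroup ≤ N)
    (hP₂ : ∀ E : IntermediateField K Ω, FiniteDimensional K E → ∃ N, 𝓛.P N ∧ N ≤ E.fixingSubgroup)
    (hζ : ∃ ζ : K, IsPrimitiveRoot ζ p)
    {𝒞 : Subgroup (Ω ≃ₐ[K] Ω) → Prop} (hS : 𝓛.IsSymbolic p 𝒞) (hTop : 𝒞 ⊤) :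
    helper9554.Stmt_LB1_line K Ω p := by
  obtain ⟨ζ, hζ⟩ := hζ
  exact stmt_LB1_line_of_isSymbolic hp2 𝓛 hP₁ hP₂ (isPrimitiveRoot_zetaUnit ζ hζ)
    (smul_zetaUnit ζ hζ) hS hTop

end

end Fermat.Agent.S55.helper512
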