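/-
S55 number-field core, leaf NF-GE-TWOPLACE (registry backup, seat helper5187).

The arithmetic input of (G-E) ("the image of `H²(G_{K,S}, μ_p)` in `⊕_{w | S} 𝔽_p` has
codimension `≤ 1`") besides the cyclotomic tower, in the completion-free vocabulary of the S14
class-field modules, derived from ONE hypothesis: Tate's count
`S14.helper1892.Stmt_TateCount F p` (second inequality), plus the landed weak approximation
`helper1913.approxN` and the landed Hensel lemma `helper4204.locPow_of_valuation_sub_one_le`.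

* `exists_locPow_approx` : weak approximation modulo local `p`-th powers
  (`y ≡ x` at `w`, `y ≡ 1` at the other places of `S`).
* `exists_hyperplane` : **hyperplane form**.  For `b` not a `p`-th power, a finite set `S₀` of
  places and arbitrary `x w : Fˣ` there are `S ⊇ S₀`, `T` (as in Tate's count: `T` is split in
  `F(b^(1/p))`) and integers `c w` such that every exponent vector `e` with
  `p ∣ ∑ w ∈ S₀, c w * e w` is realised by an `(S ∪ T)`-unit `a` with `a ≡ x w ^ e w` at every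
  `w ∈ S₀` and `a ≡ 1` at every `w ∈ S \ S₀`, modulo local `p`-th powers.
* `exists_twoPlace` : **two-place form**: for `w₁ ≠ w₂` in `S₀` there are `(i, j) ≠ (0, 0)`
  (`i, j < p`) and `a` with `a ≡ x₁ ^ i` at `w₁`, `a ≡ x₂ ^ j` at `w₂`, `a ≡ 1` on the rest of `S`.

Local `p`-th powers are local norms from any extension of degree `p` (`y ^ p = N y`), so these
statements imply the norm forms.
-/
import Mathlib
import Fermat.Agent.S14.helper1892_M6Core
import Fermat.Agent.S14.helper4204_LocalPow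
import Fermat.Agent.S14.helper1913_ApproxN

set_option autoImplicit false

open IsDedekindDomain NumberField WithZero

namespace Fermat.Agent.S55.helper5187

open Fermat.Agent.S14
open Fermat.Agent.S14.helper2613 (ordAt SUnits mem_SUnits valuation_unit_ne_zero)
open Fermat.Agent.S14.helper1892 (LocPow LocPowN locPowS mem_locPowS ClassGen locPow_mul
  locPow_pow locPow_inv locPow_one locPowSubgroup mem_locPowSubgroup Stmt_TateCount)

variable {F : Type*} [Field F] [NumberField F]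

/-! ## Small facts on local `p`-th powers -/

theorem locPow_zpow {p : ℕ} {v : HeightOneSpectrum (𝓞 F)} {x : Fˣ} (hx : LocPow p v x) (n : ℤ) :
    LocPow p v (x ^ n) :=
  (locPowSubgroup p v).zpow_mem hx n

theorem locPow_div {p : ℕ} {v : HeightOneSpectrum (𝓞 F)} {x y : Fˣ} (hx : LocPow p v x)
    (hy : LocPow p v y) : LocPow p v (x / y) :=
  (locPowSubgroup p v).div_mem hx hy

theorem locPow_prod {p : ℕ} {v : HeightOneSpectrum (𝓞 F)} {ι : Type*} (s : Finset ι)
    (f : ι → Fˣ) (hf : ∀ i ∈ s, LocPow p v (f i)) : LocPow p v (∏ i ∈ s, f i) :=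
  (locPowSubgroup p v).prod_mem hf

theorem prod_zpow_eq_zpow_sum {G : Type*} [CommGroup G] {ι : Type*} (s : Finset ι) (a : G)
    (f : ι → ℤ) : ∏ i ∈ s, a ^ f i = a ^ ∑ i ∈ s, f i := by
  classical
  induction s using Finset.induction_on with
  | empty => simp
  | insert i s hi ih => rw [Finset.prod_insert hi, Finset.sum_insert hi, ih, zpow_add]

/-- The valuation of a unit is the exponential of its order. -/
theorem valuation_eq_exp_ordAt (v : HeightOneSpectrum (𝓞 F)) (x : Fˣ) :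
    v.valuation F (x : F) = exp (ordAt v x) :=
  (exp_log (valuation_unit_ne_zero v x)).symm

/-! ## Weak approximation modulo local `p`-th powers -/

/-- **Weak approximation modulo local `p`-th powers**: for `w ∈ S` and `x : Fˣ` there is `y`
which agrees with `x` at `w` and with `1` at the other places of `S`, modulo local `p`-th
powers. -/
theorem exists_locPow_approx {p : ℕ} (hp : p.Prime) (S : Finset (HeightOneSpectrum (𝓞 F)))
    (w : HeightOneSpectrum (𝓞 F)) (x : Fˣ) :
    ∃ y : Fˣ, LocPow p w (y / x) ∧ ∀ v ∈ S, v ≠ w → LocPow p v y := by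
  classical
  set k : ℕ := (-(ordAt w x)).toNat with hk
  set N : ℕ := 2 * helper4204.ordP w p + 1 + k with hN
  obtain ⟨z, hzw, hzT⟩ := helper1913.approxN (F := F) {w} (S.erase w)
    (by simp) N
    (fun v => -((2 * helper4204.ordP v p + 1 + (ordAt v x).toNat : ℕ) : ℤ))
  have hx0 : (x : F) ≠ 0 := x.ne_zero
  -- the candidate
  set y0 : F := (x : F) * (z : F) + (1 - (z : F)) with hy0
  -- estimate at `w`
  have key_w : y0 / (x : F) - 1 = ((z : F) - 1) * (1 - (x : F)⁻¹) := by
    rw [hy0]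
    field_simp
    ring
  have hzw' : w.valuation F ((z : F) - 1) ≤ exp (-(N : ℤ)) := hzw w (by simp)
  have hxinv : w.valuation F (1 - (x : F)⁻¹) ≤ exp (k : ℤ) := by
    refine le_trans (Valuation.map_sub _ _ _) (max_le ?_ ?_)
    · rw [map_one, ← exp_zero, exp_le_exp]
      exact Int.natCast_nonneg k
    · rw [map_inv₀, valuation_eq_exp_ordAt, ← exp_neg, exp_le_exp, hk]
      exact Int.self_le_toNat _
  have hw_est : w.valuation F (y0 / (x : F) - 1) ≤
      exp (-((2 * helper4204.ordP w p + 1 : ℕ) : ℤ)) := by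
    rw [key_w, map_mul]
    refine le_trans (mul_le_mul' hzw' hxinv) ?_
    rw [← exp_add, exp_le_exp, hN]
    push_cast
    omega
  have hy0ne : y0 ≠ 0 := by
    intro h0
    rw [h0, zero_div, zero_sub, Valuation.map_neg, map_one, ← exp_zero, exp_le_exp] at hw_est
    push_cast at hw_est
    omega
  refine ⟨Units.mk0 y0 hy0ne, ?_, ?_⟩
  · refine helper4204.locPow_of_valuation_sub_one_le w hp
      (N := 2 * helper4204.ordP w p + 1) (by omega) ?_
    have : ((Units.mk0 y0 hy0ne / x : Fˣ) : F) = y0 / (x : F) := by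
      rw [Units.val_div_eq_div_val, Units.val_mk0]
    rw [this]
    exact hw_est
  · intro v hv hvw
    have hvT : v ∈ S.erase w := Finset.mem_erase.mpr ⟨hvw, hv⟩
    refine helper4204.locPow_of_valuation_sub_one_le v hp
      (N := 2 * helper4204.ordP v p + 1) (by omega) ?_
    rw [Units.val_mk0]
    have key_v : y0 - 1 = (z : F) * ((x : F) - 1) := by
      rw [hy0]
      ring
    have hz : v.valuation F (z : F) =
        exp (-((2 * helper4204.ordP v p + 1 + (ordAt v x).toNat : ℕ) : ℤ)) := by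
      rw [valuation_eq_exp_ordAt, hzT v hvT]
    have hx1 : v.valuation F ((x : F) - 1) ≤ exp (((ordAt v x).toNat : ℕ) : ℤ) := by
      refine le_trans (Valuation.map_sub _ _ _) (max_le ?_ ?_)
      · rw [valuation_eq_exp_ordAt, exp_le_exp]
        exact Int.self_le_toNat _
      · rw [map_one, ← exp_zero, exp_le_exp]
        exact Int.natCast_nonneg _
    rw [key_v, map_mul, hz]
    refine le_trans (mul_le_mul' le_rfl hx1) ?_
    rw [← exp_add, exp_le_exp]
    push_cast
    omega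

/-! ## A subgroup of index `≤ p` containing the `p`-th powers has cyclic quotient -/

theorem exists_gen_of_index_le {G : Type*} [CommGroup G] (H : Subgroup G) {p : ℕ} (hp : p.Prime)
    (h0 : H.index ≠ 0) (hle : H.index ≤ p) (hpow : ∀ x : G, x ^ p ∈ H) :
    ∃ x₀ : G, ∀ x : G, ∃ n : ℤ, x * x₀ ^ (-n) ∈ H := by
  classical
  by_cases htop : H = ⊤
  · exact ⟨1, fun x => ⟨0, by simp [htop]⟩⟩
  · obtain ⟨x₀, hx₀⟩ : ∃ x₀, x₀ ∉ H := by
      by_contra h
      push Not at h
      exact htop ((Subgroup.eq_top_iff' H).mpr h)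
    have : H.FiniteIndex := ⟨h0⟩
    have : Finite (G ⧸ H) := Subgroup.finite_quotient_of_finiteIndex
    have hq1 : (x₀ : G ⧸ H) ≠ 1 := by
      rwa [Ne, QuotientGroup.eq_one_iff]
    have hqp : (x₀ : G ⧸ H) ^ p = 1 := by
      rw [← QuotientGroup.mk_pow, QuotientGroup.eq_one_iff]
      exact hpow x₀
    have hord : orderOf (x₀ : G ⧸ H) = p := by
      rcases (Nat.dvd_prime hp).mp (orderOf_dvd_of_pow_eq_one hqp) with h | h
      · exact absurd (orderOf_eq_one_iff.mp h) hq1
      · exact h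
    have htop' : Subgroup.zpowers (x₀ : G ⧸ H) = ⊤ := by
      apply Subgroup.eq_top_of_le_card
      rw [Nat.card_zpowers, hord, ← Subgroup.index_eq_card]
      exact hle
    refine ⟨x₀, fun x => ?_⟩
    have hx : (x : G ⧸ H) ∈ Subgroup.zpowers (x₀ : G ⧸ H) := by
      rw [htop']
      trivial
    obtain ⟨n, hn⟩ := Subgroup.mem_zpowers_iff.mp hx
    refine ⟨n, ?_⟩
    rw [← QuotientGroup.eq_one_iff, QuotientGroup.mk_mul, QuotientGroup.mk_zpow, ← hn,
      ← zpow_add, add_neg_cancel, zpow_zero]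

/-! ## The hyperplane form -/

open Classical in
/-- **Hyperplane form of the second inequality** (input of (G-E)).  Let `b` be not a `p`-th
power, `S₀` a finite set of places and `x w : Fˣ` arbitrary.  Then there are finite sets
`S ⊇ S₀` and `T` as in Tate's count and integers `c w` such that every exponent vector `e` with
`p ∣ ∑ w ∈ S₀, c w * e w` is realised: there is an `(S ∪ T)`-unit `a` such that `a / x w ^ e w`
is a local `p`-th power at every `w ∈ S₀` and `a` is a local `p`-th power at every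
`w ∈ S \ S₀`. -/
theorem exists_hyperplane {p : ℕ} (hp : p.Prime) (hTC : Stmt_TateCount F p) {b : Fˣ}
    (hb : ¬ ∃ y : Fˣ, b = y ^ p) (S₀ : Finset (HeightOneSpectrum (𝓞 F)))
    (x : HeightOneSpectrum (𝓞 F) → Fˣ) :
    ∃ (S T : Finset (HeightOneSpectrum (𝓞 F))) (c : HeightOneSpectrum (𝓞 F) → ℤ),
      S₀ ⊆ S ∧ Disjoint S T ∧
      (∀ v : HeightOneSpectrum (𝓞 F), (p : 𝓞 F) ∈ v.asIdeal → v ∈ S) ∧ ClassGen S ∧
      b ∈ SUnits F S ∧ (∀ w ∈ T, LocPow p w b) ∧
      ∀ e : HeightOneSpectrum (𝓞 F) → ℤ, (p : ℤ) ∣ ∑ w ∈ S₀, c w * e w →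
        ∃ a : Fˣ, a ∈ SUnits F (S ∪ T) ∧ (∀ w ∈ S₀, LocPow p w (a / x w ^ e w)) ∧
          ∀ w ∈ S, w ∉ S₀ → LocPow p w a := by
  classical
  obtain ⟨S, T, hS₀, hdisj, hSp, hCG, hbS, hTb, hidx0, hidxp⟩ := hTC b hb S₀
  set H : Subgroup Fˣ := locPowS p S ⊔ SUnits F (S ∪ T) with hH
  have hpowH : ∀ t : Fˣ, t ^ p ∈ H := fun t =>
    Subgroup.mem_sup_left (mem_locPowS.mpr (fun v _ => locPow_pow p v t))
  obtain ⟨x₀, hx₀⟩ := exists_gen_of_index_le H hp hidx0 hidxp hpowH
  -- approximations of the `x w`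
  choose y hy using fun w : HeightOneSpectrum (𝓞 F) => exists_locPow_approx hp S w (x w)
  choose n hn using fun w => hx₀ (y w)
  refine ⟨S, T, n, hS₀, hdisj, hSp, hCG, hbS, hTb, ?_⟩
  intro e he
  obtain ⟨k, hk⟩ := he
  -- the product of the approximations lies in `H`
  have hY : (∏ w ∈ S₀, y w ^ e w) ∈ H := by
    have h1 : (∏ w ∈ S₀, y w ^ e w)
        = (∏ w ∈ S₀, (y w * x₀ ^ (-(n w))) ^ e w) * x₀ ^ (∑ w ∈ S₀, n w * e w) := by
      rw [← prod_zpow_eq_zpow_sum, ← Finset.prod_mul_distrib]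
      refine Finset.prod_congr rfl (fun w _ => ?_)
      rw [mul_zpow, ← zpow_mul, mul_assoc, ← zpow_add, neg_mul, neg_add_cancel, zpow_zero,
        mul_one]
    rw [h1]
    refine H.mul_mem (H.prod_mem (fun w _ => H.zpow_mem (hn w) _)) ?_
    rw [hk, mul_comm, zpow_mul, zpow_natCast]
    exact hpowH _
  obtain ⟨g, hg, u, hu, hgu⟩ := Subgroup.mem_sup.mp hY
  have hgS : ∀ v ∈ S, LocPow p v g := mem_locPowS.mp hg
  have hu_eq : u = (∏ w ∈ S₀, y w ^ e w) / g := by
    rw [← hgu]
    simp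
  refine ⟨u, hu, ?_, ?_⟩
  · intro w hw
    have hwS : w ∈ S := hS₀ hw
    have h2 : u / x w ^ e w
        = (y w / x w) ^ e w * (∏ w' ∈ S₀.erase w, y w' ^ e w') / g := by
      rw [hu_eq, ← Finset.mul_prod_erase S₀ _ hw, div_zpow]
      simp only [div_eq_mul_inv]
      ac_rfl
    rw [h2]
    refine locPow_div (locPow_mul (locPow_zpow (hy w).1 _) ?_) (hgS w hwS)
    refine locPow_prod _ _ (fun w' hw' => locPow_zpow ?_ _)
    exact (hy w').2 w hwS (Finset.ne_of_mem_erase hw').symm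
  · intro w hwS hw₀
    rw [hu_eq]
    refine locPow_div (locPow_prod _ _ (fun w' hw' => locPow_zpow ?_ _)) (hgS w hwS)
    exact (hy w').2 w hwS (fun h => hw₀ (h ▸ hw'))

/-! ## The two-place form -/

open Classical in
/-- **Two-place form of the second inequality**.  For `w₁ ≠ w₂` in `S₀` and arbitrary
`x₁ x₂ : Fˣ` there are exponents `(i, j) ≠ (0, 0)`, `i, j < p`, and an `(S ∪ T)`-unit `a`
(`S ⊇ S₀`, `T` as in Tate's count) with `a ≡ x₁ ^ i` at `w₁`, `a ≡ x₂ ^ j` at `w₂` and `a ≡ 1` at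
all other places of `S`, modulo local `p`-th powers. -/
theorem exists_twoPlace {p : ℕ} (hp : p.Prime) (hTC : Stmt_TateCount F p) {b : Fˣ}
    (hb : ¬ ∃ y : Fˣ, b = y ^ p) (S₀ : Finset (HeightOneSpectrum (𝓞 F)))
    {w₁ w₂ : HeightOneSpectrum (𝓞 F)} (h₁ : w₁ ∈ S₀) (h₂ : w₂ ∈ S₀) (h12 : w₁ ≠ w₂)
    (x₁ x₂ : Fˣ) :
    ∃ (i j : ℕ) (a : Fˣ) (S T : Finset (HeightOneSpectrum (𝓞 F))),
      i < p ∧ j < p ∧ ¬ (i = 0 ∧ j = 0) ∧ S₀ ⊆ S ∧ Disjoint S T ∧
      (∀ v : HeightOneSpectrum (𝓞 F), (p : 𝓞 F) ∈ v.asIdeal → v ∈ S) ∧ ClassGen S ∧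
      b ∈ SUnits F S ∧ (∀ w ∈ T, LocPow p w b) ∧ a ∈ SUnits F (S ∪ T) ∧
      LocPow p w₁ (a / x₁ ^ i) ∧ LocPow p w₂ (a / x₂ ^ j) ∧
      ∀ w ∈ S, w ≠ w₁ → w ≠ w₂ → LocPow p w a := by
  classical
  obtain ⟨S, T, c, hS₀, hdisj, hSp, hCG, hbS, hTb, hreal⟩ :=
    exists_hyperplane hp hTC hb S₀ (fun w => if w = w₁ then x₁ else x₂)
  have hp0 : (0 : ℤ) < p := by exact_mod_cast hp.pos
  -- choice of the exponents
  obtain ⟨i, j, hi, hj, hij, hdvd⟩ : ∃ i j : ℕ, i < p ∧ j < p ∧ ¬ (i = 0 ∧ j = 0) ∧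
      (p : ℤ) ∣ c w₁ * i + c w₂ * j := by
    by_cases hc2 : (p : ℤ) ∣ c w₂
    · refine ⟨0, 1, hp.pos, hp.one_lt, by simp, ?_⟩
      simpa using hc2
    · refine ⟨(c w₂ % p).toNat, ((-c w₁) % p).toNat, ?_, ?_, ?_, ?_⟩
      · have := Int.emod_lt_of_pos (c w₂) hp0
        have := Int.emod_nonneg (c w₂) hp0.ne'
        omega
      · have := Int.emod_lt_of_pos (-c w₁) hp0
        have := Int.emod_nonneg (-c w₁) hp0.ne'
        omega
      · rintro ⟨h, -⟩
        have h1 := Int.emod_nonneg (c w₂) hp0.ne'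
        have h2 : c w₂ % p = 0 := by omega
        exact hc2 (Int.dvd_of_emod_eq_zero h2)
      · rw [Int.toNat_of_nonneg (Int.emod_nonneg _ hp0.ne'),
          Int.toNat_of_nonneg (Int.emod_nonneg _ hp0.ne')]
        have e1 : c w₁ * (c w₂ % p) + c w₂ * (-c w₁ % p)
            = -(p : ℤ) * (c w₁ * (c w₂ / p) + c w₂ * (-c w₁ / p)) := by
          have a1 := Int.emod_add_mul_ediv (c w₂) p
          have a2 := Int.emod_add_mul_ediv (-c w₁) p
          have b1 : c w₂ % p = c w₂ - p * (c w₂ / p) := by linarith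
          have b2 : -c w₁ % p = -c w₁ - p * (-c w₁ / p) := by linarith
          rw [b1, b2]
          ring
        rw [e1]
        exact (dvd_neg.mpr (dvd_refl (p : ℤ))).mul_right _
  set e : HeightOneSpectrum (𝓞 F) → ℤ :=
    fun w => if w = w₁ then (i : ℤ) else if w = w₂ then (j : ℤ) else 0 with he
  have hsum : ∑ w ∈ S₀, c w * e w = c w₁ * i + c w₂ * j := by
    rw [Finset.sum_eq_add w₁ w₂ h12]
    · simp [he, h12.symm]
    · intro w _ hw
      simp [he, hw.1, hw.2]
    · intro h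
      exact absurd h₁ h
    · intro h
      exact absurd h₂ h
  obtain ⟨a, haU, ha₀, haS⟩ := hreal e (hsum ▸ hdvd)
  refine ⟨i, j, a, S, T, hi, hj, hij, hS₀, hdisj, hSp, hCG, hbS, hTb, haU, ?_, ?_, ?_⟩
  · have := ha₀ w₁ h₁
    simpa [he] using this
  · have := ha₀ w₂ h₂
    simpa [he, h12.symm] using this
  · intro w hwS hw1 hw2
    by_cases hw₀ : w ∈ S₀
    · have := ha₀ w hw₀
      simpa [he, hw1, hw2] using this
    · exact haS w hwS hw₀

end Fermat.Agent.S55.helper5187
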