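/-
S55 / GC-LEVEL, Galois instance (helper55).

`K ⊆ Ω` fields, `G = Ω ≃ₐ[K] Ω` (possibly infinite) acting on `Ωˣ`.  Level cochains are plain
functions on `G`, right-invariant under `L.fixingSubgroup` for a finite subextension `L / K`.
The abstract level-aware statements of `helper55_LevelInfRes` are instantiated with the level
Hilbert 90 (`helper2554.hilbert90_level`), so no cohomological hypothesis is left:

* `hH1_fixing` : level Hilbert 90 in the shape of the hypothesis `hH1` of the abstract file,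
  for arbitrary subgroups `U ≤ N` of `G` with `U` containing a finite level.
* `galois_level_exists_inflated`, `galois_level_isMulCoboundary₂_descend` : (A), (B) for a normal
  layer `E` and a finite normal level `L ⊇ E`.
* `galois_cyclic_layer`, `galois_mulCyc_coboundary_iff`, `galois_cyclic_layer_coboundary_iff` :
  the cyclic layer, explicit finite normal level `L`.
* `cyclic_layer_isLevel`, `mulCyc_isLevel_coboundary_iff`, `cyclic_layer_isLevel_coboundary_iff` :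
  the same with existential levels (`IsLevel₁`, `IsLevel₂`), for `Ω / K` normal.
* `exists_baseUnit_of_fixed` : for `Ω / K` Galois a `G`-fixed unit comes from `Kˣ`.
-/
import Mathlib
import Fermat.Agent.S55.helper55_LevelInfRes
import Fermat.Agent.S55.helper2554_Symbol

set_option autoImplicit false

namespace Fermat.Agent.S55.helper55

open groupCohomology

/-! ## The kernel of an additive character as a normal subgroup -/

section ChiKer

variable {G : Type*} [Group G] {n : ℕ}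

/-- An additive function `χ : G → ZMod n` as a monoid hom to `Multiplicative (ZMod n)`. -/
def chiHom (χ : G → ZMod n) (hχ : ∀ g h, χ (g * h) = χ g + χ h) :
    G →* Multiplicative (ZMod n) where
  toFun g := Multiplicative.ofAdd (χ g)
  map_one' := by rw [chi_one' hχ]; rfl
  map_mul' g h := by rw [hχ]; rfl

lemma mem_ker_chiHom (χ : G → ZMod n) (hχ : ∀ g h, χ (g * h) = χ g + χ h) (g : G) :
    g ∈ (chiHom χ hχ).ker ↔ χ g = 0 := by
  rw [MonoidHom.mem_ker]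
  exact Iff.rfl

end ChiKer

section Galois

variable {K Ω : Type*} [Field K] [Field Ω] [Algebra K Ω]

/-- **Level Hilbert 90** in the shape of the hypothesis `hH1` of the level-aware statements:
`U ≤ N` subgroups of `Gal(Ω/K)`, `U` containing the fixing subgroup of a finite subextension.
Every right-`U`-invariant 1-cocycle `N → Ωˣ` is a coboundary. -/
theorem hH1_fixing (N U : Subgroup (Ω ≃ₐ[K] Ω)) (hUN : U ≤ N) (L : IntermediateField K Ω)
    [FiniteDimensional K L] (hL : L.fixingSubgroup ≤ U) :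
    ∀ c : N → Ωˣ, IsMulCocycle₁ c → (∀ n s : N, (s : Ω ≃ₐ[K] Ω) ∈ U → c (n * s) = c n) →
      IsMulCoboundary₁ c := by
  classical
  intro c hc hcU
  let w : (Ω ≃ₐ[K] Ω) → Ω := fun g => if h : g ∈ N then ((c ⟨g, h⟩ : Ωˣ) : Ω) else 1
  have hw0 : ∀ g, w g ≠ 0 := by
    intro g
    by_cases h : g ∈ N
    · simp only [w, dif_pos h]; exact Units.ne_zero _
    · simp only [w, dif_neg h]; exact one_ne_zero
  have hwlev : helper2554.IsLevel w := by
    refine ⟨L, inferInstance, fun g s hs => ?_⟩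
    have hsU : s ∈ U := hL hs
    have hsN : s ∈ N := hUN hsU
    by_cases h : g ∈ N
    · have h' : g * s ∈ N := N.mul_mem h hsN
      simp only [w, dif_pos h, dif_pos h']
      have := hcU ⟨g, h⟩ ⟨s, hsN⟩ hsU
      exact congrArg Units.val this
    · have h' : g * s ∉ N := fun h' => h (by simpa using N.mul_mem h' (N.inv_mem hsN))
      simp only [w, dif_neg h, dif_neg h']
  have hcoc : ∀ τ ∈ N, ∀ h ∈ N, w (τ * h) = τ (w h) * w τ := by
    intro τ hτ h hh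
    simp only [w, dif_pos hτ, dif_pos hh, dif_pos (N.mul_mem hτ hh)]
    have := hc ⟨τ, hτ⟩ ⟨h, hh⟩
    exact congrArg Units.val this
  obtain ⟨x, hx0, hx⟩ := helper2554.hilbert90_level N w hw0 hwlev hcoc
  refine ⟨(Units.mk0 x hx0)⁻¹, fun m => ?_⟩
  apply Units.ext
  have h1 := hx m m.2
  simp only [w, dif_pos m.2] at h1
  have hmx : (m : Ω ≃ₐ[K] Ω) x ≠ 0 := (map_ne_zero _).2 hx0
  have h2 : ((m • (Units.mk0 x hx0)⁻¹ / (Units.mk0 x hx0)⁻¹ : Ωˣ) : Ω)
      = ((m : Ω ≃ₐ[K] Ω) x)⁻¹ * x := by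
    rw [Units.val_div_eq_div_val]
    show (m : Ω ≃ₐ[K] Ω) (((Units.mk0 x hx0)⁻¹ : Ωˣ) : Ω) / (((Units.mk0 x hx0)⁻¹ : Ωˣ) : Ω) = _
    rw [Units.val_inv_eq_inv_val, Units.val_mk0, map_inv₀, div_inv_eq_mul]
  rw [h2]
  have h3 : ((c m : Ωˣ) : Ω) = x / (m : Ω ≃ₐ[K] Ω) x := by
    rw [eq_div_iff hmx]; exact h1
  rw [h3, div_eq_mul_inv, mul_comm]

/-- The fixing subgroup of a normal subextension is a normal subgroup. -/
lemma fixingSubgroup_normal' (L : IntermediateField K Ω) [Normal K L] :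
    L.fixingSubgroup.Normal := by
  rw [← IntermediateField.restrictNormalHom_ker L]
  exact MonoidHom.normal_ker _

/-- **(A) for Galois groups.**  `E ≤ L` normal subextensions, `L / K` finite. -/
theorem galois_level_exists_inflated (E L : IntermediateField K Ω) [Normal K E] [Normal K L]
    [FiniteDimensional K L] (hEL : E ≤ L)
    {f : (Ω ≃ₐ[K] Ω) × (Ω ≃ₐ[K] Ω) → Ωˣ} (hf : IsMulCocycle₂ f)
    (hfL : ∀ g h, ∀ s ∈ L.fixingSubgroup, ∀ t ∈ L.fixingSubgroup, f (g * s, h * t) = f (g, h))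
    (u : (Ω ≃ₐ[K] Ω) → Ωˣ) (huL : ∀ g, ∀ s ∈ L.fixingSubgroup, u (g * s) = u g)
    (hu : ∀ a ∈ E.fixingSubgroup, ∀ b ∈ E.fixingSubgroup, a • u b / u (a * b) * u a = f (a, b)) :
    ∃ (y : (Ω ≃ₐ[K] Ω) → Ωˣ) (f' : (Ω ≃ₐ[K] Ω) × (Ω ≃ₐ[K] Ω) → Ωˣ), IsMulCocycle₂ f' ∧
      (∀ g, ∀ s ∈ L.fixingSubgroup, y (g * s) = y g) ∧
      (∀ g h, f (g, h) = f' (g, h) * (g • y h / y (g * h) * y g)) ∧
      (∀ g h, ∀ n ∈ E.fixingSubgroup, ∀ m ∈ E.fixingSubgroup, f' (g * n, h * m) = f' (g, h)) ∧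
      (∀ g h, ∀ n ∈ E.fixingSubgroup, n • f' (g, h) = f' (g, h)) := by
  have := fixingSubgroup_normal' E
  have := fixingSubgroup_normal' L
  have hUN : L.fixingSubgroup ≤ E.fixingSubgroup := IntermediateField.fixingSubgroup_antitone hEL
  exact level_exists_inflated_mul E.fixingSubgroup L.fixingSubgroup hUN
    (hH1_fixing _ _ hUN L le_rfl) hf hfL (fun n => u n) (fun n s hs => huL n s hs)
    (fun a b => hu a a.2 b b.2)

/-- **(B) for Galois groups.** -/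
theorem galois_level_isMulCoboundary₂_descend (E L : IntermediateField K Ω) [Normal K E]
    [Normal K L] [FiniteDimensional K L] (hEL : E ≤ L)
    {f' : (Ω ≃ₐ[K] Ω) × (Ω ≃ₐ[K] Ω) → Ωˣ}
    (hconst : ∀ g h, ∀ n ∈ E.fixingSubgroup, ∀ m ∈ E.fixingSubgroup, f' (g * n, h * m) = f' (g, h))
    (x : (Ω ≃ₐ[K] Ω) → Ωˣ) (hxL : ∀ g, ∀ s ∈ L.fixingSubgroup, x (g * s) = x g)
    (hx : ∀ g h, g • x h / x (g * h) * x g = f' (g, h)) :
    ∃ x' : (Ω ≃ₐ[K] Ω) → Ωˣ, (∀ g h, g • x' h / x' (g * h) * x' g = f' (g, h)) ∧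
      (∀ g, ∀ n ∈ E.fixingSubgroup, x' (g * n) = x' g) ∧
      (∀ g, ∀ n ∈ E.fixingSubgroup, n • x' g = x' g) := by
  have := fixingSubgroup_normal' E
  have := fixingSubgroup_normal' L
  have hUN : L.fixingSubgroup ≤ E.fixingSubgroup := IntermediateField.fixingSubgroup_antitone hEL
  exact level_isMulCoboundary₂_descend E.fixingSubgroup L.fixingSubgroup hUN
    (hH1_fixing _ _ hUN L le_rfl) hconst x hxL hx

variable {n : ℕ} [NeZero n] {χ : (Ω ≃ₐ[K] Ω) → ZMod n}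

/-- **The cyclic layer, explicit level.**  `χ : Gal(Ω/K) → ZMod n` additive, trivial on
`L.fixingSubgroup` (`L / K` finite normal), `χ σ = 1`.  A 2-cocycle `f` of level `L` with values
in `Ωˣ`, which on `ker χ` is the coboundary of a cochain `u` of level `L`, is
`mulCyc χ b * d y` with `b` fixed by the whole group and `y` of level `L`. -/
theorem galois_cyclic_layer (L : IntermediateField K Ω) [FiniteDimensional K L] [Normal K L]
    (hχ : ∀ g h, χ (g * h) = χ g + χ h) (hχL : ∀ s ∈ L.fixingSubgroup, χ s = 0)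
    {σ : Ω ≃ₐ[K] Ω} (hσ : χ σ = 1)
    {f : (Ω ≃ₐ[K] Ω) × (Ω ≃ₐ[K] Ω) → Ωˣ} (hf : IsMulCocycle₂ f)
    (hfL : ∀ g h, ∀ s ∈ L.fixingSubgroup, ∀ t ∈ L.fixingSubgroup, f (g * s, h * t) = f (g, h))
    (u : (Ω ≃ₐ[K] Ω) → Ωˣ) (huL : ∀ g, ∀ s ∈ L.fixingSubgroup, u (g * s) = u g)
    (hu : ∀ a b, χ a = 0 → χ b = 0 → a • u b / u (a * b) * u a = f (a, b)) :
    ∃ b : Ωˣ, (∀ g : Ω ≃ₐ[K] Ω, g • b = b) ∧ ∃ y : (Ω ≃ₐ[K] Ω) → Ωˣ,
      (∀ g, ∀ s ∈ L.fixingSubgroup, y (g * s) = y g) ∧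
      ∀ g h, f (g, h) = helper6440.mulCyc χ b (g, h) * (g • y h / y (g * h) * y g) := by
  have := fixingSubgroup_normal' L
  have hUN : L.fixingSubgroup ≤ (chiHom χ hχ).ker :=
    fun s hs => (mem_ker_chiHom χ hχ s).2 (hχL s hs)
  exact level_cyclic_layer_mul (chiHom χ hχ).ker L.fixingSubgroup hUN
    (hH1_fixing _ _ hUN L le_rfl) hχ (mem_ker_chiHom χ hχ) hσ hf hfL (fun m => u m)
    (fun m s hs => huL m s hs)
    (fun a b => hu a b ((mem_ker_chiHom χ hχ a).1 a.2) ((mem_ker_chiHom χ hχ b).1 b.2))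

/-- **Cyclic classes and norms, explicit level.**  `mulCyc χ b` is the coboundary of a cochain
of level `L` iff `b` is the norm `∏ j < n, σ ^ j • y` of a unit `y` fixed by `ker χ`. -/
theorem galois_mulCyc_coboundary_iff (L : IntermediateField K Ω) [FiniteDimensional K L]
    [Normal K L] (hχ : ∀ g h, χ (g * h) = χ g + χ h) (hχL : ∀ s ∈ L.fixingSubgroup, χ s = 0)
    {σ : Ω ≃ₐ[K] Ω} (hσ : χ σ = 1) (b : Ωˣ) (hb : ∀ g : Ω ≃ₐ[K] Ω, g • b = b) :
    (∃ x : (Ω ≃ₐ[K] Ω) → Ωˣ, (∀ g, ∀ s ∈ L.fixingSubgroup, x (g * s) = x g) ∧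
        ∀ g h, g • x h / x (g * h) * x g = helper6440.mulCyc χ b (g, h)) ↔
      ∃ y : Ωˣ, (∀ m : Ω ≃ₐ[K] Ω, χ m = 0 → m • y = y) ∧
        b = ∏ j ∈ Finset.range n, σ ^ j • y := by
  have := fixingSubgroup_normal' L
  have hUN : L.fixingSubgroup ≤ (chiHom χ hχ).ker :=
    fun s hs => (mem_ker_chiHom χ hχ s).2 (hχL s hs)
  rw [mulCyc_level_coboundary_iff (chiHom χ hχ).ker L.fixingSubgroup hUN
    (hH1_fixing _ _ hUN L le_rfl) hχ (mem_ker_chiHom χ hχ) hσ b hb]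
  constructor
  · rintro ⟨y, hy, hby⟩
    exact ⟨y, fun m hm => hy m ((mem_ker_chiHom χ hχ m).2 hm), hby⟩
  · rintro ⟨y, hy, hby⟩
    exact ⟨y, fun m hm => hy m ((mem_ker_chiHom χ hχ m).1 hm), hby⟩

/-- With the decomposition of `galois_cyclic_layer`: `f` is the coboundary of a cochain of
level `L` iff `b` is a norm from the layer. -/
theorem galois_cyclic_layer_coboundary_iff (L : IntermediateField K Ω) [FiniteDimensional K L]
    [Normal K L] (hχ : ∀ g h, χ (g * h) = χ g + χ h) (hχL : ∀ s ∈ L.fixingSubgroup, χ s = 0)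
    {σ : Ω ≃ₐ[K] Ω} (hσ : χ σ = 1) {f : (Ω ≃ₐ[K] Ω) × (Ω ≃ₐ[K] Ω) → Ωˣ}
    (b : Ωˣ) (hb : ∀ g : Ω ≃ₐ[K] Ω, g • b = b)
    (y : (Ω ≃ₐ[K] Ω) → Ωˣ) (hyL : ∀ g, ∀ s ∈ L.fixingSubgroup, y (g * s) = y g)
    (hdec : ∀ g h, f (g, h) = helper6440.mulCyc χ b (g, h) * (g • y h / y (g * h) * y g)) :
    (∃ z : (Ω ≃ₐ[K] Ω) → Ωˣ, (∀ g, ∀ s ∈ L.fixingSubgroup, z (g * s) = z g) ∧
        ∀ g h, g • z h / z (g * h) * z g = f (g, h)) ↔
      ∃ y₀ : Ωˣ, (∀ m : Ω ≃ₐ[K] Ω, χ m = 0 → m • y₀ = y₀) ∧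
        b = ∏ j ∈ Finset.range n, σ ^ j • y₀ := by
  have := fixingSubgroup_normal' L
  have hUN : L.fixingSubgroup ≤ (chiHom χ hχ).ker :=
    fun s hs => (mem_ker_chiHom χ hχ s).2 (hχL s hs)
  rw [level_cyclic_layer_mul_coboundary_iff (chiHom χ hχ).ker L.fixingSubgroup hUN
    (hH1_fixing _ _ hUN L le_rfl) hχ (mem_ker_chiHom χ hχ) hσ b hb y hyL hdec]
  constructor
  · rintro ⟨y, hy, hby⟩
    exact ⟨y, fun m hm => hy m ((mem_ker_chiHom χ hχ m).2 hm), hby⟩
  · rintro ⟨y, hy, hby⟩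
    exact ⟨y, fun m hm => hy m ((mem_ker_chiHom χ hχ m).1 hm), hby⟩

end Galois

/-! ## Existential levels -/

section IsLevel

variable {K Ω : Type*} [Field K] [Field Ω] [Algebra K Ω]

/-- Level-constancy of a 1-cochain on `Gal(Ω/K)`: right-invariance under the fixing subgroup of
a finite subextension (the shape of the frozen `IsLevelConstant₁`; identical to
`helper304.IsLevel` and `helper2554.IsLevel`). -/
def IsLevel₁ {X : Type*} (x : (Ω ≃ₐ[K] Ω) → X) : Prop :=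
  ∃ E : IntermediateField K Ω, FiniteDimensional K E ∧
    ∀ g, ∀ s ∈ E.fixingSubgroup, x (g * s) = x g

/-- Level-constancy of a 2-cochain on `Gal(Ω/K)`: right-invariance in both variables under the
fixing subgroup of a finite subextension (the shape of the frozen `IsLevelConstant₂`). -/
def IsLevel₂ {X : Type*} (f : (Ω ≃ₐ[K] Ω) × (Ω ≃ₐ[K] Ω) → X) : Prop :=
  ∃ E : IntermediateField K Ω, FiniteDimensional K E ∧
    ∀ g h, ∀ s ∈ E.fixingSubgroup, ∀ t ∈ E.fixingSubgroup, f (g * s, h * t) = f (g, h)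

/-- Three finite subextensions of a normal extension lie in a finite normal subextension. -/
lemma exists_normal_level [Normal K Ω] (E₁ E₂ E₃ : IntermediateField K Ω)
    (h₁ : FiniteDimensional K E₁) (h₂ : FiniteDimensional K E₂) (h₃ : FiniteDimensional K E₃) :
    ∃ L : IntermediateField K Ω, FiniteDimensional K L ∧ Normal K L ∧ E₁ ≤ L ∧ E₂ ≤ L ∧ E₃ ≤ L := by
  have hfin : FiniteDimensional K ↥(E₁ ⊔ E₂ ⊔ E₃) := inferInstance
  refine ⟨IntermediateField.normalClosure K ↥(E₁ ⊔ E₂ ⊔ E₃) Ω,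
    normalClosure.is_finiteDimensional K _ Ω, normalClosure.normal K _ Ω, ?_, ?_, ?_⟩
  · exact le_trans (le_trans le_sup_left le_sup_left) (IntermediateField.le_normalClosure _)
  · exact le_trans (le_trans le_sup_right le_sup_left) (IntermediateField.le_normalClosure _)
  · exact le_trans le_sup_right (IntermediateField.le_normalClosure _)

variable {n : ℕ} [NeZero n] {χ : (Ω ≃ₐ[K] Ω) → ZMod n}

omit [NeZero n] in
lemma chi_eq_zero_of_level (hχ : ∀ g h, χ (g * h) = χ g + χ h) {E : IntermediateField K Ω}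
    (hE : ∀ g, ∀ s ∈ E.fixingSubgroup, χ (g * s) = χ g) {s : Ω ≃ₐ[K] Ω}
    (hs : s ∈ E.fixingSubgroup) : χ s = 0 := by
  have := hE 1 s hs
  rwa [one_mul, chi_one' hχ] at this

/-- **(A) with existential levels.** -/
theorem exists_inflated_isLevel [Normal K Ω] (E : IntermediateField K Ω) [Normal K E]
    [FiniteDimensional K E]
    {f : (Ω ≃ₐ[K] Ω) × (Ω ≃ₐ[K] Ω) → Ωˣ} (hf : IsMulCocycle₂ f) (hflev : IsLevel₂ f)
    (u : (Ω ≃ₐ[K] Ω) → Ωˣ) (hulev : IsLevel₁ u)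
    (hu : ∀ a ∈ E.fixingSubgroup, ∀ b ∈ E.fixingSubgroup, a • u b / u (a * b) * u a = f (a, b)) :
    ∃ (y : (Ω ≃ₐ[K] Ω) → Ωˣ) (f' : (Ω ≃ₐ[K] Ω) × (Ω ≃ₐ[K] Ω) → Ωˣ), IsMulCocycle₂ f' ∧
      IsLevel₁ y ∧
      (∀ g h, f (g, h) = f' (g, h) * (g • y h / y (g * h) * y g)) ∧
      (∀ g h, ∀ n ∈ E.fixingSubgroup, ∀ m ∈ E.fixingSubgroup, f' (g * n, h * m) = f' (g, h)) ∧
      (∀ g h, ∀ n ∈ E.fixingSubgroup, n • f' (g, h) = f' (g, h)) := by
  obtain ⟨E₁, hE₁, hfE⟩ := hflev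
  obtain ⟨E₂, hE₂, huE⟩ := hulev
  obtain ⟨L, hLfin, hLn, h1, h2, h3⟩ := exists_normal_level E₁ E₂ E hE₁ hE₂ inferInstance
  obtain ⟨y, f', hf', hy, hdec, hc, hfix⟩ := galois_level_exists_inflated E L h3 hf
    (fun g h s hs t ht => hfE g h s (IntermediateField.fixingSubgroup_antitone h1 hs) t
      (IntermediateField.fixingSubgroup_antitone h1 ht))
    u (fun g s hs => huE g s (IntermediateField.fixingSubgroup_antitone h2 hs)) hu
  exact ⟨y, f', hf', ⟨L, hLfin, hy⟩, hdec, hc, hfix⟩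

/-- **(B) with existential levels.** -/
theorem isMulCoboundary₂_descend_isLevel [Normal K Ω] (E : IntermediateField K Ω) [Normal K E]
    [FiniteDimensional K E] {f' : (Ω ≃ₐ[K] Ω) × (Ω ≃ₐ[K] Ω) → Ωˣ}
    (hconst : ∀ g h, ∀ n ∈ E.fixingSubgroup, ∀ m ∈ E.fixingSubgroup, f' (g * n, h * m) = f' (g, h))
    (x : (Ω ≃ₐ[K] Ω) → Ωˣ) (hxlev : IsLevel₁ x)
    (hx : ∀ g h, g • x h / x (g * h) * x g = f' (g, h)) :
    ∃ x' : (Ω ≃ₐ[K] Ω) → Ωˣ, (∀ g h, g • x' h / x' (g * h) * x' g = f' (g, h)) ∧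
      (∀ g, ∀ n ∈ E.fixingSubgroup, x' (g * n) = x' g) ∧
      (∀ g, ∀ n ∈ E.fixingSubgroup, n • x' g = x' g) := by
  obtain ⟨E₁, hE₁, hxE⟩ := hxlev
  obtain ⟨L, hLfin, hLn, h1, -, h3⟩ := exists_normal_level E₁ E₁ E hE₁ hE₁ inferInstance
  exact galois_level_isMulCoboundary₂_descend E L h3 hconst x
    (fun g s hs => hxE g s (IntermediateField.fixingSubgroup_antitone h1 hs)) hx

/-- **The cyclic layer with existential levels** (`Ω / K` normal, possibly infinite):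
a level 2-cocycle with values in `Ωˣ` which on the kernel of the level character `χ` is the
coboundary of a level cochain is `mulCyc χ b * d y`, `b` fixed by `Gal(Ω/K)`, `y` level. -/
theorem cyclic_layer_isLevel [Normal K Ω] (hχ : ∀ g h, χ (g * h) = χ g + χ h)
    (hχlev : IsLevel₁ χ) {σ : Ω ≃ₐ[K] Ω} (hσ : χ σ = 1)
    {f : (Ω ≃ₐ[K] Ω) × (Ω ≃ₐ[K] Ω) → Ωˣ} (hf : IsMulCocycle₂ f) (hflev : IsLevel₂ f)
    (u : (Ω ≃ₐ[K] Ω) → Ωˣ) (hulev : IsLevel₁ u)
    (hu : ∀ a b, χ a = 0 → χ b = 0 → a • u b / u (a * b) * u a = f (a, b)) :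
    ∃ b : Ωˣ, (∀ g : Ω ≃ₐ[K] Ω, g • b = b) ∧ ∃ y : (Ω ≃ₐ[K] Ω) → Ωˣ, IsLevel₁ y ∧
      ∀ g h, f (g, h) = helper6440.mulCyc χ b (g, h) * (g • y h / y (g * h) * y g) := by
  obtain ⟨E₁, hE₁, hfE⟩ := hflev
  obtain ⟨E₂, hE₂, huE⟩ := hulev
  obtain ⟨E₃, hE₃, hχE⟩ := hχlev
  obtain ⟨L, hLfin, hLn, h1, h2, h3⟩ := exists_normal_level E₁ E₂ E₃ hE₁ hE₂ hE₃
  obtain ⟨b, hb, y, hy, hdec⟩ := galois_cyclic_layer L hχ
    (fun s hs => chi_eq_zero_of_level hχ hχE (IntermediateField.fixingSubgroup_antitone h3 hs))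
    hσ hf
    (fun g h s hs t ht => hfE g h s (IntermediateField.fixingSubgroup_antitone h1 hs) t
      (IntermediateField.fixingSubgroup_antitone h1 ht))
    u (fun g s hs => huE g s (IntermediateField.fixingSubgroup_antitone h2 hs)) hu
  exact ⟨b, hb, y, ⟨L, hLfin, hy⟩, hdec⟩

/-- **Cyclic classes and norms with existential levels**: `mulCyc χ b` is a level coboundary
iff `b = ∏ j < n, σ ^ j • y` for a unit `y` fixed by `ker χ`. -/
theorem mulCyc_isLevel_coboundary_iff [Normal K Ω] (hχ : ∀ g h, χ (g * h) = χ g + χ h)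
    (hχlev : IsLevel₁ χ) {σ : Ω ≃ₐ[K] Ω} (hσ : χ σ = 1) (b : Ωˣ)
    (hb : ∀ g : Ω ≃ₐ[K] Ω, g • b = b) :
    (∃ x : (Ω ≃ₐ[K] Ω) → Ωˣ, IsLevel₁ x ∧
        ∀ g h, g • x h / x (g * h) * x g = helper6440.mulCyc χ b (g, h)) ↔
      ∃ y : Ωˣ, (∀ m : Ω ≃ₐ[K] Ω, χ m = 0 → m • y = y) ∧
        b = ∏ j ∈ Finset.range n, σ ^ j • y := by
  obtain ⟨E₃, hE₃, hχE⟩ := hχlev
  constructor
  · rintro ⟨x, ⟨E₁, hE₁, hxE⟩, hx⟩
    obtain ⟨L, hLfin, hLn, h1, -, h3⟩ := exists_normal_level E₁ E₁ E₃ hE₁ hE₁ hE₃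
    exact (galois_mulCyc_coboundary_iff L hχ
      (fun s hs => chi_eq_zero_of_level hχ hχE (IntermediateField.fixingSubgroup_antitone h3 hs))
      hσ b hb).1 ⟨x, fun g s hs => hxE g s (IntermediateField.fixingSubgroup_antitone h1 hs), hx⟩
  · intro h
    obtain ⟨L, hLfin, hLn, -, -, h3⟩ := exists_normal_level E₃ E₃ E₃ hE₃ hE₃ hE₃
    obtain ⟨x, hxL, hx⟩ := (galois_mulCyc_coboundary_iff L hχ
      (fun s hs => chi_eq_zero_of_level hχ hχE (IntermediateField.fixingSubgroup_antitone h3 hs))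
      hσ b hb).2 h
    exact ⟨x, ⟨L, hLfin, hxL⟩, hx⟩

/-- With a decomposition `f = mulCyc χ b * d y` (`y` level): `f` is a level coboundary iff `b`
is a norm from the layer. -/
theorem cyclic_layer_isLevel_coboundary_iff [Normal K Ω] (hχ : ∀ g h, χ (g * h) = χ g + χ h)
    (hχlev : IsLevel₁ χ) {σ : Ω ≃ₐ[K] Ω} (hσ : χ σ = 1)
    {f : (Ω ≃ₐ[K] Ω) × (Ω ≃ₐ[K] Ω) → Ωˣ} (b : Ωˣ) (hb : ∀ g : Ω ≃ₐ[K] Ω, g • b = b)
    (y : (Ω ≃ₐ[K] Ω) → Ωˣ) (hylev : IsLevel₁ y)
    (hdec : ∀ g h, f (g, h) = helper6440.mulCyc χ b (g, h) * (g • y h / y (g * h) * y g)) :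
    (∃ z : (Ω ≃ₐ[K] Ω) → Ωˣ, IsLevel₁ z ∧ ∀ g h, g • z h / z (g * h) * z g = f (g, h)) ↔
      ∃ y₀ : Ωˣ, (∀ m : Ω ≃ₐ[K] Ω, χ m = 0 → m • y₀ = y₀) ∧
        b = ∏ j ∈ Finset.range n, σ ^ j • y₀ := by
  obtain ⟨E₃, hE₃, hχE⟩ := hχlev
  obtain ⟨E₂, hE₂, hyE⟩ := hylev
  constructor
  · rintro ⟨z, ⟨E₁, hE₁, hzE⟩, hz⟩
    obtain ⟨L, hLfin, hLn, h1, h2, h3⟩ := exists_normal_level E₁ E₂ E₃ hE₁ hE₂ hE₃
    exact (galois_cyclic_layer_coboundary_iff L hχ
      (fun s hs => chi_eq_zero_of_level hχ hχE (IntermediateField.fixingSubgroup_antitone h3 hs))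
      hσ b hb y (fun g s hs => hyE g s (IntermediateField.fixingSubgroup_antitone h2 hs)) hdec).1
      ⟨z, fun g s hs => hzE g s (IntermediateField.fixingSubgroup_antitone h1 hs), hz⟩
  · intro h
    obtain ⟨L, hLfin, hLn, -, h2, h3⟩ := exists_normal_level E₂ E₂ E₃ hE₂ hE₂ hE₃
    obtain ⟨z, hzL, hz⟩ := (galois_cyclic_layer_coboundary_iff L hχ
      (fun s hs => chi_eq_zero_of_level hχ hχE (IntermediateField.fixingSubgroup_antitone h3 hs))
      hσ b hb y (fun g s hs => hyE g s (IntermediateField.fixingSubgroup_antitone h2 hs)) hdec).2 h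
    exact ⟨z, ⟨L, hLfin, hzL⟩, hz⟩

/-- For a Galois extension `Ω / K`, a unit fixed by `Gal(Ω/K)` comes from `Kˣ`. -/
lemma exists_baseUnit_of_fixed [IsGalois K Ω] (b : Ωˣ) (hb : ∀ g : Ω ≃ₐ[K] Ω, g • b = b) :
    ∃ a : Kˣ, Units.map (algebraMap K Ω : K →* Ω) a = b := by
  have h1 : (b : Ω) ∈ Set.range (algebraMap K Ω) :=
    (InfiniteGalois.mem_range_algebraMap_iff_fixed _).2 (fun g => congrArg Units.val (hb g))
  obtain ⟨a, ha⟩ := h1
  have ha0 : a ≠ 0 := by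
    rintro rfl
    rw [map_zero] at ha
    exact b.ne_zero ha.symm
  exact ⟨Units.mk0 a ha0, Units.ext ha⟩

end IsLevel

/-! ## Reduction of an arbitrary additive character to a surjective one -/

section Reindex

variable {G : Type*} [Group G]

/-- **Reduction to a surjective character.**  An additive `χ : G → ZMod n` (`n ≠ 0`) has the
form `d • χ'` for an additive `χ' : G → ZMod n'` (`n = d * n'`) taking the value `1`; `χ'` has the
same kernel, is a function of `χ`, and the two have the same carries. -/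
theorem exists_surjective_reindex {n : ℕ} [NeZero n] (χ : G → ZMod n)
    (hχ : ∀ g h, χ (g * h) = χ g + χ h) :
    ∃ (n' : ℕ) (_ : NeZero n') (χ' : G → ZMod n') (σ : G),
      (∀ g h, χ' (g * h) = χ' g + χ' h) ∧ χ' σ = 1 ∧ (∀ g, χ' g = 0 ↔ χ g = 0) ∧
      (∀ g h, χ g = χ h → χ' g = χ' h) ∧
      (∀ g h, helper6440.carry n (χ g) (χ h) = helper6440.carry n' (χ' g) (χ' h)) := by
  classical
  have hn0 : n ≠ 0 := NeZero.ne n
  have hnpos : 0 < n := Nat.pos_of_ne_zero hn0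
  have hχ1 : χ 1 = 0 := by
    have := hχ 1 1
    rw [one_mul] at this
    exact (add_left_cancel (a := χ 1) (by rw [add_zero]; exact this)).symm
  have hχpow : ∀ (g : G) (k : ℕ), χ (g ^ k) = k • χ g := by
    intro g k
    induction k with
    | zero => simp [hχ1]
    | succ k ih => rw [pow_succ, hχ, ih, succ_nsmul]
  have hχinv : ∀ g : G, χ g⁻¹ = -χ g := by
    intro g
    have := hχ g⁻¹ g
    rw [inv_mul_cancel, hχ1] at this
    exact eq_neg_of_add_eq_zero_left this.symm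
  -- the least positive `k` with `(k : ZMod n)` in the range of `χ`
  have hex : ∃ k : ℕ, 0 < k ∧ ∃ g, χ g = (k : ZMod n) :=
    ⟨n, hnpos, 1, by rw [hχ1, ZMod.natCast_self]⟩
  let d := Nat.find hex
  have hdpos : 0 < d := (Nat.find_spec hex).1
  obtain ⟨σ, hσ⟩ := (Nat.find_spec hex).2
  have hdmin : ∀ k : ℕ, 0 < k → (∃ g, χ g = (k : ZMod n)) → d ≤ k :=
    fun k hk hg => Nat.find_min' hex ⟨hk, hg⟩
  have hdn : d ≤ n := hdmin n hnpos ⟨1, by rw [hχ1, ZMod.natCast_self]⟩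
  -- every value is a multiple of `d`
  have hdvd : ∀ g, d ∣ (χ g).val := by
    intro g
    obtain ⟨v, hv⟩ : ∃ v : ℕ, v = (χ g).val := ⟨_, rfl⟩
    have hcast : χ g = (v : ZMod n) := by rw [hv, ZMod.natCast_zmod_val]
    rw [← hv]
    by_contra hnd
    have hr : 0 < v % d := Nat.pos_of_ne_zero (fun h => hnd (Nat.dvd_of_mod_eq_zero h))
    have hlt : v % d < d := Nat.mod_lt _ hdpos
    have hmem : ∃ g', χ g' = ((v % d : ℕ) : ZMod n) := by
      refine ⟨g * (σ ^ (v / d))⁻¹, ?_⟩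
      rw [hχ, hχinv, hχpow, hσ, hcast]
      have h2 := Nat.mod_add_div v d
      have h3 : ((v % d + d * (v / d) : ℕ) : ZMod n) = (v : ZMod n) := by rw [h2]
      push_cast at h3
      simp only [nsmul_eq_mul]
      linear_combination -h3
    exact absurd (hdmin _ hr hmem) (not_le.mpr hlt)
  have hdvdn : d ∣ n := by
    by_contra hnd
    have hr : 0 < n % d := Nat.pos_of_ne_zero (fun h => hnd (Nat.dvd_of_mod_eq_zero h))
    have hlt : n % d < d := Nat.mod_lt _ hdpos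
    have hmem : ∃ g', χ g' = ((n % d : ℕ) : ZMod n) := by
      refine ⟨(σ ^ (n / d))⁻¹, ?_⟩
      rw [hχinv, hχpow, hσ]
      have h2 := Nat.mod_add_div n d
      have h3 : ((n % d + d * (n / d) : ℕ) : ZMod n) = 0 := by rw [h2, ZMod.natCast_self]
      push_cast at h3
      simp only [nsmul_eq_mul]
      linear_combination -h3
    exact absurd (hdmin _ hr hmem) (not_le.mpr hlt)
  obtain ⟨n', hn'⟩ := hdvdn
  have hn'pos : 0 < n' := by
    rcases Nat.eq_zero_or_pos n' with h | h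
    · rw [h, mul_zero] at hn'; exact absurd hn' hn0
    · exact h
  have : NeZero n' := ⟨hn'pos.ne'⟩
  have hvallt : ∀ g, (χ g).val / d < n' := by
    intro g
    have h1 : (χ g).val < d * n' := by rw [← hn']; exact ZMod.val_lt _
    exact Nat.div_lt_of_lt_mul h1
  let χ' : G → ZMod n' := fun g => (((χ g).val / d : ℕ) : ZMod n')
  have hval' : ∀ g, (χ' g).val = (χ g).val / d := fun g => ZMod.val_natCast_of_lt (hvallt g)
  have hmulval : ∀ g, d * ((χ g).val / d) = (χ g).val := fun g => Nat.mul_div_cancel' (hdvd g)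
  refine ⟨n', ⟨hn'pos.ne'⟩, χ', σ, ?_, ?_, ?_, ?_, ?_⟩
  · intro g h
    have h1 : (χ (g * h)).val = ((χ g).val + (χ h).val) % n := by rw [hχ, ZMod.val_add]
    have h2 : ((χ g).val + (χ h).val) % n = d * (((χ g).val / d + (χ h).val / d) % n') := by
      have e1 : (χ g).val + (χ h).val = d * ((χ g).val / d + (χ h).val / d) := by
        rw [mul_add, hmulval, hmulval]
      have e2 : ∀ x : ℕ, x % n = x % (d * n') := fun x => by rw [hn']
      rw [e2, e1, Nat.mul_mod_mul_left]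
    have h3 : (χ (g * h)).val / d = ((χ g).val / d + (χ h).val / d) % n' := by
      rw [h1, h2, Nat.mul_div_cancel_left _ hdpos]
    show (((χ (g * h)).val / d : ℕ) : ZMod n') = (((χ g).val / d : ℕ) : ZMod n')
      + (((χ h).val / d : ℕ) : ZMod n')
    rw [h3, ← Nat.cast_add, ZMod.natCast_mod]
  · show (((χ σ).val / d : ℕ) : ZMod n') = 1
    rcases Nat.lt_or_ge d n with hlt | hge
    · rw [hσ, ZMod.val_natCast_of_lt hlt, Nat.div_self hdpos, Nat.cast_one]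
    · have hdn' : d = n := le_antisymm hdn hge
      have hn'1 : n' = 1 := by
        have : d * n' = d * 1 := by rw [mul_one, ← hn', hdn']
        exact Nat.eq_of_mul_eq_mul_left hdpos this
      subst hn'1
      exact Subsingleton.elim _ _
  · intro g
    constructor
    · intro h
      have h1 : (χ' g).val = 0 := by rw [h, ZMod.val_zero]
      rw [hval'] at h1
      have h2 : (χ g).val = 0 := by rw [← hmulval g, h1, mul_zero]
      exact (ZMod.val_eq_zero _).1 h2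
    · intro h
      show (((χ g).val / d : ℕ) : ZMod n') = 0
      rw [h, ZMod.val_zero, Nat.zero_div, Nat.cast_zero]
  · intro g h hgh
    show (((χ g).val / d : ℕ) : ZMod n') = (((χ h).val / d : ℕ) : ZMod n')
    rw [hgh]
  · intro g h
    have e1 : (χ g).val + (χ h).val = d * ((χ g).val / d + (χ h).val / d) := by
      rw [mul_add, hmulval, hmulval]
    have e2 : ∀ x : ℕ, x / n = x / (d * n') := fun x => by rw [hn']
    show ((χ g).val + (χ h).val) / n = ((χ' g).val + (χ' h).val) / n'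
    rw [hval', hval', e2, e1, Nat.mul_div_mul_left _ _ hdpos]

end Reindex

/-! ## Non-surjective characters, norm form, Kummer injectivity -/

section General

variable {K Ω : Type*} [Field K] [Field Ω] [Algebra K Ω]

lemma IsLevel₁.map₂ {X Y Z : Type*} {x : (Ω ≃ₐ[K] Ω) → X} {y : (Ω ≃ₐ[K] Ω) → Y}
    (hx : IsLevel₁ x) (hy : IsLevel₁ y) (φ : X → Y → Z) :
    IsLevel₁ (fun g => φ (x g) (y g)) := by
  obtain ⟨E₁, hE₁, h₁⟩ := hx
  obtain ⟨E₂, hE₂, h₂⟩ := hy
  have := hE₁; have := hE₂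
  refine ⟨E₁ ⊔ E₂, IntermediateField.finiteDimensional_sup E₁ E₂, fun g s hs => ?_⟩
  show φ (x (g * s)) (y (g * s)) = φ (x g) (y g)
  rw [h₁ g s (IntermediateField.fixingSubgroup_antitone le_sup_left hs),
    h₂ g s (IntermediateField.fixingSubgroup_antitone le_sup_right hs)]

lemma IsLevel₁.comp {X Y : Type*} {x : (Ω ≃ₐ[K] Ω) → X} (hx : IsLevel₁ x) (φ : X → Y) :
    IsLevel₁ (fun g => φ (x g)) := by
  obtain ⟨E, hE, h⟩ := hx
  exact ⟨E, hE, fun g s hs => by show φ (x (g * s)) = φ (x g); rw [h g s hs]⟩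

/-- `g ↦ g • β` is level-constant for a unit `β` of an algebraic extension. -/
lemma isLevel₁_smul_unit [Algebra.IsAlgebraic K Ω] (β : Ωˣ) :
    IsLevel₁ (fun g : Ω ≃ₐ[K] Ω => g • β) := by
  have hint : IsIntegral K (β : Ω) := (Algebra.IsAlgebraic.isAlgebraic (β : Ω)).isIntegral
  refine ⟨IntermediateField.adjoin K {(β : Ω)}, IntermediateField.adjoin.finiteDimensional hint,
    fun g s hs => ?_⟩
  have hmem : (β : Ω) ∈ IntermediateField.adjoin K {(β : Ω)} :=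
    IntermediateField.mem_adjoin_simple_self K (β : Ω)
  have hsβ : s (β : Ω) = (β : Ω) := by
    have := (IntermediateField.mem_fixingSubgroup_iff _ s).1 hs (β : Ω) hmem
    simpa using this
  apply Units.ext
  show (g * s) (β : Ω) = g (β : Ω)
  rw [AlgEquiv.mul_apply, hsβ]

/-- **Level Hilbert 90 for the whole group**: a level-constant 1-cocycle `Gal(Ω/K) → Ωˣ` is a
coboundary (no hypothesis on `Ω / K`). -/
theorem level_hilbert90_top (c : (Ω ≃ₐ[K] Ω) → Ωˣ) (hc : IsMulCocycle₁ c) (hlev : IsLevel₁ c) :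
    IsMulCoboundary₁ c := by
  obtain ⟨L, hL, hcL⟩ := hlev
  have := hL
  obtain ⟨b, hb⟩ := hH1_fixing (⊤ : Subgroup (Ω ≃ₐ[K] Ω)) L.fixingSubgroup le_top L le_rfl
    (fun m : (⊤ : Subgroup (Ω ≃ₐ[K] Ω)) => c m) (fun m m' => hc m m')
    (fun m s hs => hcL m s hs)
  exact ⟨b, fun g => hb ⟨g, Subgroup.mem_top g⟩⟩

lemma comm_group_aux {M : Type*} [CommGroup M] (X Y Z B1 B2 B3 : M) :
    X / (B2 / B1) / (Y / (B2 / B3)) * (Z / (B1 / B3)) = X / Y * Z := by
  have key : ∀ (X Y Z B1 B2 B3 : Additive M),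
      X - (B2 - B1) - (Y - (B2 - B3)) + (Z - (B1 - B3)) = X - Y + Z := by
    intro X Y Z B1 B2 B3
    abel
  exact key X Y Z B1 B2 B3

/-- Dividing a 1-cochain by a 0-coboundary does not change its coboundary. -/
lemma dOne_div_d0 {G M : Type*} [Group G] [CommGroup M] [MulDistribMulAction G M]
    (x : G → M) (b : M) (g k : G) :
    g • (x k / (k • b / b)) / (x (g * k) / ((g * k) • b / b)) * (x g / (g • b / b))
      = g • x k / x (g * k) * x g := by
  rw [smul_div', smul_div', mul_smul]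
  exact comm_group_aux _ _ _ _ _ _

/-- **Kummer injectivity on level cochains** (`H²(μ_p) → H²(Ωˣ)` is injective): a `μ_p`-valued
function on `Gal(Ω/K)²` which is the coboundary of a level `Ωˣ`-valued cochain is the coboundary
of a level `μ_p`-valued cochain, if `Ω` is algebraic over `K` and closed under `p`-th roots. -/
theorem mu_coboundary_of_level_coboundary [Algebra.IsAlgebraic K Ω] {p : ℕ}
    (hroot : ∀ a : Ωˣ, ∃ β : Ωˣ, β ^ p = a)
    {f : (Ω ≃ₐ[K] Ω) × (Ω ≃ₐ[K] Ω) → Ωˣ} (hfp : ∀ q, f q ^ p = 1)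
    (h : (Ω ≃ₐ[K] Ω) → Ωˣ) (hlev : IsLevel₁ h)
    (hd : ∀ g k, g • h k / h (g * k) * h g = f (g, k)) :
    ∃ h' : (Ω ≃ₐ[K] Ω) → Ωˣ, IsLevel₁ h' ∧ (∀ g, h' g ^ p = 1) ∧
      ∀ g k, g • h' k / h' (g * k) * h' g = f (g, k) := by
  have hc : IsMulCocycle₁ (fun g => h g ^ p) := by
    intro g k
    have e := hd g k
    have e' : g • h k * h g = f (g, k) * h (g * k) := by
      rw [← e]
      simp only [div_eq_mul_inv]
      rw [mul_assoc, mul_assoc, mul_comm (h g) (h (g * k)), ← mul_assoc (h (g * k))⁻¹,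
        inv_mul_cancel, one_mul]
    have e'' := congrArg (fun t => t ^ p) e'
    simp only [mul_pow, hfp, one_mul] at e''
    show h (g * k) ^ p = g • (h k ^ p) * h g ^ p
    rw [smul_pow', e'']
  obtain ⟨α, hα⟩ := level_hilbert90_top (fun g => h g ^ p) hc (hlev.comp (· ^ p))
  obtain ⟨β, hβ⟩ := hroot α
  refine ⟨fun g => h g / (g • β / β), hlev.map₂ (isLevel₁_smul_unit β) (fun a b => a / (b / β)),
    fun g => ?_, fun g k => ?_⟩
  · show (h g / (g • β / β)) ^ p = 1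
    rw [div_pow, div_pow, ← smul_pow', hβ, hα g, div_self']
  · show g • (h k / (k • β / β)) / (h (g * k) / ((g * k) • β / β)) * (h g / (g • β / β)) = f (g, k)
    rw [dOne_div_d0, hd]

variable {n : ℕ} [NeZero n] {χ : (Ω ≃ₐ[K] Ω) → ZMod n}

/-- **The cyclic layer for an arbitrary (not necessarily surjective) level character**: no
generator is needed.  (For `χ` of image `d • ZMod n` this is the layer of degree `n / d`.) -/
theorem cyclic_layer_isLevel' [Normal K Ω] (hχ : ∀ g h, χ (g * h) = χ g + χ h)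
    (hχlev : IsLevel₁ χ)
    {f : (Ω ≃ₐ[K] Ω) × (Ω ≃ₐ[K] Ω) → Ωˣ} (hf : IsMulCocycle₂ f) (hflev : IsLevel₂ f)
    (u : (Ω ≃ₐ[K] Ω) → Ωˣ) (hulev : IsLevel₁ u)
    (hu : ∀ a b, χ a = 0 → χ b = 0 → a • u b / u (a * b) * u a = f (a, b)) :
    ∃ b : Ωˣ, (∀ g : Ω ≃ₐ[K] Ω, g • b = b) ∧ ∃ y : (Ω ≃ₐ[K] Ω) → Ωˣ, IsLevel₁ y ∧
      ∀ g h, f (g, h) = helper6440.mulCyc χ b (g, h) * (g • y h / y (g * h) * y g) := by
  obtain ⟨n', hn', χ', σ, hχ', hσ, hker, hfun, hcarry⟩ := exists_surjective_reindex χ hχ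
  have := hn'
  have hχ'lev : IsLevel₁ χ' := by
    obtain ⟨E, hE, h⟩ := hχlev
    exact ⟨E, hE, fun g s hs => hfun _ _ (h g s hs)⟩
  obtain ⟨b, hb, y, hy, hdec⟩ := cyclic_layer_isLevel hχ' hχ'lev hσ hf hflev u hulev
    (fun a b ha hb => hu a b ((hker a).1 ha) ((hker b).1 hb))
  refine ⟨b, hb, y, hy, fun g h => ?_⟩
  rw [hdec]
  show b ^ helper6440.carry n' (χ' g) (χ' h) * _ = b ^ helper6440.carry n (χ g) (χ h) * _
  rw [hcarry]

/-- The same with the base element in `Kˣ`, for `Ω / K` Galois. -/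
theorem cyclic_layer_isLevel_base [IsGalois K Ω] (hχ : ∀ g h, χ (g * h) = χ g + χ h)
    (hχlev : IsLevel₁ χ)
    {f : (Ω ≃ₐ[K] Ω) × (Ω ≃ₐ[K] Ω) → Ωˣ} (hf : IsMulCocycle₂ f) (hflev : IsLevel₂ f)
    (u : (Ω ≃ₐ[K] Ω) → Ωˣ) (hulev : IsLevel₁ u)
    (hu : ∀ a b, χ a = 0 → χ b = 0 → a • u b / u (a * b) * u a = f (a, b)) :
    ∃ a : Kˣ, ∃ y : (Ω ≃ₐ[K] Ω) → Ωˣ, IsLevel₁ y ∧
      ∀ g h, f (g, h) = helper6440.mulCyc χ (Units.map (algebraMap K Ω : K →* Ω) a) (g, h)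
        * (g • y h / y (g * h) * y g) := by
  obtain ⟨b, hb, y, hy, hdec⟩ := cyclic_layer_isLevel' hχ hχlev hf hflev u hulev hu
  obtain ⟨a, rfl⟩ := exists_baseUnit_of_fixed b hb
  exact ⟨a, y, hy, hdec⟩

omit [NeZero n] in
lemma chi_pow' (hχ : ∀ g h, χ (g * h) = χ g + χ h) {σ : Ω ≃ₐ[K] Ω} (hσ : χ σ = 1) (j : ℕ) :
    χ (σ ^ j) = (j : ZMod n) := by
  induction j with
  | zero => simp [chi_one' hχ]
  | succ j ih => rw [pow_succ, hχ, ih, hσ, Nat.cast_succ]

/-- **The generator-form norm is the field norm.**  `E / K` finite Galois inside the normal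
extension `Ω / K`, `χ` additive with kernel `E.fixingSubgroup`, `χ σ = 1`: for `z ∈ E`,
`∏ j < n, σ ^ j z = N_{E/K} z`. -/
theorem prod_pow_eq_norm [Normal K Ω] (E : IntermediateField K Ω) [FiniteDimensional K E]
    [IsGalois K E] (hχ : ∀ g h, χ (g * h) = χ g + χ h)
    (hker : ∀ g, χ g = 0 ↔ g ∈ E.fixingSubgroup) {σ : Ω ≃ₐ[K] Ω} (hσ : χ σ = 1) (z : E) :
    ∏ j ∈ Finset.range n, (σ ^ j) (z : Ω) = algebraMap K Ω (Algebra.norm K z) := by
  classical
  have h1 : algebraMap K E (Algebra.norm K z) = ∏ τ : E ≃ₐ[K] E, τ z :=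
    Algebra.norm_eq_prod_automorphisms K z
  have hres : ∀ (g : Ω ≃ₐ[K] Ω) (x : E),
      ((AlgEquiv.restrictNormalHom E g x : E) : Ω) = g (x : Ω) :=
    fun g x => AlgEquiv.restrictNormalHom_apply E g x
  have hsurj : Function.Surjective (AlgEquiv.restrictNormalHom E :
      (Ω ≃ₐ[K] Ω) →* (E ≃ₐ[K] E)) := AlgEquiv.restrictNormalHom_surjective Ω
  have hres_eq : ∀ g g' : Ω ≃ₐ[K] Ω, χ g = χ g' →
      AlgEquiv.restrictNormalHom E g = AlgEquiv.restrictNormalHom E g' := by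
    intro g g' hgg
    have h0 : χ (g⁻¹ * g') = 0 := by rw [hχ, chi_inv' hχ, hgg, neg_add_cancel]
    have hm : g⁻¹ * g' ∈ (AlgEquiv.restrictNormalHom E : (Ω ≃ₐ[K] Ω) →* (E ≃ₐ[K] E)).ker := by
      rw [IntermediateField.restrictNormalHom_ker E]; exact (hker _).1 h0
    rw [MonoidHom.mem_ker, map_mul, map_inv, inv_mul_eq_one] at hm
    exact hm
  have hres_inj : ∀ g g' : Ω ≃ₐ[K] Ω,
      AlgEquiv.restrictNormalHom E g = AlgEquiv.restrictNormalHom E g' → χ g = χ g' := by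
    intro g g' hgg
    have hm : g⁻¹ * g' ∈ (AlgEquiv.restrictNormalHom E : (Ω ≃ₐ[K] Ω) →* (E ≃ₐ[K] E)).ker := by
      rw [MonoidHom.mem_ker, map_mul, map_inv, inv_mul_eq_one]; exact hgg
    rw [IntermediateField.restrictNormalHom_ker E] at hm
    have h0 := (hker _).2 hm
    rw [hχ, chi_inv' hχ] at h0
    exact (neg_add_eq_zero.1 h0)
  have h2 : ∏ j ∈ Finset.range n, (σ ^ j) (z : Ω) = ∏ τ : E ≃ₐ[K] E, ((τ z : E) : Ω) := by
    refine Finset.prod_bij (fun j _ => AlgEquiv.restrictNormalHom E (σ ^ j))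
      (fun _ _ => Finset.mem_univ _) ?_ ?_ ?_
    · intro i hi j hj hij
      have h3 := hres_inj _ _ hij
      rw [chi_pow' hχ hσ, chi_pow' hχ hσ, ZMod.natCast_eq_natCast_iff'] at h3
      rwa [Nat.mod_eq_of_lt (Finset.mem_range.1 hi), Nat.mod_eq_of_lt (Finset.mem_range.1 hj)] at h3
    · intro τ _
      obtain ⟨g, rfl⟩ := hsurj τ
      refine ⟨(χ g).val, Finset.mem_range.2 (ZMod.val_lt _), ?_⟩
      apply hres_eq
      rw [chi_pow' hχ hσ, ZMod.natCast_zmod_val]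
    · intro j _
      exact (hres (σ ^ j) z).symm
  rw [h2, IsScalarTower.algebraMap_apply K E Ω, h1, map_prod]
  rfl

/-- An element of `Ω` fixed by `E.fixingSubgroup` lies in `E` (`Ω / K` Galois). -/
lemma mem_of_fixed [IsGalois K Ω] (E : IntermediateField K Ω) {y : Ω}
    (hy : ∀ m ∈ E.fixingSubgroup, m y = y) : y ∈ E := by
  have h := InfiniteGalois.fixedField_fixingSubgroup E
  rw [← h, IntermediateField.mem_fixedField_iff]
  exact hy

/-- **Cyclic classes and field norms** (`Ω / K` Galois, possibly infinite; `E / K` finite Galois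
with `E.fixingSubgroup = ker χ`, `χ` an arbitrary additive character, no generator needed):
`mulCyc χ a` is a level coboundary iff `a ∈ Kˣ` is a norm from `E`. -/
theorem mulCyc_isLevel_coboundary_iff_norm [IsGalois K Ω] (E : IntermediateField K Ω)
    [FiniteDimensional K E] [IsGalois K E] (hχ : ∀ g h, χ (g * h) = χ g + χ h)
    (hker : ∀ g, χ g = 0 ↔ g ∈ E.fixingSubgroup) (a : Kˣ) :
    (∃ x : (Ω ≃ₐ[K] Ω) → Ωˣ, IsLevel₁ x ∧ ∀ g h, g • x h / x (g * h) * x g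
        = helper6440.mulCyc χ (Units.map (algebraMap K Ω : K →* Ω) a) (g, h)) ↔
      ∃ z : E, Algebra.norm K z = (a : K) := by
  obtain ⟨n', hn', χ', σ, hχ', hσ, hker', hfun, hcarry⟩ := exists_surjective_reindex χ hχ
  have := hn'
  have hkerE : ∀ g, χ' g = 0 ↔ g ∈ E.fixingSubgroup := fun g => (hker' g).trans (hker g)
  have hχ'lev : IsLevel₁ χ' :=
    ⟨E, inferInstance, fun g s hs => by rw [hχ', (hkerE s).2 hs, add_zero]⟩
  have hb : ∀ g : Ω ≃ₐ[K] Ω, g • (Units.map (algebraMap K Ω : K →* Ω) a) =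
      Units.map (algebraMap K Ω : K →* Ω) a := by
    intro g
    apply Units.ext
    show g (algebraMap K Ω (a : K)) = algebraMap K Ω (a : K)
    exact g.commutes _
  have hcyc : helper6440.mulCyc χ (Units.map (algebraMap K Ω : K →* Ω) a)
      = helper6440.mulCyc χ' (Units.map (algebraMap K Ω : K →* Ω) a) := by
    funext q
    show _ ^ helper6440.carry n (χ q.1) (χ q.2) = _ ^ helper6440.carry n' (χ' q.1) (χ' q.2)
    rw [hcarry]
  rw [hcyc, mulCyc_isLevel_coboundary_iff hχ' hχ'lev hσ _ hb]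
  constructor
  · rintro ⟨y, hy, hby⟩
    have hyE : (y : Ω) ∈ E := mem_of_fixed E (fun m hm => by
      have := hy m ((hkerE m).2 hm)
      exact congrArg Units.val this)
    refine ⟨⟨(y : Ω), hyE⟩, ?_⟩
    apply (algebraMap K Ω).injective
    rw [← prod_pow_eq_norm E hχ' hkerE hσ ⟨(y : Ω), hyE⟩]
    have := congrArg Units.val hby
    rw [Units.coe_prod] at this
    exact this.symm
  · rintro ⟨z, hz⟩
    have hz0 : (z : Ω) ≠ 0 := by
      intro h0
      have hz' : z = 0 := Subtype.ext h0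
      rw [hz', Algebra.norm_zero] at hz
      exact a.ne_zero hz.symm
    refine ⟨Units.mk0 (z : Ω) hz0, fun m hm => ?_, ?_⟩
    · apply Units.ext
      show m (z : Ω) = (z : Ω)
      have := (IntermediateField.mem_fixingSubgroup_iff _ m).1 ((hkerE m).1 hm) (z : Ω) z.2
      simpa using this
    · apply Units.ext
      rw [Units.coe_prod]
      show algebraMap K Ω (a : K) = ∏ j ∈ Finset.range n', (σ ^ j) (z : Ω)
      rw [prod_pow_eq_norm E hχ' hkerE hσ z, hz]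

/-- With a decomposition `f = mulCyc χ a * d y` (`a ∈ Kˣ`, `y` level): `f` is a level coboundary
iff `a` is a norm from `E`. -/
theorem cyclic_layer_coboundary_iff_norm [IsGalois K Ω] (E : IntermediateField K Ω)
    [FiniteDimensional K E] [IsGalois K E] (hχ : ∀ g h, χ (g * h) = χ g + χ h)
    (hker : ∀ g, χ g = 0 ↔ g ∈ E.fixingSubgroup)
    {f : (Ω ≃ₐ[K] Ω) × (Ω ≃ₐ[K] Ω) → Ωˣ} (a : Kˣ)
    (y : (Ω ≃ₐ[K] Ω) → Ωˣ) (hylev : IsLevel₁ y)
    (hdec : ∀ g h, f (g, h) = helper6440.mulCyc χ (Units.map (algebraMap K Ω : K →* Ω) a) (g, h)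
      * (g • y h / y (g * h) * y g)) :
    (∃ z : (Ω ≃ₐ[K] Ω) → Ωˣ, IsLevel₁ z ∧ ∀ g h, g • z h / z (g * h) * z g = f (g, h)) ↔
      ∃ w : E, Algebra.norm K w = (a : K) := by
  rw [← mulCyc_isLevel_coboundary_iff_norm E hχ hker a]
  constructor
  · rintro ⟨z, hz, hzd⟩
    refine ⟨fun g => z g / y g, hz.map₂ hylev (· / ·), fun g h => ?_⟩
    have h1 := hzd g h
    rw [hdec] at h1
    beta_reduce
    rw [smul_div']
    rw [← div_eq_iff_eq_mul] at h1
    rw [← h1]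
    simp only [div_eq_mul_inv, mul_inv_rev, inv_inv]
    simp only [mul_comm, mul_left_comm, mul_assoc]
  · rintro ⟨x, hx, hxd⟩
    refine ⟨fun g => x g * y g, hx.map₂ hylev (· * ·), fun g h => ?_⟩
    beta_reduce
    rw [hdec, ← hxd, smul_mul']
    simp only [div_eq_mul_inv, mul_inv_rev]
    simp only [mul_comm, mul_left_comm, mul_assoc]

end General

end Fermat.Agent.S55.helper55
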