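import Mathlib
import Fermat.Agent.S55.helper5178_Sylow

/-!
# S55 / FW-CHI2SUB: submultiplicativity of a subadditive invariant along `p`-extensions

(`(d)` of the counting route for (G-E), team_s55_chat #137.)  Author: helper5627.

Pure representation theory over `ZMod p`, hypothesis-passing in an ARBITRARY function
`χ : Rep (ZMod p) G → ℤ` which is

* `hzero` : `≤ 0` on zero modules,
* `hsub`  : subadditive on short exact sequences of finite modules on which a fixed set `T`
  (resp. a normal subgroup `N`) acts trivially.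

(For `χ = h⁰ - h¹ + h²` on level cochains this is the truncated long exact sequence.)

Main results:

* `chi_le_finrank_mul` (A): `χ W ≤ dim W * χ (trivial)` for a finite `p`-power module `W`.
* `chi_coind_le_finrank_mul` (B): `χ (coind_H^G W) ≤ dim W * χ (coind_H^G trivial)`.
* `chi_le_of_bijective` : `χ` is monotone along bijective morphisms (so iso-invariant).
* `coindTrans` : the transitivity morphism `coind_{H'}^G 1 ⟶ coind_H^G (coind_{H'}^H 1)`,
  bijective.
* `finrank_coind_trivial` : `dim coind_Δ^Γ 1 = [Γ : Δ]`.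
* `chi_coind_le_relIndex_mul` (C): for `N ≤ H' ≤ H`, `H'` normal in `H` with `p`-power
  quotient: `χ (coind_{H'}^G 1) ≤ [H : H'] * χ (coind_H^G 1)`.
-/

set_option autoImplicit false

open CategoryTheory

namespace Fermat.Agent.S55.helper5627

open Fermat.Agent.S55.helper5178

section OneGroup

variable {p : ℕ} [Fact p.Prime] {G : Type} [Group G]

/-- In a short exact sequence `0 → F_p → W → W' → 0` the dimension goes up by one. -/
lemma finrank_eq_succ_of_exact (W W' : Rep (ZMod p) G)
    (i : Rep.trivial (ZMod p) G (ZMod p) ⟶ W) (q : W ⟶ W')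
    [Module.Finite (ZMod p) W] [Module.Finite (ZMod p) W']
    (hi : Function.Injective i.hom) (hq : Function.Surjective q.hom)
    (hex : Function.Exact i.hom q.hom) :
    Module.finrank (ZMod p) W = Module.finrank (ZMod p) W' + 1 := by
  have h1 := LinearMap.finrank_range_add_finrank_ker q.hom.toLinearMap
  have h2 : Module.finrank (ZMod p) (LinearMap.range q.hom.toLinearMap)
      = Module.finrank (ZMod p) W' := by
    have : LinearMap.range q.hom.toLinearMap = ⊤ := LinearMap.range_eq_top.2 hq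
    rw [this, finrank_top]
  have h3 : LinearMap.ker q.hom.toLinearMap = LinearMap.range i.hom.toLinearMap := by
    ext x
    exact hex x
  have h4 : Module.finrank (ZMod p) (LinearMap.range i.hom.toLinearMap) = 1 := by
    rw [LinearMap.finrank_range_of_inj hi]
    exact Module.finrank_self (ZMod p)
  rw [h2, h3, h4] at h1
  exact h1.symm

/-- **(A)** A subadditive invariant on a finite `p`-power module is bounded by
`dim * χ(trivial)`. -/
theorem chi_le_finrank_mul (T : Set G) (χ : Rep (ZMod p) G → ℤ)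
    (hzero : ∀ A : Rep (ZMod p) G, Subsingleton A → χ A ≤ 0)
    (hsub : ∀ (A B C : Rep (ZMod p) G) (f : A ⟶ B) (g : B ⟶ C),
      Module.Finite (ZMod p) A → Module.Finite (ZMod p) B → Module.Finite (ZMod p) C →
      (∀ t ∈ T, A.ρ t = 1) → (∀ t ∈ T, B.ρ t = 1) → (∀ t ∈ T, C.ρ t = 1) →
      Function.Injective f.hom → Function.Surjective g.hom → Function.Exact f.hom g.hom →
      χ B ≤ χ A + χ C)
    (W : Rep (ZMod p) G) [Module.Finite (ZMod p) W] (hW : IsPPower p W)
    (hT : ∀ t ∈ T, W.ρ t = 1) :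
    χ W ≤ (Module.finrank (ZMod p) W : ℤ) * χ (Rep.trivial (ZMod p) G (ZMod p)) := by
  refine unipotent_induction (p := p) T
    (fun W => χ W ≤ (Module.finrank (ZMod p) W : ℤ) * χ (Rep.trivial (ZMod p) G (ZMod p)))
    (fun W hW => ?_) ?_ W hW hT
  · have h0 : Module.finrank (ZMod p) W = 0 := Module.finrank_zero_of_subsingleton
    rw [h0]
    simpa using hzero W hW
  · intro W W' i q hfW hfW' _ _ hTW hTW' hi hq hex hW'
    have hfin : Module.Finite (ZMod p) (Rep.trivial (ZMod p) G (ZMod p)) :=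
      inferInstanceAs (Module.Finite (ZMod p) (ZMod p))
    have h1 := hsub _ _ _ i q hfin hfW hfW' (fun t _ => rfl) hTW hTW' hi hq hex
    have h2 := finrank_eq_succ_of_exact W W' i q hi hq hex
    rw [h2]
    push_cast
    linarith

end OneGroup

section Coind

variable {p : ℕ} [Fact p.Prime] {G : Type} [Group G]

/-- **(B)** Coinduced form: `χ (coind_H^G W) ≤ dim W * χ (coind_H^G F_p)` for a finite `p`-power
`H`-module `W` on which `N` acts trivially. -/
theorem chi_coind_le_finrank_mul (N : Subgroup G) [N.Normal] (χ : Rep (ZMod p) G → ℤ)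
    (hzero : ∀ A : Rep (ZMod p) G, Subsingleton A → χ A ≤ 0)
    (hsub : ∀ (A B C : Rep (ZMod p) G) (f : A ⟶ B) (g : B ⟶ C),
      Module.Finite (ZMod p) A → Module.Finite (ZMod p) B → Module.Finite (ZMod p) C →
      (∀ n ∈ N, A.ρ n = 1) → (∀ n ∈ N, B.ρ n = 1) → (∀ n ∈ N, C.ρ n = 1) →
      Function.Injective f.hom → Function.Surjective g.hom → Function.Exact f.hom g.hom →
      χ B ≤ χ A + χ C)
    (H : Subgroup G) (hNH : N ≤ H) [H.FiniteIndex]
    (W : Rep (ZMod p) H) [Module.Finite (ZMod p) W] (hWp : IsPPower p W)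
    (hWN : ∀ t : H, (t : G) ∈ N → W.ρ t = 1) :
    χ (Rep.coind H.subtype W) ≤ (Module.finrank (ZMod p) W : ℤ) *
      χ (Rep.coind H.subtype (Rep.trivial (ZMod p) H (ZMod p))) := by
  let T : Set H := {t | (t : G) ∈ N}
  have hAt : ∀ (A : Rep (ZMod p) H), (∀ t ∈ T, A.ρ t = 1) →
      ∀ n ∈ N, (Rep.coind H.subtype A).ρ n = 1 := fun A hA n hn =>
    coind_ρ_eq_one H N hNH A (fun n hn => hA ⟨n, hNH hn⟩ hn) hn
  refine unipotent_induction (p := p) T
    (fun W => χ (Rep.coind H.subtype W) ≤ (Module.finrank (ZMod p) W : ℤ) *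
      χ (Rep.coind H.subtype (Rep.trivial (ZMod p) H (ZMod p))))
    (fun W hW => ?_) ?_ W hWp (fun t ht => hWN t ht)
  · have h0 : Module.finrank (ZMod p) W = 0 := Module.finrank_zero_of_subsingleton
    rw [h0]
    simpa using hzero _ (subsingleton_coind H W hW)
  · intro W W' i q hfW hfW' _ _ hTW hTW' hi hq hex hW'
    have hfin : Module.Finite (ZMod p) (Rep.trivial (ZMod p) H (ZMod p)) :=
      inferInstanceAs (Module.Finite (ZMod p) (ZMod p))
    have h1 := hsub _ _ _ (Rep.coindMap H.subtype i) (Rep.coindMap H.subtype q)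
      (finite_coind H _) (finite_coind H W) (finite_coind H W')
      (hAt _ (fun t _ => rfl)) (hAt W hTW) (hAt W' hTW')
      (coindMap_injective H i hi) (coindMap_surjective H q hq) (coindMap_exact H i q hi hex)
    have h2 := finrank_eq_succ_of_exact W W' i q hi hq hex
    rw [h2]
    push_cast
    linarith

end Coind

section Bijective

variable {p : ℕ} [Fact p.Prime] {G : Type} [Group G]

/-- A zero representation. -/
noncomputable abbrev zeroRep (p : ℕ) (G : Type) [Group G] : Rep (ZMod p) G :=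
  Rep.trivial (ZMod p) G PUnit.{1}

/-- A subadditive invariant is monotone along bijective morphisms, in both directions
(hence invariant under isomorphism). -/
theorem chi_eq_of_bijective (T : Set G) (χ : Rep.{0, 0, 0} (ZMod p) G → ℤ)
    (hzero : ∀ A : Rep (ZMod p) G, Subsingleton A → χ A ≤ 0)
    (hsub : ∀ (A B C : Rep (ZMod p) G) (f : A ⟶ B) (g : B ⟶ C),
      Module.Finite (ZMod p) A → Module.Finite (ZMod p) B → Module.Finite (ZMod p) C →
      (∀ t ∈ T, A.ρ t = 1) → (∀ t ∈ T, B.ρ t = 1) → (∀ t ∈ T, C.ρ t = 1) →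
      Function.Injective f.hom → Function.Surjective g.hom → Function.Exact f.hom g.hom →
      χ B ≤ χ A + χ C)
    {A B : Rep (ZMod p) G} (φ : A ⟶ B)
    (hfA : Module.Finite (ZMod p) A) (hfB : Module.Finite (ZMod p) B)
    (hA : ∀ t ∈ T, A.ρ t = 1) (hB : ∀ t ∈ T, B.ρ t = 1)
    (hinj : Function.Injective φ.hom) (hsurj : Function.Surjective φ.hom) :
    χ A = χ B := by
  have hZfin : Module.Finite (ZMod p) (zeroRep p G) :=
    inferInstanceAs (Module.Finite (ZMod p) PUnit.{1})
  have hZsub : Subsingleton (zeroRep p G) := inferInstanceAs (Subsingleton PUnit.{1})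
  have hZ : ∀ t ∈ T, (zeroRep p G).ρ t = 1 := fun t _ => rfl
  have hz := hzero (zeroRep p G) hZsub
  apply le_antisymm
  · -- 0 → 0 → A → B → 0
    have h := hsub (zeroRep p G) A B 0 φ hZfin hfA hfB hZ hA hB
      (fun x y _ => Subsingleton.elim x y) hsurj (fun y => by
        constructor
        · intro hy
          refine ⟨0, ?_⟩
          have : φ.hom y = φ.hom 0 := by rw [hy, map_zero]
          rw [hinj this]
          exact map_zero _
        · rintro ⟨z, rfl⟩
          have hz0 : z = 0 := Subsingleton.elim _ _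
          rw [hz0, map_zero, map_zero])
    linarith
  · -- 0 → A → B → 0 → 0
    have h := hsub A B (zeroRep p G) φ 0 hfA hfB hZfin hA hB hZ hinj
      (fun z => ⟨0, Subsingleton.elim _ _⟩) (fun y => by
        constructor
        · intro _
          exact hsurj y
        · intro _
          exact Subsingleton.elim _ _)
    linarith

end Bijective

section Trans

variable {k : Type} [CommRing k] {G : Type} [Group G] (H H' : Subgroup G)

/-- The inner module `coind_{H' ∩ H}^H k`: functions on `H` invariant under left translation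
by `H'`, with `H` acting by right translation. -/
noncomputable abbrev innerRep (k : Type) [CommRing k] {G : Type} [Group G] (H H' : Subgroup G) :
    Rep k H :=
  Rep.coind (H'.subgroupOf H).subtype (Rep.trivial k (H'.subgroupOf H) k)

/-- Transitivity of coinduction for the trivial module, as an explicit morphism
`coind_{H'}^G k ⟶ coind_H^G (coind_{H'}^H k)`, `f ↦ (g ↦ (y ↦ f (y g)))`. -/
noncomputable def coindTrans :
    Rep.coind H'.subtype (Rep.trivial k H' k) ⟶ Rep.coind H.subtype (innerRep k H H') :=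
  Rep.ofHom
    ⟨{ toFun := fun f => ⟨fun g => ⟨fun y => f.1 ((y : G) * g), fun t y => by
            have h := f.2 ⟨((t : H) : G), Subgroup.mem_subgroupOf.1 t.2⟩ ((y : G) * g)
            show f.1 ((((t : H) * y : H) : G) * g) = f.1 ((y : G) * g)
            rw [Subgroup.coe_mul, mul_assoc]
            exact h⟩, fun h g => by
          apply Subtype.ext
          funext y
          show f.1 ((y : G) * ((h : G) * g)) = f.1 (((y * h : H) : G) * g)
          rw [Subgroup.coe_mul, mul_assoc]⟩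
       map_add' := fun a b => rfl
       map_smul' := fun c a => rfl },
     fun x => by
       apply LinearMap.ext
       intro f
       apply Subtype.ext
       funext g
       apply Subtype.ext
       funext y
       show f.1 ((y : G) * g * x) = f.1 ((y : G) * (g * x))
       rw [mul_assoc]⟩

@[simp] lemma coindTrans_apply (f : Rep.coind H'.subtype (Rep.trivial k H' k)) (g : G) (y : H) :
    (((coindTrans (k := k) H H').hom f).1 g).1 y = f.1 ((y : G) * g) := rfl

lemma coindTrans_injective : Function.Injective (coindTrans (k := k) H H').hom := by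
  intro f f' hff
  apply Subtype.ext
  funext g
  have h1 := coindTrans_apply (k := k) H H' f g 1
  have h2 := coindTrans_apply (k := k) H H' f' g 1
  rw [hff] at h1
  rw [Subgroup.coe_one, one_mul] at h1 h2
  exact h1.symm.trans h2

lemma coindTrans_surjective (hH'H : H' ≤ H) :
    Function.Surjective (coindTrans (k := k) H H').hom := by
  intro F
  refine ⟨⟨fun g => (F.1 g).1 1, fun h' g => ?_⟩, ?_⟩
  · -- invariance under `H'`
    have e1 : F.1 ((h' : G) * g) = (innerRep k H H').ρ ⟨(h' : G), hH'H h'.2⟩ (F.1 g) :=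
      F.2 ⟨(h' : G), hH'H h'.2⟩ g
    have e3 : (F.1 g).1 ((⟨(h' : G), hH'H h'.2⟩ : H) * 1) = (F.1 g).1 1 :=
      (F.1 g).2 ⟨⟨(h' : G), hH'H h'.2⟩, Subgroup.mem_subgroupOf.2 h'.2⟩ 1
    show (F.1 ((h' : G) * g)).1 1 = (F.1 g).1 1
    rw [e1]
    show (F.1 g).1 (1 * (⟨(h' : G), hH'H h'.2⟩ : H)) = (F.1 g).1 1
    rw [one_mul, ← e3, mul_one]
  · apply Subtype.ext
    funext g
    apply Subtype.ext
    funext y
    show (F.1 ((y : G) * g)).1 1 = (F.1 g).1 y
    have e1 := F.2 y g
    rw [show F.1 ((y : G) * g) = (innerRep k H H').ρ y (F.1 g) from e1]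
    show (F.1 g).1 (1 * y) = (F.1 g).1 y
    rw [one_mul]

end Trans

section Finrank

variable {k : Type} [Field k] {Γ : Type} [Group Γ] (Δ : Subgroup Γ)

/-- Functions on the coset space `Γ ⧸ Δ` are the coinduced trivial module. -/
noncomputable def cosetFunEquiv :
    (Γ ⧸ Δ → k) ≃ₗ[k] Representation.coindV Δ.subtype (Rep.trivial k Δ k).ρ where
  toFun φ := ⟨fun g => φ (QuotientGroup.mk g⁻¹), fun d g => by
    show φ (QuotientGroup.mk ((d : Γ) * g)⁻¹) = φ (QuotientGroup.mk g⁻¹)
    congr 1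
    rw [mul_inv_rev]
    exact QuotientGroup.mk_mul_of_mem _ (Δ.inv_mem d.2)⟩
  map_add' a b := rfl
  map_smul' c a := rfl
  invFun f := fun q => Quotient.liftOn' q (fun g => f.1 g⁻¹) (fun a b hab => by
    rw [QuotientGroup.leftRel_apply] at hab
    have h := f.2 ⟨(a⁻¹ * b)⁻¹, Δ.inv_mem hab⟩ a⁻¹
    show f.1 a⁻¹ = f.1 b⁻¹
    have e : b⁻¹ = (a⁻¹ * b)⁻¹ * a⁻¹ := by group
    rw [e]
    exact h.symm)
  left_inv φ := by
    funext q
    induction q using QuotientGroup.induction_on with
    | H g =>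
      show φ (QuotientGroup.mk g⁻¹⁻¹) = φ (QuotientGroup.mk g)
      rw [inv_inv]
  right_inv f := by
    apply Subtype.ext
    funext g
    show f.1 g⁻¹⁻¹ = f.1 g
    rw [inv_inv]

/-- `dim coind_Δ^Γ k = [Γ : Δ]`. -/
theorem finrank_coind_trivial [Δ.FiniteIndex] :
    Module.finrank k (Rep.coind Δ.subtype (Rep.trivial k Δ k)) = Δ.index := by
  classical
  have : Finite (Γ ⧸ Δ) := Subgroup.finite_quotient_of_finiteIndex
  let _ : Fintype (Γ ⧸ Δ) := Fintype.ofFinite _
  have h := (cosetFunEquiv (k := k) Δ).finrank_eq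
  show Module.finrank k (Representation.coindV Δ.subtype (Rep.trivial k Δ k).ρ) = Δ.index
  rw [← h, Module.finrank_fintype_fun_eq_card, Subgroup.index, Nat.card_eq_fintype_card]

end Finrank

section Main

variable {p : ℕ} [Fact p.Prime] {G : Type} [Group G]

/-- The inner module is a `p`-power module when `H'` is normal in `H` with `p`-group quotient. -/
theorem isPPower_innerRep (H H' : Subgroup G) [(H'.subgroupOf H).Normal]
    (hpow : ∀ h ∈ H, ∃ n : ℕ, h ^ p ^ n ∈ H') :
    IsPPower p (innerRep (ZMod p) H H') := by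
  intro h
  obtain ⟨n, hn⟩ := hpow h h.2
  refine ⟨n, ?_⟩
  exact coind_ρ_eq_one (H'.subgroupOf H) (H'.subgroupOf H) le_rfl _ (fun _ _ => rfl)
    (Subgroup.mem_subgroupOf.2 (by simpa using hn))

/-- **(C)** Submultiplicativity: for `N ≤ H' ≤ H` with `H'` normal in `H` and `H / H'` a finite
`p`-group, `χ (coind_{H'}^G F_p) ≤ [H : H'] * χ (coind_H^G F_p)` for every invariant `χ` which is
`≤ 0` on zero modules and subadditive on short exact sequences of finite `N`-trivial modules. -/
theorem chi_coind_le_relIndex_mul (N : Subgroup G) [N.Normal] (χ : Rep.{0, 0, 0} (ZMod p) G → ℤ)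
    (hzero : ∀ A : Rep (ZMod p) G, Subsingleton A → χ A ≤ 0)
    (hsub : ∀ (A B C : Rep (ZMod p) G) (f : A ⟶ B) (g : B ⟶ C),
      Module.Finite (ZMod p) A → Module.Finite (ZMod p) B → Module.Finite (ZMod p) C →
      (∀ n ∈ N, A.ρ n = 1) → (∀ n ∈ N, B.ρ n = 1) → (∀ n ∈ N, C.ρ n = 1) →
      Function.Injective f.hom → Function.Surjective g.hom → Function.Exact f.hom g.hom →
      χ B ≤ χ A + χ C)
    (H H' : Subgroup G) (hNH' : N ≤ H') (hH'H : H' ≤ H) [H'.FiniteIndex]
    [(H'.subgroupOf H).Normal] (hpow : ∀ h ∈ H, ∃ n : ℕ, h ^ p ^ n ∈ H') :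
    χ (Rep.coind H'.subtype (Rep.trivial (ZMod p) H' (ZMod p))) ≤
      (H'.relIndex H : ℤ) * χ (Rep.coind H.subtype (Rep.trivial (ZMod p) H (ZMod p))) := by
  have hHfi : H.FiniteIndex := Subgroup.finiteIndex_of_le hH'H
  have hfi'' : (H'.subgroupOf H).FiniteIndex := inferInstance
  have hfinTriv : ∀ (Γ : Type) [Group Γ], Module.Finite (ZMod p) (Rep.trivial (ZMod p) Γ (ZMod p)) :=
    fun Γ _ => inferInstanceAs (Module.Finite (ZMod p) (ZMod p))
  have hWfin : Module.Finite (ZMod p) (innerRep (ZMod p) H H') :=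
    haveI := hfinTriv (H'.subgroupOf H)
    finite_coind (H'.subgroupOf H) _
  have hWp := isPPower_innerRep (p := p) H H' hpow
  have hWN : ∀ t : H, (t : G) ∈ N → (innerRep (ZMod p) H H').ρ t = 1 := fun t ht =>
    coind_ρ_eq_one (H'.subgroupOf H) (H'.subgroupOf H) le_rfl _ (fun _ _ => rfl)
      (Subgroup.mem_subgroupOf.2 (hNH' ht))
  have hB := chi_coind_le_finrank_mul N χ hzero hsub H (hNH'.trans hH'H)
    (innerRep (ZMod p) H H') hWp hWN
  have hrank : Module.finrank (ZMod p) (innerRep (ZMod p) H H') = H'.relIndex H :=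
    finrank_coind_trivial (H'.subgroupOf H)
  have hT1 : Module.Finite (ZMod p) (Rep.coind H'.subtype (Rep.trivial (ZMod p) H' (ZMod p))) :=
    haveI := hfinTriv H'
    finite_coind H' _
  have hT2 : Module.Finite (ZMod p) (Rep.coind H.subtype (innerRep (ZMod p) H H')) :=
    finite_coind H _
  have hN1 : ∀ n ∈ N, (Rep.coind H'.subtype (Rep.trivial (ZMod p) H' (ZMod p))).ρ n = 1 :=
    fun n hn => coind_ρ_eq_one H' N hNH' _ (fun _ _ => rfl) hn
  have hN2 : ∀ n ∈ N, (Rep.coind H.subtype (innerRep (ZMod p) H H')).ρ n = 1 :=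
    fun n hn => coind_ρ_eq_one H N (hNH'.trans hH'H) _
      (fun n hn => hWN ⟨n, (hNH'.trans hH'H) hn⟩ hn) hn
  have heq := chi_eq_of_bijective (N : Set G) χ hzero hsub (coindTrans H H') hT1 hT2 hN1 hN2
    (coindTrans_injective H H') (coindTrans_surjective H H' hH'H)
  rw [heq, ← hrank]
  exact hB

end Main

section MainPow

variable {p : ℕ} [Fact p.Prime] {G : Type} [Group G]

/-- **(C')** Same as `chi_coind_le_relIndex_mul`, with the `p`-group hypothesis given as
`[H : H'] = p ^ m`. -/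
theorem chi_coind_le_pow_mul (N : Subgroup G) [N.Normal] (χ : Rep.{0, 0, 0} (ZMod p) G → ℤ)
    (hzero : ∀ A : Rep (ZMod p) G, Subsingleton A → χ A ≤ 0)
    (hsub : ∀ (A B C : Rep (ZMod p) G) (f : A ⟶ B) (g : B ⟶ C),
      Module.Finite (ZMod p) A → Module.Finite (ZMod p) B → Module.Finite (ZMod p) C →
      (∀ n ∈ N, A.ρ n = 1) → (∀ n ∈ N, B.ρ n = 1) → (∀ n ∈ N, C.ρ n = 1) →
      Function.Injective f.hom → Function.Surjective g.hom → Function.Exact f.hom g.hom →
      χ B ≤ χ A + χ C)
    (H H' : Subgroup G) (hNH' : N ≤ H') (hH'H : H' ≤ H) [H'.FiniteIndex]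
    [(H'.subgroupOf H).Normal] (m : ℕ) (hidx : H'.relIndex H = p ^ m) :
    χ (Rep.coind H'.subtype (Rep.trivial (ZMod p) H' (ZMod p))) ≤
      (p : ℤ) ^ m * χ (Rep.coind H.subtype (Rep.trivial (ZMod p) H (ZMod p))) := by
  have hpow : ∀ h ∈ H, ∃ n : ℕ, h ^ p ^ n ∈ H' := by
    intro h hh
    refine ⟨m, ?_⟩
    have h1 := Subgroup.pow_index_mem (H'.subgroupOf H) (⟨h, hh⟩ : H)
    have h2 : (H'.subgroupOf H).index = p ^ m := hidx
    rw [h2] at h1
    have h3 := Subgroup.mem_subgroupOf.1 h1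
    simpa using h3
  have h := chi_coind_le_relIndex_mul N χ hzero hsub H H' hNH' hH'H hpow
  rw [hidx] at h
  exact_mod_cast h

end MainPow

section Fields

/-- `ℚ̄ / ℚ` is Galois. -/
theorem isGalois_qbar : IsGalois ℚ (AlgebraicClosure ℚ) := by
  have h1 : Algebra.IsAlgebraic ℚ (AlgebraicClosure ℚ) := AlgebraicClosure.isAlgebraic ℚ
  have h2 : IsAlgClosure ℚ (AlgebraicClosure ℚ) := ⟨inferInstance, inferInstance⟩
  have h3 : Normal ℚ (AlgebraicClosure ℚ) := IsAlgClosure.normal ℚ (AlgebraicClosure ℚ)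
  exact ⟨⟩

/-- The permutation module `A_F = F_p[G_ℚ / G_F]`, in the coinduced model. -/
noncomputable abbrev permRep (p : ℕ) (F : IntermediateField ℚ (AlgebraicClosure ℚ)) :
    Rep (ZMod p) (AlgebraicClosure ℚ ≃ₐ[ℚ] AlgebraicClosure ℚ) :=
  Rep.coind F.fixingSubgroup.subtype (Rep.trivial (ZMod p) F.fixingSubgroup (ZMod p))

/-- If `K'` is stable under `G_K`, then `G_{K'}` is normal in `G_K`. -/
theorem normal_subgroupOf_fixingSubgroup (K K' : IntermediateField ℚ (AlgebraicClosure ℚ))
    (hstab : ∀ σ ∈ K.fixingSubgroup, ∀ x ∈ K', σ x ∈ K') :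
    (K'.fixingSubgroup.subgroupOf K.fixingSubgroup).Normal := by
  refine ⟨fun n hn g => ?_⟩
  rw [Subgroup.mem_subgroupOf] at hn ⊢
  rw [IntermediateField.mem_fixingSubgroup_iff] at hn ⊢
  intro x hx
  have h1 : ((g⁻¹ : K.fixingSubgroup) : AlgebraicClosure ℚ ≃ₐ[ℚ] AlgebraicClosure ℚ) x ∈ K' :=
    hstab _ (g⁻¹).2 x hx
  have h2 := hn _ h1
  show (g : AlgebraicClosure ℚ ≃ₐ[ℚ] AlgebraicClosure ℚ)
    ((n : AlgebraicClosure ℚ ≃ₐ[ℚ] AlgebraicClosure ℚ)
      (((g⁻¹ : K.fixingSubgroup) : AlgebraicClosure ℚ ≃ₐ[ℚ] AlgebraicClosure ℚ) x)) = x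
  rw [h2]
  have h3 : ((g : AlgebraicClosure ℚ ≃ₐ[ℚ] AlgebraicClosure ℚ) *
      ((g⁻¹ : K.fixingSubgroup) : AlgebraicClosure ℚ ≃ₐ[ℚ] AlgebraicClosure ℚ)) x = x := by
    rw [Subgroup.coe_inv, mul_inv_cancel]
    rfl
  exact h3

/-- `[G_K : G_{K'}] * [K : ℚ] = [K' : ℚ]`. -/
theorem relIndex_fixingSubgroup_mul (K K' : IntermediateField ℚ (AlgebraicClosure ℚ))
    (hKK' : K ≤ K') :
    K'.fixingSubgroup.relIndex K.fixingSubgroup * Module.finrank ℚ K = Module.finrank ℚ K' := by
  have := isGalois_qbar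
  rw [IntermediateField.finrank_eq_fixingSubgroup_index _ K,
    IntermediateField.finrank_eq_fixingSubgroup_index _ K']
  exact Subgroup.relIndex_mul_index (IntermediateField.fixingSubgroup_antitone hKK')

/-- **(d) of the counting route for (G-E), field form.**  `K ≤ K'` number fields inside `ℚ̄`,
`K'` stable under `G_K` (i.e. `K'/K` Galois) of degree `p ^ m`; `N` a normal subgroup of `G_ℚ`
contained in `G_{K'}` (e.g. the fixing subgroup of a Galois `S`-field containing `K'`).  Then
`χ (A_{K'}) ≤ p ^ m * χ (A_K)` for every invariant `χ` of `ZMod p`-representations of `G_ℚ`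
which is `≤ 0` on zero modules and subadditive on short exact sequences of finite `N`-trivial
modules. -/
theorem chi_permRep_le_pow_mul {p : ℕ} [Fact p.Prime]
    (N : Subgroup (AlgebraicClosure ℚ ≃ₐ[ℚ] AlgebraicClosure ℚ)) [N.Normal]
    (χ : Rep.{0, 0, 0} (ZMod p) (AlgebraicClosure ℚ ≃ₐ[ℚ] AlgebraicClosure ℚ) → ℤ)
    (hzero : ∀ A : Rep (ZMod p) (AlgebraicClosure ℚ ≃ₐ[ℚ] AlgebraicClosure ℚ),
      Subsingleton A → χ A ≤ 0)
    (hsub : ∀ (A B C : Rep (ZMod p) (AlgebraicClosure ℚ ≃ₐ[ℚ] AlgebraicClosure ℚ))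
      (f : A ⟶ B) (g : B ⟶ C),
      Module.Finite (ZMod p) A → Module.Finite (ZMod p) B → Module.Finite (ZMod p) C →
      (∀ n ∈ N, A.ρ n = 1) → (∀ n ∈ N, B.ρ n = 1) → (∀ n ∈ N, C.ρ n = 1) →
      Function.Injective f.hom → Function.Surjective g.hom → Function.Exact f.hom g.hom →
      χ B ≤ χ A + χ C)
    (K K' : IntermediateField ℚ (AlgebraicClosure ℚ)) [FiniteDimensional ℚ K'] (hKK' : K ≤ K')
    (hN : N ≤ K'.fixingSubgroup)
    (hstab : ∀ σ ∈ K.fixingSubgroup, ∀ x ∈ K', σ x ∈ K')
    (m : ℕ) (hdeg : Module.finrank ℚ K' = p ^ m * Module.finrank ℚ K) :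
    χ (permRep p K') ≤ (p : ℤ) ^ m * χ (permRep p K) := by
  have := isGalois_qbar
  have hpos : 0 < Module.finrank ℚ K' := Module.finrank_pos
  have hfi : K'.fixingSubgroup.FiniteIndex :=
    ⟨by rw [← IntermediateField.finrank_eq_fixingSubgroup_index _ K']; exact hpos.ne'⟩
  have := normal_subgroupOf_fixingSubgroup K K' hstab
  have hrel := relIndex_fixingSubgroup_mul K K' hKK'
  have hK0 : Module.finrank ℚ K ≠ 0 := by
    intro h0
    rw [h0, mul_zero] at hdeg
    omega
  have hidx : K'.fixingSubgroup.relIndex K.fixingSubgroup = p ^ m := by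
    rw [hdeg] at hrel
    exact Nat.eq_of_mul_eq_mul_right (Nat.pos_of_ne_zero hK0) hrel
  exact chi_coind_le_pow_mul N χ hzero hsub K.fixingSubgroup K'.fixingSubgroup hN
    (IntermediateField.fixingSubgroup_antitone hKK') m hidx

end Fields

end Fermat.Agent.S55.helper5627
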