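/-
S55 (Poitou–Tate), counting route for (G-E), leaf FW-CHI2SUB: the frozen instantiation.
Author: helper5627.

`helper3071.Stmt_Chi2Sub` (`χ₂(K') ≤ [K':K] χ₂(K)` in a `p`-power Galois layer of `S`-fields,
`χ₂ = 1 - h¹ + h²`) from the subadditivity `helper613.Stmt_ChiSub` of the global truncated Euler
characteristic on short exact sequences of `S`-modules.

Proof: `helper5627.chi_coind_le_pow_mul` (abstract devissage through `coind`) applied to
`χ A := h⁰ A - h¹_S A + h²_S A` on `G_ℚ`-modules and `N :=` the fixing subgroup of a Galois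
`S`-field containing `K'`; then Shapiro (`helper62.stmt_Shapiro`) and `h⁰(coind_F 𝔽_p) = 1`.
No finiteness hypothesis is needed: everything is a statement about `finrank`s.
-/
import Mathlib
import Fermat.Agent.S55.helper5627_ChiSub
import Fermat.Agent.S55.helper613_StmtE
import Fermat.Agent.S55.helper3071_GBTransport
import Fermat.Agent.S55.helper62_GBShapiro

set_option autoImplicit false

noncomputable section

namespace Fermat.Agent.S55.helper5627

open CategoryTheory Module ExtCitation
open Fermat.Agent.S55.helper2945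

/-- **FW-CHI2SUB, frozen form.**  `Stmt_Chi2Sub` of the global bridge from the subadditivity of
the global truncated Euler characteristic on short exact sequences of `S`-modules. -/
theorem stmt_Chi2Sub_of_chiSub (hSub : helper613.Stmt_ChiSub) : helper3071.Stmt_Chi2Sub := by
  intro S p K K' t hK hK' hG
  have hp : p.Prime := hK.prime
  have : Fact p.Prime := ⟨hp⟩
  have hp2 : p ≠ 2 := hK.odd
  have hpS : pPrime p ∈ S := by
    obtain ⟨q, hqS, hqp⟩ := hK.mem
    have : q = pPrime p := Subtype.ext hqp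
    rw [← this]
    exact hqS
  obtain ⟨hKK', hnorm, hdeg⟩ := hG
  obtain ⟨L, hK'L, hLS, -, hLnorm⟩ := helper4039.exists_normal_ge hK'
  have := hLnorm
  have := hnorm
  have : FiniteDimensional ℚ K' := hK'.1
  -- the invariant
  let χ : Rep.{0, 0, 0} (ZMod p) GQ → ℤ := fun A => (h0 A : ℤ) - (h1 S A : ℤ) + (h2 S A : ℤ)
  have hzero : ∀ A : Rep.{0, 0, 0} (ZMod p) GQ, Subsingleton A → χ A ≤ 0 := by
    intro A hA
    have e1 : h0 A = 0 := helper613.h0_eq_zero_of_subsingleton A
    have e2 : h2 S A = 0 := helper613.h2_eq_zero_of_subsingleton S A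
    show (h0 A : ℤ) - (h1 S A : ℤ) + (h2 S A : ℤ) ≤ 0
    rw [e1, e2]
    have : (0 : ℤ) ≤ (h1 S A : ℤ) := Int.natCast_nonneg _
    simp
  have hsub : ∀ (A B C : Rep.{0, 0, 0} (ZMod p) GQ) (f : A ⟶ B) (g : B ⟶ C),
      Module.Finite (ZMod p) A → Module.Finite (ZMod p) B → Module.Finite (ZMod p) C →
      (∀ n ∈ L.fixingSubgroup, A.ρ n = 1) → (∀ n ∈ L.fixingSubgroup, B.ρ n = 1) →
      (∀ n ∈ L.fixingSubgroup, C.ρ n = 1) →
      Function.Injective f.hom → Function.Surjective g.hom → Function.Exact f.hom g.hom →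
      χ B ≤ χ A + χ C := by
    intro A B C f g hA hB hC hAN hBN hCN hf hg hex
    have h := hSub hp2 S hpS A B C f g (helper613.isSMod_of_trivial S hLS A hA hAN)
      (helper613.isSMod_of_trivial S hLS B hB hBN) (helper613.isSMod_of_trivial S hLS C hC hCN)
      hf hg hex
    show (h0 B : ℤ) - (h1 S B : ℤ) + (h2 S B : ℤ) ≤
      ((h0 A : ℤ) - (h1 S A : ℤ) + (h2 S A : ℤ)) + ((h0 C : ℤ) - (h1 S C : ℤ) + (h2 S C : ℤ))
    omega
  -- the index
  have hpos : 0 < Module.finrank ℚ K' := Module.finrank_pos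
  have := isGalois_qbar
  have hfi : K'.fixingSubgroup.FiniteIndex :=
    ⟨by rw [← IntermediateField.finrank_eq_fixingSubgroup_index _ K']; exact hpos.ne'⟩
  have hrel := relIndex_fixingSubgroup_mul K K' hKK'
  have hK0 : Module.finrank ℚ K ≠ 0 := by
    intro h0
    rw [h0, mul_zero] at hdeg
    omega
  have hidx : K'.fixingSubgroup.relIndex K.fixingSubgroup = p ^ t := by
    rw [hdeg] at hrel
    exact Nat.eq_of_mul_eq_mul_right (Nat.pos_of_ne_zero hK0) hrel
  have key := chi_coind_le_pow_mul L.fixingSubgroup χ hzero hsub K.fixingSubgroup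
    K'.fixingSubgroup (IntermediateField.fixingSubgroup_antitone hK'L)
    (IntermediateField.fixingSubgroup_antitone hKK') t hidx
  -- Shapiro
  obtain ⟨s1, s2⟩ := helper62.stmt_Shapiro S p K hp hK.unram
  obtain ⟨s1', s2'⟩ := helper62.stmt_Shapiro S p K' hp hK'
  have a0 : h0 (helper3071.indRep p K) = 1 := helper3071.finrank_invariants_indRep p K hp
  have a0' : h0 (helper3071.indRep p K') = 1 := helper3071.finrank_invariants_indRep p K' hp
  have a1 : h1 S (helper3071.indRep p K) = finrank (ZMod p) (helper3071.fieldH1 S p K) :=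
    s1.finrank_eq
  have a1' : h1 S (helper3071.indRep p K') = finrank (ZMod p) (helper3071.fieldH1 S p K') :=
    s1'.finrank_eq
  have a2 : h2 S (helper3071.indRep p K) = finrank (ZMod p) (helper3071.fieldH2 S p K) :=
    s2.finrank_eq
  have a2' : h2 S (helper3071.indRep p K') = finrank (ZMod p) (helper3071.fieldH2 S p K') :=
    s2'.finrank_eq
  have key' : ((h0 (helper3071.indRep p K') : ℤ) - (h1 S (helper3071.indRep p K') : ℤ) +
      (h2 S (helper3071.indRep p K') : ℤ)) ≤ (p : ℤ) ^ t *
      ((h0 (helper3071.indRep p K) : ℤ) - (h1 S (helper3071.indRep p K) : ℤ) +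
        (h2 S (helper3071.indRep p K) : ℤ)) := key
  rw [a0, a0', a1, a1', a2, a2'] at key'
  show 1 + finrank (ZMod p) (helper3071.fieldH2 S p K') +
      p ^ t * finrank (ZMod p) (helper3071.fieldH1 S p K) ≤
    p ^ t * (1 + finrank (ZMod p) (helper3071.fieldH2 S p K)) +
      finrank (ZMod p) (helper3071.fieldH1 S p K')
  have hcast : ((1 + finrank (ZMod p) (helper3071.fieldH2 S p K') +
      p ^ t * finrank (ZMod p) (helper3071.fieldH1 S p K) : ℕ) : ℤ) ≤
    ((p ^ t * (1 + finrank (ZMod p) (helper3071.fieldH2 S p K)) +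
      finrank (ZMod p) (helper3071.fieldH1 S p K') : ℕ) : ℤ) := by
    push_cast
    push_cast at key'
    linarith
  exact_mod_cast hcast

end Fermat.Agent.S55.helper5627
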