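import Fermat.Prelude.Def_GroupCohomology_ContinuousUnramified

/-!
# S55, leaf LS-L3: the local cup pairing `H¹(M') × H¹(M) → H²(μ)` has trivial kernels

Frozen-carrier statement (Prelude `IsLevelConstant₁`, `levelCoboundaries₂`, `continuousH2`),
for an arbitrary group `G` with a level map `r : G →* Gal(ℚ̄/ℚ)`, a field `k`, a character
`χ : G →* kˣ`, `μ := chiRep χ` (the line `k` with action through `χ`) and
`M' := M.dualTwist χ`.

Input: the injective half of (L2) (`L2Inj`) and `continuousH2 r μ ≠ 0`.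
Output: `l3_left`, `l3_right`.

Proof: one class at a time.  For a level 1-cocycle `c` with values in `A` and an equivariant
pairing `β : A × M → μ`, the module `N_c = M × k`, `g (m, w) = (g m, χ g w - β (c g) (g m))`
sits in `0 → μ → N_c → M → 0`, whose connecting map is `y ↦ -β(c ∪ y)`.
-/

set_option autoImplicit false

open CategoryTheory groupCohomology

namespace Fermat.Agent.S55.helper5688

universe u

variable {k G : Type u} [Field k] [Group G]
variable (r : G →* (AlgebraicClosure ℚ ≃ₐ[ℚ] AlgebraicClosure ℚ))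

/-- A representation all of whose vectors are fixed by the preimage of a level. -/
def IsSmoothRep (M : Rep.{u} k G) : Prop :=
  ∀ m : M, ∃ F : IntermediateField ℚ (AlgebraicClosure ℚ), FiniteDimensional ℚ F ∧
    ∀ s : G, r s ∈ F.fixingSubgroup → M.ρ s m = m

/-- A character trivial on the preimage of a level. -/
def IsSmoothChar (χ : G →* kˣ) : Prop :=
  ∃ F : IntermediateField ℚ (AlgebraicClosure ℚ), FiniteDimensional ℚ F ∧
    ∀ s : G, r s ∈ F.fixingSubgroup → χ s = 1

/-- The line `k` with `G` acting through `χ`. -/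
noncomputable abbrev chiRep (χ : G →* kˣ) : Rep.{u} k G := (Rep.trivial k G k).twist χ

lemma chiRep_ρ_apply (χ : G →* kˣ) (g : G) (w : k) :
    (chiRep χ).ρ g w = (χ g : k) * w := rfl

lemma twist_trivial_apply (χ : G →* kˣ) (g : G) (w : k) :
    ((Representation.trivial k G k).twist χ) g w = (χ g : k) * w := rfl

/-- The injective half of (L2): a class in `H²(X)` killed by all equivariant maps `X → μ`
is zero. -/
def L2Inj (χ : G →* kˣ) : Prop :=
  ∀ X : Rep.{u} k G, FiniteDimensional k X → IsSmoothRep r X →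
    ∀ x : continuousH2 r X, (∀ φ : X ⟶ chiRep χ, continuousH2MapHom r φ x = 0) → x = 0

section ExtModule

variable {A M : Rep.{u} k G} (χ : G →* kˣ) (β : A →ₗ[k] M →ₗ[k] k) (c : G → A)

/-- The endomorphism `(m, w) ↦ (g m, χ g w - β (c g) (g m))` of `M × k`. -/
noncomputable def extFun (g : G) : (M × k) →ₗ[k] (M × k) :=
  LinearMap.prod ((M.ρ g).comp (LinearMap.fst k M k))
    ((χ g : k) • LinearMap.snd k M k - (β (c g)).comp ((M.ρ g).comp (LinearMap.fst k M k)))

lemma extFun_apply (g : G) (x : M × k) :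
    extFun χ β c g x = (M.ρ g x.1, (χ g : k) * x.2 - β (c g) (M.ρ g x.1)) := rfl

variable (hβ : ∀ (g : G) (a : A) (m : M), β (A.ρ g a) (M.ρ g m) = (χ g : k) * β a m)
  (hc : c ∈ cocycles₁ A)

include hβ hc in
lemma extFun_mul (g h : G) : extFun χ β c (g * h) = extFun χ β c g * extFun χ β c h := by
  apply LinearMap.ext
  rintro ⟨m, w⟩
  have hc' := (mem_cocycles₁_iff c).1 hc g h
  rw [Module.End.mul_apply, extFun_apply, extFun_apply, extFun_apply]
  simp only [map_mul, Module.End.mul_apply, Units.val_mul, hc', map_add, LinearMap.add_apply, hβ]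
  refine Prod.ext rfl ?_
  simp only
  ring

include hc in
lemma extFun_one : extFun χ β c 1 = 1 := by
  apply LinearMap.ext
  rintro ⟨m, w⟩
  have h1 : c 1 = 0 := cocycles₁_map_one (⟨c, hc⟩ : cocycles₁ A)
  rw [extFun_apply]
  simp [h1]

/-- The representation on `M × k` attached to an equivariant pairing and a 1-cocycle. -/
noncomputable def extRho : Representation k G (M × k) where
  toFun := extFun χ β c
  map_one' := extFun_one χ β c hc
  map_mul' := extFun_mul χ β c hβ hc

/-- The extension module `N_c`. -/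
noncomputable abbrev extRep : Rep.{u} k G := Rep.of (extRho χ β c hβ hc)

lemma extRep_ρ_apply (g : G) (x : M × k) :
    (extRep χ β c hβ hc).ρ g x = (M.ρ g x.1, (χ g : k) * x.2 - β (c g) (M.ρ g x.1)) := rfl

/-- The inclusion `μ → N_c`, `w ↦ (0, w)`. -/
noncomputable def extIncl : chiRep χ ⟶ extRep χ β c hβ hc :=
  Rep.ofHom ⟨LinearMap.inr k M k, fun g => by
    apply LinearMap.ext
    intro w
    show ((0 : M), (χ g : k) * w) = extFun χ β c g ((0 : M), w)
    rw [extFun_apply]
    simp⟩

/-- The projection `N_c → M`, `(m, w) ↦ m`. -/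
noncomputable def extProj : extRep χ β c hβ hc ⟶ M :=
  Rep.ofHom (σ := M.ρ) ⟨LinearMap.fst k M k, fun g => by
    apply LinearMap.ext
    intro x
    rfl⟩

lemma extIncl_apply (w : k) : (extIncl χ β c hβ hc).hom w = ((0 : M), w) := rfl

lemma extProj_apply (x : M × k) : (extProj χ β c hβ hc).hom x = x.1 := rfl

end ExtModule

section Functoriality

variable {X Y Z : Rep.{u} k G}

lemma continuousH2MapHom_π_eq_zero_iff (φ : X ⟶ Y) (x : levelCocycles₂ r X) :
    continuousH2MapHom r φ (continuousH2π r X x) = 0 ↔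
      (fun p : G × G => φ.hom ((x : G × G → X) p)) ∈ levelCoboundaries₂ r Y := by
  rw [continuousH2MapHom, continuousH2Map_continuousH2π, continuousH2π_eq_zero_iff]
  rfl

lemma continuousH2MapHom_comp (φ : X ⟶ Y) (ψ : Y ⟶ Z) (x : continuousH2 r X) :
    continuousH2MapHom r (φ ≫ ψ) x = continuousH2MapHom r ψ (continuousH2MapHom r φ x) := by
  induction x using Submodule.Quotient.induction_on with
  | _ x => rfl

end Functoriality

section Core

variable {A M : Rep.{u} k G} (χ : G →* kˣ) (β : A →ₗ[k] M →ₗ[k] k) (c : G → A)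
  (hβ : ∀ (g : G) (a : A) (m : M), β (A.ρ g a) (M.ρ g m) = (χ g : k) * β a m)
  (hc : c ∈ cocycles₁ A)

include hc in
lemma map_eq_zero_of_level {F : IntermediateField ℚ (AlgebraicClosure ℚ)}
    (hF : ∀ g s : G, r s ∈ F.fixingSubgroup → c (g * s) = c g) {s : G}
    (hs : r s ∈ F.fixingSubgroup) : c s = 0 := by
  have h1 : c 1 = 0 := cocycles₁_map_one (⟨c, hc⟩ : cocycles₁ A)
  have := hF 1 s hs
  rwa [one_mul, h1] at this

lemma isSmoothRep_extRep (hM : IsSmoothRep r M) (hχ : IsSmoothChar r χ)
    (hcl : IsLevelConstant₁ r c) : IsSmoothRep r (extRep χ β c hβ hc) := by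
  rintro ⟨m, w⟩
  obtain ⟨F₁, hF₁, h₁⟩ := hM m
  obtain ⟨F₂, hF₂, h₂⟩ := hχ
  obtain ⟨F₃, hF₃, h₃⟩ := hcl
  have := hF₁; have := hF₂; have := hF₃
  refine ⟨F₁ ⊔ F₂ ⊔ F₃, inferInstance, fun s hs => ?_⟩
  have hs₁ : r s ∈ F₁.fixingSubgroup :=
    IntermediateField.fixingSubgroup_antitone (le_sup_left.trans le_sup_left) hs
  have hs₂ : r s ∈ F₂.fixingSubgroup :=
    IntermediateField.fixingSubgroup_antitone (le_sup_right.trans le_sup_left) hs
  have hs₃ : r s ∈ F₃.fixingSubgroup :=
    IntermediateField.fixingSubgroup_antitone le_sup_right hs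
  rw [extRep_ρ_apply]
  have hcs : c s = 0 := map_eq_zero_of_level r c hc h₃ hs₃
  simp only [h₁ s hs₁, h₂ s hs₂, hcs, map_zero, LinearMap.zero_apply, Units.val_one, one_mul,
    sub_zero]

include hβ hc in
/-- Exactness at `H²(μ)`: if the cup products `β(c ∪ y)` are level coboundaries, the map
`H²(μ) → H²(N_c)` is injective. -/
lemma incl_injective_of_orth
    (horth : ∀ y : G → M, y ∈ cocycles₁ M → IsLevelConstant₁ r y →
      (fun p : G × G => β (c p.1) (M.ρ p.1 (y p.2))) ∈ levelCoboundaries₂ r (chiRep χ))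
    (z : levelCocycles₂ r (chiRep χ))
    (hz : continuousH2MapHom r (extIncl χ β c hβ hc) (continuousH2π r (chiRep χ) z) = 0) :
    (z : G × G → chiRep χ) ∈ levelCoboundaries₂ r (chiRep χ) := by
  rw [continuousH2MapHom_π_eq_zero_iff] at hz
  obtain ⟨u, hu, hdu⟩ := (mem_levelCoboundaries₂_iff r _ _).1 hz
  have key : ∀ g h : G, (extRep χ β c hβ hc).ρ g (u h) - u (g * h) + u g
      = ((0 : M), (z : G × G → chiRep χ) (g, h)) := by
    intro g h
    have := congrFun hdu (g, h)
    rw [d₁₂_hom_apply] at this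
    exact this
  have key1 : ∀ g h : G, M.ρ g (u h).1 - (u (g * h)).1 + (u g).1 = 0 := fun g h => by
    have := congrArg Prod.fst (key g h)
    rw [extRep_ρ_apply] at this
    exact this
  have key2 : ∀ g h : G, (χ g : k) * (u h).2 - β (c g) (M.ρ g (u h).1) - (u (g * h)).2 + (u g).2
      = (z : G × G → chiRep χ) (g, h) := fun g h => by
    have := congrArg Prod.snd (key g h)
    rw [extRep_ρ_apply] at this
    exact this
  have hy : (fun g => (u g).1) ∈ cocycles₁ M := (mem_cocycles₁_def _).2 key1
  have hyl : IsLevelConstant₁ r (fun g => (u g).1) := hu.comp Prod.fst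
  obtain ⟨v, hv, hdv⟩ := (mem_levelCoboundaries₂_iff r _ _).1 (horth _ hy hyl)
  refine (mem_levelCoboundaries₂_iff r _ _).2 ⟨fun g => (u g).2 - v g, ?_, ?_⟩
  · exact (levelCochains₁ r (chiRep χ)).sub_mem (hu.comp Prod.snd) hv
  · funext ⟨g, h⟩
    have h1 := congrFun hdv (g, h)
    rw [d₁₂_hom_apply] at h1 ⊢
    have h2 := key2 g h
    simp only [twist_trivial_apply] at h1 ⊢
    rw [← h2]
    linear_combination (-1 : k) * h1

/-- If `β ∘ c` is not a coboundary in `M.dualTwist χ`, every equivariant map `N_c → μ` factors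
through the projection `N_c → M`. -/
lemma proj_factor
    (hnc : ¬ ∃ f : Module.Dual k M, ∀ g : G, β (c g) = (M.dualTwist χ).ρ g f - f)
    (ψ : extRep χ β c hβ hc ⟶ chiRep χ) :
    ∃ φ : M ⟶ chiRep χ, ψ = extProj χ β c hβ hc ≫ φ := by
  -- the two components of `ψ`
  set f : Module.Dual k M := ψ.hom.toLinearMap.comp (LinearMap.inl k M k) with hf
  set u : k := ψ.hom ((0 : M), (1 : k)) with hu
  have hψ : ∀ x : M × k, ψ.hom x = f x.1 + x.2 * u := by
    rintro ⟨m, w⟩
    have h1 : ((m, w) : M × k) = (m, (0 : k)) + w • ((0 : M), (1 : k)) := by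
      simp
    have h2 : ψ.hom ((m, w) : M × k) = ψ.hom ((m, (0 : k)) : M × k)
        + w • ψ.hom (((0 : M), (1 : k)) : M × k) := by
      conv_lhs => rw [h1]
      rw [map_add, map_smul]
    rw [h2]
    rfl
  have hcomm : ∀ (g : G) (x : M × k),
      ψ.hom ((extRep χ β c hβ hc).ρ g x) = (χ g : k) * ψ.hom x := fun g x =>
    Rep.hom_comm_apply ψ g x
  -- the equivariance equation on `(m, 0)`
  have heq : ∀ (g : G) (m : M), f (M.ρ g m) - β (c g) (M.ρ g m) * u = (χ g : k) * f m := by
    intro g m
    have := hcomm g (m, 0)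
    rw [extRep_ρ_apply, hψ, hψ] at this
    dsimp only at this
    linear_combination this
  have hu0 : u = 0 := by
    by_contra hne
    refine hnc ⟨-(u⁻¹ • f), fun g => ?_⟩
    apply LinearMap.ext
    intro m
    have h1 := heq g (M.ρ g⁻¹ m)
    have h2 : M.ρ g (M.ρ g⁻¹ m) = m := by
      rw [← Module.End.mul_apply, ← map_mul, mul_inv_cancel, map_one, Module.End.one_apply]
    rw [h2] at h1
    rw [map_neg, LinearMap.sub_apply, LinearMap.neg_apply, LinearMap.neg_apply, map_smul,
      LinearMap.smul_apply, LinearMap.smul_apply, Rep.dualTwist_ρ_apply, LinearMap.smul_apply,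
      LinearMap.comp_apply, smul_eq_mul, smul_eq_mul, smul_eq_mul]
    field_simp
    linear_combination (-1 : k) * h1
  have hfeq : ∀ (g : G) (m : M), f (M.ρ g m) = (χ g : k) * f m := by
    intro g m
    have := heq g m
    rwa [hu0, mul_zero, sub_zero] at this
  refine ⟨Rep.ofHom (ρ := M.ρ) ⟨f, fun g => LinearMap.ext fun m => hfeq g m⟩, ?_⟩
  apply Rep.hom_ext
  apply Representation.IntertwiningMap.ext
  apply LinearMap.ext
  intro x
  have := hψ x
  rw [hu0, mul_zero, add_zero] at this
  exact this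

include hβ hc in
/-- **Core.**  Let `β : A × M → μ` be an equivariant pairing and `c` a level 1-cocycle of `A`
all of whose cup products with level 1-cocycles of `M` are level coboundaries.  Then, given the
injective half of (L2) and `H²(μ) ≠ 0`, the cocycle `β ∘ c` of `M.dualTwist χ` is a
coboundary. -/
theorem exists_primitive_of_orth (hL2 : L2Inj r χ) (hnz : Nontrivial (continuousH2 r (chiRep χ)))
    [FiniteDimensional k M] (hM : IsSmoothRep r M) (hχ : IsSmoothChar r χ)
    (hcl : IsLevelConstant₁ r c)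
    (horth : ∀ y : G → M, y ∈ cocycles₁ M → IsLevelConstant₁ r y →
      (fun p : G × G => β (c p.1) (M.ρ p.1 (y p.2))) ∈ levelCoboundaries₂ r (chiRep χ)) :
    ∃ f : Module.Dual k M, ∀ g : G, β (c g) = (M.dualTwist χ).ρ g f - f := by
  by_contra hnc
  have hall : ∀ x : continuousH2 r (chiRep χ), x = 0 := by
    intro x
    induction x using Submodule.Quotient.induction_on with
    | _ z =>
      have h1 : continuousH2MapHom r (extIncl χ β c hβ hc) (continuousH2π r (chiRep χ) z) = 0 := by
        refine hL2 (extRep χ β c hβ hc) (inferInstanceAs (FiniteDimensional k (M × k)))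
          (isSmoothRep_extRep r χ β c hβ hc hM hχ hcl) _ fun ψ => ?_
        obtain ⟨φ, rfl⟩ := proj_factor χ β c hβ hc hnc ψ
        rw [← continuousH2MapHom_comp, continuousH2MapHom_π_eq_zero_iff]
        have h0 : (fun p : G × G => (extIncl χ β c hβ hc ≫ extProj χ β c hβ hc ≫ φ).hom
            ((z : G × G → chiRep χ) p)) = 0 := by
          funext p
          show φ.hom (0 : M) = 0
          exact map_zero _
        rw [h0]
        exact Submodule.zero_mem _
      exact (continuousH2π_eq_zero_iff r _ z).2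
        (incl_injective_of_orth r χ β c hβ hc horth z h1)
  obtain ⟨a, b, hab⟩ := hnz
  exact hab ((hall a).trans (hall b).symm)

end Core

section L3

variable (χ : G →* kˣ) (M : Rep.{u} k G)

lemma ρ_inv_self_apply (g : G) (m : M) : M.ρ g⁻¹ (M.ρ g m) = m := by
  rw [← Module.End.mul_apply, ← map_mul, inv_mul_cancel, map_one, Module.End.one_apply]

/-- Equivariance of the evaluation pairing `M' × M → μ`. -/
lemma dualTwist_pairing (g : G) (a : Module.Dual k M) (m : M) :
    ((M.dualTwist χ).ρ g a) (M.ρ g m) = (χ g : k) * a m := by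
  rw [Rep.dualTwist_ρ_apply, LinearMap.smul_apply, LinearMap.comp_apply, ρ_inv_self_apply,
    smul_eq_mul]

/-- Biduality is equivariant. -/
lemma dualTwist_dualTwist_eval (g : G) (m : M) :
    ((M.dualTwist χ).dualTwist χ).ρ g (Module.Dual.eval k M m) = Module.Dual.eval k M (M.ρ g m) := by
  apply LinearMap.ext
  intro f
  rw [Rep.dualTwist_ρ_apply, LinearMap.smul_apply, LinearMap.comp_apply, Module.Dual.eval_apply,
    Module.Dual.eval_apply, Rep.dualTwist_ρ_apply, LinearMap.smul_apply, LinearMap.comp_apply,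
    inv_inv, smul_eq_mul, smul_eq_mul, ← mul_assoc, ← Units.val_mul, ← map_mul, mul_inv_cancel,
    map_one, Units.val_one, one_mul]

/-- A finite-dimensional smooth representation is trivial on the preimage of one level. -/
lemma exists_level_of_finite [FiniteDimensional k M] (hM : IsSmoothRep r M) :
    ∃ F : IntermediateField ℚ (AlgebraicClosure ℚ), FiniteDimensional ℚ F ∧
      ∀ s : G, r s ∈ F.fixingSubgroup → M.ρ s = 1 := by
  classical
  let b := Module.finBasis k M
  choose F hF hFs using fun i => hM (b i)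
  have := hF
  refine ⟨⨆ i, F i, IntermediateField.finiteDimensional_iSup_of_finite, fun s hs => ?_⟩
  apply b.ext
  intro i
  rw [Module.End.one_apply]
  exact hFs i s (IntermediateField.fixingSubgroup_antitone (le_iSup F i) hs)

lemma isSmoothRep_dualTwist [FiniteDimensional k M] (hM : IsSmoothRep r M)
    (hχ : IsSmoothChar r χ) : IsSmoothRep r (M.dualTwist χ) := by
  obtain ⟨F₁, hF₁, h₁⟩ := exists_level_of_finite r M hM
  obtain ⟨F₂, hF₂, h₂⟩ := hχ
  have := hF₁; have := hF₂
  intro f
  refine ⟨F₁ ⊔ F₂, inferInstance, fun s hs => ?_⟩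
  have hs₁ : r s⁻¹ ∈ F₁.fixingSubgroup := by
    rw [map_inv]
    exact inv_mem (IntermediateField.fixingSubgroup_antitone le_sup_left hs)
  have hs₂ : r s ∈ F₂.fixingSubgroup :=
    IntermediateField.fixingSubgroup_antitone le_sup_right hs
  rw [Rep.dualTwist_ρ_apply, h₁ s⁻¹ hs₁, h₂ s hs₂, Units.val_one, one_smul]
  rfl

/-- **(L3), left kernel.**  A level 1-cocycle of `M' = M.dualTwist χ` whose cup products with all
level 1-cocycles of `M` are level coboundaries of `μ` is a coboundary. -/
theorem l3_left (hL2 : L2Inj r χ) (hnz : Nontrivial (continuousH2 r (chiRep χ)))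
    [FiniteDimensional k M] (hM : IsSmoothRep r M) (hχ : IsSmoothChar r χ)
    (c : G → M.dualTwist χ) (hc : c ∈ cocycles₁ (M.dualTwist χ)) (hcl : IsLevelConstant₁ r c)
    (horth : ∀ y : G → M, y ∈ cocycles₁ M → IsLevelConstant₁ r y →
      (fun p : G × G => (c p.1 : Module.Dual k M) (M.ρ p.1 (y p.2)))
        ∈ levelCoboundaries₂ r (chiRep χ)) :
    c ∈ coboundaries₁ (M.dualTwist χ) := by
  obtain ⟨f, hf⟩ := exists_primitive_of_orth r χ (A := M.dualTwist χ) (M := M)
    (LinearMap.id : Module.Dual k M →ₗ[k] Module.Dual k M) c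
    (fun g a m => dualTwist_pairing χ M g a m) hc hL2 hnz hM hχ hcl horth
  refine ⟨f, funext fun g => ?_⟩
  rw [d₀₁_hom_apply]
  exact (hf g).symm

/-- **(L3), right kernel.**  A level 1-cocycle of `M` whose cup products with all level
1-cocycles of `M' = M.dualTwist χ` are level coboundaries of `μ` is a coboundary. -/
theorem l3_right (hL2 : L2Inj r χ) (hnz : Nontrivial (continuousH2 r (chiRep χ)))
    [FiniteDimensional k M] (hM : IsSmoothRep r M) (hχ : IsSmoothChar r χ)
    (y : G → M) (hy : y ∈ cocycles₁ M) (hyl : IsLevelConstant₁ r y)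
    (horth : ∀ c : G → M.dualTwist χ, c ∈ cocycles₁ (M.dualTwist χ) → IsLevelConstant₁ r c →
      (fun p : G × G => (c p.1 : Module.Dual k M) (M.ρ p.1 (y p.2)))
        ∈ levelCoboundaries₂ r (chiRep χ)) :
    y ∈ coboundaries₁ M := by
  have hsm' := isSmoothRep_dualTwist r χ M hM hχ
  have hfd : FiniteDimensional k (M.dualTwist χ) :=
    inferInstanceAs (FiniteDimensional k (Module.Dual k M))
  have horth' : ∀ x : G → M.dualTwist χ, x ∈ cocycles₁ (M.dualTwist χ) → IsLevelConstant₁ r x →
      (fun p : G × G => Module.Dual.eval k M (y p.1) ((M.dualTwist χ).ρ p.1 (x p.2)))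
        ∈ levelCoboundaries₂ r (chiRep χ) := by
    intro x hx hxl
    obtain ⟨v, hv, hdv⟩ := (mem_levelCoboundaries₂_iff r _ _).1 (horth x hx hxl)
    have ht : IsLevelConstant₁ r (fun g => (x g : Module.Dual k M) (y g)) := by
      obtain ⟨F₁, hF₁, h₁⟩ := hxl
      obtain ⟨F₂, hF₂, h₂⟩ := hyl
      have := hF₁; have := hF₂
      refine ⟨F₁ ⊔ F₂, inferInstance, fun g s hs => ?_⟩
      show (x (g * s) : Module.Dual k M) (y (g * s)) = (x g : Module.Dual k M) (y g)
      rw [h₁ g s (IntermediateField.fixingSubgroup_antitone le_sup_left hs),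
        h₂ g s (IntermediateField.fixingSubgroup_antitone le_sup_right hs)]
    refine (mem_levelCoboundaries₂_iff r _ _).2
      ⟨fun g => -((x g : Module.Dual k M) (y g)) - v g, ?_, ?_⟩
    · have ht' : (fun g => (x g : Module.Dual k M) (y g) : G → chiRep χ)
          ∈ levelCochains₁ r (chiRep χ) := ht
      exact (levelCochains₁ r (chiRep χ)).sub_mem
        ((levelCochains₁ r (chiRep χ)).neg_mem ht') hv
    · funext ⟨g, h⟩
      have h1 := congrFun hdv (g, h)
      rw [d₁₂_hom_apply] at h1 ⊢
      simp only [twist_trivial_apply] at h1 ⊢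
      have hxc := (mem_cocycles₁_iff x).1 hx g h
      have hyc := (mem_cocycles₁_iff y).1 hy g h
      rw [Module.Dual.eval_apply, hxc, hyc, map_add, LinearMap.add_apply, LinearMap.add_apply,
        dualTwist_pairing]
      linear_combination (-1 : k) * h1
  obtain ⟨ξ, hξ⟩ := exists_primitive_of_orth r χ (A := M) (M := M.dualTwist χ)
    (Module.Dual.eval k M) y (fun g m f => dualTwist_pairing χ M g f m) hy hL2 hnz hsm' hχ hyl
    horth'
  obtain ⟨m₀, rfl⟩ := (Module.evalEquiv k M).surjective ξ
  refine ⟨m₀, funext fun g => ?_⟩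
  rw [d₀₁_hom_apply]
  apply Module.eval_apply_injective k (V := M)
  have h := hξ g
  rw [Module.evalEquiv_apply, dualTwist_dualTwist_eval] at h
  rw [map_sub, h]

end L3

end Fermat.Agent.S55.helper5688
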