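import Mathlib

/-!
# S55, local arithmetic core: the local norm index via Chevalley's lemma (helper5858)

Mathlib only.

## Part A (pure algebra): Chevalley's lemma

`M` an abelian group, `σ : M →+ M` with `σ^p = id` (`p` prime), `D = σ - 1`,
`N = 1 + σ + ... + σ^(p-1)`, `F = ker D`, `P = (p • ·)`.  If `[M : pM]` and `#M[p]` are finite,
then `[F : N M]`, `[ker N : D M]`, `[F : pF]`, `#F[p]` are finite and

  `[F : N M]^(p-1) * [M : pM] * #F[p]^p = [ker N : D M]^(p-1) * #M[p] * [F : pF]^p`,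

i.e. `h(M)^(p-1) = q_p(M^G)^p / q_p(M)` (Herbrand quotient of a cyclic group of prime order in
terms of the "trivial" quotients `q_p(A) = [A : pA] / #A[p]`), stated without division.
No finite generation is assumed, so the lemma applies to `M = Lˣ` for a local field `L`.

## Part B (fields): the norm index

`L/K` Galois of prime degree `p`.  If `#(Kˣ/p) = #μ_p(K) * a`, `#(Lˣ/p) = #μ_p(L) * b` and
`b * p^(p-1) = a^p`, `a ≠ 0`, then the norm subgroup `N(Lˣ)` has index exactly `p` in `Kˣ`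
(Chevalley's lemma for `M = Lˣ` + Hilbert 90).  For finite extensions of `ℚ_ℓ` the hypotheses
are the formula `#(Kˣ/p) = p * #μ_p(K) * (p^[K:ℚ_ℓ] if ℓ = p else 1)`.
-/

set_option autoImplicit false

namespace Fermat.Agent.S55.helper5858

open AddSubgroup

/-! ### Index calculus in an abelian group -/

section Index

variable {M : Type*} [AddCommGroup M]

/-- `[B : A] = [B + K : A + K] * [B ∩ K : A ∩ K]` for `A ≤ B`. -/
theorem relIndex_eq_sup_mul_inf (A B K : AddSubgroup M) (hAB : A ≤ B) :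
    A.relIndex B = (A ⊔ K).relIndex (B ⊔ K) * (A ⊓ K).relIndex (B ⊓ K) := by
  have h1 : A ≤ B ⊓ (A ⊔ K) := le_inf hAB le_sup_left
  have h2 : B ⊓ (A ⊔ K) ≤ B := inf_le_left
  rw [← relIndex_mul_relIndex A (B ⊓ (A ⊔ K)) B h1 h2]
  have e1 : (B ⊓ (A ⊔ K)).relIndex B = (A ⊔ K).relIndex (B ⊔ K) := by
    rw [inf_comm, inf_relIndex_right]
    have : B ⊔ K = B ⊔ (A ⊔ K) := by
      rw [← sup_assoc, sup_eq_left.mpr hAB]
    rw [this, relIndex_sup_right]
  have e2 : A.relIndex (B ⊓ (A ⊔ K)) = (A ⊓ K).relIndex (B ⊓ K) := by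
    have hmod : B ⊓ (A ⊔ K) = A ⊔ (B ⊓ K) := by
      rw [inf_comm, sup_inf_assoc_of_le K hAB, inf_comm]
    rw [hmod, relIndex_sup_left]
    have : A ⊓ K = A ⊓ (B ⊓ K) := by
      rw [← inf_assoc, inf_eq_left.mpr hAB]
    rw [this, inf_relIndex_right]
  rw [e1, e2, mul_comm]

/-- `[B : A] = [f B : f A] * [B ∩ ker f : A ∩ ker f]` for `A ≤ B`. -/
theorem relIndex_eq_map_mul_ker (f : M →+ M) (A B : AddSubgroup M) (hAB : A ≤ B) :
    A.relIndex B = (A.map f).relIndex (B.map f) * (A ⊓ f.ker).relIndex (B ⊓ f.ker) := by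
  rw [relIndex_map_map]
  exact relIndex_eq_sup_mul_inf A B f.ker hAB

/-- `#Y = #X * [Y : X]` for `X ≤ Y`. -/
theorem card_eq_card_mul_relIndex {X Y : AddSubgroup M} (h : X ≤ Y) :
    Nat.card Y = Nat.card X * X.relIndex Y := by
  rw [← relIndex_bot_left, ← relIndex_bot_left, relIndex_mul_relIndex _ _ _ bot_le h]

/-- A subgroup of a finite subgroup is finite (in `Nat.card` form). -/
theorem card_ne_zero_of_le {X Y : AddSubgroup M} (h : X ≤ Y) (hY : Nat.card Y ≠ 0) :
    Nat.card X ≠ 0 := by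
  rw [card_eq_card_mul_relIndex h] at hY
  exact left_ne_zero_of_mul hY

/-- `#(A ∩ ker (φ ∘ ψ)) = #(ψ A ∩ ker φ) * #(A ∩ ker ψ)`. -/
theorem card_inf_ker_comp (φ ψ : M →+ M) (A : AddSubgroup M) :
    Nat.card ↥(A ⊓ (φ.comp ψ).ker) =
      Nat.card ↥(A.map ψ ⊓ φ.ker) * Nat.card ↥(A ⊓ ψ.ker) := by
  have h := relIndex_eq_map_mul_ker ψ ⊥ (A ⊓ (φ.comp ψ).ker) bot_le
  have e1 : (A ⊓ (φ.comp ψ).ker).map ψ = A.map ψ ⊓ φ.ker := by
    ext y
    simp only [mem_map, mem_inf, AddMonoidHom.mem_ker, AddMonoidHom.comp_apply]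
    constructor
    · rintro ⟨x, ⟨hx, hx'⟩, rfl⟩
      exact ⟨⟨x, hx, rfl⟩, hx'⟩
    · rintro ⟨⟨x, hx, rfl⟩, hx'⟩
      exact ⟨x, ⟨hx, hx'⟩, rfl⟩
  have e2 : A ⊓ (φ.comp ψ).ker ⊓ ψ.ker = A ⊓ ψ.ker := by
    ext y
    simp only [mem_inf, AddMonoidHom.mem_ker, AddMonoidHom.comp_apply]
    constructor
    · rintro ⟨⟨hy, -⟩, hy'⟩
      exact ⟨hy, hy'⟩
    · rintro ⟨hy, hy'⟩
      exact ⟨⟨hy, by rw [hy', map_zero]⟩, hy'⟩
  rw [e1, e2, AddSubgroup.map_bot, bot_inf_eq, relIndex_bot_left, relIndex_bot_left,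
    relIndex_bot_left] at h
  exact h

/-- **Index of a composition on a stable subgroup.**
`[A : φψA] * #(A ∩ ker φ) * #(A ∩ ker ψ) = [A : φA] * [A : ψA] * #(A ∩ ker φψ)`. -/
theorem comp_index (φ ψ : M →+ M) (A : AddSubgroup M) (hφ : A.map φ ≤ A) (hψ : A.map ψ ≤ A) :
    (A.map (φ.comp ψ)).relIndex A * Nat.card ↥(A ⊓ φ.ker) * Nat.card ↥(A ⊓ ψ.ker) =
      (A.map φ).relIndex A * (A.map ψ).relIndex A * Nat.card ↥(A ⊓ (φ.comp ψ).ker) := by
  have h0 : A.map (φ.comp ψ) = (A.map ψ).map φ := (AddSubgroup.map_map A φ ψ).symm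
  have h1 : (A.map (φ.comp ψ)).relIndex A =
      ((A.map ψ).map φ).relIndex (A.map φ) * (A.map φ).relIndex A := by
    rw [h0, relIndex_mul_relIndex _ _ _ (AddSubgroup.map_mono hψ) hφ]
  have h2 := relIndex_eq_map_mul_ker φ (A.map ψ) A hψ
  have h3 : Nat.card ↥(A ⊓ φ.ker) =
      Nat.card ↥(A.map ψ ⊓ φ.ker) * (A.map ψ ⊓ φ.ker).relIndex (A ⊓ φ.ker) :=
    card_eq_card_mul_relIndex (inf_le_inf_right _ hψ)
  rw [h1, h2, h3, card_inf_ker_comp]
  ring

/-- **Snake lemma in index form.**  For `S ≤ T`, both stable under `φ`: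
`[T : φT] * #(S ∩ ker φ) * [T ∩ φ⁻¹S : S] = #(T ∩ ker φ) * [S : φS] * [T : φT + S]`. -/
theorem snake_index (φ : M →+ M) (S T : AddSubgroup M) (hST : S ≤ T) (hS : S.map φ ≤ S)
    (hT : T.map φ ≤ T) :
    (T.map φ).relIndex T * Nat.card ↥(S ⊓ φ.ker) * S.relIndex (T ⊓ S.comap φ) =
      Nat.card ↥(T ⊓ φ.ker) * (S.map φ).relIndex S * (T.map φ ⊔ S).relIndex T := by
  have h1 := relIndex_eq_sup_mul_inf (T.map φ) T S hT
  rw [sup_eq_left.mpr hST, inf_eq_right.mpr hST] at h1
  have h2 : (S.map φ).relIndex S =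
      (S.map φ).relIndex (T.map φ ⊓ S) * (T.map φ ⊓ S).relIndex S :=
    (relIndex_mul_relIndex _ _ _ (le_inf (AddSubgroup.map_mono hST) hS) inf_le_right).symm
  have hle : S ≤ T ⊓ S.comap φ := by
    intro x hx
    exact ⟨hST hx, hS ⟨x, hx, rfl⟩⟩
  have h3 := relIndex_eq_map_mul_ker φ S (T ⊓ S.comap φ) hle
  have e1 : (T ⊓ S.comap φ).map φ = T.map φ ⊓ S := by
    ext y
    simp only [mem_map, mem_inf, mem_comap]
    constructor
    · rintro ⟨x, ⟨hx, hx'⟩, rfl⟩
      exact ⟨⟨x, hx, rfl⟩, hx'⟩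
    · rintro ⟨⟨x, hx, rfl⟩, hx'⟩
      exact ⟨x, ⟨hx, hx'⟩, rfl⟩
  have e2 : T ⊓ S.comap φ ⊓ φ.ker = T ⊓ φ.ker := by
    ext y
    simp only [mem_inf, mem_comap, AddMonoidHom.mem_ker]
    constructor
    · rintro ⟨⟨hy, -⟩, hy'⟩
      exact ⟨hy, hy'⟩
    · rintro ⟨hy, hy'⟩
      exact ⟨⟨hy, by rw [hy']; exact S.zero_mem⟩, hy'⟩
  rw [e1, e2] at h3
  have h4 : Nat.card ↥(T ⊓ φ.ker) =
      Nat.card ↥(S ⊓ φ.ker) * (S ⊓ φ.ker).relIndex (T ⊓ φ.ker) :=
    card_eq_card_mul_relIndex (inf_le_inf_right _ hST)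
  rw [h1, h2, h3, h4]
  ring

/-- **Restricted-index form of the Herbrand quotient.**  For `f ∘ g = 0 = g ∘ f`:
`[ker f : im g] * [ker g : f (ker g)] = [ker g : im f] * [ker f : g (ker f)]`. -/
theorem restricted_index (f g : M →+ M) (hfg : ∀ x, f (g x) = 0) (hgf : ∀ x, g (f x) = 0) :
    g.range.relIndex f.ker * (g.ker.map f).relIndex g.ker =
      f.range.relIndex g.ker * (f.ker.map g).relIndex f.ker := by
  have hf : f.range ≤ g.ker := by
    rintro _ ⟨x, rfl⟩; exact hgf x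
  have hg : g.range ≤ f.ker := by
    rintro _ ⟨x, rfl⟩; exact hfg x
  have key : ∀ (u v : M →+ M), u.range ≤ v.ker →
      (v.ker.map u).relIndex v.ker = (v.ker ⊔ u.ker).index * u.range.relIndex v.ker := by
    intro u v huv
    rw [← relIndex_mul_relIndex (v.ker.map u) u.range v.ker (map_le_range u _) huv]
    congr 1
    rw [AddMonoidHom.range_eq_map, relIndex_map_map, top_sup_eq, relIndex_top_right]
  rw [key f g hf, key g f hg, sup_comm g.ker f.ker]
  ring

/-- `[ker f : P⁻¹(ker f)]`-type transport: if `f` commutes with `P` then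
`[P⁻¹(ker f) : ker f] = #(im f ∩ ker P)`. -/
theorem relIndex_ker_comap (f P : M →+ M) (hcomm : ∀ x, f (P x) = P (f x)) :
    f.ker.relIndex (f.ker.comap P) = Nat.card ↥(f.range ⊓ P.ker) := by
  have e0 : f.ker.comap P = P.ker.comap f := by
    ext x
    simp only [mem_comap, AddMonoidHom.mem_ker, hcomm]
  have hle : f.ker ≤ P.ker.comap f := by
    intro x hx
    rw [AddMonoidHom.mem_ker] at hx
    simp only [mem_comap, AddMonoidHom.mem_ker, hx, map_zero]
  have h := relIndex_eq_map_mul_ker f f.ker (P.ker.comap f) hle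
  have e1 : f.ker.map f = ⊥ := (AddSubgroup.map_eq_bot_iff _).mpr le_rfl
  have e2 : (P.ker.comap f).map f = f.range ⊓ P.ker := AddSubgroup.map_comap_eq f P.ker
  have e3 : P.ker.comap f ⊓ f.ker = f.ker := inf_eq_right.mpr hle
  rw [e0, h, e1, e2, e3, inf_idem, relIndex_self, mul_one, relIndex_bot_left]

end Index

/-! ### Integer polynomials in an endomorphism -/

section Operators

open Polynomial

variable {M : Type*} [AddCommGroup M] (s : AddMonoid.End M)

/-- The action of an integer polynomial in the endomorphism `s`. -/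
noncomputable def op (q : ℤ[X]) : M →+ M := aeval s q

theorem op_mul (a b : ℤ[X]) (x : M) : op s (a * b) x = op s a (op s b x) := by
  simp only [op, map_mul]; rfl

theorem op_add (a b : ℤ[X]) (x : M) : op s (a + b) x = op s a x + op s b x := by
  simp only [op, map_add]; rfl

theorem op_neg (a : ℤ[X]) (x : M) : op s (-a) x = -op s a x := by
  simp only [op, map_neg]; rfl

theorem op_sub (a b : ℤ[X]) (x : M) : op s (a - b) x = op s a x - op s b x := by
  simp only [op, map_sub]; rfl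

theorem op_one (x : M) : op s 1 x = x := by
  simp only [op, map_one]; rfl

theorem op_zero (x : M) : op s 0 x = 0 := by
  simp only [op, map_zero]; rfl

theorem op_X (x : M) : op s X x = s x := by
  simp only [op, aeval_X]; rfl

theorem op_C_nat (n : ℕ) (x : M) : op s (C (n : ℤ)) x = n • x := by
  have h : aeval s (C (n : ℤ)) = (n : AddMonoid.End M) := by
    rw [aeval_C, eq_intCast, Int.cast_natCast]
  show (aeval s (C (n : ℤ))) x = n • x
  rw [h]; rfl

theorem op_comm (a b : ℤ[X]) (x : M) : op s a (op s b x) = op s b (op s a x) := by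
  rw [← op_mul, mul_comm, op_mul]

theorem op_X_pow (k : ℕ) (x : M) : op s (X ^ k) x = (⇑s)^[k] x := by
  simp only [op, map_pow, aeval_X]
  rw [← AddMonoid.End.coe_pow]; rfl

theorem op_sum (t : Finset ℕ) (f : ℕ → ℤ[X]) (x : M) :
    op s (∑ i ∈ t, f i) x = ∑ i ∈ t, op s (f i) x := by
  classical
  induction t using Finset.induction_on with
  | empty => rw [Finset.sum_empty, Finset.sum_empty, op_zero]
  | insert a t ha ih => rw [Finset.sum_insert ha, Finset.sum_insert ha, op_add, ih]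

end Operators

/-! ### Polynomial identities for the norm polynomial `1 + X + ... + X^(p-1)` -/

section Poly

open Polynomial

theorem poly_E1 (p : ℕ) : ∃ W : ℤ[X],
    (C (p : ℤ) : ℤ[X]) = (∑ i ∈ Finset.range p, (X : ℤ[X]) ^ i) + (X - 1) * W := by
  have h : ((X : ℤ[X]) - C 1) ∣ C (p : ℤ) - ∑ i ∈ Finset.range p, (X : ℤ[X]) ^ i := by
    rw [Polynomial.dvd_iff_isRoot]
    simp [Polynomial.eval_finsetSum]
  obtain ⟨W, hW⟩ := h
  refine ⟨W, ?_⟩
  rw [map_one] at hW
  linear_combination hW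

theorem poly_E2 (p : ℕ) (hp : p.Prime) : ∃ h : ℤ[X],
    (∑ i ∈ Finset.range p, (X : ℤ[X]) ^ i) =
      (X - 1) ^ (p - 1) + C (p : ℤ) * (1 + (X - 1) * h) := by
  obtain ⟨r, hr⟩ := exists_add_pow_prime_eq hp ((X : ℤ[X]) - 1) 1
  have hY : ((X : ℤ[X]) - 1) ≠ 0 := by
    have := X_sub_C_ne_zero (1 : ℤ)
    simpa using this
  have h1 : (∑ i ∈ Finset.range p, (X : ℤ[X]) ^ i) = (X - 1) ^ (p - 1) + C (p : ℤ) * r := by
    apply mul_left_cancel₀ hY
    rw [mul_geom_sum]
    have hpp : p = (p - 1) + 1 := (Nat.succ_pred_eq_of_pos hp.pos).symm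
    have : (X : ℤ[X]) ^ p = ((X - 1) + 1) ^ p := by ring
    rw [this, hr]
    have e : ((X : ℤ[X]) - 1) ^ p = (X - 1) * (X - 1) ^ (p - 1) := by
      conv_lhs => rw [hpp, pow_succ']
    rw [e]
    simp only [one_pow, mul_one]
    have : ((p : ℕ) : ℤ[X]) = C (p : ℤ) := by simp
    rw [this]; ring
  have h2 : r.eval 1 = 1 := by
    have := congrArg (Polynomial.eval 1) h1
    simp [Polynomial.eval_finsetSum] at this
    have hp1 : p - 1 ≠ 0 := by have := hp.two_le; omega
    rw [zero_pow hp1, zero_add] at this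
    have hp0 : (p : ℤ) ≠ 0 := by exact_mod_cast hp.ne_zero
    have h3 : (p : ℤ) * 1 = p * r.eval 1 := by linarith
    exact (mul_left_cancel₀ hp0 h3).symm
  have h3 : ((X : ℤ[X]) - C 1) ∣ r - 1 := by
    rw [Polynomial.dvd_iff_isRoot]
    simp [h2]
  obtain ⟨h, hh⟩ := h3
  refine ⟨h, ?_⟩
  rw [map_one] at hh
  rw [h1]
  have : r = 1 + (X - 1) * h := by linear_combination hh
  rw [this]

/-- `Φ = (X-1)^(p-1) + p * a` with `a` invertible modulo `Φ`. -/
theorem poly_inv (p : ℕ) (hp : p.Prime) : ∃ a v c : ℤ[X],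
    (∑ i ∈ Finset.range p, (X : ℤ[X]) ^ i) = (X - 1) ^ (p - 1) + C (p : ℤ) * a ∧
      a * v = 1 - c * (∑ i ∈ Finset.range p, (X : ℤ[X]) ^ i) := by
  obtain ⟨h, hh⟩ := poly_E2 p hp
  refine ⟨1 + (X - 1) * h,
    (∑ j ∈ Finset.range (p - 1), (-((X - 1) * h)) ^ j) - C (p : ℤ) * (-h) ^ (p - 1),
    (-h) ^ (p - 1), hh, ?_⟩
  have h1 := mul_neg_geom_sum (-((X - 1 : ℤ[X]) * h)) (p - 1)
  have h2 : (-((X - 1 : ℤ[X]) * h)) ^ (p - 1) = (X - 1) ^ (p - 1) * (-h) ^ (p - 1) := by
    rw [← mul_pow]; congr 1; ring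
  rw [h2] at h1
  linear_combination h1 + (-h) ^ (p - 1) * hh

end Poly

/-! ### Chevalley's lemma -/

section Chevalley

open Polynomial

variable {M : Type*} [AddCommGroup M]

theorem chain_arith {i' c1 ck i1 ik c' k : ℕ} (hc : i' * c1 * ck = i1 * ik * c')
    (ih : ik * c1 ^ k = i1 ^ k * ck) (h0 : ck ≠ 0) :
    i' * c1 ^ (k + 1) = i1 ^ (k + 1) * c' := by
  apply Nat.eq_of_mul_eq_mul_right (Nat.pos_of_ne_zero h0)
  calc i' * c1 ^ (k + 1) * ck = (i' * c1 * ck) * c1 ^ k := by ring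
    _ = (i1 * ik * c') * c1 ^ k := by rw [hc]
    _ = i1 * c' * (ik * c1 ^ k) := by ring
    _ = i1 * c' * (i1 ^ k * ck) := by rw [ih]
    _ = i1 ^ (k + 1) * c' * ck := by ring

theorem final_arith {h0 h1 iM kM iF kF iB kB iR kR dB q : ℕ}
    (E1 : h0 * dB = h1 * iF) (E2 : iB * kF ^ q = dB ^ q * kB)
    (E3 : iM * kB * kR = kM * iB * iR) (E4 : iF * kR = kF * iR)
    (hd : dB ≠ 0) (hkB : kB ≠ 0) (hkR : kR ≠ 0) :
    h0 ^ q * iM * kF ^ (q + 1) = h1 ^ q * kM * iF ^ (q + 1) := by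
  have hpos : 0 < dB ^ q * kB * kR :=
    Nat.pos_of_ne_zero (mul_ne_zero (mul_ne_zero (pow_ne_zero q hd) hkB) hkR)
  apply Nat.eq_of_mul_eq_mul_right hpos
  have E1q : h0 ^ q * dB ^ q = h1 ^ q * iF ^ q := by
    rw [← mul_pow, ← mul_pow, E1]
  calc h0 ^ q * iM * kF ^ (q + 1) * (dB ^ q * kB * kR)
      = (h0 ^ q * dB ^ q) * (iM * kB * kR) * (kF ^ q * kF) := by ring
    _ = (h1 ^ q * iF ^ q) * (kM * iB * iR) * (kF ^ q * kF) := by rw [E1q, E3]
    _ = h1 ^ q * iF ^ q * kM * (iB * kF ^ q) * (kF * iR) := by ring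
    _ = h1 ^ q * iF ^ q * kM * (dB ^ q * kB) * (iF * kR) := by rw [E2, E4]
    _ = h1 ^ q * kM * iF ^ (q + 1) * (dB ^ q * kB * kR) := by ring

/-- Chevalley's lemma, polynomial form.  `d, Φ, π` are integer polynomials in an
endomorphism `s` with `dΦ = 0` on `M`, `π ≡ Φ mod d`, `Φ = d^q + π a` with `a` a unit mod `Φ`. -/
theorem chevalley_core (s : AddMonoid.End M) (d Φ π W a v c : ℤ[X]) (q : ℕ)
    (hdΦ : ∀ x, op s (d * Φ) x = 0) (hW : π = Φ + d * W) (hE2 : Φ = d ^ q + π * a)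
    (hav : a * v = 1 - c * Φ) (hq : q ≠ 0)
    (hi : (op s π).range.index ≠ 0) (hk : Nat.card (op s π).ker ≠ 0) :
    (op s Φ).range.relIndex (op s d).ker ≠ 0 ∧ (op s d).range.relIndex (op s Φ).ker ≠ 0 ∧
    ((op s d).ker.map (op s π)).relIndex (op s d).ker ≠ 0 ∧
    Nat.card ↥((op s d).ker ⊓ (op s π).ker) ≠ 0 ∧
    (op s Φ).range.relIndex (op s d).ker ^ q * (op s π).range.index *
        Nat.card ↥((op s d).ker ⊓ (op s π).ker) ^ (q + 1) =
      (op s d).range.relIndex (op s Φ).ker ^ q * Nat.card (op s π).ker *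
        ((op s d).ker.map (op s π)).relIndex (op s d).ker ^ (q + 1) := by
  -- basic relations
  have hDN : ∀ x, op s d (op s Φ x) = 0 := fun x => by rw [← op_mul]; exact hdΦ x
  have hND : ∀ x, op s Φ (op s d x) = 0 := fun x => by rw [op_comm]; exact hDN x
  have hF : ∀ x, op s d x = 0 → op s Φ x = op s π x := by
    intro x hx
    rw [hW, op_add, op_mul, op_comm, hx, map_zero, add_zero]
  have hB : ∀ x, op s Φ x = 0 → op s (d ^ q) x = -op s π (op s a x) := by
    intro x hx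
    have h1 : op s Φ x = op s (d ^ q + π * a) x := by rw [← hE2]
    rw [op_add, op_mul, hx] at h1
    exact eq_neg_of_add_eq_zero_left h1.symm
  have hBva : ∀ x, op s Φ x = 0 → op s v (op s a x) = x := by
    intro x hx
    rw [← op_mul, mul_comm, hav, op_sub, op_one, op_mul, hx, map_zero, sub_zero]
  have hBav : ∀ x, op s Φ x = 0 → op s a (op s v x) = x := by
    intro x hx; rw [op_comm]; exact hBva x hx
  -- subgroup identities
  have hFN : (op s d).ker.map (op s Φ) = (op s d).ker.map (op s π) := by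
    ext y; simp only [mem_map, AddMonoidHom.mem_ker]
    constructor
    · rintro ⟨x, hx, rfl⟩; exact ⟨x, hx, (hF x hx).symm⟩
    · rintro ⟨x, hx, rfl⟩; exact ⟨x, hx, hF x hx⟩
  have hBF : (op s Φ).ker ⊓ (op s d).ker = (op s d).ker ⊓ (op s π).ker := by
    ext x; simp only [mem_inf, AddMonoidHom.mem_ker]
    constructor
    · rintro ⟨h1, h2⟩; exact ⟨h2, by rw [← hF x h2]; exact h1⟩
    · rintro ⟨h1, h2⟩; exact ⟨by rw [hF x h1]; exact h2, h1⟩
  have hBq_map : (op s Φ).ker.map (op s (d ^ q)) = (op s Φ).ker.map (op s π) := by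
    ext y; simp only [mem_map, AddMonoidHom.mem_ker]
    constructor
    · rintro ⟨x, hx, rfl⟩
      refine ⟨-(op s a x), ?_, ?_⟩
      · rw [map_neg, op_comm, hx, map_zero, neg_zero]
      · rw [map_neg, hB x hx]
    · rintro ⟨x, hx, rfl⟩
      have hvx : op s Φ (op s v x) = 0 := by rw [op_comm, hx, map_zero]
      refine ⟨-(op s v x), ?_, ?_⟩
      · rw [map_neg, hvx, neg_zero]
      · rw [map_neg, hB _ hvx, neg_neg, hBav x hx]
  have hBq_ker : (op s Φ).ker ⊓ (op s (d ^ q)).ker = (op s Φ).ker ⊓ (op s π).ker := by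
    ext x; simp only [mem_inf, AddMonoidHom.mem_ker]
    constructor
    · rintro ⟨h1, h2⟩
      refine ⟨h1, ?_⟩
      rw [hB x h1, neg_eq_zero] at h2
      have h3 : op s Φ (op s π x) = 0 := by rw [op_comm, h1, map_zero]
      rw [← hBva _ h3, op_comm s a, h2, map_zero]
    · rintro ⟨h1, h2⟩
      refine ⟨h1, ?_⟩
      rw [hB x h1, op_comm, h2, map_zero, neg_zero]
  have hstab : ∀ r : ℤ[X], (op s Φ).ker.map (op s r) ≤ (op s Φ).ker := by
    rintro r _ ⟨x, hx, rfl⟩
    have hx' : op s Φ x = 0 := hx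
    show op s Φ (op s r x) = 0
    rw [op_comm, hx', map_zero]
  have hRF : (op s Φ).range ≤ (op s d).ker := by
    rintro _ ⟨x, rfl⟩; exact hDN x
  have hFstab : (op s d).ker.map (op s π) ≤ (op s d).ker := by
    rintro _ ⟨x, hx, rfl⟩
    have hx' : op s d x = 0 := hx
    show op s d (op s π x) = 0
    rw [op_comm, hx', map_zero]
  have hRstab : (op s Φ).range.map (op s π) ≤ (op s Φ).range := by
    rintro _ ⟨_, ⟨x, rfl⟩, rfl⟩; exact ⟨op s π x, op_comm s Φ π x⟩
  -- finiteness of the torsion parts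
  have hkB : Nat.card ↥((op s Φ).ker ⊓ (op s π).ker) ≠ 0 := card_ne_zero_of_le inf_le_right hk
  have hkR : Nat.card ↥((op s Φ).range ⊓ (op s π).ker) ≠ 0 := card_ne_zero_of_le inf_le_right hk
  have hkF : Nat.card ↥((op s d).ker ⊓ (op s π).ker) ≠ 0 := card_ne_zero_of_le inf_le_right hk
  have hkD : Nat.card ↥((op s d).range ⊓ (op s π).ker) ≠ 0 := card_ne_zero_of_le inf_le_right hk
  -- the chain `B ⊇ dB ⊇ d²B ⊇ ...`
  have hck : ∀ k, k ≤ q → Nat.card ↥((op s Φ).ker ⊓ (op s (d ^ k)).ker) ≠ 0 := by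
    intro k hkq
    refine card_ne_zero_of_le ?_ (hBq_ker ▸ hkB)
    refine inf_le_inf_left _ ?_
    intro x hx
    rw [AddMonoidHom.mem_ker] at hx ⊢
    obtain ⟨j, rfl⟩ := Nat.exists_eq_add_of_le hkq
    rw [pow_add, mul_comm, op_mul, hx, map_zero]
  have hchain : ∀ k, k ≤ q →
      ((op s Φ).ker.map (op s (d ^ k))).relIndex (op s Φ).ker *
          Nat.card ↥((op s Φ).ker ⊓ (op s d).ker) ^ k =
        ((op s Φ).ker.map (op s d)).relIndex (op s Φ).ker ^ k *
          Nat.card ↥((op s Φ).ker ⊓ (op s (d ^ k)).ker) := by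
    intro k
    induction k with
    | zero =>
      intro _
      have e1 : (op s Φ).ker.map (op s (d ^ 0)) = (op s Φ).ker := by
        ext y; simp only [mem_map, pow_zero, op_one, exists_eq_right]
      have e2 : (op s Φ).ker ⊓ (op s (d ^ 0)).ker = ⊥ := by
        ext y
        simp only [mem_inf, AddMonoidHom.mem_ker, pow_zero, op_one, mem_bot]
        exact ⟨fun h => h.2, fun h => ⟨by rw [h, map_zero], h⟩⟩
      rw [e1, e2, relIndex_self, pow_zero, pow_zero, one_mul, one_mul]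
      simp
    | succ k ih =>
      intro hk1
      have ihk := ih (Nat.le_of_succ_le hk1)
      have hc := comp_index (op s d) (op s (d ^ k)) (op s Φ).ker (hstab d) (hstab (d ^ k))
      have e : (op s d).comp (op s (d ^ k)) = op s (d ^ (k + 1)) := by
        ext x; rw [AddMonoidHom.comp_apply, ← op_mul, pow_succ']
      rw [e] at hc
      exact chain_arith hc ihk (hck k (Nat.le_of_succ_le hk1))
  have E2 := hchain q le_rfl
  rw [hBq_map, hBq_ker, hBF] at E2
  -- `E1`
  have E1 := restricted_index (op s d) (op s Φ) hDN hND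
  rw [hFN] at E1
  -- `E3`
  have E3 := snake_index (op s π) (op s Φ).ker ⊤ le_top (hstab π) le_top
  rw [relIndex_top_right, top_inf_eq, top_inf_eq, relIndex_top_right,
    ← AddMonoidHom.range_eq_map, relIndex_ker_comap _ _ (fun x => op_comm s Φ π x)] at E3
  have hiR : ((op s Φ).range.map (op s π)).relIndex (op s Φ).range =
      ((op s π).range ⊔ (op s Φ).ker).index := by
    have e : (op s Φ).range.map (op s π) = (op s π).range.map (op s Φ) := by
      ext y; simp only [mem_map, AddMonoidHom.mem_range]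
      constructor
      · rintro ⟨_, ⟨x, rfl⟩, rfl⟩; exact ⟨_, ⟨x, rfl⟩, op_comm s Φ π x⟩
      · rintro ⟨_, ⟨x, rfl⟩, rfl⟩; exact ⟨_, ⟨x, rfl⟩, op_comm s π Φ x⟩
    rw [e]
    conv_lhs => rw [AddMonoidHom.range_eq_map (op s Φ)]
    rw [relIndex_map_map, top_sup_eq, relIndex_top_right]
  rw [← hiR] at E3
  -- `E4`
  have E4 := snake_index (op s π) (op s Φ).range (op s d).ker hRF hRstab hFstab
  have e41 : (op s d).ker ⊓ (op s Φ).range.comap (op s π) = (op s d).ker := by
    apply inf_eq_left.mpr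
    intro x hx
    rw [mem_comap, ← hF x hx]; exact ⟨x, rfl⟩
  have e42 : (op s d).ker.map (op s π) ⊔ (op s Φ).range = (op s Φ).range := by
    apply sup_eq_right.mpr
    rw [← hFN]; exact map_le_range _ _
  rw [e41, e42] at E4
  -- `E5`: finiteness of `[F : πF]`
  have E5 := snake_index (op s π) (op s d).ker ⊤ le_top hFstab le_top
  rw [relIndex_top_right, top_inf_eq, top_inf_eq, relIndex_top_right,
    ← AddMonoidHom.range_eq_map, relIndex_ker_comap _ _ (fun x => op_comm s d π x)] at E5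
  have hiF : ((op s d).ker.map (op s π)).relIndex (op s d).ker ≠ 0 := by
    have h := mul_ne_zero (mul_ne_zero hi hkF) hkD
    rw [E5] at h
    exact right_ne_zero_of_mul (left_ne_zero_of_mul h)
  have hh0 : (op s Φ).range.relIndex (op s d).ker ≠ 0 := by
    have h := relIndex_mul_relIndex ((op s d).ker.map (op s π)) (op s Φ).range (op s d).ker
      (hFN ▸ map_le_range _ _) hRF
    intro h'
    rw [h', mul_zero] at h
    exact hiF h.symm
  have hiB : ((op s Φ).ker.map (op s π)).relIndex (op s Φ).ker ≠ 0 := by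
    have h := mul_ne_zero (mul_ne_zero hi hkB) hkR
    rw [E3] at h
    exact right_ne_zero_of_mul (left_ne_zero_of_mul h)
  have hdB : ((op s Φ).ker.map (op s d)).relIndex (op s Φ).ker ≠ 0 := by
    have h := mul_ne_zero hiB (pow_ne_zero q hkF)
    rw [E2] at h
    intro h'
    rw [h', zero_pow hq, zero_mul] at h
    exact h rfl
  have hh1 : (op s d).range.relIndex (op s Φ).ker ≠ 0 := by
    have h := mul_ne_zero hh0 hdB
    rw [E1] at h
    exact left_ne_zero_of_mul h
  have E4' := Nat.eq_of_mul_eq_mul_right (Nat.pos_of_ne_zero hh0) E4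
  exact ⟨hh0, hh1, hiF, hkF, final_arith E1 E2 E3 E4' hdB hkB hkR⟩

/-- **Chevalley's lemma.**  `σ` an automorphism of order dividing the prime `p` of an abelian
group `M`, `D = σ - 1`, `N = 1 + σ + ... + σ^(p-1)`, `P = p`.  If `[M : pM]` and `#M[p]` are
finite then so are `[ker D : N M]`, `[ker N : D M]`, `[ker D : p ker D]`, `#(ker D)[p]`, and
`[ker D : N M]^(p-1) * [M : pM] * #(ker D)[p]^p = [ker N : D M]^(p-1) * #M[p] * [ker D : p ker D]^p`. -/
theorem chevalley (p : ℕ) [hp : Fact p.Prime] (σ D N : M →+ M)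
    (hσ : ∀ x, (⇑σ)^[p] x = x) (hD : ∀ x, D x = σ x - x)
    (hN : ∀ x, N x = ∑ i ∈ Finset.range p, (⇑σ)^[i] x)
    (hi : (nsmulAddMonoidHom (α := M) p).range.index ≠ 0)
    (hk : Nat.card (nsmulAddMonoidHom (α := M) p).ker ≠ 0) :
    N.range.relIndex D.ker ≠ 0 ∧ D.range.relIndex N.ker ≠ 0 ∧
    (D.ker.map (nsmulAddMonoidHom p)).relIndex D.ker ≠ 0 ∧
    Nat.card ↥(D.ker ⊓ (nsmulAddMonoidHom (α := M) p).ker) ≠ 0 ∧
    N.range.relIndex D.ker ^ (p - 1) * (nsmulAddMonoidHom (α := M) p).range.index *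
        Nat.card ↥(D.ker ⊓ (nsmulAddMonoidHom (α := M) p).ker) ^ p =
      D.range.relIndex N.ker ^ (p - 1) * Nat.card (nsmulAddMonoidHom (α := M) p).ker *
        (D.ker.map (nsmulAddMonoidHom p)).relIndex D.ker ^ p := by
  obtain ⟨W, hW⟩ := poly_E1 p
  obtain ⟨a, v, c, hE2, hav⟩ := poly_inv p hp.out
  obtain ⟨s, hs⟩ : ∃ s : AddMonoid.End M, (⇑s : M → M) = ⇑σ := ⟨σ, rfl⟩
  have eD : D = op s (X - 1) := by
    ext x; rw [hD, op_sub, op_X, op_one, hs]
  have eN : N = op s (∑ i ∈ Finset.range p, X ^ i) := by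
    ext x; rw [hN, op_sum]; simp only [op_X_pow, hs]
  have eP : nsmulAddMonoidHom (α := M) p = op s (C (p : ℤ)) := by
    ext x; rw [op_C_nat]; rfl
  have hq : p - 1 + 1 = p := Nat.succ_pred_eq_of_pos hp.out.pos
  have hq0 : p - 1 ≠ 0 := by have := hp.out.two_le; omega
  have hdΦ : ∀ x, op s ((X - 1) * ∑ i ∈ Finset.range p, X ^ i) x = 0 := by
    intro x
    rw [mul_geom_sum, op_sub, op_X_pow, op_one, hs, hσ, sub_self]
  have key := chevalley_core s (X - 1) (∑ i ∈ Finset.range p, X ^ i) (C (p : ℤ)) W a v c (p - 1)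
    hdΦ hW hE2 hav hq0 (eP ▸ hi) (eP ▸ hk)
  rw [hq, ← eD, ← eN, ← eP] at key
  exact key

end Chevalley

/-! ### Multiplicative form -/

section Multiplicative

variable {G : Type*} [CommGroup G]

theorem toAdditive_ker (f : G →* G) :
    (MonoidHom.toAdditive f).ker = Subgroup.toAddSubgroup f.ker := by
  ext x; rfl

theorem toAdditive_range (f : G →* G) :
    (MonoidHom.toAdditive f).range = Subgroup.toAddSubgroup f.range := by
  ext x
  constructor
  · rintro ⟨a, rfl⟩; exact ⟨Additive.toMul a, rfl⟩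
  · rintro ⟨a, ha⟩; exact ⟨Additive.ofMul a, ha⟩

theorem toAdditive_map (f : G →* G) (H : Subgroup G) :
    (Subgroup.toAddSubgroup H).map (MonoidHom.toAdditive f) =
      Subgroup.toAddSubgroup (H.map f) := by
  ext x
  constructor
  · rintro ⟨a, ha, rfl⟩; exact ⟨Additive.toMul a, ha, rfl⟩
  · rintro ⟨a, ha, hax⟩; exact ⟨Additive.ofMul a, ha, hax⟩

theorem toAdditive_pow (p : ℕ) :
    nsmulAddMonoidHom (α := Additive G) p = MonoidHom.toAdditive (powMonoidHom p) := by
  ext x; rfl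

theorem card_toAddSubgroup (H : Subgroup G) :
    Nat.card ↥(Subgroup.toAddSubgroup H) = Nat.card ↥H := rfl

theorem toAddSubgroup_inf (H K : Subgroup G) :
    Subgroup.toAddSubgroup H ⊓ Subgroup.toAddSubgroup K = Subgroup.toAddSubgroup (H ⊓ K) :=
  (OrderIso.map_inf _ _ _).symm

/-- **Chevalley's lemma**, multiplicative form. -/
theorem chevalley_mul (p : ℕ) [Fact p.Prime] (σ D N : G →* G)
    (hσ : ∀ x, (⇑σ)^[p] x = x) (hD : ∀ x, D x = σ x / x)
    (hN : ∀ x, N x = ∏ i ∈ Finset.range p, (⇑σ)^[i] x)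
    (hi : (powMonoidHom (α := G) p).range.index ≠ 0)
    (hk : Nat.card (powMonoidHom (α := G) p).ker ≠ 0) :
    N.range.relIndex D.ker ≠ 0 ∧ D.range.relIndex N.ker ≠ 0 ∧
    (D.ker.map (powMonoidHom p)).relIndex D.ker ≠ 0 ∧
    Nat.card ↥(D.ker ⊓ (powMonoidHom (α := G) p).ker) ≠ 0 ∧
    N.range.relIndex D.ker ^ (p - 1) * (powMonoidHom (α := G) p).range.index *
        Nat.card ↥(D.ker ⊓ (powMonoidHom (α := G) p).ker) ^ p =
      D.range.relIndex N.ker ^ (p - 1) * Nat.card (powMonoidHom (α := G) p).ker *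
        (D.ker.map (powMonoidHom p)).relIndex D.ker ^ p := by
  have hσ' : ∀ x : Additive G, (⇑(MonoidHom.toAdditive σ))^[p] x = x := fun x => hσ x
  have hD' : ∀ x : Additive G, MonoidHom.toAdditive D x = MonoidHom.toAdditive σ x - x :=
    fun x => hD x
  have hit : ∀ (i : ℕ) (x : Additive G),
      (⇑(MonoidHom.toAdditive σ))^[i] x = Additive.ofMul ((⇑σ)^[i] (Additive.toMul x)) :=
    fun i x => rfl
  have hN' : ∀ x : Additive G, MonoidHom.toAdditive N x =
      ∑ i ∈ Finset.range p, (⇑(MonoidHom.toAdditive σ))^[i] x := by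
    intro x
    simp only [hit]
    rw [← ofMul_prod, ← hN]
    rfl
  have hi' : (nsmulAddMonoidHom (α := Additive G) p).range.index ≠ 0 := by
    rw [toAdditive_pow, toAdditive_range, Subgroup.index_toAddSubgroup]; exact hi
  have hk' : Nat.card (nsmulAddMonoidHom (α := Additive G) p).ker ≠ 0 := by
    rw [toAdditive_pow, toAdditive_ker, card_toAddSubgroup]; exact hk
  have key := chevalley (M := Additive G) p (MonoidHom.toAdditive σ) (MonoidHom.toAdditive D)
    (MonoidHom.toAdditive N) hσ' hD' hN' hi' hk'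
  simp only [toAdditive_pow, toAdditive_ker, toAdditive_range, toAdditive_map,
    toAddSubgroup_inf, Subgroup.relIndex_toAddSubgroup, Subgroup.index_toAddSubgroup,
    card_toAddSubgroup] at key
  exact key

end Multiplicative

/-! ### The norm index of a Galois extension of prime degree -/

section Fields

variable {K L : Type} [Field K] [Field L] [Algebra K L]

/-- **Norm index.**  `L/K` Galois of prime degree `p`.  If `#(Kˣ/p) = #μ_p(K) * a`,
`#(Lˣ/p) = #μ_p(L) * b` with `b * p^(p-1) = a^p` and `a ≠ 0`, then `[Kˣ : N(Lˣ)] = p`. -/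
theorem norm_index_eq_prime [IsGalois K L] {p : ℕ} [hp : Fact p.Prime]
    (hdeg : Module.finrank K L = p) {a b : ℕ}
    (hK : Nat.card (Kˣ ⧸ (powMonoidHom p : Kˣ →* Kˣ).range) = Nat.card (rootsOfUnity p K) * a)
    (hL : Nat.card (Lˣ ⧸ (powMonoidHom p : Lˣ →* Lˣ).range) = Nat.card (rootsOfUnity p L) * b)
    (hab : b * p ^ (p - 1) = a ^ p) (ha : a ≠ 0) :
    (Units.map (Algebra.norm K : L →* K)).range.index = p := by
  classical
  have : FiniteDimensional K L := Module.finite_of_finrank_pos (hdeg ▸ hp.out.pos)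
  have : NeZero p := ⟨hp.out.ne_zero⟩
  have hcard : Nat.card (L ≃ₐ[K] L) = p := by rw [IsGalois.card_aut_eq_finrank, hdeg]
  have : IsCyclic (L ≃ₐ[K] L) := isCyclic_of_prime_card hcard
  obtain ⟨g, hg⟩ := IsCyclic.exists_generator (α := L ≃ₐ[K] L)
  have hgp : g ^ p = 1 := by rw [← hcard]; exact pow_card_eq_one'
  have hord : orderOf g = p := by rw [orderOf_eq_card_of_forall_mem_zpowers hg, hcard]
  have hp1 : p - 1 ≠ 0 := by have := hp.out.two_le; omega
  -- the maps
  obtain ⟨σ, hσ⟩ : ∃ σ : Lˣ →* Lˣ, ∀ u : Lˣ, ((σ u : Lˣ) : L) = g u :=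
    ⟨Units.map (g : L →* L), fun _ => rfl⟩
  obtain ⟨ι, hι⟩ : ∃ ι : Kˣ →* Lˣ, ∀ u : Kˣ, ((ι u : Lˣ) : L) = algebraMap K L u :=
    ⟨Units.map (algebraMap K L : K →* L), fun _ => rfl⟩
  obtain ⟨ν, hν, hνdef⟩ : ∃ ν : Lˣ →* Kˣ, (∀ u : Lˣ, ((ν u : Kˣ) : K) = Algebra.norm K (u : L)) ∧
      ν = Units.map (Algebra.norm K : L →* K) := ⟨_, fun _ => rfl, rfl⟩
  obtain ⟨D, hD⟩ : ∃ D : Lˣ →* Lˣ, ∀ u, D u = σ u / u :=
    ⟨σ / MonoidHom.id Lˣ, fun _ => rfl⟩
  obtain ⟨N, hN⟩ : ∃ N : Lˣ →* Lˣ, ∀ u, N u = ι (ν u) := ⟨ι.comp ν, fun _ => rfl⟩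
  rw [← hνdef]
  have hιinj : Function.Injective ι := by
    intro x y hxy
    apply Units.ext
    apply (algebraMap K L).injective
    rw [← hι, ← hι, hxy]
  have hσit : ∀ (i : ℕ) (u : Lˣ), (((⇑σ)^[i] u : Lˣ) : L) = (g ^ i) (u : L) := by
    intro i
    induction i with
    | zero => intro u; rfl
    | succ i ih =>
      intro u
      rw [Function.iterate_succ_apply', hσ, ih, pow_succ', AlgEquiv.mul_apply]
  have hσp : ∀ u, (⇑σ)^[p] u = u := by
    intro u
    apply Units.ext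
    rw [hσit, hgp]; rfl
  have hNprod : ∀ u, N u = ∏ i ∈ Finset.range p, (⇑σ)^[i] u := by
    intro u
    apply Units.ext
    rw [hN, hι, hν, Algebra.norm_eq_prod_automorphisms, Units.coe_prod]
    simp only [hσit]
    have himg : (Finset.range p).image (fun i => g ^ i) = Finset.univ := by
      apply Finset.eq_univ_of_card
      rw [Finset.card_image_of_injOn, Finset.card_range, ← Nat.card_eq_fintype_card, hcard]
      intro i hi j hj hij
      apply pow_injOn_Iio_orderOf (x := g)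
      · rw [hord]; exact Finset.mem_range.mp hi
      · rw [hord]; exact Finset.mem_range.mp hj
      · exact hij
    rw [← himg, Finset.prod_image]
    intro i hi j hj hij
    apply pow_injOn_Iio_orderOf (x := g)
    · rw [hord]; exact Finset.mem_range.mp hi
    · rw [hord]; exact Finset.mem_range.mp hj
    · exact hij
  -- the fixed points
  have hker : D.ker = (⊤ : Subgroup Kˣ).map ι := by
    ext u
    rw [MonoidHom.mem_ker, hD, div_eq_one]
    constructor
    · intro hu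
      have hfix : ∀ τ : L ≃ₐ[K] L, τ (u : L) = u := by
        intro τ
        have hgS : g ∈ MulAction.stabilizer (L ≃ₐ[K] L) (u : L) := by
          rw [MulAction.mem_stabilizer_iff, AlgEquiv.smul_def, ← hσ, hu]
        have := (Subgroup.zpowers_le_of_mem hgS) (hg τ)
        rwa [MulAction.mem_stabilizer_iff, AlgEquiv.smul_def] at this
      obtain ⟨k, hk⟩ := (IsGalois.mem_range_algebraMap_iff_fixed (F := K) (u : L)).mpr hfix
      have hk0 : k ≠ 0 := by
        rintro rfl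
        rw [map_zero] at hk
        exact u.ne_zero hk.symm
      refine ⟨Units.mk0 k hk0, Subgroup.mem_top _, ?_⟩
      apply Units.ext
      rw [hι]; exact hk
    · rintro ⟨k, -, rfl⟩
      apply Units.ext
      rw [hσ, hι, AlgEquiv.commutes]
  have hrange : N.range = ν.range.map ι := by
    ext x
    constructor
    · rintro ⟨u, rfl⟩; exact ⟨ν u, ⟨u, rfl⟩, (hN u).symm⟩
    · rintro ⟨_, ⟨u, rfl⟩, rfl⟩; exact ⟨u, hN u⟩
  have h0 : N.range.relIndex D.ker = ν.range.index := by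
    rw [hker, hrange, Subgroup.relIndex_map_map_of_injective _ _ hιinj,
      Subgroup.relIndex_top_right]
  have h1 : D.range.relIndex N.ker = 1 := by
    rw [Subgroup.relIndex_eq_one]
    intro u hu
    rw [MonoidHom.mem_ker, hN] at hu
    have hνu : ν u = 1 := hιinj (by rw [hu, map_one])
    have hnorm : Algebra.norm K (u : L) = 1 := by rw [← hν, hνu]; rfl
    obtain ⟨y, hy⟩ := groupCohomology.exists_div_of_norm_eq_one hg hnorm
    refine ⟨y⁻¹, ?_⟩
    rw [hD, map_inv, inv_div_inv]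
    apply Units.ext
    rw [Units.val_div_eq_div_val, hσ]; exact hy
  have hkM : (powMonoidHom p : Lˣ →* Lˣ).ker = rootsOfUnity p L := by
    ext u; rw [MonoidHom.mem_ker, powMonoidHom_apply, mem_rootsOfUnity]
  have hiF : (D.ker.map (powMonoidHom p)).relIndex D.ker =
      (powMonoidHom p : Kˣ →* Kˣ).range.index := by
    have e : ((⊤ : Subgroup Kˣ).map ι).map (powMonoidHom p) =
        ((powMonoidHom p : Kˣ →* Kˣ).range).map ι := by
      ext x
      constructor
      · rintro ⟨_, ⟨k, -, rfl⟩, rfl⟩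
        exact ⟨k ^ p, ⟨k, rfl⟩, map_pow ι k p⟩
      · rintro ⟨_, ⟨k, rfl⟩, rfl⟩
        exact ⟨ι k, ⟨k, Subgroup.mem_top _, rfl⟩, (map_pow ι k p).symm⟩
    rw [hker, e, Subgroup.relIndex_map_map_of_injective _ _ hιinj, Subgroup.relIndex_top_right]
  have hkF : Nat.card ↥(D.ker ⊓ (powMonoidHom p : Lˣ →* Lˣ).ker) =
      Nat.card (rootsOfUnity p K) := by
    have e : D.ker ⊓ (powMonoidHom p : Lˣ →* Lˣ).ker = (rootsOfUnity p K).map ι := by
      ext x
      rw [Subgroup.mem_inf, hker, MonoidHom.mem_ker, powMonoidHom_apply]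
      constructor
      · rintro ⟨⟨k, -, rfl⟩, hx⟩
        refine ⟨k, (mem_rootsOfUnity p k).mpr ?_, rfl⟩
        apply hιinj
        rw [map_pow, hx, map_one]
      · rintro ⟨k, hk, rfl⟩
        have hk' : k ^ p = 1 := (mem_rootsOfUnity p k).mp hk
        exact ⟨⟨k, Subgroup.mem_top _, rfl⟩, by rw [← map_pow, hk', map_one]⟩
    rw [e, Subgroup.card_map_of_injective hιinj]
  have hμL : Nat.card (rootsOfUnity p L) ≠ 0 := Nat.card_pos.ne'
  have hμK : Nat.card (rootsOfUnity p K) ≠ 0 := Nat.card_pos.ne'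
  have hb : b ≠ 0 := by
    rintro rfl
    rw [zero_mul] at hab
    exact pow_ne_zero p ha hab.symm
  have hiM : (powMonoidHom p : Lˣ →* Lˣ).range.index = Nat.card (rootsOfUnity p L) * b := hL
  have hiK : (powMonoidHom p : Kˣ →* Kˣ).range.index = Nat.card (rootsOfUnity p K) * a := hK
  have key := chevalley_mul p σ D N hσp hD hNprod (by rw [hiM]; exact mul_ne_zero hμL hb)
    (by rw [hkM]; exact hμL)
  obtain ⟨-, -, -, -, key⟩ := key
  rw [h0, h1, hiM, hkF, hkM, hiF, hiK, one_pow, one_mul] at key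
  -- `key : idx^(p-1) * (μL * b) * μK^p = μL * (μK * a)^p`
  have hpos : 0 < Nat.card (rootsOfUnity p L) * Nat.card (rootsOfUnity p K) ^ p :=
    Nat.pos_of_ne_zero (mul_ne_zero hμL (pow_ne_zero p hμK))
  have key2 : ν.range.index ^ (p - 1) * b = a ^ p := by
    apply Nat.eq_of_mul_eq_mul_right hpos
    calc ν.range.index ^ (p - 1) * b *
          (Nat.card (rootsOfUnity p L) * Nat.card (rootsOfUnity p K) ^ p)
        = ν.range.index ^ (p - 1) * (Nat.card (rootsOfUnity p L) * b) *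
            Nat.card (rootsOfUnity p K) ^ p := by ring
      _ = Nat.card (rootsOfUnity p L) * (Nat.card (rootsOfUnity p K) * a) ^ p := key
      _ = a ^ p * (Nat.card (rootsOfUnity p L) * Nat.card (rootsOfUnity p K) ^ p) := by ring
  have key3 : ν.range.index ^ (p - 1) = p ^ (p - 1) := by
    apply Nat.eq_of_mul_eq_mul_right (Nat.pos_of_ne_zero hb)
    rw [key2, ← hab, mul_comm]
  exact Nat.pow_left_injective hp1 key3

/-- If the norm subgroup has prime index then some unit of `K` is not a norm. -/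
theorem exists_not_norm_of_index {p : ℕ} [hp : Fact p.Prime]
    (h : (Units.map (Algebra.norm K : L →* K)).range.index = p) :
    ∃ x : Kˣ, ∀ y : Lˣ, Algebra.norm K (y : L) ≠ (x : K) := by
  by_contra hcon0
  have hcon : ∀ x : Kˣ, ∃ y : Lˣ, Algebra.norm K (y : L) = (x : K) := by
    intro x
    by_contra hx
    exact hcon0 ⟨x, fun y hy => hx ⟨y, hy⟩⟩
  have htop : (Units.map (Algebra.norm K : L →* K)).range = ⊤ := by
    rw [eq_top_iff]
    intro x _
    obtain ⟨y, hy⟩ := hcon x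
    exact ⟨y, Units.ext hy⟩
  rw [htop, Subgroup.index_top] at h
  exact hp.out.one_lt.ne h

end Fields

/-! ### Finite extensions of `ℚ_ℓ` -/

section Local

/-- The statement of LA-POWIDX (`helper8235.card_units_quot_pow`), for fields in `Type`:
`#(Kˣ/p) = p * #μ_p(K) * (p^[K:ℚ_ℓ] if ℓ = p else 1)` for every finite extension `K` of `ℚ_ℓ`. -/
def Stmt_PowIndex (l p : ℕ) [Fact l.Prime] [Fact p.Prime] : Prop :=
  ∀ (K : Type) [Field K] [Algebra ℚ_[l] K] [FiniteDimensional ℚ_[l] K],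
    Nat.card (Kˣ ⧸ (powMonoidHom p : Kˣ →* Kˣ).range) =
      p * Nat.card (rootsOfUnity p K) * (if l = p then p ^ Module.finrank ℚ_[l] K else 1)

/-- **Local norm index** for a Galois extension `L/K` of prime degree `p` of finite extensions
of `ℚ_ℓ` (`ℓ = p` allowed; ramified or not; no assumption on roots of unity), from the
`p`-power index formula: `[Kˣ : N(Lˣ)] = p`. -/
theorem local_norm_index_eq_prime (l p : ℕ) [Fact l.Prime] [hp : Fact p.Prime]
    (hpow : Stmt_PowIndex l p)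
    (K L : Type) [Field K] [Field L] [Algebra ℚ_[l] K] [FiniteDimensional ℚ_[l] K]
    [Algebra K L] [IsGalois K L] (hdeg : Module.finrank K L = p) :
    (Units.map (Algebra.norm K : L →* K)).range.index = p := by
  let _ : Algebra ℚ_[l] L := ((algebraMap K L).comp (algebraMap ℚ_[l] K)).toAlgebra
  have : IsScalarTower ℚ_[l] K L := IsScalarTower.of_algebraMap_eq (fun _ => rfl)
  have : FiniteDimensional K L := Module.finite_of_finrank_pos (hdeg ▸ hp.out.pos)
  have : FiniteDimensional ℚ_[l] L := FiniteDimensional.trans ℚ_[l] K L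
  have hn : Module.finrank ℚ_[l] L = Module.finrank ℚ_[l] K * p := by
    rw [← hdeg, Module.finrank_mul_finrank]
  have hp0 : p ≠ 0 := hp.out.ne_zero
  have hpp : p * p ^ (p - 1) = p ^ p := by
    rw [← pow_succ', Nat.sub_add_cancel hp.out.pos]
  have hK := hpow K
  have hL := hpow L
  rw [hn] at hL
  by_cases hlp : l = p
  · rw [if_pos hlp] at hK hL
    refine norm_index_eq_prime hdeg (a := p * p ^ Module.finrank ℚ_[l] K)
      (b := p * p ^ (Module.finrank ℚ_[l] K * p)) ?_ ?_ ?_ ?_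
    · rw [hK]; ring
    · rw [hL]; ring
    · rw [mul_pow, ← pow_mul, ← hpp]; ring
    · exact mul_ne_zero hp0 (pow_ne_zero _ hp0)
  · rw [if_neg hlp] at hK hL
    refine norm_index_eq_prime hdeg (a := p) (b := p) ?_ ?_ hpp hp0
    · rw [hK]; ring
    · rw [hL]; ring

/-- Consumer form: some unit of `K` is not a norm from `L`. -/
theorem local_exists_not_norm (l p : ℕ) [Fact l.Prime] [hp : Fact p.Prime]
    (hpow : Stmt_PowIndex l p)
    (K L : Type) [Field K] [Field L] [Algebra ℚ_[l] K] [FiniteDimensional ℚ_[l] K]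
    [Algebra K L] [IsGalois K L] (hdeg : Module.finrank K L = p) :
    ∃ x : Kˣ, ∀ y : Lˣ, Algebra.norm K (y : L) ≠ (x : K) :=
  exists_not_norm_of_index (local_norm_index_eq_prime l p hpow K L hdeg)

end Local

end Fermat.Agent.S55.helper5858
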