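import Fermat.Prelude.Def_GroupCohomology_ContinuousUnramified
import Fermat.Agent.S55.helper6525_Arch

/-!
# S55, leaf GC-CONJ: inner automorphisms act trivially on `H¹`/`H²` at cochain level

`helper6099`.  For a `2`-cocycle `f : G × G → A` and `g : G` put
`f^g (a, b) := g • f (g⁻¹ a g, g⁻¹ b g)`.  Then `f^g - f = d (conjHomotopy f g)` with the explicit
`conjHomotopy f g a = f (g, g⁻¹ a g) - f (a, g)`.  Consequently a cocycle whose pull-back along
`r : Γ →* G` is a coboundary also has a coboundary pull-back along every conjugate `g r g⁻¹`, with an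
explicit primitive that inherits level-constancy.

Frozen-carrier corollaries: `locRes₂S S M r x = 0 ↔ locRes₂S S M (g r g⁻¹) x = 0`, the twin for the
abstract `H¹`, and the membership criteria for `sha₁`, `sha₂` at all conjugate decomposition groups.
-/

set_option autoImplicit false

open CategoryTheory groupCohomology ExtCitation

namespace Fermat.Agent.S55.helper6099

/-! ## Carrier-free identities (Mathlib predicates) -/

section Additive

variable {G A : Type*} [Group G] [AddCommGroup A] [DistribMulAction G A]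

/-- The explicit homotopy between a `2`-cochain and its conjugate by `g`. -/
def conjHomotopy (f : G × G → A) (g a : G) : A := f (g, g⁻¹ * a * g) - f (a, g)

/-- **Inner automorphisms act trivially on `H²`** (cochain level):
`g • f (g⁻¹ a g, g⁻¹ b g) - f (a, b) = d (conjHomotopy f g) (a, b)`. -/
theorem conj_sub_eq_d {f : G × G → A} (hf : IsCocycle₂ f) (g a b : G) :
    g • f (g⁻¹ * a * g, g⁻¹ * b * g) - f (a, b)
      = a • conjHomotopy f g b - conjHomotopy f g (a * b) + conjHomotopy f g a := by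
  have h1 := hf a b g
  have h2 := hf a g (g⁻¹ * b * g)
  have h3 := hf g (g⁻¹ * a * g) (g⁻¹ * b * g)
  have e1 : g * (g⁻¹ * b * g) = b * g := by group
  have e2 : g * (g⁻¹ * a * g) = a * g := by group
  have e3 : g⁻¹ * a * g * (g⁻¹ * b * g) = g⁻¹ * (a * b) * g := by group
  rw [e1] at h2
  rw [e2, e3] at h3
  simp only [conjHomotopy, smul_sub]
  rw [← sub_eq_zero] at h1 h2 h3 ⊢
  have key : g • f (g⁻¹ * a * g, g⁻¹ * b * g) - f (a, b)
      - (a • f (g, g⁻¹ * b * g) - a • f (b, g) - (f (g, g⁻¹ * (a * b) * g) - f (a * b, g))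
        + (f (g, g⁻¹ * a * g) - f (a, g)))
      = -(f (a * b, g) + f (a, b) - (a • f (b, g) + f (a, b * g)))
        + (f (a * g, g⁻¹ * b * g) + f (a, g) - (a • f (g, g⁻¹ * b * g) + f (a, b * g)))
        - (f (a * g, g⁻¹ * b * g) + f (g, g⁻¹ * a * g)
            - (g • f (g⁻¹ * a * g, g⁻¹ * b * g) + f (g, g⁻¹ * (a * b) * g))) := by
    abel
  rw [key, h1, h2, h3]
  simp

/-- **Inner automorphisms act trivially on `H¹`** (cochain level):
`g • c (g⁻¹ a g) - c a = a • c g - c g`. -/
theorem conj_sub_eq_d₁ {c : G → A} (hc : IsCocycle₁ c) (g a : G) :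
    g • c (g⁻¹ * a * g) - c a = a • c g - c g := by
  have h1 := hc g (g⁻¹ * a * g)
  have h2 := hc a g
  have e1 : g * (g⁻¹ * a * g) = a * g := by group
  rw [e1, h2] at h1
  rw [sub_eq_sub_iff_add_eq_add, ← h1]

variable {Γ : Type*} [Group Γ]

/-- The transported primitive: if `u` is a primitive of `f ∘ (r × r)`, this is a primitive of
`f ∘ (r' × r')` for `r' = g r g⁻¹`. -/
def conjPrimitive (f : G × G → A) (r : Γ →* G) (g : G) (u : Γ → A) (γ : Γ) : A :=
  g • (u γ + conjHomotopy f g⁻¹ (r γ))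

/-- If the pull-back of the `2`-cocycle `f` along `r` is the coboundary of `u` (for the action
through `r`), then its pull-back along the conjugate `r' = g r g⁻¹` is the coboundary of
`conjPrimitive f r g u` (for the action through `r'`). -/
theorem d_conjPrimitive {f : G × G → A} (hf : IsCocycle₂ f) (r r' : Γ →* G) (g : G)
    (hr : ∀ γ, r' γ = g * r γ * g⁻¹) {u : Γ → A}
    (hu : ∀ γ δ, r γ • u δ - u (γ * δ) + u γ = f (r γ, r δ)) (γ δ : Γ) :
    r' γ • conjPrimitive f r g u δ - conjPrimitive f r g u (γ * δ) + conjPrimitive f r g u γ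
      = f (r' γ, r' δ) := by
  have key := conj_sub_eq_d hf g⁻¹ (r γ) (r δ)
  rw [inv_inv] at key
  have e : (g * r γ * g⁻¹) • g • (u δ + conjHomotopy f g⁻¹ (r δ))
      = g • r γ • (u δ + conjHomotopy f g⁻¹ (r δ)) := by
    rw [smul_smul, smul_smul]
    congr 1
    group
  have key' : f (g * r γ * g⁻¹, g * r δ * g⁻¹)
      = g • (f (r γ, r δ) + (r γ • conjHomotopy f g⁻¹ (r δ) - conjHomotopy f g⁻¹ (r γ * r δ)
          + conjHomotopy f g⁻¹ (r γ))) := by
    rw [← key, add_sub_cancel, smul_smul, mul_inv_cancel, one_smul]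
  rw [hr γ, hr δ, key']
  simp only [conjPrimitive]
  rw [e, map_mul, ← hu γ δ]
  simp only [smul_add, smul_sub]
  abel

/-- Degree one: if `c ∘ r` is the coboundary of `m`, then `c ∘ r'` (`r' = g r g⁻¹`) is the
coboundary of `g • m - c g`. -/
theorem d_conjPrimitive₁ {c : G → A} (hc : IsCocycle₁ c) (r r' : Γ →* G) (g : G)
    (hr : ∀ γ, r' γ = g * r γ * g⁻¹) {m : A} (hm : ∀ γ, r γ • m - m = c (r γ)) (γ : Γ) :
    r' γ • (g • m - c g) - (g • m - c g) = c (r' γ) := by
  have key := conj_sub_eq_d₁ hc g⁻¹ (r γ)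
  rw [inv_inv] at key
  have hinv : g • c g⁻¹ = -c g := map_inv_of_isCocycle₁ hc g
  have e : (g * r γ * g⁻¹) • g • m = g • r γ • m := by
    rw [smul_smul, smul_smul]
    congr 1
    group
  have e' : (g * r γ * g⁻¹) • c g = -(g • r γ • c g⁻¹) := by
    have : (g * r γ * g⁻¹) • c g = g • r γ • g⁻¹ • c g := by rw [smul_smul, smul_smul]
    rw [this]
    have h2 : g⁻¹ • c g = -c g⁻¹ := by
      have := map_inv_of_isCocycle₁ hc g⁻¹
      rwa [inv_inv] at this
    rw [h2, smul_neg, smul_neg]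
  have key' : c (g * r γ * g⁻¹) = g • (c (r γ) + (r γ • c g⁻¹ - c g⁻¹)) := by
    rw [← key, add_sub_cancel, smul_smul, mul_inv_cancel, one_smul]
  rw [hr γ, key', smul_sub, e, e', ← hm γ, smul_add, smul_sub, smul_sub, hinv]
  abel

end Additive

/-! ## Multiplicative twins (`IsMulCocycle₂`, e.g. `Gal(L/K)` acting on `Lˣ`) -/

section Multiplicative

variable {G M : Type*} [Group G] [CommGroup M] [MulDistribMulAction G M]

/-- The `DistribMulAction` on `Additive M` induced by a `MulDistribMulAction` on `M`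
(used only to transfer the additive identities). -/
@[reducible] def additiveDistribMulAction : DistribMulAction G (Additive M) where
  smul g a := Additive.ofMul (g • Additive.toMul a)
  one_smul a := congrArg Additive.ofMul (one_smul G (Additive.toMul a))
  mul_smul g h a := congrArg Additive.ofMul (mul_smul g h (Additive.toMul a))
  smul_zero g := congrArg Additive.ofMul (smul_one g)
  smul_add g a b := congrArg Additive.ofMul (smul_mul' g (Additive.toMul a) (Additive.toMul b))

/-- Multiplicative version of `conjHomotopy`. -/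
def conjHomotopyMul (f : G × G → M) (g a : G) : M := f (g, g⁻¹ * a * g) / f (a, g)

/-- Multiplicative version of `conj_sub_eq_d`. -/
theorem conj_div_eq_d {f : G × G → M} (hf : IsMulCocycle₂ f) (g a b : G) :
    g • f (g⁻¹ * a * g, g⁻¹ * b * g) / f (a, b)
      = a • conjHomotopyMul f g b / conjHomotopyMul f g (a * b) * conjHomotopyMul f g a := by
  let _ := additiveDistribMulAction (G := G) (M := M)
  exact congrArg Additive.toMul
    (conj_sub_eq_d (A := Additive M) (f := fun x => Additive.ofMul (f x)) hf g a b)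

/-- Multiplicative version of `conj_sub_eq_d₁`. -/
theorem conj_div_eq_d₁ {c : G → M} (hc : IsMulCocycle₁ c) (g a : G) :
    g • c (g⁻¹ * a * g) / c a = a • c g / c g := by
  let _ := additiveDistribMulAction (G := G) (M := M)
  exact congrArg Additive.toMul
    (conj_sub_eq_d₁ (A := Additive M) (c := fun x => Additive.ofMul (c x)) hc g a)

variable {Γ : Type*} [Group Γ]

/-- Multiplicative version of `conjPrimitive`. -/
def conjPrimitiveMul (f : G × G → M) (r : Γ →* G) (g : G) (u : Γ → M) (γ : Γ) : M :=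
  g • (u γ * conjHomotopyMul f g⁻¹ (r γ))

/-- Multiplicative version of `d_conjPrimitive`. -/
theorem d_conjPrimitiveMul {f : G × G → M} (hf : IsMulCocycle₂ f) (r r' : Γ →* G) (g : G)
    (hr : ∀ γ, r' γ = g * r γ * g⁻¹) {u : Γ → M}
    (hu : ∀ γ δ, r γ • u δ / u (γ * δ) * u γ = f (r γ, r δ)) (γ δ : Γ) :
    r' γ • conjPrimitiveMul f r g u δ / conjPrimitiveMul f r g u (γ * δ)
        * conjPrimitiveMul f r g u γ
      = f (r' γ, r' δ) := by
  let _ := additiveDistribMulAction (G := G) (M := M)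
  exact congrArg Additive.toMul
    (d_conjPrimitive (A := Additive M) (f := fun x => Additive.ofMul (f x)) hf r r' g hr
      (u := fun x => Additive.ofMul (u x)) (fun γ δ => congrArg Additive.ofMul (hu γ δ)) γ δ)

/-- A multiplicative `2`-cocycle whose restriction along `r` is a coboundary has a coboundary
restriction along every conjugate of `r`. -/
theorem isMulCoboundary₂_conj {f : G × G → M} (hf : IsMulCocycle₂ f) (r r' : Γ →* G) (g : G)
    (hr : ∀ γ, r' γ = g * r γ * g⁻¹)
    (h : ∃ u : Γ → M, ∀ γ δ, r γ • u δ / u (γ * δ) * u γ = f (r γ, r δ)) :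
    ∃ u' : Γ → M, ∀ γ δ, r' γ • u' δ / u' (γ * δ) * u' γ = f (r' γ, r' δ) := by
  obtain ⟨u, hu⟩ := h
  exact ⟨conjPrimitiveMul f r g u, d_conjPrimitiveMul hf r r' g hr hu⟩

end Multiplicative

/-! ## Frozen carriers: level-constant cochains -/

section Frozen

universe u

local notation "GQ" => (AlgebraicClosure ℚ ≃ₐ[ℚ] AlgebraicClosure ℚ)

/-- The fixing subgroup of a translate `σ F` is the conjugate of the fixing subgroup of `F`. -/
lemma mem_fixingSubgroup_map_iff (F : IntermediateField ℚ (AlgebraicClosure ℚ)) (σ τ : GQ) :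
    τ ∈ (F.map (σ : AlgebraicClosure ℚ →ₐ[ℚ] AlgebraicClosure ℚ)).fixingSubgroup
      ↔ σ⁻¹ * τ * σ ∈ F.fixingSubgroup := by
  rw [IntermediateField.mem_fixingSubgroup_iff, IntermediateField.mem_fixingSubgroup_iff]
  constructor
  · intro h x hx
    have := h (σ x) ((IntermediateField.mem_map _).2 ⟨x, hx, rfl⟩)
    show σ⁻¹ (τ (σ x)) = x
    rw [this]
    exact σ.symm_apply_apply x
  · rintro h y hy
    obtain ⟨x, hx, rfl⟩ := (IntermediateField.mem_map _).1 hy
    have := h x hx
    have h2 : σ (σ⁻¹ (τ (σ x))) = σ x := congrArg σ this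
    have h3 : σ (σ⁻¹ (τ (σ x))) = τ (σ x) := σ.apply_symm_apply _
    exact h3.symm.trans h2

/-- A translate of a finite extension is finite. -/
lemma finiteDimensional_map (F : IntermediateField ℚ (AlgebraicClosure ℚ))
    [FiniteDimensional ℚ F] (σ : GQ) :
    FiniteDimensional ℚ (F.map (σ : AlgebraicClosure ℚ →ₐ[ℚ] AlgebraicClosure ℚ)) :=
  LinearEquiv.finiteDimensional
    (IntermediateField.equivMap F (σ : AlgebraicClosure ℚ →ₐ[ℚ] AlgebraicClosure ℚ)).toLinearEquiv

/-- The `DistribMulAction` of `G` on the carrier of a representation (used to apply the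
carrier-free identities). -/
@[reducible] def repDistribMulAction {k G : Type u} [CommRing k] [Group G] (M : Rep k G) :
    DistribMulAction G M where
  smul g m := M.ρ g m
  one_smul m := by
    show M.ρ 1 m = m
    rw [map_one]; rfl
  mul_smul g h m := by
    show M.ρ (g * h) m = M.ρ g (M.ρ h m)
    rw [map_mul]; rfl
  smul_zero g := map_zero _
  smul_add g a b := map_add _ _ _

variable {k G Γ : Type u} [CommRing k] [Group G] [Group Γ]

/-- **Transport of level-constant primitives along conjugation.**  `ρ : G →* G_ℚ` is the level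
structure of `G`; `r, r' : Γ →* G` with `r' = g r g⁻¹`; `rG, rG'` are the induced level structures
on `Γ`.  If the pull-back along `r` of the level cocycle `f` is the coboundary of a level-constant
`u`, then the pull-back along `r'` is the coboundary of a level-constant `u'`. -/
theorem exists_levelPrimitive_conj (ρ : G →* GQ) (M : Rep k G) {f : G × G → M}
    (hf : f ∈ cocycles₂ M) (hfl : IsLevelConstant₂ ρ f) (r r' : Γ →* G) (rG rG' : Γ →* GQ)
    (hG : ∀ γ, ρ (r γ) = rG γ) (hG' : ∀ γ, ρ (r' γ) = rG' γ) (g : G)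
    (hr : ∀ γ, r' γ = g * r γ * g⁻¹) {u : Γ → M} (hul : IsLevelConstant₁ rG u)
    (hu : ∀ γ δ, M.ρ (r γ) (u δ) - u (γ * δ) + u γ = f (r γ, r δ)) :
    ∃ u' : Γ → M, IsLevelConstant₁ rG' u' ∧
      ∀ γ δ, M.ρ (r' γ) (u' δ) - u' (γ * δ) + u' γ = f (r' γ, r' δ) := by
  let _ := repDistribMulAction M
  have hf' : IsCocycle₂ f := (mem_cocycles₂_iff f).1 hf
  refine ⟨conjPrimitive f r g u, ?_, d_conjPrimitive hf' r r' g hr hu⟩
  obtain ⟨F₁, hF₁, h₁⟩ := hul
  obtain ⟨F₂, hF₂, h₂⟩ := hfl
  have := hF₁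
  have := hF₂
  have := finiteDimensional_map F₁ (ρ g)
  have := finiteDimensional_map F₂ (ρ g)
  refine ⟨F₁.map (ρ g : AlgebraicClosure ℚ →ₐ[ℚ] AlgebraicClosure ℚ)
      ⊔ F₂.map (ρ g : AlgebraicClosure ℚ →ₐ[ℚ] AlgebraicClosure ℚ) ⊔ F₂, inferInstance,
    fun γ s hs => ?_⟩
  have hconj : rG' s = ρ g * rG s * (ρ g)⁻¹ := by
    rw [← hG', ← hG, hr, map_mul, map_mul, map_inv]
  have hback : (ρ g)⁻¹ * rG' s * ρ g = rG s := by rw [hconj]; group
  have hs1 : rG s ∈ F₁.fixingSubgroup := by
    rw [← hback, ← mem_fixingSubgroup_map_iff]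
    exact IntermediateField.fixingSubgroup_antitone (le_sup_left.trans le_sup_left) hs
  have hs2 : ρ (r s) ∈ F₂.fixingSubgroup := by
    rw [hG, ← hback, ← mem_fixingSubgroup_map_iff]
    exact IntermediateField.fixingSubgroup_antitone (le_sup_right.trans le_sup_left) hs
  have hs3 : ρ (g * r s * g⁻¹) ∈ F₂.fixingSubgroup := by
    rw [← hr, hG']
    exact IntermediateField.fixingSubgroup_antitone le_sup_right hs
  have e1 : f (g⁻¹, g * (r γ * r s) * g⁻¹) = f (g⁻¹, g * r γ * g⁻¹) := by
    have := h₂ g⁻¹ (g * r γ * g⁻¹) 1 (g * r s * g⁻¹) (by rw [map_one]; exact one_mem _) hs3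
    rw [mul_one] at this
    rw [← this]
    congr 2
    group
  have e2 : f (r γ * r s, g⁻¹) = f (r γ, g⁻¹) := by
    have := h₂ (r γ) g⁻¹ (r s) 1 hs2 (by rw [map_one]; exact one_mem _)
    rwa [mul_one] at this
  show conjPrimitive f r g u (γ * s) = conjPrimitive f r g u γ
  simp only [conjPrimitive, conjHomotopy, inv_inv, map_mul]
  rw [h₁ γ s hs1, e1, e2]

/-- The conjugate `γ ↦ g * r γ * g⁻¹` of a group homomorphism. -/
def conjHom (g : G) (r : Γ →* G) : Γ →* G := (MulAut.conj g).toMonoidHom.comp r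

@[simp] lemma conjHom_apply (g : G) (r : Γ →* G) (γ : Γ) : conjHom g r γ = g * r γ * g⁻¹ := rfl

/-- Restriction of a frozen continuous `H²`-class along `r : Γ →* G`; `ρ` is the level structure
of `G` and `rG` the induced level structure of `Γ`.  (`locRes₂S S M f` is
`resH2 (MonoidHom.id _) M f f (fun _ => rfl) ∘ₗ continuousH2SToContinuousH2 S M` by `rfl`.) -/
abbrev resH2 (ρ : G →* GQ) (M : Rep k G) (r : Γ →* G) (rG : Γ →* GQ)
    (hG : ∀ γ, ρ (r γ) = rG γ) : continuousH2 ρ M →ₗ[k] continuousH2 rG (Rep.res r M) :=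
  continuousH2Map (rH := ρ) (rG := rG) r hG (LinearMap.id : M →ₗ[k] Rep.res r M)
    (fun _ _ => rfl)

/-- **Restriction classes in the frozen `continuousH2` vanish simultaneously at conjugate
homomorphisms** (one direction; `r' = g r g⁻¹`). -/
theorem resH2_conj_eq_zero (ρ : G →* GQ) (M : Rep k G) (r r' : Γ →* G)
    (rG rG' : Γ →* GQ) (hG : ∀ γ, ρ (r γ) = rG γ) (hG' : ∀ γ, ρ (r' γ) = rG' γ) (g : G)
    (hr : ∀ γ, r' γ = g * r γ * g⁻¹) (x : continuousH2 ρ M)
    (hx : resH2 ρ M r rG hG x = 0) : resH2 ρ M r' rG' hG' x = 0 := by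
  obtain ⟨c, rfl⟩ := Submodule.mkQ_surjective _ x
  change continuousH2π rG (Rep.res r M)
    (levelCocycles₂Map r hG (LinearMap.id : M →ₗ[k] Rep.res r M) (fun _ _ => rfl) c) = 0 at hx
  rw [continuousH2π_eq_zero_iff, mem_levelCoboundaries₂_iff] at hx
  obtain ⟨u, hul, hu⟩ := hx
  change continuousH2π rG' (Rep.res r' M)
    (levelCocycles₂Map r' hG' (LinearMap.id : M →ₗ[k] Rep.res r' M) (fun _ _ => rfl) c) = 0
  rw [continuousH2π_eq_zero_iff, mem_levelCoboundaries₂_iff]
  obtain ⟨u', hul', hu'⟩ := exists_levelPrimitive_conj ρ M c.2.1 c.2.2 r r' rG rG' hG hG' g hr hul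
    (fun γ δ => congrFun hu (γ, δ))
  exact ⟨u', hul', funext fun ⟨γ, δ⟩ => hu' γ δ⟩

/-- Iff-version of `resH2_conj_eq_zero` for `conjHom g r`. -/
theorem resH2_conjHom_eq_zero_iff (ρ : G →* GQ) (M : Rep k G) (r : Γ →* G) (g : G)
    (x : continuousH2 ρ M) :
    resH2 ρ M (conjHom g r) (ρ.comp (conjHom g r)) (fun _ => rfl) x = 0
      ↔ resH2 ρ M r (ρ.comp r) (fun _ => rfl) x = 0 := by
  constructor
  · intro h
    refine resH2_conj_eq_zero ρ M (conjHom g r) r _ _ (fun _ => rfl) (fun _ => rfl)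
      g⁻¹ (fun γ => ?_) x h
    rw [conjHom_apply]; group
  · intro h
    exact resH2_conj_eq_zero ρ M r (conjHom g r) _ _ (fun _ => rfl) (fun _ => rfl)
      g (fun γ => rfl) x h

/-- **Restriction classes in the abstract `H¹` vanish simultaneously at conjugate homomorphisms**
(one direction; `r' = g r g⁻¹`). -/
theorem H1_map_conj_eq_zero (M : Rep k G) (r r' : Γ →* G) (g : G)
    (hr : ∀ γ, r' γ = g * r γ * g⁻¹) (x : H1 M)
    (hx : (groupCohomology.map r (𝟙 (Rep.res r M)) 1).hom x = 0) :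
    (groupCohomology.map r' (𝟙 (Rep.res r' M)) 1).hom x = 0 := by
  induction x using H1_induction_on with
  | h c =>
    have e := H1π_comp_map_apply (f := r) (φ := 𝟙 (Rep.res r M)) c
    have e' := H1π_comp_map_apply (f := r') (φ := 𝟙 (Rep.res r' M)) c
    change (groupCohomology.map r (𝟙 (Rep.res r M)) 1) ((H1π M) c) = 0 at hx
    change (groupCohomology.map r' (𝟙 (Rep.res r' M)) 1) ((H1π M) c) = 0
    rw [e, H1π_eq_zero_iff] at hx
    rw [e', H1π_eq_zero_iff]
    obtain ⟨m, hm⟩ := hx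
    let _ := repDistribMulAction M
    have hc : IsCocycle₁ (c : G → M) := (mem_cocycles₁_iff (c : G → M)).1 c.2
    refine ⟨(M.ρ g m - c g : M), funext fun γ => ?_⟩
    exact d_conjPrimitive₁ hc r r' g hr (m := m) (fun γ => congrFun hm γ) γ

/-- Iff-version of `H1_map_conj_eq_zero` for `conjHom g r`. -/
theorem H1_map_conjHom_eq_zero_iff (M : Rep k G) (r : Γ →* G) (g : G) (x : H1 M) :
    (groupCohomology.map (conjHom g r) (𝟙 (Rep.res (conjHom g r) M)) 1).hom x = 0
      ↔ (groupCohomology.map r (𝟙 (Rep.res r M)) 1).hom x = 0 := by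
  constructor
  · intro h
    refine H1_map_conj_eq_zero M (conjHom g r) r g⁻¹ (fun γ => ?_) x h
    rw [conjHom_apply]; group
  · intro h
    exact H1_map_conj_eq_zero M r (conjHom g r) g (fun γ => rfl) x h

end Frozen

/-! ## The global carriers `continuousH2S`, `sha₁`, `sha₂` -/

section GlobalS

local notation "GQ" => (AlgebraicClosure ℚ ≃ₐ[ℚ] AlgebraicClosure ℚ)

variable (S : Finset Nat.Primes) {k : Type} [CommRing k] (M : Rep k GQ) {Γ : Type} [Group Γ]

/-- `locRes₂S` vanishes simultaneously at conjugate local homomorphisms (one direction). -/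
theorem locRes₂S_conj_eq_zero (r r' : Γ →* GQ) (g : GQ) (hr : ∀ γ, r' γ = g * r γ * g⁻¹)
    (x : continuousH2S S M) (hx : locRes₂S S M r x = 0) : locRes₂S S M r' x = 0 :=
  resH2_conj_eq_zero (MonoidHom.id _) M r r' r r' (fun _ => rfl) (fun _ => rfl) g hr _ hx

/-- `locRes₂S S M (g r g⁻¹) x = 0 ↔ locRes₂S S M r x = 0`. -/
theorem locRes₂S_conjHom_eq_zero_iff (r : Γ →* GQ) (g : GQ) (x : continuousH2S S M) :
    locRes₂S S M (conjHom g r) x = 0 ↔ locRes₂S S M r x = 0 := by
  constructor
  · intro h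
    refine locRes₂S_conj_eq_zero S M (conjHom g r) r g⁻¹ (fun γ => ?_) x h
    rw [conjHom_apply]; group
  · intro h
    exact locRes₂S_conj_eq_zero S M r (conjHom g r) g (fun γ => rfl) x h

variable {p : ℕ} [Fact p.Prime]

/-- `sha₂` is cut out by local triviality at ALL conjugates of the local Galois groups of the
primes in `S` (odd `p`). -/
theorem mem_sha₂_iff_forall_conj (hp2 : p ≠ 2) (M : Rep (ZMod p) GQ) (x : continuousH2S S M) :
    x ∈ sha₂ S M ↔
      ∀ q : ↥S, ∀ g : GQ, locRes₂S S M (conjHom g (primeLocalToGlobal q.1)) x = 0 := by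
  rw [helper6525.mem_sha₂_iff hp2]
  exact forall_congr' fun q =>
    ⟨fun h g => (locRes₂S_conjHom_eq_zero_iff S M _ g x).2 h,
      fun h => (locRes₂S_conjHom_eq_zero_iff S M _ 1 x).1 (h 1)⟩

/-- `sha₂` is cut out by local triviality at ONE conjugate (chosen freely for each prime of `S`)
of the local Galois groups (odd `p`). -/
theorem mem_sha₂_iff_exists_conj (hp2 : p ≠ 2) (M : Rep (ZMod p) GQ) (x : continuousH2S S M) :
    x ∈ sha₂ S M ↔
      ∀ q : ↥S, ∃ g : GQ, locRes₂S S M (conjHom g (primeLocalToGlobal q.1)) x = 0 := by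
  rw [helper6525.mem_sha₂_iff hp2]
  exact forall_congr' fun q =>
    ⟨fun h => ⟨1, (locRes₂S_conjHom_eq_zero_iff S M _ 1 x).2 h⟩,
      fun ⟨g, h⟩ => (locRes₂S_conjHom_eq_zero_iff S M _ g x).1 h⟩

/-- `sha₁` is cut out (inside `continuousH1S`) by local triviality at ALL conjugates of the local
Galois groups of the primes in `S` (odd `p`). -/
theorem mem_sha₁_iff_forall_conj (hp2 : p ≠ 2) (A : Rep (ZMod p) GQ) (x : H1 A) :
    x ∈ sha₁ S A ↔ x ∈ continuousH1S S A ∧
      ∀ q : ↥S, ∀ g : GQ,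
        (groupCohomology.map (conjHom g (primeLocalToGlobal q.1))
          (𝟙 (Rep.res (conjHom g (primeLocalToGlobal q.1)) A)) 1).hom x = 0 := by
  rw [helper6525.mem_sha₁_iff hp2]
  refine and_congr Iff.rfl (forall_congr' fun q => ?_)
  exact ⟨fun h g => (H1_map_conjHom_eq_zero_iff A (primeLocalToGlobal q.1) g x).2 h,
    fun h => (H1_map_conjHom_eq_zero_iff A (primeLocalToGlobal q.1) 1 x).1 (h 1)⟩

/-- `sha₁` is cut out (inside `continuousH1S`) by local triviality at ONE conjugate, chosen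
freely for each prime of `S` (odd `p`). -/
theorem mem_sha₁_iff_exists_conj (hp2 : p ≠ 2) (A : Rep (ZMod p) GQ) (x : H1 A) :
    x ∈ sha₁ S A ↔ x ∈ continuousH1S S A ∧
      ∀ q : ↥S, ∃ g : GQ,
        (groupCohomology.map (conjHom g (primeLocalToGlobal q.1))
          (𝟙 (Rep.res (conjHom g (primeLocalToGlobal q.1)) A)) 1).hom x = 0 := by
  rw [helper6525.mem_sha₁_iff hp2]
  refine and_congr Iff.rfl (forall_congr' fun q => ?_)
  exact ⟨fun h => ⟨1, (H1_map_conjHom_eq_zero_iff A (primeLocalToGlobal q.1) 1 x).2 h⟩,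
    fun ⟨g, h⟩ => (H1_map_conjHom_eq_zero_iff A (primeLocalToGlobal q.1) g x).1 h⟩

end GlobalS

end Fermat.Agent.S55.helper6099
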