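import Mathlib
import Fermat.Agent.S55.helper6119_Kummer

set_option autoImplicit false

/-!
# Kummer theory on the subgroup `F.fixingSubgroup ≤ Gal(Ω/k)` (relative form)

`helper6119_Kummer.lean` states Kummer theory for the group `Ω ≃ₐ[K] Ω`.  The frozen S55 carriers
(and the field-level carriers of the global bridge) use instead the *subgroup*
`F.fixingSubgroup` of `Ω ≃ₐ[k] Ω` for an intermediate field `F` of `Ω/k`, with level conditions
phrased through intermediate fields `L` of `Ω/k`.  This file transports everything: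

* `relKummerChar F hζ α hα : F.fixingSubgroup →* Multiplicative (ZMod p)` for `α ^ p ∈ F`,
  with `s α = ζ ^ χ(s) * α`;
* `relKummerChar_trivial_on_iff` : it is trivial on `L.fixingSubgroup ∩ F.fixingSubgroup`
  iff `α ∈ L ⊔ F`  (any intermediate field `L` of `Ω/k`, finite or not);
* `exists_relKummer_generator` : every character of `F.fixingSubgroup` trivial on
  `L.fixingSubgroup ∩ F.fixingSubgroup` (`L` finite over `k`) is `relKummerChar` of some
  `α ∈ L ⊔ F` with `α ^ p ∈ F`;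
* `relKummerChar_eq_iff` : two Kummer characters agree iff `α / β ∈ F`.
-/

namespace Fermat.Agent.S55.helper6119

open IntermediateField

section Rel

variable {k Ω : Type*} [Field k] [Field Ω] [Algebra k Ω]
variable {p : ℕ} [Fact p.Prime]
variable (F : IntermediateField k Ω)

/-- The **relative Kummer character** on `F.fixingSubgroup ≤ Gal(Ω/k)` of a `p`-th root `α` of an
element of `F`. -/
noncomputable def relKummerChar {ζ : F} (hζ : IsPrimitiveRoot ζ p) (α : Ωˣ)
    (hα : (α : Ω) ^ p ∈ F) : F.fixingSubgroup →* Multiplicative (ZMod p) :=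
  (kummerChar (K := F) (Ω := Ω) hζ α ⟨⟨(α : Ω) ^ p, hα⟩, rfl⟩).comp
    (IntermediateField.fixingSubgroupEquiv F).toMonoidHom

theorem relKummerChar_spec {ζ : F} (hζ : IsPrimitiveRoot ζ p) (α : Ωˣ)
    (hα : (α : Ω) ^ p ∈ F) (s : F.fixingSubgroup) :
    (s : Ω ≃ₐ[k] Ω) (α : Ω) =
      (ζ : Ω) ^ (Multiplicative.toAdd (relKummerChar F hζ α hα s)).val * α := by
  have h := kummerChar_spec (K := F) (Ω := Ω) hζ α ⟨⟨(α : Ω) ^ p, hα⟩, rfl⟩
    (IntermediateField.fixingSubgroupEquiv F s)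
  rw [map_pow] at h
  exact h

theorem relKummerChar_eq_of_spec {ζ : F} (hζ : IsPrimitiveRoot ζ p) (α : Ωˣ)
    (hα : (α : Ω) ^ p ∈ F) (s : F.fixingSubgroup) (j : ZMod p)
    (hj : (s : Ω ≃ₐ[k] Ω) (α : Ω) = (ζ : Ω) ^ j.val * α) :
    relKummerChar F hζ α hα s = Multiplicative.ofAdd j := by
  refine kummerChar_eq_of_spec (K := F) (Ω := Ω) hζ α ⟨⟨(α : Ω) ^ p, hα⟩, rfl⟩
    (IntermediateField.fixingSubgroupEquiv F s) j ?_
  rw [map_pow]
  exact hj

theorem relKummerChar_apply_eq_one_iff {ζ : F} (hζ : IsPrimitiveRoot ζ p) (α : Ωˣ)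
    (hα : (α : Ω) ^ p ∈ F) (s : F.fixingSubgroup) :
    relKummerChar F hζ α hα s = 1 ↔ (s : Ω ≃ₐ[k] Ω) (α : Ω) = α :=
  kummerChar_apply_eq_one_iff (K := F) (Ω := Ω) hζ α ⟨⟨(α : Ω) ^ p, hα⟩, rfl⟩
    (IntermediateField.fixingSubgroupEquiv F s)

omit [Fact p.Prime] in
theorem mul_pow_mem (α β : Ωˣ) (hα : (α : Ω) ^ p ∈ F) (hβ : (β : Ω) ^ p ∈ F) :
    ((α * β : Ωˣ) : Ω) ^ p ∈ F := by
  rw [Units.val_mul, mul_pow]
  exact F.mul_mem hα hβ

omit [Fact p.Prime] in
theorem inv_pow_mem (α : Ωˣ) (hα : (α : Ω) ^ p ∈ F) : ((α⁻¹ : Ωˣ) : Ω) ^ p ∈ F := by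
  rw [Units.val_inv_eq_inv_val, inv_pow]
  exact F.inv_mem hα

/-- The relative Kummer character is multiplicative in `α`. -/
theorem relKummerChar_mul {ζ : F} (hζ : IsPrimitiveRoot ζ p) (α β : Ωˣ)
    (hα : (α : Ω) ^ p ∈ F) (hβ : (β : Ω) ^ p ∈ F) (hαβ : ((α * β : Ωˣ) : Ω) ^ p ∈ F) :
    relKummerChar F hζ (α * β) hαβ = relKummerChar F hζ α hα * relKummerChar F hζ β hβ := by
  refine MonoidHom.ext fun s => ?_
  refine relKummerChar_eq_of_spec F hζ (α * β) hαβ s
    (Multiplicative.toAdd (relKummerChar F hζ α hα s) +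
      Multiplicative.toAdd (relKummerChar F hζ β hβ s)) ?_
  have hζ1 : (ζ : Ω) ^ p = 1 := by
    have := congrArg (fun x : F => (x : Ω)) hζ.pow_eq_one
    simpa using this
  rw [Units.val_mul, map_mul, relKummerChar_spec F hζ α hα s, relKummerChar_spec F hζ β hβ s,
    pow_val_add hζ1]
  ring

/-- The relative Kummer character of an element of `F` is trivial (no Galois hypothesis). -/
theorem relKummerChar_eq_one_of_mem {ζ : F} (hζ : IsPrimitiveRoot ζ p) (α : Ωˣ)
    (hα : (α : Ω) ^ p ∈ F) (h : (α : Ω) ∈ F) : relKummerChar F hζ α hα = 1 := by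
  refine MonoidHom.ext fun s => ?_
  rw [MonoidHom.one_apply, relKummerChar_apply_eq_one_iff]
  exact (IntermediateField.mem_fixingSubgroup_iff F _).mp s.2 _ h

/-- If `α ∈ L ⊔ F` then the Kummer character of `α` is trivial on
`L.fixingSubgroup ∩ F.fixingSubgroup` (no Galois hypothesis). -/
theorem relKummerChar_trivial_on_of_mem {ζ : F} (hζ : IsPrimitiveRoot ζ p) (α : Ωˣ)
    (hα : (α : Ω) ^ p ∈ F) (L : IntermediateField k Ω) (h : (α : Ω) ∈ L ⊔ F)
    (s : F.fixingSubgroup) (hs : (s : Ω ≃ₐ[k] Ω) ∈ L.fixingSubgroup) :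
    relKummerChar F hζ α hα s = 1 := by
  rw [relKummerChar_apply_eq_one_iff]
  have hs' : (s : Ω ≃ₐ[k] Ω) ∈ (L ⊔ F).fixingSubgroup := by
    rw [IntermediateField.fixingSubgroup_sup]
    exact ⟨hs, s.2⟩
  exact (IntermediateField.mem_fixingSubgroup_iff _ _).mp hs' _ h

variable [IsGalois k Ω]

/-- The relative Kummer character of `α` is trivial on `L.fixingSubgroup ∩ F.fixingSubgroup`
iff `α ∈ L ⊔ F` (`L` any intermediate field of `Ω/k`). -/
theorem relKummerChar_trivial_on_iff {ζ : F} (hζ : IsPrimitiveRoot ζ p) (α : Ωˣ)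
    (hα : (α : Ω) ^ p ∈ F) (L : IntermediateField k Ω) :
    (∀ s : F.fixingSubgroup, (s : Ω ≃ₐ[k] Ω) ∈ L.fixingSubgroup →
        relKummerChar F hζ α hα s = 1) ↔ (α : Ω) ∈ L ⊔ F := by
  constructor
  · intro h
    rw [← InfiniteGalois.fixedField_fixingSubgroup (L ⊔ F), IntermediateField.mem_fixedField_iff]
    intro g hg
    rw [IntermediateField.fixingSubgroup_sup] at hg
    exact (relKummerChar_apply_eq_one_iff F hζ α hα ⟨g, hg.2⟩).mp (h ⟨g, hg.2⟩ hg.1)
  · intro h s hs
    exact relKummerChar_trivial_on_of_mem F hζ α hα L h s hs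

/-- The relative Kummer character of `α` is trivial iff `α ∈ F`. -/
theorem relKummerChar_eq_one_iff {ζ : F} (hζ : IsPrimitiveRoot ζ p) (α : Ωˣ)
    (hα : (α : Ω) ^ p ∈ F) : relKummerChar F hζ α hα = 1 ↔ (α : Ω) ∈ F := by
  constructor
  · intro h
    have h1 := (relKummerChar_trivial_on_iff F hζ α hα ⊥).mp (fun s _ => by rw [h]; rfl)
    simpa using h1
  · exact relKummerChar_eq_one_of_mem F hζ α hα

/-- Two relative Kummer characters agree iff the quotient of the radicals lies in `F`. -/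
theorem relKummerChar_eq_iff {ζ : F} (hζ : IsPrimitiveRoot ζ p) (α β : Ωˣ)
    (hα : (α : Ω) ^ p ∈ F) (hβ : (β : Ω) ^ p ∈ F) :
    relKummerChar F hζ α hα = relKummerChar F hζ β hβ ↔ (α : Ω) / β ∈ F := by
  have hβi := inv_pow_mem F β hβ
  have hm := mul_pow_mem F α β⁻¹ hα hβi
  have h1 := relKummerChar_mul F hζ α β⁻¹ hα hβi hm
  have h2 : relKummerChar F hζ β hβ * relKummerChar F hζ β⁻¹ hβi = 1 := by
    have hm' := mul_pow_mem F β β⁻¹ hβ hβi
    rw [← relKummerChar_mul F hζ β β⁻¹ hβ hβi hm']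
    apply relKummerChar_eq_one_of_mem
    simp
  have h3 : (α : Ω) / β = ((α * β⁻¹ : Ωˣ) : Ω) := by
    rw [Units.val_mul, Units.val_inv_eq_inv_val, div_eq_mul_inv]
  rw [h3, ← relKummerChar_eq_one_iff F hζ (α * β⁻¹) hm, h1]
  constructor
  · intro h
    rw [h, h2]
  · intro h
    have : relKummerChar F hζ α hα =
        relKummerChar F hζ α hα * (relKummerChar F hζ β hβ * relKummerChar F hζ β⁻¹ hβi) := by
      rw [h2, mul_one]
    rw [this, mul_comm (relKummerChar F hζ β hβ), ← mul_assoc, h, one_mul]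

/-- **Kummer surjectivity on `F.fixingSubgroup`, level form.** If `F` contains a primitive `p`-th
root of unity, every character of `F.fixingSubgroup ≤ Gal(Ω/k)` which is trivial on
`L.fixingSubgroup ∩ F.fixingSubgroup` for a finite `L/k` is the Kummer character of some
`α ∈ L ⊔ F` with `α ^ p ∈ F`. -/
theorem exists_relKummer_generator {ζ : F} (hζ : IsPrimitiveRoot ζ p)
    (χ : F.fixingSubgroup →* Multiplicative (ZMod p))
    (L : IntermediateField k Ω) [FiniteDimensional k L]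
    (hL : ∀ s : F.fixingSubgroup, (s : Ω ≃ₐ[k] Ω) ∈ L.fixingSubgroup → χ s = 1) :
    ∃ (α : Ωˣ) (hα : (α : Ω) ^ p ∈ F), (α : Ω) ∈ L ⊔ F ∧ relKummerChar F hζ α hα = χ := by
  -- the level over `F`
  let E : IntermediateField F Ω := IntermediateField.adjoin F (L : Set Ω)
  have hEfin : FiniteDimensional F E := by
    have h1 : Module.rank F E ≤ Module.rank k L :=
      IntermediateField.adjoin_rank_le_of_isAlgebraic_right F L
    exact Module.rank_lt_aleph0_iff.mp (lt_of_le_of_lt h1 (Module.rank_lt_aleph0 k L))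
  let e := IntermediateField.fixingSubgroupEquiv F
  let χ' : (Ω ≃ₐ[F] Ω) →* Multiplicative (ZMod p) := χ.comp e.symm.toMonoidHom
  have hE : E.fixingSubgroup ≤ χ'.ker := by
    intro g hg
    rw [MonoidHom.mem_ker]
    apply hL
    rw [IntermediateField.mem_fixingSubgroup_iff]
    intro x hx
    exact (IntermediateField.mem_fixingSubgroup_iff E g).mp hg x
      (IntermediateField.subset_adjoin F (L : Set Ω) hx)
  obtain ⟨α, hα, hχ⟩ := exists_kummer_generator (K := F) (Ω := Ω) hζ χ' E hE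
  have hα' : (α : Ω) ^ p ∈ F := by
    obtain ⟨a, ha⟩ := hα
    rw [← ha]
    exact a.2
  have hrel : relKummerChar F hζ α hα' = χ := by
    refine MonoidHom.ext fun s => ?_
    have := congrArg (fun f => f (e s)) hχ
    simp only [χ', MonoidHom.comp_apply, MulEquiv.coe_toMonoidHom, MulEquiv.symm_apply_apply]
      at this
    exact this
  refine ⟨α, hα', ?_, hrel⟩
  rw [← relKummerChar_trivial_on_iff F hζ α hα' L, hrel]
  exact hL

end Rel

section RelCongr

variable {k Ω : Type*} [Field k] [Field Ω] [Algebra k Ω]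
variable {p : ℕ} [Fact p.Prime]
variable (F : IntermediateField k Ω)

/-- The relative Kummer character only depends on `α ^ p`. -/
theorem relKummerChar_congr {ζ : F} (hζ : IsPrimitiveRoot ζ p) (α β : Ωˣ)
    (hα : (α : Ω) ^ p ∈ F) (hβ : (β : Ω) ^ p ∈ F) (h : (α : Ω) ^ p = (β : Ω) ^ p) :
    relKummerChar F hζ α hα = relKummerChar F hζ β hβ := by
  unfold relKummerChar
  rw [kummerChar_congr (K := F) (Ω := Ω) hζ α β ⟨⟨(α : Ω) ^ p, hα⟩, rfl⟩
    ⟨⟨(β : Ω) ^ p, hβ⟩, rfl⟩ h]

end RelCongr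

section RelHom

variable {k Ω : Type*} [Field k] [Field Ω] [Algebra k Ω]
variable (F : IntermediateField k Ω) (P : IntermediateField k Ω → Prop)

/-- Closure properties of a family `P` of "levels" (intermediate fields of `Ω/k`): all finite over
`k`, containing `⊥`, stable under compositum.  Examples: `P L := FiniteDimensional k L`;
`P L := L.IsUnramifiedOutside S` (frozen S55 vocabulary). -/
structure IsLevelFamily : Prop where
  finite : ∀ L, P L → FiniteDimensional k L
  bot : P ⊥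
  sup : ∀ L L', P L → P L' → P (L ⊔ L')

variable {P}

/-- The characters of `F.fixingSubgroup ≤ Gal(Ω/k)` which are trivial on
`L.fixingSubgroup ∩ F.fixingSubgroup` for some level `L` (`P L`). -/
def relLevelCharSubgroup (hP : IsLevelFamily P) (p : ℕ) :
    Subgroup (F.fixingSubgroup →* Multiplicative (ZMod p)) where
  carrier := {χ | ∃ L, P L ∧
    ∀ s : F.fixingSubgroup, (s : Ω ≃ₐ[k] Ω) ∈ L.fixingSubgroup → χ s = 1}
  one_mem' := ⟨⊥, hP.bot, fun _ _ => rfl⟩
  mul_mem' := by
    rintro χ χ' ⟨L, hL, h⟩ ⟨L', hL', h'⟩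
    refine ⟨L ⊔ L', hP.sup L L' hL hL', fun s hs => ?_⟩
    rw [IntermediateField.fixingSubgroup_sup] at hs
    rw [MonoidHom.mul_apply, h s hs.1, h' s hs.2, mul_one]
  inv_mem' := by
    rintro χ ⟨L, hL, h⟩
    exact ⟨L, hL, fun s hs => by rw [MonoidHom.inv_apply, h s hs, inv_one]⟩

/-- The elements of `Fˣ` having a `p`-th root in `L ⊔ F` for some level `L` (`P L`). -/
def relKummerSubgroup (hP : IsLevelFamily P) (p : ℕ) : Subgroup Fˣ where
  carrier := {a | ∃ L, P L ∧ ∃ α : Ω, α ∈ L ⊔ F ∧ α ^ p = ((a : F) : Ω)}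
  one_mem' := ⟨⊥, hP.bot, 1, one_mem _, by simp⟩
  mul_mem' := by
    rintro a b ⟨L, hL, α, hα, hαa⟩ ⟨L', hL', β, hβ, hβb⟩
    refine ⟨L ⊔ L', hP.sup L L' hL hL', α * β, ?_, ?_⟩
    · exact mul_mem (sup_le_sup_right (le_sup_left : L ≤ L ⊔ L') F hα)
        (sup_le_sup_right (le_sup_right : L' ≤ L ⊔ L') F hβ)
    · rw [mul_pow, hαa, hβb]; simp
  inv_mem' := by
    rintro a ⟨L, hL, α, hα, hαa⟩
    exact ⟨L, hL, α⁻¹, inv_mem hα, by rw [inv_pow, hαa]; simp⟩

variable {F}

theorem mem_relLevelCharSubgroup_iff (hP : IsLevelFamily P) {p : ℕ}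
    (χ : F.fixingSubgroup →* Multiplicative (ZMod p)) :
    χ ∈ relLevelCharSubgroup F hP p ↔ ∃ L, P L ∧
      ∀ s : F.fixingSubgroup, (s : Ω ≃ₐ[k] Ω) ∈ L.fixingSubgroup → χ s = 1 := Iff.rfl

theorem mem_relKummerSubgroup_iff (hP : IsLevelFamily P) {p : ℕ} (a : Fˣ) :
    a ∈ relKummerSubgroup F hP p ↔
      ∃ L, P L ∧ ∃ α : Ω, α ∈ L ⊔ F ∧ α ^ p = ((a : F) : Ω) := Iff.rfl

/-- `p`-th powers of `Fˣ` lie in the relative Kummer subgroup. -/
theorem pow_mem_relKummerSubgroup (hP : IsLevelFamily P) {p : ℕ} (b : Fˣ) :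
    b ^ p ∈ relKummerSubgroup F hP p :=
  ⟨⊥, hP.bot, ((b : F) : Ω), (le_sup_right : F ≤ ⊥ ⊔ F) (b : F).2, by simp⟩

/-- If every element of `Fˣ` has a `p`-th root in `L ⊔ F` for some level `L` (e.g. `Ω` separably
closed of characteristic `≠ p` and `P = FiniteDimensional`), the relative Kummer subgroup is
everything. -/
theorem relKummerSubgroup_eq_top (hP : IsLevelFamily P) {p : ℕ}
    (hroot : ∀ a : Fˣ, ∃ L, P L ∧ ∃ α : Ω, α ∈ L ⊔ F ∧ α ^ p = ((a : F) : Ω)) :
    relKummerSubgroup F hP p = ⊤ :=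
  eq_top_iff.mpr fun a _ => hroot a

variable {p : ℕ} [Fact p.Prime]

/-- A chosen `p`-th root (as a unit of `Ω`) of an element of the relative Kummer subgroup. -/
noncomputable def relKummerRoot (hP : IsLevelFamily P) (a : relKummerSubgroup F hP p) : Ωˣ :=
  Units.mk0 a.2.choose_spec.2.choose (by
    have h := a.2.choose_spec.2.choose_spec.2
    intro h0
    rw [h0, zero_pow (Fact.out : p.Prime).ne_zero] at h
    have h1 : (((a : Fˣ) : F) : Ω) ≠ 0 := by
      have : ((a : Fˣ) : F) ≠ 0 := (a : Fˣ).ne_zero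
      exact_mod_cast this
    exact h1 h.symm)

theorem relKummerRoot_pow (hP : IsLevelFamily P) (a : relKummerSubgroup F hP p) :
    ((relKummerRoot hP a : Ωˣ) : Ω) ^ p = (((a : Fˣ) : F) : Ω) :=
  a.2.choose_spec.2.choose_spec.2

theorem relKummerRoot_pow_mem (hP : IsLevelFamily P) (a : relKummerSubgroup F hP p) :
    ((relKummerRoot hP a : Ωˣ) : Ω) ^ p ∈ F := by
  rw [relKummerRoot_pow]
  exact ((a : Fˣ) : F).2

/-- The relative Kummer character of any `p`-th root of `a ∈ relKummerSubgroup` is a level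
character. -/
theorem relKummerChar_mem_relLevelCharSubgroup (hP : IsLevelFamily P) {ζ : F}
    (hζ : IsPrimitiveRoot ζ p) (a : relKummerSubgroup F hP p) (α : Ωˣ)
    (hα : (α : Ω) ^ p = (((a : Fˣ) : F) : Ω)) :
    relKummerChar F hζ α (by rw [hα]; exact ((a : Fˣ) : F).2) ∈ relLevelCharSubgroup F hP p := by
  obtain ⟨L, hL, β, hβ, hβa⟩ := a.2
  have hβ0 : β ≠ 0 := by
    rintro rfl
    rw [zero_pow (Fact.out : p.Prime).ne_zero] at hβa
    have h1 : (((a : Fˣ) : F) : Ω) ≠ 0 := by
      have : ((a : Fˣ) : F) ≠ 0 := (a : Fˣ).ne_zero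
      exact_mod_cast this
    exact h1 hβa.symm
  have hβF : ((Units.mk0 β hβ0 : Ωˣ) : Ω) ^ p ∈ F := by
    rw [Units.val_mk0, hβa]; exact ((a : Fˣ) : F).2
  rw [relKummerChar_congr F hζ α (Units.mk0 β hβ0) _ hβF (by rw [hα, Units.val_mk0, hβa])]
  exact ⟨L, hL, fun s hs =>
    relKummerChar_trivial_on_of_mem F hζ (Units.mk0 β hβ0) hβF L hβ s hs⟩

/-- The **relative Kummer homomorphism** `a ↦ χ_a` from the relative Kummer subgroup of `Fˣ` to
the characters of `F.fixingSubgroup`. -/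
noncomputable def relKummerHom (hP : IsLevelFamily P) {ζ : F} (hζ : IsPrimitiveRoot ζ p) :
    relKummerSubgroup F hP p →* (F.fixingSubgroup →* Multiplicative (ZMod p)) where
  toFun a := relKummerChar F hζ (relKummerRoot hP a) (relKummerRoot_pow_mem hP a)
  map_one' := by
    have h1 : ((1 : Ωˣ) : Ω) ^ p ∈ F := by simp
    refine (relKummerChar_congr F hζ (relKummerRoot hP 1) 1 (relKummerRoot_pow_mem hP 1) h1
      ?_).trans ?_
    · rw [relKummerRoot_pow]; simp
    · exact relKummerChar_eq_one_of_mem F hζ 1 h1 (by simp)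
  map_mul' a b := by
    refine (relKummerChar_congr F hζ (relKummerRoot hP (a * b))
      (relKummerRoot hP a * relKummerRoot hP b) (relKummerRoot_pow_mem hP (a * b))
      (mul_pow_mem F _ _ (relKummerRoot_pow_mem hP a) (relKummerRoot_pow_mem hP b)) ?_).trans
      (relKummerChar_mul F hζ _ _ _ _ _)
    rw [relKummerRoot_pow, Units.val_mul, mul_pow, relKummerRoot_pow, relKummerRoot_pow]
    simp

theorem relKummerHom_apply (hP : IsLevelFamily P) {ζ : F} (hζ : IsPrimitiveRoot ζ p)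
    (a : relKummerSubgroup F hP p) (α : Ωˣ) (hα : (α : Ω) ^ p = (((a : Fˣ) : F) : Ω)) :
    relKummerHom hP hζ a = relKummerChar F hζ α (by rw [hα]; exact ((a : Fˣ) : F).2) :=
  relKummerChar_congr F hζ (relKummerRoot hP a) α (relKummerRoot_pow_mem hP a) _
    (by rw [relKummerRoot_pow, hα])

/-- Defining property of the relative Kummer homomorphism. -/
theorem relKummerHom_spec (hP : IsLevelFamily P) {ζ : F} (hζ : IsPrimitiveRoot ζ p)
    (a : relKummerSubgroup F hP p) (α : Ωˣ) (hα : (α : Ω) ^ p = (((a : Fˣ) : F) : Ω))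
    (s : F.fixingSubgroup) :
    (s : Ω ≃ₐ[k] Ω) (α : Ω) =
      (ζ : Ω) ^ (Multiplicative.toAdd (relKummerHom hP hζ a s)).val * α := by
  rw [relKummerHom_apply hP hζ a α hα]
  exact relKummerChar_spec F hζ α _ s

theorem relKummerHom_mem_relLevelCharSubgroup (hP : IsLevelFamily P) {ζ : F}
    (hζ : IsPrimitiveRoot ζ p) (a : relKummerSubgroup F hP p) :
    relKummerHom hP hζ a ∈ relLevelCharSubgroup F hP p :=
  relKummerChar_mem_relLevelCharSubgroup hP hζ a (relKummerRoot hP a) (relKummerRoot_pow hP a)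

variable [IsGalois k Ω]

/-- The kernel of the relative Kummer homomorphism consists of the `p`-th powers of `Fˣ`. -/
theorem relKummerHom_eq_one_iff (hP : IsLevelFamily P) {ζ : F} (hζ : IsPrimitiveRoot ζ p)
    (a : relKummerSubgroup F hP p) :
    relKummerHom hP hζ a = 1 ↔ ∃ b : Fˣ, b ^ p = (a : Fˣ) := by
  show relKummerChar F hζ (relKummerRoot hP a) (relKummerRoot_pow_mem hP a) = 1 ↔ _
  rw [relKummerChar_eq_one_iff]
  constructor
  · intro h
    have h0 : (⟨(relKummerRoot hP a : Ω), h⟩ : F) ≠ 0 := by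
      intro h0
      exact (relKummerRoot hP a).ne_zero (congrArg (fun x : F => (x : Ω)) h0)
    refine ⟨Units.mk0 ⟨(relKummerRoot hP a : Ω), h⟩ h0, Units.ext (Subtype.ext ?_)⟩
    rw [Units.val_pow_eq_pow_val, Units.val_mk0]
    exact relKummerRoot_pow hP a
  · rintro ⟨b, hb⟩
    -- `b` is another `p`-th root of `a`, so the root is `ζ ^ i * b ∈ F`
    have hp : p ≠ 0 := (Fact.out : p.Prime).ne_zero
    have : NeZero p := ⟨hp⟩
    have hζΩ : IsPrimitiveRoot (ζ : Ω) p :=
      hζ.map_of_injective (f := algebraMap F Ω) (algebraMap F Ω).injective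
    have hbΩ : ((b : F) : Ω) ≠ 0 := by
      have : (b : F) ≠ 0 := b.ne_zero
      exact_mod_cast this
    have h1 : ((relKummerRoot hP a : Ω) / ((b : F) : Ω)) ^ p = 1 := by
      rw [div_pow, relKummerRoot_pow, ← hb, Units.val_pow_eq_pow_val]
      push_cast
      exact div_self (pow_ne_zero _ hbΩ)
    obtain ⟨i, -, hi⟩ := hζΩ.eq_pow_of_pow_eq_one h1
    have h2 : (relKummerRoot hP a : Ω) = (ζ : Ω) ^ i * ((b : F) : Ω) := by
      rw [hi, div_mul_cancel₀ _ hbΩ]
    rw [h2]
    exact F.mul_mem (pow_mem ζ.2 i) (b : F).2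

theorem relKummerHom_ker (hP : IsLevelFamily P) {ζ : F} (hζ : IsPrimitiveRoot ζ p) :
    (relKummerHom hP hζ).ker =
      ((powMonoidHom p : Fˣ →* Fˣ).range).subgroupOf (relKummerSubgroup F hP p) := by
  ext a
  rw [MonoidHom.mem_ker, relKummerHom_eq_one_iff, Subgroup.mem_subgroupOf, MonoidHom.mem_range]
  rfl

/-- **Relative Kummer theory, level form**: the image of the relative Kummer homomorphism is
exactly the group of `P`-level characters of `F.fixingSubgroup`. -/
theorem relKummerHom_range (hP : IsLevelFamily P) {ζ : F} (hζ : IsPrimitiveRoot ζ p) :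
    (relKummerHom hP hζ).range = relLevelCharSubgroup F hP p := by
  ext χ
  constructor
  · rintro ⟨a, rfl⟩
    exact relKummerHom_mem_relLevelCharSubgroup hP hζ a
  · rintro ⟨L, hL, hχ⟩
    have := hP.finite L hL
    obtain ⟨α, hα, hαL, rfl⟩ := exists_relKummer_generator F hζ χ L hχ
    have ha0 : (⟨(α : Ω) ^ p, hα⟩ : F) ≠ 0 := by
      intro h0
      exact pow_ne_zero p α.ne_zero (congrArg (fun x : F => (x : Ω)) h0)
    exact ⟨⟨Units.mk0 ⟨(α : Ω) ^ p, hα⟩ ha0, ⟨L, hL, (α : Ω), hαL, rfl⟩⟩,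
      relKummerHom_apply hP hζ _ α rfl⟩

/-- **Relative Kummer isomorphism**
`{a ∈ Fˣ | a has a p-th root in some L ⊔ F, P L} / Fˣᵖ ≃ {P-level characters of F.fixingSubgroup}`. -/
noncomputable def relKummerEquiv (hP : IsLevelFamily P) {ζ : F} (hζ : IsPrimitiveRoot ζ p) :
    (relKummerSubgroup F hP p ⧸
        ((powMonoidHom p : Fˣ →* Fˣ).range).subgroupOf (relKummerSubgroup F hP p)) ≃*
      relLevelCharSubgroup F hP p :=
  (QuotientGroup.quotientMulEquivOfEq (relKummerHom_ker hP hζ).symm).trans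
    ((QuotientGroup.quotientKerEquivRange (relKummerHom hP hζ)).trans
      (MulEquiv.subgroupCongr (relKummerHom_range hP hζ)))

/-- Cardinality form of the relative Kummer isomorphism. -/
theorem card_relLevelCharSubgroup_eq (hP : IsLevelFamily P) {ζ : F} (hζ : IsPrimitiveRoot ζ p) :
    Nat.card (relLevelCharSubgroup F hP p) =
      Nat.card (relKummerSubgroup F hP p ⧸
        ((powMonoidHom p : Fˣ →* Fˣ).range).subgroupOf (relKummerSubgroup F hP p)) :=
  (Nat.card_congr (relKummerEquiv hP hζ).toEquiv).symm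

end RelHom

section FiniteLevels

variable {k Ω : Type*} [Field k] [Field Ω] [Algebra k Ω]

/-- The family of all finite subextensions is a level family. -/
theorem isLevelFamily_finiteDimensional :
    IsLevelFamily (fun L : IntermediateField k Ω => FiniteDimensional k L) where
  finite _ h := h
  bot := inferInstance
  sup L L' h h' := by
    have := h; have := h'
    exact IntermediateField.finiteDimensional_sup L L'

variable {p : ℕ} {F : IntermediateField k Ω}

/-- For the family of all finite levels and `F` with `p`-th roots in `Ω` for all its elements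
(`Ω/k` algebraic), every unit of `F` is in the relative Kummer subgroup. -/
theorem relKummerSubgroup_finiteDimensional_eq_top [Algebra.IsAlgebraic k Ω]
    (hroot : ∀ a : F, ∃ α : Ω, α ^ p = (a : Ω)) :
    relKummerSubgroup F (isLevelFamily_finiteDimensional (k := k) (Ω := Ω)) p = ⊤ := by
  refine relKummerSubgroup_eq_top _ fun a => ?_
  obtain ⟨α, hα⟩ := hroot (a : F)
  have hint : IsIntegral k α := Algebra.IsIntegral.isIntegral α
  exact ⟨k⟮α⟯, IntermediateField.adjoin.finiteDimensional hint, α,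
    (le_sup_left : k⟮α⟯ ≤ k⟮α⟯ ⊔ F) (IntermediateField.mem_adjoin_simple_self k α), hα⟩

/-- Cardinality of the group of finite-level characters of `F.fixingSubgroup` when all elements of
`F` have `p`-th roots in `Ω`: it is the index of the `p`-th powers in `Fˣ`. -/
theorem card_relLevelCharSubgroup_finiteDimensional [Fact p.Prime] [IsGalois k Ω] {ζ : F}
    (hζ : IsPrimitiveRoot ζ p) (hroot : ∀ a : F, ∃ α : Ω, α ^ p = (a : Ω)) :
    Nat.card (relLevelCharSubgroup F (isLevelFamily_finiteDimensional (k := k) (Ω := Ω)) p) =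
      Nat.card (Fˣ ⧸ (powMonoidHom p : Fˣ →* Fˣ).range) := by
  rw [card_relLevelCharSubgroup_eq _ hζ]
  have htop := relKummerSubgroup_finiteDimensional_eq_top (k := k) (F := F) (p := p) hroot
  rw [← Subgroup.index_eq_card, ← Subgroup.index_eq_card, Subgroup.index, Subgroup.index]
  show ((powMonoidHom p : Fˣ →* Fˣ).range).relIndex
    (relKummerSubgroup F (isLevelFamily_finiteDimensional (k := k) (Ω := Ω)) p) = _
  rw [htop, Subgroup.relIndex_top_right]
  rfl

end FiniteLevels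

end Fermat.Agent.S55.helper6119
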