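import Mathlib
import Fermat.Prelude.Def_GroupCohomology_ContinuousUnramified
import Fermat.Agent.S55.helper2598_Frame

/-!
# S55 — the frozen carriers in the level framework: smoothness, localisation, `Ш` (helper6169)

Built on `helper7486_LevelCoh` (abstract level cohomology) and `helper2598_Frame`
(`globalLevels S`, `localLevels r`, `LH2equivS`, `LH2equiv`, `LH1toH1`, `LH1equivS`, `LH1equiv`).
This file adds

* (b) smoothness: the hypotheses of the frozen statement (`hsm`, `hMur`, finiteness) give
  `(globalLevels S).Smooth M`, and the restrictions are smooth for the local levels;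
* (c) localisation: the frozen `locRes₂S` is `resH2`, the frozen `continuousH2Map` /
  `continuousH2MapHom` are `LH2map`, and Mathlib's `groupCohomology.map f ψ 1` (hence the frozen
  `locRes`) is `LH1map` / `resH1` on level classes;
* (d) the frozen `sha₁`, `sha₂` as the common kernels `levSha₁`, `levSha₂` of the level
  restriction maps `resH1`, `resH2` to the local groups.
-/

set_option autoImplicit false

open CategoryTheory groupCohomology ExtCitation
open Fermat.Agent.S55.helper7486

noncomputable section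

namespace Fermat.Agent.S55.helper6169

universe u

local notation "Γℚ" => (AlgebraicClosure ℚ ≃ₐ[ℚ] AlgebraicClosure ℚ)

/-! ## (b) Smoothness of the frozen modules -/

section Smooth

variable (S : Finset Nat.Primes) {k : Type} [CommRing k] (M : Rep k Γℚ)

/-- Under the hypotheses of the frozen statement (`hsm`, `hMur`, finiteness), `M` is smooth for
the global `S`-levels. -/
theorem smooth_globalLevels [Module.Finite k M]
    (hsm : ∀ m : M, ∃ F : IntermediateField ℚ (AlgebraicClosure ℚ), FiniteDimensional ℚ F ∧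
      ∀ s ∈ F.fixingSubgroup, M.ρ s m = m)
    (hMur : ∀ q : Nat.Primes, q ∉ S → ∀ A : ValuationSubring (AlgebraicClosure ℚ),
      A.LiesOverPrime (q : ℕ) → ∀ g ∈ A.inertiaSubgroupIn ℚ, M.ρ g = 1) :
    (helper2598.globalLevels S).Smooth M := by
  obtain ⟨K, hK, -, -, -, hKρ⟩ := helper4039.exists_splitting_sfield (S := S) M.ρ hsm hMur
  exact fun m => ⟨_, helper2598.globalLevels_P S hK, fun s hs => by rw [(hKρ s).1 hs]; rfl⟩

/-- A module smooth for the global `S`-levels satisfies `hsm`. -/
lemma hsm_of_smooth_globalLevels (h : (helper2598.globalLevels S).Smooth M) (m : M) :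
    ∃ F : IntermediateField ℚ (AlgebraicClosure ℚ), FiniteDimensional ℚ F ∧
      ∀ s ∈ F.fixingSubgroup, M.ρ s m = m := by
  obtain ⟨_, ⟨F, hF, rfl⟩, hfix⟩ := h m
  exact ⟨F, hF.1, hfix⟩

/-- A module smooth for the global `S`-levels satisfies `hMur`. -/
lemma hMur_of_smooth_globalLevels (h : (helper2598.globalLevels S).Smooth M)
    (q : Nat.Primes) (hq : q ∉ S) (A : ValuationSubring (AlgebraicClosure ℚ))
    (hA : A.LiesOverPrime (q : ℕ)) (g : Γℚ) (hg : g ∈ A.inertiaSubgroupIn ℚ) : M.ρ g = 1 := by
  ext m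
  obtain ⟨_, ⟨F, hF, rfl⟩, hfix⟩ := h m
  exact hfix g (hF.2 q hq A hA hg)

/-- For a finitely generated module, smoothness for the global `S`-levels is exactly the pair of
hypotheses `hsm`, `hMur` of the frozen statement. -/
theorem smooth_globalLevels_iff [Module.Finite k M] :
    (helper2598.globalLevels S).Smooth M ↔
      (∀ m : M, ∃ F : IntermediateField ℚ (AlgebraicClosure ℚ), FiniteDimensional ℚ F ∧
        ∀ s ∈ F.fixingSubgroup, M.ρ s m = m) ∧
      (∀ q : Nat.Primes, q ∉ S → ∀ A : ValuationSubring (AlgebraicClosure ℚ),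
        A.LiesOverPrime (q : ℕ) → ∀ g ∈ A.inertiaSubgroupIn ℚ, M.ρ g = 1) :=
  ⟨fun h => ⟨hsm_of_smooth_globalLevels S M h, hMur_of_smooth_globalLevels S M h⟩,
    fun h => smooth_globalLevels S M h.1 h.2⟩

/-- The restriction of a module smooth for the global `S`-levels is smooth for the local
levels. -/
lemma smooth_localLevels_res (hM : (helper2598.globalLevels S).Smooth M) {H : Type} [Group H]
    (r : H →* Γℚ) : (helper2598.localLevels r).Smooth (Rep.res r M) :=
  hM.of_compat (helper2598.compat_global_local S r)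

/-- `hsm` alone gives smoothness of the restriction for the local levels. -/
lemma smooth_localLevels_res_of_hsm
    (hsm : ∀ m : M, ∃ F : IntermediateField ℚ (AlgebraicClosure ℚ), FiniteDimensional ℚ F ∧
      ∀ s ∈ F.fixingSubgroup, M.ρ s m = m) {H : Type} [Group H] (r : H →* Γℚ) :
    (helper2598.localLevels r).Smooth (Rep.res r M) := by
  intro m
  obtain ⟨F, hF, h⟩ := hsm m
  exact ⟨_, ⟨F, hF, rfl⟩, fun s hs => h (r s) hs⟩

end Smooth

/-! ## (c) The frozen maps in the level framework -/

section H2Maps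

variable {k : Type u} [CommRing k] {G H : Type u} [Group G] [Group H]
  {rG : G →* Γℚ} {rH : H →* Γℚ}

/-- The frozen `continuousH2Map` is `LH2map` under the dictionary. -/
lemma continuousH2Map_LH2equiv (f : G →* H) (hf : ∀ g, rH (f g) = rG g)
    {A : Rep.{u, u, u} k H} {B : Rep.{u, u, u} k G} (φ : A →ₗ[k] B)
    (hφ : ∀ (g : G) (a : A), φ (A.ρ (f g) a) = B.ρ g (φ a))
    (x : LH2 (helper2598.localLevels rH) A) :
    continuousH2Map (rH := rH) (rG := rG) f hf φ hφ (helper2598.LH2equiv rH A x) =
      helper2598.LH2equiv rG B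
        (LH2map φ (helper2598.compat_local_local rH rG f hf) hφ x) := by
  obtain ⟨z, rfl⟩ := LH2.mk_surjective x
  rfl

/-- The frozen `continuousH2MapHom` (functoriality in the module) is `LH2map` with `f = id`. -/
lemma continuousH2MapHom_LH2equiv {A B : Rep.{u, u, u} k G} (φ : A ⟶ B)
    (x : LH2 (helper2598.localLevels rG) A) :
    continuousH2MapHom rG φ (helper2598.LH2equiv rG A x) =
      helper2598.LH2equiv rG B
        (LH2map (f := MonoidHom.id G) (A := A) (B := B) φ.hom.toLinearMap
          (helper2598.localLevels rG).compat_id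
          (fun g a => Rep.hom_comm_apply φ g a) x) := by
  obtain ⟨z, rfl⟩ := LH2.mk_surjective x
  rfl

end H2Maps

section Localisation

variable (S : Finset Nat.Primes) {H : Type} [Group H] (r : H →* Γℚ)
variable {k : Type} [CommRing k] (M : Rep k Γℚ)

/-- The frozen localisation map `locRes₂S` is `resH2` under the dictionary. -/
lemma locRes₂S_LH2equivS (x : LH2 (helper2598.globalLevels S) M) :
    locRes₂S S M r (helper2598.LH2equivS S M x) =
      helper2598.LH2equiv r (Rep.res r M)
        (resH2 (helper2598.compat_global_local S r) M x) := by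
  obtain ⟨z, rfl⟩ := LH2.mk_surjective x
  rfl

/-- The frozen localisation map `locRes₂S` is `resH2` under the dictionary (inverse form). -/
lemma LH2equiv_symm_locRes₂S (y : continuousH2S S M) :
    (helper2598.LH2equiv r (Rep.res r M)).symm (locRes₂S S M r y) =
      resH2 (helper2598.compat_global_local S r) M ((helper2598.LH2equivS S M).symm y) := by
  obtain ⟨x, rfl⟩ := (helper2598.LH2equivS S M).surjective y
  rw [locRes₂S_LH2equivS, LinearEquiv.symm_apply_apply, LinearEquiv.symm_apply_apply]

/-- A class of `continuousH2S S M` is killed by `locRes₂S` iff the corresponding level class is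
killed by `resH2`. -/
lemma locRes₂S_eq_zero_iff (x : LH2 (helper2598.globalLevels S) M) :
    locRes₂S S M r (helper2598.LH2equivS S M x) = 0 ↔
      resH2 (helper2598.compat_global_local S r) M x = 0 := by
  rw [locRes₂S_LH2equivS, LinearEquiv.map_eq_zero_iff]

end Localisation

section H1Maps

variable {k G H : Type u} [CommRing k] [Group G] [Group H] {𝓛G : Levels G} {𝓛H : Levels H}
  {f : G →* H}

/-- Mathlib's `groupCohomology.map f ψ 1` is `LH1map` on level classes. -/
lemma map_LH1toH1 (hc : 𝓛G.Compat 𝓛H f) {A : Rep.{u, u, u} k H} {B : Rep.{u, u, u} k G}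
    (ψ : Rep.res f A ⟶ B) (x : LH1 𝓛H A) :
    (groupCohomology.map f ψ 1).hom (helper2598.LH1toH1 𝓛H A x) =
      helper2598.LH1toH1 𝓛G B (LH1map (f := f) (A := A) (B := B) ψ.hom.toLinearMap hc
        (fun g a => Rep.hom_comm_apply ψ g a) x) := by
  obtain ⟨z, rfl⟩ := LH1.mk_surjective x
  rw [helper2598.LH1toH1_mk, LH1map_mk, helper2598.LH1toH1_mk]
  exact H1π_comp_map_apply f ψ _

/-- Mathlib's restriction `groupCohomology.map f (𝟙 _) 1` (the frozen `locRes`) is `resH1` on
level classes. -/
lemma map_id_LH1toH1 (hc : 𝓛G.Compat 𝓛H f) (A : Rep.{u, u, u} k H) (x : LH1 𝓛H A) :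
    (groupCohomology.map f (𝟙 (Rep.res f A)) 1).hom (helper2598.LH1toH1 𝓛H A x) =
      helper2598.LH1toH1 𝓛G (Rep.res f A) (resH1 hc A x) := by
  obtain ⟨z, rfl⟩ := LH1.mk_surjective x
  rw [helper2598.LH1toH1_mk, resH1_mk, helper2598.LH1toH1_mk]
  exact H1π_comp_map_apply f (𝟙 (Rep.res f A)) _

/-- A level class is killed by Mathlib's restriction iff it is killed by `resH1`. -/
lemma map_id_LH1toH1_eq_zero_iff (hc : 𝓛G.Compat 𝓛H f) (A : Rep.{u, u, u} k H) (x : LH1 𝓛H A) :
    (groupCohomology.map f (𝟙 (Rep.res f A)) 1).hom (helper2598.LH1toH1 𝓛H A x) = 0 ↔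
      resH1 hc A x = 0 := by
  rw [map_id_LH1toH1 hc A x]
  exact ⟨fun h => helper2598.LH1toH1_injective 𝓛G (Rep.res f A) (by rw [h, map_zero]),
    fun h => by rw [h, map_zero]⟩

end H1Maps

/-! ## (d) `Ш¹` and `Ш²` in the level framework -/

section Sha

variable (S : Finset Nat.Primes)

/-- The level `Ш²`: classes of the level `H²` of the global `S`-levels killed by all the
restrictions `resH2` to the local groups `extArithLoc S v`. -/
def levSha₂ {k : Type} [CommRing k] (M : Rep k Γℚ) :
    Submodule k (LH2 (helper2598.globalLevels S) M) :=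
  ⨅ v : extArithIndex S,
    LinearMap.ker (resH2 (helper2598.compat_global_local S (extArithLoc S v)) M)

lemma mem_levSha₂_iff {k : Type} [CommRing k] (M : Rep k Γℚ)
    (x : LH2 (helper2598.globalLevels S) M) :
    x ∈ levSha₂ S M ↔ ∀ v : extArithIndex S,
      resH2 (helper2598.compat_global_local S (extArithLoc S v)) M x = 0 := by
  simp only [levSha₂, Submodule.mem_iInf, LinearMap.mem_ker]

/-- The frozen `sha₂` corresponds to `levSha₂` under `LH2equivS`. -/
lemma LH2equivS_mem_sha₂_iff {k : Type} [CommRing k] (M : Rep k Γℚ)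
    (x : LH2 (helper2598.globalLevels S) M) :
    helper2598.LH2equivS S M x ∈ sha₂ S M ↔ x ∈ levSha₂ S M := by
  rw [mem_levSha₂_iff, sha₂, LinearMap.mem_ker]
  constructor
  · intro h v
    have hv := congrFun h v
    rw [locTotal₂S_apply] at hv
    exact (locRes₂S_eq_zero_iff S (extArithLoc S v) M x).1 hv
  · intro h
    funext v
    rw [locTotal₂S_apply]
    exact (locRes₂S_eq_zero_iff S (extArithLoc S v) M x).2 (h v)

/-- The frozen `sha₂` is the image of `levSha₂` under `LH2equivS`. -/
lemma map_levSha₂ {k : Type} [CommRing k] (M : Rep k Γℚ) :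
    (levSha₂ S M).map (helper2598.LH2equivS S M).toLinearMap = sha₂ S M := by
  ext y
  obtain ⟨x, rfl⟩ := (helper2598.LH2equivS S M).surjective y
  rw [LH2equivS_mem_sha₂_iff]
  constructor
  · rintro ⟨x', hx', h⟩
    rwa [← (helper2598.LH2equivS S M).injective h]
  · intro hx
    exact ⟨x, hx, rfl⟩

/-- The level `Ш²` is the frozen `sha₂`. -/
def levSha₂Equiv {k : Type} [CommRing k] (M : Rep k Γℚ) :
    ↥(levSha₂ S M) ≃ₗ[k] ↥(sha₂ S M) :=
  ((helper2598.LH2equivS S M).submoduleMap (levSha₂ S M)).trans
    (LinearEquiv.ofEq _ _ (map_levSha₂ S M))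

@[simp]
lemma coe_levSha₂Equiv {k : Type} [CommRing k] (M : Rep k Γℚ) (x : ↥(levSha₂ S M)) :
    (levSha₂Equiv S M x : continuousH2S S M) = helper2598.LH2equivS S M (x : LH2 _ M) := rfl

/-- The level `Ш¹`: classes of the level `H¹` of the global `S`-levels killed by all the
restrictions `resH1` to the local groups `extArithLoc S v`. -/
def levSha₁ {K : Type} [Field K] (A : Rep K Γℚ) :
    Submodule K (LH1 (helper2598.globalLevels S) A) :=
  ⨅ v : extArithIndex S,
    LinearMap.ker (resH1 (helper2598.compat_global_local S (extArithLoc S v)) A)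

lemma mem_levSha₁_iff {K : Type} [Field K] (A : Rep K Γℚ)
    (x : LH1 (helper2598.globalLevels S) A) :
    x ∈ levSha₁ S A ↔ ∀ v : extArithIndex S,
      resH1 (helper2598.compat_global_local S (extArithLoc S v)) A x = 0 := by
  simp only [levSha₁, Submodule.mem_iInf, LinearMap.mem_ker]

/-- The frozen `sha₁` corresponds to `levSha₁` under `LH1toH1`. -/
lemma LH1toH1_mem_sha₁_iff {K : Type} [Field K] (A : Rep K Γℚ)
    (x : LH1 (helper2598.globalLevels S) A) :
    helper2598.LH1toH1 (helper2598.globalLevels S) A x ∈ sha₁ S A ↔ x ∈ levSha₁ S A := by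
  rw [mem_levSha₁_iff, sha₁, Submodule.mem_inf, LinearMap.mem_ker]
  have h1 : helper2598.LH1toH1 (helper2598.globalLevels S) A x ∈ continuousH1S S A :=
    (helper2598.LH1equivS S A x).2
  constructor
  · rintro ⟨-, h⟩ v
    have hv := congrFun h v
    rw [locTotal_apply] at hv
    exact (map_id_LH1toH1_eq_zero_iff
      (helper2598.compat_global_local S (extArithLoc S v)) A x).1 hv
  · intro h
    refine ⟨h1, ?_⟩
    funext v
    rw [locTotal_apply]
    exact (map_id_LH1toH1_eq_zero_iff
      (helper2598.compat_global_local S (extArithLoc S v)) A x).2 (h v)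

/-- The frozen `sha₁` is the image of `levSha₁` under `LH1toH1`. -/
lemma map_levSha₁ {K : Type} [Field K] (A : Rep K Γℚ) :
    (levSha₁ S A).map (helper2598.LH1toH1 (helper2598.globalLevels S) A) = sha₁ S A := by
  ext y
  constructor
  · rintro ⟨x, hx, rfl⟩
    exact (LH1toH1_mem_sha₁_iff S A x).2 hx
  · intro hy
    have hy1 : y ∈ continuousH1S S A := hy.1
    have hyx : helper2598.LH1toH1 (helper2598.globalLevels S) A
        ((helper2598.LH1equivS S A).symm ⟨y, hy1⟩) = y :=
      helper2598.LH1toH1_LH1equivS_symm S A ⟨y, hy1⟩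
    refine ⟨(helper2598.LH1equivS S A).symm ⟨y, hy1⟩,
      (LH1toH1_mem_sha₁_iff S A _).1 ?_, hyx⟩
    rw [hyx]
    exact hy

/-- The level `Ш¹` is the frozen `sha₁`. -/
def levSha₁Equiv {K : Type} [Field K] (A : Rep K Γℚ) :
    ↥(levSha₁ S A) ≃ₗ[K] ↥(sha₁ S A) :=
  (Submodule.equivMapOfInjective (helper2598.LH1toH1 (helper2598.globalLevels S) A)
    (helper2598.LH1toH1_injective (helper2598.globalLevels S) A) (levSha₁ S A)).trans
    (LinearEquiv.ofEq _ _ (map_levSha₁ S A))

@[simp]
lemma coe_levSha₁Equiv {K : Type} [Field K] (A : Rep K Γℚ) (x : ↥(levSha₁ S A)) :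
    (levSha₁Equiv S A x : H1 A) =
      helper2598.LH1toH1 (helper2598.globalLevels S) A (x : LH1 _ A) := rfl

end Sha

end Fermat.Agent.S55.helper6169
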