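import Mathlib

/-!
# S55 / NF-CLH2, part (P1): the abstract Kummer-type core (helper6397)

`G` a group acting on a commutative group `M` (`MulDistribMulAction`), `Lev` a family of
subgroups ("levels"), `p` a natural number.  Hypothesis `H90`: every level-constant 1-cocycle
`G → M` is a coboundary `g ↦ g • γ / γ`.

For `α : M` and a 1-cochain `b` with `b g ^ p = g • α / α` the 2-cochain `dOne b` is a 2-cocycle
with `(dOne b) ^ p = 1` (a "`μ_p`-valued" cocycle).  Main results:

* `exists_eq_mul_pow_of_dOne_eq` : if `dOne b = dOne ε` with `ε` level-constant and `ε ^ p = 1`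
  then `α = f₀ * γ ^ p` with `f₀` `G`-invariant (and `γ` fixed by a level).
* `exists_eq_mul_pow_of_prod_dOne_eq` : the same for a finite product `∏ (dOne (b i)) ^ e i`
  (the independence form used for `Cl_S(F)/p ↪ H²(G_{F,S}, μ_p)`).
* `exists_dOne_eq_of_eq_mul_pow` : the converse (the kernel is exactly `M^G * M^p`).
-/

set_option autoImplicit false

namespace Fermat.Agent.S55.helper6397

open groupCohomology

section Abstract

variable {G M : Type*} [Group G] [CommGroup M] [MulDistribMulAction G M]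

/-- `f` is right-invariant under some subgroup satisfying `Lev`. -/
def IsLev (Lev : Subgroup G → Prop) {X : Type*} (f : G → X) : Prop :=
  ∃ U, Lev U ∧ ∀ g, ∀ s ∈ U, f (g * s) = f g

/-- Two-variable version of `IsLev`. -/
def IsLev₂ (Lev : Subgroup G → Prop) {X : Type*} (f : G × G → X) : Prop :=
  ∃ U, Lev U ∧ ∀ g g', ∀ s ∈ U, ∀ s' ∈ U, f (g * s, g' * s') = f (g, g')

/-- The multiplicative coboundary of a 1-cochain (convention of Mathlib's `IsMulCoboundary₂`). -/
def dOne (b : G → M) : G × G → M := fun x => x.1 • b x.2 / b (x.1 * x.2) * b x.1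

/-- The multiplicative coboundary of a 0-cochain (convention of Mathlib's `IsMulCoboundary₁`). -/
def dZero (α : M) : G → M := fun g => g • α / α

@[simp] lemma dOne_apply (b : G → M) (g h : G) :
    dOne b (g, h) = g • b h / b (g * h) * b g := rfl

@[simp] lemma dZero_apply (α : M) (g : G) : dZero α g = g • α / α := rfl

lemma isMulCoboundary₂_dOne (b : G → M) : IsMulCoboundary₂ (dOne b) := ⟨b, fun _ _ => rfl⟩

lemma isMulCocycle₂_dOne (b : G → M) : IsMulCocycle₂ (dOne b) := by
  intro g h j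
  simp only [dOne, smul_mul', smul_div', mul_smul, mul_assoc]
  apply Additive.ofMul.injective
  simp only [ofMul_mul, ofMul_div]
  abel

lemma dOne_one : dOne (1 : G → M) = 1 := by
  funext x; simp [dOne]

lemma dOne_mul (b b' : G → M) : dOne (b * b') = dOne b * dOne b' := by
  funext x
  simp only [dOne, Pi.mul_apply, smul_mul']
  apply Additive.ofMul.injective
  simp only [ofMul_mul, ofMul_div]
  abel

lemma dOne_inv (b : G → M) : dOne b⁻¹ = (dOne b)⁻¹ := by
  funext x
  simp only [dOne, Pi.inv_apply, smul_inv']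
  apply Additive.ofMul.injective
  simp only [ofMul_mul, ofMul_div, ofMul_inv]
  abel

lemma dOne_div (b b' : G → M) : dOne (b / b') = dOne b / dOne b' := by
  rw [div_eq_mul_inv, dOne_mul, dOne_inv, div_eq_mul_inv]

lemma dOne_pow (b : G → M) (n : ℕ) : dOne (b ^ n) = dOne b ^ n := by
  induction n with
  | zero => simp [dOne_one]
  | succ n ih => rw [pow_succ, dOne_mul, ih, pow_succ]

lemma dOne_zpow (b : G → M) (n : ℤ) : dOne (b ^ n) = dOne b ^ n := by
  cases n with
  | ofNat n => simpa using dOne_pow b n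
  | negSucc n =>
    rw [zpow_negSucc, zpow_negSucc, dOne_inv, dOne_pow]

lemma dOne_prod {ι : Type*} (s : Finset ι) (b : ι → G → M) :
    dOne (∏ i ∈ s, b i) = ∏ i ∈ s, dOne (b i) := by
  classical
  induction s using Finset.induction_on with
  | empty => simp [dOne_one]
  | insert i s hi ih => rw [Finset.prod_insert hi, Finset.prod_insert hi, dOne_mul, ih]

lemma dOne_dZero (α : M) : dOne (dZero α : G → M) = 1 := by
  funext x
  obtain ⟨g, h⟩ := x
  simp only [dOne, dZero, Pi.one_apply, smul_div', mul_smul]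
  apply Additive.ofMul.injective
  simp only [ofMul_mul, ofMul_div, ofMul_one]
  abel

lemma dZero_mul (α β : M) : (dZero (α * β) : G → M) = dZero α * dZero β := by
  funext g; simp only [dZero, smul_mul', Pi.mul_apply]; rw [mul_div_mul_comm]

lemma dZero_pow (α : M) (n : ℕ) : (dZero (α ^ n) : G → M) = dZero α ^ n := by
  funext g; simp only [dZero, smul_pow', Pi.pow_apply, div_pow]

lemma dZero_eq_one_iff (α : M) : (dZero α : G → M) = 1 ↔ ∀ g : G, g • α = α := by
  constructor
  · intro h g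
    have := congrFun h g
    simpa [dZero, div_eq_one] using this
  · intro h; funext g; simp [dZero, h g]

/-- A 1-cochain whose coboundary is trivial is a 1-cocycle. -/
lemma isMulCocycle₁_of_dOne_eq_one {c : G → M} (h : dOne c = 1) : IsMulCocycle₁ c := by
  intro g k
  have := congrFun h (g, k)
  simp only [dOne, Pi.one_apply] at this
  -- g • c k / c (g * k) * c g = 1
  have h2 : g • c k * c g = c (g * k) := by
    rw [div_mul_eq_mul_div, div_eq_one] at this
    exact this
  exact h2.symm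

variable (Lev : Subgroup G → Prop)

lemma IsLev.map₂ (hinf : ∀ U V, Lev U → Lev V → ∃ W, Lev W ∧ W ≤ U ∧ W ≤ V)
    {X Y Z : Type*} {f : G → X} {f' : G → Y} (hf : IsLev Lev f) (hf' : IsLev Lev f')
    (Φ : X → Y → Z) : IsLev Lev (fun g => Φ (f g) (f' g)) := by
  obtain ⟨U, hU, h⟩ := hf
  obtain ⟨U', hU', h'⟩ := hf'
  obtain ⟨W, hW, hWU, hWU'⟩ := hinf U U' hU hU'
  exact ⟨W, hW, fun g s hs => by
    show Φ (f (g * s)) (f' (g * s)) = Φ (f g) (f' g)
    rw [h g s (hWU hs), h' g s (hWU' hs)]⟩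

/-- **Core lemma.**  If `b ^ p = dZero α`, and `dOne b = dOne ε` with `ε` level-constant and
`ε ^ p = 1`, then (under Hilbert 90 for level-constant cocycles) `α = f₀ * γ ^ p` with `f₀`
invariant; moreover `γ` is fixed by a level. -/
theorem exists_eq_mul_pow_of_dOne_eq {p : ℕ}
    (hinf : ∀ U V, Lev U → Lev V → ∃ W, Lev W ∧ W ≤ U ∧ W ≤ V)
    (H90 : ∀ c : G → M, IsMulCocycle₁ c → IsLev Lev c → ∃ γ : M, ∀ g, g • γ / γ = c g)
    (α : M) (b ε : G → M) (hb : ∀ g, b g ^ p = g • α / α)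
    (hbL : IsLev Lev b) (hεL : IsLev Lev ε) (hε : ∀ g, ε g ^ p = 1)
    (hd : dOne b = dOne ε) :
    ∃ γ f₀ : M, (∀ g : G, g • f₀ = f₀) ∧ α = f₀ * γ ^ p ∧
      (∃ U, Lev U ∧ ∀ s ∈ U, s • γ = γ) ∧ ∀ g, g • γ / γ = b g / ε g := by
  have hc : IsMulCocycle₁ (b / ε) := by
    apply isMulCocycle₁_of_dOne_eq_one
    rw [dOne_div, hd, div_self']
  have hcL : IsLev Lev (b / ε) := IsLev.map₂ Lev hinf hbL hεL (· / ·)
  obtain ⟨γ, hγ⟩ := H90 _ hc hcL
  have hγ' : ∀ g, g • γ / γ = b g / ε g := hγ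
  refine ⟨γ, α / γ ^ p, ?_, by simp, ?_, hγ'⟩
  · intro g
    have h1 : (g • γ / γ) ^ p = g • α / α := by
      rw [hγ', div_pow, hε, div_one, hb]
    rw [smul_div', smul_pow']
    rw [div_pow, div_eq_div_iff_mul_eq_mul] at h1
    rw [div_eq_div_iff_mul_eq_mul, ← h1, mul_comm]
  · obtain ⟨U, hU, hUc⟩ := hcL
    refine ⟨U, hU, fun s hs => ?_⟩
    have h1 : (b / ε) s = 1 := by
      have := hUc 1 s hs
      rw [one_mul, map_one_of_isMulCocycle₁ hc] at this
      exact this
    have := hγ' s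
    rw [show b s / ε s = (b / ε) s from rfl, h1, div_eq_one] at this
    exact this

/-- **Independence form.**  For a finite family `α i`, `b i` with `b i ^ p = dZero (α i)`: if
`∏ (dOne (b i)) ^ e i = dOne ε` with `ε` level-constant and `ε ^ p = 1`, then
`∏ α i ^ e i = f₀ * γ ^ p` with `f₀` invariant and `γ` fixed by a level. -/
theorem exists_eq_mul_pow_of_prod_dOne_eq {p : ℕ}
    (hinf : ∀ U V, Lev U → Lev V → ∃ W, Lev W ∧ W ≤ U ∧ W ≤ V)
    (H90 : ∀ c : G → M, IsMulCocycle₁ c → IsLev Lev c → ∃ γ : M, ∀ g, g • γ / γ = c g)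
    {ι : Type*} (s : Finset ι) (α : ι → M) (b : ι → G → M) (e : ι → ℤ) (ε : G → M)
    (hb : ∀ i ∈ s, ∀ g, b i g ^ p = g • α i / α i)
    (hbL : ∀ i ∈ s, IsLev Lev (b i)) (hεL : IsLev Lev ε) (hε : ∀ g, ε g ^ p = 1)
    (hd : ∏ i ∈ s, dOne (b i) ^ e i = dOne ε) :
    ∃ γ f₀ : M, (∀ g : G, g • f₀ = f₀) ∧ ∏ i ∈ s, α i ^ e i = f₀ * γ ^ p ∧
      (∃ U, Lev U ∧ ∀ s ∈ U, s • γ = γ) := by
  classical
  have hLev1 : IsLev Lev (1 : G → M) := by
    obtain ⟨U, hU, -⟩ := hεL
    exact ⟨U, hU, fun _ _ _ => rfl⟩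
  have hBL : ∀ t ⊆ s, IsLev Lev (∏ i ∈ t, b i ^ e i) := by
    intro t
    induction t using Finset.induction_on with
    | empty => intro _; simpa using hLev1
    | insert i t hi ih =>
      intro hts
      rw [Finset.prod_insert hi]
      have h1 : IsLev Lev (b i ^ e i) := by
        obtain ⟨U, hU, h⟩ := hbL i (hts (Finset.mem_insert_self i t))
        exact ⟨U, hU, fun g u hu => by simp only [Pi.pow_apply, h g u hu]⟩
      exact IsLev.map₂ Lev hinf h1 (ih (fun x hx => hts (Finset.mem_insert_of_mem hx))) (· * ·)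
  have hB : ∀ g, (∏ i ∈ s, b i ^ e i) g ^ p = g • (∏ i ∈ s, α i ^ e i) / (∏ i ∈ s, α i ^ e i) := by
    intro g
    rw [Finset.prod_apply, ← Finset.prod_pow, Finset.smul_prod', ← Finset.prod_div_distrib]
    refine Finset.prod_congr rfl fun i hi => ?_
    rw [Pi.pow_apply, ← zpow_natCast, ← zpow_mul, mul_comm, zpow_mul, zpow_natCast, hb i hi g,
      div_zpow, smul_zpow']
  have hD : dOne (∏ i ∈ s, b i ^ e i) = dOne ε := by
    rw [dOne_prod, ← hd]
    exact Finset.prod_congr rfl fun i _ => dOne_zpow _ _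
  obtain ⟨γ, f₀, hf₀, hα, hγ, -⟩ := exists_eq_mul_pow_of_dOne_eq Lev hinf H90 _ _ ε hB
    (hBL s subset_rfl) hεL hε hD
  exact ⟨γ, f₀, hf₀, hα, hγ⟩

/-- **Converse.**  If `α = f₀ * γ ^ p` with `f₀` invariant, then for any `b` with
`b ^ p = dZero α` one has `dOne b = dOne ε` for `ε := b / dZero γ`, and `ε ^ p = 1`. -/
theorem exists_dOne_eq_of_eq_mul_pow {p : ℕ} (α γ f₀ : M) (hf₀ : ∀ g : G, g • f₀ = f₀)
    (hα : α = f₀ * γ ^ p) (b : G → M) (hb : ∀ g, b g ^ p = g • α / α) :
    dOne b = dOne (b / (dZero γ : G → M)) ∧ ∀ g, (b / (dZero γ : G → M)) g ^ p = 1 := by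
  constructor
  · rw [dOne_div, dOne_dZero, div_one]
  · intro g
    rw [Pi.div_apply, div_pow, hb, hα, dZero_apply, smul_mul', hf₀, smul_pow', div_pow]
    rw [mul_div_mul_left_eq_div, div_self']

/-- `dOne b` is "`μ_p`-valued" when `b ^ p` is a coboundary. -/
theorem dOne_pow_eq_one {p : ℕ} (α : M) (b : G → M) (hb : ∀ g, b g ^ p = g • α / α) (x : G × G) :
    dOne b x ^ p = 1 := by
  have h1 : b ^ p = dZero α := by funext g; simpa using hb g
  have h2 : dOne b ^ p = 1 := by rw [← dOne_pow, h1, dOne_dZero]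
  simpa using congrFun h2 x

end Abstract

end Fermat.Agent.S55.helper6397
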