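/-
S55-CYCH2, part 2 (helper6440): calculus of the cyclic cocycles `cyc χ a` of
`helper6440_CyclicH2`.  Mathlib only.

* generator surface: for `σ : G` generating a finite group, `chiOfGen σ : G → ZMod (orderOf σ)`
  is additive, injective, `chiOfGen σ σ = 1`; `genCyc σ b (σ^i, σ^j) = b ^ ((i + j) / n)`.
* bilinearity in the character: `cyc (χ + ψ) a = cyc χ a + cyc ψ a + d(explicit)`.
* inflation: for `χ' : G → ZMod (n * m)` with reduction `χ` mod `n`:
  `cyc χ' (m • a) = cyc χ a + d(explicit)`.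
* restriction: if `(χ h).val = d * (χH h).val` on a subgroup then `cyc χ a = cyc χH a` there.
-/
import Fermat.Agent.S55.helper6440_CyclicH2

set_option autoImplicit false

namespace Fermat.Agent.S55.helper6440

open Finset

/-! ## Carry identities -/

section carryMore

variable {n : ℕ} [NeZero n]

/-- Four-term identity behind the additivity of `cyc` in the character. -/
lemma carry_four (u v u' v' : ZMod n) :
    carry n (u + u') (v + v') + carry n u u' + carry n v v'
      = carry n u v + carry n u' v' + carry n (u + v) (u' + v') := by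
  have h1 := val_add_carry u v
  have h2 := val_add_carry u' v'
  have h3 := val_add_carry u u'
  have h4 := val_add_carry v v'
  have h5 := val_add_carry (u + u') (v + v')
  have h6 := val_add_carry (u + v) (u' + v')
  have e : u + u' + (v + v') = u + v + (u' + v') := by ring
  rw [e] at h5
  have hn : 0 < n := Nat.pos_of_ne_zero (NeZero.ne n)
  apply Nat.eq_of_mul_eq_mul_left hn
  simp only [mul_add]
  linarith

end carryMore

/-! ## Bilinearity in the character -/

section bilinear

variable {G A : Type*} [Group G] [AddCommGroup A] (ρ : G →* AddMonoid.End A) {n : ℕ} [NeZero n]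

/-- Additivity of `cyc` in the character, up to an explicit coboundary: for additive
`χ ψ : G → ZMod n` and invariant `a`,
`cyc (χ + ψ) a - (cyc χ a + cyc ψ a) = d (g ↦ - carry (χ g) (ψ g) • a)`. -/
theorem cyc_add_char {χ ψ : G → ZMod n} (hχ : ∀ g h, χ (g * h) = χ g + χ h)
    (hψ : ∀ g h, ψ (g * h) = ψ g + ψ h) {a : A} (ha : ∀ g, ρ g a = a) (g h : G) :
    ρ g (-(carry n (χ h) (ψ h) • a)) - (-(carry n (χ (g * h)) (ψ (g * h)) • a))
        + (-(carry n (χ g) (ψ g) • a))
      = cyc (χ + ψ) a (g, h) - (cyc χ a (g, h) + cyc ψ a (g, h)) := by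
  have h4 := carry_four (χ g) (χ h) (ψ g) (ψ h)
  simp only [cyc_apply, Pi.add_apply, map_neg, map_nsmul, ha, hχ, hψ]
  have h5 : (carry n (χ g + ψ g) (χ h + ψ h) + carry n (χ g) (ψ g) + carry n (χ h) (ψ h)) • a
      = (carry n (χ g) (χ h) + carry n (ψ g) (ψ h) + carry n (χ g + χ h) (ψ g + ψ h)) • a := by
    rw [h4]
  simp only [add_nsmul] at h5
  rw [← sub_eq_zero] at h5 ⊢
  have h6 := neg_eq_zero.mpr h5
  rw [← h6]
  abel

/-- `cyc (χ + ψ) a` is cohomologous to `cyc χ a + cyc ψ a`. -/
theorem cyc_add_char_isTwoCoboundary {χ ψ : G → ZMod n} (hχ : ∀ g h, χ (g * h) = χ g + χ h)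
    (hψ : ∀ g h, ψ (g * h) = ψ g + ψ h) {a : A} (ha : ∀ g, ρ g a = a) :
    IsTwoCoboundary ρ (cyc (χ + ψ) a - (cyc χ a + cyc ψ a)) :=
  ⟨fun g => -(carry n (χ g) (ψ g) • a), fun g h => cyc_add_char ρ hχ hψ ha g h⟩

end bilinear

/-! ## Inflation from a cyclic quotient -/

section inflation

variable {G A : Type*} [Group G] [AddCommGroup A] (ρ : G →* AddMonoid.End A)
  {n m : ℕ} [NeZero n] [NeZero m]

/-- Inflation formula: if `χ' : G → ZMod (n * m)` is additive and `χ : G → ZMod n` is its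
reduction mod `n` (expressed on representatives: `(χ' g).val = (χ g).val + n * e g`), then
`cyc χ' (m • a) - cyc χ a = d (g ↦ e g • a)` for invariant `a`. -/
theorem cyc_inflation {χ' : G → ZMod (n * m)} {χ : G → ZMod n} {e : G → ℕ}
    (hχ' : ∀ g h, χ' (g * h) = χ' g + χ' h) (hχ : ∀ g h, χ (g * h) = χ g + χ h)
    (he : ∀ g, (χ' g).val = (χ g).val + n * e g) {a : A} (ha : ∀ g, ρ g a = a) (g h : G) :
    ρ g (e h • a) - e (g * h) • a + e g • a = cyc χ' (m • a) (g, h) - cyc χ a (g, h) := by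
  have h1 := val_add_carry (χ' g) (χ' h)
  have h2 := val_add_carry (χ g) (χ h)
  rw [← hχ'] at h1
  rw [← hχ] at h2
  rw [he g, he h, he (g * h)] at h1
  have hn : 0 < n := Nat.pos_of_ne_zero (NeZero.ne n)
  have key : e (g * h) + m * carry (n * m) (χ' g) (χ' h)
      = carry n (χ g) (χ h) + e g + e h := by
    apply Nat.eq_of_mul_eq_mul_left hn
    have e1 : n * m * carry (n * m) (χ' g) (χ' h) = n * (m * carry (n * m) (χ' g) (χ' h)) := by
      ring
    rw [e1] at h1
    simp only [mul_add]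
    linarith
  simp only [cyc_apply, map_nsmul, ha]
  have h5 : (e (g * h) + m * carry (n * m) (χ' g) (χ' h)) • a
      = (carry n (χ g) (χ h) + e g + e h) • a := by rw [key]
  rw [add_nsmul, add_nsmul, add_nsmul, mul_nsmul] at h5
  rw [← sub_eq_zero] at h5 ⊢
  have h6 := neg_eq_zero.mpr h5
  rw [← h6]
  abel

/-- The canonical choice `e g = (χ' g).val / n` when `χ g = cast (χ' g)`. -/
lemma val_eq_val_cast_add (x : ZMod (n * m)) :
    x.val = ((ZMod.castHom (dvd_mul_right n m) (ZMod n)) x).val + n * (x.val / n) := by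
  have h : ((ZMod.castHom (dvd_mul_right n m) (ZMod n)) x).val = x.val % n := by
    rw [ZMod.castHom_apply, ZMod.cast_eq_val, ZMod.val_natCast]
  rw [h, Nat.mod_add_div]

/-- Inflation: `cyc χ' (m • a)` is cohomologous to `cyc (cast ∘ χ') a`. -/
theorem cyc_inflation_isTwoCoboundary {χ' : G → ZMod (n * m)}
    (hχ' : ∀ g h, χ' (g * h) = χ' g + χ' h) {a : A} (ha : ∀ g, ρ g a = a) :
    IsTwoCoboundary ρ (cyc χ' (m • a)
      - cyc (fun g => (ZMod.castHom (dvd_mul_right n m) (ZMod n)) (χ' g)) a) :=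
  ⟨fun g => ((χ' g).val / n) • a, fun g h =>
    cyc_inflation ρ (χ := fun g => (ZMod.castHom (dvd_mul_right n m) (ZMod n)) (χ' g))
      (e := fun g => (χ' g).val / n) hχ'
      (fun g h => by simp only [hχ', map_add]) (fun g => val_eq_val_cast_add (χ' g)) ha g h⟩

end inflation

/-! ## Restriction to a subgroup -/

section restriction

variable {G A : Type*} [AddCommGroup A] {d m : ℕ} [NeZero d]

/-- Restriction formula: where the character `χ : G → ZMod (d * m)` takes values `d * χH`
(on representatives), `cyc χ a` coincides with `cyc χH a`. -/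
theorem cyc_restriction {χ : G → ZMod (d * m)} {χH : G → ZMod m} (a : A) {g h : G}
    (hg : (χ g).val = d * (χH g).val) (hh : (χ h).val = d * (χH h).val) :
    cyc χ a (g, h) = cyc χH a (g, h) := by
  have hd : 0 < d := Nat.pos_of_ne_zero (NeZero.ne d)
  simp only [cyc_apply, carry, hg, hh, ← mul_add, Nat.mul_div_mul_left _ _ hd]

end restriction

/-! ## Generator surface -/

section generator

variable {G : Type*} [Group G]

open Classical in
/-- The discrete logarithm `G → ZMod (orderOf σ)` with respect to `σ` (zero outside the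
powers of `σ`). -/
noncomputable def chiOfGen (σ : G) (g : G) : ZMod (orderOf σ) :=
  if h : g ∈ Subgroup.zpowers σ then ((Subgroup.mem_zpowers_iff.mp h).choose : ZMod (orderOf σ))
  else 0

lemma chiOfGen_zpow (σ : G) (k : ℤ) : chiOfGen σ (σ ^ k) = (k : ZMod (orderOf σ)) := by
  have h : σ ^ k ∈ Subgroup.zpowers σ := Subgroup.mem_zpowers_iff.mpr ⟨k, rfl⟩
  rw [chiOfGen, dif_pos h]
  have hk := (Subgroup.mem_zpowers_iff.mp h).choose_spec
  rw [ZMod.intCast_eq_intCast_iff]
  exact zpow_eq_zpow_iff_modEq.mp hk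

lemma chiOfGen_self (σ : G) : chiOfGen σ σ = 1 := by
  have := chiOfGen_zpow σ 1
  simpa using this

lemma chiOfGen_pow (σ : G) (i : ℕ) : chiOfGen σ (σ ^ i) = (i : ZMod (orderOf σ)) := by
  have := chiOfGen_zpow σ i
  simpa using this

variable {σ : G} (hσ : ∀ g, g ∈ Subgroup.zpowers σ)

include hσ in
lemma chiOfGen_mul (g h : G) : chiOfGen σ (g * h) = chiOfGen σ g + chiOfGen σ h := by
  obtain ⟨k, rfl⟩ := Subgroup.mem_zpowers_iff.mp (hσ g)
  obtain ⟨l, rfl⟩ := Subgroup.mem_zpowers_iff.mp (hσ h)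
  rw [← zpow_add, chiOfGen_zpow, chiOfGen_zpow, chiOfGen_zpow, Int.cast_add]

include hσ in
lemma chiOfGen_injective : Function.Injective (chiOfGen σ) := by
  intro g h hgh
  obtain ⟨k, rfl⟩ := Subgroup.mem_zpowers_iff.mp (hσ g)
  obtain ⟨l, rfl⟩ := Subgroup.mem_zpowers_iff.mp (hσ h)
  rw [chiOfGen_zpow, chiOfGen_zpow, ZMod.intCast_eq_intCast_iff] at hgh
  exact zpow_eq_zpow_iff_modEq.mpr hgh

end generator

/-! ### The H2KIT surface (C1)-(C3): multiplicative coefficients, a generator `σ` -/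

section genMul

open groupCohomology

variable {G M : Type*} [Group G] [Finite G] [CommGroup M] [MulDistribMulAction G M]

/-- The carry cocycle of `b` with respect to the generator `σ`:
`(σ^i, σ^j) ↦ b ^ ((i + j) / n)` for `i, j < n = orderOf σ`. -/
noncomputable def genCyc (σ : G) (b : M) : G × G → M := mulCyc (chiOfGen σ) b

omit [MulDistribMulAction G M] in
lemma genCyc_pow_pow (σ : G) (b : M) {i j : ℕ} (hi : i < orderOf σ) (hj : j < orderOf σ) :
    genCyc σ b (σ ^ i, σ ^ j) = b ^ ((i + j) / orderOf σ) := by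
  have : NeZero (orderOf σ) := ⟨(orderOf_pos σ).ne'⟩
  rw [genCyc, mulCyc_apply, chiOfGen_pow, chiOfGen_pow, carry, ZMod.val_natCast_of_lt hi,
    ZMod.val_natCast_of_lt hj]

variable {σ : G} (hσ : ∀ g, g ∈ Subgroup.zpowers σ)

include hσ in
omit [Finite G] in
lemma smul_eq_of_generator {b : M} (hb : σ • b = b) (g : G) : g • b = b := by
  have hle : Subgroup.zpowers σ ≤ MulAction.stabilizer G b :=
    (Subgroup.zpowers_le).mpr (MulAction.mem_stabilizer_iff.mpr hb)
  exact MulAction.mem_stabilizer_iff.mp (hle (hσ g))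

include hσ in
/-- (C1) -/
theorem isMulCocycle₂_genCyc {b : M} (hb : σ • b = b) : IsMulCocycle₂ (genCyc σ b) := by
  have : NeZero (orderOf σ) := ⟨(orderOf_pos σ).ne'⟩
  exact isMulCocycle₂_mulCyc (chiOfGen_mul hσ) (smul_eq_of_generator hσ hb)

include hσ in
/-- (C2) the carry cocycle of `b` is a coboundary iff `b` is a norm. -/
theorem genCyc_isMulCoboundary₂_iff (b : M) :
    IsMulCoboundary₂ (genCyc σ b) ↔ ∃ x : M, b = ∏ i ∈ range (orderOf σ), σ ^ i • x := by
  have : NeZero (orderOf σ) := ⟨(orderOf_pos σ).ne'⟩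
  exact mulCyc_isMulCoboundary₂_iff (chiOfGen_mul hσ) (chiOfGen_injective hσ) (chiOfGen_self σ) b

include hσ in
/-- (C3) every multiplicative 2-cocycle of a finite cyclic group is cohomologous to the carry
cocycle of a fixed element. -/
theorem exists_genCyc_isMulCoboundary₂ {f : G × G → M} (hf : IsMulCocycle₂ f) :
    ∃ b : M, σ • b = b ∧ IsMulCoboundary₂ (f / genCyc σ b) := by
  have : NeZero (orderOf σ) := ⟨(orderOf_pos σ).ne'⟩
  obtain ⟨b, hb, h⟩ := exists_mulCyc_isMulCoboundary₂ (chiOfGen_mul hσ) (chiOfGen_injective hσ)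
    (chiOfGen_self σ) hf
  exact ⟨b, hb σ, h⟩

include hσ in
/-- `H²` of a finite cyclic group vanishes iff every fixed element is a norm. -/
theorem forall_isMulCoboundary₂_iff_forall_norm :
    (∀ f : G × G → M, IsMulCocycle₂ f → IsMulCoboundary₂ f) ↔
      ∀ b : M, σ • b = b → ∃ x : M, b = ∏ i ∈ range (orderOf σ), σ ^ i • x := by
  constructor
  · intro H b hb
    exact (genCyc_isMulCoboundary₂_iff hσ b).1 (H _ (isMulCocycle₂_genCyc hσ hb))
  · intro H f hf
    obtain ⟨b, hb, x, hx⟩ := exists_genCyc_isMulCoboundary₂ hσ hf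
    obtain ⟨y, hy⟩ := (genCyc_isMulCoboundary₂_iff hσ b).2 (H b hb)
    refine ⟨fun g => x g * y g, fun g h => ?_⟩
    have h1 := hx g h
    have h2 := hy g h
    simp only [Pi.div_apply] at h1
    rw [smul_mul', ← div_mul_eq_mul_div] at *
    rw [eq_div_iff_mul_eq'] at h1
    rw [← h1, ← h2]
    simp only [div_eq_mul_inv, mul_inv]
    ac_rfl

end genMul

end Fermat.Agent.S55.helper6440
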