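import Mathlib
import Fermat.Prelude.Def_GroupCohomology_ContinuousUnramified

/-!
# S55-LS-RESKILL: restriction kills `H²` of a scalar twist when `p ∣ [G : H]`

`G` a group, `H ≤ G` of finite index, `N : Rep k G` on which `G` acts by scalars (e.g. the
module `ofChar χ`, the trivial module, any twist model of `μ_p`).

* `unitCoind H N : N ⟶ coind_H^G res_H N`, the unit `t ↦ (x ↦ x • t)`;
* `suppH H N t`, the element of `coind_H^G res_H N` supported on `H` with value `h • t` at `h`;
* `hom_unitCoind` : every `G`-map `f : coind_H^G res_H N ⟶ N` satisfies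
  `f (unit t) = [G : H] • f (suppH t)`;
* `res_eq_zero_of_index_eq_zero` : if `[G : H] = 0` in `k` and the pairing
  `H²(G, R) × Hom_G(R, N) → H²(G, N)` is left-nondegenerate for the single module
  `R = coind_H^G res_H N` (the injective half of local duality (L2) for `R`), then the
  restriction map `continuousH2 r N → continuousH2 (r ∘ H.subtype) (res N)` of the frozen
  carriers is zero.

No corestriction, no invariant map, no dimension count.
-/

set_option autoImplicit false

universe u

open CategoryTheory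

noncomputable section

namespace Fermat.Agent.S55.helper6451

open groupCohomology

section Algebra

variable {k G : Type u} [CommRing k] [Group G] (H : Subgroup G) (N : Rep.{u} k G)

/-- The unit `N ⟶ coind_H^G res_H N`, `t ↦ (x ↦ x • t)`. -/
def unitCoind : N ⟶ Rep.coind H.subtype (Rep.res H.subtype N) :=
  Rep.ofHom
    ⟨{ toFun := fun m => ⟨fun g => N.ρ g m, fun h g => by
          show N.ρ (H.subtype h * g) m = N.ρ (H.subtype h) (N.ρ g m)
          rw [map_mul]; rfl⟩
       map_add' := fun a b => by
          apply Subtype.ext; funext g; exact map_add (N.ρ g) a b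
       map_smul' := fun c a => by
          apply Subtype.ext; funext g; exact map_smul (N.ρ g) c a },
     fun x => by
       apply LinearMap.ext
       intro m
       apply Subtype.ext
       funext g
       show N.ρ g (N.ρ x m) = N.ρ (g * x) m
       rw [map_mul]; rfl⟩

@[simp] lemma unitCoind_apply (m : N) (g : G) : ((unitCoind H N).hom m).1 g = N.ρ g m := rfl

open Classical in
/-- The element of `coind_H^G res_H N` supported on `H`, with value `h • t` at `h ∈ H`,
as a linear map in `t`. -/
def suppH : N →ₗ[k] Rep.coind H.subtype (Rep.res H.subtype N) where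
  toFun t := ⟨fun g => if g ∈ H then N.ρ g t else 0, fun h g => by
    show (if H.subtype h * g ∈ H then N.ρ (H.subtype h * g) t else 0) =
      N.ρ (H.subtype h) (if g ∈ H then N.ρ g t else 0)
    by_cases hg : g ∈ H
    · have hh : H.subtype h * g ∈ H := H.mul_mem h.2 hg
      rw [if_pos hh, if_pos hg, map_mul]; rfl
    · have hh : H.subtype h * g ∉ H := fun hh => hg ((H.mul_mem_cancel_left h.2).1 hh)
      rw [if_neg hh, if_neg hg, map_zero]⟩
  map_add' a b := by
    apply Subtype.ext; funext g
    show (if g ∈ H then N.ρ g (a + b) else 0) =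
      (if g ∈ H then N.ρ g a else 0) + (if g ∈ H then N.ρ g b else 0)
    split_ifs
    · exact map_add _ _ _
    · exact (add_zero _).symm
  map_smul' c a := by
    apply Subtype.ext; funext g
    show (if g ∈ H then N.ρ g (c • a) else 0) = c • (if g ∈ H then N.ρ g a else 0)
    split_ifs
    · exact map_smul _ _ _
    · exact (smul_zero _).symm

open Classical in
lemma suppH_apply (t : N) (g : G) :
    (suppH H N t).1 g = if g ∈ H then N.ρ g t else 0 := rfl

lemma coind_ρ_val (g : G) (f : Rep.coind H.subtype (Rep.res H.subtype N)) (x : G) :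
    ((Rep.coind H.subtype (Rep.res H.subtype N)).ρ g f).1 x = f.1 (x * g) := rfl

/-- Decomposition of the unit along the cosets of `H`. -/
lemma unitCoind_eq_sum [Fintype (G ⧸ H)] (t : N) :
    (unitCoind H N).hom t =
      ∑ q : G ⧸ H, (Rep.coind H.subtype (Rep.res H.subtype N)).ρ q.out
        (suppH H N (N.ρ (q.out)⁻¹ t)) := by
  classical
  apply Subtype.ext
  funext x
  rw [unitCoind_apply]
  have hsum : ((∑ q : G ⧸ H, (Rep.coind H.subtype (Rep.res H.subtype N)).ρ q.out
        (suppH H N (N.ρ (q.out)⁻¹ t)) :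
        Rep.coind H.subtype (Rep.res H.subtype N)) : G → N) x =
      ∑ q : G ⧸ H, (((Rep.coind H.subtype (Rep.res H.subtype N)).ρ q.out
        (suppH H N (N.ρ (q.out)⁻¹ t))).1 x) := by
    rw [Submodule.coe_sum, Finset.sum_apply]
  refine Eq.trans ?_ hsum.symm
  rw [Finset.sum_eq_single (QuotientGroup.mk x⁻¹ : G ⧸ H)]
  · rw [coind_ρ_val, suppH_apply]
    obtain ⟨h, hh⟩ := QuotientGroup.mk_out_eq_mul H x⁻¹
    have hmem : x * (QuotientGroup.mk x⁻¹ : G ⧸ H).out ∈ H := by
      rw [hh, mul_inv_cancel_left]; exact h.2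
    rw [if_pos hmem, ← Module.End.mul_apply, ← map_mul, mul_inv_cancel_right]
  · intro q _ hq
    rw [coind_ρ_val, suppH_apply, if_neg]
    intro hmem
    apply hq
    rw [← QuotientGroup.out_eq' q]
    exact (QuotientGroup.eq.2 (by simpa using hmem)).symm
  · intro h; exact absurd (Finset.mem_univ _) h

/-- **Algebraic core.** If `G` acts on `N` by scalars, every `G`-map
`f : coind_H^G res_H N ⟶ N` satisfies `f (unit t) = [G : H] • f (suppH t)`. -/
theorem hom_unitCoind [H.FiniteIndex]
    (hsc : ∀ g : G, ∃ c : k, ∀ t : N, N.ρ g t = c • t)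
    (f : Rep.coind H.subtype (Rep.res H.subtype N) ⟶ N) (t : N) :
    f.hom ((unitCoind H N).hom t) = ((H.index : ℕ) : k) • f.hom (suppH H N t) := by
  classical
  have : Finite (G ⧸ H) := Subgroup.finite_quotient_of_finiteIndex
  let _ : Fintype (G ⧸ H) := Fintype.ofFinite _
  rw [unitCoind_eq_sum, map_sum]
  have hterm : ∀ q : G ⧸ H,
      f.hom ((Rep.coind H.subtype (Rep.res H.subtype N)).ρ q.out
        (suppH H N (N.ρ (q.out)⁻¹ t))) = f.hom (suppH H N t) := by
    intro q
    rw [Rep.hom_comm_apply]
    obtain ⟨c, hc⟩ := hsc (q.out)⁻¹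
    rw [hc t, map_smul, map_smul, ← hc, ← Module.End.mul_apply, ← map_mul, mul_inv_cancel,
      map_one]
    rfl
  rw [Finset.sum_congr rfl fun q _ => hterm q, Finset.sum_const, Finset.card_univ,
    Nat.cast_smul_eq_nsmul]
  congr 1
  rw [Subgroup.index, Nat.card_eq_fintype_card]

/-- If `[G : H] = 0` in `k` and `G` acts on `N` by scalars, then `unit ≫ f = 0` for every
`G`-map `f : coind_H^G res_H N ⟶ N`. -/
theorem unitCoind_comp_eq_zero [H.FiniteIndex] (hidx : ((H.index : ℕ) : k) = 0)
    (hsc : ∀ g : G, ∃ c : k, ∀ t : N, N.ρ g t = c • t)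
    (f : Rep.coind H.subtype (Rep.res H.subtype N) ⟶ N) (t : N) :
    f.hom ((unitCoind H N).hom t) = 0 := by
  rw [hom_unitCoind H N hsc f t, hidx, zero_smul]

end Algebra

section Cohomology

variable {k G : Type u} [CommRing k] [Group G]
  (r : G →* (AlgebraicClosure ℚ ≃ₐ[ℚ] AlgebraicClosure ℚ))
  (H : Subgroup G) (N : Rep.{u} k G)

/-- Evaluation at `1`, `coind_H^G res_H N → res_H N`. -/
def evOne : (Rep.coind H.subtype (Rep.res H.subtype N)) →ₗ[k] (Rep.res H.subtype N) :=
  LinearMap.proj 1 ∘ₗ (Representation.coindV H.subtype (Rep.res H.subtype N).ρ).subtype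

lemma evOne_apply (f : Rep.coind H.subtype (Rep.res H.subtype N)) : evOne H N f = f.1 1 := rfl

lemma evOne_ρ (h : H) (f : Rep.coind H.subtype (Rep.res H.subtype N)) :
    evOne H N ((Rep.coind H.subtype (Rep.res H.subtype N)).ρ (H.subtype h) f) =
      (Rep.res H.subtype N).ρ h (evOne H N f) := by
  rw [evOne_apply, evOne_apply, coind_ρ_val, one_mul]
  have := f.2 h 1
  rwa [mul_one] at this

/-- The restriction map `H²(G, N) → H²(H, N)` on the frozen carriers (the shape of the
Prelude's `locRes₂S`). -/
abbrev resH2 : continuousH2 r N →ₗ[k] continuousH2 (r.comp H.subtype) (Rep.res H.subtype N) :=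
  continuousH2Map (rH := r) (rG := r.comp H.subtype) (A := N) (B := Rep.res H.subtype N)
    H.subtype (fun _ => rfl) (LinearMap.id : N →ₗ[k] Rep.res H.subtype N) (fun _ _ => rfl)

/-- The Shapiro map `H²(G, coind_H^G res_H N) → H²(H, N)`: restrict to `H`, evaluate at `1`. -/
abbrev shapiroH2 : continuousH2 r (Rep.coind H.subtype (Rep.res H.subtype N)) →ₗ[k]
    continuousH2 (r.comp H.subtype) (Rep.res H.subtype N) :=
  continuousH2Map (rH := r) (rG := r.comp H.subtype)
    (A := Rep.coind H.subtype (Rep.res H.subtype N)) (B := Rep.res H.subtype N)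
    H.subtype (fun _ => rfl) (evOne H N) (evOne_ρ H N)

/-- Restriction factors through the unit and the Shapiro map: `res = sh ∘ unit_*`. -/
theorem resH2_eq_shapiroH2_unit (z : continuousH2 r N) :
    resH2 r H N z = shapiroH2 r H N (continuousH2MapHom r (unitCoind H N) z) := by
  obtain ⟨c, rfl⟩ := Submodule.mkQ_surjective _ z
  show continuousH2π _ _ _ = continuousH2π _ _ _
  congr 1
  apply Subtype.ext
  funext ⟨h₁, h₂⟩
  show (c : G × G → N) (H.subtype h₁, H.subtype h₂) =
    N.ρ 1 ((c : G × G → N) (H.subtype h₁, H.subtype h₂))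
  rw [map_one]; rfl

/-- If `[G : H] = 0` in `k`, `G` acts on `N` by scalars and `H²(G, R)` is detected by the
`G`-maps `R ⟶ N` for `R = coind_H^G res_H N`, then `unit_* : H²(G, N) → H²(G, R)` is zero. -/
theorem unitCoind_H2_eq_zero [H.FiniteIndex] (hidx : ((H.index : ℕ) : k) = 0)
    (hsc : ∀ g : G, ∃ c : k, ∀ t : N, N.ρ g t = c • t)
    (hL2 : ∀ x : continuousH2 r (Rep.coind H.subtype (Rep.res H.subtype N)),
      (∀ f : Rep.coind H.subtype (Rep.res H.subtype N) ⟶ N, continuousH2MapHom r f x = 0) →
        x = 0)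
    (z : continuousH2 r N) : continuousH2MapHom r (unitCoind H N) z = 0 := by
  apply hL2
  intro f
  obtain ⟨c, rfl⟩ := Submodule.mkQ_surjective _ z
  show continuousH2π _ _ _ = 0
  have h0 : levelCocycles₂Map (MonoidHom.id G) (fun _ => rfl) f.hom.toLinearMap
      (fun g a => Rep.hom_comm_apply f g a)
      (levelCocycles₂Map (MonoidHom.id G) (fun _ => rfl) (unitCoind H N).hom.toLinearMap
        (fun g a => Rep.hom_comm_apply (unitCoind H N) g a) c) = 0 := by
    apply Subtype.ext
    funext ⟨g₁, g₂⟩
    exact unitCoind_comp_eq_zero H N hidx hsc f _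
  rw [h0, map_zero]

/-- **LS-RESKILL.** If `[G : H] = 0` in `k`, `G` acts on `N` by scalars and `H²(G, R)` is
detected by the `G`-maps `R ⟶ N` for the single module `R = coind_H^G res_H N` (the injective
half of local duality (L2) for `R`), then restriction `H²(G, N) → H²(H, N)` is zero on the
frozen carriers. -/
theorem res_eq_zero_of_index_eq_zero [H.FiniteIndex] (hidx : ((H.index : ℕ) : k) = 0)
    (hsc : ∀ g : G, ∃ c : k, ∀ t : N, N.ρ g t = c • t)
    (hL2 : ∀ x : continuousH2 r (Rep.coind H.subtype (Rep.res H.subtype N)),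
      (∀ f : Rep.coind H.subtype (Rep.res H.subtype N) ⟶ N, continuousH2MapHom r f x = 0) →
        x = 0)
    (z : continuousH2 r N) :
    continuousH2Map (rH := r) (rG := r.comp H.subtype) (A := N) (B := Rep.res H.subtype N)
      H.subtype (fun _ => rfl) (LinearMap.id : N →ₗ[k] Rep.res H.subtype N) (fun _ _ => rfl)
      z = 0 := by
  have h := resH2_eq_shapiroH2_unit r H N z
  rw [unitCoind_H2_eq_zero r H N hidx hsc hL2 z, map_zero] at h
  exact h

end Cohomology

section Global

variable {k : Type} [CommRing k] (S : Finset Nat.Primes)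
  (N : Rep k (AlgebraicClosure ℚ ≃ₐ[ℚ] AlgebraicClosure ℚ))
  {Γ : Type} [Group Γ] (r : Γ →* (AlgebraicClosure ℚ ≃ₐ[ℚ] AlgebraicClosure ℚ))
  (H : Subgroup Γ)

/-- Localisation at a subgroup is localisation followed by restriction. -/
theorem locRes₂S_comp_subtype (x : continuousH2S S N) :
    locRes₂S S N (r.comp H.subtype) x = resH2 r H (Rep.res r N) (locRes₂S S N r x) := by
  obtain ⟨c, rfl⟩ := Submodule.mkQ_surjective _ x
  rfl

/-- **LS-RESKILL, global-facing form.** Let `r : Γ →* G_ℚ` (e.g. `primeLocalToGlobal q`) and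
`H ≤ Γ` of finite index with `[Γ : H] = 0` in `k`. If `Γ` acts on `N` by scalars and
`H²(Γ, R)` is detected by the `Γ`-maps `R ⟶ N` for `R = coind_H^Γ res_H N`, then every global
class `x : continuousH2S S N` dies in `continuousH2 (r ∘ H.subtype) N`. -/
theorem locRes₂S_comp_subtype_eq_zero [H.FiniteIndex] (hidx : ((H.index : ℕ) : k) = 0)
    (hsc : ∀ g : Γ, ∃ c : k, ∀ t : N, N.ρ (r g) t = c • t)
    (hL2 : ∀ y : continuousH2 r (Rep.coind H.subtype (Rep.res H.subtype (Rep.res r N))),
      (∀ f : Rep.coind H.subtype (Rep.res H.subtype (Rep.res r N)) ⟶ Rep.res r N,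
        continuousH2MapHom r f y = 0) → y = 0)
    (x : continuousH2S S N) : locRes₂S S N (r.comp H.subtype) x = 0 := by
  rw [locRes₂S_comp_subtype]
  exact res_eq_zero_of_index_eq_zero r H (Rep.res r N) hidx hsc hL2 _

end Global

end Fermat.Agent.S55.helper6451
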