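import Mathlib
import Fermat.Agent.S55.helper6451_ResKill
import Fermat.Agent.S55.helper665_LocalSpec
import Fermat.Agent.S55.helper8845_CycloPlaces
import Fermat.Agent.S55.helper6099_Conj

/-!
# S55: the cyclotomic `p`-tower kills `H²(G_S, μ_p)` locally at every place over `S`

Second half of LS-RESKILL (`helper6451`), on the frozen carriers.

* `prime_dvd_index_of_primitiveRoot` : pure group theory.  If `Γ` acts on a field through
  `r`, `W` is the stabiliser of a primitive `p^(m+1)`-th root of unity `ζ` (`m ≥ 1`) and some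
  `τ : Γ` fixes the `p^m`-th roots of unity and moves `ζ`, then `W` is normal of finite index
  and `p ∣ [Γ : W]`.
* `finiteDimensional_coind`, `isSmoothRep_coind_ofChar` : `coind_W^Γ res_W k(χ)` is a
  finite-dimensional smooth module (`W` normal of finite index containing a level subgroup,
  `χ` a level character).
* `locRes₂S_cyclo_eq_zero` : **(SPL)/(B), frozen form.**  Under the injective half of local
  duality (`helper665.Stmt_LocL2Inj p`) there is `m₀ ≥ 1` such that for all `m ≥ m₀`, all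
  `q ∈ S`, all `g : G_ℚ` and every primitive `p^(m+1)`-th root of unity `ζ`, every class of
  `continuousH2S S (ofChar (cycloChar p))` restricts to zero on
  `W = (g r_q g⁻¹)⁻¹ (Gal(ℚ̄ / ℚ(ζ)))`, `r_q = primeLocalToGlobal q`.

The proof uses no corestriction, no invariant map and no norm index: only the tower step of
`helper8845`, the conjugation lemma of `helper6099` and `res_eq_zero_of_index_eq_zero`.
-/

set_option autoImplicit false

universe u

open CategoryTheory groupCohomology ExtCitation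

noncomputable section

namespace Fermat.Agent.S55.helper6451

local notation "GQ" => (AlgebraicClosure ℚ ≃ₐ[ℚ] AlgebraicClosure ℚ)
local notation "Qbar" => AlgebraicClosure ℚ

/-! ## Group theory: `p` divides the index of the stabiliser of `ζ_{p^(m+1)}` -/

section Index

variable {Γ K Ω : Type*} [Group Γ] [Field K] [Field Ω] [Algebra K Ω] (r : Γ →* (Ω ≃ₐ[K] Ω))

/-- The stabiliser of a primitive root of unity is a normal subgroup. -/
theorem normal_of_primitiveRoot {n : ℕ} [NeZero n] {ζ : Ω} (hζ : IsPrimitiveRoot ζ n)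
    (W : Subgroup Γ) (hW : ∀ σ : Γ, σ ∈ W ↔ r σ ζ = ζ) : W.Normal := by
  constructor
  intro σ hσ g
  rw [hW] at hσ ⊢
  have h1 : (r g⁻¹ ζ) ^ n = 1 := by rw [← map_pow, hζ.pow_eq_one, map_one]
  obtain ⟨i, -, hi⟩ := hζ.eq_pow_of_pow_eq_one h1
  have h2 : r (g * σ * g⁻¹) ζ = r g (r σ (r g⁻¹ ζ)) := by
    rw [map_mul, map_mul]; rfl
  have h3 : r g (r g⁻¹ ζ) = ζ := by
    have : r g (r g⁻¹ ζ) = r (g * g⁻¹) ζ := by rw [map_mul]; rfl
    rw [this, mul_inv_cancel, map_one]; rfl
  rw [h2, ← hi, map_pow, hσ, hi, h3]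

/-- The stabiliser of a primitive root of unity has finite index. -/
theorem finiteIndex_of_primitiveRoot {n : ℕ} [NeZero n] {ζ : Ω} (W : Subgroup Γ)
    (hζ : ζ ^ n = 1) (hW : ∀ σ : Γ, σ ∈ W ↔ r σ ζ = ζ) : W.FiniteIndex := by
  classical
  have hn : 0 < n := Nat.pos_of_ne_zero (NeZero.ne n)
  have hmem : ∀ σ : Γ, r σ ζ ∈ Polynomial.nthRootsFinset n (1 : Ω) := fun σ => by
    rw [Polynomial.mem_nthRootsFinset hn, ← map_pow, hζ, map_one]
  have hrel : ∀ a b : Γ, a⁻¹ * b ∈ W ↔ r a ζ = r b ζ := by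
    intro a b
    rw [hW]
    have e : r (a⁻¹ * b) ζ = (r a).symm (r b ζ) := by
      rw [map_mul, map_inv]; rfl
    rw [e, AlgEquiv.symm_apply_eq, eq_comm]
  let f : Γ ⧸ W → {x : Ω // x ∈ Polynomial.nthRootsFinset n (1 : Ω)} := fun x =>
    Quotient.liftOn' x (fun σ => ⟨r σ ζ, hmem σ⟩) (fun a b hab => by
      apply Subtype.ext
      exact (hrel a b).1 (QuotientGroup.leftRel_apply.1 hab))
  have hf : Function.Injective f := by
    intro x y
    induction x using QuotientGroup.induction_on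
    induction y using QuotientGroup.induction_on
    intro h
    exact QuotientGroup.eq.2 ((hrel _ _).2 (congrArg Subtype.val h))
  have : Finite (Γ ⧸ W) := Finite.of_injective f hf
  exact Subgroup.finiteIndex_of_finite_quotient

/-- **Index lemma.** Let `ζ` be a primitive `p^(m+1)`-th root of unity, `m ≥ 1`, and let `W` be
its stabiliser in `Γ`.  If some `τ : Γ` fixes every `p^m`-th root of unity and moves `ζ`, then
`p ∣ [Γ : W]`. -/
theorem prime_dvd_index_of_primitiveRoot {p m : ℕ} (hp : p.Prime) (hm : 1 ≤ m) {ζ : Ω}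
    (hζ : IsPrimitiveRoot ζ (p ^ (m + 1))) (W : Subgroup Γ)
    (hW : ∀ σ : Γ, σ ∈ W ↔ r σ ζ = ζ) (τ : Γ)
    (hfix : ∀ ξ : Ω, ξ ^ p ^ m = 1 → r τ ξ = ξ) (hmove : r τ ζ ≠ ζ) : p ∣ W.index := by
  have : NeZero (p ^ (m + 1)) := ⟨pow_ne_zero _ hp.ne_zero⟩
  have : W.Normal := normal_of_primitiveRoot r hζ W hW
  have hζ0 : ζ ≠ 0 := hζ.ne_zero (pow_ne_zero _ hp.ne_zero)
  set η : Ω := r τ ζ / ζ with hη
  have hηp : η ^ p = 1 := by
    have h1 : r τ (ζ ^ p) = ζ ^ p := hfix _ (by
      rw [← pow_mul, ← pow_succ']; exact hζ.pow_eq_one)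
    rw [hη, div_pow, ← map_pow, h1]
    exact div_self (pow_ne_zero _ hζ0)
  have hηfix : r τ η = η := hfix η (by
    obtain ⟨j, rfl⟩ : ∃ j, m = j + 1 := ⟨m - 1, by omega⟩
    rw [pow_succ', pow_mul, hηp, one_pow])
  have hτζ : r τ ζ = ζ * η := by
    rw [hη, mul_div_cancel₀ _ hζ0]
  have hpow : ∀ j : ℕ, r (τ ^ j) ζ = ζ * η ^ j := by
    intro j
    induction j with
    | zero => rw [pow_zero, map_one, pow_zero, mul_one]; rfl
    | succ j ih =>
      have e : r (τ ^ (j + 1)) ζ = r τ (r (τ ^ j) ζ) := by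
        rw [pow_succ', map_mul]; rfl
      rw [e, ih, map_mul, map_pow, hηfix, hτζ, pow_succ]
      ring
  have h1 : τ ^ p ∈ W := (hW _).2 (by rw [hpow, hηp, mul_one])
  have h2 : τ ∉ W := fun h => hmove ((hW _).1 h)
  have hord : orderOf (QuotientGroup.mk τ : Γ ⧸ W) = p := by
    have := Fact.mk hp
    apply orderOf_eq_prime
    · rw [← QuotientGroup.mk_pow]
      exact (QuotientGroup.eq_one_iff _).2 h1
    · intro h
      exact h2 ((QuotientGroup.eq_one_iff _).1 h)
  rw [Subgroup.index_eq_card, ← hord]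
  exact orderOf_dvd_natCard _

end Index

/-! ## The coinduced module of a character is finite-dimensional and smooth -/

section Coind

/-- `coind_H^G res_H N` is finite-dimensional when `H` has finite index and `N` is
finite-dimensional. -/
theorem finiteDimensional_coind {k G : Type u} [Field k] [Group G] (H : Subgroup G)
    [H.FiniteIndex] (N : Rep.{u} k G) [FiniteDimensional k N] :
    FiniteDimensional k (Rep.coind H.subtype (Rep.res H.subtype N)) := by
  classical
  have : Finite (G ⧸ H) := Subgroup.finite_quotient_of_finiteIndex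
  let e : (Rep.coind H.subtype (Rep.res H.subtype N)) →ₗ[k] (G ⧸ H → N) :=
    { toFun := fun f x => f.1 (x.out)⁻¹
      map_add' := fun _ _ => rfl
      map_smul' := fun _ _ => rfl }
  refine FiniteDimensional.of_injective e ?_
  intro f f' hff
  apply Subtype.ext
  funext g
  obtain ⟨h, hh⟩ := QuotientGroup.mk_out_eq_mul H g⁻¹
  have hg : g = H.subtype h * ((QuotientGroup.mk g⁻¹ : G ⧸ H).out)⁻¹ := by
    rw [hh, mul_inv_rev, inv_inv, Subgroup.coe_subtype, mul_inv_cancel_left]
  have h1 : f.1 ((QuotientGroup.mk g⁻¹ : G ⧸ H).out)⁻¹ =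
      f'.1 ((QuotientGroup.mk g⁻¹ : G ⧸ H).out)⁻¹ := congrFun hff (QuotientGroup.mk g⁻¹)
  rw [hg, f.2 h, f'.2 h, h1]

variable {k G : Type} [Field k] [Group G] (r : G →* GQ) (χ : G →* kˣ)

/-- `coind_H^G res_H k(χ)` is smooth when `χ` is a level character and `H` is a normal subgroup
containing a level subgroup. -/
theorem isSmoothRep_coind_ofChar (H : Subgroup G) [hn : H.Normal]
    (hχ : helper1447.IsLevelChar r χ)
    (hH : ∃ F : IntermediateField ℚ Qbar, FiniteDimensional ℚ F ∧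
      ∀ s : G, r s ∈ F.fixingSubgroup → s ∈ H) :
    helper1447.IsSmoothRep r (Rep.coind H.subtype (Rep.res H.subtype (ofChar χ))) := by
  obtain ⟨F₁, hF₁, h₁⟩ := hχ
  obtain ⟨F₂, hF₂, h₂⟩ := hH
  intro f
  have := hF₁
  have := hF₂
  refine ⟨F₁ ⊔ F₂, inferInstance, fun s hs => ?_⟩
  have hs₁ : r s ∈ F₁.fixingSubgroup := IntermediateField.fixingSubgroup_antitone le_sup_left hs
  have hs₂ : r s ∈ F₂.fixingSubgroup := IntermediateField.fixingSubgroup_antitone le_sup_right hs
  have hsH : s ∈ H := h₂ s hs₂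
  have hχs : χ s = 1 := h₁ s hs₁
  apply Subtype.ext
  funext x
  rw [coind_ρ_val]
  have hmem : x * s * x⁻¹ ∈ H := hn.conj_mem s hsH x
  have hx : x * s = H.subtype ⟨x * s * x⁻¹, hmem⟩ * x := by
    rw [Subgroup.coe_subtype, inv_mul_cancel_right]
  have hχx : χ (x * s * x⁻¹) = 1 := by
    rw [map_mul, map_mul, hχs, mul_one, ← map_mul, mul_inv_cancel, map_one]
  rw [hx, f.2]
  show (ofChar χ).ρ (x * s * x⁻¹) (f.1 x) = f.1 x
  rw [helper1447.ofChar_ρ_apply, hχx, Units.val_one, one_mul]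

end Coind

/-! ## The frozen statement -/

section Main

variable (p : ℕ) [Fact p.Prime]

/-- An automorphism fixes `ℚ(α)` pointwise iff it fixes `α`. -/
theorem mem_fixingSubgroup_adjoin_singleton_iff (α : Qbar) (σ : GQ) :
    σ ∈ (IntermediateField.adjoin ℚ {α}).fixingSubgroup ↔ σ α = α := by
  constructor
  · intro h
    exact (IntermediateField.mem_fixingSubgroup_iff _ _).1 h α
      (IntermediateField.subset_adjoin ℚ {α} (Set.mem_singleton α))
  · intro h
    have h1 : IntermediateField.adjoin ℚ {α} ≤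
        IntermediateField.fixedField (MulAction.stabilizer GQ α) := by
      rw [IntermediateField.adjoin_le_iff, Set.singleton_subset_iff, SetLike.mem_coe,
        IntermediateField.mem_fixedField_iff]
      intro f hf
      exact hf
    exact (IntermediateField.le_iff_le _ _).1 h1 h

/-- The cyclotomic level subgroup of a group `Γ` mapping to `G_ℚ`: the elements whose image
fixes `ℚ(ζ)`. -/
abbrev cycloSub {Γ : Type} [Group Γ] (r : Γ →* GQ) (ζ : Qbar) : Subgroup Γ :=
  (IntermediateField.adjoin ℚ {ζ}).fixingSubgroup.comap r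

theorem mem_cycloSub_iff {Γ : Type} [Group Γ] (r : Γ →* GQ) (ζ : Qbar) (σ : Γ) :
    σ ∈ cycloSub r ζ ↔ r σ ζ = ζ := by
  rw [cycloSub, Subgroup.mem_comap, mem_fixingSubgroup_adjoin_singleton_iff]

/-- The cyclotomic level subgroup does not change under conjugation of `r`. -/
theorem cycloSub_conjHom {Γ : Type} [Group Γ] (r : Γ →* GQ) (g : GQ) {n : ℕ} [NeZero n]
    {ζ : Qbar} (hζ : IsPrimitiveRoot ζ n) :
    cycloSub (helper6099.conjHom g r) ζ = cycloSub r ζ := by
  have : (cycloSub (MonoidHom.id GQ) ζ).Normal :=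
    normal_of_primitiveRoot (MonoidHom.id GQ) hζ _ (mem_cycloSub_iff (MonoidHom.id GQ) ζ)
  ext σ
  rw [mem_cycloSub_iff, mem_cycloSub_iff, helper6099.conjHom_apply]
  have key : ∀ a b : GQ, a ζ = ζ → (b * a * b⁻¹) ζ = ζ := by
    intro a b ha
    have h1 : a ∈ cycloSub (MonoidHom.id GQ) ζ := (mem_cycloSub_iff (MonoidHom.id GQ) ζ a).2 ha
    have h2 := ‹(cycloSub (MonoidHom.id GQ) ζ).Normal›.conj_mem a h1 b
    exact (mem_cycloSub_iff (MonoidHom.id GQ) ζ _).1 h2
  constructor
  · intro h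
    have := key _ g⁻¹ h
    rwa [inv_inv, show g⁻¹ * (g * r σ * g⁻¹) * g = r σ by group] at this
  · intro h
    exact key _ g h

/-- Local description of the cyclotomic level subgroup: `σ ∈ Gal(ℚ̄_l / ℚ_l)` lies in
`cycloSub (localGaloisToGlobal l) ζ` iff it fixes the image of `ζ` in `PadicAlgCl l`, i.e. the
subgroup is `Gal(ℚ̄_l / ℚ_l(ζ))`. -/
theorem mem_cycloSub_localGaloisToGlobal_iff (l : ℕ) [Fact l.Prime] (ζ : Qbar)
    (σ : PadicAlgCl l ≃ₐ[ℚ_[l]] PadicAlgCl l) :
    σ ∈ cycloSub (localGaloisToGlobal l) ζ ↔ σ (padicEmbedding l ζ) = padicEmbedding l ζ := by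
  rw [mem_cycloSub_iff, ← padicEmbedding_localGaloisToGlobal]
  exact ((padicEmbedding l).toRingHom.injective.eq_iff).symm

/-- The same for the frozen local group at `q : Nat.Primes`. -/
theorem mem_cycloSub_primeLocalToGlobal_iff (q : Nat.Primes) (ζ : Qbar)
    (σ : primeLocalGaloisGroup q) :
    σ ∈ cycloSub (primeLocalToGlobal q) ζ ↔
      primeLocalToGlobal q σ ζ = ζ := mem_cycloSub_iff _ ζ σ

variable {p}

/-- **(SPL) at one prime, all LOCAL classes.** Let `r_q = primeLocalToGlobal q`, `ζ` a primitive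
`p^(m+1)`-th root of unity (`m ≥ 1`) and assume some `τ` in the local group fixes the `p^m`-th
roots of unity and moves `ζ`.  Under the injective half of local duality at `q`, every class of
`continuousH2 r_q (ofChar (chiLoc p q))` (i.e. of `H²(ℚ_q, μ_p)`) dies on
`r_q⁻¹ (Gal(ℚ̄ / ℚ(ζ)))`. -/
theorem resH2_cycloSub_eq_zero (q : Nat.Primes)
    (hL2 : helper1447.Stmt_L2inj (primeLocalToGlobal q) (helper665.chiLoc p q))
    {m : ℕ} (hm : 1 ≤ m) {ζ : Qbar} (hζ : IsPrimitiveRoot ζ (p ^ (m + 1)))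
    (τ : primeLocalGaloisGroup q)
    (hfix : ∀ ξ : Qbar, ξ ^ p ^ m = 1 → primeLocalToGlobal q τ ξ = ξ)
    (hmove : primeLocalToGlobal q τ ζ ≠ ζ)
    (z : continuousH2 (primeLocalToGlobal q) (ofChar (helper665.chiLoc p q))) :
    resH2 (primeLocalToGlobal q) (cycloSub (primeLocalToGlobal q) ζ)
      (ofChar (helper665.chiLoc p q)) z = 0 := by
  have hp : p.Prime := Fact.out
  have : NeZero (p ^ (m + 1)) := ⟨pow_ne_zero _ hp.ne_zero⟩
  set W := cycloSub (primeLocalToGlobal q) ζ with hWdef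
  have hW : ∀ σ, σ ∈ W ↔ primeLocalToGlobal q σ ζ = ζ := mem_cycloSub_iff _ ζ
  have : W.Normal := normal_of_primitiveRoot (primeLocalToGlobal q) hζ W hW
  have : W.FiniteIndex :=
    finiteIndex_of_primitiveRoot (primeLocalToGlobal q) W hζ.pow_eq_one hW
  have hdvd : p ∣ W.index :=
    prime_dvd_index_of_primitiveRoot (primeLocalToGlobal q) hp hm hζ W hW τ hfix hmove
  have hidx : ((W.index : ℕ) : ZMod p) = 0 := (ZMod.natCast_eq_zero_iff _ _).2 hdvd
  have hint : IsIntegral ℚ ζ := (AlgebraicClosure.isAlgebraic ℚ).isIntegral.isIntegral ζ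
  have : FiniteDimensional (ZMod p)
      (Rep.coind W.subtype (Rep.res W.subtype (ofChar (helper665.chiLoc p q)))) :=
    finiteDimensional_coind W (ofChar (helper665.chiLoc p q))
  have hsm : helper1447.IsSmoothRep (primeLocalToGlobal q)
      (Rep.coind W.subtype (Rep.res W.subtype (ofChar (helper665.chiLoc p q)))) :=
    isSmoothRep_coind_ofChar (primeLocalToGlobal q) (helper665.chiLoc p q) W
      (helper665.isLevelChar_chiLoc p q)
      ⟨IntermediateField.adjoin ℚ {ζ}, IntermediateField.adjoin.finiteDimensional hint,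
        fun s hs => hs⟩
  have hinj := (helper665.stmt_L2inj_iff (primeLocalToGlobal q) (helper665.chiLoc p q)).1 hL2
    _ inferInstance hsm
  exact res_eq_zero_of_index_eq_zero (primeLocalToGlobal q) W (ofChar (helper665.chiLoc p q)) hidx
    (fun g => ⟨((helper665.chiLoc p q g : (ZMod p)ˣ) : ZMod p), fun t => rfl⟩) hinj z

/-- **(SPL) at one place, global classes.** Same hypotheses: every class of
`continuousH2S S (ofChar (cycloChar p))` dies on `r_q⁻¹ (Gal(ℚ̄ / ℚ(ζ)))`. -/
theorem locRes₂S_cycloSub_eq_zero (S : Finset Nat.Primes) (q : Nat.Primes)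
    (hL2 : helper1447.Stmt_L2inj (primeLocalToGlobal q) (helper665.chiLoc p q))
    {m : ℕ} (hm : 1 ≤ m) {ζ : Qbar} (hζ : IsPrimitiveRoot ζ (p ^ (m + 1)))
    (τ : primeLocalGaloisGroup q)
    (hfix : ∀ ξ : Qbar, ξ ^ p ^ m = 1 → primeLocalToGlobal q τ ξ = ξ)
    (hmove : primeLocalToGlobal q τ ζ ≠ ζ)
    (z : continuousH2S S (ofChar (k := ZMod p) (cycloChar p))) :
    locRes₂S S (ofChar (k := ZMod p) (cycloChar p))
      ((primeLocalToGlobal q).comp (cycloSub (primeLocalToGlobal q) ζ).subtype) z = 0 := by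
  rw [locRes₂S_comp_subtype]
  exact resH2_cycloSub_eq_zero q hL2 hm hζ τ hfix hmove _

/-- **(SPL), all local classes, uniform in `m`.** Under `helper665.Stmt_LocL2Inj p` (`p` odd),
for every prime `q` there is `m₀ ≥ 1` such that for all `m ≥ m₀` and every primitive
`p^(m+1)`-th root of unity `ζ`, restriction from `G_{ℚ_q}` to `r_q⁻¹ (Gal(ℚ̄ / ℚ(ζ)))` is ZERO
on `H²(ℚ_q, μ_p) = continuousH2 r_q (ofChar (chiLoc p q))`. -/
theorem exists_resH2_cyclo_eq_zero (hp2 : p ≠ 2) (hL2 : helper665.Stmt_LocL2Inj p)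
    (q : Nat.Primes) :
    ∃ m₀ : ℕ, 1 ≤ m₀ ∧ ∀ m : ℕ, m₀ ≤ m → ∀ ζ : Qbar, IsPrimitiveRoot ζ (p ^ (m + 1)) →
      ∀ z : continuousH2 (primeLocalToGlobal q) (ofChar (helper665.chiLoc p q)),
        resH2 (primeLocalToGlobal q) (cycloSub (primeLocalToGlobal q) ζ)
          (ofChar (helper665.chiLoc p q)) z = 0 := by
  have hp : p.Prime := Fact.out
  obtain ⟨m₀, hm₀, h⟩ := helper8845.exists_cyclo_step_all_places hp hp2 {q}
    (⊥ : IntermediateField ℚ Qbar)
  refine ⟨m₀, hm₀, fun m hm ζ hζ z => ?_⟩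
  obtain ⟨τ, -, hfix, hmove⟩ := h m hm q (Finset.mem_singleton_self q) 1
  have hfix' : ∀ ξ : Qbar, ξ ^ p ^ m = 1 → primeLocalToGlobal q τ ξ = ξ := by
    intro ξ hξ
    have := hfix ξ hξ
    rwa [one_mul, inv_one, mul_one] at this
  have hmove' : primeLocalToGlobal q τ ζ ≠ ζ := by
    have := hmove ζ hζ
    rwa [one_mul, inv_one, mul_one] at this
  exact resH2_cycloSub_eq_zero q (hL2 q) (hm₀.trans hm) hζ τ hfix' hmove' z

/-- **(SPL)/(B), frozen form: the cyclotomic `p`-tower kills `H²(G_S, μ_p)` at every place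
over `S`.**  Under `helper665.Stmt_LocL2Inj p` (`p` odd) there is `m₀ ≥ 1` such that for all
`m ≥ m₀`, all `q ∈ S`, all `g : G_ℚ` and every primitive `p^(m+1)`-th root of unity `ζ`, the
restriction of every class of `continuousH2S S (ofChar (cycloChar p))` along
`g r_q g⁻¹` to the preimage of `Gal(ℚ̄ / ℚ(ζ))` vanishes. -/
theorem locRes₂S_cyclo_eq_zero (hp2 : p ≠ 2) (S : Finset Nat.Primes)
    (hL2 : helper665.Stmt_LocL2Inj p) :
    ∃ m₀ : ℕ, 1 ≤ m₀ ∧ ∀ m : ℕ, m₀ ≤ m → ∀ q ∈ S, ∀ g : GQ, ∀ ζ : Qbar,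
      IsPrimitiveRoot ζ (p ^ (m + 1)) →
      ∀ z : continuousH2S S (ofChar (k := ZMod p) (cycloChar p)),
        locRes₂S S (ofChar (k := ZMod p) (cycloChar p))
          ((helper6099.conjHom g (primeLocalToGlobal q)).comp
            (cycloSub (helper6099.conjHom g (primeLocalToGlobal q)) ζ).subtype) z = 0 := by
  have hp : p.Prime := Fact.out
  obtain ⟨m₀, hm₀, h⟩ := helper8845.exists_cyclo_step_all_places hp hp2 S
    (⊥ : IntermediateField ℚ Qbar)
  refine ⟨m₀, hm₀, fun m hm q hq g ζ hζ z => ?_⟩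
  have : NeZero (p ^ (m + 1)) := ⟨pow_ne_zero _ hp.ne_zero⟩
  obtain ⟨τ, -, hfix, hmove⟩ := h m hm q hq 1
  have hfix' : ∀ ξ : Qbar, ξ ^ p ^ m = 1 → primeLocalToGlobal q τ ξ = ξ := by
    intro ξ hξ
    have := hfix ξ hξ
    rwa [one_mul, inv_one, mul_one] at this
  have hmove' : primeLocalToGlobal q τ ζ ≠ ζ := by
    have := hmove ζ hζ
    rwa [one_mul, inv_one, mul_one] at this
  have h0 := locRes₂S_cycloSub_eq_zero S q (hL2 q) (hm₀.trans hm) hζ τ hfix' hmove' z
  have hWeq : cycloSub (helper6099.conjHom g (primeLocalToGlobal q)) ζ =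
      cycloSub (primeLocalToGlobal q) ζ := cycloSub_conjHom (primeLocalToGlobal q) g hζ
  rw [hWeq]
  exact (helper6099.locRes₂S_conjHom_eq_zero_iff S (ofChar (k := ZMod p) (cycloChar p))
    ((primeLocalToGlobal q).comp (cycloSub (primeLocalToGlobal q) ζ).subtype) g z).2 h0

end Main

end Fermat.Agent.S55.helper6451
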