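import Mathlib

/-!
# S55 / LA-ABS, part 0: abstract tools

* `hIdx`, `hIdx_finite_index`: the Herbrand index `[L ∩ ker f : g L]` of a pair of endomorphisms
  of a commutative group with `f ∘ g = g ∘ f = 1`, and its invariance under passing to a stable
  subgroup of finite index (multiplicative form).
* `exists_map_eq_of_graded_surj`: successive approximation in a complete filtered commutative
  group: a homomorphism that is surjective on all graded pieces is surjective.
-/

namespace Fermat.Agent.S55.helper6500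

section Herbrand

variable {M : Type*} [CommGroup M]

/-- `[B : A] = [B K : A K] * [B ∩ K : A ∩ K]` for `A ≤ B`. -/
theorem relIndex_eq_sup_mul_inf (A B K : Subgroup M) (hAB : A ≤ B) :
    A.relIndex B = (A ⊔ K).relIndex (B ⊔ K) * (A ⊓ K).relIndex (B ⊓ K) := by
  have h1 : A ≤ B ⊓ (A ⊔ K) := le_inf hAB le_sup_left
  have h2 : B ⊓ (A ⊔ K) ≤ B := inf_le_left
  rw [← Subgroup.relIndex_mul_relIndex A (B ⊓ (A ⊔ K)) B h1 h2]
  have e1 : (B ⊓ (A ⊔ K)).relIndex B = (A ⊔ K).relIndex (B ⊔ K) := by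
    rw [inf_comm, Subgroup.inf_relIndex_right]
    have : B ⊔ K = B ⊔ (A ⊔ K) := by
      rw [← sup_assoc, sup_eq_left.mpr hAB]
    rw [this, Subgroup.relIndex_sup_right]
  have e2 : A.relIndex (B ⊓ (A ⊔ K)) = (A ⊓ K).relIndex (B ⊓ K) := by
    have hmod : B ⊓ (A ⊔ K) = A ⊔ (B ⊓ K) := by
      rw [inf_comm, sup_inf_assoc_of_le K hAB, inf_comm]
    rw [hmod, Subgroup.relIndex_sup_left]
    have : A ⊓ K = A ⊓ (B ⊓ K) := by
      rw [← inf_assoc, inf_eq_left.mpr hAB]
    rw [this, Subgroup.inf_relIndex_right]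
  rw [e1, e2, mul_comm]

/-- `[B : A] = [f B : f A] * [B ∩ ker f : A ∩ ker f]` for `A ≤ B`. -/
theorem relIndex_eq_map_mul_ker (f : M →* M) (A B : Subgroup M) (hAB : A ≤ B) :
    A.relIndex B = (A.map f).relIndex (B.map f) * (A ⊓ f.ker).relIndex (B ⊓ f.ker) := by
  rw [Subgroup.relIndex_map_map]
  exact relIndex_eq_sup_mul_inf A B f.ker hAB

/-- `hIdx f g L = [L ∩ ker f : g L]` (zero if infinite). -/
noncomputable def hIdx (f g : M →* M) (L : Subgroup M) : ℕ :=
  (L.map g).relIndex (L ⊓ f.ker)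

theorem map_le_inf_ker {f g : M →* M} (hfg : ∀ x, f (g x) = 1) {L : Subgroup M}
    (hL : L.map g ≤ L) : L.map g ≤ L ⊓ f.ker := by
  refine le_inf hL ?_
  rintro _ ⟨x, -, rfl⟩
  rw [MonoidHom.mem_ker]
  exact hfg x

theorem chain_identity {f g : M →* M} (hfg : ∀ x, f (g x) = 1) {A B : Subgroup M} (hAB : A ≤ B)
    (hAg : A.map g ≤ A) (hBg : B.map g ≤ B) :
    (A.map g).relIndex (B.map g) * hIdx f g B = hIdx f g A * (A ⊓ f.ker).relIndex (B ⊓ f.ker) := by
  unfold hIdx
  have h1 : A.map g ≤ B.map g := Subgroup.map_mono hAB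
  have h2 : B.map g ≤ B ⊓ f.ker := map_le_inf_ker hfg hBg
  have h3 : A.map g ≤ A ⊓ f.ker := map_le_inf_ker hfg hAg
  have h4 : A ⊓ f.ker ≤ B ⊓ f.ker := inf_le_inf_right _ hAB
  rw [Subgroup.relIndex_mul_relIndex _ _ _ h1 h2, Subgroup.relIndex_mul_relIndex _ _ _ h3 h4]

/-- Invariance of the Herbrand quotient under stable subgroups of finite index
(multiplicative form), with transfer of finiteness in both directions. -/
theorem hIdx_finite_index {f g : M →* M} (hfg : ∀ x, f (g x) = 1) (hgf : ∀ x, g (f x) = 1)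
    {A B : Subgroup M} (hAB : A ≤ B) (hfin : A.relIndex B ≠ 0)
    (hAf : A.map f ≤ A) (hAg : A.map g ≤ A) (hBf : B.map f ≤ B) (hBg : B.map g ≤ B) :
    hIdx f g B * hIdx g f A = hIdx g f B * hIdx f g A ∧
      (hIdx f g A ≠ 0 ↔ hIdx f g B ≠ 0) ∧ (hIdx g f A ≠ 0 ↔ hIdx g f B ≠ 0) := by
  have Ef := relIndex_eq_map_mul_ker f A B hAB
  have Eg := relIndex_eq_map_mul_ker g A B hAB
  have I := chain_identity hfg hAB hAg hBg
  have II := chain_identity hgf hAB hAf hBf
  set α := (A.map g).relIndex (B.map g)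
  set β := (A ⊓ f.ker).relIndex (B ⊓ f.ker)
  set γ := (A.map f).relIndex (B.map f)
  set δ := (A ⊓ g.ker).relIndex (B ⊓ g.ker)
  set n := A.relIndex B
  have hα : α ≠ 0 := fun h => hfin (by rw [Eg, h, zero_mul])
  have hδ : δ ≠ 0 := fun h => hfin (by rw [Eg, h, mul_zero])
  have hγ : γ ≠ 0 := fun h => hfin (by rw [Ef, h, zero_mul])
  have hβ : β ≠ 0 := fun h => hfin (by rw [Ef, h, mul_zero])
  refine ⟨?_, ?_, ?_⟩
  · have hn : n ≠ 0 := hfin
    apply Nat.eq_of_mul_eq_mul_left (Nat.pos_of_ne_zero hn)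
    calc n * (hIdx f g B * hIdx g f A)
        = (α * hIdx f g B) * (hIdx g f A * δ) := by rw [Eg]; ring
      _ = (hIdx f g A * β) * (γ * hIdx g f B) := by rw [I, II]
      _ = n * (hIdx g f B * hIdx f g A) := by rw [Ef]; ring
  · constructor
    · intro h hB
      have : hIdx f g A * β = 0 := by rw [← I, hB, mul_zero]
      exact (mul_ne_zero h hβ) this
    · intro h hA
      have : α * hIdx f g B = 0 := by rw [I, hA, zero_mul]
      exact (mul_ne_zero hα h) this
  · constructor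
    · intro h hB
      have : hIdx g f A * δ = 0 := by rw [← II, hB, mul_zero]
      exact (mul_ne_zero h hδ) this
    · intro h hA
      have : γ * hIdx g f B = 0 := by rw [II, hA, zero_mul]
      exact (mul_ne_zero hγ h) this

theorem hIdx_top (f g : M →* M) : hIdx f g ⊤ = g.range.relIndex f.ker := by
  unfold hIdx
  rw [← MonoidHom.range_eq_map, top_inf_eq]

end Herbrand

section Approx

variable {G H : Type*} [CommGroup G] [CommGroup H]

/-- Successive approximation: let `φ : G →* H` map a filtration `V j` into a filtration `W j`,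
surjectively on the graded pieces. If `V` is complete (every "Cauchy product" has a limit) and
`W` is separated, then `φ` maps `V 0` onto `W 0`. -/
theorem exists_map_eq_of_graded_surj (φ : G →* H) (V : ℕ → Subgroup G) (W : ℕ → Subgroup H)
    (hφ : ∀ j, ∀ x ∈ V j, φ x ∈ W j)
    (hgr : ∀ j, ∀ y ∈ W j, ∃ x ∈ V j, y / φ x ∈ W (j + 1))
    (hcompl : ∀ x : ℕ → G, (∀ j, x j ∈ V j) →
      ∃ z ∈ V 0, ∀ j, z / (∏ i ∈ Finset.range j, x i) ∈ V j)
    (hsep : ∀ y : H, (∀ j, y ∈ W j) → y = 1)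
    (y : H) (hy : y ∈ W 0) : ∃ z ∈ V 0, φ z = y := by
  classical
  -- the recursive construction
  obtain ⟨ys, xs, h0, hmem, hxs, hys⟩ : ∃ (ys : ℕ → H) (xs : ℕ → G), ys 0 = y ∧
      (∀ j, ys j ∈ W j) ∧ (∀ j, xs j ∈ V j) ∧ ∀ j, ys (j + 1) = ys j / φ (xs j) := by
    let step : (j : ℕ) → {y : H // y ∈ W j} → {y : H // y ∈ W (j + 1)} := fun j yj =>
      ⟨yj.1 / φ (hgr j yj.1 yj.2).choose, (hgr j yj.1 yj.2).choose_spec.2⟩
    let ys : (j : ℕ) → {y : H // y ∈ W j} := fun j =>
      Nat.rec (motive := fun j => {y : H // y ∈ W j}) ⟨y, hy⟩ (fun j yj => step j yj) j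
    exact ⟨fun j => (ys j).1, fun j => (hgr j (ys j).1 (ys j).2).choose, rfl,
      fun j => (ys j).2, fun j => (hgr j (ys j).1 (ys j).2).choose_spec.1, fun j => rfl⟩
  have hprod : ∀ j, y = ys j * φ (∏ i ∈ Finset.range j, xs i) := by
    intro j
    induction j with
    | zero => simp [h0]
    | succ j ih =>
      rw [Finset.prod_range_succ, map_mul, hys j, mul_comm (φ _) (φ (xs j)), ← mul_assoc,
        div_mul_cancel]
      exact ih
  obtain ⟨z, hz0, hz⟩ := hcompl xs hxs
  refine ⟨z, hz0, ?_⟩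
  have key : ∀ j, y / φ z ∈ W j := by
    intro j
    have h1 : y / φ z = ys j * (φ (z / ∏ i ∈ Finset.range j, xs i))⁻¹ := by
      rw [map_div, inv_div, ← mul_div_assoc, ← hprod j]
    rw [h1]
    exact (W j).mul_mem (hmem j) ((W j).inv_mem (hφ j _ (hz j)))
  have := hsep _ key
  exact (div_eq_one.mp this).symm

end Approx

end Fermat.Agent.S55.helper6500
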