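import Mathlib
import Fermat.Agent.S55.helper6500_Approx

/-!
# S55 / LA-ABS, part 1: the index of `p`-th powers in a complete discretely valued field
-/

namespace Fermat.Agent.S55.helper6500

open IsLocalRing

/-- `(1 + y)^p = 1 + p y + p y^2 r + y^p` for a prime `p`. -/
theorem exists_one_add_pow_prime (p : ℕ) (hp : p.Prime) {R : Type*} [CommRing R] (y : R) :
    ∃ r : R, (1 + y) ^ p = 1 + p * y + p * y ^ 2 * r + y ^ p := by
  obtain ⟨q, rfl⟩ : ∃ q, p = q + 2 := ⟨p - 2, by have := hp.two_le; omega⟩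
  refine ⟨∑ m ∈ Finset.range q, y ^ m * (((q + 2).choose (m + 2) / (q + 2) : ℕ) : R), ?_⟩
  rw [add_comm 1 y, add_pow, Finset.sum_range_succ, Finset.sum_range_succ',
    Finset.sum_range_succ']
  have hterm : ∀ m ∈ Finset.range q,
      y ^ (m + 1 + 1) * 1 ^ (q + 2 - (m + 1 + 1)) * ((q + 2).choose (m + 1 + 1) : R) =
        ((q + 2 : ℕ) : R) * y ^ 2 * (y ^ m * (((q + 2).choose (m + 2) / (q + 2) : ℕ) : R)) := by
    intro m hm
    have hm' : m < q := Finset.mem_range.mp hm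
    have hdvd : (q + 2) ∣ (q + 2).choose (m + 2) :=
      hp.dvd_choose_self (by omega) (by omega)
    obtain ⟨c, hc⟩ := hdvd
    have hc' : (q + 2).choose (m + 2) / (q + 2) = c := by
      rw [hc]; exact Nat.mul_div_cancel_left c (by omega)
    rw [hc', show m + 1 + 1 = m + 2 from rfl, hc]
    push_cast
    ring
  rw [Finset.sum_congr rfl hterm, ← Finset.mul_sum]
  simp
  ring

section DVR

variable {O : Type*} [CommRing O] [IsDomain O] [IsDiscreteValuationRing O]

/-- The `n`-th principal unit subgroup `1 + 𝔪^n` of `Oˣ`. -/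
def Uf (O : Type*) [CommRing O] [IsDomain O] [IsDiscreteValuationRing O] (n : ℕ) : Subgroup Oˣ :=
  (Units.map (Ideal.Quotient.mk (maximalIdeal O ^ n) : O →* O ⧸ maximalIdeal O ^ n)).ker

theorem mem_Uf {n : ℕ} {u : Oˣ} : u ∈ Uf O n ↔ (u : O) - 1 ∈ maximalIdeal O ^ n := by
  unfold Uf
  rw [MonoidHom.mem_ker, Units.ext_iff]
  simp only [Units.coe_map, MonoidHom.coe_coe, Units.val_one]
  rw [← (Ideal.Quotient.mk (maximalIdeal O ^ n)).map_one, Ideal.Quotient.eq]

theorem Uf_anti {m n : ℕ} (h : m ≤ n) : Uf O n ≤ Uf O m := fun u hu =>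
  mem_Uf.mpr (Ideal.pow_le_pow_right h (mem_Uf.mp hu))

theorem maximalIdeal_pow_eq {ϖ : O} (hϖ : Irreducible ϖ) (n : ℕ) :
    maximalIdeal O ^ n = Ideal.span {ϖ ^ n} := by
  rw [hϖ.maximalIdeal_eq, Ideal.span_singleton_pow]

theorem mem_maximalIdeal_pow_iff {ϖ : O} (hϖ : Irreducible ϖ) {n : ℕ} {x : O} :
    x ∈ maximalIdeal O ^ n ↔ ∃ a, x = ϖ ^ n * a := by
  rw [maximalIdeal_pow_eq hϖ, Ideal.mem_span_singleton']
  constructor
  · rintro ⟨a, rfl⟩; exact ⟨a, mul_comm _ _⟩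
  · rintro ⟨a, rfl⟩; exact ⟨a, mul_comm _ _⟩

theorem mem_Uf_iff_exists {ϖ : O} (hϖ : Irreducible ϖ) {n : ℕ} {u : Oˣ} :
    u ∈ Uf O n ↔ ∃ a, (u : O) = 1 + ϖ ^ n * a := by
  rw [mem_Uf, mem_maximalIdeal_pow_iff hϖ]
  constructor
  · rintro ⟨a, ha⟩; exact ⟨a, by rw [← ha]; ring⟩
  · rintro ⟨a, ha⟩; exact ⟨a, by rw [ha]; ring⟩

theorem isUnit_one_add {ϖ : O} (hϖ : Irreducible ϖ) {n : ℕ} (hn : 1 ≤ n) (a : O) :
    IsUnit (1 + ϖ ^ n * a) := by
  by_contra h
  have h1 : (1 + ϖ ^ n * a) ∈ maximalIdeal O := (mem_maximalIdeal _).mpr h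
  have h2 : ϖ ^ n * a ∈ maximalIdeal O := by
    rw [hϖ.maximalIdeal_eq]
    obtain ⟨k, rfl⟩ : ∃ k, n = k + 1 := ⟨n - 1, by omega⟩
    exact Ideal.mem_span_singleton'.mpr ⟨ϖ ^ k * a, by ring⟩
  have h3 : (1 : O) ∈ maximalIdeal O := by
    have := (maximalIdeal O).sub_mem h1 h2
    simpa using this
  exact (maximalIdeal.isMaximal O).ne_top ((Ideal.eq_top_iff_one _).mpr h3)

/-- Separatedness of the filtration `Uf`. -/
theorem Uf_sep [IsHausdorff (maximalIdeal O) O] (k : ℕ) (y : Oˣ)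
    (h : ∀ j, y ∈ Uf O (k + j)) : y = 1 := by
  have h0 : (y : O) - 1 = 0 := by
    apply IsHausdorff.haus (I := maximalIdeal O) ‹_›
    intro n
    rw [SModEq.zero, smul_eq_mul, Ideal.mul_top]
    exact Ideal.pow_le_pow_right (Nat.le_add_left n k) (mem_Uf.mp (h n))
  exact Units.ext (by simpa [sub_eq_zero] using h0)

/-- Completeness of the filtration `j ↦ Uf (n + j)`. -/
theorem Uf_complete [IsPrecomplete (maximalIdeal O) O] (n : ℕ) (x : ℕ → Oˣ)
    (hx : ∀ j, x j ∈ Uf O (n + j)) :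
    ∃ z ∈ Uf O (n + 0), ∀ j, z / (∏ i ∈ Finset.range j, x i) ∈ Uf O (n + j) := by
  -- partial products
  set P : ℕ → Oˣ := fun j => ∏ i ∈ Finset.range j, x i with hP
  have hPdiv : ∀ j k, j ≤ k → P k / P j ∈ Uf O (n + j) := by
    intro j k hjk
    induction k, hjk using Nat.le_induction with
    | base => simpa using (Uf O (n + j)).one_mem
    | succ k hjk ih =>
      have : P (k + 1) / P j = (P k / P j) * x k := by
        simp only [hP, Finset.prod_range_succ]
        rw [div_mul_eq_mul_div]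
      rw [this]
      exact (Uf O (n + j)).mul_mem ih (Uf_anti (by omega) (hx k))
  -- the Cauchy sequence
  let f : ℕ → O := fun k => (P (k - n) : O)
  have hf : ∀ {m k : ℕ}, m ≤ k → f m ≡ f k [SMOD (maximalIdeal O ^ m • ⊤ : Submodule O O)] := by
    intro m k hmk
    rw [SModEq.sub_mem, smul_eq_mul, Ideal.mul_top]
    have h1 : P (k - n) / P (m - n) ∈ Uf O (n + (m - n)) := hPdiv _ _ (by omega)
    have h2 : ((P (k - n) / P (m - n) : Oˣ) : O) - 1 ∈ maximalIdeal O ^ m :=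
      Ideal.pow_le_pow_right (by omega) (mem_Uf.mp h1)
    have h3 : f m - f k = -((P (m - n) : O) * (((P (k - n) / P (m - n) : Oˣ) : O) - 1)) := by
      simp only [f]
      rw [mul_sub, ← Units.val_mul, mul_div_cancel]
      ring
    rw [h3]
    exact (maximalIdeal O ^ m).neg_mem (Ideal.mul_mem_left _ _ h2)
  obtain ⟨L, hL⟩ := IsPrecomplete.prec ‹_› hf
  have hL' : ∀ j, (P j : O) - L ∈ maximalIdeal O ^ (n + j) := by
    intro j
    have := hL (n + j)
    rw [SModEq.sub_mem, smul_eq_mul, Ideal.mul_top] at this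
    simpa [f] using this
  -- `L` is a unit
  have hLu : IsUnit L := by
    by_contra h
    have h1 : L ∈ maximalIdeal O := (mem_maximalIdeal _).mpr h
    have h2 : (P 1 : O) - L ∈ maximalIdeal O :=
      Ideal.pow_le_self (by omega) (hL' 1)
    have h3 : (P 1 : O) ∈ maximalIdeal O := by
      have := (maximalIdeal O).add_mem h2 h1
      simpa using this
    exact (mem_maximalIdeal _).mp h3 (P 1).isUnit
  obtain ⟨z, rfl⟩ := hLu
  have hz : ∀ j, z / P j ∈ Uf O (n + j) := by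
    intro j
    rw [mem_Uf]
    have h3 : ((z / P j : Oˣ) : O) - 1 = -(((P j)⁻¹ : Oˣ) : O) * ((P j : O) - z) := by
      rw [div_eq_mul_inv, Units.val_mul]
      linear_combination Units.inv_mul (P j)
    rw [h3]
    exact Ideal.mul_mem_left _ _ (hL' j)
  refine ⟨z, ?_, hz⟩
  have := hz 0
  simpa [hP] using this

/-- The key congruence for `p`-th powers of principal units. -/
theorem pow_prime_formula {p : ℕ} (hp : p.Prime) {ϖ : O} (u₀ : O) (e : ℕ)
    (hpe : (p : O) = u₀ * ϖ ^ e) {j : ℕ} (hj : e + 1 ≤ j) (a : O) :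
    ∃ c, (1 + ϖ ^ j * a) ^ p = 1 + ϖ ^ (j + e) * (u₀ * a + ϖ * c) := by
  obtain ⟨r, hr⟩ := exists_one_add_pow_prime p hp (ϖ ^ j * a)
  obtain ⟨j', rfl⟩ : ∃ j', j = j' + 1 := ⟨j - 1, by omega⟩
  obtain ⟨t, ht⟩ : ∃ t, (j' + 1) * p = (j' + 1 + e) + 1 + t := by
    have h2 : (j' + 1) * 2 ≤ (j' + 1) * p := Nat.mul_le_mul_left _ hp.two_le
    exact ⟨(j' + 1) * p - (j' + 1 + e) - 1, by omega⟩
  refine ⟨ϖ ^ j' * u₀ * a ^ 2 * r + ϖ ^ t * a ^ p, ?_⟩
  rw [hr, hpe, mul_pow (ϖ ^ (j' + 1)) a p, ← pow_mul, ht]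
  ring

theorem pow_mem_Uf {p : ℕ} (hp : p.Prime) {ϖ : O} (hϖ : Irreducible ϖ) (u₀ : O) (e : ℕ)
    (hpe : (p : O) = u₀ * ϖ ^ e) {j : ℕ} (hj : e + 1 ≤ j) {x : Oˣ} (hx : x ∈ Uf O j) :
    x ^ p ∈ Uf O (j + e) := by
  obtain ⟨a, ha⟩ := (mem_Uf_iff_exists hϖ).mp hx
  obtain ⟨c, hc⟩ := pow_prime_formula hp u₀ e hpe hj a
  exact (mem_Uf_iff_exists hϖ).mpr ⟨_, by rw [Units.val_pow_eq_pow_val, ha, hc]⟩

theorem eq_one_of_pow_eq_one {p : ℕ} (hp : p.Prime) {ϖ : O} (hϖ : Irreducible ϖ) (u₀ : Oˣ)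
    (e : ℕ) (hpe : (p : O) = u₀ * ϖ ^ e) {x : Oˣ} (hx : x ∈ Uf O (e + 1)) (hxp : x ^ p = 1) :
    x = 1 := by
  by_contra hne
  have hne' : (x : O) - 1 ≠ 0 := fun h => hne (Units.ext (by simpa [sub_eq_zero] using h))
  obtain ⟨j, v, hv⟩ := IsDiscreteValuationRing.eq_unit_mul_pow_irreducible hne' hϖ
  have hj : e + 1 ≤ j := by
    obtain ⟨a, ha⟩ := (mem_maximalIdeal_pow_iff hϖ).mp (mem_Uf.mp hx)
    have hdvd : ϖ ^ (e + 1) ∣ ϖ ^ j := by
      have : ϖ ^ (e + 1) ∣ (v : O) * ϖ ^ j := ⟨a, by rw [← hv, ha]⟩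
      exact (Units.dvd_mul_left).mp this
    exact (pow_dvd_pow_iff hϖ.ne_zero hϖ.not_isUnit).mp hdvd
  have hx' : (x : O) = 1 + ϖ ^ j * v := by linear_combination hv
  obtain ⟨c, hc⟩ := pow_prime_formula hp (u₀ : O) e hpe hj (v : O)
  have h1 : ((x ^ p : Oˣ) : O) = 1 := by rw [hxp]; rfl
  rw [Units.val_pow_eq_pow_val, hx', hc] at h1
  have h2 : ϖ ^ (j + e) * ((u₀ : O) * v + ϖ * c) = 0 := by linear_combination h1
  have h3 : (u₀ : O) * v + ϖ * c = 0 :=
    (mul_eq_zero.mp h2).resolve_left (pow_ne_zero _ hϖ.ne_zero)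
  have h4 : ϖ ∣ ((u₀ * v : Oˣ) : O) := ⟨-c, by rw [Units.val_mul]; linear_combination h3⟩
  exact hϖ.not_isUnit (isUnit_of_dvd_unit h4 (u₀ * v).isUnit)

theorem exists_pow_eq_of_mem_Uf [IsAdicComplete (maximalIdeal O) O] {p : ℕ} (hp : p.Prime)
    {ϖ : O} (hϖ : Irreducible ϖ) (u₀ : Oˣ) (e : ℕ) (hpe : (p : O) = u₀ * ϖ ^ e) {y : Oˣ}
    (hy : y ∈ Uf O (e + 1 + e)) : ∃ x ∈ Uf O (e + 1), x ^ p = y := by
  have key := exists_map_eq_of_graded_surj (powMonoidHom p : Oˣ →* Oˣ)
    (fun j => Uf O (e + 1 + j)) (fun j => Uf O (e + 1 + e + j)) ?_ ?_ ?_ ?_ y (by simpa using hy)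
  · obtain ⟨z, hz, hzy⟩ := key
    exact ⟨z, by simpa using hz, hzy⟩
  · intro j x hx
    have := pow_mem_Uf hp hϖ (u₀ : O) e hpe (j := e + 1 + j) (by omega) hx
    rw [Nat.add_right_comm] at this
    exact this
  · intro j y hy
    obtain ⟨d, hd⟩ := (mem_Uf_iff_exists hϖ).mp hy
    obtain ⟨x, hx⟩ := isUnit_one_add hϖ (n := e + 1 + j) (by omega) (((u₀⁻¹ : Oˣ) : O) * d)
    obtain ⟨c, hc⟩ := pow_prime_formula hp (u₀ : O) e hpe (j := e + 1 + j) (by omega)
      (((u₀⁻¹ : Oˣ) : O) * d)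
    refine ⟨x, (mem_Uf_iff_exists hϖ).mpr ⟨_, hx⟩, ?_⟩
    rw [mem_Uf]
    have hxp : ((x ^ p : Oˣ) : O) = 1 + ϖ ^ (e + 1 + e + j) * (d + ϖ * c) := by
      rw [Units.val_pow_eq_pow_val, hx, hc, ← mul_assoc, Units.mul_inv, one_mul,
        Nat.add_right_comm]
    have h3 : ((y / (powMonoidHom p) x : Oˣ) : O) - 1 =
        -(((x ^ p)⁻¹ : Oˣ) : O) * (ϖ ^ (e + 1 + e + (j + 1)) * c) := by
      rw [powMonoidHom_apply, div_eq_mul_inv, Units.val_mul, hd]
      have hinv : (((x ^ p)⁻¹ : Oˣ) : O) * (1 + ϖ ^ (e + 1 + e + j) * (d + ϖ * c)) = 1 := by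
        rw [← hxp, Units.inv_mul]
      rw [show e + 1 + e + (j + 1) = (e + 1 + e + j) + 1 from rfl, pow_succ]
      linear_combination hinv
    rw [h3]
    exact Ideal.mul_mem_left _ _ ((mem_maximalIdeal_pow_iff hϖ).mpr ⟨c, rfl⟩)
  · exact fun x hx => Uf_complete (e + 1) x hx
  · exact fun y hy => Uf_sep (e + 1 + e) y hy

/-- `[1 + 𝔪^n : 1 + 𝔪^(n+e)] = #(O / 𝔪^e)` for `1 ≤ n`, `e ≤ n`. -/
theorem relIndex_Uf_add {ϖ : O} (hϖ : Irreducible ϖ) (n e : ℕ) (hn : 1 ≤ n) (hne : e ≤ n) :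
    (Uf O (n + e)).relIndex (Uf O n) = Nat.card (O ⧸ maximalIdeal O ^ e) := by
  classical
  have hex : ∀ u : Uf O n, ∃ a : O, ((u : Oˣ) : O) = 1 + ϖ ^ n * a :=
    fun u => (mem_Uf_iff_exists hϖ).mp u.2
  choose co hco using hex
  have hϖn : ϖ ^ n ≠ 0 := pow_ne_zero _ hϖ.ne_zero
  have hmul : ∀ u v : Uf O n, co (u * v) = co u + co v + ϖ ^ n * (co u * co v) := by
    intro u v
    apply mul_left_cancel₀ hϖn
    have h1 := hco (u * v)
    have h2 := hco u
    have h3 := hco v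
    simp only [Subgroup.coe_mul, Units.val_mul] at h1
    rw [h2, h3] at h1
    linear_combination -h1
  have hone : co 1 = 0 := by
    apply mul_left_cancel₀ hϖn
    have h1 := hco 1
    simp only [OneMemClass.coe_one, Units.val_one] at h1
    linear_combination -h1
  have hzero : ∀ a : O, Ideal.Quotient.mk (maximalIdeal O ^ e) (ϖ ^ n * a) = 0 := by
    intro a
    rw [Ideal.Quotient.eq_zero_iff_mem, mem_maximalIdeal_pow_iff hϖ]
    exact ⟨ϖ ^ (n - e) * a, by rw [← mul_assoc, ← pow_add, Nat.add_sub_cancel' hne]⟩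
  let χ : Uf O n →* Multiplicative (O ⧸ maximalIdeal O ^ e) :=
    { toFun := fun u => Multiplicative.ofAdd (Ideal.Quotient.mk _ (co u))
      map_one' := by rw [hone, map_zero]; rfl
      map_mul' := fun u v => by
        have h : Ideal.Quotient.mk (maximalIdeal O ^ e) (co (u * v)) =
            Ideal.Quotient.mk _ (co u) + Ideal.Quotient.mk _ (co v) := by
          rw [hmul, map_add, map_add, hzero, add_zero]
        rw [h, ofAdd_add] }
  have hker : (Uf O (n + e)).subgroupOf (Uf O n) = χ.ker := by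
    ext u
    rw [Subgroup.mem_subgroupOf, MonoidHom.mem_ker]
    show _ ↔ Multiplicative.ofAdd (Ideal.Quotient.mk _ (co u)) = 1
    rw [← ofAdd_zero, Multiplicative.ofAdd.injective.eq_iff, Ideal.Quotient.eq_zero_iff_mem,
      mem_maximalIdeal_pow_iff hϖ, mem_Uf_iff_exists hϖ]
    constructor
    · rintro ⟨a, ha⟩
      refine ⟨a, mul_left_cancel₀ hϖn ?_⟩
      have h1 := hco u
      rw [ha, pow_add] at h1
      linear_combination -h1
    · rintro ⟨a, ha⟩
      exact ⟨a, by rw [hco u, ha, pow_add]; ring⟩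
  have hsurj : Function.Surjective χ := by
    intro y
    obtain ⟨a, rfl⟩ := Ideal.Quotient.mk_surjective (Multiplicative.toAdd y)
    obtain ⟨x, hx⟩ := isUnit_one_add hϖ hn a
    refine ⟨⟨x, (mem_Uf_iff_exists hϖ).mpr ⟨a, hx⟩⟩, ?_⟩
    show Multiplicative.ofAdd (Ideal.Quotient.mk _ (co _)) = _
    have : co ⟨x, (mem_Uf_iff_exists hϖ).mpr ⟨a, hx⟩⟩ = a := by
      apply mul_left_cancel₀ hϖn
      have h1 := hco ⟨x, (mem_Uf_iff_exists hϖ).mpr ⟨a, hx⟩⟩
      simp only at h1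
      linear_combination hx - h1
    rw [this]
    rfl
  rw [Subgroup.relIndex, hker, Subgroup.index_ker, MonoidHom.range_eq_top.mpr hsurj,
    Subgroup.card_top]
  exact Nat.card_congr Multiplicative.toAdd

instance finite_quot_maximalIdeal_pow [Finite (ResidueField O)] (n : ℕ) :
    Finite (O ⧸ maximalIdeal O ^ n) := by
  have : Finite (O ⧸ maximalIdeal O) := inferInstanceAs (Finite (ResidueField O))
  exact Ideal.finite_quotient_pow (IsNoetherian.noetherian _) n

theorem Uf_index_ne_zero [Finite (ResidueField O)] (n : ℕ) : (Uf O n).index ≠ 0 := by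
  unfold Uf
  rw [Subgroup.index_ker]
  exact Nat.card_pos.ne'

/-- **Index of `p`-th powers in the unit group of a complete DVR with finite residue field.** -/
theorem index_range_pow_units [IsAdicComplete (maximalIdeal O) O] [Finite (ResidueField O)]
    {p : ℕ} (hp : p.Prime) (hp0 : (p : O) ≠ 0) :
    (powMonoidHom p : Oˣ →* Oˣ).range.index =
      Nat.card (rootsOfUnity p O) * Nat.card (O ⧸ Ideal.span {(p : O)}) := by
  obtain ⟨ϖ, hϖ⟩ := IsDiscreteValuationRing.exists_irreducible O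
  obtain ⟨e, u₀, hpe⟩ := IsDiscreteValuationRing.eq_unit_mul_pow_irreducible hp0 hϖ
  set P : Oˣ →* Oˣ := powMonoidHom p with hP
  set A : Subgroup Oˣ := Uf O (e + 1) with hA
  have hAP : A.map P = Uf O (e + 1 + e) := by
    apply le_antisymm
    · rintro _ ⟨x, hx, rfl⟩
      exact pow_mem_Uf hp hϖ (u₀ : O) e hpe le_rfl hx
    · intro y hy
      obtain ⟨x, hx, hxy⟩ := exists_pow_eq_of_mem_Uf hp hϖ u₀ e hpe hy
      exact ⟨x, hx, hxy⟩
  have hAker : A ⊓ P.ker = ⊥ := by
    rw [eq_bot_iff]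
    rintro x ⟨hx, hxp⟩
    rw [Subgroup.mem_bot]
    exact eq_one_of_pow_eq_one hp hϖ u₀ e hpe hx (by simpa [hP] using hxp)
  have key := (hIdx_finite_index (f := P) (g := (1 : Oˣ →* Oˣ)) (A := A) (B := ⊤)
    (fun x => by simp) (fun x => rfl) le_top
    (by rw [Subgroup.relIndex_top_right]; exact Uf_index_ne_zero (e + 1))
    (by rw [hAP]; exact Uf_anti (by omega))
    (by rw [Subgroup.map_one_eq_bot]; exact bot_le) le_top le_top).1
  have h1 : hIdx P (1 : Oˣ →* Oˣ) ⊤ = Nat.card (rootsOfUnity p O) := by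
    unfold hIdx
    rw [Subgroup.map_one_eq_bot, Subgroup.relIndex_bot_left, top_inf_eq]
    have : P.ker = rootsOfUnity p O := by
      ext x
      rw [MonoidHom.mem_ker, mem_rootsOfUnity]
      rfl
    rw [this]
  have h2 : hIdx (1 : Oˣ →* Oˣ) P A = Nat.card (O ⧸ Ideal.span {(p : O)}) := by
    unfold hIdx
    rw [MonoidHom.ker_one, inf_top_eq, hAP, relIndex_Uf_add hϖ (e + 1) e (by omega) (by omega)]
    have : Ideal.span {(p : O)} = maximalIdeal O ^ e := by
      rw [hpe, Ideal.span_singleton_mul_left_unit u₀.isUnit, maximalIdeal_pow_eq hϖ]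
    rw [this]
  have h3 : hIdx (1 : Oˣ →* Oˣ) P ⊤ = P.range.index := by
    unfold hIdx
    rw [MonoidHom.ker_one, inf_top_eq, ← MonoidHom.range_eq_map, Subgroup.relIndex_top_right]
  have h4 : hIdx P (1 : Oˣ →* Oˣ) A = 1 := by
    unfold hIdx
    rw [Subgroup.map_one_eq_bot, hAker, Subgroup.relIndex_self]
  rw [h1, h2, h3, h4, mul_one] at key
  exact key.symm

end DVR

section ValuedGroup

variable {X : Type*} [CommGroup X]

/-- In a commutative group with a "valuation" `ord : X → ℤ` taking the value `-1`, the index of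
the `p`-th powers is `p` times the index of the `p`-th powers of the units `ker ord`. -/
theorem index_range_pow_eq (ord : X →* Multiplicative ℤ) (ϖ : X)
    (hϖ : ord ϖ = Multiplicative.ofAdd (-1)) {p : ℕ} (hp : p.Prime) :
    (powMonoidHom p : X →* X).range.index =
      p * (ord.ker.map (powMonoidHom p)).relIndex ord.ker := by
  have : Fact p.Prime := ⟨hp⟩
  set P : X →* X := powMonoidHom p with hP
  set R := P.range with hR
  set U := ord.ker with hU
  let ψ : X →* Multiplicative (ZMod p) :=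
    (AddMonoidHom.toMultiplicative (Int.castAddHom (ZMod p))).comp ord
  have hψ : ∀ x, ψ x = Multiplicative.ofAdd ((Multiplicative.toAdd (ord x) : ℤ) : ZMod p) :=
    fun x => rfl
  have hord_zpow : ∀ k : ℤ, ord (ϖ ^ k) = Multiplicative.ofAdd (-k) := by
    intro k
    rw [map_zpow, hϖ, ← ofAdd_zsmul]
    simp
  have hψker : ψ.ker = U ⊔ R := by
    apply le_antisymm
    · intro x hx
      rw [MonoidHom.mem_ker, hψ, ← ofAdd_zero, Multiplicative.ofAdd.injective.eq_iff,
        ZMod.intCast_zmod_eq_zero_iff_dvd] at hx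
      obtain ⟨k, hk⟩ := hx
      rw [Subgroup.mem_sup]
      refine ⟨x / (ϖ ^ (-k)) ^ p, ?_, (ϖ ^ (-k)) ^ p, ⟨ϖ ^ (-k), rfl⟩, div_mul_cancel _ _⟩
      rw [hU, MonoidHom.mem_ker, map_div, map_pow, hord_zpow, neg_neg, ← ofAdd_nsmul,
        div_eq_one]
      apply Multiplicative.toAdd.injective
      rw [hk]
      simp [mul_comm]
    · rw [sup_le_iff]
      constructor
      · intro x hx
        rw [MonoidHom.mem_ker, hψ, (MonoidHom.mem_ker).mp hx]
        simp
      · rintro _ ⟨x, rfl⟩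
        rw [MonoidHom.mem_ker, hP, powMonoidHom_apply, map_pow]
        apply Multiplicative.toAdd.injective
        rw [toAdd_pow]
        simp
  have hψsurj : Function.Surjective ψ := by
    intro y
    obtain ⟨k, hk⟩ := ZMod.intCast_surjective (Multiplicative.toAdd y)
    refine ⟨ϖ ^ (-k), ?_⟩
    rw [hψ, hord_zpow, neg_neg]
    apply Multiplicative.toAdd.injective
    simpa using hk
  have hidx : (U ⊔ R).index = p := by
    rw [← hψker, Subgroup.index_ker, MonoidHom.range_eq_top.mpr hψsurj, Subgroup.card_top,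
      Nat.card_congr Multiplicative.toAdd, Nat.card_zmod]
  have hinf : R ⊓ U = U.map P := by
    apply le_antisymm
    · rintro y ⟨⟨x, rfl⟩, hy⟩
      refine ⟨x, ?_, rfl⟩
      have hy' : ord (P x) = 1 := hy
      show ord x = 1
      rw [hP, powMonoidHom_apply, map_pow] at hy'
      have hy := hy'
      apply Multiplicative.toAdd.injective
      have h1 := congrArg Multiplicative.toAdd hy
      rw [toAdd_pow, toAdd_one, nsmul_eq_mul] at h1
      rcases mul_eq_zero.mp h1 with h | h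
      · exact absurd (by exact_mod_cast h) hp.ne_zero
      · simpa using h
    · rintro _ ⟨x, hx, rfl⟩
      exact ⟨⟨x, rfl⟩, U.pow_mem hx p⟩
  rw [← Subgroup.relIndex_mul_index (le_sup_right : R ≤ U ⊔ R), hidx,
    Subgroup.relIndex_sup_right, ← Subgroup.inf_relIndex_right, hinf, mul_comm]

end ValuedGroup

section Field

variable (O : Type*) [CommRing O] [IsDomain O] [IsDiscreteValuationRing O]
  (K : Type*) [Field K] [Algebra O K] [IsFractionRing O K]

/-- The inclusion `Oˣ → Kˣ`. -/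
noncomputable def unitsIncl : Oˣ →* Kˣ := Units.map (algebraMap O K : O →* K)

theorem unitsIncl_injective : Function.Injective (unitsIncl O K) :=
  Units.map_injective (IsFractionRing.injective O K)

@[simp] theorem coe_unitsIncl (u : Oˣ) : ((unitsIncl O K u : Kˣ) : K) = algebraMap O K u := rfl

/-- The normalised valuation as a homomorphism `Kˣ → ℤ` (written multiplicatively). -/
noncomputable def ordHom : Kˣ →* Multiplicative ℤ :=
  (WithZero.unitsWithZeroEquiv (α := Multiplicative ℤ)).toMonoidHom.comp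
    (Units.map (((IsDiscreteValuationRing.maximalIdeal O).valuation K) :
      K →* WithZero (Multiplicative ℤ)))

theorem coe_ordHom (x : Kˣ) :
    ((ordHom O K x : Multiplicative ℤ) : WithZero (Multiplicative ℤ)) =
      (IsDiscreteValuationRing.maximalIdeal O).valuation K (x : K) := by
  unfold ordHom
  rw [MonoidHom.comp_apply, MulEquiv.coe_toMonoidHom, WithZero.coe_unitsWithZeroEquiv_eq_units_val]
  rfl

theorem ordHom_unitsIncl (u : Oˣ) : ordHom O K (unitsIncl O K u) = 1 := by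
  apply WithZero.coe_injective
  rw [coe_ordHom, coe_unitsIncl, IsDedekindDomain.HeightOneSpectrum.valuation_of_algebraMap,
    WithZero.coe_one, IsDedekindDomain.HeightOneSpectrum.intValuation_eq_one_iff]
  show (u : O) ∉ maximalIdeal O
  rw [mem_maximalIdeal, mem_nonunits_iff, not_not]
  exact u.isUnit

variable {O} in
theorem ordHom_uniformizer {ϖ : O} (hϖ : Irreducible ϖ) (x : Kˣ)
    (hx : (x : K) = algebraMap O K ϖ) : ordHom O K x = Multiplicative.ofAdd (-1) := by
  apply WithZero.coe_injective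
  rw [coe_ordHom, hx, IsDedekindDomain.HeightOneSpectrum.valuation_of_algebraMap,
    IsDedekindDomain.HeightOneSpectrum.intValuation_singleton _ hϖ.ne_zero
      (by show maximalIdeal O = _; exact hϖ.maximalIdeal_eq)]
  rfl

variable {O} in
theorem exists_unitsIncl_mul_zpow {ϖ : O} (hϖ : Irreducible ϖ) (ϖK : Kˣ)
    (hϖK : (ϖK : K) = algebraMap O K ϖ) (x : Kˣ) :
    ∃ (u : Oˣ) (n : ℤ), x = unitsIncl O K u * ϖK ^ n := by
  obtain ⟨n, u, hu⟩ := IsDiscreteValuationRing.exists_units_eq_smul_zpow_of_irreducible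
    (K := K) hϖ x.ne_zero
  refine ⟨u, n, Units.ext ?_⟩
  rw [hu, Units.val_mul, Units.val_zpow_eq_zpow_val, coe_unitsIncl, hϖK, Units.smul_def,
    Algebra.smul_def]

theorem ker_ordHom : (ordHom O K).ker = (unitsIncl O K).range := by
  obtain ⟨ϖ, hϖ⟩ := IsDiscreteValuationRing.exists_irreducible O
  have hϖK0 : algebraMap O K ϖ ≠ 0 := by
    simpa using (IsFractionRing.injective O K).ne hϖ.ne_zero
  set ϖK : Kˣ := Units.mk0 _ hϖK0 with hϖKdef
  apply le_antisymm
  · intro x hx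
    obtain ⟨u, n, rfl⟩ := exists_unitsIncl_mul_zpow K hϖ ϖK rfl x
    rw [MonoidHom.mem_ker, map_mul, ordHom_unitsIncl, one_mul, map_zpow,
      ordHom_uniformizer K hϖ ϖK rfl, ← ofAdd_zsmul, ← ofAdd_zero,
      Multiplicative.ofAdd.injective.eq_iff] at hx
    have hn : n = 0 := by simpa using hx
    rw [hn, zpow_zero, mul_one]
    exact ⟨u, rfl⟩
  · rintro _ ⟨u, rfl⟩
    exact ordHom_unitsIncl O K u

/-- **Index of `p`-th powers in a complete discretely valued field with finite residue field.**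
`[Kˣ : Kˣ^p] = p · #μ_p(K) · #(O/pO)`. -/
theorem index_range_pow_field [IsAdicComplete (maximalIdeal O) O] [Finite (ResidueField O)]
    {p : ℕ} (hp : p.Prime) (hp0 : (p : O) ≠ 0) :
    (powMonoidHom p : Kˣ →* Kˣ).range.index =
      p * (Nat.card (rootsOfUnity p K) * Nat.card (O ⧸ Ideal.span {(p : O)})) := by
  obtain ⟨ϖ, hϖ⟩ := IsDiscreteValuationRing.exists_irreducible O
  have hϖK0 : algebraMap O K ϖ ≠ 0 := by
    simpa using (IsFractionRing.injective O K).ne hϖ.ne_zero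
  set ϖK : Kˣ := Units.mk0 _ hϖK0 with hϖKdef
  rw [index_range_pow_eq (ordHom O K) ϖK (ordHom_uniformizer K hϖ ϖK rfl) hp]
  congr 1
  have hinj := unitsIncl_injective O K
  have h1 : (ordHom O K).ker.map (powMonoidHom p) =
      ((powMonoidHom p : Oˣ →* Oˣ).range).map (unitsIncl O K) := by
    rw [ker_ordHom, MonoidHom.range_eq_map, MonoidHom.range_eq_map, Subgroup.map_map,
      Subgroup.map_map]
    congr 1
    exact MonoidHom.ext fun u => (map_pow (unitsIncl O K) u p).symm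
  have h2 : (ordHom O K).ker = (⊤ : Subgroup Oˣ).map (unitsIncl O K) := by
    rw [ker_ordHom, MonoidHom.range_eq_map]
  rw [h1]
  conv_lhs => rw [h2]
  rw [Subgroup.relIndex_map_map_of_injective _ _ hinj, Subgroup.relIndex_top_right,
    index_range_pow_units hp hp0]
  congr 1
  -- roots of unity
  have h3 : rootsOfUnity p K = (rootsOfUnity p O).map (unitsIncl O K) := by
    apply le_antisymm
    · intro ζ hζ
      rw [mem_rootsOfUnity] at hζ
      have hker : ζ ∈ (ordHom O K).ker := by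
        rw [MonoidHom.mem_ker]
        apply Multiplicative.toAdd.injective
        have h := congrArg (fun t => Multiplicative.toAdd (ordHom O K t)) hζ
        simp only [map_pow, toAdd_pow, map_one, toAdd_one, nsmul_eq_mul] at h
        rcases mul_eq_zero.mp h with h | h
        · exact absurd (by exact_mod_cast h) hp.ne_zero
        · simpa using h
      rw [ker_ordHom] at hker
      obtain ⟨u, rfl⟩ := hker
      refine ⟨u, ?_, rfl⟩
      show u ∈ rootsOfUnity p O
      rw [mem_rootsOfUnity]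
      apply hinj
      rw [map_pow, hζ, map_one]
    · rintro _ ⟨u, hu, rfl⟩
      have hu' : u ^ p = 1 := (mem_rootsOfUnity p u).mp hu
      rw [mem_rootsOfUnity, ← map_pow, hu', map_one]
  rw [h3, Subgroup.card_map_of_injective hinj]

end Field

end Fermat.Agent.S55.helper6500
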