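/-
S55 (Poitou–Tate), number-field core, leaf NF-ORDER (backup copy; owner helper4587).
Author: helper6520.  Mathlib only.

Linear-algebra glue for the non-circular order (G-E) → (G-R) (team_s55_chat #160):

* `card_le_finrank_add_one_of_pairSupport` (A): a subspace `I` of `T → k` containing, for every
  pair `w₁ ≠ w₂`, a nonzero vector supported in `{w₁, w₂}` has `finrank ≥ card T - 1`.
* `finrank_add_finrank_le_finrank_map_add` (B): under a surjective linear map the codimension of
  the image of a subspace does not increase; `finrank_le_finrank_add_one_of_surjective` is the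
  packaged consumer form (codim ≤ 1 is inherited by any subspace containing the image).
* `exists_coeff_ne_zero_and_mem_iff` (C): a subspace `I` of `T → k` of codimension `≤ 1`
  containing no nonzero multiple of a standard basis vector is the kernel of
  `x ↦ ∑ t, lam t * x t` with ALL `lam t ≠ 0`.
* `pi_card_le_finrank_add_one_of_pairSupport`, `pi_exists_equiv_and_mem_iff`: the same statements
  for a product `Π t, V t` of one-dimensional spaces (as they occur on the carriers,
  `V t` = local `H²` of the unit twist at the place `t`); the functional is then a family of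
  linear isomorphisms `V t ≃ₗ[k] k` (the "invariant maps", chosen existentially).
-/
import Mathlib

set_option autoImplicit false

namespace Fermat.Agent.S55.helper6520

open Module

section Fun

variable {k : Type*} [Field k] {T : Type*} [Fintype T] [DecidableEq T]

/-- **(A) pair-support lemma.**  If a subspace `I` of `T → k` contains, for every pair
`w₁ ≠ w₂`, a nonzero vector supported in `{w₁, w₂}`, then `card T ≤ finrank I + 1`. -/
theorem card_le_finrank_add_one_of_pairSupport (I : Submodule k (T → k))
    (h : ∀ w₁ w₂ : T, w₁ ≠ w₂ → ∃ v ∈ I, v ≠ 0 ∧ ∀ t, t ≠ w₁ → t ≠ w₂ → v t = 0) :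
    Fintype.card T ≤ finrank k I + 1 := by
  classical
  by_cases hZ : ∀ w : T, (Pi.single w (1 : k) : T → k) ∈ I
  · -- `I` contains the standard basis, hence is everything
    have htop : I = ⊤ := by
      rw [eq_top_iff, ← (Pi.basisFun k T).span_eq, Submodule.span_le]
      rintro _ ⟨w, rfl⟩
      rw [Pi.basisFun_apply]
      exact hZ w
    rw [htop, finrank_top, Module.finrank_fintype_fun_eq_card]
    exact Nat.le_succ _
  · obtain ⟨w₀, hw₀⟩ := not_forall.1 hZ
    -- forget the coordinate `w₀`
    let P : (T → k) →ₗ[k] ({w : T // w ≠ w₀} → k) :=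
      LinearMap.funLeft k k (Subtype.val : {w : T // w ≠ w₀} → T)
    have hP : ∀ (x : T → k) (s : {w : T // w ≠ w₀}), P x s = x s.1 := fun _ _ => rfl
    have hmap : I.map P = ⊤ := by
      rw [eq_top_iff, ← (Pi.basisFun k {w : T // w ≠ w₀}).span_eq, Submodule.span_le]
      rintro _ ⟨t, rfl⟩
      rw [Pi.basisFun_apply]
      by_cases ht : (Pi.single t.1 (1 : k) : T → k) ∈ I
      · refine ⟨_, ht, ?_⟩
        funext s
        rw [hP]
        by_cases hst : s = t
        · subst hst; simp
        · have : s.1 ≠ t.1 := fun e => hst (Subtype.ext e)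
          simp [hst, this]
      · obtain ⟨v, hvI, hv0, hsupp⟩ := h w₀ t.1 (Ne.symm t.2)
        have hvt : v t.1 ≠ 0 := by
          intro hvt
          have hv : ∃ c : k, v = c • (Pi.single w₀ (1 : k) : T → k) := by
            refine ⟨v w₀, ?_⟩
            funext s
            by_cases hs : s = w₀
            · subst hs; simp
            · by_cases hs' : s = t.1
              · subst hs'; simp [hs, hvt]
              · simp [hs, hsupp s hs hs']
          obtain ⟨c, hv⟩ := hv
          have hc : c ≠ 0 := by
            intro h0
            apply hv0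
            rw [hv, h0, zero_smul]
          apply hw₀
          have : (Pi.single w₀ (1 : k) : T → k) = c⁻¹ • v := by
            rw [hv, smul_smul, inv_mul_cancel₀ hc, one_smul]
          rw [this]
          exact I.smul_mem _ hvI
        have hPv : P v = v t.1 • (Pi.single t (1 : k) : {w : T // w ≠ w₀} → k) := by
          funext s
          rw [hP]
          by_cases hst : s = t
          · subst hst; simp
          · have : s.1 ≠ t.1 := fun e => hst (Subtype.ext e)
            simp [hst, hsupp s.1 s.2 this]
        have : (Pi.single t (1 : k) : {w : T // w ≠ w₀} → k) = (v t.1)⁻¹ • P v := by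
          rw [hPv, smul_smul, inv_mul_cancel₀ hvt, one_smul]
        rw [this]
        exact (I.map P).smul_mem _ (Submodule.mem_map_of_mem hvI)
    have h1 : finrank k (I.map P) ≤ finrank k I := Submodule.finrank_map_le P I
    rw [hmap, finrank_top, Module.finrank_fintype_fun_eq_card] at h1
    have h2 : Fintype.card {w : T // w ≠ w₀} = Fintype.card T - 1 := by
      rw [Fintype.card_subtype_compl, Fintype.card_subtype_eq]
    omega

/-- **(C) the sum-zero functional.**  A subspace `I` of `T → k` with `card T ≤ finrank I + 1`
containing no nonzero multiple of a standard basis vector is the kernel of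
`x ↦ ∑ t, lam t * x t` with all coefficients `lam t ≠ 0`. -/
theorem exists_coeff_ne_zero_and_mem_iff (I : Submodule k (T → k))
    (hdim : Fintype.card T ≤ finrank k I + 1)
    (hno : ∀ (t : T) (c : k), c ≠ 0 → (Pi.single t c : T → k) ∉ I) :
    ∃ lam : T → k, (∀ t, lam t ≠ 0) ∧ ∀ x : T → k, x ∈ I ↔ ∑ t, lam t * x t = 0 := by
  classical
  rcases isEmpty_or_nonempty T with hT | hT
  · refine ⟨fun _ => 1, fun t => (hT.false t).elim, fun x => ?_⟩
    have hx : x = 0 := Subsingleton.elim _ _
    simp [hx]
  · obtain ⟨t₀⟩ := hT
    have hne : I ≠ ⊤ := by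
      intro htop
      exact hno t₀ 1 one_ne_zero (htop ▸ Submodule.mem_top)
    have hlt : finrank k I < Fintype.card T := by
      have := Submodule.finrank_lt hne
      rwa [Module.finrank_fintype_fun_eq_card] at this
    have hann : finrank k I + finrank k I.dualAnnihilator = Fintype.card T := by
      have := Subspace.finrank_add_finrank_dualAnnihilator_eq I
      rwa [Module.finrank_fintype_fun_eq_card] at this
    have hD : I.dualAnnihilator ≠ ⊥ := by
      intro hbot
      rw [hbot, finrank_bot] at hann
      omega
    obtain ⟨φ, hφI, hφ0⟩ := Submodule.exists_mem_ne_zero_of_ne_bot hD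
    have hle : I ≤ LinearMap.ker φ := fun w hw =>
      LinearMap.mem_ker.2 ((Submodule.mem_dualAnnihilator φ).1 hφI w hw)
    have hsurj : Function.Surjective φ := by
      obtain ⟨v, hv⟩ : ∃ v, φ v ≠ 0 := by
        by_contra hcon
        exact hφ0 (LinearMap.ext fun v => not_not.1 fun hv => hcon ⟨v, hv⟩)
      intro c
      refine ⟨(c / φ v) • v, ?_⟩
      rw [map_smul, smul_eq_mul, div_mul_cancel₀ c hv]
    have hker : finrank k (LinearMap.ker φ) + 1 = Fintype.card T := by
      have h1 := LinearMap.finrank_range_add_finrank_ker φ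
      rw [LinearMap.range_eq_top.2 hsurj, finrank_top, finrank_self,
        Module.finrank_fintype_fun_eq_card] at h1
      omega
    have hIeq : I = LinearMap.ker φ :=
      Submodule.eq_of_le_of_finrank_le hle (by omega)
    have hφx : ∀ x : T → k, φ x = ∑ t, φ (Pi.single t 1) * x t := by
      intro x
      rw [LinearMap.pi_apply_eq_sum_univ φ x]
      refine Finset.sum_congr rfl fun t _ => ?_
      rw [smul_eq_mul, mul_comm]
      congr 2
      funext s
      simp [Pi.single_apply, eq_comm]
    refine ⟨fun t => φ (Pi.single t 1), fun t ht => ?_, fun x => ?_⟩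
    · apply hno t 1 one_ne_zero
      rw [hIeq]
      exact LinearMap.mem_ker.2 ht
    · rw [hIeq, LinearMap.mem_ker, hφx]

end Fun

section Surj

variable {k : Type*} [Field k] {V W : Type*} [AddCommGroup V] [Module k V]
  [AddCommGroup W] [Module k W]

/-- **(B)** Under a surjective linear map `f : V → W` the codimension of the image of a subspace
does not increase: `finrank I + finrank W ≤ finrank (f I) + finrank V`. -/
theorem finrank_add_finrank_le_finrank_map_add [FiniteDimensional k V] (f : V →ₗ[k] W)
    (hf : Function.Surjective f) (I : Submodule k V) :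
    finrank k I + finrank k W ≤ finrank k (I.map f) + finrank k V := by
  have h1 := LinearMap.finrank_range_add_finrank_ker f
  rw [LinearMap.range_eq_top.2 hf, finrank_top] at h1
  have h2 := LinearMap.finrank_range_add_finrank_ker (f.domRestrict I)
  have h3 : LinearMap.range (f.domRestrict I) = I.map f := by
    ext y
    constructor
    · rintro ⟨x, rfl⟩
      exact ⟨x.1, x.2, rfl⟩
    · rintro ⟨x, hx, rfl⟩
      exact ⟨⟨x, hx⟩, rfl⟩
  rw [h3] at h2
  have h4 : finrank k (LinearMap.ker (f.domRestrict I)) ≤ finrank k (LinearMap.ker f) := by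
    let g : LinearMap.ker (f.domRestrict I) →ₗ[k] LinearMap.ker f :=
      LinearMap.codRestrict (LinearMap.ker f)
        ((I.subtype).comp (LinearMap.ker (f.domRestrict I)).subtype) (fun a => by
          have := a.2
          rw [LinearMap.mem_ker] at this ⊢
          exact this)
    refine LinearMap.finrank_le_finrank_of_injective (f := g) ?_
    intro a b hab
    have hval : ((a : I) : V) = ((b : I) : V) := by
      have := congrArg Subtype.val hab
      exact this
    exact Subtype.ext (Subtype.ext hval)
  omega

/-- Codimension form of (B) (truncated subtraction is harmless: `finrank I ≤ finrank V`). -/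
theorem finrank_sub_finrank_map_le [FiniteDimensional k V] (f : V →ₗ[k] W)
    (hf : Function.Surjective f) (I : Submodule k V) :
    finrank k W - finrank k (I.map f) ≤ finrank k V - finrank k I := by
  have h := finrank_add_finrank_le_finrank_map_add f hf I
  have h' := Submodule.finrank_le I
  omega

/-- Consumer form of (B) (step (v) of chat #160): if `I ≤ V` has codimension `≤ 1`,
`f : V → W` is onto and `J ≤ W` contains `f I`, then `J` has codimension `≤ 1`. -/
theorem finrank_le_finrank_add_one_of_surjective [FiniteDimensional k V] (f : V →ₗ[k] W)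
    (hf : Function.Surjective f) (I : Submodule k V) (J : Submodule k W)
    (hIJ : I.map f ≤ J) (hI : finrank k V ≤ finrank k I + 1) :
    finrank k W ≤ finrank k J + 1 := by
  have : FiniteDimensional k W := Module.Finite.of_surjective f hf
  have h := finrank_add_finrank_le_finrank_map_add f hf I
  have h' : finrank k (I.map f) ≤ finrank k J := Submodule.finrank_mono hIJ
  omega

end Surj

section Pi

variable {k : Type*} [Field k] {T : Type*} [Fintype T] [DecidableEq T]
  {V : T → Type*} [∀ t, AddCommGroup (V t)] [∀ t, Module k (V t)]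

omit [Fintype T] [DecidableEq T] in
/-- A family of coordinates for a family of one-dimensional spaces. -/
theorem exists_equiv_of_finrank_eq_one (hV : ∀ t, finrank k (V t) = 1) :
    ∃ _e : ∀ t, V t ≃ₗ[k] k, True := by
  have : ∀ t, Nonempty (V t ≃ₗ[k] k) := fun t => by
    have : FiniteDimensional k (V t) := Module.finite_of_finrank_pos (by rw [hV t]; exact one_pos)
    exact ⟨LinearEquiv.ofFinrankEq _ _ (by rw [hV t, finrank_self])⟩
  exact ⟨fun t => (this t).some, trivial⟩

/-- **(A) for a product of lines.** -/
theorem pi_card_le_finrank_add_one_of_pairSupport (hV : ∀ t, finrank k (V t) = 1)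
    (I : Submodule k (∀ t, V t))
    (h : ∀ w₁ w₂ : T, w₁ ≠ w₂ → ∃ v ∈ I, v ≠ 0 ∧ ∀ t, t ≠ w₁ → t ≠ w₂ → v t = 0) :
    Fintype.card T ≤ finrank k I + 1 := by
  classical
  obtain ⟨e, -⟩ := exists_equiv_of_finrank_eq_one hV
  let E : (∀ t, V t) ≃ₗ[k] (T → k) := LinearEquiv.piCongrRight e
  have hE : ∀ (x : ∀ t, V t) (t : T), E x t = e t (x t) := fun _ _ => rfl
  have hfr : finrank k (I.map (E : (∀ t, V t) →ₗ[k] (T → k))) = finrank k I :=
    (Submodule.equivMapOfInjective _ E.injective I).symm.finrank_eq
  rw [← hfr]
  apply card_le_finrank_add_one_of_pairSupport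
  intro w₁ w₂ hw
  obtain ⟨v, hvI, hv0, hsupp⟩ := h w₁ w₂ hw
  refine ⟨E v, Submodule.mem_map_of_mem hvI, ?_, fun t h1 h2 => ?_⟩
  · intro h0
    exact hv0 (E.injective (by rw [h0, map_zero]))
  · rw [hE, hsupp t h1 h2, map_zero]

/-- **(C) for a product of lines**: a subspace `I` of `Π t, V t` (all `V t` one-dimensional) of
codimension `≤ 1` containing no nonzero vector supported at a single index is the kernel of
`x ↦ ∑ t, inv t (x t)` for a family of linear isomorphisms `inv t : V t ≃ₗ[k] k`. -/
theorem pi_exists_equiv_and_mem_iff (hV : ∀ t, finrank k (V t) = 1)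
    (I : Submodule k (∀ t, V t))
    (hdim : Fintype.card T ≤ finrank k I + 1)
    (hno : ∀ (t : T) (c : V t), c ≠ 0 → (Pi.single t c : ∀ t, V t) ∉ I) :
    ∃ inv : ∀ t, V t ≃ₗ[k] k, ∀ x : ∀ t, V t, x ∈ I ↔ ∑ t, inv t (x t) = 0 := by
  classical
  obtain ⟨e, -⟩ := exists_equiv_of_finrank_eq_one hV
  let E : (∀ t, V t) ≃ₗ[k] (T → k) := LinearEquiv.piCongrRight e
  have hE : ∀ (x : ∀ t, V t) (t : T), E x t = e t (x t) := fun _ _ => rfl
  have hfr : finrank k (I.map (E : (∀ t, V t) →ₗ[k] (T → k))) = finrank k I :=
    (Submodule.equivMapOfInjective _ E.injective I).symm.finrank_eq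
  have hmem : ∀ x : ∀ t, V t, E x ∈ I.map (E : (∀ t, V t) →ₗ[k] (T → k)) ↔ x ∈ I := by
    intro x
    constructor
    · rintro ⟨y, hy, hyx⟩
      have : y = x := E.injective hyx
      rwa [← this]
    · exact fun hx => Submodule.mem_map_of_mem hx
  obtain ⟨lam, hlam, hiff⟩ := exists_coeff_ne_zero_and_mem_iff
    (I.map (E : (∀ t, V t) →ₗ[k] (T → k))) (by rw [hfr]; exact hdim) (by
      intro t c hc hcon
      have hES : E (Pi.single t ((e t).symm c)) = Pi.single t c := by
        funext s
        rw [hE]
        by_cases hs : s = t
        · subst hs; simp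
        · simp [hs]
      rw [← hES, hmem] at hcon
      exact hno t ((e t).symm c) (by simpa using hc) hcon)
  refine ⟨fun t => (e t).trans (LinearEquiv.smulOfUnit (Units.mk0 (lam t) (hlam t))), fun x => ?_⟩
  rw [← hmem x, hiff]
  have : ∀ t, ((e t).trans (LinearEquiv.smulOfUnit (Units.mk0 (lam t) (hlam t)))) (x t)
      = lam t * E x t := by
    intro t
    rw [hE]
    rfl
  simp only [this]

end Pi

end Fermat.Agent.S55.helper6520
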