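/-
S55 / SOFT-A (step A of the soft squeeze) — helper6607.

`stmt_ExtPair : helper166.Stmt_ExtPair` (the closed Prop (N1)+(N2) about the extension-pair
module consumed by helper166's step-A assembly), hence

  `stmt_A_of_soft : Stmt_FinOne → Stmt_B → Stmt_L2num → helper2945.Stmt_A`.
-/
import Mathlib
import Fermat.Prelude.Def_GroupCohomology_ContinuousUnramified
import Fermat.Agent.S55.helper6607_ExtPairInv
import Fermat.Agent.S55.helper6607_ExtPairSMod
import Fermat.Agent.S55.helper166_StmtA

set_option autoImplicit false

namespace Fermat.Agent.S55.helper6607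

open CategoryTheory Module groupCohomology ExtCitation
open Fermat.Agent.S55.helper2945

/-- **(N1)+(N2)** in the closed form consumed by `helper166.stmt_A_of`. -/
theorem stmt_ExtPair : helper166.Stmt_ExtPair := by
  intro p _ _ S hpS A B hA _ β hβ hsurj hinj n x hx hxl hind hloc
  have hfd := hA.finite
  refine ⟨isSMod_extPair hβ hx hA hpS hxl, ?_, ?_⟩
  · exact finrank_invariants_dualTwist_extPair' hβ hx hsurj hinj hind
  · unfold pi0
    rw [Finset.sum_congr rfl fun q hq =>
      finrank_invariants_res_dualTwist_extPair' hβ hx (primeLocalToGlobal q) hsurj hinj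
        (fun i => hloc i q hq)]
    rw [Finset.sum_add_distrib, Finset.sum_const, smul_eq_mul, mul_comm]

/-- **Step A of the soft squeeze** from the three numerical inputs only. -/
theorem stmt_A_of_soft (hF : Stmt_FinOne) (hB : Stmt_B) (hL : Stmt_L2num) : Stmt_A :=
  helper166.stmt_A_of hF hB hL stmt_ExtPair

end Fermat.Agent.S55.helper6607
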