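/-
S55-EXTMOD (board #732), helper6920.

Extension module of a representation by 1-cocycles.  For `A : Rep k G`, a `k`-module `W`
(trivial action) and a `k`-linear family of 1-cocycles `c : W →ₗ[k] cocycles₁ A`, the module
`A × W` with `g • (a, w) = (g • a + c w g, w)` is a representation `extRep A c` sitting in a
short exact sequence `0 → A → extRep A c → W → 0` whose connecting map sends `w` to the class
of `c w`.
-/
import Mathlib
import Fermat.Prelude.Def_GroupCohomology_ContinuousUnramified

set_option autoImplicit false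

open CategoryTheory groupCohomology

namespace Fermat.Agent.S55.helper6920

universe u

noncomputable section

variable {k G : Type u} [CommRing k] [Group G]

/-- Pointwise extensionality for morphisms of representations. -/
lemma rep_hom_ext_apply {H : Type u} [Group H] {A B : Rep.{u} k H} {φ ψ : A ⟶ B}
    (h : ∀ x : A, φ.hom x = ψ.hom x) : φ = ψ :=
  Rep.hom_ext (Representation.IntertwiningMap.ext (LinearMap.ext h))

section ExtRep

variable (A : Rep.{u} k G) {W : Type u} [AddCommGroup W] [Module k W]
  (c : W →ₗ[k] cocycles₁ A)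

@[simp] lemma coc_zero_apply (g : G) : (0 : cocycles₁ A) g = 0 := rfl

@[simp] lemma coc_add_apply (x y : cocycles₁ A) (g : G) : (x + y) g = x g + y g := rfl

@[simp] lemma coc_smul_apply (r : k) (x : cocycles₁ A) (g : G) : (r • x) g = r • x g := rfl

@[simp] lemma coc_neg_apply (x : cocycles₁ A) (g : G) : (-x) g = -x g := rfl

@[simp] lemma coc_sub_apply (x y : cocycles₁ A) (g : G) : (x - y) g = x g - y g := rfl

/-- The linear endomorphism `(a, w) ↦ (g • a + c w g, w)` of `A × W`. -/
def extAct (g : G) : (A × W) →ₗ[k] (A × W) where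
  toFun x := (A.ρ g x.1 + c x.2 g, x.2)
  map_add' x y := by
    ext
    · simp only [Prod.fst_add, Prod.snd_add, map_add, coc_add_apply]
      abel
    · rfl
  map_smul' r x := by
    ext
    · simp only [Prod.smul_fst, Prod.smul_snd, map_smul, RingHom.id_apply, smul_add,
        coc_smul_apply]
    · rfl

@[simp] lemma extAct_apply (g : G) (x : A × W) :
    extAct A c g x = (A.ρ g x.1 + c x.2 g, x.2) := rfl

/-- The representation on `A × W` twisted by the cocycles `c`. -/
def extRepresentation : Representation k G (A × W) where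
  toFun := extAct A c
  map_one' := by
    refine LinearMap.ext fun x => Prod.ext ?_ rfl
    simp
  map_mul' g h := by
    refine LinearMap.ext fun x => Prod.ext ?_ rfl
    simp only [extAct_apply, Module.End.mul_apply, map_mul, map_add]
    rw [(mem_cocycles₁_iff (c x.2 : G → A)).1 (c x.2).2 g h]
    abel

@[simp] lemma extRepresentation_apply (g : G) (x : A × W) :
    extRepresentation A c g x = (A.ρ g x.1 + c x.2 g, x.2) := rfl

/-- The extension module of `A` by the cocycles `c w`, `w : W`. -/
abbrev extRep : Rep.{u} k G := Rep.of (extRepresentation A c)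

@[simp] lemma extRep_ρ_apply (g : G) (x : A × W) :
    (extRep A c).ρ g x = (A.ρ g x.1 + c x.2 g, x.2) := rfl

/-- The inclusion `A ⟶ extRep A c`, `a ↦ (a, 0)`. -/
def extInl : A ⟶ extRep A c :=
  Rep.ofHom (ρ := A.ρ) (σ := extRepresentation A c)
    ⟨LinearMap.inl k A W, fun g => LinearMap.ext fun a => Prod.ext (by simp) (by simp)⟩

/-- The projection `extRep A c ⟶ W` (trivial action), `(a, w) ↦ w`. -/
def extSnd : extRep A c ⟶ Rep.trivial k G W :=
  Rep.ofHom (ρ := extRepresentation A c) (σ := Representation.trivial k G W)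
    ⟨LinearMap.snd k A W, fun g => LinearMap.ext fun x => by simp⟩

@[simp] lemma extInl_apply (a : A) : (extInl A c).hom a = (a, 0) := rfl

@[simp] lemma extSnd_apply (x : A × W) : (extSnd A c).hom x = x.2 := rfl

lemma extInl_injective : Function.Injective (extInl A c).hom :=
  fun _ _ h => congrArg Prod.fst h

lemma extSnd_surjective : Function.Surjective (extSnd A c).hom :=
  fun w => ⟨((0 : A), w), rfl⟩

lemma extInl_comp_extSnd : extInl A c ≫ extSnd A c = 0 := by
  ext a
  rfl

lemma extSnd_eq_zero_iff (x : extRep A c) :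
    (extSnd A c).hom x = 0 ↔ ∃ a : A, (extInl A c).hom a = x := by
  constructor
  · intro h
    exact ⟨x.1, Prod.ext rfl h.symm⟩
  · rintro ⟨a, rfl⟩
    rfl

/-- Connecting class: the lift `(0, w)` of `w` satisfies `g • (0, w) - (0, w) = inl (c w g)`,
so the connecting map `W = H⁰(W) → H¹(A)` of `0 → A → extRep A c → W → 0` is `w ↦ [c w]`. -/
lemma extRep_ρ_lift_sub (g : G) (w : W) :
    (extRep A c).ρ g ((0 : A), w) - ((0 : A), w) = (extInl A c).hom ((c w : G → A) g) := by
  refine Prod.ext ?_ ?_
  · show A.ρ g 0 + (c w : G → A) g - 0 = (c w : G → A) g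
    simp
  · show w - w = 0
    simp

lemma mem_invariants_extRep_iff (x : extRep A c) :
    x ∈ (extRep A c).ρ.invariants ↔ ∀ g : G, A.ρ g x.1 + (c x.2 : G → A) g = x.1 := by
  rw [Representation.mem_invariants]
  constructor
  · intro h g
    exact congrArg Prod.fst (h g)
  · intro h g
    exact Prod.ext (h g) rfl

/-- If `w ↦ [c w] ∈ H¹(G, A)` is injective, the invariants of the extension module are the
invariants of `A`. -/
theorem invariants_extRep (hc : ∀ w : W, (H1π A).hom (c w) = 0 → w = 0) :
    (extRep A c).ρ.invariants = (A.ρ.invariants).map (extInl A c).hom.toLinearMap := by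
  ext x
  rw [mem_invariants_extRep_iff, Submodule.mem_map]
  constructor
  · intro h
    have hw : x.2 = 0 := by
      apply hc
      rw [H1π_eq_zero_iff]
      refine ⟨-x.1, ?_⟩
      funext g
      rw [d₀₁_hom_apply]
      calc A.ρ g (-x.1) - (-x.1) = x.1 - A.ρ g x.1 := by rw [map_neg]; abel
        _ = (A.ρ g x.1 + (c x.2 : G → A) g) - A.ρ g x.1 := by rw [h g]
        _ = (c x.2 : G → A) g := by abel
    refine ⟨x.1, ?_, Prod.ext rfl hw.symm⟩
    rw [Representation.mem_invariants]
    intro g
    have := h g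
    rw [hw, map_zero, coc_zero_apply, add_zero] at this
    exact this
  · rintro ⟨a, ha, rfl⟩ g
    rw [Representation.mem_invariants] at ha
    show A.ρ g a + (c (0 : W) : G → A) g = a
    rw [map_zero, coc_zero_apply, add_zero, ha g]

instance extRep_finite [Module.Finite k A] [Module.Finite k W] : Module.Finite k (extRep A c) :=
  inferInstanceAs (Module.Finite k (A × W))

/-- The short complex `A ⟶ extRep A c ⟶ W` in `Rep k G`. -/
def extShortComplex : ShortComplex (Rep.{u} k G) :=
  ShortComplex.mk (extInl A c) (extSnd A c) (extInl_comp_extSnd A c)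

lemma extShortComplex_shortExact : (extShortComplex A c).ShortExact where
  exact := by
    rw [← ShortComplex.exact_map_iff_of_faithful _ (forget₂ (Rep.{u} k G) (ModuleCat.{u} k))]
    rw [ShortComplex.moduleCat_exact_iff]
    intro x hx
    exact ⟨x.1, Prod.ext rfl (Eq.symm hx)⟩
  mono_f := (Rep.mono_iff_injective _).2 (extInl_injective A c)
  epi_g := (Rep.epi_iff_surjective _).2 (extSnd_surjective A c)

end ExtRep

section Split

variable {H : Type u} [Group H] (f : H →* G)
variable (A : Rep.{u} k G) {W : Type u} [AddCommGroup W] [Module k W]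
  (c : W →ₗ[k] cocycles₁ A)
variable (a : W →ₗ[k] A)
  (ha : ∀ (w : W) (h : H), (c w : G → A) (f h) = A.ρ (f h) (a w) - a w)

/-- If the cocycles `c w` become coboundaries `h ↦ f h • a w - a w` after restriction along
`f : H →* G`, then `(x, w) ↦ x + a w` is an `H`-equivariant retraction of `extInl`. -/
def extRetract : Rep.res f (extRep A c) ⟶ Rep.res f A :=
  Rep.ofHom (ρ := (extRepresentation A c).comp f) (σ := A.ρ.comp f)
    ⟨LinearMap.fst k A W + a ∘ₗ LinearMap.snd k A W, fun h => LinearMap.ext fun x => by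
      show A.ρ (f h) x.1 + (c x.2 : G → A) (f h) + a x.2 = A.ρ (f h) (x.1 + a x.2)
      rw [ha x.2 h, map_add]
      abel⟩

/-- Under the same hypothesis, `w ↦ (-a w, w)` is an `H`-equivariant section of `extSnd`. -/
def extSection : Rep.res f (Rep.trivial k G W) ⟶ Rep.res f (extRep A c) :=
  Rep.ofHom (ρ := (Representation.trivial k G W).comp f) (σ := (extRepresentation A c).comp f)
    ⟨(-a).prod LinearMap.id, fun h => LinearMap.ext fun w => by
      refine Prod.ext ?_ rfl
      show -a w = A.ρ (f h) (-a w) + (c w : G → A) (f h)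
      rw [ha w h, map_neg]
      abel⟩

@[simp] lemma extRetract_apply (x : A × W) : (extRetract f A c a ha).hom x = x.1 + a x.2 := rfl

@[simp] lemma extSection_apply (w : W) : (extSection f A c a ha).hom w = (-a w, w) := rfl

lemma resMap_extInl_comp_extRetract :
    Rep.resMap f (extInl A c) ≫ extRetract f A c a ha = 𝟙 (Rep.res f A) := by
  refine rep_hom_ext_apply fun x => ?_
  show x + a 0 = x
  simp

lemma extSection_comp_resMap_extSnd :
    extSection f A c a ha ≫ Rep.resMap f (extSnd A c) = 𝟙 (Rep.res f (Rep.trivial k G W)) :=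
  rep_hom_ext_apply fun _ => rfl

lemma extSection_comp_extRetract :
    extSection f A c a ha ≫ extRetract f A c a ha = 0 := by
  refine rep_hom_ext_apply fun w => ?_
  show -a w + a w = 0
  simp

lemma extRetract_comp_add_comp_extSection :
    extRetract f A c a ha ≫ Rep.resMap f (extInl A c) +
      Rep.resMap f (extSnd A c) ≫ extSection f A c a ha = 𝟙 (Rep.res f (extRep A c)) := by
  refine rep_hom_ext_apply fun x => ?_
  refine Prod.ext ?_ ?_
  · show x.1 + a x.2 + -a x.2 = x.1
    abel
  · show (0 : W) + x.2 = x.2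
    simp

end Split

section SplitExists

variable {H : Type u} [Group H] (f : H →* G) (A : Rep.{u} k G)

/-- The restriction along `f` of the class of a 1-cocycle `x` vanishes iff `x ∘ f` is a
coboundary `h ↦ f h • y - y`. -/
lemma map_H1π_eq_zero_iff (x : cocycles₁ A) :
    (groupCohomology.map f (𝟙 (Rep.res f A)) 1).hom ((H1π A).hom x) = 0 ↔
      ∃ y : A, ∀ h : H, (x : G → A) (f h) = A.ρ (f h) y - y := by
  have h1 : (groupCohomology.map f (𝟙 (Rep.res f A)) 1).hom ((H1π A).hom x) =
      (H1π (Rep.res f A)).hom ((mapCocycles₁ f (𝟙 (Rep.res f A))).hom x) :=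
    H1π_comp_map_apply f (𝟙 (Rep.res f A)) x
  rw [h1, H1π_eq_zero_iff]
  constructor
  · rintro ⟨y, hy⟩
    refine ⟨y, fun h => ?_⟩
    have := congrFun hy h
    rw [d₀₁_hom_apply] at this
    exact this.symm
  · rintro ⟨y, hy⟩
    refine ⟨y, funext fun h => ?_⟩
    rw [d₀₁_hom_apply]
    exact (hy h).symm

end SplitExists

section SplitExistsField

variable {K Γ H : Type u} [Field K] [Group Γ] [Group H] (f : H →* Γ) (A : Rep.{u} K Γ)
  {W : Type u} [AddCommGroup W] [Module K W] (c : W →ₗ[K] cocycles₁ A)

/-- Over a field: if every class `[c w]` dies after restriction along `f`, the coboundary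
witnesses can be chosen linearly in `w`. -/
theorem exists_linear_coboundary
    (hc : ∀ w : W, (groupCohomology.map f (𝟙 (Rep.res f A)) 1).hom ((H1π A).hom (c w)) = 0) :
    ∃ a : W →ₗ[K] A, ∀ (w : W) (h : H), (c w : Γ → A) (f h) = A.ρ (f h) (a w) - a w := by
  classical
  let B := Module.Basis.ofVectorSpace K W
  have hex : ∀ b, ∃ y : A, ∀ h : H, (c (B b) : Γ → A) (f h) = A.ρ (f h) y - y :=
    fun b => (map_H1π_eq_zero_iff f A (c (B b))).1 (hc (B b))
  choose y hy using hex
  let a : W →ₗ[K] A := B.constr K y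
  refine ⟨a, ?_⟩
  let L1 : W →ₗ[K] (H → A) :=
    (LinearMap.funLeft K A f) ∘ₗ (cocycles₁ A).subtype ∘ₗ c
  let L2 : W →ₗ[K] (H → A) := (d₀₁ (Rep.res f A)).hom ∘ₗ a
  have hL : L1 = L2 := by
    refine B.ext fun b => funext fun h => ?_
    show (c (B b) : Γ → A) (f h) = A.ρ (f h) (a (B b)) - a (B b)
    rw [hy b h]
    simp [a]
  intro w h
  exact congrFun (congrArg (fun L : W →ₗ[K] (H → A) => L w) hL) h

end SplitExistsField

section Galois

local notation "Γℚ" => (AlgebraicClosure ℚ ≃ₐ[ℚ] AlgebraicClosure ℚ)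

variable {k : Type} [CommRing k] (A : Rep.{0} k Γℚ) {W : Type} [AddCommGroup W] [Module k W]
  (c : W →ₗ[k] cocycles₁ A)

/-- Smoothness (the frozen-shape hypothesis `hsm`) passes to the extension module when the
cocycles are level-constant. -/
theorem extRep_smooth
    (hsm : ∀ m : A, ∃ F : IntermediateField ℚ (AlgebraicClosure ℚ), FiniteDimensional ℚ F ∧
      ∀ s ∈ F.fixingSubgroup, A.ρ s m = m)
    (hc : ∀ w : W, IsLevelConstant₁ (MonoidHom.id Γℚ) (c w : Γℚ → A)) :
    ∀ x : extRep A c, ∃ F : IntermediateField ℚ (AlgebraicClosure ℚ), FiniteDimensional ℚ F ∧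
      ∀ s ∈ F.fixingSubgroup, (extRep A c).ρ s x = x := by
  intro x
  obtain ⟨F, hF, hFx⟩ := hsm x.1
  obtain ⟨F', hF', hF'c⟩ := hc x.2
  have := hF
  have := hF'
  refine ⟨F ⊔ F', inferInstance, fun s hs => ?_⟩
  have hs1 : s ∈ F.fixingSubgroup := IntermediateField.fixingSubgroup_antitone le_sup_left hs
  have hs2 : s ∈ F'.fixingSubgroup := IntermediateField.fixingSubgroup_antitone le_sup_right hs
  have h1 : (c x.2 : Γℚ → A) s = 0 := by
    have := hF'c 1 s hs2
    rw [one_mul] at this
    rw [this]
    exact cocycles₁_map_one (c x.2)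
  refine Prod.ext ?_ rfl
  show A.ρ s x.1 + (c x.2 : Γℚ → A) s = x.1
  rw [h1, add_zero, hFx s hs1]

/-- Unramifiedness outside `S` (the frozen-shape hypothesis `hMur`) passes to the extension
module when the cocycles are `S`-level-constant. -/
theorem extRep_unramified (S : Finset Nat.Primes)
    (hMur : ∀ q : Nat.Primes, q ∉ S → ∀ B : ValuationSubring (AlgebraicClosure ℚ),
      B.LiesOverPrime (q : ℕ) → ∀ g ∈ B.inertiaSubgroupIn ℚ, A.ρ g = 1)
    (hc : ∀ w : W, IsLevelConstantS₁ S (c w : Γℚ → A)) :
    ∀ q : Nat.Primes, q ∉ S → ∀ B : ValuationSubring (AlgebraicClosure ℚ),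
      B.LiesOverPrime (q : ℕ) → ∀ g ∈ B.inertiaSubgroupIn ℚ, (extRep A c).ρ g = 1 := by
  intro q hq B hB g hg
  refine LinearMap.ext fun x => Prod.ext ?_ rfl
  obtain ⟨F, hF, hFc⟩ := hc x.2
  have hgF : g ∈ F.fixingSubgroup := hF.2 q hq B hB hg
  have h1 : (c x.2 : Γℚ → A) g = 0 := by
    have := hFc 1 g hgF
    rw [one_mul] at this
    rw [this]
    exact cocycles₁_map_one (c x.2)
  show A.ρ g x.1 + (c x.2 : Γℚ → A) g = x.1
  rw [h1, add_zero, hMur q hq B hB g hg]
  rfl

end Galois

section Lift

local notation "Γℚ" => (AlgebraicClosure ℚ ≃ₐ[ℚ] AlgebraicClosure ℚ)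

variable {K : Type} [Field K] (S : Finset Nat.Primes) (A : Rep.{0} K Γℚ)

/-- Every subspace of `continuousH1S S A` has a linear lift to `S`-level-constant cocycles. -/
theorem exists_levelS_cocycle_lift (V : Submodule K (H1 A)) (hV : V ≤ continuousH1S S A) :
    ∃ c : V →ₗ[K] cocycles₁ A, (∀ v : V, IsLevelConstantS₁ S (c v : Γℚ → A)) ∧
      ∀ v : V, (H1π A).hom (c v) = (v : H1 A) := by
  classical
  let B := Module.Basis.ofVectorSpace K V
  have hex : ∀ b, ∃ z : levelCocyclesS₁ S A, (H1π A).hom (z : cocycles₁ A) = (B b : H1 A) := by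
    intro b
    obtain ⟨z, hz, hzb⟩ := (mem_continuousH1S_iff S A _).1 (hV (B b).2)
    exact ⟨⟨z, hz⟩, hzb⟩
  choose z hz using hex
  let c' : V →ₗ[K] levelCocyclesS₁ S A := B.constr K z
  have hL : (H1π A).hom ∘ₗ (levelCocyclesS₁ S A).subtype ∘ₗ c' = V.subtype := by
    refine B.ext fun b => ?_
    simp [c', hz]
  refine ⟨(levelCocyclesS₁ S A).subtype ∘ₗ c', fun v => (c' v).2, fun v => ?_⟩
  exact congrArg (fun L : V →ₗ[K] H1 A => L v) hL

/-- The data used in step A of the soft reduction: a linear family of `S`-level cocycles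
representing `sha₁ S A`, whose classes are locally trivial at every place of `extArithIndex S`
with coboundary witnesses depending linearly on the class. -/
theorem exists_sha₁_cocycles :
    ∃ c : sha₁ S A →ₗ[K] cocycles₁ A,
      (∀ v : sha₁ S A, IsLevelConstantS₁ S (c v : Γℚ → A)) ∧
      (∀ v : sha₁ S A, (H1π A).hom (c v) = (v : H1 A)) ∧
      (∀ w : sha₁ S A, (H1π A).hom (c w) = 0 → w = 0) ∧
      ∀ i : ExtCitation.extArithIndex S, ∃ a : sha₁ S A →ₗ[K] A,
        ∀ (w : sha₁ S A) (h : ExtCitation.extArithLocalGroups S i),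
          (c w : Γℚ → A) (ExtCitation.extArithLoc S i h) =
            A.ρ (ExtCitation.extArithLoc S i h) (a w) - a w := by
  obtain ⟨c, hc1, hc2⟩ := exists_levelS_cocycle_lift S A (sha₁ S A) inf_le_left
  refine ⟨c, hc1, hc2, fun w hw => ?_, fun i => ?_⟩
  · rw [hc2 w] at hw
    exact Subtype.ext hw
  · refine exists_linear_coboundary (ExtCitation.extArithLoc S i) A c fun w => ?_
    rw [hc2 w]
    have hw : (w : H1 A) ∈ LinearMap.ker (locTotal (ExtCitation.extArithLoc S) A) := w.2.2
    have := congrFun (LinearMap.mem_ker.1 hw) i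
    simpa using this

end Lift

end

end Fermat.Agent.S55.helper6920
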