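/-
S55 (Poitou–Tate), local core — END ADAPTER of the symbol-line route to `(LB1)`.
Seat helper7572 (registry backup of LA-LB1-SYMB); requested by helper164 (team_s55_chat #499).

`helper164.LevelSys.IsSymbolic.exists_smul_sub_mem_B2` gives the line statement for the
`ZMod p`-valued level cochains (trivial action) on the subgroups of a group with a level system.
This file transports that statement, for `Γ = Gal(Ω/K)`, `H = ⊤` and the level system whose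
levels are the fixing subgroups of the finite subextensions of `Ω/K`, to the closed statement
`helper9554.Stmt_LB1_line K Ω p` on the `μ_p`-valued multiplicative cochains, when `μ_p ⊆ K`.

Dictionary: a `μ_p`-valued cochain `f` is `ζ ^ (φ ·).val` for a unique `ZMod p`-valued cochain
`φ` (`ζ` a primitive `p`-th root of unity fixed by `Γ`), and
`IsMuCocycle₂ p f ↔ φ ∈ 𝓛.Z2 p ⊤`, `IsMuCob₂ p f ↔ φ ∈ 𝓛.B2 p ⊤`.
-/
import Mathlib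
import Fermat.Agent.S55.helper9554_LocalSpec
import Fermat.Agent.S55.helper164_LevelSymbol

set_option autoImplicit false

namespace Fermat.Agent.S55.helper7572

open groupCohomology

/-! ### The exponential `ZMod p → μ_p` attached to a primitive root -/

section Exp

variable {M : Type*} [CommGroup M] {p : ℕ} [Fact p.Prime]

/-- `a ↦ ζ ^ a.val`. -/
def expZ (ζ : M) (a : ZMod p) : M := ζ ^ a.val

theorem expZ_zero (ζ : M) : expZ ζ (0 : ZMod p) = 1 := by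
  simp [expZ]

theorem expZ_add {ζ : M} (hζ : ζ ^ p = 1) (a b : ZMod p) :
    expZ ζ (a + b) = expZ ζ a * expZ ζ b := by
  have : NeZero p := ⟨(Fact.out : p.Prime).ne_zero⟩
  exact helper9554.pow_val_add_of_pow_eq_one hζ a b

omit [Fact p.Prime] in
theorem expZ_pow_p {ζ : M} (hζ : ζ ^ p = 1) (a : ZMod p) : expZ ζ a ^ p = 1 := by
  rw [expZ, ← pow_mul, mul_comm, pow_mul, hζ, one_pow]

theorem expZ_neg {ζ : M} (hζ : ζ ^ p = 1) (a : ZMod p) : expZ ζ (-a) = (expZ ζ a)⁻¹ := by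
  have h := expZ_add hζ a (-a)
  rw [add_neg_cancel, expZ_zero] at h
  exact eq_inv_of_mul_eq_one_right h.symm

theorem expZ_sub {ζ : M} (hζ : ζ ^ p = 1) (a b : ZMod p) :
    expZ ζ (a - b) = expZ ζ a / expZ ζ b := by
  rw [sub_eq_add_neg, expZ_add hζ, expZ_neg hζ, div_eq_mul_inv]

theorem expZ_natCast_mul {ζ : M} (hζ : ζ ^ p = 1) (n : ℕ) (a : ZMod p) :
    expZ ζ ((n : ZMod p) * a) = expZ ζ a ^ n := by
  induction n with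
  | zero => simp [expZ_zero]
  | succ n ih =>
    have : ((n + 1 : ℕ) : ZMod p) * a = (n : ZMod p) * a + a := by push_cast; ring
    rw [this, expZ_add hζ, ih, pow_succ]

theorem expZ_mul {ζ : M} (hζ : ζ ^ p = 1) (c a : ZMod p) :
    expZ ζ (c * a) = expZ ζ a ^ c.val := by
  have : NeZero p := ⟨(Fact.out : p.Prime).ne_zero⟩
  conv_lhs => rw [← ZMod.natCast_zmod_val c]
  exact expZ_natCast_mul hζ c.val a

end Exp

section ExpField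

variable {Ω : Type*} [Field Ω] {p : ℕ} [Fact p.Prime]

theorem expZ_injective {ζ : Ωˣ} (hζ : IsPrimitiveRoot ζ p) :
    Function.Injective (expZ (p := p) ζ) := by
  have : NeZero p := ⟨(Fact.out : p.Prime).ne_zero⟩
  intro a b hab
  have h := hζ.pow_inj (ZMod.val_lt a) (ZMod.val_lt b) hab
  exact ZMod.val_injective p h

/-- Every element of `μ_p` is a power of the primitive root. -/
theorem exists_expZ_eq {ζ : Ωˣ} (hζ : IsPrimitiveRoot ζ p) {x : Ωˣ} (hx : x ^ p = 1) :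
    ∃ a : ZMod p, expZ ζ a = x := by
  have : NeZero p := ⟨(Fact.out : p.Prime).ne_zero⟩
  have hζ' : IsPrimitiveRoot (ζ : Ω) p := IsPrimitiveRoot.coe_units_iff.2 hζ
  have hx' : (x : Ω) ^ p = 1 := by
    rw [← Units.val_pow_eq_pow_val, hx, Units.val_one]
  obtain ⟨i, hi, hix⟩ := hζ'.eq_pow_of_pow_eq_one hx'
  refine ⟨(i : ZMod p), ?_⟩
  apply Units.ext
  rw [expZ, ZMod.val_natCast, Nat.mod_eq_of_lt hi, Units.val_pow_eq_pow_val, hix]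

end ExpField

/-! ### The dictionary `μ_p`-valued cochains ↔ `ZMod p`-valued cochains -/

section Dictionary

variable {K Ω : Type*} [Field K] [Field Ω] [Algebra K Ω] {p : ℕ} [Fact p.Prime]

/-- The transport of a cochain on `Γ × Γ` to `⊤ × ⊤`. -/
def topFn₂ {X : Type*} (φ : (Ω ≃ₐ[K] Ω) × (Ω ≃ₐ[K] Ω) → X) :
    ↥(⊤ : Subgroup (Ω ≃ₐ[K] Ω)) × ↥(⊤ : Subgroup (Ω ≃ₐ[K] Ω)) → X :=
  fun q => φ ((q.1 : Ω ≃ₐ[K] Ω), (q.2 : Ω ≃ₐ[K] Ω))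

/-- The transport of a cochain on `⊤` to `Γ`. -/
def ofTopFn₁ {X : Type*} (c : ↥(⊤ : Subgroup (Ω ≃ₐ[K] Ω)) → X) : (Ω ≃ₐ[K] Ω) → X :=
  fun g => c ⟨g, Subgroup.mem_top g⟩

variable (𝓛 : helper164.LevelSys (Ω ≃ₐ[K] Ω))

/-- A `1`-cochain on `⊤` which is level for `𝓛` is level in the sense of the local spec. -/
theorem isLevel₁_ofTopFn₁
    (h𝓛 : ∀ N, 𝓛.P N → ∃ E : IntermediateField K Ω, FiniteDimensional K E ∧
      E.fixingSubgroup ≤ N)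
    {X : Type*} {c : ↥(⊤ : Subgroup (Ω ≃ₐ[K] Ω)) → X} (hc : 𝓛.Lev₁ ⊤ c) :
    helper9554.IsLevel₁ (ofTopFn₁ c) := by
  obtain ⟨N, hN, hcN⟩ := hc
  obtain ⟨E, hE, hEN⟩ := h𝓛 N hN
  refine ⟨E, hE, fun g s hs => ?_⟩
  exact hcN ⟨g, Subgroup.mem_top g⟩ ⟨s, Subgroup.mem_top s⟩ (hEN hs)

/-- A `2`-cochain on `Γ` which is level in the sense of the local spec is level for `𝓛`. -/
theorem lev₂_topFn₂
    (h𝓛' : ∀ E : IntermediateField K Ω, FiniteDimensional K E → 𝓛.P E.fixingSubgroup)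
    {X : Type*} {φ : (Ω ≃ₐ[K] Ω) × (Ω ≃ₐ[K] Ω) → X} (hφ : helper9554.IsLevel₂ φ) :
    𝓛.Lev₂ ⊤ (topFn₂ φ) := by
  obtain ⟨E, hE, hφE⟩ := hφ
  exact ⟨E.fixingSubgroup, h𝓛' E hE, fun g g' s s' hs hs' =>
    hφE (g : Ω ≃ₐ[K] Ω) (g' : Ω ≃ₐ[K] Ω) (s : Ω ≃ₐ[K] Ω) (s' : Ω ≃ₐ[K] Ω) hs hs'⟩

variable {ζ : Ωˣ}

omit [Fact p.Prime] in
/-- The action of `Γ` on `μ_p` is trivial when `ζ` is fixed. -/
theorem smul_expZ (hζfix : ∀ g : Ω ≃ₐ[K] Ω, g • ζ = ζ) (g : Ω ≃ₐ[K] Ω) (a : ZMod p) :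
    g • expZ ζ a = expZ ζ a := by
  rw [expZ, smul_pow', hζfix]

/-- `dOne` of the exponential of a cochain on `⊤` is the exponential of `dTriv`. -/
theorem dOne_expZ (hζp : ζ ^ p = 1) (hζfix : ∀ g : Ω ≃ₐ[K] Ω, g • ζ = ζ)
    (c : ↥(⊤ : Subgroup (Ω ≃ₐ[K] Ω)) → ZMod p) (g h : Ω ≃ₐ[K] Ω) :
    helper9554.dOne (fun g => expZ ζ (ofTopFn₁ c g)) (g, h) =
      expZ ζ (helper164.dTriv c (⟨g, Subgroup.mem_top g⟩, ⟨h, Subgroup.mem_top h⟩)) := by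
  rw [helper9554.dOne_apply, smul_expZ hζfix]
  simp only [helper164.dTriv, ofTopFn₁]
  rw [expZ_add hζp, expZ_sub hζp]
  rfl

/-- **Dictionary, cocycles.** If `f = ζ ^ φ` is a `μ_p`-valued level cocycle then `φ` is a level
cocycle of the level system. -/
theorem topFn₂_mem_Z2 (hζ : IsPrimitiveRoot ζ p) (hζfix : ∀ g : Ω ≃ₐ[K] Ω, g • ζ = ζ)
    (h𝓛' : ∀ E : IntermediateField K Ω, FiniteDimensional K E → 𝓛.P E.fixingSubgroup)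
    {f : (Ω ≃ₐ[K] Ω) × (Ω ≃ₐ[K] Ω) → Ωˣ} (hf : helper9554.IsMuCocycle₂ p f)
    {φ : (Ω ≃ₐ[K] Ω) × (Ω ≃ₐ[K] Ω) → ZMod p} (hφ : ∀ q, expZ ζ (φ q) = f q) :
    topFn₂ φ ∈ 𝓛.Z2 p ⊤ := by
  have hζp : ζ ^ p = 1 := hζ.pow_eq_one
  have hinj := expZ_injective hζ
  refine ⟨fun g h j => ?_, ?_⟩
  · apply hinj
    have hc := hf.cocycle (g : Ω ≃ₐ[K] Ω) (h : Ω ≃ₐ[K] Ω) (j : Ω ≃ₐ[K] Ω)
    rw [← hφ, ← hφ, ← hφ, ← hφ, smul_expZ hζfix] at hc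
    rw [expZ_add hζp, expZ_add hζp]
    exact hc
  · have hl : helper9554.IsLevel₂ φ := by
      obtain ⟨E, hE, hfE⟩ := hf.level
      refine ⟨E, hE, fun g g' s s' hs hs' => hinj ?_⟩
      rw [hφ, hφ]
      exact hfE g g' s s' hs hs'
    exact lev₂_topFn₂ 𝓛 h𝓛' hl

/-- **Dictionary, coboundaries.** If `f = ζ ^ φ` and `φ` is the coboundary of a level cochain of
the level system, then `f` is the coboundary of a `μ_p`-valued level cochain. -/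
theorem isMuCob₂_of_mem_B2 (hζp : ζ ^ p = 1) (hζfix : ∀ g : Ω ≃ₐ[K] Ω, g • ζ = ζ)
    (h𝓛 : ∀ N, 𝓛.P N → ∃ E : IntermediateField K Ω, FiniteDimensional K E ∧
      E.fixingSubgroup ≤ N)
    {f : (Ω ≃ₐ[K] Ω) × (Ω ≃ₐ[K] Ω) → Ωˣ}
    {φ : ↥(⊤ : Subgroup (Ω ≃ₐ[K] Ω)) × ↥(⊤ : Subgroup (Ω ≃ₐ[K] Ω)) → ZMod p}
    (hφ : ∀ g h : Ω ≃ₐ[K] Ω,
      expZ ζ (φ (⟨g, Subgroup.mem_top g⟩, ⟨h, Subgroup.mem_top h⟩)) = f (g, h))
    (hB : φ ∈ 𝓛.B2 p ⊤) : helper9554.IsMuCob₂ p f := by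
  obtain ⟨c, hc, rfl⟩ := hB
  refine ⟨fun g => expZ ζ (ofTopFn₁ c g), ?_, fun g => expZ_pow_p hζp _, ?_⟩
  · exact (isLevel₁_ofTopFn₁ 𝓛 h𝓛 hc).comp (expZ ζ)
  · funext q
    obtain ⟨g, h⟩ := q
    rw [dOne_expZ hζp hζfix]
    exact (hφ g h).symm

/-- **Dictionary, coboundaries, converse.** If `f = ζ ^ φ` is the coboundary of a `μ_p`-valued
level cochain, then `φ` is the coboundary of a level cochain of the level system. -/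
theorem mem_B2_of_isMuCob₂ (hζ : IsPrimitiveRoot ζ p) (hζfix : ∀ g : Ω ≃ₐ[K] Ω, g • ζ = ζ)
    (h𝓛' : ∀ E : IntermediateField K Ω, FiniteDimensional K E → 𝓛.P E.fixingSubgroup)
    {f : (Ω ≃ₐ[K] Ω) × (Ω ≃ₐ[K] Ω) → Ωˣ} (hf : helper9554.IsMuCob₂ p f)
    {φ : (Ω ≃ₐ[K] Ω) × (Ω ≃ₐ[K] Ω) → ZMod p} (hφ : ∀ q, expZ ζ (φ q) = f q) :
    topFn₂ φ ∈ 𝓛.B2 p ⊤ := by
  have hζp : ζ ^ p = 1 := hζ.pow_eq_one
  have hinj := expZ_injective hζ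
  obtain ⟨x, hxl, hxp, rfl⟩ := hf
  have hex : ∀ g, ∃ a : ZMod p, expZ ζ a = x g := fun g => exists_expZ_eq hζ (hxp g)
  choose c hc using hex
  have hcl : helper9554.IsLevel₁ c := by
    obtain ⟨E, hE, hxE⟩ := hxl
    refine ⟨E, hE, fun g s hs => hinj ?_⟩
    rw [hc, hc]
    exact hxE g s hs
  obtain ⟨E, hE, hcE⟩ := hcl
  refine ⟨fun g => c (g : Ω ≃ₐ[K] Ω), ⟨E.fixingSubgroup, h𝓛' E hE, fun g s hs =>
    hcE (g : Ω ≃ₐ[K] Ω) (s : Ω ≃ₐ[K] Ω) hs⟩, ?_⟩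
  funext q
  obtain ⟨⟨g, hg⟩, ⟨h, hh⟩⟩ := q
  apply hinj
  show expZ ζ (φ (g, h)) = expZ ζ (c h - c (g * h) + c g)
  rw [hφ, helper9554.dOne_apply, expZ_add hζp, expZ_sub hζp, hc, hc, hc, ← hc h,
    smul_expZ hζfix]

end Dictionary

/-! ### The end adapter -/

section Adapter

variable {K Ω : Type*} [Field K] [Field Ω] [Algebra K Ω] (p : ℕ) [Fact p.Prime]

/-- **End adapter of the symbol-line route to `(LB1)`.**  For a level system on `Gal(Ω/K)`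
whose levels are cofinal with the fixing subgroups of the finite subextensions, and a primitive
`p`-th root of unity fixed by `Gal(Ω/K)`: the line statement for the `ZMod p`-valued level
cochains on `⊤` implies `helper9554.Stmt_LB1_line K Ω p`. -/
theorem stmt_LB1_line_of_levelSys' (𝓛 : helper164.LevelSys (Ω ≃ₐ[K] Ω))
    (h𝓛 : ∀ N, 𝓛.P N → ∃ E : IntermediateField K Ω, FiniteDimensional K E ∧
      E.fixingSubgroup ≤ N)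
    (h𝓛' : ∀ E : IntermediateField K Ω, FiniteDimensional K E → 𝓛.P E.fixingSubgroup)
    (ζ : Ωˣ) (hζ : IsPrimitiveRoot ζ p) (hζfix : ∀ g : Ω ≃ₐ[K] Ω, g • ζ = ζ)
    (hline : ∀ f₁ f₂ : ↥(⊤ : Subgroup (Ω ≃ₐ[K] Ω)) × ↥(⊤ : Subgroup (Ω ≃ₐ[K] Ω)) → ZMod p,
      f₁ ∈ 𝓛.Z2 p ⊤ → f₂ ∈ 𝓛.Z2 p ⊤ → f₁ ∉ 𝓛.B2 p ⊤ →
        ∃ c : ZMod p, f₂ - c • f₁ ∈ 𝓛.B2 p ⊤) :
    helper9554.Stmt_LB1_line K Ω p := by
  have hζp : ζ ^ p = 1 := hζ.pow_eq_one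
  intro f₁ f₂ hf₁ hf₂ hne
  have hex₁ : ∀ q, ∃ a : ZMod p, expZ ζ a = f₁ q := fun q =>
    exists_expZ_eq hζ (hf₁.pow_eq_one q)
  have hex₂ : ∀ q, ∃ a : ZMod p, expZ ζ a = f₂ q := fun q =>
    exists_expZ_eq hζ (hf₂.pow_eq_one q)
  choose φ₁ hφ₁ using hex₁
  choose φ₂ hφ₂ using hex₂
  have hZ₁ := topFn₂_mem_Z2 𝓛 hζ hζfix h𝓛' hf₁ hφ₁
  have hZ₂ := topFn₂_mem_Z2 𝓛 hζ hζfix h𝓛' hf₂ hφ₂
  have hB₁ : topFn₂ φ₁ ∉ 𝓛.B2 p ⊤ := fun hB =>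
    hne (isMuCob₂_of_mem_B2 𝓛 hζp hζfix h𝓛 (fun g h => hφ₁ (g, h)) hB)
  obtain ⟨c, hc⟩ := hline _ _ hZ₁ hZ₂ hB₁
  refine ⟨c.val, isMuCob₂_of_mem_B2 𝓛 hζp hζfix h𝓛 (fun g h => ?_) hc⟩
  show expZ ζ (φ₂ (g, h) - c * φ₁ (g, h)) = f₂ (g, h) / f₁ (g, h) ^ c.val
  rw [expZ_sub hζp, expZ_mul hζp, hφ₁, hφ₂]

/-- The end adapter when the levels of `𝓛` are exactly the fixing subgroups of the finite
subextensions. -/
theorem stmt_LB1_line_of_levelSys (𝓛 : helper164.LevelSys (Ω ≃ₐ[K] Ω))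
    (h𝓛 : ∀ N, 𝓛.P N ↔ ∃ E : IntermediateField K Ω, FiniteDimensional K E ∧
      N = E.fixingSubgroup)
    (ζ : Ωˣ) (hζ : IsPrimitiveRoot ζ p) (hζfix : ∀ g : Ω ≃ₐ[K] Ω, g • ζ = ζ)
    (hline : ∀ f₁ f₂ : ↥(⊤ : Subgroup (Ω ≃ₐ[K] Ω)) × ↥(⊤ : Subgroup (Ω ≃ₐ[K] Ω)) → ZMod p,
      f₁ ∈ 𝓛.Z2 p ⊤ → f₂ ∈ 𝓛.Z2 p ⊤ → f₁ ∉ 𝓛.B2 p ⊤ →
        ∃ c : ZMod p, f₂ - c • f₁ ∈ 𝓛.B2 p ⊤) :
    helper9554.Stmt_LB1_line K Ω p := by
  refine stmt_LB1_line_of_levelSys' p 𝓛 (fun N hN => ?_) (fun E hE => ?_) ζ hζ hζfix hline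
  · obtain ⟨E, hE, rfl⟩ := (h𝓛 N).1 hN
    exact ⟨E, hE, le_rfl⟩
  · exact (h𝓛 _).2 ⟨E, hE, rfl⟩

/-- A primitive root of unity of `K` gives a unit of `Ω` which is a primitive root fixed by
`Gal(Ω/K)`. -/
theorem exists_unit_of_primitiveRoot (ζ : K) (hζ : IsPrimitiveRoot ζ p) :
    ∃ ζ' : Ωˣ, IsPrimitiveRoot ζ' p ∧ ∀ g : Ω ≃ₐ[K] Ω, g • ζ' = ζ' := by
  have hp : p ≠ 0 := (Fact.out : p.Prime).ne_zero
  have hζ0 : algebraMap K Ω ζ ≠ 0 := by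
    rw [Ne, map_eq_zero]
    exact hζ.ne_zero hp
  have hζΩ : IsPrimitiveRoot (algebraMap K Ω ζ) p :=
    hζ.map_of_injective (algebraMap K Ω).injective
  refine ⟨Units.mk0 _ hζ0, IsPrimitiveRoot.coe_units_iff.1 (by simpa using hζΩ), fun g => ?_⟩
  apply Units.ext
  simp

/-- The end adapter with the primitive root given in `K`. -/
theorem stmt_LB1_line_of_levelSys_of_mem (𝓛 : helper164.LevelSys (Ω ≃ₐ[K] Ω))
    (h𝓛 : ∀ N, 𝓛.P N ↔ ∃ E : IntermediateField K Ω, FiniteDimensional K E ∧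
      N = E.fixingSubgroup)
    (ζ : K) (hζ : IsPrimitiveRoot ζ p)
    (hline : ∀ f₁ f₂ : ↥(⊤ : Subgroup (Ω ≃ₐ[K] Ω)) × ↥(⊤ : Subgroup (Ω ≃ₐ[K] Ω)) → ZMod p,
      f₁ ∈ 𝓛.Z2 p ⊤ → f₂ ∈ 𝓛.Z2 p ⊤ → f₁ ∉ 𝓛.B2 p ⊤ →
        ∃ c : ZMod p, f₂ - c • f₁ ∈ 𝓛.B2 p ⊤) :
    helper9554.Stmt_LB1_line K Ω p := by
  obtain ⟨ζ', hζ', hfix⟩ := exists_unit_of_primitiveRoot (Ω := Ω) p ζ hζ
  exact stmt_LB1_line_of_levelSys p 𝓛 h𝓛 ζ' hζ' hfix hline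

end Adapter

end Fermat.Agent.S55.helper7572
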