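/-
S55 / helper7604 : explicit `H²` of a finite cyclic group (cocycle level, Mathlib only).

For a group `G` generated by `σ` of order `n > 0` acting on an abelian group `A`:
a 2-cocycle `c : G × G → A` is a coboundary iff its *cyclic invariant*
`∑_{j<n} c (σ^j, σ)` is a norm `∑_{j<n} σ^j • y`.  Additive (`IsCocycle₂`) and
multiplicative (`IsMulCocycle₂`) shapes, with an explicit primitive that stays
inside any `G`-stable subgroup containing the data.
-/
import Mathlib

set_option autoImplicit false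

namespace Fermat.Agent.S55.helper7604

open groupCohomology Finset

section CyclicAdd

variable {G A : Type*} [Group G] [AddCommGroup A] [DistribMulAction G A]

/-- The auxiliary sequence `X 0 = c (1,1)`, `X (i+1) = X i + σ^i • y - c (σ^i, σ)`. -/
def cycSeq (σ : G) (c : G × G → A) (y : A) : ℕ → A
  | 0 => c (1, 1)
  | (i + 1) => cycSeq σ c y i + σ ^ i • y - c (σ ^ i, σ)

theorem cycSeq_zero (σ : G) (c : G × G → A) (y : A) : cycSeq σ c y 0 = c (1, 1) := rfl

theorem cycSeq_succ (σ : G) (c : G × G → A) (y : A) (i : ℕ) :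
    cycSeq σ c y (i + 1) = cycSeq σ c y i + σ ^ i • y - c (σ ^ i, σ) := rfl

/-- The sequence `cycSeq` is a primitive of `c` along the powers of `σ`. -/
theorem cycSeq_spec (σ : G) {c : G × G → A} (hc : IsCocycle₂ c) (y : A) (i j : ℕ) :
    σ ^ i • cycSeq σ c y j - cycSeq σ c y (i + j) + cycSeq σ c y i = c (σ ^ i, σ ^ j) := by
  induction j with
  | zero =>
    have h := hc (σ ^ i) 1 1
    simp only [mul_one, add_left_inj] at h
    simp only [cycSeq_zero, add_zero, pow_zero]
    rw [h]; abel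
  | succ j ih =>
    have h := hc (σ ^ i) (σ ^ j) σ
    rw [← pow_add, ← pow_succ] at h
    have e2 : cycSeq σ c y (i + (j + 1))
        = cycSeq σ c y (i + j) + σ ^ (i + j) • y - c (σ ^ (i + j), σ) := by
      rw [← add_assoc]; rfl
    rw [cycSeq_succ, e2, smul_sub, smul_add, smul_smul, ← pow_add]
    linear_combination (norm := abel) ih + h

theorem cycSeq_eq_sum (σ : G) (c : G × G → A) (y : A) (i : ℕ) :
    cycSeq σ c y i = c (1, 1) + ∑ j ∈ range i, (σ ^ j • y - c (σ ^ j, σ)) := by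
  induction i with
  | zero => simp [cycSeq_zero]
  | succ i ih => rw [sum_range_succ, cycSeq_succ, ih]; abel

theorem cycSeq_add_period (σ : G) (c : G × G → A) (y : A) {n : ℕ} (hσn : σ ^ n = 1)
    (hy : ∑ j ∈ range n, σ ^ j • y = ∑ j ∈ range n, c (σ ^ j, σ)) (i : ℕ) :
    cycSeq σ c y (i + n) = cycSeq σ c y i := by
  induction i with
  | zero =>
    rw [zero_add, cycSeq_eq_sum, sum_sub_distrib, hy, sub_self, add_zero, cycSeq_zero]
  | succ i ih =>
    have e : i + 1 + n = (i + n) + 1 := by omega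
    rw [e, cycSeq_succ, cycSeq_succ, ih, pow_add, hσn, mul_one]

theorem cycSeq_add_mul_period (σ : G) (c : G × G → A) (y : A) {n : ℕ} (hσn : σ ^ n = 1)
    (hy : ∑ j ∈ range n, σ ^ j • y = ∑ j ∈ range n, c (σ ^ j, σ)) (i k : ℕ) :
    cycSeq σ c y (i + n * k) = cycSeq σ c y i := by
  induction k with
  | zero => simp
  | succ k ih =>
    have e : i + n * (k + 1) = (i + n * k) + n := by ring
    rw [e, cycSeq_add_period σ c y hσn hy, ih]

theorem cycSeq_congr (σ : G) (c : G × G → A) (y : A)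
    (hy : ∑ j ∈ range (orderOf σ), σ ^ j • y = ∑ j ∈ range (orderOf σ), c (σ ^ j, σ))
    {i j : ℕ} (hij : σ ^ i = σ ^ j) : cycSeq σ c y i = cycSeq σ c y j := by
  have hmod : i % orderOf σ = j % orderOf σ := pow_eq_pow_iff_modEq.1 hij
  have hi := cycSeq_add_mul_period σ c y (pow_orderOf_eq_one σ) hy (i % orderOf σ) (i / orderOf σ)
  have hj := cycSeq_add_mul_period σ c y (pow_orderOf_eq_one σ) hy (j % orderOf σ) (j / orderOf σ)
  rw [Nat.mod_add_div] at hi hj
  rw [hi, hj, hmod]

theorem cycSeq_mem (σ : G) (c : G × G → A) (y : A) (U : AddSubgroup A)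
    (hU : ∀ (g : G) (u : A), u ∈ U → g • u ∈ U) (hy : y ∈ U) (hc : ∀ p, c p ∈ U) (i : ℕ) :
    cycSeq σ c y i ∈ U := by
  induction i with
  | zero => exact hc _
  | succ i ih => exact U.sub_mem (U.add_mem ih (hU _ _ hy)) (hc _)

/-- **Cyclic normal form, sufficiency.**  If the cyclic invariant of a 2-cocycle is the norm of
`y`, the cocycle is the coboundary of an explicit 1-cochain `x` with `x (σ^i) = cycSeq σ c y i`. -/
theorem exists_primitive_of_cyclic (σ : G) (hσ : ∀ g : G, g ∈ Subgroup.zpowers σ)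
    (hn : 0 < orderOf σ) {c : G × G → A} (hc : IsCocycle₂ c) (y : A)
    (hy : ∑ j ∈ range (orderOf σ), σ ^ j • y = ∑ j ∈ range (orderOf σ), c (σ ^ j, σ)) :
    ∃ x : G → A, (∀ g h : G, g • x h - x (g * h) + x g = c (g, h)) ∧
      ∀ i : ℕ, x (σ ^ i) = cycSeq σ c y i := by
  classical
  have hfin : IsOfFinOrder σ := orderOf_pos_iff.1 hn
  have hpow : ∀ g : G, ∃ i : ℕ, σ ^ i = g := fun g =>
    (Submonoid.mem_powers_iff _ _).1 (hfin.mem_powers_iff_mem_zpowers.2 (hσ g))
  choose idx hidx using hpow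
  refine ⟨fun g => cycSeq σ c y (idx g), ?_, ?_⟩
  · intro g h
    have e : cycSeq σ c y (idx (g * h)) = cycSeq σ c y (idx g + idx h) :=
      cycSeq_congr σ c y hy (by rw [hidx, pow_add, hidx, hidx])
    have := cycSeq_spec σ hc y (idx g) (idx h)
    rw [hidx, hidx] at this
    simp only [e]
    exact this
  · intro i
    exact cycSeq_congr σ c y hy (hidx _)

/-- **Cyclic normal form, necessity.**  The cyclic invariant of a coboundary is a norm. -/
theorem sum_eq_of_primitive (σ : G) {n : ℕ} (hσn : σ ^ n = 1) {c : G × G → A} (x : G → A)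
    (hx : ∀ g h : G, g • x h - x (g * h) + x g = c (g, h)) :
    ∑ j ∈ range n, c (σ ^ j, σ) = ∑ j ∈ range n, σ ^ j • x σ := by
  have h1 : ∀ j : ℕ, c (σ ^ j, σ) = σ ^ j • x σ - (x (σ ^ (j + 1)) - x (σ ^ j)) := by
    intro j
    rw [← hx, pow_succ]; abel
  simp only [h1]
  rw [sum_sub_distrib, sum_range_sub (fun j => x (σ ^ j))]
  simp [hσn]

theorem sum_shift_of_period {f : ℕ → A} {n : ℕ} (hf : f n = f 0) :
    ∑ j ∈ range n, f (j + 1) = ∑ j ∈ range n, f j := by
  have h1 := sum_range_succ f n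
  have h2 := sum_range_succ' f n
  rw [h1, hf] at h2
  exact (add_right_cancel h2).symm

/-- The cyclic invariant of a 2-cocycle is fixed by `σ`. -/
theorem smul_cyclic_invariant (σ : G) {n : ℕ} (hσn : σ ^ n = 1) {c : G × G → A}
    (hc : IsCocycle₂ c) :
    σ • ∑ j ∈ range n, c (σ ^ j, σ) = ∑ j ∈ range n, c (σ ^ j, σ) := by
  have h : ∀ j : ℕ, c (σ ^ (j + 1), σ) + c (σ, σ ^ j) = σ • c (σ ^ j, σ) + c (σ, σ ^ (j + 1)) := by
    intro j
    have := hc σ (σ ^ j) σ
    rwa [← pow_succ', ← pow_succ] at this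
  have hs := Finset.sum_congr (rfl : range n = range n) (fun j _ => h j)
  rw [sum_add_distrib, sum_add_distrib, ← smul_sum,
    sum_shift_of_period (f := fun j => c (σ ^ j, σ)) (by simp [hσn]),
    sum_shift_of_period (f := fun j => c (σ, σ ^ j)) (by simp [hσn])] at hs
  exact (add_right_cancel hs).symm

/-- The cyclic invariant of a 2-cocycle is fixed by the whole (cyclic) group. -/
theorem smul_cyclic_invariant' (σ : G) (hσ : ∀ g : G, g ∈ Subgroup.zpowers σ) {n : ℕ}
    (hσn : σ ^ n = 1) {c : G × G → A} (hc : IsCocycle₂ c) (g : G) :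
    g • ∑ j ∈ range n, c (σ ^ j, σ) = ∑ j ∈ range n, c (σ ^ j, σ) := by
  have hfix : ∀ k : ℕ, σ ^ k • ∑ j ∈ range n, c (σ ^ j, σ) = ∑ j ∈ range n, c (σ ^ j, σ) := by
    intro k
    induction k with
    | zero => simp
    | succ k ih => rw [pow_succ, mul_smul, smul_cyclic_invariant σ hσn hc, ih]
  obtain ⟨k, rfl⟩ := Subgroup.mem_zpowers_iff.1 (hσ g)
  obtain ⟨m, rfl | rfl⟩ := Int.eq_nat_or_neg k
  · rw [zpow_natCast]; exact hfix m
  · rw [zpow_neg, zpow_natCast, inv_smul_eq_iff]; exact (hfix m).symm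

/-- **`H²` of a finite cyclic group, additive cocycle form.** -/
theorem isCoboundary₂_iff_of_cyclic (σ : G) (hσ : ∀ g : G, g ∈ Subgroup.zpowers σ)
    (hn : 0 < orderOf σ) {c : G × G → A} (hc : IsCocycle₂ c) :
    IsCoboundary₂ c ↔
      ∃ y : A, ∑ j ∈ range (orderOf σ), σ ^ j • y = ∑ j ∈ range (orderOf σ), c (σ ^ j, σ) := by
  constructor
  · rintro ⟨x, hx⟩
    exact ⟨x σ, (sum_eq_of_primitive σ (pow_orderOf_eq_one σ) x hx).symm⟩
  · rintro ⟨y, hy⟩
    obtain ⟨x, hx, -⟩ := exists_primitive_of_cyclic σ hσ hn hc y hy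
    exact ⟨x, hx⟩

end CyclicAdd

section CyclicMul

variable {G M : Type*} [Group G] [CommGroup M] [MulDistribMulAction G M]

/-- The additive avatar of a `MulDistribMulAction` (used only as a local instance to transfer the
additive normal form). -/
@[reducible] def additiveAction (G M : Type*) [Group G] [CommGroup M] [MulDistribMulAction G M] :
    DistribMulAction G (Additive M) where
  smul g a := Additive.ofMul (g • Additive.toMul a)
  one_smul a := congrArg Additive.ofMul (one_smul G (Additive.toMul a))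
  mul_smul g h a := congrArg Additive.ofMul (mul_smul g h (Additive.toMul a))
  smul_zero g := congrArg Additive.ofMul (smul_one g)
  smul_add g a b := congrArg Additive.ofMul (smul_mul' g (Additive.toMul a) (Additive.toMul b))

attribute [local instance] additiveAction

theorem isCocycle₂_ofMul {c : G × G → M} (hc : IsMulCocycle₂ c) :
    IsCocycle₂ (A := Additive M) (fun p => Additive.ofMul (c p)) := hc

theorem sum_ofMul_eq_of_prod_eq {n : ℕ} (σ : G) {c : G × G → M} {y : M}
    (hy : ∏ j ∈ range n, σ ^ j • y = ∏ j ∈ range n, c (σ ^ j, σ)) :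
    ∑ j ∈ range n, σ ^ j • Additive.ofMul y = ∑ j ∈ range n, Additive.ofMul (c (σ ^ j, σ)) := by
  have := congrArg Additive.ofMul hy
  rw [ofMul_prod, ofMul_prod] at this
  exact this

/-- **Cyclic normal form, multiplicative, sufficiency.**  If the cyclic invariant
`∏_{j<n} c (σ^j, σ)` of a multiplicative 2-cocycle is the norm `∏_{j<n} σ^j • y`, the cocycle is
a coboundary; the primitive takes its values in any `G`-stable subgroup containing `y` and the
values of `c`. -/
theorem exists_mulPrimitive_of_cyclic (σ : G) (hσ : ∀ g : G, g ∈ Subgroup.zpowers σ)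
    (hn : 0 < orderOf σ) {c : G × G → M} (hc : IsMulCocycle₂ c) (y : M)
    (hy : ∏ j ∈ range (orderOf σ), σ ^ j • y = ∏ j ∈ range (orderOf σ), c (σ ^ j, σ))
    (U : Subgroup M) (hU : ∀ (g : G) (u : M), u ∈ U → g • u ∈ U) (hyU : y ∈ U)
    (hcU : ∀ p, c p ∈ U) :
    ∃ x : G → M, (∀ g h : G, g • x h / x (g * h) * x g = c (g, h)) ∧ ∀ g, x g ∈ U := by
  obtain ⟨x, hx, hxi⟩ := exists_primitive_of_cyclic (A := Additive M) σ hσ hn
    (isCocycle₂_ofMul hc) (Additive.ofMul y) (sum_ofMul_eq_of_prod_eq σ hy)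
  refine ⟨fun g => (x g).toMul, fun g h => congrArg Additive.toMul (hx g h), fun g => ?_⟩
  have hfin : IsOfFinOrder σ := orderOf_pos_iff.1 hn
  obtain ⟨i, rfl⟩ := (Submonoid.mem_powers_iff _ _).1 (hfin.mem_powers_iff_mem_zpowers.2 (hσ g))
  show Additive.toMul (x (σ ^ i)) ∈ U
  rw [hxi]
  exact cycSeq_mem (A := Additive M) σ _ _ U.toAddSubgroup hU hyU hcU i

/-- **Cyclic normal form, multiplicative, necessity.** -/
theorem prod_eq_of_mulPrimitive (σ : G) {n : ℕ} (hσn : σ ^ n = 1) {c : G × G → M} (x : G → M)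
    (hx : ∀ g h : G, g • x h / x (g * h) * x g = c (g, h)) :
    ∏ j ∈ range n, c (σ ^ j, σ) = ∏ j ∈ range n, σ ^ j • x σ := by
  have := sum_eq_of_primitive (A := Additive M) σ hσn (c := fun p => Additive.ofMul (c p))
    (fun g => Additive.ofMul (x g)) (fun g h => congrArg Additive.ofMul (hx g h))
  have h2 := congrArg Additive.toMul this
  rw [toMul_sum, toMul_sum] at h2
  exact h2

/-- The cyclic invariant of a multiplicative 2-cocycle is fixed by the group. -/
theorem smul_mulCyclic_invariant (σ : G) (hσ : ∀ g : G, g ∈ Subgroup.zpowers σ) {n : ℕ}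
    (hσn : σ ^ n = 1) {c : G × G → M} (hc : IsMulCocycle₂ c) (g : G) :
    g • ∏ j ∈ range n, c (σ ^ j, σ) = ∏ j ∈ range n, c (σ ^ j, σ) := by
  have := smul_cyclic_invariant' (A := Additive M) σ hσ hσn (isCocycle₂_ofMul hc) g
  rw [← ofMul_prod] at this
  exact congrArg Additive.toMul this

/-- **`H²` of a finite cyclic group, multiplicative cocycle form**: a 2-cocycle is a coboundary
iff its cyclic invariant is a norm. -/
theorem isMulCoboundary₂_iff_of_cyclic (σ : G) (hσ : ∀ g : G, g ∈ Subgroup.zpowers σ)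
    (hn : 0 < orderOf σ) {c : G × G → M} (hc : IsMulCocycle₂ c) :
    IsMulCoboundary₂ c ↔
      ∃ y : M, ∏ j ∈ range (orderOf σ), σ ^ j • y = ∏ j ∈ range (orderOf σ), c (σ ^ j, σ) := by
  constructor
  · rintro ⟨x, hx⟩
    exact ⟨x σ, (prod_eq_of_mulPrimitive σ (pow_orderOf_eq_one σ) x hx).symm⟩
  · rintro ⟨y, hy⟩
    obtain ⟨x, hx, -⟩ := exists_mulPrimitive_of_cyclic σ hσ hn hc y hy ⊤
      (fun _ _ _ => Subgroup.mem_top _) (Subgroup.mem_top _) (fun _ => Subgroup.mem_top _)
    exact ⟨x, hx⟩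

end CyclicMul

end Fermat.Agent.S55.helper7604
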