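import Mathlib

/-!
# S55 / local arithmetic core: the normal-basis lattice of a Galois extension of normed fields

`lam K r` is the additive subgroup of `L` of elements all of whose normal-basis coordinates have
norm `≤ r`.  It is Galois-stable, cohomologically trivial (`exists_trace_eq`, `exists_sub_eq`,
`exists_sub_sub_mem`), multiplicatively controlled (`mul_mem_lam`), closed and compact
(`isCompact_lam`).
-/

namespace Fermat.Agent.S55.helper7678

open scoped NNReal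
open Subgroup

section Lattice

variable (K : Type) [Field K] {L : Type} [NormedField L] [Algebra K L]
  [FiniteDimensional K L] [IsGalois K L]

/-- The coordinate of `x` along the normal basis vector indexed by `τ`, viewed in `L`. -/
noncomputable def crd (τ : L ≃ₐ[K] L) (x : L) : L :=
  algebraMap K L ((IsGalois.normalBasis K L).repr x τ)

lemma crd_add (τ : L ≃ₐ[K] L) (x y : L) : crd K τ (x + y) = crd K τ x + crd K τ y := by
  simp [crd]

lemma crd_neg (τ : L ≃ₐ[K] L) (x : L) : crd K τ (-x) = -crd K τ x := by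
  simp [crd]

lemma crd_zero (τ : L ≃ₐ[K] L) : crd K τ (0 : L) = 0 := by
  simp [crd]

lemma crd_smul (τ : L ≃ₐ[K] L) (a : K) (x : L) :
    crd K τ (a • x) = algebraMap K L a * crd K τ x := by
  simp [crd]

lemma crd_basis_self (τ : L ≃ₐ[K] L) : crd K τ (IsGalois.normalBasis K L τ) = 1 := by
  simp [crd, Module.Basis.repr_self]

lemma crd_basis_ne {τ ρ : L ≃ₐ[K] L} (h : ρ ≠ τ) : crd K τ (IsGalois.normalBasis K L ρ) = 0 := by
  classical
  simp [crd, Module.Basis.repr_self, h]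

variable [IsUltrametricDist L]

/-- The lattice of elements all of whose normal-basis coordinates have norm `≤ r`. -/
def lam (r : ℝ≥0) : AddSubgroup L where
  carrier := {x | ∀ τ : L ≃ₐ[K] L, ‖crd K τ x‖ ≤ r}
  zero_mem' := fun τ => by simp [crd_zero]
  add_mem' := fun {x y} hx hy τ => by
    rw [crd_add]
    exact (IsUltrametricDist.norm_add_le_max _ _).trans (max_le (hx τ) (hy τ))
  neg_mem' := fun {x} hx τ => by
    rw [crd_neg, norm_neg]
    exact hx τ

lemma mem_lam {r : ℝ≥0} {x : L} : x ∈ lam K r ↔ ∀ τ : L ≃ₐ[K] L, ‖crd K τ x‖ ≤ r := Iff.rfl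

lemma lam_mono {r s : ℝ≥0} (h : r ≤ s) : lam K (L := L) r ≤ lam K s :=
  fun _ hx τ => (hx τ).trans (by exact_mod_cast h)

lemma smul_mem_lam {r s : ℝ≥0} {a : K} {x : L} (hx : x ∈ lam K s)
    (h : ‖algebraMap K L a‖ * s ≤ r) : a • x ∈ lam K r := by
  intro τ
  rw [crd_smul, norm_mul]
  exact (mul_le_mul_of_nonneg_left (hx τ) (norm_nonneg _)).trans h

lemma basis_mem_lam (ρ : L ≃ₐ[K] L) : IsGalois.normalBasis K L ρ ∈ lam K (1 : ℝ≥0) := by
  intro τ
  by_cases h : ρ = τ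
  · subst h
    rw [crd_basis_self]
    simp
  · rw [crd_basis_ne K h]
    simp

/-- an element is in `lam r` as soon as it is a combination of elements of `lam s` with small
coefficients -/
lemma sum_smul_mem_lam {ι : Type*} (T : Finset ι) {r s : ℝ≥0} (a : ι → K) (y : ι → L)
    (hy : ∀ i ∈ T, y i ∈ lam K s) (h : ∀ i ∈ T, ‖algebraMap K L (a i)‖ * s ≤ r) :
    ∑ i ∈ T, a i • y i ∈ lam K r :=
  AddSubgroup.sum_mem _ fun i hi => smul_mem_lam K (hy i hi) (h i hi)

lemma norm_repr_le {r : ℝ≥0} {x : L} (hx : x ∈ lam K r) (τ : L ≃ₐ[K] L) :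
    ‖algebraMap K L ((IsGalois.normalBasis K L).repr x τ)‖ ≤ r := hx τ

/-- a bound for the structure constants of the normal basis -/
noncomputable def cst : ℝ≥0 :=
  ∑ τ : L ≃ₐ[K] L, ∑ τ' : L ≃ₐ[K] L, ∑ ρ : L ≃ₐ[K] L,
    ‖crd K ρ (IsGalois.normalBasis K L τ * IsGalois.normalBasis K L τ')‖₊

lemma basis_mul_mem_lam (τ τ' : L ≃ₐ[K] L) :
    IsGalois.normalBasis K L τ * IsGalois.normalBasis K L τ' ∈ lam K (cst K (L := L)) := by
  intro ρ
  have h1 : ‖crd K ρ (IsGalois.normalBasis K L τ * IsGalois.normalBasis K L τ')‖₊ ≤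
      ∑ ρ : L ≃ₐ[K] L, ‖crd K ρ (IsGalois.normalBasis K L τ * IsGalois.normalBasis K L τ')‖₊ :=
    Finset.single_le_sum (f := fun ρ : L ≃ₐ[K] L =>
      ‖crd K ρ (IsGalois.normalBasis K L τ * IsGalois.normalBasis K L τ')‖₊)
      (fun _ _ => zero_le) (Finset.mem_univ ρ)
  have h2 : (∑ ρ : L ≃ₐ[K] L,
      ‖crd K ρ (IsGalois.normalBasis K L τ * IsGalois.normalBasis K L τ')‖₊) ≤
      ∑ τ' : L ≃ₐ[K] L, ∑ ρ : L ≃ₐ[K] L,
        ‖crd K ρ (IsGalois.normalBasis K L τ * IsGalois.normalBasis K L τ')‖₊ :=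
    Finset.single_le_sum (f := fun τ' : L ≃ₐ[K] L => ∑ ρ : L ≃ₐ[K] L,
      ‖crd K ρ (IsGalois.normalBasis K L τ * IsGalois.normalBasis K L τ')‖₊)
      (fun _ _ => zero_le) (Finset.mem_univ τ')
  have h3 : (∑ τ' : L ≃ₐ[K] L, ∑ ρ : L ≃ₐ[K] L,
        ‖crd K ρ (IsGalois.normalBasis K L τ * IsGalois.normalBasis K L τ')‖₊) ≤ cst K (L := L) :=
    Finset.single_le_sum (f := fun τ : L ≃ₐ[K] L => ∑ τ' : L ≃ₐ[K] L, ∑ ρ : L ≃ₐ[K] L,
      ‖crd K ρ (IsGalois.normalBasis K L τ * IsGalois.normalBasis K L τ')‖₊)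
      (fun _ _ => zero_le) (Finset.mem_univ τ)
  exact_mod_cast (h1.trans h2).trans h3

lemma mul_mem_lam {r s : ℝ≥0} {x y : L} (hx : x ∈ lam K r) (hy : y ∈ lam K s) :
    x * y ∈ lam K (cst K (L := L) * r * s) := by
  have hxs := (IsGalois.normalBasis K L).sum_repr x
  have hys := (IsGalois.normalBasis K L).sum_repr y
  have key : ∀ τ : L ≃ₐ[K] L, IsGalois.normalBasis K L τ * y ∈ lam K (cst K (L := L) * s) := by
    intro τ
    have : IsGalois.normalBasis K L τ * y = ∑ τ' : L ≃ₐ[K] L,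
        ((IsGalois.normalBasis K L).repr y τ') •
          (IsGalois.normalBasis K L τ * IsGalois.normalBasis K L τ') := by
      conv_lhs => rw [← hys, Finset.mul_sum]
      exact Finset.sum_congr rfl fun τ' _ => by rw [mul_smul_comm]
    rw [this]
    refine sum_smul_mem_lam K _ _ _ (fun τ' _ => basis_mul_mem_lam K τ τ') (fun τ' _ => ?_)
    rw [mul_comm]
    exact mul_le_mul_of_nonneg_left (hy τ') (NNReal.coe_nonneg _) |>.trans (by push_cast; rfl)
  have : x * y = ∑ τ : L ≃ₐ[K] L,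
      ((IsGalois.normalBasis K L).repr x τ) • (IsGalois.normalBasis K L τ * y) := by
    conv_lhs => rw [← hxs, Finset.sum_mul]
    exact Finset.sum_congr rfl fun τ _ => by rw [smul_mul_assoc]
  rw [this]
  refine sum_smul_mem_lam K _ _ _ (fun τ _ => key τ) (fun τ _ => ?_)
  have := mul_le_mul_of_nonneg_right (hx τ) (NNReal.coe_nonneg (cst K (L := L) * s))
  refine this.trans (le_of_eq ?_)
  push_cast
  ring

omit [IsUltrametricDist L] in
lemma algEquiv_basis (τ' τ : L ≃ₐ[K] L) :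
    τ' (IsGalois.normalBasis K L τ) = IsGalois.normalBasis K L (τ' * τ) := by
  rw [IsGalois.normalBasis_apply τ, IsGalois.normalBasis_apply (τ' * τ)]
  rfl

lemma algEquiv_mem_lam {r : ℝ≥0} {x : L} (hx : x ∈ lam K r) (τ' : L ≃ₐ[K] L) :
    τ' x ∈ lam K r := by
  have hxs := (IsGalois.normalBasis K L).sum_repr x
  have : τ' x = ∑ τ : L ≃ₐ[K] L,
      ((IsGalois.normalBasis K L).repr x τ) • IsGalois.normalBasis K L (τ' * τ) := by
    conv_lhs => rw [← hxs, map_sum]
    exact Finset.sum_congr rfl fun τ _ => by rw [map_smul, algEquiv_basis]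
  rw [this]
  refine sum_smul_mem_lam K _ _ _ (fun τ _ => basis_mem_lam K (τ' * τ)) (fun τ _ => ?_)
  rw [NNReal.coe_one, mul_one]
  exact hx τ

omit [IsUltrametricDist L] in
lemma repr_algEquiv (τ' : L ≃ₐ[K] L) (x : L) (τ : L ≃ₐ[K] L) :
    (IsGalois.normalBasis K L).repr (τ' x) τ = (IsGalois.normalBasis K L).repr x (τ'⁻¹ * τ) := by
  classical
  have h : ((IsGalois.normalBasis K L).coord τ).comp τ'.toLinearMap =
      (IsGalois.normalBasis K L).coord (τ'⁻¹ * τ) := by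
    refine (IsGalois.normalBasis K L).ext fun ρ => ?_
    simp only [LinearMap.comp_apply, AlgEquiv.toLinearMap_apply, algEquiv_basis,
      Module.Basis.coord_apply, Module.Basis.repr_self, Finsupp.single_apply]
    congr 1
    exact propext ⟨fun h => by rw [← h]; group, fun h => by rw [h]; group⟩
  exact LinearMap.congr_fun h x

/-- `Ĥ⁰` of the lattice vanishes: an invariant element of `lam r` is a trace from `lam r`. -/
lemma exists_trace_eq {r : ℝ≥0} {x : L} (hx : x ∈ lam K r)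
    (hfix : ∀ τ : L ≃ₐ[K] L, τ x = x) : ∃ y ∈ lam K r, ∑ τ : L ≃ₐ[K] L, τ y = x := by
  set a := (IsGalois.normalBasis K L).repr x 1 with ha
  have hconst : ∀ ρ : L ≃ₐ[K] L, (IsGalois.normalBasis K L).repr x ρ = a := fun ρ => by
    have := repr_algEquiv K ρ x ρ
    rwa [hfix ρ, inv_mul_cancel] at this
  refine ⟨a • IsGalois.normalBasis K L 1, smul_mem_lam K (basis_mem_lam K 1) ?_, ?_⟩
  · rw [NNReal.coe_one, mul_one]
    exact hx 1
  · calc ∑ τ : L ≃ₐ[K] L, τ (a • IsGalois.normalBasis K L 1)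
        = ∑ τ : L ≃ₐ[K] L, (IsGalois.normalBasis K L).repr x τ • IsGalois.normalBasis K L τ :=
          Finset.sum_congr rfl fun τ _ => by rw [map_smul, algEquiv_basis, mul_one, hconst]
      _ = x := (IsGalois.normalBasis K L).sum_repr x

lemma exists_basis_sub (σ : L ≃ₐ[K] L) (hσ : ∀ τ : L ≃ₐ[K] L, τ ∈ zpowers σ)
    (τ : L ≃ₐ[K] L) : ∃ e ∈ lam K (1 : ℝ≥0),
      σ e - e = IsGalois.normalBasis K L τ - IsGalois.normalBasis K L 1 := by
  have hpow : ∀ k : ℕ, ∃ e ∈ lam K (1 : ℝ≥0),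
      σ e - e = IsGalois.normalBasis K L (σ ^ k) - IsGalois.normalBasis K L 1 := by
    intro k
    induction k with
    | zero => exact ⟨0, zero_mem _, by simp⟩
    | succ k ih =>
      obtain ⟨e, he, he2⟩ := ih
      refine ⟨e + IsGalois.normalBasis K L (σ ^ k), add_mem he (basis_mem_lam K _), ?_⟩
      rw [map_add, algEquiv_basis, ← pow_succ']
      linear_combination he2
  obtain ⟨k, rfl⟩ : ∃ k : ℕ, σ ^ k = τ := by
    have := (isOfFinOrder_of_finite σ).mem_powers_iff_mem_zpowers.mpr (hσ τ)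
    exact (Submonoid.mem_powers_iff _ _).mp this
  exact hpow k

/-- `Ĥ⁻¹` of the lattice vanishes. -/
lemma exists_sub_eq (σ : L ≃ₐ[K] L) (hσ : ∀ τ : L ≃ₐ[K] L, τ ∈ zpowers σ) {r : ℝ≥0} {c : L}
    (hc : c ∈ lam K r) (hsum : ∑ τ : L ≃ₐ[K] L, (IsGalois.normalBasis K L).repr c τ = 0) :
    ∃ d ∈ lam K r, σ d - d = c := by
  choose e he1 he2 using exists_basis_sub K σ hσ
  refine ⟨∑ τ : L ≃ₐ[K] L, (IsGalois.normalBasis K L).repr c τ • e τ,
    sum_smul_mem_lam K _ _ _ (fun τ _ => he1 τ) (fun τ _ => ?_), ?_⟩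
  · rw [NNReal.coe_one, mul_one]
    exact hc τ
  · rw [map_sum, ← Finset.sum_sub_distrib]
    calc ∑ τ : L ≃ₐ[K] L, (σ ((IsGalois.normalBasis K L).repr c τ • e τ) -
            (IsGalois.normalBasis K L).repr c τ • e τ)
        = ∑ τ : L ≃ₐ[K] L, ((IsGalois.normalBasis K L).repr c τ • IsGalois.normalBasis K L τ -
            (IsGalois.normalBasis K L).repr c τ • IsGalois.normalBasis K L 1) :=
          Finset.sum_congr rfl fun τ _ => by rw [map_smul, ← smul_sub, he2, smul_sub]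
      _ = c := by
          rw [Finset.sum_sub_distrib, ← Finset.sum_smul, hsum, zero_smul, sub_zero,
            (IsGalois.normalBasis K L).sum_repr]

/-- `Ĥ⁻¹` of the lattice modulo a smaller lattice vanishes. -/
lemma exists_sub_sub_mem (σ : L ≃ₐ[K] L) (hσ : ∀ τ : L ≃ₐ[K] L, τ ∈ zpowers σ) {r r' : ℝ≥0}
    (hr : r' ≤ r) {c : L} (hc : c ∈ lam K r) (htr : ∑ τ : L ≃ₐ[K] L, τ c ∈ lam K r') :
    ∃ d ∈ lam K r, c - (σ d - d) ∈ lam K r' := by
  classical
  set A := ∑ τ : L ≃ₐ[K] L, (IsGalois.normalBasis K L).repr c τ with hAdef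
  have hA : ‖algebraMap K L A‖ ≤ r' := by
    have h1 := htr 1
    have h2 : crd K 1 (∑ τ : L ≃ₐ[K] L, τ c) = algebraMap K L A := by
      rw [crd, map_sum, Finsupp.coe_finsetSum, Finset.sum_apply]
      congr 1
      rw [hAdef, ← Equiv.sum_comp (Equiv.inv (L ≃ₐ[K] L))]
      exact Finset.sum_congr rfl fun τ _ => by rw [repr_algEquiv, mul_one]; rfl
    rwa [h2] at h1
  have hAb : A • IsGalois.normalBasis K L 1 ∈ lam K r' :=
    smul_mem_lam K (basis_mem_lam K 1) (by rw [NNReal.coe_one, mul_one]; exact hA)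
  have hc' : c - A • IsGalois.normalBasis K L 1 ∈ lam K r := sub_mem hc (lam_mono K hr hAb)
  have hsum' : ∑ τ : L ≃ₐ[K] L,
      (IsGalois.normalBasis K L).repr (c - A • IsGalois.normalBasis K L 1) τ = 0 := by
    simp only [map_sub, map_smul, Module.Basis.repr_self, Finsupp.coe_sub, Finsupp.coe_smul,
      Pi.sub_apply, Pi.smul_apply, smul_eq_mul, Finset.sum_sub_distrib, ← Finset.mul_sum,
      Finsupp.single_apply, Finset.sum_ite_eq, Finset.mem_univ, if_true, mul_one]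
    exact sub_self A
  obtain ⟨d, hd, hd2⟩ := exists_sub_eq K σ hσ hc' hsum'
  refine ⟨d, hd, ?_⟩
  rw [hd2, sub_sub_cancel]
  exact hAb

end Lattice

/-- first-order expansion of a product `∏ (1 + f i)` modulo a smaller additive subgroup -/
lemma prod_one_add_sub_mem {R : Type*} [CommRing R] (I I' : AddSubgroup R)
    (hII : ∀ x ∈ I, ∀ y ∈ I, x * y ∈ I') (hII' : ∀ x ∈ I, ∀ y ∈ I', x * y ∈ I')
    {ι : Type*} (T : Finset ι) (f : ι → R) (hf : ∀ i ∈ T, f i ∈ I) :
    (∏ i ∈ T, (1 + f i)) - 1 - ∑ i ∈ T, f i ∈ I' := by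
  classical
  induction T using Finset.induction_on with
  | empty => simp
  | insert a T ha ih =>
    have hfa : f a ∈ I := hf a (Finset.mem_insert_self a T)
    have hfT : ∀ i ∈ T, f i ∈ I := fun i hi => hf i (Finset.mem_insert_of_mem hi)
    have ih' := ih hfT
    have hs : ∑ i ∈ T, f i ∈ I := AddSubgroup.sum_mem _ hfT
    rw [Finset.prod_insert ha, Finset.sum_insert ha]
    have : (1 + f a) * ∏ i ∈ T, (1 + f i) - 1 - (f a + ∑ i ∈ T, f i) =
        ((∏ i ∈ T, (1 + f i)) - 1 - ∑ i ∈ T, f i) + f a * ∑ i ∈ T, f i +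
          f a * ((∏ i ∈ T, (1 + f i)) - 1 - ∑ i ∈ T, f i) := by ring
    rw [this]
    exact add_mem (add_mem ih' (hII _ hfa _ hs)) (hII' _ hfa _ ih')

section Analysis

variable (𝕜 : Type*) [NontriviallyNormedField 𝕜] [CompleteSpace 𝕜]
variable (K : Type) [Field K] [Algebra 𝕜 K] {L : Type} [NormedField L] [NormedAlgebra 𝕜 L]
  [Algebra K L] [IsScalarTower 𝕜 K L] [FiniteDimensional 𝕜 L] [FiniteDimensional K L]
  [IsGalois K L]

/-- the coordinate map as a `𝕜`-linear endomorphism of `L` -/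
noncomputable def crdLin (τ : L ≃ₐ[K] L) : L →ₗ[𝕜] L :=
  ((Algebra.linearMap K L).restrictScalars 𝕜).comp
    (((IsGalois.normalBasis K L).coord τ).restrictScalars 𝕜)

omit [CompleteSpace 𝕜] [FiniteDimensional 𝕜 L] in
lemma crdLin_apply (τ : L ≃ₐ[K] L) (x : L) : crdLin 𝕜 K τ x = crd K τ x := rfl

include 𝕜 in
lemma continuous_crd (τ : L ≃ₐ[K] L) : Continuous (crd K τ : L → L) :=
  LinearMap.continuous_of_finiteDimensional (crdLin 𝕜 K τ)

include 𝕜 in
lemma exists_crd_bound : ∃ M : ℝ≥0, ∀ (τ : L ≃ₐ[K] L) (x : L), ‖crd K τ x‖ ≤ M * ‖x‖ := by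
  refine ⟨∑ τ : L ≃ₐ[K] L, ‖LinearMap.toContinuousLinearMap (crdLin 𝕜 K τ)‖₊, fun τ x => ?_⟩
  have h1 : ‖crd K τ x‖ ≤ ‖LinearMap.toContinuousLinearMap (crdLin 𝕜 K τ)‖ * ‖x‖ := by
    have := (LinearMap.toContinuousLinearMap (crdLin 𝕜 K τ)).le_opNorm x
    rwa [LinearMap.coe_toContinuousLinearMap', crdLin_apply] at this
  have h2 : ‖LinearMap.toContinuousLinearMap (crdLin 𝕜 K τ)‖₊ ≤
      ∑ τ : L ≃ₐ[K] L, ‖LinearMap.toContinuousLinearMap (crdLin 𝕜 K τ)‖₊ :=
    Finset.single_le_sum (f := fun τ : L ≃ₐ[K] L =>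
      ‖LinearMap.toContinuousLinearMap (crdLin 𝕜 K τ)‖₊) (fun _ _ => zero_le) (Finset.mem_univ τ)
  refine h1.trans (mul_le_mul_of_nonneg_right ?_ (norm_nonneg x))
  exact_mod_cast h2

variable [IsUltrametricDist L]

include 𝕜 in
lemma isClosed_lam (r : ℝ≥0) : IsClosed ((lam K r : AddSubgroup L) : Set L) := by
  have : ((lam K r : AddSubgroup L) : Set L) = ⋂ τ : L ≃ₐ[K] L, {x : L | ‖crd K τ x‖ ≤ r} := by
    ext x
    simp only [SetLike.mem_coe, mem_lam, Set.mem_iInter, Set.mem_ofPred_eq]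
  rw [this]
  exact isClosed_iInter fun τ =>
    isClosed_le (continuous_norm.comp (continuous_crd 𝕜 K τ)) continuous_const

omit [Algebra 𝕜 K] [NormedAlgebra 𝕜 L] [IsScalarTower 𝕜 K L] [FiniteDimensional 𝕜 L] in
lemma norm_le_of_mem_lam (hiso : ∀ (σ : L ≃ₐ[K] L) (x : L), ‖σ x‖ = ‖x‖) {r : ℝ≥0} {x : L}
    (hx : x ∈ lam K r) : ‖x‖ ≤ r * ‖IsGalois.normalBasis K L 1‖ := by
  rw [← (IsGalois.normalBasis K L).sum_repr x]
  refine IsUltrametricDist.norm_sum_le_of_forall_le_of_nonneg (by positivity) fun τ _ => ?_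
  rw [Algebra.smul_def, norm_mul, IsGalois.normalBasis_apply τ, hiso]
  exact mul_le_mul_of_nonneg_right (hx τ) (norm_nonneg _)

include 𝕜 in
lemma isCompact_lam [LocallyCompactSpace 𝕜] (hiso : ∀ (σ : L ≃ₐ[K] L) (x : L), ‖σ x‖ = ‖x‖)
    (r : ℝ≥0) : IsCompact ((lam K r : AddSubgroup L) : Set L) := by
  have := FiniteDimensional.proper 𝕜 L
  refine Metric.isCompact_of_isClosed_isBounded (isClosed_lam 𝕜 K r)
    ((Metric.isBounded_closedBall (x := (0 : L))
      (r := r * ‖IsGalois.normalBasis K L 1‖)).subset fun x hx => ?_)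
  rw [Metric.mem_closedBall, dist_zero_right]
  exact norm_le_of_mem_lam K hiso hx

end Analysis

/-- a continuous function on a compact set that gets arbitrarily small attains the value `0` -/
lemma exists_eq_zero_of_approx {X : Type*} [TopologicalSpace X] {S : Set X} (hS : IsCompact S)
    (hne : S.Nonempty) {E : Type*} [NormedAddCommGroup E] (f : X → E) (hf : ContinuousOn f S)
    (h : ∀ ε > 0, ∃ y ∈ S, ‖f y‖ ≤ ε) : ∃ y ∈ S, f y = 0 := by
  obtain ⟨y, hy, hmin⟩ := hS.exists_isMinOn hne (continuous_norm.comp_continuousOn hf)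
  refine ⟨y, hy, ?_⟩
  by_contra hne0
  have hpos : 0 < ‖f y‖ := norm_pos_iff.mpr hne0
  obtain ⟨y', hy', hle⟩ := h (‖f y‖ / 2) (half_pos hpos)
  have := isMinOn_iff.mp hmin y' hy'
  simp only [Function.comp] at this
  linarith

end Fermat.Agent.S55.helper7678
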