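import Mathlib
import Fermat.Agent.S55.helper7678_NormIndexAbs
import Fermat.Agent.S55.helper7678_NormIndexLat

/-!
# S55 / local arithmetic core: the local norm index

For a finite cyclic Galois extension `L/K` of finite extensions of `ℚ_[l]`,
`[Kˣ : N_{L/K} Lˣ] = [L : K]`  (`norm_index_eq`).

The core (`norm_index_core`) is stated for a locally compact complete base field `𝕜`, a normed
field `L` finite-dimensional over `𝕜` with ultrametric Galois-invariant norm.  The proof uses the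
lattice spanned by a normal basis (`lam`), successive approximation made rigorous by compactness,
Mathlib's Hilbert 90 and the abstract counting lemma `abstract_norm_index`.
-/

namespace Fermat.Agent.S55.helper7678

open scoped NNReal
open Subgroup

section Core

variable (K : Type) [Field K] {L : Type} [NormedField L] [Algebra K L] [FiniteDimensional K L]
  [IsGalois K L] [IsUltrametricDist L]

/-- the parameters of the construction: a contraction factor `ρ < 1` and a radius `R` -/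
structure Par (ρ R : ℝ≥0) : Prop where
  hρ : ρ < 1
  hR : cst K (L := L) * R ≤ ρ
  hB : (R : ℝ) * ‖IsGalois.normalBasis K L 1‖ < 1
  hiso : ∀ (σ : L ≃ₐ[K] L) (x : L), ‖σ x‖ = ‖x‖

/-- the filtration `ρ^J • lam R` -/
def fil (ρ R : ℝ≥0) (J : ℕ) : AddSubgroup L := lam K (ρ ^ J * R)

variable {K} {ρ R : ℝ≥0}

lemma fil_zero : fil K (L := L) ρ R 0 = lam K R := by
  simp [fil]

lemma fil_le (P : Par K (L := L) ρ R) (J : ℕ) : fil K (L := L) ρ R J ≤ lam K R := by
  refine lam_mono K ?_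
  calc ρ ^ J * R ≤ 1 * R := mul_le_mul_of_nonneg_right (pow_le_one₀ zero_le P.hρ.le) zero_le
    _ = R := one_mul R

lemma fil_succ_le (P : Par K (L := L) ρ R) (J : ℕ) :
    fil K (L := L) ρ R (J + 1) ≤ fil K ρ R J := by
  refine lam_mono K ?_
  rw [pow_succ]
  calc ρ ^ J * ρ * R ≤ ρ ^ J * 1 * R :=
        mul_le_mul_of_nonneg_right (mul_le_mul_of_nonneg_left P.hρ.le zero_le) zero_le
    _ = ρ ^ J * R := by rw [mul_one]

lemma mul_fil (P : Par K (L := L) ρ R) {J : ℕ} {x c : L} (hx : x ∈ lam K R)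
    (hc : c ∈ fil K ρ R J) : x * c ∈ fil K ρ R (J + 1) := by
  refine lam_mono K ?_ (mul_mem_lam K hx hc)
  calc cst K (L := L) * R * (ρ ^ J * R) ≤ ρ * (ρ ^ J * R) :=
        mul_le_mul_of_nonneg_right P.hR zero_le
    _ = ρ ^ (J + 1) * R := by rw [pow_succ]; ring

lemma fil_mul_fil (P : Par K (L := L) ρ R) {J : ℕ} {x c : L} (hx : x ∈ fil K ρ R J)
    (hc : c ∈ fil K ρ R J) : x * c ∈ fil K ρ R (J + 1) :=
  mul_fil P (fil_le P J hx) hc

lemma fil_mul_fil_succ (P : Par K (L := L) ρ R) {J : ℕ} {x e : L} (hx : x ∈ fil K ρ R J)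
    (he : e ∈ fil K ρ R (J + 1)) : x * e ∈ fil K ρ R (J + 1) :=
  fil_succ_le P (J + 1) (mul_fil P (fil_le P J hx) he)

lemma norm_le_of_mem_fil (P : Par K (L := L) ρ R) {J : ℕ} {c : L} (hc : c ∈ fil K ρ R J) :
    ‖c‖ ≤ (ρ : ℝ) ^ J * (R * ‖IsGalois.normalBasis K L 1‖) := by
  have := norm_le_of_mem_lam K P.hiso hc
  rw [NNReal.coe_mul, NNReal.coe_pow, mul_assoc] at this
  exact this

lemma exists_fil_small (P : Par K (L := L) ρ R) {ε : ℝ} (hε : 0 < ε) :
    ∃ J : ℕ, ∀ c ∈ fil K (L := L) ρ R J, ‖c‖ ≤ ε := by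
  set B := (R : ℝ) * ‖IsGalois.normalBasis K L 1‖ with hBdef
  have hB0 : 0 ≤ B := by positivity
  obtain ⟨J, hJ⟩ := exists_pow_lt_of_lt_one (x := ε / (B + 1)) (y := (ρ : ℝ)) (by positivity)
    (by exact_mod_cast P.hρ)
  refine ⟨J, fun c hc => (norm_le_of_mem_fil P hc).trans ?_⟩
  have h1 : (ρ : ℝ) ^ J * B ≤ (ρ : ℝ) ^ J * (B + 1) :=
    mul_le_mul_of_nonneg_left (by linarith) (by positivity)
  have h2 : (ρ : ℝ) ^ J * (B + 1) < ε := by
    rwa [lt_div_iff₀ (by positivity)] at hJ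
  linarith

/-- the carrier `1 + lam R` -/
def oneAddSet (K : Type) [Field K] {L : Type} [NormedField L] [Algebra K L] [FiniteDimensional K L]
    [IsGalois K L] [IsUltrametricDist L] (R : ℝ≥0) : Set L := {x | x - 1 ∈ lam K R}

lemma mem_oneAddSet {x : L} : x ∈ oneAddSet K R ↔ x - 1 ∈ lam K R := Iff.rfl

lemma one_mem_oneAddSet : (1 : L) ∈ oneAddSet K R := by
  rw [mem_oneAddSet, sub_self]
  exact zero_mem _

lemma mul_mem_oneAddSet (P : Par K (L := L) ρ R) {x y : L} (hx : x ∈ oneAddSet K R)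
    (hy : y ∈ oneAddSet K R) : x * y ∈ oneAddSet K R := by
  rw [mem_oneAddSet] at hx hy ⊢
  have h : (x - 1) * (y - 1) ∈ lam K R := by
    refine lam_mono K ?_ (mul_mem_lam K hx hy)
    calc cst K (L := L) * R * R ≤ ρ * R := mul_le_mul_of_nonneg_right P.hR zero_le
      _ ≤ 1 * R := mul_le_mul_of_nonneg_right P.hρ.le zero_le
      _ = R := one_mul R
  have e : x * y - 1 = (x - 1) + (y - 1) + (x - 1) * (y - 1) := by ring
  rw [e]
  exact add_mem (add_mem hx hy) h

/-- the multiplicative monoid `1 + lam R` -/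
def oneAdd (P : Par K (L := L) ρ R) : Submonoid L where
  carrier := oneAddSet K R
  one_mem' := one_mem_oneAddSet
  mul_mem' := fun hx hy => mul_mem_oneAddSet P hx hy

lemma mem_oneAdd (P : Par K (L := L) ρ R) {x : L} : x ∈ oneAdd P ↔ x - 1 ∈ lam K R := Iff.rfl

lemma one_add_mem_oneAdd (P : Par K (L := L) ρ R) {a : L} (ha : a ∈ lam K R) :
    1 + a ∈ oneAdd P := by
  rw [mem_oneAdd, add_sub_cancel_left]; exact ha

lemma one_sub_mem_oneAdd (P : Par K (L := L) ρ R) {a : L} (ha : a ∈ lam K R) :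
    1 - a ∈ oneAdd P := by
  rw [sub_eq_add_neg]; exact one_add_mem_oneAdd P (neg_mem ha)

lemma algEquiv_mem_oneAdd (P : Par K (L := L) ρ R) {x : L} (hx : x ∈ oneAdd P)
    (τ : L ≃ₐ[K] L) : τ x ∈ oneAdd P := by
  rw [mem_oneAdd] at hx ⊢
  have := algEquiv_mem_lam K hx τ
  rwa [map_sub, map_one] at this

lemma prod_mem_oneAdd (P : Par K (L := L) ρ R) {x : L} (hx : x ∈ oneAdd P) :
    ∏ τ : L ≃ₐ[K] L, τ x ∈ oneAdd P :=
  Submonoid.prod_mem _ fun τ _ => algEquiv_mem_oneAdd P hx τ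

lemma norm_eq_one_of_mem_oneAdd (P : Par K (L := L) ρ R) {x : L} (hx : x ∈ oneAdd P) :
    ‖x‖ = 1 := by
  have h1 : ‖x - 1‖ < 1 := (norm_le_of_mem_lam K P.hiso ((mem_oneAdd P).mp hx)).trans_lt P.hB
  have h2 : ‖x - 1‖ ≠ ‖(1 : L)‖ := by rw [norm_one]; exact h1.ne
  have h3 := IsUltrametricDist.norm_add_eq_max_of_norm_ne_norm h2
  rw [sub_add_cancel, norm_one, max_eq_right h1.le] at h3
  exact h3

lemma ne_zero_of_mem_oneAdd (P : Par K (L := L) ρ R) {x : L} (hx : x ∈ oneAdd P) : x ≠ 0 := by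
  intro h
  have := norm_eq_one_of_mem_oneAdd P hx
  rw [h, norm_zero] at this
  exact zero_ne_one this

lemma oneAdd_mul_fil (P : Par K (L := L) ρ R) {J : ℕ} {x c : L} (hx : x ∈ oneAdd P)
    (hc : c ∈ fil K ρ R J) : x * c ∈ fil K ρ R J := by
  have e : x * c = c + (x - 1) * c := by ring
  rw [e]
  exact add_mem hc (fil_succ_le P J (mul_fil P ((mem_oneAdd P).mp hx) hc))

end Core

section CoreAnalysis

variable (𝕜 : Type*) [NontriviallyNormedField 𝕜] [CompleteSpace 𝕜] [LocallyCompactSpace 𝕜]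
variable {K : Type} [Field K] [Algebra 𝕜 K] {L : Type} [NormedField L] [NormedAlgebra 𝕜 L]
  [Algebra K L] [IsScalarTower 𝕜 K L] [FiniteDimensional 𝕜 L] [FiniteDimensional K L]
  [IsGalois K L] [IsUltrametricDist L] {ρ R : ℝ≥0}

include 𝕜 in
lemma isCompact_oneAdd (P : Par K (L := L) ρ R) :
    IsCompact ((oneAdd P : Submonoid L) : Set L) := by
  have : ((oneAdd P : Submonoid L) : Set L) =
      (fun x : L => x + 1) '' ((lam K R : AddSubgroup L) : Set L) := by
    ext x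
    constructor
    · intro hx
      exact ⟨x - 1, (mem_oneAdd P).mp hx, sub_add_cancel x 1⟩
    · rintro ⟨y, hy, rfl⟩
      refine (mem_oneAdd P).mpr ?_
      rw [add_sub_cancel_right]
      exact hy
  rw [this]
  exact (isCompact_lam 𝕜 K P.hiso R).image (continuous_id.add continuous_const)

omit [IsUltrametricDist L] [FiniteDimensional K L] [IsGalois K L] in
lemma continuous_algEquiv (hiso : ∀ (σ : L ≃ₐ[K] L) (x : L), ‖σ x‖ = ‖x‖) (τ : L ≃ₐ[K] L) :
    Continuous (τ : L → L) :=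
  (AddMonoidHomClass.isometry_of_norm τ (hiso τ)).continuous

include 𝕜 in
/-- a successive approximation scheme on the compact set `1 + lam R` converges -/
lemma exists_oneAdd_eq_zero (P : Par K (L := L) ρ R) (f : L → L) (hf : Continuous f)
    (h : ∀ J : ℕ, ∃ y ∈ oneAdd P, f y ∈ fil K ρ R J) : ∃ y ∈ oneAdd P, f y = 0 := by
  refine exists_eq_zero_of_approx (isCompact_oneAdd 𝕜 P) ⟨1, one_mem _⟩ f hf.continuousOn ?_
  intro ε hε
  obtain ⟨J, hJ⟩ := exists_fil_small P hε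
  obtain ⟨y, hy, hy2⟩ := h J
  exact ⟨y, hy, hJ _ hy2⟩

include 𝕜 in
lemma inv_mem_oneAdd (P : Par K (L := L) ρ R) {x : L} (hx : x ∈ oneAdd P) :
    x⁻¹ ∈ oneAdd P := by
  have happ : ∀ J : ℕ, ∃ y ∈ oneAdd P, x * y - 1 ∈ fil K ρ R J := by
    intro J
    induction J with
    | zero =>
      refine ⟨1, one_mem _, ?_⟩
      rw [mul_one, fil_zero]
      exact (mem_oneAdd P).mp hx
    | succ J ih =>
      obtain ⟨y, hy, hc⟩ := ih
      refine ⟨y * (1 - (x * y - 1)), mul_mem hy (one_sub_mem_oneAdd P (fil_le P J hc)), ?_⟩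
      have e : x * (y * (1 - (x * y - 1))) - 1 = -((x * y - 1) * (x * y - 1)) := by ring
      rw [e]
      exact neg_mem (fil_mul_fil P hc hc)
  obtain ⟨y, hy, hy0⟩ := exists_oneAdd_eq_zero 𝕜 P (fun y => x * y - 1)
    ((continuous_const.mul continuous_id).sub continuous_const) happ
  have hx0 : x ≠ 0 := ne_zero_of_mem_oneAdd P hx
  have : x⁻¹ = y := by
    have h1 : x * y = 1 := sub_eq_zero.mp hy0
    exact inv_eq_of_mul_eq_one_right h1
  rw [this]
  exact hy

omit [IsUltrametricDist L] [IsGalois K L] in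
lemma algEquiv_prod_eq (τ' : L ≃ₐ[K] L) (y : L) :
    τ' (∏ τ : L ≃ₐ[K] L, τ y) = ∏ τ : L ≃ₐ[K] L, τ y := by
  rw [map_prod]
  exact Fintype.prod_equiv (Equiv.mulLeft τ') _ _ fun τ => rfl

omit [IsUltrametricDist L] [IsGalois K L] in
lemma prod_algEquiv_apply (σ : L ≃ₐ[K] L) (y : L) :
    ∏ τ : L ≃ₐ[K] L, τ (σ y) = ∏ τ : L ≃ₐ[K] L, τ y :=
  Fintype.prod_equiv (Equiv.mulRight σ) _ _ fun _ => rfl

include 𝕜 in
/-- `Ĥ⁰(G, 1 + lam R) = 0`: an invariant element of `1 + lam R` is a norm from `1 + lam R` -/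
lemma exists_prod_eq (P : Par K (L := L) ρ R) {x : L} (hx : x ∈ oneAdd P)
    (hfix : ∀ τ : L ≃ₐ[K] L, τ x = x) : ∃ y ∈ oneAdd P, ∏ τ : L ≃ₐ[K] L, τ y = x := by
  have happ : ∀ J : ℕ, ∃ y ∈ oneAdd P, (∏ τ : L ≃ₐ[K] L, τ y) - x ∈ fil K ρ R J := by
    intro J
    induction J with
    | zero =>
      refine ⟨1, one_mem _, ?_⟩
      simp only [map_one, Finset.prod_const_one]
      rw [fil_zero, ← neg_sub]
      exact neg_mem ((mem_oneAdd P).mp hx)
    | succ J ih =>
      obtain ⟨y, hy, hc⟩ := ih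
      set Ny := ∏ τ : L ≃ₐ[K] L, τ y with hNy
      set c := Ny - x with hcdef
      have hcfix : ∀ τ : L ≃ₐ[K] L, τ c = c := fun τ => by
        rw [hcdef, map_sub, hfix, hNy, algEquiv_prod_eq]
      obtain ⟨d, hd, hd2⟩ := exists_trace_eq K hc hcfix
      have hNyS : Ny ∈ oneAdd P := prod_mem_oneAdd P hy
      refine ⟨y * (1 - d), mul_mem hy (one_sub_mem_oneAdd P (fil_le P J hd)), ?_⟩
      have he := prod_one_add_sub_mem (fil K ρ R J) (fil K ρ R (J + 1))
        (fun a ha b hb => fil_mul_fil P ha hb) (fun a ha b hb => fil_mul_fil_succ P ha hb)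
        Finset.univ (fun τ : L ≃ₐ[K] L => τ (-d)) (fun τ _ => algEquiv_mem_lam K (neg_mem hd) τ)
      set e := (∏ τ : L ≃ₐ[K] L, (1 + τ (-d))) - 1 - ∑ τ : L ≃ₐ[K] L, τ (-d) with hedef
      have hsum : ∑ τ : L ≃ₐ[K] L, τ (-d) = -c := by
        rw [← hd2, ← Finset.sum_neg_distrib]
        exact Finset.sum_congr rfl fun τ _ => map_neg τ d
      have hprod : ∏ τ : L ≃ₐ[K] L, τ (y * (1 - d)) = Ny * (1 - c + e) := by
        have h1 : ∏ τ : L ≃ₐ[K] L, τ (y * (1 - d)) =
            Ny * ∏ τ : L ≃ₐ[K] L, (1 + τ (-d)) := by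
          rw [hNy, ← Finset.prod_mul_distrib]
          refine Finset.prod_congr rfl fun τ _ => ?_
          rw [map_mul, sub_eq_add_neg, map_add, map_one]
        rw [h1, hedef, hsum]
        ring
      rw [hprod]
      have e2 : Ny * (1 - c + e) - x = -((Ny - 1) * c) + Ny * e := by
        rw [hcdef]; ring
      rw [e2]
      exact add_mem (neg_mem (mul_fil P ((mem_oneAdd P).mp hNyS) hc)) (oneAdd_mul_fil P hNyS he)
  obtain ⟨y, hy, hy0⟩ := exists_oneAdd_eq_zero 𝕜 P (fun y => (∏ τ : L ≃ₐ[K] L, τ y) - x)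
    ((continuous_finsetProd _ fun τ _ => continuous_algEquiv P.hiso τ).sub continuous_const) happ
  exact ⟨y, hy, sub_eq_zero.mp hy0⟩

include 𝕜 in
/-- `Ĥ⁻¹(G, 1 + lam R) = 0`: an element of `1 + lam R` of norm `1` is `σ y / y` with
`y ∈ 1 + lam R` -/
lemma exists_div_eq (P : Par K (L := L) ρ R) (σ : L ≃ₐ[K] L)
    (hσ : ∀ τ : L ≃ₐ[K] L, τ ∈ zpowers σ) {x : L} (hx : x ∈ oneAdd P)
    (hN : ∏ τ : L ≃ₐ[K] L, τ x = 1) : ∃ y ∈ oneAdd P, σ y = x * y := by
  have happ : ∀ J : ℕ, ∃ y ∈ oneAdd P, σ y - x * y ∈ fil K ρ R J := by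
    intro J
    induction J with
    | zero =>
      refine ⟨1, one_mem _, ?_⟩
      rw [map_one, mul_one, fil_zero, ← neg_sub]
      exact neg_mem ((mem_oneAdd P).mp hx)
    | succ J ih =>
      obtain ⟨y, hy, hc⟩ := ih
      set u := x * y with hu
      set c := σ y - u with hcdef
      have huS : u ∈ oneAdd P := mul_mem hx hy
      have hu0 : u ≠ 0 := ne_zero_of_mem_oneAdd P huS
      have huinv : u⁻¹ ∈ oneAdd P := inv_mem_oneAdd 𝕜 P huS
      set c' := u⁻¹ * c with hc'def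
      have hc' : c' ∈ fil K ρ R J := oneAdd_mul_fil P huinv hc
      have hσy : σ y = u * (1 + c') := by
        rw [hc'def, mul_add, mul_one, ← mul_assoc, mul_inv_cancel₀ hu0, one_mul, hcdef]
        ring
      have hy0 : y ≠ 0 := ne_zero_of_mem_oneAdd P hy
      have hNy0 : ∏ τ : L ≃ₐ[K] L, τ y ≠ 0 :=
        Finset.prod_ne_zero_iff.mpr fun τ _ => (map_ne_zero τ).mpr hy0
      have hNu : ∏ τ : L ≃ₐ[K] L, τ u = ∏ τ : L ≃ₐ[K] L, τ y := by
        rw [hu]
        simp only [map_mul]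
        rw [Finset.prod_mul_distrib, hN, one_mul]
      have hN1 : ∏ τ : L ≃ₐ[K] L, (1 + τ c') = 1 := by
        have h1 : ∏ τ : L ≃ₐ[K] L, τ (u * (1 + c')) = ∏ τ : L ≃ₐ[K] L, τ y := by
          rw [← hσy]
          exact prod_algEquiv_apply σ y
        have h2 : ∏ τ : L ≃ₐ[K] L, τ (u * (1 + c')) =
            (∏ τ : L ≃ₐ[K] L, τ y) * ∏ τ : L ≃ₐ[K] L, (1 + τ c') := by
          rw [← hNu, ← Finset.prod_mul_distrib]
          exact Finset.prod_congr rfl fun τ _ => by rw [map_mul, map_add, map_one]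
        rw [h2] at h1
        exact mul_left_cancel₀ hNy0 (h1.trans (mul_one _).symm)
      have he := prod_one_add_sub_mem (fil K ρ R J) (fil K ρ R (J + 1))
        (fun a ha b hb => fil_mul_fil P ha hb) (fun a ha b hb => fil_mul_fil_succ P ha hb)
        Finset.univ (fun τ : L ≃ₐ[K] L => τ c') (fun τ _ => algEquiv_mem_lam K hc' τ)
      rw [hN1, sub_self, zero_sub] at he
      have htr : ∑ τ : L ≃ₐ[K] L, τ c' ∈ fil K ρ R (J + 1) := by
        have := neg_mem he
        rwa [neg_neg] at this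
      have hle : ρ ^ (J + 1) * R ≤ ρ ^ J * R := by
        rw [pow_succ]
        calc ρ ^ J * ρ * R ≤ ρ ^ J * 1 * R :=
              mul_le_mul_of_nonneg_right (mul_le_mul_of_nonneg_left P.hρ.le zero_le) zero_le
          _ = ρ ^ J * R := by rw [mul_one]
      obtain ⟨d, hd, hd2⟩ := exists_sub_sub_mem K σ hσ hle hc' htr
      refine ⟨y * (1 - d), mul_mem hy (one_sub_mem_oneAdd P (fil_le P J hd)), ?_⟩
      have e2 : σ (y * (1 - d)) - x * (y * (1 - d)) =
          u * ((c' - (σ d - d)) - c' * σ d) := by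
        rw [map_mul, map_sub, map_one, hσy, hu]
        ring
      rw [e2]
      exact oneAdd_mul_fil P huS
        (sub_mem hd2 (fil_mul_fil P hc' (algEquiv_mem_lam K hd σ)))
  obtain ⟨y, hy, hy0⟩ := exists_oneAdd_eq_zero 𝕜 P (fun y => σ y - x * y)
    ((continuous_algEquiv P.hiso σ).sub (continuous_const.mul continuous_id)) happ
  exact ⟨y, hy, sub_eq_zero.mp hy0⟩

end CoreAnalysis

section UnitsMaps

variable (K : Type) [Field K] {L : Type} [Field L] [Algebra K L]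

/-- the action of an automorphism on the units -/
def sg (τ : L ≃ₐ[K] L) : Lˣ →* Lˣ := Units.map (MonoidHomClass.toMonoidHom τ)

variable {K}

lemma coe_sg (τ : L ≃ₐ[K] L) (u : Lˣ) : ((sg K τ u : Lˣ) : L) = τ (u : L) := rfl

/-- `u ↦ σ u / u` -/
def Dm (σ : L ≃ₐ[K] L) : Lˣ →* Lˣ := sg K σ / MonoidHom.id Lˣ

lemma coe_Dm (σ : L ≃ₐ[K] L) (u : Lˣ) : ((Dm σ u : Lˣ) : L) = σ (u : L) / u := by
  rw [Dm, MonoidHom.div_apply, Units.val_div_eq_div_val]
  rfl

variable (K) [FiniteDimensional K L]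

/-- the norm as an endomorphism of `Lˣ` -/
noncomputable def Nm : Lˣ →* Lˣ := ∏ τ : L ≃ₐ[K] L, sg K τ

lemma coe_Nm (u : Lˣ) : ((Nm K u : Lˣ) : L) = ∏ τ : L ≃ₐ[K] L, τ (u : L) := by
  rw [Nm, MonoidHom.finsetProd_apply, Units.coe_prod]
  rfl

variable [IsGalois K L]

lemma Nm_eq : Nm K (L := L) = (Units.map (algebraMap K L : K →* L)).comp
    (Units.map (Algebra.norm K : L →* K)) := by
  refine MonoidHom.ext fun u => Units.ext ?_
  rw [coe_Nm, MonoidHom.comp_apply, Units.coe_map, Units.coe_map]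
  exact (Algebra.norm_eq_prod_automorphisms K (u : L)).symm

variable {K}

omit [FiniteDimensional K L] [IsGalois K L] in
lemma fixed_of_generator (σ : L ≃ₐ[K] L) (hσ : ∀ τ : L ≃ₐ[K] L, τ ∈ zpowers σ) {x : L}
    (hx : σ x = x) (τ : L ≃ₐ[K] L) : τ x = x := by
  have h1 : zpowers σ ≤ MulAction.stabilizer (L ≃ₐ[K] L) x := by
    rw [zpowers_le, MulAction.mem_stabilizer_iff]
    exact hx
  have := h1 (hσ τ)
  rwa [MulAction.mem_stabilizer_iff] at this

lemma ker_Dm (σ : L ≃ₐ[K] L) (hσ : ∀ τ : L ≃ₐ[K] L, τ ∈ zpowers σ) :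
    (Dm σ).ker = (Units.map (algebraMap K L : K →* L)).range := by
  ext u
  rw [MonoidHom.mem_ker, MonoidHom.mem_range]
  constructor
  · intro h
    have h1 : σ (u : L) = u := by
      have h2 : ((Dm σ u : Lˣ) : L) = 1 := by rw [h, Units.val_one]
      rw [coe_Dm] at h2
      exact (div_eq_one_iff_eq u.ne_zero).mp h2
    have hall : ∀ τ : L ≃ₐ[K] L, τ (u : L) = u := fixed_of_generator σ hσ h1
    have hbot : (u : L) ∈ (⊥ : IntermediateField K L) :=
      (IsGalois.mem_bot_iff_fixed (u : L)).mpr hall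
    obtain ⟨a, ha⟩ := IntermediateField.mem_bot.mp hbot
    have ha0 : a ≠ 0 := fun h0 => u.ne_zero (by rw [← ha, h0, map_zero])
    exact ⟨Units.mk0 a ha0, Units.ext ha⟩
  · rintro ⟨a, rfl⟩
    refine Units.ext ?_
    rw [coe_Dm, Units.val_one, Units.coe_map]
    have : σ (algebraMap K L (a : K)) = algebraMap K L (a : K) := σ.commutes a
    rw [MonoidHom.coe_coe, this]
    exact div_self (by rw [Ne, map_eq_zero]; exact a.ne_zero)

end UnitsMaps

section Final

variable (𝕜 : Type*) [NontriviallyNormedField 𝕜] [CompleteSpace 𝕜] [LocallyCompactSpace 𝕜]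
variable {K : Type} [Field K] [Algebra 𝕜 K] {L : Type} [NormedField L] [NormedAlgebra 𝕜 L]
  [Algebra K L] [IsScalarTower 𝕜 K L] [FiniteDimensional 𝕜 L] [FiniteDimensional K L]
  [IsGalois K L] [IsUltrametricDist L] {ρ R : ℝ≥0}

/-- the units lying in `1 + lam R`, as a set -/
def unitsSet (P : Par K (L := L) ρ R) : Set Lˣ := {u | (u : L) ∈ oneAdd P}

omit [IsScalarTower 𝕜 K L] [FiniteDimensional 𝕜 L] in
lemma mem_unitsSet (P : Par K (L := L) ρ R) {u : Lˣ} : u ∈ unitsSet P ↔ (u : L) ∈ oneAdd P :=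
  Iff.rfl

/-- the units lying in `1 + lam R`, as a subgroup -/
def unitsOneAdd (P : Par K (L := L) ρ R) : Subgroup Lˣ where
  carrier := unitsSet P
  one_mem' := (mem_unitsSet P).mpr (by rw [Units.val_one]; exact one_mem _)
  mul_mem' := fun {a b} ha hb => (mem_unitsSet P).mpr (by
    rw [Units.val_mul]
    exact mul_mem ((mem_unitsSet P).mp ha) ((mem_unitsSet P).mp hb))
  inv_mem' := fun {a} ha => (mem_unitsSet P).mpr (by
    rw [Units.val_inv_eq_inv_val]
    exact inv_mem_oneAdd 𝕜 P ((mem_unitsSet P).mp ha))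

lemma mem_unitsOneAdd (P : Par K (L := L) ρ R) {u : Lˣ} :
    u ∈ unitsOneAdd 𝕜 P ↔ (u : L) ∈ oneAdd P := Iff.rfl

omit [LocallyCompactSpace 𝕜] in
include 𝕜 in
lemma exists_mem_lam_of_norm_le (K : Type) [Field K] [Algebra 𝕜 K] {L : Type} [NormedField L]
    [NormedAlgebra 𝕜 L] [Algebra K L] [IsScalarTower 𝕜 K L] [FiniteDimensional 𝕜 L]
    [FiniteDimensional K L] [IsGalois K L] [IsUltrametricDist L] {R : ℝ≥0} (hR : 0 < R) :
    ∃ δ : ℝ, 0 < δ ∧ ∀ z : L, ‖z‖ ≤ δ → z ∈ lam K R := by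
  obtain ⟨M, hM⟩ := exists_crd_bound 𝕜 K (L := L)
  have hR' : (0 : ℝ) < R := by exact_mod_cast hR
  refine ⟨R / (M + 1), by positivity, fun z hz τ => ?_⟩
  calc ‖crd K τ z‖ ≤ M * ‖z‖ := hM τ z
    _ ≤ M * (R / (M + 1)) := mul_le_mul_of_nonneg_left hz (NNReal.coe_nonneg M)
    _ ≤ R := by
        rw [mul_div_assoc', div_le_iff₀ (by positivity)]
        nlinarith [NNReal.coe_nonneg M, NNReal.coe_nonneg R]

lemma index_sup_zpowers_ne_zero (P : Par K (L := L) ρ R) (hR : 0 < R) (t₀ : 𝕜)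
    (h0 : 0 < ‖t₀‖) (h1 : ‖t₀‖ < 1) (t : Lˣ) (ht : (t : L) = algebraMap 𝕜 L t₀) :
    (unitsOneAdd 𝕜 P ⊔ zpowers t).index ≠ 0 := by
  have := FiniteDimensional.proper 𝕜 L
  obtain ⟨δ, hδ, hδlam⟩ := exists_mem_lam_of_norm_le 𝕜 K (L := L) hR
  set A : Set L := {z | 1 ≤ ‖z‖ ∧ ‖z‖ ≤ ‖t₀‖⁻¹} with hA
  have hAc : IsCompact A := by
    refine Metric.isCompact_of_isClosed_isBounded ?_ ?_
    · exact (isClosed_le continuous_const continuous_norm).inter
        (isClosed_le continuous_norm continuous_const)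
    · exact (Metric.isBounded_closedBall (x := (0 : L)) (r := ‖t₀‖⁻¹)).subset fun z hz => by
        rw [Metric.mem_closedBall, dist_zero_right]
        exact hz.2
  obtain ⟨T, hTA, hTfin, hTcov⟩ := finite_cover_balls_of_compact hAc hδ
  have hTne : ∀ a ∈ T, a ≠ 0 := fun a ha h => by
    have := (hTA ha).1
    rw [h, norm_zero] at this
    linarith
  have hfinT : Finite ↥T := hTfin.to_subtype
  set W := unitsOneAdd 𝕜 P ⊔ zpowers t with hW
  let f : ↥T → Lˣ ⧸ W := fun a => QuotientGroup.mk (Units.mk0 a.1 (hTne a.1 a.2))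
  have hy1 : 1 < ‖t₀‖⁻¹ := (one_lt_inv₀ h0).mpr h1
  have hypos : 0 < ‖t₀‖⁻¹ := inv_pos.mpr h0
  have hf : Function.Surjective f := by
    intro q
    induction q using QuotientGroup.induction_on with
    | H x =>
      have hxpos : 0 < ‖(x : L)‖ := norm_pos_iff.mpr x.ne_zero
      obtain ⟨n, hn1, hn2⟩ := exists_mem_Ico_zpow hxpos hy1
      have hpow : 0 < ‖t₀‖⁻¹ ^ n := zpow_pos hypos n
      have hnorm : ‖((x * t ^ n : Lˣ) : L)‖ = ‖(x : L)‖ / ‖t₀‖⁻¹ ^ n := by
        rw [Units.val_mul, Units.val_zpow_eq_zpow_val, norm_mul, norm_zpow, ht, norm_algebraMap',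
          inv_zpow, div_inv_eq_mul]
      have hx'A : ((x * t ^ n : Lˣ) : L) ∈ A := by
        refine ⟨?_, ?_⟩
        · rw [hnorm, le_div_iff₀ hpow, one_mul]
          exact hn1
        · rw [hnorm, div_le_iff₀ hpow, mul_comm, ← zpow_add_one₀ hypos.ne']
          exact hn2.le
      obtain ⟨a, haT, hxa⟩ := Set.mem_iUnion₂.mp (hTcov hx'A)
      refine ⟨⟨a, haT⟩, ?_⟩
      show (QuotientGroup.mk (Units.mk0 a (hTne a haT)) : Lˣ ⧸ W) = QuotientGroup.mk x
      rw [QuotientGroup.eq]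
      have hv : (Units.mk0 a (hTne a haT))⁻¹ * (x * t ^ n) ∈ unitsOneAdd 𝕜 P := by
        rw [mem_unitsOneAdd, mem_oneAdd]
        refine hδlam _ ?_
        have ha1 : 1 ≤ ‖a‖ := (hTA haT).1
        have ha0 : a ≠ 0 := hTne a haT
        have e : (((Units.mk0 a (hTne a haT))⁻¹ * (x * t ^ n) : Lˣ) : L) - 1 =
            a⁻¹ * (((x * t ^ n : Lˣ) : L) - a) := by
          rw [Units.val_mul, Units.val_inv_eq_inv_val, Units.val_mk0, mul_sub,
            inv_mul_cancel₀ ha0]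
        rw [e, norm_mul, norm_inv]
        have hd : ‖((x * t ^ n : Lˣ) : L) - a‖ < δ := by
          rw [← dist_eq_norm]
          exact Metric.mem_ball.mp hxa
        have h3 : ‖a‖⁻¹ ≤ 1 := inv_le_one_of_one_le₀ ha1
        calc ‖a‖⁻¹ * ‖((x * t ^ n : Lˣ) : L) - a‖ ≤ 1 * ‖((x * t ^ n : Lˣ) : L) - a‖ :=
              mul_le_mul_of_nonneg_right h3 (norm_nonneg _)
          _ ≤ δ := by rw [one_mul]; exact hd.le
      have e2 : (Units.mk0 a (hTne a haT))⁻¹ * x =
          ((Units.mk0 a (hTne a haT))⁻¹ * (x * t ^ n)) * t ^ (-n) := by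
        rw [mul_assoc, mul_assoc, ← zpow_add, add_neg_cancel, zpow_zero, mul_one]
      rw [e2]
      exact mul_mem (Subgroup.mem_sup_left hv)
        (Subgroup.mem_sup_right (zpow_mem (mem_zpowers t) _))
  have : Finite (Lˣ ⧸ W) := Finite.of_surjective f hf
  exact Subgroup.index_ne_zero_of_finite

omit [IsScalarTower 𝕜 K L] [FiniteDimensional 𝕜 L] [CompleteSpace 𝕜] [LocallyCompactSpace 𝕜]
  [IsUltrametricDist L] in
lemma exists_par (hiso : ∀ (σ : L ≃ₐ[K] L) (x : L), ‖σ x‖ = ‖x‖) :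
    ∃ R : ℝ≥0, 0 < R ∧ Par K (L := L) (1 / 2) R := by
  set b : ℝ≥0 := ‖IsGalois.normalBasis K L 1‖₊ with hb
  refine ⟨min ((1 / 2) / (cst K (L := L) + 1)) (1 / (b + 1)), lt_min (by positivity)
    (by positivity), ?_, ?_, ?_, hiso⟩
  · norm_num
  · calc cst K (L := L) * min ((1 / 2) / (cst K (L := L) + 1)) (1 / (b + 1))
        ≤ cst K (L := L) * ((1 / 2) / (cst K (L := L) + 1)) :=
          mul_le_mul_of_nonneg_left (min_le_left _ _) zero_le
      _ ≤ 1 / 2 := by
          rw [mul_div_assoc', div_le_iff₀ (by positivity)]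
          calc cst K (L := L) * (1 / 2) = 1 / 2 * cst K (L := L) := mul_comm _ _
            _ ≤ 1 / 2 * (cst K (L := L) + 1) :=
              mul_le_mul_of_nonneg_left (le_add_of_nonneg_right zero_le) zero_le
  · have h1 : ((min ((1 / 2) / (cst K (L := L) + 1)) (1 / (b + 1)) : ℝ≥0) : ℝ) ≤
        ((1 / (b + 1) : ℝ≥0) : ℝ) := by exact_mod_cast min_le_right _ _
    have hb0 : (0 : ℝ) ≤ b := NNReal.coe_nonneg b
    have hbn : ‖IsGalois.normalBasis K L 1‖ = (b : ℝ) := rfl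
    rw [hbn]
    calc ((min ((1 / 2) / (cst K (L := L) + 1)) (1 / (b + 1)) : ℝ≥0) : ℝ) * b
        ≤ ((1 / (b + 1) : ℝ≥0) : ℝ) * b := mul_le_mul_of_nonneg_right h1 hb0
      _ < 1 := by
          push_cast
          rw [one_div, inv_mul_lt_iff₀ (by positivity)]
          linarith

include 𝕜 in
/-- **Local norm index** (core form): for a finite cyclic Galois extension `L/K` of fields finite
over a complete locally compact field `𝕜`, with `L` carrying an ultrametric Galois-invariant norm,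
the norm group has index `[L : K]` in `Kˣ`. -/
theorem norm_index_core [IsCyclic (L ≃ₐ[K] L)]
    (hiso : ∀ (σ : L ≃ₐ[K] L) (x : L), ‖σ x‖ = ‖x‖) :
    (MonoidHom.range (Units.map (Algebra.norm K : L →* K))).index = Module.finrank K L := by
  classical
  obtain ⟨σ, hσ⟩ := IsCyclic.exists_generator (α := L ≃ₐ[K] L)
  obtain ⟨t₀, ht₀pos, ht₀lt⟩ := NormedField.exists_norm_lt_one 𝕜
  obtain ⟨R, hRpos, P⟩ := exists_par (K := K) (L := L) hiso
  have ht₀ne : algebraMap 𝕜 L t₀ ≠ 0 := by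
    rw [Ne, ← norm_eq_zero, norm_algebraMap']
    exact ht₀pos.ne'
  set t : Lˣ := Units.mk0 (algebraMap 𝕜 L t₀) ht₀ne with htdef
  have htval : (t : L) = algebraMap 𝕜 L t₀ := rfl
  have hfixt : ∀ τ : L ≃ₐ[K] L, τ (t : L) = t := fun τ => by
    rw [htval, IsScalarTower.algebraMap_apply 𝕜 K L, τ.commutes]
  have hunit0 : ∀ u : Lˣ, ∏ τ : L ≃ₐ[K] L, τ (u : L) ≠ 0 := fun u =>
    Finset.prod_ne_zero_iff.mpr fun τ _ => (map_ne_zero τ).mpr u.ne_zero
  have key := abstract_norm_index (Dm σ) (Nm K (L := L)) ?hDN ?hND ?hH90 (unitsOneAdd 𝕜 P) t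
    (Nat.card (L ≃ₐ[K] L)) Nat.card_pos
    (index_sup_zpowers_ne_zero 𝕜 P hRpos t₀ ht₀pos ht₀lt t htval) ?hVD ?hVN ?hDt ?hNt ?ht ?h0 ?h1
  · have hinj : Function.Injective (Units.map (algebraMap K L : K →* L)) :=
      Units.map_injective (f := (algebraMap K L : K →* L)) (algebraMap K L).injective
    rw [ker_Dm σ hσ, Nm_eq, ← MonoidHom.map_range, MonoidHom.range_eq_map
      (Units.map (algebraMap K L : K →* L)), Subgroup.relIndex_map_map_of_injective _ _ hinj,
      Subgroup.relIndex_top_right] at key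
    rw [key, IsGalois.card_aut_eq_finrank]
  case hDN =>
    intro x
    refine Units.ext ?_
    rw [coe_Dm, coe_Nm, algEquiv_prod_eq, Units.val_one]
    exact div_self (hunit0 x)
  case hND =>
    intro x
    refine Units.ext ?_
    rw [coe_Nm, Units.val_one]
    simp only [coe_Dm, map_div₀]
    rw [Finset.prod_div_distrib, prod_algEquiv_apply]
    exact div_self (hunit0 x)
  case hH90 =>
    intro x hx
    rw [MonoidHom.mem_ker] at hx
    have h1 : ∏ τ : L ≃ₐ[K] L, τ (x : L) = 1 := by rw [← coe_Nm, hx, Units.val_one]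
    have h2 : Algebra.norm K (x : L) = 1 := by
      apply (algebraMap K L).injective
      rw [Algebra.norm_eq_prod_automorphisms, h1, map_one]
    obtain ⟨y, hy⟩ := groupCohomology.exists_div_of_norm_eq_one hσ h2
    refine ⟨y⁻¹, Units.ext ?_⟩
    rw [coe_Dm, Units.val_inv_eq_inv_val, map_inv₀, ← hy, inv_div_inv]
  case hVD =>
    rintro _ ⟨u, hu, rfl⟩
    rw [SetLike.mem_coe, mem_unitsOneAdd] at hu
    rw [mem_unitsOneAdd, coe_Dm, div_eq_mul_inv (σ (u : L)) (u : L)]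
    exact mul_mem (algEquiv_mem_oneAdd P hu σ) (inv_mem_oneAdd 𝕜 P hu)
  case hVN =>
    rintro _ ⟨u, hu, rfl⟩
    rw [SetLike.mem_coe, mem_unitsOneAdd] at hu
    rw [mem_unitsOneAdd, coe_Nm]
    exact prod_mem_oneAdd P hu
  case hDt =>
    refine Units.ext ?_
    rw [coe_Dm, hfixt, Units.val_one]
    exact div_self t.ne_zero
  case hNt =>
    refine Units.ext ?_
    rw [coe_Nm, Units.val_pow_eq_pow_val, Finset.prod_congr rfl fun τ _ => hfixt τ,
      Finset.prod_const, Finset.card_univ, Nat.card_eq_fintype_card]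
  case ht =>
    intro k hk
    rw [mem_unitsOneAdd] at hk
    have h1 := norm_eq_one_of_mem_oneAdd P hk
    rw [Units.val_zpow_eq_zpow_val, norm_zpow, htval, norm_algebraMap'] at h1
    exact (zpow_eq_one_iff_right₀ (norm_nonneg t₀) ht₀lt.ne).mp h1
  case h0 =>
    intro x hx hDx
    rw [mem_unitsOneAdd] at hx
    have h1 : σ (x : L) = x := by
      have h2 : ((Dm σ x : Lˣ) : L) = 1 := by rw [hDx, Units.val_one]
      rw [coe_Dm] at h2
      exact (div_eq_one_iff_eq x.ne_zero).mp h2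
    obtain ⟨y, hy, hy2⟩ := exists_prod_eq 𝕜 P hx (fixed_of_generator σ hσ h1)
    refine ⟨Units.mk0 y (ne_zero_of_mem_oneAdd P hy), (mem_unitsOneAdd 𝕜 P).mpr hy, Units.ext ?_⟩
    rw [coe_Nm]
    exact hy2
  case h1 =>
    intro x hx hNx
    rw [mem_unitsOneAdd] at hx
    have h1 : ∏ τ : L ≃ₐ[K] L, τ (x : L) = 1 := by rw [← coe_Nm, hNx, Units.val_one]
    obtain ⟨y, hy, hy2⟩ := exists_div_eq 𝕜 P σ hσ hx h1
    have hy0 : y ≠ 0 := ne_zero_of_mem_oneAdd P hy
    refine ⟨Units.mk0 y hy0, (mem_unitsOneAdd 𝕜 P).mpr hy, Units.ext ?_⟩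
    rw [coe_Dm, Units.val_mk0, hy2, mul_div_assoc, div_self hy0, mul_one]

end Final

section Padic

/-- **Local norm index**: for a finite cyclic Galois extension `L/K` of finite extensions of
`ℚ_[l]`, the norm group `N_{L/K} Lˣ` has index `[L : K]` in `Kˣ`. -/
theorem norm_index_eq (l : ℕ) [Fact l.Prime] (K L : Type) [Field K] [Field L] [Algebra ℚ_[l] K]
    [FiniteDimensional ℚ_[l] K] [Algebra K L] [FiniteDimensional K L] [IsGalois K L]
    [IsCyclic (L ≃ₐ[K] L)] :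
    (MonoidHom.range (Units.map (Algebra.norm K : L →* K))).index = Module.finrank K L := by
  let _ : Algebra ℚ_[l] L := ((algebraMap K L).comp (algebraMap ℚ_[l] K)).toAlgebra
  have _ : IsScalarTower ℚ_[l] K L := IsScalarTower.of_algebraMap_eq fun x => rfl
  have _ : FiniteDimensional ℚ_[l] L := FiniteDimensional.trans ℚ_[l] K L
  let _ : NormedField L := spectralNorm.normedField ℚ_[l] L
  let _ : NormedAlgebra ℚ_[l] L := spectralNorm.normedAlgebra ℚ_[l] L
  have _ : IsUltrametricDist L :=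
    IsUltrametricDist.isUltrametricDist_of_isNonarchimedean_norm isNonarchimedean_spectralNorm
  refine norm_index_core ℚ_[l] (K := K) (L := L) fun σ x => ?_
  exact (spectralNorm_eq_of_equiv (σ.restrictScalars ℚ_[l]) x).symm

/-- the norm group of a cyclic extension of degree `p` of finite extensions of `ℚ_[l]` has
index `p` -/
theorem norm_index_eq_of_finrank (l : ℕ) [Fact l.Prime] (K L : Type) [Field K] [Field L]
    [Algebra ℚ_[l] K] [FiniteDimensional ℚ_[l] K] [Algebra K L] [FiniteDimensional K L]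
    [IsGalois K L] [IsCyclic (L ≃ₐ[K] L)] {p : ℕ} (hp : Module.finrank K L = p) :
    (MonoidHom.range (Units.map (Algebra.norm K : L →* K))).index = p := by
  rw [norm_index_eq l K L, hp]

/-- a nontrivial cyclic extension of finite extensions of `ℚ_[l]` has a non-norm: there is
`a ∈ Kˣ` which is not the norm of any element of `L` -/
theorem exists_not_norm (l : ℕ) [Fact l.Prime] (K L : Type) [Field K] [Field L]
    [Algebra ℚ_[l] K] [FiniteDimensional ℚ_[l] K] [Algebra K L] [FiniteDimensional K L]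
    [IsGalois K L] [IsCyclic (L ≃ₐ[K] L)] (h : 1 < Module.finrank K L) :
    ∃ a : Kˣ, ∀ y : L, Algebra.norm K y ≠ (a : K) := by
  by_contra hcon
  push Not at hcon
  have htop : MonoidHom.range (Units.map (Algebra.norm K : L →* K)) = ⊤ := by
    rw [eq_top_iff]
    intro a _
    obtain ⟨y, hy⟩ := hcon a
    have hy0 : y ≠ 0 := by
      rintro rfl
      rw [Algebra.norm_zero] at hy
      exact a.ne_zero hy.symm
    exact ⟨Units.mk0 y hy0, Units.ext hy⟩
  have := norm_index_eq l K L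
  rw [htop, Subgroup.index_top] at this
  omega

/-- the quotient `Kˣ / N_{L/K} Lˣ` of a cyclic extension of finite extensions of `ℚ_[l]` is
finite of cardinality `[L : K]` -/
theorem card_quotient_norm (l : ℕ) [Fact l.Prime] (K L : Type) [Field K] [Field L]
    [Algebra ℚ_[l] K] [FiniteDimensional ℚ_[l] K] [Algebra K L] [FiniteDimensional K L]
    [IsGalois K L] [IsCyclic (L ≃ₐ[K] L)] :
    Nat.card (Kˣ ⧸ MonoidHom.range (Units.map (Algebra.norm K : L →* K))) =
      Module.finrank K L :=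
  norm_index_eq l K L

end Padic

end Fermat.Agent.S55.helper7678
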