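import Mathlib

/-!
# S55 / NF-GR-NORMGRP, part (N3): the elementary product formula over `ℚ`

For a prime `p`, a level `m`, a positive rational `a` and a prime `ℓ`:

* `UnrCond p m ℓ a` : `orderOf (ℓ : ZMod (p ^ m)) ∣ v_ℓ(a)`  (the norm condition at `ℓ ≠ p` for the
  unramified extension `ℚ_ℓ(ζ_{p^m})/ℚ_ℓ`);
* `WildCond p m a` : the prime-to-`p` part of `a` is `≡ 1 mod p ^ m` (the norm condition at `p`).

`cond_of_forall_ne`: if the condition holds at every prime but one, it holds at the last one.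
-/

set_option autoImplicit false

namespace Fermat.Agent.S55.helper7975

open Nat

/-- The norm condition at a prime `ℓ ≠ p`: the order of `ℓ` modulo `p ^ m` divides `v_ℓ(a)`. -/
def UnrCond (p m ℓ : ℕ) (a : ℚ) : Prop :=
  (orderOf ((ℓ : ℕ) : ZMod (p ^ m)) : ℤ) ∣ padicValRat ℓ a

/-- The norm condition at `p`: the prime-to-`p` part of `a` is `≡ 1 mod p ^ m`
(stated on numerator and denominator). -/
def WildCond (p m : ℕ) (a : ℚ) : Prop :=
  ((ordCompl[p] a.num.natAbs : ℕ) : ZMod (p ^ m)) = ((ordCompl[p] a.den : ℕ) : ZMod (p ^ m))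

/-- The local norm condition at the prime `ℓ` for the extension generated by the `p ^ m`-th roots
of unity. -/
def Cond (p m ℓ : ℕ) (a : ℚ) : Prop :=
  if ℓ = p then WildCond p m a else UnrCond p m ℓ a

theorem cond_self (p m : ℕ) (a : ℚ) : Cond p m p a ↔ WildCond p m a := by
  simp [Cond]

theorem cond_of_ne {p m ℓ : ℕ} (h : ℓ ≠ p) (a : ℚ) : Cond p m ℓ a ↔ UnrCond p m ℓ a := by
  simp [Cond, h]

/-- Core lemma on natural numbers: if `orderOf ℓ ∣ v_ℓ(n)` for all primes `ℓ ∉ {p, ℓ0}`, then the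
prime-to-`p` part of `n` is a power of `ℓ0` modulo `N` (and is `1` if `ℓ0 = p`). -/
theorem ordCompl_cast_eq (p ℓ0 N : ℕ) (hp : p.Prime) (n : ℕ) (hn : n ≠ 0)
    (h : ∀ ℓ : ℕ, ℓ.Prime → ℓ ≠ p → ℓ ≠ ℓ0 → orderOf ((ℓ : ℕ) : ZMod N) ∣ n.factorization ℓ) :
    ((ordCompl[p] n : ℕ) : ZMod N) =
      if ℓ0 = p then 1 else ((ℓ0 : ℕ) : ZMod N) ^ n.factorization ℓ0 := by
  induction n using Nat.recOnPosPrimePosCoprime with
  | prime_pow q k hq hk =>
    have hfac : (q ^ k).factorization = Finsupp.single q k := hq.factorization_pow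
    by_cases hqp : q = p
    · subst hqp
      have h1 : ordCompl[q] (q ^ k) = 1 := by
        rw [hfac, Finsupp.single_eq_same]
        exact Nat.div_self (pow_pos hq.pos k)
      rw [h1, hfac]
      split_ifs with h0
      · simp
      · rw [Finsupp.single_eq_of_ne h0]
        simp
    · have h1 : ordCompl[p] (q ^ k) = q ^ k := by
        rw [hfac, Finsupp.single_eq_of_ne (Ne.symm hqp)]
        simp
      rw [h1, hfac]
      by_cases hq0 : q = ℓ0
      · subst hq0
        rw [if_neg hqp, Finsupp.single_eq_same]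
        push_cast
        rfl
      · have hdvd := h q hq hqp hq0
        rw [hfac, Finsupp.single_eq_same] at hdvd
        have hpow : ((q : ℕ) : ZMod N) ^ k = 1 := orderOf_dvd_iff_pow_eq_one.mp hdvd
        rw [Finsupp.single_eq_of_ne (Ne.symm hq0)] at *
        push_cast
        rw [hpow]
        simp
  | zero => exact absurd rfl hn
  | one => simp
  | coprime a b ha hb hab iha ihb =>
    have ha0 : a ≠ 0 := by omega
    have hb0 : b ≠ 0 := by omega
    have hfac : (a * b).factorization = a.factorization + b.factorization :=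
      Nat.factorization_mul ha0 hb0
    have hA : ∀ ℓ : ℕ, ℓ.Prime → ℓ ≠ p → ℓ ≠ ℓ0 →
        orderOf ((ℓ : ℕ) : ZMod N) ∣ a.factorization ℓ := by
      intro ℓ hℓ h1 h2
      have hd := h ℓ hℓ h1 h2
      rw [hfac, Finsupp.add_apply] at hd
      by_cases hla : ℓ ∣ a
      · have hlb : ¬ ℓ ∣ b := fun hlb => hℓ.one_lt.ne' (Nat.eq_one_of_dvd_coprimes hab hla hlb)
        rwa [Nat.factorization_eq_zero_of_not_dvd hlb, add_zero] at hd
      · rw [Nat.factorization_eq_zero_of_not_dvd hla]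
        exact dvd_zero _
    have hB : ∀ ℓ : ℕ, ℓ.Prime → ℓ ≠ p → ℓ ≠ ℓ0 →
        orderOf ((ℓ : ℕ) : ZMod N) ∣ b.factorization ℓ := by
      intro ℓ hℓ h1 h2
      have hd := h ℓ hℓ h1 h2
      rw [hfac, Finsupp.add_apply] at hd
      by_cases hlb : ℓ ∣ b
      · have hla : ¬ ℓ ∣ a := fun hla => hℓ.one_lt.ne' (Nat.eq_one_of_dvd_coprimes hab hla hlb)
        rwa [Nat.factorization_eq_zero_of_not_dvd hla, zero_add] at hd
      · rw [Nat.factorization_eq_zero_of_not_dvd hlb]
        exact dvd_zero _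
    have ea := iha ha0 hA
    have eb := ihb hb0 hB
    rw [Nat.ordCompl_mul, Nat.cast_mul, ea, eb, hfac, Finsupp.add_apply]
    split_ifs with h0
    · simp
    · rw [pow_add]


theorem padicValRat_eq_factorization_sub {ℓ : ℕ} (hℓ : ℓ.Prime) (a : ℚ) :
    padicValRat ℓ a = (a.num.natAbs.factorization ℓ : ℤ) - (a.den.factorization ℓ : ℤ) := by
  rw [Nat.factorization_def _ hℓ, Nat.factorization_def _ hℓ]
  rfl

/-- If `k ∣ v_ℓ(a)` then `k` divides the `ℓ`-adic valuations of numerator and denominator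
separately (they are coprime, so at most one valuation is nonzero). -/
theorem dvd_factorization_of_dvd_padicValRat {ℓ : ℕ} (hℓ : ℓ.Prime) (a : ℚ) (k : ℕ)
    (h : (k : ℤ) ∣ padicValRat ℓ a) :
    k ∣ a.num.natAbs.factorization ℓ ∧ k ∣ a.den.factorization ℓ := by
  rw [padicValRat_eq_factorization_sub hℓ] at h
  have hcop : a.num.natAbs.Coprime a.den := a.reduced
  by_cases hl : ℓ ∣ a.num.natAbs
  · have hd : ¬ ℓ ∣ a.den := fun hd => hℓ.one_lt.ne' (Nat.eq_one_of_dvd_coprimes hcop hl hd)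
    rw [Nat.factorization_eq_zero_of_not_dvd hd] at h ⊢
    simp only [Nat.cast_zero, sub_zero] at h
    exact ⟨Int.natCast_dvd_natCast.mp h, dvd_zero _⟩
  · rw [Nat.factorization_eq_zero_of_not_dvd hl] at h ⊢
    simp only [Nat.cast_zero, zero_sub, dvd_neg] at h
    exact ⟨dvd_zero _, Int.natCast_dvd_natCast.mp h⟩

/-- **Elementary product formula** (step (N3)): a positive rational satisfying the local norm
conditions for the `p ^ m`-th cyclotomic layer at all primes but `ℓ0` satisfies it at `ℓ0`. -/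
theorem cond_of_forall_ne {p m : ℕ} (hp : p.Prime) {a : ℚ} (ha : 0 < a) {ℓ0 : ℕ}
    (hℓ0 : ℓ0.Prime) (h : ∀ ℓ : ℕ, ℓ.Prime → ℓ ≠ ℓ0 → Cond p m ℓ a) : Cond p m ℓ0 a := by
  have hn : a.num.natAbs ≠ 0 := by
    rw [Ne, Int.natAbs_eq_zero, Rat.num_eq_zero]
    exact ha.ne'
  have hd : a.den ≠ 0 := a.den_nz
  have key : ∀ ℓ : ℕ, ℓ.Prime → ℓ ≠ p → ℓ ≠ ℓ0 →
      orderOf ((ℓ : ℕ) : ZMod (p ^ m)) ∣ a.num.natAbs.factorization ℓ ∧
        orderOf ((ℓ : ℕ) : ZMod (p ^ m)) ∣ a.den.factorization ℓ := by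
    intro ℓ hℓ h1 h2
    have hc := (cond_of_ne h1 a).1 (h ℓ hℓ h2)
    exact dvd_factorization_of_dvd_padicValRat hℓ a _ hc
  have en := ordCompl_cast_eq p ℓ0 (p ^ m) hp a.num.natAbs hn
    (fun ℓ h1 h2 h3 => (key ℓ h1 h2 h3).1)
  have ed := ordCompl_cast_eq p ℓ0 (p ^ m) hp a.den hd
    (fun ℓ h1 h2 h3 => (key ℓ h1 h2 h3).2)
  by_cases h0 : ℓ0 = p
  · subst h0
    rw [cond_self]
    unfold WildCond
    rw [en, ed, if_pos rfl, if_pos rfl]
  · rw [cond_of_ne h0]
    have hw : WildCond p m a := (cond_self p m a).1 (h p hp (Ne.symm h0))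
    unfold WildCond at hw
    rw [en, ed, if_neg h0, if_neg h0] at hw
    unfold UnrCond
    rw [padicValRat_eq_factorization_sub hℓ0]
    have hcop : a.num.natAbs.Coprime a.den := a.reduced
    by_cases hl : ℓ0 ∣ a.num.natAbs
    · have hdd : ¬ ℓ0 ∣ a.den :=
        fun hdd => hℓ0.one_lt.ne' (Nat.eq_one_of_dvd_coprimes hcop hl hdd)
      rw [Nat.factorization_eq_zero_of_not_dvd hdd] at hw ⊢
      rw [pow_zero] at hw
      simp only [Nat.cast_zero, sub_zero]
      exact Int.natCast_dvd_natCast.mpr (orderOf_dvd_iff_pow_eq_one.mpr hw)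
    · rw [Nat.factorization_eq_zero_of_not_dvd hl] at hw ⊢
      rw [pow_zero] at hw
      simp only [Nat.cast_zero, zero_sub, dvd_neg]
      exact Int.natCast_dvd_natCast.mpr (orderOf_dvd_iff_pow_eq_one.mpr hw.symm)

end Fermat.Agent.S55.helper7975
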