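/-
S55-INFRES (helper808): inflation–restriction in degree 2 at the level of explicit
inhomogeneous cochains, with level bookkeeping.

* `IsLev₁ A U f`, `IsLev₂ A U f`: a cochain is *of level `U`* when it is right-`U`-invariant in
  every variable and takes `U`-fixed values.  For `U` normal these are exactly the cochains
  inflated from `G ⧸ U` with values in `A^U`.
* `exists_isLev₂_sub_d₁₂` (IR-core): a level-`U` 2-cocycle whose restriction to a normal
  subgroup `N ⊇ U` is a level-`U` coboundary is, when `H¹(N, A) = 0` on level-`U` cocycles,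
  cohomologous (through a level-`U` cochain) to a cocycle of level `N`.
* `exists_isLev₁_d₁₂_eq` (IR-inj): a level-`N` cocycle which is the coboundary of a level-`U`
  cochain is the coboundary of a level-`N` cochain.
-/
import Mathlib
import Fermat.Prelude.Def_GroupCohomology_ContinuousUnramified

set_option autoImplicit false

open CategoryTheory groupCohomology

namespace Fermat.Agent.S55.helper808

universe u

variable {k G : Type u} [CommRing k] [Group G]

/-- A 1-cochain of level `U`: right-`U`-invariant with `U`-fixed values. -/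
def IsLev₁ (A : Rep.{u} k G) (U : Subgroup G) (f : G → A) : Prop :=
  (∀ g, ∀ u ∈ U, f (g * u) = f g) ∧ (∀ g, ∀ u ∈ U, A.ρ u (f g) = f g)

/-- A 2-cochain of level `U`: right-`U`-invariant in both variables with `U`-fixed values. -/
def IsLev₂ (A : Rep.{u} k G) (U : Subgroup G) (f : G × G → A) : Prop :=
  (∀ g h, ∀ u ∈ U, ∀ u' ∈ U, f (g * u, h * u') = f (g, h)) ∧
    (∀ g h, ∀ u ∈ U, A.ρ u (f (g, h)) = f (g, h))

section basic

variable {A : Rep.{u} k G} {U : Subgroup G}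

lemma IsLev₁.mono {U' : Subgroup G} (h : U' ≤ U) {f : G → A} (hf : IsLev₁ A U f) :
    IsLev₁ A U' f :=
  ⟨fun g u hu => hf.1 g u (h hu), fun g u hu => hf.2 g u (h hu)⟩

lemma IsLev₂.mono {U' : Subgroup G} (h : U' ≤ U) {f : G × G → A} (hf : IsLev₂ A U f) :
    IsLev₂ A U' f :=
  ⟨fun g g' u hu u' hu' => hf.1 g g' u (h hu) u' (h hu'), fun g g' u hu => hf.2 g g' u (h hu)⟩

lemma IsLev₁.add {f f' : G → A} (hf : IsLev₁ A U f) (hf' : IsLev₁ A U f') :
    IsLev₁ A U (f + f') :=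
  ⟨fun g u hu => by simp only [Pi.add_apply, hf.1 g u hu, hf'.1 g u hu],
    fun g u hu => by simp only [Pi.add_apply, map_add, hf.2 g u hu, hf'.2 g u hu]⟩

lemma IsLev₁.sub {f f' : G → A} (hf : IsLev₁ A U f) (hf' : IsLev₁ A U f') :
    IsLev₁ A U (f - f') :=
  ⟨fun g u hu => by simp only [Pi.sub_apply, hf.1 g u hu, hf'.1 g u hu],
    fun g u hu => by simp only [Pi.sub_apply, map_sub, hf.2 g u hu, hf'.2 g u hu]⟩

lemma IsLev₂.add {f f' : G × G → A} (hf : IsLev₂ A U f) (hf' : IsLev₂ A U f') :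
    IsLev₂ A U (f + f') :=
  ⟨fun g h u hu u' hu' => by
      simp only [Pi.add_apply, hf.1 g h u hu u' hu', hf'.1 g h u hu u' hu'],
    fun g h u hu => by simp only [Pi.add_apply, map_add, hf.2 g h u hu, hf'.2 g h u hu]⟩

lemma IsLev₂.sub {f f' : G × G → A} (hf : IsLev₂ A U f) (hf' : IsLev₂ A U f') :
    IsLev₂ A U (f - f') :=
  ⟨fun g h u hu u' hu' => by
      simp only [Pi.sub_apply, hf.1 g h u hu u' hu', hf'.1 g h u hu u' hu'],
    fun g h u hu => by simp only [Pi.sub_apply, map_sub, hf.2 g h u hu, hf'.2 g h u hu]⟩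

lemma IsLev₁.left_inv [U.Normal] {f : G → A} (hf : IsLev₁ A U f) (g : G) {u : G} (hu : u ∈ U) :
    f (u * g) = f g := by
  have h : u * g = g * (g⁻¹ * u * g) := by group
  rw [h]
  exact hf.1 g _ (Subgroup.Normal.conj_mem' ‹_› u hu g)

/-- The coboundary of a level-`U` cochain is of level `U` (`U` normal). -/
lemma IsLev₁.d₁₂ [U.Normal] {f : G → A} (hf : IsLev₁ A U f) : IsLev₂ A U (d₁₂ A f) := by
  refine ⟨fun g h u hu u' hu' => ?_, fun g h u hu => ?_⟩
  · simp only [d₁₂_hom_apply]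
    have e1 : g * u * (h * u') = g * h * (h⁻¹ * u * h * u') := by group
    have hm : h⁻¹ * u * h * u' ∈ U := U.mul_mem (Subgroup.Normal.conj_mem' ‹_› u hu h) hu'
    rw [e1, hf.1 (g * h) _ hm, hf.1 g u hu, hf.1 h u' hu', map_mul, Module.End.mul_apply,
      hf.2 h u hu]
  · simp only [d₁₂_hom_apply, map_add, map_sub]
    have e : ∀ x : A, A.ρ u (A.ρ g x) = A.ρ g (A.ρ (g⁻¹ * u * g) x) := by
      intro x
      rw [← Module.End.mul_apply, ← Module.End.mul_apply, ← map_mul, ← map_mul]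
      congr 2
      group
    rw [e, hf.2 h _ (Subgroup.Normal.conj_mem' ‹_› u hu g), hf.2 (g * h) u hu, hf.2 g u hu]

end basic

/-- **Inflation–restriction in degree 2, cochain form.**  Let `U ≤ N` be normal subgroups of `G`
and `c` a 2-cocycle of level `U` whose restriction to `N × N` is the coboundary of a level-`U`
cochain `b₀`.  If every level-`U` 1-cocycle on `N` is the coboundary of an element, then `c` is
cohomologous, through a level-`U` cochain, to a cocycle of level `N` (i.e. inflated from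
`G ⧸ N` with values in `A^N`). -/
theorem exists_isLev₂_sub_d₁₂ (A : Rep.{u} k G) (N U : Subgroup G) [N.Normal] [U.Normal]
    (hUN : U ≤ N) (c : G × G → A) (hc : c ∈ cocycles₂ A) (hcU : IsLev₂ A U c)
    (b₀ : G → A) (hb₀U : IsLev₁ A U b₀)
    (hb₀ : ∀ n ∈ N, ∀ n' ∈ N, c (n, n') = A.ρ n (b₀ n') - b₀ (n * n') + b₀ n)
    (hH1 : ∀ φ : G → A, IsLev₁ A U φ →
      (∀ n ∈ N, ∀ n' ∈ N, φ (n * n') = A.ρ n (φ n') + φ n) →
        ∃ a : A, ∀ n ∈ N, φ n = A.ρ n a - a) :
    ∃ b : G → A, IsLev₁ A U b ∧ IsLev₂ A N (c - d₁₂ A b) := by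
  classical
  have hconj : ∀ (g : G) {n : G}, n ∈ N → g⁻¹ * n * g ∈ N :=
    fun g n hn => Subgroup.Normal.conj_mem' ‹_› n hn g
  -- Step 1: make the cocycle vanish on `N × N`.
  set c₀ : G × G → A := c - d₁₂ A b₀ with hc₀def
  have hc₀ : c₀ ∈ cocycles₂ A := Submodule.sub_mem _ hc (d₁₂_apply_mem_cocycles₂ b₀)
  have hc₀U : IsLev₂ A U c₀ := hcU.sub hb₀U.d₁₂
  have hc₀N : ∀ n ∈ N, ∀ n' ∈ N, c₀ (n, n') = 0 := by
    intro n hn n' hn'
    simp only [hc₀def, Pi.sub_apply, d₁₂_hom_apply, hb₀ n hn n' hn', sub_self]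
  have Z₀ := (mem_cocycles₂_iff c₀).1 hc₀
  -- Step 2: make it vanish on `G × N`.
  let s : G → G := fun g => (QuotientGroup.mk (s := N) g).out
  have hs : ∀ g, (s g)⁻¹ * g ∈ N := fun g =>
    QuotientGroup.eq.1 (QuotientGroup.out_eq' (QuotientGroup.mk (s := N) g))
  have hsN : ∀ g, ∀ n ∈ N, s (g * n) = s g := fun g n hn => by
    show (QuotientGroup.mk (s := N) (g * n)).out = (QuotientGroup.mk (s := N) g).out
    rw [QuotientGroup.mk_mul_of_mem g hn]
  have hs_mem : ∀ n ∈ N, s n ∈ N := fun n hn => by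
    have h1 := hs n
    have h2 : s n = n * ((s n)⁻¹ * n)⁻¹ := by group
    rw [h2]
    exact N.mul_mem hn (N.inv_mem h1)
  let b : G → A := fun g => c₀ (s g, (s g)⁻¹ * g)
  have hb_mul : ∀ g, ∀ n ∈ N, b (g * n) = c₀ (g, n) + b g := by
    intro g n hn
    have h := Z₀ (s g) ((s g)⁻¹ * g) n
    rw [mul_inv_cancel_left, hc₀N _ (hs g) n hn, map_zero, zero_add] at h
    show c₀ (s (g * n), (s (g * n))⁻¹ * (g * n)) = c₀ (g, n) + c₀ (s g, (s g)⁻¹ * g)
    rw [hsN g n hn, ← mul_assoc, ← h]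
  have hbN : ∀ n ∈ N, b n = 0 := fun n hn => hc₀N _ (hs_mem n hn) _ (hs n)
  have hbU : IsLev₁ A U b := by
    refine ⟨fun g u hu => ?_, fun g u hu => hc₀U.2 _ _ u hu⟩
    show c₀ (s (g * u), (s (g * u))⁻¹ * (g * u)) = c₀ (s g, (s g)⁻¹ * g)
    rw [hsN g u (hUN hu), ← mul_assoc]
    have := hc₀U.1 (s g) ((s g)⁻¹ * g) 1 U.one_mem u hu
    rwa [mul_one] at this
  set c₁ : G × G → A := c₀ + d₁₂ A b with hc₁def
  have hc₁ : c₁ ∈ cocycles₂ A := Submodule.add_mem _ hc₀ (d₁₂_apply_mem_cocycles₂ b)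
  have hc₁U : IsLev₂ A U c₁ := hc₀U.add hbU.d₁₂
  have hc₁N : ∀ g, ∀ n ∈ N, c₁ (g, n) = 0 := by
    intro g n hn
    simp only [hc₁def, Pi.add_apply, d₁₂_hom_apply, hb_mul g n hn, hbN n hn, map_zero]
    abel
  have Z₁ := (mem_cocycles₂_iff c₁).1 hc₁
  -- Step 3: make it vanish on `N × G` as well.
  have h3a : ∀ g h, ∀ n ∈ N, c₁ (g, h * n) = c₁ (g, h) := by
    intro g h n hn
    have := Z₁ g h n
    rw [hc₁N _ n hn, hc₁N _ n hn, map_zero, zero_add, zero_add] at this
    exact this.symm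
  have h3b : ∀ g, ∀ n ∈ N, ∀ n' ∈ N, c₁ (n * n', g) = A.ρ n (c₁ (n', g)) + c₁ (n, g) := by
    intro g n hn n' hn'
    have := Z₁ n n' g
    have e : n' * g = g * (g⁻¹ * n' * g) := by group
    rw [hc₁N _ n' hn', add_zero, e, h3a n g _ (hconj g hn')] at this
    exact this
  have hex : ∀ g, ∃ a : A, ∀ n ∈ N, c₁ (n, g) = A.ρ n a - a := by
    intro g
    refine hH1 (fun n => c₁ (n, g)) ⟨fun n u hu => ?_, fun n u hu => hc₁U.2 _ _ u hu⟩
      (fun n hn n' hn' => h3b g n hn n' hn')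
    have := hc₁U.1 n g u hu 1 U.one_mem
    rwa [mul_one] at this
  choose a₀ ha₀ using hex
  let a : G → A := fun g => a₀ (s g)
  have ha : ∀ g, ∀ n ∈ N, c₁ (n, g) = A.ρ n (a g) - a g := by
    intro g n hn
    have e : g = s g * ((s g)⁻¹ * g) := by group
    have := h3a n (s g) _ (hs g)
    rw [← e] at this
    rw [this]
    exact ha₀ (s g) n hn
  have haN : ∀ g, ∀ n ∈ N, a (g * n) = a g := fun g n hn => by
    show a₀ (s (g * n)) = a₀ (s g)
    rw [hsN g n hn]
  have hc₁one : ∀ g, c₁ (1, g) = 0 := by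
    intro g
    have := cocycles₂_map_one_fst (⟨c₁, hc₁⟩ : cocycles₂ A) g
    simp only [cocycles₂.coe_mk] at this
    rw [this]
    exact hc₁N 1 1 N.one_mem
  have haU : ∀ g, ∀ u ∈ U, A.ρ u (a g) = a g := by
    intro g u hu
    have h1 := ha g u (hUN hu)
    have h2 := hc₁U.1 1 g u hu 1 U.one_mem
    rw [mul_one, one_mul] at h2
    rw [h2, hc₁one g] at h1
    exact (sub_eq_zero.1 h1.symm)
  let b₂ : G → A := fun g => a g - a 1
  have hb₂r : ∀ g, ∀ n ∈ N, b₂ (g * n) = b₂ g := fun g n hn => by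
    show a (g * n) - a 1 = a g - a 1
    rw [haN g n hn]
  have hb₂l : ∀ g, ∀ n ∈ N, b₂ (n * g) = b₂ g := fun g n hn => by
    have e : n * g = g * (g⁻¹ * n * g) := by group
    rw [e]
    exact hb₂r g _ (hconj g hn)
  have hb₂N : ∀ n ∈ N, b₂ n = 0 := fun n hn => by
    have := hb₂r 1 n hn
    rw [one_mul] at this
    rw [this]
    show a 1 - a 1 = 0
    exact sub_self _
  have hb₂U : IsLev₁ A U b₂ :=
    ⟨fun g u hu => hb₂r g u (hUN hu), fun g u hu => by
      show A.ρ u (a g - a 1) = a g - a 1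
      rw [map_sub, haU g u hu, haU 1 u hu]⟩
  set c₂ : G × G → A := c₁ - d₁₂ A b₂ with hc₂def
  have hc₂ : c₂ ∈ cocycles₂ A := Submodule.sub_mem _ hc₁ (d₁₂_apply_mem_cocycles₂ b₂)
  have hc₂r : ∀ g, ∀ n ∈ N, c₂ (g, n) = 0 := by
    intro g n hn
    simp only [hc₂def, Pi.sub_apply, d₁₂_hom_apply, hc₁N g n hn, hb₂N n hn, hb₂r g n hn,
      map_zero]
    abel
  have hc₂l : ∀ g, ∀ n ∈ N, c₂ (n, g) = 0 := by
    intro g n hn
    have h1 : c₁ (n, 1) = 0 := hc₁N n 1 N.one_mem
    have h2 := ha 1 n hn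
    rw [h1] at h2
    simp only [hc₂def, Pi.sub_apply, d₁₂_hom_apply, hb₂N n hn, hb₂l g n hn, ha g n hn]
    show A.ρ n (a g) - a g - (A.ρ n (a g - a 1) - (a g - a 1) + 0) = 0
    rw [map_sub]
    have h3 : A.ρ n (a 1) = a 1 := (sub_eq_zero.1 h2.symm)
    rw [h3]
    abel
  have Z₂ := (mem_cocycles₂_iff c₂).1 hc₂
  -- Step 4: the cocycle is now inflated from `G ⧸ N`.
  have h4a : ∀ g h, ∀ n ∈ N, c₂ (g, h * n) = c₂ (g, h) := by
    intro g h n hn
    have := Z₂ g h n
    rw [hc₂r _ n hn, hc₂r _ n hn, map_zero, zero_add, zero_add] at this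
    exact this.symm
  have h4b : ∀ g h, ∀ n ∈ N, c₂ (g * n, h) = c₂ (g, h) := by
    intro g h n hn
    have := Z₂ g n h
    have e : n * h = h * (h⁻¹ * n * h) := by group
    rw [hc₂r _ n hn, hc₂l _ n hn, map_zero, zero_add, add_zero, e, h4a g h _ (hconj h hn)] at this
    exact this
  have h4c : ∀ g h, ∀ n ∈ N, A.ρ n (c₂ (g, h)) = c₂ (g, h) := by
    intro g h n hn
    have := Z₂ n g h
    have e : n * g = g * (g⁻¹ * n * g) := by group
    rw [hc₂l _ n hn, hc₂l _ n hn, add_zero, add_zero, e, h4b g h _ (hconj g hn)] at this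
    exact this.symm
  refine ⟨b₀ - b + b₂, (hb₀U.sub hbU).add hb₂U, ?_⟩
  have hfin : c - d₁₂ A (b₀ - b + b₂) = c₂ := by
    rw [hc₂def, hc₁def, hc₀def]
    rw [show d₁₂ A (b₀ - b + b₂) = d₁₂ A b₀ - d₁₂ A b + d₁₂ A b₂ from by
      rw [map_add, map_sub]]
    abel
  rw [hfin]
  exact ⟨fun g h n hn n' hn' => by rw [h4a _ _ n' hn', h4b _ _ n hn], h4c⟩

/-- **Injectivity of inflation in degree 2, cochain form.**  A cocycle of level `N` which is
the coboundary of a level-`U` cochain (`U ≤ N` normal) is the coboundary of a level-`N`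
cochain, provided every level-`U` 1-cocycle on `N` is the coboundary of an element. -/
theorem exists_isLev₁_d₁₂_eq (A : Rep.{u} k G) (N U : Subgroup G) [N.Normal] [U.Normal]
    (hUN : U ≤ N) (c : G × G → A) (hcN : IsLev₂ A N c) (b : G → A) (hbU : IsLev₁ A U b)
    (hcb : c = d₁₂ A b)
    (hH1 : ∀ φ : G → A, IsLev₁ A U φ →
      (∀ n ∈ N, ∀ n' ∈ N, φ (n * n') = A.ρ n (φ n') + φ n) →
        ∃ a : A, ∀ n ∈ N, φ n = A.ρ n a - a) :
    ∃ b' : G → A, IsLev₁ A N b' ∧ c = d₁₂ A b' := by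
  have hconj : ∀ (g : G) {n : G}, n ∈ N → g⁻¹ * n * g ∈ N :=
    fun g n hn => Subgroup.Normal.conj_mem' ‹_› n hn g
  set z : A := c (1, 1) with hz
  have hzN : ∀ n ∈ N, A.ρ n z = z := fun n hn => hcN.2 1 1 n hn
  have hcNN : ∀ n ∈ N, ∀ n' ∈ N, c (n, n') = z := by
    intro n hn n' hn'
    have := hcN.1 1 1 n hn n' hn'
    rwa [one_mul, one_mul] at this
  have hd : ∀ g h, c (g, h) = A.ρ g (b h) - b (g * h) + b g := by
    intro g h
    rw [hcb, d₁₂_hom_apply]
  obtain ⟨a, ha⟩ := hH1 (fun g => b g - z)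
    ⟨fun g u hu => by simp only [hbU.1 g u hu], fun g u hu => by
      simp only [map_sub, hbU.2 g u hu, hzN u (hUN hu)]⟩
    (fun n hn n' hn' => by
      have h1 := hcNN n hn n' hn'
      rw [hd] at h1
      simp only [map_sub, hzN n hn]
      have h2 : b (n * n') = A.ρ n (b n') + b n - z := by
        rw [← h1]; abel
      rw [h2]; abel)
  let b' : G → A := fun g => b g - (A.ρ g a - a)
  have hb'd : ∀ g h, c (g, h) = A.ρ g (b' h) - b' (g * h) + b' g := by
    intro g h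
    rw [hd]
    show _ = A.ρ g (b h - (A.ρ h a - a)) - (b (g * h) - (A.ρ (g * h) a - a)) + (b g - (A.ρ g a - a))
    rw [map_sub, map_sub, map_mul, Module.End.mul_apply]
    abel
  have hb'N : ∀ n ∈ N, b' n = z := by
    intro n hn
    have := ha n hn
    show b n - (A.ρ n a - a) = z
    rw [← this]
    abel
  have hb'1 : b' 1 = z := hb'N 1 N.one_mem
  have hr : ∀ g, ∀ n ∈ N, b' (g * n) = b' g := by
    intro g n hn
    have h1 := hcN.1 g 1 1 N.one_mem n hn
    rw [mul_one, one_mul] at h1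
    rw [hb'd g n, hb'd g 1, hb'N n hn, hb'1, mul_one] at h1
    have h2 : b' (g * n) = A.ρ g z + b' g - (A.ρ g z - b' (g * n) + b' g) := by abel
    rw [h2, h1]; abel
  have hl : ∀ g, ∀ n ∈ N, b' (n * g) = b' g := by
    intro g n hn
    have e : n * g = g * (g⁻¹ * n * g) := by group
    rw [e]
    exact hr g _ (hconj g hn)
  have hfix : ∀ g, ∀ n ∈ N, A.ρ n (b' g) = b' g := by
    intro g n hn
    have h1 := hcN.1 1 g n hn 1 N.one_mem
    rw [one_mul, mul_one] at h1
    rw [hb'd n g, hb'd 1 g, hb'N n hn, hb'1, hl g n hn, one_mul, map_one,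
      Module.End.one_apply] at h1
    have h2 : A.ρ n (b' g) = A.ρ n (b' g) - b' g + z - z + b' g := by abel
    rw [h2, h1]; abel
  refine ⟨b', ⟨hr, hfix⟩, ?_⟩
  funext ⟨g, h⟩
  rw [hb'd g h, d₁₂_hom_apply]

/-! ## Descent of level-`N` cochains to `G ⧸ N` -/

section descent

variable (A : Rep.{u} k G) (N : Subgroup G) [N.Normal]

omit [N.Normal] in
lemma out_mul_inv_mem (g : G) : g⁻¹ * (QuotientGroup.mk (s := N) g).out ∈ N :=
  QuotientGroup.eq.1 (QuotientGroup.out_eq' (QuotientGroup.mk (s := N) g)).symm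

/-- A level-`N` 1-cochain, viewed as a cochain of `G ⧸ N` with values in `A^N`. -/
noncomputable def descend₁ (f : G → A) (hf : IsLev₁ A N f) :
    G ⧸ N → A.quotientToInvariants N :=
  fun q => ⟨f q.out, fun n => hf.2 _ n.1 n.2⟩

/-- A level-`N` 2-cochain, viewed as a cochain of `G ⧸ N` with values in `A^N`. -/
noncomputable def descend₂ (f : G × G → A) (hf : IsLev₂ A N f) :
    (G ⧸ N) × (G ⧸ N) → A.quotientToInvariants N :=
  fun q => ⟨f (q.1.out, q.2.out), fun n => hf.2 _ _ n.1 n.2⟩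

variable {A N}

lemma descend₁_mk (f : G → A) (hf : IsLev₁ A N f) (g : G) :
    ((descend₁ A N f hf (QuotientGroup.mk g) : A.quotientToInvariants N) : A) = f g := by
  show f (QuotientGroup.mk (s := N) g).out = f g
  have h := hf.1 g _ (out_mul_inv_mem N g)
  rwa [mul_inv_cancel_left] at h

lemma descend₂_mk (f : G × G → A) (hf : IsLev₂ A N f) (g h : G) :
    ((descend₂ A N f hf (QuotientGroup.mk g, QuotientGroup.mk h) :
      A.quotientToInvariants N) : A) = f (g, h) := by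
  show f ((QuotientGroup.mk (s := N) g).out, (QuotientGroup.mk (s := N) h).out) = f (g, h)
  have h' := hf.1 g h _ (out_mul_inv_mem N g) _ (out_mul_inv_mem N h)
  rwa [mul_inv_cancel_left, mul_inv_cancel_left] at h'

end descent

/-! ## Mathlib-native inflation–restriction for `H²` of abstract groups -/

section abstract

open Rep

variable (A : Rep.{u} k G) (S : Subgroup G) [S.Normal]

/-- Inflation `H²(G ⧸ S, A^S) ⟶ H²(G, A)`. -/
noncomputable abbrev inf₂ :
    groupCohomology (A.quotientToInvariants S) 2 ⟶ groupCohomology A 2 :=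
  map (QuotientGroup.mk' S) (ofHom <| A.ρ.quotientToInvariants_lift S) 2

/-- Restriction `H²(G, A) ⟶ H²(S, A)`. -/
noncomputable abbrev res₂ : groupCohomology A 2 ⟶ groupCohomology (res S.subtype A) 2 :=
  map S.subtype (𝟙 _) 2

variable {A S}

lemma descend₂_mem_cocycles₂ (f : G × G → A) (hf : IsLev₂ A S f) (hc : f ∈ cocycles₂ A) :
    descend₂ A S f hf ∈ cocycles₂ (A.quotientToInvariants S) := by
  rw [mem_cocycles₂_iff]
  intro g h j
  induction g using QuotientGroup.induction_on with | H g =>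
  induction h using QuotientGroup.induction_on with | H h =>
  induction j using QuotientGroup.induction_on with | H j =>
  apply Subtype.ext
  have key := (mem_cocycles₂_iff f).1 hc g h j
  rw [← descend₂_mk f hf (g * h) j, ← descend₂_mk f hf g h, ← descend₂_mk f hf h j,
    ← descend₂_mk f hf g (h * j)] at key
  exact key

lemma descend₁_d₁₂ (b : G → A) (hb : IsLev₁ A S b) :
    d₁₂ (A.quotientToInvariants S) (descend₁ A S b hb) = descend₂ A S (d₁₂ A b) hb.d₁₂ := by
  funext ⟨g, h⟩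
  induction g using QuotientGroup.induction_on with | H g =>
  induction h using QuotientGroup.induction_on with | H h =>
  apply Subtype.ext
  rw [descend₂_mk, d₁₂_hom_apply, d₁₂_hom_apply]
  show A.ρ g (descend₁ A S b hb (QuotientGroup.mk h) : A.quotientToInvariants S).1
      - (descend₁ A S b hb (QuotientGroup.mk (g * h)) : A.quotientToInvariants S).1
      + (descend₁ A S b hb (QuotientGroup.mk g) : A.quotientToInvariants S).1 = _
  rw [descend₁_mk, descend₁_mk, descend₁_mk]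

omit [S.Normal] in
/-- the hypothesis `H¹(S, A) = 0` in the form used by the cochain lemmas (level `⊥`). -/
lemma hH1_bot (h1 : ∀ x : cocycles₁ (res S.subtype A), ∃ a : A, ∀ n : S, x n = A.ρ n a - a) :
    ∀ φ : G → A, IsLev₁ A ⊥ φ →
      (∀ n ∈ S, ∀ n' ∈ S, φ (n * n') = A.ρ n (φ n') + φ n) →
        ∃ a : A, ∀ n ∈ S, φ n = A.ρ n a - a := by
  intro φ _ hφ
  obtain ⟨a, ha⟩ := h1 ⟨fun n : S => φ n,
    (mem_cocycles₁_iff (A := res S.subtype A) _).2 fun g h => hφ g g.2 h h.2⟩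
  exact ⟨a, fun n hn => ha ⟨n, hn⟩⟩

lemma isLev₁_bot (f : G → A) : IsLev₁ A ⊥ f := by
  refine ⟨fun g u hu => ?_, fun g u hu => ?_⟩
  · rw [Subgroup.mem_bot.1 hu, mul_one]
  · rw [Subgroup.mem_bot.1 hu, map_one, Module.End.one_apply]

lemma isLev₂_bot (f : G × G → A) : IsLev₂ A ⊥ f := by
  refine ⟨fun g h u hu u' hu' => ?_, fun g h u hu => ?_⟩
  · rw [Subgroup.mem_bot.1 hu, Subgroup.mem_bot.1 hu', mul_one, mul_one]
  · rw [Subgroup.mem_bot.1 hu, map_one, Module.End.one_apply]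

/-- **Inflation `H²(G ⧸ S, A^S) ⟶ H²(G, A)` is injective when `H¹(S, A) = 0`.** -/
theorem inf₂_injective
    (h1 : ∀ x : cocycles₁ (res S.subtype A), ∃ a : A, ∀ n : S, x n = A.ρ n a - a) :
    Function.Injective (inf₂ A S) := by
  rw [injective_iff_map_eq_zero]
  intro x hx
  induction x using H2_induction_on with | h x =>
  rw [H2π_comp_map_apply (QuotientGroup.mk' S)] at hx
  obtain ⟨y, hy⟩ := (H2π_eq_zero_iff _).1 hx
  set c : G × G → A := ⇑(mapCocycles₂ (QuotientGroup.mk' S)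
    (ofHom <| A.ρ.quotientToInvariants_lift S) x) with hcdef
  have hcv : ∀ g h, c (g, h) = ((x (QuotientGroup.mk g, QuotientGroup.mk h) :
      A.quotientToInvariants S) : A) := fun g h => rfl
  have hcS : IsLev₂ A S c := by
    refine ⟨fun g h n hn n' hn' => ?_, fun g h n hn => ?_⟩
    · rw [hcv, hcv, QuotientGroup.mk_mul_of_mem g hn, QuotientGroup.mk_mul_of_mem h hn']
    · rw [hcv]
      exact (x (QuotientGroup.mk g, QuotientGroup.mk h)).2 ⟨n, hn⟩
  obtain ⟨b', hb'S, hb'⟩ := exists_isLev₁_d₁₂_eq A S ⊥ bot_le c hcS y (isLev₁_bot y) hy.symm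
    (hH1_bot h1)
  refine (H2π_eq_zero_iff _).2 ⟨descend₁ A S b' hb'S, ?_⟩
  rw [descend₁_d₁₂]
  funext ⟨g, h⟩
  induction g using QuotientGroup.induction_on with | H g =>
  induction h using QuotientGroup.induction_on with | H h =>
  apply Subtype.ext
  rw [descend₂_mk, ← hb', hcv]

/-- **Inflation–restriction in degree 2**: `H²(G ⧸ S, A^S) ⟶ H²(G, A) ⟶ H²(S, A)` is exact
when `H¹(S, A) = 0`. -/
theorem inf₂_res₂_exact
    (h1 : ∀ x : cocycles₁ (res S.subtype A), ∃ a : A, ∀ n : S, x n = A.ρ n a - a) :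
    Function.Exact (inf₂ A S) (res₂ A S) := by
  classical
  intro x
  constructor
  · intro hx
    induction x using H2_induction_on with | h x =>
    rw [H2π_comp_map_apply S.subtype] at hx
    obtain ⟨y, hy⟩ := (H2π_eq_zero_iff _).1 hx
    have hyv : ∀ n n' : S, x ((n : G), (n' : G)) = A.ρ n (y n') - y (n * n') + y n := by
      intro n n'
      have := congrFun hy (n, n')
      rw [d₁₂_hom_apply] at this
      exact this.symm
    let b₀ : G → A := fun g => if h : g ∈ S then y ⟨g, h⟩ else 0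
    have hb₀ : ∀ n ∈ S, ∀ n' ∈ S, x (n, n') = A.ρ n (b₀ n') - b₀ (n * n') + b₀ n := by
      intro n hn n' hn'
      have := hyv ⟨n, hn⟩ ⟨n', hn'⟩
      simp only [b₀, dif_pos hn, dif_pos hn', dif_pos (S.mul_mem hn hn')]
      exact this
    obtain ⟨b, -, hb⟩ := exists_isLev₂_sub_d₁₂ A S ⊥ bot_le x x.2 (isLev₂_bot _) b₀
      (isLev₁_bot b₀) hb₀ (hH1_bot h1)
    have hcoc : (⇑x - d₁₂ A b) ∈ cocycles₂ A :=
      Submodule.sub_mem _ x.2 (d₁₂_apply_mem_cocycles₂ b)
    refine ⟨H2π _ ⟨descend₂ A S _ hb, descend₂_mem_cocycles₂ _ hb hcoc⟩, ?_⟩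
    rw [H2π_comp_map_apply (QuotientGroup.mk' S), H2π_eq_iff]
    refine ⟨-b, ?_⟩
    funext ⟨g, h⟩
    have e : (mapCocycles₂ (QuotientGroup.mk' S) (ofHom <| A.ρ.quotientToInvariants_lift S)
        ⟨descend₂ A S _ hb, descend₂_mem_cocycles₂ _ hb hcoc⟩) (g, h) = (⇑x - d₁₂ A b) (g, h) :=
      descend₂_mk _ hb g h
    rw [Pi.sub_apply, e, map_neg]
    simp only [Pi.sub_apply, Pi.neg_apply]
    abel
  · rintro ⟨y, rfl⟩
    induction y using H2_induction_on with | h y =>
    rw [H2π_comp_map_apply (QuotientGroup.mk' S), H2π_comp_map_apply S.subtype]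
    refine (H2π_eq_zero_iff _).2 ⟨fun _ => ((y (1, 1) : A.quotientToInvariants S) : A), ?_⟩
    funext ⟨n, n'⟩
    rw [d₁₂_hom_apply]
    have h1 : (y (1, 1) : A.quotientToInvariants S).1 ∈ _ := (y (1, 1)).2
    have h2 : A.ρ (n : G) (y (1, 1) : A.quotientToInvariants S).1 = (y (1, 1)).1 := (y (1, 1)).2 n
    have e : (mapCocycles₂ S.subtype (𝟙 (res S.subtype A))
        (mapCocycles₂ (QuotientGroup.mk' S) (ofHom <| A.ρ.quotientToInvariants_lift S) y)) (n, n')
        = ((y (QuotientGroup.mk (n : G), QuotientGroup.mk (n' : G)) :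
          A.quotientToInvariants S) : A) := rfl
    rw [e, (QuotientGroup.eq_one_iff (n : G)).2 n.2, (QuotientGroup.eq_one_iff (n' : G)).2 n'.2]
    show A.ρ (n : G) (y (1, 1) : A.quotientToInvariants S).1 - (y (1, 1)).1 + (y (1, 1)).1 = _
    rw [h2]
    abel

end abstract

end Fermat.Agent.S55.helper808
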