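/-
S55 (helper808): finite-level presentation of level cohomology and inflation–restriction
for level-constant cochains.

Built on the level systems `Levels G` of `helper7486_LevelCoh` and the cochain lemmas of
`helper808_InfRes`.

* a level-constant 2-cocycle is inflated from a finite quotient `G ⧸ U` (values in `A^U`);
* a level-constant 1-cochain of a smooth module has a level in the strong sense;
* `infLH2 N : H²(G ⧸ N, A^N) → LH2 𝓛 A` for every normal subgroup `N` containing a level; the maps are jointly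
  surjective and their kernels are described at finite level;
* inflation–restriction for `LH2`: if every level-constant 1-cocycle on `N` is a coboundary
  then `0 → H²(G ⧸ N, A^N) → LH2 𝓛 A → LH2 (subLevels 𝓛 N) (res A)` is exact.
-/
import Mathlib
import Fermat.Prelude.Def_GroupCohomology_ContinuousUnramified
import Fermat.Agent.S55.helper7486_LevelCoh
import Fermat.Agent.S55.helper808_InfRes

set_option autoImplicit false

open CategoryTheory groupCohomology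
open Fermat.Agent.S55.helper7486

namespace Fermat.Agent.S55.helper808

universe u

variable {k G : Type u} [CommRing k] [Group G]

/-! ## Cocycles are automatically of strong level -/

section auto

variable {A : Rep.{u} k G}

/-- A 2-cocycle which is right-invariant under a normal subgroup `U` in both variables takes
values in `A^U`: it is inflated from `G ⧸ U`. -/
lemma isLev₂_of_mem_cocycles₂ (U : Subgroup G) [U.Normal] {c : G × G → A}
    (hc : c ∈ cocycles₂ A)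
    (h : ∀ g g' s s', s ∈ U → s' ∈ U → c (g * s, g' * s') = c (g, g')) : IsLev₂ A U c := by
  refine ⟨fun g g' u hu u' hu' => h g g' u u' hu hu', fun g g' u hu => ?_⟩
  have hc' := (mem_cocycles₂_iff c).1 hc
  have h1 := hc' u g g'
  have h2 := hc' 1 g g'
  have e1 : c (u * g, g') = c (g, g') := by
    have e : u * g = g * (g⁻¹ * u * g) := by group
    rw [e]
    have := h g g' (g⁻¹ * u * g) 1 (Subgroup.Normal.conj_mem' ‹_› u hu g) U.one_mem
    rwa [mul_one] at this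
  have e2 : c (u, g) = c (1, g) := by
    have := h 1 g u 1 hu U.one_mem
    rwa [one_mul, mul_one] at this
  have e3 : c (u, g * g') = c (1, g * g') := by
    have := h 1 (g * g') u 1 hu U.one_mem
    rwa [one_mul, mul_one] at this
  rw [one_mul, map_one, Module.End.one_apply] at h2
  rw [e1, e2, e3] at h1
  have h3 : c (1, g) = c (1, g * g') := add_left_cancel h2
  rw [h3] at h1
  exact (add_right_cancel h1).symm

end auto

/-! ## Level systems -/

section levels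

variable (𝓛 : Levels G)

/-- `N` is open for the level system: it contains a level. -/
def IsOpenFor (N : Subgroup G) : Prop := ∃ U, 𝓛.P U ∧ U ≤ N

variable {𝓛}

lemma isOpenFor_of_P {U : Subgroup G} (hU : 𝓛.P U) : IsOpenFor 𝓛 U := ⟨U, hU, le_rfl⟩

lemma IsOpenFor.mono {N N' : Subgroup G} (hN : IsOpenFor 𝓛 N) (h : N ≤ N') : IsOpenFor 𝓛 N' :=
  let ⟨U, hU, hUN⟩ := hN; ⟨U, hU, hUN.trans h⟩

variable {A : Rep.{u} k G}

lemma IsLev₁.is₁ {N : Subgroup G} (hN : IsOpenFor 𝓛 N) {b : G → A} (hb : IsLev₁ A N b) :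
    𝓛.Is₁ b := by
  obtain ⟨U, hU, hUN⟩ := hN
  exact ⟨U, hU, fun g s hs => hb.1 g s (hUN hs)⟩

lemma IsLev₂.is₂ {N : Subgroup G} (hN : IsOpenFor 𝓛 N) {c : G × G → A} (hc : IsLev₂ A N c) :
    𝓛.Is₂ c := by
  obtain ⟨U, hU, hUN⟩ := hN
  exact ⟨U, hU, fun g g' s s' hs hs' => hc.1 g g' s (hUN hs) s' (hUN hs')⟩

/-- Every level-constant 2-cocycle is inflated from `G ⧸ U` for a normal level `U`, which may
be taken inside any given level. -/
lemma exists_isLev₂_of_mem_Z2 {z : G × G → A} (hz : z ∈ Z2 𝓛 A) (V : Subgroup G)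
    (hV : 𝓛.P V) : ∃ U, 𝓛.P U ∧ U ≤ V ∧ U.Normal ∧ IsLev₂ A U z := by
  obtain ⟨hzc, U₀, hU₀, h⟩ := hz
  obtain ⟨W, hW, hWU, hWV⟩ := 𝓛.inf U₀ V hU₀ hV
  obtain ⟨W', hW', hW'W, hn⟩ := 𝓛.normal W hW
  exact ⟨W', hW', hW'W.trans hWV, hn, isLev₂_of_mem_cocycles₂ W' hzc
    fun g g' s s' hs hs' => h g g' s s' (hWU (hW'W hs)) (hWU (hW'W hs'))⟩

/-- A level-constant 1-cochain of a smooth module is of strong level `U` for a normal level
`U`, which may be taken inside any given level. -/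
lemma exists_isLev₁_of_is₁ (hA : 𝓛.Smooth A) {b : G → A} (hb : 𝓛.Is₁ b) (V : Subgroup G)
    (hV : 𝓛.P V) : ∃ U, 𝓛.P U ∧ U ≤ V ∧ U.Normal ∧ IsLev₁ A U b := by
  have hfin := hb.finite_range
  obtain ⟨U₀, hU₀, hU₀V, _, h₀⟩ := hb.exists_le V hV
  obtain ⟨U, hU, hUU₀, hn, hfix⟩ := hA.exists_fixing hfin U₀ hU₀
  exact ⟨U, hU, hUU₀.trans hU₀V, hn, fun g s hs => h₀ g s (hUU₀ hs),
    fun g s hs => hfix s hs _ ⟨g, rfl⟩⟩

/-- **Finite-level criterion for vanishing in `LH2`.** -/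
theorem LH2_mk_eq_zero_iff_exists_isLev₁ (hA : 𝓛.Smooth A) (z : ↥(Z2 𝓛 A)) (V : Subgroup G)
    (hV : 𝓛.P V) :
    LH2.mk 𝓛 A z = 0 ↔
      ∃ U, 𝓛.P U ∧ U ≤ V ∧ U.Normal ∧ ∃ b : G → A, IsLev₁ A U b ∧
        (d₁₂ A).hom b = (z : G × G → A) := by
  rw [LH2.mk_eq_zero_iff]
  constructor
  · rintro ⟨b, hb, hbz⟩
    obtain ⟨U, hU, hUV, hn, hbU⟩ := exists_isLev₁_of_is₁ hA hb V hV
    exact ⟨U, hU, hUV, hn, b, hbU, hbz⟩
  · rintro ⟨U, hU, -, -, b, hbU, hbz⟩
    exact ⟨b, hbU.is₁ (isOpenFor_of_P hU), hbz⟩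

end levels

/-! ## Inflation from finite quotients -/

section inflation

open Rep

variable (𝓛 : Levels G) (A : Rep.{u} k G) (N : Subgroup G) [N.Normal]

/-- Inflation of 2-cocycles of `G ⧸ N` with values in `A^N` to level-constant cocycles of `G`
(`N` a normal subgroup containing a level). -/
noncomputable def inflZ2 (hN : IsOpenFor 𝓛 N) :
    ↥(cocycles₂ (A.quotientToInvariants N)) →ₗ[k] ↥(Z2 𝓛 A) :=
  LinearMap.codRestrict (Z2 𝓛 A)
    ((cocycles₂ A).subtype ∘ₗ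
      (mapCocycles₂ (QuotientGroup.mk' N) (ofHom <| A.ρ.quotientToInvariants_lift N)).hom)
    (fun x => ⟨Subtype.property _, by
      obtain ⟨U, hU, hUN⟩ := hN
      refine ⟨U, hU, fun g g' s s' hs hs' => ?_⟩
      show ((x (QuotientGroup.mk (g * s), QuotientGroup.mk (g' * s')) :
          A.quotientToInvariants N) : A)
        = ((x (QuotientGroup.mk g, QuotientGroup.mk g') : A.quotientToInvariants N) : A)
      rw [QuotientGroup.mk_mul_of_mem g (hUN hs), QuotientGroup.mk_mul_of_mem g' (hUN hs')]⟩)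

variable {𝓛 A N}

lemma inflZ2_apply (hN : IsOpenFor 𝓛 N) (x : ↥(cocycles₂ (A.quotientToInvariants N))) (g h : G) :
    (inflZ2 𝓛 A N hN x : G × G → A) (g, h)
      = ((x (QuotientGroup.mk g, QuotientGroup.mk h) : A.quotientToInvariants N) : A) := rfl

lemma inflZ2_isLev₂ (hN : IsOpenFor 𝓛 N) (x : ↥(cocycles₂ (A.quotientToInvariants N))) :
    IsLev₂ A N (inflZ2 𝓛 A N hN x : G × G → A) :=
  ⟨fun g h n hn n' hn' => by
    rw [inflZ2_apply, inflZ2_apply, QuotientGroup.mk_mul_of_mem g hn,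
      QuotientGroup.mk_mul_of_mem h hn'],
   fun g h n hn => (x (QuotientGroup.mk g, QuotientGroup.mk h)).2 ⟨n, hn⟩⟩

lemma H2π_hom_surjective (B : Rep.{u} k G) : Function.Surjective (H2π B).hom :=
  fun x => H2_induction_on x fun c => ⟨c, rfl⟩

variable (𝓛 A N)

/-- Inflation `H²(G ⧸ N, A^N) → LH2 𝓛 A` for a normal subgroup `N` containing a level. -/
noncomputable def infLH2 (hN : IsOpenFor 𝓛 N) :
    H2 (A.quotientToInvariants N) →ₗ[k] LH2 𝓛 A :=
  descend (H2π (A.quotientToInvariants N)).hom (H2π_hom_surjective _)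
    (LH2.mk 𝓛 A ∘ₗ inflZ2 𝓛 A N hN) (by
      intro x hx
      rw [LinearMap.mem_ker] at hx ⊢
      obtain ⟨y, hy⟩ := (H2π_eq_zero_iff _).1 hx
      rw [LinearMap.comp_apply, LH2.mk_eq_zero_iff]
      refine ⟨fun g => ((y (QuotientGroup.mk g) : A.quotientToInvariants N) : A), ?_, ?_⟩
      · obtain ⟨U, hU, hUN⟩ := hN
        exact ⟨U, hU, fun g s hs => by
          show ((y (QuotientGroup.mk (g * s)) : A.quotientToInvariants N) : A)
            = ((y (QuotientGroup.mk g) : A.quotientToInvariants N) : A)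
          rw [QuotientGroup.mk_mul_of_mem g (hUN hs)]⟩
      · funext ⟨g, h⟩
        rw [inflZ2_apply, ← hy, d₁₂_hom_apply, d₁₂_hom_apply]
        rfl)

variable {𝓛 A N}

lemma infLH2_H2π (hN : IsOpenFor 𝓛 N) (x : ↥(cocycles₂ (A.quotientToInvariants N))) :
    infLH2 𝓛 A N hN ((H2π (A.quotientToInvariants N)).hom x)
      = LH2.mk 𝓛 A (inflZ2 𝓛 A N hN x) :=
  descend_apply _ _ _ _ x

/-- The class of a level-constant cocycle of strong level `N` is the inflation of its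
descent to `G ⧸ N`. -/
lemma infLH2_descend₂ (hN : IsOpenFor 𝓛 N) (z : ↥(Z2 𝓛 A))
    (hz : IsLev₂ A N (z : G × G → A)) :
    infLH2 𝓛 A N hN ((H2π (A.quotientToInvariants N)).hom
        ⟨descend₂ A N z hz, descend₂_mem_cocycles₂ _ hz z.2.1⟩) = LH2.mk 𝓛 A z := by
  rw [infLH2_H2π]
  congr 1
  apply Subtype.ext
  funext ⟨g, h⟩
  rw [inflZ2_apply]
  exact descend₂_mk _ hz g h

end inflation

section presentation

variable {𝓛 : Levels G} {A : Rep.{u} k G}

/-- **Finite-level presentation, surjectivity.**  Every class of `LH2 𝓛 A` is inflated from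
`H²(G ⧸ U, A^U)` for a normal level `U`, which may be taken inside any given level. -/
theorem exists_infLH2_eq (x : LH2 𝓛 A) (V : Subgroup G) (hV : 𝓛.P V) :
    ∃ (U : Subgroup G) (_ : U.Normal) (hU : 𝓛.P U), U ≤ V ∧
      ∃ y, infLH2 𝓛 A U (isOpenFor_of_P hU) y = x := by
  obtain ⟨z, rfl⟩ := LH2.mk_surjective x
  obtain ⟨U, hU, hUV, hn, hzU⟩ := exists_isLev₂_of_mem_Z2 z.2 V hV
  exact ⟨U, hn, hU, hUV, _, infLH2_descend₂ (isOpenFor_of_P hU) z hzU⟩

/-- **Finite-level presentation, kernel.**  For a smooth module, the inflation of a cocycle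
`x` of `G ⧸ N` vanishes in `LH2 𝓛 A` iff it becomes a coboundary at some finite level. -/
theorem infLH2_H2π_eq_zero_iff (hA : 𝓛.Smooth A) {N : Subgroup G} [N.Normal]
    (hN : IsOpenFor 𝓛 N) (x : ↥(cocycles₂ (A.quotientToInvariants N))) (V : Subgroup G)
    (hV : 𝓛.P V) :
    infLH2 𝓛 A N hN ((H2π (A.quotientToInvariants N)).hom x) = 0 ↔
      ∃ U, 𝓛.P U ∧ U ≤ V ∧ U.Normal ∧ ∃ b : G → A, IsLev₁ A U b ∧
        ∀ g h, (d₁₂ A).hom b (g, h)
          = ((x (QuotientGroup.mk g, QuotientGroup.mk h) : A.quotientToInvariants N) : A) := by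
  rw [infLH2_H2π, LH2_mk_eq_zero_iff_exists_isLev₁ hA _ V hV]
  constructor
  · rintro ⟨U, hU, hUV, hn, b, hb, hbz⟩
    exact ⟨U, hU, hUV, hn, b, hb, fun g h => by rw [hbz, inflZ2_apply]⟩
  · rintro ⟨U, hU, hUV, hn, b, hb, hbz⟩
    exact ⟨U, hU, hUV, hn, b, hb, funext fun ⟨g, h⟩ => by rw [hbz, inflZ2_apply]⟩

end presentation

/-! ## Inflation–restriction for level cohomology -/

section infres

variable (𝓛 : Levels G) (A : Rep.{u} k G) (N : Subgroup G)

/-- "Level `H¹(N, A)` vanishes": every level-constant function on `G` which is a 1-cocycle on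
`N` is the coboundary of an element on `N`. -/
def LevH1Vanishes : Prop :=
  ∀ φ : G → A, 𝓛.Is₁ φ → (∀ n ∈ N, ∀ n' ∈ N, φ (n * n') = A.ρ n (φ n') + φ n) →
    ∃ a : A, ∀ n ∈ N, φ n = A.ρ n a - a

variable {𝓛 A N} [N.Normal]

/-- **Inflation `H²(G ⧸ N, A^N) → LH2 𝓛 A` is injective** when level `H¹(N, A)` vanishes. -/
theorem infLH2_injective (hA : 𝓛.Smooth A) (hN : IsOpenFor 𝓛 N) (hH1 : LevH1Vanishes 𝓛 A N) :
    Function.Injective (infLH2 𝓛 A N hN) := by
  rw [injective_iff_map_eq_zero]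
  intro w hw
  obtain ⟨x, rfl⟩ := H2π_hom_surjective _ w
  rw [infLH2_H2π, LH2.mk_eq_zero_iff] at hw
  obtain ⟨b, hb, hbz⟩ := hw
  obtain ⟨U₀, hU₀, hU₀N⟩ := id hN
  obtain ⟨U, hU, hUU₀, hn, hbU⟩ := exists_isLev₁_of_is₁ hA hb U₀ hU₀
  obtain ⟨b', hb'N, hb'⟩ := exists_isLev₁_d₁₂_eq A N U (hUU₀.trans hU₀N)
    (inflZ2 𝓛 A N hN x : G × G → A) (inflZ2_isLev₂ hN x) b hbU hbz.symm
    (fun φ hφU hφ => hH1 φ (hφU.is₁ (isOpenFor_of_P hU)) hφ)
  refine (H2π_eq_zero_iff _).2 ⟨descend₁ A N b' hb'N, ?_⟩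
  rw [descend₁_d₁₂]
  funext ⟨g, h⟩
  induction g using QuotientGroup.induction_on with | H g =>
  induction h using QuotientGroup.induction_on with | H h =>
  apply Subtype.ext
  rw [descend₂_mk, ← hb']
  rfl

/-- **Inflation–restriction for `LH2`, exactness in the middle** (cocycle form): a
level-constant cocycle whose restriction to `N × N` is the coboundary of a level-constant
cochain is, in `LH2 𝓛 A`, inflated from `G ⧸ N`. -/
theorem exists_infLH2_eq_of_res (hA : 𝓛.Smooth A) (hN : IsOpenFor 𝓛 N)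
    (hH1 : LevH1Vanishes 𝓛 A N) (z : ↥(Z2 𝓛 A)) (y : G → A) (hy : 𝓛.Is₁ y)
    (hzy : ∀ n ∈ N, ∀ n' ∈ N,
      (z : G × G → A) (n, n') = A.ρ n (y n') - y (n * n') + y n) :
    ∃ w, infLH2 𝓛 A N hN w = LH2.mk 𝓛 A z := by
  obtain ⟨U₀, hU₀, hU₀N⟩ := id hN
  obtain ⟨U₁, hU₁, hU₁U₀, hn₁, hzU₁⟩ := exists_isLev₂_of_mem_Z2 z.2 U₀ hU₀
  obtain ⟨U, hU, hUU₁, hn, hyU⟩ := exists_isLev₁_of_is₁ hA hy U₁ hU₁
  have hUN : U ≤ N := (hUU₁.trans hU₁U₀).trans hU₀N
  obtain ⟨b, hbU, hbN⟩ := exists_isLev₂_sub_d₁₂ A N U hUN z z.2.1 (hzU₁.mono hUU₁) y hyU hzy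
    (fun φ hφU hφ => hH1 φ (hφU.is₁ (isOpenFor_of_P hU)) hφ)
  have hb1 : 𝓛.Is₁ b := hbU.is₁ (isOpenFor_of_P hU)
  set z' : ↥(Z2 𝓛 A) := z - ⟨(d₁₂ A).hom b, hA.d₁₂_mem_Z2 hb1⟩ with hz'
  have hz'N : IsLev₂ A N (z' : G × G → A) := hbN
  refine ⟨_, (infLH2_descend₂ hN z' hz'N).trans ?_⟩
  rw [hz', map_sub, sub_eq_self, LH2.mk_eq_zero_iff]
  exact ⟨b, hb1, rfl⟩

end infres

/-! ## The induced level system on a subgroup and the exact sequence -/

section sub

/-- The level system induced on a subgroup. -/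
def subLevels (𝓛 : Levels G) (N : Subgroup G) : Levels N where
  P V := ∃ U, 𝓛.P U ∧ V = U.subgroupOf N
  nonempty := by
    obtain ⟨U, hU⟩ := 𝓛.nonempty
    exact ⟨_, U, hU, rfl⟩
  inf := by
    rintro _ _ ⟨U, hU, rfl⟩ ⟨V, hV, rfl⟩
    obtain ⟨W, hW, hWU, hWV⟩ := 𝓛.inf U V hU hV
    exact ⟨_, ⟨W, hW, rfl⟩, Subgroup.subgroupOf_mono N hWU, Subgroup.subgroupOf_mono N hWV⟩
  normal := by
    rintro _ ⟨U, hU, rfl⟩
    obtain ⟨V, hV, hVU, hn⟩ := 𝓛.normal U hU
    exact ⟨_, ⟨V, hV, rfl⟩, Subgroup.subgroupOf_mono N hVU, Subgroup.normal_subgroupOf⟩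
  finite := by
    rintro _ ⟨U, hU, rfl⟩
    have := 𝓛.finite U hU
    have : U.FiniteIndex := Subgroup.finiteIndex_of_finite_quotient
    infer_instance

variable (𝓛 : Levels G) (A : Rep.{u} k G) (N : Subgroup G)

lemma subLevels_compat : (subLevels 𝓛 N).Compat 𝓛 N.subtype :=
  fun U hU => ⟨U.subgroupOf N, ⟨U, hU, rfl⟩, le_rfl⟩

/-- Restriction `LH2 𝓛 A → LH2 (subLevels 𝓛 N) (res A)`. -/
noncomputable abbrev resLH2 : LH2 𝓛 A →ₗ[k] LH2 (subLevels 𝓛 N) (Rep.res N.subtype A) :=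
  LH2map (A := A) (B := Rep.res N.subtype A) LinearMap.id (subLevels_compat 𝓛 N)
    (fun _ _ => rfl)

variable {𝓛 A N}

/-- Extension by zero of a level-constant function on an open subgroup is level-constant. -/
lemma is₁_extend_zero [DecidablePred (· ∈ N)] (hN : IsOpenFor 𝓛 N) {y : N → A}
    (hy : (subLevels 𝓛 N).Is₁ y) :
    𝓛.Is₁ (fun g : G => if h : g ∈ N then y ⟨g, h⟩ else 0) := by
  obtain ⟨U₀, hU₀, hU₀N⟩ := hN
  obtain ⟨_, ⟨U, hU, rfl⟩, hyU⟩ := hy
  obtain ⟨W, hW, hWU, hWU₀⟩ := 𝓛.inf U U₀ hU hU₀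
  refine ⟨W, hW, fun g s hs => ?_⟩
  have hsN : s ∈ N := hU₀N (hWU₀ hs)
  by_cases hg : g ∈ N
  · have hgs : g * s ∈ N := N.mul_mem hg hsN
    simp only [dif_pos hg, dif_pos hgs]
    exact hyU ⟨g, hg⟩ ⟨s, hsN⟩ (Subgroup.mem_subgroupOf.2 (hWU hs))
  · have hgs : g * s ∉ N := fun h => hg (by simpa using N.mul_mem h (N.inv_mem hsN))
    simp only [dif_neg hg, dif_neg hgs]

/-- Level `H¹(N, A) = 0` in terms of the induced level system on `N`. -/
lemma levH1Vanishes_of_forall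
    (h1 : ∀ φ : N → A, φ ∈ Z1 (subLevels 𝓛 N) (Rep.res N.subtype A) →
      ∃ a : A, ∀ n : N, φ n = A.ρ n a - a) : LevH1Vanishes 𝓛 A N := by
  intro φ hφ hcoc
  obtain ⟨a, ha⟩ := h1 (fun n : N => φ n)
    ⟨(mem_cocycles₁_iff (A := Rep.res N.subtype A) _).2 fun g h => hcoc g g.2 h h.2,
      (subLevels_compat 𝓛 N).is₁ hφ⟩
  exact ⟨a, fun n hn => ha ⟨n, hn⟩⟩

/-- Level `H¹(N, A) = 0` from the vanishing of `LH1` for the induced level system. -/
lemma levH1Vanishes_of_subsingleton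
    (h : Subsingleton (LH1 (subLevels 𝓛 N) (Rep.res N.subtype A))) : LevH1Vanishes 𝓛 A N := by
  refine levH1Vanishes_of_forall fun φ hφ => ?_
  obtain ⟨a, ha⟩ := (LH1.mk_eq_zero_iff (⟨φ, hφ⟩ : ↥(Z1 (subLevels 𝓛 N)
    (Rep.res N.subtype A)))).1 (Subsingleton.elim _ _)
  exact ⟨a, fun n => by
    have := congrFun ha n
    rw [d₀₁_hom_apply] at this
    exact this.symm⟩

variable [N.Normal]

/-- **Inflation–restriction for level cohomology**: for a normal subgroup `N` containing a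
level and a smooth module `A` with vanishing level `H¹(N, A)`, the sequence
`H²(G ⧸ N, A^N) → LH2 𝓛 A → LH2 (subLevels 𝓛 N) (res A)` is exact
(and the first map is injective by `infLH2_injective`). -/
theorem infLH2_resLH2_exact (hA : 𝓛.Smooth A) (hN : IsOpenFor 𝓛 N)
    (hH1 : LevH1Vanishes 𝓛 A N) :
    Function.Exact (infLH2 𝓛 A N hN) (resLH2 𝓛 A N) := by
  classical
  intro x
  constructor
  · intro hx
    obtain ⟨z, rfl⟩ := LH2.mk_surjective x
    rw [LH2map_mk, LH2.mk_eq_zero_iff] at hx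
    obtain ⟨y, hy, hyz⟩ := hx
    have hyv : ∀ n n' : N, (z : G × G → A) ((n : G), (n' : G))
        = A.ρ n (y n') - y (n * n') + y n := fun n n' => by
      have := congrFun hyz (n, n')
      rw [d₁₂_hom_apply] at this
      exact this.symm
    refine exists_infLH2_eq_of_res hA hN hH1 z
      (fun g : G => if h : g ∈ N then y ⟨g, h⟩ else 0) (is₁_extend_zero hN hy) ?_
    intro n hn n' hn'
    simp only [dif_pos hn, dif_pos hn', dif_pos (N.mul_mem hn hn')]
    exact hyv ⟨n, hn⟩ ⟨n', hn'⟩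
  · rintro ⟨w, rfl⟩
    obtain ⟨c, rfl⟩ := H2π_hom_surjective _ w
    rw [infLH2_H2π, LH2map_mk, LH2.mk_eq_zero_iff]
    refine ⟨fun _ => ((c (1, 1) : A.quotientToInvariants N) : A), Levels.is₁_const _, ?_⟩
    funext ⟨n, n'⟩
    rw [d₁₂_hom_apply]
    have h1 : (Rep.res N.subtype A).ρ n ((c (1, 1) : A.quotientToInvariants N) : A)
        = ((c (1, 1) : A.quotientToInvariants N) : A) := (c (1, 1)).2 n
    rw [h1, sub_add_cancel]
    show _ = ((c (QuotientGroup.mk (n : G), QuotientGroup.mk (n' : G)) :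
      A.quotientToInvariants N) : A)
    rw [(QuotientGroup.eq_one_iff (n : G)).2 n.2, (QuotientGroup.eq_one_iff (n' : G)).2 n'.2]

end sub

end Fermat.Agent.S55.helper808
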