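import Mathlib

/-!
# Kummer cup product versus the norm criterion

Leaf `S55-LA-SYMBOL` / `S55-LA-CUPNORM` (board #831), seat helper8095.  Mathlib only, carrier free
(explicit inhomogeneous cochains, coboundary in the shape of Mathlib's `IsMulCoboundary₂`:
`dOne u g h = g • u h / u (g * h) * u g`).

Abstract layer (`G` a group acting on a commutative group `A`):
* `cyc_norm_of_coboundary`, `cyc_coboundary_of_norm`, `cyc_coboundary_iff` : for `i : G → ZMod n`
  additive with `i τ = 1`, the inflated cyclic cocycle `(g,h) ↦ b ^ carry (i g) (i h)` is a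
  coboundary iff `b = ∏_{m<n} τ^m • y` for some `y` fixed by `ker i` (Hilbert 90 on `ker i`
  as a hypothesis, or as an explicit witness in the one-directional forms).
* `dOne_kummer`, `cup_coboundary_iff_cyc` : the cup cocycle `(g,h) ↦ ζ ^ (j g * i h).val` is
  cohomologous to the inverse of that cyclic cocycle for `b = β ^ n`.
* `cup_swap`, `cup_swap_iff` : the two orders of the cup cocycle.

Field layer:
* `cup_coboundary_iff_exists_fixed` (CN4), `cup_coboundary_iff_norm` (CN1 + CN2),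
  `cup_coboundary_iff_norm'` (CN3) : `L/K` finite Galois.
* `exists_fixed_iff_exists_norm`, `algebraMap_norm_adjoin_kummer`, `isGalois_adjoin_kummer`,
  `finrank_adjoin_kummer_le`, `mem_adjoin_of_fixed_by_stabiliser` : the bridge between
  "`τ`-norm of an element fixed by the stabiliser of `α`" and `Algebra.norm` on `K⟮α⟯`, for any
  Galois `L/K`, possibly infinite.
-/

set_option autoImplicit false

open Finset

namespace Fermat.Agent.S55.helper8095

/-- The carry of the addition of two residues: `k.val + l.val = (k + l).val + n * carry k l`. -/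
def carry {n : ℕ} (k l : ZMod n) : ℕ := (k.val + l.val) / n

lemma val_add_val {n : ℕ} [NeZero n] (k l : ZMod n) :
    k.val + l.val = (k + l).val + n * carry k l := by
  rw [carry, ZMod.val_add, Nat.mod_add_div]

lemma carry_zero_left {n : ℕ} [NeZero n] (l : ZMod n) : carry 0 l = 0 := by
  rw [carry, ZMod.val_zero, zero_add]
  exact Nat.div_eq_of_lt (ZMod.val_lt l)

lemma carry_zero_right {n : ℕ} [NeZero n] (k : ZMod n) : carry k 0 = 0 := by
  rw [carry, ZMod.val_zero, add_zero]
  exact Nat.div_eq_of_lt (ZMod.val_lt k)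

lemma carry_one_natCast {n : ℕ} [NeZero n] (hn : 1 < n) {k : ℕ} (hk : k + 1 < n) :
    carry (1 : ZMod n) (k : ZMod n) = 0 := by
  have : Fact (1 < n) := ⟨hn⟩
  rw [carry, ZMod.val_one, ZMod.val_natCast, Nat.mod_eq_of_lt (by omega)]
  exact Nat.div_eq_of_lt (by omega)

lemma carry_one_pred {n : ℕ} [NeZero n] (hn : 1 < n) :
    carry (1 : ZMod n) ((n - 1 : ℕ) : ZMod n) = 1 := by
  have : Fact (1 < n) := ⟨hn⟩
  rw [carry, ZMod.val_one, ZMod.val_natCast, Nat.mod_eq_of_lt (by omega)]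
  have : 1 + (n - 1) = n := by omega
  rw [this]
  exact Nat.div_self (by omega)

section Abstract

variable {G A : Type*} [Group G] [CommGroup A] [MulDistribMulAction G A]

/-- The partial norm `∏_{m<k} τ^m • y`. -/
def partialNorm (τ : G) (y : A) (k : ℕ) : A := ∏ m ∈ range k, τ ^ m • y

lemma partialNorm_zero (τ : G) (y : A) : partialNorm τ y 0 = 1 := by
  simp [partialNorm]

lemma partialNorm_succ' (τ : G) (y : A) (k : ℕ) :
    partialNorm τ y (k + 1) = τ • partialNorm τ y k * y := by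
  rw [partialNorm, Finset.prod_range_succ', partialNorm, Finset.smul_prod']
  simp only [pow_zero, one_smul]
  congr 1
  refine Finset.prod_congr rfl fun m _ => ?_
  rw [pow_succ', mul_smul]

lemma partialNorm_add (τ : G) (y : A) (k l : ℕ) :
    partialNorm τ y (k + l) = partialNorm τ y k * τ ^ k • partialNorm τ y l := by
  rw [partialNorm, Finset.prod_range_add, partialNorm, partialNorm, Finset.smul_prod']
  congr 1
  refine Finset.prod_congr rfl fun m _ => ?_
  rw [pow_add, mul_smul]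

/-- The inhomogeneous coboundary of a 1-cochain, in the shape of Mathlib's `IsMulCoboundary₂`. -/
def dOne (u : G → A) (g h : G) : A := g • u h / u (g * h) * u g

lemma dOne_div (u v : G → A) (g h : G) :
    dOne (fun x => u x / v x) g h = dOne u g h / dOne v g h := by
  simp only [dOne, smul_div']
  rw [div_div_div_comm, div_mul_div_comm]

lemma dOne_mul (u v : G → A) (g h : G) :
    dOne (fun x => u x * v x) g h = dOne u g h * dOne v g h := by
  simp only [dOne, smul_mul']
  rw [mul_div_mul_comm, mul_mul_mul_comm]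

/-- The coboundary of a "1-coboundary" `g ↦ w / g • w` is trivial. -/
lemma dOne_div_smul (w : A) (g h : G) : dOne (fun x : G => w / x • w) g h = 1 := by
  simp only [dOne, smul_div', mul_smul]
  rw [div_div_div_cancel_right, div_mul_div_cancel, div_self']

section Hom

variable {n : ℕ} {i : G → ZMod n} (hi : ∀ g h, i (g * h) = i g + i h)
include hi

lemma i_one : i 1 = 0 := by
  have h := hi 1 1
  rw [mul_one] at h
  exact (add_eq_left.mp h.symm)

lemma i_inv (g : G) : i g⁻¹ = - i g := by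
  have h := hi g⁻¹ g
  rw [inv_mul_cancel, i_one hi] at h
  exact eq_neg_of_add_eq_zero_left h.symm

lemma i_pow {τ : G} (hτ : i τ = 1) (k : ℕ) : i (τ ^ k) = (k : ZMod n) := by
  induction k with
  | zero => simpa using i_one hi
  | succ k ih => rw [pow_succ, hi, ih, hτ, Nat.cast_succ]

lemma i_conj (g h : G) (hh : i h = 0) : i (g⁻¹ * h * g) = 0 := by
  rw [hi, hi, i_inv hi, hh, add_zero, neg_add_cancel]

lemma i_pow_mul (g : G) (k : ℕ) : i (g ^ k) = (k : ZMod n) * i g := by
  induction k with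
  | zero => simpa using i_one hi
  | succ k ih => rw [pow_succ, hi, ih, Nat.cast_succ, add_mul, one_mul]

/-- For prime `n`, a nonzero additive character takes the value `1`. -/
lemma exists_i_eq_one (hn : n.Prime) {g : G} (hg : i g ≠ 0) : ∃ τ : G, i τ = 1 := by
  have : Fact n.Prime := ⟨hn⟩
  have : NeZero n := ⟨hn.ne_zero⟩
  exact ⟨g ^ ((i g)⁻¹).val, by rw [i_pow_mul hi, ZMod.natCast_zmod_val, inv_mul_cancel₀ hg]⟩

/-- Elements with the same image under `i` act in the same way on an element fixed by `ker i`. -/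
lemma smul_eq_of_i_eq {y : A} (hy : ∀ h, i h = 0 → h • y = y) {x x' : G} (hx : i x = i x') :
    x • y = x' • y := by
  have h0 : i (x'⁻¹ * x) = 0 := by rw [hi, i_inv hi, hx, neg_add_cancel]
  have := hy _ h0
  calc x • y = x' • ((x'⁻¹ * x) • y) := by rw [← mul_smul, mul_inv_cancel_left]
    _ = x' • y := by rw [this]

lemma smul_partialNorm [NeZero n] {τ : G} (hτ : i τ = 1) {y : A} (hy : ∀ h, i h = 0 → h • y = y)
    (g : G) (k : ℕ) : g • partialNorm τ y k = τ ^ (i g).val • partialNorm τ y k := by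
  rw [partialNorm, Finset.smul_prod', Finset.smul_prod']
  refine Finset.prod_congr rfl fun m _ => ?_
  rw [← mul_smul, ← mul_smul]
  apply smul_eq_of_i_eq hi hy
  rw [hi, hi, i_pow hi hτ, i_pow hi hτ, ZMod.natCast_zmod_val]

/-- **Abstract cyclic step, direction "coboundary ⟹ norm"** with an explicit Hilbert 90 witness:
if `d u = b ^ carry (i g) (i h)` and `u g = g • w / w` on `ker i`, then
`y = u τ * (w / τ • w)` is fixed by `ker i` and has `τ`-norm `b`. -/
theorem cyc_norm_of_coboundary [NeZero n] (hn : 1 < n) {τ : G} (hτ : i τ = 1) {b : A}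
    {u : G → A} (hu : ∀ g h, dOne u g h = b ^ carry (i g) (i h))
    {w : A} (hw : ∀ g, i g = 0 → g • w / w = u g) :
    (∀ h, i h = 0 → h • (u τ * (w / τ • w)) = u τ * (w / τ • w)) ∧
      partialNorm τ (u τ * (w / τ • w)) n = b := by
  -- normalise
  set v : G → A := fun g => u g * (w / g • w) with hv
  have hdv : ∀ g h, dOne v g h = b ^ carry (i g) (i h) := by
    intro g h
    rw [hv, dOne_mul, dOne_div_smul, mul_one, hu]
  have hv1 : ∀ h, i h = 0 → v h = 1 := by
    intro h hh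
    rw [hv]
    simp only
    rw [← hw h hh, div_mul_div_cancel, div_self']
  have hvr : ∀ g h, i h = 0 → v (g * h) = v g := by
    intro g h hh
    have := hdv g h
    rw [hh, carry_zero_right, pow_zero, dOne, hv1 h hh, smul_one, one_div,
      inv_mul_eq_div, div_eq_one] at this
    exact this.symm
  have hvl : ∀ g h, i h = 0 → h • v g = v g := by
    intro g h hh
    have := hdv h g
    rw [hh, carry_zero_left, pow_zero, dOne, hv1 h hh, mul_one, div_eq_one] at this
    rw [this]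
    have h2 : h * g = g * (g⁻¹ * h * g) := by group
    rw [h2, hvr g _ (i_conj hi g h hh)]
  refine ⟨fun h hh => hvl τ h hh, ?_⟩
  have key : ∀ k, k < n → v (τ ^ k) = partialNorm τ (v τ) k := by
    intro k
    induction k with
    | zero => intro _; rw [pow_zero, partialNorm_zero, hv1 1 (i_one hi)]
    | succ k ih =>
      intro hk
      have := hdv τ (τ ^ k)
      rw [hτ, i_pow hi hτ, carry_one_natCast hn hk, pow_zero, dOne, ← pow_succ',
        div_mul_eq_mul_div, div_eq_one] at this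
      rw [← this, ih (by omega), partialNorm_succ']
  have hlast := hdv τ (τ ^ (n - 1))
  have hn1 : n - 1 + 1 = n := by omega
  rw [hτ, i_pow hi hτ, carry_one_pred hn, pow_one, dOne, ← pow_succ', hn1,
    key (n - 1) (by omega)] at hlast
  have hvn : v (τ ^ n) = 1 := hv1 _ (by rw [i_pow hi hτ, ZMod.natCast_self])
  rw [hvn, div_one] at hlast
  have hfin : partialNorm τ (v τ) n = b := by
    rw [← hlast, ← partialNorm_succ', hn1]
  exact hfin

/-- **Abstract cyclic step, direction "norm ⟹ coboundary"** with the explicit primitive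
`g ↦ ∏_{m < (i g).val} τ^m • y`. -/
theorem cyc_coboundary_of_norm [NeZero n] {τ : G} (hτ : i τ = 1) {b : A}
    (hb : ∀ g : G, g • b = b) {y : A} (hy : ∀ h, i h = 0 → h • y = y)
    (hyb : partialNorm τ y n = b) (g h : G) :
    dOne (fun x => partialNorm τ y (i x).val) g h = b ^ carry (i g) (i h) := by
  have hmul : ∀ e : ℕ, partialNorm τ y (n * e) = b ^ e := by
    intro e
    induction e with
    | zero => simp [partialNorm_zero]
    | succ e ih =>
      rw [Nat.mul_succ, partialNorm_add, ih, hyb, hb, pow_succ]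
  simp only [dOne]
  rw [smul_partialNorm hi hτ hy, hi, div_mul_eq_mul_div, mul_comm, ← partialNorm_add,
    val_add_val, partialNorm_add, hmul, smul_pow', hb, mul_div_cancel_left]

/-- **Abstract cyclic step.**  The inflated cyclic cocycle `b ^ carry (i g) (i h)` is a
coboundary iff `b` is a `τ`-norm of an element fixed by `ker i`. -/
theorem cyc_coboundary_iff [NeZero n] (hn : 1 < n) {τ : G} (hτ : i τ = 1) {b : A}
    (hb : ∀ g : G, g • b = b)
    (hH90 : ∀ u : G → A, (∀ g h, i g = 0 → i h = 0 → u (g * h) = g • u h * u g) →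
      ∃ w : A, ∀ g, i g = 0 → g • w / w = u g) :
    (∃ u : G → A, ∀ g h, dOne u g h = b ^ carry (i g) (i h)) ↔
      ∃ y : A, (∀ h, i h = 0 → h • y = y) ∧ partialNorm τ y n = b := by
  constructor
  · rintro ⟨u, hu⟩
    -- Hilbert 90 on the kernel
    obtain ⟨w, hw⟩ := hH90 u (fun g h hg hh => by
      have := hu g h
      rw [hg, carry_zero_left, pow_zero, dOne] at this
      rw [div_mul_eq_mul_div, div_eq_one] at this
      exact this.symm)
    exact ⟨_, cyc_norm_of_coboundary hi hn hτ hu hw⟩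
  · rintro ⟨y, hy, hyb⟩
    exact ⟨_, cyc_coboundary_of_norm hi hτ hb hy hyb⟩

end Hom

section Kummer

variable {n : ℕ} [NeZero n]

/-- The coboundary of `g ↦ β ^ (i g).val` is the cup cocycle times the cyclic cocycle. -/
lemma dOne_kummer {ζ β : A} (hζn : ζ ^ n = 1) {i j : G → ZMod n}
    (hi : ∀ g h, i (g * h) = i g + i h) (hj : ∀ g : G, g • β = ζ ^ (j g).val * β) (g h : G) :
    dOne (fun x => β ^ (i x).val) g h = ζ ^ (j g * i h).val * (β ^ n) ^ carry (i g) (i h) := by
  simp only [dOne]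
  rw [smul_pow', hj, mul_pow, ← pow_mul, hi]
  have h1 : ζ ^ ((j g).val * (i h).val) = ζ ^ (j g * i h).val := by
    rw [ZMod.val_mul, ← pow_eq_pow_mod _ hζn]
  have h2 : β ^ (i h).val * β ^ (i g).val =
      β ^ (i g + i h).val * (β ^ n) ^ carry (i g) (i h) := by
    rw [← pow_add, add_comm, val_add_val, pow_add, pow_mul]
  rw [h1, mul_div_assoc, mul_assoc, div_mul_eq_mul_div, h2, mul_div_cancel_left]

/-- **Abstract Kummer step.**  The cup cocycle `ζ ^ (j g * i h)` is a coboundary iff the inflated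
cyclic cocycle of `β ^ n` along `i` is. -/
theorem cup_coboundary_iff_cyc {ζ β : A} (hζn : ζ ^ n = 1) {i j : G → ZMod n}
    (hi : ∀ g h, i (g * h) = i g + i h) (hj : ∀ g : G, g • β = ζ ^ (j g).val * β) :
    (∃ f : G → A, ∀ g h, dOne f g h = ζ ^ (j g * i h).val) ↔
      ∃ u : G → A, ∀ g h, dOne u g h = (β ^ n) ^ carry (i g) (i h) := by
  constructor
  · rintro ⟨f, hf⟩
    refine ⟨fun x => β ^ (i x).val / f x, fun g h => ?_⟩
    rw [dOne_div, dOne_kummer hζn hi hj, hf, mul_div_cancel_left]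
  · rintro ⟨u, hu⟩
    refine ⟨fun x => β ^ (i x).val / u x, fun g h => ?_⟩
    rw [dOne_div, dOne_kummer hζn hi hj, hu, mul_div_cancel_right]

lemma pow_val_add {ζ : A} (hζn : ζ ^ n = 1) (a b : ZMod n) :
    ζ ^ (a + b).val = ζ ^ a.val * ζ ^ b.val := by
  rw [← pow_add, ZMod.val_add, ← pow_eq_pow_mod _ hζn]

lemma dOne_inv (u : G → A) (g h : G) : dOne (fun x => (u x)⁻¹) g h = (dOne u g h)⁻¹ := by
  simp only [dOne, smul_inv']
  rw [inv_div_inv, mul_inv, inv_div]

/-- The two orders of the cup cocycle differ by an explicit coboundary. -/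
lemma dOne_swap {ζ : A} (hζn : ζ ^ n = 1) (hζfix : ∀ g : G, g • ζ = ζ) {i j : G → ZMod n}
    (hi : ∀ g h, i (g * h) = i g + i h) (hj : ∀ g h, j (g * h) = j g + j h) (g h : G) :
    dOne (fun x => ζ ^ (i x * j x).val) g h * ζ ^ (i g * j h).val * ζ ^ (j g * i h).val = 1 := by
  simp only [dOne]
  rw [smul_pow', hζfix, hi, hj]
  have key : (i g + i h) * (j g + j h) = i h * j h + i g * j g + i g * j h + j g * i h := by ring
  rw [key, pow_val_add hζn, pow_val_add hζn, pow_val_add hζn, div_mul_eq_mul_div,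
    div_mul_eq_mul_div, div_mul_eq_mul_div, div_self']

/-- If the cup cocycle in one order is a coboundary, so is the cup cocycle in the other order
(explicit primitive `x ↦ (f x * ζ ^ (i x * j x))⁻¹`). -/
lemma cup_swap {ζ : A} (hζn : ζ ^ n = 1) (hζfix : ∀ g : G, g • ζ = ζ) {i j : G → ZMod n}
    (hi : ∀ g h, i (g * h) = i g + i h) (hj : ∀ g h, j (g * h) = j g + j h) {f : G → A}
    (hf : ∀ g h, dOne f g h = ζ ^ (i g * j h).val) (g h : G) :
    dOne (fun x => (f x * ζ ^ (i x * j x).val)⁻¹) g h = ζ ^ (j g * i h).val := by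
  rw [dOne_inv, dOne_mul, hf]
  apply inv_eq_of_mul_eq_one_right
  rw [mul_comm (ζ ^ (i g * j h).val)]
  exact dOne_swap hζn hζfix hi hj g h

theorem cup_swap_iff {ζ : A} (hζn : ζ ^ n = 1) (hζfix : ∀ g : G, g • ζ = ζ) {i j : G → ZMod n}
    (hi : ∀ g h, i (g * h) = i g + i h) (hj : ∀ g h, j (g * h) = j g + j h) :
    (∃ f : G → A, ∀ g h, dOne f g h = ζ ^ (i g * j h).val) ↔
      ∃ f : G → A, ∀ g h, dOne f g h = ζ ^ (j g * i h).val :=
  ⟨fun ⟨_, hf⟩ => ⟨_, cup_swap hζn hζfix hi hj hf⟩,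
    fun ⟨_, hf⟩ => ⟨_, cup_swap hζn hζfix hj hi hf⟩⟩

end Kummer

end Abstract

/-! ## Fields -/

section Field

open IntermediateField

variable {K L : Type*} [Field K] [Field L] [Algebra K L]

lemma smul_units_val (g : L ≃ₐ[K] L) (x : Lˣ) : ((g • x : Lˣ) : L) = g (x : L) := rfl

/-- An automorphism fixing `α` fixes `K⟮α⟯` pointwise. -/
lemma fixes_adjoin_of_fixes [FiniteDimensional K L] {α : L} {g : L ≃ₐ[K] L} (hg : g α = α)
    {x : L} (hx : x ∈ K⟮α⟯) : g x = x := by
  have hx' : x ∈ (K⟮α⟯).toSubalgebra := hx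
  rw [IntermediateField.adjoin_simple_toSubalgebra_of_isAlgebraic (IsAlgebraic.of_finite K α)]
    at hx'
  have hle : Algebra.adjoin K {α} ≤ AlgHom.equalizer (g : L →ₐ[K] L) (AlgHom.id K L) := by
    refine Algebra.adjoin_le ?_
    rintro y hy
    rw [Set.mem_singleton_iff] at hy
    subst hy
    exact hg
  exact hle hx'

/-- Hilbert 90 for the subgroup fixing `α` (a 1-cocycle defined on all of `Gal(L/K)` whose cocycle
relation is only known on the stabiliser of `α`). -/
lemma hilbert90_stabiliser [FiniteDimensional K L] (α : L) (u : (L ≃ₐ[K] L) → Lˣ)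
    (hu : ∀ g h : L ≃ₐ[K] L, g α = α → h α = α → u (g * h) = g • u h * u g) :
    ∃ w : Lˣ, ∀ g : L ≃ₐ[K] L, g α = α → g • w / w = u g := by
  classical
  let M : IntermediateField K L := K⟮α⟯
  have hαM : α ∈ M := IntermediateField.mem_adjoin_simple_self K α
  have hfix : ∀ σ : L ≃ₐ[M] L, (σ.restrictScalars K) α = α := by
    intro σ
    have := σ.commutes ⟨α, hαM⟩
    exact this
  let u' : (L ≃ₐ[M] L) → Lˣ := fun σ => u (σ.restrictScalars K)
  have hcoc : groupCohomology.IsMulCocycle₁ u' := by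
    intro σ σ'
    have := hu (σ.restrictScalars K) (σ'.restrictScalars K) (hfix σ) (hfix σ')
    exact this
  obtain ⟨w, hw⟩ := groupCohomology.isMulCoboundary₁_of_isMulCocycle₁_of_aut_to_units u' hcoc
  refine ⟨w, fun g hg => ?_⟩
  have hmem : g ∈ M.fixingSubgroup := by
    rw [IntermediateField.mem_fixingSubgroup_iff]
    intro x hx
    exact fixes_adjoin_of_fixes hg hx
  have := hw (IntermediateField.fixingSubgroupEquiv M ⟨g, hmem⟩)
  exact this

end Field

/-! ## The Kummer cup product at a finite level -/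

section Main

open IntermediateField

variable {K L : Type*} [Field K] [Field L] [Algebra K L]
variable {p : ℕ}

lemma natCast_eq_of_pow_eq {M : Type*} [CommGroup M] {ζ : M} (hζ : IsPrimitiveRoot ζ p) {a b : ℕ}
    (h : ζ ^ a = ζ ^ b) : (a : ZMod p) = (b : ZMod p) := by
  rw [ZMod.natCast_eq_natCast_iff]
  have := pow_eq_pow_iff_modEq.mp h
  rwa [← hζ.eq_orderOf] at this

section Chars

variable [NeZero p] {ζL α : Lˣ} (hζ : IsPrimitiveRoot ζL p)
  (hfix : ∀ g : L ≃ₐ[K] L, g • ζL = ζL) {i : (L ≃ₐ[K] L) → ZMod p}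
  (hi : ∀ g : L ≃ₐ[K] L, g • α = ζL ^ (i g).val * α)
include hζ hfix hi

/-- A Kummer exponent is additive. -/
lemma kummer_add (g h : L ≃ₐ[K] L) : i (g * h) = i g + i h := by
  have h1 : (g * h) • α = ζL ^ ((i h).val + (i g).val) * α := by
    rw [mul_smul, hi h, smul_mul', smul_pow', hfix, hi g, pow_add, mul_assoc]
  rw [hi (g * h)] at h1
  have h2 := natCast_eq_of_pow_eq hζ (mul_right_cancel h1)
  rw [ZMod.natCast_zmod_val, Nat.cast_add, ZMod.natCast_zmod_val, ZMod.natCast_zmod_val] at h2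
  rw [h2, add_comm]

omit hfix in
lemma kummer_eq_zero_iff (g : L ≃ₐ[K] L) : i g = 0 ↔ g • α = α := by
  constructor
  · intro h
    rw [hi, h, ZMod.val_zero, pow_zero, one_mul]
  · intro h
    have h1 : ζL ^ (i g).val = ζL ^ 0 := by
      rw [pow_zero]
      have := hi g
      rw [h] at this
      exact (mul_eq_right.mp this.symm)
    have h2 := natCast_eq_of_pow_eq hζ h1
    rwa [ZMod.natCast_zmod_val, Nat.cast_zero] at h2

end Chars

/-- **(CN4)** Kummer cup product versus the `τ`-norm, inside `L`.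
`ζL` a primitive `p`-th root of unity fixed by `Gal(L/K)`, `g • α = ζL ^ i g * α`,
`g • β = ζL ^ j g * β`, `i τ = 1`.  The cup cocycle `(g,h) ↦ ζL ^ (j g * i h)` is the coboundary
of some `f : Gal(L/K) → Lˣ` iff `β ^ p = ∏_{m<p} τ^m y` for some `y` fixed by the stabiliser
of `α`. -/
theorem cup_coboundary_iff_exists_fixed [FiniteDimensional K L] (hp : 1 < p) {ζL α β : Lˣ}
    (hζ : IsPrimitiveRoot ζL p) (hfix : ∀ g : L ≃ₐ[K] L, g • ζL = ζL)
    {i j : (L ≃ₐ[K] L) → ZMod p}
    (hi : ∀ g : L ≃ₐ[K] L, g • α = ζL ^ (i g).val * α)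
    (hj : ∀ g : L ≃ₐ[K] L, g • β = ζL ^ (j g).val * β)
    {τ : L ≃ₐ[K] L} (hτ : i τ = 1) :
    (∃ f : (L ≃ₐ[K] L) → Lˣ, ∀ g h, g • f h / f (g * h) * f g = ζL ^ (j g * i h).val) ↔
      ∃ y : Lˣ, (∀ h, i h = 0 → h • y = y) ∧ ∏ m ∈ range p, τ ^ m • y = β ^ p := by
  have : NeZero p := ⟨by omega⟩
  have hadd := kummer_add hζ hfix hi
  have hb : ∀ g : L ≃ₐ[K] L, g • β ^ p = β ^ p := by
    intro g
    rw [smul_pow', hj, mul_pow, ← pow_mul, mul_comm (j g).val, pow_mul, hζ.pow_eq_one, one_pow,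
      one_mul]
  have hH90 : ∀ u : (L ≃ₐ[K] L) → Lˣ,
      (∀ g h, i g = 0 → i h = 0 → u (g * h) = g • u h * u g) →
      ∃ w : Lˣ, ∀ g, i g = 0 → g • w / w = u g := by
    intro u hu
    have hstab : ∀ g : L ≃ₐ[K] L, g (α : L) = α ↔ i g = 0 := by
      intro g
      rw [kummer_eq_zero_iff hζ hi, Units.ext_iff]
      rfl
    obtain ⟨w, hw⟩ := hilbert90_stabiliser (α : L) u
      (fun g h hg hh => hu g h ((hstab g).mp hg) ((hstab h).mp hh))
    exact ⟨w, fun g hg => hw g ((hstab g).mpr hg)⟩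
  exact (cup_coboundary_iff_cyc hζ.pow_eq_one hadd hj).trans
    (cyc_coboundary_iff hadd hp hτ hb hH90)

end Main

/-! ## The bridge to `Algebra.norm` on `K⟮α⟯` (any Galois extension, possibly infinite) -/

section Bridge

open IntermediateField Polynomial

variable {K L : Type*} [Field K] [Field L] [Algebra K L]

/-- An automorphism fixing `α` fixes `K⟮α⟯` pointwise (no finiteness assumption). -/
lemma fixes_adjoin_of_fixes' {α : L} {g : L ≃ₐ[K] L} (hg : g α = α) {x : L} (hx : x ∈ K⟮α⟯) :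
    g x = x := by
  have hle : K⟮α⟯ ≤ IntermediateField.fixedField (MulAction.stabilizer (L ≃ₐ[K] L) α) := by
    rw [IntermediateField.adjoin_simple_le_iff, IntermediateField.mem_fixedField_iff]
    intro f hf
    exact hf
  have := (IntermediateField.mem_fixedField_iff _ x).mp (hle hx) g hg
  exact this

/-- The norm from a finite Galois subextension `E`, computed by the powers of an automorphism `τ`
of the big field whose first `n` powers have pairwise distinct restrictions to `E`, where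
`[E : K] ≤ n`. -/
lemma algebraMap_norm_eq_prod_pow {E : Type*} [Field E] [Algebra K E] [Algebra E L]
    [IsScalarTower K E L] [FiniteDimensional K E] [IsGalois K E] {n : ℕ}
    (hn : Module.finrank K E ≤ n) (τ : L ≃ₐ[K] L)
    (hinj : ∀ m < n, ∀ m' < n,
      (∀ x : E, (τ ^ m) (algebraMap E L x) = (τ ^ m') (algebraMap E L x)) → m = m')
    (z : E) :
    algebraMap K L (Algebra.norm K z) = ∏ m ∈ range n, (τ ^ m) (algebraMap E L z) := by
  classical
  have h1 : algebraMap K L (Algebra.norm K z) = ∏ σ : E ≃ₐ[K] E, algebraMap E L (σ z) := by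
    rw [IsScalarTower.algebraMap_apply K E L, Algebra.norm_eq_prod_automorphisms, map_prod]
  let φ : ℕ → (E ≃ₐ[K] E) := fun m => (τ ^ m).restrictNormal E
  have hφ : Set.InjOn φ (range n : Finset ℕ) := by
    intro m hm m' hm' h
    apply hinj m (mem_range.mp hm) m' (mem_range.mp hm')
    intro x
    rw [← AlgEquiv.restrictNormal_commutes, ← AlgEquiv.restrictNormal_commutes]
    exact congrArg (fun σ : E ≃ₐ[K] E => algebraMap E L (σ x)) h
  have himg : (range n).image φ = Finset.univ := by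
    apply Finset.eq_univ_of_card
    apply le_antisymm (Finset.card_le_univ _)
    rw [Finset.card_image_of_injOn hφ, card_range, ← Nat.card_eq_fintype_card,
      IsGalois.card_aut_eq_finrank]
    exact hn
  rw [h1, ← himg, Finset.prod_image hφ]
  refine Finset.prod_congr rfl fun m _ => ?_
  exact AlgEquiv.restrictNormal_commutes _ _ _

section KummerBridge

variable [IsGalois K L] {p : ℕ} {ζL α : Lˣ} {i : (L ≃ₐ[K] L) → ZMod p}

/-- An element fixed by the stabiliser of `α` lies in `K⟮α⟯` (infinite Galois theory). -/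
lemma mem_adjoin_of_fixed_by_stabiliser {α y : L}
    (hy : ∀ h : L ≃ₐ[K] L, h α = α → h y = y) : y ∈ K⟮α⟯ := by
  rw [← InfiniteGalois.fixedField_fixingSubgroup K⟮α⟯, IntermediateField.mem_fixedField_iff]
  intro f hf
  apply hy
  exact (IntermediateField.mem_fixingSubgroup_iff _ f).mp hf α (mem_adjoin_simple_self K α)

omit [IsGalois K L] in
lemma kummer_apply (hi : ∀ g : L ≃ₐ[K] L, g • α = ζL ^ (i g).val * α) (g : L ≃ₐ[K] L) :
    g (α : L) = (ζL : L) ^ (i g).val * α := by
  have := congrArg Units.val (hi g)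
  rwa [smul_units_val, Units.val_mul, Units.val_pow_eq_pow_val] at this

lemma zeta_mem_range (hfix : ∀ g : L ≃ₐ[K] L, g • ζL = ζL) :
    (ζL : L) ∈ Set.range (algebraMap K L) :=
  (InfiniteGalois.mem_range_algebraMap_iff_fixed (k := K) (ζL : L)).mpr
    (fun f => congrArg Units.val (hfix f))

lemma kummer_pow_mem_range (hζp : ζL ^ p = 1)
    (hi : ∀ g : L ≃ₐ[K] L, g • α = ζL ^ (i g).val * α) :
    (α : L) ^ p ∈ Set.range (algebraMap K L) := by
  refine (InfiniteGalois.mem_range_algebraMap_iff_fixed (k := K) _).mpr (fun f => ?_)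
  have h1 : ((ζL : L) ^ (i f).val) ^ p = 1 := by
    rw [← pow_mul, mul_comm, pow_mul, ← Units.val_pow_eq_pow_val, hζp, Units.val_one, one_pow]
  rw [map_pow, kummer_apply hi f, mul_pow, h1, one_mul]

lemma kummer_apply_mem_adjoin (hfix : ∀ g : L ≃ₐ[K] L, g • ζL = ζL)
    (hi : ∀ g : L ≃ₐ[K] L, g • α = ζL ^ (i g).val * α) (g : L ≃ₐ[K] L) :
    g (α : L) ∈ K⟮(α : L)⟯ := by
  rw [kummer_apply hi g]
  obtain ⟨c, hc⟩ := zeta_mem_range hfix
  have hζ : (ζL : L) ∈ K⟮(α : L)⟯ := by
    rw [← hc]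
    exact IntermediateField.algebraMap_mem _ c
  exact mul_mem (pow_mem hζ _) (IntermediateField.mem_adjoin_simple_self K _)

/-- `K⟮α⟯ / K` is normal for a Kummer generator `α`. -/
lemma normal_adjoin_kummer (hfix : ∀ g : L ≃ₐ[K] L, g • ζL = ζL)
    (hi : ∀ g : L ≃ₐ[K] L, g • α = ζL ^ (i g).val * α) : Normal K K⟮(α : L)⟯ := by
  rw [IntermediateField.normal_iff_forall_map_le']
  intro σ
  rw [IntermediateField.adjoin_map, Set.image_singleton, IntermediateField.adjoin_simple_le_iff]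
  exact kummer_apply_mem_adjoin hfix hi σ

/-- `K⟮α⟯ / K` is Galois for a Kummer generator `α`. -/
lemma isGalois_adjoin_kummer (hfix : ∀ g : L ≃ₐ[K] L, g • ζL = ζL)
    (hi : ∀ g : L ≃ₐ[K] L, g • α = ζL ^ (i g).val * α) : IsGalois K K⟮(α : L)⟯ :=
  { to_isSeparable := Algebra.isSeparable_tower_bot_of_isSeparable K K⟮(α : L)⟯ L
    to_normal := normal_adjoin_kummer hfix hi }

lemma isIntegral_of_isGalois (x : L) : IsIntegral K x :=
  (IsGalois.to_normal (F := K) (E := L)).isIntegral x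

lemma finrank_adjoin_kummer_le (hp : 0 < p) (hζp : ζL ^ p = 1)
    (hi : ∀ g : L ≃ₐ[K] L, g • α = ζL ^ (i g).val * α) :
    Module.finrank K K⟮(α : L)⟯ ≤ p := by
  obtain ⟨a, ha⟩ := kummer_pow_mem_range hζp hi
  rw [IntermediateField.adjoin.finrank (isIntegral_of_isGalois (K := K) (α : L))]
  have hdvd : minpoly K (α : L) ∣ X ^ p - C a :=
    minpoly.dvd K _ (by simp [ha])
  calc (minpoly K (α : L)).natDegree ≤ (X ^ p - C a).natDegree :=
        natDegree_le_of_dvd hdvd (X_pow_sub_C_ne_zero hp a)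
    _ = p := natDegree_X_pow_sub_C

omit [IsGalois K L] in
lemma pow_smul_kummer (hp : 1 < p) (hfix : ∀ g : L ≃ₐ[K] L, g • ζL = ζL)
    (hi : ∀ g : L ≃ₐ[K] L, g • α = ζL ^ (i g).val * α) {τ : L ≃ₐ[K] L} (hτ : i τ = 1) (m : ℕ) :
    τ ^ m • α = ζL ^ m * α := by
  have : Fact (1 < p) := ⟨hp⟩
  induction m with
  | zero => simp
  | succ m ih =>
    rw [pow_succ', mul_smul, ih, smul_mul', smul_pow', hfix, hi τ, hτ, ZMod.val_one, pow_one,
      pow_succ, mul_assoc]

/-- The norm from `K⟮α⟯` as a product over the powers of `τ`. -/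
lemma algebraMap_norm_adjoin_kummer (hp : 1 < p) (hζ : IsPrimitiveRoot ζL p)
    (hfix : ∀ g : L ≃ₐ[K] L, g • ζL = ζL)
    (hi : ∀ g : L ≃ₐ[K] L, g • α = ζL ^ (i g).val * α) {τ : L ≃ₐ[K] L} (hτ : i τ = 1)
    (z : K⟮(α : L)⟯) :
    algebraMap K L (Algebra.norm K z) = ∏ m ∈ range p, (τ ^ m) (z : L) := by
  have : FiniteDimensional K K⟮(α : L)⟯ :=
    IntermediateField.adjoin.finiteDimensional (isIntegral_of_isGalois (K := K) (α : L))
  have : IsGalois K K⟮(α : L)⟯ := isGalois_adjoin_kummer hfix hi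
  have hle : Module.finrank K K⟮(α : L)⟯ ≤ p :=
    finrank_adjoin_kummer_le (by omega) hζ.pow_eq_one hi
  have hinj : ∀ m < p, ∀ m' < p, (∀ x : K⟮(α : L)⟯,
      (τ ^ m) (algebraMap K⟮(α : L)⟯ L x) = (τ ^ m') (algebraMap K⟮(α : L)⟯ L x)) → m = m' := by
    intro m hm m' hm' h
    have h1 := h ⟨(α : L), IntermediateField.mem_adjoin_simple_self K _⟩
    have h2 : τ ^ m • α = τ ^ m' • α := Units.ext h1
    rw [pow_smul_kummer hp hfix hi hτ, pow_smul_kummer hp hfix hi hτ] at h2
    exact hζ.pow_inj hm hm' (mul_right_cancel h2)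
  exact algebraMap_norm_eq_prod_pow hle τ hinj z

/-- **Bridge.**  "`γ` is the `τ`-norm of a unit fixed by the stabiliser of `α`" is the same as
"`γ` is a norm from `K⟮α⟯`" (`Algebra.norm`), for any Galois `L/K` (possibly infinite). -/
theorem exists_fixed_iff_exists_norm (hp : 1 < p) (hζ : IsPrimitiveRoot ζL p)
    (hfix : ∀ g : L ≃ₐ[K] L, g • ζL = ζL)
    (hi : ∀ g : L ≃ₐ[K] L, g • α = ζL ^ (i g).val * α) {τ : L ≃ₐ[K] L} (hτ : i τ = 1)
    (γ : Lˣ) :
    (∃ y : Lˣ, (∀ h, i h = 0 → h • y = y) ∧ ∏ m ∈ range p, τ ^ m • y = γ) ↔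
      ∃ z : K⟮(α : L)⟯, algebraMap K L (Algebra.norm K z) = γ := by
  have : NeZero p := ⟨by omega⟩
  have : FiniteDimensional K K⟮(α : L)⟯ :=
    IntermediateField.adjoin.finiteDimensional (isIntegral_of_isGalois (K := K) (α : L))
  have hnorm := algebraMap_norm_adjoin_kummer hp hζ hfix hi hτ
  have hcoe : ∀ y : Lˣ, ((∏ m ∈ range p, τ ^ m • y : Lˣ) : L) = ∏ m ∈ range p, (τ ^ m) (y : L) := by
    intro y
    rw [Units.coe_prod]
    rfl
  constructor
  · rintro ⟨y, hy, hprod⟩
    have hmem : (y : L) ∈ K⟮(α : L)⟯ := by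
      apply mem_adjoin_of_fixed_by_stabiliser
      intro h hh
      have h0 : i h = 0 := (kummer_eq_zero_iff hζ hi h).mpr (Units.ext hh)
      exact congrArg Units.val (hy h h0)
    refine ⟨⟨(y : L), hmem⟩, ?_⟩
    rw [hnorm, ← hprod, hcoe]
  · rintro ⟨z, hz⟩
    have hz0 : (z : L) ≠ 0 := by
      intro h0
      have : z = 0 := Subtype.ext h0
      rw [this, Algebra.norm_zero, map_zero] at hz
      exact γ.ne_zero hz.symm
    refine ⟨Units.mk0 (z : L) hz0, fun h hh => ?_, ?_⟩
    · apply Units.ext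
      have hα : h (α : L) = α := congrArg Units.val ((kummer_eq_zero_iff hζ hi h).mp hh)
      exact fixes_adjoin_of_fixes' hα z.2
    · apply Units.ext
      rw [hcoe, ← hz, hnorm]
      rfl

/-- **(CN1 + CN2) Kummer cup product versus the norm, finite level.**
`L/K` finite Galois, `ζL` a primitive `p`-th root of unity fixed by `Gal(L/K)`,
`g • α = ζL ^ i g * α`, `g • β = ζL ^ j g * β`, `i τ = 1` (so `K⟮α⟯/K` is cyclic of degree `p`),
`β ^ p = b ∈ K`.  The cup cocycle `(g,h) ↦ ζL ^ (j g * i h)` is the coboundary of some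
`f : Gal(L/K) → Lˣ` iff `b` is a norm from `K⟮α⟯`. -/
theorem cup_coboundary_iff_norm [FiniteDimensional K L] (hp : 1 < p) {β : Lˣ}
    (hζ : IsPrimitiveRoot ζL p) (hfix : ∀ g : L ≃ₐ[K] L, g • ζL = ζL)
    {j : (L ≃ₐ[K] L) → ZMod p}
    (hi : ∀ g : L ≃ₐ[K] L, g • α = ζL ^ (i g).val * α)
    (hj : ∀ g : L ≃ₐ[K] L, g • β = ζL ^ (j g).val * β)
    {τ : L ≃ₐ[K] L} (hτ : i τ = 1) {b : K} (hb : algebraMap K L b = (β : L) ^ p) :
    (∃ f : (L ≃ₐ[K] L) → Lˣ, ∀ g h, g • f h / f (g * h) * f g = ζL ^ (j g * i h).val) ↔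
      ∃ z : K⟮(α : L)⟯, Algebra.norm K z = b := by
  rw [cup_coboundary_iff_exists_fixed hp hζ hfix hi hj hτ,
    exists_fixed_iff_exists_norm hp hζ hfix hi hτ (β ^ p)]
  refine exists_congr fun z => ?_
  rw [Units.val_pow_eq_pow_val, ← hb]
  exact (algebraMap K L).injective.eq_iff

/-- **(CN3)** The same criterion for the other order `(g,h) ↦ ζL ^ (i g * j h)` of the cup
cocycle. -/
theorem cup_coboundary_iff_norm' [FiniteDimensional K L] (hp : 1 < p) {β : Lˣ}
    (hζ : IsPrimitiveRoot ζL p) (hfix : ∀ g : L ≃ₐ[K] L, g • ζL = ζL)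
    {j : (L ≃ₐ[K] L) → ZMod p}
    (hi : ∀ g : L ≃ₐ[K] L, g • α = ζL ^ (i g).val * α)
    (hj : ∀ g : L ≃ₐ[K] L, g • β = ζL ^ (j g).val * β)
    {τ : L ≃ₐ[K] L} (hτ : i τ = 1) {b : K} (hb : algebraMap K L b = (β : L) ^ p) :
    (∃ f : (L ≃ₐ[K] L) → Lˣ, ∀ g h, g • f h / f (g * h) * f g = ζL ^ (i g * j h).val) ↔
      ∃ z : K⟮(α : L)⟯, Algebra.norm K z = b := by
  have : NeZero p := ⟨by omega⟩
  rw [← cup_coboundary_iff_norm hp hζ hfix hi hj hτ hb]
  exact cup_swap_iff hζ.pow_eq_one hfix (kummer_add hζ hfix hi) (kummer_add hζ hfix hj)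

/-- For prime `p`, a Kummer generator outside `K` has an automorphism `τ` with exponent `1`. -/
lemma exists_kummer_one (hp : p.Prime) (hζ : IsPrimitiveRoot ζL p)
    (hfix : ∀ g : L ≃ₐ[K] L, g • ζL = ζL)
    (hi : ∀ g : L ≃ₐ[K] L, g • α = ζL ^ (i g).val * α)
    (hα : (α : L) ∉ Set.range (algebraMap K L)) : ∃ τ : L ≃ₐ[K] L, i τ = 1 := by
  have : NeZero p := ⟨hp.ne_zero⟩
  rw [InfiniteGalois.mem_range_algebraMap_iff_fixed] at hα
  push Not at hα
  obtain ⟨g, hg⟩ := hα
  refine exists_i_eq_one (kummer_add hζ hfix hi) hp (g := g) (fun h0 => hg ?_)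
  exact congrArg Units.val ((kummer_eq_zero_iff hζ hi g).mp h0)

omit [IsGalois K L] in
/-- Existence of the Kummer exponent of a unit whose `p`-th power is Galois-invariant. -/
lemma exists_kummer_exponent [NeZero p] (hζ : IsPrimitiveRoot ζL p) {α : Lˣ}
    (hα : ∀ g : L ≃ₐ[K] L, g • α ^ p = α ^ p) :
    ∃ i : (L ≃ₐ[K] L) → ZMod p, ∀ g, g • α = ζL ^ (i g).val * α := by
  have h : ∀ g : L ≃ₐ[K] L, ∃ k : ℕ, k < p ∧ ζL ^ k = g • α / α := by
    intro g
    have h1 : (g • α / α) ^ p = 1 := by rw [div_pow, ← smul_pow', hα, div_self']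
    exact hζ.eq_pow_of_mem_rootsOfUnity ((mem_rootsOfUnity _ _).mpr h1)
  choose k hk hk' using h
  refine ⟨fun g => (k g : ZMod p), fun g => ?_⟩
  rw [ZMod.val_natCast_of_lt (hk g), hk', div_mul_cancel]

omit [IsGalois K L] in
/-- The cup cocycle in "symbol" shape: `(g • β / β) ^ (i h).val = ζL ^ (j g * i h).val`. -/
lemma symbol_eq_cup [NeZero p] (hζp : ζL ^ p = 1) {β : Lˣ} {j : (L ≃ₐ[K] L) → ZMod p}
    (hj : ∀ g : L ≃ₐ[K] L, g • β = ζL ^ (j g).val * β) (g h : L ≃ₐ[K] L) :
    (g • β / β) ^ (i h).val = ζL ^ (j g * i h).val := by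
  rw [hj, mul_div_cancel_right, ← pow_mul, ZMod.val_mul, ← pow_eq_pow_mod _ hζp]

end KummerBridge

end Bridge

end Fermat.Agent.S55.helper8095
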