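import Mathlib

/-!
# S55 / NF-CYCTOWER (helper8122): primes above a finite set in a `p`-cyclotomic tower

Input (e) of the counting route for (G-E) (team_s55_chat #137, findings #2542).
Mathlib only.

* `pow_dvd_absNorm_sub_one` : `L` a number field containing a primitive `p^j`-th root of unity,
  `P` a nonzero prime of `𝓞 L` not containing `p`: `p ^ j ∣ N P - 1`.
* `natCast_mem_pow_totient` : if `p ∈ P` then `p ∈ P ^ φ(p^j)`.
* `ncard_primesOver_mul_le` : the fundamental identity gives `#{P ∣ l} * B ≤ [L:ℚ]`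
  as soon as `B ≤ e(P) f(P)` for all `P ∣ l`.
* `exists_card_primesOver_le` : **the tower bound**: for a finite set `S` of primes and `d > 0`
  there is `j₀` such that every number field `L` of degree `n * d` containing a primitive
  `p^j`-th root of unity, `j ≥ j₀`, has at most `n` primes above `S`.
* `exists_card_primesOver_le_finrank` : relative form, `#{primes of L above S} ≤ [L : K]`.
* `isPGroup_aut_of_isCyclotomicExtension`, `exists_finrank_eq_prime_pow` :
  `Gal(K(ζ_{p^j})/K)` is a `p`-group and `[K(ζ_{p^j}) : K]` is a power of `p` when `ζ_p ∈ K`.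
* `cyclotomic_tower` : everything together for `L = K(ζ_{p^j})`.
-/

set_option autoImplicit false

open NumberField Ideal

namespace Fermat.Agent.S55.helper8122

universe u

section Primes

variable {L : Type*} [Field L] [NumberField L]

/-- **(A)** If `L` contains a primitive `p^j`-th root of unity and `P` is a nonzero prime of
`𝓞 L` not containing `p`, then `p ^ j ∣ N P - 1`. -/
theorem pow_dvd_absNorm_sub_one {p j : ℕ} (hp : p.Prime) {ζ : L}
    (hζ : IsPrimitiveRoot ζ (p ^ j)) (P : Ideal (𝓞 L)) [P.IsPrime] (hP : P ≠ ⊥)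
    (hpP : (p : 𝓞 L) ∉ P) : p ^ j ∣ absNorm P - 1 := by
  rcases Nat.eq_zero_or_pos j with rfl | hj
  · simp
  obtain ⟨k, rfl⟩ : ∃ k, j = k + 1 := ⟨j - 1, by omega⟩
  have : Fact p.Prime := ⟨hp⟩
  have : NeZero (p ^ (k + 1)) := ⟨pow_ne_zero _ hp.ne_zero⟩
  have : P.IsMaximal := Ring.DimensionLEOne.maximalOfPrime hP inferInstance
  let _ : Field (𝓞 L ⧸ P) := Ideal.Quotient.field P
  have : Finite (𝓞 L ⧸ P) := Ideal.finiteQuotientOfFreeOfNeBot P hP
  -- the integral primitive root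
  set ζ' : 𝓞 L := hζ.toInteger with hζ'
  have hζ'prim : IsPrimitiveRoot ζ' (p ^ (k + 1)) := hζ.toInteger_isPrimitiveRoot
  set z : 𝓞 L ⧸ P := Ideal.Quotient.mk P ζ' with hz
  have hz1 : z ^ p ^ (k + 1) = 1 := by
    rw [hz, ← map_pow, hζ'prim.pow_eq_one, map_one]
  have hz2 : ¬ z ^ p ^ k = 1 := by
    intro h
    -- η = ζ' ^ (p^k) is a primitive p-th root of unity with η ≡ 1 mod P
    have hη : IsPrimitiveRoot (ζ' ^ p ^ k) p :=
      hζ'prim.pow (pow_pos hp.pos _) (by rw [pow_succ])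
    have hsum : ∑ i ∈ Finset.range p, (ζ' ^ p ^ k) ^ i = 0 :=
      hη.geom_sum_eq_zero hp.one_lt
    have hmap := congrArg (Ideal.Quotient.mk P) hsum
    rw [map_sum, map_zero] at hmap
    have h1 : ∀ i ∈ Finset.range p, Ideal.Quotient.mk P ((ζ' ^ p ^ k) ^ i) = 1 := by
      intro i _
      rw [map_pow, map_pow, ← hz, h, one_pow]
    rw [Finset.sum_congr rfl h1, Finset.sum_const, Finset.card_range, nsmul_eq_mul, mul_one] at hmap
    apply hpP
    rw [← Ideal.Quotient.eq_zero_iff_mem, map_natCast]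
    exact hmap
  have hord : orderOf z = p ^ (k + 1) := orderOf_eq_prime_pow hz2 hz1
  have hz0 : z ≠ 0 := by
    intro h0
    rw [h0, zero_pow (pow_ne_zero _ hp.ne_zero)] at hz1
    exact zero_ne_one hz1
  have hcard : Nat.card (𝓞 L ⧸ P)ˣ = absNorm P - 1 := by
    rw [Nat.card_units, Ideal.absNorm_apply, Submodule.cardQuot_apply]
  have hu : orderOf (Units.mk0 z hz0) = orderOf z := by
    rw [← orderOf_units]; rfl
  rw [← hcard, ← hord, ← hu]
  exact orderOf_dvd_natCard _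

/-- **(B)** If `L` contains a primitive `p^j`-th root of unity (`j ≥ 1`) and `P` is a prime of
`𝓞 L` containing `p`, then `p ∈ P ^ φ(p^j)`. -/
theorem natCast_mem_pow_totient {p j : ℕ} (hp : p.Prime) (hj : 0 < j) {ζ : L}
    (hζ : IsPrimitiveRoot ζ (p ^ j)) (P : Ideal (𝓞 L)) [P.IsPrime]
    (hpP : (p : 𝓞 L) ∈ P) : (p : 𝓞 L) ∈ P ^ (p ^ j).totient := by
  obtain ⟨k, rfl⟩ : ∃ k, j = k + 1 := ⟨j - 1, by omega⟩
  have : Fact p.Prime := ⟨hp⟩
  have : NeZero (p ^ (k + 1)) := ⟨pow_ne_zero _ hp.ne_zero⟩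
  set ζ' : 𝓞 L := hζ.toInteger with hζ'
  have hζ'prim : IsPrimitiveRoot ζ' (p ^ (k + 1)) := hζ.toInteger_isPrimitiveRoot
  -- p = ∏ (1 - μ) over the primitive roots
  have hprod : (p : 𝓞 L) = ∏ μ ∈ primitiveRoots (p ^ (k + 1)) (𝓞 L), (1 - μ) := by
    have h1 := Polynomial.cyclotomic_eq_prod_X_sub_primitiveRoots hζ'prim
    have h2 := congrArg (Polynomial.eval 1) h1
    rw [Polynomial.eval_one_cyclotomic_prime_pow, Polynomial.eval_prod] at h2
    simpa using h2
  -- one factor lies in P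
  have hmem : ∏ μ ∈ primitiveRoots (p ^ (k + 1)) (𝓞 L), (1 - μ) ∈ P := hprod ▸ hpP
  obtain ⟨μ₀, hμ₀, hμ₀P⟩ := (Ideal.IsPrime.prod_mem_iff.mp hmem)
  have hμ₀prim : IsPrimitiveRoot μ₀ (p ^ (k + 1)) :=
    (mem_primitiveRoots (pow_pos hp.pos _)).1 hμ₀
  -- hence every factor lies in P
  have hall : ∀ μ ∈ primitiveRoots (p ^ (k + 1)) (𝓞 L), (1 - μ) ∈ P := by
    intro μ hμ
    have hμ1 : μ ^ p ^ (k + 1) = 1 := ((mem_primitiveRoots (pow_pos hp.pos _)).1 hμ).pow_eq_one
    obtain ⟨i, -, rfl⟩ := hμ₀prim.eq_pow_of_pow_eq_one hμ1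
    have hdvd : (1 - μ₀) ∣ (1 - μ₀ ^ i) := by
      simpa using one_sub_dvd_one_sub_pow μ₀ i
    exact Ideal.mem_of_dvd P hdvd hμ₀P
  rw [hprod, ← IsPrimitiveRoot.card_primitiveRoots hζ'prim, ← Finset.prod_const]
  exact Ideal.prod_mem_prod hall

/-- A prime of `𝓞 L` over the rational prime `l` is nonzero and contains `l`; it contains no
other rational prime. -/
theorem natCast_mem_of_liesOver (l : ℕ) (P : Ideal (𝓞 L)) [hPl : P.LiesOver (span {(l : ℤ)})] :
    (l : 𝓞 L) ∈ P := by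
  have h : (l : ℤ) ∈ P.under ℤ := by
    rw [← hPl.over]; exact Ideal.mem_span_singleton_self _
  simpa [Ideal.under_def] using h

theorem natCast_notMem_of_liesOver {l p : ℕ} (hl : l.Prime) (hp : p.Prime) (hlp : l ≠ p)
    (P : Ideal (𝓞 L)) [hPl : P.LiesOver (span {(l : ℤ)})] : (p : 𝓞 L) ∉ P := by
  intro h
  have h' : (p : ℤ) ∈ P.under ℤ := by simpa [Ideal.under_def] using h
  rw [← hPl.over, Ideal.mem_span_singleton] at h'
  have := (Nat.prime_dvd_prime_iff_eq hl hp).1 (by exact_mod_cast h')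
  exact hlp this

theorem ne_bot_of_liesOver {l : ℕ} (hl : l.Prime) (P : Ideal (𝓞 L))
    [hPl : P.LiesOver (span {(l : ℤ)})] : P ≠ ⊥ := by
  intro h
  have h1 := natCast_mem_of_liesOver l P
  rw [h, Ideal.mem_bot] at h1
  exact hl.ne_zero (by exact_mod_cast h1)

/-- **(C)** the fundamental identity: if `B ≤ e(P) f(P)` for all primes `P` over `l`, then
`#{P ∣ l} * B ≤ [L : ℚ]`. -/
theorem ncard_primesOver_mul_le (l : ℕ) (hl : l.Prime) (B : ℕ)
    (hB : ∀ P : Ideal (𝓞 L), P.IsPrime → P.LiesOver (span {(l : ℤ)}) →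
      B ≤ P.ramificationIdx ℤ * P.inertiaDeg ℤ) :
    ((span {(l : ℤ)}).primesOver (𝓞 L)).ncard * B ≤ Module.finrank ℚ L := by
  have : Fact l.Prime := ⟨hl⟩
  have hmax : (span {(l : ℤ)}).IsMaximal := Int.ideal_span_isMaximal_of_prime l
  have hsum := Ideal.sum_ramification_inertia_eq_finrank (span {(l : ℤ)}) (𝓞 L)
  rw [RingOfIntegers.rank] at hsum
  rw [← hsum, Set.ncard_eq_toFinset_card', Set.toFinset_card, ← Finset.card_univ,
    ← smul_eq_mul, ← Finset.sum_const]
  exact Finset.sum_le_sum fun q _ => hB q.1 q.2.1 q.2.2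

/-- Lower bound for `e f` at a prime over `l ≠ p`. -/
theorem le_inertiaDeg_of_pow_le {p j l B : ℕ} (hp : p.Prime) (hl : l.Prime) (hlp : l ≠ p) {ζ : L}
    (hζ : IsPrimitiveRoot ζ (p ^ j)) (hjB : l ^ B ≤ p ^ j) (P : Ideal (𝓞 L)) [P.IsPrime]
    [P.LiesOver (span {(l : ℤ)})] : B ≤ P.ramificationIdx ℤ * P.inertiaDeg ℤ := by
  have hP0 : P ≠ ⊥ := ne_bot_of_liesOver hl P
  have hdvd := pow_dvd_absNorm_sub_one hp hζ P hP0 (natCast_notMem_of_liesOver hl hp hlp P)
  have hN : l ^ P.inertiaDeg ℤ = absNorm P := Ideal.pow_inertiaDeg l P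
  have hf : 0 < P.inertiaDeg ℤ := Ideal.inertiaDeg_pos P ℤ
  have he : 0 < P.ramificationIdx ℤ := Ideal.ramificationIdx_pos P ℤ
  have h2 : 2 ≤ absNorm P := by
    rw [← hN]
    calc 2 ≤ l := hl.two_le
      _ = l ^ 1 := (pow_one l).symm
      _ ≤ l ^ P.inertiaDeg ℤ := Nat.pow_le_pow_right hl.pos hf
  have h3 : p ^ j ≤ absNorm P - 1 := Nat.le_of_dvd (by omega) hdvd
  have h4 : l ^ B < l ^ P.inertiaDeg ℤ := by rw [hN]; omega
  have h5 : B < P.inertiaDeg ℤ := (Nat.pow_lt_pow_iff_right hl.one_lt).1 h4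
  calc B ≤ P.inertiaDeg ℤ := h5.le
    _ = 1 * P.inertiaDeg ℤ := (one_mul _).symm
    _ ≤ P.ramificationIdx ℤ * P.inertiaDeg ℤ := Nat.mul_le_mul_right _ he

/-- Lower bound for `e f` at a prime over `p`. -/
theorem totient_le_ramificationIdx {p j : ℕ} (hp : p.Prime) (hj : 0 < j) {ζ : L}
    (hζ : IsPrimitiveRoot ζ (p ^ j)) (P : Ideal (𝓞 L)) [P.IsPrime]
    [P.LiesOver (span {(p : ℤ)})] : (p ^ j).totient ≤ P.ramificationIdx ℤ * P.inertiaDeg ℤ := by
  have hP0 : P ≠ ⊥ := ne_bot_of_liesOver hp P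
  have hmem := natCast_mem_pow_totient hp hj hζ P (natCast_mem_of_liesOver p P)
  have hf : 0 < P.inertiaDeg ℤ := Ideal.inertiaDeg_pos P ℤ
  have hmap : (span {(p : ℤ)}).map (algebraMap ℤ (𝓞 L)) = span {(p : 𝓞 L)} := by
    rw [Ideal.map_span, Set.image_singleton]; simp
  have hne : (span {(p : ℤ)}).map (algebraMap ℤ (𝓞 L)) ≠ ⊥ := by
    rw [hmap, Ne, Ideal.span_singleton_eq_bot]
    exact_mod_cast hp.ne_zero
  have he := Ideal.IsDedekindDomain.ramificationIdx_eq_multiplicity (span {(p : ℤ)}) P hne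
  have hle : span {(p : 𝓞 L)} ≤ P ^ (p ^ j).totient := by
    rw [Ideal.span_singleton_le_iff_mem]; exact hmem
  have hdvd : P ^ (p ^ j).totient ∣ (span {(p : ℤ)}).map (algebraMap ℤ (𝓞 L)) := by
    rw [hmap]; exact Ideal.dvd_iff_le.2 hle
  have hfin : FiniteMultiplicity P ((span {(p : ℤ)}).map (algebraMap ℤ (𝓞 L))) :=
    FiniteMultiplicity.of_prime_left (Ideal.prime_of_isPrime hP0 inferInstance) hne
  have h1 : (p ^ j).totient ≤ P.ramificationIdx ℤ := by
    rw [he]; exact hfin.le_multiplicity_of_pow_dvd hdvd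
  calc (p ^ j).totient ≤ P.ramificationIdx ℤ := h1
    _ = P.ramificationIdx ℤ * 1 := (mul_one _).symm
    _ ≤ P.ramificationIdx ℤ * P.inertiaDeg ℤ := Nat.mul_le_mul_left _ hf

/-- **Tower bound.** For a finite set `S` of primes and `d > 0` there is `j₀` such that every
number field `L` of degree `n * d` over `ℚ` containing a primitive `p^j`-th root of unity with
`j ≥ j₀` has at most `n` primes above `S`.  (Apply with `d = [K:ℚ]`, `n = [L:K]`.) -/
theorem exists_card_primesOver_le (p : ℕ) (hp : p.Prime) (S : Finset ℕ) (hS : ∀ l ∈ S, l.Prime)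
    (d : ℕ) (hd : 0 < d) :
    ∃ j₀ : ℕ, ∀ j, j₀ ≤ j → ∀ (L : Type u) [Field L] [NumberField L] (ζ : L),
      IsPrimitiveRoot ζ (p ^ j) → ∀ n : ℕ, Module.finrank ℚ L = n * d →
        ∑ l ∈ S, ((span {(l : ℤ)}).primesOver (𝓞 L)).ncard ≤ n := by
  set B := S.card * d with hB
  refine ⟨1 + B + B * S.sup id, fun j hj L _ _ ζ hζ n hn => ?_⟩
  have key : ∀ l ∈ S, ((span {(l : ℤ)}).primesOver (𝓞 L)).ncard * S.card ≤ n := by
    intro l hl
    have hlp := hS l hl
    have h1 : ((span {(l : ℤ)}).primesOver (𝓞 L)).ncard * B ≤ Module.finrank ℚ L := by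
      apply ncard_primesOver_mul_le l hlp B
      intro P hP hPl
      by_cases hlpeq : l = p
      · subst hlpeq
        have hj1 : 0 < j := by omega
        refine le_trans ?_ (totient_le_ramificationIdx hlp hj1 hζ P)
        rw [Nat.totient_prime_pow hlp hj1]
        have h2 : B ≤ j - 1 := by omega
        have h3 : j - 1 < 2 ^ (j - 1) := Nat.lt_two_pow_self
        have h4 : 2 ^ (j - 1) ≤ l ^ (j - 1) := Nat.pow_le_pow_left hlp.two_le _
        have h5 : l ^ (j - 1) * 1 ≤ l ^ (j - 1) * (l - 1) :=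
          Nat.mul_le_mul_left _ (by have := hlp.two_le; omega)
        omega
      · refine le_inertiaDeg_of_pow_le hp hlp hlpeq hζ ?_ P
        have h2 : l ≤ S.sup id := Finset.le_sup (f := id) hl
        have h3 : l * B ≤ j := by
          have : l * B ≤ S.sup id * B := Nat.mul_le_mul_right _ h2
          have h4 : S.sup id * B = B * S.sup id := mul_comm _ _
          omega
        calc l ^ B ≤ (2 ^ l) ^ B := Nat.pow_le_pow_left Nat.lt_two_pow_self.le _
          _ = 2 ^ (l * B) := (pow_mul 2 l B).symm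
          _ ≤ p ^ (l * B) := Nat.pow_le_pow_left hp.two_le _
          _ ≤ p ^ j := Nat.pow_le_pow_right hp.pos h3
    rw [hn, hB, ← mul_assoc] at h1
    exact Nat.le_of_mul_le_mul_right h1 hd
  rcases Finset.eq_empty_or_nonempty S with rfl | hne
  · simp
  have hcard : 0 < S.card := Finset.card_pos.2 hne
  have hmul : (∑ l ∈ S, ((span {(l : ℤ)}).primesOver (𝓞 L)).ncard) * S.card ≤ n * S.card := by
    rw [Finset.sum_mul]
    calc ∑ l ∈ S, ((span {(l : ℤ)}).primesOver (𝓞 L)).ncard * S.card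
        ≤ ∑ _l ∈ S, n := Finset.sum_le_sum key
      _ = n * S.card := by rw [Finset.sum_const, smul_eq_mul, mul_comm]
  exact Nat.le_of_mul_le_mul_right hmul hcard

/-- **Tower bound, relative form.** `K` a number field, `S` a finite set of primes: there is `j₀`
such that every number field `L ⊇ K` containing a primitive `p^j`-th root of unity with `j ≥ j₀`
has at most `[L : K]` primes above `S`. -/
theorem exists_card_primesOver_le_finrank (p : ℕ) (hp : p.Prime) (S : Finset ℕ)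
    (hS : ∀ l ∈ S, l.Prime) (K : Type*) [Field K] [NumberField K] :
    ∃ j₀ : ℕ, ∀ j, j₀ ≤ j → ∀ (L : Type u) [Field L] [NumberField L] [Algebra K L] (ζ : L),
      IsPrimitiveRoot ζ (p ^ j) →
        ∑ l ∈ S, ((span {(l : ℤ)}).primesOver (𝓞 L)).ncard ≤ Module.finrank K L := by
  obtain ⟨j₀, hj₀⟩ := exists_card_primesOver_le.{u} p hp S hS (Module.finrank ℚ K)
    Module.finrank_pos
  refine ⟨j₀, fun j hj L _ _ _ ζ hζ => hj₀ j hj L ζ hζ _ ?_⟩
  rw [mul_comm, Module.finrank_mul_finrank]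

end Primes

/-- `[K(ζ_{p^j}) : K]` is a power of `p` when `K` contains a primitive `p`-th root of unity:
`Gal(K(ζ_{p^j})/K)` embeds into the kernel of `(ℤ/p^j)ˣ → (ℤ/p)ˣ`. -/
theorem isPGroup_aut_of_isCyclotomicExtension {K L : Type*} [Field K] [Field L] [Algebra K L]
    [CharZero K] (p j : ℕ) (hp : p.Prime) [IsCyclotomicExtension {p ^ j} K L]
    {η : K} (hη : IsPrimitiveRoot η p) : IsPGroup p (L ≃ₐ[K] L) := by
  have : Fact p.Prime := ⟨hp⟩
  have hpj : NeZero (p ^ j) := ⟨pow_ne_zero _ hp.ne_zero⟩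
  rcases Nat.eq_zero_or_pos j with rfl | hj
  · -- degree one: the cyclotomic extension for `{1}` is trivial
    intro σ
    refine ⟨0, ?_⟩
    obtain ⟨ζ, hζ⟩ := IsCyclotomicExtension.exists_isPrimitiveRoot K L
      (Set.mem_singleton (p ^ 0)) hpj.out
    have hinj := IsPrimitiveRoot.autToPow_injective K hζ
    apply hinj
    have hsub : Subsingleton (ZMod (p ^ 0)) := by
      rw [pow_zero]; infer_instance
    exact Units.ext (Subsingleton.elim _ _)
  obtain ⟨k, rfl⟩ : ∃ k, j = k + 1 := ⟨j - 1, by omega⟩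
  obtain ⟨ζ, hζ⟩ := IsCyclotomicExtension.exists_isPrimitiveRoot K L
    (Set.mem_singleton (p ^ (k + 1))) hpj.out
  have hinj := IsPrimitiveRoot.autToPow_injective K hζ
  intro σ
  refine ⟨k, hinj ?_⟩
  rw [map_pow, map_one]
  set u := hζ.autToPow K σ with hu
  set a := (u : ZMod (p ^ (k + 1))).val with ha
  have hspec : ζ ^ a = σ ζ := hζ.autToPow_spec K σ
  -- primitive p-th roots
  have hη' : IsPrimitiveRoot (algebraMap K L η) p :=
    hη.map_of_injective (algebraMap K L).injective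
  have hξ : IsPrimitiveRoot (ζ ^ p ^ k) p :=
    hζ.pow (pow_pos hp.pos _) (by rw [pow_succ])
  obtain ⟨c, -, hc⟩ := hξ.eq_pow_of_pow_eq_one hη'.pow_eq_one
  have hfix : σ (algebraMap K L η) = algebraMap K L η := σ.commutes η
  have hpow : (algebraMap K L η) ^ a = (algebraMap K L η) ^ 1 := by
    rw [pow_one]
    conv_rhs => rw [← hfix, ← hc]
    rw [map_pow, map_pow, ← hspec, ← hc]
    ring
  have hdvd : (p : ZMod (p ^ (k + 1))) ∣ 1 - (u : ZMod (p ^ (k + 1))) := by
    have h1 : (p : ℤ) ∣ (1 : ℤ) - (a : ℤ) := by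
      have h3 : (algebraMap K L η) ^ (a + (p - 1)) = 1 := by
        rw [pow_add, hpow, pow_one, ← pow_succ', Nat.sub_add_cancel hp.one_le, hη'.pow_eq_one]
      obtain ⟨t, ht⟩ := (hη'.pow_eq_one_iff_dvd _).1 h3
      refine ⟨1 - (t : ℤ), ?_⟩
      have hp1 := hp.one_le
      have : ((a + (p - 1) : ℕ) : ℤ) = ((p * t : ℕ) : ℤ) := by rw [ht]
      push_cast [Nat.cast_sub hp1] at this
      linarith
    have h2 := (Int.castRingHom (ZMod (p ^ (k + 1)))).map_dvd h1
    simpa [ha] using h2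
  have hkey := dvd_sub_pow_of_dvd_sub hdvd k
  have hzero : ((p : ZMod (p ^ (k + 1))) ^ (k + 1)) = 0 := by
    have := ZMod.natCast_self (p ^ (k + 1))
    rwa [Nat.cast_pow] at this
  rw [hzero, zero_dvd_iff, one_pow, sub_eq_zero] at hkey
  ext
  simpa using hkey.symm

theorem exists_finrank_eq_prime_pow {K L : Type*} [Field K] [Field L] [Algebra K L]
    [CharZero K] (p j : ℕ) (hp : p.Prime) [IsCyclotomicExtension {p ^ j} K L]
    {η : K} (hη : IsPrimitiveRoot η p) : ∃ m : ℕ, Module.finrank K L = p ^ m := by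
  have : Fact p.Prime := ⟨hp⟩
  have hpj : NeZero (p ^ j) := ⟨pow_ne_zero _ hp.ne_zero⟩
  have hcast : NeZero ((p ^ j : ℕ) : K) := ⟨by exact_mod_cast hpj.out⟩
  have : IsGalois K L := IsCyclotomicExtension.isGalois {p ^ j} K L
  have : FiniteDimensional K L := IsCyclotomicExtension.finiteDimensional {p ^ j} K L
  have hP := isPGroup_aut_of_isCyclotomicExtension (K := K) (L := L) p j hp hη
  obtain ⟨m, hm⟩ := IsPGroup.iff_card.1 hP
  exact ⟨m, by rw [← hm, IsGalois.card_aut_eq_finrank]⟩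

/-- **(e) of the counting route**: for `K ∋ ζ_p` and `j` large, `L = K(ζ_{p^j})` is Galois over
`K` of `p`-power degree, `[L:ℚ] = [L:K] [K:ℚ]`, and has at most `[L:K]` primes above `S`. -/
theorem cyclotomic_tower (p : ℕ) (hp : p.Prime) (S : Finset ℕ) (hS : ∀ l ∈ S, l.Prime)
    (K : Type*) [Field K] [NumberField K] {η : K} (hη : IsPrimitiveRoot η p) :
    ∃ j₀ : ℕ, ∀ j, j₀ ≤ j → ∀ (L : Type u) [Field L] [NumberField L] [Algebra K L]
      [IsCyclotomicExtension {p ^ j} K L],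
        IsGalois K L ∧ IsPGroup p (L ≃ₐ[K] L) ∧ (∃ m : ℕ, Module.finrank K L = p ^ m) ∧
        Module.finrank ℚ L = Module.finrank K L * Module.finrank ℚ K ∧
        ∑ l ∈ S, ((span {(l : ℤ)}).primesOver (𝓞 L)).ncard ≤ Module.finrank K L := by
  obtain ⟨j₀, hj₀⟩ := exists_card_primesOver_le_finrank.{u} p hp S hS K
  refine ⟨j₀, fun j hj L _ _ _ _ => ?_⟩
  have hpj : p ^ j ≠ 0 := pow_ne_zero _ hp.ne_zero
  obtain ⟨ζ, hζ⟩ := IsCyclotomicExtension.exists_isPrimitiveRoot K L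
    (Set.mem_singleton (p ^ j)) hpj
  refine ⟨IsCyclotomicExtension.isGalois {p ^ j} K L,
    isPGroup_aut_of_isCyclotomicExtension p j hp hη,
    exists_finrank_eq_prime_pow p j hp hη, ?_, hj₀ j hj L ζ hζ⟩
  rw [mul_comm, Module.finrank_mul_finrank]

end Fermat.Agent.S55.helper8122
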