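import Mathlib
import Fermat.Agent.S55.helper9292_SelmerCount

/-!
# S55 / NF-CLH2, ideal side (helper8291): the root class modulo `p`

Abstract setting of `helper9292_SelmerCount`: `π : A →* I` (think `Kˣ → ` invertible fractional
ideals), `T ≤ I` saturated for `p` (think: ideals supported on `S`), and
`kumSub π T n = {a | π a ∈ T · Iⁿ}`.

For every `k` the class of a `p ^ k`-th root of `π a` gives a homomorphism

  `rootMod π T p hT k : kumSub π T (p ^ k) →* I ⧸ (π.range ⊔ T ⊔ Iᵖ)`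

whose kernel is `A ^ (p ^ k) · kumSub π T (p ^ (k + 1))` (`rootMod_eq_one_iff`, `ker_rootMod`,
`rootMod_eq_iff`), and which is surjective as soon as `p ^ k · m` kills `I ⧸ (π.range ⊔ T)` for
some `m` prime to `p` (`rootMod_surjective`, `exists_rootMod_surjective`).

Dedekind form: `rootModS : kumS R K S (p ^ k) →* ClSModP R K S p`, surjective for `k` large
when the class group is finite, with kernel `Kˣ ^ (p ^ k) · kumS R K S (p ^ (k + 1))`; hence
`clSModCard R K S p = [kumS (p ^ k) : Kˣ ^ (p ^ k) · kumS (p ^ (k + 1))]`.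
-/

set_option autoImplicit false

open IsDedekindDomain
open scoped nonZeroDivisors

namespace Fermat.Agent.S55.helper8291

open Fermat.Agent.S55.helper9292

noncomputable section

section Abstract

variable {A I : Type*} [CommGroup A] [CommGroup I]
variable {π : A →* I} {T : Subgroup I} {p : ℕ}

/-- Saturation for `p` implies saturation for `p ^ k`. -/
theorem sat_pow (hT : ∀ x : I, x ^ p ∈ T → x ∈ T) (k : ℕ) :
    ∀ x : I, x ^ (p ^ k) ∈ T → x ∈ T := by
  induction k with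
  | zero => intro x hx; simpa using hx
  | succ k ih =>
    intro x hx
    apply ih
    apply hT
    rwa [← pow_mul, ← pow_succ]

theorem kumSub_succ_le (k : ℕ) : kumSub π T (p ^ (k + 1)) ≤ kumSub π T (p ^ k) := by
  intro x hx
  rw [Subgroup.mem_comap] at hx ⊢
  obtain ⟨t, ht, z, hz, h⟩ := Subgroup.mem_sup.mp hx
  obtain ⟨J, rfl⟩ := mem_powSub.mp hz
  rw [← h]
  refine Subgroup.mul_mem _ (Subgroup.mem_sup_left ht) (Subgroup.mem_sup_right ?_)
  exact mem_powSub.mpr ⟨J ^ p, by rw [← pow_mul, mul_comm, ← pow_succ]⟩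

theorem powSub_sup_kumSub_le (k : ℕ) :
    powSub A (p ^ k) ⊔ kumSub π T (p ^ (k + 1)) ≤ kumSub π T (p ^ k) :=
  sup_le (powSub_le_kumSub π T (p ^ k)) (kumSub_succ_le k)

variable (π T p) in
/-- The class modulo `p`-th powers of a `p ^ k`-th root of `π x`, for `x ∈ kumSub π T (p ^ k)`. -/
def rootMod (hT : ∀ x : I, x ^ p ∈ T → x ∈ T) (k : ℕ) :
    kumSub π T (p ^ k) →* I ⧸ (π.range ⊔ T ⊔ powSub I p) :=
  (QuotientGroup.map (π.range ⊔ T) (π.range ⊔ T ⊔ powSub I p) (MonoidHom.id I)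
    (by intro x hx; exact Subgroup.mem_sup_left hx)).comp
    (rootClass π T (p ^ k) (sat_pow hT k))

theorem rootMod_eq (hT : ∀ x : I, x ^ p ∈ T → x ∈ T) (k : ℕ) (x : kumSub π T (p ^ k)) {J : I}
    (hJ : π x * (J ^ (p ^ k))⁻¹ ∈ T) :
    rootMod π T p hT k x = QuotientGroup.mk J := by
  rw [rootMod, MonoidHom.comp_apply, rootClass_eq (sat_pow hT k) x hJ]
  rfl

/-- The kernel of the root class modulo `p`, elementwise. -/
theorem rootMod_eq_one_iff (hT : ∀ x : I, x ^ p ∈ T → x ∈ T) (k : ℕ)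
    (x : kumSub π T (p ^ k)) :
    rootMod π T p hT k x = 1 ↔ (x : A) ∈ powSub A (p ^ k) ⊔ kumSub π T (p ^ (k + 1)) := by
  obtain ⟨J, hJ⟩ := exists_root_of_mem_kumSub π T (p ^ k) x
  rw [rootMod_eq hT k x hJ, QuotientGroup.eq_one_iff]
  constructor
  · intro h
    obtain ⟨u, hu, z, hz, huz⟩ := Subgroup.mem_sup.mp h
    obtain ⟨y, hy, t', ht', hyt⟩ := Subgroup.mem_sup.mp hu
    obtain ⟨a, rfl⟩ := hy
    obtain ⟨Y, rfl⟩ := mem_powSub.mp hz
    rw [Subgroup.mem_sup]
    refine ⟨a ^ (p ^ k), mem_powSub.mpr ⟨a, rfl⟩, (x : A) * (a ^ (p ^ k))⁻¹, ?_, by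
      rw [mul_comm, inv_mul_cancel_right]⟩
    rw [Subgroup.mem_comap, map_mul, map_inv, map_pow]
    have key : π x * (π a ^ (p ^ k))⁻¹
        = (π x * (J ^ (p ^ k))⁻¹ * t' ^ (p ^ k)) * Y ^ (p ^ (k + 1)) := by
      rw [← huz, ← hyt]
      apply Additive.ofMul.injective
      simp only [ofMul_mul, ofMul_inv, ofMul_pow]
      module
    rw [key]
    exact Subgroup.mul_mem _ (Subgroup.mem_sup_left (T.mul_mem hJ (T.pow_mem ht' _)))
      (Subgroup.mem_sup_right (mem_powSub.mpr ⟨Y, rfl⟩))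
  · intro h
    obtain ⟨u, hu, w, hw, huw⟩ := Subgroup.mem_sup.mp h
    obtain ⟨a, rfl⟩ := mem_powSub.mp hu
    obtain ⟨t'', ht'', z, hz, hw'⟩ := Subgroup.mem_sup.mp (Subgroup.mem_comap.mp hw)
    obtain ⟨Y, rfl⟩ := mem_powSub.mp hz
    -- `π a * Y ^ p` is another `p ^ k`-th root of `π x` modulo `T`
    have hroot : π x * ((π a * Y ^ p) ^ (p ^ k))⁻¹ ∈ T := by
      have e : π x * ((π a * Y ^ p) ^ (p ^ k))⁻¹ = t'' := by
        rw [← huw, map_mul, map_pow, ← hw']
        apply Additive.ofMul.injective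
        simp only [ofMul_mul, ofMul_inv, ofMul_pow]
        module
      rw [e]
      exact ht''
    have h2 := root_unique (sat_pow hT k) hJ hroot
    have h3 : J = (π a * Y ^ p) * (J⁻¹ * (π a * Y ^ p))⁻¹ := by
      apply Additive.ofMul.injective
      simp only [ofMul_mul, ofMul_inv, ofMul_pow]
      module
    rw [h3]
    refine Subgroup.mul_mem _ (Subgroup.mul_mem _ ?_ ?_) ?_
    · exact Subgroup.mem_sup_left (Subgroup.mem_sup_left ⟨a, rfl⟩)
    · exact Subgroup.mem_sup_right (mem_powSub.mpr ⟨Y, rfl⟩)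
    · exact Subgroup.mem_sup_left (Subgroup.mem_sup_right (T.inv_mem h2))

/-- The kernel of the root class modulo `p` is `A ^ (p ^ k) · kumSub π T (p ^ (k + 1))`. -/
theorem ker_rootMod (hT : ∀ x : I, x ^ p ∈ T → x ∈ T) (k : ℕ) :
    (rootMod π T p hT k).ker =
      (powSub A (p ^ k) ⊔ kumSub π T (p ^ (k + 1))).subgroupOf (kumSub π T (p ^ k)) := by
  ext x
  rw [MonoidHom.mem_ker, Subgroup.mem_subgroupOf]
  exact rootMod_eq_one_iff hT k x

/-- Two elements have the same root class modulo `p` iff their quotient lies in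
`A ^ (p ^ k) · kumSub π T (p ^ (k + 1))`. -/
theorem rootMod_eq_iff (hT : ∀ x : I, x ^ p ∈ T → x ∈ T) (k : ℕ)
    (x y : kumSub π T (p ^ k)) :
    rootMod π T p hT k x = rootMod π T p hT k y ↔
      (x : A) / (y : A) ∈ powSub A (p ^ k) ⊔ kumSub π T (p ^ (k + 1)) := by
  have h := rootMod_eq_one_iff hT k (x / y)
  rw [map_div, div_eq_one, Subgroup.coe_div] at h
  exact h

/-- The root class modulo `p` is surjective when `p ^ k * m` kills `I ⧸ (π.range ⊔ T)` for some
`m` prime to `p`. -/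
theorem rootMod_surjective (hT : ∀ x : I, x ^ p ∈ T → x ∈ T) (k : ℕ) (hp : 1 < p)
    (hk : ∃ m : ℕ, Nat.Coprime m p ∧ ∀ c : I ⧸ (π.range ⊔ T), c ^ (p ^ k * m) = 1) :
    Function.Surjective (rootMod π T p hT k) := by
  obtain ⟨m, hm, hkill⟩ := hk
  intro q
  obtain ⟨J, rfl⟩ := QuotientGroup.mk_surjective q
  obtain ⟨u, hu⟩ := Nat.exists_mul_mod_eq_one_of_coprime hm hp
  -- `m * u = p * w + 1`
  have hmu : m * u = p * (m * u / p) + 1 := by
    have := Nat.div_add_mod (m * u) p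
    omega
  set w := m * u / p with hw
  -- `J' = J ^ (m * u)` has the same class mod `p` and `J' ^ (p ^ k)` is in `π.range ⊔ T`
  have hJ' : (J ^ (m * u)) ^ (p ^ k) ∈ π.range ⊔ T := by
    have h1 := hkill (QuotientGroup.mk J)
    rw [← QuotientGroup.mk_pow, QuotientGroup.eq_one_iff] at h1
    have e : (J ^ (m * u)) ^ (p ^ k) = (J ^ (p ^ k * m)) ^ u := by
      rw [← pow_mul, ← pow_mul]
      congr 1
      ring
    rw [e]
    exact Subgroup.pow_mem _ h1 u
  obtain ⟨y, hy, t, ht, hyt⟩ := Subgroup.mem_sup.mp hJ'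
  obtain ⟨a, rfl⟩ := hy
  have ha : a ∈ kumSub π T (p ^ k) := by
    rw [Subgroup.mem_comap]
    have e : π a = t⁻¹ * (J ^ (m * u)) ^ (p ^ k) := by
      rw [← hyt, mul_comm (π a), inv_mul_cancel_left]
    rw [e]
    exact Subgroup.mul_mem _ (Subgroup.mem_sup_left (T.inv_mem ht))
      (Subgroup.mem_sup_right (mem_powSub.mpr ⟨_, rfl⟩))
  refine ⟨⟨a, ha⟩, ?_⟩
  have hroot : π a * ((J ^ (m * u)) ^ (p ^ k))⁻¹ ∈ T := by
    have e : π a * ((J ^ (m * u)) ^ (p ^ k))⁻¹ = t⁻¹ := by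
      rw [← hyt, mul_inv, mul_inv_cancel_left]
    rw [e]
    exact T.inv_mem ht
  rw [rootMod_eq hT k ⟨a, ha⟩ hroot, QuotientGroup.eq]
  have e : (J ^ (m * u))⁻¹ * J = ((J ^ w)⁻¹) ^ p := by
    rw [hmu, pow_succ, mul_inv, mul_assoc, inv_mul_cancel, mul_one, inv_pow, ← pow_mul, mul_comm]
  rw [e]
  exact Subgroup.mem_sup_right (mem_powSub.mpr ⟨_, rfl⟩)

/-- For a finite class group `I ⧸ (π.range ⊔ T)` and `p` prime, the root class modulo `p` is
surjective for all large `k`. -/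
theorem exists_rootMod_surjective (hT : ∀ x : I, x ^ p ∈ T → x ∈ T) (hp : p.Prime)
    [Finite (I ⧸ (π.range ⊔ T))] :
    ∃ k₀ : ℕ, ∀ k, k₀ ≤ k → Function.Surjective (rootMod π T p hT k) := by
  have hcard : Nat.card (I ⧸ (π.range ⊔ T)) ≠ 0 := Nat.card_pos.ne'
  obtain ⟨e, m, hm, hcm⟩ := Nat.exists_eq_pow_mul_and_not_dvd hcard p hp.ne_one
  refine ⟨e, fun k hk => rootMod_surjective hT k hp.one_lt ⟨m, ?_, fun c => ?_⟩⟩
  · exact (Nat.coprime_comm.mp ((Nat.Prime.coprime_iff_not_dvd hp).2 hm))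
  · have h1 : c ^ Nat.card (I ⧸ (π.range ⊔ T)) = 1 := pow_card_eq_one'
    obtain ⟨d, rfl⟩ := Nat.exists_eq_add_of_le hk
    have e2 : p ^ (e + d) * m = Nat.card (I ⧸ (π.range ⊔ T)) * p ^ d := by
      rw [hcm, pow_add]
      ring
    rw [e2, pow_mul, h1, one_pow]

/-- Cardinality form: if the root class modulo `p` is surjective, the index of
`A ^ (p ^ k) · kumSub π T (p ^ (k + 1))` in `kumSub π T (p ^ k)` is the index of
`π.range ⊔ T ⊔ Iᵖ` in `I`. -/
theorem relIndex_eq_index_of_surjective (hT : ∀ x : I, x ^ p ∈ T → x ∈ T) (k : ℕ)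
    (hs : Function.Surjective (rootMod π T p hT k)) :
    (powSub A (p ^ k) ⊔ kumSub π T (p ^ (k + 1))).relIndex (kumSub π T (p ^ k))
      = (π.range ⊔ T ⊔ powSub I p).index := by
  rw [Subgroup.relIndex, ← ker_rootMod hT k, Subgroup.index_ker,
    MonoidHom.range_eq_top.mpr hs, Subgroup.index_eq_card]
  exact Nat.card_congr Subgroup.topEquiv.toEquiv

end Abstract

/-! ## Dedekind domains -/

section Dedekind

open FractionalIdeal

variable (R : Type*) [CommRing R] [IsDedekindDomain R] (K : Type*) [Field K] [Algebra R K]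
  [IsFractionRing R K]

/-- The root class modulo `p` for a Dedekind domain:
`kumS R K S (p ^ k) →* ClSModP R K S p`, `x ↦` the class of `(x) ^ (1 / p ^ k)`. -/
def rootModS (S : Set (HeightOneSpectrum R)) {p : ℕ} (hp : p ≠ 0) (k : ℕ) :
    kumS R K S (p ^ k) →* ClSModP R K S p :=
  rootMod (toPrincipalIdeal R K) (suppSub S) p (suppSub_saturated S hp) k

variable {R K}

/-- Description of `rootModS`: if `(x) = J ^ (p ^ k)` up to an ideal supported on `S`, then the
root class of `x` is the class of `J`. -/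
theorem rootModS_eq (S : Set (HeightOneSpectrum R)) {p : ℕ} (hp : p ≠ 0) (k : ℕ)
    (x : kumS R K S (p ^ k)) {J : (FractionalIdeal R⁰ K)ˣ}
    (hJ : toPrincipalIdeal R K x * (J ^ (p ^ k))⁻¹ ∈ suppSub S) :
    rootModS R K S hp k x = QuotientGroup.mk J :=
  rootMod_eq (suppSub_saturated S hp) k x hJ

theorem rootModS_eq_one_iff (S : Set (HeightOneSpectrum R)) {p : ℕ} (hp : p ≠ 0) (k : ℕ)
    (x : kumS R K S (p ^ k)) :
    rootModS R K S hp k x = 1 ↔ (x : Kˣ) ∈ powSub Kˣ (p ^ k) ⊔ kumS R K S (p ^ (k + 1)) :=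
  rootMod_eq_one_iff (suppSub_saturated S hp) k x

theorem rootModS_eq_iff (S : Set (HeightOneSpectrum R)) {p : ℕ} (hp : p ≠ 0) (k : ℕ)
    (x y : kumS R K S (p ^ k)) :
    rootModS R K S hp k x = rootModS R K S hp k y ↔
      (x : Kˣ) / (y : Kˣ) ∈ powSub Kˣ (p ^ k) ⊔ kumS R K S (p ^ (k + 1)) :=
  rootMod_eq_iff (suppSub_saturated S hp) k x y

theorem ker_rootModS (S : Set (HeightOneSpectrum R)) {p : ℕ} (hp : p ≠ 0) (k : ℕ) :
    (rootModS R K S hp k).ker =
      (powSub Kˣ (p ^ k) ⊔ kumS R K S (p ^ (k + 1))).subgroupOf (kumS R K S (p ^ k)) :=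
  ker_rootMod (suppSub_saturated S hp) k

/-- For a finite class group, `rootModS` is surjective for all large `k`. -/
theorem exists_rootModS_surjective [Finite (ClassGroup R)] (S : Set (HeightOneSpectrum R))
    {p : ℕ} (hp : p.Prime) :
    ∃ k₀ : ℕ, ∀ k, k₀ ≤ k → Function.Surjective (rootModS R K S hp.ne_zero k) := by
  have : Finite ((FractionalIdeal R⁰ K)ˣ ⧸ ((toPrincipalIdeal R K).range ⊔ suppSub S)) :=
    finite_ClS (R := R) (K := K) S
  exact exists_rootMod_surjective (suppSub_saturated S hp.ne_zero) hp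

/-- `#(Cl_S / p) = [kumS (p ^ k) : Kˣ ^ (p ^ k) · kumS (p ^ (k + 1))]` for all large `k`. -/
theorem exists_relIndex_eq_clSModCard [Finite (ClassGroup R)] (S : Set (HeightOneSpectrum R))
    {p : ℕ} (hp : p.Prime) :
    ∃ k₀ : ℕ, ∀ k, k₀ ≤ k →
      (powSub Kˣ (p ^ k) ⊔ kumS R K S (p ^ (k + 1))).relIndex (kumS R K S (p ^ k))
        = clSModCard R K S p := by
  obtain ⟨k₀, h⟩ := exists_rootModS_surjective (R := R) (K := K) S hp
  exact ⟨k₀, fun k hk =>
    relIndex_eq_index_of_surjective (suppSub_saturated S hp.ne_zero) k (h k hk)⟩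

/-- Set-theoretic section form used by the `H²` lower bound: for large `k` there is a family
`a : ClSModP R K S p → kumS R K S (p ^ k)` such that `a c / a c' ∈ Kˣ ^ (p ^ k) · kumS (p ^ (k+1))`
forces `c = c'`. -/
theorem exists_section_injective [Finite (ClassGroup R)] (S : Set (HeightOneSpectrum R))
    {p : ℕ} (hp : p.Prime) :
    ∃ k₀ : ℕ, ∀ k, k₀ ≤ k → ∃ a : ClSModP R K S p → kumS R K S (p ^ k),
      ∀ c c', ((a c : Kˣ) / (a c' : Kˣ)) ∈ powSub Kˣ (p ^ k) ⊔ kumS R K S (p ^ (k + 1)) →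
        c = c' := by
  obtain ⟨k₀, h⟩ := exists_rootModS_surjective (R := R) (K := K) S hp
  refine ⟨k₀, fun k hk => ?_⟩
  choose a ha using h k hk
  refine ⟨a, fun c c' hcc => ?_⟩
  have := (rootModS_eq_iff S hp.ne_zero k (a c) (a c')).2 hcc
  rwa [ha, ha] at this

end Dedekind

end

end Fermat.Agent.S55.helper8291
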