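import Mathlib
import Fermat.Agent.S55.helper7486_LevelCoh
import Fermat.Agent.S55.helper5178_Sylow
import Fermat.Agent.S55.helper5550_Shapiro
import Fermat.Agent.S55.helper2598_Frame
import Fermat.Agent.S55.helper3071_GlobalBridge

/-!
# S55, leaf FW-CHI2SUB (helper8508): submultiplicativity of the partial Euler characteristic

Group-level form, in the generic `Levels` framework of `helper7486_LevelCoh`.

For a group `G` with a system of levels `𝓛`, a normal subgroup `H` of `p`-power index containing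
a level, and trivial coefficients `k = ZMod p`:

`1 + h²(H) + [G:H] * h¹(G) ≤ [G:H] * (1 + h²(G)) + h¹(H)`,

i.e. `χ₂(H) ≤ [G:H] χ₂(G)` for `χ₂ = 1 - h¹ + h²`.

Proof: the coinduced module `W = coind_H^G k` is a finite unipotent `G`-module of dimension
`[G:H]`; by the unipotent filtration and subadditivity of `χ = h⁰ - h¹ + h²` on short exact
sequences (truncated long exact sequence) `χ(G, W) ≤ [G:H] χ(G, k)`; Shapiro's lemma in degrees
`0, 1, 2` on level cochains identifies `h^i(G, W)` with `h^i(H, k)`.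
-/

set_option autoImplicit false

noncomputable section

namespace Fermat.Agent.S55.helper8508

open groupCohomology Fermat.Agent.S55 Fermat.Agent.S55.helper7486

/-! ## Part 1: the level system induced on a subgroup -/

section SubLevels

variable {G : Type} [Group G] (𝓛 : Levels G) (H : Subgroup G)

lemma subgroupOf_le_of_le {U U' : Subgroup G} (h : U ≤ U') : U.subgroupOf H ≤ U'.subgroupOf H :=
  fun _ hx => h hx

/-- The level system induced on a subgroup `H` containing a level: the levels of `G` that lie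
inside `H`, viewed as subgroups of `H`. -/
def subLevels (hH : ∃ U, 𝓛.P U ∧ U ≤ H) : Levels ↥H where
  P V := ∃ U, 𝓛.P U ∧ U ≤ H ∧ V = U.subgroupOf H
  nonempty := by
    obtain ⟨U, hU, hUH⟩ := hH
    exact ⟨_, U, hU, hUH, rfl⟩
  inf := by
    rintro _ _ ⟨U, hU, hUH, rfl⟩ ⟨U', hU', _, rfl⟩
    obtain ⟨W, hW, hWU, hWU'⟩ := 𝓛.inf U U' hU hU'
    exact ⟨_, ⟨W, hW, hWU.trans hUH, rfl⟩, subgroupOf_le_of_le H hWU,
      subgroupOf_le_of_le H hWU'⟩
  normal := by
    rintro _ ⟨U, hU, hUH, rfl⟩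
    obtain ⟨W, hW, hWU, hn⟩ := 𝓛.normal U hU
    exact ⟨_, ⟨W, hW, hWU.trans hUH, rfl⟩, subgroupOf_le_of_le H hWU,
      Subgroup.normal_subgroupOf⟩
  finite := by
    rintro _ ⟨U, hU, _, rfl⟩
    have := 𝓛.finite U hU
    have : U.FiniteIndex := Subgroup.finiteIndex_of_finite_quotient
    exact Subgroup.finite_quotient_of_finiteIndex

variable {𝓛 H}

lemma subLevels_compat (hH : ∃ U, 𝓛.P U ∧ U ≤ H) :
    (subLevels 𝓛 H hH).Compat 𝓛 H.subtype := by
  intro U hU
  obtain ⟨U₀, hU₀, hU₀H⟩ := hH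
  obtain ⟨W, hW, hWU, hWU₀⟩ := 𝓛.inf U U₀ hU hU₀
  exact ⟨_, ⟨W, hW, hWU₀.trans hU₀H, rfl⟩, subgroupOf_le_of_le H hWU⟩

lemma finiteIndex_of_level (hH : ∃ U, 𝓛.P U ∧ U ≤ H) : H.FiniteIndex := by
  obtain ⟨U, hU, hUH⟩ := hH
  have := 𝓛.finite U hU
  have : U.FiniteIndex := Subgroup.finiteIndex_of_finite_quotient
  exact Subgroup.finiteIndex_of_le hUH

/-- A one-variable function on `H` that is level-constant for the induced system is
right-invariant under a normal level of `G` contained in `H`. -/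
lemma exists_normal_level_of_is₁ (hH : ∃ U, 𝓛.P U ∧ U ≤ H) {X : Type*} {f : ↥H → X}
    (hf : (subLevels 𝓛 H hH).Is₁ f) (V : Subgroup G) (hV : 𝓛.P V) :
    ∃ U, 𝓛.P U ∧ U ≤ H ∧ U ≤ V ∧ U.Normal ∧ helper5550.RInv₁ (U.subgroupOf H) f := by
  obtain ⟨_, ⟨U, hU, hUH, rfl⟩, h⟩ := hf
  obtain ⟨W, hW, hWU, hWV⟩ := 𝓛.inf U V hU hV
  obtain ⟨W', hW', hW'W, hn⟩ := 𝓛.normal W hW
  exact ⟨W', hW', (hW'W.trans hWU).trans hUH, hW'W.trans hWV, hn,
    fun g s hs => h g s (subgroupOf_le_of_le H (hW'W.trans hWU) hs)⟩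

lemma exists_normal_level_of_is₂ (hH : ∃ U, 𝓛.P U ∧ U ≤ H) {X : Type*} {f : ↥H × ↥H → X}
    (hf : (subLevels 𝓛 H hH).Is₂ f) (V : Subgroup G) (hV : 𝓛.P V) :
    ∃ U, 𝓛.P U ∧ U ≤ H ∧ U ≤ V ∧ U.Normal ∧ helper5550.RInv₂ (U.subgroupOf H) f := by
  obtain ⟨_, ⟨U, hU, hUH, rfl⟩, h⟩ := hf
  obtain ⟨W, hW, hWU, hWV⟩ := 𝓛.inf U V hU hV
  obtain ⟨W', hW', hW'W, hn⟩ := 𝓛.normal W hW
  exact ⟨W', hW', (hW'W.trans hWU).trans hUH, hW'W.trans hWV, hn,
    fun g g' s s' hs hs' => h g g' s s' (subgroupOf_le_of_le H (hW'W.trans hWU) hs)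
      (subgroupOf_le_of_le H (hW'W.trans hWU) hs')⟩

end SubLevels

/-! ## Part 2: Shapiro's lemma in degrees 1 and 2 on level cohomology -/

section Shapiro

variable {k : Type} [CommRing k] {G : Type} [Group G] (𝓛 : Levels G) (H : Subgroup G)
  (hH : ∃ U, 𝓛.P U ∧ U ≤ H) (N : Rep.{0, 0, 0} k ↥H)

/-- The Shapiro map on level `H¹`: restrict to `H`, evaluate at `1`. -/
def shLH1 : LH1 𝓛 (Rep.coind H.subtype N) →ₗ[k] LH1 (subLevels 𝓛 H hH) N :=
  LH1map (helper5550.ev H N) (subLevels_compat hH) (fun h f => helper5550.ev_ρ H N h f)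

/-- The Shapiro map on level `H²`: restrict to `H`, evaluate at `1`. -/
def shLH2 : LH2 𝓛 (Rep.coind H.subtype N) →ₗ[k] LH2 (subLevels 𝓛 H hH) N :=
  LH2map (helper5550.ev H N) (subLevels_compat hH) (fun h f => helper5550.ev_ρ H N h f)

lemma shLH1_injective : Function.Injective (shLH1 𝓛 H hH N) := by
  rw [← LinearMap.ker_eq_bot, LinearMap.ker_eq_bot']
  intro x hx
  obtain ⟨z, rfl⟩ := LH1.mk_surjective x
  rw [shLH1, LH1map_mk, LH1.mk_eq_zero_iff] at hx
  obtain ⟨n, hn⟩ := hx
  rw [LH1.mk_eq_zero_iff]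
  exact helper5550.exists_d₀₁_eq_of_sh₁ (c := (z : G → Rep.coind H.subtype N)) z.2.1 n hn.symm

lemma shLH1_surjective : Function.Surjective (shLH1 𝓛 H hH N) := by
  intro y
  obtain ⟨b, rfl⟩ := LH1.mk_surjective y
  obtain ⟨s, hs, hs1⟩ := helper5550.exists_retraction H
  obtain ⟨U₀, hU₀⟩ := 𝓛.nonempty
  obtain ⟨U, hU, hUH, -, hn, hb⟩ := exists_normal_level_of_is₁ hH b.2.2 U₀ hU₀
  have := hn
  refine ⟨LH1.mk 𝓛 _ ⟨helper5550.ind₁ s hs (b : ↥H → N),
    helper5550.ind₁_mem_cocycles₁ s hs b.2.1, U, hU, helper5550.ind₁_rinv s hs hUH hb⟩, ?_⟩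
  rw [shLH1, LH1map_mk]
  congr 1
  apply Subtype.ext
  exact helper5550.sh₁_ind₁ s hs hs1 (b : ↥H → N)

lemma shLH2_injective : Function.Injective (shLH2 𝓛 H hH N) := by
  rw [← LinearMap.ker_eq_bot, LinearMap.ker_eq_bot']
  intro x hx
  obtain ⟨c, rfl⟩ := LH2.mk_surjective x
  rw [shLH2, LH2map_mk, LH2.mk_eq_zero_iff] at hx
  obtain ⟨β, hβl, hβ⟩ := hx
  obtain ⟨s, hs, -⟩ := helper5550.exists_retraction H
  obtain ⟨V, hV, hcV⟩ := c.2.2
  obtain ⟨U, hU, hUH, hUV, hn, hβU⟩ := exists_normal_level_of_is₁ hH hβl V hV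
  have := hn
  have hcU : helper5550.RInv₂ U (c : G × G → Rep.coind H.subtype N) :=
    fun g g' t t' ht ht' => hcV g g' t t' (hUV ht) (hUV ht')
  rw [LH2.mk_eq_zero_iff]
  exact ⟨helper5550.prim s hs (c : G × G → Rep.coind H.subtype N) β,
    ⟨U, hU, helper5550.prim_rinv s hs hUH hcU hβU⟩,
    helper5550.d₁₂_prim s hs c.2.1 hβ.symm⟩

lemma shLH2_surjective : Function.Surjective (shLH2 𝓛 H hH N) := by
  intro y
  obtain ⟨b, rfl⟩ := LH2.mk_surjective y
  obtain ⟨s, hs, hs1⟩ := helper5550.exists_retraction H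
  obtain ⟨U₀, hU₀⟩ := 𝓛.nonempty
  obtain ⟨U, hU, hUH, -, hn, hb⟩ := exists_normal_level_of_is₂ hH b.2.2 U₀ hU₀
  have := hn
  refine ⟨LH2.mk 𝓛 _ ⟨helper5550.ind₂ s hs (b : ↥H × ↥H → N),
    helper5550.ind₂_mem_cocycles₂ s hs b.2.1, U, hU, helper5550.ind₂_rinv s hs hUH hb⟩, ?_⟩
  rw [shLH2, LH2map_mk]
  congr 1
  apply Subtype.ext
  exact helper5550.sh₂_ind₂ s hs hs1 (b : ↥H × ↥H → N)

/-- Shapiro's lemma on level `H¹`. -/
def shapiroLH1 : LH1 𝓛 (Rep.coind H.subtype N) ≃ₗ[k] LH1 (subLevels 𝓛 H hH) N :=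
  LinearEquiv.ofBijective (shLH1 𝓛 H hH N) ⟨shLH1_injective 𝓛 H hH N, shLH1_surjective 𝓛 H hH N⟩

/-- Shapiro's lemma on level `H²`. -/
def shapiroLH2 : LH2 𝓛 (Rep.coind H.subtype N) ≃ₗ[k] LH2 (subLevels 𝓛 H hH) N :=
  LinearEquiv.ofBijective (shLH2 𝓛 H hH N) ⟨shLH2_injective 𝓛 H hH N, shLH2_surjective 𝓛 H hH N⟩

end Shapiro

/-! ## Part 3: `χ = h⁰ - h¹ + h²` on unipotent modules -/

section Unipotent

variable {p : ℕ} [Fact p.Prime] {G : Type} [Group G] (𝓛 : Levels G)

/-- A module on which a subgroup containing a level acts trivially is smooth. -/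
lemma smooth_of_trivial_on {k : Type} [CommRing k] (T : Subgroup G) (hT : ∃ U, 𝓛.P U ∧ U ≤ T)
    (W : Rep.{0, 0, 0} k G) (hWT : ∀ t ∈ T, W.ρ t = 1) : 𝓛.Smooth W := by
  obtain ⟨U, hU, hUT⟩ := hT
  intro a
  refine ⟨U, hU, fun s hs => ?_⟩
  rw [hWT s (hUT hs)]
  rfl

/-- The middle term of an exact pair of vector spaces with finite-dimensional ends is
finite-dimensional. -/
lemma finite_of_exact_pair {k : Type} [Field k] {X Y Z : Type} [AddCommGroup X] [Module k X]
    [AddCommGroup Y] [Module k Y] [AddCommGroup Z] [Module k Z] [Module.Finite k X]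
    [Module.Finite k Z] {f : X →ₗ[k] Y} {g : Y →ₗ[k] Z} (h : Function.Exact f g) :
    Module.Finite k Y := by
  have h1 : Module.Finite k ↥(LinearMap.ker g) := by
    rw [LinearMap.exact_iff.1 h]
    infer_instance
  have h2 : Module.Finite k (Y ⧸ LinearMap.ker g) :=
    Module.Finite.equiv g.quotKerEquivRange.symm
  exact Module.Finite.of_submodule_quotient (LinearMap.ker g)

/-- Rank additivity on a short exact sequence of vector spaces. -/
lemma finrank_eq_add_of_ses {k : Type} [Field k] {X Y Z : Type} [AddCommGroup X] [Module k X]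
    [AddCommGroup Y] [Module k Y] [AddCommGroup Z] [Module k Z] [Module.Finite k Y]
    (φ : X →ₗ[k] Y) (ψ : Y →ₗ[k] Z) (hφ : Function.Injective φ) (hψ : Function.Surjective ψ)
    (hex : Function.Exact φ ψ) :
    Module.finrank k Y = Module.finrank k X + Module.finrank k Z := by
  have h1 := LinearMap.finrank_range_add_finrank_ker ψ
  have h2 : Module.finrank k ↥(LinearMap.range ψ) = Module.finrank k Z := by
    rw [LinearMap.range_eq_top.2 hψ, finrank_top]
  have h3 : Module.finrank k ↥(LinearMap.ker ψ) = Module.finrank k X := by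
    rw [(LinearMap.exact_iff.1 hex), LinearMap.finrank_range_of_inj hφ]
  omega

/-- `χ(W) ≤ dim W · χ(𝔽_p)` for a finite unipotent module `W` on which a subgroup containing a
level acts trivially (unipotent filtration + subadditivity of `χ` along the truncated long exact
sequence), together with the finiteness of its level cohomology. -/
theorem chi_le_of_unipotent (T : Subgroup G) (hT : ∃ U, 𝓛.P U ∧ U ≤ T)
    (h1 : Module.Finite (ZMod p) (LH1 𝓛 (Rep.trivial (ZMod p) G (ZMod p))))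
    (h2 : Module.Finite (ZMod p) (LH2 𝓛 (Rep.trivial (ZMod p) G (ZMod p))))
    (W : Rep.{0, 0, 0} (ZMod p) G) [Module.Finite (ZMod p) W] (hW : helper5178.IsPPower p W)
    (hWT : ∀ t ∈ T, W.ρ t = 1) :
    Module.Finite (ZMod p) (LH1 𝓛 W) ∧ Module.Finite (ZMod p) (LH2 𝓛 W) ∧
      chi 𝓛 W ≤ (Module.finrank (ZMod p) W : ℤ) * chi 𝓛 (Rep.trivial (ZMod p) G (ZMod p)) := by
  refine helper5178.unipotent_induction (T : Set G)
    (fun W => Module.Finite (ZMod p) (LH1 𝓛 W) ∧ Module.Finite (ZMod p) (LH2 𝓛 W) ∧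
      chi 𝓛 W ≤ (Module.finrank (ZMod p) W : ℤ) * chi 𝓛 (Rep.trivial (ZMod p) G (ZMod p)))
    ?_ ?_ W hW hWT
  · intro W hWs
    refine ⟨Module.Finite.of_finite, Module.Finite.of_finite, ?_⟩
    rw [chi_of_subsingleton, Module.finrank_zero_of_subsingleton]
    simp
  · intro W W' i q hfin hfin' _ _ hT' _ hi hq hex ⟨f1, f2, hle⟩
    let E : SES (Rep.trivial (ZMod p) G (ZMod p)) W W' := SES.ofHom i q hi hq hex
    have hsm : 𝓛.Smooth W := smooth_of_trivial_on 𝓛 T hT W hT'
    have g1 : Module.Finite (ZMod p) (LH1 𝓛 W) :=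
      finite_of_exact_pair (E.exact_H1φ_H1ψ (𝓛 := 𝓛) hsm)
    have g2 : Module.Finite (ZMod p) (LH2 𝓛 W) :=
      finite_of_exact_pair (E.exact_H2φ_H2ψ (𝓛 := 𝓛) hsm)
    have hchi := E.chi_le (𝓛 := 𝓛) hsm
    refine ⟨g1, g2, ?_⟩
    have hrk : Module.finrank (ZMod p) W = Module.finrank (ZMod p) (ZMod p)
        + Module.finrank (ZMod p) W' :=
      finrank_eq_add_of_ses E.φ E.ψ E.inj E.surj E.exact
    rw [Module.finrank_self] at hrk
    rw [hrk]
    push_cast
    nlinarith [hchi, hle]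

end Unipotent

/-! ## Part 4: the coinduced module of a normal subgroup of `p`-power index -/

section CoindTrivial

variable {k : Type} [Field k] {G : Type} [Group G] (H : Subgroup G)

lemma mk_rightRel_mul (h : ↥H) (x : G) :
    (Quotient.mk (QuotientGroup.rightRel H) ((h : G) * x)) =
      Quotient.mk (QuotientGroup.rightRel H) x := by
  apply Quotient.sound
  show (QuotientGroup.rightRel H) ((h : G) * x) x
  rw [QuotientGroup.rightRel_apply]
  simp

/-- Functions on the right cosets, as elements of the coinduced module of the trivial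
representation. -/
def cosetFun : (Quotient (QuotientGroup.rightRel H) → k) →ₗ[k]
    Rep.coind H.subtype (Rep.trivial k ↥H k) where
  toFun F := ⟨fun g => F (Quotient.mk _ g), fun h x => by
    show F (Quotient.mk _ ((h : G) * x)) = F (Quotient.mk _ x)
    rw [mk_rightRel_mul]⟩
  map_add' _ _ := rfl
  map_smul' _ _ := rfl

lemma cosetFun_bijective : Function.Bijective (cosetFun (k := k) H) := by
  constructor
  · intro F F' hFF'
    funext q
    obtain ⟨g, rfl⟩ := Quotient.mk_surjective q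
    exact congrFun (congrArg Subtype.val hFF') g
  · intro f
    refine ⟨fun q => Quotient.liftOn q f.1 ?_, ?_⟩
    · intro a b hab
      have hab' : b * a⁻¹ ∈ H := (QuotientGroup.rightRel_apply).1 hab
      have := f.2 ⟨b * a⁻¹, hab'⟩ a
      simp only [Subgroup.coe_subtype, inv_mul_cancel_right] at this
      exact this.symm
    · apply Subtype.ext
      funext g
      rfl

/-- `dim coind_H^G k = [G : H]`. -/
lemma finrank_coind_trivial [H.FiniteIndex] :
    Module.finrank k (Rep.coind H.subtype (Rep.trivial k ↥H k)) = H.index := by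
  classical
  have e : Quotient (QuotientGroup.rightRel H) ≃ G ⧸ H :=
    QuotientGroup.quotientRightRelEquivQuotientLeftRel H
  have : Finite (G ⧸ H) := Subgroup.finite_quotient_of_finiteIndex
  have : Finite (Quotient (QuotientGroup.rightRel H)) := Finite.of_equiv _ e.symm
  have : Fintype (Quotient (QuotientGroup.rightRel H)) := Fintype.ofFinite _
  rw [← (LinearEquiv.ofBijective (cosetFun (k := k) H) (cosetFun_bijective H)).finrank_eq,
    Module.finrank_pi, ← Nat.card_eq_fintype_card, Nat.card_congr e, Subgroup.index_eq_card]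

/-- The invariants of a trivial representation on `k` are one-dimensional. -/
lemma finrank_invariants_trivial :
    Module.finrank k ↥(Rep.trivial k G k).ρ.invariants = 1 := by
  have h : (Rep.trivial k G k).ρ.invariants = ⊤ := by
    rw [eq_top_iff]
    intro x _ g
    rfl
  rw [h, finrank_top]
  exact Module.finrank_self k

lemma finrank_invariants_coind_trivial :
    Module.finrank k ↥(Rep.coind H.subtype (Rep.trivial k ↥H k)).ρ.invariants = 1 := by
  rw [(helper5550.invariantsEquiv (H := H) (N := Rep.trivial k ↥H k)).finrank_eq]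
  exact finrank_invariants_trivial

lemma coind_trivial_ρ_eq_one [H.Normal] {t : G} (ht : t ∈ H) :
    (Rep.coind H.subtype (Rep.trivial k ↥H k)).ρ t = 1 :=
  helper5178.coind_ρ_eq_one H H le_rfl (Rep.trivial k ↥H k) (fun _ _ => rfl) ht

end CoindTrivial

/-! ## Part 5: the abstract theorem -/

section Main

variable {p : ℕ} [Fact p.Prime] {G : Type} [Group G] (𝓛 : Levels G)

/-- The trivial `ZMod p`-representation. -/
abbrev triv (p : ℕ) (G : Type) [Group G] : Rep.{0, 0, 0} (ZMod p) G :=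
  Rep.trivial (ZMod p) G (ZMod p)

/-- **Submultiplicativity of `χ₂ = 1 - h¹ + h²`** (integer form), for a normal subgroup `H` of
`p`-power index containing a level, with the induced level system on `H`. -/
theorem chi2_submult_int (H : Subgroup G) [H.Normal]
    (hH : ∃ U, 𝓛.P U ∧ U ≤ H) (hidx : ∃ m : ℕ, H.index = p ^ m)
    (h1 : Module.Finite (ZMod p) (LH1 𝓛 (triv p G)))
    (h2 : Module.Finite (ZMod p) (LH2 𝓛 (triv p G))) :
    Module.Finite (ZMod p) (LH1 (subLevels 𝓛 H hH) (triv p ↥H)) ∧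
    Module.Finite (ZMod p) (LH2 (subLevels 𝓛 H hH) (triv p ↥H)) ∧
    (1 : ℤ) - Module.finrank (ZMod p) (LH1 (subLevels 𝓛 H hH) (triv p ↥H))
        + Module.finrank (ZMod p) (LH2 (subLevels 𝓛 H hH) (triv p ↥H)) ≤
      (H.index : ℤ) * (1 - Module.finrank (ZMod p) (LH1 𝓛 (triv p G))
        + Module.finrank (ZMod p) (LH2 𝓛 (triv p G))) := by
  have hfi : H.FiniteIndex := finiteIndex_of_level hH
  have hfin : Module.Finite (ZMod p) (Rep.coind H.subtype (triv p ↥H)) :=
    helper5178.finite_coind H (triv p ↥H)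
  have hpp : helper5178.IsPPower p (Rep.coind H.subtype (triv p ↥H)) := by
    intro g
    obtain ⟨m, hm⟩ := hidx
    refine ⟨m, coind_trivial_ρ_eq_one H ?_⟩
    rw [← hm]
    exact H.pow_index_mem g
  obtain ⟨f1, f2, hle⟩ := chi_le_of_unipotent 𝓛 H hH h1 h2
    (Rep.coind H.subtype (triv p ↥H)) hpp (fun t ht => coind_trivial_ρ_eq_one H ht)
  have e1 := (shapiroLH1 𝓛 H hH (triv p ↥H)).finrank_eq
  have e2 := (shapiroLH2 𝓛 H hH (triv p ↥H)).finrank_eq
  refine ⟨Module.Finite.equiv (shapiroLH1 𝓛 H hH (triv p ↥H)),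
    Module.Finite.equiv (shapiroLH2 𝓛 H hH (triv p ↥H)), ?_⟩
  rw [chi, chi, finrank_invariants_coind_trivial, finrank_invariants_trivial,
    finrank_coind_trivial, e1, e2] at hle
  exact_mod_cast hle

/-- **Submultiplicativity of `χ₂`**, natural-number form:
`1 + h²(H) + [G:H] h¹(G) ≤ [G:H] (1 + h²(G)) + h¹(H)`. -/
theorem chi2_submult (H : Subgroup G) [H.Normal]
    (hH : ∃ U, 𝓛.P U ∧ U ≤ H) (hidx : ∃ m : ℕ, H.index = p ^ m)
    (h1 : Module.Finite (ZMod p) (LH1 𝓛 (triv p G)))
    (h2 : Module.Finite (ZMod p) (LH2 𝓛 (triv p G))) :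
    1 + Module.finrank (ZMod p) (LH2 (subLevels 𝓛 H hH) (triv p ↥H))
        + H.index * Module.finrank (ZMod p) (LH1 𝓛 (triv p G)) ≤
      H.index * (1 + Module.finrank (ZMod p) (LH2 𝓛 (triv p G)))
        + Module.finrank (ZMod p) (LH1 (subLevels 𝓛 H hH) (triv p ↥H)) := by
  obtain ⟨-, -, h⟩ := chi2_submult_int 𝓛 H hH hidx h1 h2
  zify
  linarith

end Main

/-! ## Part 6: transport of level cohomology along a group isomorphism -/

section Transport

variable {k : Type} [CommRing k] {G₁ G₂ : Type} [Group G₁] [Group G₂]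
  (𝓛₁ : Levels G₁) (𝓛₂ : Levels G₂) (e : G₁ ≃* G₂)
  (h12 : 𝓛₁.Compat 𝓛₂ e.toMonoidHom) (h21 : 𝓛₂.Compat 𝓛₁ e.symm.toMonoidHom)
  (V : Type) [AddCommGroup V] [Module k V]

/-- Level `H¹` with trivial coefficients only depends on the group with its level system up to
isomorphism. -/
def LH1congrGroup : LH1 𝓛₂ (Rep.trivial k G₂ V) ≃ₗ[k] LH1 𝓛₁ (Rep.trivial k G₁ V) :=
  LinearEquiv.ofLinearMap
    (LH1map (A := Rep.trivial k G₂ V) (B := Rep.trivial k G₁ V) LinearMap.id h12
      (fun _ _ => rfl))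
    (LH1map (A := Rep.trivial k G₁ V) (B := Rep.trivial k G₂ V) LinearMap.id h21
      (fun _ _ => rfl))
    (by
      apply LinearMap.ext
      intro x
      obtain ⟨z, rfl⟩ := LH1.mk_surjective x
      show LH1.mk 𝓛₁ _ _ = LH1.mk 𝓛₁ _ z
      congr 1
      apply Subtype.ext
      funext g
      show (z : G₁ → V) (e.symm (e g)) = (z : G₁ → V) g
      rw [e.symm_apply_apply])
    (by
      apply LinearMap.ext
      intro x
      obtain ⟨z, rfl⟩ := LH1.mk_surjective x
      show LH1.mk 𝓛₂ _ _ = LH1.mk 𝓛₂ _ z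
      congr 1
      apply Subtype.ext
      funext g
      show (z : G₂ → V) (e (e.symm g)) = (z : G₂ → V) g
      rw [e.apply_symm_apply])

/-- Level `H²` with trivial coefficients only depends on the group with its level system up to
isomorphism. -/
def LH2congrGroup : LH2 𝓛₂ (Rep.trivial k G₂ V) ≃ₗ[k] LH2 𝓛₁ (Rep.trivial k G₁ V) :=
  LinearEquiv.ofLinearMap
    (LH2map (A := Rep.trivial k G₂ V) (B := Rep.trivial k G₁ V) LinearMap.id h12
      (fun _ _ => rfl))
    (LH2map (A := Rep.trivial k G₁ V) (B := Rep.trivial k G₂ V) LinearMap.id h21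
      (fun _ _ => rfl))
    (by
      apply LinearMap.ext
      intro x
      obtain ⟨z, rfl⟩ := LH2.mk_surjective x
      show LH2.mk 𝓛₁ _ _ = LH2.mk 𝓛₁ _ z
      congr 1
      apply Subtype.ext
      funext g
      show (z : G₁ × G₁ → V) (e.symm (e g.1), e.symm (e g.2)) = (z : G₁ × G₁ → V) g
      rw [e.symm_apply_apply, e.symm_apply_apply])
    (by
      apply LinearMap.ext
      intro x
      obtain ⟨z, rfl⟩ := LH2.mk_surjective x
      show LH2.mk 𝓛₂ _ _ = LH2.mk 𝓛₂ _ z
      congr 1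
      apply Subtype.ext
      funext g
      show (z : G₂ × G₂ → V) (e (e.symm g.1), e (e.symm g.2)) = (z : G₂ × G₂ → V) g
      rw [e.apply_symm_apply, e.apply_symm_apply])

end Transport

/-! ## Part 7: the field level (helper3071's carriers) -/

section Field

variable (S : Finset Nat.Primes) (p : ℕ) (F : IntermediateField ℚ (AlgebraicClosure ℚ))

/-- The `S`-level system on `Gal(ℚ̄/F)`: the levels are the subgroups fixing a field unramified
outside `S`. -/
abbrev sLevels : Levels ↥F.fixingSubgroup :=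
  helper2598.fieldLevels (helper2598.sClass S) F.fixingSubgroup.subtype

lemma lev₁_sLevels (M : Rep.{0, 0, 0} (ZMod p) ↥F.fixingSubgroup) :
    lev₁ (sLevels S F) M = helper3071.levS₁ S F.fixingSubgroup.subtype M := by
  ext f
  exact helper2598.sLevels_is₁_iff S F.fixingSubgroup.subtype f

lemma lev₂_sLevels (M : Rep.{0, 0, 0} (ZMod p) ↥F.fixingSubgroup) :
    lev₂ (sLevels S F) M = helper3071.levS₂ S F.fixingSubgroup.subtype M := by
  ext f
  exact helper2598.sLevels_is₂_iff S F.fixingSubgroup.subtype f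

lemma Z2_sLevels (M : Rep.{0, 0, 0} (ZMod p) ↥F.fixingSubgroup) :
    Z2 (sLevels S F) M = helper3071.relZ2S S F.fixingSubgroup.subtype M := by
  rw [Z2, helper3071.relZ2S, lev₂_sLevels]

lemma B2_sLevels (M : Rep.{0, 0, 0} (ZMod p) ↥F.fixingSubgroup) :
    B2 (sLevels S F) M = helper3071.relB2S S F.fixingSubgroup.subtype M := by
  rw [B2, helper3071.relB2S, lev₁_sLevels]

lemma levH1_sLevels (M : Rep.{0, 0, 0} (ZMod p) ↥F.fixingSubgroup) :
    helper2598.levH1 (sLevels S F) M = helper3071.relH1S S F.fixingSubgroup.subtype M := by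
  ext x
  rw [helper2598.mem_levH1_iff, helper3071.mem_relH1S_iff]
  exact exists_congr fun c =>
    and_congr (helper2598.sLevels_is₁_iff S F.fixingSubgroup.subtype _) Iff.rfl

/-- The level `H²` of `Gal(ℚ̄/F)` for the `S`-levels is `helper3071.fieldH2`. -/
def LH2equivField :
    LH2 (sLevels S F) (triv p ↥F.fixingSubgroup) ≃ₗ[ZMod p] helper3071.fieldH2 S p F :=
  helper2598.quotEquivOfEq (Z2_sLevels S p F _) (B2_sLevels S p F _)

/-- The level `H¹` of `Gal(ℚ̄/F)` for the `S`-levels is `helper3071.fieldH1`. -/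
def LH1equivField :
    LH1 (sLevels S F) (triv p ↥F.fixingSubgroup) ≃ₗ[ZMod p] ↥(helper3071.fieldH1 S p F) :=
  helper2598.LH1equivLevH1 (sLevels S F) (triv p ↥F.fixingSubgroup) ≪≫ₗ
    LinearEquiv.ofEq _ _ (levH1_sLevels S p F _)

end Field

/-! ## Part 8: `helper3071.Stmt_Chi2Sub` -/

section Final

variable (S : Finset Nat.Primes) (p : ℕ) (K K' : IntermediateField ℚ (AlgebraicClosure ℚ))

/-- `Gal(ℚ̄/K')` as a subgroup of `Gal(ℚ̄/K)`. -/
abbrev subFix : Subgroup ↥K.fixingSubgroup := K'.fixingSubgroup.subgroupOf K.fixingSubgroup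

lemma subFix_level (hK' : K'.IsUnramifiedOutside S) :
    ∃ U, (sLevels S K).P U ∧ U ≤ subFix K K' :=
  ⟨_, ⟨K', hK', rfl⟩, le_rfl⟩

lemma compat_sub_field (hle : K ≤ K') (hK' : K'.IsUnramifiedOutside S) :
    (subLevels (sLevels S K) (subFix K K') (subFix_level S K K' hK')).Compat (sLevels S K')
      (Subgroup.subgroupOfEquivOfLe
        (IntermediateField.fixingSubgroup_antitone hle)).toMonoidHom := by
  rintro _ ⟨L, hL, rfl⟩
  refine ⟨((L ⊔ K').fixingSubgroup.comap K.fixingSubgroup.subtype).subgroupOf (subFix K K'),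
    ⟨_, ⟨L ⊔ K', IntermediateField.IsUnramifiedOutside.sup hL hK', rfl⟩, ?_, rfl⟩, ?_⟩
  · intro x hx
    exact IntermediateField.fixingSubgroup_antitone le_sup_right hx
  · intro y hy
    show (((Subgroup.subgroupOfEquivOfLe
      (IntermediateField.fixingSubgroup_antitone hle)) y : ↥K'.fixingSubgroup) :
        AlgebraicClosure ℚ ≃ₐ[ℚ] AlgebraicClosure ℚ) ∈ L.fixingSubgroup
    rw [Subgroup.subgroupOfEquivOfLe_apply_coe]
    exact IntermediateField.fixingSubgroup_antitone le_sup_left hy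

lemma compat_field_sub (hle : K ≤ K') (hK' : K'.IsUnramifiedOutside S) :
    (sLevels S K').Compat (subLevels (sLevels S K) (subFix K K') (subFix_level S K K' hK'))
      (Subgroup.subgroupOfEquivOfLe
        (IntermediateField.fixingSubgroup_antitone hle)).symm.toMonoidHom := by
  rintro _ ⟨_, ⟨L, hL, rfl⟩, -, rfl⟩
  refine ⟨_, ⟨L, hL, rfl⟩, ?_⟩
  intro x hx
  show ((((Subgroup.subgroupOfEquivOfLe
      (IntermediateField.fixingSubgroup_antitone hle)).symm x : ↥(subFix K K')) :
        ↥K.fixingSubgroup) : AlgebraicClosure ℚ ≃ₐ[ℚ] AlgebraicClosure ℚ) ∈ L.fixingSubgroup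
  rw [Subgroup.subgroupOfEquivOfLe_symm_apply_coe_coe]
  exact hx

/-- `[G_K : G_{K'}] = n` when `[K' : ℚ] = n [K : ℚ]`. -/
lemma index_subFix (hle : K ≤ K') [FiniteDimensional ℚ K] {n : ℕ}
    (hdeg : Module.finrank ℚ K' = n * Module.finrank ℚ K) : (subFix K K').index = n := by
  have hgal : IsGalois ℚ (AlgebraicClosure ℚ) := by
    have := helper4039.normal_Qbar
    exact ⟨⟩
  have h := Subgroup.relIndex_mul_index (IntermediateField.fixingSubgroup_antitone hle)
  rw [← IntermediateField.finrank_eq_fixingSubgroup_index,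
    ← IntermediateField.finrank_eq_fixingSubgroup_index, hdeg] at h
  exact Nat.eq_of_mul_eq_mul_right Module.finrank_pos h

/-- **`χ₂`-submultiplicativity for a `p`-power Galois layer of `S`-fields**, on helper3071's
field carriers, from the finiteness of the cohomology of the bottom field only (finiteness for
the top field is part of the conclusion). -/
theorem chi2Sub_of_fieldFin [Fact p.Prime] (t : ℕ) (hK : K.IsUnramifiedOutside S)
    (hK' : K'.IsUnramifiedOutside S) (hGal : helper3071.IsGaloisOfDegree K K' (p ^ t))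
    (hfin : helper3071.FieldFin S p K) :
    helper3071.FieldFin S p K' ∧ helper3071.Chi2Sub S p K K' (p ^ t) := by
  obtain ⟨hle, hnormal, hdeg⟩ := hGal
  obtain ⟨f1, f2⟩ := hfin
  have := hK.1
  have : (subFix K K').Normal := hnormal
  have hH := subFix_level S K K' hK'
  have hidx : (subFix K K').index = p ^ t := index_subFix K K' hle hdeg
  have h1 : Module.Finite (ZMod p) (LH1 (sLevels S K) (triv p ↥K.fixingSubgroup)) :=
    Module.Finite.equiv (LH1equivField S p K).symm
  have h2 : Module.Finite (ZMod p) (LH2 (sLevels S K) (triv p ↥K.fixingSubgroup)) :=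
    Module.Finite.equiv (LH2equivField S p K).symm
  obtain ⟨g1, g2, -⟩ := chi2_submult_int (sLevels S K) (subFix K K') hH ⟨t, hidx⟩ h1 h2
  have key := chi2_submult (sLevels S K) (subFix K K') hH ⟨t, hidx⟩ h1 h2
  let e1 := LH1congrGroup (k := ZMod p) (subLevels (sLevels S K) (subFix K K') hH) (sLevels S K')
    (Subgroup.subgroupOfEquivOfLe (IntermediateField.fixingSubgroup_antitone hle))
    (compat_sub_field S K K' hle hK') (compat_field_sub S K K' hle hK') (ZMod p)
  let e2 := LH2congrGroup (k := ZMod p) (subLevels (sLevels S K) (subFix K K') hH) (sLevels S K')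
    (Subgroup.subgroupOfEquivOfLe (IntermediateField.fixingSubgroup_antitone hle))
    (compat_sub_field S K K' hle hK') (compat_field_sub S K K' hle hK') (ZMod p)
  have E1 : Module.finrank (ZMod p) (LH1 (subLevels (sLevels S K) (subFix K K') hH)
      (triv p ↥(subFix K K'))) = Module.finrank (ZMod p) ↥(helper3071.fieldH1 S p K') :=
    e1.finrank_eq.symm.trans (LH1equivField S p K').finrank_eq
  have E2 : Module.finrank (ZMod p) (LH2 (subLevels (sLevels S K) (subFix K K') hH)
      (triv p ↥(subFix K K'))) = Module.finrank (ZMod p) (helper3071.fieldH2 S p K') :=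
    e2.finrank_eq.symm.trans (LH2equivField S p K').finrank_eq
  refine ⟨⟨?_, ?_⟩, ?_⟩
  · exact Module.Finite.equiv (e1.symm ≪≫ₗ LH1equivField S p K')
  · exact Module.Finite.equiv (e2.symm ≪≫ₗ LH2equivField S p K')
  · rw [E1, E2, hidx, (LH1equivField S p K).finrank_eq, (LH2equivField S p K).finrank_eq] at key
    exact key

/-- **FW-CHI2SUB** (group-level route): `helper3071.Stmt_Chi2Sub` from
`helper3071.Stmt_FieldFin`. -/
theorem stmt_Chi2Sub_of (hFin : helper3071.Stmt_FieldFin) : helper3071.Stmt_Chi2Sub := by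
  intro S p K K' t hK hK' hGal
  have : Fact p.Prime := ⟨hK.prime⟩
  exact (chi2Sub_of_fieldFin S p K K' t hK.unram hK' hGal (hFin S p K hK)).2

end Final

end Fermat.Agent.S55.helper8508
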