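/-
S55 (Poitou-Tate) moonshot, local arithmetic core, leaf S55-LA-TATEQ (seat helper8555).  Mathlib only.

TATE'S q-LEMMA.  Let `σ` be an endomorphism of an abelian group `A` with `σ ^ p = 1`, `p` prime,
`D = 1 - σ`, `N = 1 + σ + ... + σ^(p-1)`, `Z = ker D` (the invariants).  If `A / pA` and `A[p]` are
finite then `Z / pZ`, `Z[p]`, `H0^ = Z / NA`, `H1 = ker N / DA` are finite and
  `|H0^|^(p-1) * |A/pA| * |Z[p]|^p = |H1|^(p-1) * |A[p]| * |Z/pZ|^p`,
i.e. `h(A)^(p-1) = q(Z)^p / q(A)` with `q(B) = |B/pB| / |B[p]|`.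

APPLICATION (`normIndex_pow`, `normIndex_eq_prime`).  For a Galois extension `L/K` of fields of
prime degree `p` (Hilbert 90 gives `H1 = 1`):
  `[Kˣ : N Lˣ]^(p-1) * [Lˣ : Lˣ^p] * #μ_p(K)^p = #μ_p(L) * [Kˣ : Kˣ^p]^p`.
Hence, for local fields, the norm index of a cyclic extension of degree `p` (including the wildly
ramified case) is `p`, as a formal consequence of the count of `p`-th powers in `Kˣ` and `Lˣ`:
no Herbrand quotient of units, no completeness argument.

The elementary index calculus of Part 0 (`index_range_comp`, `Fred`, `restr`, the transfer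
principle for polynomial identities at a primitive root and the cyclotomic unit `uPoly`) follows
the S14 module `Fermat/Agent/S14/helper2501_Herbrand.lean` of seat helper2501 (restated here so
that this file imports Mathlib only).
-/
import Mathlib

set_option autoImplicit false

namespace Fermat.Agent.S55.helper8555

open AddSubgroup Polynomial Finset

section general

variable {M : Type*} [AddCommGroup M]

/-- **Index of a composition.**  For endomorphisms `φ`, `ψ` of an abelian group: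
`[L : φψL] * #ker φ * #ker ψ = [L : φL] * [L : ψL] * #ker (φψ)` (unconditionally). -/
theorem index_range_comp (φ ψ : M →+ M) :
    (φ.comp ψ).range.index * Nat.card φ.ker * Nat.card ψ.ker =
      φ.range.index * ψ.range.index * Nat.card (φ.comp ψ).ker := by
  have h1 : (φ.comp ψ).range.index = (ψ.range ⊔ φ.ker).index * φ.range.index := by
    rw [AddMonoidHom.range_comp, index_map]
  have h2 : ψ.range.index = ψ.range.relIndex φ.ker * (ψ.range ⊔ φ.ker).index := by
    rw [← relIndex_sup_left φ.ker ψ.range, relIndex_mul_index le_sup_left]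
  have h3 : Nat.card φ.ker = Nat.card ↥(ψ.range ⊓ φ.ker) * ψ.range.relIndex φ.ker := by
    rw [← inf_relIndex_right ψ.range φ.ker, ← relIndex_bot_left, ← relIndex_bot_left,
      relIndex_mul_relIndex _ _ _ bot_le inf_le_right]
  have h4 : Nat.card (φ.comp ψ).ker = Nat.card ψ.ker * Nat.card ↥(ψ.range ⊓ φ.ker) := by
    have hle : ψ.ker ≤ (φ.comp ψ).ker := by
      intro x hx
      rw [AddMonoidHom.mem_ker] at hx ⊢
      simp [hx]
    rw [← map_comap_eq, AddMonoidHom.comap_ker, ← relIndex_ker, ← relIndex_bot_left,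
      ← relIndex_bot_left, relIndex_mul_relIndex _ _ _ bot_le hle]
  rw [h1, h2, h3, h4]
  ring

/-- "Fredholm": finite kernel and finite cokernel. -/
def Fred (φ : M →+ M) : Prop := φ.range.index ≠ 0 ∧ Nat.card φ.ker ≠ 0

theorem Fred.comp {φ ψ : M →+ M} (hφ : Fred φ) (hψ : Fred ψ) : Fred (φ.comp ψ) := by
  have hk : Nat.card (φ.comp ψ).ker ≠ 0 := by
    have h4 : Nat.card (φ.comp ψ).ker = Nat.card ψ.ker * Nat.card ↥(ψ.range ⊓ φ.ker) := by
      have hle : ψ.ker ≤ (φ.comp ψ).ker := by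
        intro x hx
        rw [AddMonoidHom.mem_ker] at hx ⊢
        simp [hx]
      rw [← map_comap_eq, AddMonoidHom.comap_ker, ← relIndex_ker, ← relIndex_bot_left,
        ← relIndex_bot_left, relIndex_mul_relIndex _ _ _ bot_le hle]
    rw [h4]
    refine mul_ne_zero hψ.2 ?_
    have hfin : Finite φ.ker := (Nat.card_ne_zero.mp hφ.2).2
    have : Finite ↥(ψ.range ⊓ φ.ker) :=
      Finite.of_injective (AddSubgroup.inclusion (inf_le_right : ψ.range ⊓ φ.ker ≤ φ.ker))
        (AddSubgroup.inclusion_injective _)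
    exact Nat.card_pos.ne'
  refine ⟨?_, hk⟩
  have h := index_range_comp φ ψ
  intro h0
  rw [h0, zero_mul, zero_mul] at h
  exact (mul_ne_zero (mul_ne_zero hφ.1 hψ.1) hk) h.symm

theorem Fred.of_comp_left {φ ψ : M →+ M} (h : Fred (φ.comp ψ)) : φ.range.index ≠ 0 := by
  have hle : (φ.comp ψ).range ≤ φ.range := by
    rintro _ ⟨x, rfl⟩; exact ⟨ψ x, rfl⟩
  intro h0
  exact h.1 (Nat.eq_zero_of_zero_dvd (h0 ▸ index_dvd_of_le hle))

theorem Fred.of_comp_right {φ ψ : M →+ M} (h : Fred (φ.comp ψ)) : Nat.card ψ.ker ≠ 0 := by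
  have hle : ψ.ker ≤ (φ.comp ψ).ker := by
    intro x hx
    rw [AddMonoidHom.mem_ker] at hx ⊢
    simp [hx]
  have hfin : Finite (φ.comp ψ).ker := (Nat.card_ne_zero.mp h.2).2
  have : Finite ψ.ker :=
    Finite.of_injective (AddSubgroup.inclusion hle) (AddSubgroup.inclusion_injective _)
  exact Nat.card_pos.ne'

theorem Fred.of_bijective {φ : M →+ M} (h : Function.Bijective φ) :
    φ.range.index = 1 ∧ Nat.card φ.ker = 1 := by
  constructor
  · rw [AddMonoidHom.range_eq_top.mpr h.2, index_top]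
  · rw [(AddMonoidHom.ker_eq_bot_iff φ).mpr h.1]
    simp

/-- Restriction of an endomorphism to a stable subgroup. -/
def restr (S : AddSubgroup M) (u : M →+ M) (hS : ∀ x ∈ S, u x ∈ S) : S →+ S :=
  (u.comp S.subtype).codRestrict S (fun x => hS x x.2)

@[simp] theorem coe_restr (S : AddSubgroup M) (u : M →+ M) (hS : ∀ x ∈ S, u x ∈ S) (x : S) :
    ((restr S u hS x : S) : M) = u x := rfl

theorem addSubgroupOf_map_eq_range_restr (S : AddSubgroup M) (u : M →+ M)
    (hS : ∀ x ∈ S, u x ∈ S) : (S.map u).addSubgroupOf S = (restr S u hS).range := by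
  ext ⟨x, hx⟩
  simp only [mem_addSubgroupOf, AddMonoidHom.mem_range]
  constructor
  · rintro ⟨y, hy, rfl⟩
    exact ⟨⟨y, hy⟩, rfl⟩
  · rintro ⟨⟨y, hy⟩, h⟩
    exact ⟨y, hy, congrArg Subtype.val h⟩

theorem relIndex_map_eq_index_range_restr (S : AddSubgroup M) (u : M →+ M)
    (hS : ∀ x ∈ S, u x ∈ S) : (S.map u).relIndex S = (restr S u hS).range.index := by
  rw [relIndex, addSubgroupOf_map_eq_range_restr]

theorem card_ker_restr (S : AddSubgroup M) (u : M →+ M) (hS : ∀ x ∈ S, u x ∈ S) :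
    Nat.card (restr S u hS).ker = Nat.card ↥(u.ker ⊓ S) := by
  have h1 : ∀ x : (restr S u hS).ker, (x.1.1 : M) ∈ u.ker ⊓ S := by
    intro x
    refine ⟨?_, x.1.2⟩
    have := x.2
    rw [AddMonoidHom.mem_ker] at this
    exact (AddMonoidHom.mem_ker).mpr (congrArg Subtype.val this)
  have h2 : ∀ x : ↥(u.ker ⊓ S), (⟨x.1, x.2.2⟩ : S) ∈ (restr S u hS).ker := by
    intro x
    have : (x.1 : M) ∈ u.ker := x.2.1
    rw [AddMonoidHom.mem_ker] at this
    exact (AddMonoidHom.mem_ker).mpr (Subtype.ext this)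
  exact Nat.card_congr
    { toFun := fun x => ⟨x.1.1, h1 x⟩
      invFun := fun x => ⟨⟨x.1, x.2.2⟩, h2 x⟩
      left_inv := fun x => rfl
      right_inv := fun x => rfl }

end general


/-- Transfer principle: a polynomial identity over `ℤ` that holds at a primitive `p`-th root of
unity in `ℂ` holds at every element `s` of any ring with `1 + s + ... + s^(p-1) = 0`. -/
theorem aeval_eq_zero_of_geom_sum_eq_zero (p : ℕ) [hp : Fact p.Prime] (P : ℤ[X])
    (hP : ∀ ζ : ℂ, IsPrimitiveRoot ζ p → aeval ζ P = 0)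
    {A : Type*} [Ring A] (s : A) (hs : ∑ i ∈ range p, s ^ i = 0) : aeval s P = 0 := by
  have hp0 : p ≠ 0 := hp.out.ne_zero
  have hζ := Complex.isPrimitiveRoot_exp p hp0
  have hmin : cyclotomic p ℤ = minpoly ℤ (Complex.exp (2 * Real.pi * Complex.I / p)) :=
    cyclotomic_eq_minpoly hζ hp.out.pos
  have hdvd : cyclotomic p ℤ ∣ P := by
    rw [hmin]
    exact minpoly.isIntegrallyClosed_dvd (hζ.isIntegral hp.out.pos) (hP _ hζ)
  obtain ⟨Q, rfl⟩ := hdvd
  rw [map_mul, cyclotomic_prime]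
  simp [hs]

/-- the polynomial `u = ∏_{k < p-1} (1 + X + ... + X^k)` -/
noncomputable def uPoly (p : ℕ) : ℤ[X] := ∏ k ∈ range (p - 1), ∑ i ∈ range (k + 1), X ^ i

theorem uPoly_spec (p : ℕ) [hp : Fact p.Prime] (ζ : ℂ) (hζ : IsPrimitiveRoot ζ p) :
    aeval ζ ((1 - X) ^ (p - 1) * uPoly p - C (p : ℤ)) = 0 := by
  have hp1 : p - 1 + 1 = p := Nat.sub_add_cancel hp.out.one_le
  have hζ' : IsPrimitiveRoot ζ (p - 1 + 1) := by rwa [hp1]
  have h := hζ'.prod_one_sub_pow_eq_order
  simp only [uPoly, map_sub, map_mul, map_pow, map_one, aeval_X, map_prod, map_sum, aeval_C]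
  have : (1 - ζ) ^ (p - 1) * ∏ k ∈ range (p - 1), ∑ i ∈ range (k + 1), ζ ^ i =
      ∏ k ∈ range (p - 1), (1 - ζ ^ (k + 1)) := by
    have hc : (1 - ζ) ^ (p - 1) = ∏ _k ∈ range (p - 1), (1 - ζ) := by
      rw [Finset.prod_const, Finset.card_range]
    rw [hc, ← Finset.prod_mul_distrib]
    refine Finset.prod_congr rfl fun k _ => ?_
    rw [mul_neg_geom_sum]
  rw [this, h]
  have : ((p - 1 : ℕ) : ℂ) + 1 = (p : ℂ) := by
    exact_mod_cast congrArg (Nat.cast : ℕ → ℂ) hp1
  simp [this]

theorem exists_vPoly (p : ℕ) [hp : Fact p.Prime] :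
    ∃ v : ℤ[X], ∀ ζ : ℂ, IsPrimitiveRoot ζ p → aeval ζ (uPoly p * v - 1) = 0 := by
  have hp2 : 2 ≤ p := hp.out.two_le
  have key : ∀ k ∈ range (p - 1), ∃ h : ℤ[X], ∀ ζ : ℂ, IsPrimitiveRoot ζ p →
      aeval ζ ((∑ i ∈ range (k + 1), X ^ i) * h) = 1 := by
    intro k hk
    have hk' : k + 1 < p := by have := mem_range.mp hk; omega
    have hcop : (k + 1).Coprime p :=
      ((Nat.Prime.coprime_iff_not_dvd hp.out).mpr
        (Nat.not_dvd_of_pos_of_lt (Nat.succ_pos k) hk')).symm
    obtain ⟨m, -, hm⟩ := Nat.exists_mul_mod_eq_one_of_coprime hcop (by omega : 1 < p)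
    refine ⟨∑ i ∈ range m, (X ^ (k + 1)) ^ i, fun ζ hζ => ?_⟩
    have hζ1 : ζ ≠ 1 := hζ.ne_one (by omega)
    have h1 : (1 - ζ) ≠ 0 := sub_ne_zero.mpr (Ne.symm hζ1)
    simp only [map_mul, map_sum, map_pow, aeval_X]
    apply mul_left_cancel₀ h1
    rw [← mul_assoc, mul_neg_geom_sum, mul_neg_geom_sum, ← pow_mul, mul_one]
    have : ζ ^ ((k + 1) * m) = ζ := by
      rw [← Nat.mod_add_div ((k + 1) * m) p, hm, pow_add, pow_mul, hζ.pow_eq_one]
      simp
    rw [this]
  choose! h hh using key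
  refine ⟨∏ k ∈ range (p - 1), h k, fun ζ hζ => ?_⟩
  simp only [uPoly, map_sub, map_mul, map_one, map_prod]
  rw [← Finset.prod_mul_distrib, sub_eq_zero]
  refine Finset.prod_eq_one fun k hk => ?_
  have := hh k hk ζ hζ
  simpa only [map_mul] using this

/-! ### Part 1: the operator `1 - s` on a module over `ℤ[ζ_p]` -/

/-- If `1 + s + ... + s^(p-1) = 0` on `B` and multiplication by `p` is Fredholm on `B`, then so is
`δ = 1 - s`, and `[B : pB] * #ker δ ^ (p-1) = [B : δB] ^ (p-1) * #B[p]`. -/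
theorem index_range_one_sub_of_fred (B : Type*) [AddCommGroup B] (p : ℕ)
    [hp : Fact p.Prime] (s : AddMonoid.End B) (hs : ∑ i ∈ range p, s ^ i = 0)
    (hB : Fred (nsmulAddMonoidHom (α := B) p)) :
    Fred (1 - s : AddMonoid.End B) ∧
      (nsmulAddMonoidHom (α := B) p).range.index *
          Nat.card (1 - s : AddMonoid.End B).ker ^ (p - 1) =
        (1 - s : AddMonoid.End B).range.index ^ (p - 1) *
          Nat.card (nsmulAddMonoidHom (α := B) p).ker := by
  classical
  have hp1 : p - 1 ≠ 0 := by have := hp.out.two_le; omega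
  set δ : AddMonoid.End B := 1 - s with hδ
  set U : AddMonoid.End B := aeval s (uPoly p) with hU
  obtain ⟨v, hv⟩ := exists_vPoly p
  set V : AddMonoid.End B := aeval s v with hV
  have E1 : δ ^ (p - 1) * U = (p : AddMonoid.End B) := by
    have := aeval_eq_zero_of_geom_sum_eq_zero p _ (uPoly_spec p) s hs
    simp only [map_sub, map_mul, map_pow, map_one, aeval_X, aeval_C] at this
    rw [sub_eq_zero] at this
    rw [hδ, hU, this]
    simp
  have E2 : U * V = 1 := by
    have := aeval_eq_zero_of_geom_sum_eq_zero p _ hv s hs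
    simp only [map_sub, map_mul, map_one] at this
    rw [sub_eq_zero] at this
    exact this
  have E3 : V * U = 1 := by
    have := aeval_eq_zero_of_geom_sum_eq_zero p (v * uPoly p - 1)
      (fun ζ hζ => by rw [mul_comm]; exact hv ζ hζ) s hs
    simp only [map_sub, map_mul, map_one] at this
    rw [sub_eq_zero] at this
    exact this
  have hVbij : Function.Bijective V := by
    refine ⟨Function.LeftInverse.injective (g := U) fun x => ?_,
      Function.RightInverse.surjective (g := U) fun x => ?_⟩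
    · exact congrArg (fun f : AddMonoid.End B => f x) E2
    · exact congrArg (fun f : AddMonoid.End B => f x) E3
  set ν : B →+ B := nsmulAddMonoidHom (α := B) p with hν
  have hνp : (p : AddMonoid.End B) = ν := by
    ext x; simp [hν]; rfl
  have E4 : δ ^ (p - 1) = ν.comp V := by
    have : δ ^ (p - 1) = (δ ^ (p - 1) * U) * V := by rw [mul_assoc, E2, mul_one]
    rw [this, E1, hνp]; rfl
  have hVF : Fred (V : B →+ B) := by
    have := Fred.of_bijective hVbij
    exact ⟨by rw [this.1]; exact one_ne_zero, by rw [this.2]; exact one_ne_zero⟩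
  have hF : Fred (δ ^ (p - 1) : AddMonoid.End B) := by
    rw [E4]; exact hB.comp hVF
  have hFn : ∀ n ≤ p - 1, Fred (δ ^ n : AddMonoid.End B) := by
    intro n hn
    have e1 : δ ^ (p - 1) = δ ^ n * δ ^ (p - 1 - n) := by rw [← pow_add]; congr 1; omega
    have e2 : δ ^ (p - 1) = δ ^ (p - 1 - n) * δ ^ n := by rw [← pow_add]; congr 1; omega
    refine ⟨?_, ?_⟩
    · have hF' := hF; rw [e1] at hF'; exact Fred.of_comp_left (φ := (δ ^ n : AddMonoid.End B)) hF'
    · have hF' := hF; rw [e2] at hF'; exact Fred.of_comp_right (ψ := (δ ^ n : AddMonoid.End B)) hF'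
  set x := (δ : B →+ B).range.index with hx
  set y := Nat.card (δ : B →+ B).ker with hy
  have hδF : Fred (δ : B →+ B) := by
    have := hFn 1 (by omega)
    rwa [pow_one] at this
  have hind : ∀ n ≤ p - 1, (δ ^ n : AddMonoid.End B).range.index * y ^ n =
      x ^ n * Nat.card (δ ^ n : AddMonoid.End B).ker := by
    intro n
    induction n with
    | zero =>
      intro _
      have := Fred.of_bijective (φ := (1 : AddMonoid.End B)) Function.bijective_id
      simp only [pow_zero, mul_one, one_mul]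
      rw [this.1, this.2]
    | succ n ih =>
      intro hn
      have ih' := ih (by omega)
      have hc := index_range_comp (δ : B →+ B) (δ ^ n : AddMonoid.End B)
      have e : (δ ^ (n + 1) : AddMonoid.End B) = (δ : B →+ B).comp (δ ^ n : AddMonoid.End B) := by
        rw [pow_succ']; rfl
      rw [← e, ← hx, ← hy] at hc
      have hkn : Nat.card (δ ^ n : AddMonoid.End B).ker ≠ 0 := (hFn n (by omega)).2
      apply Nat.eq_of_mul_eq_mul_right (Nat.pos_of_ne_zero hkn)
      calc (δ ^ (n + 1) : AddMonoid.End B).range.index * y ^ (n + 1) *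
            Nat.card (δ ^ n : AddMonoid.End B).ker
          = ((δ ^ (n + 1) : AddMonoid.End B).range.index * y *
              Nat.card (δ ^ n : AddMonoid.End B).ker) * y ^ n := by ring
        _ = (x * (δ ^ n : AddMonoid.End B).range.index *
              Nat.card (δ ^ (n + 1) : AddMonoid.End B).ker) * y ^ n := by rw [hc]
        _ = x * ((δ ^ n : AddMonoid.End B).range.index * y ^ n) *
              Nat.card (δ ^ (n + 1) : AddMonoid.End B).ker := by ring
        _ = x ^ (n + 1) * Nat.card (δ ^ (n + 1) : AddMonoid.End B).ker *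
              Nat.card (δ ^ n : AddMonoid.End B).ker := by rw [ih']; ring
  have h1 := hind (p - 1) le_rfl
  have hc := index_range_comp ν (V : B →+ B)
  rw [← E4, (Fred.of_bijective hVbij).1, (Fred.of_bijective hVbij).2, mul_one, mul_one] at hc
  -- hc : I(δ^(p-1)) * k(ν) = I(ν) * k(δ^(p-1))
  have hkδ : Nat.card (δ ^ (p - 1) : AddMonoid.End B).ker ≠ 0 := hF.2
  refine ⟨hδF, ?_⟩
  apply Nat.eq_of_mul_eq_mul_right (Nat.pos_of_ne_zero hkδ)
  calc ν.range.index * y ^ (p - 1) * Nat.card (δ ^ (p - 1) : AddMonoid.End B).ker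
      = (ν.range.index * Nat.card (δ ^ (p - 1) : AddMonoid.End B).ker) * y ^ (p - 1) := by ring
    _ = ((δ ^ (p - 1) : AddMonoid.End B).range.index * y ^ (p - 1)) * Nat.card ν.ker := by
        rw [← hc]; ring
    _ = x ^ (p - 1) * Nat.card ν.ker * Nat.card (δ ^ (p - 1) : AddMonoid.End B).ker := by
        rw [h1]; ring

/-! ### Part 2: the snake identity for two commuting endomorphisms -/

section snake

variable {M : Type*} [AddCommGroup M]

/-- **Snake lemma, as index identities.**  For commuting endomorphisms `φ`, `D` of `M`, with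
`K = ker φ`, `Z = ker D`, `B = DM`:
`[M : φM] = [B : φB] * ρ`, `[Z : φZ] = ρ * δ`, `#(K ⊓ B) = κ * δ`, `#K = #(K ⊓ Z) * κ`
(all unconditional, with the convention that an infinite index is `0`). -/
theorem snake_index (φ D : M →+ M) (hc : φ.comp D = D.comp φ) :
    ∃ ρ δ κ : ℕ, φ.range.index = (D.range.map φ).relIndex D.range * ρ ∧
      (D.ker.map φ).relIndex D.ker = ρ * δ ∧
      Nat.card ↥(φ.ker ⊓ D.range) = κ * δ ∧
      Nat.card φ.ker = Nat.card ↥(φ.ker ⊓ D.ker) * κ := by
  have hcx : ∀ x, φ (D x) = D (φ x) := fun x => DFunLike.congr_fun hc x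
  set T : AddSubgroup M := D.ker.comap φ with hT
  have hT' : T = φ.ker.comap D := by
    ext x
    simp only [hT, mem_comap, AddMonoidHom.mem_ker, hcx]
  have hKT : φ.ker ≤ T := by
    intro x hx
    rw [AddMonoidHom.mem_ker] at hx
    simp only [hT, mem_comap, AddMonoidHom.mem_ker, hx, map_zero]
  have hZT : D.ker ≤ T := by
    intro x hx
    rw [AddMonoidHom.mem_ker] at hx
    simp only [hT, mem_comap, AddMonoidHom.mem_ker, ← hcx, hx, map_zero]
  refine ⟨φ.range.relIndex D.ker, (φ.ker ⊔ D.ker).relIndex T, Nat.card (φ.ker.map D),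
    ?_, ?_, ?_, ?_⟩
  · have h1 : φ.range.index = φ.range.relIndex D.ker * (φ.range ⊔ D.ker).index := by
      rw [← relIndex_sup_left D.ker φ.range, relIndex_mul_index le_sup_left]
    have h2 : (D.range.map φ).relIndex D.range = (φ.range ⊔ D.ker).index := by
      have e : D.range.map φ = φ.range.map D := by
        rw [AddMonoidHom.map_range, AddMonoidHom.map_range, hc]
      have h : (φ.range.map D).relIndex ((⊤ : AddSubgroup M).map D) = (φ.range ⊔ D.ker).index := by
        rw [relIndex_map_map, top_sup_eq, relIndex_top_right]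
      rw [← AddMonoidHom.range_eq_map] at h
      rw [e, h]
    rw [h1, h2, mul_comm]
  · have hTmap : T.map φ = φ.range ⊓ D.ker := by rw [hT, map_comap_eq]
    have hle1 : D.ker.map φ ≤ T.map φ := map_mono hZT
    have hle2 : T.map φ ≤ D.ker := by rw [hTmap]; exact inf_le_right
    have h3 : (D.ker.map φ).relIndex (T.map φ) = (φ.ker ⊔ D.ker).relIndex T := by
      rw [relIndex_map_map, sup_of_le_left hKT, sup_comm]
    have h4 : (T.map φ).relIndex D.ker = φ.range.relIndex D.ker := by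
      rw [hTmap, inf_relIndex_right]
    rw [← relIndex_mul_relIndex _ _ _ hle1 hle2, h3, h4, mul_comm]
  · have hTmap : T.map D = D.range ⊓ φ.ker := by rw [hT', map_comap_eq]
    have hle1 : φ.ker.map D ≤ T.map D := map_mono hKT
    have h5 : Nat.card ↥(φ.ker ⊓ D.range) = Nat.card ↥(T.map D) := by rw [hTmap, inf_comm]
    have h6 : (φ.ker.map D).relIndex (T.map D) = (φ.ker ⊔ D.ker).relIndex T := by
      rw [relIndex_map_map, sup_of_le_left hZT]
    rw [h5, ← h6, ← relIndex_bot_left, ← relIndex_bot_left,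
      relIndex_mul_relIndex _ _ _ bot_le hle1]
  · have h7 : Nat.card ↥(φ.ker.map D) = (φ.ker ⊓ D.ker).relIndex φ.ker := by
      rw [← relIndex_ker, inf_comm, inf_relIndex_right]
    rw [h7, ← relIndex_bot_left, ← relIndex_bot_left,
      relIndex_mul_relIndex _ _ _ bot_le inf_le_left]

/-! ### Part 3: the index chase for `D`, `N` with `DN = ND = 0` and `N = P` on `ker D` -/

/-- With `Z = ker D`, `B = DM`, `DN = ND = 0`, `N = P` on `Z`:
`[Z : PZ] = t * [Z : NM]`, `[B : DB] = r * t`, `[ker N : DM] = ε * r`,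
`#(ker P ⊓ Z) = #(Z ⊓ B) * ε`. -/
theorem chase_index (D N P : M →+ M) (hDN : ∀ x, D (N x) = 0) (hND : ∀ x, N (D x) = 0)
    (hNP : ∀ x, D x = 0 → N x = P x) :
    ∃ t r ε : ℕ, (D.ker.map P).relIndex D.ker = t * N.range.relIndex D.ker ∧
      (D.range.map D).relIndex D.range = r * t ∧
      D.range.relIndex N.ker = ε * r ∧
      Nat.card ↥(P.ker ⊓ D.ker) = Nat.card ↥(D.ker ⊓ D.range) * ε := by
  have hNZ : N.range ≤ D.ker := by
    rintro _ ⟨x, rfl⟩
    exact (AddMonoidHom.mem_ker).mpr (hDN x)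
  have hBN : D.range ≤ N.ker := by
    rintro _ ⟨x, rfl⟩
    exact (AddMonoidHom.mem_ker).mpr (hND x)
  have hEN : P.ker ⊓ D.ker ≤ N.ker := by
    rintro x ⟨hx1, hx2⟩
    have h1 : P x = 0 := (AddMonoidHom.mem_ker).mp hx1
    have h2 : D x = 0 := (AddMonoidHom.mem_ker).mp hx2
    refine (AddMonoidHom.mem_ker).mpr ?_
    rw [hNP x h2, h1]
  refine ⟨(D.ker ⊔ N.ker).index, (D.range ⊔ D.ker).relIndex N.ker,
    D.range.relIndex (P.ker ⊓ D.ker), ?_, ?_, ?_, ?_⟩
  · have e : D.ker.map P = D.ker.map N := by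
      ext y
      simp only [AddSubgroup.mem_map, AddMonoidHom.mem_ker]
      constructor
      · rintro ⟨x, hx, rfl⟩; exact ⟨x, hx, hNP x hx⟩
      · rintro ⟨x, hx, rfl⟩; exact ⟨x, hx, (hNP x hx).symm⟩
    have hle1 : D.ker.map N ≤ N.range := by
      rintro _ ⟨x, -, rfl⟩; exact ⟨x, rfl⟩
    have h : (D.ker.map N).relIndex ((⊤ : AddSubgroup M).map N) = (D.ker ⊔ N.ker).index := by
      rw [relIndex_map_map, top_sup_eq, relIndex_top_right]
    rw [← AddMonoidHom.range_eq_map] at h
    rw [e, ← relIndex_mul_relIndex _ _ _ hle1 hNZ, h]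
  · have h : (D.range.map D).relIndex ((⊤ : AddSubgroup M).map D) = (D.range ⊔ D.ker).index := by
      rw [relIndex_map_map, top_sup_eq, relIndex_top_right]
    rw [← AddMonoidHom.range_eq_map] at h
    have hle : D.range ⊔ D.ker ≤ D.ker ⊔ N.ker := sup_le (hBN.trans le_sup_right) le_sup_left
    have e : (D.range ⊔ D.ker) ⊔ N.ker = D.ker ⊔ N.ker := by
      rw [sup_comm D.range D.ker, sup_assoc, sup_of_le_right hBN]
    have h2 : (D.range ⊔ D.ker).relIndex (D.ker ⊔ N.ker) = (D.range ⊔ D.ker).relIndex N.ker := by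
      rw [← e, relIndex_sup_left]
    rw [h, ← relIndex_mul_index hle, h2]
  · have hle1 : D.range ≤ D.range ⊔ (P.ker ⊓ D.ker) := le_sup_left
    have hle2 : D.range ⊔ (P.ker ⊓ D.ker) ≤ N.ker := sup_le hBN hEN
    have hmod : (D.range ⊔ D.ker) ⊓ N.ker = D.range ⊔ (P.ker ⊓ D.ker) := by
      apply le_antisymm
      · rintro x ⟨hx1, hx2⟩
        obtain ⟨b, hb, z, hz, rfl⟩ := AddSubgroup.mem_sup.mp hx1
        refine AddSubgroup.add_mem_sup hb ⟨?_, hz⟩
        have hb' : N b = 0 := (AddMonoidHom.mem_ker).mp (hBN hb)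
        have hz' : D z = 0 := (AddMonoidHom.mem_ker).mp hz
        have : N (b + z) = 0 := (AddMonoidHom.mem_ker).mp hx2
        rw [map_add, hb', zero_add, hNP z hz'] at this
        exact (AddMonoidHom.mem_ker).mpr this
      · exact le_inf (sup_le_sup_left inf_le_right _) hle2
    have h3 : (D.range ⊔ (P.ker ⊓ D.ker)).relIndex N.ker = (D.range ⊔ D.ker).relIndex N.ker := by
      rw [← hmod, inf_relIndex_right]
    rw [← relIndex_mul_relIndex _ _ _ hle1 hle2, relIndex_sup_left, h3]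
  · have e : D.ker ⊓ D.range = D.range ⊓ (P.ker ⊓ D.ker) := by
      apply le_antisymm
      · rintro x ⟨hx1, hx2⟩
        refine ⟨hx2, ?_, hx1⟩
        have h1 : D x = 0 := (AddMonoidHom.mem_ker).mp hx1
        have h2 : N x = 0 := (AddMonoidHom.mem_ker).mp (hBN hx2)
        rw [hNP x h1] at h2
        exact (AddMonoidHom.mem_ker).mpr h2
      · rintro x ⟨hx1, -, hx2⟩
        exact ⟨hx2, hx1⟩
    rw [e, ← inf_relIndex_right D.range (P.ker ⊓ D.ker), ← relIndex_bot_left, ← relIndex_bot_left,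
      relIndex_mul_relIndex _ _ _ bot_le inf_le_right]

end snake

/-- the arithmetic that combines the snake, the chase and Part 1 -/
theorem arith_combine (p : ℕ) (hp : p ≠ 0) {a a' b b' z z' d d' x y ρ δ κ t r ε : ℕ}
    (h1 : a = b * ρ) (h2 : z = ρ * δ) (h3 : b' = κ * δ) (h4 : a' = z' * κ)
    (c1 : z = t * x) (c2 : d = r * t) (c3 : y = ε * r) (c4 : z' = d' * ε)
    (s2 : b * d' ^ (p - 1) = d ^ (p - 1) * b') (hd : d ≠ 0) (hb' : b' ≠ 0) :
    x ^ (p - 1) * a * z' ^ p = y ^ (p - 1) * a' * z ^ p := by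
  obtain ⟨q, rfl⟩ : ∃ q, p = q + 1 := ⟨p - 1, by omega⟩
  rw [Nat.add_sub_cancel] at s2 ⊢
  have hpos : 0 < d ^ q * b' := Nat.pos_of_ne_zero (mul_ne_zero (pow_ne_zero _ hd) hb')
  apply Nat.eq_of_mul_eq_mul_right hpos
  subst h1 h3 c2 c3 c4
  subst h4
  subst h2
  calc x ^ q * (b * ρ) * (d' * ε) ^ (q + 1) * ((r * t) ^ q * (κ * δ))
      = (t * x) ^ q * (r ^ q * b * ρ * κ * δ * (d' * ε) ^ (q + 1)) := by ring
    _ = (ρ * δ) ^ q * (r ^ q * b * ρ * κ * δ * (d' * ε) ^ (q + 1)) := by rw [← c1]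
    _ = (ε * r) ^ q * ((d' * ε) * κ) * (ρ * δ) ^ (q + 1) * (b * d' ^ q) := by ring
    _ = (ε * r) ^ q * ((d' * ε) * κ) * (ρ * δ) ^ (q + 1) * ((r * t) ^ q * (κ * δ)) := by rw [s2]

/-! ### Part 4: Tate's q-lemma -/

theorem end_sum_apply {M : Type*} [AddCommGroup M] (f : ℕ → AddMonoid.End M) (t : Finset ℕ)
    (x : M) : (∑ i ∈ t, f i) x = ∑ i ∈ t, f i x := by
  classical
  induction t using Finset.induction_on with
  | empty => simp
  | insert a t ha ih => rw [Finset.sum_insert ha, Finset.sum_insert ha, ← ih]; rfl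

theorem end_pow_apply_of_fixed {M : Type*} [AddCommGroup M] (σ : AddMonoid.End M) (x : M)
    (hx : σ x = x) (i : ℕ) : (σ ^ i) x = x := by
  induction i with
  | zero => simp
  | succ i ih =>
    rw [pow_succ]
    show (σ ^ i) (σ x) = x
    rw [hx, ih]

theorem end_geom_sum_apply_of_fixed {M : Type*} [AddCommGroup M] (σ : AddMonoid.End M) (x : M)
    (hx : (1 - σ : AddMonoid.End M) x = 0) (p : ℕ) :
    (∑ i ∈ range p, σ ^ i : AddMonoid.End M) x = p • x := by
  have hσx : σ x = x := by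
    have : x - σ x = 0 := hx
    exact (sub_eq_zero.mp this).symm
  rw [end_sum_apply]
  simp [end_pow_apply_of_fixed σ x hσx]

theorem end_pow_apply_coe {M : Type*} [AddCommGroup M] (S : AddSubgroup M) (u : AddMonoid.End M)
    (s : AddMonoid.End S) (hs : ∀ x : S, ((s x : S) : M) = u x) (i : ℕ) (x : S) :
    (((s ^ i) x : S) : M) = (u ^ i) x := by
  induction i generalizing x with
  | zero => rfl
  | succ i ih =>
    rw [pow_succ, pow_succ]
    show (((s ^ i) (s x) : S) : M) = (u ^ i) (u x)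
    rw [ih, hs]

/-- **Tate's q-lemma** for a cyclic group of prime order `p` acting on an abelian group `A` on
which multiplication by `p` has finite kernel and cokernel.  With `D = 1 - σ`,
`N = 1 + σ + ... + σ^(p-1)`, `Z = ker D`:  `Z / NA`, `ker N / DA`, `Z / pZ`, `Z[p]` are finite and
`|Z/NA|^(p-1) * |A/pA| * |Z[p]|^p = |ker N/DA|^(p-1) * |A[p]| * |Z/pZ|^p`. -/
theorem tate_q {A : Type*} [AddCommGroup A] (p : ℕ) [hp : Fact p.Prime] (σ : AddMonoid.End A)
    (hσ : σ ^ p = 1) (hA : Fred (nsmulAddMonoidHom (α := A) p)) :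
    (∑ i ∈ range p, σ ^ i : AddMonoid.End A).range.relIndex (1 - σ : AddMonoid.End A).ker ≠ 0 ∧
    (1 - σ : AddMonoid.End A).range.relIndex (∑ i ∈ range p, σ ^ i : AddMonoid.End A).ker ≠ 0 ∧
    ((1 - σ : AddMonoid.End A).ker.map (nsmulAddMonoidHom (α := A) p)).relIndex
        (1 - σ : AddMonoid.End A).ker ≠ 0 ∧
    Nat.card ↥((nsmulAddMonoidHom (α := A) p).ker ⊓ (1 - σ : AddMonoid.End A).ker) ≠ 0 ∧
    (∑ i ∈ range p, σ ^ i : AddMonoid.End A).range.relIndex
          (1 - σ : AddMonoid.End A).ker ^ (p - 1) *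
        (nsmulAddMonoidHom (α := A) p).range.index *
        Nat.card ↥((nsmulAddMonoidHom (α := A) p).ker ⊓ (1 - σ : AddMonoid.End A).ker) ^ p =
      (1 - σ : AddMonoid.End A).range.relIndex
          (∑ i ∈ range p, σ ^ i : AddMonoid.End A).ker ^ (p - 1) *
        Nat.card (nsmulAddMonoidHom (α := A) p).ker *
        ((1 - σ : AddMonoid.End A).ker.map (nsmulAddMonoidHom (α := A) p)).relIndex
          (1 - σ : AddMonoid.End A).ker ^ p := by
  classical
  have hp0 : p ≠ 0 := hp.out.ne_zero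
  set D : A →+ A := (1 - σ : AddMonoid.End A) with hD
  set N : A →+ A := (∑ i ∈ range p, σ ^ i : AddMonoid.End A) with hN
  set P : A →+ A := nsmulAddMonoidHom (α := A) p with hP
  have hDN0 : (1 - σ : AddMonoid.End A) * (∑ i ∈ range p, σ ^ i) = 0 := by
    rw [mul_neg_geom_sum, hσ, sub_self]
  have hND0 : (∑ i ∈ range p, σ ^ i : AddMonoid.End A) * (1 - σ) = 0 := by
    rw [geom_sum_mul_neg, hσ, sub_self]
  have hDN : ∀ x, D (N x) = 0 := fun x => congrArg (fun f : AddMonoid.End A => f x) hDN0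
  have hND : ∀ x, N (D x) = 0 := fun x => congrArg (fun f : AddMonoid.End A => f x) hND0
  have hNP : ∀ x, D x = 0 → N x = P x := fun x hx =>
    (end_geom_sum_apply_of_fixed σ x hx p).trans rfl
  have hc : P.comp D = D.comp P := by
    ext x
    simp [hP]
  obtain ⟨ρ, δ, κ, h1, h2, h3, h4⟩ := snake_index P D hc
  obtain ⟨t, r, ε, c1, c2, c3, c4⟩ := chase_index D N P hDN hND hNP
  -- Part 1 on `B = DA`
  set B : AddSubgroup A := D.range with hB
  have hσD : ∀ x, σ (D x) = D (σ x) := by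
    intro x
    show σ (x - σ x) = σ x - σ (σ x)
    rw [map_sub]
  have hσB : ∀ x ∈ B, σ x ∈ B := by
    rintro _ ⟨y, rfl⟩
    exact ⟨σ y, (hσD y).symm⟩
  have hDB : ∀ x ∈ B, D x ∈ B := fun x _ => ⟨x, rfl⟩
  have hPB : ∀ x ∈ B, P x ∈ B := fun x hx => B.nsmul_mem hx p
  set s : AddMonoid.End B := restr B σ hσB with hs
  have hs0 : ∑ i ∈ range p, s ^ i = 0 := by
    refine AddMonoidHom.ext fun x => Subtype.ext ?_
    have e : (((∑ i ∈ range p, s ^ i : AddMonoid.End B) x : B) : A) = N x.1 :=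
      calc (((∑ i ∈ range p, s ^ i : AddMonoid.End B) x : B) : A)
          = ((∑ i ∈ range p, (s ^ i) x : B) : A) := congrArg Subtype.val (end_sum_apply _ _ x)
        _ = ∑ i ∈ range p, (((s ^ i) x : B) : A) := AddSubgroup.val_finsetSum _ _ _
        _ = ∑ i ∈ range p, (σ ^ i) x.1 :=
            Finset.sum_congr rfl fun i _ => end_pow_apply_coe B σ s (fun _ => rfl) i x
        _ = (∑ i ∈ range p, σ ^ i : AddMonoid.End A) x.1 := (end_sum_apply _ _ x.1).symm
    have hNx : N x.1 = 0 := by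
      obtain ⟨y, hy⟩ := x.2
      rw [← hy]
      exact hND y
    exact e.trans hNx
  have e1 : (1 - s : AddMonoid.End B) = restr B D hDB := by
    refine AddMonoidHom.ext fun x => Subtype.ext ?_
    rfl
  have e2 : nsmulAddMonoidHom (α := ↥B) p = restr B P hPB := by
    refine AddMonoidHom.ext fun x => Subtype.ext ?_
    simp [hP]
  have hb' : Nat.card ↥(P.ker ⊓ B) ≠ 0 := by
    have hfin : Finite P.ker := (Nat.card_ne_zero.mp hA.2).2
    have : Finite ↥(P.ker ⊓ B) :=
      Finite.of_injective (AddSubgroup.inclusion (inf_le_left : P.ker ⊓ B ≤ P.ker))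
        (AddSubgroup.inclusion_injective _)
    exact Nat.card_pos.ne'
  have hb : (B.map P).relIndex B ≠ 0 := by
    intro h0
    apply hA.1
    rw [h1, h0, zero_mul]
  have hBfred : Fred (nsmulAddMonoidHom (α := ↥B) p) := by
    rw [e2]
    refine ⟨?_, ?_⟩
    · rw [← relIndex_map_eq_index_range_restr]; exact hb
    · rw [card_ker_restr]; exact hb'
  obtain ⟨hδF, hS2⟩ := index_range_one_sub_of_fred B p s hs0 hBfred
  rw [e1, e2, ← relIndex_map_eq_index_range_restr, ← relIndex_map_eq_index_range_restr,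
    card_ker_restr, card_ker_restr] at hS2
  have hd : (B.map D).relIndex B ≠ 0 := by
    have := hδF.1
    rwa [e1, ← relIndex_map_eq_index_range_restr] at this
  -- finiteness
  have hρ : ρ ≠ 0 := by
    intro h0; apply hA.1; rw [h1, h0, mul_zero]
  have hz' : Nat.card ↥(P.ker ⊓ D.ker) ≠ 0 := by
    intro h0; apply hA.2; rw [h4, h0, zero_mul]
  have hδ : δ ≠ 0 := by
    intro h0; apply hb'; rw [h3, h0, mul_zero]
  have hz : (D.ker.map P).relIndex D.ker ≠ 0 := by
    rw [h2]; exact mul_ne_zero hρ hδ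
  have hx : N.range.relIndex D.ker ≠ 0 := by
    intro h0; apply hz; rw [c1, h0, mul_zero]
  have ht : t ≠ 0 := by
    intro h0; apply hz; rw [c1, h0, zero_mul]
  have hr : r ≠ 0 := by
    intro h0; apply hd; rw [c2, h0, zero_mul]
  have hε : ε ≠ 0 := by
    intro h0; apply hz'; rw [c4, h0, mul_zero]
  have hy : B.relIndex N.ker ≠ 0 := by
    rw [c3]; exact mul_ne_zero hε hr
  exact ⟨hx, hy, hz, hz', arith_combine p hp0 h1 h2 h3 h4 c1 c2 c3 c4 hS2 hd hb'⟩

/-! ### Part 5: multiplicative form -/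

section mul

variable {G : Type*} [CommGroup G]

/-- the additive endomorphism of `Additive G` attached to a monoid endomorphism of `G` -/
def addEnd (γ : Monoid.End G) : AddMonoid.End (Additive G) := MonoidHom.toAdditive γ

theorem addEnd_pow_apply (γ : Monoid.End G) (i : ℕ) (a : Additive G) :
    (addEnd γ ^ i) a = Additive.ofMul ((γ ^ i) (Additive.toMul a)) := by
  induction i generalizing a with
  | zero => rfl
  | succ i ih =>
    rw [pow_succ, pow_succ]
    show (addEnd γ ^ i) (addEnd γ a) = Additive.ofMul ((γ ^ i) (γ (Additive.toMul a)))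
    rw [ih]
    rfl

/-- **Tate's q-lemma, multiplicative form.** -/
theorem tate_q_mul (p : ℕ) [hp : Fact p.Prime] (γ : Monoid.End G) (hγ : γ ^ p = 1)
    (dM nM : G →* G) (hd : ∀ u, dM u = u / γ u) (hn : ∀ u, nM u = ∏ i ∈ range p, (γ ^ i) u)
    (hI : (powMonoidHom p : G →* G).range.index ≠ 0)
    (hK : Nat.card (powMonoidHom p : G →* G).ker ≠ 0) :
    nM.range.relIndex dM.ker ≠ 0 ∧ dM.range.relIndex nM.ker ≠ 0 ∧
    (dM.ker.map (powMonoidHom p)).relIndex dM.ker ≠ 0 ∧
    Nat.card ↥((powMonoidHom p : G →* G).ker ⊓ dM.ker) ≠ 0 ∧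
    nM.range.relIndex dM.ker ^ (p - 1) * (powMonoidHom p : G →* G).range.index *
        Nat.card ↥((powMonoidHom p : G →* G).ker ⊓ dM.ker) ^ p =
      dM.range.relIndex nM.ker ^ (p - 1) * Nat.card (powMonoidHom p : G →* G).ker *
        (dM.ker.map (powMonoidHom p)).relIndex dM.ker ^ p := by
  set σ : AddMonoid.End (Additive G) := addEnd γ with hσdef
  have hσ : σ ^ p = 1 := by
    refine AddMonoidHom.ext fun a => ?_
    exact (addEnd_pow_apply γ p a).trans (by rw [hγ]; rfl)
  have eD : (1 - σ : AddMonoid.End (Additive G)) = MonoidHom.toAdditive dM := by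
    refine AddMonoidHom.ext fun a => ?_
    exact (congrArg Additive.ofMul (hd (Additive.toMul a))).symm
  have eN : (∑ i ∈ range p, σ ^ i : AddMonoid.End (Additive G)) = MonoidHom.toAdditive nM := by
    refine AddMonoidHom.ext fun a => ?_
    have h1 : (∑ i ∈ range p, σ ^ i : AddMonoid.End (Additive G)) a =
        ∑ i ∈ range p, (σ ^ i) a := end_sum_apply _ _ a
    have h2 : ∑ i ∈ range p, (σ ^ i) a =
        ∑ i ∈ range p, Additive.ofMul ((γ ^ i) (Additive.toMul a)) :=
      Finset.sum_congr rfl fun i _ => addEnd_pow_apply γ i a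
    have h3 : Additive.ofMul (nM (Additive.toMul a)) =
        ∑ i ∈ range p, Additive.ofMul ((γ ^ i) (Additive.toMul a)) := by
      rw [hn, ofMul_prod]
    exact h1.trans (h2.trans h3.symm)
  have eP : nsmulAddMonoidHom (α := Additive G) p = MonoidHom.toAdditive (powMonoidHom p) :=
    AddMonoidHom.ext fun a => rfl
  have hA : Fred (nsmulAddMonoidHom (α := Additive G) p) := by
    rw [eP]
    exact ⟨hI, hK⟩
  have key := tate_q p σ hσ hA
  rw [eD, eN, eP] at key
  exact key

end mul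

/-! ### Part 6: fields -/

section fields

open groupCohomology

variable {K L : Type*} [Field K] [Field L] [Algebra K L] [FiniteDimensional K L]

/-- **Hilbert 90** for a cyclic extension (universe polymorphic), deduced from Noether's form:
if `Gal(L/K)` is generated by `g` of order `p` and `∏_{i<p} g^i u = 1` then `u = y / g y`. -/
theorem hilbert90_cyclic (g : L ≃ₐ[K] L) (p : ℕ) (hord : orderOf g = p)
    (hpow : ∀ τ : L ≃ₐ[K] L, ∃ n : ℕ, g ^ n = τ)
    (u : Lˣ) (hu : ∏ i ∈ range p, (g ^ i) • u = 1) : ∃ y : Lˣ, y / g • y = u := by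
  classical
  set F : ℕ → Lˣ := fun n => ∏ i ∈ range n, (g ^ i) • u with hF
  have hFsucc : ∀ n, F (n + 1) = F n * (g ^ n) • u := fun n => Finset.prod_range_succ _ _
  have hF0 : F 0 = 1 := Finset.prod_range_zero _
  have hFadd : ∀ m n, F (m + n) = F m * (g ^ m) • F n := by
    intro m n
    induction n with
    | zero => rw [add_zero, hF0, smul_one, mul_one]
    | succ n ih =>
      rw [← add_assoc, hFsucc, ih, hFsucc, smul_mul', ← mul_smul, ← pow_add, mul_assoc]
  have hgp : g ^ p = 1 := hord ▸ pow_orderOf_eq_one g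
  have hFp : ∀ k, F (p * k) = 1 := by
    intro k
    induction k with
    | zero => rw [mul_zero, hF0]
    | succ k ih =>
      rw [Nat.mul_succ, hFadd, ih, one_mul, pow_mul, hgp, one_pow, one_smul]
      exact hu
  have hFmod : ∀ n, F n = F (n % p) := by
    intro n
    conv_lhs => rw [← Nat.div_add_mod n p]
    rw [hFadd, hFp, one_mul, pow_mul, hgp, one_pow, one_smul]
  have hFeq : ∀ a b, g ^ a = g ^ b → F a = F b := by
    intro a b hab
    have hmod : a % p = b % p := by
      have h0 : a ≡ b [MOD orderOf g] := pow_eq_pow_iff_modEq.mp hab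
      rw [hord] at h0
      exact h0
    rw [hFmod a, hFmod b, hmod]
  choose n hn using hpow
  have hcoc : IsMulCocycle₁ (fun τ : L ≃ₐ[K] L => F (n τ)) := by
    intro τ₁ τ₂
    show F (n (τ₁ * τ₂)) = τ₁ • F (n τ₂) * F (n τ₁)
    have h1 : F (n (τ₁ * τ₂)) = F (n τ₁ + n τ₂) := hFeq _ _ (by rw [hn, pow_add, hn, hn])
    rw [h1, hFadd, hn, mul_comm]
  obtain ⟨β, hβ⟩ := isMulCoboundary₁_of_isMulCocycle₁_of_aut_to_units _ hcoc
  have h1 : F (n g) = u := by
    have h2 : F (n g) = F 1 := hFeq _ _ (by rw [hn, pow_one])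
    rw [h2, hFsucc, hF0, one_mul, pow_zero, one_smul]
  refine ⟨β⁻¹, ?_⟩
  have h3 : g • β / β = F (n g) := hβ g
  rw [h1] at h3
  rw [smul_inv', inv_div_inv]
  exact h3

variable [IsGalois K L]

/-- **Norm index from power indices.**  For a Galois extension `L/K` of fields of prime degree
`p` with `[Lˣ : Lˣ^p]` finite: `[Kˣ : Kˣ^p]` and the norm index `[Kˣ : N Lˣ]` are finite and
`[Kˣ : N Lˣ]^(p-1) * [Lˣ : Lˣ^p] * #μ_p(K)^p = #μ_p(L) * [Kˣ : Kˣ^p]^p`. -/
theorem normIndex_pow (p : ℕ) [hp : Fact p.Prime] (hdeg : Module.finrank K L = p)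
    (haL : (powMonoidHom p : Lˣ →* Lˣ).range.index ≠ 0) :
    (powMonoidHom p : Kˣ →* Kˣ).range.index ≠ 0 ∧
    (Units.map (Algebra.norm K : L →* K)).range.index ≠ 0 ∧
    (Units.map (Algebra.norm K : L →* K)).range.index ^ (p - 1) *
        (powMonoidHom p : Lˣ →* Lˣ).range.index * Nat.card (powMonoidHom p : Kˣ →* Kˣ).ker ^ p =
      Nat.card (powMonoidHom p : Lˣ →* Lˣ).ker * (powMonoidHom p : Kˣ →* Kˣ).range.index ^ p := by
  classical
  have hcard : Nat.card (L ≃ₐ[K] L) = p := (IsGalois.card_aut_eq_finrank K L).trans hdeg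
  have : Finite (L ≃ₐ[K] L) := Nat.finite_of_card_ne_zero (hcard ▸ hp.out.ne_zero)
  obtain ⟨g, hg1⟩ : ∃ g : L ≃ₐ[K] L, g ≠ 1 := by
    have : Nontrivial (L ≃ₐ[K] L) :=
      Finite.one_lt_card_iff_nontrivial.mp (hcard ▸ hp.out.one_lt)
    exact exists_ne 1
  have hgp : g ^ p = 1 := by rw [← hcard]; exact pow_card_eq_one'
  have hord : orderOf g = p := orderOf_eq_prime hgp hg1
  have hpow : ∀ τ : L ≃ₐ[K] L, ∃ n : ℕ, g ^ n = τ := fun τ =>
    (Submonoid.mem_powers_iff τ g).mp (mem_powers_of_prime_card hcard hg1)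
  -- the product over the Galois group
  have hprod : ∀ x : L, ∏ τ : L ≃ₐ[K] L, τ x = ∏ i ∈ range p, (g ^ i) x := by
    intro x
    have hinj : Set.InjOn (fun i : ℕ => g ^ i) (range p : Set ℕ) := by
      have h := pow_injOn_Iio_orderOf (x := g)
      rw [hord] at h
      intro a ha b hb hab
      exact h (by simpa using ha) (by simpa using hb) hab
    have himg : (range p).image (fun i : ℕ => g ^ i) = Finset.univ := by
      apply Finset.eq_univ_of_card
      rw [Finset.card_image_of_injOn hinj, card_range, ← Nat.card_eq_fintype_card, hcard]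
    rw [← himg, Finset.prod_image hinj]
  set γ : Monoid.End Lˣ := MulDistribMulAction.toMonoidEnd (L ≃ₐ[K] L) Lˣ g with hγdef
  have hγi : ∀ (i : ℕ) (u : Lˣ), (γ ^ i) u = (g ^ i) • u := by
    intro i u
    rw [hγdef, ← map_pow]
    rfl
  have hγp : γ ^ p = 1 := by
    rw [hγdef, ← map_pow, hgp, map_one]
  let dM : Lˣ →* Lˣ :=
    { toFun := fun u => u / γ u
      map_one' := by simp
      map_mul' := fun a b => by rw [map_mul]; exact mul_div_mul_comm a b (γ a) (γ b) }
  let nM : Lˣ →* Lˣ :=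
    { toFun := fun u => ∏ i ∈ range p, (γ ^ i) u
      map_one' := by simp
      map_mul' := fun a b => by simp [Finset.prod_mul_distrib] }
  have hnorm : ∀ u : Lˣ, ((nM u : Lˣ) : L) = algebraMap K L (Algebra.norm K (u : L)) := by
    intro u
    rw [Algebra.norm_eq_prod_automorphisms, hprod]
    show ((∏ i ∈ range p, (γ ^ i) u : Lˣ) : L) = _
    rw [Units.coe_prod]
    refine Finset.prod_congr rfl fun i _ => ?_
    rw [hγi]
    rfl
  let ι : Kˣ →* Lˣ := Units.map (algebraMap K L : K →* L)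
  have hι : Function.Injective ι := Units.map_injective (algebraMap K L).injective
  have hker : dM.ker = ι.range := by
    ext u
    rw [MonoidHom.mem_ker, MonoidHom.mem_range]
    constructor
    · intro h
      have h1 : g • u = u := by
        have h0 : u / g • u = 1 := h
        exact (div_eq_one.mp h0).symm
      have h2 : g (u : L) = u := congrArg Units.val h1
      have h3 : ∀ τ : L ≃ₐ[K] L, τ (u : L) = u := by
        intro τ
        obtain ⟨n, rfl⟩ := hpow τ
        induction n with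
        | zero => rfl
        | succ n ih =>
          rw [pow_succ]
          show (g ^ n) (g (u : L)) = u
          rw [h2, ih]
      obtain ⟨k, hk⟩ := (IsGalois.mem_range_algebraMap_iff_fixed (u : L)).mpr h3
      have hk0 : k ≠ 0 := by
        rintro rfl
        rw [map_zero] at hk
        exact u.ne_zero hk.symm
      exact ⟨Units.mk0 k hk0, Units.ext hk⟩
    · rintro ⟨k, rfl⟩
      show ι k / g • ι k = 1
      rw [div_eq_one]
      apply Units.ext
      show algebraMap K L k = g (algebraMap K L k)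
      rw [AlgEquiv.commutes]
  have hrange : nM.range = (Units.map (Algebra.norm K : L →* K)).range.map ι := by
    ext u
    simp only [MonoidHom.mem_range, Subgroup.mem_map]
    constructor
    · rintro ⟨v, rfl⟩
      exact ⟨Units.map (Algebra.norm K : L →* K) v, ⟨v, rfl⟩, Units.ext (hnorm v).symm⟩
    · rintro ⟨_, ⟨v, rfl⟩, rfl⟩
      exact ⟨v, Units.ext (hnorm v)⟩
  have hH90 : nM.ker ≤ dM.range := by
    intro u hu
    have h0 : nM u = 1 := (MonoidHom.mem_ker).mp hu
    have h1 : ∏ i ∈ range p, (g ^ i) • u = 1 := by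
      rw [← h0]
      exact Finset.prod_congr rfl fun i _ => (hγi i u).symm
    obtain ⟨y, hy⟩ := hilbert90_cyclic g p hord hpow u h1
    exact ⟨y, hy⟩
  have hmapker : dM.ker.map (powMonoidHom p) = (powMonoidHom p : Kˣ →* Kˣ).range.map ι := by
    rw [hker]
    ext u
    simp only [Subgroup.mem_map, MonoidHom.mem_range]
    constructor
    · rintro ⟨_, ⟨k, rfl⟩, rfl⟩
      exact ⟨k ^ p, ⟨k, rfl⟩, map_pow ι k p⟩
    · rintro ⟨_, ⟨k, rfl⟩, rfl⟩
      exact ⟨ι k, ⟨k, rfl⟩, (map_pow ι k p).symm⟩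
  have hinfker : (powMonoidHom p : Lˣ →* Lˣ).ker ⊓ dM.ker =
      (powMonoidHom p : Kˣ →* Kˣ).ker.map ι := by
    rw [hker]
    ext u
    simp only [Subgroup.mem_inf, MonoidHom.mem_ker, MonoidHom.mem_range, Subgroup.mem_map,
      powMonoidHom_apply]
    constructor
    · rintro ⟨h1, k, rfl⟩
      exact ⟨k, hι (by rw [map_pow, h1, map_one]), rfl⟩
    · rintro ⟨k, hk, rfl⟩
      exact ⟨by rw [← map_pow, hk, map_one], k, rfl⟩
  have hx : nM.range.relIndex dM.ker = (Units.map (Algebra.norm K : L →* K)).range.index := by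
    rw [hrange, hker, MonoidHom.range_eq_map ι, Subgroup.relIndex_map_map_of_injective _ _ hι,
      Subgroup.relIndex_top_right]
  have hy : dM.range.relIndex nM.ker = 1 := Subgroup.relIndex_eq_one.mpr hH90
  have hz : (dM.ker.map (powMonoidHom p)).relIndex dM.ker =
      (powMonoidHom p : Kˣ →* Kˣ).range.index := by
    rw [hmapker, hker, MonoidHom.range_eq_map ι, Subgroup.relIndex_map_map_of_injective _ _ hι,
      Subgroup.relIndex_top_right]
  have hz' : Nat.card ↥((powMonoidHom p : Lˣ →* Lˣ).ker ⊓ dM.ker) =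
      Nat.card (powMonoidHom p : Kˣ →* Kˣ).ker := by
    rw [hinfker, Subgroup.card_map_of_injective hι]
  have hKL : Nat.card (powMonoidHom p : Lˣ →* Lˣ).ker ≠ 0 := by
    have : NeZero p := ⟨hp.out.ne_zero⟩
    have e : (powMonoidHom p : Lˣ →* Lˣ).ker = rootsOfUnity p L := by
      ext u
      rw [MonoidHom.mem_ker, mem_rootsOfUnity]
      rfl
    rw [e]
    exact Nat.card_pos.ne'
  obtain ⟨t1, -, t3, -, t5⟩ :=
    tate_q_mul p γ hγp dM nM (fun _ => rfl) (fun _ => rfl) haL hKL
  rw [hx, hy, hz, hz', one_pow, one_mul] at t5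
  rw [hx] at t1
  rw [hz] at t3
  exact ⟨t3, t1, t5⟩

/-- **The norm index of a cyclic extension of prime degree is `p`** (formal consequence of the
count of `p`-th powers): if `[Fˣ : Fˣ^p] = p * #μ_p(F) * c ^ [F : ℚ_ℓ]` for `F = K` and `F = L`
(here `n = [K : ℚ_ℓ]`, so `[L : ℚ_ℓ] = p * n`) then `[Kˣ : N Lˣ] = p`. -/
theorem normIndex_eq_prime (p : ℕ) [hp : Fact p.Prime] (hdeg : Module.finrank K L = p)
    (c n : ℕ) (hc : 0 < c)
    (hK : (powMonoidHom p : Kˣ →* Kˣ).range.index =
      p * Nat.card (powMonoidHom p : Kˣ →* Kˣ).ker * c ^ n)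
    (hL : (powMonoidHom p : Lˣ →* Lˣ).range.index =
      p * Nat.card (powMonoidHom p : Lˣ →* Lˣ).ker * c ^ (p * n)) :
    (Units.map (Algebra.norm K : L →* K)).range.index = p := by
  have hp0 : p ≠ 0 := hp.out.ne_zero
  have hmL : Nat.card (powMonoidHom p : Lˣ →* Lˣ).ker ≠ 0 := by
    have : NeZero p := ⟨hp0⟩
    have e : (powMonoidHom p : Lˣ →* Lˣ).ker = rootsOfUnity p L := by
      ext u
      rw [MonoidHom.mem_ker, mem_rootsOfUnity]
      rfl
    rw [e]
    exact Nat.card_pos.ne'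
  have hmK : Nat.card (powMonoidHom p : Kˣ →* Kˣ).ker ≠ 0 := by
    have : NeZero p := ⟨hp0⟩
    have e : (powMonoidHom p : Kˣ →* Kˣ).ker = rootsOfUnity p K := by
      ext u
      rw [MonoidHom.mem_ker, mem_rootsOfUnity]
      rfl
    rw [e]
    exact Nat.card_pos.ne'
  have haL : (powMonoidHom p : Lˣ →* Lˣ).range.index ≠ 0 := by
    rw [hL]
    exact mul_ne_zero (mul_ne_zero hp0 hmL) (pow_ne_zero _ hc.ne')
  obtain ⟨-, hν, h⟩ := normIndex_pow (K := K) (L := L) p hdeg haL
  rw [hK, hL] at h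
  set ν := (Units.map (Algebra.norm K : L →* K)).range.index with hνdef
  set mK := Nat.card (powMonoidHom p : Kˣ →* Kˣ).ker with hmKdef
  set mL := Nat.card (powMonoidHom p : Lˣ →* Lˣ).ker with hmLdef
  obtain ⟨q, hq⟩ : ∃ q, p = q + 1 := ⟨p - 1, (Nat.sub_add_cancel hp.out.one_le).symm⟩
  have hq0 : q ≠ 0 := by have := hp.out.two_le; omega
  have hq1 : p - 1 = q := by omega
  rw [hq1] at h
  have hpos : 0 < p * mL * c ^ (p * n) * mK ^ p :=
    Nat.pos_of_ne_zero (mul_ne_zero (mul_ne_zero (mul_ne_zero hp0 hmL) (pow_ne_zero _ hc.ne'))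
      (pow_ne_zero _ hmK))
  have hpow : ν ^ q = p ^ q := by
    apply Nat.eq_of_mul_eq_mul_right hpos
    calc ν ^ q * (p * mL * c ^ (p * n) * mK ^ p) = ν ^ q * (p * mL * c ^ (p * n)) * mK ^ p := by
          ring
      _ = mL * (p * mK * c ^ n) ^ p := h
      _ = p ^ q * (p * mL * c ^ (p * n) * mK ^ p) := by
          have e1 : (p * mK * c ^ n) ^ p = p ^ p * mK ^ p * c ^ (p * n) := by
            rw [mul_pow, mul_pow, ← pow_mul, mul_comm n p]
          have e2 : p ^ p = p ^ q * p := by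
            rw [← pow_succ, ← hq]
          rw [e1, e2]
          ring
  exact Nat.pow_left_injective hq0 hpow

end fields

end Fermat.Agent.S55.helper8555
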