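import Mathlib

/-!
# S55-CORES2: restriction to a finite-index subgroup is injective up to the index (degrees 1, 2)

Mathlib has no corestriction. This file proves, by an explicit transfer cochain (no Shapiro,
no dimension shifting):

* `isCoboundary₂_index_smul` : `G` a group, `H ≤ G` of finite index, `c : G × G → A` a 2-cocycle
  whose restriction to `H × H` is a 2-coboundary `⟹` `H.index • c` is a 2-coboundary,
  with the explicit primitive `cores2Primitive`;
* `isCoboundary₁_index_smul` : the same in degree 1;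
* `isMulCoboundary₂_pow_index` : multiplicative form (e.g. `Gal(L/K)` acting on `Lˣ`);
* `H2_index_smul_eq_zero_of_res_eq_zero` : class form on `groupCohomology.H2`;
* `H2_res_injective_of_isUnit_index` : `res : H²(G, A) → H²(H, A)` is injective when the index
  is invertible in the coefficient ring (the Sylow step).
-/

set_option autoImplicit false

namespace Fermat.Agent.S55.helper8598

open groupCohomology

section Core

variable {G A : Type*} [Group G] [AddCommGroup A] [DistribMulAction G A]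

/-- The 2-coboundary of a 1-cochain (the formula of `groupCohomology.IsCoboundary₂`). -/
def dOne (x : G → A) : G × G → A := fun p => p.1 • x p.2 - x (p.1 * p.2) + x p.1

@[simp] lemma dOne_apply (x : G → A) (g h : G) :
    dOne x (g, h) = g • x h - x (g * h) + x g := rfl

lemma isCocycle₂_dOne (x : G → A) : IsCocycle₂ (dOne x) := by
  intro g h j
  simp only [dOne_apply, smul_add, smul_sub, mul_smul, mul_assoc]
  abel

lemma isCoboundary₂_iff_eq_dOne {f : G × G → A} :
    IsCoboundary₂ f ↔ ∃ x : G → A, f = dOne x := by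
  constructor
  · rintro ⟨x, hx⟩
    exact ⟨x, funext fun p => (hx p.1 p.2).symm⟩
  · rintro ⟨x, rfl⟩
    exact ⟨x, fun g h => rfl⟩

lemma dOne_add (x y : G → A) : dOne (x + y) = dOne x + dOne y := by
  funext ⟨g, h⟩
  simp only [dOne_apply, Pi.add_apply, smul_add]
  abel

lemma dOne_sub (x y : G → A) : dOne (x - y) = dOne x - dOne y := by
  funext ⟨g, h⟩
  simp only [dOne_apply, Pi.sub_apply, smul_sub]
  abel

lemma dOne_nsmul (n : ℕ) (x : G → A) : dOne (n • x) = n • dOne x := by
  funext ⟨g, h⟩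
  simp only [dOne_apply, Pi.smul_apply, smul_add, smul_sub, smul_comm g n]

lemma isCocycle₂_add {c c' : G × G → A} (h : IsCocycle₂ c) (h' : IsCocycle₂ c') :
    IsCocycle₂ (c + c') := by
  intro g₁ g₂ g₃
  have e := h g₁ g₂ g₃
  have e' := h' g₁ g₂ g₃
  simp only [Pi.add_apply, smul_add]
  rw [add_add_add_comm, e, e', add_add_add_comm]

lemma isCocycle₂_sub {c c' : G × G → A} (h : IsCocycle₂ c) (h' : IsCocycle₂ c') :
    IsCocycle₂ (c - c') := by
  intro g₁ g₂ g₃
  have e := h g₁ g₂ g₃
  have e' := h' g₁ g₂ g₃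
  simp only [Pi.sub_apply, smul_sub]
  rw [sub_add_sub_comm, e, e', sub_add_sub_comm]

variable (H : Subgroup G)

/-- `rho H g` is the chosen representative of the coset `g⁻¹ H`; so `g * rho H g ∈ H`. -/
noncomputable def rho (g : G) : G := ((g⁻¹ : G) : G ⧸ H).out

lemma mul_rho_mem (g : G) : g * rho H g ∈ H := by
  have h1 : ((rho H g : G) : G ⧸ H) = ((g⁻¹ : G) : G ⧸ H) := QuotientGroup.out_eq' _
  have h2 := QuotientGroup.eq.mp h1.symm
  simpa using h2

lemma rho_mul_of_mem {h : G} (hh : h ∈ H) (g : G) : rho H (h * g) = rho H g := by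
  unfold rho
  congr 1
  rw [QuotientGroup.eq]
  simpa using hh

lemma rho_mem_of_mem {h : G} (hh : h ∈ H) : rho H h ∈ H :=
  (H.mul_mem_cancel_left hh).mp (mul_rho_mem H h)

/-- The normalising 1-cochain: adding its coboundary to a 2-cocycle vanishing on `H × H`
makes it vanish on `H × G`. -/
noncomputable def normCochain (c : G × G → A) : G → A :=
  fun g => c (g * rho H g, (rho H g)⁻¹)

theorem add_dOne_normCochain_apply_of_mem {c : G × G → A} (hc : IsCocycle₂ c)
    (hv : ∀ h ∈ H, ∀ h' ∈ H, c (h, h') = 0) {h : G} (hh : h ∈ H) (g : G) :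
    (c + dOne (normCochain H c)) (h, g) = 0 := by
  simp only [Pi.add_apply, dOne_apply, normCochain]
  rw [rho_mul_of_mem H hh g]
  have h1 := hc h (g * rho H g) (rho H g)⁻¹
  rw [hv h hh _ (mul_rho_mem H g), add_zero, mul_inv_cancel_right] at h1
  have h2 : c (h * rho H h, (rho H h)⁻¹) = 0 :=
    hv _ (H.mul_mem hh (rho_mem_of_mem H hh)) _ (H.inv_mem (rho_mem_of_mem H hh))
  have e : h * g * rho H g = h * (g * rho H g) := mul_assoc _ _ _
  rw [h2, add_zero, e, h1]
  abel

/-- The transfer primitive of a 2-cocycle vanishing on `H × G`. -/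
noncomputable def transferPrimitive (c : G × G → A) (g : G) : A :=
  ∑ᶠ q : G ⧸ H, (q.out : G) • c ((q.out : G)⁻¹, g)

theorem dOne_transferPrimitive [H.FiniteIndex] {c : G × G → A} (hc : IsCocycle₂ c)
    (hv : ∀ h ∈ H, ∀ g : G, c (h, g) = 0) :
    dOne (transferPrimitive H c) = H.index • c := by
  classical
  let _ := Fintype.ofFinite (G ⧸ H)
  funext ⟨g₁, g₂⟩
  simp only [dOne_apply, transferPrimitive, finsum_eq_sum_of_fintype, Pi.smul_apply]
  have key : ∀ q : G ⧸ H, (q.out : G) • c ((q.out : G)⁻¹ * g₁, g₂)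
      = (g₁ * ((g₁⁻¹ • q).out : G)) • c (((g₁⁻¹ • q).out : G)⁻¹, g₂) := by
    intro q
    have hmem : (q.out : G)⁻¹ * g₁ * ((g₁⁻¹ • q).out : G) ∈ H := by
      have h1 : ((((g₁⁻¹ • q).out : G)) : G ⧸ H) = ((g₁⁻¹ * (q.out : G) : G) : G ⧸ H) := by
        rw [QuotientGroup.out_eq']
        conv_lhs => rw [← QuotientGroup.out_eq' q]
        rfl
      have h2 := QuotientGroup.eq.mp h1.symm
      simpa [mul_assoc] using h2
    have e1 : (q.out : G)⁻¹ * g₁
        = ((q.out : G)⁻¹ * g₁ * ((g₁⁻¹ • q).out : G)) * ((g₁⁻¹ • q).out : G)⁻¹ := by group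
    have e2 : g₁ * ((g₁⁻¹ • q).out : G)
        = (q.out : G) * ((q.out : G)⁻¹ * g₁ * ((g₁⁻¹ • q).out : G)) := by group
    have hcoc := hc ((q.out : G)⁻¹ * g₁ * ((g₁⁻¹ • q).out : G)) ((g₁⁻¹ • q).out : G)⁻¹ g₂
    rw [hv _ hmem, hv _ hmem, add_zero, add_zero] at hcoc
    rw [e2, mul_smul, ← hcoc, ← e1]
  have h1 : ∀ q : G ⧸ H,
      (q.out : G) • c ((q.out : G)⁻¹, g₁ * g₂) - (q.out : G) • c ((q.out : G)⁻¹, g₁)
      = (q.out : G) • c ((q.out : G)⁻¹ * g₁, g₂) - c (g₁, g₂) := by
    intro q
    have h2 := congrArg (fun a => (q.out : G) • a) (hc (q.out : G)⁻¹ g₁ g₂)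
    simp only [smul_add, smul_inv_smul] at h2
    rw [sub_eq_sub_iff_add_eq_add, h2, add_comm]
  have hsum1 : g₁ • ∑ q : G ⧸ H, (q.out : G) • c ((q.out : G)⁻¹, g₂)
      = ∑ q : G ⧸ H, (g₁ * (q.out : G)) • c ((q.out : G)⁻¹, g₂) := by
    rw [Finset.smul_sum]
    exact Finset.sum_congr rfl fun q _ => (mul_smul _ _ _).symm
  have hsum2 : ∑ q : G ⧸ H, (q.out : G) • c ((q.out : G)⁻¹ * g₁, g₂)
      = ∑ q : G ⧸ H, (g₁ * (q.out : G)) • c ((q.out : G)⁻¹, g₂) := by
    rw [← Equiv.sum_comp (MulAction.toPerm (g₁⁻¹ : G))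
      (fun q : G ⧸ H => (g₁ * (q.out : G)) • c ((q.out : G)⁻¹, g₂))]
    exact Finset.sum_congr rfl fun q _ => key q
  have hsum3 : ∑ q : G ⧸ H, (q.out : G) • c ((q.out : G)⁻¹, g₁ * g₂)
        - ∑ q : G ⧸ H, (q.out : G) • c ((q.out : G)⁻¹, g₁)
      = ∑ q : G ⧸ H, (q.out : G) • c ((q.out : G)⁻¹ * g₁, g₂) - H.index • c (g₁, g₂) := by
    rw [← Finset.sum_sub_distrib, Finset.sum_congr rfl (fun q _ => h1 q), Finset.sum_sub_distrib,
      Finset.sum_const, Finset.card_univ, Subgroup.index, Nat.card_eq_fintype_card]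
  rw [hsum1, ← hsum2, sub_add, hsum3, sub_sub_cancel]

/-- Extension by zero of a 1-cochain on `H` to `G`. -/
noncomputable def extendZero (φ : H → A) : G → A := by
  classical
  exact fun g => if hg : g ∈ H then φ ⟨g, hg⟩ else 0

omit [DistribMulAction G A] in
lemma extendZero_of_mem (φ : H → A) {g : G} (hg : g ∈ H) : extendZero H φ g = φ ⟨g, hg⟩ := by
  classical
  simp [extendZero, hg]

/-- The explicit primitive of `H.index • c`, given a primitive `φ` of `c` on `H × H`. -/
noncomputable def cores2Primitive (c : G × G → A) (φ : H → A) : G → A :=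
  transferPrimitive H
      (c - dOne (extendZero H φ) + dOne (normCochain H (c - dOne (extendZero H φ))))
    - H.index • normCochain H (c - dOne (extendZero H φ)) + H.index • extendZero H φ

theorem dOne_cores2Primitive [H.FiniteIndex] {c : G × G → A} (hc : IsCocycle₂ c) (φ : H → A)
    (hφ : ∀ h h' : H, (h : G) • φ h' - φ (h * h') + φ h = c ((h : G), (h' : G))) :
    dOne (cores2Primitive H c φ) = H.index • c := by
  have hc1 : IsCocycle₂ (c - dOne (extendZero H φ)) := isCocycle₂_sub hc (isCocycle₂_dOne _)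
  have hv1 : ∀ h ∈ H, ∀ h' ∈ H, (c - dOne (extendZero H φ)) (h, h') = 0 := by
    intro h hh h' hh'
    have e := hφ ⟨h, hh⟩ ⟨h', hh'⟩
    simp only [Pi.sub_apply, dOne_apply, extendZero_of_mem H φ hh, extendZero_of_mem H φ hh',
      extendZero_of_mem H φ (H.mul_mem hh hh')]
    rw [sub_eq_zero]
    exact e.symm
  have hc2 : IsCocycle₂ (c - dOne (extendZero H φ)
      + dOne (normCochain H (c - dOne (extendZero H φ)))) :=
    isCocycle₂_add hc1 (isCocycle₂_dOne _)
  have hB := dOne_transferPrimitive H hc2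
    (fun h hh g => add_dOne_normCochain_apply_of_mem H hc1 hv1 hh g)
  rw [cores2Primitive, dOne_add, dOne_sub, dOne_nsmul, dOne_nsmul, hB]
  simp only [smul_add, smul_sub]
  abel

/-- **Degree 2, cochain form.** A 2-cocycle on `G` whose restriction to a subgroup `H` of finite
index is a coboundary becomes a coboundary after multiplication by the index. -/
theorem isCoboundary₂_index_smul [H.FiniteIndex] {c : G × G → A} (hc : IsCocycle₂ c)
    (hres : IsCoboundary₂ (fun p : H × H => c ((p.1 : G), (p.2 : G)))) :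
    IsCoboundary₂ (H.index • c) := by
  obtain ⟨φ, hφ⟩ := hres
  exact isCoboundary₂_iff_eq_dOne.mpr ⟨cores2Primitive H c φ, (dOne_cores2Primitive H hc φ hφ).symm⟩

/-- **Degree 1, cochain form.** -/
theorem isCoboundary₁_index_smul [H.FiniteIndex] {f : G → A} (hf : IsCocycle₁ f)
    (hres : IsCoboundary₁ (fun h : H => f (h : G))) :
    IsCoboundary₁ (H.index • f) := by
  classical
  let _ := Fintype.ofFinite (G ⧸ H)
  obtain ⟨a, ha⟩ := hres
  -- `f' := f - d a` vanishes on `H`
  have hf' : ∀ h ∈ H, ∀ g : G, f (h * g) - (h * g) • a + a = h • (f g - g • a + a) := by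
    intro h hh g
    have e := ha ⟨h, hh⟩
    have e' : h • a - a = f h := e
    rw [hf h g, ← e', mul_smul, smul_add, smul_sub]
    abel
  refine ⟨∑ q : G ⧸ H, (q.out : G) • (f (q.out : G)⁻¹ - (q.out : G)⁻¹ • a + a) + H.index • a, ?_⟩
  intro g
  have key : ∀ q : G ⧸ H, (q.out : G) • (f ((q.out : G)⁻¹ * g) - ((q.out : G)⁻¹ * g) • a + a)
      = (g * ((g⁻¹ • q).out : G)) • (f ((g⁻¹ • q).out : G)⁻¹ - ((g⁻¹ • q).out : G)⁻¹ • a + a) := by
    intro q
    have hmem : (q.out : G)⁻¹ * g * ((g⁻¹ • q).out : G) ∈ H := by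
      have h1 : ((((g⁻¹ • q).out : G)) : G ⧸ H) = ((g⁻¹ * (q.out : G) : G) : G ⧸ H) := by
        rw [QuotientGroup.out_eq']
        conv_lhs => rw [← QuotientGroup.out_eq' q]
        rfl
      have h2 := QuotientGroup.eq.mp h1.symm
      simpa [mul_assoc] using h2
    have e1 : (q.out : G)⁻¹ * g
        = ((q.out : G)⁻¹ * g * ((g⁻¹ • q).out : G)) * ((g⁻¹ • q).out : G)⁻¹ := by group
    have e2 : g * ((g⁻¹ • q).out : G)
        = (q.out : G) * ((q.out : G)⁻¹ * g * ((g⁻¹ • q).out : G)) := by group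
    rw [e2, mul_smul (q.out : G), ← hf' _ hmem, ← e1]
  have h1 : ∀ q : G ⧸ H,
      (q.out : G) • (f ((q.out : G)⁻¹ * g) - ((q.out : G)⁻¹ * g) • a + a)
      = (q.out : G) • (f (q.out : G)⁻¹ - (q.out : G)⁻¹ • a + a) + (f g - g • a + a) := by
    intro q
    rw [hf (q.out : G)⁻¹ g, mul_smul]
    simp only [smul_add, smul_sub, smul_inv_smul]
    abel
  have hsum : ∑ q : G ⧸ H, (g * (q.out : G)) • (f (q.out : G)⁻¹ - (q.out : G)⁻¹ • a + a)
      = ∑ q : G ⧸ H, (q.out : G) • (f (q.out : G)⁻¹ - (q.out : G)⁻¹ • a + a)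
        + H.index • (f g - g • a + a) := by
    have hsum2 : ∑ q : G ⧸ H, (q.out : G) • (f ((q.out : G)⁻¹ * g) - ((q.out : G)⁻¹ * g) • a + a)
        = ∑ q : G ⧸ H, (g * (q.out : G)) • (f (q.out : G)⁻¹ - (q.out : G)⁻¹ • a + a) := by
      rw [← Equiv.sum_comp (MulAction.toPerm (g⁻¹ : G))
        (fun q : G ⧸ H => (g * (q.out : G)) • (f (q.out : G)⁻¹ - (q.out : G)⁻¹ • a + a))]
      exact Finset.sum_congr rfl fun q _ => key q
    rw [← hsum2, Finset.sum_congr rfl (fun q _ => h1 q),
      Finset.sum_add_distrib, Finset.sum_const, Finset.card_univ, Subgroup.index,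
      Nat.card_eq_fintype_card]
  have hsum' : g • ∑ q : G ⧸ H, (q.out : G) • (f (q.out : G)⁻¹ - (q.out : G)⁻¹ • a + a)
      = ∑ q : G ⧸ H, (g * (q.out : G)) • (f (q.out : G)⁻¹ - (q.out : G)⁻¹ • a + a) := by
    rw [Finset.smul_sum]
    exact Finset.sum_congr rfl fun q _ => (mul_smul _ _ _).symm
  rw [smul_add, hsum', hsum, Pi.smul_apply, smul_comm g H.index a]
  simp only [smul_add, smul_sub]
  abel

end Core

section Mul

variable {G M : Type*} [Group G] [CommGroup M] [MulDistribMulAction G M]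

/-- The additive action of `G` on `Additive M` induced by a `MulDistribMulAction` (a plain
definition, used locally via `letI`). -/
@[reducible] def additiveDistribMulAction : DistribMulAction G (Additive M) where
  smul g a := Additive.ofMul (g • Additive.toMul a)
  one_smul a := by
    show Additive.ofMul ((1 : G) • Additive.toMul a) = a
    rw [one_smul]; rfl
  mul_smul g h a := by
    show Additive.ofMul ((g * h) • Additive.toMul a) = Additive.ofMul (g • (h • Additive.toMul a))
    rw [mul_smul]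
  smul_zero g := by
    show Additive.ofMul (g • (1 : M)) = 0
    rw [smul_one]; rfl
  smul_add g a b := by
    show Additive.ofMul (g • (Additive.toMul a * Additive.toMul b))
      = Additive.ofMul (g • Additive.toMul a * g • Additive.toMul b)
    rw [smul_mul']

/-- **Degree 2, multiplicative cochain form** (e.g. `G = Gal(L/K)` acting on `Lˣ`): a
multiplicative 2-cocycle whose restriction to a subgroup `H` of finite index is a coboundary
has `H.index`-th power a coboundary. -/
theorem isMulCoboundary₂_pow_index (H : Subgroup G) [H.FiniteIndex] {c : G × G → M}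
    (hc : IsMulCocycle₂ c)
    (hres : IsMulCoboundary₂ (fun p : H × H => c ((p.1 : G), (p.2 : G)))) :
    IsMulCoboundary₂ (fun p => c p ^ H.index) := by
  let _ : DistribMulAction G (Additive M) := additiveDistribMulAction
  have hc' : IsCocycle₂ (A := Additive M) (fun p => Additive.ofMul (c p)) :=
    fun g h j => congrArg Additive.ofMul (hc g h j)
  have hres' : IsCoboundary₂ (A := Additive M)
      (fun p : H × H => Additive.ofMul (c ((p.1 : G), (p.2 : G)))) := by
    obtain ⟨x, hx⟩ := hres
    exact ⟨fun h => Additive.ofMul (x h), fun g h => congrArg Additive.ofMul (hx g h)⟩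
  obtain ⟨y, hy⟩ := isCoboundary₂_index_smul H hc' hres'
  exact ⟨fun g => Additive.toMul (y g), fun g h => congrArg Additive.toMul (hy g h)⟩

/-- **Degree 1, multiplicative cochain form.** -/
theorem isMulCoboundary₁_pow_index (H : Subgroup G) [H.FiniteIndex] {f : G → M}
    (hf : IsMulCocycle₁ f)
    (hres : IsMulCoboundary₁ (fun h : H => f (h : G))) :
    IsMulCoboundary₁ (fun g => f g ^ H.index) := by
  let _ : DistribMulAction G (Additive M) := additiveDistribMulAction
  have hf' : IsCocycle₁ (A := Additive M) (fun g => Additive.ofMul (f g)) :=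
    fun g h => congrArg Additive.ofMul (hf g h)
  have hres' : IsCoboundary₁ (A := Additive M) (fun h : H => Additive.ofMul (f (h : G))) := by
    obtain ⟨x, hx⟩ := hres
    exact ⟨Additive.ofMul x, fun g => congrArg Additive.ofMul (hx g)⟩
  obtain ⟨y, hy⟩ := isCoboundary₁_index_smul H hf' hres'
  exact ⟨Additive.toMul y, fun g => congrArg Additive.toMul (hy g)⟩

end Mul

section Class

universe u

open CategoryTheory

variable {k G : Type u} [CommRing k] [Group G]

/-- The `DistribMulAction` of `G` on the carrier of `A : Rep k G` (a plain definition, used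
locally via `letI`). -/
@[reducible] def repDistribMulAction (A : Rep k G) : DistribMulAction G A where
  smul g a := A.ρ g a
  one_smul a := by
    show A.ρ 1 a = a
    simp
  mul_smul g h a := by
    show A.ρ (g * h) a = A.ρ g (A.ρ h a)
    simp
  smul_zero g := by
    show A.ρ g 0 = 0
    simp
  smul_add g a b := by
    show A.ρ g (a + b) = A.ρ g a + A.ρ g b
    simp

/-- **Degree 2, `Rep` cochain form.** -/
theorem mem_coboundaries₂_index_smul (A : Rep k G) (H : Subgroup G) [H.FiniteIndex]
    (c : G × G → A) (hc : c ∈ cocycles₂ A)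
    (hres : (fun p : H × H => c ((p.1 : G), (p.2 : G))) ∈ coboundaries₂ (Rep.res H.subtype A)) :
    H.index • c ∈ coboundaries₂ A := by
  let _ := repDistribMulAction A
  have hc' : IsCocycle₂ c := (mem_cocycles₂_iff c).1 hc
  have hres' : IsCoboundary₂ (fun p : H × H => c ((p.1 : G), (p.2 : G))) := by
    obtain ⟨x, hx⟩ := hres
    exact ⟨x, fun g h => congrFun hx (g, h)⟩
  obtain ⟨y, hy⟩ := isCoboundary₂_index_smul H hc' hres'
  exact ⟨y, funext fun p => hy p.1 p.2⟩

/-- **Degree 2, class form.** If the restriction of `x ∈ H²(G, A)` to a subgroup `H` of finite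
index vanishes, then `H.index • x = 0`. -/
theorem H2_index_smul_eq_zero_of_res_eq_zero (A : Rep k G) (H : Subgroup G) [H.FiniteIndex]
    (x : groupCohomology.H2 A)
    (hx : groupCohomology.map H.subtype (𝟙 (Rep.res H.subtype A)) 2 x = 0) :
    H.index • x = 0 := by
  induction x using H2_induction_on with
  | h c =>
    rw [H2π_comp_map_apply, H2π_eq_zero_iff] at hx
    rw [← map_nsmul, H2π_eq_zero_iff]
    exact mem_coboundaries₂_index_smul A H c c.2 hx

/-- **The Sylow step.** If the index of `H` is invertible in the coefficient ring, restriction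
`H²(G, A) → H²(H, A)` is injective. -/
theorem H2_res_injective_of_isUnit_index (A : Rep k G) (H : Subgroup G) [H.FiniteIndex]
    (hu : IsUnit (H.index : k)) :
    Function.Injective (groupCohomology.map H.subtype (𝟙 (Rep.res H.subtype A)) 2) := by
  rw [injective_iff_map_eq_zero]
  intro x hx
  have h1 := H2_index_smul_eq_zero_of_res_eq_zero A H x hx
  rw [← Nat.cast_smul_eq_nsmul k] at h1
  exact (hu.smul_eq_zero).mp h1

end Class

end Fermat.Agent.S55.helper8598
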