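import Mathlib
import Fermat.Agent.S55.helper9554_LocalSpec
import Fermat.Agent.S55.helper2554_Symbol
import Fermat.Agent.S55.helper814_LocalSpecLB2
import Fermat.Agent.S55.helper932_LB1Ne

/-!
# `(LB1, ≠ 0)` in character form, and nonzero level characters of local Galois groups

The leaf LA-LB1-NE itself (`Stmt_LB1_ne K (PadicAlgCl l) p` for every finite `K/ℚ_l`) is
`helper932.stmt_LocalLB1_ne` (extension form: a Galois `L/K` of degree `p` and a non-norm).
This file adds the *character form* of the generic core and the by-product used by the local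
assembly:

* `stmt_LB1_ne_of_levelChar`: for any Galois, algebraically closed `Ω/K`, a nonzero level
  additive character `χ : Gal(Ω/K) → ZMod p` together with `Stmt_NormNotOnto K Ω p` gives
  `Stmt_LB1_ne K Ω p` (the fixed field of `ker χ` is Galois of degree `p`; the cup product
  of `χ` with the Kummer cocycle of a non-norm is not a coboundary, by
  `helper2554.symbol_coboundary_imp_norm`).
* `exists_levelChar_eq_one`, `exists_levelChar_ne_zero`: every finite `K/ℚ_l` inside
  `PadicAlgCl l` has a level additive character `Gal(PadicAlgCl l/K) → ZMod p` taking the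
  value `1` (all primes `l`, `p`; no root of unity assumed in `K`).
* `stmt_LB1_ne`: the leaf statement, instance-argument form.
-/

set_option autoImplicit false

namespace Fermat.Agent.S55.helper862

open IntermediateField groupCohomology Finset

section Generic

variable {K Ω : Type*} [Field K] [Field Ω] [Algebra K Ω]

/-- An additive character `Gal(Ω/K) → ZMod p` as a monoid homomorphism. -/
def charHom {p : ℕ} [Fact p.Prime] (χ : (Ω ≃ₐ[K] Ω) → ZMod p)
    (hχ : ∀ g h, χ (g * h) = χ g + χ h) : (Ω ≃ₐ[K] Ω) →* Multiplicative (ZMod p) where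
  toFun g := Multiplicative.ofAdd (χ g)
  map_one' := by rw [helper2554.chi_one χ hχ]; rfl
  map_mul' g h := by rw [hχ]; rfl

theorem mem_ker_charHom {p : ℕ} [Fact p.Prime] (χ : (Ω ≃ₐ[K] Ω) → ZMod p)
    (hχ : ∀ g h, χ (g * h) = χ g + χ h) (s : Ω ≃ₐ[K] Ω) :
    s ∈ (charHom χ hχ).ker ↔ χ s = 0 := by
  rw [MonoidHom.mem_ker]
  exact Iff.rfl

variable [IsGalois K Ω]

/-- A subgroup of `Gal(Ω/K)` containing the fixing subgroup of a finite subextension is the
fixing subgroup of its fixed field. -/
theorem fixingSubgroup_fixedField_of_le {N : Subgroup (Ω ≃ₐ[K] Ω)} {E : IntermediateField K Ω}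
    [FiniteDimensional K E] (h : E.fixingSubgroup ≤ N) : (fixedField N).fixingSubgroup = N := by
  have hopen : IsOpen (N : Set (Ω ≃ₐ[K] Ω)) := Subgroup.isOpen_mono h E.fixingSubgroup_isOpen
  have hclosed := Subgroup.isClosed_of_isOpen N hopen
  exact InfiniteGalois.fixingSubgroup_fixedField ⟨N, hclosed⟩

/-- **Generic core of `(LB1, ≠ 0)`, character form.** If `Gal(Ω/K)` has a nonzero level
additive character `χ` with values in `ZMod p` and the norm of no Galois extension of degree
`p` of `K` inside `Ω` is onto, then `H²(G_K, μ_p) ≠ 0` on level cochains: for `b ∈ Kˣ` not a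
norm from the fixed field of `ker χ` and `β ^ p = b`, the cup product of the Kummer cocycle
`g ↦ g β / β` with `χ` is a `μ_p`-valued level 2-cocycle which is not a coboundary. No root
of unity is assumed in `K`. -/
theorem stmt_LB1_ne_of_levelChar [IsAlgClosed Ω] (p : ℕ) [Fact p.Prime]
    (hN : helper9554.Stmt_NormNotOnto K Ω p) (χ : (Ω ≃ₐ[K] Ω) → ZMod p)
    (hχ : helper9554.IsLevelChar p χ) (hne : ∃ g, χ g ≠ 0) :
    helper9554.Stmt_LB1_ne K Ω p := by
  classical
  have hp : p.Prime := Fact.out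
  have : NeZero p := ⟨hp.ne_zero⟩
  obtain ⟨g₀, hg₀⟩ := hne
  obtain ⟨σ, hσ⟩ := helper2554.exists_chi_eq_one χ hχ.map_mul hg₀
  have hχpow : ∀ n : ℕ, χ (σ ^ n) = n := fun n => by
    rw [helper2554.chi_pow χ hχ.map_mul, hσ, mul_one]
  -- the kernel of `χ`
  set N : Subgroup (Ω ≃ₐ[K] Ω) := (charHom χ hχ.map_mul).ker with hNdef
  have hmemN : ∀ s, s ∈ N ↔ χ s = 0 := mem_ker_charHom χ hχ.map_mul
  obtain ⟨E, hE, hElev⟩ := hχ.level
  have := hE
  have hEN : E.fixingSubgroup ≤ N := fun s hs => by
    rw [hmemN]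
    have h1 := hElev 1 s hs
    rwa [one_mul, helper2554.chi_one χ hχ.map_mul] at h1
  set L : IntermediateField K Ω := fixedField N with hLdef
  have hLfix : L.fixingSubgroup = N := fixingSubgroup_fixedField_of_le hEN
  have hLgal : IsGalois K L :=
    (InfiniteGalois.normal_iff_isGalois L).1 (by rw [hLfix]; infer_instance)
  have hidx : N.index = p := by
    rw [hNdef, Subgroup.index_ker]
    have hrange : (charHom χ hχ.map_mul).range = ⊤ := by
      rw [MonoidHom.range_eq_top]
      intro a
      refine ⟨σ ^ (Multiplicative.toAdd a).val, ?_⟩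
      show Multiplicative.ofAdd (χ (σ ^ (Multiplicative.toAdd a).val)) = a
      rw [hχpow, ZMod.natCast_zmod_val]
      rfl
    rw [hrange, Nat.card_congr Subgroup.topEquiv.toEquiv, Nat.card_eq_fintype_card]
    simp
  have hrank : Module.finrank K L = p := by
    rw [IntermediateField.finrank_eq_fixingSubgroup_index, hLfix, hidx]
  have : FiniteDimensional K L :=
    Module.finite_of_finrank_pos (by rw [hrank]; exact hp.pos)
  obtain ⟨b, hb0, hbn⟩ := hN L hLgal hrank
  obtain ⟨β, hβ⟩ := IsAlgClosed.exists_pow_nat_eq (algebraMap K Ω b) hp.pos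
  have hβ0 : β ≠ 0 := by
    rintro rfl
    rw [zero_pow hp.ne_zero] at hβ
    exact hb0 ((map_eq_zero (algebraMap K Ω)).1 hβ.symm)
  have hκ := helper814.isMuCocycle₁_kummer (K := K) p b (Units.mk0 β hβ0) hβ
  refine ⟨helper9554.cupMu (fun g => g • Units.mk0 β hβ0 / Units.mk0 β hβ0) χ,
    helper9554.isMuCocycle₂_cupMu hκ hχ, ?_⟩
  rintro ⟨x, hxlev, -, hx⟩
  have hf : ∀ g h : Ω ≃ₐ[K] Ω, (g β / β) ^ (χ h).val
      = g (x h : Ω) * ((x (g * h) : Ωˣ) : Ω)⁻¹ * (x g : Ω) := by
    intro g h
    have h1 := congrArg (fun u : Ωˣ => (u : Ω)) (congrFun hx (g, h))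
    simp only [helper9554.cupMu, helper9554.dOne] at h1
    rw [Units.val_pow_eq_pow_val, Units.val_div_eq_div_val] at h1
    rw [Units.val_mul, Units.val_div_eq_div_val, div_eq_mul_inv (_ : Ω) ((x (g * h) : Ωˣ) : Ω)] at h1
    exact h1
  obtain ⟨y, hyfix, hyprod⟩ := helper2554.symbol_coboundary_imp_norm χ hχ.map_mul hχ.level σ hσ
    b hb0 β hβ (fun g => (x g : Ω)) (fun g => (x g).ne_zero) (hxlev.comp _) hf
  have hyL : y ∈ L := (mem_fixedField_iff N y).2 (fun s hs => hyfix s ((hmemN s).1 hs))
  apply hbn ⟨y, hyL⟩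
  apply (algebraMap K Ω).injective
  rw [← hyprod, Algebra.norm_eq_prod_embeddings K Ω]
  -- the embeddings of `L` are the restrictions of the powers of `σ`
  let e : Fin p → (L →ₐ[K] Ω) := fun i =>
    ((σ ^ (i : ℕ) : Ω ≃ₐ[K] Ω) : Ω →ₐ[K] Ω).comp L.val
  have he : Function.Bijective e := by
    rw [Fintype.bijective_iff_injective_and_card]
    refine ⟨fun i j hij => ?_, ?_⟩
    · have hmem : (σ ^ (j : ℕ))⁻¹ * σ ^ (i : ℕ) ∈ L.fixingSubgroup := by
        rw [IntermediateField.mem_fixingSubgroup_iff]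
        intro z hz
        have h1 : (σ ^ (i : ℕ)) z = (σ ^ (j : ℕ)) z := congrArg (fun f => f ⟨z, hz⟩) hij
        rw [AlgEquiv.mul_apply, h1]
        exact (σ ^ (j : ℕ)).symm_apply_apply z
      rw [hLfix, hmemN, hχ.map_mul, helper2554.chi_inv χ hχ.map_mul, hχpow, hχpow,
        neg_add_eq_zero] at hmem
      apply Fin.ext
      have h2 := congrArg ZMod.val hmem
      rwa [ZMod.val_natCast_of_lt j.2, ZMod.val_natCast_of_lt i.2, eq_comm] at h2
    · rw [AlgHom.card, hrank, Fintype.card_fin]
  rw [← Fin.prod_univ_eq_prod_range (fun i => (σ ^ i) y) p]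
  exact (Fintype.prod_bijective e he _ _ (fun i => rfl)).symm

end Generic
section Local

variable (l p : ℕ) [Fact l.Prime] [Fact p.Prime]

/-- Every finite extension `K` of `ℚ_l` inside `PadicAlgCl l` has a level additive character
`Gal(PadicAlgCl l / K) → ZMod p` taking the value `1` (all `l`, `p`; no root of unity assumed
in `K`): the character of a Galois extension of degree `p` of `K`. -/
theorem exists_levelChar_eq_one (K : IntermediateField ℚ_[l] (PadicAlgCl l))
    [FiniteDimensional ℚ_[l] K] :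
    ∃ χ : (PadicAlgCl l ≃ₐ[K] PadicAlgCl l) → ZMod p, helper9554.IsLevelChar p χ ∧
      ∃ σ, χ σ = 1 := by
  have hp : p.Prime := Fact.out
  obtain ⟨L, hL, hrank⟩ := helper932.exists_galois_degree_p l (p := p) K
  have := hL
  have hfin : FiniteDimensional K L :=
    Module.finite_of_finrank_pos (by rw [hrank]; exact hp.pos)
  obtain ⟨χ, hadd, hker, σ, hσ⟩ := helper932.exists_char_of_degree_p L hrank
  exact ⟨χ, ⟨hadd, L, hfin, fun g s hs => by rw [hadd, (hker s).2 hs, add_zero]⟩, σ, hσ⟩

/-- Every finite extension `K` of `ℚ_l` inside `PadicAlgCl l` has a nonzero level additive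
character `Gal(PadicAlgCl l / K) → ZMod p`. -/
theorem exists_levelChar_ne_zero (K : IntermediateField ℚ_[l] (PadicAlgCl l))
    [FiniteDimensional ℚ_[l] K] :
    ∃ χ : (PadicAlgCl l ≃ₐ[K] PadicAlgCl l) → ZMod p, helper9554.IsLevelChar p χ ∧
      ∃ g, χ g ≠ 0 := by
  have hp : p.Prime := Fact.out
  have : Fact (1 < p) := ⟨hp.one_lt⟩
  obtain ⟨χ, hχ, σ, hσ⟩ := exists_levelChar_eq_one l p K
  exact ⟨χ, hχ, σ, by rw [hσ]; exact one_ne_zero⟩

/-- **LA-LB1-NE**: `H²(G_K, μ_p) ≠ 0` on level cochains for every finite `K/ℚ_l` inside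
`PadicAlgCl l` (`= helper932.stmt_LocalLB1_ne`, instance-argument form). -/
theorem stmt_LB1_ne (K : IntermediateField ℚ_[l] (PadicAlgCl l)) [FiniteDimensional ℚ_[l] K] :
    helper9554.Stmt_LB1_ne K (PadicAlgCl l) p :=
  helper932.stmt_LocalLB1_ne l p K inferInstance

/-- The same through the character form: an independent derivation of `(LB1, ≠ 0)` from
`exists_levelChar_ne_zero` and the local norm index. -/
theorem stmt_LB1_ne' (K : IntermediateField ℚ_[l] (PadicAlgCl l)) [FiniteDimensional ℚ_[l] K] :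
    helper9554.Stmt_LB1_ne K (PadicAlgCl l) p := by
  obtain ⟨χ, hχ, hne⟩ := exists_levelChar_ne_zero l p K
  exact stmt_LB1_ne_of_levelChar p (helper814.stmt_LocalNormNotOnto l p K inferInstance) χ hχ hne

end Local

end Fermat.Agent.S55.helper862
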