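/-
S55 leaf S55-LA-OK (helper862, board #748): the ring of integers of a finite extension `K` of
`ℚ_[l]` is a complete discrete valuation ring with finite residue field.  Mathlib only.

Two surfaces.

(A) General: for `[Algebra ℚ_[l] K] [Algebra ℤ_[l] K] [IsScalarTower ℤ_[l] ℚ_[l] K]
    [FiniteDimensional ℚ_[l] K]` and `O := integralClosure ℤ_[l] K`:
  * `isIntegral_iff_spectralNorm_le_one`, `isIntegral_or_isIntegral_inv`
  * instances `IsFractionRing O K`, `ValuationRing O`, `IsNoetherianRing O`,
    `Module.Finite ℤ_[l] O`, `Module.Free ℤ_[l] O`, `IsDiscreteValuationRing O`,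
    `IsAdicComplete (maximalIdeal O) O`, `Finite (ResidueField O)`, `CharP (ResidueField O) l`,
    `Finite (O ⧸ span {l})`
  * `finrank_integralClosure`, `card_quotient_span_natCast_prime`,
    `exists_maximalIdeal_pow_eq_span`, `exists_ramificationIdx_inertiaDeg`,
    `isUnit_natCast_of_prime_ne`, `natCast_prime_mem_maximalIdeal`.

(B) Packaged: for `[Algebra ℚ_[l] K]` only, `integerRing l K : Subring K` (the same ring, with
    the `ℤ_[l]`-algebra structure `padicIntAlgebra l K` kept out of instance scope), with the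
    same instances and lemmas (`..._integerRing`), the membership criteria
    `mem_integerRing_iff_spectralNorm_le_one`, `mem_integerRing_iff`, and for subextensions of
    `PadicAlgCl l`: `mem_integerRing_iff_norm_le_one`.
    Units / maximal ideal: `isUnit_integerRing_iff`, `mem_maximalIdeal_integerRing_iff`.

(C) Tower `ℚ_[l] → K → L` (`[Algebra K L] [IsScalarTower ℚ_[l] K L]`): the low-priority instance
    `Algebra (integerRing l K) (integerRing l L)`, `IsScalarTower (integerRing l K)
    (integerRing l L) L`, `IsIntegralClosure (integerRing l L) (integerRing l K) L`, torsion-free;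
    for `[FiniteDimensional ℚ_[l] K] [FiniteDimensional K L]`: `Module.Finite`, `Module.Free`,
    `finrank_integerRing_tower`; `norm_mem_integerRing`, `trace_mem_integerRing`,
    `algHom_mem_integerRing_iff`, `algEquiv_mem_integerRing_iff`, `algebraMap_mem_integerRing_iff`.
    Mathlib's `galRestrict`, `Algebra.intNorm`, ... then apply to `integerRing l L` over
    `integerRing l K`.
-/
import Mathlib

set_option autoImplicit false

open Polynomial IsLocalRing

namespace Fermat.Agent.S55.helper862

section General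

variable (l : ℕ) [Fact l.Prime] (K : Type*) [Field K] [Algebra ℚ_[l] K] [Algebra ℤ_[l] K]
  [IsScalarTower ℤ_[l] ℚ_[l] K]

theorem isIntegral_iff_spectralNorm_le_one [Algebra.IsAlgebraic ℚ_[l] K] (x : K) :
    IsIntegral ℤ_[l] x ↔ spectralNorm ℚ_[l] K x ≤ 1 := by
  have hxQ : IsIntegral ℚ_[l] x := Algebra.IsIntegral.isIntegral x
  constructor
  · intro hx
    rw [spectralNorm, spectralValue_le_one_iff (minpoly.monic hxQ)]
    intro n
    rw [minpoly.isIntegrallyClosed_eq_field_fractions' ℚ_[l] hx, coeff_map]
    exact PadicInt.norm_le_one _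
  · intro hx
    rw [spectralNorm, spectralValue_le_one_iff (minpoly.monic hxQ)] at hx
    have hlift : minpoly ℚ_[l] x ∈ Polynomial.lifts (algebraMap ℤ_[l] ℚ_[l]) := by
      rw [Polynomial.lifts_iff_coeff_lifts]
      intro n
      exact ⟨⟨_, hx n⟩, rfl⟩
    obtain ⟨q, hq, hqdeg, hqmonic⟩ :=
      Polynomial.lifts_and_degree_eq_and_monic hlift (minpoly.monic hxQ)
    refine ⟨q, hqmonic, ?_⟩
    have := minpoly.aeval ℚ_[l] x
    rw [← hq, aeval_map_algebraMap] at this
    exact this

omit [Algebra ℤ_[l] K] [IsScalarTower ℤ_[l] ℚ_[l] K] in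
theorem spectralNorm_mul_eq [Algebra.IsAlgebraic ℚ_[l] K] (x y : K) :
    spectralNorm ℚ_[l] K (x * y) = spectralNorm ℚ_[l] K x * spectralNorm ℚ_[l] K y :=
  spectralAlgNorm_mul x y

theorem isIntegral_or_isIntegral_inv [Algebra.IsAlgebraic ℚ_[l] K] (x : K) :
    IsIntegral ℤ_[l] x ∨ IsIntegral ℤ_[l] x⁻¹ := by
  rw [isIntegral_iff_spectralNorm_le_one, isIntegral_iff_spectralNorm_le_one]
  by_cases hx : x = 0
  · left; simp [hx, spectralNorm_zero]
  have h1 : spectralNorm ℚ_[l] K x * spectralNorm ℚ_[l] K x⁻¹ = 1 := by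
    rw [← spectralNorm_mul_eq, mul_inv_cancel₀ hx, spectralNorm_one]
  have h2 := spectralNorm_nonneg (K := ℚ_[l]) x
  have h3 := spectralNorm_nonneg (K := ℚ_[l]) x⁻¹
  by_contra! h
  nlinarith [h.1, h.2]

instance isTorsionFree_padicInt : Module.IsTorsionFree ℤ_[l] K :=
  .trans_faithfulSMul ℤ_[l] ℚ_[l] K

variable [FiniteDimensional ℚ_[l] K]

instance isFractionRing_integralClosure : IsFractionRing (integralClosure ℤ_[l] K) K :=
  integralClosure.isFractionRing_of_finite_extension ℚ_[l] K

instance valuationRing_integralClosure : ValuationRing (integralClosure ℤ_[l] K) := by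
  rw [ValuationRing.iff_isInteger_or_isInteger (integralClosure ℤ_[l] K) K]
  intro x
  rcases isIntegral_or_isIntegral_inv l K x with h | h
  · exact Or.inl ⟨⟨x, h⟩, rfl⟩
  · exact Or.inr ⟨⟨x⁻¹, h⟩, rfl⟩

instance isNoetherianRing_integralClosure : IsNoetherianRing (integralClosure ℤ_[l] K) :=
  integralClosure.isNoetherianRing (K := ℚ_[l]) (L := K)

instance finite_integralClosure : Module.Finite ℤ_[l] (integralClosure ℤ_[l] K) :=
  IsIntegralClosure.finite ℤ_[l] ℚ_[l] K (integralClosure ℤ_[l] K)

instance free_integralClosure : Module.Free ℤ_[l] (integralClosure ℤ_[l] K) :=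
  IsIntegralClosure.module_free ℤ_[l] ℚ_[l] K (integralClosure ℤ_[l] K)

theorem finrank_integralClosure :
    Module.finrank ℤ_[l] (integralClosure ℤ_[l] K) = Module.finrank ℚ_[l] K :=
  IsIntegralClosure.rank ℤ_[l] ℚ_[l] K (integralClosure ℤ_[l] K)

theorem not_isUnit_natCast_prime : ¬ IsUnit (l : integralClosure ℤ_[l] K) := by
  intro h
  obtain ⟨u, hu⟩ := h
  have h1 : ((u⁻¹ : (integralClosure ℤ_[l] K)ˣ) : K) = (l : K)⁻¹ := by
    have h2 : ((u : integralClosure ℤ_[l] K) : K) * ((u⁻¹ : (integralClosure ℤ_[l] K)ˣ) : K) = 1 := by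
      rw [← Subalgebra.coe_mul, ← Units.val_mul, mul_inv_cancel, Units.val_one, Subalgebra.coe_one]
    rw [hu] at h2
    have h3 : ((l : integralClosure ℤ_[l] K) : K) = (l : K) := by simp
    rw [h3] at h2
    exact eq_inv_of_mul_eq_one_right h2
  have h4 : IsIntegral ℤ_[l] ((l : K)⁻¹) := h1 ▸ (u⁻¹ : (integralClosure ℤ_[l] K)ˣ).1.2
  rw [isIntegral_iff_spectralNorm_le_one] at h4
  have h5 : (l : K)⁻¹ = algebraMap ℚ_[l] K ((l : ℚ_[l])⁻¹) := by simp
  rw [h5, spectralNorm_extends, norm_inv, Padic.norm_p, inv_inv] at h4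
  have : (1 : ℝ) < l := by exact_mod_cast (Fact.out : l.Prime).one_lt
  linarith

omit [IsScalarTower ℤ_[l] ℚ_[l] K] [FiniteDimensional ℚ_[l] K] in
theorem natCast_prime_ne_zero : (l : integralClosure ℤ_[l] K) ≠ 0 := by
  intro h0
  have h1 : ((l : integralClosure ℤ_[l] K) : K) = 0 := by rw [h0]; rfl
  have h2 : (l : K) = algebraMap ℚ_[l] K (l : ℚ_[l]) := by simp
  have h3 : ((l : integralClosure ℤ_[l] K) : K) = (l : K) := by simp
  rw [h3, h2, map_eq_zero] at h1
  exact (Fact.out : l.Prime).ne_zero (by exact_mod_cast h1)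

theorem not_isField_integralClosure : ¬ IsField (integralClosure ℤ_[l] K) := by
  intro h
  obtain ⟨b, hb⟩ := h.mul_inv_cancel (natCast_prime_ne_zero l K)
  exact not_isUnit_natCast_prime l K (IsUnit.of_mul_eq_one _ hb)

instance isDiscreteValuationRing_integralClosure :
    IsDiscreteValuationRing (integralClosure ℤ_[l] K) :=
  ((IsDiscreteValuationRing.TFAE (integralClosure ℤ_[l] K)
    (not_isField_integralClosure l K)).out 0 1).mpr (valuationRing_integralClosure l K)

/-- Reduction mod `l` of the coordinates with respect to a `ℤ_[l]`-basis of the ring of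
integers. -/
noncomputable def coordRed : integralClosure ℤ_[l] K →+
    (Module.Free.ChooseBasisIndex ℤ_[l] (integralClosure ℤ_[l] K) → ZMod l) where
  toFun x i := PadicInt.toZMod ((Module.Free.chooseBasis ℤ_[l] (integralClosure ℤ_[l] K)).repr x i)
  map_zero' := by ext i; simp
  map_add' x y := by ext i; simp

theorem coordRed_surjective : Function.Surjective (coordRed l K) := by
  intro g
  have hs := ZMod.ringHom_surjective (PadicInt.toZMod (p := l))
  choose c hc using fun i => hs (g i)
  refine ⟨∑ i, c i • Module.Free.chooseBasis ℤ_[l] (integralClosure ℤ_[l] K) i, ?_⟩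
  ext i
  simp only [coordRed, AddMonoidHom.coe_mk, ZeroHom.coe_mk]
  rw [Module.Basis.repr_sum_self]
  exact hc i

omit [Algebra ℚ_[l] K] [IsScalarTower ℤ_[l] ℚ_[l] K] [FiniteDimensional ℚ_[l] K] in
theorem natCast_smul_eq (x : integralClosure ℤ_[l] K) :
    (l : ℤ_[l]) • x = (l : integralClosure ℤ_[l] K) * x := by
  rw [Algebra.smul_def]; simp

theorem mem_ker_coordRed_iff (x : integralClosure ℤ_[l] K) :
    x ∈ (coordRed l K).ker ↔ x ∈ Ideal.span {(l : integralClosure ℤ_[l] K)} := by
  set b := Module.Free.chooseBasis ℤ_[l] (integralClosure ℤ_[l] K) with hb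
  rw [AddMonoidHom.mem_ker, Ideal.mem_span_singleton]
  have key : ∀ i, PadicInt.toZMod (b.repr x i) = 0 ↔ (l : ℤ_[l]) ∣ b.repr x i := by
    intro i
    rw [← RingHom.mem_ker, PadicInt.ker_toZMod, PadicInt.maximalIdeal_eq_span_p,
      Ideal.mem_span_singleton]
  constructor
  · intro h
    have h' : ∀ i, (l : ℤ_[l]) ∣ b.repr x i := fun i => (key i).1 (congrFun h i)
    choose c hc using h'
    refine ⟨∑ i, c i • b i, ?_⟩
    rw [← natCast_smul_eq, Finset.smul_sum]
    conv_lhs => rw [← b.sum_repr x]
    refine Finset.sum_congr rfl fun i _ => ?_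
    rw [hc i, mul_smul]
  · rintro ⟨y, rfl⟩
    funext i
    show PadicInt.toZMod (b.repr _ i) = 0
    rw [key, ← natCast_smul_eq, map_smul, Finsupp.smul_apply, smul_eq_mul]
    exact dvd_mul_right _ _

theorem card_quotient_span_natCast_prime :
    Nat.card (integralClosure ℤ_[l] K ⧸ Ideal.span {(l : integralClosure ℤ_[l] K)})
      = l ^ Module.finrank ℚ_[l] K := by
  have h1 : (Ideal.span {(l : integralClosure ℤ_[l] K)}).toAddSubgroup = (coordRed l K).ker := by
    ext x
    exact (mem_ker_coordRed_iff l K x).symm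
  have h2 : Nat.card (integralClosure ℤ_[l] K ⧸ Ideal.span {(l : integralClosure ℤ_[l] K)})
      = (Ideal.span {(l : integralClosure ℤ_[l] K)}).toAddSubgroup.index := rfl
  rw [h2, h1, AddSubgroup.index_ker, AddMonoidHom.range_eq_top.mpr (coordRed_surjective l K),
    Nat.card_congr (AddSubgroup.topEquiv).toEquiv, Nat.card_fun, Nat.card_zmod,
    Nat.card_eq_fintype_card, ← Module.finrank_eq_card_chooseBasisIndex, finrank_integralClosure]

theorem exists_maximalIdeal_pow_eq_span :
    ∃ e : ℕ, 0 < e ∧ maximalIdeal (integralClosure ℤ_[l] K) ^ e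
      = Ideal.span {(l : integralClosure ℤ_[l] K)} := by
  have h := ((IsDiscreteValuationRing.TFAE (integralClosure ℤ_[l] K)
    (not_isField_integralClosure l K)).out 0 6).mp (isDiscreteValuationRing_integralClosure l K)
  have hne : Ideal.span {(l : integralClosure ℤ_[l] K)} ≠ ⊥ := by
    rw [Ne, Ideal.span_singleton_eq_bot]
    exact natCast_prime_ne_zero l K
  obtain ⟨e, he⟩ := h _ hne
  refine ⟨e, ?_, he.symm⟩
  rcases Nat.eq_zero_or_pos e with h0 | h0
  · exfalso
    rw [h0, pow_zero, Ideal.one_eq_top, Ideal.span_singleton_eq_top] at he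
    exact not_isUnit_natCast_prime l K he
  · exact h0

instance isPrecomplete_integralClosure :
    IsPrecomplete (maximalIdeal (integralClosure ℤ_[l] K)) (integralClosure ℤ_[l] K) := by
  obtain ⟨e, he, hpow⟩ := exists_maximalIdeal_pow_eq_span l K
  set O := integralClosure ℤ_[l] K
  set b := Module.Free.chooseBasis ℤ_[l] O
  refine ⟨fun f hf => ?_⟩
  simp only [smul_eq_mul, Ideal.mul_top, SModEq.sub_mem] at hf ⊢
  have hspan : ∀ k : ℕ, maximalIdeal O ^ (e * k) = Ideal.span {(l : O) ^ k} := by
    intro k; rw [pow_mul, hpow, Ideal.span_singleton_pow]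
  have hsm : ∀ (k : ℕ) (y : O), (l : O) ^ k * y = ((l : ℤ_[l]) ^ k) • y := by
    intro k y; rw [Algebra.smul_def]; simp
  have hrepr : ∀ (k : ℕ) (x : O), x ∈ Ideal.span {(l : O) ^ k} →
      ∀ i, b.repr x i ∈ (maximalIdeal ℤ_[l]) ^ k := by
    intro k x hx i
    rw [Ideal.mem_span_singleton] at hx
    obtain ⟨y, rfl⟩ := hx
    rw [PadicInt.maximalIdeal_eq_span_p, Ideal.span_singleton_pow, Ideal.mem_span_singleton,
      hsm, map_smul, Finsupp.smul_apply, smul_eq_mul]
    exact dvd_mul_right _ _
  have hcau : ∀ i, ∃ L : ℤ_[l], ∀ k, b.repr (f (e * k)) i - L ∈ maximalIdeal ℤ_[l] ^ k := by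
    intro i
    have := IsPrecomplete.prec (inferInstance : IsPrecomplete (maximalIdeal ℤ_[l]) ℤ_[l])
      (f := fun k => b.repr (f (e * k)) i) ?_
    · simpa only [smul_eq_mul, Ideal.mul_top, SModEq.sub_mem] using this
    · intro m n hmn
      simp only [smul_eq_mul, Ideal.mul_top, SModEq.sub_mem]
      have h1 : f (e * m) - f (e * n) ∈ Ideal.span {(l : O) ^ m} := by
        rw [← hspan]; exact hf (Nat.mul_le_mul_left e hmn)
      have h2 := hrepr m _ h1 i
      simpa using h2
  choose L hL using hcau
  refine ⟨∑ i, L i • b i, fun n => ?_⟩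
  have h3 : f (e * n) - ∑ i, L i • b i ∈ maximalIdeal O ^ (e * n) := by
    rw [hspan, Ideal.mem_span_singleton]
    have h4 : ∀ i, (l : ℤ_[l]) ^ n ∣ b.repr (f (e * n)) i - L i := by
      intro i
      have := hL i n
      rwa [PadicInt.maximalIdeal_eq_span_p, Ideal.span_singleton_pow,
        Ideal.mem_span_singleton] at this
    choose d hd using h4
    refine ⟨∑ i, d i • b i, ?_⟩
    rw [hsm, Finset.smul_sum]
    conv_lhs => rw [← b.sum_repr (f (e * n))]
    rw [← Finset.sum_sub_distrib]
    refine Finset.sum_congr rfl fun i _ => ?_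
    rw [← sub_smul, hd i, mul_smul]
  have h5 : f n - f (e * n) ∈ maximalIdeal O ^ n := hf (Nat.le_mul_of_pos_left n he)
  have h6 : f (e * n) - ∑ i, L i • b i ∈ maximalIdeal O ^ n :=
    Ideal.pow_le_pow_right (Nat.le_mul_of_pos_left n he) h3
  have := Ideal.add_mem _ h5 h6
  rwa [sub_add_sub_cancel] at this

instance isAdicComplete_integralClosure :
    IsAdicComplete (maximalIdeal (integralClosure ℤ_[l] K)) (integralClosure ℤ_[l] K) where

theorem natCast_prime_mem_maximalIdeal :
    (l : integralClosure ℤ_[l] K) ∈ maximalIdeal (integralClosure ℤ_[l] K) :=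
  (IsLocalRing.mem_maximalIdeal _).mpr (not_isUnit_natCast_prime l K)

instance finite_quotient_span_natCast_prime :
    Finite (integralClosure ℤ_[l] K ⧸ Ideal.span {(l : integralClosure ℤ_[l] K)}) :=
  Nat.finite_of_card_ne_zero (by
    rw [card_quotient_span_natCast_prime]
    exact pow_ne_zero _ (Fact.out : l.Prime).ne_zero)

instance finite_residueField : Finite (ResidueField (integralClosure ℤ_[l] K)) := by
  have h : Ideal.span {(l : integralClosure ℤ_[l] K)} ≤ maximalIdeal (integralClosure ℤ_[l] K) :=
    (Ideal.span_singleton_le_iff_mem _).mpr (natCast_prime_mem_maximalIdeal l K)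
  exact Finite.of_surjective (Ideal.Quotient.factor h) (Ideal.Quotient.factor_surjective h)

instance charP_residueField : CharP (ResidueField (integralClosure ℤ_[l] K)) l := by
  rw [CharP.charP_iff_prime_eq_zero (Fact.out : l.Prime)]
  have : (l : ResidueField (integralClosure ℤ_[l] K))
      = residue (integralClosure ℤ_[l] K) (l : integralClosure ℤ_[l] K) := by simp
  rw [this, residue_eq_zero_iff]
  exact natCast_prime_mem_maximalIdeal l K

/-- Ramification index and residue degree: `(l) = 𝔪 ^ e`, `|O/𝔪| = l ^ f`, `e * f = [K : ℚ_l]`. -/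
theorem exists_ramificationIdx_inertiaDeg :
    ∃ e f : ℕ, 0 < e ∧ 0 < f ∧
      maximalIdeal (integralClosure ℤ_[l] K) ^ e = Ideal.span {(l : integralClosure ℤ_[l] K)} ∧
      Nat.card (ResidueField (integralClosure ℤ_[l] K)) = l ^ f ∧
      e * f = Module.finrank ℚ_[l] K := by
  obtain ⟨e, he, hpow⟩ := exists_maximalIdeal_pow_eq_span l K
  have : Fintype (ResidueField (integralClosure ℤ_[l] K)) := Fintype.ofFinite _
  obtain ⟨f, -, hf⟩ := FiniteField.card (ResidueField (integralClosure ℤ_[l] K)) l
  have hf' : Nat.card (ResidueField (integralClosure ℤ_[l] K)) = l ^ (f : ℕ) := by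
    rw [Nat.card_eq_fintype_card, hf]
  have h1 : Submodule.cardQuot (maximalIdeal (integralClosure ℤ_[l] K) ^ e)
      = Submodule.cardQuot (maximalIdeal (integralClosure ℤ_[l] K)) ^ e :=
    cardQuot_pow_of_prime (IsDiscreteValuationRing.not_a_field _)
  rw [hpow, Submodule.cardQuot_apply, Submodule.cardQuot_apply,
    card_quotient_span_natCast_prime] at h1
  have h2 : Nat.card (integralClosure ℤ_[l] K ⧸ maximalIdeal (integralClosure ℤ_[l] K))
      = l ^ (f : ℕ) := hf'
  rw [h2, ← pow_mul] at h1
  have h3 := Nat.pow_right_injective (Fact.out : l.Prime).two_le h1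
  exact ⟨e, f, he, f.pos, hpow, hf', by rw [mul_comm]; exact h3.symm⟩

omit [Algebra ℚ_[l] K] [IsScalarTower ℤ_[l] ℚ_[l] K] [FiniteDimensional ℚ_[l] K] in
/-- A prime different from `l` is a unit in the ring of integers. -/
theorem isUnit_natCast_of_prime_ne {p : ℕ} (hp : p.Prime) (hpl : p ≠ l) :
    IsUnit (p : integralClosure ℤ_[l] K) := by
  have h1 : IsUnit (p : ℤ_[l]) := by
    rw [PadicInt.isUnit_iff, PadicInt.norm_natCast_eq_one_iff]
    exact (Nat.coprime_primes (Fact.out : l.Prime) hp).mpr (Ne.symm hpl)
  have h2 := h1.map (algebraMap ℤ_[l] (integralClosure ℤ_[l] K))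
  simpa using h2

end General

section Packaged

variable (l : ℕ) [Fact l.Prime] (K : Type*) [Field K] [Algebra ℚ_[l] K]

/-- The canonical `ℤ_[l]`-algebra structure on a `ℚ_[l]`-algebra (not a global instance). -/
@[reducible] noncomputable def padicIntAlgebra : Algebra ℤ_[l] K :=
  ((algebraMap ℚ_[l] K).comp (algebraMap ℤ_[l] ℚ_[l])).toAlgebra

theorem isScalarTower_padicIntAlgebra :
    letI := padicIntAlgebra l K
    IsScalarTower ℤ_[l] ℚ_[l] K :=
  letI := padicIntAlgebra l K
  IsScalarTower.of_algebraMap_eq (fun _ => rfl)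

/-- The ring of integers of a `ℚ_[l]`-algebra `K` (a finite extension of `ℚ_[l]` in all
applications): the integral closure of `ℤ_[l]`, as a subring of `K`. -/
noncomputable def integerRing : Subring K :=
  letI := padicIntAlgebra l K
  (integralClosure ℤ_[l] K).toSubring

variable [FiniteDimensional ℚ_[l] K]

instance isFractionRing_integerRing : IsFractionRing (integerRing l K) K :=
  letI := padicIntAlgebra l K
  haveI := isScalarTower_padicIntAlgebra l K
  (isFractionRing_integralClosure l K : IsFractionRing (integralClosure ℤ_[l] K) K)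

instance isDiscreteValuationRing_integerRing : IsDiscreteValuationRing (integerRing l K) :=
  letI := padicIntAlgebra l K
  haveI := isScalarTower_padicIntAlgebra l K
  (isDiscreteValuationRing_integralClosure l K :
    IsDiscreteValuationRing (integralClosure ℤ_[l] K))

instance isAdicComplete_integerRing :
    IsAdicComplete (maximalIdeal (integerRing l K)) (integerRing l K) :=
  letI := padicIntAlgebra l K
  haveI := isScalarTower_padicIntAlgebra l K
  (isAdicComplete_integralClosure l K :
    IsAdicComplete (maximalIdeal (integralClosure ℤ_[l] K)) (integralClosure ℤ_[l] K))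

instance finite_residueField_integerRing : Finite (ResidueField (integerRing l K)) :=
  letI := padicIntAlgebra l K
  haveI := isScalarTower_padicIntAlgebra l K
  (finite_residueField l K : Finite (ResidueField (integralClosure ℤ_[l] K)))

instance charP_residueField_integerRing : CharP (ResidueField (integerRing l K)) l :=
  letI := padicIntAlgebra l K
  haveI := isScalarTower_padicIntAlgebra l K
  (charP_residueField l K : CharP (ResidueField (integralClosure ℤ_[l] K)) l)

theorem card_quotient_integerRing :
    Nat.card (integerRing l K ⧸ Ideal.span {(l : integerRing l K)})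
      = l ^ Module.finrank ℚ_[l] K :=
  letI := padicIntAlgebra l K
  haveI := isScalarTower_padicIntAlgebra l K
  card_quotient_span_natCast_prime l K

theorem exists_ramificationIdx_inertiaDeg_integerRing :
    ∃ e f : ℕ, 0 < e ∧ 0 < f ∧
      maximalIdeal (integerRing l K) ^ e = Ideal.span {(l : integerRing l K)} ∧
      Nat.card (ResidueField (integerRing l K)) = l ^ f ∧
      e * f = Module.finrank ℚ_[l] K :=
  letI := padicIntAlgebra l K
  haveI := isScalarTower_padicIntAlgebra l K
  exists_ramificationIdx_inertiaDeg l K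

theorem natCast_prime_mem_maximalIdeal_integerRing :
    (l : integerRing l K) ∈ maximalIdeal (integerRing l K) :=
  letI := padicIntAlgebra l K
  haveI := isScalarTower_padicIntAlgebra l K
  natCast_prime_mem_maximalIdeal l K

omit [FiniteDimensional ℚ_[l] K] in
theorem isUnit_natCast_integerRing_of_prime_ne {p : ℕ} (hp : p.Prime) (hpl : p ≠ l) :
    IsUnit (p : integerRing l K) :=
  letI := padicIntAlgebra l K
  haveI := isScalarTower_padicIntAlgebra l K
  isUnit_natCast_of_prime_ne l K hp hpl

omit [FiniteDimensional ℚ_[l] K] in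
theorem mem_integerRing_iff_spectralNorm_le_one [Algebra.IsAlgebraic ℚ_[l] K] (x : K) :
    x ∈ integerRing l K ↔ spectralNorm ℚ_[l] K x ≤ 1 :=
  letI := padicIntAlgebra l K
  haveI := isScalarTower_padicIntAlgebra l K
  isIntegral_iff_spectralNorm_le_one l K x

omit [FiniteDimensional ℚ_[l] K] in
/-- Instance-free description of the ring of integers. -/
theorem mem_integerRing_iff (x : K) :
    x ∈ integerRing l K ↔ ∃ P : ℤ_[l][X], P.Monic ∧
      eval₂ ((algebraMap ℚ_[l] K).comp (algebraMap ℤ_[l] ℚ_[l])) x P = 0 :=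
  Iff.rfl

omit [FiniteDimensional ℚ_[l] K] in
theorem algebraMap_padicInt_mem_integerRing (x : ℤ_[l]) :
    algebraMap ℚ_[l] K (x : ℚ_[l]) ∈ integerRing l K :=
  letI := padicIntAlgebra l K
  (isIntegral_algebraMap (R := ℤ_[l]) (A := K) (x := x) : IsIntegral ℤ_[l] (algebraMap ℤ_[l] K x))

omit [FiniteDimensional ℚ_[l] K] in
theorem mem_integerRing_or_inv_mem [Algebra.IsAlgebraic ℚ_[l] K] (x : K) :
    x ∈ integerRing l K ∨ x⁻¹ ∈ integerRing l K :=
  letI := padicIntAlgebra l K
  haveI := isScalarTower_padicIntAlgebra l K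
  isIntegral_or_isIntegral_inv l K x

end Packaged

section PadicAlgCl

variable (l : ℕ) [Fact l.Prime]

/-- For a subextension `K` of `PadicAlgCl l`, the ring of integers is the closed unit ball. -/
theorem mem_integerRing_iff_norm_le_one (K : IntermediateField ℚ_[l] (PadicAlgCl l)) (x : K) :
    x ∈ integerRing l K ↔ ‖(x : PadicAlgCl l)‖ ≤ 1 := by
  rw [mem_integerRing_iff_spectralNorm_le_one, ← PadicAlgCl.spectralNorm_eq,
    spectralNorm.eq_of_tower (E := K) (L := PadicAlgCl l)]
  rfl

end PadicAlgCl

section UnitCriteria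

variable (l : ℕ) [Fact l.Prime] (K : Type*) [Field K] [Algebra ℚ_[l] K]

variable {K} in
theorem spectralNorm_le_one_of_mem_integerRing [Algebra.IsAlgebraic ℚ_[l] K] (x : integerRing l K) :
    spectralNorm ℚ_[l] K (x : K) ≤ 1 :=
  (mem_integerRing_iff_spectralNorm_le_one l K _).mp x.2

variable {K} in
/-- Units of the ring of integers are the elements of spectral norm one. -/
theorem isUnit_integerRing_iff [Algebra.IsAlgebraic ℚ_[l] K] (x : integerRing l K) :
    IsUnit x ↔ spectralNorm ℚ_[l] K (x : K) = 1 := by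
  constructor
  · rintro ⟨u, rfl⟩
    have h1 : spectralNorm ℚ_[l] K ((u : integerRing l K) : K)
        * spectralNorm ℚ_[l] K (((u⁻¹ : (integerRing l K)ˣ) : integerRing l K) : K) = 1 := by
      rw [← spectralNorm_mul_eq, ← Subring.coe_mul, ← Units.val_mul, mul_inv_cancel,
        Units.val_one, Subring.coe_one, spectralNorm_one]
    have h2 := spectralNorm_le_one_of_mem_integerRing l (u : integerRing l K)
    have h3 := spectralNorm_le_one_of_mem_integerRing l ((u⁻¹ : (integerRing l K)ˣ) : integerRing l K)
    have h4 := spectralNorm_nonneg (K := ℚ_[l]) ((u : integerRing l K) : K)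
    have h5 := spectralNorm_nonneg (K := ℚ_[l])
      (((u⁻¹ : (integerRing l K)ˣ) : integerRing l K) : K)
    nlinarith
  · intro h
    have hx0 : (x : K) ≠ 0 := by
      intro h0
      rw [h0, spectralNorm_zero] at h
      exact zero_ne_one h
    have h1 : spectralNorm ℚ_[l] K (x : K)⁻¹ = 1 := by
      have h2 : spectralNorm ℚ_[l] K (x : K) * spectralNorm ℚ_[l] K (x : K)⁻¹ = 1 := by
        rw [← spectralNorm_mul_eq, mul_inv_cancel₀ hx0, spectralNorm_one]
      rw [h, one_mul] at h2
      exact h2
    have h3 : (x : K)⁻¹ ∈ integerRing l K :=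
      (mem_integerRing_iff_spectralNorm_le_one l K _).mpr h1.le
    exact IsUnit.of_mul_eq_one ⟨(x : K)⁻¹, h3⟩ (Subtype.ext (mul_inv_cancel₀ hx0))

variable {K} in
/-- The maximal ideal of the ring of integers is the open unit ball. -/
theorem mem_maximalIdeal_integerRing_iff [FiniteDimensional ℚ_[l] K] (x : integerRing l K) :
    x ∈ maximalIdeal (integerRing l K) ↔ spectralNorm ℚ_[l] K (x : K) < 1 := by
  rw [IsLocalRing.mem_maximalIdeal, mem_nonunits_iff, isUnit_integerRing_iff]
  have h := spectralNorm_le_one_of_mem_integerRing l x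
  constructor
  · intro h1
    exact lt_of_le_of_ne h h1
  · intro h1
    exact ne_of_lt h1

end UnitCriteria

/-- A field extension of `ℚ_[l]` has characteristic zero. -/
theorem charZero_of_algebra_padic (l : ℕ) [Fact l.Prime] (K : Type*) [Field K] [Algebra ℚ_[l] K] :
    CharZero K :=
  charZero_of_injective_algebraMap (algebraMap ℚ_[l] K).injective

section Tower

variable (l : ℕ) [Fact l.Prime] (K L : Type*) [Field K] [Field L] [Algebra ℚ_[l] K]
  [Algebra ℚ_[l] L] [Algebra K L] [IsScalarTower ℚ_[l] K L]

theorem algebraMap_comp_padicInt :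
    (algebraMap ℚ_[l] L).comp (algebraMap ℤ_[l] ℚ_[l])
      = (algebraMap K L).comp ((algebraMap ℚ_[l] K).comp (algebraMap ℤ_[l] ℚ_[l])) := by
  rw [← RingHom.comp_assoc, ← IsScalarTower.algebraMap_eq ℚ_[l] K L]

variable {K} in
theorem algebraMap_mem_integerRing {x : K} (hx : x ∈ integerRing l K) :
    algebraMap K L x ∈ integerRing l L := by
  rw [mem_integerRing_iff] at hx ⊢
  obtain ⟨P, hP, h0⟩ := hx
  refine ⟨P, hP, ?_⟩
  rw [algebraMap_comp_padicInt l K L, ← Polynomial.hom_eval₂, h0, map_zero]

theorem algebraMap_mem_integerRing_iff (x : K) :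
    algebraMap K L x ∈ integerRing l L ↔ x ∈ integerRing l K := by
  refine ⟨fun hx => ?_, algebraMap_mem_integerRing l L⟩
  rw [mem_integerRing_iff] at hx ⊢
  obtain ⟨P, hP, h0⟩ := hx
  refine ⟨P, hP, ?_⟩
  rw [algebraMap_comp_padicInt l K L, ← Polynomial.hom_eval₂] at h0
  exact (algebraMap K L).injective (by rw [h0, map_zero])

/-- The inclusion of rings of integers induced by a tower `ℚ_[l] → K → L`. Low priority, so that
`Algebra.id` is preferred when `K = L`. -/
noncomputable instance (priority := 100) algebraIntegerRing :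
    Algebra (integerRing l K) (integerRing l L) :=
  ((algebraMap K L).restrict (integerRing l K) (integerRing l L)
    (fun _ hx => algebraMap_mem_integerRing l L hx)).toAlgebra

theorem coe_algebraMap_integerRing (x : integerRing l K) :
    ((algebraMap (integerRing l K) (integerRing l L) x : integerRing l L) : L)
      = algebraMap K L (x : K) := rfl

instance isScalarTower_integerRing_left : IsScalarTower (integerRing l K) (integerRing l L) L :=
  IsScalarTower.of_algebraMap_eq (fun _ => rfl)

instance isIntegralClosure_integerRing :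
    IsIntegralClosure (integerRing l L) (integerRing l K) L where
  algebraMap_injective := Subtype.val_injective
  isIntegral_iff := by
    intro x
    let _ := padicIntAlgebra l K
    let _ := padicIntAlgebra l L
    have : IsScalarTower ℤ_[l] (integralClosure ℤ_[l] K) L :=
      IsScalarTower.of_algebraMap_eq (fun r => by
        show algebraMap ℚ_[l] L (r : ℚ_[l]) = algebraMap K L (algebraMap ℚ_[l] K (r : ℚ_[l]))
        rw [← IsScalarTower.algebraMap_apply])
    constructor
    · intro hx
      have hx' : IsIntegral (integralClosure ℤ_[l] K) x := hx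
      have h2 : IsIntegral ℤ_[l] x := isIntegral_trans x hx'
      exact ⟨⟨x, h2⟩, rfl⟩
    · rintro ⟨y, rfl⟩
      have hy : IsIntegral ℤ_[l] (y : L) := y.2
      have h2 : IsIntegral (integralClosure ℤ_[l] K) (y : L) := hy.tower_top
      exact h2

example : IsScalarTower (integerRing l K) K L := inferInstance

instance isTorsionFree_integerRing_tower :
    Module.IsTorsionFree (integerRing l K) (integerRing l L) :=
  Module.isTorsionFree_iff_algebraMap_injective.mpr (fun x y h => by
    have h1 : algebraMap K L (x : K) = algebraMap K L (y : K) := congrArg Subtype.val h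
    exact Subtype.ext ((algebraMap K L).injective h1))

instance isTorsionFree_integerRing_field : Module.IsTorsionFree (integerRing l K) L :=
  .trans_faithfulSMul (integerRing l K) K L

theorem isScalarTower_padicInt_tower :
    letI := padicIntAlgebra l K
    letI := padicIntAlgebra l L
    IsScalarTower ℤ_[l] K L :=
  letI := padicIntAlgebra l K
  letI := padicIntAlgebra l L
  IsScalarTower.of_algebraMap_eq (fun r => by
    show algebraMap ℚ_[l] L (r : ℚ_[l]) = algebraMap K L (algebraMap ℚ_[l] K (r : ℚ_[l]))
    rw [← IsScalarTower.algebraMap_apply])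

/-- The field norm of an integer is an integer. -/
theorem norm_mem_integerRing {x : L} (hx : x ∈ integerRing l L) :
    Algebra.norm K x ∈ integerRing l K :=
  letI := padicIntAlgebra l K
  letI := padicIntAlgebra l L
  haveI := isScalarTower_padicInt_tower l K L
  Algebra.isIntegral_norm K (R := ℤ_[l]) hx

omit [Algebra K L] [IsScalarTower ℚ_[l] K L] in
/-- `ℚ_[l]`-algebra homomorphisms preserve (and reflect) integrality. -/
theorem algHom_mem_integerRing_iff (σ : K →ₐ[ℚ_[l]] L) (x : K) :
    σ x ∈ integerRing l L ↔ x ∈ integerRing l K := by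
  have hcomp : (algebraMap ℚ_[l] L).comp (algebraMap ℤ_[l] ℚ_[l])
      = (σ : K →+* L).comp ((algebraMap ℚ_[l] K).comp (algebraMap ℤ_[l] ℚ_[l])) := by
    rw [← RingHom.comp_assoc, AlgHom.comp_algebraMap]
  rw [mem_integerRing_iff, mem_integerRing_iff]
  constructor
  · rintro ⟨P, hP, h0⟩
    refine ⟨P, hP, ?_⟩
    rw [hcomp] at h0
    have h1 : (σ : K →+* L) (eval₂ ((algebraMap ℚ_[l] K).comp (algebraMap ℤ_[l] ℚ_[l])) x P)
        = 0 := by rw [Polynomial.hom_eval₂]; exact h0
    exact (σ : K →+* L).injective (by rw [h1, map_zero])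
  · rintro ⟨P, hP, h0⟩
    refine ⟨P, hP, ?_⟩
    have h1 := Polynomial.hom_eval₂ P ((algebraMap ℚ_[l] K).comp (algebraMap ℤ_[l] ℚ_[l]))
      (σ : K →+* L) x
    rw [h0, map_zero, ← hcomp] at h1
    exact h1.symm

/-- Elements of the Galois group preserve the ring of integers. -/
theorem algEquiv_mem_integerRing_iff (σ : L ≃ₐ[K] L) (x : L) :
    σ x ∈ integerRing l L ↔ x ∈ integerRing l L :=
  algHom_mem_integerRing_iff l L L ((σ.restrictScalars ℚ_[l] : L ≃ₐ[ℚ_[l]] L) : L →ₐ[ℚ_[l]] L) x

section Finite

variable [FiniteDimensional ℚ_[l] K] [FiniteDimensional K L]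

instance finite_integerRing_tower : Module.Finite (integerRing l K) (integerRing l L) :=
  haveI := charZero_of_algebra_padic l K
  IsIntegralClosure.finite (integerRing l K) K L (integerRing l L)

instance free_integerRing_tower : Module.Free (integerRing l K) (integerRing l L) :=
  haveI := charZero_of_algebra_padic l K
  IsIntegralClosure.module_free (integerRing l K) K L (integerRing l L)

theorem finrank_integerRing_tower :
    Module.finrank (integerRing l K) (integerRing l L) = Module.finrank K L :=
  haveI := charZero_of_algebra_padic l K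
  IsIntegralClosure.rank (integerRing l K) K L (integerRing l L)

omit [FiniteDimensional ℚ_[l] K] in
/-- The field trace of an integer is an integer. -/
theorem trace_mem_integerRing {x : L} (hx : x ∈ integerRing l L) :
    Algebra.trace K L x ∈ integerRing l K :=
  letI := padicIntAlgebra l K
  letI := padicIntAlgebra l L
  haveI := isScalarTower_padicInt_tower l K L
  Algebra.isIntegral_trace (R := ℤ_[l]) hx

/-- The Galois group acts on the ring of integers (Mathlib's `galRestrict` applies). -/
noncomputable example : (L ≃ₐ[K] L) ≃* (integerRing l L ≃ₐ[integerRing l K] integerRing l L) :=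
  galRestrict (integerRing l K) K L (integerRing l L)

end Finite

end Tower

end Fermat.Agent.S55.helper862
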