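/-
S55 (Poitou–Tate), input `Stmt_IndDual` of the base case `E*(A_F) ≤ 0` (SOFT-ESTAR).
Author: helper8672.

For `H ≤ G` of finite index and a character `χ : G →* kˣ` that is trivial on `H`, the Tate-twisted
dual of the coinduced module `coind_H^G k` is isomorphic to `coind_H^G k`:
the pairing `⟨φ, f⟩ = ∑_{y ∈ G/H} χ(y) φ(y⁻¹) f(y⁻¹)` is perfect and satisfies
`⟨g φ, f⟩ = χ(g) ⟨φ, g⁻¹ f⟩`.

Instance: `F` a number field inside `ℚ̄` containing a primitive `p`-th root of unity, `H = Gal(ℚ̄/F)`,
`χ = cycloChar p`.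
-/
import Mathlib
import Fermat.Prelude.Def_GroupCohomology_ContinuousUnramified
import Fermat.Agent.S14.helper2197_Kummer
import Fermat.Agent.S55.helper2945_SoftSpec
import Fermat.Agent.S55.helper3071_GlobalBridge

set_option autoImplicit false

universe u

namespace Fermat.Agent.S55.helper8672

open CategoryTheory Module groupCohomology ExtCitation

section Generic

variable {k G : Type u} [Field k] [Group G] (H : Subgroup G)

/-- A sum over coset representatives of a right-`H`-invariant function is invariant under left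
translation. -/
theorem sum_out_translate [Fintype (G ⧸ H)] (T T' : G → k)
    (hT' : ∀ (y : G) (h : G), h ∈ H → T' (y * h) = T' y) (g : G)
    (hTT' : ∀ y, T y = T' (g * y)) :
    ∑ q : G ⧸ H, T q.out = ∑ q : G ⧸ H, T' q.out := by
  classical
  let L : G ⧸ H → k := Quotient.lift T' (by
    intro a b hab
    have hab' : a⁻¹ * b ∈ H := QuotientGroup.leftRel_apply.mp hab
    have := hT' a (a⁻¹ * b) hab'
    rw [mul_inv_cancel_left] at this
    exact this.symm)
  have hL : ∀ y : G, L (QuotientGroup.mk y) = T' y := fun y => rfl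
  have h1 : ∀ q : G ⧸ H, T q.out = L (g • q) := by
    intro q
    rw [hTT']
    conv_rhs => rw [← QuotientGroup.out_eq' q]
    rfl
  have h2 : ∀ q : G ⧸ H, T' q.out = L q := by
    intro q
    conv_rhs => rw [← QuotientGroup.out_eq' q]
    rfl
  simp only [h1, h2]
  exact Equiv.sum_comp (MulAction.toPerm g) L

/-- The carrier of `coind_H^G k`. -/
noncomputable abbrev CoindTriv : Rep k G := Rep.coind H.subtype (Rep.trivial k H k)

theorem coindTriv_apply_mul (f : CoindTriv (k := k) H) (h : G) (hh : h ∈ H) (x : G) :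
    f.1 (h * x) = f.1 x := by
  have := f.2 ⟨h, hh⟩ x
  simpa using this

theorem coindTriv_ρ_apply (f : CoindTriv (k := k) H) (g x : G) :
    ((CoindTriv (k := k) H).ρ g f).1 x = f.1 (x * g) := rfl

/-- The indicator function of the coset `H x`. -/
noncomputable def coindDelta (x : G) : CoindTriv (k := k) H := by
  classical
  exact ⟨fun y => if y * x⁻¹ ∈ H then 1 else 0, by
    intro h y
    have : ((h : G) * y) * x⁻¹ ∈ H ↔ y * x⁻¹ ∈ H := by
      rw [mul_assoc]
      exact H.mul_mem_cancel_left h.2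
    change (if ((h : G) * y) * x⁻¹ ∈ H then (1 : k) else 0) = if y * x⁻¹ ∈ H then 1 else 0
    exact if_congr this rfl rfl⟩

theorem coindDelta_apply (x y : G) [Decidable (y * x⁻¹ ∈ H)] :
    (coindDelta (k := k) H x).1 y = if y * x⁻¹ ∈ H then 1 else 0 := by
  unfold coindDelta
  simp only
  congr

/-- Evaluation at the inverses of the coset representatives is injective on `coind_H^G k`. -/
theorem coindTriv_eval_injective :
    Function.Injective (fun (f : CoindTriv (k := k) H) (q : G ⧸ H) => f.1 (q.out)⁻¹) := by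
  intro f f' hff'
  apply Subtype.ext
  funext x
  have h1 := congrFun hff' (QuotientGroup.mk x⁻¹)
  simp only at h1
  have h2 : ((QuotientGroup.mk x⁻¹ : G ⧸ H).out)⁻¹ * x⁻¹ ∈ H := by
    have := QuotientGroup.mk_out_eq_mul H x⁻¹
    obtain ⟨h, hh⟩ := this
    rw [hh]
    simp
  have h3 : ∀ f : CoindTriv (k := k) H,
      f.1 ((QuotientGroup.mk x⁻¹ : G ⧸ H).out)⁻¹ = f.1 x := by
    intro f
    have := coindTriv_apply_mul H f _ h2 x
    rw [inv_mul_cancel_right] at this
    exact this
  rw [h3 f, h3 f'] at h1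
  exact h1

instance coindTriv_finite [H.FiniteIndex] : Module.Finite k (CoindTriv (k := k) H) := by
  classical
  have : Finite (G ⧸ H) := Subgroup.finite_quotient_of_finiteIndex
  let ev : CoindTriv (k := k) H →ₗ[k] (G ⧸ H → k) :=
    { toFun := fun f q => f.1 (q.out)⁻¹
      map_add' := fun f f' => rfl
      map_smul' := fun c f => rfl }
  exact Module.Finite.of_injective ev (coindTriv_eval_injective H)

variable (χ : G →* kˣ)

/-- Evaluation at the inverse of the representative of a coset. -/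
noncomputable def coindEval (q : G ⧸ H) : CoindTriv (k := k) H →ₗ[k] k where
  toFun f := f.1 (q.out)⁻¹
  map_add' _ _ := rfl
  map_smul' _ _ := rfl

theorem coindEval_apply (q : G ⧸ H) (f : CoindTriv (k := k) H) :
    coindEval H q f = f.1 (q.out)⁻¹ := rfl

/-- The twisted pairing on `coind_H^G k`, as a linear map to the dual. -/
noncomputable def coindPairing [Fintype (G ⧸ H)] :
    CoindTriv (k := k) H →ₗ[k] Module.Dual k (CoindTriv (k := k) H) :=
  ∑ q : G ⧸ H, (χ q.out : k) • (coindEval H q).smulRight (coindEval H q)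

theorem coindPairing_apply [Fintype (G ⧸ H)] (φ f : CoindTriv (k := k) H) :
    coindPairing H χ φ f = ∑ q : G ⧸ H, (χ q.out : k) * (φ.1 (q.out)⁻¹ * f.1 (q.out)⁻¹) := by
  simp only [coindPairing, LinearMap.sum_apply, LinearMap.smul_apply, LinearMap.smulRight_apply,
    smul_eq_mul]
  exact Finset.sum_congr rfl fun q _ => rfl

theorem coindPairing_injective [Fintype (G ⧸ H)] :
    Function.Injective (coindPairing (k := k) H χ) := by
  classical
  rw [← LinearMap.ker_eq_bot, LinearMap.ker_eq_bot']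
  intro φ hφ
  apply coindTriv_eval_injective H
  funext q₀
  change φ.1 (q₀.out)⁻¹ = 0
  have h1 := LinearMap.congr_fun hφ (coindDelta H (q₀.out)⁻¹)
  rw [coindPairing_apply, LinearMap.zero_apply] at h1
  rw [Finset.sum_eq_single q₀] at h1
  · have hmem : (q₀.out)⁻¹ * ((q₀.out)⁻¹)⁻¹ ∈ H := by
      rw [inv_inv, inv_mul_cancel]; exact H.one_mem
    rw [coindDelta_apply, if_pos hmem, mul_one] at h1
    rcases mul_eq_zero.mp h1 with h | h
    · exact absurd h (Units.ne_zero _)
    · exact h
  · intro q _ hq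
    have : ¬ ((q.out)⁻¹ * ((q₀.out)⁻¹)⁻¹ ∈ H) := by
      intro hmem
      apply hq
      rw [inv_inv] at hmem
      rw [← QuotientGroup.out_eq' q, ← QuotientGroup.out_eq' q₀]
      exact QuotientGroup.eq.mpr hmem
    rw [coindDelta_apply, if_neg this, mul_zero, mul_zero]
  · intro h
    exact absurd (Finset.mem_univ _) h

theorem coindPairing_equivariant [Fintype (G ⧸ H)] (hχ : ∀ h ∈ H, χ h = 1) (g : G)
    (φ : CoindTriv (k := k) H) :
    coindPairing H χ ((CoindTriv (k := k) H).ρ g φ) =
      ((CoindTriv (k := k) H).dualTwist χ).ρ g (coindPairing H χ φ) := by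
  ext f
  rw [Rep.dualTwist_ρ_apply]
  change coindPairing H χ ((CoindTriv (k := k) H).ρ g φ) f =
    (χ g : k) * coindPairing H χ φ ((CoindTriv (k := k) H).ρ g⁻¹ f)
  rw [coindPairing_apply, coindPairing_apply, Finset.mul_sum]
  refine sum_out_translate H
    (fun y => (χ y : k) * (φ.1 (y⁻¹ * g) * f.1 y⁻¹))
    (fun y => (χ g : k) * ((χ y : k) * (φ.1 y⁻¹ * f.1 (y⁻¹ * g⁻¹)))) ?_ g⁻¹ ?_
  · intro y h hh
    have e1 : (χ (y * h) : k) = (χ y : k) := by rw [map_mul, hχ h hh, mul_one]
    have e2 : ∀ ψ : CoindTriv (k := k) H, ∀ z : G, ψ.1 ((y * h)⁻¹ * z) = ψ.1 (y⁻¹ * z) := by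
      intro ψ z
      rw [mul_inv_rev, mul_assoc]
      exact coindTriv_apply_mul H ψ h⁻¹ (H.inv_mem hh) _
    have e3 : ∀ ψ : CoindTriv (k := k) H, ψ.1 (y * h)⁻¹ = ψ.1 y⁻¹ := by
      intro ψ
      have := e2 ψ 1
      simpa using this
    simp only [e1, e2, e3]
  · intro y
    have e1 : (g⁻¹ * y)⁻¹ = y⁻¹ * g := by group
    have e2 : y⁻¹ * g * g⁻¹ = y⁻¹ := by group
    have e3 : (χ g : k) * ((χ g)⁻¹ : kˣ) = 1 := by
      rw [← Units.val_mul, mul_inv_cancel, Units.val_one]
    simp only [e1, e2, map_mul, map_inv, Units.val_mul]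
    linear_combination (-(χ y : k) * (φ.1 (y⁻¹ * g) * f.1 y⁻¹)) * e3

/-- **Self-duality of the coinduced trivial module**: if `χ` is trivial on `H` (finite index),
then `(coind_H^G k).dualTwist χ ≅ coind_H^G k`. -/
theorem nonempty_dualTwist_coindTriv_iso [H.FiniteIndex] (hχ : ∀ h ∈ H, χ h = 1) :
    Nonempty ((CoindTriv (k := k) H).dualTwist χ ≅ CoindTriv (k := k) H) := by
  classical
  have : Finite (G ⧸ H) := Subgroup.finite_quotient_of_finiteIndex
  let _ : Fintype (G ⧸ H) := Fintype.ofFinite _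
  have hdim : finrank k (CoindTriv (k := k) H) =
      finrank k (Module.Dual k (CoindTriv (k := k) H)) := Subspace.dual_finrank_eq.symm
  let e : CoindTriv (k := k) H ≃ₗ[k] Module.Dual k (CoindTriv (k := k) H) :=
    LinearMap.linearEquivOfInjective (coindPairing H χ) (coindPairing_injective H χ) hdim
  have he : ∀ g, e.toLinearMap ∘ₗ (Representation.coind H.subtype (Rep.trivial k H k).ρ g) =
      ((Representation.coind H.subtype (Rep.trivial k H k).ρ).dual.twist χ g) ∘ₗ e.toLinearMap := by
    intro g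
    refine LinearMap.ext fun φ => ?_
    exact coindPairing_equivariant H χ hχ g φ
  exact ⟨(Rep.mkIso (Representation.Equiv.mk e he)).symm⟩

end Generic

section Instance

/-- The absolute Galois group of `ℚ`. -/
local notation "Qbar" => AlgebraicClosure ℚ

/-- `Gal(ℚ̄/F)` has finite index for a number field `F`. -/
theorem finiteIndex_fixingSubgroup (F : IntermediateField ℚ Qbar) [FiniteDimensional ℚ F] :
    F.fixingSubgroup.FiniteIndex := by
  have hA : IsAlgClosure ℚ Qbar := ⟨inferInstance, AlgebraicClosure.isAlgebraic ℚ⟩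
  have hG : IsGalois ℚ Qbar := inferInstance
  refine ⟨?_⟩
  rw [← IntermediateField.finrank_eq_fixingSubgroup_index]
  exact (Module.finrank_pos (R := ℚ) (M := F)).ne'

/-- `cycloChar p` is trivial on `Gal(ℚ̄/F)` when `F` contains a primitive `p`-th root of unity. -/
theorem cycloChar_eq_one_of_hasZeta {p : ℕ} [Fact p.Prime] (F : IntermediateField ℚ Qbar)
    (hF : helper3071.HasZeta p F) (h : Qbar ≃ₐ[ℚ] Qbar) (hh : h ∈ F.fixingSubgroup) :
    cycloChar p h = 1 := by
  obtain ⟨ζ, hζF, hζ⟩ := hF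
  have h1 : h ζ = ζ := (IntermediateField.mem_fixingSubgroup_iff F h).mp hh ζ hζF
  exact MonoidHom.mem_ker.mp ((Fermat.Agent.S14.helper2197.mem_ker_iff p h hζ).mpr h1)

/-- **`Stmt_IndDual`** (input (LC-D) of the base case `E*(A_F) ≤ 0`): for a number field
`F ⊂ ℚ̄` containing `μ_p`, the Tate-twisted dual of `coind_{G_F}^{G_ℚ} 𝔽_p` is isomorphic to
`coind_{G_F}^{G_ℚ} 𝔽_p`. -/
theorem stmt_IndDual : ∀ {p : ℕ} [Fact p.Prime] (F : IntermediateField ℚ Qbar)
    [FiniteDimensional ℚ F], helper3071.HasZeta p F →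
    Nonempty (helper2945.dualT (helper3071.indRep p F) ≅ helper3071.indRep p F) := by
  intro p _ F _ hF
  have := finiteIndex_fixingSubgroup F
  exact nonempty_dualTwist_coindTriv_iso (k := ZMod p) F.fixingSubgroup (cycloChar p)
    (cycloChar_eq_one_of_hasZeta F hF)

end Instance

end Fermat.Agent.S55.helper8672
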