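/-
S55 / local arithmetic core (LA): the SYMBOL-LINE argument (findings #2411, helper8917).

Abstract, Mathlib-only, hypothesis-passing.  It shows that "(LB1) dim H^2(G_K, mu_p) <= 1"
follows from "(LB2)-type" facts by linear algebra:

* `symbols_on_line`      : an alternating pairing all of whose rows have rank exactly one
                           takes all its values on one line;
* `exists_ker_ne`        : for such a pairing, for every `a ≠ 0` there is `b ∉ span {a}` with
                           `ker (s b) ≠ ker (s a)`;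
* `one_step_descent`     : one cyclic degree-`p` Kummer step `K ⊂ K₁ = K(a^{1/p})`: a class `x`
                           whose restriction lies on the symbol line of `K₁` is a symbol `s a c`;
* `pGroup_tower_induction`: induction principle along normal index-`p` steps in a finite `p`-group;
* `exists_nsmul_sub_mem_of_index_prime`, `row_rank_le_one_of_index`: adapters turning
  "the kernel of the row has prime index" into the rank-one hypothesis.
-/
import Mathlib

set_option autoImplicit false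

namespace Fermat.Agent.S55.helper8917

open Submodule

section Line

variable {F V H : Type*} [Field F] [AddCommGroup V] [Module F V] [AddCommGroup H] [Module F H]

/-- `y` lies on the line spanned by every nonzero symbol of `s` (vacuous if all symbols vanish). -/
def OnSymbolLine (s : V →ₗ[F] V →ₗ[F] H) (y : H) : Prop :=
  ∀ c d : V, s c d ≠ 0 → ∃ t : F, y = t • s c d

theorem onSymbolLine_zero (s : V →ₗ[F] V →ₗ[F] H) : OnSymbolLine s 0 :=
  fun _ _ _ => ⟨0, (zero_smul _ _).symm⟩

/-- An alternating pairing is antisymmetric. -/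
theorem antisymm_of_alt (s : V →ₗ[F] V →ₗ[F] H) (halt : ∀ a, s a a = 0) (x y : V) :
    s x y = - s y x := by
  have h := halt (x + y)
  simp only [map_add, LinearMap.add_apply, halt, zero_add, add_zero] at h
  exact eq_neg_of_add_eq_zero_left (by rw [add_comm]; exact h)

/-- Two rows with a common non-vanishing column. -/
theorem exists_common_ne (s : V →ₗ[F] V →ₗ[F] H) {a a' c₁ c₂ : V}
    (h₁ : s a c₁ ≠ 0) (h₂ : s a' c₂ ≠ 0) : ∃ c, s a c ≠ 0 ∧ s a' c ≠ 0 := by
  by_cases h3 : s a' c₁ = 0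
  · by_cases h4 : s a c₂ = 0
    · refine ⟨c₁ + c₂, ?_, ?_⟩
      · rw [map_add, h4, add_zero]; exact h₁
      · rw [map_add, h3, zero_add]; exact h₂
    · exact ⟨c₂, h4, h₂⟩
  · exact ⟨c₁, h₁, h3⟩

/-- **Line lemma.** If `s` is alternating and every row `s a` (`a ≠ 0`) has rank exactly one
(`hrow`: nonzero, `hrk`: image at most a line), then all values of `s` lie on one line:
every symbol is a multiple of any given nonzero symbol. -/
theorem symbols_on_line (s : V →ₗ[F] V →ₗ[F] H)
    (halt : ∀ a, s a a = 0)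
    (hrow : ∀ a, a ≠ 0 → ∃ b, s a b ≠ 0)
    (hrk : ∀ a b b', s a b ≠ 0 → ∃ t : F, s a b' = t • s a b)
    {a b : V} (hab : s a b ≠ 0) (a' b' : V) : ∃ t : F, s a' b' = t • s a b := by
  by_cases ha' : a' = 0
  · exact ⟨0, by rw [ha', map_zero, LinearMap.zero_apply, zero_smul]⟩
  obtain ⟨c₂, hc₂⟩ := hrow a' ha'
  obtain ⟨c, hac, ha'c⟩ := exists_common_ne s hab hc₂
  -- row a' : s a' b' = t₁ • s a' c
  obtain ⟨t₁, h₁⟩ := hrk a' c b' ha'c
  -- row c : s c a' = t₂ • s c a
  have hca : s c a ≠ 0 := by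
    rw [antisymm_of_alt s halt c a]; exact neg_ne_zero.mpr hac
  obtain ⟨t₂, h₂⟩ := hrk c a a' hca
  -- row a : s a c = t₃ • s a b
  obtain ⟨t₃, h₃⟩ := hrk a b c hab
  refine ⟨t₁ * t₂ * t₃, ?_⟩
  rw [h₁, antisymm_of_alt s halt a' c, h₂, antisymm_of_alt s halt c a, h₃]
  simp only [smul_neg, neg_neg, smul_smul, mul_assoc]

/-- Every value of `s` is on the symbol line. -/
theorem onSymbolLine_symbol (s : V →ₗ[F] V →ₗ[F] H)
    (halt : ∀ a, s a a = 0)
    (hrow : ∀ a, a ≠ 0 → ∃ b, s a b ≠ 0)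
    (hrk : ∀ a b b', s a b ≠ 0 → ∃ t : F, s a b' = t • s a b) (a' b' : V) :
    OnSymbolLine s (s a' b') :=
  fun _ _ hcd => symbols_on_line s halt hrow hrk hcd a' b'

/-- The set of elements on the symbol line is closed under addition and scalar multiplication,
so, when there is a nonzero symbol, it is the line through it. -/
theorem OnSymbolLine.add {s : V →ₗ[F] V →ₗ[F] H} {y z : H}
    (hy : OnSymbolLine s y) (hz : OnSymbolLine s z) : OnSymbolLine s (y + z) := by
  intro c d hcd
  obtain ⟨t, ht⟩ := hy c d hcd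
  obtain ⟨u, hu⟩ := hz c d hcd
  exact ⟨t + u, by rw [ht, hu, add_smul]⟩

theorem OnSymbolLine.smul {s : V →ₗ[F] V →ₗ[F] H} {y : H} (r : F)
    (hy : OnSymbolLine s y) : OnSymbolLine s (r • y) := by
  intro c d hcd
  obtain ⟨t, ht⟩ := hy c d hcd
  exact ⟨r * t, by rw [ht, smul_smul]⟩

/-- Two elements on the symbol line are linearly dependent, provided a nonzero symbol exists. -/
theorem OnSymbolLine.dependent {s : V →ₗ[F] V →ₗ[F] H} {y z : H}
    (hy : OnSymbolLine s y) (hz : OnSymbolLine s z) {c d : V} (hcd : s c d ≠ 0) :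
    ∃ t u : F, (t ≠ 0 ∨ u ≠ 0) ∧ t • y + u • z = 0 := by
  obtain ⟨t, ht⟩ := hy c d hcd
  obtain ⟨u, hu⟩ := hz c d hcd
  by_cases hu0 : u = 0
  · refine ⟨0, 1, Or.inr one_ne_zero, ?_⟩
    rw [hu, hu0]; simp
  · refine ⟨u, -t, Or.inl hu0, ?_⟩
    rw [ht, hu, smul_smul, smul_smul, ← add_smul]
    have : u * t + -t * u = 0 := by ring
    rw [this, zero_smul]

/-- **Kernel-inequality lemma.** For an alternating pairing with nonzero rows, for every `a ≠ 0`
there is `b` outside the line of `a` whose row has a different kernel. -/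
theorem exists_ker_ne (s : V →ₗ[F] V →ₗ[F] H)
    (halt : ∀ a, s a a = 0)
    (hrow : ∀ a, a ≠ 0 → ∃ b, s a b ≠ 0)
    {a : V} (ha : a ≠ 0) :
    ∃ b, b ∉ span F {a} ∧ LinearMap.ker (s b) ≠ LinearMap.ker (s a) := by
  by_contra hcon
  push Not at hcon
  obtain ⟨v, hv⟩ := hrow a ha
  apply hv
  by_cases hvs : v ∈ span F {a}
  · obtain ⟨t, rfl⟩ := mem_span_singleton.mp hvs
    rw [map_smul, halt, smul_zero]
  · have h1 : v ∈ LinearMap.ker (s v) := by
      rw [LinearMap.mem_ker]; exact halt v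
    rw [hcon v hvs] at h1
    exact LinearMap.mem_ker.mp h1

/-- With rank-one rows, different kernels are incomparable: there is `d` killed by the row of `a`
but not by the row of `b`. -/
theorem exists_mem_ker_not_mem_ker (s : V →ₗ[F] V →ₗ[F] H)
    (hrow : ∀ a, a ≠ 0 → ∃ b, s a b ≠ 0)
    (hrk : ∀ a b b', s a b ≠ 0 → ∃ t : F, s a b' = t • s a b)
    {a b : V} (ha : a ≠ 0) (hb : b ≠ 0)
    (hne : LinearMap.ker (s b) ≠ LinearMap.ker (s a)) :
    ∃ d, s a d = 0 ∧ s b d ≠ 0 := by
  by_contra hcon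
  push Not at hcon
  -- hcon : ker (s a) ≤ ker (s b)
  apply hne
  obtain ⟨v₀, hv₀⟩ := hrow a ha
  have hv₀b : s b v₀ ≠ 0 := by
    intro h0
    obtain ⟨w, hw⟩ := hrow b hb
    apply hw
    obtain ⟨t, ht⟩ := hrk a v₀ w hv₀
    have h2 : s a (w - t • v₀) = 0 := by
      rw [map_sub, map_smul, ht, sub_self]
    have h3 := hcon _ h2
    rw [map_sub, map_smul, h0, smul_zero, sub_zero] at h3
    exact h3
  apply le_antisymm
  · intro w hw
    rw [LinearMap.mem_ker] at hw ⊢
    obtain ⟨t, ht⟩ := hrk a v₀ w hv₀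
    have h2 : s a (w - t • v₀) = 0 := by
      rw [map_sub, map_smul, ht, sub_self]
    have h3 := hcon _ h2
    rw [map_sub, map_smul, hw, zero_sub, neg_eq_zero] at h3
    have ht0 : t = 0 := by
      by_contra htne
      exact hv₀b ((smul_eq_zero.mp h3).resolve_left htne)
    rw [ht, ht0, zero_smul]
  · intro w hw
    exact LinearMap.mem_ker.mpr (hcon w (LinearMap.mem_ker.mp hw))

end Line

section Descent

variable {F V H V₁ H₁ : Type*} [Field F]
  [AddCommGroup V] [Module F V] [AddCommGroup H] [Module F H]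
  [AddCommGroup V₁] [Module F V₁] [AddCommGroup H₁] [Module F H₁]

/-- **One-step descent** (one cyclic Kummer step `K ⊂ K₁ = K(a^{1/p})`).

Dictionary: `V = K^×/p`, `H = H^2(G_K, μ_p)`, `s = ` symbol of `K`; `V₁, H₁, s₁` the same for
`K₁`; `res`, `cor` restriction / corestriction on `H^2`; `i : V → V₁` the inclusion,
`Nm : V₁ → V` the norm.  Hypotheses:
* `hcorres` : `cor ∘ res = [K₁ : K] = 0`;
* `hproj`   : projection formula `cor (s₁ (i b) d) = s b (Nm d)`;
* `hnorm`   : the kernel of the row of `a` consists of norms from `K₁`;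
* `hker`    : `ker res ⊆ s a V`.
Conclusion: if `res x` is on the symbol line of `K₁`, then `x = s a c` for some `c`. -/
theorem one_step_descent
    (s : V →ₗ[F] V →ₗ[F] H) (s₁ : V₁ →ₗ[F] V₁ →ₗ[F] H₁)
    (halt : ∀ a, s a a = 0)
    (hrow : ∀ a, a ≠ 0 → ∃ b, s a b ≠ 0)
    (hrk : ∀ a b b', s a b ≠ 0 → ∃ t : F, s a b' = t • s a b)
    (res : H →ₗ[F] H₁) (cor : H₁ →ₗ[F] H) (i : V → V₁) (Nm : V₁ → V)
    (hcorres : ∀ x, cor (res x) = 0)
    (hproj : ∀ b d, cor (s₁ (i b) d) = s b (Nm d))
    {a : V} (ha : a ≠ 0)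
    (hnorm : ∀ v, s a v = 0 → ∃ d, Nm d = v)
    (hker : ∀ x, res x = 0 → ∃ c, x = s a c)
    (x : H) (hx : OnSymbolLine s₁ (res x)) :
    ∃ c, x = s a c := by
  obtain ⟨b, hbspan, hne⟩ := exists_ker_ne s halt hrow ha
  have hb : b ≠ 0 := by
    rintro rfl
    exact hbspan (zero_mem _)
  obtain ⟨d₀, hd₀a, hd₀b⟩ := exists_mem_ker_not_mem_ker s hrow hrk ha hb hne
  obtain ⟨d, rfl⟩ := hnorm d₀ hd₀a
  have hu₁ : s₁ (i b) d ≠ 0 := by
    intro h0
    apply hd₀b
    rw [← hproj, h0, map_zero]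
  obtain ⟨t, ht⟩ := hx (i b) d hu₁
  have h0 : t • s b (Nm d) = 0 := by
    rw [← hproj, ← map_smul, ← ht, hcorres]
  have ht0 : t = 0 := (smul_eq_zero.mp h0).resolve_right hd₀b
  apply hker
  rw [ht, ht0, zero_smul]

/-- Variant of `one_step_descent` with the conclusion in `OnSymbolLine` form. -/
theorem one_step_descent_onSymbolLine
    (s : V →ₗ[F] V →ₗ[F] H) (s₁ : V₁ →ₗ[F] V₁ →ₗ[F] H₁)
    (halt : ∀ a, s a a = 0)
    (hrow : ∀ a, a ≠ 0 → ∃ b, s a b ≠ 0)
    (hrk : ∀ a b b', s a b ≠ 0 → ∃ t : F, s a b' = t • s a b)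
    (res : H →ₗ[F] H₁) (cor : H₁ →ₗ[F] H) (i : V → V₁) (Nm : V₁ → V)
    (hcorres : ∀ x, cor (res x) = 0)
    (hproj : ∀ b d, cor (s₁ (i b) d) = s b (Nm d))
    {a : V} (ha : a ≠ 0)
    (hnorm : ∀ v, s a v = 0 → ∃ d, Nm d = v)
    (hker : ∀ x, res x = 0 → ∃ c, x = s a c)
    (x : H) (hx : OnSymbolLine s₁ (res x)) :
    OnSymbolLine s x := by
  obtain ⟨c, rfl⟩ := one_step_descent s s₁ halt hrow hrk res cor i Nm hcorres hproj ha hnorm hker x hx
  exact onSymbolLine_symbol s halt hrow hrk a c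

end Descent

section Tower

/-- **Tower induction in a finite `p`-group.**  A property of subgroups that holds for `⊥` and
passes from a normal subgroup of index `p` of `U` to `U` holds for every subgroup. -/
theorem pGroup_tower_induction {P : Type*} [Group P] [Finite P] {p : ℕ} [hp : Fact p.Prime]
    (hP : IsPGroup p P) (Q : Subgroup P → Prop) (hbot : Q ⊥)
    (hstep : ∀ U U' : Subgroup P, U' ≤ U → (U'.subgroupOf U).Normal → U'.relIndex U = p →
      Q U' → Q U) :
    ∀ U : Subgroup P, Q U := by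
  intro U
  induction' hn : Nat.card U using Nat.strong_induction_on with n ih generalizing U
  by_cases hU : U = ⊥
  · rw [hU]; exact hbot
  -- `U` is a nontrivial finite `p`-group
  have hPU : IsPGroup p U := hP.to_subgroup U
  obtain ⟨k, hk⟩ := IsPGroup.iff_card.mp hPU
  have hk0 : k ≠ 0 := by
    rintro rfl
    rw [pow_zero] at hk
    exact hU ((Subgroup.card_eq_one).mp hk)
  obtain ⟨m, rfl⟩ := Nat.exists_eq_succ_of_ne_zero hk0
  -- a subgroup of `U` of order `p ^ m`
  obtain ⟨W, hW⟩ := Sylow.exists_subgroup_card_pow_prime (G := U) p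
    (show p ^ m ∣ Nat.card U by rw [hk]; exact pow_dvd_pow p (Nat.le_succ m))
  have hidx : W.index = p := by
    have h1 := W.card_mul_index
    rw [hW, hk, pow_succ] at h1
    exact Nat.eq_of_mul_eq_mul_left (pow_pos hp.out.pos m) h1
  have hWn : W.Normal := by
    apply Subgroup.normal_of_index_eq_minFac_card
    rw [hidx, hk, Nat.Prime.pow_minFac hp.out (Nat.succ_ne_zero m)]
  -- transport to a subgroup of `P`
  set U' : Subgroup P := W.map U.subtype with hU'
  have hle : U' ≤ U := Subgroup.map_subtype_le W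
  have hsub : U'.subgroupOf U = W := by
    rw [hU', Subgroup.subgroupOf, Subgroup.comap_map_eq_self_of_injective U.subtype_injective]
  have hcard : Nat.card U' = p ^ m := by
    rw [hU', Subgroup.card_subtype U W]; exact hW
  refine hstep U U' hle (by rw [hsub]; exact hWn) (by rw [Subgroup.relIndex, hsub]; exact hidx)
    (ih (Nat.card U') ?_ U' rfl)
  rw [hcard, ← hn, hk]
  exact Nat.pow_lt_pow_right hp.out.one_lt (Nat.lt_succ_self m)

end Tower

section Adapters

/-- In an abelian group, a subgroup `N` of prime index and `b ∉ N`: every element is congruent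
to a multiple of `b` modulo `N`. -/
theorem exists_nsmul_sub_mem_of_index_prime {A : Type*} [AddCommGroup A] (N : AddSubgroup A)
    {p : ℕ} (hp : p.Prime) (hN : N.index = p) {b : A} (hb : b ∉ N) (b' : A) :
    ∃ n : ℕ, b' - n • b ∈ N := by
  have hfact : Fact p.Prime := ⟨hp⟩
  have hcard : Nat.card (A ⧸ N) = p := by
    rw [← AddSubgroup.index_eq_card]; exact hN
  have hfin : Finite (A ⧸ N) := Nat.finite_of_card_ne_zero (by rw [hcard]; exact hp.ne_zero)
  have hb0 : (QuotientAddGroup.mk b : A ⧸ N) ≠ 0 := by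
    rwa [Ne, QuotientAddGroup.eq_zero_iff]
  have htop : AddSubgroup.zmultiples (QuotientAddGroup.mk b : A ⧸ N) = ⊤ := by
    have hdvd := AddSubgroup.card_addSubgroup_dvd_card
      (AddSubgroup.zmultiples (QuotientAddGroup.mk b : A ⧸ N))
    rw [hcard] at hdvd
    rcases (Nat.dvd_prime hp).mp hdvd with h1 | h1
    · exact absurd (AddSubgroup.zmultiples_eq_bot.mp ((AddSubgroup.card_eq_one).mp h1)) hb0
    · exact AddSubgroup.eq_top_of_card_eq _ (by rw [h1, hcard])
  have hmem : (QuotientAddGroup.mk b' : A ⧸ N) ∈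
      AddSubgroup.zmultiples (QuotientAddGroup.mk b : A ⧸ N) := by
    rw [htop]; trivial
  obtain ⟨k, hk⟩ := AddSubgroup.mem_zmultiples_iff.mp hmem
  -- replace the integer `k` by a natural number modulo `p`
  have hpb : (p : ℤ) • (QuotientAddGroup.mk b : A ⧸ N) = 0 := by
    have h := card_nsmul_eq_zero' (G := A ⧸ N) (x := QuotientAddGroup.mk b)
    rw [hcard] at h
    rw [natCast_zsmul]; exact h
  refine ⟨(k % p).toNat, ?_⟩
  have hnn : (0 : ℤ) ≤ k % p := Int.emod_nonneg k (by exact_mod_cast hp.ne_zero)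
  have hk2 : ((k % p).toNat : ℤ) = k % p := Int.toNat_of_nonneg hnn
  rw [← QuotientAddGroup.eq_zero_iff, QuotientAddGroup.mk_sub, sub_eq_zero, ← hk,
    QuotientAddGroup.mk_nsmul, ← natCast_zsmul, hk2]
  conv_lhs => rw [← Int.emod_add_mul_ediv k p, add_zsmul, mul_comm, mul_zsmul, hpb, smul_zero,
    add_zero]

/-- Adapter: over `ZMod p`, a linear map whose kernel has index `p` has image at most a line. -/
theorem row_rank_le_one_of_index {p : ℕ} [hp : Fact p.Prime] {V H : Type*}
    [AddCommGroup V] [Module (ZMod p) V] [AddCommGroup H] [Module (ZMod p) H]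
    (f : V →ₗ[ZMod p] H) (hidx : (LinearMap.ker f).toAddSubgroup.index = p)
    (b b' : V) (hb : f b ≠ 0) : ∃ t : ZMod p, f b' = t • f b := by
  have hbN : b ∉ (LinearMap.ker f).toAddSubgroup := fun h => hb (LinearMap.mem_ker.mp h)
  obtain ⟨n, hn⟩ := exists_nsmul_sub_mem_of_index_prime _ hp.out hidx hbN b'
  refine ⟨(n : ZMod p), ?_⟩
  have h1 : f (b' - n • b) = 0 := LinearMap.mem_ker.mp hn
  rw [map_sub, map_nsmul, sub_eq_zero] at h1
  rw [h1, Nat.cast_smul_eq_nsmul]

end Adapters

end Fermat.Agent.S55.helper8917
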