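import Mathlib

/-!
# S55 / LA-SYMBOL : norm criterion for the Kummer symbol (carrier-free, Mathlib only)

`K` a field, `Ω / K` a Galois extension, `G = Gal(Ω/K)`, `p` a prime, `ζ ∈ K` a primitive `p`-th
root of unity, `a b ∈ Kˣ`, `α β ∈ Ω` with `α ^ p = a`, `β ^ p = b`.
`χ κ : G → ZMod p` are the Kummer characters (`g α = ζ ^ χ g * α`, `g β = ζ ^ κ g * β`).

Main results:
* `hilbert90_of_level` : Hilbert 90 for level-constant cocycles on an infinite Galois group.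
* `norm_of_symbol_trivial` / `symbol_trivial_of_norm` : the product cocycle `κ(g) χ(h)` (or
  `χ(g) κ(h)`) is the coboundary of a level-constant cochain iff `b` is a norm from `K(α)`.
-/

set_option autoImplicit false

namespace Fermat.Agent.S55.helper8968

open IntermediateField

section Hilbert90

variable {F Ω : Type*} [Field F] [Field Ω] [Algebra F Ω]

/-- A function on the Galois group is *level-constant* if it is right-invariant under the fixing
subgroup of a finite subextension (same shape as the frozen `IsLevelConstant`). -/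
def IsLevel {X : Type*} (f : (Ω ≃ₐ[F] Ω) → X) : Prop :=
  ∃ E : IntermediateField F Ω, FiniteDimensional F E ∧
    ∀ g s : Ω ≃ₐ[F] Ω, s ∈ E.fixingSubgroup → f (g * s) = f g

lemma IsLevel.comp {X Y : Type*} {f : (Ω ≃ₐ[F] Ω) → X} (hf : IsLevel f) (φ : X → Y) :
    IsLevel (φ ∘ f) := by
  obtain ⟨E, hE, h⟩ := hf
  exact ⟨E, hE, fun g s hs => by simp only [Function.comp_apply, h g s hs]⟩

lemma IsLevel.map₂ {X Y Z : Type*} {f : (Ω ≃ₐ[F] Ω) → X} {f' : (Ω ≃ₐ[F] Ω) → Y}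
    (hf : IsLevel f) (hf' : IsLevel f') (φ : X → Y → Z) :
    IsLevel (fun g => φ (f g) (f' g)) := by
  obtain ⟨E, hE, h⟩ := hf
  obtain ⟨E', hE', h'⟩ := hf'
  have := hE; have := hE'
  refine ⟨E ⊔ E', IntermediateField.finiteDimensional_sup E E', fun g s hs => ?_⟩
  show φ (f (g * s)) (f' (g * s)) = φ (f g) (f' g)
  rw [h g s (IntermediateField.fixingSubgroup_antitone le_sup_left hs),
    h' g s (IntermediateField.fixingSubgroup_antitone le_sup_right hs)]

/-- **Hilbert 90 for level-constant cocycles** of an arbitrary (possibly infinite) Galois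
extension: a level-constant `f : Gal(Ω/F) → Ωˣ` with `f (g h) = g (f h) * f g` is a coboundary. -/
theorem hilbert90_of_level [IsGalois F Ω] (f : (Ω ≃ₐ[F] Ω) → Ωˣ)
    (hf : ∀ g h : Ω ≃ₐ[F] Ω, (f (g * h) : Ω) = g (f h : Ω) * (f g : Ω))
    (hlev : IsLevel f) :
    ∃ t : Ωˣ, ∀ g : Ω ≃ₐ[F] Ω, g (t : Ω) = (f g : Ω) * (t : Ω) := by
  classical
  obtain ⟨E, hEfin, hE⟩ := hlev
  have := hEfin
  -- pass to the normal closure
  let N : IntermediateField F Ω := normalClosure F E Ω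
  have : Normal F N := normalClosure.normal F E Ω
  have : FiniteDimensional F N := normalClosure.is_finiteDimensional F E Ω
  have hEN : E ≤ N := E.le_normalClosure
  have hN : ∀ g s : Ω ≃ₐ[F] Ω, s ∈ N.fixingSubgroup → f (g * s) = f g := fun g s hs =>
    hE g s (IntermediateField.fixingSubgroup_antitone hEN hs)
  let ρ : (Ω ≃ₐ[F] Ω) →* (N ≃ₐ[F] N) := AlgEquiv.restrictNormalHom N
  have hρsurj : Function.Surjective ρ := AlgEquiv.restrictNormalHom_surjective Ω
  have hker : ρ.ker = N.fixingSubgroup := IntermediateField.restrictNormalHom_ker N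
  have hf1 : f 1 = 1 := by
    have h := hf 1 1
    rw [mul_one, AlgEquiv.one_apply] at h
    have h' : (f 1 : Ω) * 1 = (f 1 : Ω) * (f 1 : Ω) := by rw [mul_one]; exact h
    have := mul_left_cancel₀ (Units.ne_zero (f 1)) h'
    exact Units.ext this.symm
  -- values lie in `N`
  have hval : ∀ g : Ω ≃ₐ[F] Ω, (f g : Ω) ∈ N := by
    intro g
    rw [← InfiniteGalois.fixedField_fixingSubgroup N, IntermediateField.mem_fixedField_iff]
    intro s hs
    have hs' : g⁻¹ * s * g ∈ N.fixingSubgroup := by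
      rw [← hker, MonoidHom.mem_ker, map_mul, map_mul, map_inv]
      have : ρ s = 1 := by rw [← MonoidHom.mem_ker, hker]; exact hs
      rw [this, mul_one, inv_mul_cancel]
    have h1 : f (s * g) = f g := by
      have : s * g = g * (g⁻¹ * s * g) := by group
      rw [this, hN g _ hs']
    have h2 := hf s g
    rw [h1] at h2
    have hfs : f s = 1 := by
      have := hN 1 s hs
      rw [one_mul] at this
      rw [this, hf1]
    rw [hfs, Units.val_one, mul_one] at h2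
    exact h2.symm
  -- the descended cocycle
  let lift : (N ≃ₐ[F] N) → (Ω ≃ₐ[F] Ω) := Function.surjInv hρsurj
  have hlift : ∀ γ, ρ (lift γ) = γ := Function.surjInv_eq hρsurj
  have hdesc : ∀ g g' : Ω ≃ₐ[F] Ω, ρ g = ρ g' → f g = f g' := by
    intro g g' h
    have hs : g⁻¹ * g' ∈ N.fixingSubgroup := by
      rw [← hker, MonoidHom.mem_ker, map_mul, map_inv, h, inv_mul_cancel]
    have := hN g _ hs
    rw [mul_inv_cancel_left] at this
    exact this.symm
  let fbar : (N ≃ₐ[F] N) → Nˣ := fun γ =>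
    Units.mk0 ⟨(f (lift γ) : Ω), hval (lift γ)⟩ (by
      intro h
      exact Units.ne_zero (f (lift γ)) (congrArg Subtype.val h))
  have hfbar : ∀ γ, ((fbar γ : N) : Ω) = (f (lift γ) : Ω) := fun γ => rfl
  have hcoc : groupCohomology.IsMulCocycle₁ fbar := by
    intro γ δ
    apply Units.ext
    apply Subtype.ext
    rw [Units.val_mul, AlgEquiv.smul_units_def, Units.coe_map, MulMemClass.coe_mul, hfbar, hfbar]
    have h1 : f (lift (γ * δ)) = f (lift γ * lift δ) :=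
      hdesc _ _ (by rw [map_mul, hlift, hlift, hlift])
    rw [h1, hf]
    congr 1
    have := AlgEquiv.restrictNormalHom_apply N (lift γ) (fbar δ : N)
    rw [hfbar] at this
    rw [← this]
    exact congrArg (fun τ : N ≃ₐ[F] N => ((τ (fbar δ : N) : N) : Ω)) (hlift γ)
  obtain ⟨β, hβ⟩ := groupCohomology.isMulCoboundary₁_of_isMulCocycle₁_of_aut_to_units fbar hcoc
  refine ⟨Units.map (algebraMap N Ω : N →* Ω) β, fun g => ?_⟩
  have h1 : f g = f (lift (ρ g)) := hdesc _ _ (by rw [hlift])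
  have h2 := hβ (ρ g)
  rw [AlgEquiv.smul_units_def] at h2
  have h3 : ((ρ g) (β : N) : N) = (fbar (ρ g) : N) * (β : N) := by
    have h2' := congrArg (fun u : Nˣ => (u : N)) h2
    simp only [Units.val_div_eq_div_val, Units.coe_map, MonoidHom.coe_coe] at h2'
    rw [← h2']
    field_simp
  have h4 : (((ρ g) (β : N) : N) : Ω) = g ((β : N) : Ω) :=
    AlgEquiv.restrictNormalHom_apply N g (β : N)
  rw [h3, MulMemClass.coe_mul, hfbar, ← h1] at h4
  rw [Units.coe_map]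
  exact h4.symm

end Hilbert90

section Kummer

variable {K Ω : Type*} [Field K] [Field Ω] [Algebra K Ω] {p : ℕ} [Fact p.Prime]

/-- The exponential `ZMod p → Ω`, `x ↦ z ^ x.val` (a homomorphism when `z ^ p = 1`). -/
def zexp (z : Ω) (x : ZMod p) : Ω := z ^ x.val

lemma zexp_zero (z : Ω) : zexp z (0 : ZMod p) = 1 := by simp [zexp]

lemma zexp_add {z : Ω} (hz : z ^ p = 1) (x y : ZMod p) :
    zexp z (x + y) = zexp z x * zexp z y := by
  unfold zexp
  rw [ZMod.val_add, ← pow_add, ← pow_eq_pow_mod _ hz]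

lemma zexp_natCast {z : Ω} (hz : z ^ p = 1) (n : ℕ) : zexp z (n : ZMod p) = z ^ n := by
  unfold zexp
  rw [ZMod.val_natCast, ← pow_eq_pow_mod _ hz]

lemma zexp_neg_mul {z : Ω} (hz : z ^ p = 1) (x : ZMod p) : zexp z (-x) * zexp z x = 1 := by
  rw [← zexp_add hz, neg_add_cancel, zexp_zero]

lemma zexp_sub {z : Ω} (hz : z ^ p = 1) (x y : ZMod p) :
    zexp z (x - y) * zexp z y = zexp z x := by
  rw [← zexp_add hz, sub_add_cancel]

lemma zexp_pow {z : Ω} (hz : z ^ p = 1) (x : ZMod p) (n : ℕ) :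
    zexp z x ^ n = zexp z (x * (n : ZMod p)) := by
  have h : x * (n : ZMod p) = ((x.val * n : ℕ) : ZMod p) := by
    push_cast
    rw [ZMod.natCast_zmod_val]
  rw [h, zexp_natCast hz, pow_mul]
  rfl

lemma zexp_ne_zero {z : Ω} (hz : z ^ p = 1) (x : ZMod p) : zexp z x ≠ 0 := by
  intro h
  have := zexp_neg_mul hz x
  rw [h, mul_zero] at this
  exact zero_ne_one this

lemma zexp_injective {z : Ω} (hz : IsPrimitiveRoot z p) :
    Function.Injective (zexp z : ZMod p → Ω) := fun x y h =>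
  ZMod.val_injective p (hz.pow_inj (ZMod.val_lt x) (ZMod.val_lt y) h)

lemma map_zexp (g : Ω ≃ₐ[K] Ω) (ζ : K) (x : ZMod p) :
    g (zexp (algebraMap K Ω ζ) x) = zexp (algebraMap K Ω ζ) x := by
  simp [zexp]

/-- `χ` is the Kummer character of `α` with respect to `ζ`: `g α = ζ ^ χ g * α`. -/
def IsKummerChar (ζ : K) (α : Ω) (χ : (Ω ≃ₐ[K] Ω) → ZMod p) : Prop :=
  ∀ g : Ω ≃ₐ[K] Ω, g α = algebraMap K Ω ζ ^ (χ g).val * α

lemma IsKummerChar.apply {ζ : K} {α : Ω} {χ : (Ω ≃ₐ[K] Ω) → ZMod p} (hχ : IsKummerChar ζ α χ)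
    (g : Ω ≃ₐ[K] Ω) : g α = zexp (algebraMap K Ω ζ) (χ g) * α := hχ g

/-- Kummer characters exist. -/
theorem exists_isKummerChar {ζ : K} (hζ : IsPrimitiveRoot ζ p) {a : K} {α : Ω}
    (hα : α ^ p = algebraMap K Ω a) (ha : a ≠ 0) :
    ∃ χ : (Ω ≃ₐ[K] Ω) → ZMod p, IsKummerChar ζ α χ := by
  have hp : p ≠ 0 := (Fact.out : p.Prime).ne_zero
  have hα0 : α ≠ 0 := by
    rintro rfl
    rw [zero_pow hp] at hα
    exact ha ((algebraMap K Ω).injective (by rw [map_zero]; exact hα.symm))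
  have hζ' : IsPrimitiveRoot (algebraMap K Ω ζ) p :=
    hζ.map_of_injective (algebraMap K Ω).injective
  have key : ∀ g : Ω ≃ₐ[K] Ω, ∃ i : ℕ, i < p ∧ algebraMap K Ω ζ ^ i = g α / α := by
    intro g
    refine hζ'.eq_pow_of_pow_eq_one ?_
    rw [div_pow, ← map_pow, hα, AlgEquiv.commutes, div_self]
    rw [← hα]
    exact pow_ne_zero p hα0
  choose i hi hi' using key
  refine ⟨fun g => (i g : ZMod p), fun g => ?_⟩
  rw [ZMod.val_natCast, Nat.mod_eq_of_lt (hi g), hi' g, div_mul_cancel₀ _ hα0]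

section facts

variable {ζ : K} {α : Ω} {χ : (Ω ≃ₐ[K] Ω) → ZMod p}

lemma IsKummerChar.kmul (hχ : IsKummerChar ζ α χ) (hζ : IsPrimitiveRoot ζ p) (hα0 : α ≠ 0)
    (g h : Ω ≃ₐ[K] Ω) : χ (g * h) = χ g + χ h := by
  have hζ' : IsPrimitiveRoot (algebraMap K Ω ζ) p :=
    hζ.map_of_injective (algebraMap K Ω).injective
  have hz := hζ'.pow_eq_one
  apply zexp_injective hζ'
  apply mul_right_cancel₀ hα0
  rw [← hχ.apply (g * h), AlgEquiv.mul_apply, hχ.apply h, map_mul, map_zexp, hχ.apply g,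
    zexp_add hz]
  ring

lemma IsKummerChar.kone (hχ : IsKummerChar ζ α χ) (hζ : IsPrimitiveRoot ζ p) (hα0 : α ≠ 0) :
    χ 1 = 0 := by
  have := hχ.kmul hζ hα0 1 1
  rw [mul_one] at this
  simpa using this

lemma IsKummerChar.kpow (hχ : IsKummerChar ζ α χ) (hζ : IsPrimitiveRoot ζ p) (hα0 : α ≠ 0)
    (g : Ω ≃ₐ[K] Ω) (n : ℕ) : χ (g ^ n) = n * χ g := by
  induction n with
  | zero => simp [hχ.kone hζ hα0]
  | succ n ih => rw [pow_succ, hχ.kmul hζ hα0, ih]; push_cast; ring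

lemma IsKummerChar.kinv (hχ : IsKummerChar ζ α χ) (hζ : IsPrimitiveRoot ζ p) (hα0 : α ≠ 0)
    (g : Ω ≃ₐ[K] Ω) : χ g⁻¹ = - χ g := by
  have := hχ.kmul hζ hα0 g⁻¹ g
  rw [inv_mul_cancel, hχ.kone hζ hα0] at this
  exact eq_neg_of_add_eq_zero_left this.symm

lemma IsKummerChar.eq_zero_iff (hχ : IsKummerChar ζ α χ) (hζ : IsPrimitiveRoot ζ p) (hα0 : α ≠ 0)
    (g : Ω ≃ₐ[K] Ω) : χ g = 0 ↔ g α = α := by
  have hζ' : IsPrimitiveRoot (algebraMap K Ω ζ) p :=
    hζ.map_of_injective (algebraMap K Ω).injective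
  constructor
  · intro h
    rw [hχ.apply g, h, zexp_zero, one_mul]
  · intro h
    apply zexp_injective hζ'
    apply mul_right_cancel₀ hα0
    rw [← hχ.apply g, h, zexp_zero, one_mul]

lemma IsKummerChar.mem_fixingSubgroup_iff (hχ : IsKummerChar ζ α χ) (hζ : IsPrimitiveRoot ζ p)
    (hα0 : α ≠ 0) (g : Ω ≃ₐ[K] Ω) : g ∈ (K⟮α⟯).fixingSubgroup ↔ χ g = 0 := by
  rw [hχ.eq_zero_iff hζ hα0]
  constructor
  · intro h
    exact (IntermediateField.mem_fixingSubgroup_iff _ _).1 h α (mem_adjoin_simple_self K α)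
  · intro h
    rw [IntermediateField.mem_fixingSubgroup_iff]
    have hle : K⟮α⟯ ≤ IntermediateField.fixedField (Subgroup.zpowers g) := by
      rw [adjoin_simple_le_iff, IntermediateField.mem_fixedField_iff]
      rintro f ⟨n, rfl⟩
      have hg : ∀ m : ℕ, (g ^ m) α = α := by
        intro m
        induction m with
        | zero => simp
        | succ m ih => rw [pow_succ, AlgEquiv.mul_apply, h, ih]
      have hginv : g⁻¹ α = α := by
        have : g⁻¹ (g α) = α := by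
          rw [← AlgEquiv.mul_apply, inv_mul_cancel, AlgEquiv.one_apply]
        rw [h] at this
        exact this
      have hginv' : ∀ m : ℕ, (g⁻¹ ^ m) α = α := by
        intro m
        induction m with
        | zero => simp
        | succ m ih => rw [pow_succ, AlgEquiv.mul_apply, hginv, ih]
      obtain ⟨m, rfl | rfl⟩ := Int.eq_nat_or_neg n
      · simpa using hg m
      · simpa using hginv' m
    intro x hx
    exact (IntermediateField.mem_fixedField_iff _ _).1 (hle hx) g (Subgroup.mem_zpowers g)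

lemma IsKummerChar.isLevel (hχ : IsKummerChar ζ α χ) (hζ : IsPrimitiveRoot ζ p) {a : K}
    (hα : α ^ p = algebraMap K Ω a) (hα0 : α ≠ 0) : IsLevel χ := by
  have hint : IsIntegral K α := by
    have hp : p ≠ 0 := (Fact.out : p.Prime).ne_zero
    refine ⟨Polynomial.X ^ p - Polynomial.C a, Polynomial.monic_X_pow_sub_C a hp, ?_⟩
    simp [hα]
  refine ⟨K⟮α⟯, adjoin.finiteDimensional hint, fun g s hs => ?_⟩
  rw [hχ.kmul hζ hα0, (hχ.mem_fixingSubgroup_iff hζ hα0 s).1 hs, add_zero]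

/-- If `a` is not a `p`-th power, some automorphism has Kummer exponent `1`. -/
lemma IsKummerChar.exists_eq_one [IsGalois K Ω] (hχ : IsKummerChar ζ α χ)
    (hζ : IsPrimitiveRoot ζ p) {a : K} (hα : α ^ p = algebraMap K Ω a) (hα0 : α ≠ 0)
    (hirr : ∀ c : K, c ^ p ≠ a) : ∃ σ : Ω ≃ₐ[K] Ω, χ σ = 1 := by
  have hex : ∃ g : Ω ≃ₐ[K] Ω, χ g ≠ 0 := by
    by_contra hcon
    simp only [not_exists, not_not] at hcon
    have hmem : α ∈ IntermediateField.fixedField (⊤ : Subgroup (Ω ≃ₐ[K] Ω)) := by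
      rw [IntermediateField.mem_fixedField_iff]
      intro g _
      exact (hχ.eq_zero_iff hζ hα0 g).1 (hcon g)
    rw [InfiniteGalois.fixedField_bot, IntermediateField.mem_bot] at hmem
    obtain ⟨c, rfl⟩ := hmem
    refine hirr c ((algebraMap K Ω).injective ?_)
    rw [map_pow, hα]
  obtain ⟨g, hg⟩ := hex
  refine ⟨g ^ (χ g)⁻¹.val, ?_⟩
  rw [hχ.kpow hζ hα0, ZMod.natCast_zmod_val, inv_mul_cancel₀ hg]

end facts

end Kummer

section Main

variable {K Ω : Type*} [Field K] [Field Ω] [Algebra K Ω] {p : ℕ} [Fact p.Prime]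

/-- Restricting a level-constant cochain to the absolute Galois group of an intermediate field
keeps it level-constant. -/
lemma isLevel_restrict [IsGalois K Ω] (L : IntermediateField K Ω) {X : Type*}
    {u : (Ω ≃ₐ[K] Ω) → X} (hu : IsLevel u) :
    IsLevel (fun h : Ω ≃ₐ[L] Ω => u (h.restrictScalars K)) := by
  obtain ⟨E, hEfin, hE⟩ := hu
  have := hEfin
  let bs := Module.finBasis K E
  let S : Set Ω := Set.range (fun i => (bs i : Ω))
  have hSfin : Finite S := Set.finite_range _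
  have hint : ∀ x ∈ S, IsIntegral L x := fun x _ => Algebra.IsIntegral.isIntegral x
  refine ⟨IntermediateField.adjoin L S, finiteDimensional_adjoin hint, fun g s hs => ?_⟩
  have hs' : s.restrictScalars K ∈ E.fixingSubgroup := by
    rw [IntermediateField.mem_fixingSubgroup_iff]
    intro x hx
    have hx' := bs.sum_repr ⟨x, hx⟩
    have hx'' : x = ∑ i, (bs.repr ⟨x, hx⟩ i) • (bs i : Ω) := by
      have := congrArg (fun y : E => (y : Ω)) hx'
      simp only [AddSubmonoidClass.coe_finsetSum, IntermediateField.coe_smul] at this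
      exact this.symm
    rw [hx'', map_sum]
    refine Finset.sum_congr rfl fun i _ => ?_
    rw [map_smul]
    congr 1
    exact (IntermediateField.mem_fixingSubgroup_iff _ _).1 hs _
      (IntermediateField.subset_adjoin L S ⟨i, rfl⟩)
  have hmul : (g * s).restrictScalars K = g.restrictScalars K * s.restrictScalars K :=
    AlgEquiv.ext fun _ => rfl
  show u ((g * s).restrictScalars K) = u (g.restrictScalars K)
  rw [hmul]
  exact hE (g.restrictScalars K) (s.restrictScalars K) hs'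

variable {ζ : K} {a b : K} {α β : Ω} {χ κ : (Ω ≃ₐ[K] Ω) → ZMod p}

/-- The carry of the addition of two Kummer exponents. -/
def carry (χ : (Ω ≃ₐ[K] Ω) → ZMod p) (g h : Ω ≃ₐ[K] Ω) : ℕ := ((χ g).val + (χ h).val) / p

lemma val_add_val (hχ : IsKummerChar ζ α χ) (hζ : IsPrimitiveRoot ζ p) (hα0 : α ≠ 0)
    (g h : Ω ≃ₐ[K] Ω) :
    (χ g).val + (χ h).val = (χ (g * h)).val + p * carry χ g h := by
  rw [hχ.kmul hζ hα0, ZMod.val_add, carry]
  exact (Nat.mod_add_div _ _).symm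

/-- The basic cochain identity: `β ^ χ̃` has coboundary `ζ ^ (κ(g) χ(h)) * b ^ carry`. -/
lemma twist_formula (hζ : IsPrimitiveRoot ζ p) (hβ : β ^ p = algebraMap K Ω b)
    (hχ : IsKummerChar ζ α χ) (hκ : IsKummerChar ζ β κ) (hα0 : α ≠ 0) (g h : Ω ≃ₐ[K] Ω) :
    g (β ^ (χ h).val) * β ^ (χ g).val =
      zexp (algebraMap K Ω ζ) (κ g * χ h) * algebraMap K Ω b ^ carry χ g h *
        β ^ (χ (g * h)).val := by
  have hz := (hζ.map_of_injective (algebraMap K Ω).injective).pow_eq_one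
  rw [_root_.map_pow, hκ.apply g, mul_pow, zexp_pow hz, ZMod.natCast_zmod_val, mul_assoc,
    ← pow_add, add_comm, val_add_val hχ hζ hα0 g h, pow_add, pow_mul, hβ]
  ring

/-- **Symbol ⇒ norm.** If the product cocycle `(g, h) ↦ κ(g) χ(h)` of the Kummer characters of
`β` (`β ^ p = b`) and `α` is the coboundary of a level-constant cochain `u`, then `b` is a "norm"
from `K(α)`: there is `y ∈ K(α)` with `∏_{i<p} σ^i y = b`, for any `σ` with `χ σ = 1`. -/
theorem exists_prod_eq_of_symbol_trivial [IsGalois K Ω] (hζ : IsPrimitiveRoot ζ p)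
    (hα : α ^ p = algebraMap K Ω a) (hβ : β ^ p = algebraMap K Ω b) (ha : a ≠ 0)
    (hχ : IsKummerChar ζ α χ) (hκ : IsKummerChar ζ β κ)
    {σ : Ω ≃ₐ[K] Ω} (hσ : χ σ = 1)
    (u : (Ω ≃ₐ[K] Ω) → ZMod p) (hu : IsLevel u)
    (h : ∀ g h : Ω ≃ₐ[K] Ω, κ g * χ h = u g + u h - u (g * h)) :
    ∃ y : Ω, y ∈ K⟮α⟯ ∧ ∏ i ∈ Finset.range p, (σ ^ i) y = algebraMap K Ω b := by
  classical
  have hpp : p.Prime := Fact.out
  have hp : p ≠ 0 := hpp.ne_zero
  have hα0 : α ≠ 0 := by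
    rintro rfl
    rw [zero_pow hp] at hα
    exact ha ((algebraMap K Ω).injective (by rw [map_zero]; exact hα.symm))
  have hζ' : IsPrimitiveRoot (algebraMap K Ω ζ) p :=
    hζ.map_of_injective (algebraMap K Ω).injective
  have hz : algebraMap K Ω ζ ^ p = 1 := hζ'.pow_eq_one
  let L : IntermediateField K Ω := K⟮α⟯
  -- Hilbert 90 over `L`
  let ι : (Ω ≃ₐ[L] Ω) → (Ω ≃ₐ[K] Ω) := fun h => h.restrictScalars K
  have hι : ∀ h : Ω ≃ₐ[L] Ω, χ (ι h) = 0 := fun h =>
    (hχ.eq_zero_iff hζ hα0 _).2 (h.commutes ⟨α, mem_adjoin_simple_self K α⟩)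
  let f : (Ω ≃ₐ[L] Ω) → Ωˣ := fun h =>
    Units.mk0 (zexp (algebraMap K Ω ζ) (u (ι h))) (zexp_ne_zero hz _)
  have hfcoc : ∀ g h : Ω ≃ₐ[L] Ω, (f (g * h) : Ω) = g (f h : Ω) * (f g : Ω) := by
    intro g h'
    show zexp (algebraMap K Ω ζ) (u (ι (g * h'))) =
      g (zexp (algebraMap K Ω ζ) (u (ι h'))) * zexp (algebraMap K Ω ζ) (u (ι g))
    have h1 : ι (g * h') = ι g * ι h' := AlgEquiv.ext fun _ => rfl
    have h2 := h (ι g) (ι h')
    rw [hι h', mul_zero] at h2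
    have h3 : u (ι g * ι h') = u (ι g) + u (ι h') := by linear_combination h2
    have h4 : g (zexp (algebraMap K Ω ζ) (u (ι h'))) = zexp (algebraMap K Ω ζ) (u (ι h')) :=
      map_zexp (ι g) ζ _
    rw [h1, h3, zexp_add hz, h4]
    ring
  have hflev : IsLevel f :=
    (isLevel_restrict L hu).comp
      (fun x => Units.mk0 (zexp (algebraMap K Ω ζ) x) (zexp_ne_zero hz _))
  obtain ⟨t, ht⟩ := hilbert90_of_level f hfcoc hflev
  have hT : ∀ g : Ω ≃ₐ[K] Ω, χ g = 0 →
      g (t : Ω) = zexp (algebraMap K Ω ζ) (u g) * (t : Ω) := by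
    intro g hg
    have hmem : g ∈ L.fixingSubgroup := (hχ.mem_fixingSubgroup_iff hζ hα0 g).2 hg
    have h1 := ht (IntermediateField.fixingSubgroupEquiv L ⟨g, hmem⟩)
    have h2 : ι (IntermediateField.fixingSubgroupEquiv L ⟨g, hmem⟩) = g :=
      AlgEquiv.ext fun _ => rfl
    have h3 : (f (IntermediateField.fixingSubgroupEquiv L ⟨g, hmem⟩) : Ω) =
        zexp (algebraMap K Ω ζ) (u g) := by
      show zexp (algebraMap K Ω ζ) (u (ι _)) = _
      rw [h2]
    rw [h3] at h1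
    exact h1
  let v' : (Ω ≃ₐ[K] Ω) → Ω := fun g =>
    β ^ (χ g).val * zexp (algebraMap K Ω ζ) (-u g) * g (t : Ω) / (t : Ω)
  have ht0 : (t : Ω) ≠ 0 := t.ne_zero
  have hE1 : ∀ g h' : Ω ≃ₐ[K] Ω,
      g (v' h') * v' g = algebraMap K Ω b ^ carry χ g h' * v' (g * h') := by
    intro g h'
    have hW := twist_formula hζ hβ hχ hκ hα0 g h'
    have hexp : zexp (algebraMap K Ω ζ) (κ g * χ h') *
        (zexp (algebraMap K Ω ζ) (-u h') * zexp (algebraMap K Ω ζ) (-u g)) =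
        zexp (algebraMap K Ω ζ) (-u (g * h')) := by
      rw [← zexp_add hz, ← zexp_add hz]
      congr 1
      rw [h g h']
      ring
    have hgt0 : g (t : Ω) ≠ 0 := (map_ne_zero g).2 ht0
    show g (β ^ (χ h').val * zexp (algebraMap K Ω ζ) (-u h') * h' (t : Ω) / (t : Ω)) *
        (β ^ (χ g).val * zexp (algebraMap K Ω ζ) (-u g) * g (t : Ω) / (t : Ω)) =
      algebraMap K Ω b ^ carry χ g h' *
        (β ^ (χ (g * h')).val * zexp (algebraMap K Ω ζ) (-u (g * h')) * (g * h') (t : Ω) / (t : Ω))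
    rw [map_div₀, _root_.map_mul, _root_.map_mul, map_zexp, AlgEquiv.mul_apply, ← hexp]
    field_simp
    linear_combination (zexp (algebraMap K Ω ζ) (-u h') * zexp (algebraMap K Ω ζ) (-u g)) * hW
  have hv'0 : ∀ g : Ω ≃ₐ[K] Ω, χ g = 0 → v' g = 1 := by
    intro g hg
    show β ^ (χ g).val * zexp (algebraMap K Ω ζ) (-u g) * g (t : Ω) / (t : Ω) = 1
    rw [hg, ZMod.val_zero, pow_zero, one_mul, hT g hg, ← mul_assoc, zexp_neg_mul hz, one_mul,
      div_self ht0]
  have hone : (1 : ZMod p).val = 1 := ZMod.val_one p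
  refine ⟨v' σ, ?_, ?_⟩
  · rw [← InfiniteGalois.fixedField_fixingSubgroup (K⟮α⟯), IntermediateField.mem_fixedField_iff]
    intro s hs
    have hs0 : χ s = 0 := (hχ.mem_fixingSubgroup_iff hζ hα0 s).1 hs
    have e1 := hE1 s σ
    have hc1 : carry χ s σ = 0 := by
      rw [carry, hs0, hσ, ZMod.val_zero, hone, zero_add]
      exact Nat.div_eq_of_lt hpp.one_lt
    rw [hc1, pow_zero, one_mul, hv'0 s hs0, mul_one] at e1
    have hs' : χ (σ⁻¹ * s * σ) = 0 := by
      rw [hχ.kmul hζ hα0, hχ.kmul hζ hα0, hχ.kinv hζ hα0, hs0, hσ]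
      ring
    have e2 := hE1 σ (σ⁻¹ * s * σ)
    have hc2 : carry χ σ (σ⁻¹ * s * σ) = 0 := by
      rw [carry, hs', hσ, ZMod.val_zero, hone, add_zero]
      exact Nat.div_eq_of_lt hpp.one_lt
    rw [hc2, pow_zero, one_mul, hv'0 _ hs', map_one, one_mul] at e2
    have hgrp : σ * (σ⁻¹ * s * σ) = s * σ := by group
    rw [hgrp] at e2
    rw [e1, ← e2]
  · have hval : ∀ i : ℕ, i < p → (χ (σ ^ i)).val = i := by
      intro i hi
      rw [hχ.kpow hζ hα0, hσ, mul_one, ZMod.val_natCast, Nat.mod_eq_of_lt hi]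
    have key : ∀ i : ℕ, i < p → ∏ j ∈ Finset.range i, (σ ^ j) (v' σ) = v' (σ ^ i) := by
      intro i
      induction i with
      | zero =>
        intro _
        rw [Finset.prod_range_zero, pow_zero, hv'0 1 (hχ.kone hζ hα0)]
      | succ i ih =>
        intro hi
        rw [Finset.prod_range_succ, ih (Nat.lt_of_succ_lt hi)]
        have e := hE1 (σ ^ i) σ
        have hc : carry χ (σ ^ i) σ = 0 := by
          rw [carry, hval i (Nat.lt_of_succ_lt hi), hσ, hone]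
          exact Nat.div_eq_of_lt hi
        rw [hc, pow_zero, one_mul, ← pow_succ] at e
        rw [← e]
        ring
    have hp1 : p - 1 + 1 = p := Nat.succ_pred_eq_of_pos hpp.pos
    have hlt : p - 1 < p := Nat.pred_lt hp
    rw [← hp1, Finset.prod_range_succ, key (p - 1) hlt]
    have e := hE1 (σ ^ (p - 1)) σ
    have hc : carry χ (σ ^ (p - 1)) σ = 1 := by
      rw [carry, hval (p - 1) hlt, hσ, hone, hp1]
      exact Nat.div_self hpp.pos
    have hlast : v' (σ ^ (p - 1 + 1)) = 1 := hv'0 _ (by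
      rw [hχ.kpow hζ hα0, hσ, mul_one, hp1]
      exact ZMod.natCast_self p)
    rw [hc, pow_one, ← pow_succ, hlast, mul_one] at e
    rw [mul_comm]
    exact e

end Main

section Norm

variable {K Ω : Type*} [Field K] [Field Ω] [Algebra K Ω] {p : ℕ} [Fact p.Prime]
variable {ζ : K} {a : K} {α : Ω} {χ : (Ω ≃ₐ[K] Ω) → ZMod p}

lemma isIntegral_of_pow_eq (hα : α ^ p = algebraMap K Ω a) : IsIntegral K α := by
  have hp : p ≠ 0 := (Fact.out : p.Prime).ne_zero
  refine ⟨Polynomial.X ^ p - Polynomial.C a, Polynomial.monic_X_pow_sub_C a hp, ?_⟩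
  simp [hα]

/-- `[K(α) : K] = p` when `a` is not a `p`-th power. -/
theorem finrank_adjoin_root (hα : α ^ p = algebraMap K Ω a) (hirr : ∀ c : K, c ^ p ≠ a) :
    Module.finrank K K⟮α⟯ = p := by
  have hpp : p.Prime := Fact.out
  have hirr' := X_pow_sub_C_irreducible_of_prime hpp hirr
  rw [adjoin.finrank (isIntegral_of_pow_eq hα),
    ← minpoly.eq_of_irreducible_of_monic hirr' (by simp [hα])
      (Polynomial.monic_X_pow_sub_C a hpp.ne_zero), Polynomial.natDegree_X_pow_sub_C]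

/-- `K(α)` is stable under the Galois group. -/
lemma IsKummerChar.map_mem (hχ : IsKummerChar ζ α χ) (g : Ω ≃ₐ[K] Ω) {x : Ω}
    (hx : x ∈ K⟮α⟯) : g x ∈ K⟮α⟯ := by
  have hle : K⟮α⟯ ≤ (K⟮α⟯).comap (g : Ω →ₐ[K] Ω) := by
    rw [adjoin_simple_le_iff]
    show g α ∈ K⟮α⟯
    rw [hχ g]
    exact mul_mem (pow_mem (IntermediateField.algebraMap_mem _ ζ) _) (mem_adjoin_simple_self K α)
  exact hle hx

/-- `K(α) / K` is Galois (inside a Galois `Ω`). -/
theorem isGalois_adjoin_root [IsGalois K Ω] (hχ : IsKummerChar ζ α χ) : IsGalois K K⟮α⟯ := by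
  rw [isGalois_iff]
  refine ⟨Algebra.isSeparable_tower_bot_of_isSeparable K K⟮α⟯ Ω, ?_⟩
  rw [normal_iff_forall_map_le']
  intro σ x hx
  obtain ⟨y, hy, rfl⟩ := (IntermediateField.mem_map _).1 hx
  exact hχ.map_mem σ hy

/-- The norm from `K(α)` is the product over the powers of any `σ` with `χ σ = 1`. -/
theorem norm_eq_prod_pow [IsGalois K Ω] (hζ : IsPrimitiveRoot ζ p)
    (hα : α ^ p = algebraMap K Ω a) (ha : a ≠ 0) (hirr : ∀ c : K, c ^ p ≠ a)
    (hχ : IsKummerChar ζ α χ) {σ : Ω ≃ₐ[K] Ω} (hσ : χ σ = 1) (y : K⟮α⟯) :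
    algebraMap K Ω (Algebra.norm K y) = ∏ i ∈ Finset.range p, (σ ^ i) (y : Ω) := by
  classical
  have hpp : p.Prime := Fact.out
  have hp : p ≠ 0 := hpp.ne_zero
  have hα0 : α ≠ 0 := by
    rintro rfl
    rw [zero_pow hp] at hα
    exact ha ((algebraMap K Ω).injective (by rw [map_zero]; exact hα.symm))
  have hζ' : IsPrimitiveRoot (algebraMap K Ω ζ) p :=
    hζ.map_of_injective (algebraMap K Ω).injective
  have hfd : FiniteDimensional K K⟮α⟯ := adjoin.finiteDimensional (isIntegral_of_pow_eq hα)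
  have hgal : IsGalois K K⟮α⟯ := isGalois_adjoin_root hχ
  have hnormal : Normal K K⟮α⟯ := hgal.to_normal
  let ρ : (Ω ≃ₐ[K] Ω) →* (K⟮α⟯ ≃ₐ[K] K⟮α⟯) := AlgEquiv.restrictNormalHom K⟮α⟯
  have hρ : ∀ (g : Ω ≃ₐ[K] Ω) (x : K⟮α⟯), ((ρ g x : K⟮α⟯) : Ω) = g (x : Ω) :=
    fun g x => AlgEquiv.restrictNormalHom_apply K⟮α⟯ g x
  let φ : Fin p → (K⟮α⟯ ≃ₐ[K] K⟮α⟯) := fun i => ρ (σ ^ (i : ℕ))
  have hφinj : Function.Injective φ := by
    intro i j hij
    have h1 := congrArg (fun τ : K⟮α⟯ ≃ₐ[K] K⟮α⟯ =>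
      ((τ ⟨α, mem_adjoin_simple_self K α⟩ : K⟮α⟯) : Ω)) hij
    simp only [φ, hρ] at h1
    rw [hχ.apply, hχ.apply, hχ.kpow hζ hα0, hχ.kpow hζ hα0, hσ, mul_one, mul_one] at h1
    have h2 := zexp_injective hζ' (mul_right_cancel₀ hα0 h1)
    have h3 := congrArg ZMod.val h2
    rw [ZMod.val_natCast, ZMod.val_natCast, Nat.mod_eq_of_lt i.2, Nat.mod_eq_of_lt j.2] at h3
    exact Fin.ext h3
  have hcard : Fintype.card (Fin p) = Fintype.card (K⟮α⟯ ≃ₐ[K] K⟮α⟯) := by
    rw [Fintype.card_fin, ← Nat.card_eq_fintype_card, IsGalois.card_aut_eq_finrank,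
      finrank_adjoin_root hα hirr]
  have hφ : Function.Bijective φ := (Fintype.bijective_iff_injective_and_card φ).2 ⟨hφinj, hcard⟩
  have h1 := Algebra.norm_eq_prod_automorphisms K y
  have h2 : algebraMap K Ω (Algebra.norm K y) =
      ((algebraMap K K⟮α⟯ (Algebra.norm K y) : K⟮α⟯) : Ω) := rfl
  rw [h2, h1, ← Fintype.prod_bijective φ hφ (fun i => φ i y) (fun τ => τ y) (fun _ => rfl)]
  rw [← Fin.prod_univ_eq_prod_range (fun i => (σ ^ i) (y : Ω)) p]
  rw [IntermediateField.coe_prod]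
  refine Finset.prod_congr rfl fun i _ => ?_
  exact hρ (σ ^ (i : ℕ)) y

end Norm

section Converse

variable {K Ω : Type*} [Field K] [Field Ω] [Algebra K Ω] {p : ℕ} [Fact p.Prime]
variable {ζ : K} {a b : K} {α β : Ω} {χ κ : (Ω ≃ₐ[K] Ω) → ZMod p}

/-- Partial norm products `∏_{j<n} σ^j y`. -/
def pprod (σ : Ω ≃ₐ[K] Ω) (y : Ω) (n : ℕ) : Ω := ∏ j ∈ Finset.range n, (σ ^ j) y

/-- **Norm ⇒ symbol.** If `b = ∏_{i<p} σ^i y` with `y ∈ K(α)` (`χ σ = 1`), then the product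
cocycle `(g, h) ↦ κ(g) χ(h)` is the coboundary of a level-constant cochain. Needs `p`-th roots
in `Ω`. -/
theorem symbol_trivial_of_prod_eq [IsGalois K Ω] (hζ : IsPrimitiveRoot ζ p)
    (hα : α ^ p = algebraMap K Ω a) (hβ : β ^ p = algebraMap K Ω b) (ha : a ≠ 0) (hb : b ≠ 0)
    (hroot : ∀ x : Ω, ∃ r : Ω, r ^ p = x)
    (hχ : IsKummerChar ζ α χ) (hκ : IsKummerChar ζ β κ)
    {σ : Ω ≃ₐ[K] Ω} (hσ : χ σ = 1) {y : Ω} (hy : y ∈ K⟮α⟯)
    (hN : ∏ i ∈ Finset.range p, (σ ^ i) y = algebraMap K Ω b) :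
    ∃ u : (Ω ≃ₐ[K] Ω) → ZMod p, IsLevel u ∧
      ∀ g h : Ω ≃ₐ[K] Ω, κ g * χ h = u g + u h - u (g * h) := by
  classical
  have hpp : p.Prime := Fact.out
  have hp : p ≠ 0 := hpp.ne_zero
  have hα0 : α ≠ 0 := by
    rintro rfl
    rw [zero_pow hp] at hα
    exact ha ((algebraMap K Ω).injective (by rw [map_zero]; exact hα.symm))
  have hβ0 : β ≠ 0 := by
    rintro rfl
    rw [zero_pow hp] at hβ
    exact hb ((algebraMap K Ω).injective (by rw [map_zero]; exact hβ.symm))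
  have hb' : algebraMap K Ω b ≠ 0 := (map_ne_zero _).2 hb
  have hζ' : IsPrimitiveRoot (algebraMap K Ω ζ) p :=
    hζ.map_of_injective (algebraMap K Ω).injective
  have hz : algebraMap K Ω ζ ^ p = 1 := hζ'.pow_eq_one
  have hy0 : y ≠ 0 := by
    rintro rfl
    have : ∏ i ∈ Finset.range p, (σ ^ i) (0 : Ω) = 0 :=
      Finset.prod_eq_zero (Finset.mem_range.2 hpp.pos) (map_zero _)
    rw [this] at hN
    exact hb' hN.symm
  -- (a) every `g` acts on `K(α)` as a power of `σ`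
  have hact : ∀ (g : Ω ≃ₐ[K] Ω) (x : Ω), x ∈ K⟮α⟯ → g x = (σ ^ (χ g).val) x := by
    intro g x hx
    have hτ : χ ((σ ^ (χ g).val)⁻¹ * g) = 0 := by
      rw [hχ.kmul hζ hα0, hχ.kinv hζ hα0, hχ.kpow hζ hα0, hσ, mul_one, ZMod.natCast_zmod_val]
      ring
    have hfix := (IntermediateField.mem_fixingSubgroup_iff _ _).1
      ((hχ.mem_fixingSubgroup_iff hζ hα0 _).2 hτ) x hx
    have : g = σ ^ (χ g).val * ((σ ^ (χ g).val)⁻¹ * g) := by group
    conv_lhs => rw [this]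
    rw [AlgEquiv.mul_apply, hfix]
  have hmem : ∀ j : ℕ, (σ ^ j) y ∈ K⟮α⟯ := fun j => hχ.map_mem _ hy
  have hσp : ∀ x : Ω, x ∈ K⟮α⟯ → (σ ^ p) x = x := by
    intro x hx
    have h0 : χ (σ ^ p) = 0 := by
      rw [hχ.kpow hζ hα0, hσ, mul_one]
      exact ZMod.natCast_self p
    exact (IntermediateField.mem_fixingSubgroup_iff _ _).1
      ((hχ.mem_fixingSubgroup_iff hζ hα0 _).2 h0) x hx
  -- (d), (e)
  have hPp : ∀ n : ℕ, pprod σ y (n + p) = algebraMap K Ω b * pprod σ y n := by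
    intro n
    unfold pprod
    rw [add_comm, Finset.prod_range_add, hN]
    congr 1
    refine Finset.prod_congr rfl fun x _ => ?_
    rw [pow_add, AlgEquiv.mul_apply, hσp _ (hmem x)]
  have hPc : ∀ m c : ℕ, pprod σ y (m + p * c) = algebraMap K Ω b ^ c * pprod σ y m := by
    intro m c
    induction c with
    | zero => simp
    | succ c ih =>
      have : m + p * (c + 1) = (m + p * c) + p := by ring
      rw [this, hPp, ih]
      ring
  -- (E1'')
  have hE : ∀ g h : Ω ≃ₐ[K] Ω, g (pprod σ y (χ h).val) * pprod σ y (χ g).val =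
      algebraMap K Ω b ^ carry χ g h * pprod σ y (χ (g * h)).val := by
    intro g h
    rw [← hPc, ← val_add_val hχ hζ hα0 g h]
    show g (∏ j ∈ Finset.range (χ h).val, (σ ^ j) y) * ∏ j ∈ Finset.range (χ g).val, (σ ^ j) y =
      ∏ j ∈ Finset.range ((χ g).val + (χ h).val), (σ ^ j) y
    rw [Finset.prod_range_add, mul_comm, map_prod]
    congr 1
    refine Finset.prod_congr rfl fun x _ => ?_
    rw [hact g _ (hmem x), ← AlgEquiv.mul_apply, ← pow_add]
  have hP0 : ∀ n : ℕ, pprod σ y n ≠ 0 := fun n =>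
    Finset.prod_ne_zero_iff.2 fun j _ => (map_ne_zero _).2 hy0
  let w : (Ω ≃ₐ[K] Ω) → Ω := fun g => pprod σ y (χ g).val / β ^ (χ g).val
  have hw0 : ∀ g, w g ≠ 0 := fun g => div_ne_zero (hP0 _) (pow_ne_zero _ hβ0)
  have hEw : ∀ g h : Ω ≃ₐ[K] Ω,
      g (w h) * w g = zexp (algebraMap K Ω ζ) (-(κ g * χ h)) * w (g * h) := by
    intro g h
    have hW := twist_formula hζ hβ hχ hκ hα0 g h
    have hEgh := hE g h
    have hneg := zexp_neg_mul hz (κ g * χ h)
    have h1 : g (β ^ (χ h).val) ≠ 0 := (map_ne_zero _).2 (pow_ne_zero _ hβ0)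
    have h2 : β ^ (χ g).val ≠ 0 := pow_ne_zero _ hβ0
    have h3 : β ^ (χ (g * h)).val ≠ 0 := pow_ne_zero _ hβ0
    have h4 : algebraMap K Ω b ^ carry χ g h ≠ 0 := pow_ne_zero _ hb'
    have h5 : zexp (algebraMap K Ω ζ) (κ g * χ h) ≠ 0 := zexp_ne_zero hz _
    show g (pprod σ y (χ h).val / β ^ (χ h).val) * (pprod σ y (χ g).val / β ^ (χ g).val) =
      zexp (algebraMap K Ω ζ) (-(κ g * χ h)) * (pprod σ y (χ (g * h)).val / β ^ (χ (g * h)).val)
    rw [map_div₀, div_mul_div_comm, hEgh, hW, eq_comm, mul_div_assoc', eq_div_iff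
      (mul_ne_zero (mul_ne_zero h5 h4) h3), div_mul_eq_mul_div, div_eq_iff h3]
    linear_combination (algebraMap K Ω b ^ carry χ g h * pprod σ y (χ (g * h)).val *
      β ^ (χ (g * h)).val) * hneg
  -- the `p`-th power is a level-constant cocycle
  let F : ZMod p → Ωˣ := fun x =>
    Units.mk0 ((pprod σ y x.val / β ^ x.val) ^ p)
      (pow_ne_zero _ (div_ne_zero (hP0 _) (pow_ne_zero _ hβ0)))
  let zf : (Ω ≃ₐ[K] Ω) → Ωˣ := fun g => F (χ g)
  have hzf : ∀ g, (zf g : Ω) = w g ^ p := fun g => rfl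
  have hzfcoc : ∀ g h : Ω ≃ₐ[K] Ω, (zf (g * h) : Ω) = g (zf h : Ω) * (zf g : Ω) := by
    intro g h
    rw [hzf, hzf, hzf, _root_.map_pow, ← mul_pow, hEw g h, mul_pow, zexp_pow hz,
      ZMod.natCast_self, mul_zero, zexp_zero, one_mul]
  have hzflev : IsLevel zf := (hχ.isLevel hζ hα hα0).comp F
  obtain ⟨s, hs⟩ := hilbert90_of_level zf hzfcoc hzflev
  obtain ⟨r, hr⟩ := hroot (s : Ω)
  have hr0 : r ≠ 0 := by
    rintro rfl
    rw [zero_pow hp] at hr
    exact s.ne_zero hr.symm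
  let w₁ : (Ω ≃ₐ[K] Ω) → Ω := fun g => w g * r / g r
  have hgr0 : ∀ g : Ω ≃ₐ[K] Ω, g r ≠ 0 := fun g => (map_ne_zero _).2 hr0
  have hw₁p : ∀ g, w₁ g ^ p = 1 := by
    intro g
    show (w g * r / g r) ^ p = 1
    rw [div_pow, mul_pow, ← _root_.map_pow, hr, hs g, hzf, div_self]
    exact mul_ne_zero (pow_ne_zero _ (hw0 g)) s.ne_zero
  have hex : ∀ g, ∃ c : ZMod p, zexp (algebraMap K Ω ζ) c = w₁ g := by
    intro g
    obtain ⟨i, -, hi⟩ := hζ'.eq_pow_of_pow_eq_one (hw₁p g)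
    exact ⟨(i : ZMod p), by rw [zexp_natCast hz, hi]⟩
  choose c hc using hex
  have hrel : ∀ g h : Ω ≃ₐ[K] Ω,
      g (w₁ h) * w₁ g = zexp (algebraMap K Ω ζ) (-(κ g * χ h)) * w₁ (g * h) := by
    intro g h
    have h1 := hEw g h
    have h2 := hgr0 g
    have h3 := hgr0 (g * h)
    have h4 : g (h r) = (g * h) r := rfl
    show g (w h * r / h r) * (w g * r / g r) =
      zexp (algebraMap K Ω ζ) (-(κ g * χ h)) * (w (g * h) * r / (g * h) r)
    rw [map_div₀, _root_.map_mul, h4]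
    field_simp
    linear_combination h1
  refine ⟨fun g => - c g, ?_, ?_⟩
  · -- level
    have hrint : IsIntegral K r := Algebra.IsIntegral.isIntegral r
    have hfd1 : FiniteDimensional K K⟮α⟯ := adjoin.finiteDimensional (isIntegral_of_pow_eq hα)
    have hfd2 : FiniteDimensional K K⟮r⟯ := adjoin.finiteDimensional hrint
    refine ⟨K⟮α⟯ ⊔ K⟮r⟯, IntermediateField.finiteDimensional_sup _ _, fun g s' hs' => ?_⟩
    have hs1 : s' ∈ (K⟮α⟯).fixingSubgroup :=
      IntermediateField.fixingSubgroup_antitone le_sup_left hs'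
    have hs2 : s' r = r := (IntermediateField.mem_fixingSubgroup_iff _ _).1
      (IntermediateField.fixingSubgroup_antitone le_sup_right hs') r (mem_adjoin_simple_self K r)
    have hχs : χ (g * s') = χ g := by
      rw [hχ.kmul hζ hα0, (hχ.mem_fixingSubgroup_iff hζ hα0 s').1 hs1, add_zero]
    have hw₁ : w₁ (g * s') = w₁ g := by
      show w (g * s') * r / (g * s') r = w g * r / g r
      rw [AlgEquiv.mul_apply, hs2]
      show pprod σ y (χ (g * s')).val / β ^ (χ (g * s')).val * r / g r =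
        pprod σ y (χ g).val / β ^ (χ g).val * r / g r
      rw [hχs]
    have : c (g * s') = c g := zexp_injective hζ' (by rw [hc, hc, hw₁])
    show - c (g * s') = - c g
    rw [this]
  · intro g h
    have h1 := hrel g h
    rw [← hc h, ← hc g, ← hc (g * h), map_zexp, ← zexp_add hz, ← zexp_add hz] at h1
    have h2 := zexp_injective hζ' h1
    linear_combination h2

end Converse

section Final

variable {K Ω : Type*} [Field K] [Field Ω] [Algebra K Ω] {p : ℕ} [Fact p.Prime]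
variable {ζ : K} {a b : K} {α β : Ω} {χ κ : (Ω ≃ₐ[K] Ω) → ZMod p}

/-- The two orders of the product cocycle differ by the coboundary of `-χ κ`. -/
theorem symbol_swap (hζ : IsPrimitiveRoot ζ p)
    (hα : α ^ p = algebraMap K Ω a) (hβ : β ^ p = algebraMap K Ω b) (ha : a ≠ 0) (hb : b ≠ 0)
    (hχ : IsKummerChar ζ α χ) (hκ : IsKummerChar ζ β κ) :
    (∃ u : (Ω ≃ₐ[K] Ω) → ZMod p, IsLevel u ∧
        ∀ g h : Ω ≃ₐ[K] Ω, χ g * κ h = u g + u h - u (g * h)) ↔
      ∃ u : (Ω ≃ₐ[K] Ω) → ZMod p, IsLevel u ∧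
        ∀ g h : Ω ≃ₐ[K] Ω, κ g * χ h = u g + u h - u (g * h) := by
  have hp : p ≠ 0 := (Fact.out : p.Prime).ne_zero
  have hα0 : α ≠ 0 := by
    rintro rfl
    rw [zero_pow hp] at hα
    exact ha ((algebraMap K Ω).injective (by rw [map_zero]; exact hα.symm))
  have hβ0 : β ≠ 0 := by
    rintro rfl
    rw [zero_pow hp] at hβ
    exact hb ((algebraMap K Ω).injective (by rw [map_zero]; exact hβ.symm))
  have hχl : IsLevel χ := hχ.isLevel hζ hα hα0
  have hκl : IsLevel κ := hκ.isLevel hζ hβ hβ0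
  have hχκ : IsLevel (fun g => χ g * κ g) := hχl.map₂ hκl (fun x y => x * y)
  constructor
  · rintro ⟨u, hu, h⟩
    refine ⟨fun g => -u g - χ g * κ g, hu.map₂ hχκ (fun x y => -x - y), fun g h' => ?_⟩
    have := h g h'
    simp only [hχ.kmul hζ hα0, hκ.kmul hζ hβ0]
    linear_combination -this
  · rintro ⟨u, hu, h⟩
    refine ⟨fun g => -u g - χ g * κ g, hu.map₂ hχκ (fun x y => -x - y), fun g h' => ?_⟩
    have := h g h'
    simp only [hχ.kmul hζ hα0, hκ.kmul hζ hβ0]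
    linear_combination -this

/-- **Norm criterion for the Kummer symbol**, order `κ(g) χ(h)`. -/
theorem symbol_trivial_iff_norm [IsGalois K Ω] (hζ : IsPrimitiveRoot ζ p)
    (hα : α ^ p = algebraMap K Ω a) (hβ : β ^ p = algebraMap K Ω b) (ha : a ≠ 0) (hb : b ≠ 0)
    (hirr : ∀ c : K, c ^ p ≠ a) (hroot : ∀ x : Ω, ∃ r : Ω, r ^ p = x)
    (hχ : IsKummerChar ζ α χ) (hκ : IsKummerChar ζ β κ) :
    (∃ u : (Ω ≃ₐ[K] Ω) → ZMod p, IsLevel u ∧
        ∀ g h : Ω ≃ₐ[K] Ω, κ g * χ h = u g + u h - u (g * h)) ↔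
      ∃ y : K⟮α⟯, Algebra.norm K y = b := by
  have hp : p ≠ 0 := (Fact.out : p.Prime).ne_zero
  have hα0 : α ≠ 0 := by
    rintro rfl
    rw [zero_pow hp] at hα
    exact ha ((algebraMap K Ω).injective (by rw [map_zero]; exact hα.symm))
  obtain ⟨σ, hσ⟩ := hχ.exists_eq_one hζ hα hα0 hirr
  constructor
  · rintro ⟨u, hu, h⟩
    obtain ⟨y, hy, hN⟩ := exists_prod_eq_of_symbol_trivial hζ hα hβ ha hχ hκ hσ u hu h
    refine ⟨⟨y, hy⟩, (algebraMap K Ω).injective ?_⟩
    rw [norm_eq_prod_pow hζ hα ha hirr hχ hσ ⟨y, hy⟩]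
    exact hN
  · rintro ⟨y, hy⟩
    refine symbol_trivial_of_prod_eq hζ hα hβ ha hb hroot hχ hκ hσ y.2 ?_
    rw [← norm_eq_prod_pow hζ hα ha hirr hχ hσ y, hy]

/-- **Norm criterion for the Kummer symbol**, order `χ(g) κ(h)` (the `(1,1)` cup product
`χ_a ∪ κ_b` for the trivial action): it is a level-constant coboundary iff `b` is a norm from
`K(α)`, `α ^ p = a`. -/
theorem symbol_trivial_iff_norm' [IsGalois K Ω] (hζ : IsPrimitiveRoot ζ p)
    (hα : α ^ p = algebraMap K Ω a) (hβ : β ^ p = algebraMap K Ω b) (ha : a ≠ 0) (hb : b ≠ 0)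
    (hirr : ∀ c : K, c ^ p ≠ a) (hroot : ∀ x : Ω, ∃ r : Ω, r ^ p = x)
    (hχ : IsKummerChar ζ α χ) (hκ : IsKummerChar ζ β κ) :
    (∃ u : (Ω ≃ₐ[K] Ω) → ZMod p, IsLevel u ∧
        ∀ g h : Ω ≃ₐ[K] Ω, χ g * κ h = u g + u h - u (g * h)) ↔
      ∃ y : K⟮α⟯, Algebra.norm K y = b :=
  (symbol_swap hζ hα hβ ha hb hχ hκ).trans
    (symbol_trivial_iff_norm hζ hα hβ ha hb hirr hroot hχ hκ)

/-- `Gal(K(α)/K)` is cyclic (of order `p`). -/
theorem isCyclic_adjoin_root [IsGalois K Ω] (hα : α ^ p = algebraMap K Ω a)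
    (hirr : ∀ c : K, c ^ p ≠ a) (hχ : IsKummerChar ζ α χ) :
    IsCyclic (K⟮α⟯ ≃ₐ[K] K⟮α⟯) := by
  have hfd : FiniteDimensional K K⟮α⟯ := adjoin.finiteDimensional (isIntegral_of_pow_eq hα)
  have hgal : IsGalois K K⟮α⟯ := isGalois_adjoin_root hχ
  have hcard : Nat.card (K⟮α⟯ ≃ₐ[K] K⟮α⟯) = p := by
    rw [IsGalois.card_aut_eq_finrank, finrank_adjoin_root hα hirr]
  exact isCyclic_of_prime_card hcard

/-- Adapter from a norm-index statement: if the norm index of `L / K` is not `1`, some nonzero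
element of `K` is not a norm. -/
theorem exists_not_norm_of_card_ne_one (L : Type*) [Field L] [Algebra K L]
    [FiniteDimensional K L]
    (h : Nat.card (Kˣ ⧸ (Units.map (Algebra.norm K : L →* K)).range) ≠ 1) :
    ∃ b : K, b ≠ 0 ∧ ∀ y : L, Algebra.norm K y ≠ b := by
  by_contra hcon
  apply h
  have htop : (Units.map (Algebra.norm K : L →* K)).range = ⊤ := by
    rw [eq_top_iff]
    intro b _
    by_contra hb
    apply hcon
    refine ⟨(b : K), b.ne_zero, fun y hy => hb ?_⟩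
    have hy0 : y ≠ 0 := by
      rintro rfl
      rw [Algebra.norm_zero] at hy
      exact b.ne_zero hy.symm
    exact ⟨Units.mk0 y hy0, Units.ext hy⟩
  rw [htop]
  exact Nat.card_eq_one_iff_unique.2 ⟨QuotientGroup.subsingleton_quotient_top, ⟨1⟩⟩

/-- **(LB2), left nondegeneracy of the Hilbert pairing, hypothesis-passing form.**
If `a` is not a `p`-th power and some nonzero `b` is not a norm from `K(α)` (norm index `> 1`),
then there is `b` whose symbol with `a` is nontrivial: `χ_a ∪ κ_b` is not a level-constant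
coboundary. -/
theorem exists_symbol_nontrivial [IsGalois K Ω] (hζ : IsPrimitiveRoot ζ p)
    (hα : α ^ p = algebraMap K Ω a) (ha : a ≠ 0)
    (hirr : ∀ c : K, c ^ p ≠ a) (hroot : ∀ x : Ω, ∃ r : Ω, r ^ p = x)
    (hχ : IsKummerChar ζ α χ)
    (hidx : ∃ b : K, b ≠ 0 ∧ ∀ y : K⟮α⟯, Algebra.norm K y ≠ b) :
    ∃ (b : K) (β : Ω) (κ : (Ω ≃ₐ[K] Ω) → ZMod p), b ≠ 0 ∧ β ^ p = algebraMap K Ω b ∧
      IsKummerChar ζ β κ ∧
      ¬ ∃ u : (Ω ≃ₐ[K] Ω) → ZMod p, IsLevel u ∧
        ∀ g h : Ω ≃ₐ[K] Ω, χ g * κ h = u g + u h - u (g * h) := by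
  obtain ⟨b, hb, hnot⟩ := hidx
  obtain ⟨β, hβ⟩ := hroot (algebraMap K Ω b)
  obtain ⟨κ, hκ⟩ := exists_isKummerChar (Ω := Ω) hζ hβ hb
  refine ⟨b, β, κ, hb, hβ, hκ, fun hex => ?_⟩
  obtain ⟨y, hy⟩ := (symbol_trivial_iff_norm' hζ hα hβ ha hb hirr hroot hχ hκ).1 hex
  exact hnot y hy

end Final

end Fermat.Agent.S55.helper8968
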