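import Mathlib

/-!
# Chevalley's q-quotient formula and the local norm index in prime degree

Pure finite-index counting for endomorphisms of abelian groups:

* `comp_count`  : the `q`-count of a composition `f ∘ g` (unconditional identity in `ℕ`);
* `snake_count` : the snake-lemma count along a surjection `φ : A →+ B` intertwining `f` and `g`
  (unconditional identity in `ℕ`).
-/

set_option autoImplicit false

namespace Fermat.Agent.S55.helper913

section Count

variable {A B : Type*} [AddCommGroup A] [AddCommGroup B]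

/-- `q`-count of a composition: with `c h = [A : h A]` and `k h = |ker h|` one has
`c (f ∘ g) * (k f * k g) = c f * c g * k (f ∘ g)`.  Unconditional identity in `ℕ`
(indices and cardinalities are `0` when infinite). -/
theorem comp_count (f g : A →+ A) :
    (f.comp g).range.index * (Nat.card f.ker * Nat.card g.ker) =
      f.range.index * g.range.index * Nat.card (f.comp g).ker := by
  have h1 : (f.comp g).range.index = (g.range ⊔ f.ker).index * f.range.index := by
    rw [← AddMonoidHom.map_range, AddSubgroup.index_map]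
  have h2 : g.range.index = g.range.relIndex f.ker * (g.range ⊔ f.ker).index := by
    rw [← AddSubgroup.relIndex_sup_left f.ker g.range]
    exact (AddSubgroup.relIndex_mul_index le_sup_left).symm
  have h3 : Nat.card (f.comp g).ker = Nat.card g.ker * Nat.card ↥(g.range ⊓ f.ker) := by
    rw [← AddMonoidHom.comap_ker, ← AddSubgroup.map_comap_eq, ← AddSubgroup.relIndex_ker,
      ← AddSubgroup.relIndex_bot_left, ← AddSubgroup.relIndex_bot_left]
    refine (AddSubgroup.relIndex_mul_relIndex _ _ _ bot_le ?_).symm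
    intro x hx
    simp only [AddSubgroup.mem_comap, AddMonoidHom.mem_ker] at hx ⊢
    rw [hx, map_zero]
  have h4 : Nat.card f.ker = Nat.card ↥(g.range ⊓ f.ker) * g.range.relIndex f.ker := by
    rw [← AddSubgroup.inf_relIndex_right g.range f.ker, ← AddSubgroup.relIndex_bot_left,
      ← AddSubgroup.relIndex_bot_left]
    exact (AddSubgroup.relIndex_mul_relIndex _ _ _ bot_le inf_le_right).symm
  rw [h1, h2, h3, h4]
  ring

/-- Snake-lemma count.  `φ : A →+ B` surjective, `f` on `A`, `g` on `B`, `φ ∘ f = g ∘ φ`,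
`H = ker φ`.  Then
`c f * |ker f ∩ H| * k g = [H : f H] * c g * k f`.  Unconditional identity in `ℕ`. -/
theorem snake_count (φ : A →+ B) (hφ : Function.Surjective φ) (f : A →+ A) (g : B →+ B)
    (hfg : ∀ a, φ (f a) = g (φ a)) :
    f.range.index * Nat.card ↥(f.ker ⊓ φ.ker) * Nat.card g.ker =
      (φ.ker.map f).relIndex φ.ker * g.range.index * Nat.card f.ker := by
  have hcomp : g.comp φ = φ.comp f := by
    ext a; simp [hfg]
  have hfH : φ.ker ≤ φ.ker.comap f := by
    intro a ha
    simp only [AddSubgroup.mem_comap, AddMonoidHom.mem_ker] at ha ⊢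
    rw [hfg, ha, map_zero]
  have hfk : f.ker ≤ φ.ker.comap f := by
    intro a ha
    simp only [AddSubgroup.mem_comap, AddMonoidHom.mem_ker] at ha ⊢
    rw [ha, map_zero]
  have hmapH : φ.ker.map f ≤ f.range ⊓ φ.ker := by
    rw [← AddSubgroup.map_comap_eq]
    exact AddSubgroup.map_mono hfH
  -- (a) the cokernel of `g`
  have ha : g.range.index = (f.range ⊔ φ.ker).index := by
    have : g.range = f.range.map φ := by
      rw [AddMonoidHom.map_range, ← hcomp, ← AddMonoidHom.map_range,
        AddMonoidHom.range_eq_top.mpr hφ, ← AddMonoidHom.range_eq_map]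
    rw [this, AddSubgroup.index_map, AddMonoidHom.range_eq_top.mpr hφ, AddSubgroup.index_top,
      mul_one]
  -- (b) the cokernel of `f`
  have hb : f.range.index = f.range.relIndex φ.ker * (f.range ⊔ φ.ker).index := by
    rw [← AddSubgroup.relIndex_sup_left φ.ker f.range]
    exact (AddSubgroup.relIndex_mul_index le_sup_left).symm
  -- (c) the cokernel of `f` on `H`
  have hc : (φ.ker.map f).relIndex φ.ker =
      (φ.ker.map f).relIndex (f.range ⊓ φ.ker) * f.range.relIndex φ.ker := by
    rw [← AddSubgroup.inf_relIndex_right f.range φ.ker]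
    exact (AddSubgroup.relIndex_mul_relIndex _ _ _ hmapH inf_le_right).symm
  -- (d) the kernel of `f`
  have hd : Nat.card f.ker = Nat.card ↥(f.ker ⊓ φ.ker) * φ.ker.relIndex f.ker := by
    rw [← AddSubgroup.inf_relIndex_left f.ker φ.ker, ← AddSubgroup.relIndex_bot_left,
      ← AddSubgroup.relIndex_bot_left]
    exact (AddSubgroup.relIndex_mul_relIndex _ _ _ bot_le inf_le_left).symm
  -- (e) the kernel of `g`
  have he : Nat.card g.ker =
      φ.ker.relIndex f.ker * (φ.ker.map f).relIndex (f.range ⊓ φ.ker) := by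
    have h1 : g.ker = (φ.ker.comap f).map φ := by
      ext b
      obtain ⟨a, rfl⟩ := hφ b
      simp only [AddMonoidHom.mem_ker, AddSubgroup.mem_map, AddSubgroup.mem_comap]
      constructor
      · intro h
        exact ⟨a, by rw [hfg, h], rfl⟩
      · rintro ⟨a', ha', h⟩
        rw [← h, ← hfg, ha']
    have h2 : (φ.ker.map f).relIndex (f.range ⊓ φ.ker) =
        (f.ker ⊔ φ.ker).relIndex (φ.ker.comap f) := by
      rw [← AddSubgroup.map_comap_eq, AddSubgroup.relIndex_map_map, sup_of_le_left hfk, sup_comm]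
    rw [h1, ← AddSubgroup.relIndex_ker, h2, ← AddSubgroup.relIndex_sup_right f.ker φ.ker]
    exact (AddSubgroup.relIndex_mul_relIndex _ _ _ le_sup_right (sup_le hfk hfH)).symm
  rw [ha, hb, hc, hd, he]
  ring

/-- Under the hypotheses of `snake_count`, the cokernel index of `g` divides that of `f`. -/
theorem index_range_dvd_of_surjective (φ : A →+ B) (hφ : Function.Surjective φ) (f : A →+ A)
    (g : B →+ B) (hfg : ∀ a, φ (f a) = g (φ a)) : g.range.index ∣ f.range.index := by
  have hcomp : g.comp φ = φ.comp f := by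
    ext a; simp [hfg]
  have : g.range = f.range.map φ := by
    rw [AddMonoidHom.map_range, ← hcomp, ← AddMonoidHom.map_range,
      AddMonoidHom.range_eq_top.mpr hφ, ← AddMonoidHom.range_eq_map]
  rw [this]
  exact AddSubgroup.index_map_dvd _ hφ

end Count


section ModuleCount

variable {R : Type*} [CommRing R] (M : Type*) [AddCommGroup M] [Module R M]

/-- Multiplication by `r` as an additive endomorphism. -/
def smulHom (r : R) : M →+ M := DistribSMul.toAddMonoidHom M r

variable {M}

@[simp] lemma smulHom_apply (r : R) (m : M) : smulHom M r m = r • m := rfl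

lemma smulHom_mul (r s : R) : smulHom M (r * s) = (smulHom M r).comp (smulHom M s) := by
  ext m; simp [mul_smul]

variable (M)

/-- `[M : r M]` (`0` if infinite). -/
noncomputable def cok (r : R) : ℕ := (smulHom M r).range.index

/-- `|M[r]|` (`0` if infinite). -/
noncomputable def kerc (r : R) : ℕ := Nat.card (smulHom M r).ker

lemma cok_one : cok M (1 : R) = 1 := by
  have : (smulHom M (1 : R)).range = ⊤ := by
    rw [AddMonoidHom.range_eq_top]
    intro m; exact ⟨m, by simp⟩
  rw [cok, this, AddSubgroup.index_top]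

lemma kerc_one : kerc M (1 : R) = 1 := by
  have : (smulHom M (1 : R)).ker = ⊥ := by
    rw [AddMonoidHom.ker_eq_bot_iff]
    intro m m' h; simpa using h
  rw [kerc, this]
  exact AddSubgroup.card_bot

/-- `q`-count of a product. -/
theorem mul_count (r s : R) :
    cok M (r * s) * (kerc M r * kerc M s) = cok M r * cok M s * kerc M (r * s) := by
  unfold cok kerc
  rw [smulHom_mul]
  exact comp_count _ _

variable {M}

/-- Elements dividing each other modulo the annihilator have the same image and kernel. -/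
theorem range_ker_eq_of_assoc {r s u v : R} (h1 : ∀ m : M, s • m = r • u • m)
    (h2 : ∀ m : M, r • m = s • v • m) :
    (smulHom M r).range = (smulHom M s).range ∧ (smulHom M r).ker = (smulHom M s).ker := by
  constructor
  · ext m
    simp only [AddMonoidHom.mem_range, smulHom_apply]
    constructor
    · rintro ⟨a, rfl⟩; exact ⟨v • a, (h2 a).symm⟩
    · rintro ⟨a, rfl⟩; exact ⟨u • a, (h1 a).symm⟩
  · ext m
    simp only [AddMonoidHom.mem_ker, smulHom_apply]
    constructor
    · intro h; rw [h1, smul_comm, h, smul_zero]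
    · intro h; rw [h2, smul_comm, h, smul_zero]

theorem cok_eq_of_assoc {r s u v : R} (h1 : ∀ m : M, s • m = r • u • m)
    (h2 : ∀ m : M, r • m = s • v • m) : cok M r = cok M s := by
  unfold cok; rw [(range_ker_eq_of_assoc h1 h2).1]

theorem kerc_eq_of_assoc {r s u v : R} (h1 : ∀ m : M, s • m = r • u • m)
    (h2 : ∀ m : M, r • m = s • v • m) : kerc M r = kerc M s := by
  unfold kerc; rw [(range_ker_eq_of_assoc h1 h2).2]

variable (M)

/-- `q`-count of a power. -/
theorem pow_count (r : R) (n : ℕ) (h : ∀ j, j ≤ n → kerc M (r ^ j) ≠ 0) :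
    cok M (r ^ n) * kerc M r ^ n = cok M r ^ n * kerc M (r ^ n) := by
  induction n with
  | zero => simp [cok_one, kerc_one]
  | succ n ih =>
    have e2 := ih fun j hj => h j (Nat.le_succ_of_le hj)
    have e1 := mul_count M r (r ^ n)
    have hk : 0 < kerc M (r ^ n) := Nat.pos_of_ne_zero (h n (Nat.le_succ n))
    rw [← pow_succ'] at e1
    apply Nat.eq_of_mul_eq_mul_right hk
    calc cok M (r ^ (n + 1)) * kerc M r ^ (n + 1) * kerc M (r ^ n)
        = cok M (r ^ (n + 1)) * (kerc M r * kerc M (r ^ n)) * kerc M r ^ n := by ring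
      _ = cok M r * cok M (r ^ n) * kerc M (r ^ (n + 1)) * kerc M r ^ n := by rw [e1]
      _ = cok M r * kerc M (r ^ (n + 1)) * (cok M (r ^ n) * kerc M r ^ n) := by ring
      _ = cok M r * kerc M (r ^ (n + 1)) * (cok M r ^ n * kerc M (r ^ n)) := by rw [e2]
      _ = cok M r ^ (n + 1) * kerc M (r ^ (n + 1)) * kerc M (r ^ n) := by ring

variable {M}

/-- The inclusion of a submodule as an additive hom. -/
def inclHom (N : Submodule R M) : ↥N →+ M := N.subtype.toAddMonoidHom

lemma inclHom_injective (N : Submodule R M) : Function.Injective (inclHom N) :=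
  Subtype.val_injective

lemma inclHom_range (N : Submodule R M) : (inclHom N).range = N.toAddSubgroup := by
  ext m
  simp only [AddMonoidHom.mem_range, Submodule.mem_toAddSubgroup]
  constructor
  · rintro ⟨a, rfl⟩; exact a.2
  · intro h; exact ⟨⟨m, h⟩, rfl⟩

lemma inclHom_comp_smulHom (N : Submodule R M) (r : R) :
    (inclHom N).comp (smulHom ↥N r) = (smulHom M r).comp (inclHom N) := by
  ext a; rfl

/-- cokernel count on a submodule, as a relative index in the ambient group. -/
theorem cok_submodule (N : Submodule R M) (r : R) :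
    cok ↥N r = (N.toAddSubgroup.map (smulHom M r)).relIndex N.toAddSubgroup := by
  unfold cok
  rw [← AddSubgroup.relIndex_top_right,
    ← AddSubgroup.relIndex_map_map_of_injective _ _ (inclHom_injective N),
    ← AddMonoidHom.range_eq_map, AddMonoidHom.map_range, inclHom_comp_smulHom,
    ← AddMonoidHom.map_range, inclHom_range]

/-- kernel count on a submodule. -/
theorem kerc_submodule (N : Submodule R M) (r : R) :
    kerc ↥N r = Nat.card ↥((smulHom M r).ker ⊓ N.toAddSubgroup) := by
  unfold kerc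
  have h : (smulHom ↥N r).ker.map (inclHom N) = (smulHom M r).ker ⊓ N.toAddSubgroup := by
    ext m
    simp only [AddSubgroup.mem_map, AddMonoidHom.mem_ker, AddSubgroup.mem_inf,
      Submodule.mem_toAddSubgroup, smulHom_apply]
    constructor
    · rintro ⟨a, ha, rfl⟩
      exact ⟨congrArg Subtype.val ha, a.2⟩
    · rintro ⟨h1, h2⟩
      exact ⟨⟨m, h2⟩, Subtype.ext h1, rfl⟩
  rw [← h, ← AddSubgroup.relIndex_bot_left, ← AddSubgroup.relIndex_bot_left,
    ← AddSubgroup.relIndex_map_map_of_injective _ _ (inclHom_injective N), AddSubgroup.map_bot]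

/-- A product of elements `t i * c i` each acting as `d` acts as a power of `d`. -/
theorem prod_mul_prod_smul {ι : Type*} (s : Finset ι) (t c : ι → R) (d : R)
    (h : ∀ i ∈ s, ∀ m : M, (t i * c i) • m = d • m) (m : M) :
    ((∏ i ∈ s, t i) * ∏ i ∈ s, c i) • m = d ^ s.card • m := by
  classical
  induction s using Finset.induction_on generalizing m with
  | empty => simp
  | insert a s ha ih =>
    rw [Finset.prod_insert ha, Finset.prod_insert ha, Finset.card_insert_of_notMem ha,
      mul_mul_mul_comm, mul_smul, ih (fun i hi => h i (Finset.mem_insert_of_mem hi)),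
      h a (Finset.mem_insert_self a s), pow_succ', mul_smul]

end ModuleCount


section Poly

open Polynomial

/-- The norm element `1 + X + ... + X^(p-1)`. -/
noncomputable def Nel (p : ℕ) : ℤ[X] := ∑ i ∈ Finset.range p, X ^ i

/-- The element `1 - X`. -/
noncomputable def Del : ℤ[X] := 1 - X

/-- The element `∏_{k=1}^{p-1} (1 - X^k)`. -/
noncomputable def Fel (p : ℕ) : ℤ[X] := ∏ k ∈ Finset.range (p - 1), (1 - X ^ (k + 1))

lemma Del_mul_Nel (p : ℕ) : Del * Nel p = 1 - X ^ p := mul_neg_geom_sum X p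

/-- `∏_{k=1}^{p-1} (1 - X^k) ≡ p` modulo `1 + X + ... + X^(p-1)`. -/
theorem Nel_dvd_Fel_sub {p : ℕ} (hp : p.Prime) : Nel p ∣ Fel p - C (p : ℤ) := by
  have : Fact p.Prime := ⟨hp⟩
  have hN : Nel p = cyclotomic p ℤ := (cyclotomic_prime ℤ p).symm
  rw [hN, ← map_dvd_map (Int.castRingHom ℂ) Int.cast_injective (cyclotomic.monic p ℤ),
    map_cyclotomic]
  have hζ := Complex.isPrimitiveRoot_exp p hp.ne_zero
  rw [cyclotomic_eq_prod_X_sub_primitiveRoots hζ]
  refine Finset.prod_dvd_of_coprime (fun a _ b _ h => ?_) (fun a ha => ?_)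
  · exact isCoprime_X_sub_C_of_isUnit_sub (sub_ne_zero.mpr h).isUnit
  · rw [dvd_iff_isRoot]
    have ha' : IsPrimitiveRoot a p := (mem_primitiveRoots hp.pos).mp ha
    obtain ⟨n, rfl⟩ : ∃ n, p = n + 1 := ⟨p - 1, by have := hp.pos; omega⟩
    have h := ha'.prod_one_sub_pow_eq_order
    simp only [IsRoot.def, Fel, Nat.add_sub_cancel, Polynomial.map_sub, Polynomial.map_prod,
      Polynomial.map_one, Polynomial.map_pow, map_X, map_C, eval_sub, eval_prod, eval_one,
      eval_pow, eval_X, eval_C, h]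
    simp

variable {A : Type*} [AddCommGroup A] [Module ℤ[X] A]

lemma X_pow_mul_smul {p : ℕ} (hX : ∀ a : A, (X ^ p : ℤ[X]) • a = a) (m : ℕ) (a : A) :
    (X ^ (p * m) : ℤ[X]) • a = a := by
  induction m with
  | zero => simp
  | succ m ih => rw [Nat.mul_succ, pow_add, mul_smul, hX, ih]

/-- If `k * m ≡ 1` mod `p`, then `(1 - X^k) * ∑_{i<m} X^(k i)` acts as `1 - X`. -/
lemma one_sub_X_pow_mul_geom_smul {p : ℕ} (hX : ∀ a : A, (X ^ p : ℤ[X]) • a = a) {k m : ℕ}
    (hkm : k * m % p = 1) (a : A) :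
    ((1 - X ^ k : ℤ[X]) * ∑ i ∈ Finset.range m, (X ^ k) ^ i) • a = Del • a := by
  have h : k * m = p * (k * m / p) + 1 := by
    have := Nat.div_add_mod (k * m) p; omega
  rw [mul_neg_geom_sum, ← pow_mul, h, pow_succ, Del, sub_smul, sub_smul, mul_smul,
    X_pow_mul_smul hX]

/-- `Fel p = Del^(p-1) * U`. -/
lemma Fel_eq (p : ℕ) :
    Fel p = Del ^ (p - 1) * ∏ k ∈ Finset.range (p - 1), ∑ i ∈ Finset.range (k + 1), (X : ℤ[X]) ^ i := by
  unfold Fel Del
  rw [← Finset.card_range (p - 1), ← Finset.prod_const, Finset.card_range, ← Finset.prod_mul_distrib]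
  exact Finset.prod_congr rfl fun k _ => (mul_neg_geom_sum X (k + 1)).symm

/-- `Del^(p-1)` acts as `Fel p * V`. -/
lemma exists_Del_pow_smul {p : ℕ} (hp : p.Prime) (hX : ∀ a : A, (X ^ p : ℤ[X]) • a = a) :
    ∃ V : ℤ[X], ∀ a : A, Del ^ (p - 1) • a = Fel p • V • a := by
  have hex : ∀ k : ℕ, ∃ m : ℕ, k ∈ Finset.range (p - 1) → (k + 1) * m % p = 1 := by
    intro k
    by_cases hk : k ∈ Finset.range (p - 1)
    · have hk' : k + 1 < p := by have := Finset.mem_range.mp hk; omega
      have hcop : Nat.Coprime (k + 1) p :=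
        ((Nat.Prime.coprime_iff_not_dvd hp).mpr
          (Nat.not_dvd_of_pos_of_lt (Nat.succ_pos k) hk')).symm
      obtain ⟨m, -, hm⟩ := Nat.exists_mul_mod_eq_one_of_coprime hcop hp.one_lt
      exact ⟨m, fun _ => hm⟩
    · exact ⟨0, fun h => absurd h hk⟩
  choose m hm using hex
  refine ⟨∏ k ∈ Finset.range (p - 1), ∑ i ∈ Finset.range (m k), (X ^ (k + 1)) ^ i, fun a => ?_⟩
  rw [← mul_smul]
  have := prod_mul_prod_smul (Finset.range (p - 1)) (fun k => (1 - X ^ (k + 1) : ℤ[X]))
    (fun k => ∑ i ∈ Finset.range (m k), ((X : ℤ[X]) ^ (k + 1)) ^ i) Del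
    (fun k hk a => one_sub_X_pow_mul_geom_smul hX (hm k hk) a) a
  rw [Finset.card_range] at this
  exact this.symm

/-- On fixed points the norm element acts as multiplication by `p`. -/
lemma Nel_smul_of_fixed (p : ℕ) {a : A} (ha : Del • a = 0) : Nel p • a = (p : ℤ[X]) • a := by
  have hXa : (X : ℤ[X]) • a = a := by
    rw [Del, sub_smul, one_smul, sub_eq_zero] at ha
    exact ha.symm
  have hpow : ∀ i : ℕ, (X ^ i : ℤ[X]) • a = a := by
    intro i
    induction i with
    | zero => simp
    | succ i ih => rw [pow_succ, mul_smul, hXa, ih]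
  rw [Nel, Finset.sum_smul, Finset.sum_congr rfl (fun i _ => hpow i), Finset.sum_const,
    Finset.card_range, Nat.cast_smul_eq_nsmul]

/-- **Chevalley's `q`-quotient formula.**  `A` a `ℤ[X]`-module on which `X^p` acts trivially
(`p` prime), `N = 1 + X + ... + X^(p-1)`, `H = A^X = ker (1 - X)`, with Hilbert 90
(`ker N ⊆ (1 - X) A`).  Then, all four `p`-counts being finite,
`[H : N A]^(p-1) * [A : pA] * |H[p]|^p = [H : pH]^p * |A[p]|`. -/
theorem chevalley {p : ℕ} (hp : p.Prime) (hX : ∀ a : A, (X ^ p : ℤ[X]) • a = a)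
    (h90 : ∀ a : A, Nel p • a = 0 → ∃ b : A, a = Del • b)
    (hcA : cok A (p : ℤ[X]) ≠ 0) (hkA : kerc A (p : ℤ[X]) ≠ 0)
    (hcH : ((smulHom A Del).ker.map (smulHom A (p : ℤ[X]))).relIndex (smulHom A Del).ker ≠ 0)
    (hkH : Nat.card ↥((smulHom A (p : ℤ[X])).ker ⊓ (smulHom A Del).ker) ≠ 0) :
    ((smulHom A (Nel p)).range.relIndex (smulHom A Del).ker) ^ (p - 1) * cok A (p : ℤ[X]) *
        Nat.card ↥((smulHom A (p : ℤ[X])).ker ⊓ (smulHom A Del).ker) ^ p =
      (((smulHom A Del).ker.map (smulHom A (p : ℤ[X]))).relIndex (smulHom A Del).ker) ^ p *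
        kerc A (p : ℤ[X]) := by
  set P : A →+ A := smulHom A (p : ℤ[X]) with hP
  set σD : A →+ A := smulHom A Del with hσD
  set σN : A →+ A := smulHom A (Nel p) with hσN
  set H : AddSubgroup A := σD.ker with hH
  set B : Submodule ℤ[X] A := LinearMap.range (LinearMap.lsmul ℤ[X] A Del) with hB
  have hBsub : B.toAddSubgroup = σD.range := by
    ext a
    simp only [hB, Submodule.mem_toAddSubgroup, LinearMap.mem_range, LinearMap.lsmul_apply,
      AddMonoidHom.mem_range, hσD, smulHom_apply]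
  let φ : A →+ ↥B := (LinearMap.lsmul ℤ[X] A Del).rangeRestrict.toAddMonoidHom
  have hφ : Function.Surjective φ := LinearMap.surjective_rangeRestrict _
  have hφker : φ.ker = H := by
    ext a
    simp only [AddMonoidHom.mem_ker, hH, hσD, smulHom_apply]
    constructor
    · intro h; exact congrArg Subtype.val h
    · intro h; exact Subtype.ext h
  have hND : ∀ a : A, Nel p • Del • a = 0 := by
    intro a
    rw [← mul_smul, mul_comm, Del_mul_Nel, sub_smul, one_smul, hX, sub_self]
  have hDN : ∀ a : A, Del • Nel p • a = 0 := by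
    intro a
    rw [← mul_smul, Del_mul_Nel, sub_smul, one_smul, hX, sub_self]
  have hNB : ∀ b : ↥B, Nel p • b = 0 := by
    rintro ⟨b, a, rfl⟩
    exact Subtype.ext (hND a)
  have hXB : ∀ b : ↥B, (X ^ p : ℤ[X]) • b = b := fun b => Subtype.ext (hX b)
  have hcompat : ∀ a, φ (P a) = smulHom ↥B (p : ℤ[X]) (φ a) := fun a =>
    (LinearMap.lsmul ℤ[X] A Del).rangeRestrict.map_smul (p : ℤ[X]) a
  -- (S1) the snake count
  have hS := snake_count φ hφ P (smulHom ↥B (p : ℤ[X])) hcompat
  rw [hφker] at hS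
  have hcB : cok ↥B (p : ℤ[X]) ≠ 0 :=
    ne_zero_of_dvd_ne_zero hcA (index_range_dvd_of_surjective φ hφ P _ hcompat)
  have hkB : kerc ↥B (p : ℤ[X]) ≠ 0 := by
    intro h
    unfold kerc at h
    rw [h, mul_zero] at hS
    exact (mul_ne_zero (mul_ne_zero hcH hcB) hkA) hS.symm
  -- (I3) on `B`, `p` and `Del^(p-1)` have the same image and kernel
  obtain ⟨W, hW⟩ := Nel_dvd_Fel_sub hp
  have hpF : ∀ b : ↥B, (p : ℤ[X]) • b = Fel p • b := by
    intro b
    have hF : Fel p = C (p : ℤ) + Nel p * W := by rw [← hW]; ring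
    have hC : (C (p : ℤ) : ℤ[X]) = (p : ℤ[X]) := by simp
    rw [hF, add_smul, mul_comm, mul_smul, hNB, smul_zero, add_zero, hC]
  obtain ⟨V, hV⟩ := exists_Del_pow_smul (A := ↥B) hp hXB
  have hc1 : cok ↥B (p : ℤ[X]) = cok ↥B (Fel p) :=
    cok_eq_of_assoc (u := 1) (v := 1) (fun b => by rw [one_smul, hpF])
      (fun b => by rw [one_smul, hpF])
  have hk1 : kerc ↥B (p : ℤ[X]) = kerc ↥B (Fel p) :=
    kerc_eq_of_assoc (u := 1) (v := 1) (fun b => by rw [one_smul, hpF])
      (fun b => by rw [one_smul, hpF])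
  have hc2 : cok ↥B (Del ^ (p - 1)) = cok ↥B (Fel p) :=
    cok_eq_of_assoc (fun b => by rw [← mul_smul, ← Fel_eq]) hV
  have hk2 : kerc ↥B (Del ^ (p - 1)) = kerc ↥B (Fel p) :=
    kerc_eq_of_assoc (fun b => by rw [← mul_smul, ← Fel_eq]) hV
  -- (I2) the power count on `B`
  have hI2 := pow_count ↥B Del (p - 1) (by
    intro j hj
    have hle : (smulHom ↥B (Del ^ j)).ker ≤ (smulHom ↥B (Del ^ (p - 1))).ker := by
      intro b hb
      simp only [AddMonoidHom.mem_ker, smulHom_apply] at hb ⊢
      rw [← Nat.sub_add_cancel hj, pow_add, mul_smul, hb, smul_zero]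
    have hdvd := AddSubgroup.card_dvd_of_le hle
    intro h0
    unfold kerc at h0
    rw [h0, zero_dvd_iff] at hdvd
    exact hkB (by rw [hk1, ← hk2]; exact hdvd))
  rw [hc2, ← hc1, hk2, ← hk1] at hI2
  -- (I5) `ker (Del | B) = H[p]`
  have hI5 : kerc ↥B Del = Nat.card ↥(P.ker ⊓ H) := by
    rw [kerc_submodule]
    have : (smulHom A Del).ker ⊓ B.toAddSubgroup = P.ker ⊓ H := by
      ext a
      simp only [AddSubgroup.mem_inf, AddMonoidHom.mem_ker, hBsub, hH, hP, hσD, smulHom_apply,
        AddMonoidHom.mem_range]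
      constructor
      · rintro ⟨h1, b, rfl⟩
        exact ⟨by rw [← Nel_smul_of_fixed p h1, hND], h1⟩
      · rintro ⟨h1, h2⟩
        obtain ⟨b, rfl⟩ := h90 a (by rw [Nel_smul_of_fixed p h2, h1])
        exact ⟨h2, b, rfl⟩
    rw [this]
  -- (I4) `[H : pH] = [B : Del B] * [H : N A]`
  have hcD : cok ↥B Del = (σD.range ⊔ H).index := by
    rw [cok_submodule, hBsub]
    conv_lhs => rw [AddMonoidHom.range_eq_map σD, AddSubgroup.relIndex_map_map, top_sup_eq,
      AddSubgroup.relIndex_top_right, ← AddMonoidHom.range_eq_map]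
  have hNker : σN.ker = σD.range := by
    ext a
    simp only [AddMonoidHom.mem_ker, AddMonoidHom.mem_range, hσN, hσD, smulHom_apply]
    constructor
    · intro h
      obtain ⟨b, rfl⟩ := h90 a h
      exact ⟨b, rfl⟩
    · rintro ⟨b, rfl⟩
      exact hND b
  have hNH : σN.range ≤ H := by
    rintro _ ⟨a, rfl⟩
    simp only [hH, hσD, hσN, AddMonoidHom.mem_ker, smulHom_apply]
    exact hDN a
  have hmapPN : H.map P = H.map σN := by
    ext a
    simp only [AddSubgroup.mem_map, hH, hP, hσN, hσD, AddMonoidHom.mem_ker, smulHom_apply]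
    constructor
    · rintro ⟨x, hx, rfl⟩
      exact ⟨x, hx, Nel_smul_of_fixed p hx⟩
    · rintro ⟨x, hx, rfl⟩
      exact ⟨x, hx, (Nel_smul_of_fixed p hx).symm⟩
  have hI4 : (H.map P).relIndex H = cok ↥B Del * σN.range.relIndex H := by
    rw [hmapPN, hcD, ← AddSubgroup.relIndex_mul_relIndex (H.map σN) σN.range H
      (AddSubgroup.map_le_range σN H) hNH]
    congr 1
    conv_lhs => rw [AddMonoidHom.range_eq_map σN, AddSubgroup.relIndex_map_map, top_sup_eq,
      AddSubgroup.relIndex_top_right, hNker, sup_comm]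
  -- final arithmetic
  rw [hI5] at hI2
  obtain ⟨n, rfl⟩ : ∃ n, p = n + 1 := ⟨p - 1, by have := hp.pos; omega⟩
  simp only [Nat.add_sub_cancel] at hI2 ⊢
  apply Nat.eq_of_mul_eq_mul_right (Nat.pos_of_ne_zero hkB)
  have hS' : cok A ((n + 1 : ℕ) : ℤ[X]) * Nat.card ↥(P.ker ⊓ H) * kerc ↥B ((n + 1 : ℕ) : ℤ[X]) =
      (H.map P).relIndex H * cok ↥B ((n + 1 : ℕ) : ℤ[X]) * kerc A ((n + 1 : ℕ) : ℤ[X]) := hS
  calc σN.range.relIndex H ^ n * cok A ((n + 1 : ℕ) : ℤ[X]) * Nat.card ↥(P.ker ⊓ H) ^ (n + 1) *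
        kerc ↥B ((n + 1 : ℕ) : ℤ[X])
      = σN.range.relIndex H ^ n * Nat.card ↥(P.ker ⊓ H) ^ n *
          (cok A ((n + 1 : ℕ) : ℤ[X]) * Nat.card ↥(P.ker ⊓ H) * kerc ↥B ((n + 1 : ℕ) : ℤ[X])) := by
        ring
    _ = σN.range.relIndex H ^ n * Nat.card ↥(P.ker ⊓ H) ^ n *
          ((H.map P).relIndex H * cok ↥B ((n + 1 : ℕ) : ℤ[X]) * kerc A ((n + 1 : ℕ) : ℤ[X])) := by
        rw [hS']
    _ = σN.range.relIndex H ^ n * (H.map P).relIndex H * kerc A ((n + 1 : ℕ) : ℤ[X]) *
          (cok ↥B ((n + 1 : ℕ) : ℤ[X]) * Nat.card ↥(P.ker ⊓ H) ^ n) := by ring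
    _ = σN.range.relIndex H ^ n * (H.map P).relIndex H * kerc A ((n + 1 : ℕ) : ℤ[X]) *
          (cok ↥B Del ^ n * kerc ↥B ((n + 1 : ℕ) : ℤ[X])) := by rw [hI2]
    _ = (H.map P).relIndex H * kerc A ((n + 1 : ℕ) : ℤ[X]) * kerc ↥B ((n + 1 : ℕ) : ℤ[X]) *
          (cok ↥B Del * σN.range.relIndex H) ^ n := by ring
    _ = (H.map P).relIndex H ^ (n + 1) * kerc A ((n + 1 : ℕ) : ℤ[X]) *
          kerc ↥B ((n + 1 : ℕ) : ℤ[X]) := by rw [← hI4]; ring

end Poly

end Fermat.Agent.S55.helper913
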