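import Mathlib

/-!
# Restriction to a finite-index subgroup kills only index-torsion (degrees 1 and 2)

`helper9208`, leaf S55-CORES2.  Mathlib only.

For a group `G`, a subgroup `H` of finite index and a `G`-module `A`:

* `index_smul_isCoboundary₂` : a 2-cocycle `f` of `G` whose restriction to `H × H` is a
  2-coboundary satisfies `IsCoboundary₂ (H.index • f)`;
* `index_smul_isCoboundary₁` : the same in degree 1;
* multiplicative twins for `MulDistribMulAction`;
* the statements on Mathlib's `groupCohomology` in degrees 1 and 2, and the Sylow-type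
  corollaries.

The proof avoids the transfer cochain and Shapiro's lemma: after subtracting a coboundary the
cocycle vanishes on `H × H`; subtracting the coboundary of `v x := - f (r x, (r x)⁻¹ * x)`
(`r` a transversal of `G ⧸ H`) makes it right-`H`-invariant in the second variable, and then
`w g := ∑ c : G ⧸ H, f (g, c)` is a primitive of `H.index • f`.
-/

set_option autoImplicit false

namespace Fermat.Agent.S55.helper9208

open groupCohomology

section Additive

variable {G A : Type*} [Group G] [AddCommGroup A] [DistribMulAction G A]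

/-- The coboundary of a 1-cochain, as a function on `G × G`. -/
def d₁₂fun (x : G → A) : G × G → A := fun p => p.1 • x p.2 - x (p.1 * p.2) + x p.1

theorem d₁₂fun_apply (x : G → A) (g h : G) :
    d₁₂fun x (g, h) = g • x h - x (g * h) + x g := rfl

theorem isCoboundary₂_d₁₂fun (x : G → A) : IsCoboundary₂ (d₁₂fun x) := ⟨x, fun _ _ => rfl⟩

theorem isCocycle₂_d₁₂fun (x : G → A) : IsCocycle₂ (d₁₂fun x) := by
  intro g h j
  simp only [d₁₂fun_apply, smul_add, smul_sub, mul_smul, mul_assoc]
  abel

theorem isCoboundary₂_iff (f : G × G → A) : IsCoboundary₂ f ↔ ∃ x : G → A, f = d₁₂fun x := by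
  constructor
  · rintro ⟨x, hx⟩
    exact ⟨x, funext fun p => (hx p.1 p.2).symm⟩
  · rintro ⟨x, rfl⟩
    exact isCoboundary₂_d₁₂fun x

theorem d₁₂fun_add (x y : G → A) : d₁₂fun (x + y) = d₁₂fun x + d₁₂fun y := by
  funext p
  simp only [d₁₂fun, Pi.add_apply, smul_add]
  abel

theorem d₁₂fun_nsmul (n : ℕ) (x : G → A) : d₁₂fun (n • x) = n • d₁₂fun x := by
  funext p
  simp only [d₁₂fun, Pi.smul_apply, smul_add, smul_sub]
  rw [smul_comm p.1 n (x p.2)]

theorem isCoboundary₂_add {f f' : G × G → A} (h : IsCoboundary₂ f) (h' : IsCoboundary₂ f') :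
    IsCoboundary₂ (f + f') := by
  obtain ⟨x, rfl⟩ := (isCoboundary₂_iff f).1 h
  obtain ⟨y, rfl⟩ := (isCoboundary₂_iff f').1 h'
  exact (isCoboundary₂_iff _).2 ⟨x + y, (d₁₂fun_add x y).symm⟩

theorem isCoboundary₂_nsmul {f : G × G → A} (h : IsCoboundary₂ f) (n : ℕ) :
    IsCoboundary₂ (n • f) := by
  obtain ⟨x, rfl⟩ := (isCoboundary₂_iff f).1 h
  exact (isCoboundary₂_iff _).2 ⟨n • x, (d₁₂fun_nsmul n x).symm⟩

theorem isCocycle₂_sub {f f' : G × G → A} (h : IsCocycle₂ f) (h' : IsCocycle₂ f') :
    IsCocycle₂ (f - f') := by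
  intro g j k
  have h1 := h g j k
  have h2 := h' g j k
  simp only [Pi.sub_apply, smul_sub]
  rw [sub_add_sub_comm, h1, h2, sub_add_sub_comm]

/-- Core: a 2-cocycle vanishing on `H × H` has `H.index • f` a coboundary. -/
theorem index_smul_isCoboundary₂_of_eq_zero (H : Subgroup G) [H.FiniteIndex] (f : G × G → A)
    (hf : IsCocycle₂ f) (h0 : ∀ a ∈ H, ∀ b ∈ H, f (a, b) = 0) :
    IsCoboundary₂ (H.index • f) := by
  classical
  let _ : Fintype (G ⧸ H) := Fintype.ofFinite _
  -- a transversal
  let r : G → G := fun x => (QuotientGroup.mk x : G ⧸ H).out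
  have hr : ∀ x, (r x)⁻¹ * x ∈ H := fun x => by
    have h1 : (QuotientGroup.mk (r x) : G ⧸ H) = QuotientGroup.mk x := QuotientGroup.out_eq' _
    exact QuotientGroup.eq.mp h1
  have hrmul : ∀ x, ∀ h ∈ H, r (x * h) = r x := fun x h hh => by
    show (QuotientGroup.mk (x * h) : G ⧸ H).out = (QuotientGroup.mk x : G ⧸ H).out
    rw [QuotientGroup.mk_mul_of_mem x hh]
  let v : G → A := fun x => - f (r x, (r x)⁻¹ * x)
  have hK : ∀ x, ∀ h ∈ H, v (x * h) = v x - f (x, h) := by
    intro x h hh
    have hc := hf (r x) ((r x)⁻¹ * x) h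
    have h1 := h0 _ (hr x) _ hh
    rw [mul_inv_cancel_left, h1, smul_zero, zero_add] at hc
    show - f (r (x * h), (r (x * h))⁻¹ * (x * h)) = - f (r x, (r x)⁻¹ * x) - f (x, h)
    rw [hrmul x h hh, ← mul_assoc, ← hc]
    abel
  -- the corrected cocycle
  let f₂ : G × G → A := f - d₁₂fun v
  have hf₂ : IsCocycle₂ f₂ := isCocycle₂_sub hf (isCocycle₂_d₁₂fun v)
  have hinv : ∀ g x, ∀ h ∈ H, f₂ (g, x * h) = f₂ (g, x) := by
    intro g x h hh
    have hc := hf g x h
    have e1 := hK x h hh
    have e2 := hK (g * x) h hh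
    have e3 : f (g, x * h) = f (g * x, h) + f (g, x) - g • f (x, h) := by
      rw [hc]; abel
    show f (g, x * h) - d₁₂fun v (g, x * h) = f (g, x) - d₁₂fun v (g, x)
    rw [d₁₂fun_apply, d₁₂fun_apply, ← mul_assoc, e1, e2, e3, smul_sub]
    abel
  have hout : ∀ g y, f₂ (g, y) = f₂ (g, (QuotientGroup.mk y : G ⧸ H).out) := by
    intro g y
    obtain ⟨h, hh⟩ := QuotientGroup.mk_out_eq_mul H y
    rw [hh, hinv g y h h.2]
  let w : G → A := fun g => ∑ c : G ⧸ H, f₂ (g, c.out)
  have hsum : ∀ g h, w (g * h) + H.index • f₂ (g, h) = g • w h + w g := by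
    intro g h
    have e : ∀ c : G ⧸ H,
        f₂ (g * h, c.out) + f₂ (g, h) = g • f₂ (h, c.out) + f₂ (g, (h • c).out) := by
      intro c
      have hc : ((h * c.out : G) : G ⧸ H) = h • c := by
        calc ((h * c.out : G) : G ⧸ H) = h • ((c.out : G) : G ⧸ H) :=
              (MulAction.Quotient.smul_mk H h c.out).symm
          _ = h • c := by rw [QuotientGroup.out_eq']
      rw [hf₂ g h c.out, hout g (h * c.out), hc]
    calc w (g * h) + H.index • f₂ (g, h)
        = ∑ c : G ⧸ H, (f₂ (g * h, c.out) + f₂ (g, h)) := by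
          rw [Finset.sum_add_distrib, Finset.sum_const, Finset.card_univ,
            ← Nat.card_eq_fintype_card, ← Subgroup.index_eq_card]
      _ = ∑ c : G ⧸ H, (g • f₂ (h, c.out) + f₂ (g, (h • c).out)) :=
          Finset.sum_congr rfl (fun c _ => e c)
      _ = g • w h + w g := by
          rw [Finset.sum_add_distrib, ← Finset.smul_sum]
          congr 1
          exact Fintype.sum_equiv (MulAction.toPerm h) _ _ (fun c => rfl)
  have h₂ : IsCoboundary₂ (H.index • f₂) := by
    refine ⟨w, fun g h => ?_⟩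
    have := hsum g h
    rw [Pi.smul_apply, sub_add_eq_add_sub, ← this, add_sub_cancel_left]
  have hdecomp : H.index • f = H.index • f₂ + H.index • d₁₂fun v := by
    rw [← nsmul_add]
    congr 1
    show f = f - d₁₂fun v + d₁₂fun v
    abel
  rw [hdecomp]
  exact isCoboundary₂_add h₂ (isCoboundary₂_nsmul (isCoboundary₂_d₁₂fun v) _)

/-- **Restriction–corestriction in degree 2, cocycle form.** If the restriction to `H × H` of a
2-cocycle `f` of `G` is a 2-coboundary and `H` has finite index, then `H.index • f` is a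
2-coboundary. -/
theorem index_smul_isCoboundary₂ (H : Subgroup G) [H.FiniteIndex] (f : G × G → A)
    (hf : IsCocycle₂ f) (hres : IsCoboundary₂ (fun q : H × H => f ((q.1 : G), (q.2 : G)))) :
    IsCoboundary₂ (H.index • f) := by
  classical
  obtain ⟨u, hu⟩ := hres
  let ũ : G → A := fun x => if hx : x ∈ H then u ⟨x, hx⟩ else 0
  have hũ : ∀ a (ha : a ∈ H), ũ a = u ⟨a, ha⟩ := fun a ha => dif_pos ha
  have h0 : ∀ a ∈ H, ∀ b ∈ H, (f - d₁₂fun ũ) (a, b) = 0 := by
    intro a ha b hb
    have := hu ⟨a, ha⟩ ⟨b, hb⟩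
    show f (a, b) - d₁₂fun ũ (a, b) = 0
    rw [d₁₂fun_apply, hũ a ha, hũ b hb, hũ (a * b) (H.mul_mem ha hb), sub_eq_zero]
    exact this.symm
  have h1 := index_smul_isCoboundary₂_of_eq_zero H (f - d₁₂fun ũ)
    (isCocycle₂_sub hf (isCocycle₂_d₁₂fun ũ)) h0
  have hdecomp : H.index • f = H.index • (f - d₁₂fun ũ) + H.index • d₁₂fun ũ := by
    rw [← nsmul_add]
    congr 1
    abel
  rw [hdecomp]
  exact isCoboundary₂_add h1 (isCoboundary₂_nsmul (isCoboundary₂_d₁₂fun ũ) _)


theorem d₁₂fun_zsmul (n : ℤ) (x : G → A) : d₁₂fun (n • x) = n • d₁₂fun x := by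
  funext p
  simp only [d₁₂fun, Pi.smul_apply, smul_add, smul_sub]
  rw [smul_comm p.1 n (x p.2)]

theorem isCoboundary₂_zsmul {f : G × G → A} (h : IsCoboundary₂ f) (n : ℤ) :
    IsCoboundary₂ (n • f) := by
  obtain ⟨x, rfl⟩ := (isCoboundary₂_iff f).1 h
  exact (isCoboundary₂_iff _).2 ⟨n • x, (d₁₂fun_zsmul n x).symm⟩

/-- If `m • f` and `n • f` are 2-coboundaries with `m`, `n` coprime, then `f` is a 2-coboundary. -/
theorem isCoboundary₂_of_coprime {f : G × G → A} {m n : ℕ} (hmn : Nat.Coprime m n)
    (hm : IsCoboundary₂ (m • f)) (hn : IsCoboundary₂ (n • f)) : IsCoboundary₂ f := by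
  have hb : (m : ℤ) * Nat.gcdA m n + (n : ℤ) * Nat.gcdB m n = 1 := by
    have := Nat.gcd_eq_gcd_ab m n
    rw [hmn.gcd_eq_one] at this
    exact_mod_cast this.symm
  have h1 : f = Nat.gcdA m n • (m • f) + Nat.gcdB m n • (n • f) := by
    rw [← natCast_zsmul f m, ← natCast_zsmul f n, smul_smul, smul_smul, ← add_smul,
      mul_comm (Nat.gcdA m n), mul_comm (Nat.gcdB m n), hb, one_smul]
  rw [h1]
  exact isCoboundary₂_add (isCoboundary₂_zsmul hm _) (isCoboundary₂_zsmul hn _)

/-- **Sylow step, cocycle form.** A 2-cocycle `f` with `p ^ a • f` a coboundary whose restriction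
to a subgroup of index prime to `p` is a coboundary is itself a coboundary. -/
theorem isCoboundary₂_of_res_of_pow_smul (H : Subgroup G) [H.FiniteIndex] {p a : ℕ}
    (hcop : Nat.Coprime H.index p) (f : G × G → A) (hf : IsCocycle₂ f)
    (hpa : IsCoboundary₂ (p ^ a • f))
    (hres : IsCoboundary₂ (fun q : H × H => f ((q.1 : G), (q.2 : G)))) : IsCoboundary₂ f :=
  isCoboundary₂_of_coprime (Nat.Coprime.pow_right a hcop)
    (index_smul_isCoboundary₂ H f hf hres) hpa

/-! ### Degree 1 -/

/-- **Restriction–corestriction in degree 1, cocycle form.** -/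
theorem index_smul_isCoboundary₁ (H : Subgroup G) [H.FiniteIndex] (f : G → A)
    (hf : IsCocycle₁ f) (hres : IsCoboundary₁ (fun h : H => f (h : G))) :
    IsCoboundary₁ (H.index • f) := by
  classical
  let _ : Fintype (G ⧸ H) := Fintype.ofFinite _
  obtain ⟨a, ha⟩ := hres
  let f' : G → A := fun x => f x - (x • a - a)
  have hf' : ∀ g x, f' (g * x) = g • f' x + f' g := by
    intro g x
    show f (g * x) - ((g * x) • a - a) = g • (f x - (x • a - a)) + (f g - (g • a - a))
    rw [hf g x, mul_smul, smul_sub, smul_sub]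
    abel
  have h0 : ∀ h ∈ H, f' h = 0 := by
    intro h hh
    have := ha ⟨h, hh⟩
    show f h - (h • a - a) = 0
    rw [sub_eq_zero]
    exact this.symm
  have hinv : ∀ x, ∀ h ∈ H, f' (x * h) = f' x := by
    intro x h hh
    rw [hf' x h, h0 h hh, smul_zero, zero_add]
  have hout : ∀ y, f' y = f' ((QuotientGroup.mk y : G ⧸ H).out) := by
    intro y
    obtain ⟨h, hh⟩ := QuotientGroup.mk_out_eq_mul H y
    rw [hh, hinv y h h.2]
  let w : A := ∑ c : G ⧸ H, f' c.out
  have hsum : ∀ g, w = g • w + H.index • f' g := by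
    intro g
    have e : ∀ c : G ⧸ H, f' ((g • c).out) = g • f' c.out + f' g := by
      intro c
      have hc : ((g * c.out : G) : G ⧸ H) = g • c := by
        calc ((g * c.out : G) : G ⧸ H) = g • ((c.out : G) : G ⧸ H) :=
              (MulAction.Quotient.smul_mk H g c.out).symm
          _ = g • c := by rw [QuotientGroup.out_eq']
      rw [← hc, ← hout, hf']
    calc w = ∑ c : G ⧸ H, f' ((g • c).out) :=
          (Fintype.sum_equiv (MulAction.toPerm g) _ _ (fun c => rfl)).symm
      _ = ∑ c : G ⧸ H, (g • f' c.out + f' g) := Finset.sum_congr rfl (fun c _ => e c)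
      _ = g • w + H.index • f' g := by
          rw [Finset.sum_add_distrib, ← Finset.smul_sum, Finset.sum_const, Finset.card_univ,
            ← Nat.card_eq_fintype_card, ← Subgroup.index_eq_card]
  have key : ∀ g, H.index • f g = g • (-w + H.index • a) - (-w + H.index • a) := by
    intro g
    have h3 : H.index • f' g = w - g • w := by
      rw [eq_sub_iff_add_eq, add_comm]
      exact (hsum g).symm
    have h2 : H.index • f g = H.index • f' g + H.index • (g • a - a) := by
      rw [← nsmul_add]
      congr 1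
      show f g = f g - (g • a - a) + (g • a - a)
      abel
    rw [h2, h3, smul_add, smul_neg, smul_comm g H.index a, nsmul_sub]
    abel
  exact ⟨-w + H.index • a, fun g => (key g).symm⟩

end Additive

/-! ### Multiplicative twins -/

section Multiplicative

variable {G M : Type*} [Group G] [CommGroup M] [MulDistribMulAction G M]

/-- The `DistribMulAction` on `Additive M` induced by a `MulDistribMulAction` on `M`
(not an instance; used locally to transfer the additive statements). -/
@[reducible] def additiveDistribMulAction : DistribMulAction G (Additive M) where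
  smul g a := Additive.ofMul (g • a.toMul)
  one_smul a := by
    show Additive.ofMul ((1 : G) • a.toMul) = a
    rw [one_smul]; rfl
  mul_smul g h a := by
    show Additive.ofMul ((g * h) • a.toMul) = Additive.ofMul (g • (h • a.toMul))
    rw [mul_smul]
  smul_zero g := by
    show Additive.ofMul (g • (1 : M)) = 0
    rw [smul_one]; rfl
  smul_add g a b := by
    show Additive.ofMul (g • (a.toMul * b.toMul)) =
      Additive.ofMul (g • a.toMul * g • b.toMul)
    rw [smul_mul']

/-- **Restriction–corestriction in degree 2, multiplicative cocycle form** (e.g. `M = Lˣ`,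
`G = Gal(L/K)`). -/
theorem index_pow_isMulCoboundary₂ (H : Subgroup G) [H.FiniteIndex] (f : G × G → M)
    (hf : IsMulCocycle₂ f)
    (hres : IsMulCoboundary₂ (fun q : H × H => f ((q.1 : G), (q.2 : G)))) :
    IsMulCoboundary₂ (f ^ H.index) := by
  let _ := additiveDistribMulAction (G := G) (M := M)
  have h2 : IsCoboundary₂ (fun q : H × H => Additive.ofMul (f ((q.1 : G), (q.2 : G)))) := by
    obtain ⟨x, hx⟩ := hres
    exact ⟨fun g => Additive.ofMul (x g), fun g h => hx g h⟩
  obtain ⟨x, hx⟩ := index_smul_isCoboundary₂ (A := Additive M) H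
    (fun p => Additive.ofMul (f p)) hf h2
  exact ⟨fun g => (x g).toMul, fun g h => hx g h⟩

/-- **Restriction–corestriction in degree 1, multiplicative cocycle form.** -/
theorem index_pow_isMulCoboundary₁ (H : Subgroup G) [H.FiniteIndex] (f : G → M)
    (hf : IsMulCocycle₁ f) (hres : IsMulCoboundary₁ (fun h : H => f (h : G))) :
    IsMulCoboundary₁ (f ^ H.index) := by
  let _ := additiveDistribMulAction (G := G) (M := M)
  have h2 : IsCoboundary₁ (fun h : H => Additive.ofMul (f (h : G))) := by
    obtain ⟨x, hx⟩ := hres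
    exact ⟨Additive.ofMul x, fun g => hx g⟩
  obtain ⟨x, hx⟩ := index_smul_isCoboundary₁ (A := Additive M) H
    (fun p => Additive.ofMul (f p)) hf h2
  exact ⟨x.toMul, fun g => hx g⟩

/-- **Sylow step, multiplicative cocycle form.** -/
theorem isMulCoboundary₂_of_res_of_pow (H : Subgroup G) [H.FiniteIndex] {p a : ℕ}
    (hcop : Nat.Coprime H.index p) (f : G × G → M) (hf : IsMulCocycle₂ f)
    (hpa : IsMulCoboundary₂ (f ^ p ^ a))
    (hres : IsMulCoboundary₂ (fun q : H × H => f ((q.1 : G), (q.2 : G)))) :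
    IsMulCoboundary₂ f := by
  let _ := additiveDistribMulAction (G := G) (M := M)
  have h2 : IsCoboundary₂ (fun q : H × H => Additive.ofMul (f ((q.1 : G), (q.2 : G)))) := by
    obtain ⟨x, hx⟩ := hres
    exact ⟨fun g => Additive.ofMul (x g), fun g h => hx g h⟩
  have h3 : IsCoboundary₂ (p ^ a • fun q : G × G => Additive.ofMul (f q)) := by
    obtain ⟨x, hx⟩ := hpa
    exact ⟨fun g => Additive.ofMul (x g), fun g h => hx g h⟩
  obtain ⟨x, hx⟩ := isCoboundary₂_of_res_of_pow_smul (A := Additive M) H hcop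
    (fun p => Additive.ofMul (f p)) hf h3 h2
  exact ⟨fun g => (x g).toMul, fun g h => hx g h⟩

end Multiplicative

/-! ### Mathlib `groupCohomology` surface -/

section Rep

open CategoryTheory

universe u

variable {k G : Type u} [CommRing k] [Group G]

/-- The `DistribMulAction` of `G` on the underlying module of a representation
(not an instance; used locally). -/
@[reducible] def repDistribMulAction (A : Rep k G) : DistribMulAction G A where
  smul g a := A.ρ g a
  one_smul a := by
    show A.ρ 1 a = a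
    simp
  mul_smul g h a := by
    show A.ρ (g * h) a = A.ρ g (A.ρ h a)
    simp
  smul_zero g := map_zero _
  smul_add g a b := map_add _ _ _

/-- Cocycle-level statement for a representation: if the restriction to `H × H` of a 2-cocycle
is a 2-coboundary of `H`, then `H.index • x` is a 2-coboundary of `G`. -/
theorem index_smul_mem_coboundaries₂ (A : Rep k G) (H : Subgroup G) [H.FiniteIndex]
    (x : G × G → A) (hx : x ∈ cocycles₂ A)
    (hres : (fun q : H × H => x ((q.1 : G), (q.2 : G))) ∈
      coboundaries₂ (Rep.res H.subtype A)) :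
    H.index • x ∈ coboundaries₂ A := by
  let _ := repDistribMulAction A
  have h1 : IsCocycle₂ x := (mem_cocycles₂_iff x).1 hx
  have h2 : IsCoboundary₂ (fun q : H × H => x ((q.1 : G), (q.2 : G))) := by
    obtain ⟨u, hu⟩ := hres
    exact ⟨u, fun g h => congr_fun hu (g, h)⟩
  obtain ⟨w, hw⟩ := index_smul_isCoboundary₂ H x h1 h2
  exact ⟨w, funext fun p => hw p.1 p.2⟩

/-- **Restriction–corestriction on `H²`.** A class in `H²(G, A)` whose restriction to a
finite-index subgroup `H` vanishes is killed by `H.index`. -/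
theorem index_smul_eq_zero_of_res_eq_zero₂ (A : Rep k G) (H : Subgroup G) [H.FiniteIndex]
    (x : groupCohomology A 2)
    (hx : map H.subtype (𝟙 (Rep.res H.subtype A)) 2 x = 0) : H.index • x = 0 := by
  induction x using H2_induction_on with | h x =>
  rw [H2π_comp_map_apply, H2π_eq_zero_iff] at hx
  rw [← map_nsmul, H2π_eq_zero_iff]
  exact index_smul_mem_coboundaries₂ A H x x.2 hx

/-- Cocycle-level statement for a representation in degree 1. -/
theorem index_smul_mem_coboundaries₁ (A : Rep k G) (H : Subgroup G) [H.FiniteIndex]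
    (x : G → A) (hx : x ∈ cocycles₁ A)
    (hres : (fun h : H => x (h : G)) ∈ coboundaries₁ (Rep.res H.subtype A)) :
    H.index • x ∈ coboundaries₁ A := by
  let _ := repDistribMulAction A
  have h1 : IsCocycle₁ x := (mem_cocycles₁_iff x).1 hx
  have h2 : IsCoboundary₁ (fun h : H => x (h : G)) := by
    obtain ⟨u, hu⟩ := hres
    exact ⟨u, fun g => congr_fun hu g⟩
  obtain ⟨w, hw⟩ := index_smul_isCoboundary₁ H x h1 h2
  exact ⟨w, funext fun g => hw g⟩

/-- **Restriction–corestriction on `H¹`.** -/
theorem index_smul_eq_zero_of_res_eq_zero₁ (A : Rep k G) (H : Subgroup G) [H.FiniteIndex]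
    (x : groupCohomology A 1)
    (hx : map H.subtype (𝟙 (Rep.res H.subtype A)) 1 x = 0) : H.index • x = 0 := by
  induction x using H1_induction_on with | h x =>
  rw [H1π_comp_map_apply, H1π_eq_zero_iff] at hx
  rw [← map_nsmul, H1π_eq_zero_iff]
  exact index_smul_mem_coboundaries₁ A H x x.2 hx

/-- An element of an additive group killed by two coprime natural numbers is zero. -/
theorem eq_zero_of_coprime_nsmul {B : Type*} [AddCommGroup B] {m n : ℕ} (hmn : Nat.Coprime m n)
    (x : B) (hm : m • x = 0) (hn : n • x = 0) : x = 0 := by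
  have h1 : addOrderOf x ∣ m := addOrderOf_dvd_of_nsmul_eq_zero hm
  have h2 : addOrderOf x ∣ n := addOrderOf_dvd_of_nsmul_eq_zero hn
  have h3 : addOrderOf x = 1 := Nat.eq_one_of_dvd_coprimes hmn h1 h2
  exact AddMonoid.addOrderOf_eq_one_iff.1 h3

/-- **Sylow step on `H²`.** A `p`-power-torsion class in `H²(G, A)` whose restriction to a
subgroup of index prime to `p` vanishes is zero. -/
theorem eq_zero_of_res_eq_zero_of_pow_smul₂ (A : Rep k G) (H : Subgroup G) [H.FiniteIndex]
    {p a : ℕ} (hcop : Nat.Coprime H.index p) (x : groupCohomology A 2)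
    (hpa : p ^ a • x = 0)
    (hx : map H.subtype (𝟙 (Rep.res H.subtype A)) 2 x = 0) : x = 0 :=
  eq_zero_of_coprime_nsmul (Nat.Coprime.pow_right a hcop) x
    (index_smul_eq_zero_of_res_eq_zero₂ A H x hx) hpa

/-- **Sylow step on `H¹`.** -/
theorem eq_zero_of_res_eq_zero_of_pow_smul₁ (A : Rep k G) (H : Subgroup G) [H.FiniteIndex]
    {p a : ℕ} (hcop : Nat.Coprime H.index p) (x : groupCohomology A 1)
    (hpa : p ^ a • x = 0)
    (hx : map H.subtype (𝟙 (Rep.res H.subtype A)) 1 x = 0) : x = 0 :=
  eq_zero_of_coprime_nsmul (Nat.Coprime.pow_right a hcop) x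
    (index_smul_eq_zero_of_res_eq_zero₁ A H x hx) hpa

/-- The index of a Sylow `p`-subgroup of finite index is prime to `p`. -/
theorem sylow_index_coprime {p : ℕ} [Fact p.Prime] (P : Sylow p G)
    [(P : Subgroup G).FiniteIndex] : Nat.Coprime (P : Subgroup G).index p :=
  ((Nat.Prime.coprime_iff_not_dvd Fact.out).2 P.not_dvd_index).symm

/-- **Restriction to a Sylow `p`-subgroup is injective on `p`-power torsion of `H²`.** -/
theorem eq_zero_of_res_sylow_eq_zero₂ (A : Rep k G) {p : ℕ} [Fact p.Prime] (P : Sylow p G)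
    [(P : Subgroup G).FiniteIndex] {a : ℕ} (x : groupCohomology A 2) (hpa : p ^ a • x = 0)
    (hx : map (P : Subgroup G).subtype (𝟙 (Rep.res (P : Subgroup G).subtype A)) 2 x = 0) :
    x = 0 :=
  eq_zero_of_res_eq_zero_of_pow_smul₂ A (P : Subgroup G) (sylow_index_coprime P) x hpa hx

/-- **Restriction to a Sylow `p`-subgroup is injective on `p`-power torsion of `H¹`.** -/
theorem eq_zero_of_res_sylow_eq_zero₁ (A : Rep k G) {p : ℕ} [Fact p.Prime] (P : Sylow p G)
    [(P : Subgroup G).FiniteIndex] {a : ℕ} (x : groupCohomology A 1) (hpa : p ^ a • x = 0)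
    (hx : map (P : Subgroup G).subtype (𝟙 (Rep.res (P : Subgroup G).subtype A)) 1 x = 0) :
    x = 0 :=
  eq_zero_of_res_eq_zero_of_pow_smul₁ A (P : Subgroup G) (sylow_index_coprime P) x hpa hx

end Rep

end Fermat.Agent.S55.helper9208
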