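/-
S55 (Poitou–Tate), soft layer: the numerals of the soft squeeze are ISOMORPHISM INVARIANTS.
Author: helper9763.

For `e : A ≅ B` in `Rep (ZMod p) G_ℚ`, every numeral of `helper2945_SoftSpec`
(`h0 h1 h2 a1 a2 r1 r2 pi0 pi1 pi2`), the predicate `IsSMod`, finite-dimensionality of the
frozen carriers and the inequality of `Stmt_E` are transported from `A` to `B`.
Built on `helper9763_IsoTransport` (explicit linear equivalences on the frozen carriers) and
`helper1408_DualTwist` (functoriality of the twisted dual).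
-/
import Mathlib
import Fermat.Prelude.Def_GroupCohomology_ContinuousUnramified
import Fermat.Agent.S55.helper2945_SoftSpec
import Fermat.Agent.S55.helper1408_DualTwist
import Fermat.Agent.S55.helper9763_IsoTransport

set_option autoImplicit false

namespace Fermat.Agent.S55.helper9763

open CategoryTheory Module groupCohomology ExtCitation
open Fermat.Agent.S55.helper2945

section Numerals

variable {p : ℕ} [Fact p.Prime] (S : Finset Nat.Primes) {A B : Rep.{0, 0, 0} (ZMod p) GQ}

theorem h0_eq_of_iso (e : A ≅ B) : h0 A = h0 B :=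
  (invariantsEquiv e).finrank_eq

theorem h1_eq_of_iso (e : A ≅ B) : h1 S A = h1 S B :=
  (continuousH1SEquiv S e).finrank_eq

theorem h2_eq_of_iso (e : A ≅ B) : h2 S A = h2 S B :=
  (continuousH2SEquiv S e).finrank_eq

theorem a1_eq_of_iso (e : A ≅ B) : a1 S A = a1 S B :=
  (sha₁Equiv S e).finrank_eq

theorem a2_eq_of_iso (e : A ≅ B) : a2 S A = a2 S B :=
  (sha₂Equiv S e).finrank_eq

theorem r1_eq_of_iso (e : A ≅ B) : r1 S A = r1 S B :=
  (locTotalImageEquiv S e).finrank_eq

theorem r2_eq_of_iso (e : A ≅ B) : r2 S A = r2 S B :=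
  (Submodule.Quotient.equiv (sha₂ S A) (sha₂ S B) (continuousH2SEquiv S e)
    (map_continuousH2SEquiv_sha₂ S e)).finrank_eq

theorem pi0_eq_of_iso (e : A ≅ B) : pi0 S A = pi0 S B :=
  Finset.sum_congr rfl fun q _ =>
    (invariantsEquiv (resIso (primeLocalToGlobal q) e)).finrank_eq

theorem pi1_eq_of_iso (e : A ≅ B) : pi1 S A = pi1 S B :=
  Finset.sum_congr rfl fun q _ =>
    (continuousH1Equiv (primeLocalToGlobal q) (resIso (primeLocalToGlobal q) e)).finrank_eq

theorem pi2_eq_of_iso (e : A ≅ B) : pi2 S A = pi2 S B :=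
  Finset.sum_congr rfl fun q _ =>
    (continuousH2Equiv (primeLocalToGlobal q) (resIso (primeLocalToGlobal q) e)).finrank_eq

/-- The twisted dual of an isomorphism (covariant direction). -/
noncomputable def dualTIso (e : A ≅ B) : dualT A ≅ dualT B :=
  (helper1408.dualTwistIso (cycloChar p) e).symm

/-- The class of modules of the frozen statement is closed under isomorphism. -/
theorem isSMod_of_iso (e : A ≅ B) (hA : IsSMod S A) : IsSMod S B := by
  refine ⟨?_, ?_, ?_⟩
  · haveI := hA.finite
    exact Module.Finite.equiv (Representation.equivOfIso e).toLinearEquiv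
  · intro b
    obtain ⟨F, hF, h⟩ := hA.smooth (e.inv.hom b)
    refine ⟨F, hF, fun s hs => ?_⟩
    have h1 : e.hom.hom (A.ρ s (e.inv.hom b)) = B.ρ s (e.hom.hom (e.inv.hom b)) :=
      Rep.hom_comm_apply e.hom s _
    rw [h s hs, Rep.hom_inv_apply] at h1
    exact h1.symm
  · intro q hq V hV g hg
    ext b
    have h1 : e.hom.hom (A.ρ g (e.inv.hom b)) = B.ρ g (e.hom.hom (e.inv.hom b)) :=
      Rep.hom_comm_apply e.hom g _
    rw [hA.unram q hq V hV g hg, Rep.hom_inv_apply] at h1
    simpa using h1.symm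

theorem finiteDimensional_continuousH1S_of_iso (e : A ≅ B)
    [FiniteDimensional (ZMod p) (continuousH1S S A)] :
    FiniteDimensional (ZMod p) (continuousH1S S B) :=
  Module.Finite.equiv (continuousH1SEquiv S e)

theorem finiteDimensional_continuousH2S_of_iso (e : A ≅ B)
    [FiniteDimensional (ZMod p) (continuousH2S S A)] :
    FiniteDimensional (ZMod p) (continuousH2S S B) :=
  Module.Finite.equiv (continuousH2SEquiv S e)

/-- The inequality of `helper2945.Stmt_E` (i.e. `E*(M) ≤ 0`) is invariant under isomorphism. -/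
theorem stmtE_ineq_of_iso (e : A ≅ B)
    (h : h0 A + h2 S A + h0 (dualT A) + h2 S (dualT A) + pi1 S A ≤
      h1 S A + h1 S (dualT A) + pi0 S A + pi2 S A) :
    h0 B + h2 S B + h0 (dualT B) + h2 S (dualT B) + pi1 S B ≤
      h1 S B + h1 S (dualT B) + pi0 S B + pi2 S B := by
  rw [← h0_eq_of_iso e, ← h2_eq_of_iso S e, ← h0_eq_of_iso (dualTIso e),
    ← h2_eq_of_iso S (dualTIso e), ← pi1_eq_of_iso S e, ← h1_eq_of_iso S e,
    ← h1_eq_of_iso S (dualTIso e), ← pi0_eq_of_iso S e, ← pi2_eq_of_iso S e]
  exact h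

end Numerals

end Fermat.Agent.S55.helper9763
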