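import Mathlib

/-!
# S55 / (LB1): the symbol line (abstract linear algebra, Mathlib only)

`K` a finite extension of `ℚ_l` containing `μ_p`, `V = Kˣ/p`, `W = H²(G_K, μ_p)`,
`s b a = χ_b ∪ δ a`.  The norm criterion and the norm index `p` say that `s` is alternating and
that `s b` has rank exactly one for `b ≠ 0`.  From this alone:

* `symbol_line`  : all the maps `s b` (`b ≠ 0`) have the same range (one line `ℓ_K ⊆ W`);
* `exists_smul_of_ker_eq` / `ker_ne_of_indep` : independent `b, c` have different kernels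
  (distinct Kummer extensions have distinct norm groups);
* `kummer_step`  : for a Kummer step `K₁ = K(c^{1/p})` with restriction / corestriction and the
  projection formula, a class of `W` whose restriction to `K₁` is a symbol is itself a symbol
  `s c a`.  Iterating along a `p`-tower gives `dim H²(G_K, μ_p) ≤ 1` without any unramified
  theory (see `team_s55_chat` #81).
-/

namespace Fermat.Agent.S55.helper9962

open Module

section general

variable {k V W : Type*} [Field k] [AddCommGroup V] [Module k V] [AddCommGroup W] [Module k W]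

/-- A linear map whose range is a line. -/
def IsRankOne (f : V →ₗ[k] W) : Prop :=
  ∃ w : W, w ≠ 0 ∧ LinearMap.range f = Submodule.span k {w}

theorem IsRankOne.exists_ne_zero {f : V →ₗ[k] W} (h : IsRankOne f) : ∃ a, f a ≠ 0 := by
  obtain ⟨w, hw, hr⟩ := h
  have hmem : w ∈ LinearMap.range f := by
    rw [hr]; exact Submodule.mem_span_singleton_self w
  obtain ⟨a, rfl⟩ := hmem
  exact ⟨a, hw⟩

theorem IsRankOne.ne_zero {f : V →ₗ[k] W} (h : IsRankOne f) : f ≠ 0 := by
  obtain ⟨a, ha⟩ := h.exists_ne_zero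
  intro h0
  exact ha (by rw [h0]; rfl)

/-- Any nonzero value spans the range. -/
theorem IsRankOne.range_eq_span {f : V →ₗ[k] W} (h : IsRankOne f) {a : V} (ha : f a ≠ 0) :
    LinearMap.range f = Submodule.span k {f a} := by
  obtain ⟨w, hw, hr⟩ := h
  have hmem : f a ∈ Submodule.span k {w} := by
    rw [← hr]; exact LinearMap.mem_range_self f a
  obtain ⟨t, ht⟩ := Submodule.mem_span_singleton.1 hmem
  have ht0 : t ≠ 0 := by
    rintro rfl
    exact ha (by rw [← ht, zero_smul])
  rw [hr]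
  apply le_antisymm
  · rw [Submodule.span_singleton_le_iff_mem]
    refine Submodule.mem_span_singleton.2 ⟨t⁻¹, ?_⟩
    rw [← ht, smul_smul, inv_mul_cancel₀ ht0, one_smul]
  · rw [Submodule.span_singleton_le_iff_mem]
    exact hmem

/-- Any value is a multiple of a given nonzero value. -/
theorem IsRankOne.exists_smul {f : V →ₗ[k] W} (h : IsRankOne f) {a : V} (ha : f a ≠ 0)
    (a' : V) : ∃ t : k, f a' = t • f a := by
  have hmem : f a' ∈ Submodule.span k {f a} := by
    rw [← h.range_eq_span ha]; exact LinearMap.mem_range_self f a'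
  obtain ⟨t, ht⟩ := Submodule.mem_span_singleton.1 hmem
  exact ⟨t, ht.symm⟩

/-- A rank-one criterion without `Submodule.span`. -/
theorem isRankOne_of_forall {f : V →ₗ[k] W} (a₀ : V) (h0 : f a₀ ≠ 0)
    (h : ∀ a, ∃ t : k, f a = t • f a₀) : IsRankOne f := by
  refine ⟨f a₀, h0, le_antisymm ?_ ?_⟩
  · rintro _ ⟨a, rfl⟩
    obtain ⟨t, ht⟩ := h a
    exact Submodule.mem_span_singleton.2 ⟨t, ht.symm⟩
  · rw [Submodule.span_singleton_le_iff_mem]
    exact LinearMap.mem_range_self f a₀

variable (s : V →ₗ[k] V →ₗ[k] W)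

/-- An alternating bilinear map is antisymmetric. -/
theorem symbol_antisymm (hs : ∀ a, s a a = 0) (a b : V) : s a b = - s b a := by
  have h := hs (a + b)
  simp only [map_add, LinearMap.add_apply, hs a, hs b, zero_add, add_zero] at h
  exact eq_neg_of_add_eq_zero_right h

theorem symbol_ne_zero_left {s : V →ₗ[k] V →ₗ[k] W} {b a : V} (h : s b a ≠ 0) : b ≠ 0 := by
  rintro rfl
  exact h (by simp)

theorem symbol_ne_zero_right {s : V →ₗ[k] V →ₗ[k] W} {b a : V} (h : s b a ≠ 0) : a ≠ 0 := by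
  rintro rfl
  exact h (by simp)

/-- Two symbols `b, b'` that pair nontrivially have the same range. -/
theorem range_eq_of_symbol_ne_zero (hs : ∀ a, s a a = 0)
    (h1 : ∀ b, b ≠ 0 → IsRankOne (s b)) {b b' : V} (h : s b b' ≠ 0) :
    LinearMap.range (s b) = LinearMap.range (s b') := by
  have hb : b ≠ 0 := symbol_ne_zero_left h
  have hb' : b' ≠ 0 := symbol_ne_zero_right h
  have h' : s b' b ≠ 0 := by
    rw [symbol_antisymm s hs b' b]
    exact neg_ne_zero.2 h
  rw [(h1 b hb).range_eq_span h, (h1 b' hb').range_eq_span h', symbol_antisymm s hs b' b]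
  apply le_antisymm
  · rw [Submodule.span_singleton_le_iff_mem]
    exact Submodule.mem_span_singleton.2 ⟨-1, by simp⟩
  · rw [Submodule.span_singleton_le_iff_mem]
    exact Submodule.mem_span_singleton.2 ⟨-1, by simp⟩

/-- **Step 1 (the symbol line).**  If `s` is alternating and every `s b` (`b ≠ 0`) has rank one,
then all `s b` have the same range. -/
theorem symbol_line (hs : ∀ a, s a a = 0) (h1 : ∀ b, b ≠ 0 → IsRankOne (s b))
    {b b' : V} (hb : b ≠ 0) (hb' : b' ≠ 0) :
    LinearMap.range (s b) = LinearMap.range (s b') := by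
  by_cases h : s b b' = 0
  · -- find `b''` pairing nontrivially with both
    obtain ⟨u, hu⟩ := (h1 b hb).exists_ne_zero
    obtain ⟨v, hv⟩ := (h1 b' hb').exists_ne_zero
    have key : ∃ b'', s b b'' ≠ 0 ∧ s b' b'' ≠ 0 := by
      by_cases hu' : s b' u = 0
      · by_cases hv' : s b v = 0
        · refine ⟨u + v, ?_, ?_⟩
          · rw [map_add, hv', add_zero]; exact hu
          · rw [map_add, hu', zero_add]; exact hv
        · exact ⟨v, hv', hv⟩
      · exact ⟨u, hu, hu'⟩
    obtain ⟨b'', h₁, h₂⟩ := key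
    rw [range_eq_of_symbol_ne_zero s hs h1 h₁, range_eq_of_symbol_ne_zero s hs h1 h₂]
  · exact range_eq_of_symbol_ne_zero s hs h1 h

/-- All symbols are multiples of any nonzero symbol. -/
theorem symbol_exists_smul (hs : ∀ a, s a a = 0) (h1 : ∀ b, b ≠ 0 → IsRankOne (s b))
    {b a : V} (h : s b a ≠ 0) (b' a' : V) : ∃ t : k, s b' a' = t • s b a := by
  by_cases hb' : b' = 0
  · exact ⟨0, by rw [hb']; simp⟩
  · have hmem : s b' a' ∈ LinearMap.range (s b) := by
      rw [symbol_line s hs h1 (symbol_ne_zero_left h) hb']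
      exact LinearMap.mem_range_self _ a'
    rw [(h1 b (symbol_ne_zero_left h)).range_eq_span h] at hmem
    obtain ⟨t, ht⟩ := Submodule.mem_span_singleton.1 hmem
    exact ⟨t, ht.symm⟩

/-- (LB2), left: `s b · ≠ 0` for `b ≠ 0`. -/
theorem symbol_nondeg_left (h1 : ∀ b, b ≠ 0 → IsRankOne (s b)) {b : V}
    (hb : ∀ a, s b a = 0) : b = 0 := by
  by_contra hne
  obtain ⟨a, ha⟩ := (h1 b hne).exists_ne_zero
  exact ha (hb a)

/-- (LB2), right. -/
theorem symbol_nondeg_right (hs : ∀ a, s a a = 0) (h1 : ∀ b, b ≠ 0 → IsRankOne (s b)) {a : V}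
    (ha : ∀ b, s b a = 0) : a = 0 := by
  apply symbol_nondeg_left s h1
  intro b
  rw [symbol_antisymm s hs a b, ha b, neg_zero]

/-- **Step 2.**  If `ker (s c) ≤ ker (s b)` then `b` is a multiple of `c`
(distinct Kummer extensions have distinct norm groups). -/
theorem exists_smul_of_ker_le (hs : ∀ a, s a a = 0) (h1 : ∀ b, b ≠ 0 → IsRankOne (s b))
    {b c : V} (hc : c ≠ 0) (hle : ∀ a, s c a = 0 → s b a = 0) : ∃ t : k, b = t • c := by
  obtain ⟨a₀, ha₀⟩ := (h1 c hc).exists_ne_zero
  obtain ⟨t, ht⟩ := symbol_exists_smul s hs h1 ha₀ b a₀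
  refine ⟨t, ?_⟩
  rw [← sub_eq_zero]
  apply symbol_nondeg_left s h1
  intro a
  obtain ⟨r, hr⟩ := (h1 c hc).exists_smul ha₀ a
  have h0 : s c (a - r • a₀) = 0 := by rw [map_sub, map_smul, hr, sub_self]
  have h2 := hle _ h0
  rw [map_sub, map_smul, sub_eq_zero] at h2
  rw [map_sub, LinearMap.sub_apply, map_smul, LinearMap.smul_apply, h2, hr, ht, smul_smul,
    smul_smul, mul_comm, sub_self]

/-- Independent `b, c` have different kernels: there is `a` with `s c a = 0` and `s b a ≠ 0`. -/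
theorem exists_ker_not_ker (hs : ∀ a, s a a = 0) (h1 : ∀ b, b ≠ 0 → IsRankOne (s b))
    {b c : V} (hc : c ≠ 0) (hb : ∀ t : k, b ≠ t • c) : ∃ a, s c a = 0 ∧ s b a ≠ 0 := by
  by_contra hcon
  push Not at hcon
  obtain ⟨t, ht⟩ := exists_smul_of_ker_le s hs h1 hc hcon
  exact hb t ht

end general

section step

variable {k V W V₁ W₁ : Type*} [Field k] [AddCommGroup V] [Module k V] [AddCommGroup W]
  [Module k W] [AddCommGroup V₁] [Module k V₁] [AddCommGroup W₁] [Module k W₁]

/-- **Steps 3 and 4 (one Kummer step).**  `s`, `s₁` the symbols of `K` and `K₁ = K(c^{1/p})`,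
`res`, `cor` restriction and corestriction on `H²(·, μ_p)`, `i : Kˣ/p → K₁ˣ/p`,
`N : K₁ˣ/p → Kˣ/p` the norm.  If the restriction of `x` to `K₁` is a symbol, then `x` is the
symbol `s c a` for some `a`. -/
theorem kummer_step (s : V →ₗ[k] V →ₗ[k] W) (s₁ : V₁ →ₗ[k] V₁ →ₗ[k] W₁)
    (hs : ∀ a, s a a = 0) (h1 : ∀ b, b ≠ 0 → IsRankOne (s b))
    (hs₁ : ∀ a, s₁ a a = 0) (h1₁ : ∀ b, b ≠ 0 → IsRankOne (s₁ b))
    (res : W →ₗ[k] W₁) (cor : W₁ →ₗ[k] W) (hcr : ∀ x, cor (res x) = 0)
    (i : V → V₁) (N : V₁ → V) (c : V) (hc : c ≠ 0)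
    (hker : ∀ x, res x = 0 → ∃ a, x = s c a)
    (hproj : ∀ b a₁, cor (s₁ (i b) a₁) = s b (N a₁))
    (hN : ∀ a, s c a = 0 → ∃ a₁, N a₁ = a)
    (b : V) (hb : ∀ t : k, b ≠ t • c)
    (x : W) (hx : ∃ b₁ a₁, res x = s₁ b₁ a₁) : ∃ a, x = s c a := by
  apply hker
  obtain ⟨a, hca, hba⟩ := exists_ker_not_ker s hs h1 hc hb
  obtain ⟨a₁, rfl⟩ := hN a hca
  -- `y = s₁ (i b) a₁` has nonzero corestriction
  have hy : cor (s₁ (i b) a₁) ≠ 0 := by rw [hproj]; exact hba
  have hy0 : s₁ (i b) a₁ ≠ 0 := by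
    intro h0
    exact hy (by rw [h0, map_zero])
  obtain ⟨b₁, a₁', hres⟩ := hx
  obtain ⟨t, ht⟩ := symbol_exists_smul s₁ hs₁ h1₁ hy0 b₁ a₁'
  have h0 : t • cor (s₁ (i b) a₁) = 0 := by
    rw [← map_smul, ← ht, ← hres, hcr]
  rcases smul_eq_zero.1 h0 with h | h
  · rw [hres, ht, h, zero_smul]
  · exact absurd h hy

end step

section count

variable {k W W' : Type*} [Field k] [AddCommGroup W] [Module k W] [AddCommGroup W']
  [Module k W']

/-- **Step 6 (wrap-up).**  If any two vectors of `W` are mapped injectively into a common line of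
some space, then `finrank W ≤ 1`. -/
theorem finrank_le_one_of_pairs
    (h : ∀ x₁ x₂ : W, x₁ ≠ 0 → ∃ t : k, x₂ = t • x₁) : finrank k W ≤ 1 := by
  by_cases hW : ∀ x : W, x = 0
  · have : Subsingleton W := ⟨fun a b => by rw [hW a, hW b]⟩
    rw [finrank_zero_of_subsingleton]
    exact Nat.zero_le 1
  · push Not at hW
    obtain ⟨x₁, hx₁⟩ := hW
    exact finrank_le_one x₁ fun w => by
      obtain ⟨t, ht⟩ := h x₁ w hx₁
      exact ⟨t, ht.symm⟩

/-- Two vectors whose images under an injective linear map lie on a line are dependent. -/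
theorem exists_smul_of_injective_of_mem_span (r : W →ₗ[k] W') (hr : Function.Injective r)
    (w : W') {x₁ x₂ : W} (hx₁ : x₁ ≠ 0)
    (h₁ : ∃ t : k, r x₁ = t • w) (h₂ : ∃ t : k, r x₂ = t • w) : ∃ t : k, x₂ = t • x₁ := by
  obtain ⟨t₁, ht₁⟩ := h₁
  obtain ⟨t₂, ht₂⟩ := h₂
  have ht₁0 : t₁ ≠ 0 := by
    rintro rfl
    rw [zero_smul] at ht₁
    exact hx₁ (hr (by rw [ht₁, map_zero]))
  refine ⟨t₂ * t₁⁻¹, hr ?_⟩
  rw [map_smul, ht₁, ht₂, smul_smul, mul_assoc, inv_mul_cancel₀ ht₁0, mul_one]

end count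

section zmod

variable {p : ℕ} [Fact p.Prime] {V W : Type*} [AddCommGroup V] [Module (ZMod p) V]
  [AddCommGroup W] [Module (ZMod p) W]

/-- Over `𝔽_p`, a linear map whose kernel has index `p` has rank one (the shape delivered by the
norm criterion together with the norm index `p`). -/
theorem isRankOne_of_index_ker (f : V →ₗ[ZMod p] W)
    (h : (LinearMap.ker f).toAddSubgroup.index = p) : IsRankOne f := by
  have hp : p.Prime := Fact.out
  -- `f ≠ 0`
  have hne : ∃ a₀, f a₀ ≠ 0 := by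
    by_contra hcon
    push Not at hcon
    have htop : (LinearMap.ker f).toAddSubgroup = ⊤ := by
      ext a
      simp [hcon a]
    rw [htop, AddSubgroup.index_top] at h
    exact hp.one_lt.ne h
  obtain ⟨a₀, ha₀⟩ := hne
  refine isRankOne_of_forall a₀ ha₀ fun a => ?_
  -- the cosets of `j • a₀`, `j : ZMod p`, are pairwise distinct, hence exhaust the quotient
  let Q := V ⧸ (LinearMap.ker f).toAddSubgroup
  have hcard : Nat.card Q = p := h
  have : Finite Q := Nat.finite_of_card_ne_zero (by rw [hcard]; exact hp.ne_zero)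
  let g : ZMod p → Q := fun j => QuotientAddGroup.mk (j • a₀)
  have hg : Function.Injective g := by
    intro j j' hjj
    have hmem : -(j • a₀) + j' • a₀ ∈ (LinearMap.ker f).toAddSubgroup :=
      QuotientAddGroup.eq.1 hjj
    have h0 : f (-(j • a₀) + j' • a₀) = 0 := hmem
    rw [map_add, map_neg, map_smul, map_smul, neg_add_eq_sub, ← sub_smul] at h0
    rcases smul_eq_zero.1 h0 with h' | h'
    · exact (sub_eq_zero.1 h').symm
    · exact absurd h' ha₀
  have hsurj : Function.Surjective g := by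
    have : Fintype Q := Fintype.ofFinite Q
    have hbij : Function.Bijective g := by
      rw [Fintype.bijective_iff_injective_and_card]
      refine ⟨hg, ?_⟩
      rw [ZMod.card, ← Nat.card_eq_fintype_card, hcard]
    exact hbij.2
  obtain ⟨j, hj⟩ := hsurj (QuotientAddGroup.mk a)
  have hmem : -(j • a₀) + a ∈ (LinearMap.ker f).toAddSubgroup := QuotientAddGroup.eq.1 hj
  have h0 : f (-(j • a₀) + a) = 0 := hmem
  rw [map_add, map_neg, map_smul, neg_add_eq_sub, sub_eq_zero] at h0
  exact ⟨j, h0⟩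

end zmod

end Fermat.Agent.S55.helper9962
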